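import Mathlib
import Fermat.Agent.S24lib.Defs
import Fermat.Prelude.Def_ModularCurve_X0ModL

/-!
# Item 85 (build time of the S36 closure), helper1: instance shortcuts

In the files of `S36lib` about 80–90 % of the elaboration time is spent in typeclass inference of
a handful of `Algebra` instances (`Algebra Kbar (FF N)`: 0.5–1 s per occurrence,
`Algebra k ↥F_{M',k}`: 3–5 s per occurrence, …), because the generic instance that finally
applies (`SubalgebraClass.toAlgebra`) is tried last.  The instances below have high priority and
unfold (they are reducible) to EXACTLY the instance found by the generic search, so statements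
elaborated with and without them are interchangeable.

Usage: `import Fermat.Agent.S36lib.Speed` (nothing else).
-/

set_option autoImplicit false

noncomputable section

namespace Fermat.Agent.S36lib

open Fermat.Agent.S24lib

/-- shortcut: `F_N` is an algebra over `ℚ̄` -/
instance (priority := 100000) spd_algebraFF (N : ℕ) : Algebra Kbar (FF N) :=
  SubalgebraClass.toAlgebra (ModularCurve.modularFunctionFieldBar N)

/-- shortcut: an intermediate field of `k((q)) / k` is an algebra over `k`, `k` the residue field
of a valuation ring of `ℚ̄` -/
instance (priority := 100000) spd_algebraResIF (A : ValuationSubring Kbar)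
    (F : IntermediateField (IsLocalRing.ResidueField ↥A)
      (LaurentSeries (IsLocalRing.ResidueField ↥A))) :
    Algebra (IsLocalRing.ResidueField ↥A) ↥F :=
  SubalgebraClass.toAlgebra F

/-- shortcut: `k((q))` is an algebra over `k` -/
instance (priority := 100000) spd_algebraResLaurent (A : ValuationSubring Kbar) :
    Algebra (IsLocalRing.ResidueField ↥A) (LaurentSeries (IsLocalRing.ResidueField ↥A)) :=
  inferInstance

end Fermat.Agent.S36lib

end
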