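/-
Item 83 (S36), piece AL-GEN part 2 (helper23): the GENERAL Atkin–Lehner involution `w_Q` of the
function field `FF N` of `X₀(N)` over `ℚ̄`, for an EXACT divisor `Q` of `N`
(`Q ∣ N`, `gcd(Q, N / Q) = 1`; `Q` need not be prime):

* `alQ N Q hQ hcop : FF N ≃ₐ[ℚ̄] FF N`,
* `alQ_jdF` : `w_Q (j_d) = j_{σ(d)}`, `σ(d) = alqSwap Q d = (d / gcd(d,Q)) · (Q / gcd(d,Q))`,
* `alQ_involutive`, `alQ_symm`, `alQ_comm` (commutes with automorphisms fixing the `j_d`),
* special cases: `alQ_jF` (`w_Q j = j_Q`), `alQ_jdF_mul` (`w_Q j_{a b} = j_{b (Q/a)}`).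

Covers `w_q` for `q ‖ N` (= `S34lib.atkinLehnerFF`), `w_{q²}` for `q² ‖ N` (level `M' q²` of S36)
and the Fricke involution (`Q = N`).
Construction as in `S34lib/VAtkinLehner.lean` (helper24), whose generic lemmas `val_*` are reused:
`FF N = Frac (ℚ̄[X_d : d ∣ N] / I)`, and `I` is stable under `X_d ↦ X_{σ(d)}` because
`j_d ∘ W = j_{σ(d)}` for the Atkin–Lehner map `W` on `ℍ` (`exists_alqH`).
-/
import Mathlib
import Fermat.Agent.S34lib.VAtkinLehner
import Fermat.Agent.S36lib.ALGenH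

set_option autoImplicit false
set_option linter.style.haveILetI false
set_option linter.unusedSectionVars false

open UpperHalfPlane CongruenceSubgroup ModularCurve
open scoped MatrixGroups

noncomputable section

namespace Fermat.Agent.S36lib

open Fermat.Agent.S24lib Fermat.Agent.S20lib Fermat.Agent.S34lib

variable (N : ℕ) [NeZero N] (Q : ℕ) (hQ : Q ∣ N) (hcop : Nat.Coprime Q (N / Q))

/-- the swap on the index set -/
def alq_σ (hQ : Q ∣ N) (hcop : Nat.Coprime Q (N / Q)) : DivIdx N → DivIdx N :=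
  fun d => ⟨alqSwap Q d.1, alqSwap_dvd (NeZero.ne N) hQ hcop d.2⟩

theorem alq_σ_σ (d : DivIdx N) : alq_σ N Q hQ hcop (alq_σ N Q hQ hcop d) = d :=
  Subtype.ext (alqSwap_alqSwap (NeZero.ne N) hQ hcop d.2)

/-- the ideal of relations is stable under the swap -/
theorem alq_φ_rename_eq_zero (P : MvPolynomial (DivIdx N) Kbar) (h : val_φ N P = 0) :
    val_φ N (MvPolynomial.rename (alq_σ N Q hQ hcop) P) = 0 := by
  obtain ⟨W, hW⟩ := exists_alqH N Q hQ hcop
  rw [val_φ_eq_zero_iff, val_ψ_eq_zero_iff] at h ⊢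
  intro z
  rw [MvPolynomial.eval₂_rename]
  have e : (fun d : DivIdx N => jdH d.1 z) ∘ alq_σ N Q hQ hcop =
      fun d : DivIdx N => jdH d.1 (W z) := by
    funext d
    exact (hW d.1 d.2 z).symm
  rw [e]
  exact h (W z)

/-- the swap on `ℚ̄[j_d]` -/
def alq_swapR (hQ : Q ∣ N) (hcop : Nat.Coprime Q (N / Q)) : val_R N →+* val_R N :=
  Ideal.Quotient.lift (RingHom.ker (val_φ N).toRingHom)
    ((val_mk N).comp (MvPolynomial.rename (alq_σ N Q hQ hcop)).toRingHom)
    (fun a ha => by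
      rw [RingHom.comp_apply]
      exact (val_mk_eq_zero_iff N _).mpr
        (alq_φ_rename_eq_zero N Q hQ hcop a (RingHom.mem_ker.mp ha)))

theorem alq_swapR_mk (P : MvPolynomial (DivIdx N) Kbar) :
    alq_swapR N Q hQ hcop (val_mk N P) =
      val_mk N (MvPolynomial.rename (alq_σ N Q hQ hcop) P) := rfl

theorem alq_swapR_swapR (x : val_R N) :
    alq_swapR N Q hQ hcop (alq_swapR N Q hQ hcop x) = x := by
  obtain ⟨P, rfl⟩ := val_mk_surjective N x
  rw [alq_swapR_mk, alq_swapR_mk, MvPolynomial.rename_rename]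
  have : alq_σ N Q hQ hcop ∘ alq_σ N Q hQ hcop = id := funext fun d => alq_σ_σ N Q hQ hcop d
  rw [this, MvPolynomial.rename_id]
  rfl

theorem alq_swapR_injective : Function.Injective (alq_swapR N Q hQ hcop) :=
  Function.LeftInverse.injective (alq_swapR_swapR N Q hQ hcop)

/-- the Atkin–Lehner involution as a ring hom -/
def alq_w (hQ : Q ∣ N) (hcop : Nat.Coprime Q (N / Q)) : FF N →+* FF N :=
  IsFractionRing.lift (A := val_R N) (K := FF N) (g := (val_incl N).comp (alq_swapR N Q hQ hcop))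
    ((val_incl_injective N).comp (alq_swapR_injective N Q hQ hcop))

theorem alq_w_incl (x : val_R N) :
    alq_w N Q hQ hcop (val_incl N x) = val_incl N (alq_swapR N Q hQ hcop x) :=
  IsFractionRing.lift_algebraMap _ x

theorem alq_w_algebraMap (c : Kbar) :
    alq_w N Q hQ hcop (algebraMap Kbar (FF N) c) = algebraMap Kbar (FF N) c := by
  have h : algebraMap Kbar (FF N) c = val_incl N (val_mk N (MvPolynomial.C c)) := by
    rw [val_incl_mk, val_φ, MvPolynomial.aeval_C]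
  rw [h, alq_w_incl, alq_swapR_mk, MvPolynomial.rename_C]

theorem alq_w_gen (d : DivIdx N) :
    alq_w N Q hQ hcop (val_gen N d) = val_gen N (alq_σ N Q hQ hcop d) := by
  have h : ∀ d, val_gen N d = val_incl N (val_mk N (MvPolynomial.X d)) := fun d => by
    rw [val_incl_mk, val_φ, MvPolynomial.aeval_X]
  rw [h, alq_w_incl, alq_swapR_mk, MvPolynomial.rename_X, ← h]

theorem alq_w_w (x : FF N) : alq_w N Q hQ hcop (alq_w N Q hQ hcop x) = x := by
  have h : (alq_w N Q hQ hcop).comp (alq_w N Q hQ hcop) = RingHom.id (FF N) := by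
    apply FF_ringHom_ext
    · intro c
      rw [RingHom.comp_apply, alq_w_algebraMap, alq_w_algebraMap]
      rfl
    · intro d _ hd
      rw [RingHom.comp_apply, ← val_gen_eq N d hd, alq_w_gen, alq_w_gen, alq_σ_σ N Q hQ hcop]
      rfl
  exact RingHom.congr_fun h x

/-- **the Atkin–Lehner involution `w_Q` of the function field of `X₀(N)`**, for an exact divisor
`Q` of `N` -/
def alQ (hQ : Q ∣ N) (hcop : Nat.Coprime Q (N / Q)) : FF N ≃ₐ[Kbar] FF N :=
  AlgEquiv.ofRingEquiv (f := RingEquiv.ofRingHom (alq_w N Q hQ hcop) (alq_w N Q hQ hcop)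
    (RingHom.ext (alq_w_w N Q hQ hcop)) (RingHom.ext (alq_w_w N Q hQ hcop)))
    (alq_w_algebraMap N Q hQ hcop)

theorem alQ_apply (x : FF N) : alQ N Q hQ hcop x = alq_w N Q hQ hcop x := rfl

theorem alQ_involutive (x : FF N) : alQ N Q hQ hcop (alQ N Q hQ hcop x) = x :=
  alq_w_w N Q hQ hcop x

theorem alQ_symm : (alQ N Q hQ hcop).symm = alQ N Q hQ hcop := by
  refine AlgEquiv.ext fun x => ?_
  apply (alQ N Q hQ hcop).injective
  rw [AlgEquiv.apply_symm_apply, alQ_involutive]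

/-- `w_Q (j_d) = j_{σ(d)}` -/
theorem alQ_jdF (d : ℕ) [NeZero d] (hd : d ∣ N) :
    haveI : NeZero (alqSwap Q d) := ⟨alqSwap_ne_zero (NeZero.ne N) hQ hcop hd⟩
    alQ N Q hQ hcop (jdF N d hd) =
      jdF N (alqSwap Q d) (alqSwap_dvd (NeZero.ne N) hQ hcop hd) := by
  rw [alQ_apply, ← val_gen_eq N d hd, alq_w_gen]
  rfl

/-- `w_Q (j_d) = j_{d'}` whenever `d' = σ(d)` -/
theorem alQ_jdF_of_eq (d d' : ℕ) [NeZero d] [NeZero d'] (hd : d ∣ N) (hd' : d' ∣ N)
    (h : alqSwap Q d = d') :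
    alQ N Q hQ hcop (jdF N d hd) = jdF N d' hd' := by
  haveI : NeZero (alqSwap Q d) := ⟨alqSwap_ne_zero (NeZero.ne N) hQ hcop hd⟩
  rw [alQ_jdF]
  exact val_jdF_congr N _ _ h

/-- `w_Q (j_{a b}) = j_{b (Q / a)}` for `a ∣ Q`, `gcd(b, Q) = 1` -/
theorem alQ_jdF_mul (a b : ℕ) [NeZero a] [NeZero (a * b)] [NeZero (b * (Q / a))]
    (ha : a ∣ Q) (hb : Nat.Coprime b Q) (hd : a * b ∣ N) (hd' : b * (Q / a) ∣ N) :
    alQ N Q hQ hcop (jdF N (a * b) hd) = jdF N (b * (Q / a)) hd' :=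
  alQ_jdF_of_eq N Q hQ hcop _ _ hd hd' (alqSwap_mul ha hb (NeZero.ne a))

/-- `w_Q (j) = j_Q` -/
theorem alQ_jF [NeZero Q] : alQ N Q hQ hcop (jF N) = jdF N Q hQ := by
  have h1 : jF N = jdF N 1 (one_dvd N) := by
    apply Subtype.ext
    rw [coe_jF, coe_jdF, qExpand_one_apply]
  rw [h1]
  refine alQ_jdF_of_eq N Q hQ hcop 1 Q _ _ ?_
  unfold alqSwap
  rw [Nat.gcd_one_left, Nat.div_one, Nat.div_one, one_mul]

/-- `w_Q (j_Q) = j` -/
theorem alQ_jdF_self [NeZero Q] : alQ N Q hQ hcop (jdF N Q hQ) = jF N := by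
  rw [← alQ_jF N Q hQ hcop, alQ_involutive]

/-- a ring automorphism of `FF N` which maps constants to constants and fixes the `j_d` commutes
with `w_Q` -/
theorem alQ_comm (τ : FF N →+* FF N)
    (hτc : ∀ c : Kbar, ∃ c' : Kbar, τ (algebraMap Kbar (FF N) c) = algebraMap Kbar (FF N) c')
    (hτj : ∀ (d : ℕ) [NeZero d] (hd : d ∣ N), τ (jdF N d hd) = jdF N d hd) (x : FF N) :
    alQ N Q hQ hcop (τ x) = τ (alQ N Q hQ hcop x) := by
  have h : (alq_w N Q hQ hcop).comp τ = τ.comp (alq_w N Q hQ hcop) := by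
    apply FF_ringHom_ext
    · intro c
      obtain ⟨c', hc'⟩ := hτc c
      rw [RingHom.comp_apply, RingHom.comp_apply, hc', alq_w_algebraMap, alq_w_algebraMap, hc']
    · intro d _ hd
      haveI : NeZero (alqSwap Q d) := ⟨alqSwap_ne_zero (NeZero.ne N) hQ hcop hd⟩
      rw [RingHom.comp_apply, RingHom.comp_apply, hτj d hd]
      have := alQ_jdF N Q hQ hcop d hd
      rw [alQ_apply] at this
      rw [this, hτj _ (alqSwap_dvd (NeZero.ne N) hQ hcop hd)]
  exact RingHom.congr_fun h x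

/-! ### the exact divisors used at level `M' q²` and `M' q` -/

/-- `q²` is an exact divisor of `M' q q` when `q ∤ M'` -/
theorem alq_coprime_sq {M' q : ℕ} (hq : q.Prime) (hqM : ¬ q ∣ M') :
    Nat.Coprime (q * q) (M' * q * q / (q * q)) := by
  have h : M' * q * q / (q * q) = M' := by
    rw [mul_assoc]
    exact Nat.mul_div_cancel M' (Nat.mul_pos hq.pos hq.pos)
  rw [h]
  have h1 : Nat.Coprime q M' := (Nat.Prime.coprime_iff_not_dvd hq).mpr hqM
  exact Nat.Coprime.mul_left h1 h1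

theorem alq_dvd_sq (M' q : ℕ) : q * q ∣ M' * q * q := by
  rw [mul_assoc]
  exact dvd_mul_left _ _

/-- `q` is an exact divisor of `M' q` when `q ∤ M'` -/
theorem alq_coprime_one {M' q : ℕ} (hq : q.Prime) (hqM : ¬ q ∣ M') :
    Nat.Coprime q (M' * q / q) := by
  rw [Nat.mul_div_cancel M' hq.pos]
  exact (Nat.Prime.coprime_iff_not_dvd hq).mpr hqM

/-- `N` is an exact divisor of `N` (Fricke) -/
theorem alq_coprime_self (N : ℕ) [NeZero N] : Nat.Coprime N (N / N) := by
  rw [Nat.div_self (Nat.pos_of_ne_zero (NeZero.ne N))]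
  exact Nat.coprime_one_right N

end Fermat.Agent.S36lib

end
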