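/-
Item 83 (S36), piece K0-2, abstract part (helper28).  Mathlib only.

* `s36_linearIndependent_of_fixed` (Artin): `G` a set of semilinear endomorphisms of `F ⊇ K`,
  `K0 → K` with image containing the `G`-fixed elements of `K`; a family of `G`-fixed vectors of `F`
  which is linearly independent over `K0` is linearly independent over `K`.
* `s36_coeff_mem_of_fixed`: in the same situation, if `∑ a i • v i` is `G`-fixed and `v` is
  `K0`-independent and `G`-fixed, then all coefficients `a i` come from `K0`.
* `s36_span_eq_top_of_algebraic`: `F0 ⊆ F` a subfield over which all constants `c ∈ K` are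
  algebraic, and `F` generated as a field by `K` and `F0`; then `F` is spanned over `K` by `F0`.
-/
import Mathlib
import Fermat.Agent.S36lib.Speed

set_option autoImplicit false

namespace Fermat.Agent.S36lib

section Artin

variable {K0 K F ι : Type*} [Field K0] [Field K] [Field F]
  [Algebra K0 K] [Algebra K F] [Module K0 F] [IsScalarTower K0 K F]

/-- auxiliary form of Artin's lemma: a `K`-relation between `G`-fixed vectors which are
independent over `K0` is trivial. -/
theorem s36_artin_aux (G : Set ((F →+* F) × (K →+* K)))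
    (hG : ∀ g ∈ G, ∀ c : K, g.1 (algebraMap K F c) = algebraMap K F (g.2 c))
    (hK0 : ∀ c : K, (∀ g ∈ G, g.2 c = c) → c ∈ Set.range (algebraMap K0 K))
    (v : ι → F) (hv : ∀ g ∈ G, ∀ i, g.1 (v i) = v i)
    (hli : LinearIndependent K0 v) :
    ∀ (s : Finset ι) (a : ι → K), ∑ i ∈ s, a i • v i = 0 → ∀ i ∈ s, a i = 0 := by
  classical
  intro s
  induction s using Finset.strongInduction with
  | H s ih =>
    intro a hsum
    by_contra hcon
    obtain ⟨i0, hi0, hai0⟩ : ∃ i0 ∈ s, a i0 ≠ 0 := by
      by_contra h
      exact hcon fun i hi => by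
        by_contra hne
        exact h ⟨i, hi, hne⟩
    -- normalise: `b i0 = 1`
    set b : ι → K := fun i => a i / a i0 with hb
    have hb0 : b i0 = 1 := div_self hai0
    have hbsum : ∑ i ∈ s, b i • v i = 0 := by
      have : ∑ i ∈ s, b i • v i = (a i0)⁻¹ • ∑ i ∈ s, a i • v i := by
        rw [Finset.smul_sum]
        refine Finset.sum_congr rfl fun i _ => ?_
        rw [smul_smul]
        congr 1
        show a i / a i0 = (a i0)⁻¹ * a i
        rw [div_eq_inv_mul]
      rw [this, hsum, smul_zero]
    -- all `b i` are fixed by `G`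
    have hfix : ∀ g ∈ G, ∀ i ∈ s, g.2 (b i) = b i := by
      intro g hg
      have h1 : ∑ i ∈ s, g.2 (b i) • v i = 0 := by
        have := congrArg g.1 hbsum
        rw [map_sum, map_zero] at this
        rw [← this]
        refine Finset.sum_congr rfl fun i _ => ?_
        rw [Algebra.smul_def, Algebra.smul_def, map_mul, hG g hg, hv g hg]
      have h2 : ∑ i ∈ s.erase i0, (g.2 (b i) - b i) • v i = 0 := by
        have h3 : ∑ i ∈ s, (g.2 (b i) - b i) • v i = 0 := by
          simp only [sub_smul, Finset.sum_sub_distrib, h1, hbsum, sub_zero]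
        rw [← Finset.add_sum_erase s _ hi0] at h3
        rwa [hb0, map_one, sub_self, zero_smul, zero_add] at h3
      have h4 := ih (s.erase i0) (Finset.erase_ssubset hi0) (fun i => g.2 (b i) - b i) h2
      intro i hi
      rcases eq_or_ne i i0 with rfl | hne
      · rw [hb0, map_one]
      · exact sub_eq_zero.mp (h4 i (Finset.mem_erase.mpr ⟨hne, hi⟩))
    -- so they come from `K0`
    have hex : ∀ i, ∃ c : K0, i ∈ s → algebraMap K0 K c = b i := by
      intro i
      by_cases hi : i ∈ s
      · obtain ⟨c, hc⟩ := hK0 (b i) (fun g hg => hfix g hg i hi)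
        exact ⟨c, fun _ => hc⟩
      · exact ⟨0, fun h => absurd h hi⟩
    choose c hc using hex
    have hcsum : ∑ i ∈ s, c i • v i = 0 := by
      rw [← hbsum]
      refine Finset.sum_congr rfl fun i hi => ?_
      rw [← hc i hi, algebraMap_smul]
    have h5 := linearIndependent_iff'.mp hli s c hcsum i0 hi0
    have h6 := hc i0 hi0
    rw [h5, map_zero, hb0] at h6
    exact zero_ne_one h6

/-- **Artin's lemma** (linear disjointness of the fixed field and the constants): `G`-fixed
vectors which are linearly independent over `K0 ⊇ K^G` are linearly independent over `K`. -/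
theorem s36_linearIndependent_of_fixed (G : Set ((F →+* F) × (K →+* K)))
    (hG : ∀ g ∈ G, ∀ c : K, g.1 (algebraMap K F c) = algebraMap K F (g.2 c))
    (hK0 : ∀ c : K, (∀ g ∈ G, g.2 c = c) → c ∈ Set.range (algebraMap K0 K))
    (v : ι → F) (hv : ∀ g ∈ G, ∀ i, g.1 (v i) = v i)
    (hli : LinearIndependent K0 v) : LinearIndependent K v :=
  linearIndependent_iff'.mpr (s36_artin_aux G hG hK0 v hv hli)

/-- If `x = ∑ a i • v i` is `G`-fixed, the `v i` are `G`-fixed and `K0`-independent, then the
coefficients `a i` come from `K0`. -/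
theorem s36_coeff_mem_of_fixed (G : Set ((F →+* F) × (K →+* K)))
    (hG : ∀ g ∈ G, ∀ c : K, g.1 (algebraMap K F c) = algebraMap K F (g.2 c))
    (hK0 : ∀ c : K, (∀ g ∈ G, g.2 c = c) → c ∈ Set.range (algebraMap K0 K))
    (v : ι → F) (hv : ∀ g ∈ G, ∀ i, g.1 (v i) = v i)
    (hli : LinearIndependent K0 v) (s : Finset ι) (a : ι → K)
    (hx : ∀ g ∈ G, g.1 (∑ i ∈ s, a i • v i) = ∑ i ∈ s, a i • v i) :
    ∀ i ∈ s, a i ∈ Set.range (algebraMap K0 K) := by
  intro i hi
  apply hK0
  intro g hg
  have h1 : ∑ i ∈ s, (g.2 (a i) - a i) • v i = 0 := by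
    have := hx g hg
    rw [map_sum] at this
    simp only [sub_smul, Finset.sum_sub_distrib]
    rw [sub_eq_zero, ← this]
    refine Finset.sum_congr rfl fun i _ => ?_
    rw [Algebra.smul_def, Algebra.smul_def, map_mul, hG g hg, hv g hg]
  exact sub_eq_zero.mp (s36_artin_aux G hG hK0 v hv hli s _ h1 i hi)

end Artin

section Span

variable {K F : Type*} [Field K] [Field F] [Algebra K F]

/-- `F0 ⊆ F` a subfield over which all constants are algebraic, `F` generated as a field by the
constants and `F0`: then `F = F0[K]` as a ring. -/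
theorem s36_adjoin_eq_top_of_algebraic (F0 : Subfield F)
    (halg : ∀ c : K, IsAlgebraic F0 (algebraMap K F c))
    (hgen : ∀ T : Subfield F, Set.range (algebraMap K F) ⊆ T → (F0 : Set F) ⊆ T → T = ⊤) :
    Algebra.adjoin F0 (Set.range (algebraMap K F)) = ⊤ := by
  classical
  set T : Subalgebra F0 F := Algebra.adjoin F0 (Set.range (algebraMap K F)) with hT
  have hTint : ∀ x ∈ T, IsIntegral F0 x := by
    intro x hx
    have hle : T ≤ integralClosure F0 F := by
      apply Algebra.adjoin_le
      rintro _ ⟨c, rfl⟩
      exact (halg c).isIntegral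
    exact hle hx
  -- it is a subfield
  let T' : Subfield F :=
    { T.toSubring with
      inv_mem' := fun x hx => by
        have := T.inv_mem_of_algebraic (x := ⟨x, hx⟩) (hTint x hx).isAlgebraic
        exact this }
  have hT' : T' = ⊤ := by
    apply hgen
    · rintro _ ⟨c, rfl⟩
      exact Algebra.subset_adjoin ⟨c, rfl⟩
    · intro y hy
      exact T.algebraMap_mem ⟨y, hy⟩
  rw [eq_top_iff]
  intro x _
  have : x ∈ T' := by rw [hT']; exact Subfield.mem_top x
  exact this

/-- `F0 ⊆ F` a subfield over which all constants are algebraic, `F` generated as a field by the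
constants and `F0`: then `F` is spanned over `K` by `F0`. -/
theorem s36_span_eq_top_of_algebraic (F0 : Subfield F)
    (halg : ∀ c : K, IsAlgebraic F0 (algebraMap K F c))
    (hgen : ∀ T : Subfield F, Set.range (algebraMap K F) ⊆ T → (F0 : Set F) ⊆ T → T = ⊤) :
    Submodule.span K (F0 : Set F) = ⊤ := by
  classical
  set T : Subalgebra F0 F := Algebra.adjoin F0 (Set.range (algebraMap K F)) with hT
  have hTtop : T = ⊤ := s36_adjoin_eq_top_of_algebraic F0 halg hgen
  -- the `K`-algebra generated by `F0`
  set S : Subalgebra K F := Algebra.adjoin K (F0 : Set F) with hS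
  have hSspan : Subalgebra.toSubmodule S = Submodule.span K (F0 : Set F) := by
    rw [hS, Algebra.adjoin_eq_span]
    congr 1
    exact congrArg (fun M : Submonoid F => (M : Set F)) (Submonoid.closure_eq F0.toSubmonoid)
  have hTspan : Subalgebra.toSubmodule T
      = Submodule.span F0 (Set.range (algebraMap K F)) := by
    rw [hT, Algebra.adjoin_eq_span]
    congr 1
    have : (Set.range (algebraMap K F) : Set F)
        = ((MonoidHom.mrange ((algebraMap K F : K →+* F) : K →* F) : Submonoid F) : Set F) := by
      ext x
      simp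
    rw [this]
    exact congrArg (fun M : Submonoid F => (M : Set F)) (Submonoid.closure_eq _)
  rw [eq_top_iff]
  intro x _
  rw [← hSspan]
  have hxT : x ∈ Subalgebra.toSubmodule T := by
    rw [hTtop]
    trivial
  rw [hTspan] at hxT
  rw [Subalgebra.mem_toSubmodule]
  refine Submodule.span_induction ?_ ?_ ?_ ?_ hxT
  · rintro _ ⟨c, rfl⟩
    exact S.algebraMap_mem c
  · exact zero_mem _
  · intro y z _ _ hy hz
    exact add_mem hy hz
  · intro y z _ hz
    have hy : ((y : F0) : F) ∈ S := Algebra.subset_adjoin y.2
    have : y • z = (y : F) * z := rfl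
    rw [this]
    exact mul_mem hy hz

end Span

end Fermat.Agent.S36lib
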