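/-
Item 83 (S36), piece K0-2 (helper28): the function field `F0` over a field of invariants
`K0 = ℚ̄^H`, `H ⊆ Gal(ℚ̄/ℚ)` (for us `H = I = A.inertiaSubgroupIn ℚ`, `K0 = k0Field A`).

Generic in the rational function field `F₀ ⊆ ℚ((q))` (for us `F₀ = modularFunctionFieldFull L`)
and in the intermediate field `K0` of `ℚ̄/ℚ`; the theorems about `H` take the hypothesis
`hK0 : ∀ c, c ∈ K0 ↔ ∀ σ ∈ H, σ c = c`  (for `k0Field A` this is `mem_k0Field_iff A`).

* `laurentBaseChange K0 F₀ ⊆ K0((q))` : the function field over `K0` (Prelude; all generic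
  constructions apply to it: `heckeAlphaBar K0`, `heckeBetaBar K0`, …);
* `toLBC K0 F₀ : laurentBaseChange K0 F₀ →ₐ[K0] laurentBaseChange ℚ̄ F₀` : base change of the
  constants (coefficientwise), injective;
* `range_toLBC` : its image is EXACTLY the set of `H`-fixed elements
  (`⊆` trivial, `⊇` = descent of the constant field `AJlib.mem_laurentBaseChange_of_coeffMap`);
* `fixedLBC H F₀ : Subfield _` : the `H`-fixed elements as a subfield; `fixedLBCEquiv`;
* `toLBC_linearIndependent` (Artin): `K0`-independent families stay independent over `ℚ̄`;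
* `span_range_toLBC` : `ℚ̄ ⊗_{K0} F0 → F` is onto;   `exists_repr_toLBC` : explicit form;
* `coeff_mem_of_fixed` : coefficients of a fixed element w.r.t. an independent fixed family;
* `descLBC` : a ring homomorphism `F → F'` commuting with the action of `H` restricts to `F0 → F0'`.
-/
import Mathlib
import Fermat.Agent.S36lib.FixedArtin
import Fermat.Agent.AJlib.Rational
import Fermat.Agent.AJlib.BcF

set_option autoImplicit false
set_option synthInstance.maxHeartbeats 400000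

noncomputable section

namespace Fermat.Agent.S36lib

open ModularCurve AlgebraicCurve HahnSeries IntermediateField
open Fermat.Agent.S24lib Fermat.Agent.AJlib

section Generic

variable (K0 : IntermediateField ℚ Kbar) (F₀ : IntermediateField ℚ (LaurentSeries ℚ))

/-- base change of the constants `K0 → ℚ̄`, as a ring homomorphism -/
def toLBCRingHom : ↥(laurentBaseChange ↥K0 F₀) →+* ↥(laurentBaseChange Kbar F₀) where
  toFun y := ⟨coeffMap (algebraMap ↥K0 Kbar) (y : LaurentSeries ↥K0),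
    coeffMap_mem_laurentBaseChange_of_ringHom _ F₀ y.2⟩
  map_one' := Subtype.ext (map_one _)
  map_mul' _ _ := Subtype.ext (map_mul _ _ _)
  map_zero' := Subtype.ext (map_zero _)
  map_add' _ _ := Subtype.ext (map_add _ _ _)

theorem coe_toLBCRingHom (y : ↥(laurentBaseChange ↥K0 F₀)) :
    ((toLBCRingHom K0 F₀ y : ↥(laurentBaseChange Kbar F₀)) : LaurentSeries Kbar)
      = coeffMap (algebraMap ↥K0 Kbar) (y : LaurentSeries ↥K0) := rfl

theorem toLBCRingHom_algebraMap (c : ↥K0) :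
    toLBCRingHom K0 F₀ (algebraMap ↥K0 ↥(laurentBaseChange ↥K0 F₀) c)
      = algebraMap Kbar ↥(laurentBaseChange Kbar F₀) (c : Kbar) := by
  apply Subtype.ext
  show coeffMap (algebraMap ↥K0 Kbar) (algebraMap ↥K0 (LaurentSeries ↥K0) c)
    = algebraMap Kbar (LaurentSeries Kbar) (c : Kbar)
  rw [algebraMap_laurentSeries_eq_single, coeffMap_single, ← algebraMap_laurentSeries_eq_single]
  rfl

/-- base change of the constants `K0 → ℚ̄`, as a `K0`-algebra homomorphism -/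
def toLBC : ↥(laurentBaseChange ↥K0 F₀) →ₐ[↥K0] ↥(laurentBaseChange Kbar F₀) :=
  { toLBCRingHom K0 F₀ with
    commutes' := fun c => toLBCRingHom_algebraMap K0 F₀ c }

theorem coe_toLBC (y : ↥(laurentBaseChange ↥K0 F₀)) :
    ((toLBC K0 F₀ y : ↥(laurentBaseChange Kbar F₀)) : LaurentSeries Kbar)
      = coeffMap (algebraMap ↥K0 Kbar) (y : LaurentSeries ↥K0) := rfl

theorem toLBC_coeff (y : ↥(laurentBaseChange ↥K0 F₀)) (n : ℤ) :
    ((toLBC K0 F₀ y : ↥(laurentBaseChange Kbar F₀)) : LaurentSeries Kbar).coeff n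
      = ((y : LaurentSeries ↥K0).coeff n : Kbar) := rfl

theorem toLBC_algebraMap (c : ↥K0) :
    toLBC K0 F₀ (algebraMap ↥K0 ↥(laurentBaseChange ↥K0 F₀) c)
      = algebraMap Kbar ↥(laurentBaseChange Kbar F₀) (c : Kbar) :=
  toLBCRingHom_algebraMap K0 F₀ c

theorem toLBC_injective : Function.Injective (toLBC K0 F₀) :=
  (toLBCRingHom K0 F₀).injective

/-- `toLBC` as a `K0`-linear map (for the canonical `K0`-module structure of the target) -/
def toLBCLin : ↥(laurentBaseChange ↥K0 F₀) →ₗ[↥K0] ↥(laurentBaseChange Kbar F₀) where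
  toFun := toLBC K0 F₀
  map_add' := map_add _
  map_smul' c y := by
    have h1 : c • y = algebraMap ↥K0 ↥(laurentBaseChange ↥K0 F₀) c * y := Algebra.smul_def c y
    have h2 : (RingHom.id ↥K0) c • toLBC K0 F₀ y
        = algebraMap Kbar ↥(laurentBaseChange Kbar F₀) (c : Kbar) * toLBC K0 F₀ y :=
      Algebra.smul_def (c : Kbar) (toLBC K0 F₀ y)
    rw [h1, h2, map_mul, toLBC_algebraMap]

theorem toLBCLin_apply (y : ↥(laurentBaseChange ↥K0 F₀)) :
    toLBCLin K0 F₀ y = toLBC K0 F₀ y := rfl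

/-- the rational generators: `toLBC (coeffEmb K0 z) = coeffEmb ℚ̄ z` -/
theorem toLBC_coeffEmb {z : LaurentSeries ℚ} (hz : z ∈ F₀) :
    toLBC K0 F₀ ⟨coeffEmb ↥K0 z, coeffEmb_mem_laurentBaseChange _ hz⟩
      = ⟨coeffEmb Kbar z, coeffEmb_mem_laurentBaseChange Kbar hz⟩ := by
  apply Subtype.ext
  show coeffMap (algebraMap ↥K0 Kbar) (coeffEmb ↥K0 z) = coeffEmb Kbar z
  rw [coeffEmb, coeffMap_coeffMap]
  exact coeffMap_congr (Subsingleton.elim _ _) z

/-- a Laurent series over `ℚ̄` with coefficients in `K0` comes from a Laurent series over `K0` -/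
theorem exists_coeffMap_eq_of_coeff_mem (x : LaurentSeries Kbar)
    (hx : ∀ n : ℤ, x.coeff n ∈ K0) :
    ∃ y : LaurentSeries ↥K0, coeffMap (algebraMap ↥K0 Kbar) y = x := by
  have hsupp : (Function.support fun n : ℤ => (⟨x.coeff n, hx n⟩ : ↥K0))
      = Function.support x.coeff := by
    ext n
    simp only [Function.mem_support, ne_eq]
    constructor
    · intro h h0
      exact h (Subtype.ext h0)
    · intro h h0
      exact h (congrArg Subtype.val h0)
  refine ⟨⟨fun n => ⟨x.coeff n, hx n⟩, ?_⟩, ?_⟩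
  · rw [hsupp]
    exact x.isPWO_support'
  · ext n
    rfl

/-- **descent of the constant field**: an element of the function field over `ℚ̄` whose
`q`-expansion has coefficients in `K0` comes from the function field over `K0` -/
theorem exists_toLBC_eq_of_coeff_mem (x : ↥(laurentBaseChange Kbar F₀))
    (hx : ∀ n : ℤ, (x : LaurentSeries Kbar).coeff n ∈ K0) :
    ∃ y : ↥(laurentBaseChange ↥K0 F₀), toLBC K0 F₀ y = x := by
  obtain ⟨y, hy⟩ := exists_coeffMap_eq_of_coeff_mem K0 (x : LaurentSeries Kbar) hx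
  have hmem : y ∈ laurentBaseChange ↥K0 F₀ := by
    apply mem_laurentBaseChange_of_coeffMap F₀ ↥K0 Kbar (algebraMap ↥K0 Kbar) y
    rw [hy]
    exact x.2
  exact ⟨⟨y, hmem⟩, Subtype.ext hy⟩

theorem mem_range_toLBC_iff (x : ↥(laurentBaseChange Kbar F₀)) :
    x ∈ Set.range (toLBC K0 F₀) ↔ ∀ n : ℤ, (x : LaurentSeries Kbar).coeff n ∈ K0 := by
  constructor
  · rintro ⟨y, rfl⟩ n
    rw [toLBC_coeff]
    exact ((y : LaurentSeries ↥K0).coeff n).2
  · exact exists_toLBC_eq_of_coeff_mem K0 F₀ x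

end Generic

section Fixed

variable (H : Set (Kbar ≃ₐ[ℚ] Kbar)) (F₀ : IntermediateField ℚ (LaurentSeries ℚ))

/-- the `H`-fixed elements of the function field over `ℚ̄`, as a subfield -/
def fixedLBC : Subfield ↥(laurentBaseChange Kbar F₀) where
  carrier := {x | ∀ σ ∈ H, arithmeticGalois F₀ σ • x = x}
  mul_mem' := fun {x y} hx hy σ hσ => by rw [smul_mul', hx σ hσ, hy σ hσ]
  one_mem' := fun σ _ => smul_one _
  add_mem' := fun {x y} hx hy σ hσ => by rw [smul_add, hx σ hσ, hy σ hσ]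
  zero_mem' := fun σ _ => smul_zero _
  neg_mem' := fun {x} hx σ hσ => by rw [smul_neg, hx σ hσ]
  inv_mem' := fun x hx σ hσ => by rw [smul_inv'', hx σ hσ]

theorem mem_fixedLBC_iff {x : ↥(laurentBaseChange Kbar F₀)} :
    x ∈ fixedLBC H F₀ ↔ ∀ σ ∈ H, arithmeticGalois F₀ σ • x = x := Iff.rfl

variable {H} {K0 : IntermediateField ℚ Kbar} (hK0 : ∀ c : Kbar, c ∈ K0 ↔ ∀ σ ∈ H, σ c = c)

include hK0

theorem mem_fixedLBC_iff_coeff {x : ↥(laurentBaseChange Kbar F₀)} :
    x ∈ fixedLBC H F₀ ↔ ∀ n : ℤ, (x : LaurentSeries Kbar).coeff n ∈ K0 := by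
  constructor
  · intro hx n
    rw [hK0]
    intro σ hσ
    exact congrArg (fun z : ↥(laurentBaseChange Kbar F₀) => (z : LaurentSeries Kbar).coeff n)
      (hx σ hσ)
  · intro hx σ hσ
    apply Subtype.ext
    rw [coe_arithmeticGalois_smul]
    ext n
    rw [coeffMap_coeff]
    exact (hK0 _).mp (hx n) σ hσ

/-- the image of `toLBC` is exactly the set of `H`-fixed elements -/
theorem mem_fixedLBC_iff_range {x : ↥(laurentBaseChange Kbar F₀)} :
    x ∈ fixedLBC H F₀ ↔ x ∈ Set.range (toLBC K0 F₀) := by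
  rw [mem_fixedLBC_iff_coeff F₀ hK0, mem_range_toLBC_iff]

theorem range_toLBC :
    Set.range (toLBC K0 F₀) = {x | ∀ σ ∈ H, arithmeticGalois F₀ σ • x = x} := by
  ext x
  exact (mem_fixedLBC_iff_range F₀ hK0).symm

theorem toLBC_mem_fixedLBC (y : ↥(laurentBaseChange ↥K0 F₀)) : toLBC K0 F₀ y ∈ fixedLBC H F₀ :=
  (mem_fixedLBC_iff_range F₀ hK0).mpr ⟨y, rfl⟩

/-- the image of `toLBC` consists of `H`-fixed elements -/
theorem toLBC_fixed {σ : Kbar ≃ₐ[ℚ] Kbar} (hσ : σ ∈ H) (y : ↥(laurentBaseChange ↥K0 F₀)) :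
    arithmeticGalois F₀ σ • toLBC K0 F₀ y = toLBC K0 F₀ y :=
  toLBC_mem_fixedLBC F₀ hK0 y σ hσ

/-- **descent**: an `H`-fixed element of the function field over `ℚ̄` comes from the function
field over `K0`. -/
theorem exists_toLBC_eq_of_fixed (x : ↥(laurentBaseChange Kbar F₀))
    (hx : ∀ σ ∈ H, arithmeticGalois F₀ σ • x = x) :
    ∃ y : ↥(laurentBaseChange ↥K0 F₀), toLBC K0 F₀ y = x :=
  (mem_fixedLBC_iff_range F₀ hK0).mp hx

theorem algebraMap_mem_fixedLBC_iff (c : Kbar) :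
    algebraMap Kbar ↥(laurentBaseChange Kbar F₀) c ∈ fixedLBC H F₀ ↔ c ∈ K0 := by
  rw [mem_fixedLBC_iff, hK0]
  refine forall₂_congr fun σ _ => ?_
  have h : arithmeticGalois F₀ σ • algebraMap Kbar ↥(laurentBaseChange Kbar F₀) c
      = algebraMap Kbar ↥(laurentBaseChange Kbar F₀) (σ c) :=
    arithmeticRingAut_algebraMap F₀ σ c
  rw [h]
  exact (algebraMap Kbar ↥(laurentBaseChange Kbar F₀)).injective.eq_iff

/-- `F0 ≃ F^H` -/
def fixedLBCEquiv : ↥(laurentBaseChange ↥K0 F₀) ≃+* ↥(fixedLBC H F₀) :=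
  RingEquiv.ofBijective
    ((toLBCRingHom K0 F₀).codRestrict (fixedLBC H F₀) (toLBC_mem_fixedLBC F₀ hK0))
    ⟨fun _ _ h => toLBC_injective K0 F₀ (congrArg Subtype.val h),
      fun x => by
        obtain ⟨y, hy⟩ := exists_toLBC_eq_of_fixed F₀ hK0 x.1 x.2
        exact ⟨y, Subtype.ext hy⟩⟩

theorem coe_fixedLBCEquiv (y : ↥(laurentBaseChange ↥K0 F₀)) :
    ((fixedLBCEquiv F₀ hK0 y : ↥(fixedLBC H F₀)) : ↥(laurentBaseChange Kbar F₀))
      = toLBC K0 F₀ y :=
  rfl

omit hK0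

/-! ### linear disjointness and spanning -/

variable (H) in
/-- the semilinear pairs attached to `H` -/
def fixPairs : Set ((↥(laurentBaseChange Kbar F₀) →+* ↥(laurentBaseChange Kbar F₀))
    × (Kbar →+* Kbar)) :=
  {g | ∃ σ ∈ H, g = (((arithmeticRingAut F₀ σ : _ ≃+* _) : _ →+* _), (σ : Kbar →+* Kbar))}

theorem fixPairs_semilinear : ∀ g ∈ fixPairs H F₀, ∀ c : Kbar,
    g.1 (algebraMap Kbar ↥(laurentBaseChange Kbar F₀) c)
      = algebraMap Kbar ↥(laurentBaseChange Kbar F₀) (g.2 c) := by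
  rintro _ ⟨σ, _, rfl⟩ c
  exact arithmeticRingAut_algebraMap F₀ σ c

include hK0 in
theorem fixPairs_mem_range : ∀ c : Kbar, (∀ g ∈ fixPairs H F₀, g.2 c = c) →
    c ∈ Set.range (algebraMap ↥K0 Kbar) := by
  intro c hc
  have : c ∈ K0 := by
    rw [hK0]
    intro σ hσ
    exact hc _ ⟨σ, hσ, rfl⟩
  exact ⟨⟨c, this⟩, rfl⟩

theorem fixPairs_fixed {x : ↥(laurentBaseChange Kbar F₀)}
    (hx : ∀ σ ∈ H, arithmeticGalois F₀ σ • x = x) : ∀ g ∈ fixPairs H F₀, g.1 x = x := by
  rintro _ ⟨σ, hσ, rfl⟩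
  exact hx σ hσ


include hK0

/-- **Artin**: `H`-fixed elements which are linearly independent over `K0` are linearly independent
over `ℚ̄`. -/
theorem linearIndependent_of_fixed {ι : Type*} (v : ι → ↥(laurentBaseChange Kbar F₀))
    (hv : ∀ i, ∀ σ ∈ H, arithmeticGalois F₀ σ • v i = v i)
    (hli : LinearIndependent ↥K0 v) : LinearIndependent Kbar v :=
  s36_linearIndependent_of_fixed (fixPairs H F₀) (fixPairs_semilinear F₀)
    (fixPairs_mem_range F₀ hK0) v (fun g hg i => fixPairs_fixed F₀ (hv i) g hg) hli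

/-- **linear disjointness** of `F0` and `ℚ̄` over `K0` -/
theorem toLBC_linearIndependent {ι : Type*} (v : ι → ↥(laurentBaseChange ↥K0 F₀))
    (hli : LinearIndependent ↥K0 v) :
    LinearIndependent Kbar (fun i => toLBC K0 F₀ (v i)) := by
  apply linearIndependent_of_fixed F₀ hK0 _ (fun i σ hσ => toLBC_fixed F₀ hK0 hσ (v i))
  exact hli.map' (toLBCLin K0 F₀) (LinearMap.ker_eq_bot.mpr (toLBC_injective K0 F₀))

/-- coefficients of a fixed element with respect to an independent family of fixed elements lie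
in `K0` -/
theorem coeff_mem_of_fixed {ι : Type*} (v : ι → ↥(laurentBaseChange Kbar F₀))
    (hv : ∀ i, ∀ σ ∈ H, arithmeticGalois F₀ σ • v i = v i)
    (hli : LinearIndependent ↥K0 v) (s : Finset ι) (a : ι → Kbar)
    (hx : ∀ σ ∈ H, arithmeticGalois F₀ σ • (∑ i ∈ s, a i • v i) = ∑ i ∈ s, a i • v i) :
    ∀ i ∈ s, a i ∈ K0 := by
  intro i hi
  obtain ⟨c, hc⟩ := s36_coeff_mem_of_fixed (fixPairs H F₀) (fixPairs_semilinear F₀)
    (fixPairs_mem_range F₀ hK0) v (fun g hg i => fixPairs_fixed F₀ (hv i) g hg) hli s a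
    (fixPairs_fixed F₀ hx) i hi
  rw [← hc]
  exact c.2

omit hK0

/-- the constants are algebraic over the fixed field -/
theorem isAlgebraic_fixedLBC (c : Kbar) :
    IsAlgebraic ↥(fixedLBC H F₀) (algebraMap Kbar ↥(laurentBaseChange Kbar F₀) c) := by
  have hQ : Algebra.IsAlgebraic ℚ Kbar := AlgebraicClosure.isAlgebraic ℚ
  have hc : IsAlgebraic ℚ c := hQ.isAlgebraic c
  have h1 : IsAlgebraic ℚ (algebraMap Kbar ↥(laurentBaseChange Kbar F₀) c) :=
    hc.algebraMap
  exact h1.tower_top (fixedLBC H F₀)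

/-- the rational generators are fixed -/
theorem coeffEmb_mem_fixedLBC {w : LaurentSeries ℚ} (hw : w ∈ F₀) :
    (⟨coeffEmb Kbar w, coeffEmb_mem_laurentBaseChange Kbar hw⟩ : ↥(laurentBaseChange Kbar F₀))
      ∈ fixedLBC H F₀ := by
  intro σ _
  apply Subtype.ext
  rw [coe_arithmeticGalois_smul]
  exact coeffMap_coeffEmb σ w

/-- the function field over `ℚ̄` is generated as a FIELD by the constants and the fixed elements
(in the form needed by the abstract lemmas) -/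
theorem fixedLBC_gen (T : Subfield ↥(laurentBaseChange Kbar F₀))
    (hK : Set.range (algebraMap Kbar ↥(laurentBaseChange Kbar F₀)) ⊆ T)
    (hF : (fixedLBC H F₀ : Set ↥(laurentBaseChange Kbar F₀)) ⊆ T) : T = ⊤ := by
  rw [eq_top_iff]
  intro x _
  have hx := x.2
  rw [mem_laurentBaseChange_iff] at hx
  -- the image of `T` in the field of Laurent series
  set T' : Subfield (LaurentSeries Kbar) :=
    T.map ((laurentBaseChange Kbar F₀).val : ↥(laurentBaseChange Kbar F₀) →+* LaurentSeries Kbar)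
    with hT'
  have hle : Subfield.closure (Set.range (algebraMap Kbar (LaurentSeries Kbar)) ∪
      (⇑(coeffEmb Kbar) '' (F₀ : Set (LaurentSeries ℚ)))) ≤ T' := by
    rw [Subfield.closure_le]
    rintro y (⟨a, rfl⟩ | ⟨w, hw, rfl⟩)
    · exact ⟨algebraMap Kbar ↥(laurentBaseChange Kbar F₀) a, hK ⟨a, rfl⟩, rfl⟩
    · have hw' : w ∈ F₀ := hw
      exact ⟨⟨coeffEmb Kbar w, coeffEmb_mem_laurentBaseChange Kbar hw'⟩,
        hF (coeffEmb_mem_fixedLBC F₀ hw'), rfl⟩
  obtain ⟨x', hx', hxx'⟩ := hle hx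
  have : x' = x := Subtype.ext hxx'
  rw [← this]
  exact hx'

/-- the function field over `ℚ̄` is `F^H[ℚ̄]` as a ring (helper27's `hgen`) -/
theorem adjoin_fixedLBC_eq_top :
    Algebra.adjoin ↥(fixedLBC H F₀) (Set.range (algebraMap Kbar ↥(laurentBaseChange Kbar F₀)))
      = ⊤ :=
  s36_adjoin_eq_top_of_algebraic (fixedLBC H F₀) (isAlgebraic_fixedLBC F₀) (fixedLBC_gen F₀)

/-- the function field over `ℚ̄` is spanned over `ℚ̄` by the `H`-fixed elements -/
theorem span_fixedLBC :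
    Submodule.span Kbar (fixedLBC H F₀ : Set ↥(laurentBaseChange Kbar F₀)) = ⊤ :=
  s36_span_eq_top_of_algebraic (fixedLBC H F₀) (isAlgebraic_fixedLBC F₀) (fixedLBC_gen F₀)

include hK0

/-- `ℚ̄ ⊗_{K0} F0 → F` is onto -/
theorem span_range_toLBC :
    Submodule.span Kbar (Set.range (toLBC K0 F₀)) = ⊤ := by
  rw [range_toLBC F₀ hK0]
  exact span_fixedLBC F₀

/-- explicit form: every `x` is `∑ c i • toLBC (y i)` -/
theorem exists_repr_toLBC (x : ↥(laurentBaseChange Kbar F₀)) :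
    ∃ (n : ℕ) (c : Fin n → Kbar) (y : Fin n → ↥(laurentBaseChange ↥K0 F₀)),
      x = ∑ i, c i • toLBC K0 F₀ (y i) := by
  have hx : x ∈ Submodule.span Kbar (Set.range (toLBC K0 F₀)) := by
    rw [span_range_toLBC F₀ hK0]
    trivial
  obtain ⟨n, f, g, hfg⟩ := (Submodule.mem_span_set').mp hx
  choose y hy using fun i => (g i).2
  exact ⟨n, f, y, by rw [← hfg]; exact Finset.sum_congr rfl fun i _ => by rw [hy i]⟩

omit hK0

end Fixed

section Desc

variable {H : Set (Kbar ≃ₐ[ℚ] Kbar)} {K0 : IntermediateField ℚ Kbar}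
  (hK0 : ∀ c : Kbar, c ∈ K0 ↔ ∀ σ ∈ H, σ c = c)
  {F₀ F₁ : IntermediateField ℚ (LaurentSeries ℚ)}

include hK0

/-- a ring homomorphism commuting with the action of `H` maps fixed elements to fixed elements -/
theorem exists_toLBC_map (φ : ↥(laurentBaseChange Kbar F₀) →+* ↥(laurentBaseChange Kbar F₁))
    (hφ : ∀ σ ∈ H, ∀ x, φ (arithmeticGalois F₀ σ • x) = arithmeticGalois F₁ σ • φ x)
    (y : ↥(laurentBaseChange ↥K0 F₀)) :
    ∃ y' : ↥(laurentBaseChange ↥K0 F₁), toLBC K0 F₁ y' = φ (toLBC K0 F₀ y) := by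
  apply exists_toLBC_eq_of_fixed F₁ hK0
  intro σ hσ
  rw [← hφ σ hσ, toLBC_fixed F₀ hK0 hσ]

/-- the restriction to the function fields over `K0` of a ring homomorphism commuting with the
action of `H` -/
def descLBC (φ : ↥(laurentBaseChange Kbar F₀) →+* ↥(laurentBaseChange Kbar F₁))
    (hφ : ∀ σ ∈ H, ∀ x, φ (arithmeticGalois F₀ σ • x) = arithmeticGalois F₁ σ • φ x) :
    ↥(laurentBaseChange ↥K0 F₀) →+* ↥(laurentBaseChange ↥K0 F₁) :=
  ((fixedLBCEquiv F₁ hK0).symm : ↥(fixedLBC H F₁) →+* ↥(laurentBaseChange ↥K0 F₁)).comp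
    ((φ.comp (toLBCRingHom K0 F₀)).codRestrict (fixedLBC H F₁) (fun y σ hσ => by
      show arithmeticGalois F₁ σ • φ (toLBC K0 F₀ y) = φ (toLBC K0 F₀ y)
      rw [← hφ σ hσ, toLBC_fixed F₀ hK0 hσ]))

theorem toLBC_descLBC (φ : ↥(laurentBaseChange Kbar F₀) →+* ↥(laurentBaseChange Kbar F₁))
    (hφ : ∀ σ ∈ H, ∀ x, φ (arithmeticGalois F₀ σ • x) = arithmeticGalois F₁ σ • φ x)
    (y : ↥(laurentBaseChange ↥K0 F₀)) :
    toLBC K0 F₁ (descLBC hK0 φ hφ y) = φ (toLBC K0 F₀ y) := by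
  rw [← coe_fixedLBCEquiv F₁ hK0]
  show (((fixedLBCEquiv F₁ hK0) ((fixedLBCEquiv F₁ hK0).symm _) : ↥(fixedLBC H F₁)) :
    ↥(laurentBaseChange Kbar F₁)) = _
  rw [RingEquiv.apply_symm_apply]
  rfl

/-- if `φ` is `ℚ̄`-linear, its restriction is `K0`-linear -/
theorem descLBC_algebraMap (φ : ↥(laurentBaseChange Kbar F₀) →+* ↥(laurentBaseChange Kbar F₁))
    (hφ : ∀ σ ∈ H, ∀ x, φ (arithmeticGalois F₀ σ • x) = arithmeticGalois F₁ σ • φ x)
    (hc : ∀ c : Kbar, φ (algebraMap Kbar _ c) = algebraMap Kbar _ c) (c : ↥K0) :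
    descLBC hK0 φ hφ (algebraMap ↥K0 ↥(laurentBaseChange ↥K0 F₀) c)
      = algebraMap ↥K0 ↥(laurentBaseChange ↥K0 F₁) c := by
  apply toLBC_injective K0 F₁
  rw [toLBC_descLBC, toLBC_algebraMap, toLBC_algebraMap, hc]

end Desc

end Fermat.Agent.S36lib

end
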