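import Fermat.Agent.S36lib.K0Unram
import Fermat.Agent.S05_Inertia

set_option autoImplicit false

/-!
# S36 foundation (K0), part 2: `K0 = ℚ̄^I` and the discrete valuation ring `A0 = A ∩ K0`

Let `A` be a valuation subring of `ℚ̄` over the prime `q`, `I = A.inertiaSubgroupIn ℚ`.

* `k0Field A : IntermediateField ℚ ℚ̄` — the fixed field of `I`;  `k0Val A` — `A ∩ K0`.
* `k0Val_isDiscreteValuationRing` — `A0` is a DVR; `k0Val_irreducible_q`, `k0Val_maximalIdeal_eq`
  (`m_{A0} = (q)`), `k0Val_associated_pow` (every nonzero element is a unit times `q ^ n`).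
* `k0_residue_surj`, `k0Val_residue_surj`, `k0_residue_comp_surjective` — `A0/m = A/m_A`.
* `k0_inertia_isClosed`, `k0Field_fixingSubgroup` — `I` is closed and `Gal(ℚ̄/K0) = I`.
* `k0_mem_inertia_iff` — `σ ∈ I ↔ ∀ b ∈ ℤ̄, σ b − b ∈ Q`.
-/

namespace Fermat.Agent.S36lib

open NumberField Polynomial Fermat.Agent.FrobLib Fermat.Agent.S13lib Fermat.Agent.FrobLocVal
open scoped Pointwise

section defs

variable (A : ValuationSubring (AlgebraicClosure ℚ))

/-- `K0 = ℚ̄^I`: the fixed field of the inertia group of `A`. -/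
noncomputable def k0Field : IntermediateField ℚ (AlgebraicClosure ℚ) :=
  IntermediateField.fixedField (A.inertiaSubgroupIn ℚ)

theorem mem_k0Field_iff (x : AlgebraicClosure ℚ) :
    x ∈ k0Field A ↔ ∀ σ ∈ A.inertiaSubgroupIn ℚ, σ x = x :=
  IntermediateField.mem_fixedField_iff _ _

theorem k0Field_fixed (x : k0Field A) {σ : AlgebraicClosure ℚ ≃ₐ[ℚ] AlgebraicClosure ℚ}
    (hσ : σ ∈ A.inertiaSubgroupIn ℚ) : σ (x : AlgebraicClosure ℚ) = x :=
  (mem_k0Field_iff A _).mp x.2 σ hσ

/-- `A0 = A ∩ K0`, as a valuation subring of `K0`. -/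
noncomputable def k0Val : ValuationSubring (k0Field A) :=
  A.comap (algebraMap (k0Field A) (AlgebraicClosure ℚ))

theorem mem_k0Val_iff (x : k0Field A) : x ∈ k0Val A ↔ (x : AlgebraicClosure ℚ) ∈ A := Iff.rfl

theorem mem_nonunits_k0Val_iff (x : k0Field A) :
    x ∈ (k0Val A).nonunits ↔ (x : AlgebraicClosure ℚ) ∈ A.nonunits := by
  rw [ValuationSubring.mem_nonunits_iff_or, ValuationSubring.mem_nonunits_iff_or, mem_k0Val_iff]
  simp

theorem k0Val_isUnit_iff (y : k0Val A) :
    IsUnit y ↔ A.valuation ((y : k0Field A) : AlgebraicClosure ℚ) = 1 := by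
  have hyA : ((y : k0Field A) : AlgebraicClosure ℚ) ∈ A := y.2
  have h1 : ¬ IsUnit y ↔ (y : k0Field A) ∈ (k0Val A).nonunits := by
    rw [ValuationSubring.coe_mem_nonunits_iff, IsLocalRing.mem_maximalIdeal, mem_nonunits_iff]
  rw [← not_iff_not, h1, mem_nonunits_k0Val_iff, A.mem_nonunits_iff]
  have hle := (A.valuation_le_one_iff _).mpr hyA
  constructor
  · intro h; exact ne_of_lt h
  · intro h; exact lt_of_le_of_ne hle h

end defs

section dvr

variable (A : ValuationSubring (AlgebraicClosure ℚ)) (q : ℕ)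

theorem k0Val_coe_natCast : (((q : k0Val A) : k0Field A) : AlgebraicClosure ℚ) = q := by
  simp

/-- `q` is a nonunit of `A0`. -/
theorem k0Val_q_mem_nonunits (hA : A.LiesOverPrime q) :
    ((q : k0Val A) : k0Field A) ∈ (k0Val A).nonunits := by
  rw [mem_nonunits_k0Val_iff, k0Val_coe_natCast]
  exact hA

/-- Every nonzero element of `A0` is a unit times a power of `q`. -/
theorem k0Val_associated_pow (hq : q.Prime) (hA : A.LiesOverPrime q) (x : k0Val A) (hx : x ≠ 0) :
    ∃ n : ℕ, Associated ((q : k0Val A) ^ n) x := by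
  have hx0 : ((x : k0Field A) : AlgebraicClosure ℚ) ≠ 0 := by
    intro h
    apply hx
    apply Subtype.ext
    apply Subtype.ext
    exact h
  obtain ⟨N, hN⟩ := k0_exists_pow_lt A q hq hA _ hx0
  obtain ⟨n, hn⟩ := k0_val_eq_pow_of_mem A q hq hA N _
    (fun σ hσ => k0Field_fixed A (x : k0Field A) hσ) x.2 hN
  refine ⟨n, ?_⟩
  have hq0 : ((q : k0Field A)) ≠ 0 := by exact_mod_cast hq.ne_zero
  have hv0 := k0_val_q_ne_zero A q hq
  -- the unit u = x / q^n
  have huA : (x : k0Field A) * ((q : k0Field A) ^ n)⁻¹ ∈ k0Val A := by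
    rw [mem_k0Val_iff, ← A.valuation_le_one_iff]
    push_cast
    rw [map_mul, map_inv₀, map_pow, hn, mul_inv_cancel₀ (pow_ne_zero _ hv0)]
  let u : k0Val A := ⟨(x : k0Field A) * ((q : k0Field A) ^ n)⁻¹, huA⟩
  have hu : IsUnit u := by
    rw [k0Val_isUnit_iff]
    change A.valuation (((x : k0Field A) * ((q : k0Field A) ^ n)⁻¹ : k0Field A) :
      AlgebraicClosure ℚ) = 1
    push_cast
    rw [map_mul, map_inv₀, map_pow, hn, mul_inv_cancel₀ (pow_ne_zero _ hv0)]
  refine ⟨hu.unit, ?_⟩
  apply Subtype.ext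
  change ((q : k0Val A) ^ n : k0Val A).1 * ((x : k0Field A) * ((q : k0Field A) ^ n)⁻¹) = x
  push_cast
  field_simp

/-- `q` is irreducible in `A0`. -/
theorem k0Val_irreducible_q (hq : q.Prime) (hA : A.LiesOverPrime q) :
    Irreducible (q : k0Val A) := by
  have hv0 := k0_val_q_ne_zero A q hq
  have hv1 := k0_val_q_lt_one A q hA
  have hqne : (q : k0Val A) ≠ 0 := by exact_mod_cast hq.ne_zero
  refine ⟨?_, ?_⟩
  · rw [k0Val_isUnit_iff, k0Val_coe_natCast]
    exact ne_of_lt hv1
  · intro a b hab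
    have ha0 : a ≠ 0 := fun h => hqne (by rw [hab, h, zero_mul])
    have hb0 : b ≠ 0 := fun h => hqne (by rw [hab, h, mul_zero])
    obtain ⟨i, ui, hi⟩ := k0Val_associated_pow A q hq hA a ha0
    obtain ⟨j, uj, hj⟩ := k0Val_associated_pow A q hq hA b hb0
    have hva : A.valuation ((a : k0Field A) : AlgebraicClosure ℚ)
        = A.valuation (q : AlgebraicClosure ℚ) ^ i := by
      have hu := (k0Val_isUnit_iff A (ui : k0Val A)).mp ui.isUnit
      have := congrArg (fun t : k0Val A => A.valuation ((t : k0Field A) : AlgebraicClosure ℚ)) hi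
      beta_reduce at this
      push_cast at this
      rw [map_mul, map_pow, hu, mul_one] at this
      exact this.symm
    have hvb : A.valuation ((b : k0Field A) : AlgebraicClosure ℚ)
        = A.valuation (q : AlgebraicClosure ℚ) ^ j := by
      have hu := (k0Val_isUnit_iff A (uj : k0Val A)).mp uj.isUnit
      have := congrArg (fun t : k0Val A => A.valuation ((t : k0Field A) : AlgebraicClosure ℚ)) hj
      beta_reduce at this
      push_cast at this
      rw [map_mul, map_pow, hu, mul_one] at this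
      exact this.symm
    have hprod : A.valuation (q : AlgebraicClosure ℚ) ^ (i + j)
        = A.valuation (q : AlgebraicClosure ℚ) ^ 1 := by
      have := congrArg (fun t : k0Val A => A.valuation ((t : k0Field A) : AlgebraicClosure ℚ)) hab
      beta_reduce at this
      push_cast at this
      rw [map_mul, hva, hvb, ← pow_add] at this
      rw [pow_one]
      exact this.symm
    have hij : i + j = 1 := by
      rcases lt_trichotomy (i + j) 1 with h | h | h
      · exfalso
        have := pow_lt_pow_right_of_lt_one₀ (zero_lt_iff.mpr hv0) hv1 h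
        rw [hprod] at this
        exact lt_irrefl _ this
      · exact h
      · exfalso
        have := pow_lt_pow_right_of_lt_one₀ (zero_lt_iff.mpr hv0) hv1 h
        rw [hprod] at this
        exact lt_irrefl _ this
    rcases Nat.eq_zero_or_pos i with h0 | hpos
    · left
      rw [k0Val_isUnit_iff, hva, h0, pow_zero]
    · right
      have hj0 : j = 0 := by omega
      rw [k0Val_isUnit_iff, hvb, hj0, pow_zero]

/-- **`A0 = A ∩ ℚ̄^I` is a discrete valuation ring** (with uniformiser `q`). -/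
theorem k0Val_isDiscreteValuationRing (hq : q.Prime) (hA : A.LiesOverPrime q) :
    IsDiscreteValuationRing (k0Val A) :=
  IsDiscreteValuationRing.ofHasUnitMulPowIrreducibleFactorization
    ⟨(q : k0Val A), k0Val_irreducible_q A q hq hA,
      fun {x} hx => k0Val_associated_pow A q hq hA x hx⟩

/-- The maximal ideal of `A0` is generated by `q`. -/
theorem k0Val_maximalIdeal_eq (hq : q.Prime) (hA : A.LiesOverPrime q) :
    IsLocalRing.maximalIdeal (k0Val A) = Ideal.span {(q : k0Val A)} := by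
  have := k0Val_isDiscreteValuationRing A q hq hA
  exact (IsDiscreteValuationRing.irreducible_iff_uniformizer _).mp (k0Val_irreducible_q A q hq hA)

end dvr

section NFres

variable (E : Type) [Field E] [NumberField E] [IsGalois ℚ E] (K : IntermediateField ℚ E)

omit [IsGalois ℚ E] in
/-- all of `Gal(E/K)` is inertia when `K` is the inertia field -/
theorem k0_inertia_rel_eq_top (P : Ideal (𝓞 E)) [P.IsPrime]
    (hK : K = IntermediateField.fixedField (P.inertia (E ≃ₐ[ℚ] E))) :
    P.inertia (E ≃ₐ[K] E) = ⊤ := by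
  have hfix : K.fixingSubgroup = P.inertia (E ≃ₐ[ℚ] E) := by
    rw [hK, IntermediateField.fixingSubgroup_fixedField]
  rw [eq_top_iff]
  intro τ _
  have hτ : (τ.restrictScalars ℚ : E ≃ₐ[ℚ] E) ∈ K.fixingSubgroup := by
    rw [IntermediateField.mem_fixingSubgroup_iff]
    intro x hx
    exact τ.commutes ⟨x, hx⟩
  rw [hfix] at hτ
  intro x
  have := hτ x
  rwa [k0_smul_restrictScalars] at this

/-- the residue degree of `P` over the inertia field is one -/
theorem k0_inertiaDeg_inertiaField (P : Ideal (𝓞 E)) [P.IsPrime]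
    (hK : K = IntermediateField.fixedField (P.inertia (E ≃ₐ[ℚ] E))) :
    P.inertiaDeg (𝓞 K) = 1 := by
  have : IsGaloisGroup (E ≃ₐ[K] E) (𝓞 K) (𝓞 E) :=
    IsGaloisGroup.of_isFractionRing (E ≃ₐ[K] E) (𝓞 K) (𝓞 E) K E
  have h := Ideal.card_stabilizer_eq_card_inertia_mul_finrank (G := E ≃ₐ[K] E)
    (P.under (𝓞 K)) P
  have htop := k0_inertia_rel_eq_top E K P hK
  have hstab : MulAction.stabilizer (E ≃ₐ[K] E) P = ⊤ := by
    rw [eq_top_iff, ← htop]
    exact Ideal.inertia_le_stabilizer P
  rw [hstab, htop] at h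
  have hpos : 0 < Nat.card (⊤ : Subgroup (E ≃ₐ[K] E)) := Nat.card_pos
  have : Nat.card (⊤ : Subgroup (E ≃ₐ[K] E)) * P.inertiaDeg (𝓞 K)
      = Nat.card (⊤ : Subgroup (E ≃ₐ[K] E)) * 1 := by rw [mul_one]; exact h.symm
  exact Nat.eq_of_mul_eq_mul_left hpos this

/-- residue fields agree: every integer of `E` is congruent mod `P` to an integer of the inertia
field. -/
theorem k0_residue_nf (P : Ideal (𝓞 E)) [P.IsPrime] (hP : P ≠ ⊥)
    (hK : K = IntermediateField.fixedField (P.inertia (E ≃ₐ[ℚ] E))) (a : 𝓞 E) :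
    ∃ b : 𝓞 K, a - algebraMap (𝓞 K) (𝓞 E) b ∈ P := by
  have hf := k0_inertiaDeg_inertiaField E K P hK
  have hPmax : P.IsMaximal := Ideal.IsPrime.isMaximal inferInstance hP
  have hp0 : P.under (𝓞 K) ≠ ⊥ := Ideal.under_ne_bot (𝓞 K) hP
  have hpmax : (P.under (𝓞 K)).IsMaximal := Ideal.IsPrime.isMaximal inferInstance hp0
  rw [Ideal.inertiaDeg_eq_of_isMaximal (P.under (𝓞 K)) P] at hf
  let _ : Field (𝓞 K ⧸ P.under (𝓞 K)) := Ideal.Quotient.field _
  let _ : Field (𝓞 E ⧸ P) := Ideal.Quotient.field _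
  have h1 : (1 : 𝓞 E ⧸ P) ≠ 0 := one_ne_zero
  obtain ⟨c, hc⟩ := (finrank_eq_one_iff_of_nonzero' (1 : 𝓞 E ⧸ P) h1).mp hf
    (Ideal.Quotient.mk P a)
  obtain ⟨b, rfl⟩ := Ideal.Quotient.mk_surjective c
  refine ⟨b, ?_⟩
  rw [← Ideal.Quotient.eq, ← hc, Algebra.smul_def, mul_one]
  rfl

end NFres

section fracs

variable {F : Type} [Field F] [NumberField F] (ι : F →+* AlgebraicClosure ℚ)
  (A : ValuationSubring (AlgebraicClosure ℚ))

/-- `A ∩ F` is the localisation of `𝓞 F` at the prime below `A`. -/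
theorem k0_exists_frac (x : F) (hx : ι x ∈ A) :
    ∃ n d : 𝓞 F, d ∉ k0Prime ι A ∧ x * (d : F) = (n : F) := by
  obtain ⟨f, hf, hQ⟩ := k0_exists_primitive F (k0Prime ι A) x
  rcases frac_or_inv_frac_of_aeval_eq_zero (k0_closed F) (k0Prime ι A) x f.natDegree f le_rfl hf hQ
    with ⟨a, b, hb, h⟩ | ⟨a, b, hb, h⟩
  · exact ⟨a, b, hb, h⟩
  · -- x * a = b with b ∉ P: then a ∉ P
    have hb1 := k0_val_eq_one ι A hb
    have h' : ι x * ι (a : F) = ι (b : F) := by
      rw [← map_mul]; exact congrArg ι h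
    have ha : a ∉ k0Prime ι A := by
      intro ha
      rw [mem_k0Prime_iff, A.mem_nonunits_iff] at ha
      have hx1 := (A.valuation_le_one_iff _).mpr hx
      have := congrArg A.valuation h'
      rw [map_mul, hb1] at this
      have hlt : A.valuation (ι x) * A.valuation (ι (a : F)) < 1 := by
        calc A.valuation (ι x) * A.valuation (ι (a : F)) ≤ 1 * A.valuation (ι (a : F)) := by
              gcongr
          _ = A.valuation (ι (a : F)) := one_mul _
          _ < 1 := ha
      rw [this] at hlt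
      exact lt_irrefl _ hlt
    by_cases hx0 : x = 0
    · exact ⟨0, 1, fun h1 => (Ideal.IsPrime.ne_top inferInstance)
        ((Ideal.eq_top_iff_one _).mpr h1), by simp [hx0]⟩
    · -- x = b / a ... we need x * d = n with d ∉ P: take d = a, n = b
      exact ⟨b, a, ha, h⟩

end fracs

section qbar

variable (A : ValuationSubring (AlgebraicClosure ℚ))

/-- The restriction of an element of the inertia group of `A` to a finite Galois extension
`E ⊆ ℚ̄` lies in the inertia group of the prime of `E` below `A`. -/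
theorem k0_restrict_mem_inertia (E : IntermediateField ℚ (AlgebraicClosure ℚ))
    [FiniteDimensional ℚ E] [IsGalois ℚ E] [NumberField E]
    {σ : AlgebraicClosure ℚ ≃ₐ[ℚ] AlgebraicClosure ℚ} (hσ : σ ∈ A.inertiaSubgroupIn ℚ) :
    σ.restrictNormal E ∈
      (k0Prime (algebraMap E (AlgebraicClosure ℚ)) A).inertia (E ≃ₐ[ℚ] E) := by
  intro y
  change σ.restrictNormal E • y - y ∈ k0Prime (algebraMap E (AlgebraicClosure ℚ)) A
  rw [mem_k0Prime_iff]
  have hin := Fermat.Agent.S05wire.isInertial_of_mem_inertiaSubgroupIn A hσ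
  have hy := k0_coe_mem (algebraMap E (AlgebraicClosure ℚ)) A y
  have := hin.sub_lt _ ((A.valuation_le_one_iff _).mpr hy)
  rw [A.mem_nonunits_iff]
  have hcomm := AlgEquiv.restrictNormal_commutes σ E (y : E)
  have heq : algebraMap E (AlgebraicClosure ℚ)
      (((σ.restrictNormal E • y - y : 𝓞 E)) : E)
      = σ (algebraMap E (AlgebraicClosure ℚ) (y : E)) - algebraMap E (AlgebraicClosure ℚ) (y : E) := by
    rw [← hcomm, ← map_sub]
    rfl
  rw [heq]
  exact this

/-- Elements of the inertia field of a finite Galois `E ⊆ ℚ̄` are fixed by the inertia group of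
`A`. -/
theorem k0_inertiaField_fixed (E : IntermediateField ℚ (AlgebraicClosure ℚ))
    [FiniteDimensional ℚ E] [IsGalois ℚ E] [NumberField E] (z : E)
    (hz : z ∈ IntermediateField.fixedField
      ((k0Prime (algebraMap E (AlgebraicClosure ℚ)) A).inertia (E ≃ₐ[ℚ] E)))
    {σ : AlgebraicClosure ℚ ≃ₐ[ℚ] AlgebraicClosure ℚ} (hσ : σ ∈ A.inertiaSubgroupIn ℚ) :
    σ (z : AlgebraicClosure ℚ) = z := by
  have hτ := k0_restrict_mem_inertia A E hσ
  have h1 := (IntermediateField.mem_fixedField_iff _ _).mp hz _ hτ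
  have h2 := AlgEquiv.restrictNormal_commutes σ E z
  rw [h1] at h2
  exact h2.symm

/-- **Residue fields agree**: every element of `A` is congruent modulo `m_A` to an element of
`A ∩ ℚ̄^I`. -/
theorem k0_residue_surj (q : ℕ) (hq : q.Prime) (hA : A.LiesOverPrime q)
    (a : AlgebraicClosure ℚ) (ha : a ∈ A) :
    ∃ b : AlgebraicClosure ℚ, (∀ σ ∈ A.inertiaSubgroupIn ℚ, σ b = b) ∧ b ∈ A ∧
      a - b ∈ A.nonunits := by
  have hgal : IsGalois ℚ (AlgebraicClosure ℚ) := isGalois_QBar
  have : Normal ℚ (AlgebraicClosure ℚ) := hgal.to_normal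
  let L : IntermediateField ℚ (AlgebraicClosure ℚ) := IntermediateField.adjoin ℚ {a}
  have haint : IsIntegral ℚ a := (isAlgebraic_QBar.isAlgebraic a).isIntegral
  have : FiniteDimensional ℚ L := IntermediateField.adjoin.finiteDimensional haint
  let E : IntermediateField ℚ (AlgebraicClosure ℚ) :=
    IntermediateField.normalClosure ℚ L (AlgebraicClosure ℚ)
  have : FiniteDimensional ℚ E := normalClosure.is_finiteDimensional ℚ L (AlgebraicClosure ℚ)
  have : Normal ℚ E := normalClosure.normal ℚ L (AlgebraicClosure ℚ)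
  have : IsGalois ℚ E := ⟨⟩
  have : NumberField E :=
    { to_charZero := inferInstance, to_finiteDimensional := inferInstance }
  have hLE : L ≤ E := IntermediateField.le_normalClosure L
  have haE : a ∈ E := hLE (IntermediateField.mem_adjoin_simple_self ℚ a)
  let aE : E := ⟨a, haE⟩
  let ιE : E →+* AlgebraicClosure ℚ := algebraMap E (AlgebraicClosure ℚ)
  let P : Ideal (𝓞 E) := k0Prime ιE A
  have hqP : (q : 𝓞 E) ∈ P := by
    rw [mem_k0Prime_iff]
    have h : ιE (((q : 𝓞 E) : 𝓞 E) : E) = (q : AlgebraicClosure ℚ) := by simp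
    rw [h]
    exact hA
  have hP : P ≠ ⊥ := by
    intro h
    rw [h, Ideal.mem_bot] at hqP
    exact hq.ne_zero (by exact_mod_cast hqP)
  let K : IntermediateField ℚ E := IntermediateField.fixedField (P.inertia (E ≃ₐ[ℚ] E))
  obtain ⟨n, d, hd, hnd⟩ := k0_exists_frac ιE A aE ha
  obtain ⟨bn, hbn⟩ := k0_residue_nf E K P hP rfl n
  obtain ⟨bd, hbd⟩ := k0_residue_nf E K P hP rfl d
  -- the elements of `ℚ̄`
  set n' : AlgebraicClosure ℚ := ιE (n : E) with hn'
  set d' : AlgebraicClosure ℚ := ιE (d : E) with hd'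
  set bn' : AlgebraicClosure ℚ := ιE ((bn : K) : E) with hbn'
  set bd' : AlgebraicClosure ℚ := ιE ((bd : K) : E) with hbd'
  have hand : a * d' = n' := by
    have := congrArg ιE hnd
    rw [map_mul] at this
    exact this
  have hvd : A.valuation d' = 1 := k0_val_eq_one ιE A hd
  have hvn : A.valuation n' ≤ 1 := (A.valuation_le_one_iff _).mpr (k0_coe_mem ιE A n)
  have hvbn : A.valuation bn' ≤ 1 :=
    (A.valuation_le_one_iff _).mpr (k0_coe_mem ιE A (algebraMap (𝓞 K) (𝓞 E) bn))
  have hn1 : A.valuation (n' - bn') < 1 := by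
    have := (mem_k0Prime_iff ιE A _).mp hbn
    rw [A.mem_nonunits_iff] at this
    have heq : ιE ((n - algebraMap (𝓞 K) (𝓞 E) bn : 𝓞 E) : E) = n' - bn' := by
      rw [hn', hbn', ← map_sub]
      rfl
    rwa [heq] at this
  have hd1 : A.valuation (d' - bd') < 1 := by
    have := (mem_k0Prime_iff ιE A _).mp hbd
    rw [A.mem_nonunits_iff] at this
    have heq : ιE ((d - algebraMap (𝓞 K) (𝓞 E) bd : 𝓞 E) : E) = d' - bd' := by
      rw [hd', hbd', ← map_sub]
      rfl
    rwa [heq] at this
  have hvbd : A.valuation bd' = 1 := by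
    have h1 : bd' = d' - (d' - bd') := by ring
    have hlt : A.valuation (d' - bd') < A.valuation d' := by rw [hvd]; exact hd1
    rw [h1, Valuation.map_sub_eq_of_lt_left _ hlt]
    exact hvd
  have hd0 : d' ≠ 0 := by
    intro h
    rw [h, map_zero] at hvd
    exact zero_ne_one hvd
  have hbd0 : bd' ≠ 0 := by
    intro h
    rw [h, map_zero] at hvbd
    exact zero_ne_one hvbd
  refine ⟨bn' * bd'⁻¹, ?_, ?_, ?_⟩
  · intro σ hσ
    have h1 := k0_inertiaField_fixed A E ((bn : K) : E) (bn : K).2 hσ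
    have h2 := k0_inertiaField_fixed A E ((bd : K) : E) (bd : K).2 hσ
    rw [map_mul, map_inv₀]
    change σ (ιE ((bn : K) : E)) * (σ (ιE ((bd : K) : E)))⁻¹ = _
    rw [show σ (ιE ((bn : K) : E)) = ιE ((bn : K) : E) from h1,
      show σ (ιE ((bd : K) : E)) = ιE ((bd : K) : E) from h2]
  · rw [← A.valuation_le_one_iff, map_mul, map_inv₀, hvbd, inv_one, mul_one]
    exact hvbn
  · rw [A.mem_nonunits_iff]
    have hkey : a - bn' * bd'⁻¹ = ((n' - bn') * bd' - bn' * (d' - bd')) * (d' * bd')⁻¹ := by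
      have : a = n' * d'⁻¹ := by rw [← hand]; field_simp
      rw [this]
      field_simp
      ring
    rw [hkey, map_mul, map_inv₀, map_mul, hvd, hvbd, mul_one, inv_one, mul_one]
    apply Valuation.map_sub_lt
    · rw [map_mul, hvbd, mul_one]
      exact hn1
    · rw [map_mul]
      calc A.valuation bn' * A.valuation (d' - bd') ≤ 1 * A.valuation (d' - bd') := by gcongr
        _ = A.valuation (d' - bd') := one_mul _
        _ < 1 := hd1

end qbar

section closed

variable (A : ValuationSubring (AlgebraicClosure ℚ))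

/-- The inertia group as a congruence condition on algebraic integers. -/
theorem k0_mem_inertia_iff (σ : AlgebraicClosure ℚ ≃ₐ[ℚ] AlgebraicClosure ℚ) :
    σ ∈ A.inertiaSubgroupIn ℚ ↔ ∀ b : ZBar, σ • b - b ∈ primeOfVal A := by
  constructor
  · intro hσ b
    rw [mem_primeOfVal_iff, A.mem_nonunits_iff]
    have hin := Fermat.Agent.S05wire.isInertial_of_mem_inertiaSubgroupIn A hσ
    exact hin.sub_lt _ ((A.valuation_le_one_iff _).mpr (il_zbar_mem A b))
  · intro h
    have := mem_inertiaSubgroupIn_of_congr (primeOfVal A) σ h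
    rwa [valuationSubringOfPrime_primeOfVal] at this

/-- The inertia group of `A` is closed in the Krull topology. -/
theorem k0_inertia_isClosed :
    IsClosed ((A.inertiaSubgroupIn ℚ : Subgroup (AlgebraicClosure ℚ ≃ₐ[ℚ] AlgebraicClosure ℚ)) :
      Set (AlgebraicClosure ℚ ≃ₐ[ℚ] AlgebraicClosure ℚ)) := by
  let _ : TopologicalSpace ZBar := ⊥
  have : DiscreteTopology ZBar := ⟨rfl⟩
  have hc : ContinuousSMul FrobLib.GQ ZBar := zbar_continuousSMul
  have heq : ((A.inertiaSubgroupIn ℚ : Subgroup (AlgebraicClosure ℚ ≃ₐ[ℚ] AlgebraicClosure ℚ)) :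
      Set (AlgebraicClosure ℚ ≃ₐ[ℚ] AlgebraicClosure ℚ))
      = ⋂ b : ZBar, (fun σ : FrobLib.GQ => σ • b) ⁻¹' {c : ZBar | c - b ∈ primeOfVal A} := by
    ext σ
    simp only [SetLike.mem_coe, Set.mem_iInter, Set.mem_preimage, Set.mem_ofPred_eq]
    exact k0_mem_inertia_iff A σ
  rw [heq]
  refine isClosed_iInter fun b => ?_
  refine IsClosed.preimage ?_ (isClosed_discrete _)
  exact continuous_id.smul continuous_const

/-- `Gal(ℚ̄/ℚ̄^I) = I`. -/
theorem k0_fixingSubgroup_fixedField :
    (IntermediateField.fixedField (A.inertiaSubgroupIn ℚ)).fixingSubgroup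
      = A.inertiaSubgroupIn ℚ := by
  have hgal : IsGalois ℚ (AlgebraicClosure ℚ) := isGalois_QBar
  exact InfiniteGalois.fixingSubgroup_fixedField
    (⟨A.inertiaSubgroupIn ℚ, k0_inertia_isClosed A⟩ : ClosedSubgroup _)

end closed

section final

variable (A : ValuationSubring (AlgebraicClosure ℚ))

/-- `Gal(ℚ̄/K0) = I`. -/
theorem k0Field_fixingSubgroup : (k0Field A).fixingSubgroup = A.inertiaSubgroupIn ℚ :=
  k0_fixingSubgroup_fixedField A

/-- The residue field of `A0` is the residue field of `A`: every element of `A` is congruent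
modulo `m_A` to an element of `A0 = A ∩ K0`. -/
theorem k0Val_residue_surj (q : ℕ) (hq : q.Prime) (hA : A.LiesOverPrime q) (a : A) :
    ∃ b : k0Val A, (a : AlgebraicClosure ℚ) - ((b : k0Field A) : AlgebraicClosure ℚ)
      ∈ A.nonunits := by
  obtain ⟨b, hb, hbA, hab⟩ := k0_residue_surj A q hq hA a a.2
  exact ⟨⟨⟨b, (mem_k0Field_iff A b).mpr hb⟩, hbA⟩, hab⟩

/-- The inclusion `A0 → A`. -/
noncomputable def k0ValIncl : k0Val A →+* A where
  toFun y := ⟨((y : k0Field A) : AlgebraicClosure ℚ), y.2⟩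
  map_one' := rfl
  map_mul' _ _ := rfl
  map_zero' := rfl
  map_add' _ _ := rfl

@[simp] theorem coe_k0ValIncl (y : k0Val A) :
    ((k0ValIncl A y : A) : AlgebraicClosure ℚ) = ((y : k0Field A) : AlgebraicClosure ℚ) := rfl

theorem k0ValIncl_injective : Function.Injective (k0ValIncl A) := by
  intro x y h
  apply Subtype.ext
  apply Subtype.ext
  exact congrArg (fun t : A => (t : AlgebraicClosure ℚ)) h

/-- `A0 → A → A/m_A` is surjective. -/
theorem k0_residue_comp_surjective (q : ℕ) (hq : q.Prime) (hA : A.LiesOverPrime q) :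
    Function.Surjective ((IsLocalRing.residue A).comp (k0ValIncl A)) := by
  intro c
  obtain ⟨a, rfl⟩ := IsLocalRing.residue_surjective c
  obtain ⟨b, hb⟩ := k0Val_residue_surj A q hq hA a
  refine ⟨b, ?_⟩
  rw [RingHom.comp_apply, eq_comm, ← sub_eq_zero, ← map_sub, IsLocalRing.residue_eq_zero_iff,
    ← ValuationSubring.coe_mem_nonunits_iff]
  exact hb

/-- the kernel of `A0 → A/m_A` is the maximal ideal of `A0`. -/
theorem k0_residue_comp_eq_zero_iff (y : k0Val A) :
    (IsLocalRing.residue A).comp (k0ValIncl A) y = 0 ↔ y ∈ IsLocalRing.maximalIdeal (k0Val A) := by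
  rw [RingHom.comp_apply, IsLocalRing.residue_eq_zero_iff,
    ← ValuationSubring.coe_mem_nonunits_iff, ← ValuationSubring.coe_mem_nonunits_iff,
    mem_nonunits_k0Val_iff]
  rfl

end final

end Fermat.Agent.S36lib
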