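import Mathlib
import Fermat.Agent.S34lib.UnipK
import Fermat.Agent.S35lib.Frob2K
import Fermat.Agent.GM.Defs
import Fermat.Agent.S36lib.Speed

/-!
# Item 83 (S36), interface file (chief architect helper20): the KUMMER FORM of (INV)

Level `M = M' * q * q`, `q ∤ M'`, `m = p ^ n`, `A ∣ q`, `I = A.inertiaSubgroupIn ℚ`.

`InvK M' q m c A`: every nonzero `f ∈ F_M` all of whose orders are divisible by `m`, which is
Kummer-new at `q` (both norms to `F_{M'q}`, along `α` and along `β`, are constants times `m`-th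
powers) and Kummer-fixed by the inertia group `I` (`σ f / f` is a constant times an `m`-th power
for every `σ ∈ I`), satisfies: `f ^ c` is a constant times an `m`-th power.

In divisor language: `x ∈ J₀(M)[m]`, `α_* x = β_* x = 0`, `σ x = x` for `σ ∈ I`  ⟹  `c • x = 0`.
Blueprint: `NOTES/S36_blueprint.md`.  Definitions only.
-/

set_option autoImplicit false
set_option linter.style.haveILetI false

noncomputable section

namespace Fermat.Agent.S36lib

open ModularCurve AlgebraicCurve
open Fermat.Agent.S24lib Fermat.Agent.HeckeBar Fermat.Agent.S34lib Fermat.Agent.GalRep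
open Fermat.Agent.S35lib Fermat.Agent.GM

/-- `f` is Kummer-fixed by the inertia group of `A`: `σ f / f` is a constant times an `m`-th power
for every `σ ∈ I_A`. -/
def IsKummerFixed (M m : ℕ) (A : ValuationSubring Kbar) (f : FF M) : Prop :=
  ∀ σ ∈ A.inertiaSubgroupIn ℚ, ∃ (c : Kbar) (s : FF M),
    galFF M σ • f / f = algebraMap Kbar (FF M) c * s ^ m

/-- `f ∈ F_{M'q²}` is Kummer-new at `q`: both norms to `F_{M'q}` are constants times `m`-th
powers (this is `S35lib.IsKummerNew` at the level `M' * q`). -/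
def IsKummerNew2 (M' q m : ℕ) [NeZero M'] [NeZero q] (f : FF (M' * q * q)) : Prop :=
  IsKummerNew (M' * q) q m f

/-- **(INV), Kummer form** at level `M' q²`, exponent `m`, constant `c`, along `A ∣ q`. -/
def InvK (M' q m c : ℕ) [NeZero M'] [NeZero q] (A : ValuationSubring Kbar) : Prop :=
  ∀ f : FF (M' * q * q), f ≠ 0 →
    (∀ P : Place Kbar (FF (M' * q * q)), (m : ℤ) ∣ P.ord f) →
    IsKummerNew2 M' q m f → IsKummerFixed (M' * q * q) m A f →
    ∃ (c₀ : Kbar) (s : FF (M' * q * q)),
      f ^ c = algebraMap Kbar (FF (M' * q * q)) c₀ * s ^ m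

/-- (INV) at the auxiliary levels: the output of the geometry (block APPLY). -/
def InvKAuxStatement : Prop :=
  ∀ (q M' p : ℕ) [NeZero M'] [NeZero q], q.Prime → p.Prime → q ≠ p → IsAuxLevel q M' →
    ∀ A : ValuationSubring Kbar, A.LiesOverPrime q →
      ∃ c : ℕ, 0 < c ∧ ∀ n : ℕ, InvK M' q (p ^ n) c A

/-- (INV) at every level `M' q²`, `q ∤ M'`: the input of the algebra (block ALG). -/
def InvKStatement : Prop :=
  ∀ (q M' p : ℕ) [NeZero M'] [NeZero q], q.Prime → p.Prime → q ≠ p → ¬ q ∣ M' →
    ∀ A : ValuationSubring Kbar, A.LiesOverPrime q →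
      ∃ c : ℕ, 0 < c ∧ ∀ n : ℕ, InvK M' q (p ^ n) c A

end Fermat.Agent.S36lib

end
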