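import Mathlib
import Fermat.Agent.S36lib.Defs

/-!
# Item 83 (S36), block V/REG, interface file (architect helper24): the SETUP over the DVR `A0`

Vocabulary of `NOTES/S36_blueprint.md` §1, as ONE abstract structure with hypotheses, so that the
blocks REG, MOVE, ABEL, TOR, CRUX can be written against it while block V constructs the instance.

* `ResVal A π κ F`: a valuation ring `O` of `F` over the valuation ring `A` of `K`, with a
  reduction map `red : O → κ` ONTO the field `κ`, compatible with `π : A → k`.
  (No condition on the value group: `v_mid` has ramification index `q - 1`.)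
* `NodeSetup A π κ F`: the three valuations `vInf`, `vMid`, `vZero` of `F = F0(M' q²)` over `A = A0`,
  with residue field `κ = κ'` (the function field of level `M'` over `k`), and the affine ring
  `B ⊆ O_∞ ∩ O_mid ∩ O_0` (functions regular off the cusps over `∞'`, integral for the three `v`).
* `S.redInf, S.redMid, S.redZero : B → κ`, the primes `S.pInf, S.pMid, S.pZero` of `B`,
  `S.IsNode t` (maximal ideals of `B` containing `p_∞ + p_0`) and `S.IsUnitAtNodes z`
  (`∃ z' ∈ B, x ∈ p_∞, y ∈ p_0, z z' = 1 + x + y`).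
* the concrete predicate `IsIFixed M A f`: `f ∈ FF M` is fixed by the inertia group of `A`
  (the field `K0` itself is `S36lib/K0Field.lean`, the field `F0(M)` is piece K0-2).

Definitions and one-line lemmas only.
-/

set_option autoImplicit false
set_option linter.style.haveILetI false

noncomputable section

namespace Fermat.Agent.S36lib

open Fermat.Agent.S24lib Fermat.Agent.S34lib

section Abstract

variable {K : Type*} [Field K] {k : Type*} [Field k]

/-- A valuation ring `O` of `F` over the valuation ring `A` of `K` with a reduction map ONTO the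
field `κ`, compatible with `π : A → k`.  No condition on the value group. -/
structure ResVal (A : ValuationSubring K) (π : A →+* k) (κ : Type*) [Field κ] [Algebra k κ]
    (F : Type*) [Field F] [Algebra K F] where
  /-- the valuation ring of `F` -/
  O : ValuationSubring F
  /-- the reduction map -/
  red : O →+* κ
  red_surjective : Function.Surjective red
  algebraMap_mem : ∀ a : A, algebraMap K F (a : K) ∈ O
  red_algebraMap : ∀ a : A, red ⟨algebraMap K F (a : K), algebraMap_mem a⟩ = algebraMap k κ (π a)

/-- The setup of item 83: three valuations of `F` over `A` with the same residue field `κ`, and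
the affine ring `B` inside the three valuation rings. -/
structure NodeSetup (A : ValuationSubring K) (π : A →+* k) (κ : Type*) [Field κ] [Algebra k κ]
    (F : Type*) [Field F] [Algebra K F] where
  /-- the valuation `v_∞` (`q`-expansion at `∞`) -/
  vInf : ResVal A π κ F
  /-- the valuation `v_mid` (expansion at the middle cusp) -/
  vMid : ResVal A π κ F
  /-- the valuation `v_0` (`= v_∞ ∘ w_{q²}`) -/
  vZero : ResVal A π κ F
  /-- the affine ring -/
  B : Subring F
  algebraMap_mem_B : ∀ a : A, algebraMap K F (a : K) ∈ B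
  B_le_inf : B ≤ vInf.O.toSubring
  B_le_mid : B ≤ vMid.O.toSubring
  B_le_zero : B ≤ vZero.O.toSubring

variable {A : ValuationSubring K} {π : A →+* k} {κ : Type*} [Field κ] [Algebra k κ]
  {F : Type*} [Field F] [Algebra K F]

namespace ResVal

variable (v : ResVal A π κ F)

/-- the kernel of the reduction map is the maximal ideal -/
theorem red_eq_zero_iff (x : v.O) : v.red x = 0 ↔ (x : F) ∈ v.O.nonunits := by
  have hmax : (RingHom.ker v.red).IsMaximal :=
    RingHom.ker_isMaximal_of_surjective v.red v.red_surjective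
  have hker : RingHom.ker v.red = IsLocalRing.maximalIdeal v.O := IsLocalRing.eq_maximalIdeal hmax
  rw [ValuationSubring.coe_mem_nonunits_iff, ← hker, RingHom.mem_ker]

/-- the reduction of a subring of `O` -/
def redOn (B : Subring F) (h : B ≤ v.O.toSubring) : B →+* κ :=
  v.red.comp (Subring.inclusion h)

@[simp] theorem redOn_apply (B : Subring F) (h : B ≤ v.O.toSubring) (x : B) :
    v.redOn B h x = v.red ⟨(x : F), h x.2⟩ := rfl

end ResVal

namespace NodeSetup

variable (S : NodeSetup A π κ F)

/-- `red_∞ : B → κ` -/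
def redInf : S.B →+* κ := S.vInf.redOn S.B S.B_le_inf

/-- `red_mid : B → κ` -/
def redMid : S.B →+* κ := S.vMid.redOn S.B S.B_le_mid

/-- `red_0 : B → κ` -/
def redZero : S.B →+* κ := S.vZero.redOn S.B S.B_le_zero

/-- `p_∞ = {z ∈ B : v_∞ z > 0}` -/
def pInf : Ideal S.B := RingHom.ker S.redInf

/-- `p_mid = {z ∈ B : v_mid z > 0}` -/
def pMid : Ideal S.B := RingHom.ker S.redMid

/-- `p_0 = {z ∈ B : v_0 z > 0}` -/
def pZero : Ideal S.B := RingHom.ker S.redZero

theorem mem_pInf_iff (x : S.B) : x ∈ S.pInf ↔ (x : F) ∈ S.vInf.O.nonunits :=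
  S.vInf.red_eq_zero_iff ⟨(x : F), S.B_le_inf x.2⟩

theorem mem_pMid_iff (x : S.B) : x ∈ S.pMid ↔ (x : F) ∈ S.vMid.O.nonunits :=
  S.vMid.red_eq_zero_iff ⟨(x : F), S.B_le_mid x.2⟩

theorem mem_pZero_iff (x : S.B) : x ∈ S.pZero ↔ (x : F) ∈ S.vZero.O.nonunits :=
  S.vZero.red_eq_zero_iff ⟨(x : F), S.B_le_zero x.2⟩

instance pInf_isPrime : S.pInf.IsPrime := RingHom.ker_isPrime S.redInf

instance pMid_isPrime : S.pMid.IsPrime := RingHom.ker_isPrime S.redMid

instance pZero_isPrime : S.pZero.IsPrime := RingHom.ker_isPrime S.redZero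

/-- the constants of `A` in `B` -/
def constB : A →+* S.B where
  toFun a := ⟨algebraMap K F (a : K), S.algebraMap_mem_B a⟩
  map_one' := by ext; simp
  map_mul' a b := by ext; simp
  map_zero' := by ext; simp
  map_add' a b := by ext; simp

@[simp] theorem coe_constB (a : A) : ((S.constB a : S.B) : F) = algebraMap K F (a : K) := rfl

theorem redInf_constB (a : A) : S.redInf (S.constB a) = algebraMap k κ (π a) :=
  S.vInf.red_algebraMap a

theorem redMid_constB (a : A) : S.redMid (S.constB a) = algebraMap k κ (π a) :=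
  S.vMid.red_algebraMap a

theorem redZero_constB (a : A) : S.redZero (S.constB a) = algebraMap k κ (π a) :=
  S.vZero.red_algebraMap a

/-- the unit ball `O = O_∞ ∩ O_mid ∩ O_0` of the three valuations -/
def ball : Subring F := S.vInf.O.toSubring ⊓ S.vMid.O.toSubring ⊓ S.vZero.O.toSubring

theorem B_le_ball : S.B ≤ S.ball := le_inf (le_inf S.B_le_inf S.B_le_mid) S.B_le_zero

/-- the NODES: the maximal ideals of `B` containing `p_∞ + p_0` -/
def IsNode (t : Ideal S.B) : Prop := t.IsMaximal ∧ S.pInf ⊔ S.pZero ≤ t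

/-- `z ∈ B` is a UNIT AT THE NODES: `z z' = 1 + x + y` with `z' ∈ B`, `x ∈ p_∞`, `y ∈ p_0`. -/
def IsUnitAtNodes (z : S.B) : Prop :=
  ∃ z' x y : S.B, x ∈ S.pInf ∧ y ∈ S.pZero ∧ z * z' = 1 + x + y

/-- a unit at the nodes lies in no node -/
theorem IsUnitAtNodes.notMem {z : S.B} (hz : S.IsUnitAtNodes z) {t : Ideal S.B}
    (ht : S.IsNode t) : z ∉ t := by
  obtain ⟨z', x, y, hx, hy, h⟩ := hz
  intro hzt
  have hxy : x + y ∈ t := ht.2 (Submodule.add_mem_sup hx hy)
  have h1 : (1 : S.B) ∈ t := by
    have : (1 : S.B) = z * z' - (x + y) := by rw [h]; ring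
    rw [this]
    exact t.sub_mem (t.mul_mem_right _ hzt) hxy
  exact ht.1.ne_top ((Ideal.eq_top_iff_one t).mpr h1)

/-- conversely: an element of `B` lying in no node is a unit at the nodes -/
theorem isUnitAtNodes_of_notMem {z : S.B} (hz : ∀ t : Ideal S.B, S.IsNode t → z ∉ t) :
    S.IsUnitAtNodes z := by
  have htop : Ideal.span {z} ⊔ (S.pInf ⊔ S.pZero) = ⊤ := by
    by_contra hne
    obtain ⟨t, ht, hle⟩ := Ideal.exists_le_maximal _ hne
    exact hz t ⟨ht, le_trans le_sup_right hle⟩
      (hle (Ideal.mem_sup_left (Ideal.mem_span_singleton_self z)))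
  have h1 : (1 : S.B) ∈ Ideal.span {z} ⊔ (S.pInf ⊔ S.pZero) := by rw [htop]; trivial
  obtain ⟨a, ha, b, hb, hab⟩ := Submodule.mem_sup.mp h1
  obtain ⟨x, hx, y, hy, hxy⟩ := Submodule.mem_sup.mp hb
  obtain ⟨z', rfl⟩ := Ideal.mem_span_singleton'.mp ha
  refine ⟨z', -x, -y, S.pInf.neg_mem hx, S.pZero.neg_mem hy, ?_⟩
  have : z' * z = 1 - (x + y) := by rw [hxy, ← hab]; ring
  rw [mul_comm, this]; ring

end NodeSetup

end Abstract

section Concrete

/-- `f ∈ FF M` is fixed by the inertia group of `A` -/
def IsIFixed (M : ℕ) (A : ValuationSubring Kbar) (f : FF M) : Prop :=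
  ∀ σ ∈ A.inertiaSubgroupIn ℚ, galFF M σ • f = f

end Concrete

end Fermat.Agent.S36lib

end
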