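import Mathlib
import Fermat.Agent.S36lib.Setup
import Fermat.Agent.S36lib.K0Field
import Fermat.Agent.GoodRed.Defs

/-!
# Item 83 (S36), block V, concrete definitions (architect helper24)

The concrete objects over `A0 = k0Val A` (`K0 = k0Field A`, helper8's `K0Field.lean`):

* `k0Res A : A0 →+* k`, `k = IsLocalRing.ResidueField A` (the residue field of `A0` IS `k`);
* `f0Field L A : IntermediateField K0 (FF L)`, the function field `F0(L) = K0(j_d : d ∣ L)` of
  level `L` over `K0`, INSIDE `FF L` (its elements are exactly the inertia-fixed ones: piece K0-2);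
* `ResVal.ofConstRed`: a constant reduction (S34) as a `ResVal`;
* `ResVal.restrictK0`: the restriction to `F0(L)` of a `ResVal` of `FF L` over `A`;
* `cuspRegular L : Subring (FF L)`: the functions regular off the cusps (at all places where `j`
  is regular);
* `f0Aff L A O₁ O₂ O₃ : Subring F0(L)`: the affine ring `B` (regular off the cusps, in the three
  valuation rings);
* `nodeSetupK0`: the `NodeSetup` over `A0` from three `ResVal`s of `FF L` over `A`.
-/

set_option autoImplicit false
set_option linter.style.haveILetI false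

noncomputable section

namespace Fermat.Agent.S36lib

open ModularCurve AlgebraicCurve
open Fermat.Agent.S24lib Fermat.Agent.S34lib Fermat.Agent.GoodRed

section Abstract

variable {K : Type*} [Field K] {k : Type*} [Field k]
variable {A : ValuationSubring K} {π : A →+* k} {κ : Type*} [Field κ] [Algebra k κ]
  {F : Type*} [Field F] [Algebra K F]

/-- a constant reduction, as a `ResVal` -/
def ResVal.ofConstRed (R : ConstRed A π κ F) : ResVal A π κ F where
  O := R.O
  red := R.red
  red_surjective := R.red_surjective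
  algebraMap_mem := R.algebraMap_mem
  red_algebraMap := R.red_algebraMap

@[simp] theorem ResVal.ofConstRed_O (R : ConstRed A π κ F) : (ResVal.ofConstRed R).O = R.O := rfl

@[simp] theorem ResVal.ofConstRed_red (R : ConstRed A π κ F) :
    (ResVal.ofConstRed R).red = R.red := rfl

end Abstract

variable (A : ValuationSubring Kbar)

/-- the residue map of `A0` into the residue field `k` of `A` -/
def k0Res : k0Val A →+* IsLocalRing.ResidueField A :=
  (IsLocalRing.residue A).comp (k0ValIncl A)

theorem k0Res_apply (a : k0Val A) : k0Res A a = IsLocalRing.residue A (k0ValIncl A a) := rfl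

variable (L : ℕ) [NeZero L]

/-- the generators `j_d`, `d ∣ L`, of the function field of level `L` -/
def f0Gens : Set (FF L) := {x | ∃ (d : ℕ) (hd : d ∣ L) (hne : NeZero d), x = @jdF L d hne hd}

/-- the function field `F0(L) = K0(j_d : d ∣ L)` of level `L` over `K0`, inside `FF L` -/
def f0Field : IntermediateField (k0Field A) (FF L) :=
  IntermediateField.adjoin (k0Field A) (f0Gens L)

theorem jdF_mem_f0Field (d : ℕ) [hne : NeZero d] (hd : d ∣ L) : jdF L d hd ∈ f0Field A L :=
  IntermediateField.subset_adjoin _ _ ⟨d, hd, hne, rfl⟩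

theorem const_mem_f0Field (c : k0Field A) : algebraMap Kbar (FF L) (c : Kbar) ∈ f0Field A L :=
  (f0Field A L).algebraMap_mem c

/-- the functions of level `L` regular off the cusps -/
def cuspRegular : Subring (FF L) :=
  ⨅ P : {P : Place Kbar (FF L) // jF L ∈ P.toValuationSubring}, P.1.toValuationSubring.toSubring

theorem mem_cuspRegular_iff (f : FF L) :
    f ∈ cuspRegular L ↔
      ∀ P : Place Kbar (FF L), jF L ∈ P.toValuationSubring → f ∈ P.toValuationSubring := by
  simp only [cuspRegular, Subring.mem_iInf, Subtype.forall]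
  rfl

theorem const_mem_cuspRegular (c : Kbar) : algebraMap Kbar (FF L) c ∈ cuspRegular L :=
  (mem_cuspRegular_iff L _).mpr fun P _ => P.algebraMap_mem' c

theorem jF_mem_cuspRegular : jF L ∈ cuspRegular L :=
  (mem_cuspRegular_iff L _).mpr fun _ h => h

variable {L} {κ : Type*} [Field κ] [Algebra (IsLocalRing.ResidueField A) κ]

/-- the restriction to `F0(L)` of a valuation of `FF L` over `A`, given that the residue field
does not shrink -/
def ResVal.restrictK0 (v : ResVal A (IsLocalRing.residue A) κ (FF L))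
    (hsurj : ∀ w : κ, ∃ (x : FF L) (hx : x ∈ v.O), x ∈ f0Field A L ∧ v.red ⟨x, hx⟩ = w) :
    ResVal (k0Val A) (k0Res A) κ (f0Field A L) where
  O := v.O.comap (algebraMap (f0Field A L) (FF L))
  red := v.red.comp
    { toFun := fun x => ⟨(x.1 : FF L), x.2⟩
      map_one' := rfl
      map_mul' := fun _ _ => rfl
      map_zero' := rfl
      map_add' := fun _ _ => rfl }
  red_surjective := by
    intro w
    obtain ⟨x, hx, hx0, hw⟩ := hsurj w
    exact ⟨⟨⟨x, hx0⟩, hx⟩, hw⟩
  algebraMap_mem := fun a => v.algebraMap_mem (k0ValIncl A a)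
  red_algebraMap := fun a => v.red_algebraMap (k0ValIncl A a)

theorem ResVal.mem_restrictK0_iff (v : ResVal A (IsLocalRing.residue A) κ (FF L))
    (hsurj : ∀ w : κ, ∃ (x : FF L) (hx : x ∈ v.O), x ∈ f0Field A L ∧ v.red ⟨x, hx⟩ = w)
    (x : f0Field A L) : x ∈ (v.restrictK0 A hsurj).O ↔ (x : FF L) ∈ v.O := Iff.rfl

theorem ResVal.restrictK0_red (v : ResVal A (IsLocalRing.residue A) κ (FF L))
    (hsurj : ∀ w : κ, ∃ (x : FF L) (hx : x ∈ v.O), x ∈ f0Field A L ∧ v.red ⟨x, hx⟩ = w)
    (x : f0Field A L) (hx : x ∈ (v.restrictK0 A hsurj).O) :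
    (v.restrictK0 A hsurj).red ⟨x, hx⟩ = v.red ⟨(x : FF L), hx⟩ := rfl

variable (L)

/-- the affine ring `B ⊂ F0(L)`: regular off the cusps, in the three valuation rings -/
def f0Aff (O₁ O₂ O₃ : ValuationSubring (FF L)) : Subring (f0Field A L) :=
  (cuspRegular L ⊓ O₁.toSubring ⊓ O₂.toSubring ⊓ O₃.toSubring).comap
    (algebraMap (f0Field A L) (FF L))

theorem mem_f0Aff_iff (O₁ O₂ O₃ : ValuationSubring (FF L)) (x : f0Field A L) :
    x ∈ f0Aff A L O₁ O₂ O₃ ↔
      (x : FF L) ∈ cuspRegular L ∧ (x : FF L) ∈ O₁ ∧ (x : FF L) ∈ O₂ ∧ (x : FF L) ∈ O₃ := by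
  simp only [f0Aff, Subring.mem_comap, Subring.mem_inf]
  constructor
  · rintro ⟨⟨⟨h0, h1⟩, h2⟩, h3⟩
    exact ⟨h0, h1, h2, h3⟩
  · rintro ⟨h0, h1, h2, h3⟩
    exact ⟨⟨⟨h0, h1⟩, h2⟩, h3⟩

variable {L}

/-- **the setup over `A0`** built from three valuations of `FF L` over `A` (for the level
`N = M' q` take `vMid := vInf`). -/
def nodeSetupK0 (vInf vMid vZero : ResVal A (IsLocalRing.residue A) κ (FF L))
    (hInf : ∀ w : κ, ∃ (x : FF L) (hx : x ∈ vInf.O), x ∈ f0Field A L ∧ vInf.red ⟨x, hx⟩ = w)
    (hMid : ∀ w : κ, ∃ (x : FF L) (hx : x ∈ vMid.O), x ∈ f0Field A L ∧ vMid.red ⟨x, hx⟩ = w)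
    (hZero : ∀ w : κ, ∃ (x : FF L) (hx : x ∈ vZero.O), x ∈ f0Field A L ∧ vZero.red ⟨x, hx⟩ = w) :
    NodeSetup (k0Val A) (k0Res A) κ (f0Field A L) where
  vInf := vInf.restrictK0 A hInf
  vMid := vMid.restrictK0 A hMid
  vZero := vZero.restrictK0 A hZero
  B := f0Aff A L vInf.O vMid.O vZero.O
  algebraMap_mem_B := fun a => by
    rw [mem_f0Aff_iff]
    exact ⟨const_mem_cuspRegular L _, vInf.algebraMap_mem (k0ValIncl A a),
      vMid.algebraMap_mem (k0ValIncl A a), vZero.algebraMap_mem (k0ValIncl A a)⟩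
  B_le_inf := fun x hx => ((mem_f0Aff_iff A L _ _ _ x).mp hx).2.1
  B_le_mid := fun x hx => ((mem_f0Aff_iff A L _ _ _ x).mp hx).2.2.1
  B_le_zero := fun x hx => ((mem_f0Aff_iff A L _ _ _ x).mp hx).2.2.2

end Fermat.Agent.S36lib

end
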