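/-
Item 83 (S36), piece K0-2, concrete part (helper28): the function field `F0(L) = f0Field A L`
(helper24's `SetupK0.lean`: `K0(j_d : d ∣ L)` inside `FF L`, `K0 = k0Field A`) IS the field of
inertia-fixed elements of `FF L`, and `ℚ̄ ⊗_{K0} F0(L) = FF L`.

* `mem_f0Field_iff_isIFixed` : `x ∈ f0Field A L ↔ IsIFixed L A x`;
* `mem_f0Field_iff_coeff`    : `↔` all coefficients of the `q`-expansion of `x` lie in `K0`;
* `mem_f0Field_iff_range`    : `↔ x` is the base change of an element of the function field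
  `laurentBaseChange K0 (modularFunctionFieldFull L) ⊆ K0((q))` over `K0`;  `f0Equiv`;
* `f0_linearIndependent` (linear disjointness), `f0_span`, `f0_adjoin` (`FF L = F0(L)[ℚ̄]`),
  `f0_exists_repr`, `f0_coeff_mem`;
* stability: `f0_heckeAlphaBar_mem`, `f0_heckeBetaBar_mem`, `f0_atkinLehnerFF_mem`, `f0_alQ_mem`,
  general `f0_map_mem_of_comm`.
-/
import Mathlib
import Fermat.Agent.S36lib.FixedFF
import Fermat.Agent.S36lib.SetupK0
import Fermat.Agent.S36lib.ALGen
import Fermat.Agent.S34lib.InertiaRedAL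

set_option autoImplicit false
set_option synthInstance.maxHeartbeats 400000

noncomputable section

namespace Fermat.Agent.S36lib

open ModularCurve AlgebraicCurve HahnSeries IntermediateField
open Fermat.Agent.S24lib Fermat.Agent.S34lib Fermat.Agent.AJlib

section Abstract

variable {K F0 F : Type*} [Field K] [Field F0] [Field F] [Algebra K F] [Algebra F0 F]

/-- if every element of `F` is a sum of products `y * c`, `y ∈ F0`, `c ∈ K`, then `F = F0[K]` -/
theorem s36_adjoin_eq_top_of_repr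
    (h : ∀ x : F, ∃ (n : ℕ) (c : Fin n → K) (y : Fin n → F0),
      x = ∑ i, algebraMap F0 F (y i) * algebraMap K F (c i)) :
    Algebra.adjoin F0 (Set.range (algebraMap K F)) = ⊤ := by
  rw [eq_top_iff]
  intro x _
  obtain ⟨n, c, y, rfl⟩ := h x
  refine Subalgebra.sum_mem _ fun i _ => ?_
  exact Subalgebra.mul_mem _ (Subalgebra.algebraMap_mem _ _) (Algebra.subset_adjoin ⟨c i, rfl⟩)

end Abstract

variable (A : ValuationSubring Kbar) (L : ℕ)

/-- the inertia group as a set of automorphisms -/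
abbrev f0Inertia : Set (Kbar ≃ₐ[ℚ] Kbar) := ((A.inertiaSubgroupIn ℚ : Subgroup _) : Set _)

/-- `K0` is the field of invariants of the inertia group -/
theorem f0_hK0 : ∀ c : Kbar, c ∈ k0Field A ↔ ∀ σ ∈ f0Inertia A, σ c = c :=
  fun c => mem_k0Field_iff A c

/-- the function field of level `L` over `K0`, inside `K0((q))` -/
abbrev f0Series : IntermediateField ↥(k0Field A) (LaurentSeries ↥(k0Field A)) :=
  laurentBaseChange ↥(k0Field A) (modularFunctionFieldFull L)

/-- base change of the constants `K0 → ℚ̄` -/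
def f0ToFF : ↥(f0Series A L) →ₐ[↥(k0Field A)] FF L :=
  toLBC (k0Field A) (modularFunctionFieldFull L)

theorem coe_f0ToFF (y : ↥(f0Series A L)) :
    ((f0ToFF A L y : FF L) : LaurentSeries Kbar)
      = coeffMap (algebraMap ↥(k0Field A) Kbar) (y : LaurentSeries ↥(k0Field A)) := rfl

theorem f0ToFF_injective : Function.Injective (f0ToFF A L) :=
  toLBC_injective (k0Field A) (modularFunctionFieldFull L)

theorem f0ToFF_algebraMap (c : ↥(k0Field A)) :
    f0ToFF A L (algebraMap ↥(k0Field A) ↥(f0Series A L) c) = algebraMap Kbar (FF L) (c : Kbar) :=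
  toLBC_algebraMap (k0Field A) (modularFunctionFieldFull L) c

theorem isIFixed_iff_mem_fixedLBC (x : FF L) :
    IsIFixed L A x ↔ x ∈ fixedLBC (f0Inertia A) (modularFunctionFieldFull L) := Iff.rfl

/-- `IsIFixed` ⇔ the coefficients of the `q`-expansion lie in `K0` -/
theorem isIFixed_iff_coeff (x : FF L) :
    IsIFixed L A x ↔ ∀ n : ℤ, (x : LaurentSeries Kbar).coeff n ∈ k0Field A :=
  mem_fixedLBC_iff_coeff (modularFunctionFieldFull L) (f0_hK0 A)

/-- `IsIFixed` ⇔ base change of an element of the function field over `K0` -/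
theorem isIFixed_iff_range (x : FF L) : IsIFixed L A x ↔ x ∈ Set.range (f0ToFF A L) :=
  mem_fixedLBC_iff_range (modularFunctionFieldFull L) (f0_hK0 A)

theorem f0ToFF_isIFixed (y : ↥(f0Series A L)) : IsIFixed L A (f0ToFF A L y) :=
  (isIFixed_iff_range A L _).mpr ⟨y, rfl⟩

theorem isIFixed_jdF (d : ℕ) [NeZero d] (hd : d ∣ L) : IsIFixed L A (jdF L d hd) :=
  fun σ _ => Subtype.ext (coeffMap_coeffEmb σ _)

theorem isIFixed_const (c : ↥(k0Field A)) : IsIFixed L A (algebraMap Kbar (FF L) (c : Kbar)) :=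
  (algebraMap_mem_fixedLBC_iff (modularFunctionFieldFull L) (f0_hK0 A) _).mpr c.2

variable [NeZero L]

/-- the inertia-fixed elements, as an intermediate field of `FF L / K0` -/
def f0Fixed : IntermediateField ↥(k0Field A) (FF L) :=
  { (fixedLBC (f0Inertia A) (modularFunctionFieldFull L)).toSubring with
    algebraMap_mem' := fun c => isIFixed_const A L c
    inv_mem' := fun _ hx => (fixedLBC (f0Inertia A) (modularFunctionFieldFull L)).inv_mem hx }

omit [NeZero L] in
theorem mem_f0Fixed_iff (x : FF L) : x ∈ f0Fixed A L ↔ IsIFixed L A x := Iff.rfl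

omit [NeZero L] in
theorem f0Field_le_f0Fixed : f0Field A L ≤ f0Fixed A L := by
  rw [f0Field, IntermediateField.adjoin_le_iff]
  rintro x ⟨d, hd, hne, rfl⟩
  exact @isIFixed_jdF A L d hne hd

/-- the base change of every element of the function field over `K0` lies in `K0(j_d)` -/
theorem f0ToFF_mem_f0Field (y : ↥(f0Series A L)) : f0ToFF A L y ∈ f0Field A L := by
  -- the subfield of `K0((q))` of the series whose base change comes from `f0Field`
  set T : Subfield (LaurentSeries Kbar) :=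
    (f0Field A L).toSubfield.map
      ((modularFunctionFieldBar L).val : FF L →+* LaurentSeries Kbar) with hT
  have hconst : ∀ c : ↥(k0Field A), algebraMap Kbar (LaurentSeries Kbar) (c : Kbar) ∈ T :=
    fun c => ⟨algebraMap Kbar (FF L) (c : Kbar), const_mem_f0Field A L c, rfl⟩
  -- rational part
  have hrat : ∀ z ∈ modularFunctionFieldFull L, coeffEmb Kbar z ∈ T := by
    intro z hz
    have hz' : z ∈ Subfield.closure (Set.range (algebraMap ℚ (LaurentSeries ℚ)) ∪
        divisorExpansions L) := hz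
    have hle : Subfield.closure (Set.range (algebraMap ℚ (LaurentSeries ℚ)) ∪
        divisorExpansions L) ≤ T.comap (coeffEmb Kbar) := by
      rw [Subfield.closure_le]
      rintro w (⟨r, rfl⟩ | ⟨d, hne, hd, rfl⟩)
      · show coeffEmb Kbar (algebraMap ℚ (LaurentSeries ℚ) r) ∈ T
        have h1 : coeffEmb Kbar (algebraMap ℚ (LaurentSeries ℚ) r)
            = algebraMap Kbar (LaurentSeries Kbar) (algebraMap ℚ Kbar r) := by
          rw [algebraMap_laurentSeries_eq_single, algebraMap_laurentSeries_eq_single, coeffEmb,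
            coeffMap_single]
        rw [h1]
        exact hconst ⟨algebraMap ℚ Kbar r, (k0Field A).algebraMap_mem r⟩
      · show coeffEmb Kbar (qExpand ℚ d jq) ∈ T
        exact ⟨@jdF L d hne hd, @jdF_mem_f0Field A L _ d hne hd, rfl⟩
    exact hle hz'
  have hle : (f0Series A L).toSubfield ≤ T.comap (coeffMap (algebraMap ↥(k0Field A) Kbar)) := by
    have h0 : (f0Series A L).toSubfield
        = Subfield.closure (Set.range (algebraMap ↥(k0Field A) (LaurentSeries ↥(k0Field A))) ∪
          (⇑(coeffEmb ↥(k0Field A)) '' (modularFunctionFieldFull L : Set (LaurentSeries ℚ)))) :=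
      rfl
    rw [h0, Subfield.closure_le]
    rintro w (⟨c, rfl⟩ | ⟨z, hz, rfl⟩)
    · show coeffMap (algebraMap ↥(k0Field A) Kbar)
        (algebraMap ↥(k0Field A) (LaurentSeries ↥(k0Field A)) c) ∈ T
      have h1 : coeffMap (algebraMap ↥(k0Field A) Kbar)
          (algebraMap ↥(k0Field A) (LaurentSeries ↥(k0Field A)) c)
          = algebraMap Kbar (LaurentSeries Kbar) (c : Kbar) := by
        rw [algebraMap_laurentSeries_eq_single, coeffMap_single,
          ← algebraMap_laurentSeries_eq_single]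
        rfl
      rw [h1]
      exact hconst c
    · show coeffMap (algebraMap ↥(k0Field A) Kbar) (coeffEmb ↥(k0Field A) z) ∈ T
      have h1 : coeffMap (algebraMap ↥(k0Field A) Kbar) (coeffEmb ↥(k0Field A) z)
          = coeffEmb Kbar z := by
        rw [coeffEmb, coeffMap_coeffMap]
        exact coeffMap_congr (Subsingleton.elim _ _) z
      rw [h1]
      exact hrat z hz
  obtain ⟨x, hx, hxy⟩ := hle y.2
  have : x = f0ToFF A L y := Subtype.ext hxy
  rw [← this]
  exact hx

/-- **K0-2**: `F0(L) = K0(j_d : d ∣ L)` is the field of inertia-fixed elements of `FF L` -/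
theorem mem_f0Field_iff_isIFixed (x : FF L) : x ∈ f0Field A L ↔ IsIFixed L A x := by
  constructor
  · intro hx
    exact f0Field_le_f0Fixed A L hx
  · intro hx
    obtain ⟨y, rfl⟩ := (isIFixed_iff_range A L x).mp hx
    exact f0ToFF_mem_f0Field A L y

theorem f0Field_eq_f0Fixed : f0Field A L = f0Fixed A L :=
  SetLike.ext fun x => mem_f0Field_iff_isIFixed A L x

theorem mem_f0Field_iff_coeff (x : FF L) :
    x ∈ f0Field A L ↔ ∀ n : ℤ, (x : LaurentSeries Kbar).coeff n ∈ k0Field A := by
  rw [mem_f0Field_iff_isIFixed, isIFixed_iff_coeff]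

theorem mem_f0Field_iff_range (x : FF L) : x ∈ f0Field A L ↔ x ∈ Set.range (f0ToFF A L) := by
  rw [mem_f0Field_iff_isIFixed, isIFixed_iff_range]

theorem f0Field_fixed (x : ↥(f0Field A L)) {σ : Kbar ≃ₐ[ℚ] Kbar}
    (hσ : σ ∈ A.inertiaSubgroupIn ℚ) : galFF L σ • (x : FF L) = x :=
  (mem_f0Field_iff_isIFixed A L _).mp x.2 σ hσ

/-- the `q`-expansion over `K0` of an element of `F0(L)` -/
def f0Equiv : ↥(f0Series A L) ≃ₐ[↥(k0Field A)] ↥(f0Field A L) :=
  AlgEquiv.ofBijective
    ((f0ToFF A L).codRestrict (f0Field A L).toSubalgebra (f0ToFF_mem_f0Field A L))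
    ⟨fun _ _ h => f0ToFF_injective A L (congrArg Subtype.val h),
      fun x => by
        obtain ⟨y, hy⟩ := (mem_f0Field_iff_range A L x.1).mp x.2
        exact ⟨y, Subtype.ext hy⟩⟩

theorem coe_f0Equiv (y : ↥(f0Series A L)) :
    ((f0Equiv A L y : ↥(f0Field A L)) : FF L) = f0ToFF A L y := rfl

theorem coe_f0Equiv_symm (x : ↥(f0Field A L)) :
    coeffMap (algebraMap ↥(k0Field A) Kbar) (((f0Equiv A L).symm x : ↥(f0Series A L)) :
      LaurentSeries ↥(k0Field A)) = ((x : FF L) : LaurentSeries Kbar) := by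
  rw [← coe_f0ToFF, ← coe_f0Equiv, AlgEquiv.apply_symm_apply]

/-! ### `ℚ̄ ⊗_{K0} F0(L) = FF L` -/

/-- **linear disjointness**: elements of `F0(L)` which are linearly independent over `K0` are
linearly independent over `ℚ̄` -/
theorem f0_linearIndependent {ι : Type*} (v : ι → ↥(f0Field A L))
    (hli : LinearIndependent ↥(k0Field A) v) :
    LinearIndependent Kbar (fun i => ((v i : ↥(f0Field A L)) : FF L)) := by
  apply linearIndependent_of_fixed (modularFunctionFieldFull L) (f0_hK0 A)
    (fun i => ((v i : ↥(f0Field A L)) : FF L)) (fun i σ hσ => f0Field_fixed A L (v i) hσ)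
  exact hli.map' (f0Field A L).val.toLinearMap
    (LinearMap.ker_eq_bot.mpr (f0Field A L).val.toRingHom.injective)

/-- coefficients of an inertia-fixed element w.r.t. a `K0`-independent family of `F0(L)` -/
theorem f0_coeff_mem {ι : Type*} (v : ι → ↥(f0Field A L))
    (hli : LinearIndependent ↥(k0Field A) v) (s : Finset ι) (a : ι → Kbar)
    (hx : IsIFixed L A (∑ i ∈ s, a i • ((v i : ↥(f0Field A L)) : FF L))) :
    ∀ i ∈ s, a i ∈ k0Field A := by
  apply coeff_mem_of_fixed (modularFunctionFieldFull L) (f0_hK0 A)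
    (fun i => ((v i : ↥(f0Field A L)) : FF L)) (fun i σ hσ => f0Field_fixed A L (v i) hσ)
    _ s a hx
  exact hli.map' (f0Field A L).val.toLinearMap
    (LinearMap.ker_eq_bot.mpr (f0Field A L).val.toRingHom.injective)

/-- `FF L` is spanned over `ℚ̄` by `F0(L)` -/
theorem f0_span : Submodule.span Kbar ((f0Field A L : Set (FF L))) = ⊤ := by
  have h := span_fixedLBC (H := f0Inertia A) (modularFunctionFieldFull L)
  have e : ((f0Field A L : Set (FF L)))
      = (fixedLBC (f0Inertia A) (modularFunctionFieldFull L) : Set (FF L)) := by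
    ext x
    exact mem_f0Field_iff_isIFixed A L x
  rw [e]
  exact h

/-- explicit form: every `x ∈ FF L` is `∑ y i * c i` with `y i ∈ F0(L)`, `c i ∈ ℚ̄` -/
theorem f0_exists_repr (x : FF L) :
    ∃ (n : ℕ) (c : Fin n → Kbar) (y : Fin n → ↥(f0Field A L)),
      x = ∑ i, algebraMap ↥(f0Field A L) (FF L) (y i) * algebraMap Kbar (FF L) (c i) := by
  have hx : x ∈ Submodule.span Kbar ((f0Field A L : Set (FF L))) := by
    rw [f0_span]
    trivial
  obtain ⟨n, f, g, hfg⟩ := (Submodule.mem_span_set').mp hx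
  refine ⟨n, f, fun i => ⟨(g i).1, (g i).2⟩, ?_⟩
  rw [← hfg]
  refine Finset.sum_congr rfl fun i _ => ?_
  rw [Algebra.smul_def, mul_comm]
  rfl

/-- `FF L = F0(L)[ℚ̄]` (helper27's `hgen`) -/
theorem f0_adjoin :
    Algebra.adjoin ↥(f0Field A L) (Set.range (algebraMap Kbar (FF L))) = ⊤ :=
  s36_adjoin_eq_top_of_repr (f0_exists_repr A L)

/-! ### stability under the degeneracy maps and the Atkin–Lehner involutions -/

variable {L}

/-- a ring homomorphism commuting with the inertia action maps `F0` into `F0` -/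
theorem f0_map_mem_of_comm {L' : ℕ} [NeZero L'] (φ : FF L →+* FF L')
    (hφ : ∀ σ ∈ A.inertiaSubgroupIn ℚ, ∀ x, φ (galFF L σ • x) = galFF L' σ • φ x)
    {x : FF L} (hx : x ∈ f0Field A L) : φ x ∈ f0Field A L' := by
  rw [mem_f0Field_iff_isIFixed] at hx ⊢
  intro σ hσ
  rw [← hφ σ hσ, hx σ hσ]

theorem f0_heckeAlphaBar_mem (q : ℕ) [NeZero q] {x : FF L} (hx : x ∈ f0Field A L) :
    heckeAlphaBar Kbar L q x ∈ f0Field A (L * q) := by
  rw [mem_f0Field_iff_coeff] at hx ⊢
  intro n
  rw [coe_heckeAlphaBar]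
  exact hx n

theorem f0_heckeBetaBar_mem (q : ℕ) [NeZero q] {x : FF L} (hx : x ∈ f0Field A L) :
    heckeBetaBar Kbar L q x ∈ f0Field A (L * q) := by
  rw [mem_f0Field_iff_coeff] at hx ⊢
  intro n
  rw [coe_heckeBetaBar]
  by_cases hn : (q : ℤ) ∣ n
  · obtain ⟨k, rfl⟩ := hn
    rw [qExpand_coeff_mul q]
    exact hx k
  · rw [qExpand_coeff_of_not_dvd q _ hn]
    exact zero_mem _

theorem f0_atkinLehnerFF_mem (q : ℕ) (hq : q.Prime) (hqL : q ∣ L) (hq2 : ¬ q ^ 2 ∣ L)
    {x : FF L} (hx : x ∈ f0Field A L) : atkinLehnerFF L q hq hqL hq2 x ∈ f0Field A L :=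
  f0_map_mem_of_comm A ((atkinLehnerFF L q hq hqL hq2 : FF L ≃ₐ[Kbar] FF L) : FF L →+* FF L)
    (fun σ _ x => inred_al_comm L q hq hqL hq2 σ x) hx

theorem f0_alQ_mem (Q : ℕ) (hQ : Q ∣ L) (hcop : Nat.Coprime Q (L / Q))
    {x : FF L} (hx : x ∈ f0Field A L) : alQ L Q hQ hcop x ∈ f0Field A L :=
  f0_map_mem_of_comm A ((alQ L Q hQ hcop : FF L ≃ₐ[Kbar] FF L) : FF L →+* FF L)
    (fun σ _ x => alQ_comm L Q hQ hcop
      ((arithmeticRingAut (modularFunctionFieldFull L) σ : FF L ≃+* FF L) : FF L →+* FF L)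
      (fun c => ⟨σ c, arithmeticRingAut_algebraMap (modularFunctionFieldFull L) σ c⟩)
      (fun d _ hd => inred_smul_jdF L σ d hd) x) hx

end Fermat.Agent.S36lib

end
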