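/-
Item 83 (S36), piece MIDEXP (helper18): the MIDDLE expansions of `F_{M'q²}` (`q` prime, `q ∤ M'`).

For every primitive `q`-th root of unity `ζ ∈ ℚ̄` there is a ring embedding
`E_ζ : F_{M'q²} → ℚ̄((X))` (the expansion at the cusp `1/(M'qc)`, `c` prime to `q`) with
  * `E_ζ (α Y) = Y`                      (`Y ∈ F_{M'q}`, `α` = inclusion),
  * `E_ζ (β (β' Y')) = Y'(ζ X)`           (`Y' ∈ F_{M'}`, `β β' Y' = Y'(X^{q²})`).
Together with the standard expansion these are the `q` conjugates of `F_{M'q²}` over `α F_{M'q}`.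

Route: `h = (1 0; N c 1) ∈ Γ₀(N)`, `N = M'q`; `q d' q · (h z) = δ · ((d' q z + B)/q)` with
`δ ∈ SL(2,ℤ)` when `(M'/d') c B ≡ 1 (q)`.   No sorry.
-/
import Mathlib
import Fermat.Agent.S37lib.NormConj
import Fermat.Agent.S35lib.NormProd
import Fermat.Agent.S36lib.Speed

set_option autoImplicit false
set_option linter.style.haveILetI false
set_option linter.unusedSectionVars false

open scoped MatrixGroups
open UpperHalfPlane ModularCurve CongruenceSubgroup AlgebraicCurve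
open Fermat.Agent.S24lib Fermat.Agent.HeckeBar Fermat.Agent.S37lib Fermat.Agent.S35lib

namespace Fermat.Agent.S36lib

/-! ### The matrix `h = (1 0; N c 1)` -/

/-- the matrix `(1 0; N c 1)` -/
def mxH (N c : ℕ) : SL(2, ℤ) :=
  ⟨!![1, 0; (N : ℤ) * (c : ℤ), 1], by rw [Matrix.det_fin_two_of]; ring⟩

theorem mxH_10 (N c : ℕ) : mxH N c 1 0 = (N : ℤ) * (c : ℤ) := rfl

theorem mxH_11 (N c : ℕ) : mxH N c 1 1 = 1 := rfl

theorem mxH_mem_Gamma0 (N c : ℕ) : mxH N c ∈ Gamma0 N := by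
  rw [Gamma0_mem, mxH_10]
  simp

/-- `q d · (h • z) = δ • ((d z + B)/q)` for `h = (1 0; N c 1)`, `N = d n'`, `n' c B + w q = 1`. -/
theorem mx_nmulH_smul (N q d n' c : ℕ) [NeZero q] [NeZero d] (hN : N = d * n') (B w : ℤ)
    (hB : (n' : ℤ) * (c : ℤ) * B + w * (q : ℤ) = 1) :
    ∃ δ : SL(2, ℤ), ∀ z : ℍ,
      nmulH (q * d) (mxH N c • z) =
        δ • affH d q B (Nat.pos_of_ne_zero (NeZero.ne d)) (Nat.pos_of_ne_zero (NeZero.ne q)) z := by
  let δ : SL(2, ℤ) := ⟨!![(q : ℤ), -B; (n' : ℤ) * (c : ℤ), w], by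
    rw [Matrix.det_fin_two_of]; linear_combination hB⟩
  refine ⟨δ, fun z => ?_⟩
  apply UpperHalfPlane.ext
  rw [coe_nmulH, UpperHalfPlane.coe_specialLinearGroup_apply,
    UpperHalfPlane.coe_specialLinearGroup_apply, coe_affH]
  simp only [algebraMap_int_eq, eq_intCast, Complex.ofReal_intCast]
  have hδ00 : δ 0 0 = (q : ℤ) := rfl
  have hδ01 : δ 0 1 = -B := rfl
  have hδ10 : δ 1 0 = (n' : ℤ) * (c : ℤ) := rfl
  have hδ11 : δ 1 1 = w := rfl
  have hh00 : mxH N c 0 0 = 1 := rfl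
  have hh01 : mxH N c 0 1 = 0 := rfl
  rw [hδ00, hδ01, hδ10, hδ11, mxH_10, mxH_11, hh00, hh01]
  have hqC : (q : ℂ) ≠ 0 := by exact_mod_cast NeZero.ne q
  have hden1 : (((N : ℤ) * (c : ℤ) : ℤ) : ℂ) * (z : ℂ) + ((1 : ℤ) : ℂ) ≠ 0 :=
    dist_lin_ne_zero ((N : ℤ) * (c : ℤ)) 1 (Or.inr one_ne_zero) z
  have hden2 : (((n' : ℤ) * (c : ℤ) : ℤ) : ℂ) * (((d : ℂ) * (z : ℂ) + ((B : ℤ) : ℂ)) / (q : ℂ))
      + ((w : ℤ) : ℂ) ≠ 0 := by
    have h1 : ((n' : ℤ) * (c : ℤ)) ≠ 0 ∨ w ≠ 0 := by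
      by_contra hcon
      rw [not_or, not_not, not_not] at hcon
      rw [hcon.1, hcon.2] at hB
      simp at hB
    have := dist_lin_ne_zero ((n' : ℤ) * (c : ℤ)) w h1
      (affH d q B (Nat.pos_of_ne_zero (NeZero.ne d)) (Nat.pos_of_ne_zero (NeZero.ne q)) z)
    simpa using this
  have hNC : (N : ℂ) = (d : ℂ) * (n' : ℂ) := by
    rw [hN]; push_cast; ring
  have hBC : (n' : ℂ) * (c : ℂ) * (B : ℂ) + (w : ℂ) * (q : ℂ) = 1 := by
    exact_mod_cast congrArg (fun t : ℤ => (t : ℂ)) hB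
  rw [mul_div_assoc', div_eq_div_iff hden1 hden2]
  push_cast
  rw [hNC]
  field_simp
  linear_combination ((d : ℂ) * (z : ℂ)) * hBC

/-- the function `z ↦ j(q d · (h • z))` is `z ↦ j((d z + B)/q)` -/
theorem mx_jH_conj (N q d n' c : ℕ) [NeZero q] [NeZero d] (hN : N = d * n') (B w : ℤ)
    (hB : (n' : ℤ) * (c : ℤ) * B + w * (q : ℤ) = 1) (z : ℍ) :
    jH (nmulH (q * d) (mxH N c • z)) =
      jH (affH d q B (Nat.pos_of_ne_zero (NeZero.ne d)) (Nat.pos_of_ne_zero (NeZero.ne q)) z) := by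
  obtain ⟨δ, hδ⟩ := mx_nmulH_smul N q d n' c hN B w hB
  rw [hδ z, jH_smul]


/-! ### The expansion of the conjugate -/

/-- coefficients of a series `t^{-e} ∑ a(k/e - 1) t^k` -/
theorem mx_bridge_coeff (a : ℤ → ℂ) (ha : ∀ t : ℤ, t < -1 → a t = 0) (e : ℕ) (he : 0 < e)
    (k : ℤ) :
    (HahnSeries.single (-(e : ℤ)) (1 : ℂ) * HahnSeries.ofPowerSeries ℤ ℂ
      (PowerSeries.mk fun k : ℕ => if e ∣ k then a (((k / e : ℕ) : ℤ) - 1) else 0)).coeff k =
      if (e : ℤ) ∣ k then a (k / (e : ℤ)) else 0 := by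
  rw [HahnSeries.coeff_single_mul, one_mul, sub_neg_eq_add]
  have he' : (0 : ℤ) < (e : ℤ) := by exact_mod_cast he
  by_cases hk : 0 ≤ k + e
  · obtain ⟨n, hn⟩ := Int.eq_ofNat_of_zero_le hk
    rw [hn, HahnSeries.ofPowerSeries_apply_coeff, PowerSeries.coeff_mk]
    have hdvd : e ∣ n ↔ (e : ℤ) ∣ k := by
      rw [← Int.natCast_dvd_natCast, ← hn]
      exact (Int.dvd_add_left (dvd_refl _))
    by_cases h1 : (e : ℤ) ∣ k
    · rw [if_pos (hdvd.2 h1), if_pos h1]
      obtain ⟨t, rfl⟩ := h1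
      have h2 : ((n / e : ℕ) : ℤ) = t + 1 := by
        have : (n : ℤ) = (e : ℤ) * (t + 1) := by rw [← hn]; ring
        rw [Int.natCast_div, this, Int.mul_ediv_cancel_left _ he'.ne']
      rw [h2, Int.mul_ediv_cancel_left _ he'.ne', add_sub_cancel_right]
    · rw [if_neg (fun h => h1 (hdvd.1 h)), if_neg h1]
  · rw [not_le] at hk
    rw [ofPowerSeries_coeff_neg _ hk]
    by_cases h1 : (e : ℤ) ∣ k
    · rw [if_pos h1]
      obtain ⟨t, rfl⟩ := h1
      rw [Int.mul_ediv_cancel_left _ he'.ne']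
      have ht : t < -1 := by
        by_contra hcon
        rw [not_lt] at hcon
        have : 0 ≤ (e : ℤ) * (t + 1) := mul_nonneg he'.le (by linarith)
        linarith [mul_add (e : ℤ) t 1, mul_one (e : ℤ)]
      rw [ha t ht]
    · rw [if_neg h1]

theorem mx_qExpand_coeff (u : ℂˣ) (e : ℕ) [NeZero e] (k : ℤ) :
    (qExpand ℂ e (twq u (coeffMap (algebraMap ℚ ℂ) jq))).coeff k =
      if (e : ℤ) ∣ k then ((jq.coeff (k / (e : ℤ)) : ℚ) : ℂ) * (u : ℂ) ^ (k / (e : ℤ)) else 0 := by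
  have he' : (e : ℤ) ≠ 0 := by exact_mod_cast NeZero.ne e
  by_cases h1 : (e : ℤ) ∣ k
  · rw [if_pos h1]
    obtain ⟨t, rfl⟩ := h1
    rw [qExpand_coeff_mul, twq_coeff, coeffMap_coeff, Int.mul_ediv_cancel_left _ he',
      Units.val_zpow_eq_zpow_val, mul_comm]
    rfl
  · rw [if_neg h1, qExpand_coeff_of_not_dvd _ _ h1]

theorem mx_expInf_conj (N q d n' c : ℕ) [NeZero N] [NeZero q] [NeZero d] (hN : N = d * n')
    (B w : ℤ) (hB : (n' : ℤ) * (c : ℤ) * B + w * (q : ℤ) = 1) (hdvd : q * d ∣ N * q)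
    (u : ℂˣ) (hu : (u : ℂ) = zetaC q ^ B) :
    expInf (N * q) ((mxH N c)⁻¹ • jdWH (N * q) (q * d) hdvd)
      = qExpand ℂ (N * d) (twq u (coeffMap (algebraMap ℚ ℂ) jq)) := by
  have hd0 : 0 < d := Nat.pos_of_ne_zero (NeZero.ne d)
  have hN0 : 0 < N := Nat.pos_of_ne_zero (NeZero.ne N)
  have hq0 : 0 < q := Nat.pos_of_ne_zero (NeZero.ne q)
  have hune : (u : ℂ) ≠ 0 := Units.ne_zero u
  obtain ⟨a, ha_def⟩ : ∃ a : ℤ → ℂ, a = fun t : ℤ => ((jq.coeff t : ℚ) : ℂ) * (u : ℂ) ^ t :=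
    ⟨_, rfl⟩
  have ha0 : ∀ t : ℤ, t < -1 → a t = 0 := by
    intro t ht
    rw [ha_def]
    simp only
    rw [coeff_jq_of_lt ht, Rat.cast_zero, zero_mul]
  have hsum : ∀ z : ℍ, HasSum (fun k : ℕ =>
      (if N * d ∣ k then a (((k / (N * d) : ℕ) : ℤ) - 1) else 0) *
        Function.Periodic.qParam ((N * q : ℕ) : ℝ) (z : ℂ) ^ k)
      (Function.Periodic.qParam ((N * q : ℕ) : ℝ) (z : ℂ) ^ (N * d) *
        ((((mxH N c)⁻¹ • jdWH (N * q) (q * d) hdvd : WH (N * q)) : WH (N * q)) : ℍ → ℂ) z) := by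
    intro z
    refine hasSum_pow_reindex (N * d) (Nat.mul_pos hN0 hd0)
      (fun n : ℕ => a ((n : ℤ) - 1)) _ _ ?_
    have h1 := hasSum_jH_affH (N * q) d q B hd0 hq0 (Nat.mul_pos hN0 hq0) (dvd_mul_left q N) z
    rw [← hu, Nat.mul_div_cancel _ hq0, mul_comm d N] at h1
    have hval : ((((mxH N c)⁻¹ • jdWH (N * q) (q * d) hdvd : WH (N * q)) : WH (N * q)) : ℍ → ℂ) z
        = jH (affH d q B hd0 hq0 z) := by
      rw [wh_smul_apply, inv_inv]
      show jH (ofComplex (((q * d : ℕ) : ℂ) * ((mxH N c • z : ℍ) : ℂ))) = _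
      rw [jd_raw_eq, mx_jH_conj N q d n' c hN B w hB z]
    rw [hval]
    have h2 := h1.mul_left ((u : ℂ)⁻¹)
    have hS : (u : ℂ)⁻¹ * ((u : ℂ) * Function.Periodic.qParam ((N * q : ℕ) : ℝ) (z : ℂ) ^ (N * d)
        * jH (affH d q B hd0 hq0 z)) =
        Function.Periodic.qParam ((N * q : ℕ) : ℝ) (z : ℂ) ^ (N * d)
          * jH (affH d q B hd0 hq0 z) := by
      field_simp
    have hF : (fun i : ℕ => (u : ℂ)⁻¹ * (((jq.coeff ((i : ℤ) - 1) : ℚ) : ℂ) *
        ((u : ℂ) * Function.Periodic.qParam ((N * q : ℕ) : ℝ) (z : ℂ) ^ (N * d)) ^ i)) =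
        fun n : ℕ => a ((n : ℤ) - 1) *
          (Function.Periodic.qParam ((N * q : ℕ) : ℝ) (z : ℂ) ^ (N * d)) ^ n := by
      funext n
      rw [ha_def]
      simp only
      rw [mul_pow, zpow_sub_one₀ hune, zpow_natCast]
      ring
    rw [hS, hF] at h2
    exact h2
  rw [expInf_eq_of_hasSum (N * q) _ (N * d) _ hsum]
  ext k
  rw [mx_bridge_coeff a ha0 (N * d) (Nat.mul_pos hN0 hd0) k, mx_qExpand_coeff u (N * d) k, ha_def]


/-! ### The middle embedding into `ℂ((t))` -/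

section Emb

variable (N q : ℕ) [NeZero N] [NeZero q]

/-- the expansion of `F_{Nq}` at the cusp `h⁻¹∞`, `h = (1 0; N c 1)` -/
noncomputable def midEh (c : ℕ) : FF (N * q) →+* LaurentSeries ℂ :=
  embF (N * q) (twist (N * q) (expInf (N * q)) (mxH N c)⁻¹)
    (twist_injective (N * q) (expInf_injective (N * q)) (mxH N c)⁻¹)

theorem midEh_alpha (c : ℕ) (Y : FF N) :
    midEh N q c (heckeAlphaBar Kbar N q Y) = inclL (N * q) (Y : LaurentSeries Kbar) :=
  nc_embF_twist_alpha N q (mxH N c)⁻¹ (inv_mem (mxH_mem_Gamma0 N c)) Y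

theorem midEh_const (c : ℕ) (a : Kbar) :
    midEh N q c (algebraMap Kbar (FF (N * q)) a)
      = inclL (N * q) (algebraMap Kbar (LaurentSeries Kbar) a) := by
  have h1 := midEh_alpha N q c (algebraMap Kbar (FF N) a)
  rw [AlgHom.commutes] at h1
  rw [h1, nc_coe_algebraMap]

end Emb

theorem mx_qExpand_congr {A B : ℕ} [NeZero A] [NeZero B] (h : A = B) (x : LaurentSeries ℂ) :
    qExpand ℂ A x = qExpand ℂ B x := by
  subst h
  rfl

theorem mx_twq_algebraMap {R : Type*} [Field R] (u : Rˣ) (a : R) :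
    twq u (algebraMap R (LaurentSeries R) a) = algebraMap R (LaurentSeries R) a := by
  ext n
  rw [twq_coeff, algebraMap_laurentSeries_eq_single, HahnSeries.coeff_single]
  by_cases hn : n = 0
  · subst hn
    simp
  · rw [if_neg hn, mul_zero]

theorem mx_coeffMap_coeffEmb (x : LaurentSeries ℚ) :
    coeffMap ιC (coeffEmb Kbar x) = coeffMap (algebraMap ℚ ℂ) x := by
  unfold coeffEmb
  rw [coeffMap_coeffMap, ιC_comp_algebraMap]

section Mid

variable (M' q : ℕ) [NeZero M'] [NeZero q]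

/-- the middle embedding on `β β' Y'`: `Y'(ζ X)` -/
theorem midEh_beta_beta (c b : ℕ) (w : ℤ)
    (hw : (M' : ℤ) * (c : ℤ) * (b : ℤ) + w * (q : ℤ) = 1)
    (ζ : Kbarˣ) (hζ : ιC (ζ : Kbar) = zetaC q ^ b) (Y' : FF M') :
    midEh (M' * q) q c (heckeBetaBar Kbar (M' * q) q (heckeBetaBar Kbar M' q Y'))
      = inclL (M' * q * q) (twq ζ (Y' : LaurentSeries Kbar)) := by
  have key : (midEh (M' * q) q c).comp
        ((heckeBetaBar Kbar (M' * q) q).toRingHom.comp (heckeBetaBar Kbar M' q).toRingHom)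
      = (inclL (M' * q * q)).comp ((twq ζ).comp (algebraMap (FF M') (LaurentSeries Kbar))) := by
    apply FF_ringHom_ext
    · intro a
      simp only [RingHom.comp_apply]
      show midEh (M' * q) q c (heckeBetaBar Kbar (M' * q) q (heckeBetaBar Kbar M' q
        (algebraMap Kbar (FF M') a))) = inclL (M' * q * q) (twq ζ _)
      rw [AlgHom.commutes, AlgHom.commutes, midEh_const]
      show _ = inclL (M' * q * q) (twq ζ (algebraMap Kbar (LaurentSeries Kbar) a))
      rw [mx_twq_algebraMap]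
    · intro d' _ hd'
      simp only [RingHom.comp_apply]
      show midEh (M' * q) q c (heckeBetaBar Kbar (M' * q) q (heckeBetaBar Kbar M' q
        (jdF M' d' hd'))) = inclL (M' * q * q) (twq ζ (jdF M' d' hd' : _))
      obtain ⟨e, he⟩ := hd'
      have hN : M' * q = (q * d') * e := by rw [he]; ring
      have hB : (e : ℤ) * (c : ℤ) * ((b : ℤ) * (d' : ℤ)) + w * (q : ℤ) = 1 := by
        have h1 : (M' : ℤ) = (d' : ℤ) * (e : ℤ) := by exact_mod_cast he
        rw [h1] at hw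
        linear_combination hw
      have hu : (((Units.map (ιC : Kbar →* ℂ) ζ) ^ d' : ℂˣ) : ℂ)
          = zetaC q ^ ((b : ℤ) * (d' : ℤ)) := by
        rw [Units.val_pow_eq_pow_val, Units.coe_map]
        show (ιC (ζ : Kbar)) ^ d' = _
        rw [hζ, zpow_mul, zpow_natCast, zpow_natCast]
      unfold midEh
      rw [heckeBetaBar_eq_qpowBar M' q, qpowBar_jdF, heckeBetaBar_eq_qpowBar (M' * q) q,
        qpowBar_jdF, embF_jdF,
        twist_apply, mx_expInf_conj (M' * q) q (q * d') e c hN ((b : ℤ) * (d' : ℤ)) w hB _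
          ((Units.map (ιC : Kbar →* ℂ) ζ) ^ d') hu,
        coe_jdF, nc_inclL_twq, mx_coeffMap_coeffEmb, coeffMap_qExpand, nc_twq_qExpand,
        qExpand_qExpand]
      exact mx_qExpand_congr (by ring) _
  exact congrArg (fun φ : FF M' →+* LaurentSeries ℂ => φ Y') key

/-- `F_{M'q²}` is generated as a field by `α(F_{M'q})` and `β β'(F_{M'})` (`q` prime):
induction principle. -/
theorem mx_induction (hq : q.Prime) {p : FF (M' * q * q) → Prop}
    (hα : ∀ Y : FF (M' * q), p (heckeAlphaBar Kbar (M' * q) q Y))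
    (hβ : ∀ Y' : FF M', p (heckeBetaBar Kbar (M' * q) q (heckeBetaBar Kbar M' q Y')))
    (hadd : ∀ x y, p x → p y → p (x + y)) (hneg : ∀ x, p x → p (-x))
    (hmul : ∀ x y, p x → p y → p (x * y)) (hinv : ∀ x, p x → p x⁻¹) : ∀ x, p x := by
  apply FF_induction (M' * q * q) _ _ hadd hneg hmul hinv
  · intro a
    have h1 := hα (algebraMap Kbar (FF (M' * q)) a)
    rwa [AlgHom.commutes] at h1
  · intro D _ hD
    by_cases hqD : q ∣ D
    · obtain ⟨e, rfl⟩ := hqD
      have he : e ∣ M' * q := by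
        have h1 : q * e ∣ q * (M' * q) := by rwa [mul_comm q (M' * q)]
        exact (Nat.mul_dvd_mul_iff_left hq.pos).1 h1
      by_cases hqe : q ∣ e
      · obtain ⟨e', rfl⟩ := hqe
        have he' : e' ∣ M' := by
          have h1 : q * e' ∣ q * M' := by rwa [mul_comm q M']
          exact (Nat.mul_dvd_mul_iff_left hq.pos).1 h1
        haveI : NeZero e' := ⟨fun h => by
          rw [h, zero_dvd_iff] at he'; exact NeZero.ne M' he'⟩
        have key : jdF (M' * q * q) (q * (q * e')) hD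
            = heckeBetaBar Kbar (M' * q) q (heckeBetaBar Kbar M' q (jdF M' e' he')) := by
          rw [heckeBetaBar_eq_qpowBar M' q, qpowBar_jdF, heckeBetaBar_eq_qpowBar (M' * q) q,
            qpowBar_jdF]
        rw [key]
        exact hβ _
      · have heM : e ∣ M' := by
          have hcop : Nat.Coprime e q := (Nat.Prime.coprime_iff_not_dvd hq).2 hqe |>.symm
          exact hcop.dvd_of_dvd_mul_right he
        have hqe' : q * e ∣ M' * q := by
          rw [mul_comm M' q]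
          exact Nat.mul_dvd_mul_left q heM
        have key : jdF (M' * q * q) (q * e) hD
            = heckeAlphaBar Kbar (M' * q) q (jdF (M' * q) (q * e) hqe') := by
          rw [heckeAlphaBar_eq_inclBar, inclBar_jdF]
        rw [key]
        exact hα _
    · have hDN : D ∣ M' * q := by
        have hcop : Nat.Coprime D q := (Nat.Prime.coprime_iff_not_dvd hq).2 hqD |>.symm
        exact hcop.dvd_of_dvd_mul_right hD
      have key : jdF (M' * q * q) D hD
          = heckeAlphaBar Kbar (M' * q) q (jdF (M' * q) D hDN) := by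
        rw [heckeAlphaBar_eq_inclBar, inclBar_jdF]
      rw [key]
      exact hα _

/-- the middle expansion has coefficients in `ℚ̄` and is a series in `t^{M'q²}` -/
theorem midEh_mem_range (hq : q.Prime) (c b : ℕ) (w : ℤ)
    (hw : (M' : ℤ) * (c : ℤ) * (b : ℤ) + w * (q : ℤ) = 1)
    (ζ : Kbarˣ) (hζ : ιC (ζ : Kbar) = zetaC q ^ b) (x : FF (M' * q * q)) :
    ∃ y : LaurentSeries Kbar, inclL (M' * q * q) y = midEh (M' * q) q c x := by
  induction x using mx_induction M' q hq with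
  | hα Y => exact ⟨(Y : LaurentSeries Kbar), (midEh_alpha (M' * q) q c Y).symm⟩
  | hβ Y' =>
    exact ⟨twq ζ (Y' : LaurentSeries Kbar), (midEh_beta_beta M' q c b w hw ζ hζ Y').symm⟩
  | hadd x y hx hy =>
    obtain ⟨a, ha⟩ := hx
    obtain ⟨b, hb⟩ := hy
    exact ⟨a + b, by rw [map_add, map_add, ha, hb]⟩
  | hneg x hx =>
    obtain ⟨a, ha⟩ := hx
    exact ⟨-a, by rw [map_neg, map_neg, ha]⟩
  | hmul x y hx hy =>
    obtain ⟨a, ha⟩ := hx
    obtain ⟨b, hb⟩ := hy
    exact ⟨a * b, by rw [map_mul, map_mul, ha, hb]⟩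
  | hinv x hx =>
    obtain ⟨a, ha⟩ := hx
    exact ⟨a⁻¹, by rw [map_inv₀, map_inv₀, ha]⟩

/-- the data `(c, b, w)` attached to a primitive `q`-th root of unity -/
theorem mx_exists_data (hq : q.Prime) (hqM : ¬ q ∣ M') (ζ : Kbarˣ)
    (hζ : IsPrimitiveRoot (ζ : Kbar) q) :
    ∃ (c b : ℕ) (w : ℤ), (M' : ℤ) * (c : ℤ) * (b : ℤ) + w * (q : ℤ) = 1 ∧
      ιC (ζ : Kbar) = zetaC q ^ b := by
  have hq0 : q ≠ 0 := hq.ne_zero
  have hprim : IsPrimitiveRoot (zetaC q) q := Complex.isPrimitiveRoot_exp q hq0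
  have h1 : (ιC (ζ : Kbar)) ^ q = 1 := by
    rw [← map_pow, hζ.pow_eq_one, map_one]
  obtain ⟨b, -, hb⟩ := hprim.eq_pow_of_pow_eq_one h1
  have hqb : ¬ q ∣ b := by
    rintro ⟨t, rfl⟩
    rw [pow_mul, hprim.pow_eq_one, one_pow] at hb
    have h2 : (ζ : Kbar) = 1 := ιC_injective (by rw [← hb, map_one])
    exact hζ.ne_one hq.one_lt h2
  have hcop : Nat.Coprime (M' * b) q := by
    apply Nat.Coprime.symm
    rw [Nat.Prime.coprime_iff_not_dvd hq]
    intro h
    rcases (Nat.Prime.dvd_mul hq).1 h with h | h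
    · exact hqM h
    · exact hqb h
  obtain ⟨c, -, hc⟩ := Nat.exists_mul_mod_eq_one_of_coprime hcop hq.one_lt
  have hmod := Nat.mod_add_div (M' * b * c) q
  rw [hc] at hmod
  refine ⟨c, b, -((M' * b * c / q : ℕ) : ℤ), ?_, hb.symm⟩
  have hmodZ : (1 : ℤ) + (q : ℤ) * ((M' * b * c / q : ℕ) : ℤ) = (M' : ℤ) * (b : ℤ) * (c : ℤ) := by
    exact_mod_cast hmod
  linear_combination -hmodZ

/-- **MIDEXP.** The middle expansion of `F_{M'q²}` attached to a primitive `q`-th root of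
unity `ζ`. -/
theorem midExp_exists (hq : q.Prime) (hqM : ¬ q ∣ M') (ζ : Kbarˣ)
    (hζ : IsPrimitiveRoot (ζ : Kbar) q) :
    ∃ E : FF (M' * q * q) →+* LaurentSeries Kbar,
      (∀ a : Kbar, E (algebraMap Kbar (FF (M' * q * q)) a)
        = algebraMap Kbar (LaurentSeries Kbar) a) ∧
      (∀ Y : FF (M' * q), E (heckeAlphaBar Kbar (M' * q) q Y) = (Y : LaurentSeries Kbar)) ∧
      (∀ Y' : FF M', E (heckeBetaBar Kbar (M' * q) q (heckeBetaBar Kbar M' q Y'))
        = twq ζ (Y' : LaurentSeries Kbar)) := by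
  obtain ⟨c, b, w, hw, hb⟩ := mx_exists_data M' q hq hqM ζ hζ
  choose e he using midEh_mem_range M' q hq c b w hw ζ hb
  have hinj := nc_inclL_injective (M' * q * q)
  let E : FF (M' * q * q) →+* LaurentSeries Kbar :=
    { toFun := e
      map_one' := hinj (by rw [he, map_one, map_one])
      map_mul' := fun x y => hinj (by rw [he, map_mul, map_mul, he, he])
      map_zero' := hinj (by rw [he, map_zero, map_zero])
      map_add' := fun x y => hinj (by rw [he, map_add, map_add, he, he]) }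
  have hE : ∀ x, inclL (M' * q * q) (E x) = midEh (M' * q) q c x := he
  have hEα : ∀ Y : FF (M' * q), E (heckeAlphaBar Kbar (M' * q) q Y)
      = (Y : LaurentSeries Kbar) := by
    intro Y
    apply hinj
    rw [hE, midEh_alpha (M' * q) q c Y]
  refine ⟨E, ?_, hEα, ?_⟩
  · intro a
    have h1 := hEα (algebraMap Kbar (FF (M' * q)) a)
    rw [AlgHom.commutes] at h1
    rw [h1, nc_coe_algebraMap]
  · intro Y'
    apply hinj
    rw [hE, midEh_beta_beta M' q c b w hw ζ hb Y']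

/-- uniqueness of the middle expansion -/
theorem midExp_unique (hq : q.Prime) {L : Type*} [Field L]
    (E E' : FF (M' * q * q) →+* L)
    (hα : ∀ Y : FF (M' * q), E (heckeAlphaBar Kbar (M' * q) q Y)
      = E' (heckeAlphaBar Kbar (M' * q) q Y))
    (hβ : ∀ Y' : FF M', E (heckeBetaBar Kbar (M' * q) q (heckeBetaBar Kbar M' q Y'))
      = E' (heckeBetaBar Kbar (M' * q) q (heckeBetaBar Kbar M' q Y'))) : E = E' := by
  ext x
  induction x using mx_induction M' q hq with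
  | hα Y => exact hα Y
  | hβ Y' => exact hβ Y'
  | hadd x y hx hy => rw [map_add, map_add, hx, hy]
  | hneg x hx => rw [map_neg, map_neg, hx]
  | hmul x y hx hy => rw [map_mul, map_mul, hx, hy]
  | hinv x hx => rw [map_inv₀, map_inv₀, hx]

/-- the coefficient of `X⁻¹` of `j(ζ X)` -/
theorem midExp_coeff_twq_jF (ζ : Kbarˣ) :
    (twq ζ (jF M' : LaurentSeries Kbar)).coeff (-1) = ((ζ⁻¹ : Kbarˣ) : Kbar) := by
  rw [twq_coeff, coe_jF, coeffEmb, coeffMap_coeff, coeff_jq_neg_one, map_one, mul_one,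
    zpow_neg_one]

/-- the coefficient of `X⁻¹` of `j(X^{q²})` -/
theorem midExp_coeff_std_jF (hq : 1 < q) :
    ((heckeBetaBar Kbar (M' * q) q (heckeBetaBar Kbar M' q (jF M')) : FF (M' * q * q)) :
      LaurentSeries Kbar).coeff (-1) = 0 := by
  rw [coe_heckeBetaBar]
  apply qExpand_coeff_of_not_dvd
  rintro ⟨t, ht⟩
  have hq' : (1 : ℤ) < (q : ℤ) := by exact_mod_cast hq
  have h3 : (q : ℤ) ∣ 1 := ⟨-t, by linear_combination -ht⟩
  have := Int.le_of_dvd one_pos h3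
  omega

end Mid

end Fermat.Agent.S36lib
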