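/-
Item 83 (S36), piece MIDEXP part 2 (helper18): Galois equivariance of the middle expansions, the
packaged family of the `q - 1` middle expansions, and their values on the generators.

* `midExp_gal` **(G)**: `E_{σζ} (σ • f) = σ (E_ζ f)` (`σ ∈ Gal(ℚ̄/ℚ)` acting on coefficients);
* `midExp_family` **(F)**: `Emid : Fin (q-1) → (F_{M'q²} →+* ℚ̄((X)))`, `Emid i = E_{ζ^{i+1}}`,
  injective, none of them the standard expansion, all of them the identity on `α F_{M'q}`;
* `midExp_jdF` **(J)**: `E_ζ (j_D)` is `j_D` (`D ∣ M'q`) or `j_{e'}(ζ X)` (`D = q² e'`).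
No sorry.
-/
import Mathlib
import Fermat.Agent.S36lib.MidExp
import Fermat.Prelude.Def_ModularCurve_ArithmeticGalois

set_option autoImplicit false
set_option linter.style.haveILetI false
set_option linter.unusedSectionVars false

open ModularCurve AlgebraicCurve
open Fermat.Agent.S24lib Fermat.Agent.HeckeBar Fermat.Agent.S37lib Fermat.Agent.S35lib

namespace Fermat.Agent.S36lib

section Gal

variable (M' q : ℕ) [NeZero M'] [NeZero q]

/-- the Galois action on coefficients commutes with `α` -/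
theorem mx_gal_alpha (N ℓ : ℕ) [NeZero N] [NeZero ℓ] (σ : Kbar ≃ₐ[ℚ] Kbar) (Y : FF N) :
    arithmeticGalois (modularFunctionFieldFull (N * ℓ)) σ • heckeAlphaBar Kbar N ℓ Y
      = heckeAlphaBar Kbar N ℓ (arithmeticGalois (modularFunctionFieldFull N) σ • Y) := by
  apply Subtype.ext
  rw [coe_arithmeticGalois_smul, coe_heckeAlphaBar, coe_heckeAlphaBar, coe_arithmeticGalois_smul]

/-- the Galois action on coefficients commutes with `β` -/
theorem mx_gal_beta (N ℓ : ℕ) [NeZero N] [NeZero ℓ] (σ : Kbar ≃ₐ[ℚ] Kbar) (Y : FF N) :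
    arithmeticGalois (modularFunctionFieldFull (N * ℓ)) σ • heckeBetaBar Kbar N ℓ Y
      = heckeBetaBar Kbar N ℓ (arithmeticGalois (modularFunctionFieldFull N) σ • Y) := by
  apply Subtype.ext
  rw [coe_arithmeticGalois_smul, coe_heckeBetaBar, coe_heckeBetaBar, coe_arithmeticGalois_smul,
    coeffMap_qExpand]

/-- **(G)** Galois equivariance of the middle expansions: `E_{σ ζ} (σ • f) = σ (E_ζ f)`. -/
theorem midExp_gal (hq : q.Prime) (σ : Kbar ≃ₐ[ℚ] Kbar) (ζ ζ' : Kbarˣ)
    (hζ' : (ζ' : Kbar) = σ (ζ : Kbar))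
    (E E' : FF (M' * q * q) →+* LaurentSeries Kbar)
    (hEα : ∀ Y : FF (M' * q), E (heckeAlphaBar Kbar (M' * q) q Y) = (Y : LaurentSeries Kbar))
    (hEβ : ∀ Y' : FF M', E (heckeBetaBar Kbar (M' * q) q (heckeBetaBar Kbar M' q Y'))
      = twq ζ (Y' : LaurentSeries Kbar))
    (hE'α : ∀ Y : FF (M' * q), E' (heckeAlphaBar Kbar (M' * q) q Y) = (Y : LaurentSeries Kbar))
    (hE'β : ∀ Y' : FF M', E' (heckeBetaBar Kbar (M' * q) q (heckeBetaBar Kbar M' q Y'))
      = twq ζ' (Y' : LaurentSeries Kbar))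
    (f : FF (M' * q * q)) :
    E' (arithmeticGalois (modularFunctionFieldFull (M' * q * q)) σ • f)
      = coeffMap (σ : Kbar →+* Kbar) (E f) := by
  have hu : Units.map ((σ : Kbar →+* Kbar) : Kbar →* Kbar) ζ = ζ' := by
    apply Units.ext
    rw [Units.coe_map, hζ']
    rfl
  have key : E'.comp (arithmeticRingAut (modularFunctionFieldFull (M' * q * q)) σ).toRingHom
      = (coeffMap (σ : Kbar →+* Kbar)).comp E := by
    apply midExp_unique M' q hq
    · intro Y
      simp only [RingHom.comp_apply]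
      show E' (arithmeticGalois (modularFunctionFieldFull (M' * q * q)) σ •
        heckeAlphaBar Kbar (M' * q) q Y) = _
      rw [mx_gal_alpha, hE'α, hEα, coe_arithmeticGalois_smul]
    · intro Y'
      simp only [RingHom.comp_apply]
      show E' (arithmeticGalois (modularFunctionFieldFull (M' * q * q)) σ •
        heckeBetaBar Kbar (M' * q) q (heckeBetaBar Kbar M' q Y')) = _
      rw [mx_gal_beta, mx_gal_beta, hE'β, hEβ, coe_arithmeticGalois_smul, coeffMap_twq, hu]
  exact congrArg (fun φ : FF (M' * q * q) →+* LaurentSeries Kbar => φ f) key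

/-- **(J)** the values of a middle expansion on the generators `j_D`, `D ∣ M'q²`. -/
theorem midExp_jdF (hq : q.Prime) (ζ : Kbarˣ)
    (E : FF (M' * q * q) →+* LaurentSeries Kbar)
    (hEα : ∀ Y : FF (M' * q), E (heckeAlphaBar Kbar (M' * q) q Y) = (Y : LaurentSeries Kbar))
    (hEβ : ∀ Y' : FF M', E (heckeBetaBar Kbar (M' * q) q (heckeBetaBar Kbar M' q Y'))
      = twq ζ (Y' : LaurentSeries Kbar))
    (D : ℕ) [NeZero D] (hD : D ∣ M' * q * q) :
    (∃ hDN : D ∣ M' * q, E (jdF (M' * q * q) D hD)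
        = (jdF (M' * q) D hDN : LaurentSeries Kbar)) ∨
    (∃ (e' : ℕ) (_ : NeZero e') (he' : e' ∣ M'), D = q * (q * e') ∧
      E (jdF (M' * q * q) D hD) = twq ζ (jdF M' e' he' : LaurentSeries Kbar)) := by
  by_cases hDN : D ∣ M' * q
  · left
    refine ⟨hDN, ?_⟩
    have key : jdF (M' * q * q) D hD
        = heckeAlphaBar Kbar (M' * q) q (jdF (M' * q) D hDN) := by
      rw [heckeAlphaBar_eq_inclBar, inclBar_jdF]
    rw [key, hEα]
  · right
    have hqD : q ∣ D := by
      by_contra hcon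
      have hcop : Nat.Coprime D q := (Nat.Prime.coprime_iff_not_dvd hq).2 hcon |>.symm
      exact hDN (hcop.dvd_of_dvd_mul_right hD)
    obtain ⟨e, rfl⟩ := hqD
    have he : e ∣ M' * q := by
      have h1 : q * e ∣ q * (M' * q) := by rwa [mul_comm q (M' * q)]
      exact (Nat.mul_dvd_mul_iff_left hq.pos).1 h1
    have hqe : q ∣ e := by
      by_contra hcon
      have hcop : Nat.Coprime e q := (Nat.Prime.coprime_iff_not_dvd hq).2 hcon |>.symm
      have heM : e ∣ M' := hcop.dvd_of_dvd_mul_right he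
      apply hDN
      rw [mul_comm M' q]
      exact Nat.mul_dvd_mul_left q heM
    obtain ⟨e', rfl⟩ := hqe
    have he' : e' ∣ M' := by
      have h1 : q * e' ∣ q * M' := by rwa [mul_comm q M']
      exact (Nat.mul_dvd_mul_iff_left hq.pos).1 h1
    have hne : NeZero e' := ⟨fun h => by
      rw [h, zero_dvd_iff] at he'; exact NeZero.ne M' he'⟩
    refine ⟨e', hne, he', rfl, ?_⟩
    have key : jdF (M' * q * q) (q * (q * e')) hD
        = heckeBetaBar Kbar (M' * q) q (heckeBetaBar Kbar M' q (jdF M' e' he')) := by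
      rw [heckeBetaBar_eq_qpowBar M' q, qpowBar_jdF, heckeBetaBar_eq_qpowBar (M' * q) q,
        qpowBar_jdF]
    rw [key, hEβ]

/-- **(F)** the family of the `q - 1` middle expansions. -/
theorem midExp_family (hq : q.Prime) (hqM : ¬ q ∣ M') (ζ : Kbarˣ)
    (hζ : IsPrimitiveRoot (ζ : Kbar) q) :
    ∃ Emid : Fin (q - 1) → (FF (M' * q * q) →+* LaurentSeries Kbar),
      (∀ i (a : Kbar), Emid i (algebraMap Kbar (FF (M' * q * q)) a)
        = algebraMap Kbar (LaurentSeries Kbar) a) ∧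
      (∀ i (Y : FF (M' * q)), Emid i (heckeAlphaBar Kbar (M' * q) q Y)
        = (Y : LaurentSeries Kbar)) ∧
      (∀ i (Y' : FF M'), Emid i (heckeBetaBar Kbar (M' * q) q (heckeBetaBar Kbar M' q Y'))
        = twq (ζ ^ ((i : ℕ) + 1)) (Y' : LaurentSeries Kbar)) ∧
      Function.Injective Emid ∧
      (∀ i, Emid i ≠ algebraMap (FF (M' * q * q)) (LaurentSeries Kbar)) := by
  have hprim : ∀ i : Fin (q - 1), IsPrimitiveRoot ((ζ ^ ((i : ℕ) + 1) : Kbarˣ) : Kbar) q := by
    intro i
    rw [Units.val_pow_eq_pow_val]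
    apply hζ.pow_of_coprime
    apply Nat.Coprime.symm
    rw [Nat.Prime.coprime_iff_not_dvd hq]
    intro hdvd
    have h1 := Nat.le_of_dvd (Nat.succ_pos _) hdvd
    have h2 := i.2
    omega
  choose Emid hc hα hβ using fun i : Fin (q - 1) =>
    midExp_exists M' q hq hqM (ζ ^ ((i : ℕ) + 1)) (hprim i)
  refine ⟨Emid, hc, hα, hβ, ?_, ?_⟩
  · intro i j hij
    have h1 : (Emid i (heckeBetaBar Kbar (M' * q) q (heckeBetaBar Kbar M' q (jF M')))).coeff (-1)
        = (Emid j (heckeBetaBar Kbar (M' * q) q (heckeBetaBar Kbar M' q (jF M')))).coeff (-1) := by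
      rw [hij]
    rw [hβ, hβ, midExp_coeff_twq_jF, midExp_coeff_twq_jF] at h1
    have h2 : (ζ ^ ((i : ℕ) + 1))⁻¹ = (ζ ^ ((j : ℕ) + 1))⁻¹ := Units.ext h1
    have h3 : (ζ : Kbar) ^ ((i : ℕ) + 1) = (ζ : Kbar) ^ ((j : ℕ) + 1) := by
      have := congrArg (fun u : Kbarˣ => ((u⁻¹ : Kbarˣ) : Kbar)) h2
      simpa using this
    have hi := i.2
    have hj := j.2
    have h4 := hζ.pow_inj (by omega) (by omega) h3
    exact Fin.ext (by omega)
  · intro i hi
    have h1 : (Emid i (heckeBetaBar Kbar (M' * q) q (heckeBetaBar Kbar M' q (jF M')))).coeff (-1)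
        = ((heckeBetaBar Kbar (M' * q) q (heckeBetaBar Kbar M' q (jF M')) : FF (M' * q * q)) :
          LaurentSeries Kbar).coeff (-1) := by
      rw [hi]
      rfl
    rw [hβ, midExp_coeff_twq_jF, midExp_coeff_std_jF M' q hq.one_lt] at h1
    exact Units.ne_zero _ h1

end Gal

end Fermat.Agent.S36lib
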