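/-
Item 83 (S36), piece C-4, arithmetic input at the middle cusp (helper17).  No sorry.  Mathlib only.

`K` a field with a valuation `v`, `q` a prime with `v q < 1`, `ζ ∈ K` a primitive `q`-th root of
unity, `R₀ ⊂ K` a subring of `v`-integral elements whose values are powers of `v q`
(in the application `R₀ = A₀ = A ∩ K₀`, `K₀ = ℚ̄^I`: the inertia field is unramified).

* `zi_val_zeta_sub_one_pow` : `v (ζ - 1) ^ (q - 1) = v q`;
* `zi_val_sum_of_injOn`     : a finite sum whose nonzero terms have pairwise different values has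
  the maximal value;
* `zi_indep` : **`1, ζ, …, ζ^(q-2)` are independent modulo `q` over `R₀`**:
  `v (∑_{a < q-1} c_a ζ^a) ≤ v q`, `c_a ∈ R₀`  ⟹  `v (c_a) ≤ v q` for all `a`.
-/
import Mathlib
import Fermat.Agent.S36lib.Speed

set_option autoImplicit false

namespace Fermat.Agent.S36lib

open Finset Polynomial

variable {K : Type*} [Field K] {Γ₀ : Type*} [LinearOrderedCommGroupWithZero Γ₀]
  (v : Valuation K Γ₀)

/-- a root of unity has value `1` -/
theorem zi_val_eq_one_of_pow_eq_one {ζ : K} {n : ℕ} (hn : n ≠ 0) (hζ : ζ ^ n = 1) : v ζ = 1 := by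
  have h : v ζ ^ n = 1 := by rw [← map_pow, hζ, map_one]
  exact (pow_eq_one_iff_of_nonneg zero_le hn).mp h

/-- the value of a geometric sum of a root of unity is at most `1` -/
theorem zi_val_geom_sum_le {ζ : K} {n : ℕ} (hn : n ≠ 0) (hζ : ζ ^ n = 1) (j : ℕ) :
    v (∑ i ∈ range j, ζ ^ i) ≤ 1 := by
  refine v.map_sum_le fun i _ => ?_
  rw [map_pow, zi_val_eq_one_of_pow_eq_one v hn hζ, one_pow]

/-- `v (ζ^j - 1) = v (ζ - 1)` for `j` prime to the order -/
theorem zi_val_pow_sub_one {ζ : K} {n : ℕ} (hζ : IsPrimitiveRoot ζ n) (hn : 2 ≤ n) {j : ℕ}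
    (hj : j.Coprime n) : v (ζ ^ j - 1) = v (ζ - 1) := by
  have hn0 : n ≠ 0 := by omega
  have h1 : ζ ^ n = 1 := hζ.pow_eq_one
  apply le_antisymm
  · rw [← mul_geom_sum, map_mul]
    calc v (ζ - 1) * v (∑ i ∈ range j, ζ ^ i) ≤ v (ζ - 1) * 1 :=
          mul_le_mul' le_rfl (zi_val_geom_sum_le v hn0 h1 j)
      _ = v (ζ - 1) := mul_one _
  · obtain ⟨m, -, hm⟩ := Nat.exists_mul_mod_eq_one_of_coprime hj (by omega)
    have h2 : (ζ ^ j) ^ m = ζ := by
      rw [← pow_mul, ← pow_mod_orderOf, ← hζ.eq_orderOf, hm, pow_one]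
    have h3 : (ζ ^ j) ^ n = 1 := by rw [← pow_mul, mul_comm, pow_mul, h1, one_pow]
    have h4 : ζ - 1 = (ζ ^ j - 1) * ∑ i ∈ range m, (ζ ^ j) ^ i := by
      rw [mul_geom_sum, h2]
    rw [h4, map_mul]
    calc v (ζ ^ j - 1) * v (∑ i ∈ range m, (ζ ^ j) ^ i) ≤ v (ζ ^ j - 1) * 1 :=
          mul_le_mul' le_rfl (zi_val_geom_sum_le v hn0 h3 m)
      _ = v (ζ ^ j - 1) := mul_one _

/-- `v (ζ - 1) ^ (q - 1) = v q` for a primitive `q`-th root of unity, `q` prime -/
theorem zi_val_zeta_sub_one_pow {ζ : K} {q : ℕ} (hq : q.Prime) (hζ : IsPrimitiveRoot ζ q) :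
    v (ζ - 1) ^ (q - 1) = v (q : K) := by
  obtain ⟨n, rfl⟩ : ∃ n, q = n + 1 := ⟨q - 1, by have := hq.two_le; omega⟩
  have h := hζ.prod_one_sub_pow_eq_order
  have h2 : v (∏ k ∈ range n, (1 - ζ ^ (k + 1))) = v (ζ - 1) ^ n := by
    rw [map_prod]
    rw [Finset.prod_eq_pow_card (b := v (ζ - 1))]
    · rw [card_range]
    · intro k hk
      have hk' : k + 1 < n + 1 := by
        have := mem_range.mp hk
        omega
      have hcop : (k + 1).Coprime (n + 1) :=
        ((Nat.Prime.coprime_iff_not_dvd hq).mpr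
          (Nat.not_dvd_of_pos_of_lt (Nat.succ_pos k) hk')).symm
      rw [← neg_sub, Valuation.map_neg, zi_val_pow_sub_one v hζ hq.two_le hcop]
  rw [Nat.add_sub_cancel, ← h2, h]
  push_cast
  rfl

/-- a finite sum whose nonzero terms have pairwise different values has the maximal value -/
theorem zi_val_sum_of_injOn {ι : Type*} [DecidableEq ι] (s : Finset ι) (t : ι → K)
    (hinj : ∀ i ∈ s, ∀ j ∈ s, t i ≠ 0 → t j ≠ 0 → v (t i) = v (t j) → i = j) :
    (∀ i ∈ s, v (t i) ≤ v (∑ i ∈ s, t i)) ∧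
      ((∀ i ∈ s, t i = 0) ∨ ∃ i ∈ s, t i ≠ 0 ∧ v (∑ i ∈ s, t i) = v (t i)) := by
  induction s using Finset.induction_on with
  | empty => simp
  | insert j s hj ih =>
    obtain ⟨hle, hcase⟩ :=
      ih (fun i hi i' hi' => hinj i (mem_insert_of_mem hi) i' (mem_insert_of_mem hi'))
    rw [Finset.sum_insert hj]
    by_cases hj0 : t j = 0
    · rw [hj0, zero_add]
      refine ⟨?_, ?_⟩
      · intro i hi
        rcases mem_insert.mp hi with rfl | hi
        · rw [hj0, map_zero]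
          exact zero_le
        · exact hle i hi
      · rcases hcase with h | ⟨i, hi, hi0, hv⟩
        · left
          intro i hi
          rcases mem_insert.mp hi with rfl | hi
          · exact hj0
          · exact h i hi
        · right
          exact ⟨i, mem_insert_of_mem hi, hi0, hv⟩
    · have hvj : v (t j) ≠ 0 := v.ne_zero_iff.mpr hj0
      have hne : v (t j) ≠ v (∑ i ∈ s, t i) := by
        rcases hcase with h | ⟨i, hi, hi0, hv⟩
        · rw [Finset.sum_eq_zero h, map_zero]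
          exact hvj
        · rw [hv]
          intro heq
          have hji := hinj j (mem_insert_self j s) i (mem_insert_of_mem hi) hj0 hi0 heq
          rw [hji] at hj
          exact hj hi
      have hmax := v.map_add_of_distinct_val hne
      refine ⟨?_, ?_⟩
      · intro i hi
        rw [hmax]
        rcases mem_insert.mp hi with rfl | hi
        · exact le_max_left _ _
        · exact le_trans (hle i hi) (le_max_right _ _)
      · right
        rcases le_total (v (t j)) (v (∑ i ∈ s, t i)) with h | h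
        · rcases hcase with h0 | ⟨i, hi, hi0, hv⟩
          · exfalso
            rw [Finset.sum_eq_zero h0, map_zero] at h
            exact hvj (le_antisymm h zero_le)
          · exact ⟨i, mem_insert_of_mem hi, hi0, by rw [hmax, max_eq_right h, hv]⟩
        · exact ⟨j, mem_insert_self j s, hj0, by rw [hmax, max_eq_left h]⟩

section Indep

variable {q : ℕ} (hq : q.Prime) (hvq : v (q : K) < 1) (hq0 : (q : K) ≠ 0) {ζ : K}
  (hζ : IsPrimitiveRoot ζ q)

include hq hζ in
theorem zi_zeta_sub_one_ne_zero : ζ - 1 ≠ 0 :=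
  sub_ne_zero.mpr (hζ.ne_one hq.one_lt)

include hq hvq hζ in
theorem zi_val_zeta_sub_one_lt_one : v (ζ - 1) < 1 := by
  by_contra hcon
  have h1 : (1 : Γ₀) ≤ v (ζ - 1) := not_lt.mp hcon
  have h2 : (1 : Γ₀) ≤ v (ζ - 1) ^ (q - 1) := one_le_pow₀ h1
  rw [zi_val_zeta_sub_one_pow v hq hζ] at h2
  exact absurd hvq (not_lt.mpr h2)

include hq hvq hζ in
/-- the key step in the basis `1, ε, …, ε^(q-2)`, `ε = ζ - 1` -/
theorem zi_indep_eps (d : ℕ → K)
    (hdisc : ∀ j, d j ≠ 0 → ∃ n : ℕ, v (d j) = v (q : K) ^ n)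
    (h : v (∑ j ∈ range (q - 1), d j * (ζ - 1) ^ j) ≤ v (q : K)) :
    ∀ j, j < q - 1 → v (d j) ≤ v (q : K) := by
  classical
  have hε0 : ζ - 1 ≠ 0 := zi_zeta_sub_one_ne_zero hq hζ
  have hvε0 : 0 < v (ζ - 1) := zero_lt_iff.mpr (v.ne_zero_iff.mpr hε0)
  have hvε1 : v (ζ - 1) < 1 := zi_val_zeta_sub_one_lt_one v hq hvq hζ
  have hpow := zi_val_zeta_sub_one_pow v hq hζ
  have hanti : StrictAnti fun n : ℕ => v (ζ - 1) ^ n := pow_right_strictAnti₀ hvε0 hvε1
  -- the value of a nonzero term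
  have hterm : ∀ j, d j ≠ 0 → ∃ n : ℕ, v (d j) = v (q : K) ^ n ∧
      v (d j * (ζ - 1) ^ j) = v (ζ - 1) ^ ((q - 1) * n + j) := by
    intro j hj
    obtain ⟨n, hn⟩ := hdisc j hj
    refine ⟨n, hn, ?_⟩
    rw [map_mul, map_pow, hn, ← hpow, ← pow_mul, ← pow_add]
  have hinj : ∀ i ∈ range (q - 1), ∀ j ∈ range (q - 1), d i * (ζ - 1) ^ i ≠ 0 →
      d j * (ζ - 1) ^ j ≠ 0 → v (d i * (ζ - 1) ^ i) = v (d j * (ζ - 1) ^ j) → i = j := by
    intro i hi j hj hi0 hj0 hv
    have hdi : d i ≠ 0 := left_ne_zero_of_mul hi0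
    have hdj : d j ≠ 0 := left_ne_zero_of_mul hj0
    obtain ⟨n, -, hn⟩ := hterm i hdi
    obtain ⟨n', -, hn'⟩ := hterm j hdj
    rw [hn, hn'] at hv
    have he : (q - 1) * n + i = (q - 1) * n' + j := hanti.injective hv
    have hi' : i < q - 1 := mem_range.mp hi
    have hj' : j < q - 1 := mem_range.mp hj
    have h1 : ((q - 1) * n + i) % (q - 1) = i := by
      rw [Nat.mul_add_mod, Nat.mod_eq_of_lt hi']
    have h2 : ((q - 1) * n' + j) % (q - 1) = j := by
      rw [Nat.mul_add_mod, Nat.mod_eq_of_lt hj']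
    rw [← h1, ← h2, he]
  obtain ⟨hle, -⟩ := zi_val_sum_of_injOn v (range (q - 1)) (fun j => d j * (ζ - 1) ^ j) hinj
  intro j hj
  by_cases hdj : d j = 0
  · rw [hdj, map_zero]
    exact zero_le
  obtain ⟨n, hn, hn'⟩ := hterm j hdj
  have h1 : v (ζ - 1) ^ ((q - 1) * n + j) ≤ v (ζ - 1) ^ (q - 1) := by
    rw [← hn', hpow]
    exact le_trans (hle j (mem_range.mpr hj)) h
  have h2 : q - 1 ≤ (q - 1) * n + j := (StrictAnti.le_iff_ge hanti).mp h1
  have hn1 : 1 ≤ n := by
    by_contra hcon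
    have : n = 0 := by omega
    rw [this, mul_zero, zero_add] at h2
    omega
  rw [hn]
  calc v (q : K) ^ n ≤ v (q : K) ^ 1 := pow_le_pow_of_le_one zero_le hvq.le hn1
    _ = v (q : K) := pow_one _

end Indep

section Main

variable {q : ℕ} (hq : q.Prime) (hvq : v (q : K) < 1) {ζ : K} (hζ : IsPrimitiveRoot ζ q)
  (R₀ : Subring K) (hint : ∀ x ∈ R₀, v x ≤ 1)
  (hdisc : ∀ x ∈ R₀, x ≠ 0 → ∃ n : ℕ, v x = v (q : K) ^ n)

/-- the ideal `{x ∈ R₀ | v x ≤ v q}` of `R₀` -/
def ziIdeal (q : ℕ) (hint : ∀ x ∈ R₀, v x ≤ 1) : Ideal R₀ where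
  carrier := {x | v (x : K) ≤ v (q : K)}
  add_mem' := fun {a b} ha hb => le_trans (v.map_add _ _) (max_le ha hb)
  zero_mem' := by
    show v ((0 : R₀) : K) ≤ v (q : K)
    rw [Subring.coe_zero, map_zero]
    exact zero_le
  smul_mem' := fun c x hx => by
    show v ((c * x : R₀) : K) ≤ v (q : K)
    rw [Subring.coe_mul, map_mul]
    calc v (c : K) * v (x : K) ≤ 1 * v (q : K) := mul_le_mul' (hint c c.2) hx
      _ = v (q : K) := one_mul _

theorem mem_ziIdeal (x : R₀) : x ∈ ziIdeal v R₀ q hint ↔ v (x : K) ≤ v (q : K) := Iff.rfl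

include hq hvq hζ hdisc hint in
/-- **`1, ζ, …, ζ^(q-2)` are independent modulo `q` over `R₀`.** -/
theorem zi_indep (c : ℕ → K) (hc : ∀ a, c a ∈ R₀)
    (h : v (∑ a ∈ range (q - 1), c a * ζ ^ a) ≤ v (q : K)) :
    ∀ a, a < q - 1 → v (c a) ≤ v (q : K) := by
  classical
  have hq1 : 1 ≤ q - 1 := by have := hq.two_le; omega
  set P0 : R₀[X] := ∑ a ∈ range (q - 1), C (⟨c a, hc a⟩ : R₀) * X ^ a with hP0
  set Q0 : R₀[X] := P0.comp (X + 1) with hQ0
  have hPdeg : P0.natDegree ≤ q - 2 := by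
    refine natDegree_sum_le_of_forall_le _ _ fun a ha => ?_
    refine le_trans (natDegree_C_mul_X_pow_le _ _) ?_
    have := mem_range.mp ha
    omega
  have hQdeg : Q0.natDegree < q - 1 := by
    have h1 : Q0.natDegree ≤ P0.natDegree * (X + 1 : R₀[X]).natDegree := natDegree_comp_le
    have h2 : (X + 1 : R₀[X]).natDegree = 1 := natDegree_X_add_C (1 : R₀)
    rw [h2, mul_one] at h1
    omega
  -- evaluation
  have hPev : eval₂ R₀.subtype ζ P0 = ∑ a ∈ range (q - 1), c a * ζ ^ a := by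
    rw [hP0, eval₂_finsetSum]
    refine Finset.sum_congr rfl fun a _ => ?_
    rw [eval₂_mul, eval₂_C, eval₂_pow, eval₂_X]
    rfl
  have hQev : eval₂ R₀.subtype (ζ - 1) Q0 = eval₂ R₀.subtype ζ P0 := by
    rw [hQ0, eval₂_comp, eval₂_add, eval₂_X, eval₂_one, sub_add_cancel]
  have hsum : ∑ j ∈ range (q - 1), ((Q0.coeff j : R₀) : K) * (ζ - 1) ^ j
      = ∑ a ∈ range (q - 1), c a * ζ ^ a := by
    rw [← hPev, ← hQev, eval₂_eq_sum_range' R₀.subtype hQdeg]
    rfl
  have hd := zi_indep_eps v hq hvq hζ (fun j => ((Q0.coeff j : R₀) : K))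
    (fun j hj => hdisc _ (Q0.coeff j).2 hj) (by rw [hsum]; exact h)
  -- all coefficients of `Q0` lie in the ideal
  have hQI : ∀ j, Q0.coeff j ∈ ziIdeal v R₀ q hint := by
    intro j
    by_cases hj : j < q - 1
    · exact hd j hj
    · rw [coeff_eq_zero_of_natDegree_lt (lt_of_lt_of_le hQdeg (not_lt.mp hj))]
      exact Ideal.zero_mem _
  have hQmap : Q0.map (Ideal.Quotient.mk (ziIdeal v R₀ q hint)) = 0 := by
    ext j
    rw [coeff_map, coeff_zero, Ideal.Quotient.eq_zero_iff_mem]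
    exact hQI j
  have hPQ : P0 = Q0.comp (X - 1) := by
    rw [hQ0, comp_assoc, add_comp, X_comp, one_comp, sub_add_cancel, comp_X]
  have hPmap : P0.map (Ideal.Quotient.mk (ziIdeal v R₀ q hint)) = 0 := by
    rw [hPQ, map_comp, hQmap, zero_comp]
  intro a ha
  have hcoeff : P0.coeff a = ⟨c a, hc a⟩ := by
    rw [hP0, finsetSum_coeff]
    simp only [coeff_C_mul_X_pow]
    rw [Finset.sum_eq_single a]
    · rw [if_pos rfl]
    · intro b _ hb
      rw [if_neg (Ne.symm hb)]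
    · intro ha'
      exact absurd (mem_range.mpr ha) ha'
  have hmem : P0.coeff a ∈ ziIdeal v R₀ q hint := by
    rw [← Ideal.Quotient.eq_zero_iff_mem, ← coeff_map, hPmap, coeff_zero]
  rw [hcoeff] at hmem
  exact hmem

end Main

end Fermat.Agent.S36lib
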