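/-
Item 83 (S36), block V, piece V-F (helper8): DISCRETENESS over `A0 = A ∩ K0`.

`K0 = k0Field A` is unramified at `q` (`k0_val_eq_zpow`), and `F0(L) = K0(j_d : d ∣ L)` is generated
by series with INTEGER coefficients.  Hence every nonzero `f ∈ F0(L)` is `q ^ n · x₁ / y₁` with
`x₁, y₁` having PRIMITIVE integral expansions, i.e. `q ^ n · f` is a unit of every valuation ring
containing the Gauss unit ball of the expansion.

* generic: `VdInt`, `VdDisc`, `VdInt.exists_primitive`, `VdFrac`, `vdFrac_of_mem`,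
  `vdisc_exists_primitive` (series form), `VdGauss`, `vdisc_unit` (unit form);
* `vdisc_adjoin_zeta` : the values of `F0(ζ)` are the powers of `v(ζ - 1)` (Mathlib + ZetaIndep);
* `vdisc_inf`  : `∃ n : ℤ, q ^ n · f` is a unit of `R.O`, `R` any `IsSeriesRed` constant reduction;
* `vdisc_zero` : the same for `inredComap R w`, `w` an automorphism preserving `F0(L)`;
* `vdisc_mid`, `vdisc_mid_pow` : for a middle expansion `E` (MIDEXP) and `O ⊇` its Gauss unit ball: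
  `∃ n : ℤ, (ζ - 1) ^ n · f` is a unit of `O`, and `∃ n : ℤ, q ^ n · f ^ (q - 1)` is a unit of `O`.
-/
import Mathlib
import Fermat.Agent.S36lib.SetupK0
import Fermat.Agent.S36lib.ZetaIndep
import Fermat.Agent.S36lib.MidExpGal
import Fermat.Agent.S34lib.InertiaRed
import Fermat.Agent.GoodRed.Bounded
import Fermat.Agent.GoodRed.DescTower

set_option autoImplicit false
set_option linter.unusedSectionVars false
set_option linter.style.haveILetI false

noncomputable section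

namespace Fermat.Agent.S36lib

open ModularCurve HahnSeries AlgebraicCurve
open Fermat.Agent.GoodRed Fermat.Agent.S24lib Fermat.Agent.S34lib Fermat.Agent.S37lib
  Fermat.Agent.HeckeBar

section Generic

variable {K : Type*} [Field K] (A : ValuationSubring K) (K1 : Subfield K) (ϖ : K)

/-- the subring `K1 ∩ A` -/
def vdiscRing : Subring K := K1.toSubring ⊓ A.toSubring

theorem mem_vdiscRing_iff (x : K) : x ∈ vdiscRing A K1 ↔ x ∈ K1 ∧ x ∈ A := Iff.rfl

/-- Laurent series with coefficients in `K1 ∩ A` -/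
def VdInt (g : LaurentSeries K) : Prop := ∀ n, g.coeff n ∈ vdiscRing A K1

/-- `K1` is discretely valued by `A`, with uniformiser `ϖ` -/
def VdDisc : Prop :=
  ϖ ∈ K1 ∧ ϖ ≠ 0 ∧ A.valuation ϖ < 1 ∧
    ∀ x ∈ K1, x ≠ 0 → ∃ n : ℤ, A.valuation x = A.valuation ϖ ^ n

variable {A K1 ϖ}

theorem VdInt.coeff_mem {g : LaurentSeries K} (h : VdInt A K1 g) (n : ℤ) : g.coeff n ∈ A :=
  (h n).2

theorem VdInt.mul {x y : LaurentSeries K} (hx : VdInt A K1 x) (hy : VdInt A K1 y) :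
    VdInt A K1 (x * y) := fun n => coeff_mul_mem_subring _ hx hy n

theorem VdInt.add {x y : LaurentSeries K} (hx : VdInt A K1 x) (hy : VdInt A K1 y) :
    VdInt A K1 (x + y) := fun n => by
  rw [HahnSeries.coeff_add]
  exact (vdiscRing A K1).add_mem (hx n) (hy n)

theorem VdInt.neg {x : LaurentSeries K} (hx : VdInt A K1 x) : VdInt A K1 (-x) := fun n => by
  rw [HahnSeries.coeff_neg]
  exact (vdiscRing A K1).neg_mem (hx n)

theorem vdInt_C {c : K} (hc : c ∈ K1) (hcA : c ∈ A) :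
    VdInt A K1 (HahnSeries.C c : LaurentSeries K) :=
  fun n => coeff_C_mem_subring (vdiscRing A K1) ((mem_vdiscRing_iff A K1 c).mpr ⟨hc, hcA⟩) n

theorem vdInt_one : VdInt A K1 (1 : LaurentSeries K) := by
  rw [← map_one (HahnSeries.C : K →+* LaurentSeries K)]
  exact vdInt_C K1.one_mem A.one_mem

theorem vdInt_zero : VdInt A K1 (0 : LaurentSeries K) := fun n => by
  rw [HahnSeries.coeff_zero]
  exact (vdiscRing A K1).zero_mem

/-- the exponent of an element of `K1 ∩ A` is a natural number -/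
theorem VdDisc.exists_pow (hd : VdDisc A K1 ϖ) {x : K} (hx : x ∈ K1) (hxA : x ∈ A)
    (hx0 : x ≠ 0) : ∃ n : ℕ, A.valuation x = A.valuation ϖ ^ n := by
  obtain ⟨hϖ, hϖ0, hlt, hdisc⟩ := hd
  obtain ⟨n, hn⟩ := hdisc x hx hx0
  have hv0 : A.valuation ϖ ≠ 0 := by rwa [Ne, map_eq_zero]
  have hpos : 0 < A.valuation ϖ := zero_lt_iff.mpr hv0
  have hle : A.valuation x ≤ 1 := (A.valuation_le_one_iff _).mpr hxA
  rcases le_or_gt 0 n with h | h
  · refine ⟨n.toNat, ?_⟩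
    rw [hn, ← zpow_natCast, Int.toNat_of_nonneg h]
  · exfalso
    rw [hn] at hle
    have hn' : n = -((-n).toNat : ℤ) := by
      rw [Int.toNat_of_nonneg (by omega)]; ring
    rw [hn', zpow_neg, zpow_natCast] at hle
    have h1 : A.valuation ϖ ^ (-n).toNat < 1 :=
      pow_lt_one₀ (le_of_lt hpos) hlt (by
        intro h0
        have : (-n).toNat = 0 := h0
        omega)
    have h2 : 1 < (A.valuation ϖ ^ (-n).toNat)⁻¹ :=
      (one_lt_inv₀ (zero_lt_iff.mpr (pow_ne_zero _ hv0))).mpr h1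
    exact absurd hle (not_le.mpr h2)

/-- **scaling**: a nonzero series with coefficients in `K1 ∩ A` is `ϖ ^ m` times a primitive
one. -/
theorem VdInt.exists_primitive (hd : VdDisc A K1 ϖ) {g : LaurentSeries K} (hg : VdInt A K1 g)
    (hg0 : g ≠ 0) :
    ∃ (m : ℕ) (g₁ : LaurentSeries A), coeffMap (IsLocalRing.residue A) g₁ ≠ 0 ∧
      VdInt A K1 (coeffMap A.subtype g₁) ∧
      g = HahnSeries.C (ϖ ^ m) * coeffMap A.subtype g₁ := by
  classical
  have hϖ := hd.1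
  have hϖ0 := hd.2.1
  have hlt := hd.2.2.1
  have hv0 : A.valuation ϖ ≠ 0 := by rwa [Ne, map_eq_zero]
  have hpos : 0 < A.valuation ϖ := zero_lt_iff.mpr hv0
  -- a nonzero coefficient
  obtain ⟨i₀, hi₀⟩ : ∃ i, g.coeff i ≠ 0 := by
    by_contra hcon
    push Not at hcon
    exact hg0 (HahnSeries.ext (funext hcon))
  have hex : ∃ m : ℕ, ∃ i, g.coeff i ≠ 0 ∧ A.valuation (g.coeff i) = A.valuation ϖ ^ m := by
    obtain ⟨m, hm⟩ := hd.exists_pow (hg i₀).1 (hg i₀).2 hi₀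
    exact ⟨m, i₀, hi₀, hm⟩
  set m := Nat.find hex with hm
  obtain ⟨i₁, hi₁0, hi₁⟩ := Nat.find_spec hex
  have hmin : ∀ i, A.valuation (g.coeff i) ≤ A.valuation ϖ ^ m := by
    intro i
    by_cases hi : g.coeff i = 0
    · rw [hi, map_zero]; exact zero_le
    · obtain ⟨n, hn⟩ := hd.exists_pow (hg i).1 (hg i).2 hi
      have hmn : m ≤ n := Nat.find_min' hex ⟨i, hi, hn⟩
      rw [hn]
      exact pow_le_pow_of_le_one (le_of_lt hpos) (le_of_lt hlt) hmn
  -- the scaled series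
  have hcoef : ∀ n, (HahnSeries.C ((ϖ ^ m)⁻¹) * g).coeff n = (ϖ ^ m)⁻¹ * g.coeff n := by
    intro n
    rw [HahnSeries.C_mul_eq_smul, HahnSeries.coeff_smul, smul_eq_mul]
  have hmemA : ∀ n, (HahnSeries.C ((ϖ ^ m)⁻¹) * g).coeff n ∈ A := by
    intro n
    rw [hcoef, ← A.valuation_le_one_iff, map_mul, map_inv₀, map_pow]
    rw [inv_mul_le_iff₀ (zero_lt_iff.mpr (pow_ne_zero _ hv0)), mul_one]
    exact hmin n
  have hmemK : ∀ n, (HahnSeries.C ((ϖ ^ m)⁻¹) * g).coeff n ∈ K1 := by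
    intro n
    rw [hcoef]
    exact K1.mul_mem (K1.inv_mem (K1.pow_mem hϖ m)) (hg n).1
  refine ⟨m, liftSeries A _ hmemA, ?_, ?_, ?_⟩
  · rw [coeffMap_residue_ne_zero_iff]
    refine ⟨i₁, ?_⟩
    change A.valuation ((HahnSeries.C ((ϖ ^ m)⁻¹) * g).coeff i₁) = 1
    rw [hcoef, map_mul, map_inv₀, map_pow, hi₁, ← hm,
      inv_mul_cancel₀ (pow_ne_zero _ hv0)]
  · rw [coeffMap_liftSeries]
    exact fun n => ⟨hmemK n, hmemA n⟩
  · rw [coeffMap_liftSeries, ← mul_assoc, ← map_mul, mul_inv_cancel₀ (pow_ne_zero _ hϖ0),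
      map_one, one_mul]

end Generic

section Frac

variable (A : ValuationSubring Kbar) (K1 : Subfield Kbar) (L : ℕ) [NeZero L]
  (E : FF L →+* LaurentSeries Kbar)

/-- `f = x / y` with `x, y ∈ F0(L)` whose `E`-expansions have coefficients in `K1 ∩ A` -/
def VdFrac (f : FF L) : Prop :=
  ∃ x y : FF L, x ∈ f0Field A L ∧ y ∈ f0Field A L ∧ y ≠ 0 ∧ f * y = x ∧
    VdInt A K1 (E x) ∧ VdInt A K1 (E y)

variable {A K1 L E}

theorem VdFrac.add {f g : FF L} (hf : VdFrac A K1 L E f) (hg : VdFrac A K1 L E g) :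
    VdFrac A K1 L E (f + g) := by
  obtain ⟨x, y, hx, hy, hy0, hxy, hix, hiy⟩ := hf
  obtain ⟨x', y', hx', hy', hy0', hxy', hix', hiy'⟩ := hg
  refine ⟨x * y' + x' * y, y * y', add_mem (mul_mem hx hy') (mul_mem hx' hy), mul_mem hy hy',
    mul_ne_zero hy0 hy0', ?_, ?_, ?_⟩
  · rw [← hxy, ← hxy']; ring
  · rw [map_add, map_mul, map_mul]
    exact (hix.mul hiy').add (hix'.mul hiy)
  · rw [map_mul]
    exact hiy.mul hiy'

theorem VdFrac.mul {f g : FF L} (hf : VdFrac A K1 L E f) (hg : VdFrac A K1 L E g) :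
    VdFrac A K1 L E (f * g) := by
  obtain ⟨x, y, hx, hy, hy0, hxy, hix, hiy⟩ := hf
  obtain ⟨x', y', hx', hy', hy0', hxy', hix', hiy'⟩ := hg
  refine ⟨x * x', y * y', mul_mem hx hx', mul_mem hy hy', mul_ne_zero hy0 hy0', ?_, ?_, ?_⟩
  · rw [← hxy, ← hxy']; ring
  · rw [map_mul]
    exact hix.mul hix'
  · rw [map_mul]
    exact hiy.mul hiy'

theorem vdFrac_zero : VdFrac A K1 L E 0 :=
  ⟨0, 1, zero_mem _, one_mem _, one_ne_zero, by simp, by rw [map_zero]; exact vdInt_zero,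
    by rw [map_one]; exact vdInt_one⟩

theorem VdFrac.inv {f : FF L} (hf : VdFrac A K1 L E f) : VdFrac A K1 L E f⁻¹ := by
  by_cases hf0 : f = 0
  · rw [hf0, inv_zero]
    exact vdFrac_zero
  obtain ⟨x, y, hx, hy, hy0, hxy, hix, hiy⟩ := hf
  have hx0 : x ≠ 0 := by
    rw [← hxy]
    exact mul_ne_zero hf0 hy0
  refine ⟨y, x, hy, hx, hx0, ?_, hiy, hix⟩
  rw [← hxy, ← mul_assoc, inv_mul_cancel₀ hf0, one_mul]

/-- every element of `F0(L)` is a quotient of two elements of `F0(L)` with `K1 ∩ A`-integral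
expansions. -/
theorem vdFrac_of_mem (hEC : ∀ c : Kbar, E (algebraMap Kbar (FF L) c) = HahnSeries.C c)
    (hK0 : ∀ c : Kbar, c ∈ k0Field A → c ∈ K1)
    (hgen : ∀ (d : ℕ) [NeZero d] (hd : d ∣ L), VdInt A K1 (E (jdF L d hd)))
    {f : FF L} (hf : f ∈ f0Field A L) : VdFrac A K1 L E f := by
  have hf' : f ∈ IntermediateField.adjoin (k0Field A) (f0Gens L) := hf
  induction hf' using IntermediateField.adjoin_induction with
  | mem y hy =>
      obtain ⟨d, hd, hne, rfl⟩ := hy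
      exact ⟨_, 1, jdF_mem_f0Field A L d hd, one_mem _, one_ne_zero, mul_one _,
        @hgen d hne hd, by rw [map_one]; exact vdInt_one⟩
  | algebraMap c =>
      have hcK : (c : Kbar) ∈ K1 := hK0 _ c.2
      rcases A.mem_or_inv_mem (c : Kbar) with h | h
      · refine ⟨_, 1, const_mem_f0Field A L c, one_mem _, one_ne_zero, mul_one _, ?_,
          by rw [map_one]; exact vdInt_one⟩
        change VdInt A K1 (E (algebraMap Kbar (FF L) (c : Kbar)))
        rw [hEC]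
        exact vdInt_C hcK h
      · by_cases hc0 : c = 0
        · rw [hc0, map_zero]
          exact vdFrac_zero
        have hc0' : (c : Kbar) ≠ 0 := fun h0 => hc0 (Subtype.ext h0)
        have hcinv : ((c⁻¹ : k0Field A) : Kbar) = (c : Kbar)⁻¹ := rfl
        refine ⟨1, algebraMap Kbar (FF L) ((c⁻¹ : k0Field A) : Kbar), one_mem _,
          const_mem_f0Field A L c⁻¹, ?_, ?_, by rw [map_one]; exact vdInt_one, ?_⟩
        · rw [Ne, map_eq_zero_iff _ (algebraMap Kbar (FF L)).injective, hcinv]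
          exact inv_ne_zero hc0'
        · change algebraMap Kbar (FF L) (c : Kbar) * _ = 1
          rw [← map_mul, hcinv, mul_inv_cancel₀ hc0', map_one]
        · rw [hEC, hcinv]
          exact vdInt_C (K1.inv_mem hcK) h
  | add x y hx hy ihx ihy => exact (ihx hx).add (ihy hy)
  | inv x hx ihx => exact (ihx hx).inv
  | mul x y hx hy ihx ihy => exact (ihx hx).mul (ihy hy)

/-- **discreteness, series form**: every nonzero `f ∈ F0(L)` is `ϖ ^ n · x₁ / y₁` with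
`x₁, y₁ ∈ FF L` whose `E`-expansions are PRIMITIVE series over `A` (with coefficients in `K1`). -/
theorem vdisc_exists_primitive {ϖ : Kbar} (hd : VdDisc A K1 ϖ)
    (hEC : ∀ c : Kbar, E (algebraMap Kbar (FF L) c) = HahnSeries.C c)
    (hK0 : ∀ c : Kbar, c ∈ k0Field A → c ∈ K1)
    (hgen : ∀ (d : ℕ) [NeZero d] (hd : d ∣ L), VdInt A K1 (E (jdF L d hd)))
    {f : FF L} (hf : f ∈ f0Field A L) (hf0 : f ≠ 0) :
    ∃ (n : ℤ) (x₁ y₁ : FF L) (a b : LaurentSeries A),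
      y₁ ≠ 0 ∧ f * y₁ = algebraMap Kbar (FF L) (ϖ ^ n) * x₁ ∧
      E x₁ = coeffMap A.subtype a ∧ E y₁ = coeffMap A.subtype b ∧
      coeffMap (IsLocalRing.residue A) a ≠ 0 ∧ coeffMap (IsLocalRing.residue A) b ≠ 0 ∧
      VdInt A K1 (coeffMap A.subtype a) ∧ VdInt A K1 (coeffMap A.subtype b) := by
  obtain ⟨x, y, -, -, hy0, hxy, hix, hiy⟩ := vdFrac_of_mem hEC hK0 hgen hf
  have hx0 : x ≠ 0 := by
    rw [← hxy]
    exact mul_ne_zero hf0 hy0
  have hEx0 : E x ≠ 0 := (map_ne_zero E).mpr hx0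
  have hEy0 : E y ≠ 0 := (map_ne_zero E).mpr hy0
  obtain ⟨m, a, hpa, hia, hea⟩ := hix.exists_primitive hd hEx0
  obtain ⟨m', b, hpb, hib, heb⟩ := hiy.exists_primitive hd hEy0
  have hϖ0 : ϖ ≠ 0 := hd.2.1
  have hcx : algebraMap Kbar (FF L) (ϖ ^ m) ≠ 0 := by
    rw [Ne, map_eq_zero_iff _ (algebraMap Kbar (FF L)).injective]
    exact pow_ne_zero _ hϖ0
  have hcy : algebraMap Kbar (FF L) (ϖ ^ m') ≠ 0 := by
    rw [Ne, map_eq_zero_iff _ (algebraMap Kbar (FF L)).injective]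
    exact pow_ne_zero _ hϖ0
  refine ⟨(m : ℤ) - (m' : ℤ), (algebraMap Kbar (FF L) (ϖ ^ m))⁻¹ * x,
    (algebraMap Kbar (FF L) (ϖ ^ m'))⁻¹ * y, a, b, mul_ne_zero (inv_ne_zero hcy) hy0, ?_, ?_, ?_,
    hpa, hpb, hia, hib⟩
  · rw [zpow_sub₀ hϖ0, zpow_natCast, zpow_natCast, map_div₀, ← hxy]
    field_simp
  · have hC : (HahnSeries.C (ϖ ^ m) : LaurentSeries Kbar) ≠ 0 := by
      rw [Ne, ← map_zero (HahnSeries.C : Kbar →+* LaurentSeries Kbar)]
      exact fun h => pow_ne_zero _ hϖ0 (HahnSeries.C_injective h)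
    rw [map_mul, map_inv₀, hEC, hea, inv_mul_cancel_left₀ hC]
  · have hC : (HahnSeries.C (ϖ ^ m') : LaurentSeries Kbar) ≠ 0 := by
      rw [Ne, ← map_zero (HahnSeries.C : Kbar →+* LaurentSeries Kbar)]
      exact fun h => pow_ne_zero _ hϖ0 (HahnSeries.C_injective h)
    rw [map_mul, map_inv₀, hEC, heb, inv_mul_cancel_left₀ hC]

end Frac

section Zeta

open Polynomial Finset

variable {K : Type*} [Field K] (A : ValuationSubring K) {F0 : Type*} [Field F0] [Algebra F0 K]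

/-- every element of `F0(ζ)` is `∑_{i < q - 1} c_i (ζ - 1) ^ i` with `c_i ∈ F0` -/
theorem vdisc_exists_sum {q : ℕ} (hq : q.Prime) {ζ : K} (hζ : IsPrimitiveRoot ζ q)
    {x : K} (hx : x ∈ IntermediateField.adjoin F0 {ζ}) :
    ∃ c : ℕ → F0, x = ∑ i ∈ range (q - 1), algebraMap F0 K (c i) * (ζ - 1) ^ i := by
  have halg : IsAlgebraic F0 ζ := by
    refine ⟨X ^ q - 1, ?_, ?_⟩
    · exact (monic_X_pow_sub_C (1 : F0) hq.ne_zero).ne_zero
    · simp [hζ.pow_eq_one]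
  have hx' : x ∈ (IntermediateField.adjoin F0 {ζ}).toSubalgebra := hx
  rw [IntermediateField.adjoin_simple_toSubalgebra_of_isAlgebraic halg,
    Algebra.adjoin_singleton_eq_range_aeval] at hx'
  obtain ⟨p, rfl⟩ := hx'
  have hmonic : (cyclotomic q F0).Monic := cyclotomic.monic q F0
  have hdeg : (cyclotomic q F0).natDegree = q - 1 := by
    rw [natDegree_cyclotomic, Nat.totient_prime hq]
  have hne1 : cyclotomic q F0 ≠ 1 := by
    intro h
    have h2 := hq.two_le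
    rw [h, natDegree_one] at hdeg
    omega
  have hroot : aeval ζ (cyclotomic q F0) = 0 := by
    rw [aeval_def, eval₂_eq_eval_map, map_cyclotomic]
    exact hζ.isRoot_cyclotomic hq.pos
  have hr : aeval ζ (p %ₘ cyclotomic q F0) = aeval ζ p :=
    aeval_modByMonic_eq_self_of_root hroot
  have hrdeg : (p %ₘ cyclotomic q F0).natDegree < q - 1 := by
    rw [← hdeg]
    exact natDegree_modByMonic_lt p hmonic hne1
  set r := p %ₘ cyclotomic q F0 with hrdef
  have hs : aeval (ζ - 1) (taylor 1 r) = aeval ζ r := by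
    rw [taylor_apply, aeval_comp]
    simp
  have hsdeg : (taylor 1 r).natDegree < q - 1 := by
    rw [natDegree_taylor]
    exact hrdeg
  refine ⟨fun i => (taylor 1 r).coeff i, ?_⟩
  change aeval ζ p = _
  rw [← hr, ← hs, aeval_eq_sum_range' hsdeg]
  refine Finset.sum_congr rfl fun i _ => ?_
  rw [Algebra.smul_def]

/-- **discreteness of `F0(ζ)`**: if the values of `F0` are the powers of `v(q)`, the values of
`F0(ζ)`, `ζ` a primitive `q`-th root of unity, are powers of `v(ζ - 1)`. -/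
theorem vdisc_adjoin_zeta {q : ℕ} (hq : q.Prime) (hvq : A.valuation (q : K) < 1)
    {ζ : K} (hζ : IsPrimitiveRoot ζ q)
    (h0 : ∀ c : F0, c ≠ 0 → ∃ n : ℤ, A.valuation (algebraMap F0 K c) = A.valuation (q : K) ^ n)
    {x : K} (hx : x ∈ IntermediateField.adjoin F0 {ζ}) (hx0 : x ≠ 0) :
    ∃ n : ℤ, A.valuation x = A.valuation (ζ - 1) ^ n := by
  classical
  obtain ⟨c, rfl⟩ := vdisc_exists_sum hq hζ hx
  have hε0 : ζ - 1 ≠ 0 := zi_zeta_sub_one_ne_zero hq hζ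
  have hvε0 : A.valuation (ζ - 1) ≠ 0 := (Valuation.ne_zero_iff _).mpr hε0
  have hvεpos : 0 < A.valuation (ζ - 1) := zero_lt_iff.mpr hvε0
  have hvεlt : A.valuation (ζ - 1) < 1 := zi_val_zeta_sub_one_lt_one A.valuation hq hvq hζ
  have hpow : A.valuation (ζ - 1) ^ (q - 1) = A.valuation (q : K) :=
    zi_val_zeta_sub_one_pow A.valuation hq hζ
  -- the value of a nonzero term
  have hterm : ∀ i : ℕ, algebraMap F0 K (c i) * (ζ - 1) ^ i ≠ 0 →
      ∃ n : ℤ, A.valuation (algebraMap F0 K (c i) * (ζ - 1) ^ i)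
        = A.valuation (ζ - 1) ^ (((q - 1 : ℕ) : ℤ) * n + (i : ℤ)) := by
    intro i hi
    have hci : c i ≠ 0 := by
      intro h
      apply hi
      rw [h, map_zero, zero_mul]
    obtain ⟨n, hn⟩ := h0 (c i) hci
    refine ⟨n, ?_⟩
    rw [map_mul, map_pow, hn, ← hpow, zpow_add₀ hvε0, zpow_mul, zpow_natCast, zpow_natCast]
  have hinj : ∀ i ∈ range (q - 1), ∀ j ∈ range (q - 1),
      algebraMap F0 K (c i) * (ζ - 1) ^ i ≠ 0 → algebraMap F0 K (c j) * (ζ - 1) ^ j ≠ 0 →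
      A.valuation (algebraMap F0 K (c i) * (ζ - 1) ^ i)
        = A.valuation (algebraMap F0 K (c j) * (ζ - 1) ^ j) → i = j := by
    intro i hi j hj hi0 hj0 hv
    obtain ⟨n, hn⟩ := hterm i hi0
    obtain ⟨m, hm⟩ := hterm j hj0
    rw [hn, hm] at hv
    have h := (zpow_right_inj₀ hvεpos (ne_of_lt hvεlt)).mp hv
    have hi' := mem_range.mp hi
    have hj' := mem_range.mp hj
    -- `(q-1) n + i = (q-1) m + j` with `i, j < q - 1`
    have h1 : ((q - 1 : ℕ) : ℤ) * (n - m) = (j : ℤ) - (i : ℤ) := by linarith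
    have h2 : ((q - 1 : ℕ) : ℤ) ∣ (j : ℤ) - (i : ℤ) := ⟨n - m, h1.symm⟩
    have h3 : (j : ℤ) - (i : ℤ) = 0 := by
      apply Int.eq_zero_of_abs_lt_dvd h2
      rw [abs_lt]
      constructor <;> omega
    omega
  obtain ⟨-, hcase⟩ := zi_val_sum_of_injOn A.valuation (range (q - 1))
    (fun i => algebraMap F0 K (c i) * (ζ - 1) ^ i) hinj
  rcases hcase with h | ⟨i, -, hi0, hv⟩
  · exact absurd (Finset.sum_eq_zero h) hx0
  · obtain ⟨n, hn⟩ := hterm i hi0
    exact ⟨_, hv.trans hn⟩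

end Zeta

section Units

variable (A : ValuationSubring Kbar) (L : ℕ) [NeZero L]
  (E : FF L →+* LaurentSeries Kbar) (O : ValuationSubring (FF L))

/-- `O` contains the Gauss unit ball of the expansion `E`: an element whose `E`-expansion is a
primitive integral series is a unit of `O`. -/
def VdGauss : Prop :=
  ∀ (x : FF L) (a : LaurentSeries A), E x = coeffMap A.subtype a →
    coeffMap (IsLocalRing.residue A) a ≠ 0 → x ∈ O ∧ x⁻¹ ∈ O

variable {A L E O}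

/-- constants of value `1` are units of `O` -/
theorem VdGauss.const_unit (hO : VdGauss A L E O)
    (hEC : ∀ c : Kbar, E (algebraMap Kbar (FF L) c) = HahnSeries.C c)
    {c : Kbar} (hc : A.valuation c = 1) :
    algebraMap Kbar (FF L) c ∈ O ∧ (algebraMap Kbar (FF L) c)⁻¹ ∈ O := by
  have hcA : c ∈ A := (A.valuation_le_one_iff c).mp (le_of_eq hc)
  refine hO _ (HahnSeries.C (⟨c, hcA⟩ : A)) ?_ ?_
  · rw [hEC, coeffMap_C]
    rfl
  · rw [coeffMap_residue_ne_zero_iff]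
    refine ⟨0, ?_⟩
    rw [HahnSeries.C_apply, HahnSeries.coeff_single_same]
    exact hc

/-- **discreteness, unit form**: for every nonzero `f ∈ F0(L)` some `ϖ ^ n · f`, `n : ℤ`, is a
unit of `O`. -/
theorem vdisc_unit {K1 : Subfield Kbar} {ϖ : Kbar} (hd : VdDisc A K1 ϖ)
    (hEC : ∀ c : Kbar, E (algebraMap Kbar (FF L) c) = HahnSeries.C c)
    (hK0 : ∀ c : Kbar, c ∈ k0Field A → c ∈ K1)
    (hgen : ∀ (d : ℕ) [NeZero d] (hd : d ∣ L), VdInt A K1 (E (jdF L d hd)))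
    (hO : VdGauss A L E O) {f : FF L} (hf : f ∈ f0Field A L) (hf0 : f ≠ 0) :
    ∃ n : ℤ, algebraMap Kbar (FF L) (ϖ ^ n) * f ∈ O ∧
      (algebraMap Kbar (FF L) (ϖ ^ n) * f)⁻¹ ∈ O := by
  obtain ⟨n, x₁, y₁, a, b, hy0, hxy, hEx, hEy, hpa, hpb, -, -⟩ :=
    vdisc_exists_primitive hd hEC hK0 hgen hf hf0
  obtain ⟨hx, hx'⟩ := hO x₁ a hEx hpa
  obtain ⟨hy, hy'⟩ := hO y₁ b hEy hpb
  have hϖ0 : ϖ ≠ 0 := hd.2.1
  have key : algebraMap Kbar (FF L) (ϖ ^ (-n)) * f = x₁ * y₁⁻¹ := by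
    rw [eq_mul_inv_iff_mul_eq₀ hy0, mul_assoc, hxy, ← mul_assoc, ← map_mul, ← zpow_add₀ hϖ0,
      neg_add_cancel, zpow_zero, map_one, one_mul]
  refine ⟨-n, ?_, ?_⟩
  · rw [key]
    exact O.mul_mem _ _ hx hy'
  · rw [key, mul_inv, inv_inv]
    exact O.mul_mem _ _ hx' hy

end Units

section Inf

variable (A : ValuationSubring Kbar) (q : ℕ) (L : ℕ) [NeZero L]

/-- `K0` is discretely valued, with uniformiser `q` -/
theorem vdisc_k0 (hq : q.Prime) (hA : A.LiesOverPrime q) :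
    VdDisc A (k0Field A).toSubfield (q : Kbar) :=
  ⟨natCast_mem _ q, Nat.cast_ne_zero.mpr hq.ne_zero, k0_val_q_lt_one A q hA,
    fun x hx hx0 => k0_val_eq_zpow A q hq hA x ((mem_k0Field_iff A x).mp hx) hx0⟩

/-- a series with integer coefficients has coefficients in `K1 ∩ A` -/
theorem vdInt_coeffMap_int (K1 : Subfield Kbar) (g : LaurentSeries ℤ) :
    VdInt A K1 (coeffMap (Int.castRingHom Kbar) g) := by
  intro n
  rw [coeffMap_coeff, mem_vdiscRing_iff]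
  exact ⟨by rw [eq_intCast]; exact intCast_mem _ _, by rw [eq_intCast]; exact intCast_mem _ _⟩

/-- the generators `j_d` have coefficients in `K1 ∩ A` -/
theorem vdInt_jdF (K1 : Subfield Kbar) (d : ℕ) [NeZero d] (hd : d ∣ L) :
    VdInt A K1 ((jdF L d hd : FF L) : LaurentSeries Kbar) := by
  rw [coe_jdF, coeffEmb_jqd_eq]
  exact vdInt_coeffMap_int A K1 _

variable {A L}

/-- an `IsSeriesRed` constant reduction contains the Gauss unit ball of the standard expansion -/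
theorem vdGauss_of_isSeriesRed
    {Fk : IntermediateField (IsLocalRing.ResidueField A)
      (LaurentSeries (IsLocalRing.ResidueField A))}
    {R : ConstRed A (IsLocalRing.residue A) (↥Fk) (FF L)} (hR : IsSeriesRed R) :
    VdGauss A L (modularFunctionFieldBar L).toSubfield.subtype R.O := by
  intro x a hxa hpa
  have hxa' : (x : LaurentSeries Kbar) = coeffMap A.subtype a := hxa
  have hy : coeffMap A.subtype a ∈ modularFunctionFieldBar L := by
    rw [← hxa']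
    exact x.2
  have hx : x = ⟨coeffMap A.subtype a, hy⟩ := Subtype.ext hxa'
  rw [hx]
  exact ⟨hR.mem a hy, hR.inv_mem a hy hpa⟩

variable {q}

/-- **V-F at `∞`**: for every nonzero `f ∈ F0(L)` some `q ^ n · f`, `n : ℤ`, is a unit of `O∞`. -/
theorem vdisc_inf (hq : q.Prime) (hA : A.LiesOverPrime q)
    {Fk : IntermediateField (IsLocalRing.ResidueField A)
      (LaurentSeries (IsLocalRing.ResidueField A))}
    {R : ConstRed A (IsLocalRing.residue A) (↥Fk) (FF L)} (hR : IsSeriesRed R)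
    {f : FF L} (hf : f ∈ f0Field A L) (hf0 : f ≠ 0) :
    ∃ n : ℤ, algebraMap Kbar (FF L) ((q : Kbar) ^ n) * f ∈ R.O ∧
      (algebraMap Kbar (FF L) ((q : Kbar) ^ n) * f)⁻¹ ∈ R.O :=
  vdisc_unit (vdisc_k0 A q hq hA) (fun c => coe_algebraMap_eq_C (F := modularFunctionFieldBar L) c) (fun _ hc => hc)
    (fun d _ hd => vdInt_jdF A L _ d hd) (vdGauss_of_isSeriesRed hR) hf hf0

/-- transport of the unit form of discreteness along an isomorphism preserving the `F0`. -/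
theorem vdisc_comap {L' : ℕ} [NeZero L'] {O : ValuationSubring (FF L)} {c : Kbar}
    (w : FF L' ≃ₐ[Kbar] FF L) (hw : ∀ x ∈ f0Field A L', w x ∈ f0Field A L)
    (hO : ∀ f ∈ f0Field A L, f ≠ 0 → ∃ n : ℤ, algebraMap Kbar (FF L) (c ^ n) * f ∈ O ∧
      (algebraMap Kbar (FF L) (c ^ n) * f)⁻¹ ∈ O)
    {f : FF L'} (hf : f ∈ f0Field A L') (hf0 : f ≠ 0) :
    ∃ n : ℤ, w (algebraMap Kbar (FF L') (c ^ n) * f) ∈ O ∧
      (w (algebraMap Kbar (FF L') (c ^ n) * f))⁻¹ ∈ O := by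
  obtain ⟨n, h1, h2⟩ := hO (w f) (hw f hf) ((map_ne_zero w).mpr hf0)
  refine ⟨n, ?_, ?_⟩
  · rw [map_mul, AlgEquiv.commutes]
    exact h1
  · rw [map_mul, AlgEquiv.commutes]
    exact h2

/-- **V-F at `0`**: for every nonzero `f ∈ F0(L)` some `q ^ n · f`, `n : ℤ`, is a unit of
`O0 = w⁻¹ O∞`. -/
theorem vdisc_zero (hq : q.Prime) (hA : A.LiesOverPrime q)
    {Fk : IntermediateField (IsLocalRing.ResidueField A)
      (LaurentSeries (IsLocalRing.ResidueField A))}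
    {R : ConstRed A (IsLocalRing.residue A) (↥Fk) (FF L)} (hR : IsSeriesRed R)
    {L' : ℕ} [NeZero L'] (w : FF L' ≃ₐ[Kbar] FF L) (hw : ∀ x ∈ f0Field A L', w x ∈ f0Field A L)
    {f : FF L'} (hf : f ∈ f0Field A L') (hf0 : f ≠ 0) :
    ∃ n : ℤ, algebraMap Kbar (FF L') ((q : Kbar) ^ n) * f ∈ (inredComap R w).O ∧
      (algebraMap Kbar (FF L') ((q : Kbar) ^ n) * f)⁻¹ ∈ (inredComap R w).O := by
  obtain ⟨n, h1, h2⟩ := vdisc_comap w hw (fun g hg hg0 => vdisc_inf hq hA hR hg hg0) hf hf0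
  refine ⟨n, (mem_inredComap_O R w _).mpr h1, (mem_inredComap_O R w _).mpr ?_⟩
  rw [map_inv₀]
  exact h2

end Inf

section Mid

variable (A : ValuationSubring Kbar) (M' q : ℕ) [NeZero M'] [NeZero q]

/-- `K0(ζ)` as a subfield of `ℚ̄` -/
def vdiscK1 (ζ : Kbar) : Subfield Kbar :=
  (IntermediateField.adjoin (k0Field A) {ζ}).toSubfield

theorem mem_vdiscK1_iff (ζ x : Kbar) :
    x ∈ vdiscK1 A ζ ↔ x ∈ IntermediateField.adjoin (k0Field A) {ζ} := Iff.rfl

theorem zeta_mem_vdiscK1 (ζ : Kbar) : ζ ∈ vdiscK1 A ζ :=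
  IntermediateField.mem_adjoin_simple_self _ ζ

theorem k0_le_vdiscK1 (ζ : Kbar) (c : Kbar) (hc : c ∈ k0Field A) : c ∈ vdiscK1 A ζ :=
  (IntermediateField.adjoin (k0Field A) {ζ}).algebraMap_mem (⟨c, hc⟩ : k0Field A)

variable {q}

/-- **K0-4**: `K0(ζ)` is discretely valued, with uniformiser `ζ - 1`. -/
theorem vdisc_k0_zeta (hq : q.Prime) (hA : A.LiesOverPrime q) {ζ : Kbar}
    (hζ : IsPrimitiveRoot ζ q) : VdDisc A (vdiscK1 A ζ) (ζ - 1) := by
  have hvq : A.valuation (q : Kbar) < 1 := k0_val_q_lt_one A q hA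
  refine ⟨sub_mem (zeta_mem_vdiscK1 A ζ) (one_mem _), zi_zeta_sub_one_ne_zero hq hζ,
    zi_val_zeta_sub_one_lt_one A.valuation hq hvq hζ, fun x hx hx0 => ?_⟩
  refine vdisc_adjoin_zeta A hq hvq hζ (F0 := k0Field A) ?_ hx hx0
  intro c hc
  exact k0_val_eq_zpow A q hq hA (c : Kbar) ((mem_k0Field_iff A _).mp c.2)
    (fun h => hc (Subtype.ext h))

/-- the value of `(ζ - 1) ^ (q - 1) / q` is `1` -/
theorem vdisc_val_unit (hq : q.Prime) {ζ : Kbar} (hζ : IsPrimitiveRoot ζ q) :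
    A.valuation ((ζ - 1) ^ (q - 1) / (q : Kbar)) = 1 := by
  have hq0 : (q : Kbar) ≠ 0 := Nat.cast_ne_zero.mpr hq.ne_zero
  rw [map_div₀, map_pow, zi_val_zeta_sub_one_pow A.valuation hq hζ]
  exact div_self ((Valuation.ne_zero_iff _).mpr hq0)

variable {A}

/-- twisting by a root of unity of `K1` preserves the series with coefficients in `K1 ∩ A` -/
theorem VdInt.twq {K1 : Subfield Kbar} {g : LaurentSeries Kbar} (hg : VdInt A K1 g)
    (ζ : Kbarˣ) (hζ1 : (ζ : Kbar) ∈ K1) {n : ℕ} (hn : n ≠ 0) (hζn : (ζ : Kbar) ^ n = 1) :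
    VdInt A K1 (twq ζ g) := by
  intro i
  have hv : A.valuation (ζ : Kbar) = 1 := zi_val_eq_one_of_pow_eq_one A.valuation hn hζn
  have hvi : A.valuation (((ζ ^ i : Kbarˣ) : Kbar)) = 1 := by
    rw [Units.val_zpow_eq_zpow_val, map_zpow₀, hv, one_zpow]
  rw [twq_coeff, mem_vdiscRing_iff]
  refine ⟨K1.mul_mem ?_ (hg i).1, A.mul_mem _ _ ?_ (hg i).2⟩
  · rw [Units.val_zpow_eq_zpow_val]
    exact zpow_mem hζ1 i
  · exact (A.valuation_le_one_iff _).mp (le_of_eq hvi)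

variable {M'}

/-- the middle expansions of the generators `j_D` have coefficients in `K0(ζ) ∩ A` -/
theorem vdInt_mid (hq : q.Prime) (ζ : Kbarˣ) (hζ : IsPrimitiveRoot (ζ : Kbar) q)
    (E : FF (M' * q * q) →+* LaurentSeries Kbar)
    (hEα : ∀ Y : FF (M' * q), E (heckeAlphaBar Kbar (M' * q) q Y) = (Y : LaurentSeries Kbar))
    (hEβ : ∀ Y' : FF M', E (heckeBetaBar Kbar (M' * q) q (heckeBetaBar Kbar M' q Y'))
      = twq ζ (Y' : LaurentSeries Kbar))
    (D : ℕ) [NeZero D] (hD : D ∣ M' * q * q) :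
    VdInt A (vdiscK1 A (ζ : Kbar)) (E (jdF (M' * q * q) D hD)) := by
  rcases midExp_jdF M' q hq ζ E hEα hEβ D hD with ⟨hDN, h⟩ | ⟨e', hne, he', -, h⟩
  · rw [h]
    exact vdInt_jdF A (M' * q) _ D hDN
  · rw [h]
    exact (vdInt_jdF A M' _ e' he').twq ζ (zeta_mem_vdiscK1 A _) hq.ne_zero hζ.pow_eq_one

/-- **V-F at the middle cusp**, first form: for every nonzero `f ∈ F0(M'q²)` some
`(ζ - 1) ^ n · f`, `n : ℤ`, is a unit of `O_mid`. -/
theorem vdisc_mid (hq : q.Prime) (hA : A.LiesOverPrime q) (ζ : Kbarˣ)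
    (hζ : IsPrimitiveRoot (ζ : Kbar) q)
    (E : FF (M' * q * q) →+* LaurentSeries Kbar)
    (hEc : ∀ a : Kbar, E (algebraMap Kbar (FF (M' * q * q)) a)
      = algebraMap Kbar (LaurentSeries Kbar) a)
    (hEα : ∀ Y : FF (M' * q), E (heckeAlphaBar Kbar (M' * q) q Y) = (Y : LaurentSeries Kbar))
    (hEβ : ∀ Y' : FF M', E (heckeBetaBar Kbar (M' * q) q (heckeBetaBar Kbar M' q Y'))
      = twq ζ (Y' : LaurentSeries Kbar))
    {O : ValuationSubring (FF (M' * q * q))} (hO : VdGauss A (M' * q * q) E O)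
    {f : FF (M' * q * q)} (hf : f ∈ f0Field A (M' * q * q)) (hf0 : f ≠ 0) :
    ∃ n : ℤ, algebraMap Kbar (FF (M' * q * q)) (((ζ : Kbar) - 1) ^ n) * f ∈ O ∧
      (algebraMap Kbar (FF (M' * q * q)) (((ζ : Kbar) - 1) ^ n) * f)⁻¹ ∈ O := by
  have hEC : ∀ c : Kbar, E (algebraMap Kbar (FF (M' * q * q)) c) = HahnSeries.C c := by
    intro c
    rw [hEc, algebraMap_laurentSeries_eq_single]
    rfl
  exact vdisc_unit (vdisc_k0_zeta A hq hA hζ) hEC (k0_le_vdiscK1 A (ζ : Kbar))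
    (fun D _ hD => vdInt_mid hq ζ hζ E hEα hEβ D hD) hO hf hf0

/-- **V-F at the middle cusp**: for every nonzero `f ∈ F0(M'q²)` some `q ^ n · f ^ (q - 1)`,
`n : ℤ`, is a unit of `O_mid`. -/
theorem vdisc_mid_pow (hq : q.Prime) (hA : A.LiesOverPrime q) (ζ : Kbarˣ)
    (hζ : IsPrimitiveRoot (ζ : Kbar) q)
    (E : FF (M' * q * q) →+* LaurentSeries Kbar)
    (hEc : ∀ a : Kbar, E (algebraMap Kbar (FF (M' * q * q)) a)
      = algebraMap Kbar (LaurentSeries Kbar) a)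
    (hEα : ∀ Y : FF (M' * q), E (heckeAlphaBar Kbar (M' * q) q Y) = (Y : LaurentSeries Kbar))
    (hEβ : ∀ Y' : FF M', E (heckeBetaBar Kbar (M' * q) q (heckeBetaBar Kbar M' q Y'))
      = twq ζ (Y' : LaurentSeries Kbar))
    {O : ValuationSubring (FF (M' * q * q))} (hO : VdGauss A (M' * q * q) E O)
    {f : FF (M' * q * q)} (hf : f ∈ f0Field A (M' * q * q)) (hf0 : f ≠ 0) :
    ∃ n : ℤ, algebraMap Kbar (FF (M' * q * q)) ((q : Kbar) ^ n) * f ^ (q - 1) ∈ O ∧
      (algebraMap Kbar (FF (M' * q * q)) ((q : Kbar) ^ n) * f ^ (q - 1))⁻¹ ∈ O := by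
  have hEC : ∀ c : Kbar, E (algebraMap Kbar (FF (M' * q * q)) c) = HahnSeries.C c := by
    intro c
    rw [hEc, algebraMap_laurentSeries_eq_single]
    rfl
  obtain ⟨n, h1, h2⟩ := vdisc_mid hq hA ζ hζ E hEc hEα hEβ hO hf hf0
  have hq0 : (q : Kbar) ≠ 0 := Nat.cast_ne_zero.mpr hq.ne_zero
  have hε0 : (ζ : Kbar) - 1 ≠ 0 := zi_zeta_sub_one_ne_zero hq hζ
  set u : Kbar := ((ζ : Kbar) - 1) ^ (q - 1) / (q : Kbar) with hu
  have hvu : A.valuation u = 1 := vdisc_val_unit A hq hζ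
  have hu0 : u ≠ 0 := by
    intro h
    rw [h, map_zero] at hvu
    exact zero_ne_one hvu
  have hvun : A.valuation (u ^ (-n)) = 1 := by rw [map_zpow₀, hvu, one_zpow]
  obtain ⟨h3, h4⟩ := hO.const_unit hEC hvun
  -- `q ^ n · f ^ (q-1) = u ^ (-n) · ((ζ-1) ^ n · f) ^ (q-1)`
  have key : algebraMap Kbar (FF (M' * q * q)) ((q : Kbar) ^ n) * f ^ (q - 1)
      = algebraMap Kbar (FF (M' * q * q)) (u ^ (-n))
        * (algebraMap Kbar (FF (M' * q * q)) (((ζ : Kbar) - 1) ^ n) * f) ^ (q - 1) := by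
    rw [mul_pow, ← mul_assoc, ← map_pow, ← map_mul]
    congr 2
    have h5 : ((ζ : Kbar) - 1) ^ (q - 1) = (q : Kbar) * u := by
      rw [hu]
      field_simp
    rw [← zpow_natCast (((ζ : Kbar) - 1) ^ n), ← zpow_mul, mul_comm n, zpow_mul, zpow_natCast,
      h5, mul_zpow, zpow_neg, mul_comm ((q : Kbar) ^ n), ← mul_assoc,
      inv_mul_cancel₀ (zpow_ne_zero n hu0), one_mul]
  refine ⟨n, ?_, ?_⟩
  · rw [key]
    exact O.mul_mem _ _ h3 (pow_mem h1 _)
  · rw [key, mul_inv, ← inv_pow]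
    exact O.mul_mem _ _ h4 (pow_mem h2 _)

end Mid

end Fermat.Agent.S36lib

end
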