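/-
Item 83 (S36), route-independent foundation (helper27): GALOIS DESCENT by reduced echelon bases.

* `dk_exists_basis`: `V` a finite-dimensional `L`-space with injective coordinates
  `q : V → (ι → L)`, `G` a set of ring automorphisms of `L` acting on `V` compatibly with the
  coordinates.  Then `V` has a basis of `G`-fixed vectors, and the coordinates of a `G`-fixed
  vector in this basis are `G`-fixed.
Complete proofs; the first part uses Mathlib only.
-/
import Mathlib
import Fermat.Agent.S24lib.Defs
import Fermat.Agent.S34lib.UnipK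
import Fermat.Agent.S34lib.Twist
import Fermat.Agent.S36lib.Speed

set_option autoImplicit false

noncomputable section

namespace Fermat.Agent.S36lib

open Module

section General

variable {L : Type*} [Field L] {ι : Type*} {V : Type*} [AddCommGroup V] [Module L V]

/-- The coordinate functionals of an injective map into functions span the dual. -/
theorem dk_span_coord_eq_top [FiniteDimensional L V] (q : V →ₗ[L] (ι → L))
    (hq : Function.Injective q) :
    Submodule.span L (Set.range fun n : ι => (LinearMap.proj n).comp q) =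
      (⊤ : Submodule L (Dual L V)) := by
  set W : Subspace L (Dual L V) :=
    Submodule.span L (Set.range fun n : ι => (LinearMap.proj n).comp q) with hW
  have hco : W.dualCoannihilator = ⊥ := by
    rw [eq_bot_iff]
    intro v hv
    rw [Submodule.mem_dualCoannihilator] at hv
    rw [Submodule.mem_bot]
    apply hq
    rw [map_zero]
    funext n
    exact hv _ (Submodule.subset_span ⟨n, rfl⟩)
  have h1 := Subspace.finrank_add_finrank_dualCoannihilator_eq W
  rw [hco, finrank_bot, add_zero] at h1
  apply Submodule.eq_top_of_finrank_eq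
  rw [h1, Subspace.dual_finrank_eq]

/-- **Galois descent, echelon form.**  There are pivots `piv j : ι` and a basis `b` of `V`
with `q (b j) (piv i) = δ_ij`. -/
theorem dk_exists_echelon [FiniteDimensional L V] (q : V →ₗ[L] (ι → L))
    (hq : Function.Injective q) :
    ∃ (κ : Type) (_ : Fintype κ) (_ : DecidableEq κ) (b : Basis κ L V) (piv : κ → ι),
      (∀ i j : κ, q (b j) (piv i) = if i = j then 1 else 0) ∧
      (∀ (x : V) (j : κ), b.repr x j = q x (piv j)) := by
  classical
  obtain ⟨s, hsS, hsspan, hsli⟩ := exists_linearIndependent L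
    (Set.range fun n : ι => (LinearMap.proj n).comp q : Set (Dual L V))
  rw [dk_span_coord_eq_top q hq] at hsspan
  let B : Basis s L (Dual L V) := Basis.mk hsli (by rw [Subtype.range_coe]; exact hsspan.ge)
  have hBcoe : ∀ i : s, B i = (i : Dual L V) := fun i => by simp [B]
  have hfin : Finite s := Module.Finite.finite_basis B
  let _ : Fintype s := Fintype.ofFinite s
  let b' : Basis s L V := B.dualBasis.map (evalEquiv L V).symm
  have hb' : ∀ i j : s, B i (b' j) = if i = j then 1 else 0 := by
    intro i j
    have h1 : evalEquiv L V (b' j) = B.dualBasis j := by simp [b']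
    have h2 : B i (b' j) = (evalEquiv L V (b' j)) (B i) := by simp
    rw [h2, h1, Basis.dualBasis_apply_self]
  have hpiv : ∀ i : s, ∃ n : ι, ∀ v : V, B i v = q v n := by
    intro i
    obtain ⟨n, hn⟩ := hsS i.2
    refine ⟨n, fun v => ?_⟩
    rw [hBcoe, ← hn]
    rfl
  choose piv hpiv using hpiv
  -- reindex by `Fin`
  let e : s ≃ Fin (Fintype.card s) := Fintype.equivFin s
  refine ⟨Fin (Fintype.card s), inferInstance, inferInstance, b'.reindex e,
    fun j => piv (e.symm j), ?_, ?_⟩
  · intro i j
    rw [Basis.reindex_apply, ← hpiv, hb']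
    by_cases h : i = j
    · simp [h]
    · have : e.symm i ≠ e.symm j := fun h' => h (e.symm.injective h')
      simp [h, this]
  · intro x j
    rw [Basis.repr_reindex_apply, ← hpiv]
    -- `B i x = b'.repr x i`
    have hx := b'.sum_repr x
    have : B (e.symm j) x = B (e.symm j) (∑ i, b'.repr x i • b' i) := by rw [hx]
    rw [this, map_sum]
    simp only [map_smul, smul_eq_mul, hb']
    rw [Finset.sum_eq_single (e.symm j)]
    · simp
    · intro i _ hi
      simp [Ne.symm hi]
    · intro h
      exact absurd (Finset.mem_univ _) h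

/-- **Galois descent.**  A finite-dimensional space with injective coordinates, stable under
the coordinatewise action of a family `a g` (`g : Γ`) of maps of `L` fixing `0` and `1`, has a
basis of fixed vectors; the coordinates of a fixed vector in this basis are fixed. -/
theorem dk_exists_basis [FiniteDimensional L V] (q : V →ₗ[L] (ι → L))
    (hq : Function.Injective q) {Γ : Type*} (a : Γ → L → L) (T : Γ → V → V)
    (ha0 : ∀ g, a g 0 = 0) (ha1 : ∀ g, a g 1 = 1)
    (hT : ∀ (g : Γ) (v : V) (n : ι), q (T g v) n = a g (q v n)) :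
    ∃ (κ : Type) (_ : Fintype κ) (_ : DecidableEq κ) (b : Basis κ L V),
      (∀ g j, T g (b j) = b j) ∧
      (∀ x : V, (∀ g, T g x = x) → ∀ g j, a g (b.repr x j) = b.repr x j) := by
  classical
  obtain ⟨κ, hF, hD, b, piv, hδ, hrepr⟩ := dk_exists_echelon q hq
  refine ⟨κ, hF, hD, b, ?_, ?_⟩
  · intro g j
    apply b.repr.injective
    ext i
    rw [hrepr, hrepr, hT g, hδ]
    by_cases h : i = j
    · simp [h, ha1]
    · simp [h, ha0]
  · intro x hx g j
    rw [hrepr, ← hT g, hx g]

end General

/-! ### descent for subspaces of the modular function field -/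

section Modular

open ModularCurve AlgebraicCurve HahnSeries Fermat.Agent.S24lib Fermat.Agent.S34lib
open Fermat.Agent.RRlib

variable (N : ℕ)

/-- the Laurent coefficients, as coordinates on `FF N` -/
def dkCoeff : FF N →ₗ[Kbar] (ℤ → Kbar) where
  toFun x n := (x : LaurentSeries Kbar).coeff n
  map_add' x y := by
    funext n
    show ((x + y : FF N) : LaurentSeries Kbar).coeff n = _
    simp
  map_smul' c x := by
    funext n
    show ((c • x : FF N) : LaurentSeries Kbar).coeff n = c • (x : LaurentSeries Kbar).coeff n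
    rw [Algebra.smul_def, MulMemClass.coe_mul]
    have e : ((algebraMap Kbar (FF N) c : FF N) : LaurentSeries Kbar) = HahnSeries.C c := by
      show algebraMap Kbar (LaurentSeries Kbar) c = _
      rw [algebraMap_laurentSeries_eq_single]
      rfl
    rw [e, HahnSeries.C_mul_eq_smul, HahnSeries.coeff_smul]

theorem dkCoeff_apply (x : FF N) (n : ℤ) : dkCoeff N x n = (x : LaurentSeries Kbar).coeff n := rfl

theorem dkCoeff_injective : Function.Injective (dkCoeff N) := by
  intro x y h
  apply Subtype.ext
  ext n
  exact congrFun h n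

theorem dkCoeff_galFF (σ : Kbar ≃ₐ[ℚ] Kbar) (x : FF N) (n : ℤ) :
    dkCoeff N (galFF N σ • x) n = σ (dkCoeff N x n) := by
  show ((galFF N σ • x : FF N) : LaurentSeries Kbar).coeff n = σ ((x : LaurentSeries Kbar).coeff n)
  rfl

/-- **Galois descent for the modular function field.**  A finite-dimensional subspace of
`FF N` which is stable under the arithmetic Galois action of the elements of `G` has a basis of
`G`-fixed functions, and the coordinates of a `G`-fixed function in this basis are `G`-fixed. -/
theorem dk_exists_basis_FF (G : Set (Kbar ≃ₐ[ℚ] Kbar)) (V : Submodule Kbar (FF N))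
    [Module.Finite Kbar V] (hV : ∀ σ ∈ G, ∀ x ∈ V, galFF N σ • x ∈ V) :
    ∃ (κ : Type) (_ : Fintype κ) (_ : DecidableEq κ) (b : Basis κ Kbar V),
      (∀ σ ∈ G, ∀ j, galFF N σ • (b j : FF N) = b j) ∧
      (∀ x : V, (∀ σ ∈ G, galFF N σ • (x : FF N) = x) →
        ∀ σ ∈ G, ∀ j, σ (b.repr x j) = b.repr x j) := by
  classical
  obtain ⟨κ, hF, hD, b, hb, hx⟩ := dk_exists_basis (L := Kbar) (V := V)
    ((dkCoeff N).comp V.subtype)
    (fun x y h => Subtype.ext (dkCoeff_injective N h))
    (Γ := G) (fun σ c => (σ : Kbar ≃ₐ[ℚ] Kbar) c)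
    (fun σ v => ⟨galFF N (σ : Kbar ≃ₐ[ℚ] Kbar) • (v : FF N), hV σ σ.2 v v.2⟩)
    (fun σ => map_zero _) (fun σ => map_one _)
    (fun σ v n => dkCoeff_galFF N σ v n)
  refine ⟨κ, hF, hD, b, ?_, ?_⟩
  · intro σ hσ j
    exact congrArg Subtype.val (hb ⟨σ, hσ⟩ j)
  · intro x hfix σ hσ j
    exact hx x (fun g => Subtype.ext (hfix g g.2)) ⟨σ, hσ⟩ j

/-- **Galois descent for Riemann–Roch spaces.**  If the divisor `D` is fixed by the elements of
`G`, then `L(D)` has a basis of `G`-fixed functions. -/
theorem dk_exists_basis_L [RRBase Kbar (FF N)] (G : Set (Kbar ≃ₐ[ℚ] Kbar))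
    (D : Divisor Kbar (FF N)) (hD : ∀ σ ∈ G, galFF N σ • D = D) :
    ∃ (κ : Type) (_ : Fintype κ) (_ : DecidableEq κ)
      (b : Basis κ Kbar (riemannRochSpace (K := Kbar) D)),
      (∀ σ ∈ G, ∀ j, galFF N σ • (b j : FF N) = b j) ∧
      (∀ x : riemannRochSpace (K := Kbar) D, (∀ σ ∈ G, galFF N σ • (x : FF N) = x) →
        ∀ σ ∈ G, ∀ j, σ (b.repr x j) = b.repr x j) := by
  have : Module.Finite Kbar (riemannRochSpace (K := Kbar) D) := finite_riemannRochSpace _
  refine dk_exists_basis_FF N G (riemannRochSpace (K := Kbar) D) ?_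
  intro σ hσ x hx
  have h := tw_smul_mem_L (galFF N σ) hx
  rwa [hD σ hσ] at h

end Modular

end Fermat.Agent.S36lib

end
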