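import Mathlib
import Fermat.Agent.S13lib.InertiaLift
import Fermat.Agent.S13lib.Minkowski
import Fermat.Agent.S36lib.Speed

set_option autoImplicit false

/-!
# S36 foundation (K0), part 1: the inertia field of a valuation subring of `ℚ̄` is unramified

Let `A` be a valuation subring of `ℚ̄` over the prime `q` and `I = A.inertiaSubgroupIn ℚ`.

* `k0_div_q`: `x ∈ m_A` fixed by `I`  ⇒  `x / q ∈ A`.
* `k0_val_eq_zpow`: `x ≠ 0` fixed by `I`  ⇒  `v(x) = v(q) ^ n` for some `n : ℤ`.
* `k0_exists_pow_lt`: the valuation of `A` is archimedean w.r.t. `q` (all `x ≠ 0`).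
* `k0_val_int_eq_one`: integers prime to `q` are units of `A`.

Number-field input: `k0_ramificationIdx_inertiaField` (the prime of the inertia field of `P` in a
finite Galois extension `E/ℚ` has ramification index one over `ℤ`), from Mathlib's
`Ideal.card_inertia_eq_ramificationIdxIn` applied to `E/ℚ` and `E/K` and the tower law.
-/

namespace Fermat.Agent.S36lib

open NumberField Polynomial Fermat.Agent.FrobLib Fermat.Agent.S13lib Fermat.Agent.FrobLocVal
open scoped Pointwise

section NF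

variable (E : Type) [Field E] [NumberField E] [IsGalois ℚ E]

/-- ramification index of P over ℤ = card of inertia -/
theorem k0_card_inertia (P : Ideal (𝓞 E)) [P.IsPrime] :
    Nat.card (P.inertia (E ≃ₐ[ℚ] E)) = P.ramificationIdx ℤ := by
  have : IsGaloisGroup (E ≃ₐ[ℚ] E) ℤ (𝓞 E) :=
    IsGaloisGroup.of_isFractionRing (E ≃ₐ[ℚ] E) ℤ (𝓞 E) ℚ E
  have hcard := Ideal.card_inertia_eq_ramificationIdxIn (G := E ≃ₐ[ℚ] E) (P.under ℤ) P
  rw [Ideal.ramificationIdxIn_eq_ramificationIdx (P.under ℤ) P (E ≃ₐ[ℚ] E)] at hcard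
  exact hcard

variable (K : IntermediateField ℚ E)

theorem k0_card_inertia_rel (P : Ideal (𝓞 E)) [P.IsPrime] :
    Nat.card (P.inertia (E ≃ₐ[K] E)) = P.ramificationIdx (𝓞 K) := by
  have : IsGaloisGroup (E ≃ₐ[K] E) (𝓞 K) (𝓞 E) :=
    IsGaloisGroup.of_isFractionRing (E ≃ₐ[K] E) (𝓞 K) (𝓞 E) K E
  have hcard := Ideal.card_inertia_eq_ramificationIdxIn (G := E ≃ₐ[K] E) (P.under (𝓞 K)) P
  rw [Ideal.ramificationIdxIn_eq_ramificationIdx (P.under (𝓞 K)) P (E ≃ₐ[K] E)] at hcard
  exact hcard

omit [IsGalois ℚ E] in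
theorem k0_smul_restrictScalars (τ : E ≃ₐ[K] E) (x : 𝓞 E) :
    ((τ.restrictScalars ℚ : E ≃ₐ[ℚ] E) • x : 𝓞 E) = τ • x := by
  ext
  rfl

/-- the inertia field is unramified -/
theorem k0_ramificationIdx_inertiaField (P : Ideal (𝓞 E)) [P.IsPrime]
    (hK : K = IntermediateField.fixedField (P.inertia (E ≃ₐ[ℚ] E))) :
    (P.under (𝓞 K)).ramificationIdx ℤ = 1 := by
  have h1 := k0_card_inertia E P
  have h2 := k0_card_inertia_rel E K P
  have h3 : P.ramificationIdx ℤ = (P.under (𝓞 K)).ramificationIdx ℤ * P.ramificationIdx (𝓞 K) :=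
    Ideal.ramificationIdx_tower (R := ℤ) (P.under (𝓞 K)) P
  have hfix : K.fixingSubgroup = P.inertia (E ≃ₐ[ℚ] E) := by
    rw [hK, IntermediateField.fixingSubgroup_fixedField]
  have htop : P.inertia (E ≃ₐ[K] E) = ⊤ := by
    rw [eq_top_iff]
    intro τ _
    have hτ : (τ.restrictScalars ℚ : E ≃ₐ[ℚ] E) ∈ K.fixingSubgroup := by
      rw [IntermediateField.mem_fixingSubgroup_iff]
      intro x hx
      exact τ.commutes ⟨x, hx⟩
    rw [hfix] at hτ
    intro x
    have := hτ x
    rwa [k0_smul_restrictScalars] at this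
  have h4 : Nat.card (P.inertia (E ≃ₐ[K] E)) = Nat.card (P.inertia (E ≃ₐ[ℚ] E)) := by
    rw [htop, ← hfix]
    rw [Nat.card_congr (Subgroup.topEquiv).toEquiv]
    exact (Nat.card_congr (IntermediateField.fixingSubgroupEquiv K).toEquiv).symm
  have hpos : 0 < P.ramificationIdx ℤ := Ideal.ramificationIdx_pos P ℤ
  rw [← h2, h4, h1] at h3
  have : (P.under (𝓞 K)).ramificationIdx ℤ * P.ramificationIdx ℤ = 1 * P.ramificationIdx ℤ := by
    rw [one_mul]; exact h3.symm
  exact Nat.eq_of_mul_eq_mul_right hpos this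

end NF

section NFgen

variable (K : Type) [Field K] [NumberField K]

/-- In a number field: if the prime `P'` over `q` has ramification index one, then every element of
`P'` is `q` times an element of the local ring at `P'`. -/
theorem k0_unram_elt (P' : Ideal (𝓞 K)) [P'.IsPrime]
    (q : ℕ) (hq : q.Prime) (hqP : (q : 𝓞 K) ∈ P')
    (he : P'.ramificationIdx ℤ = 1) (y : 𝓞 K) (hy : y ∈ P') :
    ∃ s z : 𝓞 K, s ∉ P' ∧ s * y = (q : 𝓞 K) * z := by
  have hp0 : (P'.under ℤ).map (algebraMap ℤ (𝓞 K)) ≠ ⊥ := by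
    apply Ideal.map_ne_bot_of_ne_bot
    intro h
    have hq' : (q : ℤ) ∈ P'.under ℤ := by
      rw [Ideal.under_def, Ideal.mem_comap]
      simpa using hqP
    rw [h, Ideal.mem_bot] at hq'
    exact hq.ne_zero (by exact_mod_cast hq')
  have hP0 : P' ≠ ⊥ := by
    intro h
    rw [h, Ideal.mem_bot] at hqP
    exact hq.ne_zero (by exact_mod_cast hqP)
  have hmax : P'.IsMaximal := Ideal.IsPrime.isMaximal inferInstance hP0
  obtain ⟨I, hPI, h⟩ := Ideal.eq_prime_pow_mul_coprime hp0 P'
  rw [← Ideal.IsDedekindDomain.ramificationIdx_eq_normalizedFactors_count (P'.under ℤ) P' hp0, he,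
    pow_one] at h
  have hle : (P'.under ℤ).map (algebraMap ℤ (𝓞 K)) ≤ Ideal.span {(q : 𝓞 K)} := by
    rw [Ideal.map_le_iff_le_comap]
    intro n hn
    rw [Ideal.under_def, Ideal.mem_comap] at hn
    rw [Ideal.mem_comap, Ideal.mem_span_singleton]
    have hdvd : (q : ℤ) ∣ n := by
      by_contra hnd
      have hcop : IsCoprime (q : ℤ) n := by
        rw [Int.isCoprime_iff_gcd_eq_one]
        have := (Nat.Prime.coprime_iff_not_dvd hq).mpr (fun h => hnd (by
          rw [Int.natCast_dvd]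
          exact h))
        simpa [Int.gcd] using this
      obtain ⟨a, b, hab⟩ := hcop
      have h1 : (1 : 𝓞 K) ∈ P' := by
        have : (1 : 𝓞 K) = (a : 𝓞 K) * (q : 𝓞 K) + (b : 𝓞 K) * algebraMap ℤ (𝓞 K) n := by
          have := congrArg (algebraMap ℤ (𝓞 K)) hab
          simp only [map_add, map_mul, map_one] at this
          rw [← this]
          simp
        rw [this]
        exact P'.add_mem (P'.mul_mem_left _ hqP) (P'.mul_mem_left _ hn)
      exact (Ideal.IsPrime.ne_top inferInstance) ((Ideal.eq_top_iff_one P').mpr h1)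
    obtain ⟨c, rfl⟩ := hdvd
    exact ⟨algebraMap ℤ (𝓞 K) c, by simp⟩
  have htop : (1 : 𝓞 K) ∈ P' ⊔ I := by rw [hPI]; trivial
  obtain ⟨a, ha, s, hs, has⟩ := Submodule.mem_sup.mp htop
  have hsP : s ∉ P' := by
    intro hsP
    have h1 : (1 : 𝓞 K) ∈ P' := by rw [← has]; exact P'.add_mem ha hsP
    exact (Ideal.IsPrime.ne_top inferInstance) ((Ideal.eq_top_iff_one P').mpr h1)
  have hys : y * s ∈ Ideal.span {(q : 𝓞 K)} := by
    apply hle
    rw [h]
    exact Ideal.mul_mem_mul hy hs
  rw [Ideal.mem_span_singleton] at hys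
  obtain ⟨z, hz⟩ := hys
  exact ⟨s, z, hsP, by rw [mul_comm, hz]⟩

/-- every element of a number field is a root of a polynomial over the integers with a coefficient
outside a given prime. -/
theorem k0_exists_primitive (Q : Ideal (𝓞 K)) [Q.IsPrime] (x : K) :
    ∃ f : (𝓞 K)[X], aeval x f = 0 ∧ ∃ i, f.coeff i ∉ Q := by
  have hx : IsAlgebraic ℤ x :=
    (IsFractionRing.isAlgebraic_iff ℤ ℚ K).mpr (Algebra.IsAlgebraic.isAlgebraic x)
  obtain ⟨p, hp0, hp⟩ := hx
  have hq0 : aeval x p.primPart = 0 := by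
    have h := congrArg (aeval x) p.eq_C_content_mul_primPart
    rw [hp, map_mul, aeval_C] at h
    have hc : algebraMap ℤ K p.content ≠ 0 := by
      rw [Ne, map_eq_zero_iff _ (algebraMap ℤ K).injective_int]
      exact content_eq_zero_iff.not.mpr hp0
    exact (mul_eq_zero.mp h.symm).resolve_left hc
  refine ⟨p.primPart.map (algebraMap ℤ (𝓞 K)), ?_, ?_⟩
  · rw [aeval_map_algebraMap]
    exact hq0
  · by_contra hall
    simp only [not_exists, not_not, coeff_map] at hall
    set P : Ideal ℤ := Q.comap (algebraMap ℤ (𝓞 K)) with hP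
    have hPprime : P.IsPrime := Ideal.comap_isPrime _ _
    have hmem : ∀ i, p.primPart.coeff i ∈ P := fun i => Ideal.mem_comap.mpr (hall i)
    have hdvd : C (Submodule.IsPrincipal.generator P) ∣ p.primPart := by
      rw [C_dvd_iff_dvd_coeff]
      intro i
      exact (Submodule.IsPrincipal.mem_iff_generator_dvd P).mp (hmem i)
    have hunit : IsUnit (Submodule.IsPrincipal.generator P) :=
      p.isPrimitive_primPart _ hdvd
    apply hPprime.ne_top
    rw [← Ideal.span_singleton_generator P]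
    exact Ideal.span_singleton_eq_top.mpr hunit

omit [NumberField K] in
theorem k0_closed (x : K) (hx : IsIntegral (𝓞 K) x) : ∃ b : 𝓞 K, algebraMap (𝓞 K) K b = x := by
  have : IsIntegral ℤ x := isIntegral_trans x hx
  exact ⟨⟨x, this⟩, rfl⟩

end NFgen

section step

variable {F : Type} [Field F] [NumberField F] (ι : F →+* AlgebraicClosure ℚ)
  (A : ValuationSubring (AlgebraicClosure ℚ))

/-- The map `𝓞 F → ℤ̄` induced by an embedding `ι : F → ℚ̄`. -/
noncomputable def k0Incl : 𝓞 F →+* ZBar where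
  toFun y := ⟨ι (y : F), map_isIntegral_int ι y.2⟩
  map_one' := by ext; simp
  map_mul' x y := by ext; simp
  map_zero' := by ext; simp
  map_add' x y := by ext; simp

@[simp] theorem coe_k0Incl (y : 𝓞 F) :
    ((k0Incl ι y : ZBar) : AlgebraicClosure ℚ) = ι (y : F) := rfl

/-- The prime of `𝓞 F` cut out by `A` via `ι`. -/
noncomputable def k0Prime : Ideal (𝓞 F) := (primeOfVal A).comap (k0Incl ι)

instance k0Prime_isPrime : (k0Prime ι A).IsPrime := Ideal.comap_isPrime _ _

theorem mem_k0Prime_iff (y : 𝓞 F) : y ∈ k0Prime ι A ↔ ι (y : F) ∈ A.nonunits := by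
  unfold k0Prime
  rw [Ideal.mem_comap, mem_primeOfVal_iff]
  rfl

theorem k0_coe_mem (y : 𝓞 F) : ι (y : F) ∈ A := il_zbar_mem A (k0Incl ι y)

theorem k0_val_eq_one {y : 𝓞 F} (hy : y ∉ k0Prime ι A) : A.valuation (ι (y : F)) = 1 := by
  refine le_antisymm ((A.valuation_le_one_iff _).mpr (k0_coe_mem ι A y)) ?_
  rw [← not_lt, ← A.mem_nonunits_iff, ← mem_k0Prime_iff]
  exact hy

/-- **Unramified step.** If the prime of `F` below `A` is unramified over `q`, then every element
of `F` in the maximal ideal of `A` is divisible by `q` in `A`. -/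
theorem k0_step_of_unram (q : ℕ) (hq : q.Prime) (hA : A.LiesOverPrime q)
    (he : (k0Prime ι A).ramificationIdx ℤ = 1) (x : F) (hx : ι x ∈ A.nonunits) :
    ι x * ((q : AlgebraicClosure ℚ))⁻¹ ∈ A := by
  have hqP : (q : 𝓞 F) ∈ k0Prime ι A := by
    rw [mem_k0Prime_iff]
    have h : ι (((q : 𝓞 F) : 𝓞 F) : F) = (q : AlgebraicClosure ℚ) := by simp
    rw [h]
    exact hA
  have hq0 : (q : AlgebraicClosure ℚ) ≠ 0 := by exact_mod_cast hq.ne_zero
  obtain ⟨f, hf, hQ⟩ := k0_exists_primitive F (k0Prime ι A) x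
  rcases frac_or_inv_frac_of_aeval_eq_zero (k0_closed F) (k0Prime ι A) x f.natDegree f le_rfl hf hQ
    with ⟨a, b, hb, h⟩ | ⟨a, b, hb, h⟩
  · -- x * b = a
    have hb1 := k0_val_eq_one ι A hb
    have ha : a ∈ k0Prime ι A := by
      rw [mem_k0Prime_iff, A.mem_nonunits_iff]
      have := A.mem_nonunits_iff.mp hx
      have h' : ι x * ι (b : F) = ι (a : F) := by
        rw [← map_mul]; exact congrArg ι h
      rw [← h', map_mul, hb1, mul_one]
      exact this
    obtain ⟨s, z, hs, hsz⟩ := k0_unram_elt F (k0Prime ι A) q hq hqP he a ha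
    have hs1 := k0_val_eq_one ι A hs
    rw [← A.valuation_le_one_iff]
    have hz := (A.valuation_le_one_iff _).mpr (k0_coe_mem ι A z)
    have h' : ι x * ι (b : F) = ι (a : F) := by
      rw [← map_mul]; exact congrArg ι h
    have hsz' : ι (s : F) * ι (a : F) = (q : AlgebraicClosure ℚ) * ι (z : F) := by
      have := congrArg (fun t : 𝓞 F => ι (t : F)) hsz
      simpa using this
    have hkey : ι x * ((q : AlgebraicClosure ℚ))⁻¹ * (ι (b : F) * ι (s : F)) = ι (z : F) := by
      have : ι x * ι (b : F) * ι (s : F) = (q : AlgebraicClosure ℚ) * ι (z : F) := by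
        rw [h', mul_comm, hsz']
      field_simp
      linear_combination this
    have := congrArg A.valuation hkey
    rw [map_mul, map_mul (A.valuation) (ι (b : F)), hb1, hs1, mul_one, mul_one] at this
    rw [this]
    exact hz
  · -- x * a = b, contradiction
    exfalso
    have hb1 := k0_val_eq_one ι A hb
    have h' : ι x * ι (a : F) = ι (b : F) := by
      rw [← map_mul]; exact congrArg ι h
    have hxl := A.mem_nonunits_iff.mp hx
    have ha := (A.valuation_le_one_iff _).mpr (k0_coe_mem ι A a)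
    have := congrArg A.valuation h'
    rw [map_mul, hb1] at this
    have hlt : A.valuation (ι x) * A.valuation (ι (a : F)) < 1 := by
      calc A.valuation (ι x) * A.valuation (ι (a : F)) ≤ A.valuation (ι x) * 1 := by
            gcongr
        _ = A.valuation (ι x) := mul_one _
        _ < 1 := hxl
    rw [this] at hlt
    exact lt_irrefl _ hlt

end step


section qbar

variable (A : ValuationSubring (AlgebraicClosure ℚ))

/-- **The inertia field is unramified (one step).** An element of the maximal ideal of `A` which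
is fixed by the inertia group of `A` is divisible by `q` in `A`. -/
theorem k0_div_q (q : ℕ) (hq : q.Prime) (hA : A.LiesOverPrime q) (x : AlgebraicClosure ℚ)
    (hfix : ∀ σ ∈ A.inertiaSubgroupIn ℚ, σ x = x) (hx : x ∈ A.nonunits) :
    x * ((q : AlgebraicClosure ℚ))⁻¹ ∈ A := by
  have hgal : IsGalois ℚ (AlgebraicClosure ℚ) := isGalois_QBar
  have : Normal ℚ (AlgebraicClosure ℚ) := hgal.to_normal
  let L : IntermediateField ℚ (AlgebraicClosure ℚ) := IntermediateField.adjoin ℚ {x}
  have hxint : IsIntegral ℚ x := (isAlgebraic_QBar.isAlgebraic x).isIntegral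
  have : FiniteDimensional ℚ L := IntermediateField.adjoin.finiteDimensional hxint
  let E : IntermediateField ℚ (AlgebraicClosure ℚ) :=
    IntermediateField.normalClosure ℚ L (AlgebraicClosure ℚ)
  have : FiniteDimensional ℚ E := normalClosure.is_finiteDimensional ℚ L (AlgebraicClosure ℚ)
  have : Normal ℚ E := normalClosure.normal ℚ L (AlgebraicClosure ℚ)
  have : IsGalois ℚ E := ⟨⟩
  have : NumberField E :=
    { to_charZero := inferInstance, to_finiteDimensional := inferInstance }
  have hLE : L ≤ E := IntermediateField.le_normalClosure L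
  have hxE : x ∈ E := hLE (IntermediateField.mem_adjoin_simple_self ℚ x)
  let xE : E := ⟨x, hxE⟩
  let ιE : E →+* AlgebraicClosure ℚ := algebraMap E (AlgebraicClosure ℚ)
  let P : Ideal (𝓞 E) := k0Prime ιE A
  let K : IntermediateField ℚ E := IntermediateField.fixedField (P.inertia (E ≃ₐ[ℚ] E))
  have hxK : xE ∈ K := by
    rw [IntermediateField.mem_fixedField_iff]
    intro τ hτ
    obtain ⟨σ, hσ, hστ⟩ := exists_inertia_lift_of_integral E A τ (fun y hy => by
      have h1 : τ • (⟨y, hy⟩ : 𝓞 E) - (⟨y, hy⟩ : 𝓞 E) ∈ P := hτ ⟨y, hy⟩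
      have h2 := (mem_k0Prime_iff ιE A _).mp h1
      exact h2)
    apply Subtype.ext
    rw [← hστ xE]
    exact hfix σ hσ
  have he : (P.under (𝓞 K)).ramificationIdx ℤ = 1 := k0_ramificationIdx_inertiaField E K P rfl
  let ιK : K →+* AlgebraicClosure ℚ := ιE.comp (algebraMap K E)
  have hPK : k0Prime ιK A = P.under (𝓞 K) := by
    ext y
    rw [mem_k0Prime_iff, Ideal.under_def, Ideal.mem_comap, mem_k0Prime_iff]
    rfl
  rw [← hPK] at he
  exact k0_step_of_unram ιK A q hq hA he ⟨xE, hxK⟩ hx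

theorem k0_val_q_lt_one (q : ℕ) (hA : A.LiesOverPrime q) :
    A.valuation (q : AlgebraicClosure ℚ) < 1 := A.mem_nonunits_iff.mp hA

theorem k0_val_q_ne_zero (q : ℕ) (hq : q.Prime) :
    A.valuation (q : AlgebraicClosure ℚ) ≠ 0 := by
  rw [Ne, map_eq_zero]
  exact_mod_cast hq.ne_zero

/-- An integer prime to `q` is a unit of `A`. -/
theorem k0_val_int_eq_one (q : ℕ) (hq : q.Prime) (hA : A.LiesOverPrime q) (d : ℤ)
    (hd : ¬ (q : ℤ) ∣ d) : A.valuation (d : AlgebraicClosure ℚ) = 1 := by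
  have hdA : A.valuation (d : AlgebraicClosure ℚ) ≤ 1 := by
    rw [A.valuation_le_one_iff]
    exact intCast_mem A d
  refine le_antisymm hdA ?_
  by_contra hlt
  rw [not_le] at hlt
  have hcop : IsCoprime (q : ℤ) d := by
    rw [Int.isCoprime_iff_gcd_eq_one]
    have := (Nat.Prime.coprime_iff_not_dvd hq).mpr (fun h => hd (by
      rw [Int.natCast_dvd]
      exact h))
    simpa [Int.gcd] using this
  obtain ⟨a, b, hab⟩ := hcop
  have h1 : (1 : AlgebraicClosure ℚ) = (a : AlgebraicClosure ℚ) * (q : AlgebraicClosure ℚ)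
      + (b : AlgebraicClosure ℚ) * (d : AlgebraicClosure ℚ) := by
    have := congrArg (Int.cast : ℤ → AlgebraicClosure ℚ) hab
    push_cast at this
    exact this.symm
  have hlt1 : A.valuation ((a : AlgebraicClosure ℚ) * (q : AlgebraicClosure ℚ)) < 1 := by
    rw [map_mul]
    calc A.valuation (a : AlgebraicClosure ℚ) * A.valuation (q : AlgebraicClosure ℚ)
        ≤ 1 * A.valuation (q : AlgebraicClosure ℚ) := by
          gcongr
          rw [A.valuation_le_one_iff]; exact intCast_mem A a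
      _ = A.valuation (q : AlgebraicClosure ℚ) := one_mul _
      _ < 1 := k0_val_q_lt_one A q hA
  have hlt2 : A.valuation ((b : AlgebraicClosure ℚ) * (d : AlgebraicClosure ℚ)) < 1 := by
    rw [map_mul]
    calc A.valuation (b : AlgebraicClosure ℚ) * A.valuation (d : AlgebraicClosure ℚ)
        ≤ 1 * A.valuation (d : AlgebraicClosure ℚ) := by
          gcongr
          rw [A.valuation_le_one_iff]; exact intCast_mem A b
      _ = A.valuation (d : AlgebraicClosure ℚ) := one_mul _
      _ < 1 := hlt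
  have := Valuation.map_add_lt A.valuation hlt1 hlt2
  rw [← h1, map_one] at this
  exact lt_irrefl _ this

/-- The valuation of `A` is archimedean with respect to `q`. -/
theorem k0_exists_pow_lt (q : ℕ) (hq : q.Prime) (hA : A.LiesOverPrime q)
    (x : AlgebraicClosure ℚ) (hx : x ≠ 0) :
    ∃ N : ℕ, A.valuation (q : AlgebraicClosure ℚ) ^ N < A.valuation x := by
  have hxalg : IsAlgebraic ℤ x⁻¹ :=
    (IsFractionRing.isAlgebraic_iff ℤ ℚ (AlgebraicClosure ℚ)).mpr
      (isAlgebraic_QBar.isAlgebraic x⁻¹)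
  obtain ⟨d, hd0, hd⟩ := hxalg.exists_integral_multiple
  have hdA : (d : AlgebraicClosure ℚ) * x⁻¹ ∈ A := by
    have := il_zbar_mem A ⟨d • x⁻¹, hd⟩
    simpa [zsmul_eq_mul] using this
  have hfin : FiniteMultiplicity (q : ℤ) d := by
    rw [Int.finiteMultiplicity_iff]
    refine ⟨?_, hd0⟩
    simpa using hq.ne_one
  obtain ⟨c, hc, hqc⟩ := hfin.exists_eq_pow_mul_and_not_dvd
  set k := multiplicity (q : ℤ) d with hk
  have hv0 := k0_val_q_ne_zero A q hq
  have hvd : A.valuation (d : AlgebraicClosure ℚ) = A.valuation (q : AlgebraicClosure ℚ) ^ k := by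
    have h1 : (d : AlgebraicClosure ℚ) = (q : AlgebraicClosure ℚ) ^ k * (c : AlgebraicClosure ℚ) := by
      have := congrArg (Int.cast : ℤ → AlgebraicClosure ℚ) hc
      push_cast at this
      exact this
    rw [h1, map_mul, map_pow, k0_val_int_eq_one A q hq hA c hqc, mul_one]
  have hle : A.valuation (q : AlgebraicClosure ℚ) ^ k ≤ A.valuation x := by
    have h2 := (A.valuation_le_one_iff _).mpr hdA
    rw [map_mul, map_inv₀, hvd] at h2
    have hx0 : A.valuation x ≠ 0 := by rwa [Ne, map_eq_zero]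
    rwa [mul_inv_le_iff₀ (zero_lt_iff.mpr hx0), one_mul] at h2
  refine ⟨k + 1, lt_of_lt_of_le ?_ hle⟩
  rw [pow_succ]
  have hpos : 0 < A.valuation (q : AlgebraicClosure ℚ) ^ k := zero_lt_iff.mpr (pow_ne_zero _ hv0)
  calc A.valuation (q : AlgebraicClosure ℚ) ^ k * A.valuation (q : AlgebraicClosure ℚ)
      < A.valuation (q : AlgebraicClosure ℚ) ^ k * 1 :=
        mul_lt_mul_of_pos_left (k0_val_q_lt_one A q hA) hpos
    _ = _ := mul_one _

/-- An element of `A` fixed by inertia has valuation a power of `v(q)`. -/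
theorem k0_val_eq_pow_of_mem (q : ℕ) (hq : q.Prime) (hA : A.LiesOverPrime q) :
    ∀ (N : ℕ) (x : AlgebraicClosure ℚ), (∀ σ ∈ A.inertiaSubgroupIn ℚ, σ x = x) → x ∈ A →
      A.valuation (q : AlgebraicClosure ℚ) ^ N < A.valuation x →
      ∃ n : ℕ, A.valuation x = A.valuation (q : AlgebraicClosure ℚ) ^ n := by
  intro N
  induction N with
  | zero =>
    intro x _ hx hlt
    rw [pow_zero] at hlt
    exact absurd ((A.valuation_le_one_iff _).mpr hx) (not_le.mpr hlt)
  | succ N ih =>
    intro x hfix hx hlt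
    by_cases hu : x ∈ A.nonunits
    · have hq0 : (q : AlgebraicClosure ℚ) ≠ 0 := by exact_mod_cast hq.ne_zero
      have hv0 := k0_val_q_ne_zero A q hq
      have hdiv := k0_div_q A q hq hA x hfix hu
      have hfix' : ∀ σ ∈ A.inertiaSubgroupIn ℚ,
          σ (x * ((q : AlgebraicClosure ℚ))⁻¹) = x * ((q : AlgebraicClosure ℚ))⁻¹ := by
        intro σ hσ
        rw [map_mul, map_inv₀, hfix σ hσ, map_natCast]
      have hlt' : A.valuation (q : AlgebraicClosure ℚ) ^ N
          < A.valuation (x * ((q : AlgebraicClosure ℚ))⁻¹) := by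
        rw [map_mul, map_inv₀, lt_mul_inv_iff₀ (zero_lt_iff.mpr hv0), ← pow_succ]
        exact hlt
      obtain ⟨n, hn⟩ := ih _ hfix' hdiv hlt'
      refine ⟨n + 1, ?_⟩
      rw [map_mul, map_inv₀] at hn
      rw [pow_succ, ← hn, inv_mul_cancel_right₀ hv0]
    · refine ⟨0, ?_⟩
      rw [pow_zero]
      rw [A.mem_nonunits_iff, not_lt] at hu
      exact le_antisymm ((A.valuation_le_one_iff _).mpr hx) hu

/-- **The inertia field is unramified**: the valuation of a nonzero element fixed by inertia is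
an integral power of `v(q)`. -/
theorem k0_val_eq_zpow (q : ℕ) (hq : q.Prime) (hA : A.LiesOverPrime q)
    (x : AlgebraicClosure ℚ) (hfix : ∀ σ ∈ A.inertiaSubgroupIn ℚ, σ x = x) (hx : x ≠ 0) :
    ∃ n : ℤ, A.valuation x = A.valuation (q : AlgebraicClosure ℚ) ^ n := by
  rcases A.mem_or_inv_mem x with h | h
  · obtain ⟨N, hN⟩ := k0_exists_pow_lt A q hq hA x hx
    obtain ⟨n, hn⟩ := k0_val_eq_pow_of_mem A q hq hA N x hfix h hN
    exact ⟨n, by rw [hn, zpow_natCast]⟩
  · have hfix' : ∀ σ ∈ A.inertiaSubgroupIn ℚ, σ x⁻¹ = x⁻¹ := by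
      intro σ hσ
      rw [map_inv₀, hfix σ hσ]
    obtain ⟨N, hN⟩ := k0_exists_pow_lt A q hq hA x⁻¹ (inv_ne_zero hx)
    obtain ⟨n, hn⟩ := k0_val_eq_pow_of_mem A q hq hA N x⁻¹ hfix' h hN
    refine ⟨-n, ?_⟩
    rw [map_inv₀] at hn
    rw [zpow_neg, zpow_natCast, ← hn, inv_inv]

end qbar

end Fermat.Agent.S36lib
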