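import Mathlib
import Fermat.Agent.S36lib.Speed

/-!
# Item 83 (S36), block V, tool for V-J / V-E / V-4 (helper21): DESCENT OF LATTICES `A → A0`

`K0 ⊆ Kb` fields, `A` a valuation ring of `Kb`, `A0 = A ∩ K0` a PRINCIPAL ideal ring (a DVR) with
the SAME residue field (`res`), `q ∈ K0` a non-unit of `A`.  `F` a field over `Kb`, `O i`
finitely many valuation rings of `F` over `A`, `V0 ⊆ F` a `K0`-subspace with

* bounded coordinates: an injective `K0`-linear `ℓ : V0 → K0^m` with `ℓ (V0 ∩ ⋂ O i) ⊆ A0^m`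
  (for function fields: finitely many Laurent coefficients),
* `span`: every element of `V0` is moved into `⋂ O i` by a power of `q`,
* `disc` (discreteness on `V0`): `z ∈ V0`, `z ∈ 𝔪_i` for all `i` ⇒ `z / q ∈ ⋂ O i`.

Then every `z ∈ Kb · V0` lying in `⋂ O i` is congruent modulo `⋂ 𝔪_i` to an element
`z₀ ∈ V0 ∩ ⋂ O i` (`ld_descent`): the reductions of the `A`-lattice `Kb V0 ∩ O` and of the
`A0`-lattice `V0 ∩ O` coincide.

Mathlib only.  No sorry.
-/

set_option autoImplicit false
set_option linter.style.haveILetI false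
set_option linter.unusedSectionVars false

noncomputable section

namespace Fermat.Agent.S36lib

open scoped BigOperators

section Tools

variable {F : Type*} [Field F]

/-- `𝔪 · O ⊆ 𝔪` for a valuation ring. -/
theorem ld_mul_mem_nonunits (O : ValuationSubring F) {a z : F} (ha : a ∈ O.nonunits)
    (hz : z ∈ O) : a * z ∈ O.nonunits := by
  rw [ValuationSubring.mem_nonunits_iff] at ha ⊢
  rw [map_mul]
  have hz' : O.valuation z ≤ 1 := (O.valuation_le_one_iff z).2 hz
  calc O.valuation a * O.valuation z ≤ O.valuation a * 1 := by gcongr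
    _ = O.valuation a := mul_one _
    _ < 1 := ha

end Tools

section Descent

variable {K0 Kb F : Type*} [Field K0] [Field Kb] [Field F] [Algebra K0 Kb] [Algebra Kb F]
  [Algebra K0 F] [IsScalarTower K0 Kb F]

/-- the hypotheses of the lattice descent, bundled -/
structure LatDescData (A : ValuationSubring Kb) (A0 : ValuationSubring K0) (q : K0)
    {ι : Type*} (O : ι → ValuationSubring F) (V0 : Submodule K0 F) : Prop where
  mem_A0 : ∀ x : K0, x ∈ A0 ↔ algebraMap K0 Kb x ∈ A
  res : ∀ a : Kb, a ∈ A → ∃ a0 : K0, a0 ∈ A0 ∧ a - algebraMap K0 Kb a0 ∈ A.nonunits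
  q_ne : q ≠ 0
  q_mem : algebraMap K0 Kb q ∈ A.nonunits
  mem_O : ∀ i (a : Kb), a ∈ A → algebraMap Kb F a ∈ O i
  mem_m : ∀ i (a : Kb), a ∈ A.nonunits → algebraMap Kb F a ∈ (O i).nonunits
  bounded : ∃ (m : ℕ) (ℓ : V0 →ₗ[K0] (Fin m → K0)), Function.Injective ℓ ∧
    ∀ z : V0, (∀ i, (z : F) ∈ O i) → ∀ j, ℓ z j ∈ A0
  span : ∀ x ∈ V0, ∃ N : ℕ, ∀ i, algebraMap K0 F (q ^ N) * x ∈ O i
  disc : ∀ z ∈ V0, (∀ i, z ∈ (O i).nonunits) → ∀ i, algebraMap K0 F q⁻¹ * z ∈ O i

variable {A : ValuationSubring Kb} {A0 : ValuationSubring K0} {q : K0}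
  {ι : Type*} {O : ι → ValuationSubring F} {V0 : Submodule K0 F}

theorem LatDescData.algebraMap_mem (H : LatDescData A A0 q O V0) (i : ι) {a : K0}
    (ha : a ∈ A0) : algebraMap K0 F a ∈ O i := by
  rw [IsScalarTower.algebraMap_apply K0 Kb F]
  exact H.mem_O i _ ((H.mem_A0 a).1 ha)

theorem LatDescData.q_mem_A0 (H : LatDescData A A0 q O V0) : q ∈ A0 :=
  (H.mem_A0 q).2 (A.nonunits_subset H.q_mem)

/-- **an adapted basis of the `A0`-lattice `V0 ∩ O`**: elements `u j ∈ V0 ∩ O` such that every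
element of `V0 ∩ O` is a unique `A0`-combination of them. -/
theorem LatDescData.exists_basis [IsPrincipalIdealRing A0] (H : LatDescData A A0 q O V0) :
    ∃ (r : ℕ) (u : Fin r → F), (∀ j, u j ∈ V0) ∧ (∀ j i, u j ∈ O i) ∧
      (∀ w ∈ V0, (∀ i, w ∈ O i) →
        ∃ a : Fin r → K0, (∀ j, a j ∈ A0) ∧ w = ∑ j, algebraMap K0 F (a j) * u j) ∧
      (∀ a : Fin r → K0, (∀ j, a j ∈ A0) →
        ∑ j, algebraMap K0 F (a j) * u j = 0 → ∀ j, a j = 0) := by
  classical
  obtain ⟨m, ℓ, hℓ, hℓA⟩ := H.bounded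
  -- the coordinate lattice
  let M : Submodule A0 (Fin m → A0) :=
    { carrier := {y | ∃ z : V0, (∀ i, (z : F) ∈ O i) ∧ ∀ j, ℓ z j = (y j : K0)}
      add_mem' := by
        rintro y y' ⟨z, hz, hzy⟩ ⟨z', hz', hzy'⟩
        refine ⟨z + z', fun i => ?_, fun j => ?_⟩
        · rw [Submodule.coe_add]; exact (O i).add_mem _ _ (hz i) (hz' i)
        · rw [map_add, Pi.add_apply, hzy, hzy']; rfl
      zero_mem' := ⟨0, fun i => by rw [Submodule.coe_zero]; exact (O i).zero_mem, fun j => by
        rw [map_zero]; rfl⟩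
      smul_mem' := by
        rintro a y ⟨z, hz, hzy⟩
        refine ⟨(a : K0) • z, fun i => ?_, fun j => ?_⟩
        · rw [Submodule.coe_smul, Algebra.smul_def]
          exact (O i).mul_mem _ _ (H.algebraMap_mem i a.2) (hz i)
        · rw [map_smul, Pi.smul_apply, hzy, smul_eq_mul]; rfl }
  obtain ⟨r, bM⟩ := Submodule.basisOfPid (Pi.basisFun A0 (Fin m)) M
  have hex : ∀ j : Fin r, ∃ z : V0, (∀ i, (z : F) ∈ O i) ∧
      ∀ j', ℓ z j' = (((bM j : M) : Fin m → A0) j' : K0) := fun j => (bM j).2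
  choose u hu1 hu2 using hex
  -- the coordinates of an `A0`-combination
  have hcomb : ∀ a : Fin r → A0, ∀ j',
      ℓ (∑ j, (a j : K0) • u j) j' =
        ((((∑ j, a j • bM j : M) : M) : Fin m → A0) j' : K0) := by
    intro a j'
    rw [map_sum, Finset.sum_apply]
    have : (((∑ j, a j • bM j : M) : M) : Fin m → A0) = ∑ j, a j • ((bM j : M) : Fin m → A0) := by
      rw [Submodule.coe_sum]
      rfl
    rw [this, Finset.sum_apply]
    push_cast
    refine Finset.sum_congr rfl fun j _ => ?_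
    rw [map_smul, Pi.smul_apply, hu2, smul_eq_mul]
    rfl
  have hcoe : ∀ a : Fin r → K0, ((∑ j, a j • u j : V0) : F) =
      ∑ j, algebraMap K0 F (a j) * (u j : F) := by
    intro a
    rw [Submodule.coe_sum]
    refine Finset.sum_congr rfl fun j _ => ?_
    rw [Submodule.coe_smul, Algebra.smul_def]
  refine ⟨r, fun j => (u j : F), fun j => (u j).2, fun j i => hu1 j i, ?_, ?_⟩
  · intro w hw hwO
    have hy : (fun j' => (⟨ℓ ⟨w, hw⟩ j', hℓA ⟨w, hw⟩ hwO j'⟩ : A0)) ∈ M :=
      ⟨⟨w, hw⟩, hwO, fun j => rfl⟩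
    set y : M := ⟨_, hy⟩ with hydef
    refine ⟨fun j => ((bM.repr y j : A0) : K0), fun j => (bM.repr y j).2, ?_⟩
    have h1 : (⟨w, hw⟩ : V0) = ∑ j, ((bM.repr y j : A0) : K0) • u j := by
      apply hℓ
      funext j'
      rw [hcomb (fun j => bM.repr y j) j', bM.sum_repr y]
    have h2 := congrArg (Subtype.val : V0 → F) h1
    rw [hcoe] at h2
    exact h2
  · intro a haA ha
    have h0 : (∑ j, a j • u j : V0) = 0 := by
      apply Subtype.ext
      rw [hcoe, Submodule.coe_zero]
      exact ha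
    set a' : Fin r → A0 := fun j => ⟨a j, haA j⟩ with ha'
    have h1 : ∑ j, a' j • bM j = 0 := by
      apply Subtype.ext
      funext j'
      apply Subtype.ext
      have := hcomb a' j'
      rw [show (∑ j, ((a' j : A0) : K0) • u j : V0) = ∑ j, a j • u j from rfl, h0, map_zero] at this
      exact this.symm
    have h2 := (Fintype.linearIndependent_iff.1 bM.linearIndependent) a' h1
    intro j
    exact congrArg Subtype.val (h2 j)

/-- **lattice descent** `A → A0`: an element of `Kb · V0` in all the valuation rings `O i` is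
congruent modulo all the maximal ideals to an element of `V0` in all the `O i`. -/
theorem ld_descent [IsPrincipalIdealRing A0] [Finite ι] (H : LatDescData A A0 q O V0)
    (z : F) (hz : z ∈ Submodule.span Kb (V0 : Set F)) (hzO : ∀ i, z ∈ O i) :
    ∃ z₀ ∈ V0, (∀ i, z₀ ∈ O i) ∧ ∀ i, z - z₀ ∈ (O i).nonunits := by
  classical
  obtain ⟨r, u, huV, huO, hrep, hind⟩ := H.exists_basis
  -- `z` is a `Kb`-combination of the `u j`
  have hVle : (V0 : Set F) ⊆ Submodule.span Kb (Set.range u) := by
    intro x hx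
    obtain ⟨N, hN⟩ := H.span x hx
    have hxN : algebraMap K0 F (q ^ N) * x ∈ V0 := by
      rw [← Algebra.smul_def]; exact V0.smul_mem _ hx
    obtain ⟨a, -, ha⟩ := hrep _ hxN hN
    have hqN : algebraMap K0 F (q ^ N) ≠ 0 := by
      intro h
      exact pow_ne_zero N H.q_ne ((algebraMap K0 F).injective (h.trans (map_zero _).symm))
    have hx' : x = ∑ j, algebraMap Kb F (algebraMap K0 Kb ((q ^ N)⁻¹ * a j)) * u j := by
      have : x = (algebraMap K0 F (q ^ N))⁻¹ * (algebraMap K0 F (q ^ N) * x) := by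
        field_simp
      rw [this, ha, Finset.mul_sum]
      refine Finset.sum_congr rfl fun j _ => ?_
      rw [← IsScalarTower.algebraMap_apply K0 Kb F, map_mul, map_inv₀, mul_assoc]
    rw [SetLike.mem_coe, hx']
    refine Submodule.sum_mem _ fun j _ => ?_
    rw [← Algebra.smul_def]
    exact Submodule.smul_mem _ _ (Submodule.subset_span ⟨j, rfl⟩)
  have hz' : z ∈ Submodule.span Kb (Set.range u) := Submodule.span_le.2 hVle hz
  obtain ⟨c, hc⟩ := (Submodule.mem_span_range_iff_exists_fun Kb).1 hz'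
  have hzc : z = ∑ j, algebraMap Kb F (c j) * u j := by
    rw [← hc]
    exact Finset.sum_congr rfl fun j _ => Algebra.smul_def _ _
  -- all the coefficients are integral
  have hcA : ∀ j, c j ∈ A := by
    by_contra hcon
    push Not at hcon
    obtain ⟨j1, hj1⟩ := hcon
    obtain ⟨j0, -, hj0⟩ := Finset.exists_max_image Finset.univ (fun j => A.valuation (c j))
      ⟨j1, Finset.mem_univ _⟩
    have hv0 : 1 < A.valuation (c j0) := by
      have h1 : ¬ A.valuation (c j1) ≤ 1 := fun h => hj1 ((A.valuation_le_one_iff _).1 h)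
      exact lt_of_lt_of_le (not_le.1 h1) (hj0 j1 (Finset.mem_univ _))
    have hc0 : c j0 ≠ 0 := by
      intro h
      rw [h, map_zero] at hv0
      exact not_lt.2 zero_le_one hv0
    have hinv : (c j0)⁻¹ ∈ A.nonunits := by
      rw [ValuationSubring.mem_nonunits_iff, map_inv₀]
      exact inv_lt_one_of_one_lt₀ hv0
    have hd : ∀ j, c j * (c j0)⁻¹ ∈ A := by
      intro j
      rw [← A.valuation_le_one_iff, map_mul, map_inv₀]
      have hpos : 0 < A.valuation (c j0) := lt_trans zero_lt_one hv0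
      rw [← div_eq_mul_inv, div_le_one₀ hpos]
      exact hj0 j (Finset.mem_univ _)
    choose a haA ha using fun j => H.res _ (hd j)
    set w : F := ∑ j, algebraMap K0 F (a j) * u j with hw
    have hwV : w ∈ V0 := by
      refine Submodule.sum_mem _ fun j _ => ?_
      rw [← Algebra.smul_def]; exact V0.smul_mem _ (huV j)
    have hwm : ∀ i, w ∈ (O i).nonunits := by
      intro i
      have h1 : w = algebraMap Kb F (c j0)⁻¹ * z -
          ∑ j, algebraMap Kb F (c j * (c j0)⁻¹ - algebraMap K0 Kb (a j)) * u j := by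
        rw [hzc, Finset.mul_sum, ← Finset.sum_sub_distrib, hw]
        refine Finset.sum_congr rfl fun j _ => ?_
        rw [IsScalarTower.algebraMap_apply K0 Kb F, map_sub, map_mul]
        ring
      rw [h1]
      refine (O i).nonunits.sub_mem ?_ ?_
      · exact ld_mul_mem_nonunits (O i) (H.mem_m i _ hinv) (hzO i)
      · refine (O i).nonunits.sum_mem fun j _ => ?_
        exact ld_mul_mem_nonunits (O i) (H.mem_m i _ (ha j)) (huO j i)
    have hw'V : algebraMap K0 F q⁻¹ * w ∈ V0 := by
      rw [← Algebra.smul_def]; exact V0.smul_mem _ hwV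
    obtain ⟨a', ha'A, ha'⟩ := hrep _ hw'V (H.disc w hwV hwm)
    have hqF : algebraMap K0 F q ≠ 0 := fun h =>
      H.q_ne ((algebraMap K0 F).injective (h.trans (map_zero _).symm))
    have hzero : ∑ j, algebraMap K0 F (a j - q * a' j) * u j = 0 := by
      have h2 : w = algebraMap K0 F q * (algebraMap K0 F q⁻¹ * w) := by
        rw [map_inv₀]; field_simp
      have h3 : ∑ j, algebraMap K0 F (a j - q * a' j) * u j =
          w - algebraMap K0 F q * (algebraMap K0 F q⁻¹ * w) := by
        rw [ha', Finset.mul_sum, hw, ← Finset.sum_sub_distrib]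
        refine Finset.sum_congr rfl fun j _ => ?_
        rw [map_sub, map_mul]; ring
      rw [h3, ← h2, sub_self]
    have hzz := hind _ (fun j => sub_mem (haA j) (mul_mem H.q_mem_A0 (ha'A j))) hzero j0
    -- `a j0 = q a' j0 ∈ 𝔪`, but `a j0 ≡ 1`
    have h4 : algebraMap K0 Kb (a j0) ∈ A.nonunits := by
      rw [sub_eq_zero.1 hzz, map_mul]
      exact ld_mul_mem_nonunits A H.q_mem ((H.mem_A0 _).1 (ha'A j0))
    have h5 := ha j0
    rw [mul_inv_cancel₀ hc0] at h5
    have h6 : (1 : Kb) ∈ A.nonunits := by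
      have := A.nonunits.add_mem h5 h4
      rwa [sub_add_cancel] at this
    rw [ValuationSubring.mem_nonunits_iff, map_one] at h6
    exact lt_irrefl _ h6
  -- the congruent element
  choose a haA ha using fun j => H.res _ (hcA j)
  refine ⟨∑ j, algebraMap K0 F (a j) * u j, ?_, fun i => ?_, fun i => ?_⟩
  · refine Submodule.sum_mem _ fun j _ => ?_
    rw [← Algebra.smul_def]; exact V0.smul_mem _ (huV j)
  · exact (O i).toSubring.sum_mem fun j _ =>
      (O i).mul_mem _ _ (H.algebraMap_mem i (haA j)) (huO j i)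
  · have h1 : z - ∑ j, algebraMap K0 F (a j) * u j =
        ∑ j, algebraMap Kb F (c j - algebraMap K0 Kb (a j)) * u j := by
      rw [hzc, ← Finset.sum_sub_distrib]
      refine Finset.sum_congr rfl fun j _ => ?_
      rw [IsScalarTower.algebraMap_apply K0 Kb F, map_sub]
      ring
    rw [h1]
    refine (O i).nonunits.sum_mem fun j _ => ?_
    exact ld_mul_mem_nonunits (O i) (H.mem_m i _ (ha j)) (huO j i)

end Descent

end Fermat.Agent.S36lib

end
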