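import Mathlib
import Fermat.Agent.S36lib.SetupK0
import Fermat.Agent.S36lib.LatDesc
import Fermat.Agent.S36lib.DescK0
import Fermat.Agent.S36lib.FixedF0
import Fermat.Agent.S36lib.K0Unram
import Fermat.Agent.GoodRed.Lattice

/-!
# Item 83 (S36), block V (helper21): descent of reductions from `A` to `A0`, concrete form

`vdesc_main`: `L` a level, `v i` finitely many valuations of `FF L` over `A` (`ResVal`), one of
them the valuation ring of a constant reduction (orthonormal bases), all of them DISCRETE on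
`F0(L)` (V-F, `VDisc.lean`).  `D` an inertia-stable divisor.  Then every `z ∈ L(D) ∩ ⋂ O_i` has
the same reductions as some `z₀ ∈ L(D) ∩ F0(L) ∩ ⋂ O_i`.

Instance of `ld_descent` (`LatDesc.lean`): the bounded coordinates are finitely many Laurent
coefficients (pivots of `dk_exists_echelon`, helper27), multiplied by a power of `q`.
No sorry.
-/

set_option autoImplicit false
set_option linter.style.haveILetI false
set_option linter.unusedSectionVars false
set_option synthInstance.maxHeartbeats 400000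

noncomputable section

namespace Fermat.Agent.S36lib

open ModularCurve AlgebraicCurve HahnSeries
open Fermat.Agent.S24lib Fermat.Agent.S34lib Fermat.Agent.GoodRed Fermat.Agent.RRlib

section Generic

variable {K F k Fk : Type*} [Field K] [Field F] [Algebra K F] [Field k] [Field Fk] [Algebra k Fk]
variable {A : ValuationSubring K} {π : A →+* k}

/-- coordinates with respect to an orthonormal basis: the elements of `V ∩ O` are the
`A`-combinations of the basis. -/
theorem vdesc_orth (R : ConstRed A π Fk F) (V : Submodule K F) (hV : Module.Finite K V) :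
    ∃ (n : ℕ) (c : Fin n → F), ∀ x ∈ V, x ∈ R.O →
      ∃ g : Fin n → K, (∀ i, g i ∈ A) ∧ x = ∑ i, g i • c i := by
  obtain ⟨n, c, hspan, hind⟩ := R.exists_orthonormal V hV
  refine ⟨n, fun i => ((c i : R.O) : F), fun x hxV hxO => ?_⟩
  rw [← hspan] at hxV
  obtain ⟨g, hg⟩ := (Submodule.mem_span_range_iff_exists_fun K).mp hxV
  have hgA : ∀ i ∈ (Finset.univ : Finset (Fin n)), g i ∈ A := by
    refine R.coeff_mem_of_sum_mem c hind Finset.univ g ?_
    rw [hg]
    exact hxO
  exact ⟨g, fun i => hgA i (Finset.mem_univ i), hg.symm⟩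

/-- finitely many linear forms are bounded on `V ∩ O`: a power of `ϖ` makes them integral. -/
theorem vdesc_forms_bounded (R : ConstRed A π Fk F) (V : Submodule K F) (hV : Module.Finite K V)
    (ϖ : K) (harch : ∀ y : K, ∃ N : ℕ, ∀ N' : ℕ, N ≤ N' → ϖ ^ N' * y ∈ A)
    {κ : Type*} [Fintype κ] (φ : κ → F →ₗ[K] K) :
    ∃ N : ℕ, ∀ x ∈ V, x ∈ R.O → ∀ j, ϖ ^ N * φ j x ∈ A := by
  classical
  obtain ⟨n, c, hc⟩ := vdesc_orth R V hV
  choose Nf hNf using fun p : Fin n × κ => harch (φ p.2 (c p.1))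
  refine ⟨Finset.univ.sup Nf, fun x hxV hxO j => ?_⟩
  obtain ⟨g, hgA, hg⟩ := hc x hxV hxO
  rw [hg, map_sum, Finset.mul_sum]
  refine A.toSubring.sum_mem fun i _ => ?_
  rw [map_smul, smul_eq_mul]
  have h3 : ϖ ^ Finset.univ.sup Nf * (g i * φ j (c i)) =
      g i * (ϖ ^ Finset.univ.sup Nf * φ j (c i)) := by ring
  rw [h3]
  exact A.mul_mem _ _ (hgA i)
    (hNf (i, j) _ (Finset.le_sup (f := Nf) (Finset.mem_univ (i, j))))

end Generic

variable (A : ValuationSubring Kbar) (L : ℕ) [NeZero L]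

/-- the `K0`-space `L(D) ∩ F0(L)` -/
def vdescV0 (D : Divisor Kbar (FF L)) : Submodule (k0Field A) (FF L) where
  carrier := {x | x ∈ riemannRochSpace (K := Kbar) D ∧ x ∈ f0Field A L}
  add_mem' := fun hx hy => ⟨Submodule.add_mem _ hx.1 hy.1, add_mem hx.2 hy.2⟩
  zero_mem' := ⟨Submodule.zero_mem _, zero_mem _⟩
  smul_mem' := fun c x hx => by
    refine ⟨?_, ?_⟩
    · have : c • x = (c : Kbar) • x := (algebraMap_smul Kbar c x).symm
      rw [this]
      exact Submodule.smul_mem _ _ hx.1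
    · rw [Algebra.smul_def]
      exact mul_mem ((f0Field A L).algebraMap_mem c) hx.2

theorem mem_vdescV0 (D : Divisor Kbar (FF L)) (x : FF L) :
    x ∈ vdescV0 A L D ↔ x ∈ riemannRochSpace (K := Kbar) D ∧ x ∈ f0Field A L := Iff.rfl

variable {A L}

/-- the residue field of `A0` is that of `A` (helper8), in the form of `LatDescData.res` -/
theorem vdesc_res {q : ℕ} (hq : q.Prime) (hA : A.LiesOverPrime q) (a : Kbar) (ha : a ∈ A) :
    ∃ a0 : k0Field A, a0 ∈ k0Val A ∧ a - algebraMap (k0Field A) Kbar a0 ∈ A.nonunits := by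
  obtain ⟨b, hb, hbA, hab⟩ := k0_residue_surj A q hq hA a ha
  exact ⟨⟨b, (mem_k0Field_iff A b).mpr hb⟩, hbA, hab⟩

/-- nonnegative powers of `q` are integral -/
theorem vdesc_qpow_mem {q : ℕ} (hA : A.LiesOverPrime q) (O : ValuationSubring (FF L))
    (hO : ∀ a : A, algebraMap Kbar (FF L) (a : Kbar) ∈ O) (n : ℕ) :
    algebraMap Kbar (FF L) ((q : Kbar) ^ n) ∈ O := by
  have hqA : (q : Kbar) ∈ A := A.nonunits_subset hA
  exact hO ⟨(q : Kbar) ^ n, pow_mem hqA n⟩

/-- discreteness (unit form) ⇒ every element of `F0` is moved into `O` by a power of `q` -/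
theorem vdesc_span_of_disc {q : ℕ} (hq : q.Prime) (hA : A.LiesOverPrime q)
    (O : ValuationSubring (FF L)) (hO : ∀ a : A, algebraMap Kbar (FF L) (a : Kbar) ∈ O)
    (hdisc : ∀ f ∈ f0Field A L, f ≠ 0 → ∃ n : ℤ,
      algebraMap Kbar (FF L) ((q : Kbar) ^ n) * f ∈ O ∧
        (algebraMap Kbar (FF L) ((q : Kbar) ^ n) * f)⁻¹ ∈ O)
    {x : FF L} (hx : x ∈ f0Field A L) :
    ∃ N : ℕ, ∀ N' : ℕ, N ≤ N' → algebraMap Kbar (FF L) ((q : Kbar) ^ N') * x ∈ O := by
  by_cases hx0 : x = 0
  · exact ⟨0, fun N' _ => by rw [hx0, mul_zero]; exact O.zero_mem⟩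
  obtain ⟨n, hn, -⟩ := hdisc x hx hx0
  have hq0 : (q : Kbar) ≠ 0 := Nat.cast_ne_zero.mpr hq.ne_zero
  refine ⟨n.toNat, fun N' hN' => ?_⟩
  have hd : 0 ≤ (N' : ℤ) - n := by
    have := Int.self_le_toNat n
    omega
  obtain ⟨d, hd'⟩ := Int.eq_ofNat_of_zero_le hd
  have h1 : (q : Kbar) ^ N' = (q : Kbar) ^ d * (q : Kbar) ^ n := by
    rw [← zpow_natCast, ← zpow_natCast, ← zpow_add₀ hq0, ← hd']
    congr 1
    ring
  rw [h1, map_mul, mul_assoc]
  exact O.mul_mem _ _ (vdesc_qpow_mem hA O hO d) hn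

/-- discreteness (unit form) ⇒ a non-unit of `O` in `F0` is divisible by `q` in `O` -/
theorem vdesc_div_of_disc {q : ℕ} (hq : q.Prime) (hA : A.LiesOverPrime q)
    (O : ValuationSubring (FF L)) (hO : ∀ a : A, algebraMap Kbar (FF L) (a : Kbar) ∈ O)
    (hdisc : ∀ f ∈ f0Field A L, f ≠ 0 → ∃ n : ℤ,
      algebraMap Kbar (FF L) ((q : Kbar) ^ n) * f ∈ O ∧
        (algebraMap Kbar (FF L) ((q : Kbar) ^ n) * f)⁻¹ ∈ O)
    {z : FF L} (hz : z ∈ f0Field A L) (hzm : z ∈ O.nonunits) :
    algebraMap Kbar (FF L) (q : Kbar)⁻¹ * z ∈ O := by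
  by_cases hz0 : z = 0
  · rw [hz0, mul_zero]; exact O.zero_mem
  obtain ⟨n, hn, hn'⟩ := hdisc z hz hz0
  have hq0 : (q : Kbar) ≠ 0 := Nat.cast_ne_zero.mpr hq.ne_zero
  -- `n < 0`
  have hneg : n < 0 := by
    by_contra hcon
    push Not at hcon
    obtain ⟨d, rfl⟩ := Int.eq_ofNat_of_zero_le hcon
    have h1 : algebraMap Kbar (FF L) ((q : Kbar) ^ (d : ℤ)) * z ∈ O.nonunits := by
      rw [mul_comm]
      refine ld_mul_mem_nonunits O hzm ?_
      rw [zpow_natCast]
      exact vdesc_qpow_mem hA O hO d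
    rw [ValuationSubring.mem_nonunits_iff_or] at h1
    rcases h1 with h | h
    · rw [h, inv_zero] at hn'
      have : algebraMap Kbar (FF L) ((q : Kbar) ^ (d : ℤ)) ≠ 0 := by
        rw [Ne, map_eq_zero]
        exact zpow_ne_zero _ hq0
      exact (mul_ne_zero this hz0) h
    · exact h hn'
  have hd : 0 ≤ -n - 1 := by omega
  obtain ⟨d, hd'⟩ := Int.eq_ofNat_of_zero_le hd
  have h1 : ((q : Kbar))⁻¹ = (q : Kbar) ^ d * (q : Kbar) ^ n := by
    rw [← zpow_natCast, ← zpow_add₀ hq0, ← hd', ← zpow_neg_one]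
    congr 1
    ring
  rw [h1, map_mul, mul_assoc]
  exact O.mul_mem _ _ (vdesc_qpow_mem hA O hO d) hn

/-- `L(D)` is spanned over `ℚ̄` by its inertia-fixed elements (`D` inertia-stable) -/
theorem vdesc_le_span [RRBase Kbar (FF L)] (D : Divisor Kbar (FF L))
    (hD : ∀ σ ∈ A.inertiaSubgroupIn ℚ, galFF L σ • D = D) {z : FF L}
    (hz : z ∈ riemannRochSpace (K := Kbar) D) :
    z ∈ Submodule.span Kbar ((vdescV0 A L D : Submodule (k0Field A) (FF L)) : Set (FF L)) := by
  classical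
  obtain ⟨κ, hF, hDec, b, hb, -⟩ :=
    dk_exists_basis_L L {σ | σ ∈ A.inertiaSubgroupIn ℚ} D (fun σ hσ => hD σ hσ)
  have hbV : ∀ j, ((b j : riemannRochSpace (K := Kbar) D) : FF L) ∈ vdescV0 A L D := by
    intro j
    refine ⟨(b j).2, (mem_f0Field_iff_isIFixed A L _).mpr ?_⟩
    intro σ hσ
    exact hb σ hσ j
  have h1 : (⟨z, hz⟩ : riemannRochSpace (K := Kbar) D) = ∑ j, b.repr ⟨z, hz⟩ j • b j :=
    (b.sum_repr _).symm
  have h2 : z = ∑ j, b.repr ⟨z, hz⟩ j • ((b j : riemannRochSpace (K := Kbar) D) : FF L) := by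
    have := congrArg (Subtype.val : riemannRochSpace (K := Kbar) D → FF L) h1
    rw [Submodule.coe_sum] at this
    exact this
  rw [h2]
  exact Submodule.sum_mem _ fun j _ => Submodule.smul_mem _ _ (Submodule.subset_span (hbV j))

/-- **bounded coordinates**: finitely many Laurent coefficients, multiplied by a power of `q`,
are injective on `L(D) ∩ F0` and integral on `L(D) ∩ F0 ∩ O`, `O` the valuation ring of a
constant reduction. -/
theorem vdesc_bounded [RRBase Kbar (FF L)] {q : ℕ} (hq : q.Prime) (hA : A.LiesOverPrime q)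
    {Fk : Type*} [Field Fk] [Algebra (IsLocalRing.ResidueField A) Fk]
    (R : ConstRed A (IsLocalRing.residue A) Fk (FF L)) (D : Divisor Kbar (FF L)) :
    ∃ (m : ℕ) (ℓ : vdescV0 A L D →ₗ[k0Field A] (Fin m → k0Field A)), Function.Injective ℓ ∧
      ∀ z : vdescV0 A L D, (z : FF L) ∈ R.O → ∀ j, ℓ z j ∈ k0Val A := by
  classical
  have hfin : Module.Finite Kbar (riemannRochSpace (K := Kbar) D) := finite_riemannRochSpace _
  obtain ⟨κ, hF, hDec, b, piv, -, hrepr⟩ :=
    dk_exists_echelon (L := Kbar) ((dkCoeff L).comp (riemannRochSpace (K := Kbar) D).subtype)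
      (fun x y h => Subtype.ext (dkCoeff_injective L h))
  have hq0 : (q : Kbar) ≠ 0 := Nat.cast_ne_zero.mpr hq.ne_zero
  have hqA : (q : Kbar) ∈ A := A.nonunits_subset hA
  -- a power of `q` killing the denominators of the pivot coefficients on the lattice
  have hN1 : ∀ y : Kbar, ∃ N : ℕ, ∀ N' : ℕ, N ≤ N' → (q : Kbar) ^ N' * y ∈ A := by
    intro y
    by_cases hy : y = 0
    · exact ⟨0, fun N' _ => by rw [hy, mul_zero]; exact A.zero_mem⟩
    obtain ⟨N, hN⟩ := k0_exists_pow_lt A q hq hA y⁻¹ (inv_ne_zero hy)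
    refine ⟨N, fun N' hN' => ?_⟩
    have h1 : (q : Kbar) ^ N * y ∈ A := by
      rw [← A.valuation_le_one_iff, map_mul, map_pow]
      rw [map_inv₀] at hN
      have hvy : 0 < A.valuation y := by
        rw [zero_lt_iff, Ne, map_eq_zero]; exact hy
      have := mul_lt_mul_of_pos_right hN hvy
      rw [inv_mul_cancel₀ hvy.ne'] at this
      exact this.le
    obtain ⟨d, rfl⟩ := Nat.exists_eq_add_of_le hN'
    rw [_root_.pow_add, mul_comm ((q : Kbar) ^ N), mul_assoc]
    exact A.mul_mem _ _ (pow_mem hqA d) h1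
  obtain ⟨N, hN⟩ := vdesc_forms_bounded R (riemannRochSpace (K := Kbar) D) hfin (q : Kbar) hN1
    (fun k : κ => (LinearMap.proj (piv k)).comp (dkCoeff L))
  let e : κ ≃ Fin (Fintype.card κ) := Fintype.equivFin κ
  have hcoeffK0 : ∀ (x : vdescV0 A L D) (i : ℤ),
      (q : Kbar) ^ N * ((x : FF L) : LaurentSeries Kbar).coeff i ∈ k0Field A := by
    intro x i
    exact mul_mem (pow_mem (natCast_mem _ q) N) ((mem_f0Field_iff_coeff A L _).mp x.2.2 i)
  refine ⟨Fintype.card κ,
    { toFun := fun x j => ⟨(q : Kbar) ^ N *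
        ((x : FF L) : LaurentSeries Kbar).coeff (piv (e.symm j)), hcoeffK0 x _⟩
      map_add' := fun x y => by
        funext j
        apply Subtype.ext
        show (q : Kbar) ^ N * (((x + y : vdescV0 A L D) : FF L) : LaurentSeries Kbar).coeff _ = _
        have : (((x + y : vdescV0 A L D) : FF L) : LaurentSeries Kbar) =
            ((x : FF L) : LaurentSeries Kbar) + ((y : FF L) : LaurentSeries Kbar) := rfl
        rw [this, HahnSeries.coeff_add, mul_add]
        rfl
      map_smul' := fun a x => by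
        funext j
        apply Subtype.ext
        show (q : Kbar) ^ N * (((a • x : vdescV0 A L D) : FF L) : LaurentSeries Kbar).coeff _ = _
        have h1 : ((a • x : vdescV0 A L D) : FF L) = (a : Kbar) • (x : FF L) :=
          (algebraMap_smul Kbar a (x : FF L)).symm
        have h2 := dkCoeff_apply L ((a : Kbar) • (x : FF L)) (piv (e.symm j))
        rw [map_smul] at h2
        rw [h1, ← h2]
        show (q : Kbar) ^ N * ((a : Kbar) • dkCoeff L (x : FF L)) (piv (e.symm j)) = _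
        rw [Pi.smul_apply, dkCoeff_apply, smul_eq_mul]
        show _ = (a : Kbar) * ((q : Kbar) ^ N * _)
        ring }, ?_, ?_⟩
  · -- injective
    intro x y hxy
    apply Subtype.ext
    have hx' : ∀ k : κ, ((x : FF L) : LaurentSeries Kbar).coeff (piv k) =
        ((y : FF L) : LaurentSeries Kbar).coeff (piv k) := by
      intro k
      have h1 := congrFun hxy (e k)
      have h2 := congrArg Subtype.val h1
      simp only [LinearMap.coe_mk, AddHom.coe_mk, Equiv.symm_apply_apply] at h2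
      exact mul_left_cancel₀ (pow_ne_zero N hq0) h2
    have hrx : b.repr ⟨(x : FF L), x.2.1⟩ = b.repr ⟨(y : FF L), y.2.1⟩ := by
      ext k
      rw [hrepr, hrepr]
      exact hx' k
    have := b.repr.injective hrx
    exact congrArg (fun t : riemannRochSpace (K := Kbar) D => (t : FF L)) this
  · -- integral on the lattice
    intro z hzO j
    rw [mem_k0Val_iff]
    exact hN (z : FF L) z.2.1 hzO (e.symm j)

section Main

variable {κ : Type*} [Field κ] [Algebra (IsLocalRing.ResidueField A) κ]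

/-- a non-unit constant is a non-unit of every valuation ring over `A` -/
theorem vdesc_mem_m (v : ResVal A (IsLocalRing.residue A) κ (FF L)) {a : Kbar}
    (ha : a ∈ A.nonunits) : algebraMap Kbar (FF L) a ∈ v.O.nonunits := by
  have haA : a ∈ A := A.nonunits_subset ha
  have h1 := v.red_algebraMap ⟨a, haA⟩
  have h2 : IsLocalRing.residue A ⟨a, haA⟩ = 0 := by
    rw [IsLocalRing.residue_eq_zero_iff]
    exact ValuationSubring.coe_mem_nonunits_iff.mp ha
  rw [h2, map_zero] at h1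
  exact (v.red_eq_zero_iff _).mp h1

theorem vdesc_algebraMap_k0 (c : k0Field A) :
    algebraMap (k0Field A) (FF L) c = algebraMap Kbar (FF L) (c : Kbar) := rfl

/-- **the lattice-descent data** of `L(D) ∩ F0(L)` for finitely many valuations over `A`. -/
theorem vdesc_latDescData [RRBase Kbar (FF L)] {q : ℕ} (hq : q.Prime) (hA : A.LiesOverPrime q)
    {ι : Type*} [Finite ι] (v : ι → ResVal A (IsLocalRing.residue A) κ (FF L))
    {Fk : Type*} [Field Fk] [Algebra (IsLocalRing.ResidueField A) Fk]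
    (R : ConstRed A (IsLocalRing.residue A) Fk (FF L)) (i₀ : ι) (hi₀ : (v i₀).O = R.O)
    (hdisc : ∀ i, ∀ f ∈ f0Field A L, f ≠ 0 → ∃ n : ℤ,
      algebraMap Kbar (FF L) ((q : Kbar) ^ n) * f ∈ (v i).O ∧
        (algebraMap Kbar (FF L) ((q : Kbar) ^ n) * f)⁻¹ ∈ (v i).O)
    (D : Divisor Kbar (FF L)) :
    LatDescData A (k0Val A) (q : k0Field A) (fun i => (v i).O) (vdescV0 A L D) where
  mem_A0 := fun _ => Iff.rfl
  res := vdesc_res hq hA
  q_ne := Nat.cast_ne_zero.mpr hq.ne_zero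
  q_mem := by
    rw [map_natCast]
    exact hA
  mem_O := fun i a ha => (v i).algebraMap_mem ⟨a, ha⟩
  mem_m := fun i a ha => vdesc_mem_m (v i) ha
  bounded := by
    obtain ⟨m, ℓ, hℓ, hℓA⟩ := vdesc_bounded hq hA R D
    exact ⟨m, ℓ, hℓ, fun z hz => hℓA z (hi₀ ▸ hz i₀)⟩
  span := by
    classical
    intro x hx
    haveI : Fintype ι := Fintype.ofFinite ι
    choose Nf hNf using fun i =>
      vdesc_span_of_disc hq hA (v i).O (v i).algebraMap_mem (hdisc i) hx.2
    refine ⟨Finset.univ.sup Nf, fun i => ?_⟩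
    have := hNf i _ (Finset.le_sup (f := Nf) (Finset.mem_univ i))
    rw [map_pow, map_natCast] at this
    rw [map_pow, map_natCast]
    exact this
  disc := by
    intro z hz hzm i
    have := vdesc_div_of_disc hq hA (v i).O (v i).algebraMap_mem (hdisc i) hz.2 (hzm i)
    rw [map_inv₀, map_natCast] at this
    rw [map_inv₀, map_natCast]
    exact this

/-- **V, descent of reductions `A → A0`**: an element of `L(D)` in the valuation rings `O_i`
has the same reductions as an element of `L(D) ∩ F0(L)` in the `O_i`. -/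
theorem vdesc_main [RRBase Kbar (FF L)] {q : ℕ} (hq : q.Prime) (hA : A.LiesOverPrime q)
    {ι : Type*} [Finite ι] (v : ι → ResVal A (IsLocalRing.residue A) κ (FF L))
    {Fk : Type*} [Field Fk] [Algebra (IsLocalRing.ResidueField A) Fk]
    (R : ConstRed A (IsLocalRing.residue A) Fk (FF L)) (i₀ : ι) (hi₀ : (v i₀).O = R.O)
    (hdisc : ∀ i, ∀ f ∈ f0Field A L, f ≠ 0 → ∃ n : ℤ,
      algebraMap Kbar (FF L) ((q : Kbar) ^ n) * f ∈ (v i).O ∧
        (algebraMap Kbar (FF L) ((q : Kbar) ^ n) * f)⁻¹ ∈ (v i).O)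
    (D : Divisor Kbar (FF L)) (hD : ∀ σ ∈ A.inertiaSubgroupIn ℚ, galFF L σ • D = D)
    (z : FF L) (hz : z ∈ riemannRochSpace (K := Kbar) D) (hzO : ∀ i, z ∈ (v i).O) :
    ∃ z₀ : FF L, z₀ ∈ riemannRochSpace (K := Kbar) D ∧ z₀ ∈ f0Field A L ∧
      ∃ h : ∀ i, z₀ ∈ (v i).O, ∀ i, (v i).red ⟨z₀, h i⟩ = (v i).red ⟨z, hzO i⟩ := by
  haveI : IsDiscreteValuationRing (k0Val A) := k0Val_isDiscreteValuationRing A q hq hA
  have H := vdesc_latDescData hq hA v R i₀ hi₀ hdisc D
  obtain ⟨z₀, hz₀V, hz₀O, hcong⟩ := ld_descent H z (vdesc_le_span D hD hz) hzO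
  refine ⟨z₀, hz₀V.1, hz₀V.2, hz₀O, fun i => ?_⟩
  have h1 : (v i).red (⟨z, hzO i⟩ - ⟨z₀, hz₀O i⟩) = 0 :=
    ((v i).red_eq_zero_iff _).mpr (hcong i)
  rw [map_sub, sub_eq_zero] at h1
  exact h1.symm

end Main

end Fermat.Agent.S36lib

end
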