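/-
Item 83 (S36), add-on of K0-3 for APPLY2 (helper4): `InvK` follows from its restriction to the
functions fixed by the inertia group.

* `invrep_normAlong_algebraMap` : the norm of a constant is a constant;
* `invrep_isCM_*` : bookkeeping for "constant times `m`-th power";
* `invrep_isKummerNew_of_mul` : `IsKummerNew` passes from `f = c · f0 · s ^ m` to `f0`;
* `invK_of_fixed` : `InvK M' q m c A` from the statement for the `I`-fixed functions.
-/
import Mathlib
import Fermat.Agent.S36lib.InvRep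
import Fermat.Agent.S35lib.DegJGen
import Fermat.Agent.S37lib.HeckeInputs

set_option autoImplicit false
set_option linter.style.haveILetI false

noncomputable section

namespace Fermat.Agent.S36lib

open ModularCurve AlgebraicCurve HahnSeries Fermat.Agent.S24lib Fermat.Agent.S34lib
  Fermat.Agent.RRlib Fermat.Agent.HeckeBar Fermat.Agent.S35lib

section Norm

variable {K F F' : Type*} [Field K] [Field F] [Field F'] [Algebra K F] [Algebra K F']

/-- the norm of a constant is a constant -/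
theorem invrep_normAlong_algebraMap (φ : F →ₐ[K] F') (c : K) :
    ∃ d : ℕ, normAlong φ (algebraMap K F' c) = algebraMap K F (c ^ d) := by
  letI := algebraAlong φ
  refine ⟨Module.finrank F F', ?_⟩
  have h1 : algebraMap K F' c = algebraMap F F' (algebraMap K F c) := (φ.commutes c).symm
  show Algebra.norm F (algebraMap K F' c) = _
  rw [h1, Algebra.norm_algebraMap, map_pow]

/-- `x` is a constant times an `m`-th power -/
def IsCM (K : Type*) {F : Type*} [Field K] [Field F] [Algebra K F] (m : ℕ) (x : F) : Prop :=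
  ∃ (c : K) (g : F), x = algebraMap K F c * g ^ m

theorem IsCM.mul {m : ℕ} {x y : F} (hx : IsCM K m x) (hy : IsCM K m y) : IsCM K m (x * y) := by
  obtain ⟨c, g, rfl⟩ := hx
  obtain ⟨c', g', rfl⟩ := hy
  exact ⟨c * c', g * g', by rw [map_mul, mul_pow]; ring⟩

theorem IsCM.inv {m : ℕ} {x : F} (hx : IsCM K m x) : IsCM K m x⁻¹ := by
  obtain ⟨c, g, rfl⟩ := hx
  exact ⟨c⁻¹, g⁻¹, by rw [map_inv₀, inv_pow, mul_inv]⟩

theorem IsCM.const (m : ℕ) (c : K) : IsCM K m (algebraMap K F c) :=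
  ⟨c, 1, by rw [one_pow, mul_one]⟩

theorem IsCM.pow_self (m : ℕ) (g : F) : IsCM K m (g ^ m) :=
  ⟨1, g, by rw [map_one, one_mul]⟩

/-- `IsCM` of the norm passes from `f = c · f0 · s ^ m` to `f0` -/
theorem invrep_isCM_norm (φ : F →ₐ[K] F') (hfin : FiniteAlong K φ) {m : ℕ} {f f0 s : F'}
    {c : K} (hc : c ≠ 0) (hs : s ≠ 0) (hfe : f = algebraMap K F' c * f0 * s ^ m)
    (h : IsCM K m (normAlong φ f)) : IsCM K m (normAlong φ f0) := by
  obtain ⟨d, hd⟩ := invrep_normAlong_algebraMap φ c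
  have hcd : algebraMap K F (c ^ d) ≠ 0 := (map_ne_zero _).mpr (pow_ne_zero _ hc)
  have hNs : normAlong φ s ≠ 0 := dgj_normAlong_ne_zero φ hfin hs
  have e : normAlong φ f0
      = normAlong φ f * ((algebraMap K F (c ^ d))⁻¹ * ((normAlong φ s) ^ m)⁻¹) := by
    rw [hfe, map_mul, map_mul, map_pow, hd]
    field_simp
  rw [e]
  exact h.mul ((IsCM.const m (c ^ d)).inv.mul (IsCM.pow_self m _).inv)

end Norm

section Concrete

variable (M' q : ℕ) [NeZero M'] [NeZero q]

/-- `IsKummerNew` passes from `f = c · f0 · s ^ m` to `f0` -/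
theorem invrep_isKummerNew_of_mul {m : ℕ} {f f0 s : FF (M' * q)} {c : Kbar} (hc : c ≠ 0)
    (hs : s ≠ 0) (hfe : f = algebraMap Kbar (FF (M' * q)) c * f0 * s ^ m)
    (h : IsKummerNew M' q m f) : IsKummerNew M' q m f0 :=
  ⟨invrep_isCM_norm (heckeAlphaBar Kbar M' q) (Fermat.Agent.S37lib.hinp_finiteAlong_alpha M' q)
      hc hs hfe h.1,
    invrep_isCM_norm (heckeBetaBar Kbar M' q) (Fermat.Agent.S37lib.hinp_finiteAlong_beta M' q)
      hc hs hfe h.2⟩

/-- **(D) for APPLY2**: `InvK` follows from its restriction to the functions fixed by the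
inertia group. -/
theorem invK_of_fixed (m c : ℕ) (hm : 0 < m) (A : ValuationSubring Kbar)
    (h : ∀ f0 : FF (M' * q * q), f0 ≠ 0 →
      (∀ P : Place Kbar (FF (M' * q * q)), (m : ℤ) ∣ P.ord f0) →
      IsKummerNew2 M' q m f0 →
      (∀ σ ∈ A.inertiaSubgroupIn ℚ, galFF (M' * q * q) σ • f0 = f0) →
      ∃ (c₀ : Kbar) (s : FF (M' * q * q)),
        f0 ^ c = algebraMap Kbar (FF (M' * q * q)) c₀ * s ^ m) :
    InvK M' q m c A := by
  haveI : NeZero (M' * q * q) :=
    ⟨Nat.mul_ne_zero (Nat.mul_ne_zero (NeZero.ne M') (NeZero.ne q)) (NeZero.ne q)⟩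
  intro f hf hdiv hnew hfix
  obtain ⟨c₁, f0, s, hc₁, hf0, hs, hfe, hfix0, hdiv0⟩ :=
    invRep_descent (M' * q * q) m hm A hf hdiv hfix
  have hnew0 : IsKummerNew2 M' q m f0 := invrep_isKummerNew_of_mul (M' * q) q hc₁ hs hfe hnew
  obtain ⟨c₀, s₀, h0⟩ := h f0 hf0 hdiv0 hnew0 hfix0
  refine ⟨c₁ ^ c * c₀, s₀ * s ^ c, ?_⟩
  rw [hfe, mul_pow, mul_pow, h0, map_mul, map_pow, mul_pow, ← pow_mul, ← pow_mul, mul_comm m c]
  ring

end Concrete

end Fermat.Agent.S36lib

end
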