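/-
Item 83 (S36), piece KUMMER-DESC-N (helper4), input of NV / COMP (interface v2 of helper20).

* `kdn_descent_set` : `z ≠ 0` fixed by a set `G` of Galois automorphisms, `z = c · s ^ m`
  ⟹ `z = c' · s' ^ m` with `σ c' = c'`, `σ s' = s'` for all `σ ∈ G`
  (normalisation: leading coefficient `1` at `∞`; no Hilbert 90);
* `kdn_descent` : the same with `G = I_A`: `c' ∈ k0Field A`, `IsIFixed N A s'`;
* `kdn_galFF_normAlong_alpha`, `kdn_galFF_normAlong_beta` : the norms along `α`, `β` commute with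
  the Galois action on coefficients; `kdn_isIFixed_normAlong_alpha/beta`;
* `kdn_new2` : for an `I`-fixed Kummer-new `f0 ∈ F_{M'q²}` both norms to `F_{M'q}` are
  `c · s ^ m` with `c ∈ K0`, `s` `I`-fixed.
-/
import Mathlib
import Fermat.Agent.S36lib.InvRepNew
import Fermat.Agent.S36lib.Setup
import Fermat.Agent.S36lib.K0Field

set_option autoImplicit false
set_option linter.style.haveILetI false

noncomputable section

namespace Fermat.Agent.S36lib

open ModularCurve AlgebraicCurve HahnSeries Fermat.Agent.S24lib Fermat.Agent.S34lib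
  Fermat.Agent.RRlib Fermat.Agent.HeckeBar Fermat.Agent.S35lib

section Descent

variable (N : ℕ) [NeZero N]

/-- **Kummer descent at level `N`**, generic in the set `G` of Galois automorphisms. -/
theorem kdn_descent_set (m : ℕ) (G : Set (Kbar ≃ₐ[ℚ] Kbar))
    {z : FF N} (hz : z ≠ 0) (hfix : ∀ σ ∈ G, galFF N σ • z = z)
    (h : ∃ (c : Kbar) (s : FF N), z = algebraMap Kbar (FF N) c * s ^ m) :
    ∃ (c' : Kbar) (s' : FF N), c' ≠ 0 ∧ s' ≠ 0 ∧
      z = algebraMap Kbar (FF N) c' * s' ^ m ∧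
      (∀ σ ∈ G, σ c' = c') ∧ (∀ σ ∈ G, galFF N σ • s' = s') := by
  classical
  haveI : RRHyp Kbar (FF N) := mod_rrHyp N
  obtain ⟨c, s, hcs⟩ := h
  by_cases hm0 : m = 0
  · subst hm0
    rw [pow_zero, mul_one] at hcs
    have hc0 : c ≠ 0 := by
      rintro rfl
      exact hz (by rw [hcs, map_zero])
    refine ⟨c, 1, hc0, one_ne_zero, by rw [pow_zero, mul_one]; exact hcs, ?_,
      fun σ _ => smul_one _⟩
    intro σ hσ
    have h1 := hfix σ hσ
    rw [hcs, SemilinearAut.smul_algebraMap] at h1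
    exact (algebraMap Kbar (FF N)).injective h1
  · have hc0 : c ≠ 0 := by
      rintro rfl
      exact hz (by rw [hcs, map_zero, zero_mul])
    have hs0 : s ≠ 0 := by
      rintro rfl
      exact hz (by rw [hcs, zero_pow hm0, mul_zero])
    set n : ℤ := ((s : FF N) : LaurentSeries Kbar).order with hn
    set a : Kbar := ((s : FF N) : LaurentSeries Kbar).coeff n with ha
    have hsL : ((s : FF N) : LaurentSeries Kbar) ≠ 0 := fun h0 => hs0 (Subtype.ext h0)
    have ha0 : a ≠ 0 := HahnSeries.coeff_order_eq_zero.not.mpr hsL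
    have haiF : algebraMap Kbar (FF N) a⁻¹ ≠ 0 := (map_ne_zero _).mpr (inv_ne_zero ha0)
    set s' : FF N := algebraMap Kbar (FF N) a⁻¹ * s with hs'
    have hs'0 : s' ≠ 0 := mul_ne_zero haiF hs0
    have hs'n : ((s' : FF N) : LaurentSeries Kbar).coeff n = 1 := by
      rw [hs', invrep_coeff_algebraMap_mul, ← ha, inv_mul_cancel₀ ha0]
    have hc'0 : c * a ^ m ≠ 0 := mul_ne_zero hc0 (pow_ne_zero _ ha0)
    have hzc : z = algebraMap Kbar (FF N) (c * a ^ m) * s' ^ m := by
      rw [hcs, hs', mul_pow, ← map_pow, ← mul_assoc, ← map_mul, inv_pow, mul_assoc c,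
        mul_inv_cancel₀ (pow_ne_zero _ ha0), mul_one]
    have hmZ : (m : ℤ) ≠ 0 := by exact_mod_cast hm0
    have hs'fix : ∀ σ ∈ G, galFF N σ • s' = s' := by
      intro σ hσ
      set g := galFF N σ with hg
      have hgz := hfix σ hσ
      have hgs'0 : g • s' ≠ 0 := by simpa using hs'0
      have hw0 : g • s' / s' ≠ 0 := div_ne_zero hgs'0 hs'0
      have hpow : algebraMap Kbar (FF N) (σ (c * a ^ m)) * (g • s' / s') ^ m
          = algebraMap Kbar (FF N) (c * a ^ m) := by
        have h1 : g • z = algebraMap Kbar (FF N) (σ (c * a ^ m)) * (g • s') ^ m := by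
          conv_lhs => rw [hzc]
          rw [smul_mul', smul_pow', SemilinearAut.smul_algebraMap]
          rfl
        rw [hgz] at h1
        rw [div_pow, mul_div_assoc', ← h1, hzc, mul_div_assoc,
          div_self (pow_ne_zero _ hs'0), mul_one]
      have hσc0 : algebraMap Kbar (FF N) (σ (c * a ^ m)) ≠ 0 :=
        (map_ne_zero _).mpr ((map_ne_zero σ).mpr hc'0)
      have hreg : ∀ v : Place Kbar (FF N), 0 ≤ v.ord (g • s' / s') := by
        intro v
        have h2 := congrArg v.ord hpow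
        rw [v.ord_mul hσc0 (pow_ne_zero _ hw0), uk_ord_const, uk_ord_const, zero_add,
          Fermat.Agent.S18lib.ord_pow_nat] at h2
        rcases mul_eq_zero.mp h2 with h3 | h3
        · exact absurd h3 hmZ
        · exact h3.ge
      obtain ⟨ζ, hζ⟩ := RRBase.const_of_forall_ord_nonneg (K := Kbar) (g • s' / s') hreg
      have hgs : g • s' = algebraMap Kbar (FF N) ζ * s' := by
        rw [hζ, div_mul_cancel₀ _ hs'0]
      have h1 := invrep_coeff_smul N σ s' n
      rw [← hg, hgs, invrep_coeff_algebraMap_mul, hs'n, map_one, mul_one] at h1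
      rw [hgs, h1, map_one, one_mul]
    refine ⟨c * a ^ m, s', hc'0, hs'0, hzc, ?_, hs'fix⟩
    intro σ hσ
    have hgz := hfix σ hσ
    have h1 : galFF N σ • z = algebraMap Kbar (FF N) (σ (c * a ^ m)) * s' ^ m := by
      conv_lhs => rw [hzc]
      rw [smul_mul', smul_pow', SemilinearAut.smul_algebraMap, hs'fix σ hσ]
      rfl
    rw [hgz] at h1
    have h2 : algebraMap Kbar (FF N) (c * a ^ m) * s' ^ m
        = algebraMap Kbar (FF N) (σ (c * a ^ m)) * s' ^ m := by
      rw [← hzc, ← h1]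
    exact ((algebraMap Kbar (FF N)).injective
      (mul_right_cancel₀ (pow_ne_zero _ hs'0) h2)).symm

/-- **Kummer descent at level `N`** for the inertia group of `A`. -/
theorem kdn_descent (m : ℕ) (A : ValuationSubring Kbar)
    {z : FF N} (hz : z ≠ 0) (hfix : IsIFixed N A z)
    (h : ∃ (c : Kbar) (s : FF N), z = algebraMap Kbar (FF N) c * s ^ m) :
    ∃ (c' : k0Field A) (s' : FF N), c' ≠ 0 ∧ s' ≠ 0 ∧
      z = algebraMap Kbar (FF N) (c' : Kbar) * s' ^ m ∧ IsIFixed N A s' := by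
  obtain ⟨c', s', hc', hs', hzc, hcfix, hsfix⟩ :=
    kdn_descent_set N m (A.inertiaSubgroupIn ℚ : Set (Kbar ≃ₐ[ℚ] Kbar)) hz hfix h
  refine ⟨⟨c', (mem_k0Field_iff A c').mpr hcfix⟩, s', ?_, hs', hzc, hsfix⟩
  intro h0
  exact hc' (congrArg Subtype.val h0)

end Descent

section Norm

/-- the norm along `φ` commutes with semilinear automorphisms compatible with `φ` -/
theorem kdn_norm_semilinear {K F F' : Type*} [Field K] [Field F] [Field F'] [Algebra K F]
    [Algebra K F'] (φ : F →ₐ[K] F') (g : SemilinearAut K F) (g' : SemilinearAut K F')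
    (h : ∀ a, g' • φ a = φ (g • a)) (x : F') :
    g • normAlong φ x = normAlong φ (g' • x) := by
  have he : RingHom.comp (@algebraMap F F' _ _ (algebraAlong φ))
      ((SemilinearAut.toRingAut g : F ≃+* F) : F →+* F) =
      RingHom.comp ((SemilinearAut.toRingAut g' : F' ≃+* F') : F' →+* F')
        (@algebraMap F F' _ _ (algebraAlong φ)) := by
    ext a
    exact (h a).symm
  have key := @Algebra.norm_eq_of_equiv_equiv F F' F F' _ _ _ _ (algebraAlong φ)
    (algebraAlong φ) (SemilinearAut.toRingAut g) (SemilinearAut.toRingAut g') he x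
  have key' : normAlong φ x = (SemilinearAut.toRingAut g).symm (normAlong φ (g' • x)) := key
  rw [key']
  exact RingEquiv.apply_symm_apply _ _

variable (N ℓ : ℕ) [NeZero N] [NeZero ℓ]

/-- the norm along `α` commutes with the Galois action on coefficients -/
theorem kdn_galFF_normAlong_alpha (σ : Kbar ≃ₐ[ℚ] Kbar) (x : FF (N * ℓ)) :
    galFF N σ • normAlong (heckeAlphaBar Kbar N ℓ) x
      = normAlong (heckeAlphaBar Kbar N ℓ) (galFF (N * ℓ) σ • x) := by
  refine kdn_norm_semilinear (heckeAlphaBar Kbar N ℓ) (galFF N σ) (galFF (N * ℓ) σ) ?_ x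
  intro Y
  apply Subtype.ext
  rw [coe_arithmeticGalois_smul, coe_heckeAlphaBar, coe_heckeAlphaBar, coe_arithmeticGalois_smul]

/-- the norm along `β` commutes with the Galois action on coefficients -/
theorem kdn_galFF_normAlong_beta (σ : Kbar ≃ₐ[ℚ] Kbar) (x : FF (N * ℓ)) :
    galFF N σ • normAlong (heckeBetaBar Kbar N ℓ) x
      = normAlong (heckeBetaBar Kbar N ℓ) (galFF (N * ℓ) σ • x) := by
  refine kdn_norm_semilinear (heckeBetaBar Kbar N ℓ) (galFF N σ) (galFF (N * ℓ) σ) ?_ x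
  intro Y
  apply Subtype.ext
  rw [coe_arithmeticGalois_smul, coe_heckeBetaBar, coe_heckeBetaBar, coe_arithmeticGalois_smul,
    coeffMap_qExpand]

theorem kdn_isIFixed_normAlong_alpha (A : ValuationSubring Kbar) {x : FF (N * ℓ)}
    (hx : IsIFixed (N * ℓ) A x) : IsIFixed N A (normAlong (heckeAlphaBar Kbar N ℓ) x) := by
  intro σ hσ
  rw [kdn_galFF_normAlong_alpha, hx σ hσ]

theorem kdn_isIFixed_normAlong_beta (A : ValuationSubring Kbar) {x : FF (N * ℓ)}
    (hx : IsIFixed (N * ℓ) A x) : IsIFixed N A (normAlong (heckeBetaBar Kbar N ℓ) x) := by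
  intro σ hσ
  rw [kdn_galFF_normAlong_beta, hx σ hσ]

end Norm

section New2

variable (M' q : ℕ) [NeZero M'] [NeZero q]

/-- **NV input**: for an `I`-fixed Kummer-new `f0 ∈ F_{M'q²}` both norms to `F_{M'q}` are
`c · s ^ m` with `c ∈ K0` and `s` `I`-fixed. -/
theorem kdn_new2 (m : ℕ) (A : ValuationSubring Kbar) {f0 : FF (M' * q * q)} (hf0 : f0 ≠ 0)
    (hfix : IsIFixed (M' * q * q) A f0) (hnew : IsKummerNew2 M' q m f0) :
    (∃ (c : k0Field A) (s : FF (M' * q)), c ≠ 0 ∧ s ≠ 0 ∧ IsIFixed (M' * q) A s ∧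
      normAlong (heckeAlphaBar Kbar (M' * q) q) f0
        = algebraMap Kbar (FF (M' * q)) (c : Kbar) * s ^ m) ∧
    (∃ (c : k0Field A) (s : FF (M' * q)), c ≠ 0 ∧ s ≠ 0 ∧ IsIFixed (M' * q) A s ∧
      normAlong (heckeBetaBar Kbar (M' * q) q) f0
        = algebraMap Kbar (FF (M' * q)) (c : Kbar) * s ^ m) := by
  have hNα : normAlong (heckeAlphaBar Kbar (M' * q) q) f0 ≠ 0 :=
    dgj_normAlong_ne_zero (heckeAlphaBar Kbar (M' * q) q)
      (Fermat.Agent.S37lib.hinp_finiteAlong_alpha (M' * q) q) hf0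
  have hNβ : normAlong (heckeBetaBar Kbar (M' * q) q) f0 ≠ 0 :=
    dgj_normAlong_ne_zero (heckeBetaBar Kbar (M' * q) q)
      (Fermat.Agent.S37lib.hinp_finiteAlong_beta (M' * q) q) hf0
  obtain ⟨hα, hβ⟩ := hnew
  constructor
  · obtain ⟨c, s, hc, hs, hz, hsfix⟩ := kdn_descent (M' * q) m A hNα
      (kdn_isIFixed_normAlong_alpha (M' * q) q A hfix) hα
    exact ⟨c, s, hc, hs, hsfix, hz⟩
  · obtain ⟨c, s, hc, hs, hz, hsfix⟩ := kdn_descent (M' * q) m A hNβ
      (kdn_isIFixed_normAlong_beta (M' * q) q A hfix) hβ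
    exact ⟨c, s, hc, hs, hsfix, hz⟩

end New2

end Fermat.Agent.S36lib

end
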