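import Mathlib
import Fermat.Agent.S36lib.Speed

/-!
# Item 83 (S36), block ALG, piece 1: flat descent of coefficients

`𝒪` a flat `ℤ`-module, `Λ` an abelian group, `K ≤ Λ` of finite index, cut out by a family of
additive maps `F i : Λ → X`.  If `u ∈ 𝒪 ⊗ Λ` is killed by every `1 ⊗ F i`, then `u` lies in the
image of `𝒪 ⊗ K`.

(Used with `Λ` the Hecke lattice, `F σ = (σ - 1) ∘ e_n`, `σ` in an inertia group: an
inertia-invariant of `𝒪 ⊗ Λ / p^n` is an `𝒪`-combination of inertia-invariants of `Λ / p^n`.)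
Mathlib only.
-/

set_option autoImplicit false

open scoped TensorProduct

namespace Fermat.Agent.S36lib

section Flat

variable {𝒪 Λ X : Type} [AddCommGroup 𝒪] [AddCommGroup Λ] [AddCommGroup X]

/-- the comparison `𝒪 ⊗ (ι → X) → (ι → 𝒪 ⊗ X)` is compatible with `lTensor`. -/
theorem s36alg_piRight_lTensor {ι : Type} [Fintype ι] [DecidableEq ι]
    {N : Type} [AddCommGroup N] (f : N →ₗ[ℤ] (ι → X)) (u : 𝒪 ⊗[ℤ] N) (i : ι) :
    TensorProduct.piRight ℤ ℤ 𝒪 (fun _ : ι => X) (f.lTensor 𝒪 u) i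
      = ((LinearMap.proj i).comp f).lTensor 𝒪 u := by
  induction u using TensorProduct.induction_on with
  | zero => simp
  | tmul a l => simp
  | add x y hx hy =>
    rw [map_add, map_add, Pi.add_apply, hx, hy, map_add]

/-- **flat descent**: an element of `𝒪 ⊗ Λ` killed by all `1 ⊗ F i` comes from `𝒪 ⊗ K`,
`K = ⋂ ker F i` of finite index. -/
theorem s36alg_flat_descent [Module.Flat ℤ 𝒪] (K : Submodule ℤ Λ) [Finite (Λ ⧸ K)]
    {ι : Type} (F : ι → (Λ →ₗ[ℤ] X)) (hK : ∀ l : Λ, l ∈ K ↔ ∀ i, F i l = 0)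
    (u : 𝒪 ⊗[ℤ] Λ) (hu : ∀ i, (F i).lTensor 𝒪 u = 0) :
    u ∈ LinearMap.range (K.subtype.lTensor 𝒪) := by
  classical
  have hle : ∀ i, K ≤ LinearMap.ker (F i) := fun i l hl =>
    LinearMap.mem_ker.mpr ((hK l).mp hl i)
  -- the induced maps on the quotient
  let Fq : ι → ((Λ ⧸ K) →ₗ[ℤ] X) := fun i => K.liftQ (F i) (hle i)
  have hFq : ∀ i l, Fq i (K.mkQ l) = F i l := fun i l => rfl
  have hne : ∀ y : Λ ⧸ K, y ≠ 0 → ∃ i, Fq i y ≠ 0 := by
    intro y hy
    obtain ⟨l, rfl⟩ := K.mkQ_surjective y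
    by_contra hcon
    simp only [not_exists, not_not] at hcon
    apply hy
    rw [Submodule.mkQ_apply, Submodule.Quotient.mk_eq_zero, hK]
    intro i
    rw [← hFq i l]
    exact hcon i
  -- the injective map `Q → (Q → X)`
  let Φ : (Λ ⧸ K) →ₗ[ℤ] ((Λ ⧸ K) → X) :=
    LinearMap.pi fun y => if h : ∃ i, Fq i y ≠ 0 then Fq h.choose else 0
  have hΦ : Function.Injective Φ := by
    rw [injective_iff_map_eq_zero]
    intro y hy
    by_contra hy0
    have h := hne y hy0
    have h1 : Φ y y = 0 := by rw [hy]; rfl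
    have h2 : Φ y y = Fq h.choose y := by
      simp only [Φ, LinearMap.pi_apply, dif_pos h]
    rw [h2] at h1
    exact h.choose_spec h1
  have hΦflat : Function.Injective (Φ.lTensor 𝒪) :=
    Module.Flat.lTensor_preserves_injective_linearMap Φ hΦ
  haveI : Fintype (Λ ⧸ K) := Fintype.ofFinite _
  -- `u` dies in `𝒪 ⊗ Q`
  have hq : K.mkQ.lTensor 𝒪 u = 0 := by
    apply hΦflat
    rw [map_zero, ← LinearMap.comp_apply, ← LinearMap.lTensor_comp]
    apply (TensorProduct.piRight ℤ ℤ 𝒪 (fun _ : Λ ⧸ K => X)).injective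
    rw [map_zero]
    funext y
    rw [s36alg_piRight_lTensor, Pi.zero_apply]
    by_cases h : ∃ i, Fq i y ≠ 0
    · have e : (LinearMap.proj y).comp (Φ.comp K.mkQ) = F h.choose := by
        ext l
        simp only [Φ, LinearMap.comp_apply, LinearMap.proj_apply, LinearMap.pi_apply, dif_pos h]
        rfl
      rw [e]
      exact hu _
    · have e : (LinearMap.proj y).comp (Φ.comp K.mkQ) = 0 := by
        ext l
        simp only [Φ, LinearMap.comp_apply, LinearMap.proj_apply, LinearMap.pi_apply, dif_neg h]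
        rfl
      rw [e, LinearMap.lTensor_zero, LinearMap.zero_apply]
  -- right exactness
  have hex : Function.Exact (K.subtype.lTensor 𝒪) (K.mkQ.lTensor 𝒪) :=
    lTensor_exact 𝒪 (LinearMap.exact_subtype_mkQ K) K.mkQ_surjective
  exact (hex u).mp hq

end Flat

end Fermat.Agent.S36lib
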