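import Mathlib
import Fermat.Agent.GalRep.Assemble
import Fermat.Agent.S36lib.Speed

/-!
# Item 83 (S36), block ALG, piece 4: the representation of S30 with its embedding in `𝒪 ⊗ Λ`

* `algBig J 𝒪 hp`: the big Galois representation on `𝒪 ⊗ Λ` (concretely, `limEnd ∘ asmGal`),
  with its characterisation `algBig_spec` by the Galois action on the torsion points.
* `alg_diag_not_absIrr`: the residual representation of a diagonal representation is not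
  absolutely irreducible.
* `alg_exists_rep`: if every representation with the Eichler–Shimura characteristic polynomials
  is residually absolutely irreducible, the restriction `ρE` of `algBig` to the eigenspace of a
  character of the full Hecke algebra has the Eichler–Shimura characteristic polynomials.
-/

set_option autoImplicit false
set_option linter.unusedSectionVars false

open scoped TensorProduct
open IsLocalRing ModularCurve Polynomial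

namespace Fermat.Agent.S36lib

open Fermat.Agent.GalRep

section Big

variable {N p : ℕ} [NeZero N] [Fact p.Prime]

/-- the level structure of a `JacInput`. -/
noncomputable def algLevel (J : JacInput N p) : LevelStructure p J.Λ (JZero N) where
  e := J.e
  ker_iff := J.e_ker
  range_iff := fun n x => ⟨J.e_range n x, fun ⟨l, hl⟩ => by
    rw [← hl, ← map_nsmul]
    exact (J.e_ker n _).mpr ⟨l, rfl⟩⟩
  compat := J.e_succ

variable (J : JacInput N p) (𝒪 : Type) [CommRing 𝒪] [IsDomain 𝒪]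
  [IsDiscreteValuationRing 𝒪] [IsAdicComplete (maximalIdeal 𝒪) 𝒪]
  (hp : (p : 𝒪) ∈ maximalIdeal 𝒪)

/-- the big Galois representation on `𝒪 ⊗ Λ`. -/
noncomputable def algBig : GQ →* Module.End 𝒪 (𝒪 ⊗[ℤ] J.Λ) :=
  (limEnd (algLevel J) hp).toMonoidHom.comp (asmGal N)

theorem algBig_apply (σ : GQ) : algBig J 𝒪 hp σ = limEnd (algLevel J) hp (asmGal N σ) := rfl

/-- the characterisation of `algBig` by the action on torsion points. -/
theorem algBig_spec (σ : GQ) (n : ℕ) (l l' : J.Λ) (h : J.e n l' = σ • J.e n l) :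
    algBig J 𝒪 hp σ (1 ⊗ₜ[ℤ] l) - 1 ⊗ₜ[ℤ] l' ∈ limFil 𝒪 J.Λ n :=
  limEndFun_spec (algLevel J) hp (asmGal N σ) n l l' h

theorem algBig_hecke (ℓ : Nat.Primes) :
    limEnd (algLevel J) hp (asmHecke N ℓ) = (J.T ℓ).baseChange 𝒪 :=
  limEnd_eq_baseChange (algLevel J) hp (asmHecke N ℓ) (J.T ℓ) fun n l => by
    show asmHecke N ℓ (J.e n l) = J.e n (J.T ℓ l)
    rw [asmHecke_apply, J.e_hecke]

theorem algBig_zero (φ : AddMonoid.End (JZero N))
    (hφ : ∀ x : JZero N, (∃ n : ℕ, p ^ n • x = 0) → φ x = 0) :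
    limEnd (algLevel J) hp (𝒪 := 𝒪) φ = 0 := by
  apply LinearMap.ext
  intro m
  exact asm_eq_zero_of_forall_mem _ fun n =>
    limEnd_mem_of_torsion (algLevel J) hp n φ (fun x hx => hφ x ⟨n, hx⟩) m

theorem algBig_cont : GaloisActionIsAdicContinuous 𝒪 (algBig J 𝒪 hp) := by
  intro n
  obtain ⟨L, hL, h⟩ := asm_exists_field J n
  refine ⟨L, hL, fun σ hσ v => ?_⟩
  have h1 : ∀ x : JZero N, p ^ n • x = 0 → (asmGal N σ - 1) x = 0 := by
    intro x hx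
    show asmGal N σ x - x = 0
    rw [asmGal_apply, h σ hσ x hx]
    exact sub_self x
  have h2 := limEnd_mem_of_torsion (𝒪 := 𝒪) (algLevel J) hp n (asmGal N σ - 1) h1 v
  rw [map_sub, map_one, LinearMap.sub_apply, Module.End.one_apply] at h2
  exact h2

theorem algBig_comm (σ : GQ) (ℓ : Nat.Primes) :
    algBig J 𝒪 hp σ * (J.T ℓ).baseChange 𝒪 = (J.T ℓ).baseChange 𝒪 * algBig J 𝒪 hp σ := by
  rw [algBig_apply, ← algBig_hecke J 𝒪 hp, ← map_mul, ← map_mul]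
  congr 1
  apply AddMonoidHom.ext
  intro x
  show asmGal N σ (asmHecke N ℓ x) = asmHecke N ℓ (asmGal N σ x)
  rw [asmGal_apply, asmGal_apply, asmHecke_apply, asmHecke_apply, J.galComm]

theorem algBig_frob (ℓ : ℕ) (hℓ : ℓ.Prime) (hℓN : ¬ ℓ ∣ N * p)
    (A : ValuationSubring (AlgebraicClosure ℚ)) (hA : A.LiesOverPrime ℓ)
    (σ : GQ) (hσ : A.IsFrobeniusAt σ ℓ) :
    algBig J 𝒪 hp σ * algBig J 𝒪 hp σ - (J.T ⟨ℓ, hℓ⟩).baseChange 𝒪 * algBig J 𝒪 hp σ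
      + (ℓ : Module.End 𝒪 (𝒪 ⊗[ℤ] J.Λ)) = 0 := by
  have hT := algBig_hecke J 𝒪 hp (⟨ℓ, hℓ⟩ : Nat.Primes)
  have e : limEnd (algLevel J) hp (𝒪 := 𝒪) (asmGal N σ * asmGal N σ
      - asmHecke N (⟨ℓ, hℓ⟩ : Nat.Primes) * asmGal N σ + (ℓ : AddMonoid.End (JZero N))) = 0 := by
    apply algBig_zero
    intro x hx
    have := J.frob ℓ hℓ hℓN A hA σ hσ x hx
    show asmGal N σ (asmGal N σ x) - asmHecke N (⟨ℓ, hℓ⟩ : Nat.Primes) (asmGal N σ x)
      + (ℓ : AddMonoid.End (JZero N)) x = 0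
    rw [asmGal_apply, asmGal_apply, AddMonoid.End.natCast_apply]
    exact this
  rw [map_add, map_sub, map_mul, map_mul, map_natCast, hT] at e
  exact e

end Big

section Diag

variable {𝒪 : Type} [CommRing 𝒪] [IsLocalRing 𝒪]

/-- the `i`-th coordinate on `k ⊗ (Fin 2 → 𝒪)`. -/
noncomputable def algCoord (i : Fin 2) :
    ResidueField 𝒪 ⊗[𝒪] (Fin 2 → 𝒪) →ₗ[ResidueField 𝒪] ResidueField 𝒪 :=
  (TensorProduct.AlgebraTensorModule.rid 𝒪 (ResidueField 𝒪) (ResidueField 𝒪)).toLinearMap ∘ₗ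
    (LinearMap.proj i : (Fin 2 → 𝒪) →ₗ[𝒪] 𝒪).baseChange (ResidueField 𝒪)

theorem algCoord_tmul (i : Fin 2) (b : ResidueField 𝒪) (v : Fin 2 → 𝒪) :
    algCoord i (b ⊗ₜ[𝒪] v) = residue 𝒪 (v i) * b := by
  simp [algCoord, Algebra.smul_def]

/-- the `i`-th coordinate on `k̄ ⊗ (k ⊗ (Fin 2 → 𝒪))`. -/
noncomputable def algCoordBar (i : Fin 2) :
    AlgebraicClosure (ResidueField 𝒪) ⊗[ResidueField 𝒪] (ResidueField 𝒪 ⊗[𝒪] (Fin 2 → 𝒪))
      →ₗ[AlgebraicClosure (ResidueField 𝒪)] AlgebraicClosure (ResidueField 𝒪) :=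
  (TensorProduct.AlgebraTensorModule.rid (ResidueField 𝒪) (AlgebraicClosure (ResidueField 𝒪))
    (AlgebraicClosure (ResidueField 𝒪))).toLinearMap ∘ₗ
    (algCoord (𝒪 := 𝒪) i).baseChange (AlgebraicClosure (ResidueField 𝒪))

theorem algCoordBar_tmul (i : Fin 2) (a : AlgebraicClosure (ResidueField 𝒪))
    (y : ResidueField 𝒪 ⊗[𝒪] (Fin 2 → 𝒪)) :
    algCoordBar i (a ⊗ₜ[ResidueField 𝒪] y)
      = algebraMap (ResidueField 𝒪) (AlgebraicClosure (ResidueField 𝒪)) (algCoord i y) * a := by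
  simp [algCoordBar, Algebra.smul_def]

/-- the coordinates are eigen-functionals of a diagonal representation. -/
theorem algCoordBar_diag (α β : GQ →* 𝒪) (σ : GQ) (i : Fin 2)
    (x : AlgebraicClosure (ResidueField 𝒪) ⊗[ResidueField 𝒪]
      (ResidueField 𝒪 ⊗[𝒪] (Fin 2 → 𝒪))) :
    algCoordBar i ((((coreA_diagHom α β σ).baseChange (ResidueField 𝒪)).baseChange
        (AlgebraicClosure (ResidueField 𝒪))) x)
      = algebraMap (ResidueField 𝒪) (AlgebraicClosure (ResidueField 𝒪))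
          (residue 𝒪 (![α σ, β σ] i)) * algCoordBar i x := by
  induction x using TensorProduct.induction_on with
  | zero => simp
  | tmul a y =>
    rw [LinearMap.baseChange_tmul, algCoordBar_tmul, algCoordBar_tmul, ← mul_assoc, ← map_mul]
    congr 2
    induction y using TensorProduct.induction_on with
    | zero => simp
    | tmul b v =>
      rw [LinearMap.baseChange_tmul, algCoord_tmul, algCoord_tmul, coreA_diagHom_apply_apply,
        map_mul, mul_assoc]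
    | add y z hy hz => rw [map_add, map_add, hy, hz, map_add, mul_add]
  | add x y hx hy => rw [map_add, map_add, hx, hy, map_add, mul_add]

theorem algCoordBar_single (i j : Fin 2) :
    algCoordBar (𝒪 := 𝒪) i ((1 : AlgebraicClosure (ResidueField 𝒪))
      ⊗ₜ[ResidueField 𝒪] ((1 : ResidueField 𝒪) ⊗ₜ[𝒪] (Pi.single j 1 : Fin 2 → 𝒪)))
      = if i = j then 1 else 0 := by
  rw [algCoordBar_tmul, algCoord_tmul, mul_one, mul_one]
  by_cases h : i = j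
  · subst h
    simp
  · rw [if_neg h, Pi.single_eq_of_ne h, map_zero, map_zero]

/-- the residual representation of a diagonal representation is not absolutely irreducible. -/
theorem alg_diag_not_absIrr (α β : GQ →* 𝒪)
    (hα : ∀ n : ℕ, ∃ L : IntermediateField ℚ (AlgebraicClosure ℚ), FiniteDimensional ℚ L ∧
      ∀ σ : GQ, (∀ x ∈ L, σ x = x) → α σ - 1 ∈ IsLocalRing.maximalIdeal 𝒪 ^ n)
    (hβ : ∀ n : ℕ, ∃ L : IntermediateField ℚ (AlgebraicClosure ℚ), FiniteDimensional ℚ L ∧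
      ∀ σ : GQ, (∀ x ∈ L, σ x = x) → β σ - 1 ∈ IsLocalRing.maximalIdeal 𝒪 ^ n) :
    ¬ (coreA_diagRep α β hα hβ).residual.IsAbsolutelyIrreducible := by
  intro h
  set ρ' : ResidualGaloisRep (AlgebraicClosure (ResidueField 𝒪)) :=
    (coreA_diagRep α β hα hβ).residual.baseChange (AlgebraicClosure (ResidueField 𝒪)) with hρ'
  let Ψ : ρ'.V →ₗ[AlgebraicClosure (ResidueField 𝒪)] AlgebraicClosure (ResidueField 𝒪) :=
    algCoordBar (𝒪 := 𝒪) 1
  let Ψ0 : ρ'.V →ₗ[AlgebraicClosure (ResidueField 𝒪)] AlgebraicClosure (ResidueField 𝒪) :=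
    algCoordBar (𝒪 := 𝒪) 0
  let x0 : ρ'.V := ((1 : AlgebraicClosure (ResidueField 𝒪))
      ⊗ₜ[ResidueField 𝒪] ((1 : ResidueField 𝒪) ⊗ₜ[𝒪] (Pi.single 0 1 : Fin 2 → 𝒪)))
  let x1 : ρ'.V := ((1 : AlgebraicClosure (ResidueField 𝒪))
      ⊗ₜ[ResidueField 𝒪] ((1 : ResidueField 𝒪) ⊗ₜ[𝒪] (Pi.single 1 1 : Fin 2 → 𝒪)))
  have hstab : ∀ σ : AlgebraicClosure ℚ ≃ₐ[ℚ] AlgebraicClosure ℚ,
      ∀ x ∈ LinearMap.ker Ψ, ρ'.ρ σ x ∈ LinearMap.ker Ψ := by
    intro σ x hx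
    rw [LinearMap.mem_ker] at hx ⊢
    have h2 := algCoordBar_diag α β σ 1 x
    have h3 : algCoordBar (𝒪 := 𝒪) 1 x = 0 := hx
    rw [h3, mul_zero] at h2
    exact h2
  have e0 : Ψ x0 = 0 := (algCoordBar_single (𝒪 := 𝒪) 1 0).trans (if_neg (by decide))
  have e0' : Ψ0 x0 = 1 := (algCoordBar_single (𝒪 := 𝒪) 0 0).trans (if_pos rfl)
  have e1 : Ψ x1 = 1 := (algCoordBar_single (𝒪 := 𝒪) 1 1).trans (if_pos rfl)
  rcases h (LinearMap.ker Ψ) hstab with h1 | h1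
  · have hm : x0 ∈ LinearMap.ker Ψ := LinearMap.mem_ker.mpr e0
    rw [h1, Submodule.mem_bot] at hm
    rw [hm, map_zero] at e0'
    exact zero_ne_one e0'
  · have hm : x1 ∈ LinearMap.ker Ψ := by
      rw [h1]
      exact Submodule.mem_top
    rw [LinearMap.mem_ker, e1] at hm
    exact one_ne_zero hm

end Diag

section CaseA

variable (p : ℕ) {𝒪 : Type} [CommRing 𝒪] [IsDomain 𝒪] [IsDiscreteValuationRing 𝒪]

/-- **Case A, with the explicit witness**: if all `ρ₀ g` are scalars, a diagonal representation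
has the Eichler–Shimura characteristic polynomials. -/
theorem alg_coreA_exists (S : Finset ℕ) (hpS : p ∈ S)
    (a : ℕ → 𝒪) (ρ₀ : GaloisRepAdic 𝒪) (hq : QuadraticOutside ρ₀ (↑S : Set ℕ) a)
    (χ : GQ →* 𝒪ˣ) (hχ : IsCycloChar p 𝒪 χ)
    (hs : ∀ g : GQ, ∃ c : 𝒪, ρ₀.ρ g = c • (1 : Module.End 𝒪 ρ₀.V)) :
    ∃ (α β : GQ →* 𝒪)
      (hα : ∀ n : ℕ, ∃ L : IntermediateField ℚ (AlgebraicClosure ℚ), FiniteDimensional ℚ L ∧
        ∀ σ : GQ, (∀ x ∈ L, σ x = x) → α σ - 1 ∈ IsLocalRing.maximalIdeal 𝒪 ^ n)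
      (hβ : ∀ n : ℕ, ∃ L : IntermediateField ℚ (AlgebraicClosure ℚ), FiniteDimensional ℚ L ∧
        ∀ σ : GQ, (∀ x ∈ L, σ x = x) → β σ - 1 ∈ IsLocalRing.maximalIdeal 𝒪 ^ n),
      CharpolyOutside (coreA_diagRep α β hα hβ) (↑S : Set ℕ) a := by
  classical
  set α₀ : GQ →* 𝒪 := coreA_alpha ρ₀ hs with hα₀
  set αu : GQ →* 𝒪ˣ := α₀.toHomUnits with hαu
  set βu : GQ →* 𝒪ˣ := χ * αu⁻¹ with hβu
  set β₀ : GQ →* 𝒪 := (Units.coeHom 𝒪).comp βu with hβ₀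
  have hαval : ∀ g, (αu g : 𝒪) = α₀ g := fun g => rfl
  have hβval : ∀ g, β₀ g = (χ g : 𝒪) * ((αu g)⁻¹ : 𝒪ˣ) := fun g => rfl
  have hαβ : ∀ g, α₀ g * β₀ g = (χ g : 𝒪) := by
    intro g
    rw [hβval, ← hαval, mul_comm (χ g : 𝒪), ← mul_assoc, Units.mul_inv, one_mul]
  -- continuity of `α₀`
  have hαc : ∀ n : ℕ, ∃ L : IntermediateField ℚ (AlgebraicClosure ℚ), FiniteDimensional ℚ L ∧
      ∀ σ : GQ, (∀ x ∈ L, σ x = x) → α₀ σ - 1 ∈ IsLocalRing.maximalIdeal 𝒪 ^ n := by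
    intro n
    obtain ⟨L, hL, h⟩ := exists_level_coreMatMod ρ₀ n
    refine ⟨L, hL, fun σ hσ => ?_⟩
    have h1 := congrFun (congrFun (h σ hσ) 0) 0
    rw [coreMatMod_apply, Matrix.map_apply, Matrix.one_apply_eq,
      ← map_one (Ideal.Quotient.mk (IsLocalRing.maximalIdeal 𝒪 ^ n))] at h1
    exact Ideal.Quotient.eq.mp h1
  -- continuity of `β₀`
  have hβc : ∀ n : ℕ, ∃ L : IntermediateField ℚ (AlgebraicClosure ℚ), FiniteDimensional ℚ L ∧
      ∀ σ : GQ, (∀ x ∈ L, σ x = x) → β₀ σ - 1 ∈ IsLocalRing.maximalIdeal 𝒪 ^ n := by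
    intro n
    obtain ⟨L₁, hL₁, h₁⟩ := hαc n
    obtain ⟨L₂, hL₂, h₂⟩ := hχ.1 n
    refine ⟨L₁ ⊔ L₂, ?_, ?_⟩
    · have := hL₁
      have := hL₂
      exact IntermediateField.finiteDimensional_sup L₁ L₂
    · intro σ hσ
      have e₁ := h₁ σ (fun x hx => hσ x ((le_sup_left : L₁ ≤ L₁ ⊔ L₂) hx))
      have e₂ := h₂ σ (fun x hx => hσ x ((le_sup_right : L₂ ≤ L₁ ⊔ L₂) hx))
      have : β₀ σ - 1 = (((αu σ)⁻¹ : 𝒪ˣ) : 𝒪) * (((χ σ : 𝒪) - 1) - (α₀ σ - 1)) := by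
        rw [hβval, ← hαval]
        have hu : (((αu σ)⁻¹ : 𝒪ˣ) : 𝒪) * (αu σ : 𝒪) = 1 := Units.inv_mul _
        linear_combination hu
      rw [this]
      exact Ideal.mul_mem_left _ _ (Ideal.sub_mem _ e₂ e₁)
  refine ⟨α₀, β₀, hαc, hβc, ?_⟩
  intro ℓ hℓ hℓS A hA σ hσ
  have hℓp : ℓ ≠ p := fun h => hℓS (by rw [h]; exact_mod_cast hpS)
  have hχσ : (χ σ : 𝒪) = (ℓ : 𝒪) := hχ.2.1 ℓ hℓ hℓp A hA σ hσ
  have hquad := hq ℓ hℓ hℓS A hA σ hσ
  rw [coreA_alpha_spec ρ₀ hs σ] at hquad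
  have hrel : α₀ σ * α₀ σ - a ℓ * α₀ σ + (ℓ : 𝒪) = 0 := by
    apply coreA_smul_one_injective ρ₀
    rw [zero_smul, ← hquad]
    simp only [mul_smul_comm, mul_one, smul_smul, add_smul, sub_smul]
    rfl
  have htr : α₀ σ + β₀ σ = a ℓ := by
    have hu : (((αu σ)⁻¹ : 𝒪ˣ) : 𝒪) * α₀ σ = 1 := Units.inv_mul _
    rw [hβval, hχσ]
    linear_combination (((αu σ)⁻¹ : 𝒪ˣ) : 𝒪) * hrel - (α₀ σ - a ℓ) * hu
  show LinearMap.charpoly (coreA_diagHom α₀ β₀ σ) = _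
  rw [coreA_charpoly, htr, hαβ, hχσ]

end CaseA

section Rep

variable {N p : ℕ} [NeZero N] [Fact p.Prime]

/-- **the representation of S30 with its embedding in `𝒪 ⊗ Λ`**, when every representation with
the Eichler–Shimura characteristic polynomials is residually absolutely irreducible. -/
theorem alg_exists_rep (J : JacInput N p) (𝒪 : Type) [CommRing 𝒪] [IsDomain 𝒪]
    [IsDiscreteValuationRing 𝒪] [IsAdicComplete (maximalIdeal 𝒪) 𝒪] [CharZero 𝒪]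
    (hp : (p : 𝒪) ∈ maximalIdeal 𝒪)
    (χ' : CuspForm.heckeAlgebra N 2 (∅ : Set ℕ) →+* 𝒪) (S : Finset ℕ) (hpS : p ∈ S)
    (hNS : ∀ q : ℕ, q.Prime → q ∣ N → q ∈ S)
    (hres : ∀ ρ : GaloisRepAdic 𝒪, CharpolyOutside ρ (↑S : Set ℕ) (asmEig χ') →
      ρ.residual.IsAbsolutelyIrreducible) :
    ∃ (ρE : GaloisRepAdic 𝒪) (f : ρE.V →ₗ[𝒪] 𝒪 ⊗[ℤ] J.Λ), Function.Injective f ∧
      (∀ v, f v ∈ eigenSub 𝒪 J.T (fun ℓ => χ' (CuspForm.heckeEvalForms N 2 (heckeGen ℓ)))) ∧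
      (∀ σ v, f (ρE.ρ σ v) = algBig J 𝒪 hp σ (f v)) ∧
      CharpolyOutside ρE (↑S : Set ℕ) (asmEig χ') := by
  set c : Nat.Primes → 𝒪 := fun ℓ => χ' (CuspForm.heckeEvalForms N 2 (heckeGen ℓ)) with hc
  have hsat : ∀ (a : 𝒪) (v : 𝒪 ⊗[ℤ] J.Λ), a ≠ 0 → a • v ∈ eigenSub 𝒪 J.T c →
      v ∈ eigenSub 𝒪 J.T c := fun a v ha h => eigenSub_saturated 𝒪 J.T c a v ha h
  have hstab : ∀ (σ : GQ), ∀ v ∈ eigenSub 𝒪 J.T c, algBig J 𝒪 hp σ v ∈ eigenSub 𝒪 J.T c := by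
    intro σ v hv
    rw [mem_eigenSub_iff] at hv ⊢
    intro ℓ
    have h1 := congrArg (fun f => f v) (algBig_comm J 𝒪 hp σ ℓ)
    simp only [Module.End.mul_apply] at h1
    rw [← h1, hv ℓ, map_smul]
  have hrank : Module.finrank 𝒪 (eigenSub 𝒪 J.T c) = 2 := by
    rw [finrank_eigenSub 𝒪 (FractionRing 𝒪) J.T c]
    exact J.mult (FractionRing 𝒪) ((algebraMap 𝒪 (FractionRing 𝒪)).comp χ')
  obtain ⟨ρE, f, hf, hfE, hfρ⟩ :=
    exists_galoisRepAdic_of_stable (algBig J 𝒪 hp) (algBig_cont J 𝒪 hp) (eigenSub 𝒪 J.T c)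
      hsat hstab hrank
  have hdvd : ∀ ℓ : ℕ, ℓ.Prime → ℓ ∉ (↑S : Set ℕ) → ¬ ℓ ∣ N * p := by
    intro ℓ hℓ hℓS h
    rcases (Nat.Prime.dvd_mul hℓ).mp h with h | h
    · exact hℓS (Finset.mem_coe.mpr (hNS ℓ hℓ h))
    · have : ℓ = p := (Nat.prime_dvd_prime_iff_eq hℓ Fact.out).mp h
      exact hℓS (Finset.mem_coe.mpr (this ▸ hpS))
  have hquad : QuadraticOutside ρE (↑S : Set ℕ) (asmEig χ') := by
    intro ℓ hℓ hℓS A hA σ hσ
    apply LinearMap.ext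
    intro v
    apply hf
    rw [LinearMap.zero_apply, map_zero]
    have h1 := congrArg (fun g => g (f v)) (algBig_frob J 𝒪 hp ℓ hℓ (hdvd ℓ hℓ hℓS) A hA σ hσ)
    simp only [LinearMap.add_apply, LinearMap.sub_apply, Module.End.mul_apply,
      LinearMap.zero_apply, Module.End.natCast_apply] at h1
    have h2 : (J.T ⟨ℓ, hℓ⟩).baseChange 𝒪 (algBig J 𝒪 hp σ (f v))
        = c ⟨ℓ, hℓ⟩ • algBig J 𝒪 hp σ (f v) :=
      (mem_eigenSub_iff 𝒪 J.T c _).mp (hstab σ _ (hfE v)) ⟨ℓ, hℓ⟩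
    rw [h2] at h1
    simp only [LinearMap.add_apply, LinearMap.sub_apply, Module.End.mul_apply,
      LinearMap.smul_apply, Module.End.one_apply, map_add, map_sub, map_smul, hfρ,
      asmEig_of_prime χ' hℓ]
    rw [← h1, Nat.cast_smul_eq_nsmul]
  obtain ⟨χc, hχc⟩ := exists_cycloChar p 𝒪 hp
  refine ⟨ρE, f, hf, hfE, hfρ, ?_⟩
  by_cases hs : ∀ g : GQ, ∃ c : 𝒪, ρE.ρ g = c • (1 : Module.End 𝒪 ρE.V)
  · obtain ⟨α, β, hα, hβ, hcp⟩ := alg_coreA_exists p S hpS (asmEig χ') ρE hquad χc hχc hs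
    exact absurd (hres _ hcp) (alg_diag_not_absIrr α β hα hβ)
  · simp only [not_forall, not_exists] at hs
    obtain ⟨g₀, hg₀⟩ := hs
    exact coreB_charpolyOutside p weakCheb S hpS (asmEig χ') ρE hquad χc hχc g₀ hg₀

end Rep

end Fermat.Agent.S36lib
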