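import Mathlib
import Fermat.Agent.S36lib.AlgFlat
import Fermat.Agent.S36lib.AlgRep
import Fermat.Agent.S35lib.AlgLat

/-!
# Item 83 (S36), block ALG, piece 5: an inertia-fixed vector of the new eigenspace is zero

`J` a `JacInput` of level `N`, `u ∈ 𝒪 ⊗ Λ` fixed by `algBig σ` for all `σ` in a subgroup `I` of
`G_ℚ`, `P` a Hecke polynomial acting on `u` by a scalar `θ ≠ 0`.  If every `I`-fixed class
`P • x`, `x ∈ J₀(N)[p^∞]`, is killed by a fixed `c > 0`, then `u = 0`.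
-/

set_option autoImplicit false
set_option linter.unusedSectionVars false

open scoped TensorProduct
open IsLocalRing ModularCurve Polynomial

namespace Fermat.Agent.S36lib

open Fermat.Agent.GalRep Fermat.Agent.S31lib Fermat.Agent.S35lib

section Pow

variable (p : ℕ) [Fact p.Prime] (𝒪 : Type) [CommRing 𝒪] [IsDomain 𝒪]
  [IsDiscreteValuationRing 𝒪] [CharZero 𝒪]

/-- a power of the maximal ideal is contained in `(p ^ n)`. -/
theorem alg_exists_pow_le (n : ℕ) :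
    ∃ N' : ℕ, n ≤ N' ∧ maximalIdeal 𝒪 ^ N' ≤ Ideal.span {(p : 𝒪) ^ n} := by
  obtain ⟨ϖ, hϖ⟩ := IsDiscreteValuationRing.exists_irreducible 𝒪
  have hp0 : (p : 𝒪) ≠ 0 := Nat.cast_ne_zero.mpr (Nat.Prime.ne_zero Fact.out)
  obtain ⟨e, u, hu⟩ := IsDiscreteValuationRing.eq_unit_mul_pow_irreducible hp0 hϖ
  refine ⟨e * n + n, Nat.le_add_left _ _, ?_⟩
  refine (Ideal.pow_le_pow_right (Nat.le_add_right (e * n) n)).trans ?_
  rw [hϖ.maximalIdeal_eq, Ideal.span_singleton_pow, Ideal.span_singleton_le_span_singleton]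
  refine ⟨((u⁻¹ : 𝒪ˣ) : 𝒪) ^ n, ?_⟩
  rw [hu, mul_pow, ← pow_mul, mul_comm (((u : 𝒪)) ^ n), mul_assoc, ← mul_pow, Units.mul_inv,
    one_pow, mul_one]

end Pow

section Desc

variable {N p : ℕ} [NeZero N] [Fact p.Prime] (J : JacInput N p)
  (𝒪 : Type) [CommRing 𝒪] [IsDomain 𝒪] [IsDiscreteValuationRing 𝒪]
  [IsAdicComplete (maximalIdeal 𝒪) 𝒪] [CharZero 𝒪] (hp : (p : 𝒪) ∈ maximalIdeal 𝒪)

/-- the level structure, with coefficients in `𝒪`. -/
noncomputable def algE (n : ℕ) : 𝒪 ⊗[ℤ] J.Λ →ₗ[𝒪] 𝒪 ⊗[ℤ] JZero N :=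
  (J.e n).toIntLinearMap.baseChange 𝒪

theorem algE_tmul (n : ℕ) (a : 𝒪) (l : J.Λ) : algE J 𝒪 n (a ⊗ₜ[ℤ] l) = a ⊗ₜ[ℤ] J.e n l := rfl

theorem algE_pow_smul (n : ℕ) (w : 𝒪 ⊗[ℤ] J.Λ) : ((p : 𝒪) ^ n) • algE J 𝒪 n w = 0 := by
  induction w using TensorProduct.induction_on with
  | zero => rw [map_zero, smul_zero]
  | tmul a l =>
    rw [algE_tmul, TensorProduct.smul_tmul', smul_eq_mul]
    have h1 : (p : 𝒪) ^ n * a = ((p ^ n : ℕ) : ℤ) • a := by
      rw [zsmul_eq_mul]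
      push_cast
      ring
    rw [h1, TensorProduct.smul_tmul, natCast_zsmul, asm_e_torsion J n l, TensorProduct.tmul_zero]
  | add x y hx hy => rw [map_add, smul_add, hx, hy, add_zero]

theorem algE_eq_zero_of_mem (n N' : ℕ) (hN' : maximalIdeal 𝒪 ^ N' ≤ Ideal.span {(p : 𝒪) ^ n})
    (w : 𝒪 ⊗[ℤ] J.Λ) (hw : w ∈ limFil 𝒪 J.Λ N') : algE J 𝒪 n w = 0 := by
  refine Submodule.smul_induction_on (p := fun w => algE J 𝒪 n w = 0) hw ?_ ?_
  · intro a ha w' _
    obtain ⟨b, hb⟩ := Ideal.mem_span_singleton.mp (hN' ha)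
    rw [map_smul, hb, mul_comm, mul_smul, algE_pow_smul, smul_zero]
  · intro x y hx hy
    rw [map_add, hx, hy, add_zero]

/-- the level structure intertwines `algBig` and the Galois action. -/
theorem algE_big (σ : GQ) (n : ℕ) (w : 𝒪 ⊗[ℤ] J.Λ) :
    algE J 𝒪 n (algBig J 𝒪 hp σ w) = (galEnd N σ).baseChange 𝒪 (algE J 𝒪 n w) := by
  have key : ∀ l : J.Λ, algE J 𝒪 n (algBig J 𝒪 hp σ (1 ⊗ₜ[ℤ] l))
      = (1 : 𝒪) ⊗ₜ[ℤ] (σ • J.e n l) := by
    intro l
    obtain ⟨N', hnN', hN'⟩ := alg_exists_pow_le p 𝒪 n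
    obtain ⟨k, rfl⟩ := Nat.exists_eq_add_of_le hnN'
    obtain ⟨l', hl'⟩ := (algLevel J).exists_lift (asmGal N σ) (n + k) l
    have hl'' : J.e (n + k) l' = σ • J.e (n + k) l := hl'
    have h1 := algBig_spec J 𝒪 hp σ (n + k) l l' hl''
    have h2 := algE_eq_zero_of_mem J 𝒪 n (n + k) hN' _ h1
    rw [map_sub, sub_eq_zero] at h2
    rw [h2, algE_tmul]
    congr 1
    have e1 : J.e n l' = p ^ k • J.e (n + k) l' := ((algLevel J).compat_pow n k l').symm
    have e2 : J.e n l = p ^ k • J.e (n + k) l := ((algLevel J).compat_pow n k l).symm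
    rw [e1, e2, hl'']
    exact (map_nsmul (DistribSMul.toAddMonoidHom (JZero N) σ) (p ^ k) (J.e (n + k) l)).symm
  induction w using TensorProduct.induction_on with
  | zero => simp
  | tmul a l =>
    have e : a ⊗ₜ[ℤ] l = a • ((1 : 𝒪) ⊗ₜ[ℤ] l) := by
      rw [TensorProduct.smul_tmul', smul_eq_mul, mul_one]
    rw [e, map_smul, map_smul, key, map_smul, map_smul, algE_tmul, LinearMap.baseChange_tmul]
    rfl
  | add x y hx hy => rw [map_add, map_add, hx, hy, map_add, map_add]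

end Desc

section Main

variable {N p : ℕ} [NeZero N] [Fact p.Prime] (J : JacInput N p)
  (𝒪 : Type) [CommRing 𝒪] [IsDomain 𝒪] [IsDiscreteValuationRing 𝒪]
  [IsAdicComplete (maximalIdeal 𝒪) 𝒪] [CharZero 𝒪] (hp : (p : 𝒪) ∈ maximalIdeal 𝒪)
  {S : Finset ℕ}

/-- `l ↦ σ e_n(l) - e_n(l)`. -/
noncomputable def algF (n : ℕ) (σ : GQ) : J.Λ →ₗ[ℤ] JZero N :=
  (galEnd N σ - 1) ∘ₗ (J.e n).toIntLinearMap

theorem algF_apply (n : ℕ) (σ : GQ) (l : J.Λ) : algF J n σ l = σ • J.e n l - J.e n l := rfl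

/-- an element of `𝒪 ⊗ Λ` fixed by `algBig σ` is killed by `1 ⊗ (σ - 1) e_n`. -/
theorem algF_lTensor_eq_zero (n : ℕ) (σ : GQ) (u : 𝒪 ⊗[ℤ] J.Λ)
    (hfix : algBig J 𝒪 hp σ u = u) : (algF J n σ).lTensor 𝒪 u = 0 := by
  have h1 : ∀ w : 𝒪 ⊗[ℤ] J.Λ, (algF J n σ).lTensor 𝒪 w
      = (galEnd N σ).baseChange 𝒪 (algE J 𝒪 n w) - algE J 𝒪 n w := by
    intro w
    induction w using TensorProduct.induction_on with
    | zero => simp
    | tmul a l =>
      rw [LinearMap.lTensor_tmul, algE_tmul, LinearMap.baseChange_tmul, algF_apply,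
        TensorProduct.tmul_sub]
      rfl
    | add x y hx hy =>
      rw [map_add, hx, hy, map_add, map_add]
      abel
  rw [h1, ← algE_big J 𝒪 hp, hfix, sub_self]

/-- **an inertia-fixed vector of the new eigenspace is zero.** -/
theorem alg_eq_zero_of_fixed (I : Subgroup GQ) (P : HPoly N S) (c : ℕ) (hc : 0 < c)
    (hinv : ∀ (x : JZero N) (n : ℕ), p ^ n • x = 0 →
      (∀ σ ∈ I, σ • evalJac N S N P x = evalJac N S N P x) → c • evalJac N S N P x = 0)
    (u : 𝒪 ⊗[ℤ] J.Λ) (hfix : ∀ σ ∈ I, algBig J 𝒪 hp σ u = u)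
    (θ : 𝒪) (hθ0 : θ ≠ 0) (hθ : (evalLat S J P).baseChange 𝒪 u = θ • u) : u = 0 := by
  classical
  have hflat : Module.Flat ℤ 𝒪 := inferInstance
  have key : ∀ n : ℕ, (((c : ℤ) : 𝒪) * θ) • u ∈ limFil 𝒪 J.Λ n := by
    intro n
    set K : Submodule ℤ J.Λ := ⨅ σ : I, LinearMap.ker (algF J n (σ : GQ)) with hKdef
    have hK : ∀ l : J.Λ, l ∈ K ↔ ∀ σ : I, algF J n (σ : GQ) l = 0 := by
      intro l
      rw [hKdef, Submodule.mem_iInf]
      exact forall_congr' fun σ => LinearMap.mem_ker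
    -- finiteness of the quotient
    have hle : (Ideal.span {((p ^ n : ℕ) : ℤ)}) • (⊤ : Submodule ℤ J.Λ) ≤ K := by
      rw [Submodule.smul_le]
      intro r hr l _
      obtain ⟨b, rfl⟩ := Ideal.mem_span_singleton.mp hr
      rw [hK]
      intro σ
      have h0 : J.e n ((((p ^ n : ℕ) : ℤ) * b) • l) = 0 := by
        rw [mul_smul, natCast_zsmul]
        exact (J.e_ker n _).mpr ⟨b • l, rfl⟩
      rw [algF_apply, h0, sub_zero]
      exact smul_zero (A := JZero N) (σ : GQ)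
    have hne : Ideal.span {((p ^ n : ℕ) : ℤ)} ≠ ⊥ := by
      rw [Ne, Ideal.span_singleton_eq_bot]
      exact_mod_cast pow_ne_zero n (Nat.Prime.ne_zero Fact.out)
    have : Finite (ℤ ⧸ Ideal.span {((p ^ n : ℕ) : ℤ)}) :=
      Ideal.finiteQuotientOfFreeOfNeBot _ hne
    have : Finite (J.Λ ⧸ (⊤ : Submodule ℤ J.Λ)) := inferInstance
    have : Finite (J.Λ ⧸ (Ideal.span {((p ^ n : ℕ) : ℤ)}) • (⊤ : Submodule ℤ J.Λ)) :=
      Submodule.finite_quotient_smul _ (Module.Finite.fg_top)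
    have : Finite (J.Λ ⧸ K) :=
      Finite.of_surjective (Submodule.factor hle) (Submodule.factor_surjective hle)
    -- flat descent
    have hu : ∀ σ : I, (algF J n (σ : GQ)).lTensor 𝒪 u = 0 := fun σ =>
      algF_lTensor_eq_zero J 𝒪 hp n σ u (hfix σ σ.2)
    obtain ⟨w, rfl⟩ := s36alg_flat_descent K (fun σ : I => algF J n (σ : GQ)) hK u hu
    -- the Hecke polynomial maps `K` into `p ^ n Λ`
    have hψ : ∀ l ∈ K, ∃ m : J.Λ, ((c : ℤ) • evalLat S J P) l = p ^ n • m := by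
      intro l hl
      apply (J.e_ker n _).mp
      rw [LinearMap.smul_apply, map_zsmul, al_e_evalLat, natCast_zsmul]
      apply hinv _ n (asm_e_torsion J n l)
      intro σ hσ
      have h1 := (hK l).mp hl ⟨σ, hσ⟩
      rw [algF_apply, sub_eq_zero] at h1
      have h2 := congrArg (fun f => f (J.e n l)) (al_galEnd_evalJac J σ P)
      simp only [Module.End.mul_apply, galEnd_apply] at h2
      rw [h2, h1]
    have hall : ∀ w : 𝒪 ⊗[ℤ] K,
        ((c : ℤ) • evalLat S J P).baseChange 𝒪 (K.subtype.lTensor 𝒪 w) ∈ limFil 𝒪 J.Λ n := by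
      intro w
      induction w using TensorProduct.induction_on with
      | zero =>
        rw [map_zero, map_zero]
        exact Submodule.zero_mem _
      | tmul a l =>
        obtain ⟨m, hm⟩ := hψ l l.2
        rw [LinearMap.lTensor_tmul, LinearMap.baseChange_tmul, Submodule.subtype_apply, hm]
        have e : a ⊗ₜ[ℤ] (p ^ n • m) = a • ((1 : 𝒪) ⊗ₜ[ℤ] (p ^ n • m)) := by
          rw [TensorProduct.smul_tmul', smul_eq_mul, mul_one]
        rw [e]
        exact Submodule.smul_mem _ _ (lim_tmul_nsmul_mem hp n m)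
      | add x y hx hy =>
        rw [map_add, map_add]
        exact Submodule.add_mem _ hx hy
    have h3 := hall w
    rw [LinearMap.baseChange_smul, LinearMap.smul_apply, hθ, ← Int.cast_smul_eq_zsmul 𝒪,
      smul_smul] at h3
    exact h3
  have h0 : (((c : ℤ) : 𝒪) * θ) • u = 0 := lim_eq_zero_of_forall_mem key
  have hc0 : (((c : ℤ) : 𝒪) * θ) ≠ 0 := by
    apply mul_ne_zero _ hθ0
    exact_mod_cast hc.ne'
  rcases smul_eq_zero.mp h0 with h | h
  · exact absurd h hc0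
  · exact h

end Main

end Fermat.Agent.S36lib
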