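import Mathlib
import Fermat.Agent.S36lib.Defs
import Fermat.Agent.S35lib.BridgeK
import Fermat.Agent.S34lib.KummerU
import Fermat.Agent.RRlib.Modular

/-!
# Item 83 (S36), block ALG, piece 3: (INV) in divisor-class form from its Kummer form

* `DegJK2Statement` (piece DEGJ2, proved elsewhere): `S35lib.DegJKStatement` at the lower level
  `M' q` (divisible by `q`).
* `InvJAt M' q p S c A`: an inertia-fixed class `h • x`, `x ∈ J₀(M'q²)[p^∞]`, `h` a Hecke
  polynomial killing `J₀(M'q)[p^∞]`, is killed by `c`.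
* `invJ_of_invK`: `InvK M' q (p ^ n) c A` for all `n` implies `InvJAt M' q p S c A`.
-/

set_option autoImplicit false

noncomputable section

namespace Fermat.Agent.S36lib

open ModularCurve AlgebraicCurve
open Fermat.Agent.S24lib Fermat.Agent.HeckeBar Fermat.Agent.S34lib Fermat.Agent.S31lib
  Fermat.Agent.GalRep Fermat.Agent.S35lib Fermat.Agent.RRlib

section Gen

variable {K F : Type*} [Field K] [Field F] [Algebra K F]

/-- a class fixed by `g` has a Kummer function fixed by `g` up to constants and `m`-th powers. -/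
theorem s36alg_kummerFixed_of_fixed [RRBase K F] (g : SemilinearAut K F)
    (D : Divisor.degZero (K := K) (F := F)) (m : ℕ) (f : F) (hf0 : f ≠ 0)
    (hfD : ∀ w : Place K F, (m • (D : Divisor K F)) w = w.ord f)
    (hfix : g • Pic0.mk D = Pic0.mk D) :
    ∃ (c : K) (s : F), g • f / f = algebraMap K F c * s ^ m := by
  have h0 : Pic0.mk (SemilinearAut.degZeroSMulHom g D - D) = 0 := by
    have h1 : Pic0.mk (SemilinearAut.degZeroSMulHom g D) - Pic0.mk D = 0 := by
      rw [← SemilinearAut.pic0_smul_mk, hfix, sub_self]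
    exact h1
  obtain ⟨s, hs0, hs⟩ := Fermat.Agent.S18lib.mem_principal_of_mk_eq_zero _ h0
  have hdiv : ∀ v : Place K F, v.ord f = m * (D : Divisor K F) v := by
    intro v
    rw [← hfD v]
    simp
  have hprin : ∀ v : Place K F,
      (g • (D : Divisor K F) - 1 • (D : Divisor K F)) v = v.ord s := by
    intro v
    rw [← hs v, one_smul]
    rfl
  obtain ⟨c, hc⟩ := kummerU_of_principal g hf0 hs0 (m := m) (Q := 1) hdiv hprin
  rw [pow_one] at hc
  exact ⟨c, s, hc⟩

/-- if `f ^ c` is a constant times an `m`-th power, the class of `div f / m` is killed by `c`. -/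
theorem s36alg_smul_eq_zero_of_pow (D : Divisor.degZero (K := K) (F := F)) (m c : ℕ)
    (hm0 : m ≠ 0) (f : F) (hf0 : f ≠ 0)
    (hfD : ∀ w : Place K F, (m • (D : Divisor K F)) w = w.ord f)
    (c₀ : K) (s : F) (hcs : f ^ c = algebraMap K F c₀ * s ^ m) :
    c • Pic0.mk D = 0 := by
  have hfD' : ∀ v : Place K F, (m : ℤ) * (D : Divisor K F) v = v.ord f := by
    intro v
    rw [← hfD v]
    simp
  have hw0 : f ^ c ≠ 0 := pow_ne_zero _ hf0
  have hc0 : algebraMap K F c₀ ≠ 0 := by
    intro h0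
    rw [hcs, h0, zero_mul] at hw0
    exact hw0 rfl
  have hs0 : s ≠ 0 := by
    intro h0
    rw [hcs, h0, zero_pow hm0, mul_zero] at hw0
    exact hw0 rfl
  have h1 : Pic0.mk (c • D) = 0 := by
    apply Fermat.Agent.S18lib.mk_eq_zero_of_mem_principal
    refine ⟨s, hs0, fun v => ?_⟩
    have e1 : v.ord (f ^ c) = (m : ℤ) * v.ord s := by
      rw [hcs, v.ord_mul hc0 (pow_ne_zero _ hs0), Fermat.Agent.S18lib.ord_pow_nat,
        uk_ord_const, zero_add]
    have e2 : v.ord (f ^ c) = (m : ℤ) * ((c : ℤ) * (D : Divisor K F) v) := by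
      rw [Fermat.Agent.S18lib.ord_pow_nat, ← hfD']
      ring
    have hm' : (m : ℤ) ≠ 0 := by exact_mod_cast hm0
    have e3 := mul_left_cancel₀ hm' (e2.symm.trans e1)
    rw [← e3]
    simp
  exact h1

end Gen

/-- **DEGJ2**: `DegJKStatement` at the lower level `M' q` (divisible by `q`). -/
def DegJK2Statement : Prop :=
  ∀ (M' q p : ℕ) [NeZero M'] [NeZero q] (S : Finset ℕ), q.Prime → ¬ q ∣ M' →
    DegJKStatement (M' * q) q p S

/-- (INV) in divisor-class form. -/
def InvJAt (M' q p : ℕ) [NeZero M'] [NeZero q] (S : Finset ℕ) (c : ℕ)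
    (A : ValuationSubring Kbar) : Prop :=
  ∀ h : HPoly (M' * q * q) S, KillsLevel (M' * q * q) S (M' * q) p h →
    ∀ (x : JZero (M' * q * q)) (n : ℕ), p ^ n • x = 0 →
      (∀ σ ∈ A.inertiaSubgroupIn ℚ,
        σ • evalJac (M' * q * q) S (M' * q * q) h x = evalJac (M' * q * q) S (M' * q * q) h x) →
      c • evalJac (M' * q * q) S (M' * q * q) h x = 0

/-- (INV) in divisor-class form from its Kummer form. -/
theorem invJ_of_invK (M' q p : ℕ) [NeZero M'] [NeZero q] (S : Finset ℕ) (hp : p ≠ 0)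
    (hdeg : DegJKStatement (M' * q) q p S) (c : ℕ) (A : ValuationSubring Kbar)
    (h : ∀ n : ℕ, InvK M' q (p ^ n) c A) : InvJAt M' q p S c A := by
  intro P hP x n hn hfix
  haveI : RRHyp Kbar (FF (M' * q * q)) := mod_rrHyp (M' * q * q)
  have hny : p ^ n • evalJac (M' * q * q) S (M' * q * q) P x = 0 := by
    rw [← map_nsmul, hn, map_zero]
  obtain ⟨D, hD⟩ := Pic0.mk_surjective (evalJac (M' * q * q) S (M' * q * q) P x)
  have hprin : (((p ^ n) • D : Divisor.degZero (K := Kbar) (F := FF (M' * q * q))) :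
      Divisor Kbar (FF (M' * q * q))) ∈ Divisor.principal := by
    apply Fermat.Agent.S18lib.mem_principal_of_mk_eq_zero
    rw [← hny, ← hD]
    rfl
  obtain ⟨f, hf0, hf⟩ := hprin
  have hfD : ∀ w : Place Kbar (FF (M' * q * q)),
      ((p ^ n) • (D : Divisor Kbar (FF (M' * q * q)))) w = w.ord f := by
    intro w
    rw [← hf w]
    rfl
  have hdiv : ∀ v : Place Kbar (FF (M' * q * q)), ((p ^ n : ℕ) : ℤ) ∣ v.ord f := by
    intro v
    refine ⟨(D : Divisor Kbar (FF (M' * q * q))) v, ?_⟩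
    rw [← hfD v]
    simp
  have hnew : IsKummerNew2 M' q (p ^ n) f := hdeg P hP x n hn D f hD hf0 hfD
  have hfixK : IsKummerFixed (M' * q * q) (p ^ n) A f := by
    intro σ hσ
    have h1 : galFF (M' * q * q) σ • Pic0.mk D = Pic0.mk D := by
      rw [hD]
      exact hfix σ hσ
    exact s36alg_kummerFixed_of_fixed (galFF (M' * q * q) σ) D (p ^ n) f hf0 hfD h1
  obtain ⟨c₀, s, hcs⟩ := h n f hf0 hdiv hnew hfixK
  rw [← hD]
  exact s36alg_smul_eq_zero_of_pow D (p ^ n) c (pow_ne_zero _ hp) f hf0 hfD c₀ s hcs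

end Fermat.Agent.S36lib

end
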