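import Mathlib
import Fermat.Agent.S36lib.Speed

/-!
# Item 83 (S36), block ALG, piece 2: the `2 × 2` Kolchin lemma

A subgroup of `GL₂` over a domain all of whose elements have characteristic polynomial
`(X - 1)²` has a common nonzero fixed vector.  Mathlib only.
-/

set_option autoImplicit false

open Polynomial

namespace Fermat.Agent.S36lib

section Matrix

variable {𝒪 : Type*} [CommRing 𝒪] [IsDomain 𝒪]

/-- the two candidates for the fixed vector of a unipotent `A`. -/
theorem s36alg_kolchin_aux (A B : Matrix (Fin 2) (Fin 2) 𝒪)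
    (htA : A.trace = 2) (hdA : A.det = 1) (htB : B.trace = 2) (hdB : B.det = 1)
    (htBA : (B * A).trace = 2) :
    B.mulVec ![A 0 1, 1 - A 0 0] = ![A 0 1, 1 - A 0 0] ∧
      B.mulVec ![A 0 0 - 1, A 1 0] = ![A 0 0 - 1, A 1 0] := by
  rw [Matrix.trace_fin_two] at htA htB htBA
  rw [Matrix.det_fin_two] at hdA hdB
  simp only [Matrix.mul_apply, Fin.sum_univ_two] at htBA
  -- notation
  have hA11 : A 1 1 = 2 - A 0 0 := by linear_combination htA
  have hB11 : B 1 1 = 2 - B 0 0 := by linear_combination htB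
  have hx : (A 0 0 - 1) ^ 2 + A 0 1 * A 1 0 = 0 := by
    rw [hA11] at hdA
    linear_combination -hdA
  have hy : (B 0 0 - 1) ^ 2 + B 0 1 * B 1 0 = 0 := by
    rw [hB11] at hdB
    linear_combination -hdB
  have ht : 2 * (A 0 0 - 1) * (B 0 0 - 1) + B 0 1 * A 1 0 + B 1 0 * A 0 1 = 0 := by
    rw [hA11, hB11] at htBA
    linear_combination htBA
  have e1 : ((B 0 0 - 1) * A 0 1 - B 0 1 * (A 0 0 - 1)) ^ 2 = 0 := by
    linear_combination (A 0 1) ^ 2 * hy + (B 0 1) ^ 2 * hx - A 0 1 * B 0 1 * ht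
  have e2 : (B 1 0 * A 0 1 + (B 0 0 - 1) * (A 0 0 - 1)) ^ 2 = 0 := by
    linear_combination (A 0 0 - 1) ^ 2 * hy - B 0 1 * B 1 0 * hx + B 1 0 * A 0 1 * ht
  have e3 : ((B 0 0 - 1) * (A 0 0 - 1) + B 0 1 * A 1 0) ^ 2 = 0 := by
    linear_combination (A 0 0 - 1) ^ 2 * hy - B 0 1 * B 1 0 * hx + B 0 1 * A 1 0 * ht
  have e4 : (B 1 0 * (A 0 0 - 1) - (B 0 0 - 1) * A 1 0) ^ 2 = 0 := by
    linear_combination (A 1 0) ^ 2 * hy + (B 1 0) ^ 2 * hx - A 1 0 * B 1 0 * ht
  have f1 := pow_eq_zero_iff (two_ne_zero) |>.mp e1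
  have f2 := pow_eq_zero_iff (two_ne_zero) |>.mp e2
  have f3 := pow_eq_zero_iff (two_ne_zero) |>.mp e3
  have f4 := pow_eq_zero_iff (two_ne_zero) |>.mp e4
  constructor
  · ext i
    fin_cases i
    · simp only [Matrix.mulVec, dotProduct, Fin.sum_univ_two, Fin.zero_eta, Fin.isValue,
        Matrix.cons_val_zero, Matrix.cons_val_one]
      linear_combination f1
    · simp only [Matrix.mulVec, dotProduct, Fin.sum_univ_two, Fin.mk_one, Fin.isValue,
        Matrix.cons_val_zero, Matrix.cons_val_one]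
      rw [hB11]
      linear_combination f2
  · ext i
    fin_cases i
    · simp only [Matrix.mulVec, dotProduct, Fin.sum_univ_two, Fin.zero_eta, Fin.isValue,
        Matrix.cons_val_zero, Matrix.cons_val_one]
      linear_combination f3
    · simp only [Matrix.mulVec, dotProduct, Fin.sum_univ_two, Fin.mk_one, Fin.isValue,
        Matrix.cons_val_zero, Matrix.cons_val_one]
      rw [hB11]
      linear_combination f4

/-- **Kolchin for `2 × 2` matrices**: a group of matrices of trace `2` and determinant `1` has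
a common nonzero fixed vector. -/
theorem s36alg_kolchin_matrix {G : Type*} [Group G]
    (μ : G →* Matrix (Fin 2) (Fin 2) 𝒪) (H : Subgroup G)
    (htr : ∀ σ ∈ H, (μ σ).trace = 2) (hdet : ∀ σ ∈ H, (μ σ).det = 1) :
    ∃ v : Fin 2 → 𝒪, v ≠ 0 ∧ ∀ σ ∈ H, (μ σ).mulVec v = v := by
  by_cases hall : ∀ σ ∈ H, μ σ = 1
  · refine ⟨![1, 0], ?_, fun σ hσ => ?_⟩
    · intro h
      have := congrFun h 0
      simp at this
    · rw [hall σ hσ, Matrix.one_mulVec]
  · simp only [not_forall] at hall
    obtain ⟨g, hg, hg1⟩ := hall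
    set A := μ g with hA
    have key : ∀ σ ∈ H, (μ σ).mulVec ![A 0 1, 1 - A 0 0] = ![A 0 1, 1 - A 0 0] ∧
        (μ σ).mulVec ![A 0 0 - 1, A 1 0] = ![A 0 0 - 1, A 1 0] := by
      intro σ hσ
      refine s36alg_kolchin_aux A (μ σ) (htr g hg) (hdet g hg) (htr σ hσ) (hdet σ hσ) ?_
      rw [hA, ← map_mul]
      exact htr _ (H.mul_mem hσ hg)
    by_cases h1 : (![A 0 1, 1 - A 0 0] : Fin 2 → 𝒪) = 0
    · refine ⟨![A 0 0 - 1, A 1 0], ?_, fun σ hσ => (key σ hσ).2⟩
      intro h2
      apply hg1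
      have a01 : A 0 1 = 0 := by simpa using congrFun h1 0
      have a00 : 1 - A 0 0 = 0 := by simpa using congrFun h1 1
      have a10 : A 1 0 = 0 := by simpa using congrFun h2 1
      have a11 : A 1 1 = 1 := by
        have := htr g hg
        rw [Matrix.trace_fin_two] at this
        linear_combination this + a00
      ext i j
      fin_cases i <;> fin_cases j
      · simp only [Fin.zero_eta, Fin.isValue, Matrix.one_apply_eq]
        linear_combination -a00
      · simpa using a01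
      · simpa using a10
      · simpa using a11
    · exact ⟨_, h1, fun σ hσ => (key σ hσ).1⟩

end Matrix

section Module

variable {𝒪 : Type*} [CommRing 𝒪] [IsDomain 𝒪]
variable {V : Type*} [AddCommGroup V] [Module 𝒪 V]

/-- **Kolchin in rank `2`**: a group of endomorphisms of a free module of rank `2` over a domain
all of whose elements have characteristic polynomial `(X - 1)²` has a common nonzero fixed
vector. -/
theorem s36alg_exists_fixed [Module.Free 𝒪 V] [Module.Finite 𝒪 V]
    (hV : Module.finrank 𝒪 V = 2) {G : Type*} [Group G]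
    (ρ : G →* Module.End 𝒪 V) (H : Subgroup G)
    (hH : ∀ σ ∈ H, LinearMap.charpoly (ρ σ) = (X - 1) ^ 2) :
    ∃ v : V, v ≠ 0 ∧ ∀ σ ∈ H, ρ σ v = v := by
  classical
  let b : Module.Basis (Fin 2) 𝒪 V := Module.finBasisOfFinrankEq 𝒪 V hV
  let μ : G →* Matrix (Fin 2) (Fin 2) 𝒪 :=
    (LinearMap.toMatrixAlgEquiv b).toAlgHom.toRingHom.toMonoidHom.comp ρ
  have hμ : ∀ σ, μ σ = LinearMap.toMatrix b b (ρ σ) := fun σ => rfl
  have hcp : ∀ σ ∈ H, (μ σ).trace = 2 ∧ (μ σ).det = 1 := by
    intro σ hσ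
    have h := hH σ hσ
    rw [← LinearMap.charpoly_toMatrix (ρ σ) b, ← hμ, Matrix.charpoly_fin_two] at h
    have h0 := congrArg (Polynomial.eval 0) h
    have h1 := congrArg (Polynomial.eval 1) h
    simp only [eval_add, eval_sub, eval_pow, eval_X, eval_mul, eval_C, eval_one] at h0 h1
    have hd : (μ σ).det = 1 := by
      linear_combination h0
    refine ⟨?_, hd⟩
    rw [hd] at h1
    linear_combination -h1
  obtain ⟨w, hw0, hw⟩ := s36alg_kolchin_matrix μ H (fun σ hσ => (hcp σ hσ).1)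
    (fun σ hσ => (hcp σ hσ).2)
  refine ⟨b.equivFun.symm w, ?_, fun σ hσ => ?_⟩
  · intro h
    apply hw0
    have := congrArg b.equivFun h
    rwa [LinearEquiv.apply_symm_apply, map_zero] at this
  · apply b.equivFun.injective
    have h1 := LinearMap.toMatrix_mulVec_repr b b (ρ σ) (b.equivFun.symm w)
    have h2 : (b.repr (b.equivFun.symm w) : Fin 2 → 𝒪) = w := by
      have := LinearEquiv.apply_symm_apply b.equivFun w
      exact this
    rw [h2, ← hμ, hw σ hσ] at h1
    rw [LinearEquiv.apply_symm_apply]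
    exact h1.symm

end Module

end Fermat.Agent.S36lib
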