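/-
Item 83 (S36), piece DEGJ2 part 1 (helper23): `β_*` COMMUTES WITH THE HECKE OPERATORS AT EVERY
LEVEL `N` (in particular for `q ∣ N`, the case `N = M' q` of S36; `S35lib/DegJBeta.lean` needs
`q ∤ N`).

Route: with `Q` the `q`-part of `N` (an exact divisor) and the general Atkin–Lehner involutions
`w = w_Q` of `F_N`, `w' = w_{Qq}` of `F_{Nq}` (`ALGen.lean`):  `w' ∘ α_q = β_q ∘ w`, so
`β_* = w_* ∘ α_* ∘ w'_*`; `w_*`, `w'_*` commute with `T_ℓ` (`ℓ ≠ q`) as in `DegJBeta.lean`.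

* `dgj2_al_comp_alpha`, `dgj2_al_comp_beta` : `w_Q` at level `Mℓ` restricts to `w_Q` at level `M`
  along `α_ℓ` and `β_ℓ` (`gcd(ℓ, Q) = 1`);
* `dgj2_al_alpha_eq_beta` : `w_{Qq} ∘ α_q = β_q ∘ w_Q`;
* `degJALQ`, `degJALQ_heckeOperatorAlong`;
* `degJBeta_eq_gen`, `degJBeta_heckeOperatorAlong_gen`, `degJBeta_heckeOperatorBar_gen`.
Complete proofs.
-/
import Mathlib
import Fermat.Agent.S36lib.ALGen
import Fermat.Agent.S35lib.DegJBeta

set_option autoImplicit false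
set_option linter.style.haveILetI false
set_option linter.unusedSectionVars false

noncomputable section

namespace Fermat.Agent.S36lib

open AlgebraicCurve ModularCurve
open Fermat.Agent.S24lib Fermat.Agent.HeckeBar Fermat.Agent.S37lib Fermat.Agent.S34lib
open Fermat.Agent.S35lib

section Arith

theorem dgj2_coprime_mul {M Q ℓ : ℕ} (hQ : Q ∣ M) (hcop : Nat.Coprime Q (M / Q))
    (hℓ : Nat.Coprime ℓ Q) : Nat.Coprime Q (M * ℓ / Q) := by
  rw [← Nat.div_mul_right_comm hQ ℓ]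
  exact Nat.Coprime.mul_right hcop hℓ.symm

theorem dgj2_dvd_q {N Q : ℕ} (hQ : Q ∣ N) (q : ℕ) : Q * q ∣ N * q :=
  Nat.mul_dvd_mul_right hQ q

theorem dgj2_coprime_q {N Q q : ℕ} (hq : 0 < q) (hcop' : Nat.Coprime (Q * q) (N / Q)) :
    Nat.Coprime (Q * q) (N * q / (Q * q)) := by
  rw [Nat.mul_div_mul_right N Q hq]
  exact hcop'

/-- `σ_{Qq}(d) = q σ_Q(d)` for the divisors `d` of `N`, when `Qq` is prime to `N / Q` -/
theorem dgj2_alqSwap_mul_q {N Q q : ℕ} (hN0 : N ≠ 0) (hQ : Q ∣ N)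
    (hcop' : Nat.Coprime (Q * q) (N / Q)) {d : ℕ} (hd : d ∣ N) :
    alqSwap (Q * q) d = q * alqSwap Q d := by
  have hcop : Nat.Coprime Q (N / Q) := Nat.Coprime.coprime_mul_right hcop'
  obtain ⟨a, b, rfl, ha, hb, hbQ, ha0, hb0⟩ := alq_exists_decomp hN0 hQ hcop hd
  have hbQq : Nat.Coprime b (Q * q) := (Nat.Coprime.coprime_dvd_right hb hcop').symm
  rw [alqSwap_mul (ha.mul_right q) hbQq ha0, alqSwap_mul ha hbQ ha0,
    Nat.mul_comm Q q, Nat.mul_div_assoc q ha]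
  ring

end Arith

section Intertwine

variable (M : ℕ) [NeZero M] {Q ℓ : ℕ} [NeZero ℓ] [NeZero (M * ℓ)]
variable (hQ : Q ∣ M) (hcop : Nat.Coprime Q (M / Q)) (hℓQ : Nat.Coprime ℓ Q)

/-- `w_Q` at level `Mℓ` restricts to `w_Q` at level `M` along the inclusion -/
theorem dgj2_al_comp_alpha :
    ((alQ (M * ℓ) Q (hQ.mul_right ℓ) (dgj2_coprime_mul hQ hcop hℓQ) :
        FF (M * ℓ) →ₐ[Kbar] FF (M * ℓ))).comp (heckeAlphaBar Kbar M ℓ) =
      (heckeAlphaBar Kbar M ℓ).comp (alQ M Q hQ hcop : FF M →ₐ[Kbar] FF M) := by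
  have h : ((alQ (M * ℓ) Q (hQ.mul_right ℓ) (dgj2_coprime_mul hQ hcop hℓQ) :
        FF (M * ℓ) →ₐ[Kbar] FF (M * ℓ)).comp (heckeAlphaBar Kbar M ℓ)).toRingHom =
      ((heckeAlphaBar Kbar M ℓ).comp (alQ M Q hQ hcop : FF M →ₐ[Kbar] FF M)).toRingHom := by
    apply FF_ringHom_ext
    · intro c
      show ((alQ (M * ℓ) Q (hQ.mul_right ℓ) (dgj2_coprime_mul hQ hcop hℓQ) :
        FF (M * ℓ) →ₐ[Kbar] FF (M * ℓ)).comp (heckeAlphaBar Kbar M ℓ))
          (algebraMap Kbar (FF M) c) =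
        ((heckeAlphaBar Kbar M ℓ).comp (alQ M Q hQ hcop : FF M →ₐ[Kbar] FF M))
          (algebraMap Kbar (FF M) c)
      rw [AlgHom.commutes, AlgHom.commutes]
    · intro d _ hd
      haveI : NeZero (alqSwap Q d) := ⟨alqSwap_ne_zero (NeZero.ne M) hQ hcop hd⟩
      show alQ (M * ℓ) Q (hQ.mul_right ℓ) (dgj2_coprime_mul hQ hcop hℓQ)
          (heckeAlphaBar Kbar M ℓ (jdF M d hd)) =
        heckeAlphaBar Kbar M ℓ (alQ M Q hQ hcop (jdF M d hd))
      rw [alQ_jdF, heckeAlphaBar_eq_inclBar, inclBar_jdF, inclBar_jdF, alQ_jdF]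
  exact AlgHom.ext fun x => congrArg (fun φ : FF M →+* FF (M * ℓ) => φ x) h

/-- `w_Q` at level `Mℓ` restricts to `w_Q` at level `M` along `f(t) ↦ f(t^ℓ)` -/
theorem dgj2_al_comp_beta :
    ((alQ (M * ℓ) Q (hQ.mul_right ℓ) (dgj2_coprime_mul hQ hcop hℓQ) :
        FF (M * ℓ) →ₐ[Kbar] FF (M * ℓ))).comp (heckeBetaBar Kbar M ℓ) =
      (heckeBetaBar Kbar M ℓ).comp (alQ M Q hQ hcop : FF M →ₐ[Kbar] FF M) := by
  have h : ((alQ (M * ℓ) Q (hQ.mul_right ℓ) (dgj2_coprime_mul hQ hcop hℓQ) :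
        FF (M * ℓ) →ₐ[Kbar] FF (M * ℓ)).comp (heckeBetaBar Kbar M ℓ)).toRingHom =
      ((heckeBetaBar Kbar M ℓ).comp (alQ M Q hQ hcop : FF M →ₐ[Kbar] FF M)).toRingHom := by
    apply FF_ringHom_ext
    · intro c
      show ((alQ (M * ℓ) Q (hQ.mul_right ℓ) (dgj2_coprime_mul hQ hcop hℓQ) :
        FF (M * ℓ) →ₐ[Kbar] FF (M * ℓ)).comp (heckeBetaBar Kbar M ℓ))
          (algebraMap Kbar (FF M) c) =
        ((heckeBetaBar Kbar M ℓ).comp (alQ M Q hQ hcop : FF M →ₐ[Kbar] FF M))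
          (algebraMap Kbar (FF M) c)
      rw [AlgHom.commutes, AlgHom.commutes]
    · intro d _ hd
      haveI : NeZero (alqSwap Q d) := ⟨alqSwap_ne_zero (NeZero.ne M) hQ hcop hd⟩
      haveI : NeZero (ℓ * d) := ⟨Nat.mul_ne_zero (NeZero.ne ℓ) (NeZero.ne d)⟩
      haveI : NeZero (ℓ * alqSwap Q d) := ⟨Nat.mul_ne_zero (NeZero.ne ℓ) (NeZero.ne _)⟩
      show alQ (M * ℓ) Q (hQ.mul_right ℓ) (dgj2_coprime_mul hQ hcop hℓQ)
          (heckeBetaBar Kbar M ℓ (jdF M d hd)) =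
        heckeBetaBar Kbar M ℓ (alQ M Q hQ hcop (jdF M d hd))
      rw [alQ_jdF, heckeBetaBar_eq_qpowBar, qpowBar_jdF, qpowBar_jdF]
      exact alQ_jdF_of_eq (M * ℓ) Q _ _ _ _ _ _ (alqSwap_mul_coprime hℓQ)
  exact AlgHom.ext fun x => congrArg (fun φ : FF M →+* FF (M * ℓ) => φ x) h

end Intertwine

section Beta

variable (N : ℕ) [NeZero N] {Q q : ℕ} [NeZero q] [NeZero (N * q)]
variable (hQ : Q ∣ N) (hcop' : Nat.Coprime (Q * q) (N / Q))

/-- **`w_{Qq} ∘ α_q = β_q ∘ w_Q`** -/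
theorem dgj2_al_alpha_eq_beta :
    ((alQ (N * q) (Q * q) (dgj2_dvd_q hQ q)
        (dgj2_coprime_q (Nat.pos_of_ne_zero (NeZero.ne q)) hcop') :
        FF (N * q) →ₐ[Kbar] FF (N * q))).comp (heckeAlphaBar Kbar N q) =
      (heckeBetaBar Kbar N q).comp
        (alQ N Q hQ (Nat.Coprime.coprime_mul_right hcop') : FF N →ₐ[Kbar] FF N) := by
  have hcop : Nat.Coprime Q (N / Q) := Nat.Coprime.coprime_mul_right hcop'
  have h : ((alQ (N * q) (Q * q) (dgj2_dvd_q hQ q)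
        (dgj2_coprime_q (Nat.pos_of_ne_zero (NeZero.ne q)) hcop') :
        FF (N * q) →ₐ[Kbar] FF (N * q)).comp (heckeAlphaBar Kbar N q)).toRingHom =
      ((heckeBetaBar Kbar N q).comp (alQ N Q hQ hcop : FF N →ₐ[Kbar] FF N)).toRingHom := by
    apply FF_ringHom_ext
    · intro c
      show ((alQ (N * q) (Q * q) (dgj2_dvd_q hQ q)
        (dgj2_coprime_q (Nat.pos_of_ne_zero (NeZero.ne q)) hcop') :
        FF (N * q) →ₐ[Kbar] FF (N * q)).comp (heckeAlphaBar Kbar N q))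
          (algebraMap Kbar (FF N) c) =
        ((heckeBetaBar Kbar N q).comp (alQ N Q hQ hcop : FF N →ₐ[Kbar] FF N))
          (algebraMap Kbar (FF N) c)
      rw [AlgHom.commutes, AlgHom.commutes]
    · intro d _ hd
      haveI : NeZero (alqSwap Q d) := ⟨alqSwap_ne_zero (NeZero.ne N) hQ hcop hd⟩
      haveI : NeZero (q * alqSwap Q d) := ⟨Nat.mul_ne_zero (NeZero.ne q) (NeZero.ne _)⟩
      show alQ (N * q) (Q * q) (dgj2_dvd_q hQ q)
          (dgj2_coprime_q (Nat.pos_of_ne_zero (NeZero.ne q)) hcop')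
          (heckeAlphaBar Kbar N q (jdF N d hd)) =
        heckeBetaBar Kbar N q (alQ N Q hQ hcop (jdF N d hd))
      rw [alQ_jdF, heckeBetaBar_eq_qpowBar, qpowBar_jdF, heckeAlphaBar_eq_inclBar, inclBar_jdF]
      exact alQ_jdF_of_eq (N * q) (Q * q) _ _ _ _ _ _
        (dgj2_alqSwap_mul_q (NeZero.ne N) hQ hcop' hd)
  exact AlgHom.ext fun x => congrArg (fun φ : FF N →+* FF (N * q) => φ x) h

end Beta

section ALPush

variable (M : ℕ) [NeZero M] {Q : ℕ}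
variable (hQ : Q ∣ M) (hcop : Nat.Coprime Q (M / Q))

theorem dgj2_al_isIntegral :
    ((alQ M Q hQ hcop : FF M →ₐ[Kbar] FF M)).toRingHom.IsIntegral :=
  haveI := fin_ffData M
  gen_isIntegral _ (transcendental_jF M) (x' := jF M)

theorem dgj2_al_finiteAlong :
    FiniteAlong Kbar (alQ M Q hQ hcop : FF M →ₐ[Kbar] FF M) :=
  haveI := fin_ffData M
  gen_finiteAlong _ (transcendental_jF M) (x' := jF M)

theorem dgj2_al_normFormula :
    NormFormulaAlong Kbar (alQ M Q hQ hcop : FF M →ₐ[Kbar] FF M)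
      (dgj2_al_finiteAlong M hQ hcop) :=
  haveI := fin_ffData M
  gen_normFormula _ (x' := jF M) _

/-- **`(w_Q)_*`** on `J₀(M)`, `Q` an exact divisor of `M` -/
def degJALQ : JZero M →+ JZero M :=
  dgjPic0Push (alQ M Q hQ hcop : FF M →ₐ[Kbar] FF M)
    (dgj2_al_isIntegral M hQ hcop) (dgj2_al_finiteAlong M hQ hcop)
    (dgj2_al_normFormula M hQ hcop)

variable {ℓ : ℕ} [NeZero ℓ] [NeZero (M * ℓ)]

/-- the automorphism square `w' ∘ β_ℓ = β_ℓ ∘ w` as a base-change square -/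
theorem dgj2_al_squareData (hℓQ : Nat.Coprime ℓ Q) :
    haveI := wir_hasPrincipalDivisors M
    haveI := wir_hasPrincipalDivisors (M * ℓ)
    SquareData (heckeBetaBar Kbar M ℓ) (alQ M Q hQ hcop : FF M →ₐ[Kbar] FF M)
      (alQ (M * ℓ) Q (hQ.mul_right ℓ) (dgj2_coprime_mul hQ hcop hℓQ) :
        FF (M * ℓ) →ₐ[Kbar] FF (M * ℓ))
      (heckeBetaBar Kbar M ℓ) := by
  haveI := wir_hasPrincipalDivisors M
  haveI := wir_hasPrincipalDivisors (M * ℓ)
  haveI := fin_ffData M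
  exact
    { hβ := hinp_isIntegral_beta M ℓ
      hα' := dgj2_al_isIntegral M hQ hcop
      ha := dgj2_al_isIntegral (M * ℓ) _ _
      hb := hinp_isIntegral_beta M ℓ
      hsq := dgj2_al_comp_beta M hQ hcop hℓQ
      hfinα := dgj2_al_finiteAlong M hQ hcop
      hNα := dgj2_al_normFormula M hQ hcop
      hfina := dgj2_al_finiteAlong (M * ℓ) _ _
      hNa := dgj2_al_normFormula (M * ℓ) _ _
      hnc := dgj_normCompat_aut _ _ _ (dgj2_al_comp_beta M hQ hcop hℓQ)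
      happ := gen_approxAlong _ (dgj2_al_isIntegral M hQ hcop) (transcendental_jF M)
        (x' := jF M) }

/-- `(w_Q)_*` commutes with `T_ℓ`, `gcd(ℓ, Q) = 1` -/
theorem degJALQ_heckeOperatorAlong (hℓQ : Nat.Coprime ℓ Q) (x : JZero M) :
    degJALQ M hQ hcop (heckeOperatorAlong Kbar M ℓ x) =
      heckeOperatorAlong Kbar M ℓ (degJALQ M hQ hcop x) := by
  haveI := wir_hasPrincipalDivisors M
  haveI := wir_hasPrincipalDivisors (M * ℓ)
  rw [heckeOperatorAlong_Qbar_eq]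
  exact dgjPic0Push_correspondence (dgj2_al_squareData M hQ hcop hℓQ)
    (dgj2_al_comp_alpha M hQ hcop hℓQ) (wir_deg_eq_one _) (wir_deg_eq_one _)
    (wir_deg_eq_one _) _ _ _ _ _ _ _ _ _ _ _ _ _ x

end ALPush

section BetaHecke

variable (N : ℕ) [NeZero N] {Q q : ℕ} [NeZero q] [NeZero (N * q)]
variable (hQ : Q ∣ N) (hcop' : Nat.Coprime (Q * q) (N / Q))

/-- **`β_q = w_{Qq} ∘ α_q ∘ w_Q`** -/
theorem dgj2_beta_eq_comp :
    heckeBetaBar Kbar N q =
      ((alQ (N * q) (Q * q) (dgj2_dvd_q hQ q)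
        (dgj2_coprime_q (Nat.pos_of_ne_zero (NeZero.ne q)) hcop') :
        FF (N * q) →ₐ[Kbar] FF (N * q))).comp
        ((heckeAlphaBar Kbar N q).comp
          (alQ N Q hQ (Nat.Coprime.coprime_mul_right hcop') : FF N →ₐ[Kbar] FF N)) := by
  refine AlgHom.ext fun x => ?_
  have h := congrArg
    (fun φ : FF N →ₐ[Kbar] FF (N * q) =>
      φ (alQ N Q hQ (Nat.Coprime.coprime_mul_right hcop') x))
    (dgj2_al_alpha_eq_beta N hQ hcop')
  simp only [AlgHom.comp_apply, AlgEquiv.coe_toAlgHom] at h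
  rw [alQ_involutive] at h
  simp only [AlgHom.comp_apply, AlgEquiv.coe_toAlgHom]
  exact h.symm

/-- **`β_* = (w_Q)_* ∘ α_* ∘ (w_{Qq})_*`** -/
theorem degJBeta_eq_gen (x : JZero (N * q)) :
    degJBeta N q x =
      degJALQ N hQ (Nat.Coprime.coprime_mul_right hcop')
        (degJAlpha N q
          (degJALQ (N * q) (dgj2_dvd_q hQ q)
            (dgj2_coprime_q (Nat.pos_of_ne_zero (NeZero.ne q)) hcop') x)) := by
  haveI := fin_ffData (N * q)
  have hcop : Nat.Coprime Q (N / Q) := Nat.Coprime.coprime_mul_right hcop'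
  unfold degJBeta degJAlpha degJALQ
  rw [← dgjPic0Push_comp (alQ N Q hQ hcop : FF N →ₐ[Kbar] FF N) (heckeAlphaBar Kbar N q)
    (dgj2_al_isIntegral N hQ hcop) (dgj2_al_finiteAlong N hQ hcop)
    (dgj2_al_normFormula N hQ hcop)
    (hinp_isIntegral_alpha N q) (hinp_finiteAlong_alpha N q) (hinp_normFormula_alpha N q)
    (gen_isIntegral _ (transcendental_jF N) (x' := jF (N * q)))
    (gen_finiteAlong _ (transcendental_jF N) (x' := jF (N * q)))
    (gen_normFormula _ (x' := jF (N * q)) _)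
    (wir_deg_eq_one _) (wir_deg_eq_one _)]
  rw [← dgjPic0Push_comp
    ((heckeAlphaBar Kbar N q).comp (alQ N Q hQ hcop : FF N →ₐ[Kbar] FF N))
    (alQ (N * q) (Q * q) (dgj2_dvd_q hQ q)
      (dgj2_coprime_q (Nat.pos_of_ne_zero (NeZero.ne q)) hcop') :
      FF (N * q) →ₐ[Kbar] FF (N * q))
    (gen_isIntegral _ (transcendental_jF N) (x' := jF (N * q)))
    (gen_finiteAlong _ (transcendental_jF N) (x' := jF (N * q)))
    (gen_normFormula _ (x' := jF (N * q)) _)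
    (dgj2_al_isIntegral (N * q) _ _) (dgj2_al_finiteAlong (N * q) _ _)
    (dgj2_al_normFormula (N * q) _ _)
    (gen_isIntegral _ (transcendental_jF N) (x' := jF (N * q)))
    (gen_finiteAlong _ (transcendental_jF N) (x' := jF (N * q)))
    (gen_normFormula _ (x' := jF (N * q)) _)
    (wir_deg_eq_one _) (wir_deg_eq_one _) x]
  exact congrArg (fun T : JZero (N * q) →+ JZero N => T x)
    (dgjPic0Push_congr (dgj2_beta_eq_comp N hQ hcop') _ _ _ _ _ _)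

variable {ℓ : ℕ} [NeZero ℓ]

include hQ hcop' in
/-- `β_* ∘ T_ℓ = T_ℓ ∘ β_*` (correspondence form), `ℓ ≠ q` primes, with an exact divisor `Q` of
`N` such that `Qq` is prime to `N / Q` and `ℓ` is prime to `Qq`. -/
theorem degJBeta_heckeOperatorAlong_of_exact (hq : q.Prime) (hℓ : ℓ.Prime) (hne : ℓ ≠ q)
    (hℓQ : Nat.Coprime ℓ (Q * q)) (x : JZero (N * q)) :
    degJBeta N q (heckeOperatorAlong Kbar (N * q) ℓ x) =
      heckeOperatorAlong Kbar N ℓ (degJBeta N q x) := by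
  haveI : NeZero (N * ℓ) := ⟨Nat.mul_ne_zero (NeZero.ne _) (NeZero.ne ℓ)⟩
  haveI : NeZero (N * q * ℓ) := ⟨Nat.mul_ne_zero (NeZero.ne _) (NeZero.ne ℓ)⟩
  rw [degJBeta_eq_gen N hQ hcop', degJBeta_eq_gen N hQ hcop',
    degJALQ_heckeOperatorAlong _ _ _ hℓQ, degJAlpha_heckeOperatorAlong N hq hℓ hne,
    degJALQ_heckeOperatorAlong _ _ _ (Nat.Coprime.coprime_mul_right_right hℓQ)]

end BetaHecke

section Final

variable (N : ℕ) [NeZero N] {q : ℕ} [NeZero q] [NeZero (N * q)]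

theorem dgj2_ordProj_coprime (hq : q.Prime) :
    Nat.Coprime (ordProj[q] N * q) (N / ordProj[q] N) := by
  have h1 : Nat.Coprime q (N / ordProj[q] N) := Nat.coprime_ordCompl hq (NeZero.ne N)
  exact Nat.Coprime.mul_left (Nat.Coprime.pow_left _ h1) h1

variable {ℓ : ℕ} [NeZero ℓ]

/-- **`β_* ∘ T_ℓ = T_ℓ ∘ β_*`** (correspondence form) for primes `ℓ ≠ q`, at EVERY level `N`
(`q ∣ N` allowed). -/
theorem degJBeta_heckeOperatorAlong_gen (hq : q.Prime) (hℓ : ℓ.Prime) (hne : ℓ ≠ q)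
    (x : JZero (N * q)) :
    degJBeta N q (heckeOperatorAlong Kbar (N * q) ℓ x) =
      heckeOperatorAlong Kbar N ℓ (degJBeta N q x) := by
  have hℓq : Nat.Coprime ℓ q := (Nat.coprime_primes hℓ hq).mpr hne
  exact degJBeta_heckeOperatorAlong_of_exact N (Nat.ordProj_dvd N q)
    (dgj2_ordProj_coprime N hq) hq hℓ hne
    (Nat.Coprime.mul_right (Nat.Coprime.pow_right _ hℓq) hℓq) x

/-- **`β_*` commutes with the Hecke operators `T_ℓ`, `ℓ ≠ q`**, at EVERY level `N`. -/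
theorem degJBeta_heckeOperatorBar_gen (hq : q.Prime) (ℓ : Nat.Primes) (hne : (ℓ : ℕ) ≠ q)
    (x : JZero (N * q)) :
    degJBeta N q (heckeOperatorBar (N * q) ℓ x) = heckeOperatorBar N ℓ (degJBeta N q x) := by
  haveI : NeZero (ℓ : ℕ) := ⟨ℓ.2.ne_zero⟩
  rw [heckeOperatorBar_apply, heckeOperatorBar_apply]
  exact degJBeta_heckeOperatorAlong_gen N hq ℓ.2 hne x

end Final

end Fermat.Agent.S36lib

end
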