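/-
Item 83 (S36), piece DEGJ2 part 2 (helper23): THE BRIDGE from Hecke polynomials killing the old
level to KUMMER-NEW functions, AT EVERY LEVEL `N` (no hypothesis `q ∤ N`; S36 uses `N = M' q`).

* `degJBeta_evalJac_gen` : `β_*` intertwines the evaluations of a Hecke polynomial at the levels
  `Nq` and `N`;
* `degJBeta_evalJac_eq_zero_gen` : if `h` kills `J₀(N)[p^∞]`, then `β_* (h x) = 0`;
* `degJ_isKummerNew_gen` : every Kummer function of `h x` is Kummer-new (`IsKummerNew N q m`);
* `degJK_gen : q.Prime → DegJKStatement N q p S` (the statement of `S35lib/BridgeK.lean`);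
* `degJK2 : q.Prime → DegJKStatement (M' * q) q p S` and `degJ_isKummerNew2` in the form
  `IsKummerNew2 M' q m f` of `S36lib/Defs.lean`.
Complete proofs.
-/
import Mathlib
import Fermat.Agent.S35lib.DegJKFinal
import Fermat.Agent.S36lib.DegJ2
import Fermat.Agent.S36lib.Defs

set_option autoImplicit false
set_option linter.style.haveILetI false
set_option linter.unusedSectionVars false

noncomputable section

namespace Fermat.Agent.S36lib

open AlgebraicCurve ModularCurve
open Fermat.Agent.S24lib Fermat.Agent.HeckeBar Fermat.Agent.S37lib Fermat.Agent.S31lib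
open Fermat.Agent.S35lib

section EvalJac

variable (N : ℕ) [NeZero N] {q : ℕ} [NeZero q] [NeZero (N * q)] (hq : q.Prime)
variable (S : Finset ℕ)

include hq in
/-- **`β_*` intertwines the Hecke polynomials** at the levels `Nq` and `N` (every `N`). -/
theorem degJBeta_evalJac_gen (h : HPoly (N * q) S) (x : JZero (N * q)) :
    degJBeta N q (evalJac (N * q) S (N * q) h x) =
      evalJac (N * q) S N h (degJBeta N q x) := by
  induction h using FreeAlgebra.induction generalizing x with
  | grade0 r =>
    rw [AlgHom.commutes, AlgHom.commutes, Module.algebraMap_end_apply,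
      Module.algebraMap_end_apply, map_zsmul]
  | grade1 ℓ =>
    rw [evalJac_ι, evalJac_ι]
    exact degJBeta_heckeOperatorBar_gen N hq ℓ.1 (dgj_goodPrime_ne N S ℓ) x
  | mul a b ha hb =>
    rw [map_mul, map_mul, Module.End.mul_apply, Module.End.mul_apply, ha, hb]
  | add a b ha hb =>
    rw [map_add, map_add, LinearMap.add_apply, LinearMap.add_apply, map_add, ha, hb]

variable {S}
variable {p : ℕ} {h : HPoly (N * q) S}

include hq in
/-- `β_*` kills `h • J₀(Nq)[p^∞]` when `h` kills `J₀(N)[p^∞]` (every `N`) -/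
theorem degJBeta_evalJac_eq_zero_gen (hK : KillsLevel (N * q) S N p h)
    (x : JZero (N * q)) (hx : ∃ n : ℕ, p ^ n • x = 0) :
    degJBeta N q (evalJac (N * q) S (N * q) h x) = 0 := by
  rw [degJBeta_evalJac_gen N hq S h x]
  obtain ⟨n, hn⟩ := hx
  exact hK _ ⟨n, by rw [← map_nsmul, hn, map_zero]⟩

end EvalJac

section KummerNew

variable (N : ℕ) [NeZero N] {q : ℕ} [NeZero q] [NeZero (N * q)] (hq : q.Prime)
variable {S : Finset ℕ} {p : ℕ} {h : HPoly (N * q) S}

include hq in
/-- **DEGJ-K at every level**: if the Hecke polynomial `h` kills `J₀(N)[p^∞]` and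
`x ∈ J₀(Nq)[p^∞]`, then every Kummer function `f` (`m • D = div f`) of a divisor `D` in the class
`h • x` is Kummer-new: both norms of `f` to `F_N` are constants times `m`-th powers. -/
theorem degJ_isKummerNew_gen (hK : KillsLevel (N * q) S N p h) (x : JZero (N * q))
    (hx : ∃ n : ℕ, p ^ n • x = 0)
    (D : Divisor.degZero (K := Kbar) (F := FF (N * q)))
    (hD : Pic0.mk D = evalJac (N * q) S (N * q) h x)
    (m : ℕ) {f : FF (N * q)} (hf : f ≠ 0)
    (hDf : ∀ w : Place Kbar (FF (N * q)),
      (m : ℤ) * (D : Divisor Kbar (FF (N * q))) w = w.ord f) :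
    IsKummerNew N q m f :=
  isKummerNew_of_degJ_eq_zero N D m hf hDf
    (by rw [hD]; exact degJAlpha_evalJac_eq_zero N hq hK x hx)
    (by rw [hD]; exact degJBeta_evalJac_eq_zero_gen N hq hK x hx)

include hq in
/-- **DEGJ-K at every level**, in the exact shape of `S35lib.DegJKStatement`. -/
theorem degJK_gen (p : ℕ) (S : Finset ℕ) : DegJKStatement N q p S := by
  intro h hK x n hx D f hD hf hDf
  refine degJ_isKummerNew_gen N hq hK x ⟨n, hx⟩ D hD (p ^ n) hf (fun w => ?_)
  rw [← hDf w, Finsupp.smul_apply, nsmul_eq_mul]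

end KummerNew

section LevelQ2

variable (M' : ℕ) [NeZero M'] {q : ℕ} [NeZero q] [NeZero (M' * q)] [NeZero (M' * q * q)]
variable (hq : q.Prime)

include hq in
/-- **DEGJ-K at level `M' q²`** (the bridge of S36): `DegJKStatement (M' * q) q p S`. -/
theorem degJK2 (p : ℕ) (S : Finset ℕ) : DegJKStatement (M' * q) q p S :=
  degJK_gen (M' * q) hq p S

variable {S : Finset ℕ} {p : ℕ} {h : HPoly (M' * q * q) S}

include hq in
/-- **DEGJ-K at level `M' q²`**, in the form `IsKummerNew2 M' q m f` of `S36lib/Defs.lean`: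
if the Hecke polynomial `h` kills `J₀(M'q)[p^∞]` and `x ∈ J₀(M'q²)[p^∞]`, then every Kummer
function of a divisor in the class `h • x` is Kummer-new at `q`. -/
theorem degJ_isKummerNew2 (hK : KillsLevel (M' * q * q) S (M' * q) p h) (x : JZero (M' * q * q))
    (hx : ∃ n : ℕ, p ^ n • x = 0)
    (D : Divisor.degZero (K := Kbar) (F := FF (M' * q * q)))
    (hD : Pic0.mk D = evalJac (M' * q * q) S (M' * q * q) h x)
    (m : ℕ) {f : FF (M' * q * q)} (hf : f ≠ 0)
    (hDf : ∀ w : Place Kbar (FF (M' * q * q)),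
      (m : ℤ) * (D : Divisor Kbar (FF (M' * q * q))) w = w.ord f) :
    IsKummerNew2 M' q m f :=
  degJ_isKummerNew_gen (M' * q) hq hK x hx D hD m hf hDf

end LevelQ2

end Fermat.Agent.S36lib

end
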