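import Mathlib
import Fermat.Agent.S36lib.AlgDesc
import Fermat.Agent.S36lib.AlgKolchin
import Fermat.Agent.S36lib.AlgInvJ
import Fermat.Agent.S36lib.DegJ2K
import Fermat.Agent.S35lib.Front
import Fermat.Agent.S35lib.EigenDownNew
import Fermat.Agent.S35lib.ConvFaith
import Fermat.Agent.S31lib.Wiring
import Fermat.Agent.FrobProfinite

/-!
# Item 83 (S36), block ALG, final assembly: S36 from `InvKStatement`

`s36_of_invK : InvKStatement → (S36 verbatim)`.

The representation is the restriction `ρE` of the big representation on `O'' ⊗ Λ` to the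
eigenspace of the character of `g` on the full Hecke algebra.  If `ρE` were unipotent on the
inertia group `I` at `q`, `q² ‖ M`, the `2 × 2` Kolchin lemma would give a nonzero `I`-fixed
vector `u` of the eigenspace; by flat descent `u` is a combination of `I`-fixed torsion classes,
which the Hecke polynomial `P` of EXISTS-H (killing the level `M / q`, acting on `u` by
`θ ≠ 0`) maps to `I`-fixed new classes; these are killed by the constant `c` of (INV), so
`c θ u = 0`: a contradiction.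
-/

set_option autoImplicit false
set_option linter.unusedSectionVars false

open scoped TensorProduct
open Polynomial IsLocalRing CongruenceSubgroup ModularFormClass

namespace Fermat.Agent.S36lib

open Fermat.Agent.GalRep ModularCurve Fermat.Agent.S31lib Fermat.Agent.S35lib

section Eigen

variable {N p : ℕ} [NeZero N] (J : JacInput N p) (𝒪 : Type) [CommRing 𝒪] (S : Finset ℕ)

/-- a Hecke polynomial acts on the eigenspace by the value of the polynomial at the
eigenvalues. -/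
theorem alg_evalLat_eigen (c : Nat.Primes → 𝒪) (P : HPoly N S) (u : 𝒪 ⊗[ℤ] J.Λ)
    (hu : u ∈ eigenSub 𝒪 J.T c) :
    (evalLat S J P).baseChange 𝒪 u
      = (FreeAlgebra.lift ℤ (fun ℓ : GoodPrime N S => c ℓ.1) P) • u := by
  induction P using FreeAlgebra.induction with
  | grade0 r =>
    rw [AlgHom.commutes, AlgHom.commutes, Algebra.algebraMap_eq_smul_one,
      LinearMap.baseChange_smul, LinearMap.baseChange_one, LinearMap.smul_apply,
      Module.End.one_apply, Algebra.algebraMap_eq_smul_one, smul_assoc, one_smul]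
  | grade1 ℓ =>
    have h1 : evalLat S J (FreeAlgebra.ι ℤ ℓ) = J.T ℓ.1 := by simp [evalLat]
    rw [h1, FreeAlgebra.lift_ι_apply]
    exact (mem_eigenSub_iff 𝒪 J.T c u).mp hu ℓ.1
  | mul a b ha hb =>
    rw [map_mul, map_mul, LinearMap.baseChange_mul, Module.End.mul_apply, hb, map_smul, ha,
      smul_smul, mul_comm]
  | add a b ha hb =>
    rw [map_add, map_add, LinearMap.baseChange_add, LinearMap.add_apply, ha, hb, add_smul]

/-- the value of a Hecke polynomial at the eigenvalues of a character of the full Hecke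
algebra. -/
theorem alg_lift_eq (χ' : CuspForm.heckeAlgebra N 2 (∅ : Set ℕ) →+* 𝒪) (P : HPoly N S) :
    FreeAlgebra.lift ℤ
        (fun ℓ : GoodPrime N S => χ' (CuspForm.heckeEvalForms N 2 (heckeGen ℓ.1))) P
      = χ' (Subalgebra.inclusion (CuspForm.heckeAlgebra_mono (Set.empty_subset (↑S : Set ℕ)))
          (evalForms N S P)) := by
  induction P using FreeAlgebra.induction with
  | grade0 r =>
    rw [AlgHom.commutes, AlgHom.commutes, AlgHom.commutes, eq_intCast, eq_intCast, map_intCast]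
  | grade1 ℓ =>
    rw [FreeAlgebra.lift_ι_apply, CuspForm.heckeEvalForms_heckeGen_of_not_dvd ℓ.2.1]
    congr 1
    apply Subtype.ext
    simp [evalForms]
  | mul a b ha hb => rw [map_mul, map_mul, map_mul, map_mul, ha, hb]
  | add a b ha hb => rw [map_add, map_add, map_add, map_add, ha, hb]

end Eigen

section Front

variable {M : ℕ} [NeZero M] {g : CuspForm (Gamma0 M) 2}

/-- **FRONT'**: a finite extension `O''` of `O'` and a character `χ'` of the FULL Hecke algebra
with values in `O''` which is the character of `g` followed by an injection on the Hecke algebra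
away from the primes of `M`, and which has the prescribed values at the `T_ℓ`, `ℓ ∉ S`. -/
theorem alg_front (hg : g.IsNormalizedEigenform)
    (lam : ℕ) [Fact lam.Prime] (S : Finset ℕ)
    (hMS : ∀ q : ℕ, q.Prime → q ∣ M → q ∈ S)
    (O' : Type) [CommRing O'] [IsDomain O'] [IsDiscreteValuationRing O']
    [IsAdicComplete (maximalIdeal O') O'] [Finite (ResidueField O')]
    [CharZero O'] (hlamO' : (lam : O') ∈ maximalIdeal O')
    (chig : CuspForm.heckeAlgebra M 2 (↑S : Set ℕ) →+* ℂ)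
    (hchig : ∀ (ℓ : ℕ) (hℓ : ℓ.Prime) (hℓM : ¬ ℓ ∣ M) (hℓS : ℓ ∉ (↑S : Set ℕ)),
      chig (CuspForm.heckeAlgebra.T hℓ hℓM hℓS) = qCoeff g ℓ)
    (iota : chig.range →+* O') (hlamS : lam ∈ S) :
    ∃ (O'' : Type) (_ : CommRing O'') (_ : IsDomain O'') (_ : IsDiscreteValuationRing O'')
      (_ : IsAdicComplete (maximalIdeal O'') O'') (_ : Finite (ResidueField O''))
      (_ : CharZero O'') (_ : Algebra O' O'') (_ : Module.Finite O' O'')
      (_ : IsLocalHom (algebraMap O' O'')),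
      Function.Injective (algebraMap O' O'') ∧
      ∃ χ' : CuspForm.heckeAlgebra M 2 (∅ : Set ℕ) →+* O'',
        (∀ (ℓ : ℕ) (hℓ : ℓ.Prime) (hℓM : ¬ ℓ ∣ M) (hℓS : ℓ ∉ (↑S : Set ℕ)),
          χ' (CuspForm.heckeAlgebra.T hℓ hℓM (Set.notMem_empty _)) =
            algebraMap O' O'' ((iota.comp chig.rangeRestrict)
              (CuspForm.heckeAlgebra.T hℓ hℓM hℓS))) ∧
        (∀ t : CuspForm.heckeAlgebra M 2 (↑M.primeFactors : Set ℕ),
          χ' (Subalgebra.inclusion
              (CuspForm.heckeAlgebra_mono (Set.empty_subset (↑M.primeFactors : Set ℕ))) t) = 0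
            ↔ ecChar hg (↑M.primeFactors) t = 0) := by
  classical
  have hS0S : M.primeFactors ⊆ S := fun q hq =>
    hMS q (Nat.prime_of_mem_primeFactors hq) (Nat.dvd_of_mem_primeFactors hq)
  have hMS0 : ∀ q : ℕ, q.Prime → q ∣ M → q ∈ M.primeFactors := fun q hq hqM =>
    Nat.mem_primeFactors.mpr ⟨hq, hqM, NeZero.ne M⟩
  obtain ⟨O1, i1, i2, i3, i4, i5, i6, i7, i8, i9, hinj1, -, Θ, -, hΘT, hΘ0, -⟩ :=
    front_exists hg lam S M.primeFactors hS0S hMS0 O' hlamO' chig hchig iota hlamS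
  have hfin : Module.Finite ℤ (CuspForm.heckeAlgebra M 2 (∅ : Set ℕ)) :=
    Fermat.Agent.S22.result M 2 ∅
  have hle : CuspForm.heckeAlgebra M 2 (↑M.primeFactors : Set ℕ)
      ≤ CuspForm.heckeAlgebra M 2 (∅ : Set ℕ) :=
    CuspForm.heckeAlgebra_mono (Set.empty_subset _)
  obtain ⟨O2, j1, j2, j3, j4, j5, j6, j7, j8, j9, χ', hinj2, hχ'⟩ :=
    exists_extension_of_char (Subalgebra.inclusion hle).toRingHom
      (Subalgebra.inclusion_injective hle) O1 Θ
  let _ : Algebra O' O2 := ((algebraMap O1 O2).comp (algebraMap O' O1)).toAlgebra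
  have : IsScalarTower O' O1 O2 := IsScalarTower.of_algebraMap_eq fun _ => rfl
  have hfin2 : Module.Finite O' O2 := Module.Finite.trans O1 O2
  have hloc : IsLocalHom (algebraMap O' O2) := by
    show IsLocalHom ((algebraMap O1 O2).comp (algebraMap O' O1))
    exact RingHom.isLocalHom_comp _ _
  refine ⟨O2, j1, j2, j3, j4, j5, j6, inferInstance, hfin2, hloc, hinj2.comp hinj1, χ', ?_, ?_⟩
  · intro ℓ hℓ hℓM hℓS
    have hℓS0 : ℓ ∉ (↑M.primeFactors : Set ℕ) := fun h =>
      hℓM (Nat.dvd_of_mem_primeFactors (Finset.mem_coe.mp h))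
    have e : CuspForm.heckeAlgebra.T hℓ hℓM (Set.notMem_empty ℓ)
        = (Subalgebra.inclusion hle).toRingHom (CuspForm.heckeAlgebra.T hℓ hℓM hℓS0) := rfl
    rw [e, hχ', hΘT ℓ hℓ hℓM hℓS hℓS0]
    rfl
  · intro t
    have e := hχ' t
    constructor
    · intro h
      apply (hΘ0 t).mp
      apply hinj2
      rw [map_zero, ← e]
      exact h
    · intro h
      have h1 : χ' ((Subalgebra.inclusion hle).toRingHom t) = 0 := by
        rw [e, (hΘ0 t).mpr h, map_zero]
      exact h1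

end Front

section Core

variable {M' q : ℕ} [NeZero M'] [NeZero q] [NeZero (M' * q * q)]
  {g : CuspForm (Gamma0 (M' * q * q)) 2}

/-- **the core of S36**: the representation on the eigenspace of a newform of level `M' q²` is
not unipotent on the inertia groups at `q`. -/
theorem alg_not_unipotent (hinv : InvKStatement) (hg : g.IsNewform)
    (hq : q.Prime) (hqM' : ¬ q ∣ M') (lam : ℕ) [Fact lam.Prime] (hqlam : q ≠ lam)
    {O : Type} [CommRing O] [IsDomain O] [IsDiscreteValuationRing O]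
    [IsAdicComplete (maximalIdeal O) O] [CharZero O] (hlamO : (lam : O) ∈ maximalIdeal O)
    (J : JacInput (M' * q * q) lam)
    (χ' : CuspForm.heckeAlgebra (M' * q * q) 2 (∅ : Set ℕ) →+* O)
    (hχ0 : ∀ t : CuspForm.heckeAlgebra (M' * q * q) 2 (↑(M' * q * q).primeFactors : Set ℕ),
      χ' (Subalgebra.inclusion (CuspForm.heckeAlgebra_mono
          (Set.empty_subset (↑(M' * q * q).primeFactors : Set ℕ))) t) = 0
        ↔ ecChar hg.1 (↑(M' * q * q).primeFactors) t = 0)
    (ρE : GaloisRepAdic O) (f : ρE.V →ₗ[O] O ⊗[ℤ] J.Λ) (hf : Function.Injective f)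
    (hfE : ∀ v, f v ∈ eigenSub O J.T
      (fun ℓ => χ' (CuspForm.heckeEvalForms (M' * q * q) 2 (heckeGen ℓ))))
    (hfρ : ∀ σ v, f (ρE.ρ σ v) = algBig J O hlamO σ (f v)) :
    ¬ ρE.IsUnipotentOnInertiaAt q := by
  intro hunip
  have hlam : lam.Prime := Fact.out
  obtain ⟨A, -, hA, -⟩ := Fermat.Agent.FrobLib.exists_isFrobeniusAt q hq
  -- the fixed vector
  obtain ⟨v, hv0, hv⟩ := s36alg_exists_fixed ρE.finrank_eq ρE.ρ (A.inertiaSubgroupIn ℚ)
    (hunip A hA)
  have hu0 : f v ≠ 0 := fun h => hv0 (hf (by rw [h, map_zero]))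
  have hfix : ∀ σ ∈ A.inertiaSubgroupIn ℚ, algBig J O hlamO σ (f v) = f v := by
    intro σ hσ
    rw [← hfρ, hv σ hσ]
  -- (INV)
  obtain ⟨c, hc, hK⟩ := hinv q M' lam hq hlam hqlam hqM' A hA
  have hJ : InvJAt M' q lam (M' * q * q).primeFactors c A :=
    invJ_of_invK M' q lam _ hlam.ne_zero (degJK2 M' hq lam _) c A hK
  -- the Hecke polynomial
  have hdvd : M' * q ∣ M' * q * q := Dvd.intro _ rfl
  have hne : M' * q ≠ M' * q * q := by
    intro h
    have h1 : M' * q * 1 = M' * q * q := by rw [mul_one]; exact h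
    have h2 : 1 = q := Nat.eq_of_mul_eq_mul_left
      (Nat.pos_of_ne_zero (Nat.mul_ne_zero (NeZero.ne M') (NeZero.ne q))) h1
    exact hq.one_lt.ne h2
  obtain ⟨P, hP0, hPχ⟩ := exists_poly_of_isNewform_primeFactors hdvd hne hg
    (ecChar hg.1 (↑(M' * q * q).primeFactors))
    (fun ℓ hℓ hℓM hℓS => ecChar_T hg.1 _ hℓ hℓM hℓS)
  have hkill : KillsLevel (M' * q * q) (M' * q * q).primeFactors (M' * q) lam P :=
    killsLevel_of_evalFormsAt (M' * q * q) (M' * q * q).primeFactors (M' * q) lam hlam.pos P hP0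
  have hθ0 : χ' (Subalgebra.inclusion (CuspForm.heckeAlgebra_mono
      (Set.empty_subset (↑(M' * q * q).primeFactors : Set ℕ)))
      (evalForms (M' * q * q) (M' * q * q).primeFactors P)) ≠ 0 := fun h0 =>
    hPχ ((hχ0 _).mp h0)
  have hθ : (evalLat (M' * q * q).primeFactors J P).baseChange O (f v)
      = χ' (Subalgebra.inclusion (CuspForm.heckeAlgebra_mono
          (Set.empty_subset (↑(M' * q * q).primeFactors : Set ℕ)))
          (evalForms (M' * q * q) (M' * q * q).primeFactors P)) • f v := by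
    rw [alg_evalLat_eigen J O _ _ P (f v) (hfE v), alg_lift_eq]
  exact hu0 (alg_eq_zero_of_fixed J O hlamO (A.inertiaSubgroupIn ℚ) P c hc
    (fun x n hx hfx => hJ P hkill x n hx hfx) (f v) hfix _ hθ0 hθ)

end Core

/-- **S36 from (INV)**, in its Kummer form at every level `M' q²`, `q ∤ M'`. -/
theorem s36_of_invK (hinv : InvKStatement)
    {M : ℕ} [NeZero M] {g : CuspForm (CongruenceSubgroup.Gamma0 M) 2} (hg : g.IsNewform)
    (lam : ℕ) [Fact lam.Prime]
    (S : Finset ℕ)
    (O' : Type) [CommRing O'] [IsDomain O'] [IsDiscreteValuationRing O']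
    [IsAdicComplete (IsLocalRing.maximalIdeal O') O'] [Finite (IsLocalRing.ResidueField O')]
    [CharZero O'] (hlamO' : (lam : O') ∈ IsLocalRing.maximalIdeal O')
    (chig : CuspForm.heckeAlgebra M 2 (↑S : Set ℕ) →+* ℂ)
    (hchig : ∀ (ℓ : ℕ) (hℓ : ℓ.Prime) (hℓM : ¬ ℓ ∣ M) (hℓS : ℓ ∉ (↑S : Set ℕ)),
      chig (CuspForm.heckeAlgebra.T hℓ hℓM hℓS) = ModularFormClass.qCoeff g ℓ)
    (iota : chig.range →+* O')
    (hlamS : lam ∈ S) (hMS : ∀ q : ℕ, q.Prime → q ∣ M → q ∈ S)
    (hres : ∀ (O'' : Type) [CommRing O''] [IsDomain O''] [IsDiscreteValuationRing O'']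
      [IsAdicComplete (IsLocalRing.maximalIdeal O'') O''] [Finite (IsLocalRing.ResidueField O'')]
      [CharZero O'']
      [Algebra O' O''] [Module.Finite O' O''] [IsLocalHom (algebraMap O' O'')],
      Function.Injective (algebraMap O' O'') → ∀ (ρ : GaloisRepAdic O''),
      (∀ (ℓ : ℕ) (hℓ : ℓ.Prime) (hℓlam : ℓ ≠ lam) (hℓM : ¬ ℓ ∣ M) (hℓS : ℓ ∉ (↑S : Set ℕ)),
        ∀ A : ValuationSubring (AlgebraicClosure ℚ), A.LiesOverPrime ℓ →
          ∀ σ : AlgebraicClosure ℚ ≃ₐ[ℚ] AlgebraicClosure ℚ, A.IsFrobeniusAt σ ℓ →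
            LinearMap.charpoly (ρ.ρ σ) =
              X ^ 2 - C (algebraMap O' O'' ((iota.comp chig.rangeRestrict)
                (CuspForm.heckeAlgebra.T hℓ hℓM hℓS))) * X + C ((ℓ : O'')))
      → ρ.residual.IsAbsolutelyIrreducible ∧ ρ.residual.IsOdd) :
    ∃ (O'' : Type) (_ : CommRing O'') (_ : IsDomain O'') (_ : IsDiscreteValuationRing O'')
      (_ : IsAdicComplete (IsLocalRing.maximalIdeal O'') O'')
      (_ : Finite (IsLocalRing.ResidueField O''))
      (_ : CharZero O'') (_ : Algebra O' O'') (_ : Module.Finite O' O'')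
      (_ : IsLocalHom (algebraMap O' O'')),
      Function.Injective (algebraMap O' O'') ∧
      ∃ ρ : GaloisRepAdic O'',
        (∀ (ℓ : ℕ) (hℓ : ℓ.Prime) (hℓM : ¬ ℓ ∣ M) (hℓS : ℓ ∉ (↑S : Set ℕ)),
          ∀ A : ValuationSubring (AlgebraicClosure ℚ), A.LiesOverPrime ℓ →
            ∀ σ : AlgebraicClosure ℚ ≃ₐ[ℚ] AlgebraicClosure ℚ, A.IsFrobeniusAt σ ℓ →
              LinearMap.charpoly (ρ.ρ σ) =
                X ^ 2 - C (algebraMap O' O'' ((iota.comp chig.rangeRestrict)
                  (CuspForm.heckeAlgebra.T hℓ hℓM hℓS))) * X + C ((ℓ : O''))) ∧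
        (∀ q : ℕ, q.Prime → q ≠ lam → M.factorization q = 2 →
          ¬ ρ.IsUnipotentOnInertiaAt q) := by
  classical
  obtain ⟨O'', i1, i2, i3, i4, i5, i6, i7, i8, i9, hinj, χ', hχT, hχ0⟩ :=
    alg_front hg.1 lam S hMS O' hlamO' chig hchig iota hlamS
  have hlamO'' : (lam : O'') ∈ maximalIdeal O'' := by
    have e : (lam : O'') = algebraMap O' O'' (lam : O') := (map_natCast _ lam).symm
    rw [e]
    exact (IsLocalRing.mem_maximalIdeal _).mpr
      (map_mem_nonunits_iff (algebraMap O' O'') _ |>.mpr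
        ((IsLocalRing.mem_maximalIdeal _).mp hlamO'))
  obtain ⟨J, -⟩ := exists_jacInput_faithEmb s37Statement M lam
  -- the eigenvalues
  have hasm : ∀ (ℓ : ℕ) (hℓ : ℓ.Prime) (hℓM : ¬ ℓ ∣ M) (hℓS : ℓ ∉ (↑S : Set ℕ)),
      asmEig χ' ℓ = algebraMap O' O'' ((iota.comp chig.rangeRestrict)
        (CuspForm.heckeAlgebra.T hℓ hℓM hℓS)) := by
    intro ℓ hℓ hℓM hℓS
    rw [asmEig_of_prime χ' hℓ,
      CuspForm.heckeEvalForms_heckeGen_of_not_dvd (ℓ := ⟨ℓ, hℓ⟩) hℓM]
    exact hχT ℓ hℓ hℓM hℓS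
  have hres' : ∀ ρ : GaloisRepAdic O'', CharpolyOutside ρ (↑S : Set ℕ) (asmEig χ') →
      ρ.residual.IsAbsolutelyIrreducible := by
    intro ρ hρ
    refine (hres O'' hinj ρ ?_).1
    intro ℓ hℓ _ hℓM hℓS A hA σ hσ
    rw [hρ ℓ hℓ hℓS A hA σ hσ, hasm ℓ hℓ hℓM hℓS]
  obtain ⟨ρE, f, hf, hfE, hfρ, hcp⟩ := alg_exists_rep J O'' hlamO'' χ' S hlamS hMS hres'
  refine ⟨O'', i1, i2, i3, i4, i5, i6, i7, i8, i9, hinj, ρE, ?_, ?_⟩
  · intro ℓ hℓ hℓM hℓS A hA σ hσ
    rw [hcp ℓ hℓ hℓS A hA σ hσ, hasm ℓ hℓ hℓM hℓS]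
  · intro q hq hqlam hfac
    -- `M = M' q²`, `q ∤ M'`
    have hq2 : q ^ 2 ∣ M := by
      rw [← hfac]
      exact Nat.ordProj_dvd M q
    have hq3 : ¬ q ^ 3 ∣ M := by
      intro h
      have := (hq.pow_dvd_iff_le_factorization (NeZero.ne M)).mp h
      omega
    obtain ⟨M', hM'⟩ := hq2
    have hM : M = M' * q * q := by rw [hM']; ring
    subst hM
    have hM'0 : NeZero M' := ⟨fun h => NeZero.ne (M' * q * q) (by rw [h, zero_mul, zero_mul])⟩
    have hq0 : NeZero q := ⟨hq.ne_zero⟩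
    have hqM' : ¬ q ∣ M' := by
      intro h
      apply hq3
      obtain ⟨k, hk⟩ := h
      exact ⟨k, by rw [hk]; ring⟩
    exact alg_not_unipotent hinv hg hq hqM' lam hqlam hlamO'' J χ' hχ0 ρE f hf hfE hfρ

end Fermat.Agent.S36lib
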