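import Mathlib
import Fermat.Agent.S36lib.SetupK0

/-!
# Item 83 (S36), block V, interface (architect helper24): valuations with a SERIES reduction

Over `Kbar` the residue field of the middle valuation `v_mid` is the Igusa field `κ'(θ j̄) ⊋ κ'`
(helper18); only its restriction to `F0(M)` has residue field `κ'`.  So the `Kbar`-level objects
are valuation rings of `FF L` with a reduction INTO `k((X))` (the coefficientwise reduction of an
expansion), and the residue field is cut out after the restriction to `F0(L)`.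

* `SeriesVal A L`: a valuation ring `O` of `FF L` over `A` with `red : O → k((X))`, kernel = the
  maximal ideal;
* `SeriesVal.ofConstRed`: from a constant reduction with residue field `κ ⊆ k((X))`;
* `SeriesVal.comap`: transport along an automorphism `w` of `FF L` (`v_0 = v_∞ ∘ w`);
* `SeriesVal.restrictK0 v κ hinto honto : ResVal A0 π0 κ F0(L)`;
* `nodeSetupSeries`: the `NodeSetup` over `A0` from three `SeriesVal`s.
-/

set_option autoImplicit false
set_option linter.style.haveILetI false
set_option synthInstance.maxHeartbeats 400000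
set_option linter.unusedSectionVars false

noncomputable section

namespace Fermat.Agent.S36lib

open ModularCurve AlgebraicCurve
open Fermat.Agent.S24lib Fermat.Agent.S34lib Fermat.Agent.GoodRed

variable (A : ValuationSubring Kbar) (L : ℕ) [NeZero L]

/-- a valuation ring of `FF L` over `A` with a reduction into `k((X))` whose kernel is the
maximal ideal -/
structure SeriesVal where
  /-- the valuation ring -/
  O : ValuationSubring (FF L)
  /-- the reduction map -/
  red : O →+* LaurentSeries (IsLocalRing.ResidueField A)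
  algebraMap_mem : ∀ a : A, algebraMap Kbar (FF L) (a : Kbar) ∈ O
  red_algebraMap : ∀ a : A, red ⟨algebraMap Kbar (FF L) (a : Kbar), algebraMap_mem a⟩ =
    algebraMap (IsLocalRing.ResidueField A) (LaurentSeries (IsLocalRing.ResidueField A))
      (IsLocalRing.residue A a)
  red_eq_zero_iff : ∀ x : O, red x = 0 ↔ (x : FF L) ∈ O.nonunits

variable {A L}

/-- a constant reduction with residue field `κ ⊆ k((X))`, as a `SeriesVal` -/
def SeriesVal.ofConstRed
    {κ : IntermediateField (IsLocalRing.ResidueField A)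
      (LaurentSeries (IsLocalRing.ResidueField A))}
    (R : ConstRed A (IsLocalRing.residue A) κ (FF L)) : SeriesVal A L where
  O := R.O
  red := (κ.val : κ →+* LaurentSeries (IsLocalRing.ResidueField A)).comp R.red
  algebraMap_mem := R.algebraMap_mem
  red_algebraMap := fun a => by
    rw [RingHom.comp_apply, R.red_algebraMap a]
    rfl
  red_eq_zero_iff := fun x => by
    rw [RingHom.comp_apply]
    have h1 : (κ.val : κ →+* LaurentSeries (IsLocalRing.ResidueField A)) (R.red x) = 0 ↔
        R.red x = 0 := by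
      constructor
      · intro h
        exact Subtype.ext h
      · intro h
        rw [h, map_zero]
    rw [h1]
    exact (ResVal.ofConstRed R).red_eq_zero_iff x

/-- transport of a `SeriesVal` along an automorphism: `O' = w⁻¹(O)`, `red' = red ∘ w` -/
def SeriesVal.comap (v : SeriesVal A L) (w : FF L ≃ₐ[Kbar] FF L) : SeriesVal A L where
  O := v.O.comap (w : FF L →+* FF L)
  red := v.red.comp
    { toFun := fun x => ⟨w (x : FF L), x.2⟩
      map_one' := Subtype.ext (map_one w)
      map_mul' := fun _ _ => Subtype.ext (map_mul w _ _)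
      map_zero' := Subtype.ext (map_zero w)
      map_add' := fun _ _ => Subtype.ext (map_add w _ _) }
  algebraMap_mem := fun a => by
    show w (algebraMap Kbar (FF L) (a : Kbar)) ∈ v.O
    rw [AlgEquiv.commutes]
    exact v.algebraMap_mem a
  red_algebraMap := fun a => by
    rw [← v.red_algebraMap a, RingHom.comp_apply]
    congr 1
    exact Subtype.ext (AlgEquiv.commutes w _)
  red_eq_zero_iff := fun x => by
    rw [RingHom.comp_apply, v.red_eq_zero_iff]
    show w (x : FF L) ∈ v.O.nonunits ↔ (x : FF L) ∈ (v.O.comap (w : FF L →+* FF L)).nonunits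
    rw [ValuationSubring.mem_nonunits_iff_exists_mem_maximalIdeal,
      ValuationSubring.mem_nonunits_iff_exists_mem_maximalIdeal]
    constructor
    · rintro ⟨hx, hm⟩
      refine ⟨x.2, ?_⟩
      rw [IsLocalRing.mem_maximalIdeal, mem_nonunits_iff] at hm ⊢
      intro hu
      apply hm
      obtain ⟨y, hy⟩ := isUnit_iff_exists_inv.mp hu
      refine isUnit_iff_exists_inv.mpr ⟨⟨w (y : FF L), y.2⟩, ?_⟩
      apply Subtype.ext
      show w (x : FF L) * w (y : FF L) = 1
      rw [← map_mul]
      have := congrArg (fun t : v.O.comap (w : FF L →+* FF L) => (t : FF L)) hy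
      simp only [MulMemClass.coe_mul, OneMemClass.coe_one] at this
      rw [this, map_one]
    · rintro ⟨hx, hm⟩
      refine ⟨x.2, ?_⟩
      rw [IsLocalRing.mem_maximalIdeal, mem_nonunits_iff] at hm ⊢
      intro hu
      apply hm
      obtain ⟨y, hy⟩ := isUnit_iff_exists_inv.mp hu
      have hy' : w (x : FF L) * (y : FF L) = 1 := by
        have := congrArg (fun t : v.O => (t : FF L)) hy
        simpa using this
      have hwy : w (w.symm (y : FF L)) ∈ v.O := by
        rw [AlgEquiv.apply_symm_apply]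
        exact y.2
      refine isUnit_iff_exists_inv.mpr ⟨⟨w.symm (y : FF L), hwy⟩, ?_⟩
      apply Subtype.ext
      show (x : FF L) * w.symm (y : FF L) = 1
      apply w.injective
      rw [map_mul, AlgEquiv.apply_symm_apply, hy', map_one]

theorem SeriesVal.mem_comap_iff (v : SeriesVal A L) (w : FF L ≃ₐ[Kbar] FF L) (x : FF L) :
    x ∈ (v.comap w).O ↔ w x ∈ v.O := Iff.rfl

theorem SeriesVal.comap_red (v : SeriesVal A L) (w : FF L ≃ₐ[Kbar] FF L) (x : FF L)
    (hx : x ∈ (v.comap w).O) : (v.comap w).red ⟨x, hx⟩ = v.red ⟨w x, hx⟩ := rfl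

/-- the inclusion of `O ∩ F0(L)` into `O` -/
def SeriesVal.inclK0 (v : SeriesVal A L) :
    ↥(v.O.comap (algebraMap (f0Field A L) (FF L))) →+* ↥v.O where
  toFun := fun x => ⟨(x.1 : FF L), x.2⟩
  map_one' := rfl
  map_mul' := fun _ _ => rfl
  map_zero' := rfl
  map_add' := fun _ _ => rfl

/-- the restriction to `F0(L)` of a `SeriesVal`, with residue field `κ ⊆ k((X))` -/
def SeriesVal.restrictK0 (v : SeriesVal A L)
    (κ : IntermediateField (IsLocalRing.ResidueField A)
      (LaurentSeries (IsLocalRing.ResidueField A)))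
    (hinto : ∀ (x : FF L) (hx : x ∈ v.O), x ∈ f0Field A L → v.red ⟨x, hx⟩ ∈ κ)
    (honto : ∀ w ∈ κ, ∃ (x : FF L) (hx : x ∈ v.O), x ∈ f0Field A L ∧ v.red ⟨x, hx⟩ = w) :
    ResVal (k0Val A) (k0Res A) κ (f0Field A L) where
  O := v.O.comap (algebraMap (f0Field A L) (FF L))
  red := RingHom.codRestrict (v.red.comp (v.inclK0)) κ (fun x => hinto _ x.2 x.1.2)
  red_surjective := by
    rintro ⟨w, hw⟩
    obtain ⟨x, hx, hx0, hxw⟩ := honto w hw
    exact ⟨⟨⟨x, hx0⟩, hx⟩, Subtype.ext hxw⟩
  algebraMap_mem := fun a => v.algebraMap_mem (k0ValIncl A a)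
  red_algebraMap := fun a => Subtype.ext (v.red_algebraMap (k0ValIncl A a))

theorem SeriesVal.mem_restrictK0_iff (v : SeriesVal A L)
    (κ : IntermediateField (IsLocalRing.ResidueField A)
      (LaurentSeries (IsLocalRing.ResidueField A)))
    (hinto : ∀ (x : FF L) (hx : x ∈ v.O), x ∈ f0Field A L → v.red ⟨x, hx⟩ ∈ κ)
    (honto : ∀ w ∈ κ, ∃ (x : FF L) (hx : x ∈ v.O), x ∈ f0Field A L ∧ v.red ⟨x, hx⟩ = w)
    (x : f0Field A L) : x ∈ (v.restrictK0 κ hinto honto).O ↔ (x : FF L) ∈ v.O := Iff.rfl

theorem SeriesVal.coe_restrictK0_red (v : SeriesVal A L)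
    (κ : IntermediateField (IsLocalRing.ResidueField A)
      (LaurentSeries (IsLocalRing.ResidueField A)))
    (hinto : ∀ (x : FF L) (hx : x ∈ v.O), x ∈ f0Field A L → v.red ⟨x, hx⟩ ∈ κ)
    (honto : ∀ w ∈ κ, ∃ (x : FF L) (hx : x ∈ v.O), x ∈ f0Field A L ∧ v.red ⟨x, hx⟩ = w)
    (x : f0Field A L) (hx : x ∈ (v.restrictK0 κ hinto honto).O) :
    (((v.restrictK0 κ hinto honto).red ⟨x, hx⟩ : κ) :
      LaurentSeries (IsLocalRing.ResidueField A)) = v.red ⟨(x : FF L), hx⟩ := rfl

/-- **the setup over `A0`** from three `SeriesVal`s of `FF L` (level `N = M' q`: take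
`vMid := vInf`) and the common residue field `κ ⊆ k((X))` of their restrictions to `F0(L)`. -/
def nodeSetupSeries (vInf vMid vZero : SeriesVal A L)
    (κ : IntermediateField (IsLocalRing.ResidueField A)
      (LaurentSeries (IsLocalRing.ResidueField A)))
    (hiInf : ∀ (x : FF L) (hx : x ∈ vInf.O), x ∈ f0Field A L → vInf.red ⟨x, hx⟩ ∈ κ)
    (hoInf : ∀ w ∈ κ, ∃ (x : FF L) (hx : x ∈ vInf.O), x ∈ f0Field A L ∧ vInf.red ⟨x, hx⟩ = w)
    (hiMid : ∀ (x : FF L) (hx : x ∈ vMid.O), x ∈ f0Field A L → vMid.red ⟨x, hx⟩ ∈ κ)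
    (hoMid : ∀ w ∈ κ, ∃ (x : FF L) (hx : x ∈ vMid.O), x ∈ f0Field A L ∧ vMid.red ⟨x, hx⟩ = w)
    (hiZero : ∀ (x : FF L) (hx : x ∈ vZero.O), x ∈ f0Field A L → vZero.red ⟨x, hx⟩ ∈ κ)
    (hoZero : ∀ w ∈ κ, ∃ (x : FF L) (hx : x ∈ vZero.O), x ∈ f0Field A L ∧
      vZero.red ⟨x, hx⟩ = w) :
    NodeSetup (k0Val A) (k0Res A) κ (f0Field A L) where
  vInf := vInf.restrictK0 κ hiInf hoInf
  vMid := vMid.restrictK0 κ hiMid hoMid
  vZero := vZero.restrictK0 κ hiZero hoZero
  B := f0Aff A L vInf.O vMid.O vZero.O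
  algebraMap_mem_B := fun a => by
    rw [mem_f0Aff_iff]
    exact ⟨const_mem_cuspRegular L _, vInf.algebraMap_mem (k0ValIncl A a),
      vMid.algebraMap_mem (k0ValIncl A a), vZero.algebraMap_mem (k0ValIncl A a)⟩
  B_le_inf := fun x hx => ((mem_f0Aff_iff A L _ _ _ x).mp hx).2.1
  B_le_mid := fun x hx => ((mem_f0Aff_iff A L _ _ _ x).mp hx).2.2.1
  B_le_zero := fun x hx => ((mem_f0Aff_iff A L _ _ _ x).mp hx).2.2.2

end Fermat.Agent.S36lib

end
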