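import Mathlib
import Fermat.Agent.GoodRed.Bounded
import Fermat.Agent.GoodRed.ModDatum
import Fermat.Agent.S37lib.KronF
import Fermat.Agent.S24lib.Defs
import Fermat.Agent.S36lib.Speed

/-!
# Item 83 (S36), piece A-2 (norm reductions at level `q²`), part 1: the general series-level
engine (helper29)

* `nrq_content`: if `u · P = Q` with `P`, `Q` primitive series over `A`, then `u ∈ Aˣ`, `ū P̄ = Q̄`;
* `nrq_qContract`: descent of integrality along `q ↦ q^n`;
* `nrq_nfInt_twq`: `NFInt` is stable under the twists `q ↦ ζ q`, `ζ` a root of unity;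
* `nrq_general_int`: the same for integral (not necessarily unit) elements; `nrq_content_int`;
* `nrq_norm_prim`, `nrq_general`: **the general norm reduction**: `E i : F →+* K̄((q))` (`i : ι`)
  expansions of `F`, `E'` an expansion of `F'`, `Nm : F →* F'` with
  `E' (Nm x)(q^n) = ∏ i, E i x`.  If `f = x / x'` with all expansions of `x`, `x'` `NFInt` and
  `c i · E i f = a i / b i` with `a i`, `b i` primitive, then `(∏ c i) · Nm f = X / X'` with
  `E' X = a'`, `E' X' = b'` primitive and `(ā' / b̄')(q^n) = ∏ i, ā i / b̄ i`.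
-/

set_option autoImplicit false
set_option linter.style.haveILetI false
set_option linter.unusedSectionVars false

noncomputable section

namespace Fermat.Agent.S36lib

open ModularCurve AlgebraicCurve HahnSeries
open Fermat.Agent.S24lib Fermat.Agent.S37lib Fermat.Agent.GoodRed

section Content

variable {K : Type*} [Field K] (A : ValuationSubring K)

/-- **content comparison**: if `u · P = Q` with `P`, `Q` primitive series over `A`, then `u` is a
unit of `A` and `ū · P̄ = Q̄`. -/
theorem nrq_content {P Q : LaurentSeries A} {u : K}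
    (hP : coeffMap (IsLocalRing.residue A) P ≠ 0) (hQ : coeffMap (IsLocalRing.residue A) Q ≠ 0)
    (h : HahnSeries.C u * coeffMap A.subtype P = coeffMap A.subtype Q) :
    ∃ hu : u ∈ A, u⁻¹ ∈ A ∧ u ≠ 0 ∧
      HahnSeries.C (IsLocalRing.residue A ⟨u, hu⟩) * coeffMap (IsLocalRing.residue A) P
        = coeffMap (IsLocalRing.residue A) Q := by
  have hu0 : u ≠ 0 := by
    rintro rfl
    rw [map_zero, zero_mul] at h
    have : Q = 0 := coeffMap_valSubtype_injective A (by rw [← h, map_zero])
    exact hQ (by rw [this, map_zero])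
  have key : ∀ {v : K} {P Q : LaurentSeries A} (hv : v ∈ A),
      HahnSeries.C v * coeffMap A.subtype P = coeffMap A.subtype Q →
      HahnSeries.C (IsLocalRing.residue A ⟨v, hv⟩) * coeffMap (IsLocalRing.residue A) P
        = coeffMap (IsLocalRing.residue A) Q := by
    intro v P Q hv hvPQ
    have e : HahnSeries.C (⟨v, hv⟩ : A) * P = Q := by
      apply coeffMap_valSubtype_injective A
      rw [map_mul, coeffMap_C]
      exact hvPQ
    rw [← e, map_mul, coeffMap_C]
  have huA : u ∈ A := by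
    by_contra hu
    have hinv : u⁻¹ ∈ A := (A.mem_or_inv_mem u).resolve_left hu
    have h' : HahnSeries.C u⁻¹ * coeffMap A.subtype Q = coeffMap A.subtype P := by
      rw [← h, ← mul_assoc, ← map_mul, inv_mul_cancel₀ hu0, map_one, one_mul]
    have h2 := key hinv h'
    have hres : IsLocalRing.residue A ⟨u⁻¹, hinv⟩ = 0 := by
      rw [IsLocalRing.residue_eq_zero_iff, ValuationSubring.valuation_lt_one_iff]
      show A.valuation u⁻¹ < 1
      have h1 : ¬ A.valuation u ≤ 1 := fun hle => hu ((A.valuation_le_one_iff u).mp hle)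
      rw [not_le] at h1
      rw [map_inv₀]
      exact inv_lt_one_of_one_lt₀ h1
    rw [hres, map_zero, zero_mul] at h2
    exact hP h2.symm
  have hred := key huA h
  have hres0 : IsLocalRing.residue A ⟨u, huA⟩ ≠ 0 := by
    intro h0
    rw [h0, map_zero, zero_mul] at hred
    exact hQ hred.symm
  refine ⟨huA, ?_, hu0, hred⟩
  by_contra hinv
  apply hres0
  rw [IsLocalRing.residue_eq_zero_iff, ValuationSubring.valuation_lt_one_iff]
  show A.valuation u < 1
  have h1 : ¬ A.valuation u⁻¹ ≤ 1 := fun hle => hinv ((A.valuation_le_one_iff u⁻¹).mp hle)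
  rw [not_le, map_inv₀] at h1
  have hv0 : A.valuation u ≠ 0 := (map_ne_zero _).mpr hu0
  by_contra hge
  rw [not_lt] at hge
  exact absurd (inv_le_one_of_one_le₀ hge) (not_le.mpr h1)

/-- content comparison, integral form: if `u · P = Q` with `P` primitive and `Q` integral, then
`u ∈ A` and `ū · P̄ = Q̄`. -/
theorem nrq_content_int {P Q : LaurentSeries A} {u : K}
    (hP : coeffMap (IsLocalRing.residue A) P ≠ 0)
    (h : HahnSeries.C u * coeffMap A.subtype P = coeffMap A.subtype Q) :
    ∃ hu : u ∈ A,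
      HahnSeries.C (IsLocalRing.residue A ⟨u, hu⟩) * coeffMap (IsLocalRing.residue A) P
        = coeffMap (IsLocalRing.residue A) Q := by
  have key : ∀ {v : K} {P Q : LaurentSeries A} (hv : v ∈ A),
      HahnSeries.C v * coeffMap A.subtype P = coeffMap A.subtype Q →
      HahnSeries.C (IsLocalRing.residue A ⟨v, hv⟩) * coeffMap (IsLocalRing.residue A) P
        = coeffMap (IsLocalRing.residue A) Q := by
    intro v P Q hv hvPQ
    have e : HahnSeries.C (⟨v, hv⟩ : A) * P = Q := by
      apply coeffMap_valSubtype_injective A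
      rw [map_mul, coeffMap_C]
      exact hvPQ
    rw [← e, map_mul, coeffMap_C]
  have huA : u ∈ A := by
    by_contra hu
    have hu0 : u ≠ 0 := fun h0 => hu (h0 ▸ A.zero_mem)
    have hinv : u⁻¹ ∈ A := (A.mem_or_inv_mem u).resolve_left hu
    have h' : HahnSeries.C u⁻¹ * coeffMap A.subtype Q = coeffMap A.subtype P := by
      rw [← h, ← mul_assoc, ← map_mul, inv_mul_cancel₀ hu0, map_one, one_mul]
    have h2 := key hinv h'
    have hres : IsLocalRing.residue A ⟨u⁻¹, hinv⟩ = 0 := by
      rw [IsLocalRing.residue_eq_zero_iff, ValuationSubring.valuation_lt_one_iff]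
      show A.valuation u⁻¹ < 1
      have h1 : ¬ A.valuation u ≤ 1 := fun hle => hu ((A.valuation_le_one_iff u).mp hle)
      rw [not_le] at h1
      rw [map_inv₀]
      exact inv_lt_one_of_one_lt₀ h1
    rw [hres, map_zero, zero_mul] at h2
    exact hP h2.symm
  exact ⟨huA, key huA h⟩

/-- descent of integrality along `q ↦ q^n` -/
theorem nrq_qContract (n : ℕ) [NeZero n] (Z : LaurentSeries K) (w : LaurentSeries A)
    (h : qExpand K n Z = coeffMap A.subtype w) :
    ∃ z : LaurentSeries A, coeffMap A.subtype z = Z ∧ qExpand A n z = w := by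
  have hw0 : ∀ m : ℤ, ¬ (n : ℤ) ∣ m → w.coeff m = 0 := by
    intro m hm
    apply Subtype.ext
    have := congrArg (fun t => t.coeff m) h
    simp only [coeffMap_coeff] at this
    show ((w.coeff m : A) : K) = ((0 : A) : K)
    rw [ZeroMemClass.coe_zero]
    exact this.symm.trans (qExpand_coeff_of_not_dvd n _ hm)
  refine ⟨Fermat.Agent.Kron.qContract n w, ?_, Fermat.Agent.Kron.qExpand_qContract n hw0⟩
  apply qExpand_injective (R := K) n
  rw [← Fermat.Agent.Kron.coeffMap_qExpand, Fermat.Agent.Kron.qExpand_qContract n hw0, h]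

end Content

section Twist

variable {K : Type*} [Field K] [Algebra ℚ K] {A : ValuationSubring K}

/-- `NFInt` is stable under the twist `q ↦ ζ q` by a root of unity -/
theorem nrq_nfInt_twq (halg : ∀ c : K, IsIntegral ℚ c) (ζ : Kˣ) {n : ℕ} (hn : n ≠ 0)
    (hζ : ζ ^ n = 1) {g : LaurentSeries K} (hg : NFInt A g) : NFInt A (twq ζ g) := by
  obtain ⟨E, hE, hcoef⟩ := hg
  haveI := hE
  haveI : FiniteDimensional ℚ (IntermediateField.adjoin ℚ {(ζ : K)}) :=
    IntermediateField.adjoin.finiteDimensional (halg _)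
  refine ⟨E ⊔ IntermediateField.adjoin ℚ {(ζ : K)}, inferInstance, fun k => ?_⟩
  rw [twq_coeff]
  have hζmem : (ζ : K) ∈ E ⊔ IntermediateField.adjoin ℚ {(ζ : K)} :=
    (le_sup_right : IntermediateField.adjoin ℚ {(ζ : K)} ≤ _)
      (IntermediateField.mem_adjoin_simple_self ℚ _)
  constructor
  · refine mul_mem ?_ ((le_sup_left : E ≤ _) (hcoef k).1)
    rw [Units.val_zpow_eq_zpow_val]
    exact zpow_mem hζmem k
  · refine A.mul_mem _ _ ?_ (hcoef k).2
    apply kf_mem_of_pow_eq_one A hn
    rw [← Units.val_pow_eq_pow_val, ← zpow_natCast, ← zpow_mul, mul_comm, zpow_mul, zpow_natCast,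
      hζ, one_zpow, Units.val_one]

end Twist

section General

variable {A : ValuationSubring Kbar}
variable {F F' : Type*} [Field F] [Field F'] [Algebra Kbar F] [Algebra Kbar F']
variable {ι : Type*} [Fintype ι]

/-- the norm of an element all of whose expansions are `NFInt`: every expansion is a constant
times a primitive series `y i`, and the expansion of the norm is the product of the constants
times an integral series `z` with `z(q^n) = ∏ y i`. -/
theorem nrq_norm_prim {ℓ : ℕ} (hℓ : ℓ.Prime) (hlt : A.valuation (ℓ : Kbar) < 1)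
    (n : ℕ) [NeZero n]
    (E' : F' →+* LaurentSeries Kbar) (E : ι → (F →+* LaurentSeries Kbar)) (Nm : F →* F')
    (hprod : ∀ x : F, qExpand Kbar n (E' (Nm x)) = ∏ i, E i x)
    (x : F) (hx0 : x ≠ 0) (hx : ∀ i, NFInt A (E i x)) :
    ∃ (e : ι → Kbar) (y : ι → LaurentSeries A) (z : LaurentSeries A),
      (∀ i, e i ≠ 0) ∧ (∀ i, coeffMap (IsLocalRing.residue A) (y i) ≠ 0) ∧
      (∀ i, E i x = HahnSeries.C (e i) * coeffMap A.subtype (y i)) ∧
      E' (Nm x) = HahnSeries.C (∏ i, e i) * coeffMap A.subtype z ∧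
      qExpand A n z = ∏ i, y i := by
  classical
  have hne : ∀ i, E i x ≠ 0 := fun i h =>
    hx0 ((E i).injective (h.trans (map_zero (E i)).symm))
  have hex : ∀ i, ∃ (c : Kbar) (g₀ : LaurentSeries A), c ≠ 0 ∧
      coeffMap (IsLocalRing.residue A) g₀ ≠ 0 ∧
      E i x = HahnSeries.C c * coeffMap A.subtype g₀ := by
    intro i
    obtain ⟨c, g₀, hc, -, hp, -, he⟩ := (hx i).exists_primitive hℓ hlt (hne i)
    exact ⟨c, g₀, hc, hp, he⟩
  choose e y he hy hEy using hex
  have hd : ∏ i, e i ≠ 0 := Finset.prod_ne_zero_iff.mpr fun i _ => he i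
  have hZ : qExpand Kbar n (HahnSeries.C (∏ i, e i)⁻¹ * E' (Nm x))
      = coeffMap A.subtype (∏ i, y i) := by
    rw [map_mul, qExpand_C, hprod, map_prod]
    rw [Finset.prod_congr rfl (fun i _ => hEy i), Finset.prod_mul_distrib, ← map_prod,
      ← mul_assoc, ← map_mul, inv_mul_cancel₀ hd, map_one, one_mul]
  obtain ⟨z, hz, hzq⟩ := nrq_qContract A n _ _ hZ
  refine ⟨e, y, z, he, hy, hEy, ?_, hzq⟩
  rw [hz, ← mul_assoc, ← map_mul, mul_inv_cancel₀ hd, map_one, one_mul]

/-- **the general norm reduction (series level).**  `E i` (`i : ι`) expansions of `F`, `E'` an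
expansion of `F'`, `Nm : F →* F'` with `E' (Nm x)(q^n) = ∏ i, E i x`.  If `f = x / x'` with all
expansions of `x`, `x'` `NFInt`, and `c i · E i f = a i / b i` with `a i`, `b i` primitive (the scaled
`f` is a unit at the `i`-th Gauss valuation, with reduction `ā i / b̄ i`), then
`(∏ c i) · Nm f = X / X'` with `E' X = a'`, `E' X' = b'` primitive and
`(ā' / b̄')(q^n) = ∏ i, ā i / b̄ i`. -/
theorem nrq_general [Nonempty ι] {ℓ : ℕ} (hℓ : ℓ.Prime) (hlt : A.valuation (ℓ : Kbar) < 1)
    (n : ℕ) [NeZero n]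
    (E' : F' →+* LaurentSeries Kbar)
    (hE'c : ∀ c : Kbar, E' (algebraMap Kbar F' c) = HahnSeries.C c)
    (E : ι → (F →+* LaurentSeries Kbar)) (Nm : F →* F')
    (hprod : ∀ x : F, qExpand Kbar n (E' (Nm x)) = ∏ i, E i x)
    (f x x' : F) (hx'0 : x' ≠ 0) (hfx : f * x' = x)
    (hx : ∀ i, NFInt A (E i x)) (hx' : ∀ i, NFInt A (E i x'))
    (c : ι → Kbar) (a b : ι → LaurentSeries A)
    (ha : ∀ i, coeffMap (IsLocalRing.residue A) (a i) ≠ 0)
    (hb : ∀ i, coeffMap (IsLocalRing.residue A) (b i) ≠ 0)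
    (h : ∀ i, HahnSeries.C (c i) * E i f * coeffMap A.subtype (b i) = coeffMap A.subtype (a i)) :
    ∃ (X X' : F') (a' b' : LaurentSeries A),
      E' X = coeffMap A.subtype a' ∧ E' X' = coeffMap A.subtype b' ∧
      coeffMap (IsLocalRing.residue A) a' ≠ 0 ∧ coeffMap (IsLocalRing.residue A) b' ≠ 0 ∧
      algebraMap Kbar F' (∏ i, c i) * Nm f * X' = X ∧
      qExpand (IsLocalRing.ResidueField A) n
          (coeffMap (IsLocalRing.residue A) a' / coeffMap (IsLocalRing.residue A) b')
        = ∏ i, (coeffMap (IsLocalRing.residue A) (a i) / coeffMap (IsLocalRing.residue A) (b i)) := by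
  classical
  -- `f ≠ 0`, `x ≠ 0`
  have hane : ∀ i, coeffMap A.subtype (a i) ≠ 0 := by
    intro i h0
    have : a i = 0 := coeffMap_valSubtype_injective A (by rw [h0, map_zero])
    exact ha i (by rw [this, map_zero])
  obtain ⟨i₀⟩ := ‹Nonempty ι›
  have hf : f ≠ 0 := by
    rintro rfl
    apply hane i₀
    rw [← h i₀, map_zero, mul_zero, zero_mul]
  have hx0 : x ≠ 0 := by rw [← hfx]; exact mul_ne_zero hf hx'0
  obtain ⟨e, y, z, he, hy, hEy, hNx, hzq⟩ := nrq_norm_prim hℓ hlt n E' E Nm hprod x hx0 hx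
  obtain ⟨e', y', z', he', hy', hEy', hNx', hzq'⟩ :=
    nrq_norm_prim hℓ hlt n E' E Nm hprod x' hx'0 hx'
  -- the constants `u i = c i · e i / e' i` are units of `A`
  have hcont : ∀ i, HahnSeries.C (c i * e i / e' i) * coeffMap A.subtype (y i * b i)
      = coeffMap A.subtype (a i * y' i) := by
    intro i
    have h1 : E i f * (HahnSeries.C (e' i) * coeffMap A.subtype (y' i))
        = HahnSeries.C (e i) * coeffMap A.subtype (y i) := by
      rw [← hEy' i, ← hEy i, ← map_mul, hfx]
    have he'C : (HahnSeries.C (e' i) : LaurentSeries Kbar) ≠ 0 :=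
      (map_ne_zero (HahnSeries.C : Kbar →+* LaurentSeries Kbar)).mpr (he' i)
    rw [map_mul, map_mul, ← h i, map_div₀, map_mul, div_mul_eq_mul_div, div_eq_iff he'C]
    linear_combination (-(HahnSeries.C (c i) * coeffMap A.subtype (b i))) * h1
  have hunit : ∀ i, ∃ hu : c i * e i / e' i ∈ A, (c i * e i / e' i)⁻¹ ∈ A ∧ c i * e i / e' i ≠ 0 ∧
      HahnSeries.C (IsLocalRing.residue A ⟨c i * e i / e' i, hu⟩) *
          coeffMap (IsLocalRing.residue A) (y i * b i)
        = coeffMap (IsLocalRing.residue A) (a i * y' i) := by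
    intro i
    refine nrq_content A ?_ ?_ (hcont i)
    · rw [map_mul]; exact mul_ne_zero (hy i) (hb i)
    · rw [map_mul]; exact mul_ne_zero (ha i) (hy' i)
  choose hu hui hu0 hured using hunit
  let uA : ι → A := fun i => ⟨c i * e i / e' i, hu i⟩
  have hd : ∏ i, e i ≠ 0 := Finset.prod_ne_zero_iff.mpr fun i _ => he i
  have hd' : ∏ i, e' i ≠ 0 := Finset.prod_ne_zero_iff.mpr fun i _ => he' i
  have huprod : ((∏ i, uA i : A) : Kbar) = (∏ i, c i) * (∏ i, e i) / ∏ i, e' i := by
    rw [← Finset.prod_mul_distrib, ← Finset.prod_div_distrib]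
    exact map_prod A.subtype _ _
  -- reductions of `z`, `z'`
  have hzr : qExpand (IsLocalRing.ResidueField A) n (coeffMap (IsLocalRing.residue A) z)
      = ∏ i, coeffMap (IsLocalRing.residue A) (y i) := by
    rw [← Fermat.Agent.Kron.coeffMap_qExpand, hzq, map_prod]
  have hzr' : qExpand (IsLocalRing.ResidueField A) n (coeffMap (IsLocalRing.residue A) z')
      = ∏ i, coeffMap (IsLocalRing.residue A) (y' i) := by
    rw [← Fermat.Agent.Kron.coeffMap_qExpand, hzq', map_prod]
  have hpy : ∏ i, coeffMap (IsLocalRing.residue A) (y i) ≠ 0 :=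
    Finset.prod_ne_zero_iff.mpr fun i _ => hy i
  have hpy' : ∏ i, coeffMap (IsLocalRing.residue A) (y' i) ≠ 0 :=
    Finset.prod_ne_zero_iff.mpr fun i _ => hy' i
  have hz0 : coeffMap (IsLocalRing.residue A) z ≠ 0 := by
    intro h0
    rw [h0, map_zero] at hzr
    exact hpy hzr.symm
  have hz0' : coeffMap (IsLocalRing.residue A) z' ≠ 0 := by
    intro h0
    rw [h0, map_zero] at hzr'
    exact hpy' hzr'.symm
  have hures : ∀ i, IsLocalRing.residue A (uA i) ≠ 0 := by
    intro i h0
    have := hured i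
    rw [show IsLocalRing.residue A ⟨c i * e i / e' i, hu i⟩ = IsLocalRing.residue A (uA i) from rfl,
      h0, map_zero, zero_mul, map_mul] at this
    exact mul_ne_zero (ha i) (hy' i) this.symm
  have hupres : IsLocalRing.residue A (∏ i, uA i) ≠ 0 := by
    rw [map_prod]
    exact Finset.prod_ne_zero_iff.mpr fun i _ => hures i
  refine ⟨algebraMap Kbar F' (((∏ i, uA i : A) : Kbar) * (∏ i, e i)⁻¹) * Nm x,
    algebraMap Kbar F' (∏ i, e' i)⁻¹ * Nm x', HahnSeries.C (∏ i, uA i) * z, z', ?_, ?_, ?_, hz0',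
    ?_, ?_⟩
  · rw [map_mul E', hE'c, hNx, map_mul (coeffMap A.subtype), coeffMap_C,
      map_mul (HahnSeries.C : Kbar →+* LaurentSeries Kbar)]
    have e1 : (HahnSeries.C (∏ i, e i)⁻¹ : LaurentSeries Kbar) * HahnSeries.C (∏ i, e i) = 1 := by
      rw [← map_mul, inv_mul_cancel₀ hd, map_one]
    show HahnSeries.C ((∏ i, uA i : A) : Kbar) * HahnSeries.C (∏ i, e i)⁻¹ *
        (HahnSeries.C (∏ i, e i) * coeffMap A.subtype z) = _
    rw [show A.subtype (∏ i, uA i) = ((∏ i, uA i : A) : Kbar) from rfl]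
    linear_combination (HahnSeries.C ((∏ i, uA i : A) : Kbar) * coeffMap A.subtype z) * e1
  · rw [map_mul, hE'c, hNx', ← mul_assoc, ← map_mul, inv_mul_cancel₀ hd', map_one, one_mul]
  · rw [map_mul, coeffMap_C]
    exact mul_ne_zero ((map_ne_zero (HahnSeries.C :
      IsLocalRing.ResidueField A →+* LaurentSeries (IsLocalRing.ResidueField A))).mpr hupres) hz0
  · have hN : Nm f * Nm x' = Nm x := by rw [← map_mul, hfx]
    rw [huprod, ← hN, map_mul, map_div₀, map_mul, map_inv₀, map_inv₀]
    have hdF : algebraMap Kbar F' (∏ i, e i) ≠ 0 := (map_ne_zero _).mpr hd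
    have hdF' : algebraMap Kbar F' (∏ i, e' i) ≠ 0 := (map_ne_zero _).mpr hd'
    field_simp
  · rw [map_div₀, map_mul, coeffMap_C, map_mul, qExpand_C, hzr, hzr', map_prod, map_prod,
      ← Finset.prod_mul_distrib, ← Finset.prod_div_distrib]
    refine Finset.prod_congr rfl fun i _ => ?_
    have h1 := hured i
    rw [map_mul, map_mul] at h1
    rw [eq_div_iff (hb i), div_mul_eq_mul_div, div_eq_iff (hy' i)]
    linear_combination h1

/-- **the general norm reduction (series level), integral form**: as `nrq_general`, but the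
`a i` need not be primitive (the scaled `f` is integral, not necessarily a unit, at the `i`-th
Gauss valuation), and `f = 0` is allowed. -/
theorem nrq_general_int [Nonempty ι] {ℓ : ℕ} (hℓ : ℓ.Prime) (hlt : A.valuation (ℓ : Kbar) < 1)
    (n : ℕ) [NeZero n]
    (E' : F' →+* LaurentSeries Kbar)
    (hE'c : ∀ c : Kbar, E' (algebraMap Kbar F' c) = HahnSeries.C c)
    (E : ι → (F →+* LaurentSeries Kbar)) (Nm : F →* F')
    (hprod : ∀ x : F, qExpand Kbar n (E' (Nm x)) = ∏ i, E i x)
    (f x x' : F) (hx'0 : x' ≠ 0) (hfx : f * x' = x)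
    (hx : ∀ i, NFInt A (E i x)) (hx' : ∀ i, NFInt A (E i x'))
    (c : ι → Kbar) (a b : ι → LaurentSeries A)
    (hb : ∀ i, coeffMap (IsLocalRing.residue A) (b i) ≠ 0)
    (h : ∀ i, HahnSeries.C (c i) * E i f * coeffMap A.subtype (b i) = coeffMap A.subtype (a i)) :
    ∃ (X X' : F') (a' b' : LaurentSeries A),
      E' X = coeffMap A.subtype a' ∧ E' X' = coeffMap A.subtype b' ∧
      coeffMap (IsLocalRing.residue A) b' ≠ 0 ∧
      algebraMap Kbar F' (∏ i, c i) * Nm f * X' = X ∧
      qExpand (IsLocalRing.ResidueField A) n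
          (coeffMap (IsLocalRing.residue A) a' / coeffMap (IsLocalRing.residue A) b')
        = ∏ i, (coeffMap (IsLocalRing.residue A) (a i) / coeffMap (IsLocalRing.residue A) (b i)) := by
  classical
  obtain ⟨i₀⟩ := ‹Nonempty ι›
  by_cases hf : f = 0
  · -- the trivial case
    subst hf
    have hN0 : Nm 0 = 0 := by
      apply E'.injective
      apply qExpand_injective (R := Kbar) n
      rw [hprod, map_zero, map_zero]
      exact Finset.prod_eq_zero (Finset.mem_univ i₀) (map_zero (E i₀))
    have ha0 : a i₀ = 0 := by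
      apply coeffMap_valSubtype_injective A
      rw [← h i₀, map_zero, mul_zero, zero_mul, map_zero]
    refine ⟨0, 1, 0, 1, by rw [map_zero, map_zero], by rw [map_one, map_one], ?_, ?_, ?_⟩
    · rw [map_one]; exact one_ne_zero
    · rw [hN0, mul_zero, zero_mul]
    · rw [map_zero, zero_div, map_zero]
      symm
      apply Finset.prod_eq_zero (Finset.mem_univ i₀)
      rw [ha0, map_zero, zero_div]
  have hx0 : x ≠ 0 := by rw [← hfx]; exact mul_ne_zero hf hx'0
  obtain ⟨e, y, z, he, hy, hEy, hNx, hzq⟩ := nrq_norm_prim hℓ hlt n E' E Nm hprod x hx0 hx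
  obtain ⟨e', y', z', he', hy', hEy', hNx', hzq'⟩ :=
    nrq_norm_prim hℓ hlt n E' E Nm hprod x' hx'0 hx'
  -- the constants `u i = c i · e i / e' i` lie in `A`
  have hcont : ∀ i, HahnSeries.C (c i * e i / e' i) * coeffMap A.subtype (y i * b i)
      = coeffMap A.subtype (a i * y' i) := by
    intro i
    have h1 : E i f * (HahnSeries.C (e' i) * coeffMap A.subtype (y' i))
        = HahnSeries.C (e i) * coeffMap A.subtype (y i) := by
      rw [← hEy' i, ← hEy i, ← map_mul, hfx]
    have he'C : (HahnSeries.C (e' i) : LaurentSeries Kbar) ≠ 0 :=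
      (map_ne_zero (HahnSeries.C : Kbar →+* LaurentSeries Kbar)).mpr (he' i)
    rw [map_mul, map_mul, ← h i, map_div₀, map_mul, div_mul_eq_mul_div, div_eq_iff he'C]
    linear_combination (-(HahnSeries.C (c i) * coeffMap A.subtype (b i))) * h1
  have hunit : ∀ i, ∃ hu : c i * e i / e' i ∈ A,
      HahnSeries.C (IsLocalRing.residue A ⟨c i * e i / e' i, hu⟩) *
          coeffMap (IsLocalRing.residue A) (y i * b i)
        = coeffMap (IsLocalRing.residue A) (a i * y' i) := by
    intro i
    refine nrq_content_int A ?_ (hcont i)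
    rw [map_mul]; exact mul_ne_zero (hy i) (hb i)
  choose hu hured using hunit
  let uA : ι → A := fun i => ⟨c i * e i / e' i, hu i⟩
  have hd : ∏ i, e i ≠ 0 := Finset.prod_ne_zero_iff.mpr fun i _ => he i
  have hd' : ∏ i, e' i ≠ 0 := Finset.prod_ne_zero_iff.mpr fun i _ => he' i
  have huprod : ((∏ i, uA i : A) : Kbar) = (∏ i, c i) * (∏ i, e i) / ∏ i, e' i := by
    rw [← Finset.prod_mul_distrib, ← Finset.prod_div_distrib]
    exact map_prod A.subtype _ _
  -- reductions of `z`, `z'`
  have hzr : qExpand (IsLocalRing.ResidueField A) n (coeffMap (IsLocalRing.residue A) z)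
      = ∏ i, coeffMap (IsLocalRing.residue A) (y i) := by
    rw [← Fermat.Agent.Kron.coeffMap_qExpand, hzq, map_prod]
  have hzr' : qExpand (IsLocalRing.ResidueField A) n (coeffMap (IsLocalRing.residue A) z')
      = ∏ i, coeffMap (IsLocalRing.residue A) (y' i) := by
    rw [← Fermat.Agent.Kron.coeffMap_qExpand, hzq', map_prod]
  have hpy' : ∏ i, coeffMap (IsLocalRing.residue A) (y' i) ≠ 0 :=
    Finset.prod_ne_zero_iff.mpr fun i _ => hy' i
  have hz0' : coeffMap (IsLocalRing.residue A) z' ≠ 0 := by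
    intro h0
    rw [h0, map_zero] at hzr'
    exact hpy' hzr'.symm
  refine ⟨algebraMap Kbar F' (((∏ i, uA i : A) : Kbar) * (∏ i, e i)⁻¹) * Nm x,
    algebraMap Kbar F' (∏ i, e' i)⁻¹ * Nm x', HahnSeries.C (∏ i, uA i) * z, z', ?_, ?_, hz0',
    ?_, ?_⟩
  · rw [map_mul E', hE'c, hNx, map_mul (coeffMap A.subtype), coeffMap_C,
      map_mul (HahnSeries.C : Kbar →+* LaurentSeries Kbar)]
    have e1 : (HahnSeries.C (∏ i, e i)⁻¹ : LaurentSeries Kbar) * HahnSeries.C (∏ i, e i) = 1 := by
      rw [← map_mul, inv_mul_cancel₀ hd, map_one]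
    show HahnSeries.C ((∏ i, uA i : A) : Kbar) * HahnSeries.C (∏ i, e i)⁻¹ *
        (HahnSeries.C (∏ i, e i) * coeffMap A.subtype z) = _
    rw [show A.subtype (∏ i, uA i) = ((∏ i, uA i : A) : Kbar) from rfl]
    linear_combination (HahnSeries.C ((∏ i, uA i : A) : Kbar) * coeffMap A.subtype z) * e1
  · rw [map_mul, hE'c, hNx', ← mul_assoc, ← map_mul, inv_mul_cancel₀ hd', map_one, one_mul]
  · have hN : Nm f * Nm x' = Nm x := by rw [← map_mul, hfx]
    rw [huprod, ← hN, map_mul, map_div₀, map_mul, map_inv₀, map_inv₀]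
    have hdF : algebraMap Kbar F' (∏ i, e i) ≠ 0 := (map_ne_zero _).mpr hd
    have hdF' : algebraMap Kbar F' (∏ i, e' i) ≠ 0 := (map_ne_zero _).mpr hd'
    field_simp
  · rw [map_div₀, map_mul, coeffMap_C, map_mul, qExpand_C, hzr, hzr', map_prod, map_prod,
      ← Finset.prod_mul_distrib, ← Finset.prod_div_distrib]
    refine Finset.prod_congr rfl fun i _ => ?_
    have h1 := hured i
    rw [map_mul, map_mul] at h1
    rw [eq_div_iff (hb i), div_mul_eq_mul_div, div_eq_iff (hy' i)]
    linear_combination h1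

end General

end Fermat.Agent.S36lib
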