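/-
Item 83 (S36), piece V-D1 (helper18): the MIDDLE VALUATION at the `ℚ̄`-level.

`E` a middle expansion of `F_{M'q²}` (`MidExp.lean`: `E ∘ α = coe`, `E ∘ β β' = twq ζ ∘ coe`),
`A` a valuation ring of `ℚ̄` over `q`.

* `vmidField E` : the field `E(F_{M'q²}) ⊂ ℚ̄((X))`;  `vmid_hasPrimFrac`;
* `vmidO` : the valuation ring `{f : E f ∈ Gauss unit ball}` of `F_{M'q²}`,
  `vmidRed : vmidO →+* k((X))` (coefficientwise reduction, kernel = nonunits);
* `vmid_alpha_mem_iff`, `vmidRed_alpha` : `α Y ∈ O_mid ↔ Y ∈ O_∞^{M'q}`, same reduction;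
* `vmid_beta_mem_iff`, `vmidRed_beta` : `β β' Y' ∈ O_mid ↔ Y' ∈ O'`, same reduction (`ζ̄ = 1`).
WARNING: for `q ≥ 5` the residue field of `vmidO` is NOT the function field `κ'` of level `M'`
(it contains `θ j̄`); only its restriction to the inertia-fixed functions has residue field `κ'`.
No sorry.
-/
import Mathlib
import Fermat.Agent.S36lib.MidExpGal
import Fermat.Agent.S36lib.NormRedGen
import Fermat.Agent.S36lib.ZetaIndep

set_option autoImplicit false
set_option linter.style.haveILetI false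
set_option linter.unusedSectionVars false
set_option synthInstance.maxHeartbeats 400000

noncomputable section

open ModularCurve AlgebraicCurve HahnSeries
open Fermat.Agent.S24lib Fermat.Agent.HeckeBar Fermat.Agent.S37lib Fermat.Agent.S35lib
  Fermat.Agent.GoodRed

namespace Fermat.Agent.S36lib

/-! ### Transport of fractions of integral series along a substitution -/

section General

variable {K : Type*} [Field K] {A : ValuationSubring K}
variable {F₁ F₂ : IntermediateField K (LaurentSeries K)}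

/-- the data of a substitution `φ` on series over `K`, `A` and the residue field -/
structure SeriesSubst (A : ValuationSubring K) where
  /-- on `K((X))` -/
  φ : LaurentSeries K →+* LaurentSeries K
  /-- on `A((X))` -/
  φA : LaurentSeries A →+* LaurentSeries A
  /-- on `k((X))` -/
  φk : LaurentSeries (IsLocalRing.ResidueField A) →+* LaurentSeries (IsLocalRing.ResidueField A)
  comm_sub : ∀ y, coeffMap A.subtype (φA y) = φ (coeffMap A.subtype y)
  comm_res : ∀ y, coeffMap (IsLocalRing.residue A) (φA y) = φk (coeffMap (IsLocalRing.residue A) y)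
  map_C : ∀ c : K, φ (HahnSeries.C c) = HahnSeries.C c

/-- the identity substitution -/
def SeriesSubst.id (A : ValuationSubring K) : SeriesSubst A where
  φ := RingHom.id _
  φA := RingHom.id _
  φk := RingHom.id _
  comm_sub := fun _ => rfl
  comm_res := fun _ => rfl
  map_C := fun _ => rfl

theorem vmid_isRep_map (S : SeriesSubst A) (hF : ∀ x ∈ F₁, S.φ x ∈ F₂)
    {x : LaurentSeries K} {a b : LaurentSeries A} (h : IsRep A F₁ x a b) :
    IsRep A F₂ (S.φ x) (S.φA a) (S.φA b) := by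
  obtain ⟨ha, hb, hpb, hab⟩ := h
  refine ⟨?_, ?_, ?_, ?_⟩
  · rw [S.comm_sub]; exact hF _ ha
  · rw [S.comm_sub]; exact hF _ hb
  · rw [S.comm_res]
    exact (map_ne_zero_iff S.φk S.φk.injective).mpr hpb
  · rw [S.comm_sub, S.comm_sub, ← map_mul, hab]

theorem vmid_isRep_comap (S : SeriesSubst A) (hfrac : HasPrimFrac A F₁)
    {x : LaurentSeries K} (hx : x ∈ F₁) {a b : LaurentSeries A} (h : IsRep A F₂ (S.φ x) a b) :
    ∃ a' b', IsRep A F₁ x a' b' := by
  by_cases hx0 : x = 0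
  · rw [hx0]
    exact ⟨0, 1, isRep_zero⟩
  obtain ⟨a₁, b₁, ha₁, hb₁, hpa₁, hpb₁, c, hc, h₁⟩ := hfrac x hx hx0
  rcases A.mem_or_inv_mem c with hcA | hcA
  · refine ⟨HahnSeries.C ⟨c, hcA⟩ * a₁, b₁, ?_, hb₁, hpb₁, ?_⟩
    · rw [map_mul, coeffMap_C]
      exact mul_mem (C_mem_intermediateField F₁ c) ha₁
    · rw [map_mul, coeffMap_C]
      exact h₁
  · -- `c⁻¹ ∈ A`; if `c ∉ A` we get a contradiction
    by_cases hcA' : c ∈ A
    · refine ⟨HahnSeries.C ⟨c, hcA'⟩ * a₁, b₁, ?_, hb₁, hpb₁, ?_⟩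
      · rw [map_mul, coeffMap_C]
        exact mul_mem (C_mem_intermediateField F₁ c) ha₁
      · rw [map_mul, coeffMap_C]
        exact h₁
    exfalso
    obtain ⟨ha, hb, hpb, hab⟩ := h
    have hres : IsLocalRing.residue A ⟨c⁻¹, hcA⟩ = 0 := by
      rw [IsLocalRing.residue_eq_zero_iff, ValuationSubring.valuation_lt_one_iff]
      show A.valuation c⁻¹ < 1
      have h1 : ¬ A.valuation c ≤ 1 := fun hle => hcA' ((A.valuation_le_one_iff c).mp hle)
      rw [not_le] at h1
      rw [map_inv₀]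
      exact inv_lt_one_of_one_lt₀ h1
    have h₂ : S.φ x * S.φ (coeffMap A.subtype b₁) = HahnSeries.C c * S.φ (coeffMap A.subtype a₁) := by
      rw [← map_mul, h₁, map_mul, S.map_C]
    have key : HahnSeries.C (⟨c⁻¹, hcA⟩ : A) * a * S.φA b₁ = b * S.φA a₁ := by
      apply coeffMap_valSubtype_injective A
      rw [map_mul, map_mul, map_mul, coeffMap_C, S.comm_sub, S.comm_sub, ← hab]
      have e : HahnSeries.C c⁻¹ * (S.φ x * coeffMap A.subtype b) * S.φ (coeffMap A.subtype b₁)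
          = HahnSeries.C c⁻¹ * (S.φ x * S.φ (coeffMap A.subtype b₁)) * coeffMap A.subtype b := by
        ring
      change HahnSeries.C c⁻¹ * (S.φ x * coeffMap A.subtype b) * S.φ (coeffMap A.subtype b₁) = _
      rw [e, h₂, ← mul_assoc, ← map_mul, inv_mul_cancel₀ hc, map_one, one_mul]
      ring
    have key' := congrArg (coeffMap (IsLocalRing.residue A)) key
    rw [map_mul, map_mul, map_mul, coeffMap_C, hres, map_zero, zero_mul, zero_mul, S.comm_res] at key'
    exact mul_ne_zero hpb ((map_ne_zero_iff S.φk S.φk.injective).mpr hpa₁) key'.symm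

/-- the reductions correspond -/
theorem vmid_red_map (S : SeriesSubst A) (hF : ∀ x ∈ F₁, S.φ x ∈ F₂)
    {x : LaurentSeries K} {a b a' b' : LaurentSeries A} (h : IsRep A F₂ (S.φ x) a b)
    (h' : IsRep A F₁ x a' b') :
    coeffMap (IsLocalRing.residue A) a / coeffMap (IsLocalRing.residue A) b
      = S.φk (coeffMap (IsLocalRing.residue A) a' / coeffMap (IsLocalRing.residue A) b') := by
  rw [IsRep.red_eq h (vmid_isRep_map S hF h'), S.comm_res, S.comm_res, map_div₀]

end General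

/-! ### The field of middle expansions and its Gauss valuation -/

section Field

variable (M' q : ℕ) [NeZero M'] [NeZero q] (A : ValuationSubring Kbar)

/-- `E` is a middle expansion for `ζ` -/
structure IsMidExp (ζ : Kbarˣ) (E : FF (M' * q * q) →+* LaurentSeries Kbar) : Prop where
  const : ∀ a : Kbar, E (algebraMap Kbar (FF (M' * q * q)) a)
    = algebraMap Kbar (LaurentSeries Kbar) a
  alpha : ∀ Y : FF (M' * q), E (heckeAlphaBar Kbar (M' * q) q Y) = (Y : LaurentSeries Kbar)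
  beta : ∀ Y' : FF M', E (heckeBetaBar Kbar (M' * q) q (heckeBetaBar Kbar M' q Y'))
    = twq ζ (Y' : LaurentSeries Kbar)

theorem exists_isMidExp (hq : q.Prime) (hqM : ¬ q ∣ M') (ζ : Kbarˣ)
    (hζ : IsPrimitiveRoot (ζ : Kbar) q) : ∃ E, IsMidExp M' q ζ E := by
  obtain ⟨E, h1, h2, h3⟩ := midExp_exists M' q hq hqM ζ hζ
  exact ⟨E, h1, h2, h3⟩

variable {M' q} {ζ : Kbarˣ} {E : FF (M' * q * q) →+* LaurentSeries Kbar}

/-- the field `E(F_{M'q²}) ⊂ ℚ̄((X))` -/
def vmidField (hE : IsMidExp M' q ζ E) : IntermediateField Kbar (LaurentSeries Kbar) :=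
  E.fieldRange.toIntermediateField fun a => ⟨_, hE.const a⟩

theorem mem_vmidField (hE : IsMidExp M' q ζ E) (x : LaurentSeries Kbar) :
    x ∈ vmidField hE ↔ ∃ f, E f = x := Iff.rfl

theorem vmid_apply_mem (hE : IsMidExp M' q ζ E) (f : FF (M' * q * q)) : E f ∈ vmidField hE :=
  ⟨f, rfl⟩

/-- `F_{M'q} ⊂ E(F_{M'q²})` -/
theorem vmid_alpha_mem (hE : IsMidExp M' q ζ E) {x : LaurentSeries Kbar}
    (hx : x ∈ modularFunctionFieldBar (M' * q)) : x ∈ vmidField hE :=
  ⟨heckeAlphaBar Kbar (M' * q) q ⟨x, hx⟩, hE.alpha _⟩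

/-- `twq ζ (F_{M'}) ⊂ E(F_{M'q²})` -/
theorem vmid_beta_mem (hE : IsMidExp M' q ζ E) {x : LaurentSeries Kbar}
    (hx : x ∈ modularFunctionFieldBar M') : twq ζ x ∈ vmidField hE :=
  ⟨heckeBetaBar Kbar (M' * q) q (heckeBetaBar Kbar M' q ⟨x, hx⟩), hE.beta _⟩

theorem vmid_halg : ∀ c : Kbar, IsIntegral ℚ c := fun c =>
  ((AlgebraicClosure.isAlgebraic ℚ).isAlgebraic c).isIntegral

/-- every element of `E(F_{M'q²})` is a quotient of `NFInt` series -/
theorem vmid_isFracNF (hq : q.Prime) (hζ : ζ ^ q = 1) (hE : IsMidExp M' q ζ E)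
    (x : LaurentSeries Kbar) (hx : x ∈ vmidField hE) : IsFracNF A (vmidField hE) x := by
  obtain ⟨f, rfl⟩ := hx
  induction f using mx_induction M' q hq with
  | hα Y =>
    obtain ⟨a, b, ha, hb, hb0, hna, hnb, hab⟩ :=
      isFracNF_of_mem (A := A) (N := M' * q) vmid_halg Y.2
    rw [hE.alpha]
    exact ⟨a, b, vmid_alpha_mem hE ha, vmid_alpha_mem hE hb, hb0, hna, hnb, hab⟩
  | hβ Y' =>
    obtain ⟨a, b, ha, hb, hb0, hna, hnb, hab⟩ :=
      isFracNF_of_mem (A := A) (N := M') vmid_halg Y'.2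
    rw [hE.beta]
    refine ⟨twq ζ a, twq ζ b, vmid_beta_mem hE ha, vmid_beta_mem hE hb, ?_,
      nrq_nfInt_twq vmid_halg ζ hq.ne_zero hζ hna, nrq_nfInt_twq vmid_halg ζ hq.ne_zero hζ hnb, ?_⟩
    · exact (map_ne_zero_iff (twq ζ) (twq ζ).injective).mpr hb0
    · rw [← map_mul, hab]
  | hadd x y hx hy => rw [map_add]; exact hx.add hy
  | hneg x hx => rw [map_neg]; exact hx.neg
  | hmul x y hx hy => rw [map_mul]; exact hx.mul hy
  | hinv x hx => rw [map_inv₀]; exact hx.inv

theorem vmid_hasPrimFrac (hq : q.Prime) (hlt : A.valuation (q : Kbar) < 1) (hζ : ζ ^ q = 1)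
    (hE : IsMidExp M' q ζ E) : HasPrimFrac A (vmidField hE) :=
  hasPrimFrac_of_isFracNF hq hlt (vmid_isFracNF A hq hζ hE)

/-- `E` as a map into its range -/
def vmidHom (hE : IsMidExp M' q ζ E) : FF (M' * q * q) →+* ↥(vmidField hE) :=
  E.codRestrict (vmidField hE) (vmid_apply_mem hE)

@[simp] theorem coe_vmidHom (hE : IsMidExp M' q ζ E) (f : FF (M' * q * q)) :
    ((vmidHom hE f : ↥(vmidField hE)) : LaurentSeries Kbar) = E f := rfl

/-- **the middle valuation ring** of `F_{M'q²}` over `A` -/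
def vmidO (hq : q.Prime) (hlt : A.valuation (q : Kbar) < 1) (hζ : ζ ^ q = 1)
    (hE : IsMidExp M' q ζ E) : ValuationSubring (FF (M' * q * q)) :=
  (unitBall (vmid_hasPrimFrac A hq hlt hζ hE)).comap (vmidHom hE)

theorem mem_vmidO_iff (hq : q.Prime) (hlt : A.valuation (q : Kbar) < 1) (hζ : ζ ^ q = 1)
    (hE : IsMidExp M' q ζ E) (f : FF (M' * q * q)) :
    f ∈ vmidO A hq hlt hζ hE ↔ ∃ a b, IsRep A (vmidField hE) (E f) a b := Iff.rfl

theorem vmid_redInto_top (hE : IsMidExp M' q ζ E) :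
    RedInto A (vmidField hE) (⊤ : IntermediateField (IsLocalRing.ResidueField A)
      (LaurentSeries (IsLocalRing.ResidueField A))) :=
  fun _ _ => IntermediateField.mem_top

/-- **the middle reduction**, coefficientwise, with values in `k((X))` -/
def vmidRed (hq : q.Prime) (hlt : A.valuation (q : Kbar) < 1) (hζ : ζ ^ q = 1)
    (hE : IsMidExp M' q ζ E) :
    ↥(vmidO A hq hlt hζ hE) →+* LaurentSeries (IsLocalRing.ResidueField A) :=
  ((⊤ : IntermediateField (IsLocalRing.ResidueField A)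
      (LaurentSeries (IsLocalRing.ResidueField A))).toSubfield.subtype).comp
    ((redHom (vmid_hasPrimFrac A hq hlt hζ hE) (vmid_redInto_top A hE)).comp
      ((vmidHom hE).restrict (vmidO A hq hlt hζ hE) (unitBall (vmid_hasPrimFrac A hq hlt hζ hE))
        (fun _ h => h)))

theorem vmidRed_eq (hq : q.Prime) (hlt : A.valuation (q : Kbar) < 1) (hζ : ζ ^ q = 1)
    (hE : IsMidExp M' q ζ E) (f : ↥(vmidO A hq hlt hζ hE))
    {a b : LaurentSeries A} (h : IsRep A (vmidField hE) (E (f : FF (M' * q * q))) a b) :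
    vmidRed A hq hlt hζ hE f
      = coeffMap (IsLocalRing.residue A) a / coeffMap (IsLocalRing.residue A) b :=
  redHom_eq (vmid_hasPrimFrac A hq hlt hζ hE) (vmid_redInto_top A hE)
    ⟨vmidHom hE (f : FF (M' * q * q)), f.2⟩ h

/-! ### Compatibility with `α` -/

theorem vmid_hasPrimFrac_bar (N : ℕ) (hq : q.Prime) (hlt : A.valuation (q : Kbar) < 1) :
    HasPrimFrac A (modularFunctionFieldBar N) :=
  hasPrimFrac_of_isFracNF hq hlt fun _ hf => isFracNF_of_mem vmid_halg hf

theorem vmid_alpha_mem_iff (hq : q.Prime) (hlt : A.valuation (q : Kbar) < 1) (hζ : ζ ^ q = 1)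
    (hE : IsMidExp M' q ζ E) (Y : FF (M' * q)) :
    heckeAlphaBar Kbar (M' * q) q Y ∈ vmidO A hq hlt hζ hE ↔
      ∃ a b, IsRep A (modularFunctionFieldBar (M' * q)) (Y : LaurentSeries Kbar) a b := by
  rw [mem_vmidO_iff, hE.alpha]
  constructor
  · rintro ⟨a, b, h⟩
    exact vmid_isRep_comap (F₂ := vmidField hE) (SeriesSubst.id A)
      (vmid_hasPrimFrac_bar A (M' * q) hq hlt) Y.2 h
  · rintro ⟨a, b, h⟩
    exact ⟨a, b, vmid_isRep_map (SeriesSubst.id A) (fun x hx => vmid_alpha_mem hE hx) h⟩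

theorem vmidRed_alpha (hq : q.Prime) (hlt : A.valuation (q : Kbar) < 1) (hζ : ζ ^ q = 1)
    (hE : IsMidExp M' q ζ E) (Y : FF (M' * q))
    (hY : heckeAlphaBar Kbar (M' * q) q Y ∈ vmidO A hq hlt hζ hE)
    {a b : LaurentSeries A}
    (h : IsRep A (modularFunctionFieldBar (M' * q)) (Y : LaurentSeries Kbar) a b) :
    vmidRed A hq hlt hζ hE ⟨_, hY⟩
      = coeffMap (IsLocalRing.residue A) a / coeffMap (IsLocalRing.residue A) b := by
  apply vmidRed_eq
  show IsRep A (vmidField hE) (E (heckeAlphaBar Kbar (M' * q) q Y)) a b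
  rw [hE.alpha]
  exact vmid_isRep_map (SeriesSubst.id A) (fun x hx => vmid_alpha_mem hE hx) h

/-! ### Compatibility with `β β'` -/

theorem vmid_twq_C {R : Type*} [CommRing R] (u : Rˣ) (c : R) :
    twq u (HahnSeries.C c : LaurentSeries R) = HahnSeries.C c := by
  ext n
  rw [twq_coeff, HahnSeries.C_apply, HahnSeries.coeff_single]
  by_cases hn : n = 0
  · subst hn
    simp
  · rw [if_neg hn, mul_zero]

/-- the residue field of a valuation ring over `q` has characteristic `q` -/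
theorem vmid_charP (hq : q.Prime) (hlt : A.valuation (q : Kbar) < 1) :
    CharP (IsLocalRing.ResidueField A) q := by
  have h0 : ((q : ℕ) : IsLocalRing.ResidueField A) = 0 := by
    have hmem : (q : Kbar) ∈ A := (A.valuation_le_one_iff _).mp hlt.le
    have h1 : IsLocalRing.residue A ⟨(q : Kbar), hmem⟩ = 0 := by
      rw [IsLocalRing.residue_eq_zero_iff, ValuationSubring.valuation_lt_one_iff]
      exact hlt
    have e : (⟨(q : Kbar), hmem⟩ : A) = ((q : ℕ) : A) := Subtype.ext (by simp)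
    rw [e, map_natCast] at h1
    exact h1
  exact (CharP.charP_iff_prime_eq_zero hq).mpr h0

/-- a root of unity of `ℚ̄`, as a unit of `A` -/
def vmidUnit (hq : q.Prime) (hζ : ζ ^ q = 1) : Aˣ :=
  have h1 : A.valuation (ζ : Kbar) = 1 :=
    zi_val_eq_one_of_pow_eq_one A.valuation hq.ne_zero (by
      rw [← Units.val_pow_eq_pow_val, hζ, Units.val_one])
  have h2 : A.valuation ((ζ⁻¹ : Kbarˣ) : Kbar) = 1 := by
    rw [Units.val_inv_eq_inv_val, map_inv₀, h1, inv_one]
  ⟨⟨(ζ : Kbar), (A.valuation_le_one_iff _).mp h1.le⟩,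
    ⟨((ζ⁻¹ : Kbarˣ) : Kbar), (A.valuation_le_one_iff _).mp h2.le⟩,
    Subtype.ext (by simp), Subtype.ext (by simp)⟩

theorem vmidUnit_map_subtype (hq : q.Prime) (hζ : ζ ^ q = 1) :
    Units.map (A.subtype : A →* Kbar) (vmidUnit A hq hζ) = ζ :=
  Units.ext rfl

theorem vmidUnit_map_residue (hq : q.Prime) (hlt : A.valuation (q : Kbar) < 1) (hζ : ζ ^ q = 1) :
    Units.map (IsLocalRing.residue A : A →* IsLocalRing.ResidueField A) (vmidUnit A hq hζ) = 1 := by
  haveI : Fact q.Prime := ⟨hq⟩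
  haveI : CharP (IsLocalRing.ResidueField A) q := vmid_charP A hq hlt
  have hpow : (vmidUnit A hq hζ) ^ q = 1 := by
    apply Units.ext
    apply Subtype.ext
    show ((((vmidUnit A hq hζ) ^ q : Aˣ) : A) : Kbar) = 1
    rw [Units.val_pow_eq_pow_val]
    show (ζ : Kbar) ^ q = 1
    rw [← Units.val_pow_eq_pow_val, hζ, Units.val_one]
  apply Units.ext
  rw [Units.coe_map, Units.val_one]
  set z : IsLocalRing.ResidueField A := IsLocalRing.residue A ((vmidUnit A hq hζ : Aˣ) : A)
    with hz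
  have hzq : z ^ q = 1 := by
    rw [hz, ← map_pow, ← Units.val_pow_eq_pow_val, hpow, Units.val_one, map_one]
  have h0 : (z - 1) ^ q = 0 := by
    rw [sub_pow_char, hzq, one_pow, sub_self]
  have h1 : z - 1 = 0 := pow_eq_zero_iff hq.ne_zero |>.mp h0
  exact sub_eq_zero.mp h1

/-- the substitution `X ↦ ζ X` -/
def vmidSubst (hq : q.Prime) (hlt : A.valuation (q : Kbar) < 1) (hζ : ζ ^ q = 1) :
    SeriesSubst A where
  φ := twq ζ
  φA := twq (vmidUnit A hq hζ)
  φk := RingHom.id _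
  comm_sub := fun y => by rw [coeffMap_twq, vmidUnit_map_subtype]
  comm_res := fun y => by
    rw [coeffMap_twq, vmidUnit_map_residue A hq hlt hζ, twq_one]
    rfl
  map_C := fun c => vmid_twq_C ζ c

theorem vmid_beta_mem_iff (hq : q.Prime) (hlt : A.valuation (q : Kbar) < 1) (hζ : ζ ^ q = 1)
    (hE : IsMidExp M' q ζ E) (Y' : FF M') :
    heckeBetaBar Kbar (M' * q) q (heckeBetaBar Kbar M' q Y') ∈ vmidO A hq hlt hζ hE ↔
      ∃ a b, IsRep A (modularFunctionFieldBar M') (Y' : LaurentSeries Kbar) a b := by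
  rw [mem_vmidO_iff, hE.beta]
  constructor
  · rintro ⟨a, b, h⟩
    exact vmid_isRep_comap (F₂ := vmidField hE) (vmidSubst A hq hlt hζ)
      (vmid_hasPrimFrac_bar A M' hq hlt) Y'.2 h
  · rintro ⟨a, b, h⟩
    exact ⟨_, _, vmid_isRep_map (vmidSubst A hq hlt hζ) (fun x hx => vmid_beta_mem hE hx) h⟩

theorem vmidRed_beta (hq : q.Prime) (hlt : A.valuation (q : Kbar) < 1) (hζ : ζ ^ q = 1)
    (hE : IsMidExp M' q ζ E) (Y' : FF M')
    (hY : heckeBetaBar Kbar (M' * q) q (heckeBetaBar Kbar M' q Y') ∈ vmidO A hq hlt hζ hE)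
    {a b : LaurentSeries A}
    (h : IsRep A (modularFunctionFieldBar M') (Y' : LaurentSeries Kbar) a b) :
    vmidRed A hq hlt hζ hE ⟨_, hY⟩
      = coeffMap (IsLocalRing.residue A) a / coeffMap (IsLocalRing.residue A) b := by
  have h1 : IsRep A (vmidField hE)
      (E (heckeBetaBar Kbar (M' * q) q (heckeBetaBar Kbar M' q Y')))
      ((vmidSubst A hq hlt hζ).φA a) ((vmidSubst A hq hlt hζ).φA b) := by
    rw [hE.beta]
    exact vmid_isRep_map (vmidSubst A hq hlt hζ) (fun x hx => vmid_beta_mem hE hx) h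
  rw [vmidRed_eq A hq hlt hζ hE ⟨_, hY⟩ h1, (vmidSubst A hq hlt hζ).comm_res,
    (vmidSubst A hq hlt hζ).comm_res]
  rfl

/-! ### The kernel of the reduction -/

theorem vmidRed_eq_zero_iff (hq : q.Prime) (hlt : A.valuation (q : Kbar) < 1) (hζ : ζ ^ q = 1)
    (hE : IsMidExp M' q ζ E) (f : ↥(vmidO A hq hlt hζ hE)) :
    vmidRed A hq hlt hζ hE f = 0 ↔ (f : FF (M' * q * q)) ∈ (vmidO A hq hlt hζ hE).nonunits := by
  obtain ⟨a, b, h⟩ := (mem_vmidO_iff A hq hlt hζ hE _).mp f.2
  rw [vmidRed_eq A hq hlt hζ hE f h, ValuationSubring.mem_nonunits_iff_or]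
  constructor
  · intro h0
    have ha0 : coeffMap (IsLocalRing.residue A) a = 0 := by
      rcases div_eq_zero_iff.mp h0 with h1 | h1
      · exact h1
      · exact absurd h1 h.2.2.1
    by_contra hcon
    rw [not_or, not_not] at hcon
    obtain ⟨hf0, hinv⟩ := hcon
    obtain ⟨a', b', h'⟩ := (mem_vmidO_iff A hq hlt hζ hE _).mp hinv
    have hEf0 : E (f : FF (M' * q * q)) ≠ 0 := (map_ne_zero_iff E E.injective).mpr hf0
    have key : a * a' = b * b' := by
      apply coeffMap_valSubtype_injective A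
      rw [map_mul, map_mul, ← h.2.2.2, ← h'.2.2.2, map_inv₀]
      field_simp
    have key' := congrArg (coeffMap (IsLocalRing.residue A)) key
    rw [map_mul, map_mul, ha0, zero_mul] at key'
    exact mul_ne_zero h.2.2.1 h'.2.2.1 key'.symm
  · intro hnu
    by_contra hne
    have hpa : coeffMap (IsLocalRing.residue A) a ≠ 0 := fun h0 => hne (by rw [h0, zero_div])
    rcases hnu with hf0 | hinv
    · apply hpa
      have h1 := h.2.2.2
      rw [hf0, map_zero, zero_mul] at h1
      have : a = 0 := coeffMap_valSubtype_injective A (by rw [← h1, map_zero])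
      rw [this, map_zero]
    · apply hinv
      rw [mem_vmidO_iff, map_inv₀]
      exact ⟨b, a, h.inv hpa⟩

end Field

end Fermat.Agent.S36lib

end
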