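/-
Item 83 (S36), block V (helper8): the ARCHIMEDEAN hypotheses `harch*` of `s36_hrad_of_saturated`
(`Hrad`) on `F0(L)`, from the discreteness `VDisc.lean`, for the three valuations:
a non-unit `z ∈ F0(L)` of `O∞`, `O0` has `z / q ∈ O`, a non-unit of `O_mid` has `z ^ (q-1) / q ∈ O`.

* `varch_of_unit`, `varch_restrict` : generic (any `O`, from the unit form of discreteness);
* `VdGauss.const_mem` : constants of `A` lie in `O`;
* `vdGauss_vmidO` : helper18's `vmidO` contains the Gauss unit ball of `E`;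
* `vdisc_vmid`, `vdisc_vmid_pow` : V-F for `vmidO`;
* `varch_inf`, `varch_zero`, `varch_mid` : `harchInf`, `harchZero`, `harchMid`.
-/
import Mathlib
import Fermat.Agent.S36lib.VDisc
import Fermat.Agent.S36lib.VMid
import Fermat.Agent.S36lib.SetupRed

set_option autoImplicit false
set_option linter.unusedSectionVars false
set_option linter.style.haveILetI false

noncomputable section

namespace Fermat.Agent.S36lib

open ModularCurve HahnSeries AlgebraicCurve
open Fermat.Agent.GoodRed Fermat.Agent.S24lib Fermat.Agent.S34lib Fermat.Agent.S37lib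
  Fermat.Agent.HeckeBar

section Arch

variable (A : ValuationSubring Kbar) {q : ℕ} {L : ℕ} [NeZero L]

/-- **the archimedean property over `q` on `F0(L)`** from the unit form of discreteness:
a non-unit `z ∈ F0(L)` of `O` has `z ^ m / q ∈ O`. -/
theorem varch_of_unit (O : ValuationSubring (FF L)) (hq : q.Prime)
    (hqO : algebraMap Kbar (FF L) (q : Kbar) ∈ O) (m : ℕ) (hm : 0 < m)
    (hunit : ∀ f ∈ f0Field A L, f ≠ 0 →
      ∃ n : ℤ, algebraMap Kbar (FF L) ((q : Kbar) ^ n) * f ^ m ∈ O ∧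
        (algebraMap Kbar (FF L) ((q : Kbar) ^ n) * f ^ m)⁻¹ ∈ O)
    {z : FF L} (hzF : z ∈ f0Field A L) (hz : z ∈ O.nonunits) :
    z ^ m * (algebraMap Kbar (FF L) (q : Kbar))⁻¹ ∈ O := by
  by_cases hz0 : z = 0
  · rw [hz0, zero_pow (Nat.pos_iff_ne_zero.mp hm), zero_mul]
    exact O.zero_mem
  have hq0 : (q : Kbar) ≠ 0 := Nat.cast_ne_zero.mpr hq.ne_zero
  have hQ0 : algebraMap Kbar (FF L) (q : Kbar) ≠ 0 := (map_ne_zero _).mpr hq0
  obtain ⟨n, hu, hu'⟩ := hunit z hzF hz0
  have hzO : z ∈ O := O.nonunits_le hz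
  have hzinv : z⁻¹ ∉ O := by
    intro h
    have h1 : O.valuation z < 1 := (O.mem_nonunits_iff).mp hz
    have h2 : O.valuation z⁻¹ ≤ 1 := (O.valuation_le_one_iff _).mpr h
    rw [map_inv₀] at h2
    have h3 : O.valuation z ≠ 0 := (Valuation.ne_zero_iff _).mpr hz0
    have h4 := (inv_le_one₀ (zero_lt_iff.mpr h3)).mp h2
    exact absurd h1 (not_lt.mpr h4)
  have hpowO : ∀ k : ℕ, algebraMap Kbar (FF L) ((q : Kbar) ^ (k : ℤ)) ∈ O := by
    intro k
    rw [zpow_natCast, map_pow]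
    exact pow_mem hqO k
  have hn : n ≤ -1 := by
    by_contra hcon
    have hn0 : 0 ≤ n := by omega
    apply hzinv
    -- `z⁻¹ = z^(m-1) · q^n · u⁻¹`
    have e : z⁻¹ = z ^ (m - 1) * (algebraMap Kbar (FF L) ((q : Kbar) ^ n)
        * (algebraMap Kbar (FF L) ((q : Kbar) ^ n) * z ^ m)⁻¹) := by
      have hc : algebraMap Kbar (FF L) ((q : Kbar) ^ n) ≠ 0 :=
        (map_ne_zero _).mpr (zpow_ne_zero _ hq0)
      obtain ⟨m', rfl⟩ : ∃ m', m = m' + 1 := ⟨m - 1, by omega⟩
      rw [Nat.add_sub_cancel, mul_inv, ← mul_assoc _ _ (z ^ (m' + 1))⁻¹, mul_inv_cancel₀ hc,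
        one_mul, pow_succ, mul_inv, ← mul_assoc, mul_inv_cancel₀ (pow_ne_zero _ hz0), one_mul]
    rw [e]
    refine O.mul_mem _ _ (pow_mem hzO _) (O.mul_mem _ _ ?_ hu')
    have := hpowO n.toNat
    rwa [Int.toNat_of_nonneg hn0] at this
  -- `z^m / q = q^(-n-1) · u`
  have e : z ^ m * (algebraMap Kbar (FF L) (q : Kbar))⁻¹
      = algebraMap Kbar (FF L) ((q : Kbar) ^ (((-n - 1).toNat : ℕ) : ℤ))
        * (algebraMap Kbar (FF L) ((q : Kbar) ^ n) * z ^ m) := by
    rw [Int.toNat_of_nonneg (by omega), ← mul_assoc, ← map_mul, ← zpow_add₀ hq0]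
    have : -n - 1 + n = -1 := by ring
    rw [this, zpow_neg_one, map_inv₀, mul_comm]
  rw [e]
  exact O.mul_mem _ _ (hpowO _) hu

/-- non-units of the restriction to `F0(L)` -/
theorem varch_nonunits_comap (O : ValuationSubring (FF L)) (z : f0Field A L)
    (hz : z ∈ (O.comap (algebraMap (f0Field A L) (FF L))).nonunits) :
    (z : FF L) ∈ O.nonunits := by
  rw [ValuationSubring.mem_nonunits_iff_exists_mem_maximalIdeal] at hz ⊢
  obtain ⟨hx, hm⟩ := hz
  refine ⟨hx, ?_⟩
  rw [IsLocalRing.mem_maximalIdeal, mem_nonunits_iff] at hm ⊢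
  intro hu
  apply hm
  obtain ⟨y, hy⟩ := isUnit_iff_exists_inv.mp hu
  have hy' : (z : FF L) * (y : FF L) = 1 := by
    have := congrArg (fun t : O => (t : FF L)) hy
    simpa using this
  have hz0 : (z : FF L) ≠ 0 := left_ne_zero_of_mul_eq_one hy'
  have hyz : (y : FF L) = ((z⁻¹ : f0Field A L) : FF L) := by
    have h1 : ((z⁻¹ : f0Field A L) : FF L) = (z : FF L)⁻¹ := rfl
    rw [h1]
    exact eq_inv_of_mul_eq_one_right hy'
  have hzi : (z⁻¹ : f0Field A L) ∈ O.comap (algebraMap (f0Field A L) (FF L)) := by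
    show ((z⁻¹ : f0Field A L) : FF L) ∈ O
    rw [← hyz]
    exact y.2
  refine isUnit_iff_exists_inv.mpr ⟨⟨z⁻¹, hzi⟩, ?_⟩
  apply Subtype.ext
  show z * z⁻¹ = 1
  exact mul_inv_cancel₀ (fun h => hz0 (by rw [h]; rfl))

/-- the archimedean property, in the shape of `harch*` of `s36_hrad_of_saturated` for a
restriction to `F0(L)`. -/
theorem varch_restrict (O : ValuationSubring (FF L)) (hq : q.Prime)
    (hqO : algebraMap Kbar (FF L) (q : Kbar) ∈ O) (m : ℕ) (hm : 0 < m)
    (hunit : ∀ f ∈ f0Field A L, f ≠ 0 →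
      ∃ n : ℤ, algebraMap Kbar (FF L) ((q : Kbar) ^ n) * f ^ m ∈ O ∧
        (algebraMap Kbar (FF L) ((q : Kbar) ^ n) * f ^ m)⁻¹ ∈ O)
    (z : f0Field A L) (hz : z ∈ (O.comap (algebraMap (f0Field A L) (FF L))).nonunits) :
    ∃ n : ℕ, z ^ n * (algebraMap (k0Field A) (f0Field A L)
      ((((q : k0Val A) : k0Val A) : k0Field A)))⁻¹
        ∈ O.comap (algebraMap (f0Field A L) (FF L)) := by
  refine ⟨m, ?_⟩
  have h := varch_of_unit A O hq hqO m hm hunit z.2 (varch_nonunits_comap A O z hz)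
  show ((z ^ m * (algebraMap (k0Field A) (f0Field A L)
      ((((q : k0Val A) : k0Val A) : k0Field A)))⁻¹ : f0Field A L) : FF L) ∈ O
  have e : ((z ^ m * (algebraMap (k0Field A) (f0Field A L)
      ((((q : k0Val A) : k0Val A) : k0Field A)))⁻¹ : f0Field A L) : FF L) =
      (z : FF L) ^ m * (algebraMap Kbar (FF L) (q : Kbar))⁻¹ := by
    push_cast
    simp
  rw [e]
  exact h

end Arch

section Inst

variable (A : ValuationSubring Kbar) {q : ℕ} {L : ℕ} [NeZero L]

/-- constants of `A` lie in a valuation ring containing the Gauss unit ball -/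
theorem VdGauss.const_mem {E : FF L →+* LaurentSeries Kbar} {O : ValuationSubring (FF L)}
    (hO : VdGauss A L E O) (hEC : ∀ c : Kbar, E (algebraMap Kbar (FF L) c) = HahnSeries.C c)
    {c : Kbar} (hc : c ∈ A) : algebraMap Kbar (FF L) c ∈ O := by
  rcases eq_or_lt_of_le ((A.valuation_le_one_iff c).mpr hc) with h | h
  · exact (hO.const_unit hEC h).1
  · have h1 : A.valuation (1 + c) = 1 := by
      have := Valuation.map_add_eq_of_lt_left A.valuation (x := (1 : Kbar)) (y := c)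
        (by rw [map_one]; exact h)
      rw [this, map_one]
    have h2 := (hO.const_unit hEC h1).1
    have e : algebraMap Kbar (FF L) c = algebraMap Kbar (FF L) (1 + c) - 1 := by
      rw [map_add, map_one]
      ring
    rw [e]
    exact sub_mem h2 O.one_mem

/-- **`harchInf`** : a non-unit `z ∈ F0(L)` of `O∞` has `z / q ∈ O∞`. -/
theorem varch_inf (hq : q.Prime) (hA : A.LiesOverPrime q)
    {Fk : IntermediateField (IsLocalRing.ResidueField A)
      (LaurentSeries (IsLocalRing.ResidueField A))}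
    {R : ConstRed A (IsLocalRing.residue A) (↥Fk) (FF L)} (hR : IsSeriesRed R)
    (z : f0Field A L) (hz : z ∈ (R.O.comap (algebraMap (f0Field A L) (FF L))).nonunits) :
    ∃ n : ℕ, z ^ n * (algebraMap (k0Field A) (f0Field A L)
      ((((q : k0Val A) : k0Val A) : k0Field A)))⁻¹
        ∈ R.O.comap (algebraMap (f0Field A L) (FF L)) := by
  have hqA : (q : Kbar) ∈ A := A.nonunits_le hA
  refine varch_restrict A R.O hq (R.algebraMap_mem ⟨(q : Kbar), hqA⟩) 1 Nat.one_pos ?_ z hz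
  intro f hf hf0
  rw [pow_one]
  exact vdisc_inf hq hA hR hf hf0

/-- **`harchZero`** : a non-unit `z ∈ F0(L')` of `O0 = w⁻¹ O∞` has `z / q ∈ O0`. -/
theorem varch_zero (hq : q.Prime) (hA : A.LiesOverPrime q)
    {Fk : IntermediateField (IsLocalRing.ResidueField A)
      (LaurentSeries (IsLocalRing.ResidueField A))}
    {R : ConstRed A (IsLocalRing.residue A) (↥Fk) (FF L)} (hR : IsSeriesRed R)
    {L' : ℕ} [NeZero L'] (w : FF L' ≃ₐ[Kbar] FF L) (hw : ∀ x ∈ f0Field A L', w x ∈ f0Field A L)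
    (O' : ValuationSubring (FF L')) (hO' : ∀ x, x ∈ O' ↔ w x ∈ R.O)
    (z : f0Field A L') (hz : z ∈ (O'.comap (algebraMap (f0Field A L') (FF L'))).nonunits) :
    ∃ n : ℕ, z ^ n * (algebraMap (k0Field A) (f0Field A L')
      ((((q : k0Val A) : k0Val A) : k0Field A)))⁻¹
        ∈ O'.comap (algebraMap (f0Field A L') (FF L')) := by
  have hqA : (q : Kbar) ∈ A := A.nonunits_le hA
  have hqO : algebraMap Kbar (FF L') (q : Kbar) ∈ O' := by
    rw [hO', AlgEquiv.commutes]
    exact R.algebraMap_mem ⟨(q : Kbar), hqA⟩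
  refine varch_restrict A O' hq hqO 1 Nat.one_pos ?_ z hz
  intro f hf hf0
  rw [pow_one]
  obtain ⟨n, h1, h2⟩ := vdisc_zero hq hA hR w hw hf hf0
  refine ⟨n, (hO' _).mpr ((mem_inredComap_O R w _).mp h1), (hO' _).mpr ?_⟩
  exact (mem_inredComap_O R w _).mp h2

end Inst

section Mid

variable (A : ValuationSubring Kbar) {M' q : ℕ} [NeZero M'] [NeZero q]
variable {ζ : Kbarˣ} {E : FF (M' * q * q) →+* LaurentSeries Kbar}

/-- helper18's middle valuation ring contains the Gauss unit ball of `E` -/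
theorem vdGauss_vmidO (hq : q.Prime) (hlt : A.valuation (q : Kbar) < 1) (hζ : ζ ^ q = 1)
    (hE : IsMidExp M' q ζ E) : VdGauss A (M' * q * q) E (vmidO A hq hlt hζ hE) := by
  intro x a hxa hpa
  have ha0 : coeffMap A.subtype a ≠ 0 := by
    intro h0
    have : a = 0 := coeffMap_valSubtype_injective A (by rw [h0, map_zero])
    exact hpa (by rw [this, map_zero])
  have hx0 : E x ≠ 0 := by rw [hxa]; exact ha0
  have hmem : coeffMap A.subtype a ∈ vmidField hE := by
    rw [← hxa]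
    exact vmid_apply_mem hE x
  have h1 : coeffMap A.subtype (1 : LaurentSeries A) ∈ vmidField hE := by
    rw [map_one]
    exact one_mem _
  have hp1 : coeffMap (IsLocalRing.residue A) (1 : LaurentSeries A) ≠ 0 := by
    rw [map_one]
    exact one_ne_zero
  constructor
  · rw [mem_vmidO_iff]
    exact ⟨a, 1, hmem, h1, hp1, by rw [map_one, mul_one, hxa]⟩
  · rw [mem_vmidO_iff]
    refine ⟨1, a, h1, hmem, hpa, ?_⟩
    rw [map_inv₀, map_one, ← hxa, inv_mul_cancel₀ hx0]

/-- **V-F for `vmidO`**, first form -/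
theorem vdisc_vmid (hq : q.Prime) (hA : A.LiesOverPrime q)
    (hζ : IsPrimitiveRoot (ζ : Kbar) q) (hE : IsMidExp M' q ζ E)
    {f : FF (M' * q * q)} (hf : f ∈ f0Field A (M' * q * q)) (hf0 : f ≠ 0) :
    ∃ n : ℤ, algebraMap Kbar (FF (M' * q * q)) (((ζ : Kbar) - 1) ^ n) * f
        ∈ vmidO A hq (k0_val_q_lt_one A q hA) (Units.ext (by simpa using hζ.pow_eq_one)) hE ∧
      (algebraMap Kbar (FF (M' * q * q)) (((ζ : Kbar) - 1) ^ n) * f)⁻¹
        ∈ vmidO A hq (k0_val_q_lt_one A q hA) (Units.ext (by simpa using hζ.pow_eq_one)) hE :=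
  vdisc_mid hq hA ζ hζ E hE.const hE.alpha hE.beta (vdGauss_vmidO A hq _ _ hE) hf hf0

/-- **V-F for `vmidO`** -/
theorem vdisc_vmid_pow (hq : q.Prime) (hA : A.LiesOverPrime q)
    (hζ : IsPrimitiveRoot (ζ : Kbar) q) (hE : IsMidExp M' q ζ E)
    {f : FF (M' * q * q)} (hf : f ∈ f0Field A (M' * q * q)) (hf0 : f ≠ 0) :
    ∃ n : ℤ, algebraMap Kbar (FF (M' * q * q)) ((q : Kbar) ^ n) * f ^ (q - 1)
        ∈ vmidO A hq (k0_val_q_lt_one A q hA) (Units.ext (by simpa using hζ.pow_eq_one)) hE ∧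
      (algebraMap Kbar (FF (M' * q * q)) ((q : Kbar) ^ n) * f ^ (q - 1))⁻¹
        ∈ vmidO A hq (k0_val_q_lt_one A q hA) (Units.ext (by simpa using hζ.pow_eq_one)) hE :=
  vdisc_mid_pow hq hA ζ hζ E hE.const hE.alpha hE.beta (vdGauss_vmidO A hq _ _ hE) hf hf0

/-- **`harchMid`** : a non-unit `z ∈ F0(M'q²)` of `O_mid` has `z ^ (q-1) / q ∈ O_mid`. -/
theorem varch_mid (hq : q.Prime) (hA : A.LiesOverPrime q)
    (hζ : IsPrimitiveRoot (ζ : Kbar) q) (hE : IsMidExp M' q ζ E)
    (hlt : A.valuation (q : Kbar) < 1) (hζq : ζ ^ q = 1)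
    (z : f0Field A (M' * q * q))
    (hz : z ∈ ((vmidO A hq hlt hζq hE).comap
      (algebraMap (f0Field A (M' * q * q)) (FF (M' * q * q)))).nonunits) :
    ∃ n : ℕ, z ^ n * (algebraMap (k0Field A) (f0Field A (M' * q * q))
      ((((q : k0Val A) : k0Val A) : k0Field A)))⁻¹
        ∈ (vmidO A hq hlt hζq hE).comap
          (algebraMap (f0Field A (M' * q * q)) (FF (M' * q * q))) := by
  have hqA : (q : Kbar) ∈ A := A.nonunits_le hA
  have hEC : ∀ c : Kbar, E (algebraMap Kbar (FF (M' * q * q)) c) = HahnSeries.C c := by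
    intro c
    rw [hE.const, algebraMap_laurentSeries_eq_single]
    rfl
  have hG := vdGauss_vmidO A hq hlt hζq hE
  have h2 : 2 ≤ q := hq.two_le
  refine varch_restrict A _ hq (hG.const_mem A hEC hqA) (q - 1) (by omega) ?_ z hz
  intro f hf hf0
  exact vdisc_mid_pow hq hA ζ hζ E hE.const hE.alpha hE.beta hG hf hf0

end Mid

end Fermat.Agent.S36lib

end
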