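/-
Item 83 (S36), block V (helper8): the Atkin–Lehner involutions preserve `F0(L) = K0(j_d : d ∣ L)`
(the hypothesis `hw` of `vdisc_zero` / `varch_zero`), and the resulting statements at `O0`.

* `alQ_mem_f0Field`, `alQ_mem_f0Field_iff`, `alW1_mem_f0Field`, `alW2_mem_f0Field`,
  `atkinLehnerFF_mem_f0Field`;
* `vdisc_zero_alQ`, `varch_zero_alQ` : V-F and `harchZero` for `O0 = w_Q⁻¹ O∞`.
-/
import Mathlib
import Fermat.Agent.S36lib.VArch
import Fermat.Agent.S36lib.ALBridge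

set_option autoImplicit false
set_option linter.unusedSectionVars false
set_option linter.style.haveILetI false

noncomputable section

namespace Fermat.Agent.S36lib

open ModularCurve HahnSeries AlgebraicCurve
open Fermat.Agent.GoodRed Fermat.Agent.S24lib Fermat.Agent.S34lib Fermat.Agent.S37lib
  Fermat.Agent.HeckeBar

section AL

variable (A : ValuationSubring Kbar) (N : ℕ) [NeZero N] (Q : ℕ) (hQ : Q ∣ N)
  (hcop : Nat.Coprime Q (N / Q))

/-- **`w_Q` preserves `F0(N)`** -/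
theorem alQ_mem_f0Field {x : FF N} (hx : x ∈ f0Field A N) : alQ N Q hQ hcop x ∈ f0Field A N := by
  have hx' : x ∈ IntermediateField.adjoin (k0Field A) (f0Gens N) := hx
  induction hx' using IntermediateField.adjoin_induction with
  | mem y hy =>
      obtain ⟨d, hd, hne, rfl⟩ := hy
      haveI : NeZero (alqSwap Q d) := ⟨alqSwap_ne_zero (NeZero.ne N) hQ hcop hd⟩
      rw [alQ_jdF]
      exact jdF_mem_f0Field A N _ _
  | algebraMap c =>
      have e : algebraMap (k0Field A) (FF N) c = algebraMap Kbar (FF N) (c : Kbar) := rfl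
      rw [e, AlgEquiv.commutes]
      exact const_mem_f0Field A N c
  | add a b ha hb iha ihb =>
      rw [map_add]
      exact add_mem (iha ha) (ihb hb)
  | inv a ha iha =>
      rw [map_inv₀]
      exact inv_mem (iha ha)
  | mul a b ha hb iha ihb =>
      rw [map_mul]
      exact mul_mem (iha ha) (ihb hb)

theorem alQ_mem_f0Field_iff (x : FF N) : alQ N Q hQ hcop x ∈ f0Field A N ↔ x ∈ f0Field A N := by
  constructor
  · intro h
    have := alQ_mem_f0Field A N Q hQ hcop h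
    rwa [alQ_involutive] at this
  · exact alQ_mem_f0Field A N Q hQ hcop

/-- `atkinLehnerFF` (S34) preserves `F0(N)` -/
theorem atkinLehnerFF_mem_f0Field {q : ℕ} (hq : q.Prime) (hqN : q ∣ N) (hq2 : ¬ q ^ 2 ∣ N)
    {x : FF N} (hx : x ∈ f0Field A N) : atkinLehnerFF N q hq hqN hq2 x ∈ f0Field A N := by
  have hcop : Nat.Coprime q (N / q) := by
    rw [Nat.Prime.coprime_iff_not_dvd hq]
    intro h
    apply hq2
    obtain ⟨t, ht⟩ := h
    refine ⟨t, ?_⟩
    have h1 : N = q * (N / q) := (Nat.mul_div_cancel' hqN).symm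
    rw [h1, ht]
    ring
  rw [← alQ_eq_atkinLehnerFF N hq hqN hq2 hcop]
  exact alQ_mem_f0Field A N q hqN hcop hx

end AL

section Levels

variable (A : ValuationSubring Kbar) (M' : ℕ) [NeZero M'] {q : ℕ} [NeZero q]
  (hq : q.Prime) (hqM : ¬ q ∣ M')

/-- `w₁ = w_q` preserves `F0(M'q)` -/
theorem alW1_mem_f0Field {x : FF (M' * q)} (hx : x ∈ f0Field A (M' * q)) :
    alW1 M' hq hqM x ∈ f0Field A (M' * q) :=
  atkinLehnerFF_mem_f0Field A (M' * q) hq _ _ hx

/-- `w₂ = w_{q²}` preserves `F0(M'q²)` -/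
theorem alW2_mem_f0Field {x : FF (M' * q * q)} (hx : x ∈ f0Field A (M' * q * q)) :
    alW2 M' hq hqM x ∈ f0Field A (M' * q * q) :=
  alQ_mem_f0Field A (M' * q * q) (q * q) _ _ hx

end Levels

section Zero

variable (A : ValuationSubring Kbar) {q : ℕ} (N : ℕ) [NeZero N] (Q : ℕ) (hQ : Q ∣ N)
  (hcop : Nat.Coprime Q (N / Q))

/-- **V-F at `0`** for `O0 = w_Q⁻¹ O∞` -/
theorem vdisc_zero_alQ (hq : q.Prime) (hA : A.LiesOverPrime q)
    {Fk : IntermediateField (IsLocalRing.ResidueField A)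
      (LaurentSeries (IsLocalRing.ResidueField A))}
    {R : ConstRed A (IsLocalRing.residue A) (↥Fk) (FF N)} (hR : IsSeriesRed R)
    {f : FF N} (hf : f ∈ f0Field A N) (hf0 : f ≠ 0) :
    ∃ n : ℤ, alQ N Q hQ hcop (algebraMap Kbar (FF N) ((q : Kbar) ^ n) * f) ∈ R.O ∧
      (alQ N Q hQ hcop (algebraMap Kbar (FF N) ((q : Kbar) ^ n) * f))⁻¹ ∈ R.O :=
  vdisc_comap (alQ N Q hQ hcop) (fun _ hx => alQ_mem_f0Field A N Q hQ hcop hx)
    (fun _ hg hg0 => vdisc_inf hq hA hR hg hg0) hf hf0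

/-- **`harchZero`** for `O0 = w_Q⁻¹ O∞` (any `O'` with `x ∈ O' ↔ w_Q x ∈ O∞`) -/
theorem varch_zero_alQ (hq : q.Prime) (hA : A.LiesOverPrime q)
    {Fk : IntermediateField (IsLocalRing.ResidueField A)
      (LaurentSeries (IsLocalRing.ResidueField A))}
    {R : ConstRed A (IsLocalRing.residue A) (↥Fk) (FF N)} (hR : IsSeriesRed R)
    (O' : ValuationSubring (FF N)) (hO' : ∀ x, x ∈ O' ↔ alQ N Q hQ hcop x ∈ R.O)
    (z : f0Field A N) (hz : z ∈ (O'.comap (algebraMap (f0Field A N) (FF N))).nonunits) :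
    ∃ n : ℕ, z ^ n * (algebraMap (k0Field A) (f0Field A N)
      ((((q : k0Val A) : k0Val A) : k0Field A)))⁻¹
        ∈ O'.comap (algebraMap (f0Field A N) (FF N)) :=
  varch_zero A hq hA hR (alQ N Q hQ hcop) (fun _ hx => alQ_mem_f0Field A N Q hQ hcop hx) O' hO'
    z hz

end Zero

end Fermat.Agent.S36lib

end
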