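import Mathlib
import Fermat.Agent.S36lib.Speed

/-!
# S36 (Carayol at `q² ∥ M`), abstract piece: the "UFD lemma" (helper20, NOTES/S36_invert_helper20.md §3)

`s36_isPrincipal_of_quotient_principal`: `O` a Noetherian local ring, `x ∈ 𝔪`, every ideal of
`O ⧸ (x)` principal (e.g. `O ⧸ (x)` a DVR).  Then every prime ideal `P ∌ x` of `O` is principal.

Proof: `P ∩ xO = xP`; the image of `P` in `O ⧸ (x)` is generated by the image of some `g ∈ P`;
so `P ⊆ gO + xP ⊆ gO + 𝔪 P`, and `P = gO` by Nakayama.
-/

set_option autoImplicit false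

namespace Fermat.Agent.S36lib

open IsLocalRing

/-- for a prime `P ∌ x`: `P ∩ xO ⊆ x P`. -/
theorem s36_mem_smul_of_mul_mem {O : Type*} [CommRing O] (P : Ideal O) [P.IsPrime] (x : O)
    (hx : x ∉ P) {y : O} (hy : y ∈ P) (hyx : y ∈ Ideal.span {x}) :
    y ∈ Ideal.span {x} • P := by
  obtain ⟨a, rfl⟩ := Ideal.mem_span_singleton'.1 hyx
  have ha : a ∈ P := ((Ideal.IsPrime.mem_or_mem ‹P.IsPrime› hy).resolve_right hx)
  rw [mul_comm]
  exact Ideal.mul_mem_mul (Ideal.mem_span_singleton_self x) ha

/-- **UFD lemma**: in a Noetherian local ring `O` with `x ∈ 𝔪` such that every ideal of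
`O ⧸ (x)` is principal, every prime ideal not containing `x` is principal. -/
theorem s36_isPrincipal_of_quotient_principal {O : Type*} [CommRing O] [IsLocalRing O]
    [IsNoetherianRing O] (x : O) (hxm : x ∈ maximalIdeal O)
    (hq : IsPrincipalIdealRing (O ⧸ Ideal.span {x}))
    (P : Ideal O) [P.IsPrime] (hx : x ∉ P) : Submodule.IsPrincipal P := by
  set I : Ideal O := Ideal.span {x} with hI
  have hsurj : Function.Surjective (Ideal.Quotient.mk I) := Ideal.Quotient.mk_surjective
  -- a generator of the image of `P`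
  obtain ⟨gbar, hgbar⟩ := (hq.principal (P.map (Ideal.Quotient.mk I))).principal
  have hgmem : gbar ∈ P.map (Ideal.Quotient.mk I) := by
    rw [hgbar]
    exact Submodule.mem_span_singleton_self gbar
  rw [Ideal.mem_map_iff_of_surjective _ hsurj] at hgmem
  obtain ⟨g, hgP, rfl⟩ := hgmem
  refine ⟨⟨g, ?_⟩⟩
  refine le_antisymm ?_ ?_
  · -- Nakayama
    have hle : P ≤ Ideal.span {g} ⊔ maximalIdeal O • P := by
      intro p hp
      have h1 : Ideal.Quotient.mk I p ∈ P.map (Ideal.Quotient.mk I) := Ideal.mem_map_of_mem _ hp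
      rw [hgbar] at h1
      obtain ⟨abar, ha⟩ := Submodule.mem_span_singleton.1 h1
      obtain ⟨a, rfl⟩ := hsurj abar
      rw [smul_eq_mul, ← map_mul] at ha
      have h2 : p - a * g ∈ I := by
        rw [← Ideal.Quotient.eq]
        exact ha.symm
      have h3 : p - a * g ∈ P := P.sub_mem hp (P.mul_mem_left a hgP)
      have h4 : p - a * g ∈ I • P := s36_mem_smul_of_mul_mem P x hx h3 h2
      have h5 : I • P ≤ maximalIdeal O • P :=
        Submodule.smul_mono_left ((Ideal.span_singleton_le_iff_mem _).2 hxm)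
      have h6 : p = a * g + (p - a * g) := by ring
      rw [h6]
      exact Submodule.add_mem_sup (Ideal.mul_mem_left _ a (Ideal.mem_span_singleton_self g))
        (h5 h4)
    exact Submodule.le_of_le_smul_of_le_jacobson_bot (IsNoetherian.noetherian P)
      (le_of_eq (IsLocalRing.jacobson_eq_maximalIdeal ⊥ bot_ne_top).symm) hle
  · rw [Submodule.span_singleton_le_iff_mem]
    exact hgP

/-- the same for `O ⧸ (x)` a discrete valuation ring. -/
theorem s36_isPrincipal_of_quotient_dvr {O : Type*} [CommRing O] [IsLocalRing O]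
    [IsNoetherianRing O] (x : O) (hxm : x ∈ maximalIdeal O)
    [IsDomain (O ⧸ Ideal.span {x})] [IsDiscreteValuationRing (O ⧸ Ideal.span {x})]
    (P : Ideal O) [P.IsPrime] (hx : x ∉ P) : Submodule.IsPrincipal P :=
  s36_isPrincipal_of_quotient_principal x hxm inferInstance P hx

end Fermat.Agent.S36lib
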