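import Mathlib
import Fermat.Agent.S36lib.PrincipalPrime

/-!
# S36 (Carayol at `q² ∥ M`), piece M-1: abstract algebra of (MOVE)/(UNIT)
(NOTES/S36_invert_helper20.md §3-4, NOTES/S36_blueprint.md §3 MOVE M-1).  Mathlib only.

* `s36_ufm_of_quotient_dvr` : `O` Noetherian local domain, `x ∈ 𝔪`, `O ⧸ (x)` a DVR
  ⇒ `O` is a UFD.
* `s36_exists_mem_generating_at` (CRT): finitely many distinct maximal ideals `t i` of `R`,
  `I` an ideal with `I · R_{t i}` principal for all `i` ⇒ there is ONE `g ∈ I` generating
  `I · R_{t i}` for all `i`.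
* `s36_isPrincipal_of_locally_principal` : in a semilocal ring a locally principal ideal is
  principal.
* `s36_ufm_of_semilocal` : a semilocal Noetherian domain whose localisations at the maximal
  ideals are UFDs is a UFD.
* `s36_exists_zpow_factorization` : in the fraction field of a UFD every `f ≠ 0` is
  `unit · ∏ π ^ n π` over finitely many pairwise non-associated primes.
* `s36_move_of_factorization`, `s36_unit_monomial`, `s36_move_unit` : (MOVE)+(UNIT).
-/

set_option autoImplicit false

namespace Fermat.Agent.S36lib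

open IsLocalRing

/-! ### (A1) the UFD lemma -/

/-- **UFD lemma**: a Noetherian local domain `O` with `x ∈ 𝔪` such that `O ⧸ (x)` is a DVR is a
unique factorisation domain. -/
theorem s36_ufm_of_quotient_dvr {O : Type*} [CommRing O] [IsDomain O] [IsLocalRing O]
    [IsNoetherianRing O] (x : O) (hxm : x ∈ maximalIdeal O)
    [IsDomain (O ⧸ Ideal.span {x})] [IsDiscreteValuationRing (O ⧸ Ideal.span {x})] :
    UniqueFactorizationMonoid O := by
  refine UniqueFactorizationMonoid.of_forall_isPrincipal_of_height_eq_one ?_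
  intro P hP h1
  by_cases hx : x ∈ P
  · by_cases hx0 : x = 0
    · -- `O ≃ O ⧸ (0)` is a principal ideal ring
      have hbot : Ideal.span {x} = (⊥ : Ideal O) := Ideal.span_singleton_eq_bot.2 hx0
      have hPIR : IsPrincipalIdealRing O :=
        IsPrincipalIdealRing.of_surjective
          (((Ideal.quotEquivOfEq hbot).trans (RingEquiv.quotientBot O)).toRingHom)
          ((Ideal.quotEquivOfEq hbot).trans (RingEquiv.quotientBot O)).surjective
      exact hPIR.principal P
    · have hprime : Prime x := by
        rw [← Ideal.span_singleton_prime hx0]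
        exact (Ideal.Quotient.isDomain_iff_prime _).1 inferInstance
      exact ⟨x, P.eq_span_singleton_of_height_eq_one h1 hx hprime⟩
  · exact s36_isPrincipal_of_quotient_dvr x hxm P hx

/-! ### (A2) CRT: one generator at finitely many maximal ideals -/

/-- CRT idempotents modulo finitely many distinct maximal ideals. -/
theorem s36_exists_crt_delta {R ι : Type*} [CommRing R] [Finite ι] [DecidableEq ι]
    (t : ι → Ideal R) [∀ i, (t i).IsMaximal] (hinj : Function.Injective t) :
    ∃ e : ι → R, ∀ i j, (if j = i then (1 : R) else 0) - e i ∈ t j := by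
  have hcop : Pairwise (Function.onFun IsCoprime t) := fun i j hij =>
    Ideal.isCoprime_of_isMaximal (fun h => hij (hinj h))
  have key : ∀ i, ∃ r : R, ∀ j, r - (if j = i then (1 : R) else 0) ∈ t j := fun i =>
    Ideal.exists_forall_sub_mem_ideal hcop (fun j => if j = i then (1 : R) else 0)
  choose e he using key
  refine ⟨e, fun i j => ?_⟩
  have := (t j).neg_mem (he i j)
  rwa [neg_sub] at this

/-- **(MOVE), CRT form**: if `I · R_{t i}` is principal for finitely many distinct maximal ideals
`t i`, then a single `g ∈ I` generates `I · R_{t i}` for all `i`. -/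
theorem s36_exists_mem_generating_at {R ι : Type*} [CommRing R] [Finite ι]
    (t : ι → Ideal R) [∀ i, (t i).IsMaximal] (hinj : Function.Injective t) (I : Ideal R)
    (h : ∀ i, (I.map (algebraMap R (Localization.AtPrime (t i)))).IsPrincipal) :
    ∃ g ∈ I, ∀ i, I.map (algebraMap R (Localization.AtPrime (t i))) =
      Ideal.span {algebraMap R (Localization.AtPrime (t i)) g} := by
  classical
  let _ : Fintype ι := Fintype.ofFinite ι
  -- local generators coming from `I`
  have hloc : ∀ i, ∃ a ∈ I, I.map (algebraMap R (Localization.AtPrime (t i))) =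
      Ideal.span {algebraMap R (Localization.AtPrime (t i)) a} := by
    intro i
    obtain ⟨γ, hγ⟩ := (h i).principal
    have hγmem : γ ∈ I.map (algebraMap R (Localization.AtPrime (t i))) := by
      rw [hγ]; exact Submodule.mem_span_singleton_self γ
    obtain ⟨⟨a, s⟩, has⟩ :=
      (IsLocalization.mem_map_algebraMap_iff (t i).primeCompl (Localization.AtPrime (t i))).1 hγmem
    refine ⟨a.1, a.2, ?_⟩
    have hu : IsUnit (algebraMap R (Localization.AtPrime (t i)) s.1) :=
      IsLocalization.map_units (Localization.AtPrime (t i)) s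
    have hγ' : I.map (algebraMap R (Localization.AtPrime (t i))) = Ideal.span {γ} := hγ
    rw [hγ', ← has]
    exact (Ideal.span_singleton_mul_right_unit hu γ).symm
  choose a haI ha using hloc
  obtain ⟨e, he⟩ := s36_exists_crt_delta t hinj
  refine ⟨∑ i, e i * a i, I.sum_mem fun i _ => I.mul_mem_left _ (haI i), fun i₀ => ?_⟩
  set φ := algebraMap R (Localization.AtPrime (t i₀)) with hφ
  set g : R := ∑ i, e i * a i with hg
  have hgI : g ∈ I := I.sum_mem fun i _ => I.mul_mem_left _ (haI i)
  refine le_antisymm ?_ ?_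
  · -- Nakayama
    have hdiff : a i₀ - g ∈ t i₀ * I := by
      have h1 : a i₀ - g = ∑ i, ((if i₀ = i then (1 : R) else 0) - e i) * a i := by
        simp only [sub_mul, Finset.sum_sub_distrib, ite_mul, one_mul, zero_mul,
          Finset.sum_ite_eq, Finset.mem_univ, if_true, hg]
      rw [h1]
      exact Ideal.sum_mem _ fun i _ => Ideal.mul_mem_mul (he i i₀) (haI i)
    have hmem : φ (a i₀) ∈
        Ideal.span {φ g} ⊔ maximalIdeal (Localization.AtPrime (t i₀)) • I.map φ := by
      have h2 : φ (a i₀) = φ g + φ (a i₀ - g) := by rw [map_sub]; ring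
      have h3 : φ (a i₀ - g) ∈ (t i₀ * I).map φ := Ideal.mem_map_of_mem _ hdiff
      rw [Ideal.map_mul, IsLocalization.AtPrime.map_eq_maximalIdeal] at h3
      have h4 := Submodule.add_mem_sup (Ideal.mem_span_singleton_self (φ g)) h3
      rwa [← h2] at h4
    have hle : I.map φ ≤
        Ideal.span {φ g} ⊔ maximalIdeal (Localization.AtPrime (t i₀)) • I.map φ := by
      conv_lhs => rw [ha i₀]
      rw [Ideal.span_singleton_le_iff_mem]
      exact hmem
    refine Submodule.le_of_le_smul_of_le_jacobson_bot ?_
      (le_of_eq (IsLocalRing.jacobson_eq_maximalIdeal ⊥ bot_ne_top).symm) hle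
    rw [ha i₀]
    exact Submodule.fg_span_singleton _
  · rw [Ideal.span_singleton_le_iff_mem]
    exact Ideal.mem_map_of_mem _ hgI

/-- in a semilocal ring every locally principal ideal is principal. -/
theorem s36_isPrincipal_of_locally_principal {R : Type*} [CommRing R]
    [Finite (MaximalSpectrum R)] (I : Ideal R)
    (h : ∀ (P : Ideal R) [P.IsMaximal],
      (I.map (algebraMap R (Localization.AtPrime P))).IsPrincipal) :
    I.IsPrincipal := by
  have : ∀ i : MaximalSpectrum R, (i.asIdeal).IsMaximal := fun i => i.isMaximal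
  obtain ⟨g, -, hg⟩ := s36_exists_mem_generating_at (fun i : MaximalSpectrum R => i.asIdeal)
    (fun i j hij => MaximalSpectrum.ext hij) I (fun i => h i.asIdeal)
  refine ⟨⟨g, ?_⟩⟩
  refine Ideal.eq_of_localization_maximal fun P hP => ?_
  have := hg ⟨P, hP⟩
  rw [this, Ideal.map_span, Set.image_singleton]

/-! ### (A3) semilocal + locally UFD ⇒ UFD -/

/-- a semilocal Noetherian domain whose localisations at all maximal ideals are UFDs is a UFD. -/
theorem s36_ufm_of_semilocal {R : Type*} [CommRing R] [IsDomain R] [IsNoetherianRing R]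
    [Finite (MaximalSpectrum R)]
    (h : ∀ (P : Ideal R) [P.IsMaximal], UniqueFactorizationMonoid (Localization.AtPrime P)) :
    UniqueFactorizationMonoid R := by
  refine UniqueFactorizationMonoid.of_forall_isPrincipal_of_height_eq_one ?_
  intro p hp h1
  refine s36_isPrincipal_of_locally_principal p fun P hP => ?_
  by_cases hle : p ≤ P
  · have hd : Disjoint (P.primeCompl : Set R) (p : Set R) := by
      rw [Set.disjoint_left]
      intro a ha hap
      exact ha (hle hap)
    have hprime := IsLocalization.isPrime_of_isPrime_disjoint P.primeCompl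
      (Localization.AtPrime P) p hp hd
    have hufm := h P
    exact UniqueFactorizationMonoid.isPrincipal_of_height_eq_one
      (by rw [IsLocalization.height_map_of_disjoint P.primeCompl p hd, h1])
  · rw [IsLocalization.AtPrime.map_eq_top_of_not_le _ hle]
    exact ⟨⟨1, Ideal.span_singleton_one.symm⟩⟩

/-! ### (A4) factorisation in the fraction field of a UFD -/

/-- every nonzero element of the fraction field of a UFD is `unit · ∏ π ^ n π` over a finite
set of pairwise non-associated prime elements. -/
theorem s36_exists_zpow_factorization {R F : Type*} [CommRing R] [IsDomain R]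
    [UniqueFactorizationMonoid R] [Field F] [Algebra R F] [IsFractionRing R F]
    (f : F) (hf : f ≠ 0) :
    ∃ (s : Finset R) (n : R → ℤ) (u : Rˣ), (∀ π ∈ s, Prime π) ∧
      (∀ π ∈ s, ∀ π' ∈ s, Associated π π' → π = π') ∧
      f = algebraMap R F (u : R) * ∏ π ∈ s, (algebraMap R F π) ^ (n π) := by
  classical
  let _ : StrongNormalizationMonoid R := UniqueFactorizationMonoid.strongNormalizationMonoid
  obtain ⟨a, b, hb, rfl⟩ := IsFractionRing.div_surjective (A := R) f
  have hb0 : b ≠ 0 := nonZeroDivisors.ne_zero hb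
  have ha0 : a ≠ 0 := by
    rintro rfl
    simp at hf
  have hinj : Function.Injective (algebraMap R F) := IsFractionRing.injective R F
  obtain ⟨ua, hua⟩ := UniqueFactorizationMonoid.prod_normalizedFactors ha0
  obtain ⟨ub, hub⟩ := UniqueFactorizationMonoid.prod_normalizedFactors hb0
  set A := UniqueFactorizationMonoid.normalizedFactors a with hA
  set B := UniqueFactorizationMonoid.normalizedFactors b with hB
  set s : Finset R := (A + B).toFinset with hs
  have hsA : A.toFinset ⊆ s := by
    intro x hx
    simp only [hs, Multiset.mem_toFinset, Multiset.mem_add] at hx ⊢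
    exact Or.inl hx
  have hsB : B.toFinset ⊆ s := by
    intro x hx
    simp only [hs, Multiset.mem_toFinset, Multiset.mem_add] at hx ⊢
    exact Or.inr hx
  have hmem : ∀ π ∈ s, Prime π ∧ normalize π = π := by
    intro π hπ
    simp only [hs, Multiset.mem_toFinset, Multiset.mem_add] at hπ
    rcases hπ with h | h
    · exact ⟨UniqueFactorizationMonoid.prime_of_normalized_factor π h,
        UniqueFactorizationMonoid.normalize_normalized_factor π h⟩
    · exact ⟨UniqueFactorizationMonoid.prime_of_normalized_factor π h,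
        UniqueFactorizationMonoid.normalize_normalized_factor π h⟩
  refine ⟨s, fun π => (A.count π : ℤ) - (B.count π : ℤ), ua * ub⁻¹,
    fun π hπ => (hmem π hπ).1, ?_, ?_⟩
  · intro π hπ π' hπ' hass
    rw [← (hmem π hπ).2, ← (hmem π' hπ').2]
    exact normalize_eq_normalize_iff_associated.2 hass
  · have hne : ∀ π ∈ s, algebraMap R F π ≠ 0 := fun π hπ =>
      fun h0 => (hmem π hπ).1.ne_zero (hinj (by rw [h0, map_zero]))
    have hprodA : algebraMap R F A.prod = ∏ π ∈ s, (algebraMap R F π) ^ (A.count π : ℤ) := by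
      rw [Finset.prod_multiset_count_of_subset A s hsA, map_prod]
      exact Finset.prod_congr rfl fun π _ => by rw [map_pow, zpow_natCast]
    have hprodB : algebraMap R F B.prod = ∏ π ∈ s, (algebraMap R F π) ^ (B.count π : ℤ) := by
      rw [Finset.prod_multiset_count_of_subset B s hsB, map_prod]
      exact Finset.prod_congr rfl fun π _ => by rw [map_pow, zpow_natCast]
    have hsplit : ∏ π ∈ s, (algebraMap R F π) ^ ((A.count π : ℤ) - (B.count π : ℤ)) =
        algebraMap R F A.prod / algebraMap R F B.prod := by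
      rw [hprodA, hprodB, ← Finset.prod_div_distrib]
      exact Finset.prod_congr rfl fun π hπ => zpow_sub₀ (hne π hπ) _ _
    rw [hsplit, ← hua, ← hub]
    have hB0 : algebraMap R F B.prod ≠ 0 := by
      intro h0
      apply hb0
      rw [← hub, hinj (by rw [h0, map_zero] : algebraMap R F B.prod = algebraMap R F 0), zero_mul]
    have hub0 : algebraMap R F (ub : R) ≠ 0 := fun h0 =>
      ub.ne_zero (hinj (by rw [h0, map_zero]))
    have hinv : algebraMap R F ((ub⁻¹ : Rˣ) : R) = (algebraMap R F (ub : R))⁻¹ := by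
      refine eq_inv_of_mul_eq_one_left ?_
      rw [← map_mul, Units.inv_mul, map_one]
    rw [Units.val_mul, map_mul, map_mul, map_mul, hinv]
    field_simp

/-! ### (A5) (MOVE) + (UNIT) -/

/-- (MOVE), formal part: if the exponents of the non-vertical factors are divisible by `m`,
the product is (vertical part) · `g ^ m`. -/
theorem s36_move_of_factorization {F α : Type*} [Field F] (m : ℕ)
    (vert : α → Prop) [DecidablePred vert] (s : Finset α) (y : α → F) (n : α → ℤ)
    (hy : ∀ π ∈ s, y π ≠ 0) (hdiv : ∀ π ∈ s, ¬ vert π → (m : ℤ) ∣ n π) :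
    ∃ g : F, g ≠ 0 ∧
      ∏ π ∈ s, y π ^ n π = (∏ π ∈ s.filter vert, y π ^ n π) * g ^ m := by
  classical
  refine ⟨∏ π ∈ s.filter (fun π => ¬ vert π), y π ^ (n π / (m : ℤ)), ?_, ?_⟩
  · rw [Finset.prod_ne_zero_iff]
    intro π hπ
    exact zpow_ne_zero _ (hy π (Finset.mem_filter.1 hπ).1)
  · rw [← Finset.prod_filter_mul_prod_filter_not s vert, ← Finset.prod_pow]
    congr 1
    refine Finset.prod_congr rfl fun π hπ => ?_
    obtain ⟨hπs, hπv⟩ := Finset.mem_filter.1 hπ
    rw [← zpow_natCast, ← zpow_mul, Int.ediv_mul_cancel (hdiv π hπs hπv)]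

/-- the image of an integral power of a unit of `R` in a field. -/
theorem s36_algebraMap_units_zpow {R F : Type*} [CommRing R] [Field F] [Algebra R F]
    (w : Rˣ) (k : ℤ) :
    algebraMap R F ((w ^ k : Rˣ) : R) = (algebraMap R F (w : R)) ^ k := by
  have h1 := map_zpow (Units.map (algebraMap R F : R →* F)) w k
  have h2 := congrArg (fun z : Fˣ => (z : F)) h1
  simp only [Units.coe_map, Units.val_zpow_eq_zpow_val] at h2
  exact h2

/-- (UNIT), formal part: a product of integral powers of elements associated to the `x i` is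
`unit · ∏ x i ^ a i`. -/
theorem s36_unit_monomial {R F ι : Type*} [CommRing R] [Field F] [Algebra R F]
    [Fintype ι] (x : ι → R) (hx : ∀ i, algebraMap R F (x i) ≠ 0) (s : Finset R) (n : R → ℤ)
    (hs : ∀ π ∈ s, ∃ i, Associated π (x i)) :
    ∃ (u : Rˣ) (a : ι → ℤ), ∏ π ∈ s, (algebraMap R F π) ^ (n π) =
      algebraMap R F (u : R) * ∏ i, (algebraMap R F (x i)) ^ (a i) := by
  classical
  induction s using Finset.induction_on with
  | empty => exact ⟨1, fun _ => 0, by simp⟩
  | insert π s hπ ih =>
    obtain ⟨u, a, hua⟩ := ih fun π' hπ' => hs π' (Finset.mem_insert_of_mem hπ')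
    obtain ⟨i, w, hw⟩ := hs π (Finset.mem_insert_self π s)
    refine ⟨(w⁻¹) ^ (n π) * u, fun j => a j + (if j = i then n π else 0), ?_⟩
    rw [Finset.prod_insert hπ, hua]
    have h1 : algebraMap R F π = algebraMap R F (x i) * algebraMap R F ((w⁻¹ : Rˣ) : R) := by
      rw [← map_mul, ← hw, mul_assoc, Units.mul_inv, mul_one]
    have h2 : ∏ j, (algebraMap R F (x j)) ^ (a j + (if j = i then n π else 0)) =
        (∏ j, (algebraMap R F (x j)) ^ (a j)) * (algebraMap R F (x i)) ^ (n π) := by
      rw [show (algebraMap R F (x i)) ^ (n π) =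
          ∏ j, (algebraMap R F (x j)) ^ (if j = i then n π else 0) by
        rw [Fintype.prod_eq_single i]
        · rw [if_pos rfl]
        · intro j hj
          rw [if_neg hj, zpow_zero], ← Finset.prod_mul_distrib]
      exact Finset.prod_congr rfl fun j _ => zpow_add₀ (hx j) _ _
    rw [h2, h1, mul_zpow, Units.val_mul, map_mul, s36_algebraMap_units_zpow]
    ring

/-- **(MOVE)+(UNIT)**: `R` a UFD with fraction field `F`, `x i` finitely many prime elements
(the vertical primes), `f ∈ F^×` such that in every factorisation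
`f = unit · ∏ π ^ n π` (pairwise non-associated primes) the exponents of the primes not
associated to any `x i` are divisible by `m`.  Then `f = unit · ∏ x i ^ a i · g ^ m`. -/
theorem s36_move_unit {R F ι : Type*} [CommRing R] [IsDomain R]
    [UniqueFactorizationMonoid R] [Field F] [Algebra R F] [IsFractionRing R F]
    [Fintype ι] (x : ι → R) (hx : ∀ i, x i ≠ 0) (m : ℕ) (f : F) (hf : f ≠ 0)
    (hdiv : ∀ (s : Finset R) (n : R → ℤ) (u : Rˣ), (∀ π ∈ s, Prime π) →
      (∀ π ∈ s, ∀ π' ∈ s, Associated π π' → π = π') →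
      f = algebraMap R F (u : R) * ∏ π ∈ s, (algebraMap R F π) ^ (n π) →
      ∀ π ∈ s, (∀ i, ¬ Associated π (x i)) → (m : ℤ) ∣ n π) :
    ∃ (g : F) (u : Rˣ) (a : ι → ℤ), g ≠ 0 ∧
      f = algebraMap R F (u : R) * (∏ i, (algebraMap R F (x i)) ^ (a i)) * g ^ m := by
  classical
  have hinj : Function.Injective (algebraMap R F) := IsFractionRing.injective R F
  obtain ⟨s, n, u, hprime, hdist, hfac⟩ := s36_exists_zpow_factorization (R := R) f hf
  have hd := hdiv s n u hprime hdist hfac
  obtain ⟨g, hg0, hg⟩ := s36_move_of_factorization m (fun π : R => ∃ i, Associated π (x i)) s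
    (fun π => algebraMap R F π) n
    (fun π hπ h0 => (hprime π hπ).ne_zero (hinj (by rw [h0, map_zero])))
    (fun π hπ hv => hd π hπ (fun i hi => hv ⟨i, hi⟩))
  obtain ⟨u', a, hu'⟩ := s36_unit_monomial (F := F) x
    (fun i h0 => hx i (hinj (by rw [h0, map_zero])))
    (s.filter (fun π : R => ∃ i, Associated π (x i))) n
    (fun π hπ => (Finset.mem_filter.1 hπ).2)
  refine ⟨g, u * u', a, hg0, ?_⟩
  rw [hfac, hg, hu', Units.val_mul, map_mul]
  ring

/-! ### (A5') the same with the hypothesis in terms of order functions -/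

section OrdFunction

variable {F : Type*} [Field F] (v : F → ℤ)

/-- an order function (additive on nonzero elements) vanishes at `1`. -/
theorem s36_ord_one (hv : ∀ a b : F, a ≠ 0 → b ≠ 0 → v (a * b) = v a + v b) : v 1 = 0 := by
  have h := hv 1 1 one_ne_zero one_ne_zero
  rw [mul_one] at h
  linarith

theorem s36_ord_inv (hv : ∀ a b : F, a ≠ 0 → b ≠ 0 → v (a * b) = v a + v b)
    {a : F} (ha : a ≠ 0) : v a⁻¹ = - v a := by
  have h := hv a a⁻¹ ha (inv_ne_zero ha)
  rw [mul_inv_cancel₀ ha, s36_ord_one v hv] at h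
  linarith

theorem s36_ord_pow (hv : ∀ a b : F, a ≠ 0 → b ≠ 0 → v (a * b) = v a + v b)
    {a : F} (ha : a ≠ 0) (k : ℕ) : v (a ^ k) = k * v a := by
  induction k with
  | zero => simp [s36_ord_one v hv]
  | succ k ih =>
    rw [pow_succ, hv _ _ (pow_ne_zero k ha) ha, ih]
    push_cast
    ring

theorem s36_ord_zpow (hv : ∀ a b : F, a ≠ 0 → b ≠ 0 → v (a * b) = v a + v b)
    {a : F} (ha : a ≠ 0) (k : ℤ) : v (a ^ k) = k * v a := by
  obtain ⟨j, rfl | rfl⟩ := Int.eq_nat_or_neg k
  · rw [zpow_natCast, s36_ord_pow v hv ha]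
  · rw [zpow_neg, zpow_natCast, s36_ord_inv v hv (pow_ne_zero j ha), s36_ord_pow v hv ha]
    ring

theorem s36_ord_prod (hv : ∀ a b : F, a ≠ 0 → b ≠ 0 → v (a * b) = v a + v b)
    {α : Type*} (s : Finset α) (y : α → F) (hy : ∀ i ∈ s, y i ≠ 0) :
    v (∏ i ∈ s, y i) = ∑ i ∈ s, v (y i) := by
  classical
  induction s using Finset.induction_on with
  | empty => simp [s36_ord_one v hv]
  | insert i s hi ih =>
    rw [Finset.prod_insert hi, Finset.sum_insert hi,
      hv _ _ (hy i (Finset.mem_insert_self i s))
        (Finset.prod_ne_zero_iff.2 fun j hj => hy j (Finset.mem_insert_of_mem hj)),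
      ih fun j hj => hy j (Finset.mem_insert_of_mem hj)]

end OrdFunction

/-- **(MOVE)+(UNIT), order-function form**: `R` a UFD with fraction field `F`, `x i` finitely
many nonzero elements (the vertical primes).  Suppose that for every prime element `π` of `R`
not associated to any `x i` there is an order function `v : F → ℤ` (additive on nonzero
elements) centred at `π` (`v π = 1`, `v c = 0` for `c ∈ R` not divisible by `π`) with
`m ∣ v f`.  Then `f = unit · ∏ x i ^ a i · g ^ m`. -/
theorem s36_move_unit_of_ord {R F ι : Type*} [CommRing R] [IsDomain R]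
    [UniqueFactorizationMonoid R] [Field F] [Algebra R F] [IsFractionRing R F]
    [Fintype ι] (x : ι → R) (hx : ∀ i, x i ≠ 0) (m : ℕ) (f : F) (hf : f ≠ 0)
    (hval : ∀ π : R, Prime π → (∀ i, ¬ Associated π (x i)) →
      ∃ v : F → ℤ, (∀ a b : F, a ≠ 0 → b ≠ 0 → v (a * b) = v a + v b) ∧
        v (algebraMap R F π) = 1 ∧
        (∀ c : R, c ≠ 0 → ¬ π ∣ c → v (algebraMap R F c) = 0) ∧ (m : ℤ) ∣ v f) :
    ∃ (g : F) (u : Rˣ) (a : ι → ℤ), g ≠ 0 ∧
      f = algebraMap R F (u : R) * (∏ i, (algebraMap R F (x i)) ^ (a i)) * g ^ m := by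
  classical
  have hinj : Function.Injective (algebraMap R F) := IsFractionRing.injective R F
  refine s36_move_unit x hx m f hf ?_
  intro s n u hprime hdist hfac π hπ hnv
  obtain ⟨v, hv, hvπ, hvc, hvf⟩ := hval π (hprime π hπ) hnv
  have hne : ∀ π' ∈ s, algebraMap R F π' ≠ 0 := fun π' hπ' h0 =>
    (hprime π' hπ').ne_zero (hinj (by rw [h0, map_zero]))
  have hu0 : algebraMap R F (u : R) ≠ 0 := fun h0 => u.ne_zero (hinj (by rw [h0, map_zero]))
  have hvu : v (algebraMap R F (u : R)) = 0 :=
    hvc u u.ne_zero (fun hdvd => (hprime π hπ).not_isUnit (isUnit_of_dvd_unit hdvd u.isUnit))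
  have hvf' : v f = n π := by
    rw [hfac, hv _ _ hu0 (Finset.prod_ne_zero_iff.2 fun π' hπ' => zpow_ne_zero _ (hne π' hπ')),
      hvu, zero_add, s36_ord_prod v hv s _ (fun π' hπ' => zpow_ne_zero _ (hne π' hπ')),
      Finset.sum_eq_single π]
    · rw [s36_ord_zpow v hv (hne π hπ), hvπ, mul_one]
    · intro π' hπ' hne'
      rw [s36_ord_zpow v hv (hne π' hπ'),
        hvc π' (hprime π' hπ').ne_zero (fun hdvd => hne' ?_), mul_zero]
      exact (hdist π hπ π' hπ' ((hprime π hπ).irreducible.associated_of_dvd
        (hprime π' hπ').irreducible hdvd)).symm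
    · intro h
      exact absurd hπ h
  rw [← hvf']
  exact hvf

end Fermat.Agent.S36lib
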