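import Mathlib
import Fermat.Agent.S36lib.SemilocalMove

/-!
# S36 (Carayol at `q² ∥ M`), piece M-1b: the semilocalisation of `B` at the nodes
(NOTES/S36_invert_helper20.md §3-4).  Mathlib only.

`B` a commutative ring, `t i` finitely many distinct maximal ideals (the nodes),
`s36_nodeCompl t = ⨅ i, (t i).primeCompl`, `R` a localisation of `B` at `s36_nodeCompl t`
(the semilocal ring `∩ₜ Bₜ`).

* `s36_map_semilocalization_eq_span` : an ideal `I` of `B` that is principal in every `B_{t i}`
  becomes principal in `R`, generated by an element of `I`.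
* `s36_ufm_semilocalization` : if `B` is a Noetherian domain and every `B_{t i}` is a UFD then
  `R` is a UFD.
* `s36_quotient_dvr_of_dedekind` : `p` a prime of `B` with `B ⧸ p` Dedekind, `p < t`,
  `p · Bₜ = (x)` ⇒ `Bₜ ⧸ (x)` is a DVR.
* `s36_ufm_semilocalization_of_dedekind` : the combination (what (MOVE) uses).
-/

set_option autoImplicit false

namespace Fermat.Agent.S36lib

open IsLocalRing

section Semilocalization

variable {B : Type*} [CommRing B] {ι : Type*} (t : ι → Ideal B) [∀ i, (t i).IsMaximal]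

/-- the elements of `B` outside all the maximal ideals `t i`. -/
def s36_nodeCompl : Submonoid B := ⨅ i, (t i).primeCompl

theorem s36_mem_nodeCompl {b : B} : b ∈ s36_nodeCompl t ↔ ∀ i, b ∉ t i := by
  simp only [s36_nodeCompl, Submonoid.mem_iInf]
  rfl

/-- prime avoidance: an ideal contained in no `t i` meets `s36_nodeCompl t`. -/
theorem s36_exists_mem_nodeCompl [Finite ι] [Nonempty ι] (J : Ideal B)
    (hJ : ∀ i, ¬ J ≤ t i) : ∃ s ∈ J, s ∈ s36_nodeCompl t := by
  classical
  let _ : Fintype ι := Fintype.ofFinite ι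
  obtain ⟨i₀⟩ := ‹Nonempty ι›
  by_contra hcon
  have hsub : (J : Set B) ⊆ ⋃ i ∈ ((Finset.univ : Finset ι) : Set ι), (t i : Set B) := by
    intro s hs
    by_contra hs'
    refine hcon ⟨s, hs, (s36_mem_nodeCompl t).2 fun i hi => hs' ?_⟩
    exact Set.mem_biUnion (Finset.mem_coe.2 (Finset.mem_univ i)) hi
  obtain ⟨i, -, hi⟩ := (Ideal.subset_union_prime (s := Finset.univ) (f := t) i₀ i₀
    (fun i _ _ _ => Ideal.IsMaximal.isPrime inferInstance)).1 hsub
  exact hJ i hi

variable (R : Type*) [CommRing R] [Algebra B R] [IsLocalization (s36_nodeCompl t) R]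

/-- **(MOVE), semilocal form**: an ideal `I` of `B` that becomes principal in every `B_{t i}`
becomes principal in the semilocalisation `R`, with a generator coming from `I`. -/
theorem s36_map_semilocalization_eq_span [Finite ι] [Nonempty ι]
    (hinj : Function.Injective t) (I : Ideal B)
    (h : ∀ i, (I.map (algebraMap B (Localization.AtPrime (t i)))).IsPrincipal) :
    ∃ g ∈ I, I.map (algebraMap B R) = Ideal.span {algebraMap B R g} := by
  obtain ⟨g, hgI, hg⟩ := s36_exists_mem_generating_at t hinj I h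
  refine ⟨g, hgI, le_antisymm ?_ ?_⟩
  · rw [Ideal.map_le_iff_le_comap]
    intro a ha
    rw [Ideal.mem_comap]
    -- the colon ideal `(g : a)` is contained in no `t i`
    have hcolon : ∀ i, ¬ (Ideal.span {g} : Ideal B).colon {a} ≤ t i := by
      intro i hle
      have h1 : algebraMap B (Localization.AtPrime (t i)) a ∈
          Ideal.span {algebraMap B (Localization.AtPrime (t i)) g} := by
        rw [← hg i]
        exact Ideal.mem_map_of_mem _ ha
      obtain ⟨c, hc⟩ := Ideal.mem_span_singleton'.1 h1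
      obtain ⟨r, s, rfl⟩ := IsLocalization.exists_mk'_eq (t i).primeCompl c
      have h2 : algebraMap B (Localization.AtPrime (t i)) (r * g) =
          algebraMap B (Localization.AtPrime (t i)) (s * a) := by
        rw [map_mul, map_mul, ← hc, ← mul_assoc, mul_comm (algebraMap B _ (s : B)),
          IsLocalization.mk'_spec]
      obtain ⟨s', hs'⟩ := (IsLocalization.eq_iff_exists (t i).primeCompl
        (Localization.AtPrime (t i))).1 h2
      have h3 : (s' : B) * s ∈ (Ideal.span {g} : Ideal B).colon {a} := by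
        rw [Submodule.mem_colon_singleton, smul_eq_mul, mul_assoc, ← hs', ← mul_assoc]
        exact Ideal.mul_mem_left _ _ (Ideal.mem_span_singleton_self g)
      exact (s' * s).2 (hle h3)
    obtain ⟨s, hsJ, hsS⟩ := s36_exists_mem_nodeCompl t _ hcolon
    rw [Submodule.mem_colon_singleton, smul_eq_mul] at hsJ
    obtain ⟨r, hr⟩ := Ideal.mem_span_singleton'.1 hsJ
    have hu : IsUnit (algebraMap B R s) := IsLocalization.map_units R ⟨s, hsS⟩
    rw [Ideal.mem_span_singleton']
    refine ⟨↑hu.unit⁻¹ * algebraMap B R r, ?_⟩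
    rw [mul_assoc, ← map_mul, hr, map_mul, ← mul_assoc, IsUnit.val_inv_mul, one_mul]
  · rw [Ideal.span_singleton_le_iff_mem]
    exact Ideal.mem_map_of_mem _ hgI

/-- `s36_nodeCompl t` consists of non-zero-divisors of a domain (if there is at least one node). -/
theorem s36_nodeCompl_le_nonZeroDivisors [IsDomain B] [Nonempty ι] :
    s36_nodeCompl t ≤ nonZeroDivisors B := by
  obtain ⟨i₀⟩ := ‹Nonempty ι›
  intro b hb
  refine mem_nonZeroDivisors_of_ne_zero ?_
  rintro rfl
  exact (s36_mem_nodeCompl t).1 hb i₀ (t i₀).zero_mem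

include t in
/-- the semilocalisation of a domain is a domain. -/
theorem s36_isDomain_semilocalization [IsDomain B] [Nonempty ι] : IsDomain R :=
  IsLocalization.isDomain_of_le_nonZeroDivisors R (s36_nodeCompl_le_nonZeroDivisors t)

/-- **the semilocalisation at the nodes is a UFD** if `B` is a Noetherian domain and all the
local rings `B_{t i}` are UFDs. -/
theorem s36_ufm_semilocalization [IsDomain B] [IsNoetherianRing B] [Finite ι] [Nonempty ι]
    (hinj : Function.Injective t)
    (h : ∀ i, UniqueFactorizationMonoid (Localization.AtPrime (t i))) :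
    UniqueFactorizationMonoid R := by
  have hdom : IsDomain R := s36_isDomain_semilocalization t R
  have hnoeth : IsNoetherianRing R :=
    IsLocalization.isNoetherianRing (s36_nodeCompl t) R inferInstance
  refine UniqueFactorizationMonoid.of_forall_isPrincipal_of_height_eq_one ?_
  intro P hP h1
  have hq : (P.under B).IsPrime := Ideal.IsPrime.under B P
  have hqh : (P.under B).height = 1 := by
    rw [IsLocalization.height_under (s36_nodeCompl t) P, h1]
  have hloc : ∀ i, ((P.under B).map (algebraMap B (Localization.AtPrime (t i)))).IsPrincipal := by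
    intro i
    by_cases hle : P.under B ≤ t i
    · have hd : Disjoint ((t i).primeCompl : Set B) (P.under B : Set B) := by
        rw [Set.disjoint_left]
        intro a ha hap
        exact ha (hle hap)
      have hprime := IsLocalization.isPrime_of_isPrime_disjoint (t i).primeCompl
        (Localization.AtPrime (t i)) (P.under B) hq hd
      have hufm := h i
      exact UniqueFactorizationMonoid.isPrincipal_of_height_eq_one
        (by rw [IsLocalization.height_map_of_disjoint (t i).primeCompl (P.under B) hd, hqh])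
    · rw [IsLocalization.AtPrime.map_eq_top_of_not_le _ hle]
      exact ⟨⟨1, Ideal.span_singleton_one.symm⟩⟩
  obtain ⟨g, -, hg⟩ := s36_map_semilocalization_eq_span t R hinj (P.under B) hloc
  rw [IsLocalization.map_under (s36_nodeCompl t) R P] at hg
  exact ⟨⟨_, hg⟩⟩

/-- a unit of the semilocalisation is a quotient of two elements of `B` outside all nodes. -/
theorem s36_unit_semilocalization (u : Rˣ) :
    ∃ b s : B, b ∈ s36_nodeCompl t ∧ s ∈ s36_nodeCompl t ∧
      (u : R) * algebraMap B R s = algebraMap B R b := by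
  obtain ⟨⟨b, s⟩, hbs⟩ := IsLocalization.surj (s36_nodeCompl t) (u : R)
  refine ⟨b, s.1, ?_, s.2, hbs⟩
  have hunit : IsUnit (algebraMap B R b) := by
    rw [← hbs]
    exact u.isUnit.mul (IsLocalization.map_units R s)
  rw [s36_mem_nodeCompl]
  intro i hbi
  have hd : Disjoint ((s36_nodeCompl t : Submonoid B) : Set B) (t i : Set B) := by
    rw [Set.disjoint_left]
    intro a ha hai
    exact (s36_mem_nodeCompl t).1 ha i hai
  have hprime := IsLocalization.isPrime_of_isPrime_disjoint (s36_nodeCompl t) R (t i)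
    (Ideal.IsMaximal.isPrime inferInstance) hd
  exact hprime.ne_top (Ideal.eq_top_of_isUnit_mem _ (Ideal.mem_map_of_mem _ hbi) hunit)

end Semilocalization

/-- an element of `B` outside all the nodes is a *unit at the nodes*: if the `t i` are all the
maximal ideals containing `I`, then `b · b' = 1 + c` with `c ∈ I`. -/
theorem s36_exists_mul_eq_one_add {B : Type*} [CommRing B] {ι : Type*} (t : ι → Ideal B)
    [∀ i, (t i).IsMaximal] (I : Ideal B)
    (hI : ∀ P : Ideal B, P.IsMaximal → I ≤ P → ∃ i, P = t i) (b : B)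
    (hb : b ∈ s36_nodeCompl t) : ∃ b' : B, ∃ c ∈ I, b * b' = 1 + c := by
  have htop : Ideal.span {b} ⊔ I = ⊤ := by
    by_contra hne
    obtain ⟨P, hP, hle⟩ := Ideal.exists_le_maximal _ hne
    obtain ⟨i, rfl⟩ := hI P hP (le_trans le_sup_right hle)
    exact (s36_mem_nodeCompl t).1 hb i (hle (Ideal.mem_sup_left (Ideal.mem_span_singleton_self b)))
  have h1 : (1 : B) ∈ Ideal.span {b} ⊔ I := by rw [htop]; exact Submodule.mem_top
  obtain ⟨y, hy, c, hc, hyc⟩ := Submodule.mem_sup.1 h1
  obtain ⟨b', rfl⟩ := Ideal.mem_span_singleton'.1 hy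
  refine ⟨b', -c, I.neg_mem hc, ?_⟩
  rw [mul_comm, ← hyc]
  ring

/-- the same in the shape of the blueprint: `b · b' = 1 + x + y`, `x ∈ p₁`, `y ∈ p₂`. -/
theorem s36_isUnitAtNodes_of_mem_nodeCompl {B : Type*} [CommRing B] {ι : Type*}
    (t : ι → Ideal B) [∀ i, (t i).IsMaximal] (p₁ p₂ : Ideal B)
    (hI : ∀ P : Ideal B, P.IsMaximal → p₁ ≤ P → p₂ ≤ P → ∃ i, P = t i) (b : B)
    (hb : b ∈ s36_nodeCompl t) :
    ∃ b' x y : B, x ∈ p₁ ∧ y ∈ p₂ ∧ b * b' = 1 + x + y := by
  obtain ⟨b', c, hc, hbc⟩ := s36_exists_mul_eq_one_add t (p₁ ⊔ p₂)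
    (fun P hP hle => hI P hP (le_trans le_sup_left hle) (le_trans le_sup_right hle)) b hb
  obtain ⟨x, hx, y, hy, rfl⟩ := Submodule.mem_sup.1 hc
  exact ⟨b', x, y, hx, hy, by rw [hbc]; ring⟩

/-! ### `Bₜ ⧸ p Bₜ` is a DVR when `B ⧸ p` is Dedekind -/

section QuotientDvr

variable {B : Type*} [CommRing B] (p : Ideal B) [p.IsPrime] (t : Ideal B) [t.IsMaximal]

omit [p.IsPrime] in
/-- the image of `t.primeCompl` in `B ⧸ p` is the complement of the prime `t / p` (`p ≤ t`). -/
theorem s36_algebraMapSubmonoid_primeCompl (hpt : p ≤ t)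
    [(t.map (Ideal.Quotient.mk p)).IsPrime] :
    Algebra.algebraMapSubmonoid (B ⧸ p) t.primeCompl =
      (t.map (Ideal.Quotient.mk p)).primeCompl := by
  ext y
  obtain ⟨b, rfl⟩ := Ideal.Quotient.mk_surjective y
  constructor
  · rintro ⟨c, hc, hcb⟩
    have hcb' : Ideal.Quotient.mk p c = Ideal.Quotient.mk p b := hcb
    show Ideal.Quotient.mk p b ∉ t.map (Ideal.Quotient.mk p)
    rw [← hcb', Ideal.mem_quotient_iff_mem hpt]
    exact hc
  · intro hb
    exact ⟨b, fun hbt => hb ((Ideal.mem_quotient_iff_mem hpt).2 hbt), rfl⟩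

/-- `p` a prime of `B` with `B ⧸ p` a Dedekind domain, `t` a maximal ideal, `p < t`, `O = Bₜ`.
Then `O ⧸ p O` is a DVR. -/
theorem s36_quotient_map_dvr_of_dedekind [IsDedekindDomain (B ⧸ p)] (hpt : p < t)
    (O : Type*) [CommRing O] [Algebra B O] [IsLocalization.AtPrime O t] :
    ∃ _ : IsDomain (O ⧸ p.map (algebraMap B O)),
      IsDiscreteValuationRing (O ⧸ p.map (algebraMap B O)) := by
  have hmax : (t.map (Ideal.Quotient.mk p)).IsMaximal := by
    rcases Ideal.map_eq_top_or_isMaximal_of_surjective (Ideal.Quotient.mk p)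
      Ideal.Quotient.mk_surjective ‹t.IsMaximal› with h | h
    · exfalso
      have h1 : Ideal.Quotient.mk p (1 : B) ∈ t.map (Ideal.Quotient.mk p) := by
        rw [h]; exact Submodule.mem_top
      rw [Ideal.mem_quotient_iff_mem hpt.le] at h1
      exact (Ideal.IsMaximal.ne_top ‹t.IsMaximal›) ((Ideal.eq_top_iff_one t).2 h1)
    · exact h
  have hprime : (t.map (Ideal.Quotient.mk p)).IsPrime := hmax.isPrime
  have hne : t.map (Ideal.Quotient.mk p) ≠ ⊥ := by
    intro hbot
    obtain ⟨b, hbt, hbp⟩ := Set.exists_of_ssubset hpt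
    have h1 : Ideal.Quotient.mk p b ∈ t.map (Ideal.Quotient.mk p) :=
      Ideal.mem_map_of_mem _ hbt
    rw [hbot, Ideal.mem_bot, Ideal.Quotient.eq_zero_iff_mem] at h1
    exact hbp h1
  have hloc : IsLocalization (Algebra.algebraMapSubmonoid (B ⧸ p) t.primeCompl)
      (O ⧸ p.map (algebraMap B O)) := inferInstance
  rw [s36_algebraMapSubmonoid_primeCompl p t hpt.le] at hloc
  have hat : IsLocalization.AtPrime (O ⧸ p.map (algebraMap B O))
      (t.map (Ideal.Quotient.mk p)) := hloc
  have hdom : IsDomain (O ⧸ p.map (algebraMap B O)) :=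
    IsLocalization.isDomain_of_atPrime (O ⧸ p.map (algebraMap B O))
      (t.map (Ideal.Quotient.mk p))
  exact ⟨hdom, IsLocalization.AtPrime.isDiscreteValuationRing_of_dedekind_domain (B ⧸ p) hne
    (O ⧸ p.map (algebraMap B O))⟩

/-- the same with a generator: `p · O = (x)` ⇒ `O ⧸ (x)` is a DVR. -/
theorem s36_quotient_dvr_of_dedekind [IsDedekindDomain (B ⧸ p)] (hpt : p < t)
    (O : Type*) [CommRing O] [Algebra B O] [IsLocalization.AtPrime O t] (x : O)
    (hx : p.map (algebraMap B O) = Ideal.span {x}) :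
    ∃ _ : IsDomain (O ⧸ Ideal.span {x}), IsDiscreteValuationRing (O ⧸ Ideal.span {x}) := by
  rw [← hx]
  exact s36_quotient_map_dvr_of_dedekind p t hpt O

/-- `Bₜ` is a UFD if `B` is a Noetherian domain, `B ⧸ p` is Dedekind, `p < t` and `p · Bₜ` is
principal. -/
theorem s36_ufm_localization_of_dedekind [IsDomain B] [IsNoetherianRing B]
    [IsDedekindDomain (B ⧸ p)] (hpt : p < t)
    (hprin : (p.map (algebraMap B (Localization.AtPrime t))).IsPrincipal) :
    UniqueFactorizationMonoid (Localization.AtPrime t) := by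
  obtain ⟨x, hx⟩ := hprin.principal
  have hx' : p.map (algebraMap B (Localization.AtPrime t)) = Ideal.span {x} := hx
  obtain ⟨hdom, hdvr⟩ := s36_quotient_dvr_of_dedekind p t hpt (Localization.AtPrime t) x hx'
  have hnoeth : IsNoetherianRing (Localization.AtPrime t) :=
    IsLocalization.isNoetherianRing t.primeCompl _ inferInstance
  have hxm : x ∈ maximalIdeal (Localization.AtPrime t) := by
    rw [← IsLocalization.AtPrime.map_eq_maximalIdeal t (Localization.AtPrime t)]
    have h1 : x ∈ p.map (algebraMap B (Localization.AtPrime t)) := by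
      rw [hx']; exact Ideal.mem_span_singleton_self x
    exact Ideal.map_mono hpt.le h1
  exact s36_ufm_of_quotient_dvr x hxm

end QuotientDvr

/-- **(MOVE), what is used**: `B` a Noetherian domain, `t i` finitely many distinct maximal
ideals (the nodes), `p` a prime ideal (`p_∞`) with `B ⧸ p` Dedekind, `p < t i` and `p · B_{t i}`
principal for all `i`.  Then the semilocalisation `R` of `B` at the nodes is a UFD. -/
theorem s36_ufm_semilocalization_of_dedekind {B : Type*} [CommRing B] [IsDomain B]
    [IsNoetherianRing B] {ι : Type*} [Finite ι] [Nonempty ι] (t : ι → Ideal B)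
    [∀ i, (t i).IsMaximal] (hinj : Function.Injective t)
    (p : Ideal B) [p.IsPrime] [IsDedekindDomain (B ⧸ p)] (hpt : ∀ i, p < t i)
    (hprin : ∀ i, (p.map (algebraMap B (Localization.AtPrime (t i)))).IsPrincipal)
    (R : Type*) [CommRing R] [Algebra B R] [IsLocalization (s36_nodeCompl t) R] :
    UniqueFactorizationMonoid R :=
  s36_ufm_semilocalization t R hinj fun i =>
    s36_ufm_localization_of_dedekind p (t i) (hpt i) (hprin i)

/-- **(MOVE)+(UNIT) at the nodes, with the unit in `B`**: `R` the semilocalisation of `B` at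
the nodes `t i`, a UFD with fraction field `F`; `x k` the vertical primes.  If every prime element
`π` of `R` not associated to any `x k` carries an order function `v` centred at `π` with
`m ∣ v f`, then `f = b · ∏ x k ^ a k · g ^ m` with `b ∈ B` outside all the nodes. -/
theorem s36_move_unit_semilocal {B R F : Type*} [CommRing B] [CommRing R] [Field F]
    [Algebra B R] [Algebra R F] [Algebra B F] [IsScalarTower B R F]
    [IsDomain R] [UniqueFactorizationMonoid R] [IsFractionRing R F]
    {ι : Type*} (t : ι → Ideal B) [∀ i, (t i).IsMaximal] [IsLocalization (s36_nodeCompl t) R]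
    {κ : Type*} [Fintype κ] (x : κ → R) (hx : ∀ k, x k ≠ 0) (m : ℕ) (hm : 0 < m)
    (f : F) (hf : f ≠ 0)
    (hval : ∀ π : R, Prime π → (∀ k, ¬ Associated π (x k)) →
      ∃ v : F → ℤ, (∀ a b : F, a ≠ 0 → b ≠ 0 → v (a * b) = v a + v b) ∧
        v (algebraMap R F π) = 1 ∧
        (∀ c : R, c ≠ 0 → ¬ π ∣ c → v (algebraMap R F c) = 0) ∧ (m : ℤ) ∣ v f) :
    ∃ (g : F) (b : B) (a : κ → ℤ), g ≠ 0 ∧ b ∈ s36_nodeCompl t ∧
      f = algebraMap B F b * (∏ k, (algebraMap R F (x k)) ^ (a k)) * g ^ m := by
  have hinj : Function.Injective (algebraMap R F) := IsFractionRing.injective R F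
  obtain ⟨g, u, a, hg0, hfg⟩ := s36_move_unit_of_ord x hx m f hf hval
  obtain ⟨b, s, hb, hs, hus⟩ := s36_unit_semilocalization t R u
  have hsu : IsUnit (algebraMap B R s) := IsLocalization.map_units R ⟨s, hs⟩
  have hs0 : algebraMap B F s ≠ 0 := by
    rw [IsScalarTower.algebraMap_apply B R F]
    intro h0
    exact hsu.ne_zero (hinj (by rw [h0, map_zero]))
  refine ⟨g / algebraMap B F s, b * s ^ (m - 1), a, div_ne_zero hg0 hs0,
    Submonoid.mul_mem _ hb (Submonoid.pow_mem _ hs _), ?_⟩
  have hu : algebraMap R F (u : R) * algebraMap B F s = algebraMap B F b := by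
    rw [IsScalarTower.algebraMap_apply B R F s, IsScalarTower.algebraMap_apply B R F b,
      ← map_mul, hus]
  have hpow : algebraMap B F s ^ m = algebraMap B F s ^ (m - 1) * algebraMap B F s := by
    rw [← pow_succ, Nat.sub_add_cancel hm]
  rw [hfg, map_mul, map_pow, ← hu, div_pow, hpow]
  field_simp

end Fermat.Agent.S36lib
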