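import Mathlib
import Fermat.Agent.S36lib.SemilocalRing

/-!
# Item 83 (S36), piece M-3a (helper20): the abstract INVERT, order-function form

(Independent twin of helper1's `InvertAbs.lean`; used by `InvertSetup.lean`.)

`R` a UFD with fraction field `F` (the semilocalisation of `B` at the nodes).

* `s36_ordAt π hπ : F → ℤ`, the order function of a prime element `π` of `R`
  (`s36_ordAt_mul`, `s36_ordAt_self`, `s36_ordAt_of_not_dvd`).
* `s36_ordAt_dvd_of_valuationSubring`: if `O` is a valuation ring of `F` in which the elements of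
  `R` prime to `π` are units and `π` is not a unit, and `f = u · s ^ m` with `u ∈ O^×`, then
  `m ∣ ord_π f`.
* `s36_invert_semilocal`: if `f` is locally a unit times an `m`-th power at every prime element
  of `R` (horizontal ones: order functions, e.g. from places; vertical ones: valuation rings),
  then `f = b · g ^ m` with `b ∈ B` outside all the nodes.

Mathlib + `SemilocalMove`/`SemilocalRing` (helper1) only.
-/

set_option autoImplicit false

namespace Fermat.Agent.S36lib

section OrdAt

variable {R F : Type*} [CommRing R] [IsDomain R] [UniqueFactorizationMonoid R] [Field F]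
  [Algebra R F] [IsFractionRing R F]

/-- existence of the `π`-adic decomposition `z = (a / b) · π ^ n`, `π ∤ a b`. -/
theorem s36_exists_ordAt (π : R) (hπ : Prime π) (z : F) (hz : z ≠ 0) :
    ∃ (n : ℤ) (a b : R), ¬ π ∣ a ∧ ¬ π ∣ b ∧
      z * algebraMap R F b = algebraMap R F a * (algebraMap R F π) ^ n := by
  have hinj : Function.Injective (algebraMap R F) := IsFractionRing.injective R F
  have hπF : algebraMap R F π ≠ 0 := fun h0 => hπ.ne_zero (hinj (by rw [h0, map_zero]))
  obtain ⟨c, d, hd, hcd⟩ := IsFractionRing.div_surjective (A := R) z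
  have hd0 : d ≠ 0 := nonZeroDivisors.ne_zero hd
  have hdF : algebraMap R F d ≠ 0 := fun h0 => hd0 (hinj (by rw [h0, map_zero]))
  have hc0 : c ≠ 0 := by
    rintro rfl
    rw [map_zero, zero_div] at hcd
    exact hz hcd.symm
  obtain ⟨i, a, ha, hca⟩ := WfDvdMonoid.max_power_factor hc0 hπ.irreducible
  obtain ⟨j, b, hb, hdb⟩ := WfDvdMonoid.max_power_factor hd0 hπ.irreducible
  have hbF : algebraMap R F b ≠ 0 := by
    intro h0
    apply hb
    have : b = 0 := hinj (by rw [h0, map_zero])
    rw [this]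
    exact dvd_zero π
  refine ⟨(i : ℤ) - j, a, b, ha, hb, ?_⟩
  rw [← hcd, hca, hdb, map_mul, map_mul, map_pow, map_pow, zpow_sub₀ hπF, zpow_natCast,
    zpow_natCast]
  field_simp

omit [IsDomain R] [UniqueFactorizationMonoid R] in
/-- uniqueness of the exponent. -/
theorem s36_ordAt_unique (π : R) (hπ : Prime π) (z : F) {n n' : ℤ} {a b a' b' : R}
    (ha : ¬ π ∣ a) (hb : ¬ π ∣ b) (ha' : ¬ π ∣ a') (hb' : ¬ π ∣ b')
    (h : z * algebraMap R F b = algebraMap R F a * (algebraMap R F π) ^ n)
    (h' : z * algebraMap R F b' = algebraMap R F a' * (algebraMap R F π) ^ n') : n = n' := by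
  have hinj : Function.Injective (algebraMap R F) := IsFractionRing.injective R F
  have hπF : algebraMap R F π ≠ 0 := fun h0 => hπ.ne_zero (hinj (by rw [h0, map_zero]))
  -- a b' π^n = a' b π^n'
  have key : algebraMap R F (a * b') * (algebraMap R F π) ^ n =
      algebraMap R F (a' * b) * (algebraMap R F π) ^ n' := by
    rw [map_mul, map_mul]
    linear_combination (-(algebraMap R F b')) * h + (algebraMap R F b) * h'
  have aux : ∀ (x y : R) (k k' : ℤ), ¬ π ∣ y → k < k' →
      algebraMap R F x * (algebraMap R F π) ^ k' = algebraMap R F y * (algebraMap R F π) ^ k →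
      False := by
    intro x y k k' hy hlt hxy
    obtain ⟨e, he⟩ : ∃ e : ℕ, k' = k + ((e + 1 : ℕ) : ℤ) := by
      refine ⟨(k' - k - 1).toNat, ?_⟩
      have h0 : 0 ≤ k' - k - 1 := by omega
      push_cast
      rw [Int.toNat_of_nonneg h0]
      ring
    rw [he, zpow_add₀ hπF, zpow_natCast] at hxy
    have h2 : algebraMap R F x * (algebraMap R F π) ^ (e + 1) = algebraMap R F y := by
      have hk := zpow_ne_zero k hπF
      apply mul_right_cancel₀ hk
      linear_combination hxy
    have h4 : x * π ^ (e + 1) = y := hinj (by rw [map_mul, map_pow]; exact h2)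
    apply hy
    rw [← h4]
    exact Dvd.intro (x * π ^ e) (by ring)
  rcases lt_trichotomy n n' with hlt | heq | hgt
  · exfalso
    refine aux (a' * b) (a * b') n n' ?_ hlt key.symm
    intro hdvd
    rcases hπ.dvd_or_dvd hdvd with h1 | h1
    · exact ha h1
    · exact hb' h1
  · exact heq
  · exfalso
    refine aux (a * b') (a' * b) n' n ?_ hgt key
    intro hdvd
    rcases hπ.dvd_or_dvd hdvd with h1 | h1
    · exact ha' h1
    · exact hb h1

open Classical in
/-- the order function of the prime element `π` on the fraction field. -/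
noncomputable def s36_ordAt (π : R) (hπ : Prime π) (z : F) : ℤ :=
  if hz : z = 0 then 0 else Classical.choose (s36_exists_ordAt (F := F) π hπ z hz)

theorem s36_ordAt_eq (π : R) (hπ : Prime π) {z : F} {n : ℤ} {a b : R}
    (ha : ¬ π ∣ a) (hb : ¬ π ∣ b)
    (h : z * algebraMap R F b = algebraMap R F a * (algebraMap R F π) ^ n) :
    s36_ordAt π hπ z = n := by
  have hinj : Function.Injective (algebraMap R F) := IsFractionRing.injective R F
  have hπF : algebraMap R F π ≠ 0 := fun h0 => hπ.ne_zero (hinj (by rw [h0, map_zero]))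
  have hz : z ≠ 0 := by
    rintro rfl
    rw [zero_mul] at h
    have h1 := (mul_eq_zero.1 h.symm).resolve_right (zpow_ne_zero n hπF)
    have : a = 0 := hinj (by rw [h1, map_zero])
    exact ha (this ▸ dvd_zero π)
  rw [s36_ordAt, dif_neg hz]
  obtain ⟨a', b', ha', hb', h'⟩ := Classical.choose_spec (s36_exists_ordAt (F := F) π hπ z hz)
  exact s36_ordAt_unique π hπ z ha' hb' ha hb h' h

theorem s36_ordAt_spec (π : R) (hπ : Prime π) {z : F} (hz : z ≠ 0) :
    ∃ a b : R, ¬ π ∣ a ∧ ¬ π ∣ b ∧
      z * algebraMap R F b = algebraMap R F a * (algebraMap R F π) ^ (s36_ordAt π hπ z) := by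
  rw [s36_ordAt, dif_neg hz]
  exact Classical.choose_spec (s36_exists_ordAt (F := F) π hπ z hz)

theorem s36_ordAt_mul (π : R) (hπ : Prime π) (x y : F) (hx : x ≠ 0) (hy : y ≠ 0) :
    s36_ordAt π hπ (x * y) = s36_ordAt π hπ x + s36_ordAt π hπ y := by
  have hinj : Function.Injective (algebraMap R F) := IsFractionRing.injective R F
  have hπF : algebraMap R F π ≠ 0 := fun h0 => hπ.ne_zero (hinj (by rw [h0, map_zero]))
  obtain ⟨a, b, ha, hb, h⟩ := s36_ordAt_spec π hπ hx
  obtain ⟨a', b', ha', hb', h'⟩ := s36_ordAt_spec π hπ hy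
  refine s36_ordAt_eq π hπ (a := a * a') (b := b * b') ?_ ?_ ?_
  · intro hd
    rcases hπ.dvd_or_dvd hd with h1 | h1
    · exact ha h1
    · exact ha' h1
  · intro hd
    rcases hπ.dvd_or_dvd hd with h1 | h1
    · exact hb h1
    · exact hb' h1
  · rw [map_mul, map_mul, zpow_add₀ hπF]
    linear_combination (y * algebraMap R F b') * h +
      (algebraMap R F a * (algebraMap R F π) ^ (s36_ordAt π hπ x)) * h'

theorem s36_ordAt_self (π : R) (hπ : Prime π) : s36_ordAt π hπ (algebraMap R F π) = 1 := by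
  refine s36_ordAt_eq π hπ (a := 1) (b := 1) hπ.not_dvd_one hπ.not_dvd_one ?_
  rw [map_one, mul_one, one_mul, zpow_one]

theorem s36_ordAt_of_not_dvd (π : R) (hπ : Prime π) (c : R) (hc : ¬ π ∣ c) :
    s36_ordAt π hπ (algebraMap R F c) = 0 := by
  refine s36_ordAt_eq π hπ (a := c) (b := 1) hc hπ.not_dvd_one ?_
  rw [map_one, mul_one, zpow_zero, mul_one]

/-- **vertical primes**: `O` a valuation ring of `F` in which every element of `R` prime to `π`
is a unit, while `π` is not a unit.  If `f = u · s ^ m` with `u` a unit of `O`, then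
`m ∣ ord_π f`. -/
theorem s36_ordAt_dvd_of_valuationSubring (π : R) (hπ : Prime π) (O : ValuationSubring F)
    (hunit : ∀ c : R, ¬ π ∣ c → algebraMap R F c ∈ O ∧ (algebraMap R F c)⁻¹ ∈ O)
    (hπO : algebraMap R F π ∈ O) (hπO' : (algebraMap R F π)⁻¹ ∉ O)
    (m : ℕ) (f s u : F) (hf : f ≠ 0) (hu : u ∈ O) (hu' : u⁻¹ ∈ O) (hfus : f = u * s ^ m) :
    (m : ℤ) ∣ s36_ordAt π hπ f := by
  have hinj : Function.Injective (algebraMap R F) := IsFractionRing.injective R F
  have hπF : algebraMap R F π ≠ 0 := fun h0 => hπ.ne_zero (hinj (by rw [h0, map_zero]))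
  have hu0 : u ≠ 0 := by
    rintro rfl
    rw [zero_mul] at hfus
    exact hf hfus
  have hs0 : s ^ m ≠ 0 := by
    intro h0
    rw [h0, mul_zero] at hfus
    exact hf hfus
  -- ord u = 0
  have hordu : s36_ordAt π hπ u = 0 := by
    obtain ⟨a, b, ha, hb, h⟩ := s36_ordAt_spec π hπ hu0
    set n := s36_ordAt π hπ u with hn
    have haO := hunit a ha
    have hbO := hunit b hb
    have hb0 : algebraMap R F b ≠ 0 := fun h0 => hb (by
      have : b = 0 := hinj (by rw [h0, map_zero])
      rw [this]; exact dvd_zero π)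
    have ha0 : algebraMap R F a ≠ 0 := fun h0 => ha (by
      have : a = 0 := hinj (by rw [h0, map_zero])
      rw [this]; exact dvd_zero π)
    -- π^n = u b / a is a unit of O
    have hpow : (algebraMap R F π) ^ n = u * algebraMap R F b * (algebraMap R F a)⁻¹ := by
      rw [h]; field_simp
    have hpowO : (algebraMap R F π) ^ n ∈ O := by
      rw [hpow]; exact O.mul_mem _ _ (O.mul_mem _ _ hu hbO.1) haO.2
    have hpowO' : ((algebraMap R F π) ^ n)⁻¹ ∈ O := by
      rw [hpow, mul_inv, mul_inv, inv_inv]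
      exact O.mul_mem _ _ (O.mul_mem _ _ hu' hbO.2) haO.1
    by_contra hne
    rcases lt_or_gt_of_ne hne with hlt | hgt
    · -- n < 0: π⁻¹ = π^n · π^(-n-1)
      apply hπO'
      have e : (algebraMap R F π)⁻¹ =
          (algebraMap R F π) ^ n * (algebraMap R F π) ^ ((-n - 1).toNat) := by
        rw [← zpow_natCast, Int.toNat_of_nonneg (by omega), ← zpow_add₀ hπF, ← zpow_neg_one]
        congr 1
        ring
      rw [e]
      exact O.mul_mem _ _ hpowO (O.pow_mem hπO _)
    · -- n > 0: π⁻¹ = (π^n)⁻¹ · π^(n-1)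
      apply hπO'
      have e : (algebraMap R F π)⁻¹ =
          ((algebraMap R F π) ^ n)⁻¹ * (algebraMap R F π) ^ ((n - 1).toNat) := by
        rw [← zpow_natCast, Int.toNat_of_nonneg (by omega), ← zpow_neg, ← zpow_add₀ hπF,
          ← zpow_neg_one]
        congr 1
        ring
      rw [e]
      exact O.mul_mem _ _ hpowO' (O.pow_mem hπO _)
  rcases Nat.eq_zero_or_pos m with hm0 | hmpos
  · rw [hm0, pow_zero, mul_one] at hfus
    rw [hfus, hordu, hm0]
    simp
  have hs : s ≠ 0 := by
    rintro rfl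
    exact hs0 (zero_pow hmpos.ne')
  have hpoword : ∀ k : ℕ, s36_ordAt π hπ (s ^ k) = k * s36_ordAt π hπ s := by
    intro k
    induction k with
    | zero =>
      rw [pow_zero]
      have := s36_ordAt_of_not_dvd (F := F) π hπ 1 hπ.not_dvd_one
      rw [map_one] at this
      rw [this]; simp
    | succ k ih =>
      rw [pow_succ, s36_ordAt_mul π hπ _ _ (pow_ne_zero k hs) hs, ih]
      push_cast
      ring
  rw [hfus, s36_ordAt_mul π hπ _ _ hu0 hs0, hordu, zero_add, hpoword]
  exact Dvd.intro _ rfl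

end OrdAt

/-- **abstract INVERT**: `R` the semilocalisation of `B` at the nodes `t i`, a UFD with fraction
field `F`.  If `f ∈ F^×` is, at EVERY prime element `π` of `R`, a unit times an `m`-th power
(horizontal primes `π ∤ q`: via an order function centred at `π`; vertical primes `π ∣ q`: via a
valuation ring `O` of `F`), then `f = b · g ^ m` with `b ∈ B` outside all the nodes. -/
theorem s36_invert_semilocal {B R F : Type*} [CommRing B] [CommRing R] [Field F]
    [Algebra B R] [Algebra R F] [Algebra B F] [IsScalarTower B R F]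
    [IsDomain R] [UniqueFactorizationMonoid R] [IsFractionRing R F]
    {ι : Type*} (t : ι → Ideal B) [∀ i, (t i).IsMaximal] [IsLocalization (s36_nodeCompl t) R]
    (m : ℕ) (hm : 0 < m) (f : F) (hf : f ≠ 0) (q : R)
    (hhor : ∀ π : R, Prime π → ¬ π ∣ q →
      ∃ v : F → ℤ, (∀ a b : F, a ≠ 0 → b ≠ 0 → v (a * b) = v a + v b) ∧
        v (algebraMap R F π) = 1 ∧
        (∀ c : R, c ≠ 0 → ¬ π ∣ c → v (algebraMap R F c) = 0) ∧ (m : ℤ) ∣ v f)
    (hver : ∀ π : R, Prime π → π ∣ q →
      ∃ O : ValuationSubring F,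
        (∀ c : R, ¬ π ∣ c → algebraMap R F c ∈ O ∧ (algebraMap R F c)⁻¹ ∈ O) ∧
        algebraMap R F π ∈ O ∧ (algebraMap R F π)⁻¹ ∉ O ∧
        ∃ s u : F, u ∈ O ∧ u⁻¹ ∈ O ∧ f = u * s ^ m) :
    ∃ (g : F) (b : B), g ≠ 0 ∧ b ∈ s36_nodeCompl t ∧ f = algebraMap B F b * g ^ m := by
  obtain ⟨g, b, a, hg, hb, hfb⟩ := s36_move_unit_semilocal (B := B) (R := R) (F := F) t
    (κ := Empty) (fun k => Empty.elim k) (fun k => Empty.elim k) m hm f hf (by
      intro π hπ _
      by_cases hq : π ∣ q
      · obtain ⟨O, hunit, hπO, hπO', s, u, hu, hu', hfus⟩ := hver π hπ hq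
        exact ⟨s36_ordAt π hπ, fun x y hx hy => s36_ordAt_mul π hπ x y hx hy,
          s36_ordAt_self π hπ, fun c _ hc => s36_ordAt_of_not_dvd π hπ c hc,
          s36_ordAt_dvd_of_valuationSubring π hπ O hunit hπO hπO' m f s u hf hu hu' hfus⟩
      · exact hhor π hπ hq)
  refine ⟨g, b, hg, hb, ?_⟩
  rw [hfb]
  simp

end Fermat.Agent.S36lib
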