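import Mathlib
import Fermat.Agent.S36lib.Setup
import Fermat.Agent.S36lib.InvertOrd

/-!
# Item 83 (S36), piece M-3b (helper20): INVERT over a `NodeSetup`

`S : NodeSetup A π κ F`, `t i` the nodes, `R` the semilocalisation of `S.B` at the nodes (a UFD).
If `f ∈ F^×` is
* at every HORIZONTAL prime element `π ∤ q` of `R` of order divisible by `m` (`hhor`; piece M-2),
* at each of the three vertical valuations a unit times an `m`-th power (`hInf, hMid, hZero`;
  piece NV: norm-valuation congruences),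
then `f = b · g ^ m` with `b ∈ B` a UNIT AT THE NODES.

The only input on the special fibre is `Hrad`: every prime of `B` containing `q` contains one of
`p_∞, p_mid, p_0` (automatic from `B = (affine ring) ∩ O_∞ ∩ O_mid ∩ O_0`).
-/

set_option autoImplicit false
set_option linter.style.haveILetI false

noncomputable section

namespace Fermat.Agent.S36lib

section Vertical

variable {F : Type*} [Field F]

theorem s36_unit_of_notMem_nonunits (O : ValuationSubring F) {x : F} (hx : x ∈ O)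
    (hx' : x ∉ O.nonunits) : x⁻¹ ∈ O := by
  rw [← O.valuation_le_one_iff] at hx ⊢
  rw [ValuationSubring.mem_nonunits_iff, not_lt] at hx'
  have h1 : O.valuation x = 1 := le_antisymm hx hx'
  rw [map_inv₀, h1, inv_one]

theorem s36_inv_notMem_of_mem_nonunits (O : ValuationSubring F) {x : F} (hx0 : x ≠ 0)
    (hx : x ∈ O.nonunits) : x⁻¹ ∉ O := by
  intro h
  rw [ValuationSubring.mem_nonunits_iff] at hx
  rw [← O.valuation_le_one_iff, map_inv₀] at h
  have hv0 : O.valuation x ≠ 0 := fun h0 => hx0 ((map_eq_zero _).1 h0)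
  have := (inv_le_one₀ (zero_lt_iff.2 hv0)).1 h
  exact absurd hx (not_lt.2 this)

variable (B : Subring F)
  {R : Type*} [CommRing R] [Algebra B R] [Algebra R F] [IsScalarTower B R F]
  [IsDomain R] [UniqueFactorizationMonoid R] [IsFractionRing R F]


omit [IsDomain R] [UniqueFactorizationMonoid R] [IsFractionRing R F] in
theorem s36_algebraMap_R_F (a : B) : algebraMap R F (algebraMap B R a) = (a : F) := by
  rw [← IsScalarTower.algebraMap_apply B R F]
  rfl

/-- **the vertical primes of the semilocalisation**: `O` a valuation ring of `F` containing `B`,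
`p = B ∩ 𝔪_O ≠ 0`, and `π` a prime element of `R` with `p ⊆ π R ∩ B`.  Then the elements of `R`
prime to `π` are units of `O` and `π` is a non-unit of `O`. -/
theorem s36_vertical_prime {ι : Type*} (t : ι → Ideal B) [∀ i, (t i).IsMaximal]
    [IsLocalization (s36_nodeCompl t) R] (O : ValuationSubring F) (hBO : B ≤ O.toSubring)
    (p : Ideal B) [hpp : p.IsPrime] (hp : ∀ x : B, x ∈ p ↔ (x : F) ∈ O.nonunits) (hp0 : p ≠ ⊥)
    (π : R) (hπ : Prime π) (hle : p ≤ (Ideal.span {π}).comap (algebraMap B R)) :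
    (∀ c : R, ¬ π ∣ c → algebraMap R F c ∈ O ∧ (algebraMap R F c)⁻¹ ∈ O) ∧
      algebraMap R F π ∈ O ∧ (algebraMap R F π)⁻¹ ∉ O := by
  have hinj : Function.Injective (algebraMap R F) := IsFractionRing.injective R F
  have hπF : algebraMap R F π ≠ 0 := fun h0 => hπ.ne_zero (hinj (by rw [h0, map_zero]))
  -- elements of `B` not in `π R` are units of `O`
  have hunitB : ∀ a : B, ¬ π ∣ algebraMap B R a → (a : F) ∈ O ∧ ((a : F))⁻¹ ∈ O := by
    intro a ha
    have hap : a ∉ p := fun h => ha (Ideal.mem_span_singleton.1 (hle h))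
    exact ⟨hBO a.2, s36_unit_of_notMem_nonunits O (hBO a.2) (fun h => hap ((hp a).2 h))⟩
  -- elements of the submonoid are not divisible by `π`
  have hM : ∀ s : B, s ∈ s36_nodeCompl t → ¬ π ∣ algebraMap B R s := by
    intro s hs hdvd
    exact hπ.not_isUnit (isUnit_of_dvd_unit hdvd (IsLocalization.map_units R ⟨s, hs⟩))
  have hdisj : Disjoint ((s36_nodeCompl t : Submonoid B) : Set B) (p : Set B) := by
    rw [Set.disjoint_left]
    intro s hs hsp
    exact hM s hs (Ideal.mem_span_singleton.1 (hle hsp))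
  refine ⟨?_, ?_⟩
  · intro c hc
    obtain ⟨⟨a, s⟩, h⟩ := IsLocalization.surj (s36_nodeCompl t) c
    have ha : ¬ π ∣ algebraMap B R a := by
      intro hdvd
      rw [← h] at hdvd
      rcases hπ.dvd_or_dvd hdvd with h1 | h1
      · exact hc h1
      · exact hM s.1 s.2 h1
    have hs := hunitB s.1 (hM s.1 s.2)
    have ha' := hunitB a ha
    have hs0 : ((s.1 : B) : F) ≠ 0 := by
      intro h0
      have h1 : algebraMap R F (algebraMap B R s.1) = 0 := by rw [s36_algebraMap_R_F]; exact h0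
      have h2 : algebraMap B R s.1 = 0 := hinj (by rw [h1, map_zero])
      exact hM s.1 s.2 (h2 ▸ dvd_zero π)
    have hcF : algebraMap R F c = (a : F) * ((s.1 : B) : F)⁻¹ := by
      have := congrArg (algebraMap R F) h
      rw [map_mul, s36_algebraMap_R_F, s36_algebraMap_R_F] at this
      field_simp
      exact this
    rw [hcF]
    refine ⟨O.mul_mem _ _ ha'.1 hs.2, ?_⟩
    rw [mul_inv, inv_inv]
    exact O.mul_mem _ _ ha'.2 hs.1
  · -- `p R` is a nonzero prime inside `π R`, hence equal to it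
    have hprime : (p.map (algebraMap B R)).IsPrime :=
      IsLocalization.isPrime_of_isPrime_disjoint (s36_nodeCompl t) R p hpp hdisj
    have hinjB : Function.Injective (algebraMap B R) := by
      intro x y hxy
      have := congrArg (algebraMap R F) hxy
      rw [s36_algebraMap_R_F, s36_algebraMap_R_F] at this
      exact Subtype.ext this
    have hne : p.map (algebraMap B R) ≠ ⊥ := by
      intro h0
      apply hp0
      rw [eq_bot_iff]
      intro x hx
      have : algebraMap B R x ∈ p.map (algebraMap B R) := Ideal.mem_map_of_mem _ hx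
      rw [h0, Ideal.mem_bot] at this
      rw [Ideal.mem_bot]
      exact hinjB (by rw [this, map_zero])
    obtain ⟨π', hπ'mem, hπ'⟩ := hprime.exists_mem_prime_of_ne_bot hne
    have hdvd : π ∣ π' := by
      have : π' ∈ Ideal.span {π} := (Ideal.map_le_iff_le_comap.2 hle) hπ'mem
      exact Ideal.mem_span_singleton.1 this
    have hassoc : Associated π π' := hπ.irreducible.associated_of_dvd hπ'.irreducible hdvd
    have hπmem : π ∈ p.map (algebraMap B R) := by
      obtain ⟨u, hu⟩ := hassoc.symm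
      rw [← hu]
      exact Ideal.mul_mem_right _ _ hπ'mem
    obtain ⟨⟨a, s⟩, h⟩ := IsLocalization.surj (s36_nodeCompl t) π
    have hamem : a ∈ p := by
      have h1 : algebraMap B R a ∈ p.map (algebraMap B R) := by
        rw [← h]
        exact Ideal.mul_mem_right _ _ hπmem
      have h2 := IsLocalization.under_map_of_isPrime_disjoint (s36_nodeCompl t) R hpp hdisj
      rw [← h2]
      exact h1
    have hs := hunitB s.1 (hM s.1 s.2)
    have hs0 : ((s.1 : B) : F) ≠ 0 := by
      intro h0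
      have h1 : algebraMap R F (algebraMap B R s.1) = 0 := by rw [s36_algebraMap_R_F]; exact h0
      have h2 : algebraMap B R s.1 = 0 := hinj (by rw [h1, map_zero])
      exact hM s.1 s.2 (h2 ▸ dvd_zero π)
    have hπeq : algebraMap R F π = (a : F) * ((s.1 : B) : F)⁻¹ := by
      have := congrArg (algebraMap R F) h
      rw [map_mul, s36_algebraMap_R_F, s36_algebraMap_R_F] at this
      field_simp
      exact this
    have haN : (a : F) ∈ O.nonunits := (hp a).1 hamem
    have hπN : algebraMap R F π ∈ O.nonunits := by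
      rw [hπeq, ValuationSubring.mem_nonunits_iff, map_mul]
      rw [ValuationSubring.mem_nonunits_iff] at haN
      have h1 : O.valuation (((s.1 : B) : F)⁻¹) ≤ 1 := (O.valuation_le_one_iff _).2 hs.2
      exact lt_of_le_of_lt (mul_le_of_le_one_right' h1) haN
    refine ⟨?_, s36_inv_notMem_of_mem_nonunits O hπF hπN⟩
    rw [hπeq]
    exact O.mul_mem _ _ (hBO a.2) hs.2

end Vertical

section Setup

variable {K : Type*} [Field K] {k : Type*} [Field k]
  {A : ValuationSubring K} {π : A →+* k} {κ : Type*} [Field κ] [Algebra k κ]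
  {F : Type*} [Field F] [Algebra K F]

/-- **INVERT over a `NodeSetup`, with the semilocalisation `R` given.** -/
theorem s36_invert_nodeSetup_R (S : NodeSetup A π κ F)
    {R : Type*} [CommRing R] [Algebra S.B R] [Algebra R F] [IsScalarTower S.B R F]
    [IsDomain R] [UniqueFactorizationMonoid R] [IsFractionRing R F]
    {ι : Type*} (t : ι → Ideal S.B) [∀ i, (t i).IsMaximal]
    [IsLocalization (s36_nodeCompl t) R]
    (hnode : ∀ t' : Ideal S.B, S.IsNode t' → ∃ i, t' = t i)
    (ϖ : A) (hϖ0 : ϖ ≠ 0) (hπϖ : π ϖ = 0)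
    (Hrad : ∀ P : Ideal S.B, P.IsPrime → S.constB ϖ ∈ P →
      S.pInf ≤ P ∨ S.pMid ≤ P ∨ S.pZero ≤ P)
    (m : ℕ) (hm : 0 < m) (f : F) (hf : f ≠ 0)
    (hhor : ∀ p : R, Prime p → ¬ p ∣ algebraMap S.B R (S.constB ϖ) →
      ∃ v : F → ℤ, (∀ a b : F, a ≠ 0 → b ≠ 0 → v (a * b) = v a + v b) ∧
        v (algebraMap R F p) = 1 ∧
        (∀ c : R, c ≠ 0 → ¬ p ∣ c → v (algebraMap R F c) = 0) ∧ (m : ℤ) ∣ v f)
    (hInf : ∃ s u : F, u ∈ S.vInf.O ∧ u⁻¹ ∈ S.vInf.O ∧ f = u * s ^ m)
    (hMid : ∃ s u : F, u ∈ S.vMid.O ∧ u⁻¹ ∈ S.vMid.O ∧ f = u * s ^ m)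
    (hZero : ∃ s u : F, u ∈ S.vZero.O ∧ u⁻¹ ∈ S.vZero.O ∧ f = u * s ^ m) :
    ∃ (g : F) (b : S.B), g ≠ 0 ∧ S.IsUnitAtNodes b ∧ f = (b : F) * g ^ m := by
  have hq0 : S.constB ϖ ≠ 0 := by
    intro h0
    have h1 : ((S.constB ϖ : S.B) : F) = 0 := by rw [h0]; rfl
    rw [S.coe_constB] at h1
    have h2 : (ϖ : K) = 0 := (map_eq_zero (algebraMap K F)).1 h1
    exact hϖ0 (Subtype.ext h2)
  have hqInf : S.constB ϖ ∈ S.pInf := by
    show S.redInf (S.constB ϖ) = 0
    rw [S.redInf_constB, hπϖ, map_zero]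
  have hqMid : S.constB ϖ ∈ S.pMid := by
    show S.redMid (S.constB ϖ) = 0
    rw [S.redMid_constB, hπϖ, map_zero]
  have hqZero : S.constB ϖ ∈ S.pZero := by
    show S.redZero (S.constB ϖ) = 0
    rw [S.redZero_constB, hπϖ, map_zero]
  have hne : ∀ p : Ideal S.B, S.constB ϖ ∈ p → p ≠ ⊥ := by
    intro p hp h0
    rw [h0, Ideal.mem_bot] at hp
    exact hq0 hp
  obtain ⟨g, b, hg, hb, hfb⟩ := s36_invert_semilocal (B := S.B) (R := R) (F := F) t m hm f hf
    (algebraMap S.B R (S.constB ϖ)) hhor (by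
      intro p hp hdvd
      have hPprime : ((Ideal.span {p}).comap (algebraMap S.B R)).IsPrime :=
        Ideal.comap_isPrime _ _ (H := (Ideal.span_singleton_prime hp.ne_zero).2 hp)
      have hqP : S.constB ϖ ∈ (Ideal.span {p}).comap (algebraMap S.B R) :=
        Ideal.mem_span_singleton.2 hdvd
      rcases Hrad _ hPprime hqP with h | h | h
      · obtain ⟨h1, h2, h3⟩ := s36_vertical_prime S.B t S.vInf.O S.B_le_inf S.pInf
          S.mem_pInf_iff (hne _ hqInf) p hp h
        exact ⟨S.vInf.O, h1, h2, h3, hInf⟩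
      · obtain ⟨h1, h2, h3⟩ := s36_vertical_prime S.B t S.vMid.O S.B_le_mid S.pMid
          S.mem_pMid_iff (hne _ hqMid) p hp h
        exact ⟨S.vMid.O, h1, h2, h3, hMid⟩
      · obtain ⟨h1, h2, h3⟩ := s36_vertical_prime S.B t S.vZero.O S.B_le_zero S.pZero
          S.mem_pZero_iff (hne _ hqZero) p hp h
        exact ⟨S.vZero.O, h1, h2, h3, hZero⟩)
  refine ⟨g, b, hg, ?_, hfb⟩
  refine S.isUnitAtNodes_of_notMem fun t' ht' => ?_
  obtain ⟨i, rfl⟩ := hnode t' ht'
  exact (s36_mem_nodeCompl t).1 hb i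

/-- `Hrad` from saturation: if `B` is SATURATED in the ball (`w` in the ball, `q^j w ∈ B` ⟹
`w ∈ B`) and the three valuations are archimedean over `q` (`z` a non-unit ⟹ `z^n / q ∈ O`),
then every prime of `B` containing `q` contains one of `p_∞`, `p_mid`, `p_0`. -/
theorem s36_hrad_of_saturated (S : NodeSetup A π κ F) (ϖ : A) (hϖ0 : ϖ ≠ 0)
    (hsat : ∀ w : F, w ∈ S.ball → (algebraMap K F (ϖ : K)) * w ∈ S.B → w ∈ S.B)
    (harchInf : ∀ z ∈ S.vInf.O.nonunits, ∃ n : ℕ, z ^ n * (algebraMap K F (ϖ : K))⁻¹ ∈ S.vInf.O)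
    (harchMid : ∀ z ∈ S.vMid.O.nonunits, ∃ n : ℕ, z ^ n * (algebraMap K F (ϖ : K))⁻¹ ∈ S.vMid.O)
    (harchZero : ∀ z ∈ S.vZero.O.nonunits,
      ∃ n : ℕ, z ^ n * (algebraMap K F (ϖ : K))⁻¹ ∈ S.vZero.O)
    (P : Ideal S.B) (hP : P.IsPrime) (hq : S.constB ϖ ∈ P) :
    S.pInf ≤ P ∨ S.pMid ≤ P ∨ S.pZero ≤ P := by
  by_contra hcon
  simp only [not_or] at hcon
  obtain ⟨h1, h2, h3⟩ := hcon
  obtain ⟨x, hx, hxP⟩ := Set.not_subset.1 h1
  obtain ⟨y, hy, hyP⟩ := Set.not_subset.1 h2
  obtain ⟨z, hz, hzP⟩ := Set.not_subset.1 h3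
  have hqF : algebraMap K F (ϖ : K) ≠ 0 :=
    (map_ne_zero (algebraMap K F)).2 (fun h => hϖ0 (Subtype.ext h))
  set w : S.B := x * y * z with hw
  have hwP : w ∉ P := by
    intro h
    rcases hP.mem_or_mem h with h' | h'
    · rcases hP.mem_or_mem h' with h'' | h''
      · exact hxP h''
      · exact hyP h''
    · exact hzP h'
  have hwInf : ((w : S.B) : F) ∈ S.vInf.O.nonunits :=
    (S.mem_pInf_iff w).1 (Ideal.mul_mem_right _ _ (Ideal.mul_mem_right _ _ hx))
  have hwMid : ((w : S.B) : F) ∈ S.vMid.O.nonunits :=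
    (S.mem_pMid_iff w).1 (Ideal.mul_mem_right _ _ (Ideal.mul_mem_left _ _ hy))
  have hwZero : ((w : S.B) : F) ∈ S.vZero.O.nonunits :=
    (S.mem_pZero_iff w).1 (Ideal.mul_mem_left _ _ hz)
  obtain ⟨n₁, hn₁⟩ := harchInf _ hwInf
  obtain ⟨n₂, hn₂⟩ := harchMid _ hwMid
  obtain ⟨n₃, hn₃⟩ := harchZero _ hwZero
  -- w^(n₁+n₂+n₃) / q lies in the ball, hence in B
  have hpowmem : ∀ (O : ValuationSubring F), ((w : S.B) : F) ∈ O → ∀ a b : ℕ,
      ((w : S.B) : F) ^ a * (algebraMap K F (ϖ : K))⁻¹ ∈ O →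
      ((w : S.B) : F) ^ (a + b) * (algebraMap K F (ϖ : K))⁻¹ ∈ O := by
    intro O hwO a b h
    have : ((w : S.B) : F) ^ (a + b) * (algebraMap K F (ϖ : K))⁻¹ =
        ((w : S.B) : F) ^ b * (((w : S.B) : F) ^ a * (algebraMap K F (ϖ : K))⁻¹) := by
      rw [pow_add]; ring
    rw [this]
    exact O.mul_mem _ _ (O.pow_mem hwO _) h
  set N := n₁ + n₂ + n₃ with hN
  have hball : ((w : S.B) : F) ^ N * (algebraMap K F (ϖ : K))⁻¹ ∈ S.ball := by
    refine ⟨⟨?_, ?_⟩, ?_⟩
    · have := hpowmem S.vInf.O (S.B_le_inf w.2) n₁ (n₂ + n₃) hn₁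
      rwa [← add_assoc] at this
    · have := hpowmem S.vMid.O (S.B_le_mid w.2) n₂ (n₁ + n₃) hn₂
      have e : n₂ + (n₁ + n₃) = N := by omega
      rwa [e] at this
    · have := hpowmem S.vZero.O (S.B_le_zero w.2) n₃ (n₁ + n₂) hn₃
      have e : n₃ + (n₁ + n₂) = N := by omega
      rwa [e] at this
  have hB : ((w : S.B) : F) ^ N * (algebraMap K F (ϖ : K))⁻¹ ∈ S.B := by
    refine hsat _ hball ?_
    have : algebraMap K F (ϖ : K) * (((w : S.B) : F) ^ N * (algebraMap K F (ϖ : K))⁻¹) =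
        ((w ^ N : S.B) : F) := by
      push_cast
      field_simp
    rw [this]
    exact (w ^ N).2
  have hmem : w ^ N ∈ P := by
    have : w ^ N = S.constB ϖ * ⟨_, hB⟩ := by
      apply Subtype.ext
      push_cast
      rw [S.coe_constB]
      field_simp
    rw [this]
    exact Ideal.mul_mem_right _ _ hq
  exact hwP (hP.mem_of_pow_mem N hmem)

/-- `S.B ⊂ F` has fraction field `F` if every element of `F` is a quotient. -/
theorem s36_isFractionRing_of_hfrac (B : Subring F)
    (hfrac : ∀ z : F, ∃ a b : B, b ≠ 0 ∧ z * (b : F) = (a : F)) : IsFractionRing B F := by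
  haveI : FaithfulSMul B F := (faithfulSMul_iff_algebraMap_injective B F).2
    (fun x y h => Subtype.ext h)
  refine IsFractionRing.of_field B F fun z => ?_
  obtain ⟨a, b, hb, h⟩ := hfrac z
  refine ⟨a, b, ?_⟩
  have hb0 : (b : F) ≠ 0 := fun h0 => hb (Subtype.ext h0)
  show z = (a : F) / (b : F)
  rw [← h]
  field_simp

end Setup

section Final

universe u

variable {K : Type*} [Field K] {k : Type*} [Field k]
  {A : ValuationSubring K} {π : A →+* k} {κ : Type*} [Field κ] [Algebra k κ]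
  {F : Type u} [Field F] [Algebra K F]

/-- **INVERT over a `NodeSetup`** (final form of piece M-3).  Hypotheses:
* `hfrac`, Noetherian, the nodes `t i` (all of them, finitely many, at least one), the local
  rings at the nodes are UFDs (REG2 + helper1's `s36_ufm_localization_of_dedekind`);
* `Hrad` (see `s36_hrad_of_saturated`); `ϖ` a uniformiser of `A` with `K = A[1/ϖ]`;
* `hhor` (piece M-2, helper27's `pd_hval`): for every UFD `R` with fraction field `F` and every
  prime element `p` of `R` with `K ⊆ R_(p)` there is an order function centred at `p` with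
  `m ∣ v f`;
* `hInf, hMid, hZero` (piece NV): `f` is a unit times an `m`-th power at the three valuations.
Conclusion: `f = b · g ^ m`, `b ∈ B` a unit at the nodes. -/
theorem s36_invert_nodeSetup (S : NodeSetup A π κ F) [IsNoetherianRing S.B]
    (hfrac : ∀ z : F, ∃ a b : S.B, b ≠ 0 ∧ z * (b : F) = (a : F))
    {ι : Type*} [Finite ι] [Nonempty ι] (t : ι → Ideal S.B) [∀ i, (t i).IsMaximal]
    (hinj : Function.Injective t)
    (hufd : ∀ i, UniqueFactorizationMonoid (Localization.AtPrime (t i)))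
    (hnode : ∀ t' : Ideal S.B, S.IsNode t' → ∃ i, t' = t i)
    (ϖ : A) (hϖ0 : ϖ ≠ 0) (hπϖ : π ϖ = 0)
    (hϖK : ∀ c : K, ∃ n : ℕ, c * (ϖ : K) ^ n ∈ A)
    (Hrad : ∀ P : Ideal S.B, P.IsPrime → S.constB ϖ ∈ P →
      S.pInf ≤ P ∨ S.pMid ≤ P ∨ S.pZero ≤ P)
    (m : ℕ) (hm : 0 < m) (f : F) (hf : f ≠ 0)
    (hhor : ∀ (R : Type u) [CommRing R] [IsDomain R] [UniqueFactorizationMonoid R]
      [Algebra R F] [IsFractionRing R F] (p : R), Prime p →
      (∀ c : K, ∃ a b : R, ¬ p ∣ b ∧
        algebraMap K F c * algebraMap R F b = algebraMap R F a) →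
      ∃ v : F → ℤ, (∀ a b : F, a ≠ 0 → b ≠ 0 → v (a * b) = v a + v b) ∧
        v (algebraMap R F p) = 1 ∧
        (∀ c : R, c ≠ 0 → ¬ p ∣ c → v (algebraMap R F c) = 0) ∧ (m : ℤ) ∣ v f)
    (hInf : ∃ s u : F, u ∈ S.vInf.O ∧ u⁻¹ ∈ S.vInf.O ∧ f = u * s ^ m)
    (hMid : ∃ s u : F, u ∈ S.vMid.O ∧ u⁻¹ ∈ S.vMid.O ∧ f = u * s ^ m)
    (hZero : ∃ s u : F, u ∈ S.vZero.O ∧ u⁻¹ ∈ S.vZero.O ∧ f = u * s ^ m) :
    ∃ (g : F) (b : S.B), g ≠ 0 ∧ S.IsUnitAtNodes b ∧ f = (b : F) * g ^ m := by
  classical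
  haveI hBF : IsFractionRing S.B F := s36_isFractionRing_of_hfrac S.B hfrac
  have hMle : s36_nodeCompl t ≤ nonZeroDivisors S.B := s36_nodeCompl_le_nonZeroDivisors t
  have hunits : ∀ y : s36_nodeCompl t, IsUnit (algebraMap S.B F y) := by
    intro y
    have hy0 : (y : S.B) ≠ 0 := nonZeroDivisors.ne_zero (hMle y.2)
    have : algebraMap S.B F y ≠ 0 := fun h0 => hy0 (Subtype.ext h0)
    exact IsUnit.mk0 _ this
  let R := Localization (s36_nodeCompl t)
  letI algRF : Algebra R F := (IsLocalization.lift (M := s36_nodeCompl t)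
    (g := algebraMap S.B F) hunits).toAlgebra
  haveI hST : IsScalarTower S.B R F := IsScalarTower.of_algebraMap_eq fun x =>
    (IsLocalization.lift_eq (M := s36_nodeCompl t) (g := algebraMap S.B F) hunits x).symm
  haveI hdom : IsDomain R := s36_isDomain_semilocalization t R
  haveI hufm : UniqueFactorizationMonoid R := s36_ufm_semilocalization t R hinj hufd
  haveI hRF : IsFractionRing R F :=
    IsFractionRing.isFractionRing_of_isDomain_of_isLocalization (s36_nodeCompl t) R F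
  refine s36_invert_nodeSetup_R S (R := R) t hnode ϖ hϖ0 hπϖ Hrad m hm f hf ?_ hInf hMid hZero
  intro p hp hpq
  refine hhor R p hp ?_
  intro c
  obtain ⟨n, hn⟩ := hϖK c
  refine ⟨algebraMap S.B R (S.constB ⟨_, hn⟩), (algebraMap S.B R (S.constB ϖ)) ^ n, ?_, ?_⟩
  · intro hdvd
    exact hpq (hp.dvd_of_dvd_pow hdvd)
  · rw [map_pow, s36_algebraMap_R_F, s36_algebraMap_R_F, S.coe_constB, S.coe_constB,
      ← map_pow, ← map_mul]

end Final

end Fermat.Agent.S36lib

end
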