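import Mathlib
import Fermat.Prelude.Def_AlgebraicCurve_DivisorClassGroup
import Fermat.Agent.S36lib.Speed

/-!
# Item 83 (S36), piece M-2 (helper27): constant extensions are unramified

`K0 ⊆ K` fields of characteristic `0`, `K / K0` algebraic; `F0 ⊆ F` fields with `K0 ⊆ F0`,
`K ⊆ F` and `F = F0[K]`.  A discrete valuation ring `O` of `F0` containing `K0`, with
uniformiser `ϖ`, is the restriction of a place `P` of `F / K` with `P.ord ϖ = 1`.

Proof (no Galois theory, no Dedekind domains): `W := O[K] ⊆ F` is integral over `O` with fraction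
field `F`; `W / ϖ W` is reduced (the minimal polynomial over `O` of a constant `θ ∈ K` divides the
separable polynomial `minpoly K0 θ`, so it stays squarefree modulo `ϖ`) and of dimension `0`;
hence for a prime `𝔓 ∋ ϖ` of `W` the maximal ideal of `W_𝔓` is generated by `ϖ`, and `W_𝔓` is a
discrete valuation ring with uniformiser `ϖ`.

Main results: `pd_exists_place_of_dvr`, `pd_exists_place`, `pd_hval` (the hypothesis `hval` of
`s36_move_unit_of_ord`), `pd_kummer_unit`, `pd_hloc`.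
-/

set_option autoImplicit false

noncomputable section

namespace Fermat.Agent.S36lib

open Polynomial AlgebraicCurve

section Core

variable {K0 K F O : Type*} [Field K0] [Field K] [Field F] [CommRing O] [IsDomain O]
  [Algebra K0 K] [Algebra K F] [Algebra K0 F] [IsScalarTower K0 K F]
  [Algebra K0 O] [Algebra O F] [IsScalarTower K0 O F]
  [CharZero K0] [Algebra.IsAlgebraic K0 K]

/-- the ring `W = O[K] ⊆ F` -/
def pdW (K O F : Type*) [Field K] [Field F] [CommRing O] [Algebra K F] [Algebra O F] :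
    Subalgebra O F := Algebra.adjoin O (Set.range (algebraMap K F))

theorem pdW_algebraMap_mem (c : K) : algebraMap K F c ∈ pdW K O F :=
  Algebra.subset_adjoin ⟨c, rfl⟩

include K0

/-- the constants are integral over `O` -/
theorem pd_isIntegral_const (c : K) : IsIntegral O (algebraMap K F c) := by
  have h0 : IsIntegral K0 c := (Algebra.IsAlgebraic.isAlgebraic c).isIntegral
  have h1 : IsIntegral K0 (algebraMap K F c) := h0.map (IsScalarTower.toAlgHom K0 K F)
  exact h1.tower_top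

/-- `W` is integral over `O` -/
theorem pdW_isIntegral {x : F} (hx : x ∈ pdW K O F) : IsIntegral O x := by
  have hle : pdW K O F ≤ integralClosure O F := by
    refine Algebra.adjoin_le ?_
    rintro _ ⟨c, rfl⟩
    exact pd_isIntegral_const (K0 := K0) c
  exact hle hx

/-- a constant in `K0⟮γ⟯` is a polynomial in `γ` with coefficients in `O` -/
theorem pd_mem_adjoin_of_mem {γ c : K} (hc : c ∈ IntermediateField.adjoin K0 {γ}) :
    algebraMap K F c ∈ Algebra.adjoin O {algebraMap K F γ} := by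
  have hγ : IsAlgebraic K0 γ := Algebra.IsAlgebraic.isAlgebraic γ
  have h1 : c ∈ (IntermediateField.adjoin K0 {γ}).toSubalgebra := hc
  rw [IntermediateField.adjoin_simple_toSubalgebra_of_isAlgebraic hγ,
    Algebra.adjoin_singleton_eq_range_aeval] at h1
  obtain ⟨p, hp⟩ := h1
  have hp' : aeval γ p = c := hp
  have h2 : algebraMap K F (aeval γ p) =
      aeval (algebraMap K F γ) (p.map (algebraMap K0 O)) := by
    rw [aeval_map_algebraMap, aeval_algebraMap_apply]
  rw [← hp', h2, Algebra.adjoin_singleton_eq_range_aeval]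
  exact ⟨_, rfl⟩

/-- two constants are polynomials in a common third one -/
theorem pd_exists_common (θ₁ θ₂ : K) : ∃ γ : K,
    Algebra.adjoin O {algebraMap K F θ₁} ≤ Algebra.adjoin O {algebraMap K F γ} ∧
    Algebra.adjoin O {algebraMap K F θ₂} ≤ Algebra.adjoin O {algebraMap K F γ} := by
  have hinf : Infinite K0 := CharZero.infinite K0
  obtain ⟨γ, hγ⟩ := Field.primitive_element_inf_aux K0 θ₁ θ₂
  have h1 : θ₁ ∈ IntermediateField.adjoin K0 {γ} := by
    rw [← hγ]; exact IntermediateField.subset_adjoin K0 _ (by simp)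
  have h2 : θ₂ ∈ IntermediateField.adjoin K0 {γ} := by
    rw [← hγ]; exact IntermediateField.subset_adjoin K0 _ (by simp)
  exact ⟨γ, Algebra.adjoin_le (Set.singleton_subset_iff.2 (pd_mem_adjoin_of_mem h1)),
    Algebra.adjoin_le (Set.singleton_subset_iff.2 (pd_mem_adjoin_of_mem h2))⟩

/-- every element of `W` is a polynomial in one constant -/
theorem pd_exists_simple {y : F} (hy : y ∈ pdW K O F) :
    ∃ θ : K, y ∈ Algebra.adjoin O {algebraMap K F θ} := by
  unfold pdW at hy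
  induction hy using Algebra.adjoin_induction with
  | mem x hx =>
    obtain ⟨c, rfl⟩ := hx
    exact ⟨c, Algebra.subset_adjoin rfl⟩
  | algebraMap r => exact ⟨0, Subalgebra.algebraMap_mem _ r⟩
  | add x y _ _ ihx ihy =>
    obtain ⟨θ₁, h1⟩ := ihx
    obtain ⟨θ₂, h2⟩ := ihy
    obtain ⟨γ, hγ1, hγ2⟩ := pd_exists_common (K0 := K0) (O := O) (F := F) θ₁ θ₂
    exact ⟨γ, Subalgebra.add_mem _ (hγ1 h1) (hγ2 h2)⟩
  | mul x y _ _ ihx ihy =>
    obtain ⟨θ₁, h1⟩ := ihx
    obtain ⟨θ₂, h2⟩ := ihy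
    obtain ⟨γ, hγ1, hγ2⟩ := pd_exists_common (K0 := K0) (O := O) (F := F) θ₁ θ₂
    exact ⟨γ, Subalgebra.mul_mem _ (hγ1 h1) (hγ2 h2)⟩

theorem pd_adjoin_simple_le (θ : K) : Algebra.adjoin O {algebraMap K F θ} ≤ pdW K O F :=
  Algebra.adjoin_mono (Set.singleton_subset_iff.2 ⟨θ, rfl⟩)

/-- **Reducedness of `O[θ] / ϖ O[θ]`.** -/
theorem pd_reduced_simple [IsIntegrallyClosed O] [Module.IsTorsionFree O F] (ϖ : O)
    (hmax : (Ideal.span {ϖ}).IsMaximal) (θ : K) {y w : F}
    (hy : y ∈ Algebra.adjoin O {algebraMap K F θ})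
    (hw : w ∈ Algebra.adjoin O {algebraMap K F θ}) {n : ℕ} (hn : n ≠ 0)
    (h : y ^ n = algebraMap O F ϖ * w) :
    ∃ t ∈ Algebra.adjoin O {algebraMap K F θ}, y = algebraMap O F ϖ * t := by
  classical
  haveI := hmax
  letI : Field (O ⧸ Ideal.span {ϖ}) := Ideal.Quotient.field _
  set Θ : F := algebraMap K F θ with hΘ
  rw [Algebra.adjoin_singleton_eq_range_aeval] at hy hw
  obtain ⟨p, rfl⟩ := hy
  obtain ⟨r, rfl⟩ := hw
  have hint : IsIntegral O Θ := pd_isIntegral_const (K0 := K0) θ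
  set g : O[X] := minpoly O Θ with hg
  have hgmonic : g.Monic := minpoly.monic hint
  -- `g ∣ p ^ n - ϖ r`
  have h1 : g ∣ p ^ n - C ϖ * r := by
    refine minpoly.isIntegrallyClosed_dvd hint ?_
    have hp : (aeval Θ) p ^ n = algebraMap O F ϖ * (aeval Θ) r := h
    rw [map_sub, map_pow, map_mul, aeval_C, hp, sub_self]
  -- `g` divides the minimal polynomial over `K0`
  have h2 : g ∣ (minpoly K0 θ).map (algebraMap K0 O) := by
    refine minpoly.isIntegrallyClosed_dvd hint ?_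
    rw [aeval_map_algebraMap, hΘ, aeval_algebraMap_apply, minpoly.aeval, map_zero]
  set φ : O →+* O ⧸ Ideal.span {ϖ} := Ideal.Quotient.mk _ with hφ
  have hsep0 : (minpoly K0 θ).Separable :=
    Algebra.IsSeparable.isSeparable K0 θ
  have hsep1 : (((minpoly K0 θ).map (algebraMap K0 O)).map φ).Separable := by
    rw [Polynomial.map_map]
    exact hsep0.map
  have hsep : (g.map φ).Separable := hsep1.of_dvd (Polynomial.map_dvd φ h2)
  have h3 : g.map φ ∣ (p.map φ) ^ n := by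
    have := Polynomial.map_dvd φ h1
    rw [Polynomial.map_sub, Polynomial.map_pow, Polynomial.map_mul, Polynomial.map_C] at this
    have hϖ0 : φ ϖ = 0 := Ideal.Quotient.eq_zero_iff_mem.2 (Ideal.mem_span_singleton_self ϖ)
    rwa [hϖ0, map_zero, zero_mul, sub_zero] at this
  have h4 : g.map φ ∣ p.map φ := (hsep.squarefree.dvd_pow_iff_dvd hn).1 h3
  obtain ⟨s', hs'⟩ := h4
  obtain ⟨s, rfl⟩ := Polynomial.map_surjective φ Ideal.Quotient.mk_surjective s'
  -- `p - g s` has coefficients in `(ϖ)`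
  have h5 : p - g * s ∈ RingHom.ker (Polynomial.mapRingHom φ) := by
    rw [RingHom.mem_ker, Polynomial.coe_mapRingHom, Polynomial.map_sub, Polynomial.map_mul, hs',
      sub_self]
  rw [Polynomial.ker_mapRingHom, hφ, Ideal.mk_ker, Ideal.map_span, Set.image_singleton,
    Ideal.mem_span_singleton'] at h5
  obtain ⟨t, ht⟩ := h5
  refine ⟨aeval Θ t, by rw [Algebra.adjoin_singleton_eq_range_aeval]; exact ⟨t, rfl⟩, ?_⟩
  have h6 : p = g * s + C ϖ * t := by rw [mul_comm (C ϖ) t, ht]; ring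
  have hgΘ : aeval Θ g = 0 := minpoly.aeval O Θ
  change aeval Θ p = _
  rw [h6, map_add, map_mul, map_mul, hgΘ, zero_mul, zero_add, aeval_C]

/-- **Reducedness of `W / ϖ W`.** -/
theorem pd_reduced [IsIntegrallyClosed O] [Module.IsTorsionFree O F] (ϖ : O)
    (hmax : (Ideal.span {ϖ}).IsMaximal) {y w : F} (hy : y ∈ pdW K O F) (hw : w ∈ pdW K O F)
    {n : ℕ} (hn : n ≠ 0) (h : y ^ n = algebraMap O F ϖ * w) :
    ∃ t ∈ pdW K O F, y = algebraMap O F ϖ * t := by
  obtain ⟨θ₁, h1⟩ := pd_exists_simple (K0 := K0) hy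
  obtain ⟨θ₂, h2⟩ := pd_exists_simple (K0 := K0) hw
  obtain ⟨γ, hγ1, hγ2⟩ := pd_exists_common (K0 := K0) (O := O) (F := F) θ₁ θ₂
  obtain ⟨t, ht, hyt⟩ := pd_reduced_simple (K0 := K0) ϖ hmax γ (hγ1 h1) (hγ2 h2) hn h
  exact ⟨t, pd_adjoin_simple_le (K0 := K0) γ ht, hyt⟩

end Core

section AbstractDvr

variable {K F : Type*} [Field K] [Field F] [Algebra K F]

/-- a subring `V` of `F` containing `K` in which every nonzero element of `F` is `ϖ ^ n * unit`
(with `ϖ ∈ V` not a unit) is a place with uniformiser `ϖ` -/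
theorem pd_place_of_normal_form (V : Subring F) (hK : ∀ c : K, algebraMap K F c ∈ V) (ϖ : F)
    (h1 : ϖ ∈ V) (h2 : ϖ⁻¹ ∉ V)
    (h3 : ∀ x : F, x ≠ 0 → ∃ n : ℤ, ∃ u ∈ V, u⁻¹ ∈ V ∧ x = ϖ ^ n * u) :
    ∃ P : Place K F, (∀ x : F, x ∈ P.toValuationSubring ↔ x ∈ V) ∧ P.ord ϖ = 1 ∧
      ∀ u ∈ V, u ≠ 0 → u⁻¹ ∈ V → P.ord u = 0 := by
  classical
  have hϖ0 : ϖ ≠ 0 := fun h => h2 (by rw [h, inv_zero]; exact V.zero_mem)
  have hpow : ∀ n : ℤ, 0 ≤ n → ϖ ^ n ∈ V := by
    intro n hn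
    obtain ⟨k, rfl⟩ := Int.eq_ofNat_of_zero_le hn
    rw [zpow_natCast]
    exact V.pow_mem h1 k
  -- elements of `V` have non-negative exponent
  have hnonneg : ∀ x ∈ V, ∀ n : ℤ, ∀ u : F, u⁻¹ ∈ V → x = ϖ ^ n * u → u ≠ 0 → 0 ≤ n := by
    intro x hx n u hu' hxu hu0
    by_contra hneg
    push Not at hneg
    apply h2
    have h4 : ϖ⁻¹ = ϖ ^ (-n - 1) * (x * u⁻¹) := by
      rw [hxu, mul_assoc, mul_inv_cancel₀ hu0, mul_one, ← zpow_add₀ hϖ0]
      have : -n - 1 + n = -1 := by ring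
      rw [this, zpow_neg_one]
    rw [h4]
    exact V.mul_mem (hpow _ (by omega)) (V.mul_mem hx hu')
  have hmem : ∀ x : F, x ∈ V ∨ x⁻¹ ∈ V := by
    intro x
    rcases eq_or_ne x 0 with rfl | hx
    · exact Or.inl V.zero_mem
    obtain ⟨n, u, hu, hu', hxu⟩ := h3 x hx
    rcases le_total 0 n with hn | hn
    · left; rw [hxu]; exact V.mul_mem (hpow n hn) hu
    · right
      rw [hxu, mul_inv, ← zpow_neg]
      exact V.mul_mem (hpow _ (by omega)) hu'
  let VS : ValuationSubring F := { V with mem_or_inv_mem' := hmem }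
  have hVS : ∀ x : F, x ∈ VS ↔ x ∈ V := fun x => Iff.rfl
  -- the uniformiser
  let p : VS := ⟨ϖ, h1⟩
  have hp0 : p ≠ 0 := fun h => hϖ0 (congrArg Subtype.val h)
  have hunit : ∀ x : VS, (x : F) ≠ 0 → (x : F)⁻¹ ∈ V → IsUnit x := fun x h0 hx =>
    isUnit_iff_exists_inv.2 ⟨⟨(x : F)⁻¹, hx⟩, Subtype.ext (mul_inv_cancel₀ h0)⟩
  have hpunit : ¬ IsUnit p := by
    intro hp
    obtain ⟨y, hy⟩ := isUnit_iff_exists_inv.1 hp
    have hy' : ϖ * (y : F) = 1 := congrArg Subtype.val hy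
    have : ϖ⁻¹ = (y : F) := by
      rw [← mul_one ϖ⁻¹, ← hy', inv_mul_cancel_left₀ hϖ0]
    exact h2 (this ▸ y.2)
  have hnonunit : ∀ x : VS, ¬ IsUnit x → x ≠ 0 → ∃ y : VS, x = p * y := by
    intro x hx hx0
    have hx0' : (x : F) ≠ 0 := fun h => hx0 (Subtype.ext h)
    obtain ⟨n, u, hu, hu', hxu⟩ := h3 (x : F) hx0'
    have hu0 : u ≠ 0 := by
      rintro rfl
      exact hx0' (by rw [hxu, mul_zero])
    have hn := hnonneg (x : F) x.2 n u hu' hxu hu0
    have hn1 : n ≠ 0 := by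
      rintro rfl
      apply hx
      refine hunit x hx0' ?_
      rw [hxu, zpow_zero, one_mul]; exact hu'
    refine ⟨⟨ϖ ^ (n - 1) * u, V.mul_mem (hpow _ (by omega)) hu⟩, Subtype.ext ?_⟩
    change (x : F) = ϖ * (ϖ ^ (n - 1) * u)
    rw [hxu, ← mul_assoc, ← zpow_one_add₀ hϖ0]
    congr 2; ring
  have hirr : Irreducible p := by
    refine irreducible_iff.2 ⟨hpunit, fun a b hab => ?_⟩
    by_contra hcon
    push Not at hcon
    have ha0 : a ≠ 0 := by rintro rfl; exact hp0 (by rw [hab, zero_mul])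
    have hb0 : b ≠ 0 := by rintro rfl; exact hp0 (by rw [hab, mul_zero])
    obtain ⟨a', rfl⟩ := hnonunit a hcon.1 ha0
    obtain ⟨b', rfl⟩ := hnonunit b hcon.2 hb0
    apply hpunit
    refine isUnit_iff_exists_inv.2 ⟨a' * b', ?_⟩
    have h5 : p * 1 = p * (p * (a' * b')) := by
      rw [mul_one]; nth_rewrite 1 [hab]; ring
    exact (mul_left_cancel₀ hp0 h5).symm
  have hfac : IsDiscreteValuationRing.HasUnitMulPowIrreducibleFactorization VS := by
    refine ⟨p, hirr, fun {x} hx0 => ?_⟩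
    have hx0' : (x : F) ≠ 0 := fun h => hx0 (Subtype.ext h)
    obtain ⟨n, u, hu, hu', hxu⟩ := h3 (x : F) hx0'
    have hu0 : u ≠ 0 := by
      rintro rfl
      exact hx0' (by rw [hxu, mul_zero])
    have hn := hnonneg (x : F) x.2 n u hu' hxu hu0
    obtain ⟨k, rfl⟩ := Int.eq_ofNat_of_zero_le hn
    obtain ⟨uu, huu⟩ := hunit ⟨u, hu⟩ hu0 hu'
    refine ⟨k, uu, Subtype.ext ?_⟩
    change ϖ ^ k * ((uu : VS) : F) = (x : F)
    rw [huu, hxu, zpow_natCast]
  haveI : IsDiscreteValuationRing VS :=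
    IsDiscreteValuationRing.ofHasUnitMulPowIrreducibleFactorization hfac
  have htop : VS ≠ ⊤ := by
    intro h
    apply h2
    have : ϖ⁻¹ ∈ VS := by rw [h]; exact ValuationSubring.mem_top _
    exact this
  let P : Place K F := ⟨VS, hK, htop, inferInstance⟩
  refine ⟨P, fun x => Iff.rfl, ?_, ?_⟩
  · have h6 := P.adicValuation_coe_irreducible (π := p) hirr
    have h7 : P.adicValuation ϖ = WithZero.exp (-1 : ℤ) := h6
    rw [Place.ord, h7, WithZero.log_exp]; norm_num
  · intro u hu hu0 hu'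
    have h6 := (P.adicValuation_coe_eq_one_iff ⟨u, hu⟩).2 (hunit ⟨u, hu⟩ hu0 hu')
    have h7 : P.adicValuation u = 1 := h6
    rw [Place.ord, h7, WithZero.log_one, neg_zero]

end AbstractDvr

section Loc

variable {K F O : Type*} [Field K] [Field F] [CommRing O] [Algebra K F] [Algebra O F]

/-- the localisation of `W` at the prime `Q`, as a subring of `F` -/
def pdLoc (Q : Ideal (pdW K O F)) [Q.IsPrime] : Subring F where
  carrier := {x | ∃ s : pdW K O F, s ∉ Q ∧ (s : F) * x ∈ pdW K O F}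
  mul_mem' := by
    rintro x y ⟨s, hs, hx⟩ ⟨t, ht, hy⟩
    refine ⟨s * t, fun h => (Ideal.IsPrime.mem_or_mem inferInstance h).elim hs ht, ?_⟩
    have : ((s * t : pdW K O F) : F) * (x * y) = ((s : F) * x) * ((t : F) * y) := by
      push_cast; ring
    rw [this]; exact Subalgebra.mul_mem _ hx hy
  one_mem' := ⟨1, fun h => (Ideal.IsPrime.ne_top inferInstance) ((Ideal.eq_top_iff_one Q).2 h),
    by simp [Subalgebra.one_mem]⟩
  add_mem' := by
    rintro x y ⟨s, hs, hx⟩ ⟨t, ht, hy⟩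
    refine ⟨s * t, fun h => (Ideal.IsPrime.mem_or_mem inferInstance h).elim hs ht, ?_⟩
    have : ((s * t : pdW K O F) : F) * (x + y) =
        (t : F) * ((s : F) * x) + (s : F) * ((t : F) * y) := by
      push_cast; ring
    rw [this]
    exact Subalgebra.add_mem _ (Subalgebra.mul_mem _ t.2 hx) (Subalgebra.mul_mem _ s.2 hy)
  zero_mem' := ⟨1, fun h => (Ideal.IsPrime.ne_top inferInstance) ((Ideal.eq_top_iff_one Q).2 h),
    by simp [Subalgebra.zero_mem]⟩
  neg_mem' := by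
    rintro x ⟨s, hs, hx⟩
    exact ⟨s, hs, by rw [mul_neg]; exact Subalgebra.neg_mem _ hx⟩

theorem mem_pdLoc {Q : Ideal (pdW K O F)} [Q.IsPrime] {x : F} :
    x ∈ pdLoc Q ↔ ∃ s : pdW K O F, s ∉ Q ∧ (s : F) * x ∈ pdW K O F := Iff.rfl

theorem pdW_le_pdLoc (Q : Ideal (pdW K O F)) [Q.IsPrime] {x : F} (hx : x ∈ pdW K O F) :
    x ∈ pdLoc Q :=
  ⟨1, fun h => (Ideal.IsPrime.ne_top inferInstance) ((Ideal.eq_top_iff_one Q).2 h),
    by simpa using hx⟩

/-- quotients of elements outside `Q` are units of `W_Q` -/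
theorem pdLoc_div_mem (Q : Ideal (pdW K O F)) [Q.IsPrime] (s t : pdW K O F) (hs : s ∉ Q) :
    (t : F) * (s : F)⁻¹ ∈ pdLoc Q := by
  refine ⟨s, hs, ?_⟩
  have hs0 : (s : F) ≠ 0 := fun h => hs (by
    have : s = 0 := Subtype.ext h
    rw [this]; exact Q.zero_mem)
  have : (s : F) * ((t : F) * (s : F)⁻¹) = (t : F) := by field_simp
  rw [this]; exact t.2

end Loc

section Local

variable {K0 K F O : Type*} [Field K0] [Field K] [Field F] [CommRing O] [IsDomain O]
  [IsDiscreteValuationRing O]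
  [Algebra K0 K] [Algebra K F] [Algebra K0 F] [IsScalarTower K0 K F]
  [Algebra K0 O] [Algebra O F] [IsScalarTower K0 O F] [FaithfulSMul O F]
  [CharZero K0] [Algebra.IsAlgebraic K0 K]

include K0

theorem pdW_algebra_isIntegral : Algebra.IsIntegral O (pdW K O F) :=
  ⟨fun x => (isIntegral_algHom_iff (pdW K O F).val Subtype.val_injective).1
    (pdW_isIntegral (K0 := K0) x.2)⟩

theorem pdW_algebraMap_injective : Function.Injective (algebraMap O (pdW K O F)) := by
  intro a b hab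
  apply FaithfulSMul.algebraMap_injective O F
  exact congrArg Subtype.val hab

/-- a maximal ideal of `W` over the maximal ideal of `O` -/
theorem pd_exists_prime : ∃ Q : Ideal (pdW K O F), Q.IsMaximal ∧
    Q.comap (algebraMap O (pdW K O F)) = IsLocalRing.maximalIdeal O := by
  haveI := pdW_algebra_isIntegral (K0 := K0) (K := K) (O := O) (F := F)
  refine Ideal.exists_ideal_over_maximal_of_isIntegral (IsLocalRing.maximalIdeal O) ?_
  rw [(RingHom.injective_iff_ker_eq_bot _).1 (pdW_algebraMap_injective (K0 := K0))]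
  exact bot_le

/-- the maximal ideal of `W_Q` is generated by `ϖ` -/
theorem pd_local (ϖ : O) (hϖ : Irreducible ϖ) (Q : Ideal (pdW K O F)) [Q.IsPrime]
    (hQ : algebraMap O (pdW K O F) ϖ ∈ Q) {y : pdW K O F} (hy : y ∈ Q) :
    ∃ s t : pdW K O F, s ∉ Q ∧ s * y = algebraMap O (pdW K O F) ϖ * t := by
  classical
  by_contra hcon
  push Not at hcon
  have hmaxO : (Ideal.span {ϖ}).IsMaximal := by
    rw [← hϖ.maximalIdeal_eq]; infer_instance
  set ϖW : pdW K O F := algebraMap O (pdW K O F) ϖ with hϖW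
  let S : Submonoid (pdW K O F) := Q.primeCompl ⊔ Submonoid.powers y
  have hdisj : Disjoint ((Ideal.span {ϖW} : Ideal (pdW K O F)) : Set (pdW K O F))
      (S : Set (pdW K O F)) := by
    rw [Set.disjoint_left]
    intro x hxI hxS
    obtain ⟨s, hs, z, hz, rfl⟩ := Submonoid.mem_sup.1 hxS
    obtain ⟨n, rfl⟩ := (Submonoid.mem_powers_iff _ _).1 hz
    obtain ⟨t, ht⟩ := Ideal.mem_span_singleton'.1 hxI
    have hn : n ≠ 0 := by
      rintro rfl
      rw [pow_zero, mul_one] at ht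
      exact hs (ht ▸ Q.mul_mem_left t hQ)
    have h0 : (s * y) ^ n = ϖW * (s ^ (n - 1) * t) := by
      calc (s * y) ^ n = s ^ (n - 1 + 1) * y ^ n := by
            rw [Nat.sub_add_cancel (Nat.one_le_iff_ne_zero.2 hn), mul_pow]
        _ = s ^ (n - 1) * (s * y ^ n) := by ring
        _ = s ^ (n - 1) * (t * ϖW) := by rw [ht]
        _ = ϖW * (s ^ (n - 1) * t) := by ring
    have h1 : ((s * y : pdW K O F) : F) ^ n =
        algebraMap O F ϖ * ((s ^ (n - 1) * t : pdW K O F) : F) := by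
      have := congrArg Subtype.val h0
      exact this
    obtain ⟨t', ht', hst⟩ := pd_reduced (K0 := K0) ϖ hmaxO (s * y).2 (s ^ (n - 1) * t).2 hn h1
    exact hcon s ⟨t', ht'⟩ hs (Subtype.ext hst)
  obtain ⟨𝔔, h𝔔prime, h𝔔I, h𝔔S⟩ := Ideal.exists_le_prime_disjoint _ S hdisj
  have hle : 𝔔 ≤ Q := by
    intro x hx
    by_contra hxQ
    exact Set.disjoint_left.1 h𝔔S hx (Submonoid.mem_sup_left hxQ)
  have hy𝔔 : y ∉ 𝔔 := fun h =>
    Set.disjoint_left.1 h𝔔S h (Submonoid.mem_sup_right (Submonoid.mem_powers y))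
  have hlt := Ideal.comap_lt_comap_of_integral_mem_sdiff (R := O) hle ⟨hy, hy𝔔⟩
    ((pdW_algebra_isIntegral (K0 := K0) (K := K) (O := O) (F := F)).isIntegral y)
  have h2 : Q.comap (algebraMap O (pdW K O F)) ≤ 𝔔.comap (algebraMap O (pdW K O F)) := by
    have h3 : Q.comap (algebraMap O (pdW K O F)) ≤ IsLocalRing.maximalIdeal O :=
      IsLocalRing.le_maximalIdeal (Ideal.comap_ne_top _ (Ideal.IsPrime.ne_top inferInstance))
    refine h3.trans ?_
    rw [hϖ.maximalIdeal_eq, Ideal.span_singleton_le_iff_mem, Ideal.mem_comap]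
    exact h𝔔I (Ideal.mem_span_singleton_self _)
  exact lt_irrefl _ (lt_of_lt_of_le hlt h2)

/-- every nonzero element of `W` is `ϖ ^ n` times a unit of `W_Q` -/
theorem pd_factor (hfrac : ∀ x : F, ∃ a : O, a ≠ 0 ∧ algebraMap O F a * x ∈ pdW K O F)
    (ϖ : O) (hϖ : Irreducible ϖ) (Q : Ideal (pdW K O F)) [Q.IsPrime]
    (hQ : algebraMap O (pdW K O F) ϖ ∈ Q) {y : pdW K O F} (hy : y ≠ 0) :
    ∃ (n : ℕ) (s t : pdW K O F), s ∉ Q ∧ t ∉ Q ∧
      s * y = algebraMap O (pdW K O F) ϖ ^ n * t := by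
  classical
  set ϖW : pdW K O F := algebraMap O (pdW K O F) ϖ with hϖW
  have hϖW0 : ϖW ≠ 0 := by
    intro h
    exact hϖ.ne_zero (pdW_algebraMap_injective (K0 := K0) (K := K) (F := F)
      (by rw [← hϖW, h, map_zero]))
  have aux : ∀ k : ℕ, ∀ y w s' : pdW K O F, s' ∉ Q → y * w = ϖW ^ k * s' →
      ∃ (n : ℕ) (s t : pdW K O F), s ∉ Q ∧ t ∉ Q ∧ s * y = ϖW ^ n * t := by
    intro k
    induction k with
    | zero =>
      intro y w s' hs' h
      refine ⟨0, 1, y, ?_, ?_, by simp⟩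
      · exact fun h1 => (Ideal.IsPrime.ne_top inferInstance) ((Ideal.eq_top_iff_one Q).2 h1)
      · intro hyQ
        rw [pow_zero, one_mul] at h
        exact hs' (h ▸ Q.mul_mem_right w hyQ)
    | succ k ih =>
      intro y w s' hs' h
      by_cases hyQ : y ∈ Q
      · obtain ⟨s₁, t₁, hs₁, h1⟩ := pd_local (K0 := K0) ϖ hϖ Q hQ hyQ
        have h2 : t₁ * w = ϖW ^ k * (s₁ * s') := by
          apply mul_left_cancel₀ hϖW0
          calc ϖW * (t₁ * w) = (ϖW * t₁) * w := by ring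
            _ = (s₁ * y) * w := by rw [← h1]
            _ = s₁ * (y * w) := by ring
            _ = s₁ * (ϖW ^ (k + 1) * s') := by rw [h]
            _ = ϖW * (ϖW ^ k * (s₁ * s')) := by ring
        have hs₁s' : s₁ * s' ∉ Q := fun h3 =>
          (Ideal.IsPrime.mem_or_mem inferInstance h3).elim hs₁ hs'
        obtain ⟨n, s₂, t₂, hs₂, ht₂, h4⟩ := ih t₁ w (s₁ * s') hs₁s' h2
        refine ⟨n + 1, s₂ * s₁, t₂, fun h3 =>
          (Ideal.IsPrime.mem_or_mem inferInstance h3).elim hs₂ hs₁, ht₂, ?_⟩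
        calc s₂ * s₁ * y = s₂ * (s₁ * y) := by ring
          _ = s₂ * (ϖW * t₁) := by rw [h1]
          _ = ϖW * (s₂ * t₁) := by ring
          _ = ϖW * (ϖW ^ n * t₂) := by rw [h4]
          _ = ϖW ^ (n + 1) * t₂ := by ring
      · exact ⟨0, 1, y,
          fun h1 => (Ideal.IsPrime.ne_top inferInstance) ((Ideal.eq_top_iff_one Q).2 h1), hyQ,
          by simp⟩
  -- the bound
  have hy0 : (y : F) ≠ 0 := fun h => hy (Subtype.ext h)
  obtain ⟨a, ha0, ha⟩ := hfrac (y : F)⁻¹
  obtain ⟨k, hk⟩ := IsDiscreteValuationRing.associated_pow_irreducible ha0 hϖ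
  obtain ⟨u, hu⟩ := hk.symm
  -- `ϖ ^ k * u = a`
  have hunotin : algebraMap O (pdW K O F) (u : O) ∉ Q := by
    intro h
    have h1 : IsUnit (algebraMap O (pdW K O F) (u : O)) := (u.isUnit).map _
    exact (Ideal.IsPrime.ne_top inferInstance) (Ideal.eq_top_of_isUnit_mem Q h h1)
  refine aux k y ⟨algebraMap O F a * (y : F)⁻¹, ha⟩ (algebraMap O (pdW K O F) (u : O)) hunotin
    (Subtype.ext ?_)
  change (y : F) * (algebraMap O F a * (y : F)⁻¹) =
    (algebraMap O F ϖ) ^ k * algebraMap O F (u : O)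
  rw [← hu, map_mul, map_pow]
  field_simp

/-- **Core theorem.**  `O` a discrete valuation ring with uniformiser `ϖ`, `K0 ⊆ O`, `O ⊆ F`,
`F = Frac (O[K])`: there is a place `P` of `F / K` with `P.ord ϖ = 1` and `P.ord u = 0` for the
units `u` of `O`. -/
theorem pd_core (hfrac : ∀ x : F, ∃ a : O, a ≠ 0 ∧ algebraMap O F a * x ∈ pdW K O F)
    (ϖ : O) (hϖ : Irreducible ϖ) :
    ∃ P : Place K F, P.ord (algebraMap O F ϖ) = 1 ∧
      ∀ u : O, IsUnit u → P.ord (algebraMap O F u) = 0 := by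
  classical
  obtain ⟨Q, hQmax, hQ⟩ := pd_exists_prime (K0 := K0) (K := K) (O := O) (F := F)
  haveI : Q.IsPrime := hQmax.isPrime
  have hinjF : Function.Injective (algebraMap O F) := FaithfulSMul.algebraMap_injective O F
  have hϖQ : algebraMap O (pdW K O F) ϖ ∈ Q := by
    have : ϖ ∈ Q.comap (algebraMap O (pdW K O F)) := by
      rw [hQ, hϖ.maximalIdeal_eq]; exact Ideal.mem_span_singleton_self ϖ
    exact this
  have hne : ∀ s : pdW K O F, s ∉ Q → (s : F) ≠ 0 := fun s hs h => hs (by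
    have : s = 0 := Subtype.ext h
    rw [this]; exact Q.zero_mem)
  have hϖF : algebraMap O F ϖ ≠ 0 := fun h => hϖ.ne_zero (hinjF (by rw [h, map_zero]))
  have hK : ∀ c : K, algebraMap K F c ∈ pdLoc Q := fun c => pdW_le_pdLoc Q (pdW_algebraMap_mem c)
  have h1 : algebraMap O F ϖ ∈ pdLoc Q := pdW_le_pdLoc Q (Subalgebra.algebraMap_mem _ ϖ)
  have h2 : (algebraMap O F ϖ)⁻¹ ∉ pdLoc Q := by
    rintro ⟨s, hs, h⟩
    apply hs
    have h3 : s = algebraMap O (pdW K O F) ϖ * ⟨(s : F) * (algebraMap O F ϖ)⁻¹, h⟩ := by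
      apply Subtype.ext
      change (s : F) = algebraMap O F ϖ * ((s : F) * (algebraMap O F ϖ)⁻¹)
      field_simp
    rw [h3]
    exact Q.mul_mem_right _ hϖQ
  have h3 : ∀ x : F, x ≠ 0 → ∃ n : ℤ, ∃ u ∈ pdLoc Q, u⁻¹ ∈ pdLoc Q ∧
      x = (algebraMap O F ϖ) ^ n * u := by
    intro x hx
    obtain ⟨a, ha0, ha⟩ := hfrac x
    have haF : algebraMap O F a ≠ 0 := fun h => ha0 (hinjF (by rw [h, map_zero]))
    have hy0 : (⟨algebraMap O F a * x, ha⟩ : pdW K O F) ≠ 0 := by
      intro h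
      exact mul_ne_zero haF hx (congrArg Subtype.val h)
    have ha0' : algebraMap O (pdW K O F) a ≠ 0 := by
      intro h
      exact haF (congrArg Subtype.val h)
    obtain ⟨n, s, t, hs, ht, hst⟩ := pd_factor (K0 := K0) hfrac ϖ hϖ Q hϖQ hy0
    obtain ⟨n', s', t', hs', ht', hst'⟩ := pd_factor (K0 := K0) hfrac ϖ hϖ Q hϖQ ha0'
    have e1 : (s : F) * (algebraMap O F a * x) = (algebraMap O F ϖ) ^ n * (t : F) :=
      congrArg Subtype.val hst
    have e2 : (s' : F) * algebraMap O F a = (algebraMap O F ϖ) ^ n' * (t' : F) :=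
      congrArg Subtype.val hst'
    have hs0 := hne s hs
    have ht0 := hne t ht
    have hs'0 := hne s' hs'
    have ht'0 := hne t' ht'
    refine ⟨(n : ℤ) - n', ((t * s' : pdW K O F) : F) * ((s * t' : pdW K O F) : F)⁻¹,
      pdLoc_div_mem Q _ _ (fun h => (Ideal.IsPrime.mem_or_mem inferInstance h).elim hs ht'), ?_, ?_⟩
    · rw [mul_inv, inv_inv, mul_comm]
      exact pdLoc_div_mem Q _ _ (fun h => (Ideal.IsPrime.mem_or_mem inferInstance h).elim ht hs')
    · have hpn : (algebraMap O F ϖ) ^ n' ≠ 0 := pow_ne_zero _ hϖF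
      rw [zpow_sub₀ hϖF, zpow_natCast, zpow_natCast]
      push_cast
      field_simp
      have e3 : x * (s : F) * algebraMap O F a = (algebraMap O F ϖ) ^ n * (t : F) := by
        rw [← e1]; ring
      calc x * (algebraMap O F ϖ) ^ n' * (s : F) * (t' : F)
          = x * (s : F) * ((algebraMap O F ϖ) ^ n' * (t' : F)) := by ring
        _ = x * (s : F) * ((s' : F) * algebraMap O F a) := by rw [e2]
        _ = (x * (s : F) * algebraMap O F a) * (s' : F) := by ring
        _ = (algebraMap O F ϖ) ^ n * (t : F) * (s' : F) := by rw [e3]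
  obtain ⟨P, -, hP1, hP2⟩ := pd_place_of_normal_form (K := K) (pdLoc Q) hK (algebraMap O F ϖ)
    h1 h2 h3
  refine ⟨P, hP1, fun u hu => hP2 _ (pdW_le_pdLoc Q (Subalgebra.algebraMap_mem _ u)) ?_ ?_⟩
  · exact fun h => hu.ne_zero (hinjF (by rw [h, map_zero]))
  · obtain ⟨v, hv⟩ := isUnit_iff_exists_inv.1 hu
    have : (algebraMap O F u)⁻¹ = algebraMap O F v := by
      apply inv_eq_of_mul_eq_one_right
      rw [← map_mul, hv, map_one]
    rw [this]
    exact pdW_le_pdLoc Q (Subalgebra.algebraMap_mem _ v)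

end Local

section Above

variable {K0 K F0 F : Type*} [Field K0] [Field K] [Field F0] [Field F]
  [Algebra K0 K] [Algebra K0 F0] [Algebra K F] [Algebra F0 F] [Algebra K0 F]
  [IsScalarTower K0 K F] [IsScalarTower K0 F0 F] [CharZero K0] [Algebra.IsAlgebraic K0 K]

/-- `F = Frac (O[K])` if `F = F0[K]` and `F0 = Frac O` -/
theorem pd_hfrac {O : Type*} [CommRing O] [IsDomain O] [Algebra O F0] [IsFractionRing O F0]
    [Algebra O F] [IsScalarTower O F0 F]
    (hgen : Algebra.adjoin F0 (Set.range (algebraMap K F)) = ⊤) (x : F) :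
    ∃ a : O, a ≠ 0 ∧ algebraMap O F a * x ∈ pdW K O F := by
  have hx : x ∈ Algebra.adjoin F0 (Set.range (algebraMap K F)) := by rw [hgen]; trivial
  induction hx using Algebra.adjoin_induction with
  | mem x hx =>
    obtain ⟨c, rfl⟩ := hx
    exact ⟨1, one_ne_zero, by simpa using pdW_algebraMap_mem c⟩
  | algebraMap r =>
    obtain ⟨⟨a, b⟩, h⟩ := IsLocalization.surj (nonZeroDivisors O) r
    refine ⟨b, nonZeroDivisors.coe_ne_zero b, ?_⟩
    have h1 : algebraMap O F b * algebraMap F0 F r = algebraMap O F a := by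
      rw [IsScalarTower.algebraMap_apply O F0 F, IsScalarTower.algebraMap_apply O F0 F,
        ← map_mul, mul_comm]
      exact congrArg _ h
    rw [h1]; exact Subalgebra.algebraMap_mem _ a
  | add x y _ _ ihx ihy =>
    obtain ⟨a, ha, hax⟩ := ihx
    obtain ⟨b, hb, hby⟩ := ihy
    refine ⟨a * b, mul_ne_zero ha hb, ?_⟩
    have h1 : algebraMap O F (a * b) * (x + y) =
        algebraMap O F b * (algebraMap O F a * x) + algebraMap O F a * (algebraMap O F b * y) := by
      rw [map_mul]; ring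
    rw [h1]
    exact Subalgebra.add_mem _ (Subalgebra.mul_mem _ (Subalgebra.algebraMap_mem _ b) hax)
      (Subalgebra.mul_mem _ (Subalgebra.algebraMap_mem _ a) hby)
  | mul x y _ _ ihx ihy =>
    obtain ⟨a, ha, hax⟩ := ihx
    obtain ⟨b, hb, hby⟩ := ihy
    refine ⟨a * b, mul_ne_zero ha hb, ?_⟩
    have h1 : algebraMap O F (a * b) * (x * y) =
        (algebraMap O F a * x) * (algebraMap O F b * y) := by
      rw [map_mul]; ring
    rw [h1]
    exact Subalgebra.mul_mem _ hax hby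

/-- **Constant extensions are unramified.**  Every place `P0` of `F0 / K0` is the restriction of
a place `P` of `F / K`, `F = F0[K]`, with the same order function. -/
theorem pd_exists_place_above (hgen : Algebra.adjoin F0 (Set.range (algebraMap K F)) = ⊤)
    (P0 : Place K0 F0) :
    ∃ P : Place K F, ∀ x : F0, P.ord (algebraMap F0 F x) = P0.ord x := by
  classical
  letI : Algebra P0.toValuationSubring F :=
    ((algebraMap F0 F).comp P0.toValuationSubring.subtype).toAlgebra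
  haveI : IsScalarTower P0.toValuationSubring F0 F := IsScalarTower.of_algebraMap_eq fun x => rfl
  haveI : IsScalarTower K0 P0.toValuationSubring F := IsScalarTower.of_algebraMap_eq fun c => by
    change algebraMap K0 F c =
      algebraMap F0 F ((algebraMap K0 P0.toValuationSubring c : P0.toValuationSubring) : F0)
    rw [P0.coe_algebraMap, ← IsScalarTower.algebraMap_apply]
  haveI : FaithfulSMul P0.toValuationSubring F :=
    (faithfulSMul_iff_algebraMap_injective _ _).2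
      (fun a b h => Subtype.ext ((algebraMap F0 F).injective h))
  obtain ⟨ϖ, hϖ⟩ := IsDiscreteValuationRing.exists_irreducible P0.toValuationSubring
  obtain ⟨P, h1, h2⟩ := pd_core (K0 := K0) (K := K) (F := F) (O := P0.toValuationSubring)
    (fun x => pd_hfrac hgen x) ϖ hϖ
  refine ⟨P, fun x => ?_⟩
  rcases eq_or_ne x 0 with rfl | hx
  · simp
  obtain ⟨u, hu⟩ := P0.exists_unit_mul_zpow hx hϖ
  have h3 : algebraMap F0 F x = algebraMap P0.toValuationSubring F (u : P0.toValuationSubring) *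
      (algebraMap P0.toValuationSubring F ϖ) ^ (P0.ord x) := by
    conv_lhs => rw [hu]
    rw [map_mul, map_zpow₀]; rfl
  have hu0 : algebraMap P0.toValuationSubring F (u : P0.toValuationSubring) ≠ 0 := by
    intro h
    exact u.ne_zero (FaithfulSMul.algebraMap_injective P0.toValuationSubring F
      (by rw [h, map_zero]))
  have hϖ0 : algebraMap P0.toValuationSubring F ϖ ≠ 0 := by
    intro h
    exact hϖ.ne_zero (FaithfulSMul.algebraMap_injective P0.toValuationSubring F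
      (by rw [h, map_zero]))
  rw [h3, P.ord_mul hu0 (zpow_ne_zero _ hϖ0), h2 _ u.isUnit, P.ord_zpow, h1]
  ring

end Above

section Ufd

variable {K0 F0 R : Type*} [Field K0] [Field F0] [CommRing R] [IsDomain R]
  [Algebra K0 F0] [Algebra R F0] [IsFractionRing R F0]

/-- the localisation of `R` at the prime element `π`, as a subring of the fraction field -/
def pdPrimeLoc (F0 : Type*) [Field F0] [Algebra R F0] (π : R) (hπ : Prime π) : Subring F0 where
  carrier := {x | ∃ a b : R, ¬ π ∣ b ∧ x * algebraMap R F0 b = algebraMap R F0 a}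
  mul_mem' := by
    rintro x y ⟨a, b, hb, hx⟩ ⟨c, d, hd, hy⟩
    refine ⟨a * c, b * d, fun h => (hπ.dvd_or_dvd h).elim hb hd, ?_⟩
    rw [map_mul, map_mul, ← hx, ← hy]; ring
  one_mem' := ⟨1, 1, hπ.not_dvd_one, by simp⟩
  add_mem' := by
    rintro x y ⟨a, b, hb, hx⟩ ⟨c, d, hd, hy⟩
    refine ⟨a * d + c * b, b * d, fun h => (hπ.dvd_or_dvd h).elim hb hd, ?_⟩
    rw [map_add, map_mul, map_mul, map_mul, ← hx, ← hy]; ring
  zero_mem' := ⟨0, 1, hπ.not_dvd_one, by simp⟩
  neg_mem' := by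
    rintro x ⟨a, b, hb, hx⟩
    exact ⟨-a, b, hb, by rw [map_neg, ← hx]; ring⟩

/-- a prime element `π` of a UFD `R` with `K0 ⊆ R_(π)` defines a place of `Frac R` over `K0` -/
theorem pd_place_of_prime [UniqueFactorizationMonoid R] (π : R) (hπ : Prime π)
    (hK0 : ∀ c : K0, ∃ a b : R, ¬ π ∣ b ∧
      algebraMap K0 F0 c * algebraMap R F0 b = algebraMap R F0 a) :
    ∃ P0 : Place K0 F0, P0.ord (algebraMap R F0 π) = 1 ∧
      ∀ c : R, ¬ π ∣ c → P0.ord (algebraMap R F0 c) = 0 := by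
  classical
  have hinj : Function.Injective (algebraMap R F0) := IsFractionRing.injective R F0
  have hne : ∀ b : R, ¬ π ∣ b → algebraMap R F0 b ≠ 0 := by
    intro b hb h
    apply hb
    have : b = 0 := hinj (by rw [h, map_zero])
    rw [this]; exact dvd_zero π
  have hπ0 : algebraMap R F0 π ≠ 0 := fun h => hπ.ne_zero (hinj (by rw [h, map_zero]))
  have hunit : ∀ c : R, ¬ π ∣ c → algebraMap R F0 c ∈ pdPrimeLoc F0 π hπ ∧
      (algebraMap R F0 c)⁻¹ ∈ pdPrimeLoc F0 π hπ := by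
    intro c hc
    refine ⟨⟨c, 1, hπ.not_dvd_one, by simp⟩, ⟨1, c, hc, ?_⟩⟩
    rw [map_one, inv_mul_cancel₀ (hne c hc)]
  have hA : (algebraMap R F0 π)⁻¹ ∉ pdPrimeLoc F0 π hπ := by
    rintro ⟨a, b, hb, h⟩
    apply hb
    have h3 : algebraMap R F0 b = algebraMap R F0 (π * a) := by
      rw [map_mul, ← h]; field_simp
    rw [hinj h3]
    exact dvd_mul_right π a
  have hB : ∀ x : F0, x ≠ 0 → ∃ n : ℤ, ∃ u ∈ pdPrimeLoc F0 π hπ, u⁻¹ ∈ pdPrimeLoc F0 π hπ ∧
      x = (algebraMap R F0 π) ^ n * u := by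
    intro x hx
    obtain ⟨a, b, hb, hab⟩ := IsFractionRing.div_surjective (A := R) x
    have hb0 : b ≠ 0 := nonZeroDivisors.ne_zero hb
    have ha0 : a ≠ 0 := by
      rintro rfl
      rw [map_zero, zero_div] at hab
      exact hx hab.symm
    obtain ⟨n, a', ha', rfl⟩ := WfDvdMonoid.max_power_factor ha0 hπ.irreducible
    obtain ⟨k, b', hb', rfl⟩ := WfDvdMonoid.max_power_factor hb0 hπ.irreducible
    refine ⟨(n : ℤ) - k, algebraMap R F0 a' * (algebraMap R F0 b')⁻¹,
      (pdPrimeLoc F0 π hπ).mul_mem (hunit a' ha').1 (hunit b' hb').2, ?_, ?_⟩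
    · rw [mul_inv, inv_inv]
      exact (pdPrimeLoc F0 π hπ).mul_mem (hunit a' ha').2 (hunit b' hb').1
    · rw [← hab, zpow_sub₀ hπ0, zpow_natCast, zpow_natCast, map_mul, map_mul, map_pow, map_pow]
      have := hne b' hb'
      field_simp
  obtain ⟨P0, -, h1, h2⟩ := pd_place_of_normal_form (K := K0) (pdPrimeLoc F0 π hπ)
    (fun c => hK0 c) (algebraMap R F0 π) ⟨π, 1, hπ.not_dvd_one, by simp⟩ hA hB
  exact ⟨P0, h1, fun c hc => h2 _ (hunit c hc).1 (hne c hc) (hunit c hc).2⟩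

end Ufd

section Main

variable {K0 K F0 F R : Type*} [Field K0] [Field K] [Field F0] [Field F]
  [CommRing R] [IsDomain R] [UniqueFactorizationMonoid R]
  [Algebra K0 K] [Algebra K0 F0] [Algebra K F] [Algebra F0 F] [Algebra K0 F]
  [IsScalarTower K0 K F] [IsScalarTower K0 F0 F] [CharZero K0] [Algebra.IsAlgebraic K0 K]
  [Algebra R F0] [IsFractionRing R F0]

/-- **M-2.**  A prime element `π` of the UFD `R` (fraction field `F0`) with `K0 ⊆ R_(π)` is the
centre of a place `P` of `F = F0[K]` over `K` with `P.ord π = 1`. -/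
theorem pd_exists_place (hgen : Algebra.adjoin F0 (Set.range (algebraMap K F)) = ⊤)
    (π : R) (hπ : Prime π)
    (hK0 : ∀ c : K0, ∃ a b : R, ¬ π ∣ b ∧
      algebraMap K0 F0 c * algebraMap R F0 b = algebraMap R F0 a) :
    ∃ P : Place K F, P.ord (algebraMap F0 F (algebraMap R F0 π)) = 1 ∧
      ∀ c : R, ¬ π ∣ c → P.ord (algebraMap F0 F (algebraMap R F0 c)) = 0 := by
  obtain ⟨P0, h1, h2⟩ := pd_place_of_prime (K0 := K0) (F0 := F0) π hπ hK0
  obtain ⟨P, hP⟩ := pd_exists_place_above (K := K) (F := F) hgen P0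
  exact ⟨P, by rw [hP, h1], fun c hc => by rw [hP, h2 c hc]⟩

/-- **M-2** in the shape of the hypothesis `hval` of `s36_move_unit_of_ord`. -/
theorem pd_hval (hgen : Algebra.adjoin F0 (Set.range (algebraMap K F)) = ⊤)
    (m : ℕ) (f : F0) (hf : ∀ P : Place K F, (m : ℤ) ∣ P.ord (algebraMap F0 F f))
    (π : R) (hπ : Prime π)
    (hK0 : ∀ c : K0, ∃ a b : R, ¬ π ∣ b ∧
      algebraMap K0 F0 c * algebraMap R F0 b = algebraMap R F0 a) :
    ∃ v : F0 → ℤ, (∀ a b : F0, a ≠ 0 → b ≠ 0 → v (a * b) = v a + v b) ∧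
      v (algebraMap R F0 π) = 1 ∧
      (∀ c : R, c ≠ 0 → ¬ π ∣ c → v (algebraMap R F0 c) = 0) ∧ (m : ℤ) ∣ v f := by
  obtain ⟨P, h1, h2⟩ := pd_exists_place (K := K) (F := F) hgen π hπ hK0
  refine ⟨fun x => P.ord (algebraMap F0 F x), ?_, h1, fun c _ hc => h2 c hc, hf P⟩
  intro a b ha hb
  simp only [map_mul]
  exact P.ord_mul ((_root_.map_ne_zero _).2 ha) ((_root_.map_ne_zero _).2 hb)

omit [UniqueFactorizationMonoid R] [IsFractionRing R F0] [IsDomain R] [CharZero K0] in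
/-- the hypothesis `hK0` from: `π ∤ q` and `K0 = A0[1/q]`. -/
theorem pd_hK0_of_inv (π : R) (hπ : Prime π) (q : R) (hq : ¬ π ∣ q)
    (h : ∀ c : K0, ∃ (a : R) (n : ℕ),
      algebraMap K0 F0 c * algebraMap R F0 q ^ n = algebraMap R F0 a) :
    ∀ c : K0, ∃ a b : R, ¬ π ∣ b ∧
      algebraMap K0 F0 c * algebraMap R F0 b = algebraMap R F0 a := by
  intro c
  obtain ⟨a, n, hn⟩ := h c
  exact ⟨a, q ^ n, fun hd => hq (hπ.dvd_of_dvd_pow hd), by rw [map_pow]; exact hn⟩

end Main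

end Fermat.Agent.S36lib
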