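import Mathlib
import Fermat.Agent.S36lib.PlaceDict
import Fermat.Agent.S36lib.SetupK0
import Fermat.Agent.S24lib.Embed

/-!
# Item 83 (S36), piece M-2, concrete form (helper27)

The abstract `S36lib/PlaceDict.lean` applied to `K0 = k0Field A ⊆ Kbar`,
`F0 = f0Field A L ⊆ FF L`:

* `pd_hgen_FF`: `FF L = F0(L)[Kbar]`;
* `pd_exists_place_FF`: every place of `F0(L) / K0` is the restriction of a place of `FF L`
  with the same order function;
* `pd_hhor_FF`: the hypothesis `hhor` of `s36_invert_nodeSetup` for `f ∈ F0(L)` whose orders at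
  all places of `FF L` are divisible by `m`.
-/

set_option autoImplicit false

noncomputable section

namespace Fermat.Agent.S36lib

open AlgebraicCurve Fermat.Agent.S24lib

variable (A : ValuationSubring Kbar) (L : ℕ) [NeZero L]

/-- `Kbar` is algebraic over `K0` -/
theorem pd_isAlgebraic_k0 : Algebra.IsAlgebraic (k0Field A) Kbar := by
  haveI : Algebra.IsAlgebraic ℚ Kbar := AlgebraicClosure.isAlgebraic ℚ
  exact Algebra.IsAlgebraic.tower_top (K := ℚ) (k0Field A)

/-- `FF L = F0(L)[Kbar]` -/
theorem pd_hgen_FF :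
    Algebra.adjoin (f0Field A L) (Set.range (algebraMap Kbar (FF L))) = ⊤ := by
  rw [eq_top_iff]
  intro x _
  have hconst : ∀ c : Kbar, IsIntegral (f0Field A L) (algebraMap Kbar (FF L) c) := by
    intro c
    haveI := pd_isAlgebraic_k0 A
    have h0 : IsIntegral (k0Field A) c := (Algebra.IsAlgebraic.isAlgebraic c).isIntegral
    have h1 : IsIntegral (k0Field A) (algebraMap Kbar (FF L) c) :=
      h0.map (IsScalarTower.toAlgHom (k0Field A) Kbar (FF L))
    exact h1.tower_top
  have hle : Algebra.adjoin (f0Field A L) (Set.range (algebraMap Kbar (FF L))) ≤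
      integralClosure (f0Field A L) (FF L) := by
    refine Algebra.adjoin_le ?_
    rintro _ ⟨c, rfl⟩
    exact hconst c
  refine FF_induction L
    (p := fun x => x ∈ Algebra.adjoin (f0Field A L) (Set.range (algebraMap Kbar (FF L))))
    ?_ ?_ ?_ ?_ ?_ ?_ x
  · intro c
    exact Algebra.subset_adjoin ⟨c, rfl⟩
  · intro d _ hd
    exact Subalgebra.algebraMap_mem _ (⟨jdF L d hd, jdF_mem_f0Field A L d hd⟩ : f0Field A L)
  · intro x y hx hy
    exact Subalgebra.add_mem _ hx hy
  · intro x hx
    exact Subalgebra.neg_mem _ hx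
  · intro x y hx hy
    exact Subalgebra.mul_mem _ hx hy
  · intro x hx
    have halg : IsAlgebraic (f0Field A L) x := (hle hx).isAlgebraic
    exact Subalgebra.inv_mem_of_algebraic
      (A := Algebra.adjoin (f0Field A L) (Set.range (algebraMap Kbar (FF L)))) (x := ⟨x, hx⟩) halg

/-- **Constant extensions are unramified**, for the function field of level `L`: every place of
`F0(L)` over `K0` is the restriction of a place of `FF L` with the same order function. -/
theorem pd_exists_place_FF (P0 : Place (k0Field A) (f0Field A L)) :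
    ∃ P : Place Kbar (FF L), ∀ x : f0Field A L, P.ord (x : FF L) = P0.ord x :=
  haveI := pd_isAlgebraic_k0 A
  pd_exists_place_above (K0 := k0Field A) (K := Kbar) (F0 := f0Field A L) (F := FF L)
    (pd_hgen_FF A L) P0

/-- **M-2, concrete form** = the hypothesis `hhor` of `s36_invert_nodeSetup`
(with `K := k0Field A`, `F := f0Field A L`). -/
theorem pd_hhor_FF (m : ℕ) (f : f0Field A L)
    (hf : ∀ P : Place Kbar (FF L), (m : ℤ) ∣ P.ord (f : FF L))
    (R : Type) [CommRing R] [IsDomain R] [UniqueFactorizationMonoid R]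
    [Algebra R (f0Field A L)] [IsFractionRing R (f0Field A L)] (p : R) (hp : Prime p)
    (hK0 : ∀ c : k0Field A, ∃ a b : R, ¬ p ∣ b ∧
      algebraMap (k0Field A) (f0Field A L) c * algebraMap R (f0Field A L) b =
        algebraMap R (f0Field A L) a) :
    ∃ v : f0Field A L → ℤ,
      (∀ a b : f0Field A L, a ≠ 0 → b ≠ 0 → v (a * b) = v a + v b) ∧
      v (algebraMap R (f0Field A L) p) = 1 ∧
      (∀ c : R, c ≠ 0 → ¬ p ∣ c → v (algebraMap R (f0Field A L) c) = 0) ∧ (m : ℤ) ∣ v f :=
  haveI := pd_isAlgebraic_k0 A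
  pd_hval (K0 := k0Field A) (K := Kbar) (F0 := f0Field A L) (F := FF L) (pd_hgen_FF A L) m f
    (fun P => hf P) p hp hK0

end Fermat.Agent.S36lib
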