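import Mathlib
import Fermat.Agent.S34lib.UnipK
import Fermat.Agent.S36lib.SetupK0
import Fermat.Agent.S36lib.InvertSetup
import Fermat.Agent.S36lib.PlaceDictFF

/-!
# Item 83 (S36), block APPLY2, step 3 (helper20): the CONCRETE INVERT

`S = nodeSetupK0 A vInf vMid vZero …` over `A0 = k0Val A` (helper24's `SetupK0.lean`), level `L`.
For `f0 ∈ F0(L)` with `m ∣ P.ord f0` at all places of `FF L` and the norm–valuation congruences
(`hNV`, piece NV), `f0 ^ c = q ^ e · b · g ^ m` with `b ∈ B` a UNIT AT THE NODES.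

Inputs that stay hypotheses here (owners): `IsNoetherianRing S.B`, `hfrac` (V-I), the nodes with
`hufd` (REG2), `harch*` (V-3: the valuations are of rank one over `q`), `hhor` (M-2 concrete,
`PlaceDictFF`), `hNV` (NV).  `Hrad` is proved here (`a2i_hrad`).
-/

set_option autoImplicit false
set_option linter.style.haveILetI false

noncomputable section

namespace Fermat.Agent.S36lib

open ModularCurve AlgebraicCurve
open Fermat.Agent.S24lib Fermat.Agent.S34lib Fermat.Agent.GoodRed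

variable (A : ValuationSubring Kbar) (q : ℕ)

/-- `q ≠ 0` in `A0` -/
theorem a2i_q_ne_zero (hq : q.Prime) : (q : k0Val A) ≠ 0 := by
  intro h0
  have h1 : (((q : k0Val A) : k0Field A) : Kbar) = 0 := by rw [h0]; rfl
  rw [k0Val_coe_natCast] at h1
  exact hq.ne_zero (Nat.cast_eq_zero.1 h1)

/-- the residue class of `q` is `0` -/
theorem a2i_res_q (hA : A.LiesOverPrime q) : k0Res A (q : k0Val A) = 0 := by
  have h := (k0_residue_comp_eq_zero_iff A (q : k0Val A)).2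
  apply h
  rw [← ValuationSubring.coe_mem_nonunits_iff]
  exact k0Val_q_mem_nonunits A q hA

/-- `K0 = A0[1/q]` -/
theorem a2i_exists_pow_mem (hq : q.Prime) (hA : A.LiesOverPrime q) (c : k0Field A) :
    ∃ n : ℕ, c * (((q : k0Val A) : k0Field A)) ^ n ∈ k0Val A := by
  rcases eq_or_ne c 0 with rfl | hc
  · exact ⟨0, by simp⟩
  have hc' : ((c : Kbar))⁻¹ ≠ 0 := inv_ne_zero (fun h => hc (Subtype.ext h))
  obtain ⟨N, hN⟩ := k0_exists_pow_lt A q hq hA _ hc'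
  refine ⟨N, ?_⟩
  rw [mem_k0Val_iff]
  push_cast
  rw [← A.valuation_le_one_iff, map_mul, map_pow]
  rw [map_inv₀] at hN
  have hv0 : A.valuation (c : Kbar) ≠ 0 :=
    (Valuation.ne_zero_iff _).2 (fun h => hc (Subtype.ext h))
  have h1 : A.valuation (c : Kbar) * A.valuation (q : Kbar) ^ N <
      A.valuation (c : Kbar) * (A.valuation (c : Kbar))⁻¹ :=
    mul_lt_mul_of_pos_left hN (zero_lt_iff.2 hv0)
  rw [mul_inv_cancel₀ hv0] at h1
  exact h1.le

/-- a criterion for non-units of a valuation subring -/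
theorem a2i_mem_nonunits_iff {F : Type*} [Field F] (O : ValuationSubring F) (x : F) :
    x ∈ O.nonunits ↔ x = 0 ∨ x⁻¹ ∉ O := by
  rw [ValuationSubring.mem_nonunits_iff]
  rcases eq_or_ne x 0 with rfl | hx
  · simp
  · have hv0 : O.valuation x ≠ 0 := (Valuation.ne_zero_iff _).2 hx
    rw [← O.valuation_le_one_iff, map_inv₀, inv_le_one₀ (zero_lt_iff.2 hv0), not_le]
    simp [hx]

variable {L : ℕ} [NeZero L] {κ : Type*} [Field κ] [Algebra (IsLocalRing.ResidueField A) κ]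

/-- `q` in `F0(L)` -/
def a2iQ : f0Field A L := algebraMap (k0Field A) (f0Field A L) ((q : k0Val A) : k0Field A)

omit [NeZero L] in
theorem a2i_coe_Q : ((a2iQ A q (L := L) : f0Field A L) : FF L) = algebraMap Kbar (FF L) (q : Kbar) := by
  show algebraMap Kbar (FF L) ((((q : k0Val A) : k0Field A)) : Kbar) = _
  rw [k0Val_coe_natCast]

omit [NeZero L] in
theorem a2i_Q_ne_zero (hq : q.Prime) : (a2iQ A q (L := L) : f0Field A L) ≠ 0 := by
  intro h0
  have h1 := congrArg (fun x : f0Field A L => (x : FF L)) h0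
  simp only [a2i_coe_Q] at h1
  have h2 : (q : Kbar) = 0 := (map_eq_zero (algebraMap Kbar (FF L))).1 (by simpa using h1)
  exact hq.ne_zero (Nat.cast_eq_zero.1 h2)

section Hrad

variable (vInf vMid vZero : ResVal A (IsLocalRing.residue A) κ (FF L))
  (hInf : ∀ w : κ, ∃ (x : FF L) (hx : x ∈ vInf.O), x ∈ f0Field A L ∧ vInf.red ⟨x, hx⟩ = w)
  (hMid : ∀ w : κ, ∃ (x : FF L) (hx : x ∈ vMid.O), x ∈ f0Field A L ∧ vMid.red ⟨x, hx⟩ = w)
  (hZero : ∀ w : κ, ∃ (x : FF L) (hx : x ∈ vZero.O), x ∈ f0Field A L ∧ vZero.red ⟨x, hx⟩ = w)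

/-- the archimedean property over `q` passes to the restriction to `F0(L)` -/
theorem a2i_harch (v : ResVal A (IsLocalRing.residue A) κ (FF L))
    (hsurj : ∀ w : κ, ∃ (x : FF L) (hx : x ∈ v.O), x ∈ f0Field A L ∧ v.red ⟨x, hx⟩ = w)
    (harch : ∀ z ∈ v.O.nonunits, ∃ n : ℕ, z ^ n * (algebraMap Kbar (FF L) (q : Kbar))⁻¹ ∈ v.O)
    (z : f0Field A L) (hz : z ∈ (v.restrictK0 A hsurj).O.nonunits) :
    ∃ n : ℕ, z ^ n * (algebraMap (k0Field A) (f0Field A L)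
      ((((q : k0Val A) : k0Val A) : k0Field A)))⁻¹ ∈ (v.restrictK0 A hsurj).O := by
  have hz' : (z : FF L) ∈ v.O.nonunits := by
    rw [a2i_mem_nonunits_iff] at hz ⊢
    rcases hz with hz | hz
    · left
      rw [hz]; rfl
    · right
      intro h
      apply hz
      rw [ResVal.mem_restrictK0_iff]
      push_cast
      exact h
  obtain ⟨n, hn⟩ := harch _ hz'
  refine ⟨n, ?_⟩
  rw [ResVal.mem_restrictK0_iff]
  have e : ((z ^ n * (algebraMap (k0Field A) (f0Field A L)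
      ((((q : k0Val A) : k0Val A) : k0Field A)))⁻¹ : f0Field A L) : FF L) =
      (z : FF L) ^ n * (algebraMap Kbar (FF L) (q : Kbar))⁻¹ := by
    push_cast
    simp
  rw [e]
  exact hn

/-- **`Hrad` for the concrete setup**: every prime of `B` containing `q` contains one of the
three vertical primes. -/
theorem a2i_hrad (hq : q.Prime)
    (harchInf : ∀ z ∈ vInf.O.nonunits,
      ∃ n : ℕ, z ^ n * (algebraMap Kbar (FF L) (q : Kbar))⁻¹ ∈ vInf.O)
    (harchMid : ∀ z ∈ vMid.O.nonunits,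
      ∃ n : ℕ, z ^ n * (algebraMap Kbar (FF L) (q : Kbar))⁻¹ ∈ vMid.O)
    (harchZero : ∀ z ∈ vZero.O.nonunits,
      ∃ n : ℕ, z ^ n * (algebraMap Kbar (FF L) (q : Kbar))⁻¹ ∈ vZero.O)
    (P : Ideal (nodeSetupK0 A vInf vMid vZero hInf hMid hZero).B) (hP : P.IsPrime)
    (hqP : (nodeSetupK0 A vInf vMid vZero hInf hMid hZero).constB (q : k0Val A) ∈ P) :
    (nodeSetupK0 A vInf vMid vZero hInf hMid hZero).pInf ≤ P ∨
      (nodeSetupK0 A vInf vMid vZero hInf hMid hZero).pMid ≤ P ∨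
      (nodeSetupK0 A vInf vMid vZero hInf hMid hZero).pZero ≤ P := by
  refine s36_hrad_of_saturated (nodeSetupK0 A vInf vMid vZero hInf hMid hZero) (q : k0Val A)
    (a2i_q_ne_zero A q hq) ?_ (a2i_harch A q vInf hInf harchInf)
    (a2i_harch A q vMid hMid harchMid) (a2i_harch A q vZero hZero harchZero) P hP hqP
  -- saturation
  intro w hw hqw
  have hB : ∀ x : f0Field A L, x ∈ (nodeSetupK0 A vInf vMid vZero hInf hMid hZero).B ↔
      (x : FF L) ∈ cuspRegular L ∧ (x : FF L) ∈ vInf.O ∧ (x : FF L) ∈ vMid.O ∧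
        (x : FF L) ∈ vZero.O := fun x => mem_f0Aff_iff A L _ _ _ x
  rw [hB] at hqw ⊢
  obtain ⟨⟨h1, h2⟩, h3⟩ := hw
  refine ⟨?_, h1, h2, h3⟩
  rw [mem_cuspRegular_iff]
  intro Pl hPl
  have hq0 : (q : Kbar) ≠ 0 := Nat.cast_ne_zero.2 hq.ne_zero
  have hmem := (mem_cuspRegular_iff L _).1 hqw.1 Pl hPl
  have hcoe : ((algebraMap (k0Field A) (f0Field A L) ((((q : k0Val A) : k0Val A) : k0Field A)) *
      w : f0Field A L) : FF L) = algebraMap Kbar (FF L) (q : Kbar) * (w : FF L) := by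
    push_cast
    simp
  rw [hcoe] at hmem
  have hinv : algebraMap Kbar (FF L) ((q : Kbar)⁻¹) ∈ Pl.toValuationSubring :=
    Pl.algebraMap_mem' _
  have : (w : FF L) = algebraMap Kbar (FF L) ((q : Kbar)⁻¹) *
      (algebraMap Kbar (FF L) (q : Kbar) * (w : FF L)) := by
    rw [← mul_assoc, ← map_mul, inv_mul_cancel₀ hq0, map_one, one_mul]
  rw [this]
  exact Pl.toValuationSubring.mul_mem _ _ hinv hmem

end Hrad

section Main

omit [NeZero L] in
theorem a2i_coe_zpow (x : f0Field A L) (n : ℤ) :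
    ((x ^ n : f0Field A L) : FF L) = (x : FF L) ^ n :=
  map_zpow₀ (f0Field A L).val x n

variable (vInf vMid vZero : ResVal A (IsLocalRing.residue A) κ (FF L))
  (hInf : ∀ w : κ, ∃ (x : FF L) (hx : x ∈ vInf.O), x ∈ f0Field A L ∧ vInf.red ⟨x, hx⟩ = w)
  (hMid : ∀ w : κ, ∃ (x : FF L) (hx : x ∈ vMid.O), x ∈ f0Field A L ∧ vMid.red ⟨x, hx⟩ = w)
  (hZero : ∀ w : κ, ∃ (x : FF L) (hx : x ∈ vZero.O), x ∈ f0Field A L ∧ vZero.red ⟨x, hx⟩ = w)

/-- the vertical hypothesis of `s36_invert_nodeSetup` from the norm–valuation congruence -/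
theorem a2i_vertical (hq : q.Prime) (v : ResVal A (IsLocalRing.residue A) κ (FF L))
    (hsurj : ∀ w : κ, ∃ (x : FF L) (hx : x ∈ v.O), x ∈ f0Field A L ∧ v.red ⟨x, hx⟩ = w)
    (m c1 : ℕ) (e : ℤ) (f0 : f0Field A L)
    (hNV : ∃ (j : ℤ) (u : FF L), u ∈ v.O ∧ u⁻¹ ∈ v.O ∧
      (f0 : FF L) ^ c1 = u * (algebraMap Kbar (FF L) (q : Kbar)) ^ (e + m * j)) :
    ∃ s u : f0Field A L, u ∈ (v.restrictK0 A hsurj).O ∧ u⁻¹ ∈ (v.restrictK0 A hsurj).O ∧
      f0 ^ c1 * (a2iQ A q (L := L)) ^ (-e) = u * s ^ m := by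
  obtain ⟨j, u, hu, hu', h⟩ := hNV
  have hQ0 : (a2iQ A q (L := L) : f0Field A L) ≠ 0 := a2i_Q_ne_zero A q hq
  have hq0 : algebraMap Kbar (FF L) (q : Kbar) ≠ 0 :=
    (map_ne_zero _).2 (Nat.cast_ne_zero.2 hq.ne_zero)
  -- u₀ := f0^c1 · Q^(-(e + m j)) ∈ F0 has image u
  set u₀ : f0Field A L := f0 ^ c1 * (a2iQ A q (L := L)) ^ (-(e + m * j)) with hu₀
  have hcoe : ((u₀ : f0Field A L) : FF L) = u := by
    rw [hu₀]
    push_cast
    rw [a2i_coe_zpow, a2i_coe_Q, h, zpow_neg]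
    field_simp
  refine ⟨(a2iQ A q (L := L)) ^ j, u₀, ?_, ?_, ?_⟩
  · rw [ResVal.mem_restrictK0_iff, hcoe]; exact hu
  · rw [ResVal.mem_restrictK0_iff]
    push_cast
    rw [hcoe]; exact hu'
  · rw [hu₀, ← zpow_natCast ((a2iQ A q (L := L)) ^ j) m, ← zpow_mul, mul_assoc,
      ← zpow_add₀ hQ0]
    congr 2
    ring

/-- **the concrete INVERT** (APPLY2, step 3).  `f0 ∈ F0(L)` nonzero with `m ∣ P.ord f0` at all
places of `FF L`; `hNV*`: at each of the three valuations `f0 ^ c1 = unit · q ^ (e + m j)`.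
Then `f0 ^ c1 = q ^ e · b · g ^ m` with `b ∈ B` a unit at the nodes and `g ∈ F0(L)^×`. -/
theorem a2i_invert (hq : q.Prime) (hA : A.LiesOverPrime q)
    [IsNoetherianRing (nodeSetupK0 A vInf vMid vZero hInf hMid hZero).B]
    (hfrac : ∀ z : f0Field A L, ∃ a b : (nodeSetupK0 A vInf vMid vZero hInf hMid hZero).B,
      b ≠ 0 ∧ z * (b : f0Field A L) = (a : f0Field A L))
    {ι : Type*} [Finite ι] [Nonempty ι]
    (t : ι → Ideal (nodeSetupK0 A vInf vMid vZero hInf hMid hZero).B) [∀ i, (t i).IsMaximal]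
    (hinj : Function.Injective t)
    (hufd : ∀ i, UniqueFactorizationMonoid (Localization.AtPrime (t i)))
    (hnode : ∀ t' : Ideal (nodeSetupK0 A vInf vMid vZero hInf hMid hZero).B,
      (nodeSetupK0 A vInf vMid vZero hInf hMid hZero).IsNode t' → ∃ i, t' = t i)
    (harchInf : ∀ z ∈ vInf.O.nonunits,
      ∃ n : ℕ, z ^ n * (algebraMap Kbar (FF L) (q : Kbar))⁻¹ ∈ vInf.O)
    (harchMid : ∀ z ∈ vMid.O.nonunits,
      ∃ n : ℕ, z ^ n * (algebraMap Kbar (FF L) (q : Kbar))⁻¹ ∈ vMid.O)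
    (harchZero : ∀ z ∈ vZero.O.nonunits,
      ∃ n : ℕ, z ^ n * (algebraMap Kbar (FF L) (q : Kbar))⁻¹ ∈ vZero.O)
    (m : ℕ) (hm : 0 < m) (c1 : ℕ) (e : ℤ) (f0 : f0Field A L) (hf0 : f0 ≠ 0)
    (hdiv : ∀ P : Place Kbar (FF L), (m : ℤ) ∣ P.ord (f0 : FF L))
    (hNVInf : ∃ (j : ℤ) (u : FF L), u ∈ vInf.O ∧ u⁻¹ ∈ vInf.O ∧
      (f0 : FF L) ^ c1 = u * (algebraMap Kbar (FF L) (q : Kbar)) ^ (e + m * j))
    (hNVMid : ∃ (j : ℤ) (u : FF L), u ∈ vMid.O ∧ u⁻¹ ∈ vMid.O ∧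
      (f0 : FF L) ^ c1 = u * (algebraMap Kbar (FF L) (q : Kbar)) ^ (e + m * j))
    (hNVZero : ∃ (j : ℤ) (u : FF L), u ∈ vZero.O ∧ u⁻¹ ∈ vZero.O ∧
      (f0 : FF L) ^ c1 = u * (algebraMap Kbar (FF L) (q : Kbar)) ^ (e + m * j)) :
    ∃ (g : f0Field A L) (b : (nodeSetupK0 A vInf vMid vZero hInf hMid hZero).B),
      g ≠ 0 ∧ (nodeSetupK0 A vInf vMid vZero hInf hMid hZero).IsUnitAtNodes b ∧
        f0 ^ c1 = (a2iQ A q (L := L)) ^ e * (b : f0Field A L) * g ^ m := by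
  have hQ0 : (a2iQ A q (L := L) : f0Field A L) ≠ 0 := a2i_Q_ne_zero A q hq
  have hq0 : algebraMap Kbar (FF L) (q : Kbar) ≠ 0 :=
    (map_ne_zero _).2 (Nat.cast_ne_zero.2 hq.ne_zero)
  set f : f0Field A L := f0 ^ c1 * (a2iQ A q (L := L)) ^ (-e) with hfdef
  have hf : f ≠ 0 := mul_ne_zero (pow_ne_zero _ hf0) (zpow_ne_zero _ hQ0)
  have hford : ∀ P : Place Kbar (FF L), (m : ℤ) ∣ P.ord (f : FF L) := by
    intro P
    have hcoe : ((f : f0Field A L) : FF L) =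
        (f0 : FF L) ^ c1 * (algebraMap Kbar (FF L) (q : Kbar)) ^ (-e) := by
      rw [hfdef]
      push_cast
      rw [a2i_coe_zpow, a2i_coe_Q]
      simp
    have hf0' : (f0 : FF L) ≠ 0 := fun h => hf0 (Subtype.ext h)
    rw [hcoe, P.ord_mul (pow_ne_zero _ hf0') (zpow_ne_zero _ hq0), P.ord_zpow,
      uk_ord_const, mul_zero, add_zero, ← zpow_natCast, P.ord_zpow]
    exact Dvd.dvd.mul_left (hdiv P) _
  obtain ⟨g, b, hg, hb, hfb⟩ := s36_invert_nodeSetup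
    (nodeSetupK0 A vInf vMid vZero hInf hMid hZero) hfrac t hinj hufd hnode
    (q : k0Val A) (a2i_q_ne_zero A q hq) (a2i_res_q A q hA)
    (fun c => a2i_exists_pow_mem A q hq hA c)
    (a2i_hrad A q vInf vMid vZero hInf hMid hZero hq harchInf harchMid harchZero)
    m hm f hf
    (fun R _ _ _ _ _ p hp h => pd_hhor_FF A L m f hford R p hp h)
    (a2i_vertical A q hq vInf hInf m c1 e f0 hNVInf)
    (a2i_vertical A q hq vMid hMid m c1 e f0 hNVMid)
    (a2i_vertical A q hq vZero hZero m c1 e f0 hNVZero)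
  refine ⟨g, b, hg, hb, ?_⟩
  have : f0 ^ c1 = f * (a2iQ A q (L := L)) ^ e := by
    rw [hfdef, mul_assoc, ← zpow_add₀ hQ0, neg_add_cancel, zpow_zero, mul_one]
  rw [this, hfb]
  ring

end Main

end Fermat.Agent.S36lib

end
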