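import Mathlib
import Fermat.Agent.S36lib.SetupRed

/-!
# Item 83 (S36), block V, interface (architect helper24): the affine ring `B_D`

Decision of the chief architect (helper20, 00:10Z): `B = B_{D1}`, the functions regular off the
cusps over `∞'` (the crux (h1) forces it).  This file provides the affine ring for an ARBITRARY
set `D` of places of `FF L`:

* `offRegular L D : Subring (FF L)`: regular at every place outside `D`;
* `f0AffD A L D O₁ O₂ O₃ : Subring F0(L)` and `mem_f0AffD_iff`;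
* `nodeSetupSeriesD A D vInf vMid vZero κ …  : NodeSetup A0 π0 κ F0(L)` with `B = f0AffD …`;
* `cuspRegular_eq_offRegular`, `f0Aff_eq_f0AffD`: the ring `B_j` of `SetupK0.lean` is the case
  `D = {P | j ∉ O_P}` (ALL cusps).
For `B_{D1}` take `D := {P | P lies over the place ∞' of level M'}`.
-/

set_option autoImplicit false
set_option linter.style.haveILetI false
set_option synthInstance.maxHeartbeats 400000
set_option linter.unusedSectionVars false

noncomputable section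

namespace Fermat.Agent.S36lib

open ModularCurve AlgebraicCurve
open Fermat.Agent.S24lib Fermat.Agent.S34lib Fermat.Agent.GoodRed

variable (A : ValuationSubring Kbar) (L : ℕ) [NeZero L]

/-- the functions of level `L` regular at every place outside `D` -/
def offRegular (D : Set (Place Kbar (FF L))) : Subring (FF L) :=
  ⨅ P : {P : Place Kbar (FF L) // P ∉ D}, P.1.toValuationSubring.toSubring

theorem mem_offRegular_iff (D : Set (Place Kbar (FF L))) (f : FF L) :
    f ∈ offRegular L D ↔ ∀ P : Place Kbar (FF L), P ∉ D → f ∈ P.toValuationSubring := by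
  simp only [offRegular, Subring.mem_iInf, Subtype.forall]
  rfl

theorem const_mem_offRegular (D : Set (Place Kbar (FF L))) (c : Kbar) :
    algebraMap Kbar (FF L) c ∈ offRegular L D :=
  (mem_offRegular_iff L D _).mpr fun P _ => P.algebraMap_mem' c

theorem offRegular_mono {D D' : Set (Place Kbar (FF L))} (h : D ⊆ D') :
    offRegular L D ≤ offRegular L D' := fun f hf =>
  (mem_offRegular_iff L D' f).mpr fun P hP =>
    (mem_offRegular_iff L D f).mp hf P fun hPD => hP (h hPD)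

theorem cuspRegular_eq_offRegular :
    cuspRegular L = offRegular L {P | jF L ∉ P.toValuationSubring} := by
  ext f
  rw [mem_cuspRegular_iff, mem_offRegular_iff]
  constructor
  · intro h P hP
    refine h P ?_
    by_contra hj
    exact hP hj
  · intro h P hj
    exact h P fun hP => hP hj

/-- the affine ring `B_D ⊂ F0(L)`: regular off `D`, in the three valuation rings -/
def f0AffD (D : Set (Place Kbar (FF L))) (O₁ O₂ O₃ : ValuationSubring (FF L)) :
    Subring (f0Field A L) :=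
  (offRegular L D ⊓ O₁.toSubring ⊓ O₂.toSubring ⊓ O₃.toSubring).comap
    (algebraMap (f0Field A L) (FF L))

theorem mem_f0AffD_iff (D : Set (Place Kbar (FF L))) (O₁ O₂ O₃ : ValuationSubring (FF L))
    (x : f0Field A L) :
    x ∈ f0AffD A L D O₁ O₂ O₃ ↔
      (x : FF L) ∈ offRegular L D ∧ (x : FF L) ∈ O₁ ∧ (x : FF L) ∈ O₂ ∧ (x : FF L) ∈ O₃ := by
  simp only [f0AffD, Subring.mem_comap, Subring.mem_inf]
  constructor
  · rintro ⟨⟨⟨h0, h1⟩, h2⟩, h3⟩
    exact ⟨h0, h1, h2, h3⟩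
  · rintro ⟨h0, h1, h2, h3⟩
    exact ⟨⟨⟨h0, h1⟩, h2⟩, h3⟩

theorem f0AffD_mono {D D' : Set (Place Kbar (FF L))} (h : D ⊆ D')
    (O₁ O₂ O₃ : ValuationSubring (FF L)) : f0AffD A L D O₁ O₂ O₃ ≤ f0AffD A L D' O₁ O₂ O₃ :=
  fun x hx => by
    rw [mem_f0AffD_iff] at hx ⊢
    exact ⟨offRegular_mono L h hx.1, hx.2⟩

theorem f0Aff_eq_f0AffD (O₁ O₂ O₃ : ValuationSubring (FF L)) :
    f0Aff A L O₁ O₂ O₃ = f0AffD A L {P | jF L ∉ P.toValuationSubring} O₁ O₂ O₃ := by
  ext x
  rw [mem_f0Aff_iff, mem_f0AffD_iff, cuspRegular_eq_offRegular]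

variable {L}

/-- **the setup over `A0` with the affine ring `B_D`** from three `SeriesVal`s of `FF L` (level
`N = M' q`: take `vMid := vInf`) and the common residue field `κ ⊆ k((X))` of their
restrictions to `F0(L)`. -/
def nodeSetupSeriesD (D : Set (Place Kbar (FF L))) (vInf vMid vZero : SeriesVal A L)
    (κ : IntermediateField (IsLocalRing.ResidueField A)
      (LaurentSeries (IsLocalRing.ResidueField A)))
    (hiInf : ∀ (x : FF L) (hx : x ∈ vInf.O), x ∈ f0Field A L → vInf.red ⟨x, hx⟩ ∈ κ)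
    (hoInf : ∀ w ∈ κ, ∃ (x : FF L) (hx : x ∈ vInf.O), x ∈ f0Field A L ∧ vInf.red ⟨x, hx⟩ = w)
    (hiMid : ∀ (x : FF L) (hx : x ∈ vMid.O), x ∈ f0Field A L → vMid.red ⟨x, hx⟩ ∈ κ)
    (hoMid : ∀ w ∈ κ, ∃ (x : FF L) (hx : x ∈ vMid.O), x ∈ f0Field A L ∧ vMid.red ⟨x, hx⟩ = w)
    (hiZero : ∀ (x : FF L) (hx : x ∈ vZero.O), x ∈ f0Field A L → vZero.red ⟨x, hx⟩ ∈ κ)
    (hoZero : ∀ w ∈ κ, ∃ (x : FF L) (hx : x ∈ vZero.O), x ∈ f0Field A L ∧
      vZero.red ⟨x, hx⟩ = w) :
    NodeSetup (k0Val A) (k0Res A) κ (f0Field A L) where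
  vInf := vInf.restrictK0 κ hiInf hoInf
  vMid := vMid.restrictK0 κ hiMid hoMid
  vZero := vZero.restrictK0 κ hiZero hoZero
  B := f0AffD A L D vInf.O vMid.O vZero.O
  algebraMap_mem_B := fun a => by
    rw [mem_f0AffD_iff]
    exact ⟨const_mem_offRegular L D _, vInf.algebraMap_mem (k0ValIncl A a),
      vMid.algebraMap_mem (k0ValIncl A a), vZero.algebraMap_mem (k0ValIncl A a)⟩
  B_le_inf := fun x hx => ((mem_f0AffD_iff A L D _ _ _ x).mp hx).2.1
  B_le_mid := fun x hx => ((mem_f0AffD_iff A L D _ _ _ x).mp hx).2.2.1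
  B_le_zero := fun x hx => ((mem_f0AffD_iff A L D _ _ _ x).mp hx).2.2.2

section Unfold

variable (D : Set (Place Kbar (FF L))) (vInf vMid vZero : SeriesVal A L)
    (κ : IntermediateField (IsLocalRing.ResidueField A)
      (LaurentSeries (IsLocalRing.ResidueField A)))
    (hiInf : ∀ (x : FF L) (hx : x ∈ vInf.O), x ∈ f0Field A L → vInf.red ⟨x, hx⟩ ∈ κ)
    (hoInf : ∀ w ∈ κ, ∃ (x : FF L) (hx : x ∈ vInf.O), x ∈ f0Field A L ∧ vInf.red ⟨x, hx⟩ = w)
    (hiMid : ∀ (x : FF L) (hx : x ∈ vMid.O), x ∈ f0Field A L → vMid.red ⟨x, hx⟩ ∈ κ)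
    (hoMid : ∀ w ∈ κ, ∃ (x : FF L) (hx : x ∈ vMid.O), x ∈ f0Field A L ∧ vMid.red ⟨x, hx⟩ = w)
    (hiZero : ∀ (x : FF L) (hx : x ∈ vZero.O), x ∈ f0Field A L → vZero.red ⟨x, hx⟩ ∈ κ)
    (hoZero : ∀ w ∈ κ, ∃ (x : FF L) (hx : x ∈ vZero.O), x ∈ f0Field A L ∧
      vZero.red ⟨x, hx⟩ = w)

theorem nodeSetupSeriesD_B :
    (nodeSetupSeriesD A D vInf vMid vZero κ hiInf hoInf hiMid hoMid hiZero hoZero).B =
      f0AffD A L D vInf.O vMid.O vZero.O := rfl

theorem mem_nodeSetupSeriesD_B (x : f0Field A L) :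
    x ∈ (nodeSetupSeriesD A D vInf vMid vZero κ hiInf hoInf hiMid hoMid hiZero hoZero).B ↔
      (x : FF L) ∈ offRegular L D ∧ (x : FF L) ∈ vInf.O ∧ (x : FF L) ∈ vMid.O ∧
        (x : FF L) ∈ vZero.O :=
  mem_f0AffD_iff A L D _ _ _ x

theorem mem_nodeSetupSeriesD_vInf (x : f0Field A L) :
    x ∈ (nodeSetupSeriesD A D vInf vMid vZero κ hiInf hoInf hiMid hoMid hiZero hoZero).vInf.O ↔
      (x : FF L) ∈ vInf.O := Iff.rfl

theorem mem_nodeSetupSeriesD_vMid (x : f0Field A L) :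
    x ∈ (nodeSetupSeriesD A D vInf vMid vZero κ hiInf hoInf hiMid hoMid hiZero hoZero).vMid.O ↔
      (x : FF L) ∈ vMid.O := Iff.rfl

theorem mem_nodeSetupSeriesD_vZero (x : f0Field A L) :
    x ∈ (nodeSetupSeriesD A D vInf vMid vZero κ hiInf hoInf hiMid hoMid hiZero hoZero).vZero.O ↔
      (x : FF L) ∈ vZero.O := Iff.rfl

end Unfold

end Fermat.Agent.S36lib

end
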