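import Mathlib
import Fermat.Agent.S36lib.Apply2Invert
import Fermat.Agent.S36lib.SetupD1

/-!
# Item 83 (S36), block APPLY2, step 3 (helper20): INVERT over ANY setup on `F0(L)`

`a2i_invert_gen`: the same statement as `a2i_invert`, for an arbitrary
`S : NodeSetup (k0Val A) (k0Res A) κ (f0Field A L)` which is SATURATED at `q`
(`w ∈ O_∞ ∩ O_mid ∩ O_0`, `q w ∈ B ⟹ w ∈ B`); all hypotheses at the level of `F0(L)`.
`a2i_sat_D`: the setups `nodeSetupSeriesD` of helper24 (`B = B_D`, any set `D` of places) are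
saturated.  So INVERT runs directly over `B_{D1}`.
-/

set_option autoImplicit false
set_option linter.style.haveILetI false
set_option linter.unusedSectionVars false

noncomputable section

namespace Fermat.Agent.S36lib

open ModularCurve AlgebraicCurve
open Fermat.Agent.S24lib Fermat.Agent.S34lib Fermat.Agent.GoodRed

variable (A : ValuationSubring Kbar) (q : ℕ)
variable {L : ℕ} [NeZero L] {κ : Type*} [Field κ] [Algebra (IsLocalRing.ResidueField A) κ]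

/-- the vertical hypothesis of `s36_invert_nodeSetup` from the congruence of the valuations,
at the level of `F0(L)` -/
theorem a2i_vertical_gen (hq : q.Prime) (O : ValuationSubring (f0Field A L))
    (m c1 : ℕ) (e : ℤ) (f0 : f0Field A L)
    (hNV : ∃ (j : ℤ) (u : f0Field A L), u ∈ O ∧ u⁻¹ ∈ O ∧
      f0 ^ c1 = u * (a2iQ A q (L := L)) ^ (e + m * j)) :
    ∃ s u : f0Field A L, u ∈ O ∧ u⁻¹ ∈ O ∧
      f0 ^ c1 * (a2iQ A q (L := L)) ^ (-e) = u * s ^ m := by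
  obtain ⟨j, u, hu, hu', h⟩ := hNV
  have hQ0 : (a2iQ A q (L := L) : f0Field A L) ≠ 0 := a2i_Q_ne_zero A q hq
  refine ⟨(a2iQ A q (L := L)) ^ j, u, hu, hu', ?_⟩
  rw [h, ← zpow_natCast ((a2iQ A q (L := L)) ^ j) m, ← zpow_mul, mul_assoc, ← zpow_add₀ hQ0]
  congr 2
  ring

/-- **INVERT over any saturated setup on `F0(L)`.** -/
theorem a2i_invert_gen (S : NodeSetup (k0Val A) (k0Res A) κ (f0Field A L))
    (hq : q.Prime) (hA : A.LiesOverPrime q)
    [IsNoetherianRing S.B]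
    (hfrac : ∀ z : f0Field A L, ∃ a b : S.B, b ≠ 0 ∧ z * (b : f0Field A L) = (a : f0Field A L))
    {ι : Type*} [Finite ι] [Nonempty ι]
    (t : ι → Ideal S.B) [∀ i, (t i).IsMaximal]
    (hinj : Function.Injective t)
    (hufd : ∀ i, UniqueFactorizationMonoid (Localization.AtPrime (t i)))
    (hnode : ∀ t' : Ideal S.B, S.IsNode t' → ∃ i, t' = t i)
    (hsat : ∀ w : f0Field A L, w ∈ S.ball →
      algebraMap (k0Field A) (f0Field A L) ((((q : k0Val A) : k0Val A) : k0Field A)) * w ∈ S.B →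
        w ∈ S.B)
    (harchInf : ∀ z ∈ S.vInf.O.nonunits, ∃ n : ℕ, z ^ n * (algebraMap (k0Field A) (f0Field A L)
      ((((q : k0Val A) : k0Val A) : k0Field A)))⁻¹ ∈ S.vInf.O)
    (harchMid : ∀ z ∈ S.vMid.O.nonunits, ∃ n : ℕ, z ^ n * (algebraMap (k0Field A) (f0Field A L)
      ((((q : k0Val A) : k0Val A) : k0Field A)))⁻¹ ∈ S.vMid.O)
    (harchZero : ∀ z ∈ S.vZero.O.nonunits, ∃ n : ℕ, z ^ n * (algebraMap (k0Field A) (f0Field A L)
      ((((q : k0Val A) : k0Val A) : k0Field A)))⁻¹ ∈ S.vZero.O)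
    (m : ℕ) (hm : 0 < m) (c1 : ℕ) (e : ℤ) (f0 : f0Field A L) (hf0 : f0 ≠ 0)
    (hdiv : ∀ P : Place Kbar (FF L), (m : ℤ) ∣ P.ord (f0 : FF L))
    (hNVInf : ∃ (j : ℤ) (u : f0Field A L), u ∈ S.vInf.O ∧ u⁻¹ ∈ S.vInf.O ∧
      f0 ^ c1 = u * (a2iQ A q (L := L)) ^ (e + m * j))
    (hNVMid : ∃ (j : ℤ) (u : f0Field A L), u ∈ S.vMid.O ∧ u⁻¹ ∈ S.vMid.O ∧
      f0 ^ c1 = u * (a2iQ A q (L := L)) ^ (e + m * j))
    (hNVZero : ∃ (j : ℤ) (u : f0Field A L), u ∈ S.vZero.O ∧ u⁻¹ ∈ S.vZero.O ∧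
      f0 ^ c1 = u * (a2iQ A q (L := L)) ^ (e + m * j)) :
    ∃ (g : f0Field A L) (b : S.B),
      g ≠ 0 ∧ S.IsUnitAtNodes b ∧
        f0 ^ c1 = (a2iQ A q (L := L)) ^ e * (b : f0Field A L) * g ^ m := by
  have hQ0 : (a2iQ A q (L := L) : f0Field A L) ≠ 0 := a2i_Q_ne_zero A q hq
  have hq0 : algebraMap Kbar (FF L) (q : Kbar) ≠ 0 :=
    (map_ne_zero _).2 (Nat.cast_ne_zero.2 hq.ne_zero)
  set f : f0Field A L := f0 ^ c1 * (a2iQ A q (L := L)) ^ (-e) with hfdef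
  have hf : f ≠ 0 := mul_ne_zero (pow_ne_zero _ hf0) (zpow_ne_zero _ hQ0)
  have hford : ∀ P : Place Kbar (FF L), (m : ℤ) ∣ P.ord (f : FF L) := by
    intro P
    have hcoe : ((f : f0Field A L) : FF L) =
        (f0 : FF L) ^ c1 * (algebraMap Kbar (FF L) (q : Kbar)) ^ (-e) := by
      rw [hfdef]
      push_cast
      rw [a2i_coe_zpow, a2i_coe_Q]
      simp
    have hf0' : (f0 : FF L) ≠ 0 := fun h => hf0 (Subtype.ext h)
    rw [hcoe, P.ord_mul (pow_ne_zero _ hf0') (zpow_ne_zero _ hq0), P.ord_zpow,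
      uk_ord_const, mul_zero, add_zero, ← zpow_natCast, P.ord_zpow]
    exact Dvd.dvd.mul_left (hdiv P) _
  obtain ⟨g, b, hg, hb, hfb⟩ := s36_invert_nodeSetup S hfrac t hinj hufd hnode
    (q : k0Val A) (a2i_q_ne_zero A q hq) (a2i_res_q A q hA)
    (fun c => a2i_exists_pow_mem A q hq hA c)
    (s36_hrad_of_saturated S (q : k0Val A) (a2i_q_ne_zero A q hq) hsat harchInf harchMid
      harchZero)
    m hm f hf
    (fun R _ _ _ _ _ p hp h => pd_hhor_FF A L m f hford R p hp h)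
    (a2i_vertical_gen A q hq S.vInf.O m c1 e f0 hNVInf)
    (a2i_vertical_gen A q hq S.vMid.O m c1 e f0 hNVMid)
    (a2i_vertical_gen A q hq S.vZero.O m c1 e f0 hNVZero)
  refine ⟨g, b, hg, hb, ?_⟩
  have : f0 ^ c1 = f * (a2iQ A q (L := L)) ^ e := by
    rw [hfdef, mul_assoc, ← zpow_add₀ hQ0, neg_add_cancel, zpow_zero, mul_one]
  rw [this, hfb]
  ring

/-- saturation of the affine ring `B_D` (any set `D` of places, any three valuation rings) -/
theorem a2i_sat_f0AffD (hq : q.Prime) (D : Set (Place Kbar (FF L)))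
    (O₁ O₂ O₃ : ValuationSubring (FF L)) (w : f0Field A L)
    (h1 : (w : FF L) ∈ O₁) (h2 : (w : FF L) ∈ O₂) (h3 : (w : FF L) ∈ O₃)
    (hqw : algebraMap (k0Field A) (f0Field A L) ((((q : k0Val A) : k0Val A) : k0Field A)) * w ∈
      f0AffD A L D O₁ O₂ O₃) :
    w ∈ f0AffD A L D O₁ O₂ O₃ := by
  rw [mem_f0AffD_iff] at hqw ⊢
  refine ⟨?_, h1, h2, h3⟩
  rw [mem_offRegular_iff]
  intro Pl hPl
  have hq0 : (q : Kbar) ≠ 0 := Nat.cast_ne_zero.2 hq.ne_zero
  have hmem := (mem_offRegular_iff L D _).1 hqw.1 Pl hPl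
  have hcoe : ((algebraMap (k0Field A) (f0Field A L) ((((q : k0Val A) : k0Val A) : k0Field A)) *
      w : f0Field A L) : FF L) = algebraMap Kbar (FF L) (q : Kbar) * (w : FF L) := by
    push_cast
    simp
  rw [hcoe] at hmem
  have hinv : algebraMap Kbar (FF L) ((q : Kbar)⁻¹) ∈ Pl.toValuationSubring :=
    Pl.algebraMap_mem' _
  have : (w : FF L) = algebraMap Kbar (FF L) ((q : Kbar)⁻¹) *
      (algebraMap Kbar (FF L) (q : Kbar) * (w : FF L)) := by
    rw [← mul_assoc, ← map_mul, inv_mul_cancel₀ hq0, map_one, one_mul]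
  rw [this]
  exact Pl.toValuationSubring.mul_mem _ _ hinv hmem

end Fermat.Agent.S36lib

end
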