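import Mathlib
import Fermat.Agent.S36lib.Apply2InvertGen
import Fermat.Agent.S36lib.InvRepNew
import Fermat.Agent.S36lib.FixedF0

/-!
# Item 83 (S36), block APPLY2 (chief architect helper20): the ASSEMBLY, as a CONTRACT

`A2Contract q M' p A`: what the blocks V/REG (setup `S` over `A0` with `B = B_{D1}`, Noetherian,
`hfrac`, the nodes with `hufd`/`hnode`, saturation, `harch`), NV/COMP (`hNV`) and CRUX (`hcrux`)
have to deliver, as ONE existential statement.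

`invKAux_of_contract`: the contract at all auxiliary levels gives `InvKAuxStatement`.
(Then `InvKAuxStatement → InvKStatement` is DESC, and `InvKStatement → S36` is ALG.)
-/

set_option autoImplicit false
set_option linter.style.haveILetI false
set_option linter.unusedSectionVars false

noncomputable section

namespace Fermat.Agent.S36lib

open ModularCurve AlgebraicCurve
open Fermat.Agent.S24lib Fermat.Agent.HeckeBar Fermat.Agent.S34lib Fermat.Agent.GalRep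
open Fermat.Agent.S35lib Fermat.Agent.GM Fermat.Agent.GoodRed

section KummerNew

variable (M' q : ℕ) [NeZero M'] [NeZero q]

/-- a power of a Kummer-new function is Kummer-new -/
theorem a2s_isKummerNew_pow {m : ℕ} {f : FF (M' * q)} (h : IsKummerNew M' q m f) (c : ℕ) :
    IsKummerNew M' q m (f ^ c) := by
  obtain ⟨⟨c₁, g₁, h₁⟩, ⟨c₂, g₂, h₂⟩⟩ := h
  refine ⟨⟨c₁ ^ c, g₁ ^ c, ?_⟩, ⟨c₂ ^ c, g₂ ^ c, ?_⟩⟩
  · rw [map_pow, h₁, mul_pow, map_pow, ← pow_mul, ← pow_mul, mul_comm m c]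
  · rw [map_pow, h₂, mul_pow, map_pow, ← pow_mul, ← pow_mul, mul_comm m c]

end KummerNew

variable (M' q : ℕ) [NeZero M'] [NeZero q] (A : ValuationSubring Kbar)

/-- the hypothesis NV/COMP for a setup `S`, exponent `m`, power `c1` -/
def A2NV {κ : Type*} [Field κ] [Algebra (IsLocalRing.ResidueField A) κ]
    (S : NodeSetup (k0Val A) (k0Res A) κ (f0Field A (M' * q * q))) (m c1 : ℕ) : Prop :=
  ∀ f0 : f0Field A (M' * q * q), f0 ≠ 0 →
    (∀ P : Place Kbar (FF (M' * q * q)), (m : ℤ) ∣ P.ord (f0 : FF (M' * q * q))) →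
    IsKummerNew2 M' q m (f0 : FF (M' * q * q)) →
    ∃ e : ℤ,
      (∃ (j : ℤ) (u : f0Field A (M' * q * q)), u ∈ S.vInf.O ∧ u⁻¹ ∈ S.vInf.O ∧
        f0 ^ c1 = u * (a2iQ A q (L := M' * q * q)) ^ (e + m * j)) ∧
      (∃ (j : ℤ) (u : f0Field A (M' * q * q)), u ∈ S.vMid.O ∧ u⁻¹ ∈ S.vMid.O ∧
        f0 ^ c1 = u * (a2iQ A q (L := M' * q * q)) ^ (e + m * j)) ∧
      (∃ (j : ℤ) (u : f0Field A (M' * q * q)), u ∈ S.vZero.O ∧ u⁻¹ ∈ S.vZero.O ∧
        f0 ^ c1 = u * (a2iQ A q (L := M' * q * q)) ^ (e + m * j))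

/-- the hypothesis CRUX for a setup `S`, exponent `m`, power `c2` -/
def A2Crux {κ : Type*} [Field κ] [Algebra (IsLocalRing.ResidueField A) κ]
    (S : NodeSetup (k0Val A) (k0Res A) κ (f0Field A (M' * q * q))) (m c2 : ℕ) : Prop :=
  ∀ b : S.B, (b : f0Field A (M' * q * q)) ≠ 0 → S.IsUnitAtNodes b →
    (∀ P : Place Kbar (FF (M' * q * q)),
      (m : ℤ) ∣ P.ord (((b : f0Field A (M' * q * q)) : FF (M' * q * q)))) →
    IsKummerNew2 M' q m (((b : f0Field A (M' * q * q)) : FF (M' * q * q))) →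
    ∃ (c₀ : Kbar) (s : FF (M' * q * q)),
      (((b : f0Field A (M' * q * q)) : FF (M' * q * q))) ^ c2 =
        algebraMap Kbar (FF (M' * q * q)) c₀ * s ^ m

/-- the hypotheses of INVERT on a setup `S` (blocks V and REG) -/
def A2Reg {κ : Type*} [Field κ] [Algebra (IsLocalRing.ResidueField A) κ]
    (S : NodeSetup (k0Val A) (k0Res A) κ (f0Field A (M' * q * q))) : Prop :=
  IsNoetherianRing S.B ∧
  (∀ z : f0Field A (M' * q * q), ∃ a b : S.B,
    b ≠ 0 ∧ z * (b : f0Field A (M' * q * q)) = (a : f0Field A (M' * q * q))) ∧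
  (∃ (n : ℕ) (t : Fin (n + 1) → Ideal S.B), (∀ i, (t i).IsMaximal) ∧ Function.Injective t ∧
    (∀ i, ∀ _ : (t i).IsMaximal, UniqueFactorizationMonoid (Localization.AtPrime (t i))) ∧
    ∀ t' : Ideal S.B, S.IsNode t' → ∃ i, t' = t i) ∧
  (∀ w : f0Field A (M' * q * q), w ∈ S.ball →
    algebraMap (k0Field A) (f0Field A (M' * q * q)) ((((q : k0Val A) : k0Val A) : k0Field A)) * w
      ∈ S.B → w ∈ S.B) ∧
  (∀ z ∈ S.vInf.O.nonunits, ∃ n : ℕ, z ^ n * (algebraMap (k0Field A) (f0Field A (M' * q * q))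
    ((((q : k0Val A) : k0Val A) : k0Field A)))⁻¹ ∈ S.vInf.O) ∧
  (∀ z ∈ S.vMid.O.nonunits, ∃ n : ℕ, z ^ n * (algebraMap (k0Field A) (f0Field A (M' * q * q))
    ((((q : k0Val A) : k0Val A) : k0Field A)))⁻¹ ∈ S.vMid.O) ∧
  (∀ z ∈ S.vZero.O.nonunits, ∃ n : ℕ, z ^ n * (algebraMap (k0Field A) (f0Field A (M' * q * q))
    ((((q : k0Val A) : k0Val A) : k0Field A)))⁻¹ ∈ S.vZero.O)

/-- **the assembly for one exponent `m`**: INVERT + CRUX on a setup `S`. -/
theorem a2s_fixed (hq : q.Prime) (hA : A.LiesOverPrime q)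
    {κ : Type*} [Field κ] [Algebra (IsLocalRing.ResidueField A) κ]
    (S : NodeSetup (k0Val A) (k0Res A) κ (f0Field A (M' * q * q)))
    (hreg : A2Reg M' q A S) (m : ℕ) (hm : 0 < m) (c1 c2 : ℕ)
    (hNV : A2NV M' q A S m c1) (hcrux : A2Crux M' q A S m c2)
    (f0 : FF (M' * q * q)) (hf0 : f0 ≠ 0)
    (hdiv : ∀ P : Place Kbar (FF (M' * q * q)), (m : ℤ) ∣ P.ord f0)
    (hnew : IsKummerNew2 M' q m f0)
    (hfix : ∀ σ ∈ A.inertiaSubgroupIn ℚ, galFF (M' * q * q) σ • f0 = f0) :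
    ∃ (c₀ : Kbar) (s : FF (M' * q * q)),
      f0 ^ (c1 * c2) = algebraMap Kbar (FF (M' * q * q)) c₀ * s ^ m := by
  haveI : NeZero (M' * q * q) :=
    ⟨Nat.mul_ne_zero (Nat.mul_ne_zero (NeZero.ne M') (NeZero.ne q)) (NeZero.ne q)⟩
  obtain ⟨hnoeth, hfrac, ⟨n, t, htmax, hinj, hufd, hnode⟩, hsat, harchInf, harchMid, harchZero⟩ :=
    hreg
  haveI := hnoeth
  haveI : ∀ i, (t i).IsMaximal := htmax
  -- `f0 ∈ F0(M)`
  have hmem : f0 ∈ f0Field A (M' * q * q) := (mem_f0Field_iff_isIFixed A (M' * q * q) f0).2 hfix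
  set F0 : f0Field A (M' * q * q) := ⟨f0, hmem⟩ with hF0
  have hF0ne : F0 ≠ 0 := fun h => hf0 (congrArg Subtype.val h)
  obtain ⟨e, hInf, hMid, hZero⟩ := hNV F0 hF0ne hdiv hnew
  obtain ⟨g, b, hg, hb, hfb⟩ := a2i_invert_gen A q S hq hA hfrac t hinj
    (fun i => hufd i (htmax i)) hnode hsat harchInf harchMid harchZero m hm c1 e F0 hF0ne hdiv
    hInf hMid hZero
  -- in `FF M`
  have hQ0 : (a2iQ A q (L := M' * q * q) : f0Field A (M' * q * q)) ≠ 0 := a2i_Q_ne_zero A q hq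
  have hq0 : (q : Kbar) ≠ 0 := Nat.cast_ne_zero.2 hq.ne_zero
  have hfb' : f0 ^ c1 = algebraMap Kbar (FF (M' * q * q)) ((q : Kbar) ^ e) *
      ((b : f0Field A (M' * q * q)) : FF (M' * q * q)) * (g : FF (M' * q * q)) ^ m := by
    have h := congrArg (fun x : f0Field A (M' * q * q) => (x : FF (M' * q * q))) hfb
    simp only [hF0] at h
    push_cast at h
    rw [a2i_coe_zpow, a2i_coe_Q] at h
    rw [map_zpow₀]
    exact h
  have hg' : (g : FF (M' * q * q)) ≠ 0 := fun h => hg (Subtype.ext h)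
  have hf0c : f0 ^ c1 ≠ 0 := pow_ne_zero _ hf0
  have hb0' : ((b : f0Field A (M' * q * q)) : FF (M' * q * q)) ≠ 0 := by
    intro h0
    rw [h0, mul_zero, zero_mul] at hfb'
    exact hf0c hfb'
  have hb0 : (b : f0Field A (M' * q * q)) ≠ 0 := fun h => hb0' (by rw [h]; rfl)
  have hc0 : (q : Kbar) ^ e ≠ 0 := zpow_ne_zero _ hq0
  -- `b` has orders divisible by `m`
  have hbdiv : ∀ P : Place Kbar (FF (M' * q * q)),
      (m : ℤ) ∣ P.ord (((b : f0Field A (M' * q * q)) : FF (M' * q * q))) := by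
    intro P
    have hcne : algebraMap Kbar (FF (M' * q * q)) ((q : Kbar) ^ e) ≠ 0 := (map_ne_zero _).2 hc0
    have h1 : P.ord (f0 ^ c1) = P.ord (((b : f0Field A (M' * q * q)) : FF (M' * q * q))) +
        m * P.ord (g : FF (M' * q * q)) := by
      rw [hfb', P.ord_mul (mul_ne_zero hcne hb0') (pow_ne_zero _ hg'), P.ord_mul hcne hb0',
        uk_ord_const, zero_add, ← zpow_natCast, P.ord_zpow]
    have h2 : P.ord (f0 ^ c1) = c1 * P.ord f0 := by
      rw [← zpow_natCast, P.ord_zpow]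
    have h3 : (m : ℤ) ∣ P.ord (f0 ^ c1) := by rw [h2]; exact Dvd.dvd.mul_left (hdiv P) _
    have h4 : P.ord (((b : f0Field A (M' * q * q)) : FF (M' * q * q))) =
        P.ord (f0 ^ c1) - m * P.ord (g : FF (M' * q * q)) := by rw [h1]; ring
    rw [h4]
    exact dvd_sub h3 (dvd_mul_right _ _)
  -- `b` is Kummer-new
  have hbnew : IsKummerNew2 M' q m (((b : f0Field A (M' * q * q)) : FF (M' * q * q))) :=
    invrep_isKummerNew_of_mul (M' * q) q hc0 hg' hfb' (a2s_isKummerNew_pow (M' * q) q hnew c1)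
  obtain ⟨c₀, s, hs⟩ := hcrux b hb0 hb hbdiv hbnew
  refine ⟨((q : Kbar) ^ e) ^ c2 * c₀, s * (g : FF (M' * q * q)) ^ c2, ?_⟩
  rw [pow_mul, hfb', mul_pow, mul_pow, hs, map_mul, map_pow, mul_pow, ← pow_mul, ← pow_mul,
    mul_comm m c2]
  ring

/-- **the contract** at `(q, M', p, A)`: a setup `S` with the hypotheses of INVERT, and powers
`c1`, `c2 > 0` with NV/COMP and CRUX for all exponents `p ^ n`. -/
def A2Contract (p : ℕ) : Prop :=
  ∃ (κ : Type) (_ : Field κ) (_ : Algebra (IsLocalRing.ResidueField A) κ)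
    (S : NodeSetup (k0Val A) (k0Res A) κ (f0Field A (M' * q * q))) (c1 c2 : ℕ),
    0 < c1 ∧ 0 < c2 ∧ A2Reg M' q A S ∧
      (∀ n : ℕ, A2NV M' q A S (p ^ n) c1) ∧ (∀ n : ℕ, A2Crux M' q A S (p ^ n) c2)

/-- the contract gives (INV) at the level `M' q²` -/
theorem invK_of_contract (hq : q.Prime) (hA : A.LiesOverPrime q) (p : ℕ) (hp : p.Prime)
    (h : A2Contract M' q A p) : ∃ c : ℕ, 0 < c ∧ ∀ n : ℕ, InvK M' q (p ^ n) c A := by
  obtain ⟨κ, _, _, S, c1, c2, hc1, hc2, hreg, hNV, hcrux⟩ := h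
  refine ⟨c1 * c2, Nat.mul_pos hc1 hc2, fun n => ?_⟩
  refine invK_of_fixed M' q (p ^ n) (c1 * c2) (pow_pos hp.pos n) A ?_
  intro f0 hf0 hdiv hnew hfix
  exact a2s_fixed M' q A hq hA S hreg (p ^ n) (pow_pos hp.pos n) c1 c2 (hNV n) (hcrux n)
    f0 hf0 hdiv hnew hfix

/-- **APPLY2**: the contract at all auxiliary levels gives `InvKAuxStatement`. -/
theorem invKAux_of_contract
    (h : ∀ (q M' p : ℕ) [NeZero M'] [NeZero q], q.Prime → p.Prime → q ≠ p → IsAuxLevel q M' →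
      ∀ A : ValuationSubring Kbar, A.LiesOverPrime q → A2Contract M' q A p) :
    InvKAuxStatement := by
  intro q M' p _ _ hq hp hqp haux A hA
  exact invK_of_contract M' q A hq hA p hp (h q M' p hq hp hqp haux A hA)

end Fermat.Agent.S36lib

end
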