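/-
Item 83 (S36), piece AL-GEN part 3 (helper23): the Atkin–Lehner involutions at the two levels of
S36, `N = M' q` and `M = M' q²` (`q ∤ M'`), and their relations with the degeneracy maps.

* `alQ_eq_atkinLehnerFF` : for a prime `q ‖ N` the general `alQ N q` IS helper24's
  `S34lib.atkinLehnerFF N q` (so all the S34 objects at level `M' q` defined with `atkinLehnerFF`
  can be used with `alQ`);
* `alW1 M' hq hqM := atkinLehnerFF (M' * q) q ..`  (`w₁ = w_q` at level `M' q`),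
  `alW2 M' hq hqM := alQ (M' * q * q) (q * q) ..`  (`w₂ = w_{q²}` at level `M' q²`);
* `al2_comp_alpha` : `w₂ ∘ α = β ∘ w₁`,   `al2_comp_beta` : `w₂ ∘ β = α ∘ w₁`
  (`α, β = heckeAlphaBar, heckeBetaBar Kbar (M' * q) q : F_{M'q} → F_{M'q²}`);
* `alW2_jdF_*` : `w₂` on the generators: `j_d ↦ j_{d q²}`, `j_{d q} ↦ j_{d q}`, `j_{d q²} ↦ j_d`
  for `d ∣ M'`; `alW2_jF`, `alW2_involutive`, `alW2_comm`.
Complete proofs.
-/
import Mathlib
import Fermat.Agent.S36lib.DegJ2

set_option autoImplicit false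
set_option linter.style.haveILetI false
set_option linter.unusedSectionVars false

noncomputable section

namespace Fermat.Agent.S36lib

open AlgebraicCurve ModularCurve
open Fermat.Agent.S24lib Fermat.Agent.HeckeBar Fermat.Agent.S37lib Fermat.Agent.S34lib
open Fermat.Agent.S35lib

section Compare

/-- for a prime `q` the two swaps agree on every `d` with `q² ∤ d` -/
theorem alqSwap_prime_eq_alSwap {q d : ℕ} (hq : q.Prime) : alqSwap q d = alSwap q d := by
  by_cases h : q ∣ d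
  · rw [alSwap_of_dvd h]
    unfold alqSwap
    rw [Nat.gcd_eq_right h, Nat.div_self hq.pos, mul_one]
  · rw [alSwap_of_not_dvd h]
    unfold alqSwap
    have hg : Nat.gcd d q = 1 := by
      rw [Nat.gcd_comm]
      exact (Nat.Prime.coprime_iff_not_dvd hq).mpr h
    rw [hg, Nat.div_one, Nat.div_one]

variable (N : ℕ) [NeZero N] {q : ℕ}

/-- **for a prime `q ‖ N` the general involution `alQ N q` is `S34lib.atkinLehnerFF N q`** -/
theorem alQ_eq_atkinLehnerFF (hq : q.Prime) (hqN : q ∣ N) (hq2 : ¬ q ^ 2 ∣ N)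
    (hcop : Nat.Coprime q (N / q)) :
    alQ N q hqN hcop = atkinLehnerFF N q hq hqN hq2 := by
  refine AlgEquiv.ext fun x => ?_
  have h : ((alQ N q hqN hcop : FF N →ₐ[Kbar] FF N)).toRingHom =
      ((atkinLehnerFF N q hq hqN hq2 : FF N →ₐ[Kbar] FF N)).toRingHom := by
    apply FF_ringHom_ext
    · intro c
      show (alQ N q hqN hcop : FF N →ₐ[Kbar] FF N) (algebraMap Kbar (FF N) c) =
        (atkinLehnerFF N q hq hqN hq2 : FF N →ₐ[Kbar] FF N) (algebraMap Kbar (FF N) c)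
      rw [AlgHom.commutes, AlgHom.commutes]
    · intro d _ hd
      haveI : NeZero (alSwap q d) := ⟨alSwap_ne_zero hq (NeZero.ne d)⟩
      show alQ N q hqN hcop (jdF N d hd) = atkinLehnerFF N q hq hqN hq2 (jdF N d hd)
      rw [atkinLehnerFF_jdF]
      exact alQ_jdF_of_eq N q hqN hcop _ _ hd _ (alqSwap_prime_eq_alSwap hq)
  exact congrArg (fun φ : FF N →+* FF N => φ x) h

end Compare

section Levels

variable (M' : ℕ) [NeZero M'] {q : ℕ} [NeZero q] [NeZero (M' * q)] [NeZero (M' * q * q)]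
variable (hq : q.Prime) (hqM : ¬ q ∣ M')

/-- **`w₁ = w_q`** at the level `M' q` (helper24's `atkinLehnerFF`) -/
def alW1 (hq : q.Prime) (hqM : ¬ q ∣ M') : FF (M' * q) ≃ₐ[Kbar] FF (M' * q) :=
  atkinLehnerFF (M' * q) q hq (dvd_mul_left q M') (dgj_not_sq_dvd_mul_self hq hqM)

/-- **`w₂ = w_{q²}`** at the level `M' q²` -/
def alW2 (hq : q.Prime) (hqM : ¬ q ∣ M') : FF (M' * q * q) ≃ₐ[Kbar] FF (M' * q * q) :=
  alQ (M' * q * q) (q * q) (alq_dvd_sq M' q) (alq_coprime_sq hq hqM)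

theorem alW1_eq_alQ :
    alW1 M' hq hqM = alQ (M' * q) q (dvd_mul_left q M') (alq_coprime_one hq hqM) :=
  (alQ_eq_atkinLehnerFF (M' * q) hq _ _ _).symm

theorem alW1_involutive (x : FF (M' * q)) : alW1 M' hq hqM (alW1 M' hq hqM x) = x :=
  atkinLehnerFF_involutive _ _ _ _ _ x

theorem alW2_involutive (x : FF (M' * q * q)) : alW2 M' hq hqM (alW2 M' hq hqM x) = x :=
  alQ_involutive _ _ _ _ x

theorem alW2_symm : (alW2 M' hq hqM).symm = alW2 M' hq hqM :=
  alQ_symm _ _ _ _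

theorem dgj2_coprime_level (hq : q.Prime) (hqM : ¬ q ∣ M') :
    Nat.Coprime (q * q) (M' * q / q) := by
  rw [Nat.mul_div_cancel M' hq.pos]
  have h1 : Nat.Coprime q M' := (Nat.Prime.coprime_iff_not_dvd hq).mpr hqM
  exact Nat.Coprime.mul_left h1 h1

/-- **`w₂ ∘ α = β ∘ w₁`** -/
theorem al2_comp_alpha :
    ((alW2 M' hq hqM : FF (M' * q * q) →ₐ[Kbar] FF (M' * q * q))).comp
        (heckeAlphaBar Kbar (M' * q) q) =
      (heckeBetaBar Kbar (M' * q) q).comp (alW1 M' hq hqM : FF (M' * q) →ₐ[Kbar] FF (M' * q)) := by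
  rw [alW1_eq_alQ]
  exact dgj2_al_alpha_eq_beta (M' * q) (dvd_mul_left q M') (dgj2_coprime_level M' hq hqM)

/-- **`w₂ ∘ β = α ∘ w₁`** -/
theorem al2_comp_beta :
    ((alW2 M' hq hqM : FF (M' * q * q) →ₐ[Kbar] FF (M' * q * q))).comp
        (heckeBetaBar Kbar (M' * q) q) =
      (heckeAlphaBar Kbar (M' * q) q).comp
        (alW1 M' hq hqM : FF (M' * q) →ₐ[Kbar] FF (M' * q)) := by
  refine AlgHom.ext fun x => ?_
  have h := congrArg (fun φ : FF (M' * q) →ₐ[Kbar] FF (M' * q * q) => φ (alW1 M' hq hqM x))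
    (al2_comp_alpha M' hq hqM)
  simp only [AlgHom.comp_apply, AlgEquiv.coe_toAlgHom] at h
  rw [alW1_involutive] at h
  simp only [AlgHom.comp_apply, AlgEquiv.coe_toAlgHom]
  rw [← h, alW2_involutive]

theorem al2_alpha_apply (x : FF (M' * q)) :
    alW2 M' hq hqM (heckeAlphaBar Kbar (M' * q) q x) =
      heckeBetaBar Kbar (M' * q) q (alW1 M' hq hqM x) :=
  congrArg (fun φ : FF (M' * q) →ₐ[Kbar] FF (M' * q * q) => φ x) (al2_comp_alpha M' hq hqM)

theorem al2_beta_apply (x : FF (M' * q)) :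
    alW2 M' hq hqM (heckeBetaBar Kbar (M' * q) q x) =
      heckeAlphaBar Kbar (M' * q) q (alW1 M' hq hqM x) :=
  congrArg (fun φ : FF (M' * q) →ₐ[Kbar] FF (M' * q * q) => φ x) (al2_comp_beta M' hq hqM)

/-- `w₂ (j) = j_{q²}` -/
theorem alW2_jF :
    haveI : NeZero (q * q) := ⟨Nat.mul_ne_zero (NeZero.ne q) (NeZero.ne q)⟩
    alW2 M' hq hqM (jF (M' * q * q)) = jdF (M' * q * q) (q * q) (alq_dvd_sq M' q) := by
  haveI : NeZero (q * q) := ⟨Nat.mul_ne_zero (NeZero.ne q) (NeZero.ne q)⟩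
  exact alQ_jF _ _ _ _

/-- `w₂ (j_d) = j_{d q²}` for `d ∣ M'` -/
theorem alW2_jdF_of_dvd (d : ℕ) [NeZero d] (hd : d ∣ M') [NeZero (d * (q * q))] :
    alW2 M' hq hqM (jdF (M' * q * q) d ((hd.mul_right q).mul_right q)) =
      jdF (M' * q * q) (d * (q * q))
        (by rw [mul_assoc]; exact Nat.mul_dvd_mul_right hd (q * q)) := by
  have hdq : Nat.Coprime d (q * q) := by
    have h1 : Nat.Coprime q M' := (Nat.Prime.coprime_iff_not_dvd hq).mpr hqM
    exact (Nat.Coprime.coprime_dvd_right hd (Nat.Coprime.mul_left h1 h1)).symm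
  refine alQ_jdF_of_eq _ _ _ _ _ _ _ _ ?_
  have := alqSwap_mul (Q := q * q) (a := 1) (b := d) (one_dvd _) hdq one_ne_zero
  rw [one_mul, Nat.div_one] at this
  exact this

/-- `w₂ (j_{d q²}) = j_d` for `d ∣ M'` -/
theorem alW2_jdF_mul_sq (d : ℕ) [NeZero d] (hd : d ∣ M') [NeZero (d * (q * q))] :
    alW2 M' hq hqM (jdF (M' * q * q) (d * (q * q))
        (by rw [mul_assoc]; exact Nat.mul_dvd_mul_right hd (q * q))) =
      jdF (M' * q * q) d ((hd.mul_right q).mul_right q) := by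
  rw [← alW2_jdF_of_dvd M' hq hqM d hd, alW2_involutive]

/-- `w₂ (j_{d q}) = j_{d q}` for `d ∣ M'` -/
theorem alW2_jdF_mul (d : ℕ) [NeZero d] (hd : d ∣ M') [NeZero (d * q)] :
    alW2 M' hq hqM (jdF (M' * q * q) (d * q) ((Nat.mul_dvd_mul_right hd q).mul_right q)) =
      jdF (M' * q * q) (d * q) ((Nat.mul_dvd_mul_right hd q).mul_right q) := by
  have hdq : Nat.Coprime d (q * q) := by
    have h1 : Nat.Coprime q M' := (Nat.Prime.coprime_iff_not_dvd hq).mpr hqM
    exact (Nat.Coprime.coprime_dvd_right hd (Nat.Coprime.mul_left h1 h1)).symm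
  refine alQ_jdF_of_eq _ _ _ _ _ _ _ _ ?_
  have := alqSwap_mul (Q := q * q) (a := q) (b := d) (dvd_mul_left q q) hdq hq.ne_zero
  rw [Nat.mul_div_cancel q hq.pos] at this
  rw [mul_comm d q, this, mul_comm]

/-- `w₂` commutes with every ring automorphism of `F_{M'q²}` mapping constants to constants and
fixing the `j_d` (e.g. the Galois action `galFF σ`). -/
theorem alW2_comm (τ : FF (M' * q * q) →+* FF (M' * q * q))
    (hτc : ∀ c : Kbar, ∃ c' : Kbar,
      τ (algebraMap Kbar (FF (M' * q * q)) c) = algebraMap Kbar (FF (M' * q * q)) c')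
    (hτj : ∀ (d : ℕ) [NeZero d] (hd : d ∣ M' * q * q),
      τ (jdF (M' * q * q) d hd) = jdF (M' * q * q) d hd) (x : FF (M' * q * q)) :
    alW2 M' hq hqM (τ x) = τ (alW2 M' hq hqM x) :=
  alQ_comm _ _ _ _ τ hτc hτj x

end Levels

end Fermat.Agent.S36lib

end
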