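/-
Item 83 (S36), piece C-4, part C4-1 (helper17): EXPANSION CALCULUS at level `M = M' q²`.  No sorry.

`π₁ = α ∘ α'`, `π₂ = α ∘ β'`, `π₃ = β ∘ β' : F_{M'} → F_{M'q²}`  (`z ↦ z, q z, q² z`), and the
three expansions `E_∞ = coe`, `E_mid = ` the middle expansion of `MidExp.lean` (helper18),
`E_0 = coe ∘ w_{q²}` (`ALGen.lean`, helper23), as ring homomorphisms `F_{M'q²} → ℚ̄((X))`:

|        | `π₁ g`      | `π₂ g`   | `π₃ g`      |
| `E_∞`  | `ĝ`         | `ĝ(X^q)` | `ĝ(X^{q²})` |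
| `E_mid`| `ĝ`         | `ĝ(X^q)` | `ĝ(ζ X)`    |
| `E_0`  | `ĝ(X^{q²})` | `ĝ(X^q)` | `ĝ`         |
-/
import Mathlib
import Fermat.Agent.S36lib.MidExp
import Fermat.Agent.S36lib.ALGen
import Fermat.Agent.S34lib.InfPlaceAL

set_option autoImplicit false
set_option linter.style.haveILetI false
set_option linter.unusedSectionVars false
set_option synthInstance.maxHeartbeats 400000

noncomputable section

namespace Fermat.Agent.S36lib

open AlgebraicCurve ModularCurve HahnSeries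
open Fermat.Agent.S24lib Fermat.Agent.S34lib Fermat.Agent.S37lib

variable (M' q : ℕ) [NeZero M'] [NeZero q]

/-- `π₁ = α ∘ α'` (`z ↦ z`) -/
def ecPi1 : FF M' →+* FF (M' * q * q) :=
  (heckeAlphaBar Kbar (M' * q) q).toRingHom.comp (heckeAlphaBar Kbar M' q).toRingHom

/-- `π₂ = α ∘ β'` (`z ↦ q z`) -/
def ecPi2 : FF M' →+* FF (M' * q * q) :=
  (heckeAlphaBar Kbar (M' * q) q).toRingHom.comp (heckeBetaBar Kbar M' q).toRingHom

/-- `π₃ = β ∘ β'` (`z ↦ q² z`) -/
def ecPi3 : FF M' →+* FF (M' * q * q) :=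
  (heckeBetaBar Kbar (M' * q) q).toRingHom.comp (heckeBetaBar Kbar M' q).toRingHom

theorem ecPi1_apply (g : FF M') :
    ecPi1 M' q g = heckeAlphaBar Kbar (M' * q) q (heckeAlphaBar Kbar M' q g) := rfl

theorem ecPi2_apply (g : FF M') :
    ecPi2 M' q g = heckeAlphaBar Kbar (M' * q) q (heckeBetaBar Kbar M' q g) := rfl

theorem ecPi3_apply (g : FF M') :
    ecPi3 M' q g = heckeBetaBar Kbar (M' * q) q (heckeBetaBar Kbar M' q g) := rfl

/-- the expansion at `∞` -/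
def ecInf : FF (M' * q * q) →+* LaurentSeries Kbar :=
  (modularFunctionFieldBar (M' * q * q)).toSubfield.subtype

theorem ecInf_apply (f : FF (M' * q * q)) : ecInf M' q f = (f : LaurentSeries Kbar) := rfl

theorem ecInf_pi1 (g : FF M') : ecInf M' q (ecPi1 M' q g) = (g : LaurentSeries Kbar) := by
  rw [ecInf_apply, ecPi1_apply, coe_heckeAlphaBar, coe_heckeAlphaBar]

theorem ecInf_pi2 (g : FF M') :
    ecInf M' q (ecPi2 M' q g) = qExpand Kbar q (g : LaurentSeries Kbar) := by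
  rw [ecInf_apply, ecPi2_apply, coe_heckeAlphaBar, coe_heckeBetaBar]

theorem ecInf_pi3 (g : FF M') :
    ecInf M' q (ecPi3 M' q g) = qExpand Kbar q (qExpand Kbar q (g : LaurentSeries Kbar)) := by
  rw [ecInf_apply, ecPi3_apply, coe_heckeBetaBar, coe_heckeBetaBar]

section Mid

variable (hq : q.Prime) (hqM : ¬ q ∣ M') (ζ : Kbarˣ) (hζ : IsPrimitiveRoot (ζ : Kbar) q)

/-- the middle expansion attached to `ζ` -/
def ecMid : FF (M' * q * q) →+* LaurentSeries Kbar :=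
  Classical.choose (midExp_exists M' q hq hqM ζ hζ)

theorem ecMid_algebraMap (a : Kbar) :
    ecMid M' q hq hqM ζ hζ (algebraMap Kbar (FF (M' * q * q)) a)
      = algebraMap Kbar (LaurentSeries Kbar) a :=
  (Classical.choose_spec (midExp_exists M' q hq hqM ζ hζ)).1 a

theorem ecMid_alpha (Y : FF (M' * q)) :
    ecMid M' q hq hqM ζ hζ (heckeAlphaBar Kbar (M' * q) q Y) = (Y : LaurentSeries Kbar) :=
  (Classical.choose_spec (midExp_exists M' q hq hqM ζ hζ)).2.1 Y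

theorem ecMid_pi1 (g : FF M') :
    ecMid M' q hq hqM ζ hζ (ecPi1 M' q g) = (g : LaurentSeries Kbar) := by
  rw [ecPi1_apply, ecMid_alpha, coe_heckeAlphaBar]

theorem ecMid_pi2 (g : FF M') :
    ecMid M' q hq hqM ζ hζ (ecPi2 M' q g) = qExpand Kbar q (g : LaurentSeries Kbar) := by
  rw [ecPi2_apply, ecMid_alpha, coe_heckeBetaBar]

theorem ecMid_pi3 (g : FF M') :
    ecMid M' q hq hqM ζ hζ (ecPi3 M' q g) = twq ζ (g : LaurentSeries Kbar) :=
  (Classical.choose_spec (midExp_exists M' q hq hqM ζ hζ)).2.2 g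

end Mid

section Zero

variable (hq : q.Prime) (hqM : ¬ q ∣ M')

/-- the Atkin–Lehner involution `w_{q²}` of `F_{M'q²}` -/
def ecW : FF (M' * q * q) ≃ₐ[Kbar] FF (M' * q * q) :=
  alQ (M' * q * q) (q * q) (alq_dvd_sq M' q) (alq_coprime_sq hq hqM)

/-- the expansion at `0`: `E_0 = E_∞ ∘ w_{q²}` -/
def ecZero : FF (M' * q * q) →+* LaurentSeries Kbar :=
  (ecInf M' q).comp (ecW M' q hq hqM : FF (M' * q * q) →+* FF (M' * q * q))

theorem ecZero_apply (f : FF (M' * q * q)) :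
    ecZero M' q hq hqM f = ((ecW M' q hq hqM f : FF (M' * q * q)) : LaurentSeries Kbar) := rfl

theorem ecW_ecW (f : FF (M' * q * q)) : ecW M' q hq hqM (ecW M' q hq hqM f) = f :=
  alQ_involutive _ _ _ _ f

theorem ecPi1_algebraMap (c : Kbar) :
    ecPi1 M' q (algebraMap Kbar (FF M') c) = algebraMap Kbar (FF (M' * q * q)) c := by
  rw [ecPi1_apply, AlgHom.commutes, AlgHom.commutes]

theorem ecPi2_algebraMap (c : Kbar) :
    ecPi2 M' q (algebraMap Kbar (FF M') c) = algebraMap Kbar (FF (M' * q * q)) c := by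
  rw [ecPi2_apply, AlgHom.commutes, AlgHom.commutes]

theorem ecPi3_algebraMap (c : Kbar) :
    ecPi3 M' q (algebraMap Kbar (FF M') c) = algebraMap Kbar (FF (M' * q * q)) c := by
  rw [ecPi3_apply, AlgHom.commutes, AlgHom.commutes]

theorem ecPi1_jdF (d : ℕ) [NeZero d] (hd : d ∣ M') :
    ecPi1 M' q (jdF M' d hd) = jdF (M' * q * q) d ((hd.mul_right q).mul_right q) := by
  rw [ecPi1_apply, inf_alpha_jdF, inf_alpha_jdF]

theorem ecPi2_jdF (d : ℕ) [NeZero d] [NeZero (d * q)] (hd : d ∣ M') :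
    ecPi2 M' q (jdF M' d hd) =
      jdF (M' * q * q) (d * q) ((Nat.mul_dvd_mul_right hd q).mul_right q) := by
  rw [ecPi2_apply, inf_beta_jdF, inf_alpha_jdF]

theorem ecPi3_jdF (d : ℕ) [NeZero d] [NeZero (d * q)] [NeZero (d * q * q)] (hd : d ∣ M') :
    ecPi3 M' q (jdF M' d hd) =
      jdF (M' * q * q) (d * q * q) (Nat.mul_dvd_mul_right (Nat.mul_dvd_mul_right hd q) q) := by
  rw [ecPi3_apply, inf_beta_jdF, inf_beta_jdF]

include hq hqM in
theorem ec_coprime_of_dvd {d : ℕ} (hd : d ∣ M') : Nat.Coprime d (q * q) := by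
  have h1 : Nat.Coprime q d :=
    (Nat.Prime.coprime_iff_not_dvd hq).mpr fun h => hqM (h.trans hd)
  exact (Nat.Coprime.mul_left h1 h1).symm

/-- `w_{q²} ∘ π₁ = π₃` -/
theorem ecW_pi1 (g : FF M') : ecW M' q hq hqM (ecPi1 M' q g) = ecPi3 M' q g := by
  have h : ((ecW M' q hq hqM : FF (M' * q * q) →+* FF (M' * q * q)).comp (ecPi1 M' q))
      = ecPi3 M' q := by
    apply FF_ringHom_ext
    · intro c
      rw [RingHom.comp_apply, ecPi1_algebraMap, ecPi3_algebraMap]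
      exact AlgEquiv.commutes _ c
    · intro d _ hd
      haveI : NeZero (d * q) := ⟨Nat.mul_ne_zero (NeZero.ne d) (NeZero.ne q)⟩
      haveI : NeZero (d * q * q) := ⟨Nat.mul_ne_zero (NeZero.ne (d * q)) (NeZero.ne q)⟩
      rw [RingHom.comp_apply, ecPi1_jdF, ecPi3_jdF]
      refine alQ_jdF_of_eq _ _ _ _ _ _ _ _ ?_
      have h1 := alqSwap_mul (Q := q * q) (a := 1) (b := d) (one_dvd _)
        (ec_coprime_of_dvd M' q hq hqM hd) one_ne_zero
      rw [one_mul, Nat.div_one] at h1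
      rw [h1, mul_assoc]
  exact RingHom.congr_fun h g

/-- `w_{q²} ∘ π₃ = π₁` -/
theorem ecW_pi3 (g : FF M') : ecW M' q hq hqM (ecPi3 M' q g) = ecPi1 M' q g := by
  rw [← ecW_pi1 M' q hq hqM g, ecW_ecW]

/-- `w_{q²} ∘ π₂ = π₂` -/
theorem ecW_pi2 (g : FF M') : ecW M' q hq hqM (ecPi2 M' q g) = ecPi2 M' q g := by
  have h : ((ecW M' q hq hqM : FF (M' * q * q) →+* FF (M' * q * q)).comp (ecPi2 M' q))
      = ecPi2 M' q := by
    apply FF_ringHom_ext
    · intro c
      rw [RingHom.comp_apply, ecPi2_algebraMap]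
      exact AlgEquiv.commutes _ c
    · intro d _ hd
      haveI : NeZero (d * q) := ⟨Nat.mul_ne_zero (NeZero.ne d) (NeZero.ne q)⟩
      rw [RingHom.comp_apply, ecPi2_jdF]
      refine alQ_jdF_of_eq _ _ _ _ _ _ _ _ ?_
      have h1 := alqSwap_mul (Q := q * q) (a := q) (b := d) (dvd_mul_right q q)
        (ec_coprime_of_dvd M' q hq hqM hd) (NeZero.ne q)
      rw [Nat.mul_div_cancel_left q hq.pos, mul_comm q d] at h1
      exact h1
  exact RingHom.congr_fun h g

theorem ecZero_pi1 (g : FF M') :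
    ecZero M' q hq hqM (ecPi1 M' q g)
      = qExpand Kbar q (qExpand Kbar q (g : LaurentSeries Kbar)) := by
  rw [ecZero_apply, ecW_pi1, ← ecInf_apply, ecInf_pi3]

theorem ecZero_pi2 (g : FF M') :
    ecZero M' q hq hqM (ecPi2 M' q g) = qExpand Kbar q (g : LaurentSeries Kbar) := by
  rw [ecZero_apply, ecW_pi2, ← ecInf_apply, ecInf_pi2]

theorem ecZero_pi3 (g : FF M') :
    ecZero M' q hq hqM (ecPi3 M' q g) = (g : LaurentSeries Kbar) := by
  rw [ecZero_apply, ecW_pi3, ← ecInf_apply, ecInf_pi1]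

end Zero

end Fermat.Agent.S36lib

end
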