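/-
Item 83 (S36), block ABEL, piece N1q2 NORM-PROD at level `Nℓ` with `ℓ ∣ N` (helper14).

* `nq2_psi_mul_finrankAlong_beta` : `ψ(N) · [F_{Nℓ} : β F_N] = ψ(Nℓ)` for every prime `ℓ`
  (no coprimality), hence `nq2_finrankAlong_beta` : `[F_{Nℓ} : β F_N] = ℓ` if `ℓ ∣ N`
  (and `ℓ + 1` otherwise);
* `normProdQ2_beta` : for `ℓ ∣ N` and every `x ∈ F_{Nℓ}`,
  `(N_β x)(X^ℓ) = ∏_{b < ℓ} x(ζ^b X)`;
* `normProdQ2_alpha` : for `ℓ ∣ N`, a family `E_c` (`c ∈ ι`, `#ι = ℓ - 1`) of pairwise distinct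
  ring homomorphisms `F_{Nℓ} → ℚ̄((X))` different from the expansion at `∞` and equal to it on
  `α F_N`, and every `x ∈ F_{Nℓ}`:  `N_α x = x · ∏_c E_c x`.
Helper lemmas are prefixed `nq2_`.
-/
import Mathlib
import Fermat.Agent.S37lib.NormConj
import Fermat.Agent.S35lib.NormProd
import Fermat.Agent.S35lib.DegJNormAL
import Fermat.Agent.S36lib.Speed

set_option autoImplicit false
set_option linter.style.haveILetI false
set_option linter.unusedSectionVars false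

open scoped MatrixGroups
open ModularCurve AlgebraicCurve HahnSeries IntermediateField
open Fermat.Agent.S24lib Fermat.Agent.HeckeBar Fermat.Agent.S37lib Fermat.Agent.S34lib
open Fermat.Agent.S35lib

namespace Fermat.Agent.S36lib

/-! ### The degree of `F_{Nℓ}` over `β F_N` -/

section Degree

/-- the degree over `K(x)` is invariant under an automorphism -/
theorem nq2_finrank_adjoin_equiv {K F : Type*} [Field K] [Field F] [Algebra K F]
    (w : F ≃ₐ[K] F) (x : F) :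
    Module.finrank K⟮w x⟯ F = Module.finrank K⟮x⟯ F := by
  have h := finrank_adjoin_mul_finrankAlong (w : F →ₐ[K] F) x
  rw [dgj_finrankAlong_of_bijective _ w.bijective, mul_one] at h
  exact h.symm

/-- `[F_ℓ : ℚ̄(j_ℓ)] = ψ(ℓ)` for a prime `ℓ` -/
theorem nq2_finrank_adjoin_jdF_prime (ℓ : ℕ) [NeZero ℓ] (hℓ : ℓ.Prime) :
    Module.finrank Kbar⟮jdF ℓ ℓ dvd_rfl⟯ (FF ℓ) = dedekindPsi ℓ := by
  have hq2 : ¬ ℓ ^ 2 ∣ ℓ := by
    intro h
    rw [pow_two] at h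
    have h1 := Nat.le_of_dvd hℓ.pos h
    have h2 : ℓ * 2 ≤ ℓ * ℓ := Nat.mul_le_mul_left ℓ hℓ.two_le
    have h3 := hℓ.pos
    omega
  have h := nq2_finrank_adjoin_equiv (atkinLehnerFF ℓ ℓ hℓ dvd_rfl hq2) (jF ℓ)
  rw [atkinLehnerFF_jF, fin_finrank] at h
  exact h

variable (N ℓ : ℕ) [NeZero N] [NeZero ℓ]

/-- **`ψ(N) · [F_{Nℓ} : β F_N] = ψ(Nℓ)`**, `ℓ` prime. -/
theorem nq2_psi_mul_finrankAlong_beta (hℓ : ℓ.Prime) :
    dedekindPsi N * finrankAlong Kbar (heckeBetaBar Kbar N ℓ) = dedekindPsi (N * ℓ) := by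
  haveI : NeZero (N * ℓ) := ⟨Nat.mul_ne_zero (NeZero.ne N) (NeZero.ne ℓ)⟩
  have e : heckeBetaBar Kbar N ℓ (jF N) = jdF (N * ℓ) ℓ (dvd_mul_left ℓ N) := by
    rw [heckeBetaBar_eq_qpowBar, qpowBar_jF]
  have h1 := finrank_adjoin_mul_finrankAlong (heckeBetaBar Kbar N ℓ) (jF N)
  rw [fin_finrank, e] at h1
  have h2 := finrank_adjoin_mul_finrankAlong (inclBar ℓ (N * ℓ) (dvd_mul_left ℓ N))
    (jdF ℓ ℓ dvd_rfl)
  rw [inclBar_jdF, nq2_finrank_adjoin_jdF_prime ℓ hℓ] at h2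
  have h3 := dedekindPsi_mul_finrankAlong_inclBar ℓ (N * ℓ) (dvd_mul_left ℓ N)
  rw [h1, ← h2, h3]

/-- **`[F_{Nℓ} : β F_N] = ℓ`** if `ℓ ∣ N`, `ℓ + 1` otherwise. -/
theorem nq2_finrankAlong_beta (hℓ : ℓ.Prime) :
    finrankAlong Kbar (heckeBetaBar Kbar N ℓ) = if ℓ ∣ N then ℓ else ℓ + 1 := by
  haveI : NeZero (N * ℓ) := ⟨Nat.mul_ne_zero (NeZero.ne N) (NeZero.ne ℓ)⟩
  have h1 := nq2_psi_mul_finrankAlong_beta N ℓ hℓ
  have h2 := dedekindPsi_mul_finrankAlong_inclBar N (N * ℓ) (dvd_mul_right N ℓ)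
  have h3 := finrankAlong_inclBar_prime N hℓ (N * ℓ) rfl
  rw [← h3]
  exact Nat.eq_of_mul_eq_mul_left (dedekindPsi_pos N) (h1.trans h2.symm)

end Degree

/-! ### A generic norm formula -/

/-- The norm is the product over a distinguished embedding `τ₀` and a family `E` of further
embeddings. -/
theorem nq2_norm_eq_mul_prod {A B L : Type*} [Field A] [Field B] [Field L] [Algebra A B]
    [FiniteDimensional A B] [Algebra.IsSeparable A B]
    (σ₀ : A →+* L) (τ₀ : B →+* L) {ι : Type*} [Fintype ι] (E : ι → (B →+* L))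
    (h0 : ∀ a, τ₀ (algebraMap A B a) = σ₀ a)
    (hE : ∀ c a, E c (algebraMap A B a) = σ₀ a)
    (hinj : Function.Injective E) (hne : ∀ c, E c ≠ τ₀)
    (hcard : Fintype.card ι + 1 = Module.finrank A B) (x : B) :
    σ₀ (Algebra.norm A x) = τ₀ x * ∏ c, E c x := by
  classical
  let τ : Option ι → (B →+* L) := fun i => i.elim τ₀ E
  have hτ : ∀ i a, τ i (algebraMap A B a) = σ₀ a := by
    intro i a
    cases i with
    | none => exact h0 a
    | some c => exact hE c a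
  have hτinj : Function.Injective τ := by
    intro i j hij
    cases i with
    | none =>
      cases j with
      | none => rfl
      | some c => exact absurd hij.symm (hne c)
    | some c =>
      cases j with
      | none => exact absurd hij (hne c)
      | some c' => exact congrArg some (hinj hij)
  have key := nc_norm_eq_prod σ₀ τ hτ hτinj (by rw [Fintype.card_option, hcard]) x
  rw [Fintype.prod_option] at key
  exact key

/-! ### The two product formulas at `∞` -/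

section Formulas

variable (N ℓ : ℕ) [NeZero N] [NeZero ℓ]

/-- the coefficient of `X^{-1}` of `j(u X)` -/
theorem nq2_coeff_twq_jF (u : Kbarˣ) :
    (twq u (jF N : LaurentSeries Kbar)).coeff (-1) = ((u⁻¹ : Kbarˣ) : Kbar) := by
  rw [twq_coeff, coe_jF, coeffEmb, coeffMap_coeff, coeff_jq_neg_one, map_one, mul_one,
    zpow_neg_one]

/-- **A-1 (`β` side at `∞`).** `(N_β x)(X^ℓ) = ∏_{b<ℓ} x(ζ^b X)` for `ℓ ∣ N`. -/
theorem normProdQ2_beta (hℓ : ℓ.Prime) (hℓN : ℓ ∣ N)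
    (ζ : Kbarˣ) (hζ : IsPrimitiveRoot (ζ : Kbar) ℓ) (x : FF (N * ℓ)) :
    letI := algebraAlong (heckeBetaBar Kbar N ℓ)
    qExpand Kbar ℓ ((Algebra.norm (FF N) x : FF N) : LaurentSeries Kbar)
      = ∏ b ∈ Finset.range ℓ, twq (ζ ^ b) (x : LaurentSeries Kbar) := by
  classical
  haveI : NeZero (N * ℓ) := ⟨Nat.mul_ne_zero (NeZero.ne N) (NeZero.ne ℓ)⟩
  have hζℓ : ζ ^ ℓ = 1 :=
    Units.ext (by rw [Units.val_pow_eq_pow_val, hζ.pow_eq_one, Units.val_one])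
  letI := algebraAlong (heckeBetaBar Kbar N ℓ)
  have hdeg : Module.finrank (FF N) (FF (N * ℓ)) = ℓ := by
    have h := nq2_finrankAlong_beta N ℓ hℓ
    rw [if_pos hℓN] at h
    exact h
  haveI : Module.Finite (FF N) (FF (N * ℓ)) :=
    Module.finite_of_finrank_pos (by rw [hdeg]; exact hℓ.pos)
  haveI : FFData Kbar (jF (N * ℓ)) := fin_ffData (N * ℓ)
  haveI : Algebra.IsSeparable (FF N) (FF (N * ℓ)) :=
    gen_separableAlong (heckeBetaBar Kbar N ℓ) (transcendental_jF N) (x' := jF (N * ℓ))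
  let σ₀ : FF N →+* LaurentSeries Kbar :=
    (qExpand Kbar ℓ).comp (algebraMap (FF N) (LaurentSeries Kbar))
  let τ : Fin ℓ → (FF (N * ℓ) →+* LaurentSeries Kbar) := fun b =>
    (twq (ζ ^ (b : ℕ))).comp (algebraMap (FF (N * ℓ)) (LaurentSeries Kbar))
  have hτ : ∀ i a, τ i (algebraMap (FF N) (FF (N * ℓ)) a) = σ₀ a := by
    intro b a
    show twq (ζ ^ (b : ℕ)) ((heckeBetaBar Kbar N ℓ a : FF (N * ℓ)) : LaurentSeries Kbar)
      = qExpand Kbar ℓ (a : LaurentSeries Kbar)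
    rw [coe_heckeBetaBar, nc_twq_qExpand, ← pow_mul, mul_comm, pow_mul, hζℓ, one_pow, twq_one]
  have hinj : Function.Injective τ := by
    intro a b hab
    have h1 : (τ a (jF (N * ℓ))).coeff (-1) = (τ b (jF (N * ℓ))).coeff (-1) := by rw [hab]
    have h2 : ∀ c : Fin ℓ, (τ c (jF (N * ℓ))).coeff (-1)
        = (((ζ ^ (c : ℕ))⁻¹ : Kbarˣ) : Kbar) := fun c => nq2_coeff_twq_jF (N * ℓ) _
    rw [h2, h2] at h1
    have h3 : (ζ ^ (a : ℕ))⁻¹ = (ζ ^ (b : ℕ))⁻¹ := Units.ext h1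
    have h4 : (ζ : Kbar) ^ (a : ℕ) = (ζ : Kbar) ^ (b : ℕ) := by
      have := congrArg (fun u : Kbarˣ => ((u⁻¹ : Kbarˣ) : Kbar)) h3
      simpa using this
    exact Fin.ext (hζ.pow_inj a.2 b.2 h4)
  have key := nc_norm_eq_prod σ₀ τ hτ hinj (by rw [Fintype.card_fin, hdeg]) x
  rw [Finset.prod_range]
  exact key

/-- **A-1 (`α` side at `∞`).** For `ℓ ∣ N` and `ℓ - 1` pairwise distinct ring homomorphisms
`E_c : F_{Nℓ} → ℚ̄((X))` (the middle expansions), equal to the expansion at `∞` on `α F_N` and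
different from it:  `N_α x = x · ∏_c E_c x`. -/
theorem normProdQ2_alpha (hℓ : ℓ.Prime) (hℓN : ℓ ∣ N)
    {ι : Type*} [Fintype ι] (hcard : Fintype.card ι + 1 = ℓ)
    (E : ι → (FF (N * ℓ) →+* LaurentSeries Kbar))
    (hEα : ∀ c (Y : FF N), E c (heckeAlphaBar Kbar N ℓ Y) = (Y : LaurentSeries Kbar))
    (hEinj : Function.Injective E)
    (hEne : ∀ c, ∃ y : FF (N * ℓ), E c y ≠ (y : LaurentSeries Kbar)) (x : FF (N * ℓ)) :
    letI := algebraAlong (heckeAlphaBar Kbar N ℓ)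
    ((Algebra.norm (FF N) x : FF N) : LaurentSeries Kbar)
      = (x : LaurentSeries Kbar) * ∏ c, E c x := by
  classical
  haveI : NeZero (N * ℓ) := ⟨Nat.mul_ne_zero (NeZero.ne N) (NeZero.ne ℓ)⟩
  let σ₀ : FF N →+* LaurentSeries Kbar := algebraMap (FF N) (LaurentSeries Kbar)
  let τ₀ : FF (N * ℓ) →+* LaurentSeries Kbar := algebraMap (FF (N * ℓ)) (LaurentSeries Kbar)
  have hσ₀ : ∀ y : FF N, σ₀ y = (y : LaurentSeries Kbar) := fun _ => rfl
  have hτ₀ : ∀ y : FF (N * ℓ), τ₀ y = (y : LaurentSeries Kbar) := fun _ => rfl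
  letI := algebraAlong (heckeAlphaBar Kbar N ℓ)
  haveI : Module.Finite (FF N) (FF (N * ℓ)) := finiteAlong_inclBar N (N * ℓ) (dvd_mul_right N ℓ)
  haveI : FFData Kbar (jF (N * ℓ)) := fin_ffData (N * ℓ)
  haveI : Algebra.IsSeparable (FF N) (FF (N * ℓ)) :=
    gen_separableAlong (heckeAlphaBar Kbar N ℓ) (transcendental_jF N) (x' := jF (N * ℓ))
  have hdeg : Module.finrank (FF N) (FF (N * ℓ)) = ℓ := by
    have h := finrankAlong_inclBar_prime N hℓ (N * ℓ) rfl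
    rw [if_pos hℓN] at h
    exact h
  have h0 : ∀ a : FF N, τ₀ (heckeAlphaBar Kbar N ℓ a) = σ₀ a := by
    intro a
    rw [hτ₀, hσ₀, coe_heckeAlphaBar]
  have hE' : ∀ c (a : FF N), E c (heckeAlphaBar Kbar N ℓ a) = σ₀ a := by
    intro c a
    rw [hσ₀, hEα]
  have hne : ∀ c, E c ≠ τ₀ := by
    intro c hc
    obtain ⟨y, hy⟩ := hEne c
    apply hy
    rw [hc, hτ₀]
  have key := nq2_norm_eq_mul_prod σ₀ τ₀ E h0 hE' hEinj hne (by rw [hcard, hdeg]) x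
  rw [hσ₀, hτ₀] at key
  exact key

/-- (i) with `normAlong` -/
theorem normProdQ2_beta' (hℓ : ℓ.Prime) (hℓN : ℓ ∣ N)
    (ζ : Kbarˣ) (hζ : IsPrimitiveRoot (ζ : Kbar) ℓ) (x : FF (N * ℓ)) :
    qExpand Kbar ℓ ((normAlong (heckeBetaBar Kbar N ℓ) x : FF N) : LaurentSeries Kbar)
      = ∏ b ∈ Finset.range ℓ, twq (ζ ^ b) (x : LaurentSeries Kbar) :=
  normProdQ2_beta N ℓ hℓ hℓN ζ hζ x

/-- (iii) with `normAlong` -/
theorem normProdQ2_alpha' (hℓ : ℓ.Prime) (hℓN : ℓ ∣ N)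
    {ι : Type*} [Fintype ι] (hcard : Fintype.card ι + 1 = ℓ)
    (E : ι → (FF (N * ℓ) →+* LaurentSeries Kbar))
    (hEα : ∀ c (Y : FF N), E c (heckeAlphaBar Kbar N ℓ Y) = (Y : LaurentSeries Kbar))
    (hEinj : Function.Injective E)
    (hEne : ∀ c, ∃ y : FF (N * ℓ), E c y ≠ (y : LaurentSeries Kbar)) (x : FF (N * ℓ)) :
    ((normAlong (heckeAlphaBar Kbar N ℓ) x : FF N) : LaurentSeries Kbar)
      = (x : LaurentSeries Kbar) * ∏ c, E c x :=
  normProdQ2_alpha N ℓ hℓ hℓN hcard E hEα hEinj hEne x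

end Formulas

/-! ### The two product formulas at `0` (after the Atkin–Lehner involutions) -/

section Zero

/-- transport of the norm along a commutative square of automorphisms:
`w₂ ∘ φ = ψ ∘ w₁` implies `w₁ (N_φ x) = N_ψ (w₂ x)`. -/
theorem nq2_norm_transport {K F F' : Type*} [Field K] [Field F] [Field F'] [Algebra K F]
    [Algebra K F'] (φ ψ : F →ₐ[K] F') (w₁ : F ≃ₐ[K] F) (w₂ : F' ≃ₐ[K] F')
    (h : ∀ a, w₂ (φ a) = ψ (w₁ a)) (x : F') :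
    w₁ (normAlong φ x) = normAlong ψ (w₂ x) := by
  have he : RingHom.comp (@algebraMap F F' _ _ (algebraAlong ψ))
      ((w₁.toRingEquiv : F ≃+* F) : F →+* F) =
      RingHom.comp ((w₂.toRingEquiv : F' ≃+* F') : F' →+* F')
        (@algebraMap F F' _ _ (algebraAlong φ)) := by
    ext a
    exact (h a).symm
  have key := @Algebra.norm_eq_of_equiv_equiv F F' F F' _ _ _ _ (algebraAlong φ)
    (algebraAlong ψ) w₁.toRingEquiv w₂.toRingEquiv he x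
  have key' : normAlong φ x = w₁.symm (normAlong ψ (w₂ x)) := key
  rw [key', AlgEquiv.apply_symm_apply]

variable (N ℓ : ℕ) [NeZero N] [NeZero ℓ]

/-- **A-1 (ii) (`α` side at `0`).** With `w₂ ∘ α = β ∘ w₁`:
`(w₁ N_α x)(X^ℓ) = ∏_{b<ℓ} (w₂ x)(ζ^b X)`. -/
theorem normProdQ2_alpha_zero (hℓ : ℓ.Prime) (hℓN : ℓ ∣ N)
    (w₁ : FF N ≃ₐ[Kbar] FF N) (w₂ : FF (N * ℓ) ≃ₐ[Kbar] FF (N * ℓ))
    (hα : ∀ Y : FF N, w₂ (heckeAlphaBar Kbar N ℓ Y) = heckeBetaBar Kbar N ℓ (w₁ Y))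
    (ζ : Kbarˣ) (hζ : IsPrimitiveRoot (ζ : Kbar) ℓ) (x : FF (N * ℓ)) :
    qExpand Kbar ℓ ((w₁ (normAlong (heckeAlphaBar Kbar N ℓ) x) : FF N) : LaurentSeries Kbar)
      = ∏ b ∈ Finset.range ℓ, twq (ζ ^ b) ((w₂ x : FF (N * ℓ)) : LaurentSeries Kbar) := by
  rw [nq2_norm_transport (heckeAlphaBar Kbar N ℓ) (heckeBetaBar Kbar N ℓ) w₁ w₂ hα x]
  exact normProdQ2_beta' N ℓ hℓ hℓN ζ hζ (w₂ x)

/-- **A-1 (iv) (`β` side at `0`).** With `w₂ ∘ β = α ∘ w₁`: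
`w₁ N_β x = (w₂ x) · ∏_c E_c (w₂ x)`. -/
theorem normProdQ2_beta_zero (hℓ : ℓ.Prime) (hℓN : ℓ ∣ N)
    (w₁ : FF N ≃ₐ[Kbar] FF N) (w₂ : FF (N * ℓ) ≃ₐ[Kbar] FF (N * ℓ))
    (hβ : ∀ Y : FF N, w₂ (heckeBetaBar Kbar N ℓ Y) = heckeAlphaBar Kbar N ℓ (w₁ Y))
    {ι : Type*} [Fintype ι] (hcard : Fintype.card ι + 1 = ℓ)
    (E : ι → (FF (N * ℓ) →+* LaurentSeries Kbar))
    (hEα : ∀ c (Y : FF N), E c (heckeAlphaBar Kbar N ℓ Y) = (Y : LaurentSeries Kbar))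
    (hEinj : Function.Injective E)
    (hEne : ∀ c, ∃ y : FF (N * ℓ), E c y ≠ (y : LaurentSeries Kbar)) (x : FF (N * ℓ)) :
    ((w₁ (normAlong (heckeBetaBar Kbar N ℓ) x) : FF N) : LaurentSeries Kbar)
      = ((w₂ x : FF (N * ℓ)) : LaurentSeries Kbar) * ∏ c, E c (w₂ x) := by
  rw [nq2_norm_transport (heckeBetaBar Kbar N ℓ) (heckeAlphaBar Kbar N ℓ) w₁ w₂ hβ x]
  exact normProdQ2_alpha' N ℓ hℓ hℓN hcard E hEα hEinj hEne (w₂ x)

end Zero

end Fermat.Agent.S36lib
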