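/-
Item 83 (S36), piece C4-3 (FIBRE), concrete part 1 (helper15).  Complete proofs.

Level `M = M' q²`, `N = M' q`, `q ∤ M'`.  `α, β : F_N → F_M` (`z ↦ z, q z`), `w₁ = w_q` at level
`N`, `w₂ = w_{q²}` at level `M`.

* `midPlace M' q hq hqM ζ hζ : Place ℚ̄ F_M`: the middle cusp attached to the primitive `q`-th
  root of unity `ζ` (place of helper17's `ecMid`), `midPlace_ord`;
* `fbmZero M' q hq hqM = w₂ • ∞`: the cusp `0` at level `M`, `fbmZero_ord`;
* order formulas along `α`, `β` for ALL `Y ∈ F_N`: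
  `ord_∞ (α Y) = ord_∞ Y`, `ord_mid (α Y) = ord_∞ Y`, `ord_0 (α Y) = q · ord_0 Y`,
  `ord_∞ (β Y) = q · ord_∞ Y`, `ord_mid (β Y) = ord_0 Y`, `ord_0 (β Y) = ord_0 Y`
  (with `fbm_ecMid_beta : E_ζ (β Y) = (w₁ Y)(ζ X)`);
* the places `∞`, `0`, `mid_ζ` are pairwise different (`fbm_inf_ne_mid`, `fbm_mid_ne_zero`,
  `fbm_inf_ne_zero`, `midPlace_injective`);
The fibres and the regularity statements are in `FibreReg.lean`.
-/
import Mathlib
import Fermat.Agent.S36lib.FibreGen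
import Fermat.Agent.S36lib.ExpCalc
import Fermat.Agent.S36lib.ALBridge
import Fermat.Agent.S36lib.NormProdQ2
import Fermat.Agent.S34lib.ExProd
import Fermat.Agent.S35lib.NormProd

set_option autoImplicit false
set_option linter.style.haveILetI false
set_option linter.unusedSectionVars false
set_option synthInstance.maxHeartbeats 400000

noncomputable section

namespace Fermat.Agent.S36lib

open AlgebraicCurve ModularCurve HahnSeries
open Fermat.Agent.S24lib Fermat.Agent.S34lib Fermat.Agent.S37lib Fermat.Agent.HeckeBar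
open Fermat.Agent.S35lib

/-! ### Laurent series lemmas -/

section Laurent

variable {R : Type*} [Field R]

/-- `x(uX)` has the order of `x` -/
theorem fbm_order_twq (u : Rˣ) (x : LaurentSeries R) : (twq u x).order = x.order := by
  by_cases hx : x = 0
  · rw [hx, map_zero]
  have hx' : twq u x ≠ 0 := (map_ne_zero (twq u)).2 hx
  apply le_antisymm
  · apply HahnSeries.order_le_of_coeff_ne_zero
    rw [twq_coeff]
    exact mul_ne_zero (Units.ne_zero _) (HahnSeries.coeff_order_eq_zero.not.mpr hx)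
  · apply HahnSeries.order_le_of_coeff_ne_zero
    intro h
    have h1 := HahnSeries.coeff_order_eq_zero.not.mpr hx'
    rw [twq_coeff] at h1
    exact h1 (by rw [h, mul_zero])

/-- `x(uX^n) = x(X^n)` if `u^n = 1` -/
theorem fbm_twq_qExpand (u : Rˣ) (n : ℕ) [NeZero n] (hu : u ^ n = 1) (x : LaurentSeries R) :
    twq u (qExpand R n x) = qExpand R n x := by
  rw [nc_twq_qExpand, hu, twq_one]

end Laurent

section Places

variable (M' q : ℕ) [NeZero M'] [NeZero q] (hq : q.Prime) (hqM : ¬ q ∣ M')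

include hq in
/-- two ring homs on `F_{M'q}` agreeing on `α' F_{M'}` and `β' F_{M'}` are equal -/
theorem fbm_ringHom_ext {R : Type*} [Field R] (φ ψ : FF (M' * q) →+* R)
    (hα : ∀ g : FF M', φ (heckeAlphaBar Kbar M' q g) = ψ (heckeAlphaBar Kbar M' q g))
    (hβ : ∀ g : FF M', φ (heckeBetaBar Kbar M' q g) = ψ (heckeBetaBar Kbar M' q g)) : φ = ψ := by
  ext x
  induction x using np_induction M' q hq with
  | hα Y => exact hα Y
  | hβ Y => exact hβ Y
  | hadd x y hx hy => rw [map_add, map_add, hx, hy]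
  | hneg x hx => rw [map_neg, map_neg, hx]
  | hmul x y hx hy => rw [map_mul, map_mul, hx, hy]
  | hinv x hx => rw [map_inv₀, map_inv₀, hx]

/-- `β ∘ α' = α ∘ β'` (`z ↦ q z`) -/
theorem fbm_beta_alpha (g : FF M') :
    heckeBetaBar Kbar (M' * q) q (heckeAlphaBar Kbar M' q g)
      = heckeAlphaBar Kbar (M' * q) q (heckeBetaBar Kbar M' q g) := by
  apply Subtype.ext
  rw [coe_heckeBetaBar, coe_heckeAlphaBar, coe_heckeAlphaBar, coe_heckeBetaBar]

/-- the order of the expansion of `j` at `∞` is `-1` -/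
theorem fbm_order_jF (N : ℕ) [NeZero N] : ((jF N : FF N) : LaurentSeries Kbar).order = -1 := by
  rw [← infPlaceBar_ord, infPlaceBar_ord_jF]

/-- the coefficient of `X⁻¹` of `j` is `1` -/
theorem fbm_coeff_jF (N : ℕ) [NeZero N] :
    ((jF N : FF N) : LaurentSeries Kbar).coeff (-1) = 1 := by
  have h := midExp_coeff_twq_jF N (1 : Kbarˣ)
  rw [twq_one] at h
  rw [h]
  simp

variable (ζ : Kbarˣ) (hζ : IsPrimitiveRoot (ζ : Kbar) q)

/-- **the middle place** attached to the primitive `q`-th root of unity `ζ` -/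
def midPlace : Place Kbar (FF (M' * q * q)) :=
  expPlace (ecMid M' q hq hqM ζ hζ)
    (fun a _ => by
      rw [ecMid_algebraMap, LaurentSeries.algebraMap_apply]
      exact HahnSeries.order_C)
    ⟨heckeAlphaBar Kbar (M' * q) q (jF (M' * q)), by
      rw [ecMid_alpha, fbm_order_jF]⟩

theorem midPlace_ord (f : FF (M' * q * q)) :
    (midPlace M' q hq hqM ζ hζ).ord f = (ecMid M' q hq hqM ζ hζ f).order :=
  expPlace_ord _ _ _ f

/-- **the cusp `0`** at level `M' q²`: `w_{q²} • ∞` -/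
def fbmZero : Place Kbar (FF (M' * q * q)) := ecW M' q hq hqM • infPlaceBar (M' * q * q)

theorem fbmZero_ord (f : FF (M' * q * q)) :
    (fbmZero M' q hq hqM).ord f = (ecZero M' q hq hqM f).order := by
  rw [ecZero_apply, ← infPlaceBar_ord]
  have h := Place.ord_smul (ecW M' q hq hqM) (infPlaceBar (M' * q * q)) (ecW M' q hq hqM f)
  rw [ecW_ecW] at h
  exact h

theorem fbmZero_ord_eq (f : FF (M' * q * q)) :
    (fbmZero M' q hq hqM).ord f = (infPlaceBar (M' * q * q)).ord (ecW M' q hq hqM f) := by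
  rw [fbmZero_ord, ecZero_apply, infPlaceBar_ord]

/-! ### Orders along `α` and `β` -/

/-- `ord_∞ (α Y) = ord_∞ Y` -/
theorem fbm_inf_ord_alpha (Y : FF (M' * q)) :
    (infPlaceBar (M' * q * q)).ord (heckeAlphaBar Kbar (M' * q) q Y)
      = (infPlaceBar (M' * q)).ord Y :=
  infPlaceBar_ord_alpha (M' * q) q Y

/-- `ord_∞ (β Y) = q · ord_∞ Y` -/
theorem fbm_inf_ord_beta (Y : FF (M' * q)) :
    (infPlaceBar (M' * q * q)).ord (heckeBetaBar Kbar (M' * q) q Y)
      = (q : ℤ) * (infPlaceBar (M' * q)).ord Y :=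
  infPlaceBar_ord_beta (M' * q) q Y

/-- `ord_mid (α Y) = ord_∞ Y` -/
theorem midPlace_ord_alpha (Y : FF (M' * q)) :
    (midPlace M' q hq hqM ζ hζ).ord (heckeAlphaBar Kbar (M' * q) q Y)
      = (infPlaceBar (M' * q)).ord Y := by
  rw [midPlace_ord, ecMid_alpha, infPlaceBar_ord]

/-- `w₂ (α Y) = β (w₁ Y)` with `w₁ = atkinLehnerFF` -/
theorem fbm_ecW_alpha (Y : FF (M' * q)) :
    ecW M' q hq hqM (heckeAlphaBar Kbar (M' * q) q Y)
      = heckeBetaBar Kbar (M' * q) q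
          (atkinLehnerFF (M' * q) q hq (dvd_mul_left q M') (inf_not_sq_dvd M' q hq hqM) Y) :=
  al2_alpha_apply M' hq hqM Y

/-- `w₂ (β Y) = α (w₁ Y)` -/
theorem fbm_ecW_beta (Y : FF (M' * q)) :
    ecW M' q hq hqM (heckeBetaBar Kbar (M' * q) q Y)
      = heckeAlphaBar Kbar (M' * q) q
          (atkinLehnerFF (M' * q) q hq (dvd_mul_left q M') (inf_not_sq_dvd M' q hq hqM) Y) :=
  al2_beta_apply M' hq hqM Y

/-- `ord_0 (α Y) = q · ord_0 Y` -/
theorem fbmZero_ord_alpha (Y : FF (M' * q)) :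
    (fbmZero M' q hq hqM).ord (heckeAlphaBar Kbar (M' * q) q Y)
      = (q : ℤ) * (zeroPlaceBar (M' * q) q hq (dvd_mul_left q M')
          (inf_not_sq_dvd M' q hq hqM)).ord Y := by
  rw [fbmZero_ord_eq, fbm_ecW_alpha, fbm_inf_ord_beta, zeroPlaceBar_ord_eq]

/-- `ord_0 (β Y) = ord_0 Y` -/
theorem fbmZero_ord_beta (Y : FF (M' * q)) :
    (fbmZero M' q hq hqM).ord (heckeBetaBar Kbar (M' * q) q Y)
      = (zeroPlaceBar (M' * q) q hq (dvd_mul_left q M')
          (inf_not_sq_dvd M' q hq hqM)).ord Y := by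
  rw [fbmZero_ord_eq, fbm_ecW_beta, fbm_inf_ord_alpha, zeroPlaceBar_ord_eq]

include hζ in
theorem fbm_zeta_pow : ζ ^ q = 1 := by
  apply Units.ext
  rw [Units.val_pow_eq_pow_val, hζ.pow_eq_one, Units.val_one]

/-- **`E_ζ (β Y) = (w₁ Y)(ζ X)`** for all `Y ∈ F_{M'q}` -/
theorem fbm_ecMid_beta (Y : FF (M' * q)) :
    ecMid M' q hq hqM ζ hζ (heckeBetaBar Kbar (M' * q) q Y)
      = twq ζ ((atkinLehnerFF (M' * q) q hq (dvd_mul_left q M')
          (inf_not_sq_dvd M' q hq hqM) Y : FF (M' * q)) : LaurentSeries Kbar) := by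
  have h : (ecMid M' q hq hqM ζ hζ).comp (heckeBetaBar Kbar (M' * q) q).toRingHom
      = ((twq ζ).comp (modularFunctionFieldBar (M' * q)).toSubfield.subtype).comp
          (atkinLehnerFF (M' * q) q hq (dvd_mul_left q M')
            (inf_not_sq_dvd M' q hq hqM) : FF (M' * q) →+* FF (M' * q)) := by
    apply fbm_ringHom_ext M' q hq
    · intro g
      show ecMid M' q hq hqM ζ hζ (heckeBetaBar Kbar (M' * q) q (heckeAlphaBar Kbar M' q g))
        = twq ζ ((atkinLehnerFF (M' * q) q hq (dvd_mul_left q M')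
          (inf_not_sq_dvd M' q hq hqM) (heckeAlphaBar Kbar M' q g) : FF (M' * q)) :
            LaurentSeries Kbar)
      rw [fbm_beta_alpha, ecMid_alpha, atkinLehnerFF_alpha M' q hq hqM, coe_heckeBetaBar,
        fbm_twq_qExpand ζ q (fbm_zeta_pow q ζ hζ)]
    · intro g
      show ecMid M' q hq hqM ζ hζ (heckeBetaBar Kbar (M' * q) q (heckeBetaBar Kbar M' q g))
        = twq ζ ((atkinLehnerFF (M' * q) q hq (dvd_mul_left q M')
          (inf_not_sq_dvd M' q hq hqM) (heckeBetaBar Kbar M' q g) : FF (M' * q)) :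
            LaurentSeries Kbar)
      rw [atkinLehnerFF_beta M' q hq hqM, coe_heckeAlphaBar]
      exact ecMid_pi3 M' q hq hqM ζ hζ g
  exact RingHom.congr_fun h Y

/-- `ord_mid (β Y) = ord_0 Y` -/
theorem midPlace_ord_beta (Y : FF (M' * q)) :
    (midPlace M' q hq hqM ζ hζ).ord (heckeBetaBar Kbar (M' * q) q Y)
      = (zeroPlaceBar (M' * q) q hq (dvd_mul_left q M')
          (inf_not_sq_dvd M' q hq hqM)).ord Y := by
  rw [midPlace_ord, fbm_ecMid_beta, fbm_order_twq, zeroPlaceBar_ord_eq, infPlaceBar_ord]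


/-! ### The places `∞`, `0`, `mid_ζ` are pairwise different -/

include hq in
theorem fbm_qq_ne : (q : ℤ) * ((q : ℤ) * -1) ≠ -1 := by
  have h2 : (2 : ℤ) ≤ q := by exact_mod_cast hq.two_le
  intro h
  nlinarith

/-- `∞ ≠ mid_ζ` -/
theorem fbm_inf_ne_mid : infPlaceBar (M' * q * q) ≠ midPlace M' q hq hqM ζ hζ := by
  apply fbg_ne_of_ord (ecPi3 M' q (jF M'))
  rw [midPlace_ord, ecMid_pi3, fbm_order_twq, fbm_order_jF, infPlaceBar_ord, ← ecInf_apply,
    ecInf_pi3, inf_order_qExpand, inf_order_qExpand, fbm_order_jF]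
  exact fbm_qq_ne q hq

/-- `mid_ζ ≠ 0` -/
theorem fbm_mid_ne_zero : midPlace M' q hq hqM ζ hζ ≠ fbmZero M' q hq hqM := by
  apply fbg_ne_of_ord (ecPi1 M' q (jF M'))
  rw [midPlace_ord, ecMid_pi1, fbm_order_jF, fbmZero_ord, ecZero_pi1, inf_order_qExpand,
    inf_order_qExpand, fbm_order_jF]
  exact (fbm_qq_ne q hq).symm

/-- `∞ ≠ 0` -/
theorem fbm_inf_ne_zero : infPlaceBar (M' * q * q) ≠ fbmZero M' q hq hqM := by
  apply fbg_ne_of_ord (ecPi1 M' q (jF M'))
  rw [infPlaceBar_ord, ← ecInf_apply, ecInf_pi1, fbm_order_jF, fbmZero_ord, ecZero_pi1,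
    inf_order_qExpand, inf_order_qExpand, fbm_order_jF]
  exact (fbm_qq_ne q hq).symm

/-- the function separating the middle places: `π₃ j - ζ₁⁻¹ π₁ j` -/
def fbmSep (ζ₁ : Kbarˣ) : FF (M' * q * q) :=
  ecPi3 M' q (jF M') - algebraMap Kbar (FF (M' * q * q)) ((ζ₁⁻¹ : Kbarˣ) : Kbar) *
    ecPi1 M' q (jF M')

theorem fbm_ecMid_sep (ζ₁ : Kbarˣ) :
    ecMid M' q hq hqM ζ hζ (fbmSep M' q ζ₁)
      = twq ζ ((jF M' : FF M') : LaurentSeries Kbar)
        - algebraMap Kbar (LaurentSeries Kbar) ((ζ₁⁻¹ : Kbarˣ) : Kbar)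
          * ((jF M' : FF M') : LaurentSeries Kbar) := by
  unfold fbmSep
  rw [map_sub, map_mul, ecMid_pi3, ecMid_pi1, ecMid_algebraMap]

theorem fbm_sep_coeff (ζ₁ : Kbarˣ) (n : ℤ) :
    (twq ζ ((jF M' : FF M') : LaurentSeries Kbar)
        - algebraMap Kbar (LaurentSeries Kbar) ((ζ₁⁻¹ : Kbarˣ) : Kbar)
          * ((jF M' : FF M') : LaurentSeries Kbar)).coeff n
      = (((ζ ^ n : Kbarˣ) : Kbar) - ((ζ₁⁻¹ : Kbarˣ) : Kbar))
          * ((jF M' : FF M') : LaurentSeries Kbar).coeff n := by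
  rw [HahnSeries.coeff_sub, twq_coeff, LaurentSeries.algebraMap_apply,
    HahnSeries.C_mul_eq_smul, HahnSeries.coeff_smul, smul_eq_mul]
  ring

/-- `ord_{mid_ζ} (π₃ j - ζ⁻¹ π₁ j) ≥ 0` -/
theorem fbm_sep_ord_nonneg :
    0 ≤ (midPlace M' q hq hqM ζ hζ).ord (fbmSep M' q ζ) := by
  rw [midPlace_ord, fbm_ecMid_sep]
  set y := twq ζ ((jF M' : FF M') : LaurentSeries Kbar)
        - algebraMap Kbar (LaurentSeries Kbar) ((ζ⁻¹ : Kbarˣ) : Kbar)
          * ((jF M' : FF M') : LaurentSeries Kbar) with hy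
  by_contra hcon
  rw [not_le] at hcon
  have hy0 : y ≠ 0 := by
    intro h0
    rw [h0, HahnSeries.order_zero] at hcon
    exact lt_irrefl _ hcon
  have hc := HahnSeries.coeff_order_eq_zero.not.mpr hy0
  apply hc
  rw [hy, fbm_sep_coeff]
  rcases lt_or_eq_of_le (show y.order ≤ -1 by omega) with h1 | h1
  · rw [HahnSeries.coeff_eq_zero_of_lt_order (by rw [fbm_order_jF]; exact h1), mul_zero]
  · rw [h1, zpow_neg_one, sub_self, zero_mul]

/-- `ord_{mid_ζ₂} (π₃ j - ζ₁⁻¹ π₁ j) < 0` for `ζ₂ ≠ ζ₁` -/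
theorem fbm_sep_ord_neg (ζ₁ : Kbarˣ) (hne : ζ ≠ ζ₁) :
    (midPlace M' q hq hqM ζ hζ).ord (fbmSep M' q ζ₁) < 0 := by
  rw [midPlace_ord, fbm_ecMid_sep]
  have h : (twq ζ ((jF M' : FF M') : LaurentSeries Kbar)
        - algebraMap Kbar (LaurentSeries Kbar) ((ζ₁⁻¹ : Kbarˣ) : Kbar)
          * ((jF M' : FF M') : LaurentSeries Kbar)).coeff (-1) ≠ 0 := by
    rw [fbm_sep_coeff, fbm_coeff_jF, mul_one, zpow_neg_one]
    intro h0
    apply hne
    have h1 : (ζ⁻¹ : Kbarˣ) = ζ₁⁻¹ := Units.ext (sub_eq_zero.mp h0)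
    exact inv_injective h1
  have := HahnSeries.order_le_of_coeff_ne_zero h
  omega

/-- **the middle places attached to different roots of unity are different** -/
theorem midPlace_injective (ζ₁ : Kbarˣ) (hζ₁ : IsPrimitiveRoot (ζ₁ : Kbar) q)
    (h : midPlace M' q hq hqM ζ hζ = midPlace M' q hq hqM ζ₁ hζ₁) : ζ = ζ₁ := by
  by_contra hne
  have h1 := fbm_sep_ord_neg M' q hq hqM ζ hζ ζ₁ hne
  have h2 := fbm_sep_ord_nonneg M' q hq hqM ζ₁ hζ₁
  rw [h] at h1
  omega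

end Places

end Fermat.Agent.S36lib

end
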