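/-
Item 83 (S36), piece V-2 ZERO-SIDE, `ℚ̄`-level (helper23): the cusp `0` of `X₀(M' q²)` and the
second valuation `v₀ = v_∞ ∘ w_{q²}`, from the Atkin–Lehner involution `w₂ = alW2`
(`ALBridge.lean`).  Level `M = M' * q * q`, `N = M' * q`, `q ∤ M'`;
`α', β' : F_{M'} → F_N`, `α, β : F_N → F_M` (`heckeAlphaBar`, `heckeBetaBar`),
`π₁ = α ∘ α'`, `π₂ = α ∘ β' = β ∘ α'`, `π₃ = β ∘ β'`.

* `zs_beta_alpha` : `β ∘ α' = α ∘ β'`;
* `alW1_alpha'`, `alW1_beta'` : `w₁ ∘ α' = β'`, `w₁ ∘ β' = α'`;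
* `alW2_pi1`, `alW2_pi2`, `alW2_pi3` : `w₂` swaps `π₁ ↔ π₃` and fixes `π₂`;
* `zeroPlace2 M' hq hqM : Place ℚ̄ (FF M) := w₂ • infPlaceBar M`, `zeroPlace2_ord_eq`,
  `zeroPlace2_ord`, `zeroPlace2_mem_iff`, `alW2_smul_zeroPlace2`, `infPlaceBar_ne_zeroPlace2`;
* orders: `infPlaceBar_ord_pi1/2/3 = (1, q, q²) · ord_{∞'}`,
  `zeroPlace2_ord_pi1/2/3 = (q², q, 1) · ord_{∞'}`,
  `zeroPlace2_ord_alpha`, `zeroPlace2_ord_beta` (in terms of the cusp `0` of level `N`),
  `infPlaceBar_ord_alpha2`, `infPlaceBar_ord_beta2`;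
* `inred_al2_comm` : `w₂` commutes with the arithmetic Galois action;
* `inredZero2 R := inredComap R w₂`, `mem_inredZero2_O`, `inredZero2_red`,
  `inred_isInertial_zero2` : the inertia group is inertial for `R₀`;
* `vredZero2 := (vredInf M).comap w₂`.
Complete proofs.
-/
import Mathlib
import Fermat.Agent.S34lib.InfPlaceAL
import Fermat.Agent.S34lib.InertiaRedAL
import Fermat.Agent.S34lib.VRedInto
import Fermat.Agent.S36lib.ALBridge
import Fermat.Agent.S36lib.Setup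

set_option autoImplicit false
set_option linter.style.haveILetI false
set_option linter.unusedSectionVars false
set_option synthInstance.maxHeartbeats 400000

noncomputable section

namespace Fermat.Agent.S36lib

open AlgebraicCurve ModularCurve
open Fermat.Agent.S24lib Fermat.Agent.HeckeBar Fermat.Agent.S37lib Fermat.Agent.S34lib
open Fermat.Agent.S35lib Fermat.Agent.GoodRed

open scoped Pointwise

section Maps

variable (M' : ℕ) [NeZero M'] {q : ℕ} [NeZero q] [NeZero (M' * q)] [NeZero (M' * q * q)]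
variable (hq : q.Prime) (hqM : ¬ q ∣ M')

/-- **`β ∘ α' = α ∘ β'`** (both are `f(z) ↦ f(qz)`, `F_{M'} → F_{M'q²}`) -/
theorem zs_beta_alpha (x : FF M') :
    heckeBetaBar Kbar (M' * q) q (heckeAlphaBar Kbar M' q x) =
      heckeAlphaBar Kbar (M' * q) q (heckeBetaBar Kbar M' q x) := by
  apply Subtype.ext
  rw [coe_heckeBetaBar, coe_heckeAlphaBar, coe_heckeAlphaBar, coe_heckeBetaBar]

/-- `w₁ ∘ α' = β'` -/
theorem alW1_alpha' (x : FF M') :
    alW1 M' hq hqM (heckeAlphaBar Kbar M' q x) = heckeBetaBar Kbar M' q x :=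
  atkinLehnerFF_alpha M' q hq hqM x

/-- `w₁ ∘ β' = α'` -/
theorem alW1_beta' (x : FF M') :
    alW1 M' hq hqM (heckeBetaBar Kbar M' q x) = heckeAlphaBar Kbar M' q x :=
  atkinLehnerFF_beta M' q hq hqM x

/-- **`w₂ ∘ π₁ = π₃`** -/
theorem alW2_pi1 (x : FF M') :
    alW2 M' hq hqM (heckeAlphaBar Kbar (M' * q) q (heckeAlphaBar Kbar M' q x)) =
      heckeBetaBar Kbar (M' * q) q (heckeBetaBar Kbar M' q x) := by
  rw [al2_alpha_apply, alW1_alpha']

/-- **`w₂ ∘ π₃ = π₁`** -/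
theorem alW2_pi3 (x : FF M') :
    alW2 M' hq hqM (heckeBetaBar Kbar (M' * q) q (heckeBetaBar Kbar M' q x)) =
      heckeAlphaBar Kbar (M' * q) q (heckeAlphaBar Kbar M' q x) := by
  rw [al2_beta_apply, alW1_beta']

/-- **`w₂ ∘ π₂ = π₂`** -/
theorem alW2_pi2 (x : FF M') :
    alW2 M' hq hqM (heckeAlphaBar Kbar (M' * q) q (heckeBetaBar Kbar M' q x)) =
      heckeAlphaBar Kbar (M' * q) q (heckeBetaBar Kbar M' q x) := by
  rw [al2_alpha_apply, alW1_beta', zs_beta_alpha]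

end Maps

section Place

variable (M' : ℕ) [NeZero M'] {q : ℕ} [NeZero q] [NeZero (M' * q)] [NeZero (M' * q * q)]
variable (hq : q.Prime) (hqM : ¬ q ∣ M')

/-- **the cusp `0`** of `X₀(M' q²)` over `ℚ̄`, as the image of the cusp `∞` under `w_{q²}` -/
def zeroPlace2 (hq : q.Prime) (hqM : ¬ q ∣ M') : Place Kbar (FF (M' * q * q)) :=
  alW2 M' hq hqM • infPlaceBar (M' * q * q)

theorem zeroPlace2_eq_ofAlgAut_smul :
    zeroPlace2 M' hq hqM =
      SemilinearAut.ofAlgAut (alW2 M' hq hqM) • infPlaceBar (M' * q * q) := by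
  apply Place.ext
  ext x
  rfl

/-- `ord_{P0} (w₂ f) = ord_{P∞} f` -/
theorem zeroPlace2_ord_alW2 (f : FF (M' * q * q)) :
    (zeroPlace2 M' hq hqM).ord (alW2 M' hq hqM f) = (infPlaceBar (M' * q * q)).ord f :=
  Place.ord_smul (alW2 M' hq hqM) (infPlaceBar (M' * q * q)) f

/-- `ord_{P0} f = ord_{P∞} (w₂ f)` -/
theorem zeroPlace2_ord_eq (f : FF (M' * q * q)) :
    (zeroPlace2 M' hq hqM).ord f = (infPlaceBar (M' * q * q)).ord (alW2 M' hq hqM f) := by
  rw [← zeroPlace2_ord_alW2 M' hq hqM, alW2_involutive]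

/-- `ord_{P∞} (w₂ f) = ord_{P0} f` -/
theorem infPlaceBar_ord_alW2 (f : FF (M' * q * q)) :
    (infPlaceBar (M' * q * q)).ord (alW2 M' hq hqM f) = (zeroPlace2 M' hq hqM).ord f :=
  (zeroPlace2_ord_eq M' hq hqM f).symm

/-- **the order at the cusp `0`** is the order of the expansion of `w₂ f`. -/
theorem zeroPlace2_ord (f : FF (M' * q * q)) :
    (zeroPlace2 M' hq hqM).ord f =
      ((alW2 M' hq hqM f : FF (M' * q * q)) : LaurentSeries Kbar).order := by
  rw [zeroPlace2_ord_eq, infPlaceBar_ord]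

theorem zeroPlace2_mem_iff (f : FF (M' * q * q)) :
    f ∈ (zeroPlace2 M' hq hqM).toValuationSubring ↔
      0 ≤ ((alW2 M' hq hqM f : FF (M' * q * q)) : LaurentSeries Kbar).order := by
  rw [← infPlaceBar_mem_iff]
  show f ∈ alW2 M' hq hqM • (infPlaceBar (M' * q * q)).toValuationSubring ↔ _
  rw [ValuationSubring.mem_pointwise_smul_iff_inv_smul_mem]
  have : (alW2 M' hq hqM)⁻¹ • f = alW2 M' hq hqM f := by
    show (alW2 M' hq hqM).symm f = _
    rw [alW2_symm]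
  rw [this]

/-- `w₂ • P0 = P∞` -/
theorem alW2_smul_zeroPlace2 :
    alW2 M' hq hqM • zeroPlace2 M' hq hqM = infPlaceBar (M' * q * q) := by
  apply Place.ext
  ext x
  rw [Place.smul_toValuationSubring, ValuationSubring.mem_pointwise_smul_iff_inv_smul_mem,
    zeroPlace2_mem_iff, infPlaceBar_mem_iff]
  have : (alW2 M' hq hqM)⁻¹ • x = alW2 M' hq hqM x := by
    show (alW2 M' hq hqM).symm x = _
    rw [alW2_symm]
  rw [this, alW2_involutive]

/-! ### orders of pull-backs from level `M'` and level `M' q` -/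

/-- `ord_{P∞} (α y) = ord_{P∞} y` -/
theorem infPlaceBar_ord_alpha2 (y : FF (M' * q)) :
    (infPlaceBar (M' * q * q)).ord (heckeAlphaBar Kbar (M' * q) q y) =
      (infPlaceBar (M' * q)).ord y :=
  infPlaceBar_ord_alpha (M' * q) q y

/-- `ord_{P∞} (β y) = q · ord_{P∞} y` -/
theorem infPlaceBar_ord_beta2 (y : FF (M' * q)) :
    (infPlaceBar (M' * q * q)).ord (heckeBetaBar Kbar (M' * q) q y) =
      (q : ℤ) * (infPlaceBar (M' * q)).ord y :=
  infPlaceBar_ord_beta (M' * q) q y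

/-- `ord_{P0} (α y) = q · ord_{P0} y` -/
theorem zeroPlace2_ord_alpha (y : FF (M' * q)) :
    (zeroPlace2 M' hq hqM).ord (heckeAlphaBar Kbar (M' * q) q y) =
      (q : ℤ) * (zeroPlaceBar (M' * q) q hq (dvd_mul_left q M')
        (dgj_not_sq_dvd_mul_self hq hqM)).ord y := by
  rw [zeroPlace2_ord_eq, al2_alpha_apply, infPlaceBar_ord_beta2, zeroPlaceBar_ord_eq]
  rfl

/-- `ord_{P0} (β y) = ord_{P0} y` -/
theorem zeroPlace2_ord_beta (y : FF (M' * q)) :
    (zeroPlace2 M' hq hqM).ord (heckeBetaBar Kbar (M' * q) q y) =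
      (zeroPlaceBar (M' * q) q hq (dvd_mul_left q M')
        (dgj_not_sq_dvd_mul_self hq hqM)).ord y := by
  rw [zeroPlace2_ord_eq, al2_beta_apply, infPlaceBar_ord_alpha2, zeroPlaceBar_ord_eq]
  rfl

/-- `ord_{P∞} (π₁ x) = ord_{∞'} x` -/
theorem infPlaceBar_ord_pi1 (x : FF M') :
    (infPlaceBar (M' * q * q)).ord
        (heckeAlphaBar Kbar (M' * q) q (heckeAlphaBar Kbar M' q x)) =
      (infPlaceBar M').ord x := by
  rw [infPlaceBar_ord_alpha2, infPlaceBar_ord_alpha]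

/-- `ord_{P∞} (π₂ x) = q · ord_{∞'} x` -/
theorem infPlaceBar_ord_pi2 (x : FF M') :
    (infPlaceBar (M' * q * q)).ord
        (heckeAlphaBar Kbar (M' * q) q (heckeBetaBar Kbar M' q x)) =
      (q : ℤ) * (infPlaceBar M').ord x := by
  rw [infPlaceBar_ord_alpha2, infPlaceBar_ord_beta]

/-- `ord_{P∞} (π₃ x) = q² · ord_{∞'} x` -/
theorem infPlaceBar_ord_pi3 (x : FF M') :
    (infPlaceBar (M' * q * q)).ord
        (heckeBetaBar Kbar (M' * q) q (heckeBetaBar Kbar M' q x)) =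
      (q : ℤ) * ((q : ℤ) * (infPlaceBar M').ord x) := by
  rw [infPlaceBar_ord_beta2, infPlaceBar_ord_beta]

/-- `ord_{P0} (π₁ x) = q² · ord_{∞'} x` -/
theorem zeroPlace2_ord_pi1 (x : FF M') :
    (zeroPlace2 M' hq hqM).ord
        (heckeAlphaBar Kbar (M' * q) q (heckeAlphaBar Kbar M' q x)) =
      (q : ℤ) * ((q : ℤ) * (infPlaceBar M').ord x) := by
  rw [zeroPlace2_ord_eq, alW2_pi1, infPlaceBar_ord_pi3]

/-- `ord_{P0} (π₂ x) = q · ord_{∞'} x` -/
theorem zeroPlace2_ord_pi2 (x : FF M') :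
    (zeroPlace2 M' hq hqM).ord
        (heckeAlphaBar Kbar (M' * q) q (heckeBetaBar Kbar M' q x)) =
      (q : ℤ) * (infPlaceBar M').ord x := by
  rw [zeroPlace2_ord_eq, alW2_pi2, infPlaceBar_ord_pi2]

/-- `ord_{P0} (π₃ x) = ord_{∞'} x` -/
theorem zeroPlace2_ord_pi3 (x : FF M') :
    (zeroPlace2 M' hq hqM).ord
        (heckeBetaBar Kbar (M' * q) q (heckeBetaBar Kbar M' q x)) =
      (infPlaceBar M').ord x := by
  rw [zeroPlace2_ord_eq, alW2_pi3, infPlaceBar_ord_pi1]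

/-- `ord_{P0} (j) = -q²` -/
theorem zeroPlace2_ord_jF :
    (zeroPlace2 M' hq hqM).ord (jF (M' * q * q)) = -((q : ℤ) * (q : ℤ)) := by
  haveI : NeZero (q * q) := ⟨Nat.mul_ne_zero (NeZero.ne q) (NeZero.ne q)⟩
  rw [zeroPlace2_ord_eq, alW2_jF, infPlaceBar_ord_jdF]
  push_cast
  ring

/-- **`P∞ ≠ P0`** at level `M' q²` -/
theorem infPlaceBar_ne_zeroPlace2 : infPlaceBar (M' * q * q) ≠ zeroPlace2 M' hq hqM := by
  intro h
  have h1 := zeroPlace2_ord_jF M' hq hqM
  rw [← h, infPlaceBar_ord_jF] at h1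
  have hq2 : (1 : ℤ) < q := by exact_mod_cast hq.one_lt
  nlinarith

end Place

section Inertia

variable (M' : ℕ) [NeZero M'] {q : ℕ} [NeZero q] [NeZero (M' * q)] [NeZero (M' * q * q)]
variable (hq : q.Prime) (hqM : ¬ q ∣ M')

/-- `w₂` commutes with the arithmetic Galois action -/
theorem inred_al2_comm (σ : Kbar ≃ₐ[ℚ] Kbar) (x : FF (M' * q * q)) :
    alW2 M' hq hqM (arithmeticGalois (modularFunctionFieldFull (M' * q * q)) σ • x)
      = arithmeticGalois (modularFunctionFieldFull (M' * q * q)) σ • alW2 M' hq hqM x :=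
  alW2_comm M' hq hqM
    ((arithmeticRingAut (modularFunctionFieldFull (M' * q * q)) σ :
      FF (M' * q * q) ≃+* FF (M' * q * q)) : FF (M' * q * q) →+* FF (M' * q * q))
    (fun c => ⟨σ c, arithmeticRingAut_algebraMap (modularFunctionFieldFull (M' * q * q)) σ c⟩)
    (fun d _ hd => inred_smul_jdF (M' * q * q) σ d hd) x

/-- `w₂` commutes with `galFF` -/
theorem alW2_galFF (σ : Kbar ≃ₐ[ℚ] Kbar) (x : FF (M' * q * q)) :
    alW2 M' hq hqM (galFF (M' * q * q) σ • x) = galFF (M' * q * q) σ • alW2 M' hq hqM x :=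
  inred_al2_comm M' hq hqM σ x

/-- `w₂` preserves the inertia-fixed functions -/
theorem alW2_isIFixed {A : ValuationSubring Kbar} {f : FF (M' * q * q)}
    (hf : IsIFixed (M' * q * q) A f) : IsIFixed (M' * q * q) A (alW2 M' hq hqM f) := by
  intro σ hσ
  rw [← alW2_galFF, hf σ hσ]

variable {A : ValuationSubring Kbar}
variable {Fk : IntermediateField (IsLocalRing.ResidueField A)
  (LaurentSeries (IsLocalRing.ResidueField A))}

/-- the constant reduction at the second valuation `v₀ = v_∞ ∘ w_{q²}` of level `M' q²` -/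
def inredZero2 (hq : q.Prime) (hqM : ¬ q ∣ M')
    (R : ConstRed A (IsLocalRing.residue A) (↥Fk) (FF (M' * q * q))) :
    ConstRed A (IsLocalRing.residue A) (↥Fk) (FF (M' * q * q)) :=
  inredComap R (alW2 M' hq hqM)

variable {M'} in
theorem mem_inredZero2_O (R : ConstRed A (IsLocalRing.residue A) (↥Fk) (FF (M' * q * q)))
    (x : FF (M' * q * q)) :
    x ∈ (inredZero2 M' hq hqM R).O ↔ alW2 M' hq hqM x ∈ R.O := Iff.rfl

variable {M'} in
theorem inredZero2_red (R : ConstRed A (IsLocalRing.residue A) (↥Fk) (FF (M' * q * q)))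
    (x : FF (M' * q * q)) (hx : x ∈ (inredZero2 M' hq hqM R).O) :
    (inredZero2 M' hq hqM R).red ⟨x, hx⟩ = R.red ⟨alW2 M' hq hqM x, hx⟩ := rfl

variable {R : ConstRed A (IsLocalRing.residue A) (↥Fk) (FF (M' * q * q))}

/-- **(K1)** at `v₀`, level `M' q²`: the inertia group is inertial for `R₀` -/
theorem inred_isInertial_zero2 (hR : IsSeriesRed R)
    (hfrac : HasPrimFrac A (modularFunctionFieldBar (M' * q * q)))
    (σ : Kbar ≃ₐ[ℚ] Kbar) (hσ : σ ∈ A.inertiaSubgroupIn ℚ) :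
    IsInertial (inredZero2 M' hq hqM R)
      (arithmeticGalois (modularFunctionFieldFull (M' * q * q)) σ) :=
  (inred_isInertial (modularFunctionFieldFull (M' * q * q)) hR hfrac σ hσ).inredComap
    (alW2 M' hq hqM) _ (inred_al2_comm M' hq hqM σ)

/-- the second valuation `v₀ = v_∞ ∘ w_{q²}` as a `VRed` into `k((X))` -/
def vredZero2 (hq : q.Prime) (hqM : ¬ q ∣ M') (A : ValuationSubring Kbar)
    (hA : A.LiesOverPrime q) :
    VRed A (FF (M' * q * q)) (LaurentSeries (IsLocalRing.ResidueField A)) :=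
  (vredInf (M' * q * q) q A hq hA).comap (alW2 M' hq hqM)

end Inertia

end Fermat.Agent.S36lib

end
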