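/-
Item 83 (S36), piece (W2) of block NV (helper23): THE MIDDLE EXPANSION IS `w₂`-INVARIANT.

Level `M = M' q²`, `N = M' q`, `q ∤ M'`; `α, β : F_N → F_M`, `α', β' : F_{M'} → F_N`,
`w₁ = alW1`, `w₂ = alW2` (`ALBridge.lean`).  A MIDDLE EXPANSION for `ζ` (`ζ^q = 1`) is a ring
hom `E : F_M → ℚ̄((X))` with `E ∘ α = coe` and `E ∘ β ∘ β' = twq ζ ∘ coe` (helper18's
`midExp_exists`).

* `midExp_beta` : `E (β Y) = (w₁ Y)(ζ X)` for all `Y ∈ F_N`;
* `nv_midExp_w2` : `E (w₂ x) = twq ζ (E' x)` for middle expansions `E` for `ζ`, `E'` for `ζ⁻¹`;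
* `nv_midExp_w2_order` : `(E (w₂ x)).order = (E' x).order`.
Complete proofs.
-/
import Mathlib
import Fermat.Agent.S36lib.MidExp
import Fermat.Agent.S36lib.FibreMid
import Fermat.Agent.S36lib.ZeroSide

set_option autoImplicit false
set_option linter.style.haveILetI false
set_option linter.unusedSectionVars false
set_option synthInstance.maxHeartbeats 400000

noncomputable section

namespace Fermat.Agent.S36lib

open AlgebraicCurve ModularCurve HahnSeries
open Fermat.Agent.S24lib Fermat.Agent.S34lib Fermat.Agent.S37lib Fermat.Agent.HeckeBar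
open Fermat.Agent.S35lib

section Twq

variable {R : Type*} [CommRing R]

/-- `x(v X)(u X) = x(u v X)` -/
theorem mxw_twq_twq (u v : Rˣ) (x : LaurentSeries R) : twq u (twq v x) = twq (u * v) x := by
  ext n
  rw [twq_coeff, twq_coeff, twq_coeff, ← mul_assoc, ← Units.val_mul, mul_zpow]

end Twq

section W2

variable (M' : ℕ) [NeZero M'] {q : ℕ} [NeZero q] [NeZero (M' * q)] [NeZero (M' * q * q)]
variable (hq : q.Prime) (hqM : ¬ q ∣ M')

/-- **`E (β Y) = (w₁ Y)(ζ X)`** for every middle expansion `E` for `ζ`, `ζ^q = 1`, and all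
`Y ∈ F_{M'q}`. -/
theorem midExp_beta (ζ : Kbarˣ) (hζ : ζ ^ q = 1) (E : FF (M' * q * q) →+* LaurentSeries Kbar)
    (hEα : ∀ Y : FF (M' * q), E (heckeAlphaBar Kbar (M' * q) q Y) = (Y : LaurentSeries Kbar))
    (hEβ : ∀ Y' : FF M', E (heckeBetaBar Kbar (M' * q) q (heckeBetaBar Kbar M' q Y'))
      = twq ζ (Y' : LaurentSeries Kbar))
    (Y : FF (M' * q)) :
    E (heckeBetaBar Kbar (M' * q) q Y) =
      twq ζ ((alW1 M' hq hqM Y : FF (M' * q)) : LaurentSeries Kbar) := by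
  have h : E.comp (heckeBetaBar Kbar (M' * q) q).toRingHom
      = ((twq ζ).comp (modularFunctionFieldBar (M' * q)).toSubfield.subtype).comp
          (alW1 M' hq hqM : FF (M' * q) →+* FF (M' * q)) := by
    apply fbm_ringHom_ext M' q hq
    · intro g
      show E (heckeBetaBar Kbar (M' * q) q (heckeAlphaBar Kbar M' q g))
        = twq ζ ((alW1 M' hq hqM (heckeAlphaBar Kbar M' q g) : FF (M' * q)) :
            LaurentSeries Kbar)
      rw [zs_beta_alpha, hEα, alW1_alpha', coe_heckeBetaBar, fbm_twq_qExpand ζ q hζ]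
    · intro g
      show E (heckeBetaBar Kbar (M' * q) q (heckeBetaBar Kbar M' q g))
        = twq ζ ((alW1 M' hq hqM (heckeBetaBar Kbar M' q g) : FF (M' * q)) :
            LaurentSeries Kbar)
      rw [hEβ, alW1_beta', coe_heckeAlphaBar]
  exact congrArg (fun φ : FF (M' * q) →+* LaurentSeries Kbar => φ Y) h

/-- **(W2): the middle expansion is `w₂`-invariant up to `X ↦ ζ X`.**  If `E` is a middle
expansion for `ζ` and `E'` a middle expansion for `ζ⁻¹` (`ζ^q = 1`), then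
`E (w₂ x) = (E' x)(ζ X)`. -/
theorem nv_midExp_w2 (ζ : Kbarˣ) (hζ : (ζ : Kbar) ^ q = 1)
    (E E' : FF (M' * q * q) →+* LaurentSeries Kbar)
    (hEα : ∀ Y : FF (M' * q), E (heckeAlphaBar Kbar (M' * q) q Y) = (Y : LaurentSeries Kbar))
    (hEβ : ∀ Y' : FF M', E (heckeBetaBar Kbar (M' * q) q (heckeBetaBar Kbar M' q Y'))
      = twq ζ (Y' : LaurentSeries Kbar))
    (hE'α : ∀ Y : FF (M' * q), E' (heckeAlphaBar Kbar (M' * q) q Y) = (Y : LaurentSeries Kbar))
    (hE'β : ∀ Y' : FF M', E' (heckeBetaBar Kbar (M' * q) q (heckeBetaBar Kbar M' q Y'))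
      = twq ζ⁻¹ (Y' : LaurentSeries Kbar))
    (x : FF (M' * q * q)) :
    E (alW2 M' hq hqM x) = twq ζ (E' x) := by
  have hζ' : ζ ^ q = 1 := Units.ext (by rw [Units.val_pow_eq_pow_val, hζ, Units.val_one])
  have h : E.comp (alW2 M' hq hqM : FF (M' * q * q) →+* FF (M' * q * q))
      = (twq ζ).comp E' := by
    apply midExp_unique M' q hq
    · intro Y
      show E (alW2 M' hq hqM (heckeAlphaBar Kbar (M' * q) q Y))
        = twq ζ (E' (heckeAlphaBar Kbar (M' * q) q Y))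
      rw [al2_alpha_apply, midExp_beta M' hq hqM ζ hζ' E hEα hEβ, alW1_involutive, hE'α]
    · intro Y'
      show E (alW2 M' hq hqM (heckeBetaBar Kbar (M' * q) q (heckeBetaBar Kbar M' q Y')))
        = twq ζ (E' (heckeBetaBar Kbar (M' * q) q (heckeBetaBar Kbar M' q Y')))
      rw [alW2_pi3, hEα, coe_heckeAlphaBar, hE'β, mxw_twq_twq, mul_inv_cancel, twq_one]
  exact congrArg (fun φ : FF (M' * q * q) →+* LaurentSeries Kbar => φ x) h

/-- the orders of `E ∘ w₂` and `E'` agree -/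
theorem nv_midExp_w2_order (ζ : Kbarˣ) (hζ : (ζ : Kbar) ^ q = 1)
    (E E' : FF (M' * q * q) →+* LaurentSeries Kbar)
    (hEα : ∀ Y : FF (M' * q), E (heckeAlphaBar Kbar (M' * q) q Y) = (Y : LaurentSeries Kbar))
    (hEβ : ∀ Y' : FF M', E (heckeBetaBar Kbar (M' * q) q (heckeBetaBar Kbar M' q Y'))
      = twq ζ (Y' : LaurentSeries Kbar))
    (hE'α : ∀ Y : FF (M' * q), E' (heckeAlphaBar Kbar (M' * q) q Y) = (Y : LaurentSeries Kbar))
    (hE'β : ∀ Y' : FF M', E' (heckeBetaBar Kbar (M' * q) q (heckeBetaBar Kbar M' q Y'))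
      = twq ζ⁻¹ (Y' : LaurentSeries Kbar))
    (x : FF (M' * q * q)) :
    (E (alW2 M' hq hqM x)).order = (E' x).order := by
  rw [nv_midExp_w2 M' hq hqM ζ hζ E E' hEα hEβ hE'α hE'β, fbm_order_twq]

end W2

end Fermat.Agent.S36lib

end
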