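/-
Item 83 (S36), block ABEL, piece A-1 part 2 (helper14): the product formulas of
`S36lib/NormProdQ2.lean` at the level `M' q²` with ALL inputs plugged in:

* the involutions `w₁ = alW1`, `w₂ = alW2` (helper23, `S36lib/ALBridge.lean`);
* the middle expansions (helper18, `S36lib/MidExpGal.lean`, `midExp_family`).

These are exactly the hypotheses `hP`, `hw` of helper29's `S36lib/NormRedQ2.lean`
(`normRedQ2_beta(_int)`, `normRedQ2_alpha(_int)`, `normRedQ2_alpha_zero_int`,
`normRedQ2_beta_zero_int`).  Helper lemmas are prefixed `npi_`.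
-/
import Mathlib
import Fermat.Agent.S36lib.NormProdQ2
import Fermat.Agent.S36lib.ALBridge
import Fermat.Agent.S36lib.MidExpGal

set_option autoImplicit false
set_option linter.style.haveILetI false
set_option linter.unusedSectionVars false

open scoped MatrixGroups
open ModularCurve AlgebraicCurve HahnSeries
open Fermat.Agent.S24lib Fermat.Agent.HeckeBar Fermat.Agent.S37lib Fermat.Agent.S34lib
open Fermat.Agent.S35lib

namespace Fermat.Agent.S36lib

section

variable (M' : ℕ) [NeZero M'] {q : ℕ} [NeZero q] [NeZero (M' * q)] [NeZero (M' * q * q)]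
variable (hq : q.Prime) (hqM : ¬ q ∣ M')

include hq in
/-- **`hP` of (i), (ii)**: the product formula of the norm along `β` at `∞`. -/
theorem npi_hP_beta (ζ : Kbarˣ) (hζ : IsPrimitiveRoot (ζ : Kbar) q) (x : FF (M' * q * q)) :
    qExpand Kbar q ((normAlong (heckeBetaBar Kbar (M' * q) q) x : FF (M' * q)) :
        LaurentSeries Kbar)
      = ∏ b ∈ Finset.range q, twq (ζ ^ b) (x : LaurentSeries Kbar) :=
  normProdQ2_beta' (M' * q) q hq (dvd_mul_left q M') ζ hζ x

/-- **`hw` of (ii)**: `w₁ (N_α x) = N_β (w₂ x)`. -/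
theorem npi_hw_alpha (x : FF (M' * q * q)) :
    alW1 M' hq hqM (normAlong (heckeAlphaBar Kbar (M' * q) q) x)
      = normAlong (heckeBetaBar Kbar (M' * q) q) (alW2 M' hq hqM x) :=
  nq2_norm_transport (heckeAlphaBar Kbar (M' * q) q) (heckeBetaBar Kbar (M' * q) q)
    (alW1 M' hq hqM) (alW2 M' hq hqM) (al2_alpha_apply M' hq hqM) x

/-- **`hw` of (iv)**: `w₁ (N_β x) = N_α (w₂ x)`. -/
theorem npi_hw_beta (x : FF (M' * q * q)) :
    alW1 M' hq hqM (normAlong (heckeBetaBar Kbar (M' * q) q) x)
      = normAlong (heckeAlphaBar Kbar (M' * q) q) (alW2 M' hq hqM x) :=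
  nq2_norm_transport (heckeBetaBar Kbar (M' * q) q) (heckeAlphaBar Kbar (M' * q) q)
    (alW1 M' hq hqM) (alW2 M' hq hqM) (al2_beta_apply M' hq hqM) x

include hq in
/-- **`hP` of (iii), (iv)** for ANY family of `q - 1` pairwise distinct ring homomorphisms which
are the expansion at `∞` on `α F_{M'q}` and different from it. -/
theorem npi_hP_alpha_of_family (Emid : Fin (q - 1) → (FF (M' * q * q) →+* LaurentSeries Kbar))
    (hα : ∀ i (Y : FF (M' * q)), Emid i (heckeAlphaBar Kbar (M' * q) q Y)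
      = (Y : LaurentSeries Kbar))
    (hinj : Function.Injective Emid)
    (hne : ∀ i, Emid i ≠ algebraMap (FF (M' * q * q)) (LaurentSeries Kbar))
    (x : FF (M' * q * q)) :
    ((normAlong (heckeAlphaBar Kbar (M' * q) q) x : FF (M' * q)) : LaurentSeries Kbar)
      = (x : LaurentSeries Kbar) * ∏ i, Emid i x := by
  have hcard : Fintype.card (Fin (q - 1)) + 1 = q := by
    rw [Fintype.card_fin]
    have := hq.pos
    omega
  refine normProdQ2_alpha' (M' * q) q hq (dvd_mul_left q M') hcard Emid hα hinj ?_ x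
  intro c
  by_contra hcon
  rw [not_exists] at hcon
  apply hne c
  refine RingHom.ext fun y => ?_
  have := hcon y
  rw [not_not] at this
  exact this

include hq hqM in
/-- **the packaged middle family with its product formula**: helper18's `midExp_family` together
with `hP` of (iii), (iv). -/
theorem npi_midExp_family_prod (ζ : Kbarˣ) (hζ : IsPrimitiveRoot (ζ : Kbar) q) :
    ∃ Emid : Fin (q - 1) → (FF (M' * q * q) →+* LaurentSeries Kbar),
      (∀ i (a : Kbar), Emid i (algebraMap Kbar (FF (M' * q * q)) a)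
        = algebraMap Kbar (LaurentSeries Kbar) a) ∧
      (∀ i (Y : FF (M' * q)), Emid i (heckeAlphaBar Kbar (M' * q) q Y)
        = (Y : LaurentSeries Kbar)) ∧
      (∀ i (Y' : FF M'), Emid i (heckeBetaBar Kbar (M' * q) q (heckeBetaBar Kbar M' q Y'))
        = twq (ζ ^ ((i : ℕ) + 1)) (Y' : LaurentSeries Kbar)) ∧
      Function.Injective Emid ∧
      (∀ i, Emid i ≠ algebraMap (FF (M' * q * q)) (LaurentSeries Kbar)) ∧
      (∀ x : FF (M' * q * q),
        ((normAlong (heckeAlphaBar Kbar (M' * q) q) x : FF (M' * q)) : LaurentSeries Kbar)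
          = (x : LaurentSeries Kbar) * ∏ i, Emid i x) ∧
      (∀ x : FF (M' * q * q),
        ((alW1 M' hq hqM (normAlong (heckeBetaBar Kbar (M' * q) q) x) : FF (M' * q)) :
            LaurentSeries Kbar)
          = ((alW2 M' hq hqM x : FF (M' * q * q)) : LaurentSeries Kbar)
            * ∏ i, Emid i (alW2 M' hq hqM x)) := by
  obtain ⟨Emid, hc, hα, hβ, hinj, hne⟩ := midExp_family M' q hq hqM ζ hζ
  refine ⟨Emid, hc, hα, hβ, hinj, hne, npi_hP_alpha_of_family M' hq Emid hα hinj hne, ?_⟩
  intro x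
  rw [npi_hw_beta M' hq hqM x]
  exact npi_hP_alpha_of_family M' hq Emid hα hinj hne (alW2 M' hq hqM x)

include hq in
/-- **(ii) at `0`**: `(w₁ N_α x)(X^q) = ∏_b (w₂ x)(ζ^b X)`. -/
theorem npi_alpha_zero (ζ : Kbarˣ) (hζ : IsPrimitiveRoot (ζ : Kbar) q) (x : FF (M' * q * q)) :
    qExpand Kbar q ((alW1 M' hq hqM (normAlong (heckeAlphaBar Kbar (M' * q) q) x) : FF (M' * q)) :
        LaurentSeries Kbar)
      = ∏ b ∈ Finset.range q,
          twq (ζ ^ b) ((alW2 M' hq hqM x : FF (M' * q * q)) : LaurentSeries Kbar) := by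
  rw [npi_hw_alpha M' hq hqM x]
  exact npi_hP_beta M' hq ζ hζ (alW2 M' hq hqM x)

end

end Fermat.Agent.S36lib
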