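import Mathlib
import Fermat.Agent.S36lib.NormRedGen
import Fermat.Agent.HeckeBar.BaseChange
import Fermat.Agent.S35lib.NormRedBiNF

/-!
# Item 83 (S36), piece A-2 (norm reductions at level `q²`), part 2 (helper29)

Series-level reduction of the two norms `F_{Nq} → F_N`, `q ∣ N`, at the four pairs of valuations.
Inputs (hypotheses): the product formulas of piece A-1 (helper14, `normProdQ2_beta`,
`normProdQ2_alpha`), the middle expansions `Emid` (helper18, MIDEXP), the involutions `w₁ = w_q`,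
`w₂ = w_{q²}` (helper23 `alQ` / helper14).  `↑ = coeffMap A.subtype`, `bar = coeffMap (residue A)`,
`Fr = coeffMap (frobenius k q)`.

* `normRedQ2_beta_int` **(i)**: `c · f = a / b` at `∞` ⇒ `c^q · Nm_β f = a' / b'`, `ā'/b̄' = Fr (ā/b̄)`;
* `normRedQ2_alpha_int` **(iii)**: `c₁ · f = a₁ / b₁` at `∞`, `cm i · Emid i f = am i / bm i` ⇒
  `(c₁ ∏ cm i) · Nm_α f = a' / b'`, `ā'/b̄' = (ā₁/b̄₁) · ∏ i, ām i / b̄m i`;
* `normRedQ2_alpha_zero_int` **(ii)**, `normRedQ2_beta_zero_int` **(iv)**: the same at `0`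
  (expansions `coe ∘ w₂`, `coe ∘ w₁`);
* `normRedQ2_beta`, `normRedQ2_alpha`: unit versions (`a`, `a'` primitive);
* `nrq_exists_frac`: every element of `F_M` is a quotient of two elements all of whose expansions
  are `NFInt`.
(`b`, `b'` are always primitive; in the `_int` forms the numerators are arbitrary integral series.)
-/

set_option autoImplicit false
set_option linter.style.haveILetI false
set_option linter.unusedSectionVars false

noncomputable section

namespace Fermat.Agent.S36lib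

open ModularCurve AlgebraicCurve HahnSeries
open Fermat.Agent.S24lib Fermat.Agent.HeckeBar Fermat.Agent.S37lib Fermat.Agent.GoodRed
open Fermat.Agent.S35lib

section Beta

variable (N q : ℕ) [NeZero N] [NeZero q] {A : ValuationSubring Kbar}
variable [ExpChar (IsLocalRing.ResidueField A) q]

/-- a root of unity of order `q` as a unit of `A` reducing to `1` -/
theorem nrq_exists_unit_root (hq : q.Prime) (ζ : Kbarˣ) (hζ : (ζ : Kbar) ^ q = 1) :
    ∃ ζA : Aˣ, Units.map (A.subtype : A →* Kbar) ζA = ζ ∧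
      Units.map (IsLocalRing.residue A : A →* IsLocalRing.ResidueField A) ζA = 1 := by
  have hmem : (ζ : Kbar) ∈ A := kf_mem_of_pow_eq_one A (NeZero.ne q) hζ
  have hζA : (⟨(ζ : Kbar), hmem⟩ : A) ^ q = 1 := Subtype.ext (by simpa using hζ)
  refine ⟨Units.ofPowEqOne (⟨(ζ : Kbar), hmem⟩ : A) q hζA (NeZero.ne q), Units.ext rfl, ?_⟩
  refine Units.ext ?_
  show IsLocalRing.residue A (⟨(ζ : Kbar), hmem⟩ : A) = 1
  apply kf_eq_one_of_pow_eq_one (ℓ := q)
  rw [← map_pow, hζA, map_one]

/-- **(i) the norm along `β` at `∞`**: if `c · f = a / b` with `b` primitive then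
`c^q · Nm_β f = a' / b'` with `a'`, `b'` series of `F_N` over `A`, `b'` primitive, and
`ā'/b̄' = Fr (ā/b̄)`. -/
theorem normRedQ2_beta_int (hq : q.Prime) (hlt : A.valuation (q : Kbar) < 1)
    (hP : ∀ (ζ : Kbarˣ), IsPrimitiveRoot (ζ : Kbar) q → ∀ x : FF (N * q),
      qExpand Kbar q ((normAlong (heckeBetaBar Kbar N q) x : FF N) : LaurentSeries Kbar)
        = ∏ b ∈ Finset.range q, twq (ζ ^ b) (x : LaurentSeries Kbar))
    (f : FF (N * q)) (c : Kbar) (a b : LaurentSeries A)
    (hb : coeffMap (IsLocalRing.residue A) b ≠ 0)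
    (h : HahnSeries.C c * (f : LaurentSeries Kbar) * coeffMap A.subtype b = coeffMap A.subtype a) :
    ∃ a' b' : LaurentSeries A,
      IsRep A (modularFunctionFieldBar N)
        (HahnSeries.C (c ^ q) *
          ((normAlong (heckeBetaBar Kbar N q) f : FF N) : LaurentSeries Kbar)) a' b' ∧
      coeffMap (IsLocalRing.residue A) a' / coeffMap (IsLocalRing.residue A) b'
        = coeffMap (frobenius (IsLocalRing.ResidueField A) q)
            (coeffMap (IsLocalRing.residue A) a / coeffMap (IsLocalRing.residue A) b) := by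
  classical
  have : Fact q.Prime := ⟨hq⟩
  have : CharP (IsLocalRing.ResidueField A) q := kf_charP_of_expChar _ hq
  have : NeZero ((q : ℕ) : ℚ) := ⟨by exact_mod_cast NeZero.ne q⟩
  obtain ⟨ζ0, hζ0⟩ := HasEnoughRootsOfUnity.exists_primitiveRoot (AlgebraicClosure ℚ) q
  have hunit : IsUnit ζ0 := hζ0.isUnit (NeZero.ne q)
  obtain ⟨ζ, rfl⟩ := hunit
  have hζq : (ζ : Kbar) ^ q = 1 := hζ0.pow_eq_one
  have hζq' : ζ ^ q = 1 := Units.ext (by rw [Units.val_pow_eq_pow_val, hζq, Units.val_one])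
  obtain ⟨ζA, hζA_map, hζA_res⟩ := nrq_exists_unit_root (A := A) q hq ζ hζq
  -- the expansions
  let E' : FF N →+* LaurentSeries Kbar := algebraMap (FF N) (LaurentSeries Kbar)
  let E : Fin q → (FF (N * q) →+* LaurentSeries Kbar) := fun i =>
    (twq (ζ ^ (i : ℕ))).comp (algebraMap (FF (N * q)) (LaurentSeries Kbar))
  have hE'c : ∀ c : Kbar, E' (algebraMap Kbar (FF N) c) = HahnSeries.C c := fun c =>
    coe_algebraMap_eq_C (F := modularFunctionFieldBar N) c
  have hprod : ∀ x : FF (N * q),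
      qExpand Kbar q (E' ((normAlong (heckeBetaBar Kbar N q)) x)) = ∏ i, E i x := by
    intro x
    have e : ∏ i, E i x = ∏ b ∈ Finset.range q, twq (ζ ^ b) (x : LaurentSeries Kbar) :=
      (Finset.prod_range (fun b => twq (ζ ^ b) (x : LaurentSeries Kbar))).symm
    rw [e]
    exact hP ζ hζ0 x
  -- the fraction
  obtain ⟨a₀, b₀, ha₀, hb₀, hb₀0, hna₀, hnb₀, hab₀⟩ :=
    isFracNF_of_mem (A := A) (N := N * q) nrc_halg f.2
  have hnf : ∀ {g : LaurentSeries Kbar}, NFInt A g → ∀ i : Fin q, NFInt A (twq (ζ ^ (i : ℕ)) g) :=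
    fun hg i => nrq_nfInt_twq nrc_halg (ζ ^ (i : ℕ)) (NeZero.ne q)
      (by rw [← pow_mul, mul_comm, pow_mul, hζq', one_pow]) hg
  haveI : Nonempty (Fin q) := ⟨⟨0, hq.pos⟩⟩
  obtain ⟨X, X', a', b', hX, hX', hb', hXX', hred⟩ :=
    nrq_general_int (A := A) hq hlt q E' hE'c E (normAlong (heckeBetaBar Kbar N q)) hprod
      f ⟨a₀, ha₀⟩ ⟨b₀, hb₀⟩ (fun h0 => hb₀0 (congrArg Subtype.val h0)) (Subtype.ext hab₀)
      (fun i => hnf hna₀ i) (fun i => hnf hnb₀ i)
      (fun _ => c) (fun i => twq (ζA ^ (i : ℕ)) a) (fun i => twq (ζA ^ (i : ℕ)) b)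
      (fun i => by
        rw [coeffMap_twq, map_pow, hζA_res, one_pow, twq_one]; exact hb)
      (fun i => by
        rw [coeffMap_twq, coeffMap_twq, map_pow, hζA_map]
        show HahnSeries.C c * twq (ζ ^ (i : ℕ)) (f : LaurentSeries Kbar) * _ = _
        rw [← h, map_mul, map_mul, nrc_twq_C])
  have hXa : ((X : FF N) : LaurentSeries Kbar) = coeffMap A.subtype a' := hX
  have hXb : ((X' : FF N) : LaurentSeries Kbar) = coeffMap A.subtype b' := hX'
  refine ⟨a', b', ⟨?_, ?_, hb', ?_⟩, ?_⟩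
  · rw [← hXa]; exact X.2
  · rw [← hXb]; exact X'.2
  · rw [← hXa, ← hXb, ← hXX', Finset.prod_const, Finset.card_univ, Fintype.card_fin,
      MulMemClass.coe_mul, MulMemClass.coe_mul,
      coe_algebraMap_eq_C (F := modularFunctionFieldBar N)]
  · apply qExpand_injective (R := IsLocalRing.ResidueField A) q
    rw [hred, ← Fermat.Agent.Kron.kc_pow_char]
    rw [Finset.prod_congr rfl (fun i _ => by
      rw [coeffMap_twq, coeffMap_twq, map_pow, hζA_res, one_pow, twq_one, twq_one] :
        ∀ i ∈ (Finset.univ : Finset (Fin q)),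
          coeffMap (IsLocalRing.residue A) (twq (ζA ^ (i : ℕ)) a) /
            coeffMap (IsLocalRing.residue A) (twq (ζA ^ (i : ℕ)) b)
          = coeffMap (IsLocalRing.residue A) a / coeffMap (IsLocalRing.residue A) b),
      Finset.prod_const, Finset.card_univ, Fintype.card_fin]


/-- **(i)**, unit version: if moreover `a` is primitive, so is `a'`. -/
theorem normRedQ2_beta (hq : q.Prime) (hlt : A.valuation (q : Kbar) < 1)
    (hP : ∀ (ζ : Kbarˣ), IsPrimitiveRoot (ζ : Kbar) q → ∀ x : FF (N * q),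
      qExpand Kbar q ((normAlong (heckeBetaBar Kbar N q) x : FF N) : LaurentSeries Kbar)
        = ∏ b ∈ Finset.range q, twq (ζ ^ b) (x : LaurentSeries Kbar))
    (f : FF (N * q)) (c : Kbar) (a b : LaurentSeries A)
    (ha : coeffMap (IsLocalRing.residue A) a ≠ 0) (hb : coeffMap (IsLocalRing.residue A) b ≠ 0)
    (h : HahnSeries.C c * (f : LaurentSeries Kbar) * coeffMap A.subtype b = coeffMap A.subtype a) :
    ∃ a' b' : LaurentSeries A,
      IsRep A (modularFunctionFieldBar N)
        (HahnSeries.C (c ^ q) *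
          ((normAlong (heckeBetaBar Kbar N q) f : FF N) : LaurentSeries Kbar)) a' b' ∧
      coeffMap (IsLocalRing.residue A) a' ≠ 0 ∧
      coeffMap (IsLocalRing.residue A) a' / coeffMap (IsLocalRing.residue A) b'
        = coeffMap (frobenius (IsLocalRing.ResidueField A) q)
            (coeffMap (IsLocalRing.residue A) a / coeffMap (IsLocalRing.residue A) b) := by
  obtain ⟨a', b', hrep, hred⟩ := normRedQ2_beta_int N q hq hlt hP f c a b hb h
  refine ⟨a', b', hrep, ?_, hred⟩
  intro h0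
  rw [h0, zero_div] at hred
  exact (map_ne_zero (coeffMap (frobenius (IsLocalRing.ResidueField A) q))).mpr
    (div_ne_zero ha hb) hred.symm

end Beta


section Frac

variable (M : ℕ) [NeZero M] (A : ValuationSubring Kbar)
variable {ι : Type*} (E : ι → (FF M →+* LaurentSeries Kbar))

/-- every element of `F_M` is a quotient of two elements all of whose expansions are `NFInt`,
for any family of expansions mapping constants to constants and the generators `j(q^d)` to
`NFInt` series. -/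
theorem nrq_exists_frac
    (hconst : ∀ i (c : Kbar), E i (algebraMap Kbar (FF M) c) = HahnSeries.C c)
    (hgen : ∀ i (d : ℕ) [NeZero d] (hd : d ∣ M), NFInt A (E i (jdF M d hd)))
    (f : FF M) :
    ∃ x x' : FF M, x' ≠ 0 ∧ (∀ i, NFInt A (E i x)) ∧ (∀ i, NFInt A (E i x')) ∧ f * x' = x := by
  induction f using FF_induction M with
  | hc c =>
    obtain ⟨y, hy0, hyA, hcy⟩ := exists_denom A c
    refine ⟨algebraMap Kbar (FF M) (c * y), algebraMap Kbar (FF M) y,
      (map_ne_zero _).mpr hy0, fun i => ?_, fun i => ?_, ?_⟩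
    · rw [hconst]; exact nfInt_C hcy (nrc_halg _)
    · rw [hconst]; exact nfInt_C hyA (nrc_halg _)
    · rw [← map_mul]
  | hj d hd =>
    refine ⟨jdF M d hd, 1, one_ne_zero, fun i => hgen i d hd, fun i => ?_, mul_one _⟩
    rw [map_one]; exact nfInt_one
  | hadd f g hf hg =>
    obtain ⟨x, x', hx', hx, hxx', hfx⟩ := hf
    obtain ⟨y, y', hy', hy, hyy', hgy⟩ := hg
    refine ⟨x * y' + y * x', x' * y', mul_ne_zero hx' hy', fun i => ?_, fun i => ?_, ?_⟩
    · rw [map_add, map_mul, map_mul]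
      exact ((hx i).mul (hyy' i)).add ((hy i).mul (hxx' i))
    · rw [map_mul]; exact (hxx' i).mul (hyy' i)
    · rw [← hfx, ← hgy]; ring
  | hneg f hf =>
    obtain ⟨x, x', hx', hx, hxx', hfx⟩ := hf
    refine ⟨-x, x', hx', fun i => ?_, hxx', by rw [← hfx]; ring⟩
    rw [map_neg]; exact (hx i).neg
  | hmul f g hf hg =>
    obtain ⟨x, x', hx', hx, hxx', hfx⟩ := hf
    obtain ⟨y, y', hy', hy, hyy', hgy⟩ := hg
    refine ⟨x * y, x' * y', mul_ne_zero hx' hy', fun i => ?_, fun i => ?_, ?_⟩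
    · rw [map_mul]; exact (hx i).mul (hy i)
    · rw [map_mul]; exact (hxx' i).mul (hyy' i)
    · rw [← hfx, ← hgy]; ring
  | hinv f hf =>
    obtain ⟨x, x', hx', hx, hxx', hfx⟩ := hf
    by_cases hx0 : x = 0
    · have hf0 : f = 0 := by
        rw [hx0] at hfx
        rcases mul_eq_zero.mp hfx with h | h
        · exact h
        · exact absurd h hx'
      rw [hf0, inv_zero]
      refine ⟨0, 1, one_ne_zero, fun i => ?_, fun i => ?_, by rw [zero_mul]⟩
      · rw [map_zero]; exact nfInt_zero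
      · rw [map_one]; exact nfInt_one
    · have hf0 : f ≠ 0 := by
        rintro rfl
        rw [zero_mul] at hfx
        exact hx0 hfx.symm
      refine ⟨x', x, hx0, hxx', hx, ?_⟩
      rw [← hfx]
      field_simp

/-- the generators have `NFInt` expansions at `∞` -/
theorem nrq_nfInt_jdF (d : ℕ) [NeZero d] (hd : d ∣ M) :
    NFInt A ((jdF M d hd : FF M) : LaurentSeries Kbar) := by
  rw [coe_jdF, coeffEmb_jqd_eq]
  exact nfInt_coeffMap_int _

end Frac

section Alpha

variable (N q : ℕ) [NeZero N] [NeZero q] {A : ValuationSubring Kbar}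
variable {ι : Type*} [Fintype ι]

/-- **(iii) the norm along `α` at `∞`**: `Emid i` the middle expansions, with
`Nm_α x = x · ∏ i, Emid i x`.  If `c₁ · f = a₁ / b₁` (at `∞`) and `cm i · Emid i f = am i / bm i`
with primitive denominators, then `(c₁ ∏ cm i) · Nm_α f = a' / b'` with `a'`, `b'` series of
`F_N` over `A`, `b'` primitive, and `ā'/b̄' = (ā₁/b̄₁) · ∏ i, ām i / b̄m i`. -/
theorem normRedQ2_alpha_int {ℓ : ℕ} (hℓ : ℓ.Prime) (hlt : A.valuation (ℓ : Kbar) < 1)
    (Emid : ι → (FF (N * q) →+* LaurentSeries Kbar))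
    (hconst : ∀ i (c : Kbar), Emid i (algebraMap Kbar (FF (N * q)) c) = HahnSeries.C c)
    (hgen : ∀ i (d : ℕ) [NeZero d] (hd : d ∣ N * q), NFInt A (Emid i (jdF (N * q) d hd)))
    (hP : ∀ x : FF (N * q),
      ((normAlong (heckeAlphaBar Kbar N q) x : FF N) : LaurentSeries Kbar)
        = (x : LaurentSeries Kbar) * ∏ i, Emid i x)
    (f : FF (N * q)) (c₁ : Kbar) (cm : ι → Kbar) (a₁ b₁ : LaurentSeries A)
    (am bm : ι → LaurentSeries A)
    (hb₁ : coeffMap (IsLocalRing.residue A) b₁ ≠ 0)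
    (hbm : ∀ i, coeffMap (IsLocalRing.residue A) (bm i) ≠ 0)
    (h₁ : HahnSeries.C c₁ * (f : LaurentSeries Kbar) * coeffMap A.subtype b₁ = coeffMap A.subtype a₁)
    (hm : ∀ i, HahnSeries.C (cm i) * Emid i f * coeffMap A.subtype (bm i)
      = coeffMap A.subtype (am i)) :
    ∃ a' b' : LaurentSeries A,
      IsRep A (modularFunctionFieldBar N)
        (HahnSeries.C (c₁ * ∏ i, cm i) *
          ((normAlong (heckeAlphaBar Kbar N q) f : FF N) : LaurentSeries Kbar)) a' b' ∧
      coeffMap (IsLocalRing.residue A) a' / coeffMap (IsLocalRing.residue A) b'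
        = (coeffMap (IsLocalRing.residue A) a₁ / coeffMap (IsLocalRing.residue A) b₁) *
          ∏ i, (coeffMap (IsLocalRing.residue A) (am i) /
            coeffMap (IsLocalRing.residue A) (bm i)) := by
  classical
  let E' : FF N →+* LaurentSeries Kbar := algebraMap (FF N) (LaurentSeries Kbar)
  let E : Option ι → (FF (N * q) →+* LaurentSeries Kbar) := fun i =>
    match i with
    | none => algebraMap (FF (N * q)) (LaurentSeries Kbar)
    | some i => Emid i
  have hE'c : ∀ c : Kbar, E' (algebraMap Kbar (FF N) c) = HahnSeries.C c := fun c =>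
    coe_algebraMap_eq_C (F := modularFunctionFieldBar N) c
  have hEc : ∀ i (c : Kbar), E i (algebraMap Kbar (FF (N * q)) c) = HahnSeries.C c := by
    intro i c
    cases i with
    | none => exact coe_algebraMap_eq_C (F := modularFunctionFieldBar (N * q)) c
    | some i => exact hconst i c
  have hEgen : ∀ i (d : ℕ) [NeZero d] (hd : d ∣ N * q), NFInt A (E i (jdF (N * q) d hd)) := by
    intro i d _ hd
    cases i with
    | none => exact nrq_nfInt_jdF (N * q) A d hd
    | some i => exact hgen i d hd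
  have hprod : ∀ x : FF (N * q),
      qExpand Kbar 1 (E' ((normAlong (heckeAlphaBar Kbar N q)) x)) = ∏ i, E i x := by
    intro x
    rw [qExpand_one_apply, Fintype.prod_option]
    exact hP x
  obtain ⟨x, x', hx'0, hx, hxx', hfx⟩ := nrq_exists_frac (N * q) A E hEc hEgen f
  obtain ⟨X, X', a', b', hX, hX', hb', hXX', hred⟩ :=
    nrq_general_int (A := A) hℓ hlt 1 E' hE'c E (normAlong (heckeAlphaBar Kbar N q)) hprod
      f x x' hx'0 hfx hx hxx'
      (fun i => match i with | none => c₁ | some i => cm i)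
      (fun i => match i with | none => a₁ | some i => am i)
      (fun i => match i with | none => b₁ | some i => bm i)
      (fun i => by cases i with | none => exact hb₁ | some i => exact hbm i)
      (fun i => by cases i with | none => exact h₁ | some i => exact hm i)
  have hXa : ((X : FF N) : LaurentSeries Kbar) = coeffMap A.subtype a' := hX
  have hXb : ((X' : FF N) : LaurentSeries Kbar) = coeffMap A.subtype b' := hX'
  rw [qExpand_one_apply, Fintype.prod_option] at hred
  rw [Fintype.prod_option] at hXX'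
  refine ⟨a', b', ⟨?_, ?_, hb', ?_⟩, hred⟩
  · rw [← hXa]; exact X.2
  · rw [← hXb]; exact X'.2
  · rw [← hXa, ← hXb, ← hXX', MulMemClass.coe_mul, MulMemClass.coe_mul,
      coe_algebraMap_eq_C (F := modularFunctionFieldBar N)]


/-- **(iii)**, unit version: if moreover all numerators are primitive, so is `a'`. -/
theorem normRedQ2_alpha {ℓ : ℕ} (hℓ : ℓ.Prime) (hlt : A.valuation (ℓ : Kbar) < 1)
    (Emid : ι → (FF (N * q) →+* LaurentSeries Kbar))
    (hconst : ∀ i (c : Kbar), Emid i (algebraMap Kbar (FF (N * q)) c) = HahnSeries.C c)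
    (hgen : ∀ i (d : ℕ) [NeZero d] (hd : d ∣ N * q), NFInt A (Emid i (jdF (N * q) d hd)))
    (hP : ∀ x : FF (N * q),
      ((normAlong (heckeAlphaBar Kbar N q) x : FF N) : LaurentSeries Kbar)
        = (x : LaurentSeries Kbar) * ∏ i, Emid i x)
    (f : FF (N * q)) (c₁ : Kbar) (cm : ι → Kbar) (a₁ b₁ : LaurentSeries A)
    (am bm : ι → LaurentSeries A)
    (ha₁ : coeffMap (IsLocalRing.residue A) a₁ ≠ 0) (hb₁ : coeffMap (IsLocalRing.residue A) b₁ ≠ 0)
    (ham : ∀ i, coeffMap (IsLocalRing.residue A) (am i) ≠ 0)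
    (hbm : ∀ i, coeffMap (IsLocalRing.residue A) (bm i) ≠ 0)
    (h₁ : HahnSeries.C c₁ * (f : LaurentSeries Kbar) * coeffMap A.subtype b₁ = coeffMap A.subtype a₁)
    (hm : ∀ i, HahnSeries.C (cm i) * Emid i f * coeffMap A.subtype (bm i)
      = coeffMap A.subtype (am i)) :
    ∃ a' b' : LaurentSeries A,
      IsRep A (modularFunctionFieldBar N)
        (HahnSeries.C (c₁ * ∏ i, cm i) *
          ((normAlong (heckeAlphaBar Kbar N q) f : FF N) : LaurentSeries Kbar)) a' b' ∧
      coeffMap (IsLocalRing.residue A) a' ≠ 0 ∧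
      coeffMap (IsLocalRing.residue A) a' / coeffMap (IsLocalRing.residue A) b'
        = (coeffMap (IsLocalRing.residue A) a₁ / coeffMap (IsLocalRing.residue A) b₁) *
          ∏ i, (coeffMap (IsLocalRing.residue A) (am i) /
            coeffMap (IsLocalRing.residue A) (bm i)) := by
  obtain ⟨a', b', hrep, hred⟩ :=
    normRedQ2_alpha_int N q hℓ hlt Emid hconst hgen hP f c₁ cm a₁ b₁ am bm hb₁ hbm h₁ hm
  refine ⟨a', b', hrep, ?_, hred⟩
  intro h0
  rw [h0, zero_div] at hred
  exact mul_ne_zero (div_ne_zero ha₁ hb₁)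
    (Finset.prod_ne_zero_iff.mpr fun i _ => div_ne_zero (ham i) (hbm i)) hred.symm

end Alpha

section Zero

variable (N q : ℕ) [NeZero N] [NeZero q] {A : ValuationSubring Kbar}
variable [ExpChar (IsLocalRing.ResidueField A) q]
variable {ι : Type*} [Fintype ι]

/-- **(ii) the norm along `α` at `0`** (expansions `coe ∘ w₂` at level `N q`, `coe ∘ w₁` at level
`N`): if `c · w₂ f = a / b` then `c^q · w₁ (Nm_α f) = a' / b'` with `ā'/b̄' = Fr (ā/b̄)`. -/
theorem normRedQ2_alpha_zero_int (hq : q.Prime) (hlt : A.valuation (q : Kbar) < 1)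
    (hP : ∀ (ζ : Kbarˣ), IsPrimitiveRoot (ζ : Kbar) q → ∀ x : FF (N * q),
      qExpand Kbar q ((normAlong (heckeBetaBar Kbar N q) x : FF N) : LaurentSeries Kbar)
        = ∏ b ∈ Finset.range q, twq (ζ ^ b) (x : LaurentSeries Kbar))
    (w₁ : FF N ≃ₐ[Kbar] FF N) (w₂ : FF (N * q) ≃ₐ[Kbar] FF (N * q))
    (hw : ∀ x, w₁ (normAlong (heckeAlphaBar Kbar N q) x) = normAlong (heckeBetaBar Kbar N q) (w₂ x))
    (f : FF (N * q)) (c : Kbar) (a b : LaurentSeries A)
    (hb : coeffMap (IsLocalRing.residue A) b ≠ 0)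
    (h : HahnSeries.C c * ((w₂ f : FF (N * q)) : LaurentSeries Kbar) * coeffMap A.subtype b
      = coeffMap A.subtype a) :
    ∃ a' b' : LaurentSeries A,
      IsRep A (modularFunctionFieldBar N)
        (HahnSeries.C (c ^ q) *
          ((w₁ (normAlong (heckeAlphaBar Kbar N q) f) : FF N) : LaurentSeries Kbar)) a' b' ∧
      coeffMap (IsLocalRing.residue A) a' / coeffMap (IsLocalRing.residue A) b'
        = coeffMap (frobenius (IsLocalRing.ResidueField A) q)
            (coeffMap (IsLocalRing.residue A) a / coeffMap (IsLocalRing.residue A) b) := by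
  rw [hw f]
  exact normRedQ2_beta_int N q hq hlt hP (w₂ f) c a b hb h

omit [ExpChar (IsLocalRing.ResidueField A) q] in
/-- **(iv) the norm along `β` at `0`**: if `c₁ · w₂ f = a₁ / b₁` and
`cm i · Emid i (w₂ f) = am i / bm i` then `(c₁ ∏ cm i) · w₁ (Nm_β f) = a' / b'` with
`ā'/b̄' = (ā₁/b̄₁) · ∏ i, ām i / b̄m i`. -/
theorem normRedQ2_beta_zero_int {ℓ : ℕ} (hℓ : ℓ.Prime) (hlt : A.valuation (ℓ : Kbar) < 1)
    (Emid : ι → (FF (N * q) →+* LaurentSeries Kbar))
    (hconst : ∀ i (c : Kbar), Emid i (algebraMap Kbar (FF (N * q)) c) = HahnSeries.C c)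
    (hgen : ∀ i (d : ℕ) [NeZero d] (hd : d ∣ N * q), NFInt A (Emid i (jdF (N * q) d hd)))
    (hP : ∀ x : FF (N * q),
      ((normAlong (heckeAlphaBar Kbar N q) x : FF N) : LaurentSeries Kbar)
        = (x : LaurentSeries Kbar) * ∏ i, Emid i x)
    (w₁ : FF N ≃ₐ[Kbar] FF N) (w₂ : FF (N * q) ≃ₐ[Kbar] FF (N * q))
    (hw : ∀ x, w₁ (normAlong (heckeBetaBar Kbar N q) x) = normAlong (heckeAlphaBar Kbar N q) (w₂ x))
    (f : FF (N * q)) (c₁ : Kbar) (cm : ι → Kbar) (a₁ b₁ : LaurentSeries A)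
    (am bm : ι → LaurentSeries A)
    (hb₁ : coeffMap (IsLocalRing.residue A) b₁ ≠ 0)
    (hbm : ∀ i, coeffMap (IsLocalRing.residue A) (bm i) ≠ 0)
    (h₁ : HahnSeries.C c₁ * ((w₂ f : FF (N * q)) : LaurentSeries Kbar) * coeffMap A.subtype b₁
      = coeffMap A.subtype a₁)
    (hm : ∀ i, HahnSeries.C (cm i) * Emid i (w₂ f) * coeffMap A.subtype (bm i)
      = coeffMap A.subtype (am i)) :
    ∃ a' b' : LaurentSeries A,
      IsRep A (modularFunctionFieldBar N)
        (HahnSeries.C (c₁ * ∏ i, cm i) *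
          ((w₁ (normAlong (heckeBetaBar Kbar N q) f) : FF N) : LaurentSeries Kbar)) a' b' ∧
      coeffMap (IsLocalRing.residue A) a' / coeffMap (IsLocalRing.residue A) b'
        = (coeffMap (IsLocalRing.residue A) a₁ / coeffMap (IsLocalRing.residue A) b₁) *
          ∏ i, (coeffMap (IsLocalRing.residue A) (am i) /
            coeffMap (IsLocalRing.residue A) (bm i)) := by
  rw [hw f]
  exact normRedQ2_alpha_int N q hℓ hlt Emid hconst hgen hP (w₂ f) c₁ cm a₁ b₁ am bm hb₁ hbm h₁ hm

end Zero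

end Fermat.Agent.S36lib
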