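import Mathlib
import Fermat.Agent.S36lib.K0Unram
import Fermat.Agent.S36lib.ZetaIndep
import Fermat.Agent.S36lib.NormProdInst
import Fermat.Agent.S36lib.NormRedQ2
import Fermat.Agent.S36lib.Setup
import Fermat.Agent.S34lib.InertiaRed

/-!
# Item 83 (S36), piece NV (norm-valuation formulas) (helper29)

`↑ = coeffMap A.subtype`, `bar = coeffMap (residue A)`, `Fr = coeffMap (frobenius k q)`.

* `nv_exists_inertia_root`: the inertia group of `A ∣ q` is transitive on the primitive `q`-th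
  roots of unity;
* `IsGaussRed A E c f r`: `c · E f = a / b` with `a`, `b` PRIMITIVE series over `A` and
  `r = ā / b̄` (so `f` has valuation `- v(c)` for the Gauss valuation of the expansion `E`, and
  `c · f` reduces to `r ≠ 0`); `IsGaussUnit A E c f := ∃ r, IsGaussRed A E c f r`;
  API: `mul`, `inv`, `pow`, `unit_mul`, `compare` (two constants for the same `f` differ by a unit
  of `A`), `val_eq`, `unique`, `isGaussRed_const`, `map_decomp`, `map_inertia`;
* the four formulas, `N = M' q`, `q ∤ M'`, `A ∣ q`, expansions `E_∞ = algebraMap`,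
  `E_0 = algebraMap ∘ w` (`w = alW2` resp. `alW1`), `E_mid` ANY middle expansion (helper18):
  - `nv_beta_inf` : `E_∞ (c f) ~ r ⇒ E_∞ (c^q · N_β f) ~ Fr r`;
  - `nv_alpha_zero` : `E_0 (c f) ~ r ⇒ E_0 (c^q · N_α f) ~ Fr r`;
  - `nv_alpha_inf` : `f` inertia-fixed, `E_∞ (c₁ f) ~ r₁`, `E_mid (cm f) ~ rm`, `cm` inertia-fixed
    ⇒ `E_∞ (c₁ cm^(q-1) · N_α f) ~ r₁ · rm^(q-1)`;  `nv_alpha_inf_unit` (any `cm`, no `r`);
  - `nv_beta_zero`, `nv_beta_zero_unit`: the same for `N_β` at `0`;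
* `nv_mid_w2`: the middle valuation is invariant under `w₂ = alW2`:
  `E_ζ ∘ w₂ = twq ζ ∘ E_{ζ⁻¹}`.
-/

set_option autoImplicit false
set_option linter.style.haveILetI false
set_option linter.unusedSectionVars false

noncomputable section

open scoped MatrixGroups
open ModularCurve AlgebraicCurve HahnSeries
open Fermat.Agent.S24lib Fermat.Agent.HeckeBar Fermat.Agent.S37lib Fermat.Agent.S34lib
open Fermat.Agent.S35lib Fermat.Agent.GoodRed

namespace Fermat.Agent.S36lib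

section Transitive

variable (A : ValuationSubring (AlgebraicClosure ℚ))

/-- **the inertia group acts transitively on the primitive `q`-th roots of unity** (`ℚ(ζ_q)` is
totally ramified at `q`) -/
theorem nv_exists_inertia_root (q : ℕ) (hq : q.Prime) (hA : A.LiesOverPrime q)
    (ζ ζ' : AlgebraicClosure ℚ) (hζ : IsPrimitiveRoot ζ q) (hζ' : IsPrimitiveRoot ζ' q) :
    ∃ σ ∈ A.inertiaSubgroupIn ℚ, σ ζ = ζ' := by
  classical
  haveI : NeZero q := ⟨hq.ne_zero⟩
  set I := A.inertiaSubgroupIn ℚ with hI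
  -- the orbit of `ζ`
  let T : Finset (AlgebraicClosure ℚ) :=
    (primitiveRoots q (AlgebraicClosure ℚ)).filter fun η => ∃ σ ∈ I, σ ζ = η
  have hTmem : ∀ η, η ∈ T ↔ ∃ σ ∈ I, σ ζ = η := by
    intro η
    constructor
    · intro h
      exact (Finset.mem_filter.mp h).2
    · rintro ⟨σ, hσ, rfl⟩
      refine Finset.mem_filter.mpr ⟨?_, σ, hσ, rfl⟩
      rw [mem_primitiveRoots hq.pos]
      exact hζ.map_of_injective (f := (σ : AlgebraicClosure ℚ →+* AlgebraicClosure ℚ)) σ.injective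
  have hTprim : ∀ η ∈ T, IsPrimitiveRoot η q := fun η h =>
    (mem_primitiveRoots hq.pos).mp (Finset.mem_filter.mp h).1
  have hζT : ζ ∈ T := (hTmem ζ).mpr ⟨1, I.one_mem, rfl⟩
  -- the product over the orbit
  set y : AlgebraicClosure ℚ := ∏ η ∈ T, (η - 1) with hy
  have hy0 : y ≠ 0 := by
    rw [hy, Finset.prod_ne_zero_iff]
    intro η hη
    exact sub_ne_zero.mpr ((hTprim η hη).ne_one hq.one_lt)
  have hfix : ∀ τ ∈ I, τ y = y := by
    intro τ hτ
    rw [hy, map_prod]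
    refine Finset.prod_bij (fun η _ => τ η) ?_ ?_ ?_ ?_
    · intro η hη
      obtain ⟨σ, hσ, rfl⟩ := (hTmem η).mp hη
      exact (hTmem _).mpr ⟨τ * σ, I.mul_mem hτ hσ, rfl⟩
    · intro η _ η' _ h
      exact τ.injective h
    · intro η hη
      obtain ⟨σ, hσ, rfl⟩ := (hTmem η).mp hη
      refine ⟨(τ⁻¹ * σ) ζ, (hTmem _).mpr ⟨τ⁻¹ * σ, I.mul_mem (I.inv_mem hτ) hσ, rfl⟩, ?_⟩
      show τ ((τ⁻¹ * σ) ζ) = σ ζ
      rw [AlgEquiv.mul_apply]
      exact τ.apply_symm_apply _
    · intro η _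
      rw [map_sub, map_one]
  obtain ⟨n, hn⟩ := k0_val_eq_zpow A q hq hA y hfix hy0
  -- the valuation of `y`
  have hvη : ∀ η ∈ T, A.valuation (η - 1) ^ (q - 1) = A.valuation (q : AlgebraicClosure ℚ) :=
    fun η hη => zi_val_zeta_sub_one_pow A.valuation hq (hTprim η hη)
  have hvy : A.valuation y ^ (q - 1) = A.valuation (q : AlgebraicClosure ℚ) ^ T.card := by
    rw [hy, map_prod, ← Finset.prod_pow, Finset.prod_congr rfl hvη, Finset.prod_const]
  have hq0 : 0 < A.valuation (q : AlgebraicClosure ℚ) :=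
    zero_lt_iff.mpr (k0_val_q_ne_zero A q hq)
  have hq1 := k0_val_q_lt_one A q hA
  have hcard : (n * ((q - 1 : ℕ) : ℤ)) = ((T.card : ℕ) : ℤ) := by
    have h1 : A.valuation (q : AlgebraicClosure ℚ) ^ (n * ((q - 1 : ℕ) : ℤ)) =
        A.valuation (q : AlgebraicClosure ℚ) ^ ((T.card : ℕ) : ℤ) := by
      rw [zpow_mul, ← hn, zpow_natCast, hvy, zpow_natCast]
    exact (zpow_right_strictAnti₀ hq0 hq1).injective h1
  have hTle : T.card ≤ q - 1 := by
    calc T.card ≤ (primitiveRoots q (AlgebraicClosure ℚ)).card := Finset.card_filter_le _ _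
      _ = q.totient := hζ.card_primitiveRoots
      _ = q - 1 := Nat.totient_prime hq
  have hTpos : 0 < T.card := Finset.card_pos.mpr ⟨ζ, hζT⟩
  have hTeq : T.card = q - 1 := by
    have hn1 : 1 ≤ n := by
      by_contra h
      have h0 : n ≤ 0 := by omega
      have h2 : n * ((q - 1 : ℕ) : ℤ) ≤ 0 :=
        mul_nonpos_of_nonpos_of_nonneg h0 (by positivity)
      omega
    have h3 : ((q - 1 : ℕ) : ℤ) ≤ n * ((q - 1 : ℕ) : ℤ) :=
      le_mul_of_one_le_left (by positivity) hn1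
    omega
  have hTall : T = primitiveRoots q (AlgebraicClosure ℚ) := by
    apply Finset.eq_of_subset_of_card_le (Finset.filter_subset _ _)
    rw [hζ.card_primitiveRoots, Nat.totient_prime hq, hTeq]
  have hζ'T : ζ' ∈ T := by
    rw [hTall]
    exact (mem_primitiveRoots hq.pos).mpr hζ'
  exact (hTmem ζ').mp hζ'T

end Transitive

section Gauss

variable {K : Type*} [Field K] (A : ValuationSubring K) {F : Type*} [Field F]

/-- `c · E f` is a unit for the Gauss valuation of the expansion `E`, with reduction `r`: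
`c · E f = a / b` with `a`, `b` primitive series over `A`, and `r = ā / b̄`. -/
def IsGaussRed (E : F →+* LaurentSeries K) (c : K) (f : F)
    (r : LaurentSeries (IsLocalRing.ResidueField A)) : Prop :=
  ∃ a b : LaurentSeries A, coeffMap (IsLocalRing.residue A) a ≠ 0 ∧
    coeffMap (IsLocalRing.residue A) b ≠ 0 ∧
    HahnSeries.C c * E f * coeffMap A.subtype b = coeffMap A.subtype a ∧
    coeffMap (IsLocalRing.residue A) a / coeffMap (IsLocalRing.residue A) b = r

/-- `f` has valuation `- v(c)` for the Gauss valuation of the expansion `E`. -/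
def IsGaussUnit (E : F →+* LaurentSeries K) (c : K) (f : F) : Prop :=
  ∃ r, IsGaussRed A E c f r

variable {A} {E : F →+* LaurentSeries K} {c c' : K} {f f' : F}
  {r r' : LaurentSeries (IsLocalRing.ResidueField A)}

theorem IsGaussRed.isGaussUnit (h : IsGaussRed A E c f r) : IsGaussUnit A E c f := ⟨r, h⟩

theorem IsGaussRed.red_ne_zero (h : IsGaussRed A E c f r) : r ≠ 0 := by
  obtain ⟨a, b, ha, hb, -, rfl⟩ := h
  exact div_ne_zero ha hb

theorem nv_coe_ne_zero {a : LaurentSeries A} (ha : coeffMap (IsLocalRing.residue A) a ≠ 0) :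
    coeffMap A.subtype a ≠ 0 := by
  intro h0
  have : a = 0 := coeffMap_valSubtype_injective A (by rw [h0, map_zero])
  exact ha (by rw [this, map_zero])

theorem IsGaussRed.ne_zero (h : IsGaussRed A E c f r) : c ≠ 0 ∧ f ≠ 0 := by
  obtain ⟨a, b, ha, hb, h, -⟩ := h
  have ha0 := nv_coe_ne_zero ha
  constructor
  · rintro rfl
    rw [map_zero, zero_mul, zero_mul] at h
    exact ha0 h.symm
  · rintro rfl
    rw [map_zero, mul_zero, zero_mul] at h
    exact ha0 h.symm

theorem IsGaussRed.one : IsGaussRed A E 1 1 1 := by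
  refine ⟨1, 1, ?_, ?_, ?_, ?_⟩
  · rw [map_one]; exact one_ne_zero
  · rw [map_one]; exact one_ne_zero
  · rw [map_one, map_one, map_one, one_mul, one_mul]
  · rw [map_one, div_one]

theorem IsGaussRed.mul (h : IsGaussRed A E c f r) (h' : IsGaussRed A E c' f' r') :
    IsGaussRed A E (c * c') (f * f') (r * r') := by
  obtain ⟨a, b, ha, hb, h, rfl⟩ := h
  obtain ⟨a', b', ha', hb', h', rfl⟩ := h'
  refine ⟨a * a', b * b', ?_, ?_, ?_, ?_⟩
  · rw [map_mul]; exact mul_ne_zero ha ha'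
  · rw [map_mul]; exact mul_ne_zero hb hb'
  · rw [map_mul, map_mul, map_mul, map_mul, ← h, ← h']; ring
  · rw [map_mul, map_mul, mul_div_mul_comm]

theorem IsGaussRed.inv (h : IsGaussRed A E c f r) : IsGaussRed A E c⁻¹ f⁻¹ r⁻¹ := by
  obtain ⟨hc, hf⟩ := h.ne_zero
  obtain ⟨a, b, ha, hb, h, rfl⟩ := h
  refine ⟨b, a, hb, ha, ?_, (inv_div _ _).symm⟩
  have hE : E f ≠ 0 := (map_ne_zero E).mpr hf
  have hC : (HahnSeries.C c : LaurentSeries K) ≠ 0 :=
    (map_ne_zero (HahnSeries.C : K →+* LaurentSeries K)).mpr hc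
  rw [← h, map_inv₀, map_inv₀]
  rw [show (HahnSeries.C c : LaurentSeries K)⁻¹ * (E f)⁻¹ *
      (HahnSeries.C c * E f * coeffMap A.subtype b)
      = ((HahnSeries.C c : LaurentSeries K)⁻¹ * HahnSeries.C c) * ((E f)⁻¹ * E f) *
        coeffMap A.subtype b by ring, inv_mul_cancel₀ hC, inv_mul_cancel₀ hE, one_mul, one_mul]

theorem IsGaussRed.pow (h : IsGaussRed A E c f r) (n : ℕ) :
    IsGaussRed A E (c ^ n) (f ^ n) (r ^ n) := by
  induction n with
  | zero => simpa using (IsGaussRed.one : IsGaussRed A E 1 1 1)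
  | succ n ih => rw [pow_succ, pow_succ, pow_succ]; exact ih.mul h

theorem IsGaussRed.div (h : IsGaussRed A E c f r) (h' : IsGaussRed A E c' f' r') :
    IsGaussRed A E (c / c') (f / f') (r / r') := by
  rw [div_eq_mul_inv, div_eq_mul_inv, div_eq_mul_inv]
  exact h.mul h'.inv

/-- scaling by a unit of `A` -/
theorem IsGaussRed.unit_mul (h : IsGaussRed A E c f r) {u : K} (hu : u ∈ A) (hu' : u⁻¹ ∈ A)
    (hu0 : u ≠ 0) :
    IsGaussRed A E (u * c) f (HahnSeries.C (IsLocalRing.residue A ⟨u, hu⟩) * r) := by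
  obtain ⟨a, b, ha, hb, h, rfl⟩ := h
  have hunit : IsUnit (⟨u, hu⟩ : A) :=
    IsUnit.of_mul_eq_one (⟨u⁻¹, hu'⟩ : A) (Subtype.ext (mul_inv_cancel₀ hu0))
  have hres : IsLocalRing.residue A ⟨u, hu⟩ ≠ 0 := (hunit.map (IsLocalRing.residue A)).ne_zero
  have hCres : (HahnSeries.C (IsLocalRing.residue A ⟨u, hu⟩) :
      LaurentSeries (IsLocalRing.ResidueField A)) ≠ 0 :=
    (map_ne_zero (HahnSeries.C : _ →+* LaurentSeries (IsLocalRing.ResidueField A))).mpr hres
  refine ⟨HahnSeries.C (⟨u, hu⟩ : A) * a, b, ?_, hb, ?_, ?_⟩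
  · rw [map_mul, coeffMap_C]
    exact mul_ne_zero hCres ha
  · rw [map_mul (coeffMap A.subtype), coeffMap_C, ← h, map_mul]
    simp only [ValuationSubring.subtype_apply]
    ring
  · rw [map_mul, coeffMap_C, mul_div_assoc]

/-- two constants for the same function differ by a unit of `A` -/
theorem IsGaussRed.compare (h : IsGaussRed A E c f r) (h' : IsGaussRed A E c' f r') :
    ∃ hu : c' / c ∈ A, (c' / c)⁻¹ ∈ A ∧
      r' = HahnSeries.C (IsLocalRing.residue A ⟨c' / c, hu⟩) * r := by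
  obtain ⟨hc, hf⟩ := h.ne_zero
  obtain ⟨a, b, ha, hb, h, rfl⟩ := h
  obtain ⟨a', b', ha', hb', h', rfl⟩ := h'
  have hE : E f ≠ 0 := (map_ne_zero E).mpr hf
  have hC : (HahnSeries.C c : LaurentSeries K) ≠ 0 :=
    (map_ne_zero (HahnSeries.C : K →+* LaurentSeries K)).mpr hc
  have key : HahnSeries.C (c' / c) * coeffMap A.subtype (a * b') = coeffMap A.subtype (a' * b) := by
    rw [map_mul, map_mul]
    calc HahnSeries.C (c' / c) * (coeffMap A.subtype a * coeffMap A.subtype b')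
        = (HahnSeries.C (c' / c) * HahnSeries.C c) *
            (E f * coeffMap A.subtype b * coeffMap A.subtype b') := by rw [← h]; ring
      _ = HahnSeries.C c' * (E f * coeffMap A.subtype b * coeffMap A.subtype b') := by
          rw [← map_mul, div_mul_cancel₀ _ hc]
      _ = coeffMap A.subtype a' * coeffMap A.subtype b := by rw [← h']; ring
  obtain ⟨hu, hu', -, hred⟩ := nrq_content A (by rw [map_mul]; exact mul_ne_zero ha hb')
    (by rw [map_mul]; exact mul_ne_zero ha' hb) key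
  refine ⟨hu, hu', ?_⟩
  rw [map_mul, map_mul] at hred
  rw [div_eq_iff hb']
  have h5 : HahnSeries.C (IsLocalRing.residue A ⟨c' / c, hu⟩) *
      (coeffMap (IsLocalRing.residue A) a / coeffMap (IsLocalRing.residue A) b) *
        coeffMap (IsLocalRing.residue A) b'
      = (HahnSeries.C (IsLocalRing.residue A ⟨c' / c, hu⟩) *
        (coeffMap (IsLocalRing.residue A) a * coeffMap (IsLocalRing.residue A) b')) /
          coeffMap (IsLocalRing.residue A) b := by ring
  rw [h5, hred, mul_div_assoc, div_self hb, mul_one]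

theorem IsGaussRed.val_eq (h : IsGaussRed A E c f r) (h' : IsGaussRed A E c' f r') :
    A.valuation c' = A.valuation c := by
  obtain ⟨hc, -⟩ := h.ne_zero
  obtain ⟨hu, hu', -⟩ := h.compare h'
  have h1 : A.valuation (c' / c) ≤ 1 := (A.valuation_le_one_iff _).mpr hu
  have h2 : A.valuation (c' / c)⁻¹ ≤ 1 := (A.valuation_le_one_iff _).mpr hu'
  have h3 : A.valuation (c' / c) = 1 := by
    rw [map_inv₀] at h2
    have hne : A.valuation (c' / c) ≠ 0 := by
      intro h0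
      rw [h0, inv_zero] at h2
      rw [h0] at h1
      rw [map_eq_zero] at h0
      have : (c' / c)⁻¹ = 0 := by rw [h0, inv_zero]
      exact absurd h0 (by
        obtain ⟨hc', -⟩ := h'.ne_zero
        exact div_ne_zero hc' hc)
    exact le_antisymm h1 ((inv_le_one₀ (zero_lt_iff.mpr hne)).mp h2)
  have h4 : c' = c' / c * c := by field_simp
  rw [h4, map_mul, h3, one_mul]

theorem IsGaussRed.unique (h : IsGaussRed A E c f r) (h' : IsGaussRed A E c f r') : r' = r := by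
  obtain ⟨hc, -⟩ := h.ne_zero
  obtain ⟨hu, -, hr⟩ := h.compare h'
  have h1 : (⟨c / c, hu⟩ : A) = 1 := Subtype.ext (div_self hc)
  rw [hr, h1, map_one, map_one, one_mul]

/-- the value of a unit of valuation `v(c)` may replace `c` -/
theorem IsGaussUnit.of_val_eq (h : IsGaussUnit A E c f) (hc' : c' ≠ 0)
    (hv : A.valuation c' = A.valuation c) : IsGaussUnit A E c' f := by
  obtain ⟨r, h⟩ := h
  obtain ⟨hc, -⟩ := h.ne_zero
  have h1 : A.valuation (c' / c) = 1 := by
    rw [map_div₀, hv, div_self]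
    rw [Ne, map_eq_zero]; exact hc
  have hu : c' / c ∈ A := (A.valuation_le_one_iff _).mp h1.le
  have hu' : (c' / c)⁻¹ ∈ A := by
    apply (A.valuation_le_one_iff _).mp
    rw [map_inv₀, h1, inv_one]
  have := h.unit_mul hu hu' (div_ne_zero hc' hc)
  rw [div_mul_cancel₀ _ hc] at this
  exact ⟨_, this⟩

theorem IsGaussUnit.val_eq (h : IsGaussUnit A E c f) (h' : IsGaussUnit A E c' f) :
    A.valuation c' = A.valuation c := by
  obtain ⟨r, h⟩ := h
  obtain ⟨r', h'⟩ := h'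
  exact h.val_eq h'

theorem IsGaussUnit.mul (h : IsGaussUnit A E c f) (h' : IsGaussUnit A E c' f') :
    IsGaussUnit A E (c * c') (f * f') := by
  obtain ⟨r, h⟩ := h
  obtain ⟨r', h'⟩ := h'
  exact ⟨_, h.mul h'⟩

theorem IsGaussUnit.inv (h : IsGaussUnit A E c f) : IsGaussUnit A E c⁻¹ f⁻¹ := by
  obtain ⟨r, h⟩ := h
  exact ⟨_, h.inv⟩

theorem IsGaussUnit.pow (h : IsGaussUnit A E c f) (n : ℕ) : IsGaussUnit A E (c ^ n) (f ^ n) := by
  obtain ⟨r, h⟩ := h
  exact ⟨_, h.pow n⟩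

/-- constants -/
theorem isGaussRed_const [Algebra K F] (hE : ∀ c : K, E (algebraMap K F c) = HahnSeries.C c)
    {c : K} (hc : c ≠ 0) : IsGaussRed A E c⁻¹ (algebraMap K F c) 1 := by
  refine ⟨1, 1, ?_, ?_, ?_, ?_⟩
  · rw [map_one]; exact one_ne_zero
  · rw [map_one]; exact one_ne_zero
  · rw [hE, map_one, mul_one, ← map_mul, inv_mul_cancel₀ hc, map_one]
  · rw [map_one, div_one]

/-- composition with a ring homomorphism -/
theorem isGaussRed_comp {F' : Type*} [Field F'] (w : F' →+* F) {f' : F'} :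
    IsGaussRed A (E.comp w) c f' r ↔ IsGaussRed A E c (w f') r := Iff.rfl

end Gauss

section Galois

variable {A : ValuationSubring Kbar}

local notation "kA" => IsLocalRing.ResidueField A

/-- transport along an element of the decomposition group -/
theorem IsGaussRed.map_decomp (g : A.decompositionSubgroup ℚ)
    {F F' : Type*} [Field F] [Field F'] {E : F →+* LaurentSeries Kbar}
    {E' : F' →+* LaurentSeries Kbar} {c : Kbar} {f : F} {f' : F'} {r : LaurentSeries kA}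
    (hτ : E' f' = coeffMap (((g : Kbar ≃ₐ[ℚ] Kbar) : Kbar ≃ₐ[ℚ] Kbar) : Kbar →+* Kbar) (E f))
    (h : IsGaussRed A E c f r) :
    IsGaussRed A E' ((g : Kbar ≃ₐ[ℚ] Kbar) c) f'
      (coeffMap ((decompResAut A g : kA ≃+* kA) : kA →+* kA) r) := by
  obtain ⟨a, b, ha, hb, h, rfl⟩ := h
  refine ⟨coeffMap (decompHom A g) a, coeffMap (decompHom A g) b, ?_, ?_, ?_, ?_⟩
  · rw [coeffMap_residue_decompHom]
    exact (map_ne_zero _).mpr ha
  · rw [coeffMap_residue_decompHom]
    exact (map_ne_zero _).mpr hb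
  · rw [coeffMap_subtype_decompHom, coeffMap_subtype_decompHom, ← h, hτ, map_mul, map_mul,
      coeffMap_C]
    rfl
  · rw [coeffMap_residue_decompHom, coeffMap_residue_decompHom, map_div₀]

/-- transport along an element of the inertia group: the reduction does not change -/
theorem IsGaussRed.map_inertia {σ : Kbar ≃ₐ[ℚ] Kbar} (hσ : σ ∈ A.inertiaSubgroupIn ℚ)
    {F F' : Type*} [Field F] [Field F'] {E : F →+* LaurentSeries Kbar}
    {E' : F' →+* LaurentSeries Kbar} {c : Kbar} {f : F} {f' : F'} {r : LaurentSeries kA}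
    (hτ : E' f' = coeffMap (σ : Kbar →+* Kbar) (E f))
    (h : IsGaussRed A E c f r) : IsGaussRed A E' (σ c) f' r := by
  obtain ⟨g, hg, rfl⟩ := hσ
  have h1 : decompResAut A g = 1 := hg
  have h2 := h.map_decomp g (E' := E') (f' := f') hτ
  rw [h1] at h2
  have h3 : coeffMap (((1 : kA ≃+* kA) : kA ≃+* kA) : kA →+* kA) r = r := coeffMap_id _
  rw [h3] at h2
  exact h2

/-- the valuation is invariant under the inertia group -/
theorem nv_val_inertia {σ : Kbar ≃ₐ[ℚ] Kbar} (hσ : σ ∈ A.inertiaSubgroupIn ℚ) (c : Kbar) :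
    A.valuation (σ c) = A.valuation c := by
  haveI : Algebra.IsAlgebraic ℚ Kbar := AlgebraicClosure.isAlgebraic ℚ
  obtain ⟨g, hg, rfl⟩ := hσ
  by_cases hc : c = 0
  · rw [hc, map_zero]
  have hσc : (g : Kbar ≃ₐ[ℚ] Kbar) c ≠ 0 := (map_ne_zero _).mpr hc
  have h1 : (g : Kbar ≃ₐ[ℚ] Kbar) c / c ∈ A := inred_decomp_div_mem A g hc
  have h2 : ((g⁻¹ : A.decompositionSubgroup ℚ) : Kbar ≃ₐ[ℚ] Kbar) ((g : Kbar ≃ₐ[ℚ] Kbar) c) /
      (g : Kbar ≃ₐ[ℚ] Kbar) c ∈ A := inred_decomp_div_mem A g⁻¹ hσc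
  have h3 : ((g⁻¹ : A.decompositionSubgroup ℚ) : Kbar ≃ₐ[ℚ] Kbar) ((g : Kbar ≃ₐ[ℚ] Kbar) c) = c := by
    show ((g : Kbar ≃ₐ[ℚ] Kbar)⁻¹) ((g : Kbar ≃ₐ[ℚ] Kbar) c) = c
    exact (g : Kbar ≃ₐ[ℚ] Kbar).symm_apply_apply c
  rw [h3] at h2
  have hv0 : A.valuation c ≠ 0 := by rw [Ne, map_eq_zero]; exact hc
  have hv0' : A.valuation ((g : Kbar ≃ₐ[ℚ] Kbar) c) ≠ 0 := by rw [Ne, map_eq_zero]; exact hσc
  have l1 := (A.valuation_le_one_iff _).mpr h1
  have l2 := (A.valuation_le_one_iff _).mpr h2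
  rw [map_div₀, div_le_one₀ (zero_lt_iff.mpr hv0)] at l1
  rw [map_div₀, div_le_one₀ (zero_lt_iff.mpr hv0')] at l2
  exact le_antisymm l1 l2

end Galois

section Formulas

variable (M' : ℕ) [NeZero M'] {q : ℕ} [NeZero q] [NeZero (M' * q)] [NeZero (M' * q * q)]
variable (hq : q.Prime) (hqM : ¬ q ∣ M')
variable {A : ValuationSubring Kbar} (hA : A.LiesOverPrime q)

local notation "kA" => IsLocalRing.ResidueField A

section Frob

variable [ExpChar (IsLocalRing.ResidueField A) q]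

include hq hA in
/-- **(NV-β∞)** the norm along `β` at `∞`: `v^N_∞ (N_β f) = q · v_∞ f`, reduction `Fr`. -/
theorem nv_beta_inf {f : FF (M' * q * q)} {c : Kbar} {r : LaurentSeries kA}
    (h : IsGaussRed A (algebraMap (FF (M' * q * q)) (LaurentSeries Kbar)) c f r) :
    IsGaussRed A (algebraMap (FF (M' * q)) (LaurentSeries Kbar)) (c ^ q)
      (normAlong (heckeBetaBar Kbar (M' * q) q) f) (coeffMap (frobenius kA q) r) := by
  obtain ⟨a, b, ha, hb, h, rfl⟩ := h
  obtain ⟨a', b', hrep, ha', hred⟩ :=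
    normRedQ2_beta (M' * q) q hq (A.mem_nonunits_iff.mp hA) (npi_hP_beta M' hq) f c a b ha hb h
  exact ⟨a', b', ha', hrep.2.2.1, hrep.2.2.2, hred⟩

include hA in
/-- **(NV-α0)** the norm along `α` at `0`: `v^N_0 (N_α f) = q · v_0 f`, reduction `Fr`. -/
theorem nv_alpha_zero {f : FF (M' * q * q)} {c : Kbar} {r : LaurentSeries kA}
    (h : IsGaussRed A ((algebraMap (FF (M' * q * q)) (LaurentSeries Kbar)).comp
      (alW2 M' hq hqM).toAlgHom.toRingHom) c f r) :
    IsGaussRed A ((algebraMap (FF (M' * q)) (LaurentSeries Kbar)).comp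
      (alW1 M' hq hqM).toAlgHom.toRingHom) (c ^ q)
      (normAlong (heckeAlphaBar Kbar (M' * q) q) f) (coeffMap (frobenius kA q) r) := by
  obtain ⟨a, b, ha, hb, h, rfl⟩ := h
  obtain ⟨a', b', hrep, hred⟩ :=
    normRedQ2_alpha_zero_int (M' * q) q hq (A.mem_nonunits_iff.mp hA) (npi_hP_beta M' hq)
      (alW1 M' hq hqM) (alW2 M' hq hqM) (npi_hw_alpha M' hq hqM) f c a b hb h
  refine ⟨a', b', ?_, hrep.2.2.1, hrep.2.2.2, hred⟩
  intro h0
  rw [h0, zero_div] at hred
  exact (map_ne_zero (coeffMap (frobenius kA q))).mpr (div_ne_zero ha hb) hred.symm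

end Frob

include hq in
/-- a middle expansion maps constants to constants -/
theorem nv_mid_const (E : FF (M' * q * q) →+* LaurentSeries Kbar)
    (hEα : ∀ Y : FF (M' * q), E (heckeAlphaBar Kbar (M' * q) q Y) = (Y : LaurentSeries Kbar))
    (c : Kbar) : E (algebraMap Kbar (FF (M' * q * q)) c) = HahnSeries.C c := by
  have h1 := hEα (algebraMap Kbar (FF (M' * q)) c)
  rw [AlgHom.commutes] at h1
  rw [h1]
  exact coe_algebraMap_eq_C (F := modularFunctionFieldBar (M' * q)) c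

include hq in
/-- the generators have `NFInt` middle expansions -/
theorem nv_mid_nfInt (ζ : Kbarˣ) (hζ : (ζ : Kbar) ^ q = 1)
    (E : FF (M' * q * q) →+* LaurentSeries Kbar)
    (hEα : ∀ Y : FF (M' * q), E (heckeAlphaBar Kbar (M' * q) q Y) = (Y : LaurentSeries Kbar))
    (hEβ : ∀ Y' : FF M', E (heckeBetaBar Kbar (M' * q) q (heckeBetaBar Kbar M' q Y'))
      = twq ζ (Y' : LaurentSeries Kbar))
    (d : ℕ) [NeZero d] (hd : d ∣ M' * q * q) : NFInt A (E (jdF (M' * q * q) d hd)) := by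
  rcases midExp_jdF M' q hq ζ E hEα hEβ d hd with ⟨hDN, h⟩ | ⟨e', inst, he', -, h⟩
  · rw [h]
    exact nrq_nfInt_jdF (M' * q) A d hDN
  · haveI := inst
    rw [h]
    refine nrq_nfInt_twq nrc_halg ζ hq.ne_zero (Units.ext ?_) (nrq_nfInt_jdF M' A e' he')
    rw [Units.val_pow_eq_pow_val, hζ, Units.val_one]

include hq hqM hA in
/-- **(NV-α∞)**, general form: the constants at the `q - 1` middle expansions are the conjugates
`τ i cm` under inertia elements. -/
theorem nv_alpha_inf_aux (ζ : Kbarˣ) (hζ : IsPrimitiveRoot (ζ : Kbar) q)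
    (E : FF (M' * q * q) →+* LaurentSeries Kbar)
    (hEα : ∀ Y : FF (M' * q), E (heckeAlphaBar Kbar (M' * q) q Y) = (Y : LaurentSeries Kbar))
    (hEβ : ∀ Y' : FF M', E (heckeBetaBar Kbar (M' * q) q (heckeBetaBar Kbar M' q Y'))
      = twq ζ (Y' : LaurentSeries Kbar))
    {f : FF (M' * q * q)} (hf : IsIFixed (M' * q * q) A f)
    {c₁ cm : Kbar} {r₁ rm : LaurentSeries kA}
    (h₁ : IsGaussRed A (algebraMap (FF (M' * q * q)) (LaurentSeries Kbar)) c₁ f r₁)
    (hm : IsGaussRed A E cm f rm) :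
    ∃ τ : Fin (q - 1) → (Kbar ≃ₐ[ℚ] Kbar), (∀ i, τ i ∈ A.inertiaSubgroupIn ℚ) ∧
      IsGaussRed A (algebraMap (FF (M' * q)) (LaurentSeries Kbar)) (c₁ * ∏ i, τ i cm)
        (normAlong (heckeAlphaBar Kbar (M' * q) q) f) (r₁ * rm ^ (q - 1)) := by
  classical
  obtain ⟨Emid, -, hα, hβ, -, -, hPα, -⟩ := npi_midExp_family_prod M' hq hqM ζ hζ
  have hprim : ∀ i : Fin (q - 1), IsPrimitiveRoot ((ζ ^ ((i : ℕ) + 1) : Kbarˣ) : Kbar) q := by
    intro i
    rw [Units.val_pow_eq_pow_val]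
    apply hζ.pow_of_coprime
    apply Nat.Coprime.symm
    rw [Nat.Prime.coprime_iff_not_dvd hq]
    intro hdvd
    have h1 := Nat.le_of_dvd (Nat.succ_pos _) hdvd
    have h2 := i.2
    omega
  have hex : ∀ i : Fin (q - 1), ∃ σ ∈ A.inertiaSubgroupIn ℚ,
      σ (ζ : Kbar) = ((ζ ^ ((i : ℕ) + 1) : Kbarˣ) : Kbar) :=
    fun i => nv_exists_inertia_root A q hq hA _ _ hζ (hprim i)
  choose τ hτI hτζ using hex
  refine ⟨τ, hτI, ?_⟩
  have hmid : ∀ i, IsGaussRed A (Emid i) (τ i cm) f rm := by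
    intro i
    refine hm.map_inertia (hτI i) ?_
    have h1 := midExp_gal M' q hq (τ i) ζ (ζ ^ ((i : ℕ) + 1)) (hτζ i).symm E (Emid i) hEα hEβ
      (hα i) (hβ i) f
    have h2 : arithmeticGalois (modularFunctionFieldFull (M' * q * q)) (τ i) • f = f :=
      hf (τ i) (hτI i)
    rw [h2] at h1
    exact h1
  obtain ⟨a₁, b₁, ha₁, hb₁, he₁, rfl⟩ := h₁
  choose am bm ham hbm hem hrm using hmid
  obtain ⟨a', b', hrep, ha', hred⟩ := normRedQ2_alpha (M' * q) q hq (A.mem_nonunits_iff.mp hA)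
    Emid (fun i => nv_mid_const M' hq (Emid i) (hα i))
    (fun i d _ hd => nv_mid_nfInt M' hq (ζ ^ ((i : ℕ) + 1)) ((hprim i).pow_eq_one)
      (Emid i) (hα i) (hβ i) d hd)
    hPα f c₁ (fun i => τ i cm) a₁ b₁ am bm ha₁ hb₁ ham hbm he₁ hem
  refine ⟨a', b', ha', hrep.2.2.1, hrep.2.2.2, ?_⟩
  rw [hred, Finset.prod_congr rfl (fun i _ => hrm i), Finset.prod_const, Finset.card_univ,
    Fintype.card_fin]

include hq hqM hA in
/-- **(NV-α∞)**, reduction form (`cm` inertia-fixed, e.g. `cm = 1`):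
`red^N_∞ (c₁ cm^(q-1) N_α f) = red_∞ (c₁ f) · red_mid (cm f)^(q-1)`. -/
theorem nv_alpha_inf (ζ : Kbarˣ) (hζ : IsPrimitiveRoot (ζ : Kbar) q)
    (E : FF (M' * q * q) →+* LaurentSeries Kbar)
    (hEα : ∀ Y : FF (M' * q), E (heckeAlphaBar Kbar (M' * q) q Y) = (Y : LaurentSeries Kbar))
    (hEβ : ∀ Y' : FF M', E (heckeBetaBar Kbar (M' * q) q (heckeBetaBar Kbar M' q Y'))
      = twq ζ (Y' : LaurentSeries Kbar))
    {f : FF (M' * q * q)} (hf : IsIFixed (M' * q * q) A f)
    {c₁ cm : Kbar} (hcm : ∀ σ ∈ A.inertiaSubgroupIn ℚ, σ cm = cm) {r₁ rm : LaurentSeries kA}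
    (h₁ : IsGaussRed A (algebraMap (FF (M' * q * q)) (LaurentSeries Kbar)) c₁ f r₁)
    (hm : IsGaussRed A E cm f rm) :
    IsGaussRed A (algebraMap (FF (M' * q)) (LaurentSeries Kbar)) (c₁ * cm ^ (q - 1))
      (normAlong (heckeAlphaBar Kbar (M' * q) q) f) (r₁ * rm ^ (q - 1)) := by
  obtain ⟨τ, hτ, h⟩ := nv_alpha_inf_aux M' hq hqM hA ζ hζ E hEα hEβ hf h₁ hm
  rw [Finset.prod_congr rfl (fun i _ => hcm (τ i) (hτ i)), Finset.prod_const, Finset.card_univ,
    Fintype.card_fin] at h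
  exact h

include hq hqM hA in
/-- **(NV-α∞)**, valuation form: `v^N_∞ (N_α f) = v_∞ f + (q - 1) v_mid f`. -/
theorem nv_alpha_inf_unit (ζ : Kbarˣ) (hζ : IsPrimitiveRoot (ζ : Kbar) q)
    (E : FF (M' * q * q) →+* LaurentSeries Kbar)
    (hEα : ∀ Y : FF (M' * q), E (heckeAlphaBar Kbar (M' * q) q Y) = (Y : LaurentSeries Kbar))
    (hEβ : ∀ Y' : FF M', E (heckeBetaBar Kbar (M' * q) q (heckeBetaBar Kbar M' q Y'))
      = twq ζ (Y' : LaurentSeries Kbar))
    {f : FF (M' * q * q)} (hf : IsIFixed (M' * q * q) A f) {c₁ cm : Kbar}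
    (h₁ : IsGaussUnit A (algebraMap (FF (M' * q * q)) (LaurentSeries Kbar)) c₁ f)
    (hm : IsGaussUnit A E cm f) :
    IsGaussUnit A (algebraMap (FF (M' * q)) (LaurentSeries Kbar)) (c₁ * cm ^ (q - 1))
      (normAlong (heckeAlphaBar Kbar (M' * q) q) f) := by
  obtain ⟨r₁, h₁⟩ := h₁
  obtain ⟨rm, hm⟩ := hm
  obtain ⟨τ, hτ, h⟩ := nv_alpha_inf_aux M' hq hqM hA ζ hζ E hEα hEβ hf h₁ hm
  refine h.isGaussUnit.of_val_eq (mul_ne_zero h₁.ne_zero.1 (pow_ne_zero _ hm.ne_zero.1)) ?_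
  rw [map_mul, map_mul, map_prod, map_pow,
    Finset.prod_congr rfl (fun i _ => nv_val_inertia (hτ i) cm), Finset.prod_const,
    Finset.card_univ, Fintype.card_fin]

end Formulas

end Fermat.Agent.S36lib
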