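import Mathlib
import Fermat.Agent.S36lib.NormVal
import Fermat.Agent.S36lib.FixedF0

/-!
# Item 83 (S36), piece NV/COMP, part 2 (helper29): value groups, the norm at `0`, the congruences

* `vg_series`, `vg_frac`, `vg_inf`: **(VG)** an inertia-fixed `f ≠ 0` of level `L` has
  `IsGaussUnit A (algebraMap _ _) (q^j) f` for some `j : ℤ` (the value group of `v_∞` on
  `F0(L)` is `ℤ · v(q)`); `vg_exists`: every `f ≠ 0` has a Gauss constant for every expansion
  with `NFInt` generators;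
* `IsGaussRed.twq`: transport along `X ↦ ζ X`, `ζ^q = 1`;
* `nv_mid_w2`: the middle valuation is `w₂`-invariant on inertia-fixed elements (from helper23's
  `E_ζ ∘ w₂ = twq ζ ∘ E_{ζ⁻¹}`, a hypothesis here);
* `nv_beta_zero_aux`, `nv_beta_zero`, `nv_beta_zero_unit`: **(NV-β0)**;
* `nv_comp`: **(COMP)** the congruences.
-/

set_option autoImplicit false
set_option linter.style.haveILetI false
set_option linter.unusedSectionVars false

noncomputable section

open scoped MatrixGroups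
open ModularCurve AlgebraicCurve HahnSeries
open Fermat.Agent.S24lib Fermat.Agent.HeckeBar Fermat.Agent.S37lib Fermat.Agent.S34lib
open Fermat.Agent.S35lib Fermat.Agent.GoodRed

namespace Fermat.Agent.S36lib

section VG

variable {A : ValuationSubring Kbar} {q : ℕ}

/-- a quotient of two scaled primitive series is a Gauss unit -/
theorem isGaussUnit_of_frac {F : Type*} [Field F] {E : F →+* LaurentSeries Kbar} {z : F}
    {e e' : Kbar} (he : e ≠ 0) {y y' : LaurentSeries A}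
    (hy : coeffMap (IsLocalRing.residue A) y ≠ 0) (hy' : coeffMap (IsLocalRing.residue A) y' ≠ 0)
    (h : E z * (HahnSeries.C e' * coeffMap A.subtype y') = HahnSeries.C e * coeffMap A.subtype y) :
    IsGaussUnit A E (e' / e) z := by
  refine ⟨_, y, y', hy, hy', ?_, rfl⟩
  have hC : (HahnSeries.C e : LaurentSeries Kbar) ≠ 0 :=
    (map_ne_zero (HahnSeries.C : Kbar →+* LaurentSeries Kbar)).mpr he
  rw [map_div₀]
  calc HahnSeries.C e' / HahnSeries.C e * E z * coeffMap A.subtype y'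
      = (HahnSeries.C e)⁻¹ * (E z * (HahnSeries.C e' * coeffMap A.subtype y')) := by ring
    _ = coeffMap A.subtype y := by rw [h, ← mul_assoc, inv_mul_cancel₀ hC, one_mul]

/-- **(VG), series form**: a nonzero `NFInt` series with inertia-fixed coefficients is `q^j` times
a primitive series. -/
theorem vg_series (hq : q.Prime) (hA : A.LiesOverPrime q) {g : LaurentSeries Kbar}
    (hg : NFInt A g) (hg0 : g ≠ 0)
    (hfix : ∀ σ ∈ A.inertiaSubgroupIn ℚ, ∀ n, σ (g.coeff n) = g.coeff n) :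
    ∃ (j : ℤ) (y : LaurentSeries A), coeffMap (IsLocalRing.residue A) y ≠ 0 ∧
      g = HahnSeries.C ((q : Kbar) ^ j) * coeffMap A.subtype y := by
  obtain ⟨c, g₀, hc, -, hprim, -, he⟩ := hg.exists_primitive hq (A.mem_nonunits_iff.mp hA) hg0
  obtain ⟨n, hn⟩ : ∃ n, IsLocalRing.residue A (g₀.coeff n) ≠ 0 := by
    by_contra hcon
    push Not at hcon
    apply hprim
    ext n
    rw [coeffMap_coeff, hcon n, HahnSeries.coeff_zero]
  have hunit : IsUnit (g₀.coeff n) := (IsLocalRing.residue_ne_zero_iff_isUnit _).mp hn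
  have hv1 : A.valuation ((g₀.coeff n : A) : Kbar) = 1 := (A.valuation_eq_one_iff _).mp hunit
  have hgn : g.coeff n = c * ((g₀.coeff n : A) : Kbar) := by
    rw [he, HahnSeries.C_mul_eq_smul, HahnSeries.coeff_smul, coeffMap_coeff]
    rfl
  have hgn0 : g.coeff n ≠ 0 := by
    rw [hgn]
    refine mul_ne_zero hc ?_
    intro h0
    rw [h0, map_zero] at hv1
    exact zero_ne_one hv1
  obtain ⟨j, hj⟩ := k0_val_eq_zpow A q hq hA (g.coeff n) (fun σ hσ => hfix σ hσ n) hgn0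
  have hq0 : (q : Kbar) ≠ 0 := by exact_mod_cast hq.ne_zero
  have hqj0 : (q : Kbar) ^ j ≠ 0 := zpow_ne_zero _ hq0
  have hvc : A.valuation c = A.valuation ((q : Kbar) ^ j) := by
    rw [map_zpow₀, ← hj, hgn, map_mul, hv1, mul_one]
  have hu1 : A.valuation (c / (q : Kbar) ^ j) = 1 := by
    rw [map_div₀, hvc, div_self]
    rw [Ne, map_eq_zero]
    exact hqj0
  have huA : c / (q : Kbar) ^ j ∈ A := (A.valuation_le_one_iff _).mp hu1.le
  have hunit' : IsUnit (⟨c / (q : Kbar) ^ j, huA⟩ : A) := (A.valuation_eq_one_iff _).mpr hu1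
  have hres : IsLocalRing.residue A ⟨c / (q : Kbar) ^ j, huA⟩ ≠ 0 :=
    (hunit'.map (IsLocalRing.residue A)).ne_zero
  refine ⟨j, HahnSeries.C (⟨c / (q : Kbar) ^ j, huA⟩ : A) * g₀, ?_, ?_⟩
  · rw [map_mul, coeffMap_C]
    exact mul_ne_zero ((map_ne_zero
      (HahnSeries.C : _ →+* LaurentSeries (IsLocalRing.ResidueField A))).mpr hres) hprim
  · rw [map_mul, coeffMap_C, ← mul_assoc, ← map_mul, he]
    congr 2
    show c = (q : Kbar) ^ j * (c / (q : Kbar) ^ j)
    rw [mul_div_cancel₀ _ hqj0]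

variable (A) in
/-- every element of `F0(L)` is a quotient of two elements of `F0(L)` with `NFInt` expansions -/
theorem vg_frac (L : ℕ) [NeZero L] {z : FF L} (hz : z ∈ f0Field A L) :
    ∃ x x' : FF L, x' ≠ 0 ∧ z * x' = x ∧ x ∈ f0Field A L ∧ x' ∈ f0Field A L ∧
      NFInt A (algebraMap (FF L) (LaurentSeries Kbar) x) ∧
      NFInt A (algebraMap (FF L) (LaurentSeries Kbar) x') := by
  induction hz using IntermediateField.adjoin_induction with
  | mem x hx =>
    obtain ⟨d, hd, hne, rfl⟩ := hx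
    haveI := hne
    refine ⟨jdF L d hd, 1, one_ne_zero, mul_one _, jdF_mem_f0Field A L d hd, one_mem _,
      nrq_nfInt_jdF L A d hd, ?_⟩
    rw [map_one]
    exact nfInt_one
  | algebraMap c =>
    have hcoe : algebraMap (k0Field A) (FF L) c = algebraMap Kbar (FF L) (c : Kbar) := rfl
    rw [hcoe]
    rcases A.mem_or_inv_mem (c : Kbar) with h | h
    · refine ⟨algebraMap Kbar (FF L) (c : Kbar), 1, one_ne_zero, mul_one _,
        const_mem_f0Field A L c, one_mem _, ?_, ?_⟩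
      · show NFInt A ((algebraMap Kbar (FF L) (c : Kbar) : FF L) : LaurentSeries Kbar)
        rw [coe_algebraMap_eq_C (F := modularFunctionFieldBar L)]
        exact nfInt_C h (nrc_halg _)
      · rw [map_one]
        exact nfInt_one
    · by_cases hc : c = 0
      · refine ⟨0, 1, one_ne_zero, ?_, zero_mem _, one_mem _, ?_, ?_⟩
        · rw [hc]; simp
        · rw [map_zero]; exact nfInt_zero
        · rw [map_one]; exact nfInt_one
      · have hc' : (c : Kbar) ≠ 0 := fun h0 => hc (Subtype.ext h0)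
        refine ⟨1, algebraMap Kbar (FF L) ((c⁻¹ : k0Field A) : Kbar), ?_, ?_, one_mem _,
          const_mem_f0Field A L c⁻¹, ?_, ?_⟩
        · rw [Ne, map_eq_zero]
          exact fun h0 => inv_ne_zero hc (Subtype.ext h0)
        · rw [← map_mul]
          have : (c : Kbar) * ((c⁻¹ : k0Field A) : Kbar) = 1 := by
            rw [← MulMemClass.coe_mul, mul_inv_cancel₀ hc]
            rfl
          rw [this, map_one]
        · rw [map_one]; exact nfInt_one
        · show NFInt A ((algebraMap Kbar (FF L) ((c : Kbar)⁻¹) : FF L) : LaurentSeries Kbar)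
          rw [coe_algebraMap_eq_C (F := modularFunctionFieldBar L)]
          exact nfInt_C h (nrc_halg _)
  | add z z' _ _ hz hz' =>
    obtain ⟨x, x', hx', hfx, hxm, hx'm, hx, hxx'⟩ := hz
    obtain ⟨y, y', hy', hgy, hym, hy'm, hy, hyy'⟩ := hz'
    refine ⟨x * y' + y * x', x' * y', mul_ne_zero hx' hy', ?_,
      add_mem (mul_mem hxm hy'm) (mul_mem hym hx'm), mul_mem hx'm hy'm, ?_, ?_⟩
    · rw [← hfx, ← hgy]; ring
    · rw [map_add, map_mul, map_mul]
      exact (hx.mul hyy').add (hy.mul hxx')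
    · rw [map_mul]; exact hxx'.mul hyy'
  | inv z _ hz =>
    obtain ⟨x, x', hx', hfx, hxm, hx'm, hx, hxx'⟩ := hz
    by_cases hx0 : x = 0
    · have hz0 : z = 0 := by
        rw [hx0] at hfx
        rcases mul_eq_zero.mp hfx with h | h
        · exact h
        · exact absurd h hx'
      rw [hz0, inv_zero]
      refine ⟨0, 1, one_ne_zero, by rw [zero_mul], zero_mem _, one_mem _, ?_, ?_⟩
      · rw [map_zero]; exact nfInt_zero
      · rw [map_one]; exact nfInt_one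
    · have hz0 : z ≠ 0 := by
        rintro rfl
        rw [zero_mul] at hfx
        exact hx0 hfx.symm
      refine ⟨x', x, hx0, ?_, hx'm, hxm, hxx', hx⟩
      rw [← hfx]
      field_simp
  | mul z z' _ _ hz hz' =>
    obtain ⟨x, x', hx', hfx, hxm, hx'm, hx, hxx'⟩ := hz
    obtain ⟨y, y', hy', hgy, hym, hy'm, hy, hyy'⟩ := hz'
    refine ⟨x * y, x' * y', mul_ne_zero hx' hy', ?_, mul_mem hxm hym, mul_mem hx'm hy'm, ?_, ?_⟩
    · rw [← hfx, ← hgy]; ring
    · rw [map_mul]; exact hx.mul hy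
    · rw [map_mul]; exact hxx'.mul hyy'

/-- **(VG)**: the value group of `v_∞` on the inertia-fixed functions is `ℤ · v(q)`. -/
theorem vg_inf (L : ℕ) [NeZero L] (hq : q.Prime) (hA : A.LiesOverPrime q) {z : FF L}
    (hz0 : z ≠ 0) (hz : IsIFixed L A z) :
    ∃ j : ℤ, IsGaussUnit A (algebraMap (FF L) (LaurentSeries Kbar)) ((q : Kbar) ^ j) z := by
  obtain ⟨x, x', hx', hfx, hxm, hx'm, hx, hxx'⟩ :=
    vg_frac A L ((mem_f0Field_iff_isIFixed A L z).mpr hz)
  have hx0 : x ≠ 0 := by rw [← hfx]; exact mul_ne_zero hz0 hx'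
  have hfixc : ∀ {y : FF L}, y ∈ f0Field A L → ∀ σ ∈ A.inertiaSubgroupIn ℚ, ∀ n,
      σ ((algebraMap (FF L) (LaurentSeries Kbar) y).coeff n)
        = (algebraMap (FF L) (LaurentSeries Kbar) y).coeff n := by
    intro y hy σ hσ n
    exact (mem_k0Field_iff A _).mp ((mem_f0Field_iff_coeff A L y).mp hy n) σ hσ
  have hq0 : (q : Kbar) ≠ 0 := by exact_mod_cast hq.ne_zero
  obtain ⟨j, y, hy, hxy⟩ := vg_series hq hA hx
    ((map_ne_zero (algebraMap (FF L) (LaurentSeries Kbar))).mpr hx0) (hfixc hxm)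
  obtain ⟨j', y', hy', hxy'⟩ := vg_series hq hA hxx'
    ((map_ne_zero (algebraMap (FF L) (LaurentSeries Kbar))).mpr hx') (hfixc hx'm)
  refine ⟨j' - j, ?_⟩
  have h1 := isGaussUnit_of_frac (A := A) (E := algebraMap (FF L) (LaurentSeries Kbar)) (z := z)
    (zpow_ne_zero j hq0) hy hy' (by rw [← hxy', ← hxy, ← map_mul, hfx])
  rwa [← zpow_sub₀ hq0] at h1

/-- every nonzero function has a Gauss constant, for every expansion with `NFInt` generators -/
theorem vg_exists (M : ℕ) [NeZero M] {ℓ : ℕ} (hℓ : ℓ.Prime) (hlt : A.valuation (ℓ : Kbar) < 1)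
    (E : FF M →+* LaurentSeries Kbar)
    (hconst : ∀ c : Kbar, E (algebraMap Kbar (FF M) c) = HahnSeries.C c)
    (hgen : ∀ (d : ℕ) [NeZero d] (hd : d ∣ M), NFInt A (E (jdF M d hd)))
    {z : FF M} (hz : z ≠ 0) : ∃ c : Kbar, c ≠ 0 ∧ IsGaussUnit A E c z := by
  obtain ⟨x, x', hx', hx, hxx', hfx⟩ := nrq_exists_frac M A (fun _ : Unit => E)
    (fun _ => hconst) (fun _ d _ hd => hgen d hd) z
  have hx0 : x ≠ 0 := by rw [← hfx]; exact mul_ne_zero hz hx'
  obtain ⟨e, y, he, -, hy, -, hxy⟩ := (hx ()).exists_primitive hℓ hlt ((map_ne_zero E).mpr hx0)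
  obtain ⟨e', y', he', -, hy', -, hxy'⟩ :=
    (hxx' ()).exists_primitive hℓ hlt ((map_ne_zero E).mpr hx')
  exact ⟨e' / e, div_ne_zero he' he,
    isGaussUnit_of_frac he hy hy' (by rw [← hxy', ← hxy, ← map_mul, hfx])⟩

end VG

section Twist

variable {A : ValuationSubring Kbar} {q : ℕ}

local notation "kA" => IsLocalRing.ResidueField A

/-- the residue field of a valuation ring over `q` has characteristic `q` -/
theorem nv_expChar (hq : q.Prime) (hA : A.LiesOverPrime q) :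
    ExpChar (IsLocalRing.ResidueField A) q := by
  have hlt : A.valuation (q : Kbar) < 1 := A.mem_nonunits_iff.mp hA
  have h0 : ((q : ℕ) : IsLocalRing.ResidueField A) = 0 := by
    have hmem : (q : Kbar) ∈ A := (A.valuation_le_one_iff _).mp hlt.le
    have h1 : IsLocalRing.residue A ⟨(q : Kbar), hmem⟩ = 0 := by
      rw [IsLocalRing.residue_eq_zero_iff, ValuationSubring.valuation_lt_one_iff]
      exact hlt
    have e : (⟨(q : Kbar), hmem⟩ : A) = ((q : ℕ) : A) := Subtype.ext (by simp)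
    rw [e, map_natCast] at h1
    exact h1
  have hcp : CharP (IsLocalRing.ResidueField A) q := (CharP.charP_iff_prime_eq_zero hq).mpr h0
  exact ExpChar.prime hq

theorem nv_twq_C {R : Type*} [Field R] (u : Rˣ) (c : R) :
    twq u (HahnSeries.C c : LaurentSeries R) = HahnSeries.C c := by
  ext n
  rw [twq_coeff, HahnSeries.C_apply, HahnSeries.coeff_single]
  by_cases hn : n = 0
  · subst hn
    simp
  · rw [if_neg hn, mul_zero]

/-- transport along the twist `X ↦ ζ X`, `ζ^q = 1` (`ζ ≡ 1`): constant and reduction do not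
change -/
theorem IsGaussRed.twq_root [NeZero q] (hq : q.Prime) (hA : A.LiesOverPrime q) {ζ : Kbarˣ}
    (hζ : (ζ : Kbar) ^ q = 1)
    {F F' : Type*} [Field F] [Field F'] {E : F →+* LaurentSeries Kbar}
    {E' : F' →+* LaurentSeries Kbar} {c : Kbar} {f : F} {f' : F'} {r : LaurentSeries kA}
    (hE : E f = twq ζ (E' f')) (h : IsGaussRed A E' c f' r) : IsGaussRed A E c f r := by
  haveI := nv_expChar hq hA
  obtain ⟨ζA, hζA, hζres⟩ := nrq_exists_unit_root (A := A) q hq ζ hζ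
  obtain ⟨a, b, ha, hb, h, rfl⟩ := h
  have hbar : ∀ y : LaurentSeries A, coeffMap (IsLocalRing.residue A) (twq ζA y)
      = coeffMap (IsLocalRing.residue A) y := by
    intro y
    rw [coeffMap_twq, hζres, twq_one]
  have hcoe : ∀ y : LaurentSeries A, coeffMap A.subtype (twq ζA y)
      = twq ζ (coeffMap A.subtype y) := by
    intro y
    rw [coeffMap_twq, hζA]
  refine ⟨twq ζA a, twq ζA b, ?_, ?_, ?_, ?_⟩
  · rw [hbar]; exact ha
  · rw [hbar]; exact hb
  · rw [hcoe, hcoe, ← h, hE, map_mul, map_mul, nv_twq_C]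
  · rw [hbar, hbar]

end Twist

section BetaZero

variable (M' : ℕ) [NeZero M'] {q : ℕ} [NeZero q] [NeZero (M' * q)] [NeZero (M' * q * q)]
variable (hq : q.Prime) (hqM : ¬ q ∣ M')
variable {A : ValuationSubring Kbar} (hA : A.LiesOverPrime q)

local notation "kA" => IsLocalRing.ResidueField A

/-- the statement (W2) (helper23, `S36lib/MidExpW2.lean`) for the middle expansion `E` of `ζ`:
`E ∘ w₂ = twq ζ ∘ E'` for every middle expansion `E'` of `ζ⁻¹` -/
def NvW2 (ζ : Kbarˣ) (E : FF (M' * q * q) →+* LaurentSeries Kbar) : Prop :=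
  ∀ E' : FF (M' * q * q) →+* LaurentSeries Kbar,
    (∀ Y : FF (M' * q), E' (heckeAlphaBar Kbar (M' * q) q Y) = (Y : LaurentSeries Kbar)) →
    (∀ Y' : FF M', E' (heckeBetaBar Kbar (M' * q) q (heckeBetaBar Kbar M' q Y'))
      = twq ζ⁻¹ (Y' : LaurentSeries Kbar)) →
    ∀ x : FF (M' * q * q), E (alW2 M' hq hqM x) = twq ζ (E' x)

theorem nv_isIFixed_alW2 {f : FF (M' * q * q)} (hf : IsIFixed (M' * q * q) A f) :
    IsIFixed (M' * q * q) A (alW2 M' hq hqM f) :=
  (mem_f0Field_iff_isIFixed A _ _).mp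
    (f0_alQ_mem A (q * q) _ _ ((mem_f0Field_iff_isIFixed A _ _).mpr hf))

theorem nv_isIFixed_alW1 {f : FF (M' * q)} (hf : IsIFixed (M' * q) A f) :
    IsIFixed (M' * q) A (alW1 M' hq hqM f) :=
  (mem_f0Field_iff_isIFixed A _ _).mp
    (f0_atkinLehnerFF_mem A q hq _ _ ((mem_f0Field_iff_isIFixed A _ _).mpr hf))

include hA in
/-- **the middle valuation is `w₂`-invariant** on inertia-fixed functions -/
theorem nv_mid_w2 (ζ : Kbarˣ) (hζ : IsPrimitiveRoot (ζ : Kbar) q)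
    (E : FF (M' * q * q) →+* LaurentSeries Kbar)
    (hEα : ∀ Y : FF (M' * q), E (heckeAlphaBar Kbar (M' * q) q Y) = (Y : LaurentSeries Kbar))
    (hEβ : ∀ Y' : FF M', E (heckeBetaBar Kbar (M' * q) q (heckeBetaBar Kbar M' q Y'))
      = twq ζ (Y' : LaurentSeries Kbar))
    (hW2 : NvW2 M' hq hqM ζ E)
    {f : FF (M' * q * q)} (hf : IsIFixed (M' * q * q) A f)
    {cm : Kbar} {rm : LaurentSeries kA} (hm : IsGaussRed A E cm f rm) :
    ∃ σ ∈ A.inertiaSubgroupIn ℚ,
      IsGaussRed A (E.comp (alW2 M' hq hqM).toAlgHom.toRingHom) (σ cm) f rm := by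
  have hζinv : IsPrimitiveRoot ((ζ⁻¹ : Kbarˣ) : Kbar) q := by
    rw [Units.val_inv_eq_inv_val]
    exact hζ.inv
  obtain ⟨E', -, hE'α, hE'β⟩ := midExp_exists M' q hq hqM ζ⁻¹ hζinv
  obtain ⟨σ, hσ, hσζ⟩ := nv_exists_inertia_root A q hq hA _ _ hζ hζinv
  refine ⟨σ, hσ, ?_⟩
  have h1 := midExp_gal M' q hq σ ζ ζ⁻¹ hσζ.symm E E' hEα hEβ hE'α hE'β f
  have h2 : arithmeticGalois (modularFunctionFieldFull (M' * q * q)) σ • f = f := hf σ hσ
  rw [h2] at h1
  have h3 : IsGaussRed A E' (σ cm) f rm := hm.map_inertia hσ h1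
  exact h3.twq_root hq hA hζ.pow_eq_one (hW2 E' hE'α hE'β f)

include hA in
/-- **(NV-β0)**, general form. -/
theorem nv_beta_zero_aux (ζ : Kbarˣ) (hζ : IsPrimitiveRoot (ζ : Kbar) q)
    (E : FF (M' * q * q) →+* LaurentSeries Kbar)
    (hEα : ∀ Y : FF (M' * q), E (heckeAlphaBar Kbar (M' * q) q Y) = (Y : LaurentSeries Kbar))
    (hEβ : ∀ Y' : FF M', E (heckeBetaBar Kbar (M' * q) q (heckeBetaBar Kbar M' q Y'))
      = twq ζ (Y' : LaurentSeries Kbar))
    (hW2 : NvW2 M' hq hqM ζ E)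
    {f : FF (M' * q * q)} (hf : IsIFixed (M' * q * q) A f)
    {c₁ cm : Kbar} {r₁ rm : LaurentSeries kA}
    (h₁ : IsGaussRed A ((algebraMap (FF (M' * q * q)) (LaurentSeries Kbar)).comp
      (alW2 M' hq hqM).toAlgHom.toRingHom) c₁ f r₁)
    (hm : IsGaussRed A E cm f rm) :
    ∃ τ : Fin (q - 1) → (Kbar ≃ₐ[ℚ] Kbar), (∀ i, τ i ∈ A.inertiaSubgroupIn ℚ) ∧
      IsGaussRed A ((algebraMap (FF (M' * q)) (LaurentSeries Kbar)).comp
        (alW1 M' hq hqM).toAlgHom.toRingHom) (c₁ * ∏ i, τ i cm)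
        (normAlong (heckeBetaBar Kbar (M' * q) q) f) (r₁ * rm ^ (q - 1)) := by
  obtain ⟨σ, hσ, hm'⟩ := nv_mid_w2 M' hq hqM hA ζ hζ E hEα hEβ hW2 hf hm
  have hm'' : IsGaussRed A E (σ cm) (alW2 M' hq hqM f) rm := hm'
  have h₁' : IsGaussRed A (algebraMap (FF (M' * q * q)) (LaurentSeries Kbar)) c₁
      (alW2 M' hq hqM f) r₁ := h₁
  obtain ⟨τ', hτ', h⟩ := nv_alpha_inf_aux M' hq hqM hA ζ hζ E hEα hEβ
    (nv_isIFixed_alW2 M' hq hqM hf) h₁' hm''
  refine ⟨fun i => τ' i * σ, fun i => mul_mem (hτ' i) hσ, ?_⟩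
  rw [← npi_hw_beta M' hq hqM f] at h
  exact h

include hA in
/-- **(NV-β0)**, reduction form (`cm` inertia-fixed, e.g. `cm = 1`):
`red^N_0 (c₁ cm^(q-1) N_β f) = red_0 (c₁ f) · red_mid (cm f)^(q-1)`. -/
theorem nv_beta_zero (ζ : Kbarˣ) (hζ : IsPrimitiveRoot (ζ : Kbar) q)
    (E : FF (M' * q * q) →+* LaurentSeries Kbar)
    (hEα : ∀ Y : FF (M' * q), E (heckeAlphaBar Kbar (M' * q) q Y) = (Y : LaurentSeries Kbar))
    (hEβ : ∀ Y' : FF M', E (heckeBetaBar Kbar (M' * q) q (heckeBetaBar Kbar M' q Y'))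
      = twq ζ (Y' : LaurentSeries Kbar))
    (hW2 : NvW2 M' hq hqM ζ E)
    {f : FF (M' * q * q)} (hf : IsIFixed (M' * q * q) A f)
    {c₁ cm : Kbar} (hcm : ∀ σ ∈ A.inertiaSubgroupIn ℚ, σ cm = cm) {r₁ rm : LaurentSeries kA}
    (h₁ : IsGaussRed A ((algebraMap (FF (M' * q * q)) (LaurentSeries Kbar)).comp
      (alW2 M' hq hqM).toAlgHom.toRingHom) c₁ f r₁)
    (hm : IsGaussRed A E cm f rm) :
    IsGaussRed A ((algebraMap (FF (M' * q)) (LaurentSeries Kbar)).comp
        (alW1 M' hq hqM).toAlgHom.toRingHom) (c₁ * cm ^ (q - 1))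
        (normAlong (heckeBetaBar Kbar (M' * q) q) f) (r₁ * rm ^ (q - 1)) := by
  obtain ⟨τ, hτ, h⟩ := nv_beta_zero_aux M' hq hqM hA ζ hζ E hEα hEβ hW2 hf h₁ hm
  rw [Finset.prod_congr rfl (fun i _ => hcm (τ i) (hτ i)), Finset.prod_const, Finset.card_univ,
    Fintype.card_fin] at h
  exact h

include hA in
/-- **(NV-β0)**, valuation form: `v^N_0 (N_β f) = v_0 f + (q - 1) v_mid f`. -/
theorem nv_beta_zero_unit (ζ : Kbarˣ) (hζ : IsPrimitiveRoot (ζ : Kbar) q)
    (E : FF (M' * q * q) →+* LaurentSeries Kbar)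
    (hEα : ∀ Y : FF (M' * q), E (heckeAlphaBar Kbar (M' * q) q Y) = (Y : LaurentSeries Kbar))
    (hEβ : ∀ Y' : FF M', E (heckeBetaBar Kbar (M' * q) q (heckeBetaBar Kbar M' q Y'))
      = twq ζ (Y' : LaurentSeries Kbar))
    (hW2 : NvW2 M' hq hqM ζ E)
    {f : FF (M' * q * q)} (hf : IsIFixed (M' * q * q) A f) {c₁ cm : Kbar}
    (h₁ : IsGaussUnit A ((algebraMap (FF (M' * q * q)) (LaurentSeries Kbar)).comp
      (alW2 M' hq hqM).toAlgHom.toRingHom) c₁ f)
    (hm : IsGaussUnit A E cm f) :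
    IsGaussUnit A ((algebraMap (FF (M' * q)) (LaurentSeries Kbar)).comp
        (alW1 M' hq hqM).toAlgHom.toRingHom) (c₁ * cm ^ (q - 1))
        (normAlong (heckeBetaBar Kbar (M' * q) q) f) := by
  obtain ⟨r₁, h₁⟩ := h₁
  obtain ⟨rm, hm⟩ := hm
  obtain ⟨τ, hτ, h⟩ := nv_beta_zero_aux M' hq hqM hA ζ hζ E hEα hEβ hW2 hf h₁ hm
  refine h.isGaussUnit.of_val_eq (mul_ne_zero h₁.ne_zero.1 (pow_ne_zero _ hm.ne_zero.1)) ?_
  rw [map_mul, map_mul, map_prod, map_pow,
    Finset.prod_congr rfl (fun i _ => nv_val_inertia (hτ i) cm), Finset.prod_const,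
    Finset.card_univ, Fintype.card_fin]

end BetaZero

section QVal

variable (A : ValuationSubring Kbar) (q : ℕ)

/-- `x` has valuation `v(q)^t` -/
def NvQVal (x : Kbar) (t : ℤ) : Prop := A.valuation x = A.valuation (q : Kbar) ^ t

variable {A q}

theorem NvQVal.mul {x y : Kbar} {s t : ℤ} (hq : q.Prime) (hx : NvQVal A q x s)
    (hy : NvQVal A q y t) : NvQVal A q (x * y) (s + t) := by
  unfold NvQVal at *
  rw [map_mul, hx, hy, zpow_add₀ (k0_val_q_ne_zero A q hq)]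

theorem NvQVal.inv {x : Kbar} {s : ℤ} (hx : NvQVal A q x s) : NvQVal A q x⁻¹ (-s) := by
  unfold NvQVal at *
  rw [map_inv₀, hx, zpow_neg]

theorem NvQVal.pow {x : Kbar} {s : ℤ} (hx : NvQVal A q x s) (n : ℕ) :
    NvQVal A q (x ^ n) (s * n) := by
  unfold NvQVal at *
  rw [map_pow, hx, zpow_mul, zpow_natCast]

theorem nvQVal_zpow (a : ℤ) : NvQVal A q ((q : Kbar) ^ a) a := by
  unfold NvQVal
  rw [map_zpow₀]

theorem NvQVal.congr {x y : Kbar} {s : ℤ} (hx : NvQVal A q x s)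
    (h : A.valuation y = A.valuation x) : NvQVal A q y s := by
  unfold NvQVal at *
  rw [h, hx]

theorem NvQVal.inj (hq : q.Prime) (hA : A.LiesOverPrime q) {x : Kbar} {s t : ℤ}
    (hx : NvQVal A q x s) (hy : NvQVal A q x t) : s = t := by
  unfold NvQVal at *
  have hq0 : 0 < A.valuation (q : Kbar) := zero_lt_iff.mpr (k0_val_q_ne_zero A q hq)
  exact (zpow_right_strictAnti₀ hq0 (k0_val_q_lt_one A q hA)).injective (hx.symm.trans hy)

theorem nvQVal_of_k0 (hq : q.Prime) (hA : A.LiesOverPrime q) (c : k0Field A) (hc : c ≠ 0) :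
    ∃ n : ℤ, NvQVal A q (c : Kbar) n :=
  k0_val_eq_zpow A q hq hA (c : Kbar) (fun σ hσ => (mem_k0Field_iff A _).mp c.2 σ hσ)
    (fun h0 => hc (Subtype.ext h0))

end QVal

section Comp

variable (M' : ℕ) [NeZero M'] {q : ℕ} [NeZero q] [NeZero (M' * q)] [NeZero (M' * q * q)]
variable (hq : q.Prime) (hqM : ¬ q ∣ M')
variable {A : ValuationSubring Kbar} (hA : A.LiesOverPrime q)

local notation "kA" => IsLocalRing.ResidueField A

/-- a Gauss constant of `c · s^m` from one of `s` -/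
theorem nv_isGaussUnit_const_mul_pow {L : ℕ} [NeZero L] (E : FF L →+* LaurentSeries Kbar)
    (hE : ∀ c : Kbar, E (algebraMap Kbar (FF L) c) = HahnSeries.C c)
    {c d : Kbar} (hc : c ≠ 0) {s : FF L} (m : ℕ) (h : IsGaussUnit A E d s) :
    IsGaussUnit A E (c⁻¹ * d ^ m) (algebraMap Kbar (FF L) c * s ^ m) :=
  (isGaussRed_const (A := A) hE hc).isGaussUnit.mul (h.pow m)

include hq hA in
/-- the two valuations of a norm `c · s^m` (`c ∈ K0`, `s` inertia-fixed) at `∞` and at `0`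
are congruent modulo `m`: `∃ n i i'` with constants `q^(-n + m i)`, `q^(-n + m i')`. -/
theorem nv_norm_vals {z : FF (M' * q)} (m : ℕ)
    (h : ∃ (c : k0Field A) (s : FF (M' * q)), c ≠ 0 ∧ s ≠ 0 ∧ IsIFixed (M' * q) A s ∧
      z = algebraMap Kbar (FF (M' * q)) (c : Kbar) * s ^ m) :
    ∃ n i i' : ℤ, ∃ d d' : Kbar, NvQVal A q d (-n + m * i) ∧ NvQVal A q d' (-n + m * i') ∧
      IsGaussUnit A (algebraMap (FF (M' * q)) (LaurentSeries Kbar)) d z ∧
      IsGaussUnit A ((algebraMap (FF (M' * q)) (LaurentSeries Kbar)).comp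
        (alW1 M' hq hqM).toAlgHom.toRingHom) d' z := by
  obtain ⟨c, s, hc, hs, hsfix, rfl⟩ := h
  have hc' : (c : Kbar) ≠ 0 := fun h0 => hc (Subtype.ext h0)
  obtain ⟨n, hn⟩ := nvQVal_of_k0 hq hA c hc
  obtain ⟨i, hi⟩ := vg_inf (M' * q) hq hA hs hsfix
  have hws : alW1 M' hq hqM s ≠ 0 := (map_ne_zero _).mpr hs
  obtain ⟨i', hi'⟩ := vg_inf (M' * q) hq hA hws (nv_isIFixed_alW1 M' hq hqM hsfix)
  have hi'' : IsGaussUnit A ((algebraMap (FF (M' * q)) (LaurentSeries Kbar)).comp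
      (alW1 M' hq hqM).toAlgHom.toRingHom) ((q : Kbar) ^ i') s := hi'
  refine ⟨n, i, i', (c : Kbar)⁻¹ * ((q : Kbar) ^ i) ^ m, (c : Kbar)⁻¹ * ((q : Kbar) ^ i') ^ m,
    ?_, ?_, ?_, ?_⟩
  · have := (hn.inv).mul hq ((nvQVal_zpow (A := A) (q := q) i).pow m)
    rwa [mul_comm i (m : ℤ)] at this
  · have := (hn.inv).mul hq ((nvQVal_zpow (A := A) (q := q) i').pow m)
    rwa [mul_comm i' (m : ℤ)] at this
  · exact nv_isGaussUnit_const_mul_pow _
      (fun c => coe_algebraMap_eq_C (F := modularFunctionFieldBar (M' * q)) c) hc' m hi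
  · refine nv_isGaussUnit_const_mul_pow _ (fun c => ?_) hc' m hi''
    show ((alW1 M' hq hqM (algebraMap Kbar (FF (M' * q)) c) : FF (M' * q)) : LaurentSeries Kbar)
      = HahnSeries.C c
    rw [AlgEquiv.commutes]
    exact coe_algebraMap_eq_C (F := modularFunctionFieldBar (M' * q)) c

include hA in
/-- **(COMP)**: for an inertia-fixed `f0 ≠ 0` of level `M' q²` both of whose norms to level `M' q`
are `c · s^m` with `c ∈ K0` and `s` inertia-fixed (helper4's `kdn_new2`), the three valuations of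
`f0^(q²-1)` are congruent modulo `m`: there is `e : ℤ` such that for each of the three expansions
`E_∞`, `E_0 = E_∞ ∘ w₂`, `E_mid`, the function `q^(e + m j) · f0^(q²-1)` is a Gauss unit for
some `j : ℤ`. -/
theorem nv_comp (ζ : Kbarˣ) (hζ : IsPrimitiveRoot (ζ : Kbar) q)
    (E : FF (M' * q * q) →+* LaurentSeries Kbar)
    (hEα : ∀ Y : FF (M' * q), E (heckeAlphaBar Kbar (M' * q) q Y) = (Y : LaurentSeries Kbar))
    (hEβ : ∀ Y' : FF M', E (heckeBetaBar Kbar (M' * q) q (heckeBetaBar Kbar M' q Y'))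
      = twq ζ (Y' : LaurentSeries Kbar))
    (hW2 : NvW2 M' hq hqM ζ E) (m : ℕ)
    {f0 : FF (M' * q * q)} (hf0 : f0 ≠ 0) (hfix : IsIFixed (M' * q * q) A f0)
    (hα : ∃ (c : k0Field A) (s : FF (M' * q)), c ≠ 0 ∧ s ≠ 0 ∧ IsIFixed (M' * q) A s ∧
      normAlong (heckeAlphaBar Kbar (M' * q) q) f0
        = algebraMap Kbar (FF (M' * q)) (c : Kbar) * s ^ m)
    (hβ : ∃ (c : k0Field A) (s : FF (M' * q)), c ≠ 0 ∧ s ≠ 0 ∧ IsIFixed (M' * q) A s ∧
      normAlong (heckeBetaBar Kbar (M' * q) q) f0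
        = algebraMap Kbar (FF (M' * q)) (c : Kbar) * s ^ m) :
    ∃ e : ℤ,
      (∃ j : ℤ, IsGaussUnit A (algebraMap (FF (M' * q * q)) (LaurentSeries Kbar))
        ((q : Kbar) ^ (e + m * j)) (f0 ^ (q ^ 2 - 1))) ∧
      (∃ j : ℤ, IsGaussUnit A ((algebraMap (FF (M' * q * q)) (LaurentSeries Kbar)).comp
        (alW2 M' hq hqM).toAlgHom.toRingHom) ((q : Kbar) ^ (e + m * j)) (f0 ^ (q ^ 2 - 1))) ∧
      (∃ j : ℤ, IsGaussUnit A E ((q : Kbar) ^ (e + m * j)) (f0 ^ (q ^ 2 - 1))) := by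
  haveI := nv_expChar hq hA
  have hlt : A.valuation (q : Kbar) < 1 := A.mem_nonunits_iff.mp hA
  have hq0 : (q : Kbar) ≠ 0 := by exact_mod_cast hq.ne_zero
  -- the three valuations of `f0`
  obtain ⟨a, ha⟩ := vg_inf (M' * q * q) hq hA hf0 hfix
  have hwf : alW2 M' hq hqM f0 ≠ 0 := (map_ne_zero _).mpr hf0
  obtain ⟨c, hc'⟩ := vg_inf (M' * q * q) hq hA hwf (nv_isIFixed_alW2 M' hq hqM hfix)
  have hc : IsGaussUnit A ((algebraMap (FF (M' * q * q)) (LaurentSeries Kbar)).comp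
      (alW2 M' hq hqM).toAlgHom.toRingHom) ((q : Kbar) ^ c) f0 := hc'
  obtain ⟨cm, hcm0, hcm⟩ := vg_exists (A := A) (M' * q * q) hq hlt E (nv_mid_const M' hq E hEα)
    (fun d _ hd => nv_mid_nfInt M' hq ζ hζ.pow_eq_one E hEα hEβ d hd) hf0
  -- the four norm formulas
  have hNai := nv_alpha_inf_unit M' hq hqM hA ζ hζ E hEα hEβ hfix ha hcm
  have hNaz : IsGaussUnit A ((algebraMap (FF (M' * q)) (LaurentSeries Kbar)).comp
      (alW1 M' hq hqM).toAlgHom.toRingHom) (((q : Kbar) ^ c) ^ q)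
      (normAlong (heckeAlphaBar Kbar (M' * q) q) f0) := by
    obtain ⟨r, hr⟩ := hc
    exact (nv_alpha_zero M' hq hqM hA hr).isGaussUnit
  have hNbi : IsGaussUnit A (algebraMap (FF (M' * q)) (LaurentSeries Kbar)) (((q : Kbar) ^ a) ^ q)
      (normAlong (heckeBetaBar Kbar (M' * q) q) f0) := by
    obtain ⟨r, hr⟩ := ha
    exact (nv_beta_inf M' hq hA hr).isGaussUnit
  have hNbz := nv_beta_zero_unit M' hq hqM hA ζ hζ E hEα hEβ hW2 hfix hc hcm
  -- the norms are `c · s^m`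
  obtain ⟨n, i, i', d, d', hd, hd', hdα, hdα'⟩ := nv_norm_vals M' hq hqM hA m hα
  obtain ⟨n', k, k', δ, δ', hδ, hδ', hδβ, hδβ'⟩ := nv_norm_vals M' hq hqM hA m hβ
  -- the valuation of `cm ^ (q - 1)`
  have hb : NvQVal A q (cm ^ (q - 1)) (-n + m * i - a) := by
    have h1 : NvQVal A q ((q : Kbar) ^ a * cm ^ (q - 1)) (-n + m * i) :=
      hd.congr (hdα.val_eq hNai)
    have h2 := h1.mul hq (nvQVal_zpow (A := A) (q := q) a).inv
    have h3 : (q : Kbar) ^ a * cm ^ (q - 1) * ((q : Kbar) ^ a)⁻¹ = cm ^ (q - 1) := by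
      field_simp
    rw [h3] at h2
    exact h2
  set b : ℤ := -n + m * i - a with hbdef
  -- the equations
  have E2 : c * q = -n + m * i' := by
    have h1 : NvQVal A q (((q : Kbar) ^ c) ^ q) (-n + m * i') := hd'.congr (hdα'.val_eq hNaz)
    exact ((nvQVal_zpow (A := A) (q := q) c).pow q).inj hq hA h1
  have E3 : a * q = -n' + m * k := by
    have h1 : NvQVal A q (((q : Kbar) ^ a) ^ q) (-n' + m * k) := hδ.congr (hδβ.val_eq hNbi)
    exact ((nvQVal_zpow (A := A) (q := q) a).pow q).inj hq hA h1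
  have E4 : c + b = -n' + m * k' := by
    have h1 : NvQVal A q ((q : Kbar) ^ c * cm ^ (q - 1)) (-n' + m * k') :=
      hδ'.congr (hδβ'.val_eq hNbz)
    exact ((nvQVal_zpow (A := A) (q := q) c).mul hq hb).inj hq hA h1
  have hqsq : ((q ^ 2 - 1 : ℕ) : ℤ) = (q : ℤ) ^ 2 - 1 := by
    rw [Nat.cast_sub (Nat.one_le_pow _ _ hq.pos)]
    push_cast
    ring
  have hq1 : ((q - 1 : ℕ) : ℤ) = (q : ℤ) - 1 := by
    rw [Nat.cast_sub hq.one_le]
    push_cast
    ring
  refine ⟨a * ((q : ℤ) ^ 2 - 1), ⟨0, ?_⟩, ⟨-((q : ℤ) - 1) * (i - i' + k - k'), ?_⟩,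
    ⟨-(q : ℤ) * (i - i' + k - k') + ((q : ℤ) + 1) * (i - i'), ?_⟩⟩
  · have h1 := ha.pow (q ^ 2 - 1)
    rw [← zpow_natCast, ← zpow_mul, hqsq] at h1
    rw [mul_zero, add_zero]
    exact h1
  · have h1 := hc.pow (q ^ 2 - 1)
    rw [← zpow_natCast, ← zpow_mul, hqsq] at h1
    have h2 : c * ((q : ℤ) ^ 2 - 1)
        = a * ((q : ℤ) ^ 2 - 1) + m * (-((q : ℤ) - 1) * (i - i' + k - k')) := by
      linear_combination (-((q : ℤ) - 1)) * hbdef + ((q : ℤ) - 1) * E2 - ((q : ℤ) - 1) * E3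
        + ((q : ℤ) - 1) * E4
    rw [← h2]
    exact h1
  · have h1 := hcm.pow (q ^ 2 - 1)
    refine h1.of_val_eq (zpow_ne_zero _ hq0) ?_
    have h2 : NvQVal A q (cm ^ (q ^ 2 - 1)) (b * ((q : ℤ) + 1)) := by
      have h3 := hb.pow (q + 1)
      rw [← pow_mul] at h3
      have h4 : (q - 1) * (q + 1) = q ^ 2 - 1 := by
        have := hq.one_le
        zify [this, Nat.one_le_pow 2 q hq.pos]
        ring
      rw [h4] at h3
      push_cast at h3
      exact h3
    have h5 : b * ((q : ℤ) + 1)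
        = a * ((q : ℤ) ^ 2 - 1)
          + m * (-(q : ℤ) * (i - i' + k - k') + ((q : ℤ) + 1) * (i - i')) := by
      linear_combination hbdef - E2 - (q : ℤ) * E3 + (q : ℤ) * E4
    rw [← h5]
    exact (nvQVal_zpow (A := A) (q := q) _).trans h2.symm

end Comp

end Fermat.Agent.S36lib
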