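import Mathlib
import Fermat.Agent.S36lib.NormComp
import Fermat.Agent.S36lib.VDisc
import Fermat.Agent.S36lib.MidExpW2

/-!
# Item 83 (S36), piece NV/COMP, part 3 (helper29): the hypotheses `hNV*` of `a2i_invert`

* `IsGaussUnit.absorb`: `IsGaussUnit A E c f → IsGaussUnit A E 1 (c · f)`;
* `nv_unit_of_vdGauss`: **bridge** to helper8's `VdGauss`: if the valuation ring `O` of `FF L`
  contains the Gauss unit ball of the expansion `E`, every `u` with `IsGaussUnit A E 1 u` is a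
  unit of `O`;
* `nv_hNV`: for an inertia-fixed `f0 ≠ 0` of level `M' q²` whose two norms are `c · s^m`
  (`c ∈ K0`, `s` inertia-fixed): there is ONE `e : ℤ` with
  `f0^(q²-1) = u_v · q^(e + m j_v)`, `u_v` a unit of `O_v`, for the three valuation rings
  `O_∞`, `O_mid`, `O_0` (`VdGauss` for `E_∞`, `E_mid`, `E_∞ ∘ w₂`): exactly `hNVInf`, `hNVMid`,
  `hNVZero` of helper20's `a2i_invert` with `c1 = q² - 1`;
* `nvW2_holds`: the hypothesis `NvW2` (helper23's `nv_midExp_w2`); `nv_hNV_final`, `nv_comp_final`,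
  `nv_beta_zero_final`, `nv_beta_zero_unit_final`: the same results without the hypothesis.
-/

set_option autoImplicit false
set_option linter.style.haveILetI false
set_option linter.unusedSectionVars false

noncomputable section

open scoped MatrixGroups
open ModularCurve AlgebraicCurve HahnSeries
open Fermat.Agent.S24lib Fermat.Agent.HeckeBar Fermat.Agent.S37lib Fermat.Agent.S34lib
open Fermat.Agent.S35lib Fermat.Agent.GoodRed

namespace Fermat.Agent.S36lib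

section Bridge

variable {A : ValuationSubring Kbar} {L : ℕ} [NeZero L]
  {E : FF L →+* LaurentSeries Kbar} {O : ValuationSubring (FF L)}

/-- the constant may be absorbed in the function -/
theorem IsGaussUnit.absorb (hEC : ∀ c : Kbar, E (algebraMap Kbar (FF L) c) = HahnSeries.C c)
    {c : Kbar} {f : FF L} (h : IsGaussUnit A E c f) :
    IsGaussUnit A E 1 (algebraMap Kbar (FF L) c * f) := by
  obtain ⟨r, a, b, ha, hb, h, hr⟩ := h
  refine ⟨r, a, b, ha, hb, ?_, hr⟩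
  rw [map_one, one_mul, map_mul, hEC]
  exact h

/-- **bridge**: a Gauss unit (constant `1`) is a unit of every valuation ring containing the
Gauss unit ball of the expansion. -/
theorem nv_unit_of_vdGauss {ℓ : ℕ} (hℓ : ℓ.Prime) (hlt : A.valuation (ℓ : Kbar) < 1)
    (hO : VdGauss A L E O)
    (hEC : ∀ c : Kbar, E (algebraMap Kbar (FF L) c) = HahnSeries.C c)
    (hgen : ∀ (d : ℕ) [NeZero d] (hd : d ∣ L), NFInt A (E (jdF L d hd)))
    {u : FF L} (h : IsGaussUnit A E 1 u) : u ∈ O ∧ u⁻¹ ∈ O := by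
  have hu0 : u ≠ 0 := by
    obtain ⟨r, hr⟩ := h
    exact hr.ne_zero.2
  obtain ⟨x, x', hx', hx, hxx', hfx⟩ := nrq_exists_frac L A (fun _ : Unit => E)
    (fun _ => hEC) (fun _ d _ hd => hgen d hd) u
  have hx0 : x ≠ 0 := by rw [← hfx]; exact mul_ne_zero hu0 hx'
  obtain ⟨e, y, he, -, hy, -, hxy⟩ := (hx ()).exists_primitive hℓ hlt ((map_ne_zero E).mpr hx0)
  obtain ⟨e', y', he', -, hy', -, hxy'⟩ :=
    (hxx' ()).exists_primitive hℓ hlt ((map_ne_zero E).mpr hx')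
  have hfrac : IsGaussUnit A E (e' / e) u :=
    isGaussUnit_of_frac he hy hy' (by rw [← hxy', ← hxy, ← map_mul, hfx])
  have hv : A.valuation (e' / e) = 1 := by
    rw [h.val_eq hfrac, map_one]
  have hv' : A.valuation (e / e') = 1 := by
    rw [← inv_div, map_inv₀, hv, inv_one]
  -- the units `X = x / e`, `X' = x' / e'`
  have hX : E (algebraMap Kbar (FF L) e⁻¹ * x) = coeffMap A.subtype y := by
    change (fun _ : Unit => E) () (algebraMap Kbar (FF L) e⁻¹ * x) = _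
    rw [map_mul, hxy]
    change E (algebraMap Kbar (FF L) e⁻¹) * _ = _
    rw [hEC, ← mul_assoc, ← map_mul, inv_mul_cancel₀ he, map_one, one_mul]
  have hX' : E (algebraMap Kbar (FF L) e'⁻¹ * x') = coeffMap A.subtype y' := by
    change (fun _ : Unit => E) () (algebraMap Kbar (FF L) e'⁻¹ * x') = _
    rw [map_mul, hxy']
    change E (algebraMap Kbar (FF L) e'⁻¹) * _ = _
    rw [hEC, ← mul_assoc, ← map_mul, inv_mul_cancel₀ he', map_one, one_mul]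
  obtain ⟨h1, h1'⟩ := hO _ y hX hy
  obtain ⟨h2, h2'⟩ := hO _ y' hX' hy'
  obtain ⟨h3, h3'⟩ := hO.const_unit hEC hv'
  have hae : algebraMap Kbar (FF L) e ≠ 0 := (map_ne_zero _).mpr he
  have hae' : algebraMap Kbar (FF L) e' ≠ 0 := (map_ne_zero _).mpr he'
  have key : u = algebraMap Kbar (FF L) (e / e') * (algebraMap Kbar (FF L) e⁻¹ * x) *
      (algebraMap Kbar (FF L) e'⁻¹ * x')⁻¹ := by
    rw [← hfx, map_div₀, map_inv₀, map_inv₀]
    field_simp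
  constructor
  · rw [key]
    exact O.mul_mem _ _ (O.mul_mem _ _ h3 h1) h2'
  · rw [key, mul_inv, mul_inv, inv_inv]
    exact O.mul_mem _ _ (O.mul_mem _ _ h3' h1') h2

/-- the shape of `hNV*` of `a2i_invert` from a Gauss constant `q^t` -/
theorem nv_hNV_of_gaussUnit {ℓ : ℕ} (hℓ : ℓ.Prime) (hlt : A.valuation (ℓ : Kbar) < 1)
    (hO : VdGauss A L E O)
    (hEC : ∀ c : Kbar, E (algebraMap Kbar (FF L) c) = HahnSeries.C c)
    (hgen : ∀ (d : ℕ) [NeZero d] (hd : d ∣ L), NFInt A (E (jdF L d hd)))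
    {q : ℕ} (hq : q.Prime) {f : FF L} {t : ℤ}
    (h : IsGaussUnit A E ((q : Kbar) ^ t) f) :
    ∃ u : FF L, u ∈ O ∧ u⁻¹ ∈ O ∧ f = u * (algebraMap Kbar (FF L) (q : Kbar)) ^ (-t) := by
  have hq0 : (q : Kbar) ≠ 0 := by exact_mod_cast hq.ne_zero
  have haq : algebraMap Kbar (FF L) (q : Kbar) ≠ 0 := (map_ne_zero _).mpr hq0
  obtain ⟨h1, h2⟩ := nv_unit_of_vdGauss hℓ hlt hO hEC hgen (h.absorb hEC)
  refine ⟨_, h1, h2, ?_⟩
  rw [map_zpow₀, mul_comm _ f, mul_assoc, ← zpow_add₀ haq, add_neg_cancel, zpow_zero, mul_one]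

end Bridge

section Final

variable (M' : ℕ) [NeZero M'] {q : ℕ} [NeZero q] [NeZero (M' * q)] [NeZero (M' * q * q)]
variable (hq : q.Prime) (hqM : ¬ q ∣ M')
variable {A : ValuationSubring Kbar} (hA : A.LiesOverPrime q)

include hA in
/-- **NV + COMP, final form** (`hNVInf`, `hNVMid`, `hNVZero` of `a2i_invert`, `c1 = q² - 1`). -/
theorem nv_hNV (ζ : Kbarˣ) (hζ : IsPrimitiveRoot (ζ : Kbar) q)
    (E : FF (M' * q * q) →+* LaurentSeries Kbar)
    (hEα : ∀ Y : FF (M' * q), E (heckeAlphaBar Kbar (M' * q) q Y) = (Y : LaurentSeries Kbar))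
    (hEβ : ∀ Y' : FF M', E (heckeBetaBar Kbar (M' * q) q (heckeBetaBar Kbar M' q Y'))
      = twq ζ (Y' : LaurentSeries Kbar))
    (hW2 : NvW2 M' hq hqM ζ E) (m : ℕ)
    {f0 : FF (M' * q * q)} (hf0 : f0 ≠ 0) (hfix : IsIFixed (M' * q * q) A f0)
    (hα : ∃ (c : k0Field A) (s : FF (M' * q)), c ≠ 0 ∧ s ≠ 0 ∧ IsIFixed (M' * q) A s ∧
      normAlong (heckeAlphaBar Kbar (M' * q) q) f0
        = algebraMap Kbar (FF (M' * q)) (c : Kbar) * s ^ m)
    (hβ : ∃ (c : k0Field A) (s : FF (M' * q)), c ≠ 0 ∧ s ≠ 0 ∧ IsIFixed (M' * q) A s ∧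
      normAlong (heckeBetaBar Kbar (M' * q) q) f0
        = algebraMap Kbar (FF (M' * q)) (c : Kbar) * s ^ m)
    {OInf OMid OZero : ValuationSubring (FF (M' * q * q))}
    (hOInf : VdGauss A (M' * q * q) (algebraMap (FF (M' * q * q)) (LaurentSeries Kbar)) OInf)
    (hOMid : VdGauss A (M' * q * q) E OMid)
    (hOZero : VdGauss A (M' * q * q) ((algebraMap (FF (M' * q * q)) (LaurentSeries Kbar)).comp
      (alW2 M' hq hqM).toAlgHom.toRingHom) OZero) :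
    ∃ e : ℤ,
      (∃ (j : ℤ) (u : FF (M' * q * q)), u ∈ OInf ∧ u⁻¹ ∈ OInf ∧
        f0 ^ (q ^ 2 - 1) = u * (algebraMap Kbar (FF (M' * q * q)) (q : Kbar)) ^ (e + m * j)) ∧
      (∃ (j : ℤ) (u : FF (M' * q * q)), u ∈ OMid ∧ u⁻¹ ∈ OMid ∧
        f0 ^ (q ^ 2 - 1) = u * (algebraMap Kbar (FF (M' * q * q)) (q : Kbar)) ^ (e + m * j)) ∧
      (∃ (j : ℤ) (u : FF (M' * q * q)), u ∈ OZero ∧ u⁻¹ ∈ OZero ∧
        f0 ^ (q ^ 2 - 1) = u * (algebraMap Kbar (FF (M' * q * q)) (q : Kbar)) ^ (e + m * j)) := by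
  have hlt : A.valuation (q : Kbar) < 1 := A.mem_nonunits_iff.mp hA
  obtain ⟨e, ⟨j₁, h₁⟩, ⟨j₂, h₂⟩, ⟨j₃, h₃⟩⟩ :=
    nv_comp M' hq hqM hA ζ hζ E hEα hEβ hW2 m hf0 hfix hα hβ
  have hECinf : ∀ c : Kbar, algebraMap (FF (M' * q * q)) (LaurentSeries Kbar)
      (algebraMap Kbar (FF (M' * q * q)) c) = HahnSeries.C c :=
    fun c => coe_algebraMap_eq_C (F := modularFunctionFieldBar (M' * q * q)) c
  have hECzero : ∀ c : Kbar, ((algebraMap (FF (M' * q * q)) (LaurentSeries Kbar)).comp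
      (alW2 M' hq hqM).toAlgHom.toRingHom) (algebraMap Kbar (FF (M' * q * q)) c)
      = HahnSeries.C c := by
    intro c
    show ((alW2 M' hq hqM (algebraMap Kbar (FF (M' * q * q)) c) : FF (M' * q * q)) :
      LaurentSeries Kbar) = HahnSeries.C c
    rw [AlgEquiv.commutes]
    exact coe_algebraMap_eq_C (F := modularFunctionFieldBar (M' * q * q)) c
  have hgeninf : ∀ (d : ℕ) [NeZero d] (hd : d ∣ M' * q * q),
      NFInt A (algebraMap (FF (M' * q * q)) (LaurentSeries Kbar) (jdF (M' * q * q) d hd)) :=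
    fun d _ hd => nrq_nfInt_jdF (M' * q * q) A d hd
  have hgenzero : ∀ (d : ℕ) [NeZero d] (hd : d ∣ M' * q * q),
      NFInt A (((algebraMap (FF (M' * q * q)) (LaurentSeries Kbar)).comp
        (alW2 M' hq hqM).toAlgHom.toRingHom) (jdF (M' * q * q) d hd)) := by
    intro d _ hd
    show NFInt A ((alW2 M' hq hqM (jdF (M' * q * q) d hd) : FF (M' * q * q)) :
      LaurentSeries Kbar)
    have h1 : alW2 M' hq hqM (jdF (M' * q * q) d hd)
        = alQ (M' * q * q) (q * q) (alq_dvd_sq M' q) (alq_coprime_sq hq hqM)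
          (jdF (M' * q * q) d hd) := rfl
    haveI : NeZero (alqSwap (q * q) d) :=
      ⟨alqSwap_ne_zero (NeZero.ne (M' * q * q)) (alq_dvd_sq M' q) (alq_coprime_sq hq hqM) hd⟩
    rw [h1, alQ_jdF]
    exact nrq_nfInt_jdF (M' * q * q) A _ _
  refine ⟨-e, ⟨-j₁, ?_⟩, ⟨-j₃, ?_⟩, ⟨-j₂, ?_⟩⟩
  · obtain ⟨u, hu, hu', h⟩ := nv_hNV_of_gaussUnit hq hlt hOInf hECinf hgeninf hq h₁
    refine ⟨u, hu, hu', ?_⟩
    rw [h]
    congr 1
    ring_nf
  · obtain ⟨u, hu, hu', h⟩ := nv_hNV_of_gaussUnit hq hlt hOMid (nv_mid_const M' hq E hEα)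
      (fun d _ hd => nv_mid_nfInt M' hq ζ hζ.pow_eq_one E hEα hEβ d hd) hq h₃
    refine ⟨u, hu, hu', ?_⟩
    rw [h]
    congr 1
    ring_nf
  · obtain ⟨u, hu, hu', h⟩ := nv_hNV_of_gaussUnit hq hlt hOZero hECzero hgenzero hq h₂
    refine ⟨u, hu, hu', ?_⟩
    rw [h]
    congr 1
    ring_nf

include hq in
/-- the hypothesis `NvW2` holds (helper23, `nv_midExp_w2`) -/
theorem nvW2_holds (ζ : Kbarˣ) (hζ : (ζ : Kbar) ^ q = 1)
    (E : FF (M' * q * q) →+* LaurentSeries Kbar)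
    (hEα : ∀ Y : FF (M' * q), E (heckeAlphaBar Kbar (M' * q) q Y) = (Y : LaurentSeries Kbar))
    (hEβ : ∀ Y' : FF M', E (heckeBetaBar Kbar (M' * q) q (heckeBetaBar Kbar M' q Y'))
      = twq ζ (Y' : LaurentSeries Kbar)) : NvW2 M' hq hqM ζ E :=
  fun E' hE'α hE'β x => nv_midExp_w2 M' hq hqM ζ hζ E E' hEα hEβ hE'α hE'β x

include hA in
/-- **(COMP)**, unconditional. -/
theorem nv_comp_final (ζ : Kbarˣ) (hζ : IsPrimitiveRoot (ζ : Kbar) q)
    (E : FF (M' * q * q) →+* LaurentSeries Kbar)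
    (hEα : ∀ Y : FF (M' * q), E (heckeAlphaBar Kbar (M' * q) q Y) = (Y : LaurentSeries Kbar))
    (hEβ : ∀ Y' : FF M', E (heckeBetaBar Kbar (M' * q) q (heckeBetaBar Kbar M' q Y'))
      = twq ζ (Y' : LaurentSeries Kbar)) (m : ℕ)
    {f0 : FF (M' * q * q)} (hf0 : f0 ≠ 0) (hfix : IsIFixed (M' * q * q) A f0)
    (hα : ∃ (c : k0Field A) (s : FF (M' * q)), c ≠ 0 ∧ s ≠ 0 ∧ IsIFixed (M' * q) A s ∧
      normAlong (heckeAlphaBar Kbar (M' * q) q) f0
        = algebraMap Kbar (FF (M' * q)) (c : Kbar) * s ^ m)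
    (hβ : ∃ (c : k0Field A) (s : FF (M' * q)), c ≠ 0 ∧ s ≠ 0 ∧ IsIFixed (M' * q) A s ∧
      normAlong (heckeBetaBar Kbar (M' * q) q) f0
        = algebraMap Kbar (FF (M' * q)) (c : Kbar) * s ^ m) :
    ∃ e : ℤ,
      (∃ j : ℤ, IsGaussUnit A (algebraMap (FF (M' * q * q)) (LaurentSeries Kbar))
        ((q : Kbar) ^ (e + m * j)) (f0 ^ (q ^ 2 - 1))) ∧
      (∃ j : ℤ, IsGaussUnit A ((algebraMap (FF (M' * q * q)) (LaurentSeries Kbar)).comp
        (alW2 M' hq hqM).toAlgHom.toRingHom) ((q : Kbar) ^ (e + m * j)) (f0 ^ (q ^ 2 - 1))) ∧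
      (∃ j : ℤ, IsGaussUnit A E ((q : Kbar) ^ (e + m * j)) (f0 ^ (q ^ 2 - 1))) :=
  nv_comp M' hq hqM hA ζ hζ E hEα hEβ (nvW2_holds M' hq hqM ζ hζ.pow_eq_one E hEα hEβ) m
    hf0 hfix hα hβ

include hA in
/-- **NV + COMP, final form, unconditional** (`hNVInf`, `hNVMid`, `hNVZero` of `a2i_invert`,
`c1 = q² - 1`). -/
theorem nv_hNV_final (ζ : Kbarˣ) (hζ : IsPrimitiveRoot (ζ : Kbar) q)
    (E : FF (M' * q * q) →+* LaurentSeries Kbar)
    (hEα : ∀ Y : FF (M' * q), E (heckeAlphaBar Kbar (M' * q) q Y) = (Y : LaurentSeries Kbar))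
    (hEβ : ∀ Y' : FF M', E (heckeBetaBar Kbar (M' * q) q (heckeBetaBar Kbar M' q Y'))
      = twq ζ (Y' : LaurentSeries Kbar)) (m : ℕ)
    {f0 : FF (M' * q * q)} (hf0 : f0 ≠ 0) (hfix : IsIFixed (M' * q * q) A f0)
    (hα : ∃ (c : k0Field A) (s : FF (M' * q)), c ≠ 0 ∧ s ≠ 0 ∧ IsIFixed (M' * q) A s ∧
      normAlong (heckeAlphaBar Kbar (M' * q) q) f0
        = algebraMap Kbar (FF (M' * q)) (c : Kbar) * s ^ m)
    (hβ : ∃ (c : k0Field A) (s : FF (M' * q)), c ≠ 0 ∧ s ≠ 0 ∧ IsIFixed (M' * q) A s ∧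
      normAlong (heckeBetaBar Kbar (M' * q) q) f0
        = algebraMap Kbar (FF (M' * q)) (c : Kbar) * s ^ m)
    {OInf OMid OZero : ValuationSubring (FF (M' * q * q))}
    (hOInf : VdGauss A (M' * q * q) (algebraMap (FF (M' * q * q)) (LaurentSeries Kbar)) OInf)
    (hOMid : VdGauss A (M' * q * q) E OMid)
    (hOZero : VdGauss A (M' * q * q) ((algebraMap (FF (M' * q * q)) (LaurentSeries Kbar)).comp
      (alW2 M' hq hqM).toAlgHom.toRingHom) OZero) :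
    ∃ e : ℤ,
      (∃ (j : ℤ) (u : FF (M' * q * q)), u ∈ OInf ∧ u⁻¹ ∈ OInf ∧
        f0 ^ (q ^ 2 - 1) = u * (algebraMap Kbar (FF (M' * q * q)) (q : Kbar)) ^ (e + m * j)) ∧
      (∃ (j : ℤ) (u : FF (M' * q * q)), u ∈ OMid ∧ u⁻¹ ∈ OMid ∧
        f0 ^ (q ^ 2 - 1) = u * (algebraMap Kbar (FF (M' * q * q)) (q : Kbar)) ^ (e + m * j)) ∧
      (∃ (j : ℤ) (u : FF (M' * q * q)), u ∈ OZero ∧ u⁻¹ ∈ OZero ∧
        f0 ^ (q ^ 2 - 1) = u * (algebraMap Kbar (FF (M' * q * q)) (q : Kbar)) ^ (e + m * j)) :=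
  nv_hNV M' hq hqM hA ζ hζ E hEα hEβ (nvW2_holds M' hq hqM ζ hζ.pow_eq_one E hEα hEβ) m
    hf0 hfix hα hβ hOInf hOMid hOZero

include hA in
/-- **(NV-β0)**, reduction form, unconditional. -/
theorem nv_beta_zero_final (ζ : Kbarˣ) (hζ : IsPrimitiveRoot (ζ : Kbar) q)
    (E : FF (M' * q * q) →+* LaurentSeries Kbar)
    (hEα : ∀ Y : FF (M' * q), E (heckeAlphaBar Kbar (M' * q) q Y) = (Y : LaurentSeries Kbar))
    (hEβ : ∀ Y' : FF M', E (heckeBetaBar Kbar (M' * q) q (heckeBetaBar Kbar M' q Y'))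
      = twq ζ (Y' : LaurentSeries Kbar))
    {f : FF (M' * q * q)} (hf : IsIFixed (M' * q * q) A f)
    {c₁ cm : Kbar} (hcm : ∀ σ ∈ A.inertiaSubgroupIn ℚ, σ cm = cm)
    {r₁ rm : LaurentSeries (IsLocalRing.ResidueField A)}
    (h₁ : IsGaussRed A ((algebraMap (FF (M' * q * q)) (LaurentSeries Kbar)).comp
      (alW2 M' hq hqM).toAlgHom.toRingHom) c₁ f r₁)
    (hm : IsGaussRed A E cm f rm) :
    IsGaussRed A ((algebraMap (FF (M' * q)) (LaurentSeries Kbar)).comp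
        (alW1 M' hq hqM).toAlgHom.toRingHom) (c₁ * cm ^ (q - 1))
        (normAlong (heckeBetaBar Kbar (M' * q) q) f) (r₁ * rm ^ (q - 1)) :=
  nv_beta_zero M' hq hqM hA ζ hζ E hEα hEβ (nvW2_holds M' hq hqM ζ hζ.pow_eq_one E hEα hEβ)
    hf hcm h₁ hm

include hA in
/-- **(NV-β0)**, valuation form, unconditional. -/
theorem nv_beta_zero_unit_final (ζ : Kbarˣ) (hζ : IsPrimitiveRoot (ζ : Kbar) q)
    (E : FF (M' * q * q) →+* LaurentSeries Kbar)
    (hEα : ∀ Y : FF (M' * q), E (heckeAlphaBar Kbar (M' * q) q Y) = (Y : LaurentSeries Kbar))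
    (hEβ : ∀ Y' : FF M', E (heckeBetaBar Kbar (M' * q) q (heckeBetaBar Kbar M' q Y'))
      = twq ζ (Y' : LaurentSeries Kbar))
    {f : FF (M' * q * q)} (hf : IsIFixed (M' * q * q) A f) {c₁ cm : Kbar}
    (h₁ : IsGaussUnit A ((algebraMap (FF (M' * q * q)) (LaurentSeries Kbar)).comp
      (alW2 M' hq hqM).toAlgHom.toRingHom) c₁ f)
    (hm : IsGaussUnit A E cm f) :
    IsGaussUnit A ((algebraMap (FF (M' * q)) (LaurentSeries Kbar)).comp
        (alW1 M' hq hqM).toAlgHom.toRingHom) (c₁ * cm ^ (q - 1))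
        (normAlong (heckeBetaBar Kbar (M' * q) q) f) :=
  nv_beta_zero_unit M' hq hqM hA ζ hζ E hEα hEβ
    (nvW2_holds M' hq hqM ζ hζ.pow_eq_one E hEα hEβ) hf h₁ hm

end Final

end Fermat.Agent.S36lib
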