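/-
Item 83 (S36), piece V-D1 part 2 (helper18): the middle valuation — ramification and Galois.

* `vmid_unit` **(U)**: `β β' j − α j = (ζ − 1) · u` with `u, u⁻¹ ∈ O_mid`
  (so `v_mid (j_{q²} − j) = v (ζ − 1)`: over the inertia field the ramification index of `v_mid`
  is `q − 1`); the reduction of `u` has `X⁻¹`-coefficient `-1` (it is `θ j̄`);
* `vmid_gal_mem`, `vmidRed_gal` **(G)**: for `g` in the decomposition group of `A`,
  `f ∈ O_mid(E_ζ) → g • f ∈ O_mid(E_{gζ})` and `red (g • f) = ḡ (red f)`;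
* `vmid_inertia_mem_iff`, `vmidRed_inertia`: for `σ` in the inertia group and `f` fixed by `σ`:
  `f ∈ O_mid(E_ζ) ↔ f ∈ O_mid(E_{σζ})`, with the same reduction.
No sorry.
-/
import Mathlib
import Fermat.Agent.S36lib.VMid
import Fermat.Agent.S37lib.GalRed

set_option autoImplicit false
set_option linter.style.haveILetI false
set_option linter.unusedSectionVars false
set_option synthInstance.maxHeartbeats 400000

noncomputable section

open ModularCurve AlgebraicCurve HahnSeries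
open Fermat.Agent.S24lib Fermat.Agent.HeckeBar Fermat.Agent.S37lib Fermat.Agent.S35lib
  Fermat.Agent.GoodRed

namespace Fermat.Agent.S36lib

/-! ### Divisibility of `twq u x − x` by `u − 1` -/

section Div

variable {R : Type*} [CommRing R]

theorem vmu_dvd (u : Rˣ) (n : ℤ) : ∃ r : R, ((u ^ n : Rˣ) : R) - 1 = ((u : R) - 1) * r := by
  cases n with
  | ofNat m =>
    refine ⟨∑ i ∈ Finset.range m, (u : R) ^ i, ?_⟩
    rw [Int.ofNat_eq_natCast, zpow_natCast, Units.val_pow_eq_pow_val, mul_geom_sum]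
  | negSucc m =>
    refine ⟨-(((u ^ (m + 1))⁻¹ : Rˣ) : R) * ∑ i ∈ Finset.range (m + 1), (u : R) ^ i, ?_⟩
    rw [zpow_negSucc]
    have h1 : ((u : R) - 1) * ∑ i ∈ Finset.range (m + 1), (u : R) ^ i = (u : R) ^ (m + 1) - 1 :=
      mul_geom_sum _ _
    have h2 : (((u ^ (m + 1))⁻¹ : Rˣ) : R) * (u : R) ^ (m + 1) = 1 := by
      rw [← Units.val_pow_eq_pow_val, Units.inv_mul]
    calc (((u ^ (m + 1))⁻¹ : Rˣ) : R) - 1
        = -(((u ^ (m + 1))⁻¹ : Rˣ) : R) * ((u : R) ^ (m + 1) - 1)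
            + ((((u ^ (m + 1))⁻¹ : Rˣ) : R) * (u : R) ^ (m + 1) - 1) := by ring
      _ = -(((u ^ (m + 1))⁻¹ : Rˣ) : R) * ((u : R) ^ (m + 1) - 1) := by rw [h2, sub_self, add_zero]
      _ = ((u : R) - 1) * (-(((u ^ (m + 1))⁻¹ : Rˣ) : R) *
            ∑ i ∈ Finset.range (m + 1), (u : R) ^ i) := by rw [← h1]; ring

/-- `(twq u x − x) / (u − 1)` as a series -/
def vmuQuot (u : Rˣ) (x : LaurentSeries R) : LaurentSeries R :=
  ⟨fun n => Classical.choose (vmu_dvd u n) * x.coeff n, x.isPWO_support.mono (fun n hn => by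
    simp only [Function.mem_support, ne_eq] at hn
    intro h
    exact hn (by rw [h, mul_zero]))⟩

theorem vmuQuot_coeff (u : Rˣ) (x : LaurentSeries R) (n : ℤ) :
    (vmuQuot u x).coeff n = Classical.choose (vmu_dvd u n) * x.coeff n := rfl

theorem vmuQuot_spec (u : Rˣ) (x : LaurentSeries R) (n : ℤ) :
    ((u : R) - 1) * (vmuQuot u x).coeff n = (((u ^ n : Rˣ) : R) - 1) * x.coeff n := by
  rw [vmuQuot_coeff, ← mul_assoc, ← Classical.choose_spec (vmu_dvd u n)]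

theorem vmuQuot_mul (u : Rˣ) (x : LaurentSeries R) :
    HahnSeries.C ((u : R) - 1) * vmuQuot u x = twq u x - x := by
  ext n
  rw [HahnSeries.C_mul_eq_smul, HahnSeries.coeff_smul, smul_eq_mul, vmuQuot_spec,
    HahnSeries.coeff_sub, twq_coeff]
  ring

end Div

section Unit

variable {M' q : ℕ} [NeZero M'] [NeZero q] (A : ValuationSubring Kbar)
variable {ζ : Kbarˣ} {E : FF (M' * q * q) →+* LaurentSeries Kbar}

theorem vmu_coe_jF (N : ℕ) [NeZero N] :
    ((jF N : FF N) : LaurentSeries Kbar) = coeffMap A.subtype (jqModC A) := by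
  rw [coe_jF, coeffMap_jqModC, coeffEmb, ← jqModC_rat, coeffMap_jqModC]

/-- the function `(j_{q²} − j) / (ζ − 1)` -/
def vmidY (M' q : ℕ) [NeZero M'] [NeZero q] (ζ : Kbarˣ) : FF (M' * q * q) :=
  (heckeBetaBar Kbar (M' * q) q (heckeBetaBar Kbar M' q (jF M'))
      - heckeAlphaBar Kbar (M' * q) q (jF (M' * q)))
    * algebraMap Kbar (FF (M' * q * q)) (((ζ : Kbar) - 1)⁻¹)

theorem vmidY_mul (hζ1 : (ζ : Kbar) ≠ 1) :
    algebraMap Kbar (FF (M' * q * q)) ((ζ : Kbar) - 1) * vmidY M' q ζ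
      = heckeBetaBar Kbar (M' * q) q (heckeBetaBar Kbar M' q (jF M'))
        - heckeAlphaBar Kbar (M' * q) q (jF (M' * q)) := by
  have h0 : (ζ : Kbar) - 1 ≠ 0 := sub_ne_zero.mpr hζ1
  have h1 : algebraMap Kbar (FF (M' * q * q)) ((ζ : Kbar) - 1)
      * algebraMap Kbar (FF (M' * q * q)) (((ζ : Kbar) - 1)⁻¹) = 1 := by
    rw [← map_mul, mul_inv_cancel₀ h0, map_one]
  unfold vmidY
  generalize heckeBetaBar Kbar (M' * q) q (heckeBetaBar Kbar M' q (jF M'))
    - heckeAlphaBar Kbar (M' * q) q (jF (M' * q)) = D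
  calc algebraMap Kbar (FF (M' * q * q)) ((ζ : Kbar) - 1)
        * (D * algebraMap Kbar (FF (M' * q * q)) (((ζ : Kbar) - 1)⁻¹))
      = D * (algebraMap Kbar (FF (M' * q * q)) ((ζ : Kbar) - 1)
        * algebraMap Kbar (FF (M' * q * q)) (((ζ : Kbar) - 1)⁻¹)) := by ring
    _ = D := by rw [h1, mul_one]

/-- the expansion of `(j_{q²} − j) / (ζ − 1)` is an integral series -/
theorem vmidY_apply (hq : q.Prime) (hζ : ζ ^ q = 1) (hζ1 : (ζ : Kbar) ≠ 1)
    (hE : IsMidExp M' q ζ E) :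
    E (vmidY M' q ζ) = coeffMap A.subtype (vmuQuot (vmidUnit A hq hζ) (jqModC A)) := by
  have h0 : (ζ : Kbar) - 1 ≠ 0 := sub_ne_zero.mpr hζ1
  have hC : (HahnSeries.C ((ζ : Kbar) - 1) : LaurentSeries Kbar) ≠ 0 :=
    HahnSeries.C_ne_zero h0
  apply mul_left_cancel₀ hC
  have h1 : HahnSeries.C ((ζ : Kbar) - 1) * E (vmidY M' q ζ)
      = twq ζ (coeffMap A.subtype (jqModC A)) - coeffMap A.subtype (jqModC A) := by
    have h2 := congrArg E (vmidY_mul (M' := M') (q := q) hζ1)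
    rw [map_mul, hE.const] at h2
    have h4 : E (heckeBetaBar Kbar (M' * q) q (heckeBetaBar Kbar M' q (jF M'))
        - heckeAlphaBar Kbar (M' * q) q (jF (M' * q)))
        = twq ζ (coeffMap A.subtype (jqModC A)) - coeffMap A.subtype (jqModC A) := by
      rw [RingHom.map_sub E, hE.beta, hE.alpha, vmu_coe_jF A, vmu_coe_jF A]
    rw [h4, algebraMap_laurentSeries_eq_single] at h2
    exact h2
  rw [h1]
  have h3 := congrArg (coeffMap A.subtype) (vmuQuot_mul (vmidUnit A hq hζ) (jqModC A))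
  rw [map_mul, coeffMap_C, RingHom.map_sub (coeffMap A.subtype), coeffMap_twq,
    vmidUnit_map_subtype] at h3
  exact h3.symm

/-- the `X⁻¹`-coefficient of the reduction of `(j_{q²} − j)/(ζ − 1)` is `-1` -/
theorem vmidY_red_coeff (hq : q.Prime) (hlt : A.valuation (q : Kbar) < 1) (hζ : ζ ^ q = 1)
    (hζ1 : (ζ : Kbar) ≠ 1) :
    (coeffMap (IsLocalRing.residue A) (vmuQuot (vmidUnit A hq hζ) (jqModC A))).coeff (-1) = -1 := by
  set u := vmidUnit A hq hζ with hu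
  have hu1 : (u : A) - 1 ≠ 0 := by
    intro h
    apply hζ1
    have := congrArg (fun a : A => (a : Kbar)) (sub_eq_zero.mp h)
    exact this
  have hspec := vmuQuot_spec u (jqModC A) (-1)
  have hj : (jqModC A).coeff (-1) = 1 := by
    rw [coeff_jqModC_eq_intCast]
    have : (jqModC ℤ).coeff (-1) = 1 := by
      have h1 := coeff_jq_neg_one
      rw [← jqModC_rat, coeff_jqModC_eq_intCast] at h1
      exact_mod_cast h1
    rw [this, Int.cast_one]
  rw [hj, mul_one] at hspec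
  have hval : (vmuQuot u (jqModC A)).coeff (-1) = -((u⁻¹ : Aˣ) : A) := by
    apply mul_left_cancel₀ hu1
    rw [hspec, zpow_neg_one]
    have : ((u : A) - 1) * -((u⁻¹ : Aˣ) : A) = -((u : A) * ((u⁻¹ : Aˣ) : A)) + ((u⁻¹ : Aˣ) : A) := by
      ring
    rw [this, Units.mul_inv]
    ring
  rw [coeffMap_coeff, hval, map_neg]
  have hres := vmidUnit_map_residue A hq hlt hζ
  have h2 : IsLocalRing.residue A ((u⁻¹ : Aˣ) : A) = 1 := by
    have h3 := congrArg (fun w : (IsLocalRing.ResidueField A)ˣ => ((w⁻¹ : (IsLocalRing.ResidueField A)ˣ) :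
      IsLocalRing.ResidueField A)) hres
    simp only [inv_one, Units.val_one] at h3
    rw [← h3, ← map_inv, Units.coe_map]
    rfl
  rw [h2]

/-- **(U)** `(j_{q²} − j)/(ζ − 1)` is a unit of the middle valuation ring. -/
theorem vmid_unit (hq : q.Prime) (hlt : A.valuation (q : Kbar) < 1) (hζ : ζ ^ q = 1)
    (hζ1 : (ζ : Kbar) ≠ 1) (hE : IsMidExp M' q ζ E) :
    vmidY M' q ζ ∈ vmidO A hq hlt hζ hE ∧ (vmidY M' q ζ)⁻¹ ∈ vmidO A hq hlt hζ hE := by
  have hrep : IsRep A (vmidField hE) (E (vmidY M' q ζ))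
      (vmuQuot (vmidUnit A hq hζ) (jqModC A)) 1 := by
    refine ⟨?_, ?_, ?_, ?_⟩
    · rw [← vmidY_apply A hq hζ hζ1 hE]
      exact vmid_apply_mem hE _
    · rw [map_one]
      exact one_mem _
    · rw [map_one]
      exact one_ne_zero
    · rw [map_one, mul_one, vmidY_apply A hq hζ hζ1 hE]
  have hmem : vmidY M' q ζ ∈ vmidO A hq hlt hζ hE := ⟨_, _, hrep⟩
  refine ⟨hmem, ?_⟩
  have hred : vmidRed A hq hlt hζ hE ⟨_, hmem⟩ ≠ 0 := by
    rw [vmidRed_eq A hq hlt hζ hE ⟨_, hmem⟩ hrep, map_one, div_one]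
    intro h0
    have h1 := vmidY_red_coeff A hq hlt hζ hζ1
    rw [h0, HahnSeries.coeff_zero] at h1
    exact (neg_ne_zero.mpr one_ne_zero) h1.symm
  have hnu : ¬ (vmidY M' q ζ ∈ (vmidO A hq hlt hζ hE).nonunits) := fun h =>
    hred ((vmidRed_eq_zero_iff A hq hlt hζ hE ⟨_, hmem⟩).mpr h)
  rw [ValuationSubring.mem_nonunits_iff_or, not_or, not_not] at hnu
  exact hnu.2

end Unit

/-! ### Galois -/

section Gal

variable {M' q : ℕ} [NeZero M'] [NeZero q] (A : ValuationSubring Kbar)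
variable {ζ ζ' : Kbarˣ} {E E' : FF (M' * q * q) →+* LaurentSeries Kbar}

/-- conjugating a representation by an element of the decomposition group -/
theorem vmid_isRep_gal (hq : q.Prime) (g : A.decompositionSubgroup ℚ)
    (hζ' : (ζ' : Kbar) = (g : Kbar ≃ₐ[ℚ] Kbar) (ζ : Kbar))
    (hE : IsMidExp M' q ζ E) (hE' : IsMidExp M' q ζ' E') (f : FF (M' * q * q))
    {a b : LaurentSeries A} (h : IsRep A (vmidField hE) (E f) a b) :
    IsRep A (vmidField hE')
      (E' (arithmeticGalois (modularFunctionFieldFull (M' * q * q)) (g : Kbar ≃ₐ[ℚ] Kbar) • f))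
      (coeffMap (decompHom A g) a) (coeffMap (decompHom A g) b) := by
  have key : ∀ x : FF (M' * q * q),
      E' (arithmeticGalois (modularFunctionFieldFull (M' * q * q)) (g : Kbar ≃ₐ[ℚ] Kbar) • x)
        = coeffMap (((g : Kbar ≃ₐ[ℚ] Kbar) : Kbar ≃ₐ[ℚ] Kbar) : Kbar →+* Kbar) (E x) :=
    fun x => midExp_gal M' q hq (g : Kbar ≃ₐ[ℚ] Kbar) ζ ζ' hζ' E E' hE.alpha hE.beta
      hE'.alpha hE'.beta x
  have hmem : ∀ y : LaurentSeries Kbar, y ∈ vmidField hE →
      coeffMap (((g : Kbar ≃ₐ[ℚ] Kbar) : Kbar ≃ₐ[ℚ] Kbar) : Kbar →+* Kbar) y ∈ vmidField hE' := by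
    rintro y ⟨x, rfl⟩
    rw [← key x]
    exact vmid_apply_mem hE' _
  obtain ⟨ha, hb, hpb, hab⟩ := h
  refine ⟨?_, ?_, ?_, ?_⟩
  · rw [coeffMap_subtype_decompHom]
    exact hmem _ ha
  · rw [coeffMap_subtype_decompHom]
    exact hmem _ hb
  · rw [coeffMap_residue_decompHom]
    exact (map_ne_zero_iff _ (RingHom.injective _)).mpr hpb
  · rw [key f, coeffMap_subtype_decompHom, coeffMap_subtype_decompHom, ← map_mul, hab]

/-- **(G)** the decomposition group permutes the middle valuation rings -/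
theorem vmid_gal_mem (hq : q.Prime) (hlt : A.valuation (q : Kbar) < 1) (hζ : ζ ^ q = 1)
    (hζq' : ζ' ^ q = 1) (g : A.decompositionSubgroup ℚ)
    (hζ' : (ζ' : Kbar) = (g : Kbar ≃ₐ[ℚ] Kbar) (ζ : Kbar))
    (hE : IsMidExp M' q ζ E) (hE' : IsMidExp M' q ζ' E') {f : FF (M' * q * q)}
    (hf : f ∈ vmidO A hq hlt hζ hE) :
    arithmeticGalois (modularFunctionFieldFull (M' * q * q)) (g : Kbar ≃ₐ[ℚ] Kbar) • f
      ∈ vmidO A hq hlt hζq' hE' := by
  obtain ⟨a, b, h⟩ := hf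
  exact ⟨_, _, vmid_isRep_gal A hq g hζ' hE hE' f h⟩

/-- **(G)** the middle reduction is equivariant -/
theorem vmidRed_gal (hq : q.Prime) (hlt : A.valuation (q : Kbar) < 1) (hζ : ζ ^ q = 1)
    (hζq' : ζ' ^ q = 1) (g : A.decompositionSubgroup ℚ)
    (hζ' : (ζ' : Kbar) = (g : Kbar ≃ₐ[ℚ] Kbar) (ζ : Kbar))
    (hE : IsMidExp M' q ζ E) (hE' : IsMidExp M' q ζ' E') {f : FF (M' * q * q)}
    (hf : f ∈ vmidO A hq hlt hζ hE) :
    vmidRed A hq hlt hζq' hE' ⟨_, vmid_gal_mem A hq hlt hζ hζq' g hζ' hE hE' hf⟩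
      = coeffMap ((decompResAut A g : IsLocalRing.ResidueField A ≃+* IsLocalRing.ResidueField A) :
          IsLocalRing.ResidueField A →+* IsLocalRing.ResidueField A)
        (vmidRed A hq hlt hζ hE ⟨f, hf⟩) := by
  obtain ⟨a, b, h⟩ := (mem_vmidO_iff A hq hlt hζ hE f).mp hf
  rw [vmidRed_eq A hq hlt hζq' hE' ⟨_, _⟩ (vmid_isRep_gal A hq g hζ' hE hE' f h),
    vmidRed_eq A hq hlt hζ hE ⟨f, hf⟩ h, coeffMap_residue_decompHom, coeffMap_residue_decompHom,
    map_div₀]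

/-- for `σ` in the inertia group and `f` fixed by `σ`: `f ∈ O_mid(E_ζ) → f ∈ O_mid(E_{σζ})`,
with the same reduction -/
theorem vmid_inertia (hq : q.Prime) (hlt : A.valuation (q : Kbar) < 1) (hζ : ζ ^ q = 1)
    (hζq' : ζ' ^ q = 1) (σ : Kbar ≃ₐ[ℚ] Kbar) (hσ : σ ∈ A.inertiaSubgroupIn ℚ)
    (hζ' : (ζ' : Kbar) = σ (ζ : Kbar))
    (hE : IsMidExp M' q ζ E) (hE' : IsMidExp M' q ζ' E') {f : FF (M' * q * q)}
    (hfix : arithmeticGalois (modularFunctionFieldFull (M' * q * q)) σ • f = f)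
    (hf : f ∈ vmidO A hq hlt hζ hE) :
    ∃ hf' : f ∈ vmidO A hq hlt hζq' hE',
      vmidRed A hq hlt hζq' hE' ⟨f, hf'⟩ = vmidRed A hq hlt hζ hE ⟨f, hf⟩ := by
  obtain ⟨g, hg, rfl⟩ := hσ
  have h1 : decompResAut A g = 1 := hg
  have hmem := vmid_gal_mem A hq hlt hζ hζq' g hζ' hE hE' hf
  have hred := vmidRed_gal A hq hlt hζ hζq' g hζ' hE hE' hf
  have hfix' : arithmeticGalois (modularFunctionFieldFull (M' * q * q))
      (g : Kbar ≃ₐ[ℚ] Kbar) • f = f := hfix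
  have hf' : f ∈ vmidO A hq hlt hζq' hE' := by
    rw [← hfix']
    exact hmem
  refine ⟨hf', ?_⟩
  have e : (⟨f, hf'⟩ : ↥(vmidO A hq hlt hζq' hE'))
      = ⟨arithmeticGalois (modularFunctionFieldFull (M' * q * q)) (g : Kbar ≃ₐ[ℚ] Kbar) • f,
          hmem⟩ := Subtype.ext hfix'.symm
  rw [e, hred, h1]
  exact coeffMap_id _

end Gal

end Fermat.Agent.S36lib

end
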