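import Mathlib
import Fermat.Agent.S36lib.SetupRed

/-!
# Item 83 (S36), block V, piece V-E, sub-lemma (helper27): the hypothesis `honto`

For a `SeriesVal` `v` of `FF L` (a valuation ring with a reduction into `k((X))`): the set of the
reductions of the elements of `O ∩ F0(L)` is a SUBFIELD of `k((X))` containing `k`.  Hence the
hypothesis `honto` of `SeriesVal.restrictK0` / `nodeSetupSeries` for `κ = k(S)` follows from its
instances at the generators `s ∈ S` (for `κ' = modularFunctionFieldFullC k M'`: the series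
`j̄(X ^ d)`, `d ∣ M'`).

* `vsurjField v hres`: the subfield `red (O ∩ F0(L))` of `k((X))`, as an intermediate field;
* `vsurj_honto`: `honto` from the generators;
* `vsurj_hinto`: `hinto` from a reduction of ALL of `O` into `κ`.
-/

set_option autoImplicit false
set_option linter.style.haveILetI false
set_option synthInstance.maxHeartbeats 400000
set_option linter.unusedSectionVars false

noncomputable section

namespace Fermat.Agent.S36lib

open ModularCurve AlgebraicCurve
open Fermat.Agent.S24lib Fermat.Agent.S34lib Fermat.Agent.GoodRed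

variable {A : ValuationSubring Kbar} {L : ℕ} [NeZero L]

/-- `w` is the reduction of an element of `O ∩ F0(L)` -/
def SeriesVal.IsRedK0 (v : SeriesVal A L) (w : LaurentSeries (IsLocalRing.ResidueField A)) :
    Prop :=
  ∃ (x : FF L) (hx : x ∈ v.O), x ∈ f0Field A L ∧ v.red ⟨x, hx⟩ = w

namespace SeriesVal

variable (v : SeriesVal A L)

theorem isRedK0_zero : v.IsRedK0 0 := by
  have h1 : (⟨0, v.O.zero_mem⟩ : v.O) = 0 := Subtype.ext (by simp)
  exact ⟨0, v.O.zero_mem, (f0Field A L).zero_mem, by rw [h1, map_zero]⟩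

theorem isRedK0_one : v.IsRedK0 1 := by
  have h1 : (⟨1, v.O.one_mem⟩ : v.O) = 1 := Subtype.ext (by simp)
  exact ⟨1, v.O.one_mem, (f0Field A L).one_mem, by rw [h1, map_one]⟩

theorem isRedK0_add {a b : LaurentSeries (IsLocalRing.ResidueField A)} (ha : v.IsRedK0 a)
    (hb : v.IsRedK0 b) : v.IsRedK0 (a + b) := by
  obtain ⟨x, hx, hx0, rfl⟩ := ha
  obtain ⟨y, hy, hy0, rfl⟩ := hb
  have hxy : x + y ∈ v.O := v.O.add_mem _ _ hx hy
  have h1 : (⟨x + y, hxy⟩ : v.O) = ⟨x, hx⟩ + ⟨y, hy⟩ := Subtype.ext (by simp)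
  exact ⟨x + y, hxy, (f0Field A L).add_mem hx0 hy0, by rw [h1, map_add]⟩

theorem isRedK0_mul {a b : LaurentSeries (IsLocalRing.ResidueField A)} (ha : v.IsRedK0 a)
    (hb : v.IsRedK0 b) : v.IsRedK0 (a * b) := by
  obtain ⟨x, hx, hx0, rfl⟩ := ha
  obtain ⟨y, hy, hy0, rfl⟩ := hb
  have hxy : x * y ∈ v.O := v.O.mul_mem _ _ hx hy
  have h1 : (⟨x * y, hxy⟩ : v.O) = ⟨x, hx⟩ * ⟨y, hy⟩ := Subtype.ext (by simp)
  exact ⟨x * y, hxy, (f0Field A L).mul_mem hx0 hy0, by rw [h1, map_mul]⟩

theorem isRedK0_neg {a : LaurentSeries (IsLocalRing.ResidueField A)} (ha : v.IsRedK0 a) :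
    v.IsRedK0 (-a) := by
  obtain ⟨x, hx, hx0, rfl⟩ := ha
  have hnx : -x ∈ v.O := v.O.neg_mem _ hx
  have h1 : (⟨-x, hnx⟩ : v.O) = -⟨x, hx⟩ := Subtype.ext (by simp)
  exact ⟨-x, hnx, (f0Field A L).neg_mem hx0, by rw [h1, map_neg]⟩

theorem isRedK0_inv {a : LaurentSeries (IsLocalRing.ResidueField A)} (ha : v.IsRedK0 a) :
    v.IsRedK0 a⁻¹ := by
  rcases eq_or_ne a 0 with rfl | ha0
  · rw [inv_zero]; exact v.isRedK0_zero
  obtain ⟨x, hx, hx0, rfl⟩ := ha
  have hxnu : x ∉ v.O.nonunits := fun h => ha0 ((v.red_eq_zero_iff ⟨x, hx⟩).2 h)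
  have hxinv : x⁻¹ ∈ v.O := by
    by_contra hcon
    apply hxnu
    rw [ValuationSubring.mem_nonunits_iff_exists_mem_maximalIdeal]
    refine ⟨hx, ?_⟩
    rw [IsLocalRing.mem_maximalIdeal, mem_nonunits_iff]
    intro hu
    obtain ⟨y, hy⟩ := isUnit_iff_exists_inv.1 hu
    have hy' : x * (y : FF L) = 1 := congrArg Subtype.val hy
    have hx00 : x ≠ 0 := left_ne_zero_of_mul_eq_one hy'
    have : x⁻¹ = (y : FF L) := by
      rw [← mul_one x⁻¹, ← hy', inv_mul_cancel_left₀ hx00]
    exact hcon (this ▸ y.2)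
  refine ⟨x⁻¹, hxinv, (f0Field A L).inv_mem hx0, ?_⟩
  have hx00 : x ≠ 0 := by
    rintro rfl
    exact ha0 (by
      have : (⟨0, hx⟩ : v.O) = 0 := Subtype.ext (by simp)
      rw [this, map_zero])
  have h1 : v.red ⟨x, hx⟩ * v.red ⟨x⁻¹, hxinv⟩ = 1 := by
    rw [← map_mul]
    have : (⟨x, hx⟩ : v.O) * ⟨x⁻¹, hxinv⟩ = 1 :=
      Subtype.ext (by simp [mul_inv_cancel₀ hx00])
    rw [this, map_one]
  exact (eq_inv_of_mul_eq_one_right h1)

/-- the constants: `k0Res` is onto `k` -/
theorem isRedK0_algebraMap (hres : Function.Surjective (k0Res A))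
    (c : IsLocalRing.ResidueField A) :
    v.IsRedK0 (algebraMap (IsLocalRing.ResidueField A)
      (LaurentSeries (IsLocalRing.ResidueField A)) c) := by
  obtain ⟨a, rfl⟩ := hres c
  refine ⟨algebraMap Kbar (FF L) ((k0ValIncl A a : A) : Kbar), v.algebraMap_mem (k0ValIncl A a),
    ?_, v.red_algebraMap (k0ValIncl A a)⟩
  exact const_mem_f0Field A L (a : k0Field A)

/-- **`honto` from the generators.** -/
theorem vsurj_honto (hres : Function.Surjective (k0Res A))
    (S : Set (LaurentSeries (IsLocalRing.ResidueField A)))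
    (hS : ∀ s ∈ S, ∃ (x : FF L) (hx : x ∈ v.O), x ∈ f0Field A L ∧ v.red ⟨x, hx⟩ = s) :
    ∀ w ∈ IntermediateField.adjoin (IsLocalRing.ResidueField A) S,
      ∃ (x : FF L) (hx : x ∈ v.O), x ∈ f0Field A L ∧ v.red ⟨x, hx⟩ = w := by
  intro w hw
  change v.IsRedK0 w
  induction hw using IntermediateField.adjoin_induction with
  | mem s hs => exact hS s hs
  | algebraMap c => exact v.isRedK0_algebraMap hres c
  | add x y _ _ hx hy => exact v.isRedK0_add hx hy
  | inv x _ hx => exact v.isRedK0_inv hx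
  | mul x y _ _ hx hy => exact v.isRedK0_mul hx hy

/-- `k0Res A` is onto the residue field of `A` (helper8's `k0_residue_comp_surjective`) -/
theorem _root_.Fermat.Agent.S36lib.vsurj_k0Res_surjective (q : ℕ) (hq : q.Prime)
    (hA : A.LiesOverPrime q) : Function.Surjective (k0Res A) :=
  k0_residue_comp_surjective A q hq hA

/-- **`hinto`** from a reduction of all of `O` into `κ` (e.g. a `ConstRed` with residue field
`κ`). -/
theorem vsurj_hinto
    (κ : IntermediateField (IsLocalRing.ResidueField A)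
      (LaurentSeries (IsLocalRing.ResidueField A)))
    (h : ∀ x : v.O, v.red x ∈ κ) :
    ∀ (x : FF L) (hx : x ∈ v.O), x ∈ f0Field A L → v.red ⟨x, hx⟩ ∈ κ :=
  fun x hx _ => h ⟨x, hx⟩

end SeriesVal

end Fermat.Agent.S36lib
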