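/-
Item 83 (S36), piece V-D2 part 1 (helper18): the middle valuation as a `SeriesVal`.

* `vmid_bridge` : "series level ⇒ field level": if `E x · b̂ = â` with `a`, `b` ANY series over
  `A`, `b̄ ≠ 0`, then `x ∈ O_mid` and `red x = ā / b̄`;
* `vmid_vdGauss` : `O_mid` contains the Gauss unit ball of `E` (helper8's `VdGauss`);
* `vmid_of_isGaussRed` : helper29's `IsGaussRed A E c f r` gives `c f ∈ O_mid`, a unit, with
  reduction `r`;
* `vmidSV` : the middle valuation as a `SeriesVal A (M' q²)` (helper24's interface);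
* `vmid_jdF_mem`, `vmidRed_jdF` : `j_d ∈ O_mid` with reduction `j̄(X^d)` for `d ∣ M'`;
* `vmid_honto` : every element of `κ' = F_{M',k}` is the middle reduction of an inertia-fixed
  function (the hypothesis `hoMid` of `nodeSetupSeries`).
No sorry.
-/
import Mathlib
import Fermat.Agent.S36lib.VMidUnit
import Fermat.Agent.S36lib.VSurj
import Fermat.Agent.S36lib.VDisc
import Fermat.Agent.S36lib.NormVal
import Fermat.Agent.S34lib.LiftInfCusp

set_option autoImplicit false
set_option linter.style.haveILetI false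
set_option linter.unusedSectionVars false
set_option synthInstance.maxHeartbeats 400000

noncomputable section

open ModularCurve AlgebraicCurve HahnSeries
open Fermat.Agent.S24lib Fermat.Agent.HeckeBar Fermat.Agent.S37lib Fermat.Agent.S35lib
  Fermat.Agent.GoodRed Fermat.Agent.S34lib

namespace Fermat.Agent.S36lib

section Bridge

variable {M' q : ℕ} [NeZero M'] [NeZero q] (A : ValuationSubring Kbar)
variable {ζ : Kbarˣ} {E : FF (M' * q * q) →+* LaurentSeries Kbar}

/-- **series level ⇒ field level** for the middle valuation -/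
theorem vmid_bridge (hq : q.Prime) (hlt : A.valuation (q : Kbar) < 1) (hζ : ζ ^ q = 1)
    (hE : IsMidExp M' q ζ E) (x : FF (M' * q * q)) (a b : LaurentSeries A)
    (hb : coeffMap (IsLocalRing.residue A) b ≠ 0)
    (hab : E x * coeffMap A.subtype b = coeffMap A.subtype a) :
    ∃ hx : x ∈ vmidO A hq hlt hζ hE,
      vmidRed A hq hlt hζ hE ⟨x, hx⟩
        = coeffMap (IsLocalRing.residue A) a / coeffMap (IsLocalRing.residue A) b := by
  have hb0 : coeffMap A.subtype b ≠ 0 := nv_coe_ne_zero hb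
  by_cases hx0 : x = 0
  · have ha0 : a = 0 := by
      apply coeffMap_valSubtype_injective A
      rw [← hab, hx0, map_zero, zero_mul, map_zero]
    refine ⟨hx0 ▸ (vmidO A hq hlt hζ hE).zero_mem, ?_⟩
    have e : (⟨x, hx0 ▸ (vmidO A hq hlt hζ hE).zero_mem⟩ : ↥(vmidO A hq hlt hζ hE)) = 0 :=
      Subtype.ext hx0
    rw [e, map_zero, ha0, map_zero, zero_div]
  · have hEx0 : E x ≠ 0 := (map_ne_zero_iff E E.injective).mpr hx0
    obtain ⟨a', b', ha', hb', hpa', hpb', c, hc0, hab'⟩ :=
      vmid_hasPrimFrac A hq hlt hζ hE (E x) (vmid_apply_mem hE x) hEx0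
    have hb'0 : coeffMap A.subtype b' ≠ 0 := nv_coe_ne_zero hpb'
    -- the basic relation
    have hrel : coeffMap A.subtype a * coeffMap A.subtype b'
        = HahnSeries.C c * (coeffMap A.subtype a' * coeffMap A.subtype b) := by
      rw [← hab]
      calc E x * coeffMap A.subtype b * coeffMap A.subtype b'
          = E x * coeffMap A.subtype b' * coeffMap A.subtype b := by ring
        _ = HahnSeries.C c * coeffMap A.subtype a' * coeffMap A.subtype b := by rw [hab']
        _ = HahnSeries.C c * (coeffMap A.subtype a' * coeffMap A.subtype b) := by ring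
    have hcA : c ∈ A := by
      by_contra hcA
      have hlt' : A.valuation c⁻¹ < 1 := by
        have h1 : ¬ A.valuation c ≤ 1 := fun h => hcA ((A.valuation_le_one_iff c).mp h)
        rw [map_inv₀]
        exact inv_lt_one_of_one_lt₀ (not_le.mp h1)
      have hdA : c⁻¹ ∈ A := (A.valuation_le_one_iff _).mp hlt'.le
      have hres : IsLocalRing.residue A ⟨c⁻¹, hdA⟩ = 0 := by
        rw [IsLocalRing.residue_eq_zero_iff]
        exact (A.valuation_lt_one_iff ⟨c⁻¹, hdA⟩).mpr hlt'
      have key : HahnSeries.C (⟨c⁻¹, hdA⟩ : A) * (a * b') = a' * b := by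
        apply coeffMap_valSubtype_injective A
        rw [map_mul, map_mul, map_mul, coeffMap_C, hrel]
        show HahnSeries.C c⁻¹ * (HahnSeries.C c * _) = _
        rw [← mul_assoc, ← map_mul, inv_mul_cancel₀ hc0, map_one, one_mul]
      have key' := congrArg (coeffMap (IsLocalRing.residue A)) key
      rw [map_mul, coeffMap_C, hres, map_zero, zero_mul, map_mul] at key'
      exact mul_ne_zero hpa' hb key'.symm
    have hCmem : HahnSeries.C c ∈ vmidField hE := by
      have h1 := (vmidField hE).algebraMap_mem c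
      rwa [algebraMap_laurentSeries_eq_single] at h1
    have hrep : IsRep A (vmidField hE) (E x) (HahnSeries.C (⟨c, hcA⟩ : A) * a') b' := by
      refine ⟨?_, hb', hpb', ?_⟩
      · rw [map_mul, coeffMap_C]
        exact (vmidField hE).mul_mem hCmem ha'
      · rw [map_mul, coeffMap_C]
        exact hab'
    have hx : x ∈ vmidO A hq hlt hζ hE := ⟨_, _, hrep⟩
    refine ⟨hx, ?_⟩
    rw [vmidRed_eq A hq hlt hζ hE ⟨x, hx⟩ hrep]
    have key : a * b' = HahnSeries.C (⟨c, hcA⟩ : A) * a' * b := by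
      apply coeffMap_valSubtype_injective A
      rw [map_mul, map_mul, map_mul, coeffMap_C, hrel]
      show HahnSeries.C c * _ = HahnSeries.C c * _ * _
      ring
    have key' := congrArg (coeffMap (IsLocalRing.residue A)) key
    rw [map_mul, map_mul] at key'
    rw [div_eq_div_iff hpb' hb, key']

/-- `O_mid` contains the Gauss unit ball of `E` (helper8's `VdGauss`) -/
theorem vmid_vdGauss (hq : q.Prime) (hlt : A.valuation (q : Kbar) < 1) (hζ : ζ ^ q = 1)
    (hE : IsMidExp M' q ζ E) : VdGauss A (M' * q * q) E (vmidO A hq hlt hζ hE) := by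
  intro x a hxa hpa
  have ha0 : coeffMap A.subtype a ≠ 0 := nv_coe_ne_zero hpa
  have hone : coeffMap (IsLocalRing.residue A) (1 : LaurentSeries A) ≠ 0 := by
    rw [map_one]
    exact one_ne_zero
  constructor
  · obtain ⟨h, -⟩ := vmid_bridge A hq hlt hζ hE x a 1 hone (by rw [map_one, mul_one, hxa])
    exact h
  · obtain ⟨h, -⟩ := vmid_bridge A hq hlt hζ hE x⁻¹ 1 a hpa
      (by rw [map_inv₀, hxa, map_one, inv_mul_cancel₀ ha0])
    exact h

/-- helper29's `IsGaussRed` at the middle expansion: `c f` is a unit of `O_mid` with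
reduction `r` -/
theorem vmid_of_isGaussRed (hq : q.Prime) (hlt : A.valuation (q : Kbar) < 1) (hζ : ζ ^ q = 1)
    (hE : IsMidExp M' q ζ E) {c : Kbar} {f : FF (M' * q * q)}
    {r : LaurentSeries (IsLocalRing.ResidueField A)} (h : IsGaussRed A E c f r) :
    ∃ hx : algebraMap Kbar (FF (M' * q * q)) c * f ∈ vmidO A hq hlt hζ hE,
      vmidRed A hq hlt hζ hE ⟨_, hx⟩ = r ∧
        (algebraMap Kbar (FF (M' * q * q)) c * f)⁻¹ ∈ vmidO A hq hlt hζ hE := by
  obtain ⟨a, b, hpa, hpb, hab, hr⟩ := h
  have hE' : E (algebraMap Kbar (FF (M' * q * q)) c * f) = HahnSeries.C c * E f := by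
    rw [map_mul, hE.const, algebraMap_laurentSeries_eq_single]
    rfl
  have ha0 : coeffMap A.subtype a ≠ 0 := nv_coe_ne_zero hpa
  have hb0 : coeffMap A.subtype b ≠ 0 := nv_coe_ne_zero hpb
  obtain ⟨hx, hred⟩ := vmid_bridge A hq hlt hζ hE (algebraMap Kbar (FF (M' * q * q)) c * f) a b
    hpb (by rw [hE', hab])
  refine ⟨hx, by rw [hred, hr], ?_⟩
  have hinv : E (algebraMap Kbar (FF (M' * q * q)) c * f)⁻¹ * coeffMap A.subtype a
      = coeffMap A.subtype b := by
    have h0 : HahnSeries.C c * E f ≠ 0 := by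
      intro h0
      rw [h0, zero_mul] at hab
      exact ha0 hab.symm
    rw [map_inv₀, hE', ← hab, ← mul_assoc, inv_mul_cancel₀ h0, one_mul]
  obtain ⟨h, -⟩ := vmid_bridge A hq hlt hζ hE _ b a hpa hinv
  exact h

/-- **the middle valuation as a `SeriesVal`** -/
def vmidSV (hq : q.Prime) (hlt : A.valuation (q : Kbar) < 1) (hζ : ζ ^ q = 1)
    (hE : IsMidExp M' q ζ E) : SeriesVal A (M' * q * q) where
  O := vmidO A hq hlt hζ hE
  red := vmidRed A hq hlt hζ hE
  algebraMap_mem := fun a => by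
    have hone : coeffMap (IsLocalRing.residue A) (1 : LaurentSeries A) ≠ 0 := by
      rw [map_one]
      exact one_ne_zero
    obtain ⟨h, -⟩ := vmid_bridge A hq hlt hζ hE (algebraMap Kbar (FF (M' * q * q)) (a : Kbar))
      (HahnSeries.C a) 1 hone (by
        rw [map_one, mul_one, hE.const, coeffMap_C, algebraMap_laurentSeries_eq_single]
        rfl)
    exact h
  red_algebraMap := fun a => by
    have hone : coeffMap (IsLocalRing.residue A) (1 : LaurentSeries A) ≠ 0 := by
      rw [map_one]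
      exact one_ne_zero
    obtain ⟨h, hr⟩ := vmid_bridge A hq hlt hζ hE (algebraMap Kbar (FF (M' * q * q)) (a : Kbar))
      (HahnSeries.C a) 1 hone (by
        rw [map_one, mul_one, hE.const, coeffMap_C, algebraMap_laurentSeries_eq_single]
        rfl)
    rw [hr, map_one, div_one, coeffMap_C, algebraMap_laurentSeries_eq_single]
    rfl
  red_eq_zero_iff := vmidRed_eq_zero_iff A hq hlt hζ hE

@[simp] theorem vmidSV_O (hq : q.Prime) (hlt : A.valuation (q : Kbar) < 1) (hζ : ζ ^ q = 1)
    (hE : IsMidExp M' q ζ E) : (vmidSV A hq hlt hζ hE).O = vmidO A hq hlt hζ hE := rfl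

@[simp] theorem vmidSV_red (hq : q.Prime) (hlt : A.valuation (q : Kbar) < 1) (hζ : ζ ^ q = 1)
    (hE : IsMidExp M' q ζ E) : (vmidSV A hq hlt hζ hE).red = vmidRed A hq hlt hζ hE := rfl

/-- the expansion of `j_d`, `d ∣ M' q`, at the middle cusp -/
theorem vmid_apply_jdF (hE : IsMidExp M' q ζ E) (d : ℕ) [NeZero d] (hd : d ∣ M' * q) :
    E (jdF (M' * q * q) d (hd.mul_right q))
      = coeffMap A.subtype (qExpand A d (jqModC A)) := by
  have key : jdF (M' * q * q) d (hd.mul_right q)
      = heckeAlphaBar Kbar (M' * q) q (jdF (M' * q) d hd) := by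
    rw [heckeAlphaBar_eq_inclBar, inclBar_jdF]
  rw [key, hE.alpha, liftInf_jdF_eq (A := A) d hd]

/-- `j_d ∈ O_mid` with reduction `j̄(X^d)`, `d ∣ M' q` -/
theorem vmid_jdF (hq : q.Prime) (hlt : A.valuation (q : Kbar) < 1) (hζ : ζ ^ q = 1)
    (hE : IsMidExp M' q ζ E) (d : ℕ) [NeZero d] (hd : d ∣ M' * q) :
    ∃ hx : jdF (M' * q * q) d (hd.mul_right q) ∈ vmidO A hq hlt hζ hE,
      vmidRed A hq hlt hζ hE ⟨_, hx⟩
        = qExpand (IsLocalRing.ResidueField A) d (jqModC (IsLocalRing.ResidueField A)) := by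
  have hone : coeffMap (IsLocalRing.residue A) (1 : LaurentSeries A) ≠ 0 := by
    rw [map_one]
    exact one_ne_zero
  obtain ⟨h, hr⟩ := vmid_bridge A hq hlt hζ hE (jdF (M' * q * q) d (hd.mul_right q))
    (qExpand A d (jqModC A)) 1 hone (by rw [map_one, mul_one, vmid_apply_jdF A hE d hd])
  refine ⟨h, ?_⟩
  rw [hr, map_one, div_one, hr_coeffMap_gen]

/-- **`hoMid`**: every element of `κ' = F_{M',k}` is the middle reduction of an inertia-fixed
function. -/
theorem vmid_honto (hq : q.Prime) (hA : A.LiesOverPrime q) (hζ : ζ ^ q = 1)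
    (hE : IsMidExp M' q ζ E) :
    ∀ w ∈ modularFunctionFieldFullC (IsLocalRing.ResidueField A) M',
      ∃ (x : FF (M' * q * q)) (hx : x ∈ (vmidSV A hq ((A.mem_nonunits_iff).mp hA) hζ hE).O),
        x ∈ f0Field A (M' * q * q) ∧
          (vmidSV A hq ((A.mem_nonunits_iff).mp hA) hζ hE).red ⟨x, hx⟩ = w := by
  apply SeriesVal.vsurj_honto (vmidSV A hq ((A.mem_nonunits_iff).mp hA) hζ hE)
    (vsurj_k0Res_surjective q hq hA) (divisorExpansionsC (IsLocalRing.ResidueField A) M')
  rintro s ⟨d, hd0, hd, rfl⟩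
  haveI : NeZero d := hd0
  obtain ⟨h, hr⟩ := vmid_jdF A hq ((A.mem_nonunits_iff).mp hA) hζ hE d (hd.mul_right q)
  exact ⟨_, h, jdF_mem_f0Field A (M' * q * q) d _, hr⟩

end Bridge

end Fermat.Agent.S36lib

end
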