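import Mathlib
import Fermat.Agent.S36lib.Apply2Skel
import Fermat.Agent.S36lib.VMidSV
import Fermat.Agent.S36lib.NormCompFinal
import Fermat.Agent.S36lib.KummerDescN

/-!
# Item 83 (S36), block APPLY2 (helper20): the part `A2NV` of the contract

`a2nv_of_vdGauss`: for ANY setup `S` on `F0(M' q²)` whose three valuation rings are the
restrictions of valuation rings `OInf`, `OMid`, `OZero` of `FF (M' q²)` containing the Gauss unit
balls of the three expansions `E_∞`, `E_mid`, `E_∞ ∘ w₂` (helper8's `VdGauss`), the hypothesis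
`A2NV M' q A S m (q ^ 2 - 1)` of `Apply2Skel.lean` holds.
(helper29's `nv_hNV_final` + helper4's `kdn_new2` + descent of the unit to `F0`.)

`a2nv_vdGauss_comap`: `VdGauss` for `O_0 = w₂⁻¹ O_∞`.
-/

set_option autoImplicit false
set_option linter.style.haveILetI false
set_option linter.unusedSectionVars false
set_option linter.unusedVariables false
set_option synthInstance.maxHeartbeats 400000

noncomputable section

namespace Fermat.Agent.S36lib

open ModularCurve HahnSeries AlgebraicCurve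
open Fermat.Agent.GoodRed Fermat.Agent.S24lib Fermat.Agent.S34lib Fermat.Agent.S37lib
  Fermat.Agent.HeckeBar Fermat.Agent.S35lib Fermat.Agent.GM

variable (A : ValuationSubring Kbar) {M' q : ℕ} [NeZero M'] [NeZero q]

/-- the Gauss unit ball of `E ∘ w` is in `w⁻¹ O` -/
theorem a2nv_vdGauss_comap {L : ℕ} [NeZero L] (E : FF L →+* LaurentSeries Kbar)
    (O : ValuationSubring (FF L)) (hO : VdGauss A L E O) (w : FF L ≃ₐ[Kbar] FF L)
    (O' : ValuationSubring (FF L)) (hO' : ∀ x, x ∈ O' ↔ w x ∈ O) :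
    VdGauss A L (E.comp w.toAlgHom.toRingHom) O' := by
  intro x a hxa hpa
  have h := hO (w x) a hxa hpa
  refine ⟨(hO' x).2 h.1, (hO' _).2 ?_⟩
  rw [map_inv₀]
  exact h.2

/-- **the part `A2NV` of the contract**, for any setup whose valuation rings are the restrictions
of `OInf`, `OMid`, `OZero`. -/
theorem a2nv_of_vdGauss (hq : q.Prime) (hqM : ¬ q ∣ M') (hA : A.LiesOverPrime q)
    {κ : Type*} [Field κ] [Algebra (IsLocalRing.ResidueField A) κ]
    (S : NodeSetup (k0Val A) (k0Res A) κ (f0Field A (M' * q * q)))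
    (ζ : Kbarˣ) (hζ : IsPrimitiveRoot (ζ : Kbar) q)
    (E : FF (M' * q * q) →+* LaurentSeries Kbar) (hE : IsMidExp M' q ζ E)
    (OInf OMid OZero : ValuationSubring (FF (M' * q * q)))
    (hSInf : ∀ x : f0Field A (M' * q * q), x ∈ S.vInf.O ↔ (x : FF (M' * q * q)) ∈ OInf)
    (hSMid : ∀ x : f0Field A (M' * q * q), x ∈ S.vMid.O ↔ (x : FF (M' * q * q)) ∈ OMid)
    (hSZero : ∀ x : f0Field A (M' * q * q), x ∈ S.vZero.O ↔ (x : FF (M' * q * q)) ∈ OZero)
    (hOInf : VdGauss A (M' * q * q) (algebraMap (FF (M' * q * q)) (LaurentSeries Kbar)) OInf)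
    (hOMid : VdGauss A (M' * q * q) E OMid)
    (hOZero : VdGauss A (M' * q * q) ((algebraMap (FF (M' * q * q)) (LaurentSeries Kbar)).comp
      (alW2 M' hq hqM).toAlgHom.toRingHom) OZero)
    (m : ℕ) : A2NV M' q A S m (q ^ 2 - 1) := by
  haveI : NeZero (M' * q) := ⟨Nat.mul_ne_zero (NeZero.ne M') (NeZero.ne q)⟩
  haveI : NeZero (M' * q * q) :=
    ⟨Nat.mul_ne_zero (Nat.mul_ne_zero (NeZero.ne M') (NeZero.ne q)) (NeZero.ne q)⟩
  intro f0 hf0 hdiv hnew
  have hf0' : (f0 : FF (M' * q * q)) ≠ 0 := fun h => hf0 (Subtype.ext h)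
  have hfix : IsIFixed (M' * q * q) A (f0 : FF (M' * q * q)) :=
    (mem_f0Field_iff_isIFixed A (M' * q * q) _).1 f0.2
  obtain ⟨hα, hβ⟩ := kdn_new2 (M' := M') (q := q) m A hf0' hfix hnew
  obtain ⟨e, hI, hM, hZ⟩ := nv_hNV_final M' hq hqM hA ζ hζ E hE.alpha hE.beta m hf0' hfix hα hβ
    hOInf hOMid hOZero
  have hQ0 : (a2iQ A q (L := M' * q * q) : f0Field A (M' * q * q)) ≠ 0 := a2i_Q_ne_zero A q hq
  -- descent of the unit to `F0`
  have key : ∀ (O : ValuationSubring (FF (M' * q * q))),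
      (∃ (j : ℤ) (u : FF (M' * q * q)), u ∈ O ∧ u⁻¹ ∈ O ∧ (f0 : FF (M' * q * q)) ^ (q ^ 2 - 1) =
        u * (algebraMap Kbar (FF (M' * q * q)) (q : Kbar)) ^ (e + m * j)) →
      ∃ (j : ℤ) (u : f0Field A (M' * q * q)), (u : FF (M' * q * q)) ∈ O ∧
        ((u⁻¹ : f0Field A (M' * q * q)) : FF (M' * q * q)) ∈ O ∧
        f0 ^ (q ^ 2 - 1) = u * (a2iQ A q (L := M' * q * q)) ^ (e + m * j) := by
    rintro O ⟨j, u, hu, hu', h⟩
    have hq0 : algebraMap Kbar (FF (M' * q * q)) (q : Kbar) ≠ 0 :=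
      (map_ne_zero _).2 (Nat.cast_ne_zero.2 hq.ne_zero)
    set u₀ : f0Field A (M' * q * q) :=
      f0 ^ (q ^ 2 - 1) * (a2iQ A q (L := M' * q * q)) ^ (-(e + m * j)) with hu₀
    have hcoe : ((u₀ : f0Field A (M' * q * q)) : FF (M' * q * q)) = u := by
      rw [hu₀]
      push_cast
      rw [a2i_coe_zpow, a2i_coe_Q, h, zpow_neg]
      field_simp
    refine ⟨j, u₀, ?_, ?_, ?_⟩
    · rw [hcoe]; exact hu
    · push_cast
      rw [hcoe]; exact hu'
    · rw [hu₀, mul_assoc (f0 ^ (q ^ 2 - 1)) _ _, ← zpow_add₀ hQ0, neg_add_cancel, zpow_zero,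
        mul_one]
  obtain ⟨j₁, u₁, h₁, h₁', e₁⟩ := key _ hI
  obtain ⟨j₂, u₂, h₂, h₂', e₂⟩ := key _ hM
  obtain ⟨j₃, u₃, h₃, h₃', e₃⟩ := key _ hZ
  exact ⟨e, ⟨j₁, u₁, (hSInf _).2 h₁, (hSInf _).2 h₁', e₁⟩,
    ⟨j₂, u₂, (hSMid _).2 h₂, (hSMid _).2 h₂', e₂⟩,
    ⟨j₃, u₃, (hSZero _).2 h₃, (hSZero _).2 h₃', e₃⟩⟩

end Fermat.Agent.S36lib

end
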