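/-
Item 83 (S36), piece C4-3 (FIBRE), concrete part 2 (helper15).  Complete proofs.

Level `M = M' q²`, `N = M' q`, `q ∤ M'`; `α, β : F_N → F_M`; `ζ₀` a primitive `q`-th root of unity.

* `fbmMid M' q hq hqM ζ₀ hζ₀ i`, `i : Fin (q - 1)`: the middle place of `ζ₀ ^ (i + 1)`;
  `fbmMid_injective`, `fbm_exists_fbmMid` (every middle place is one of them);
* `fbr_fundId_alpha/beta`, `fbr_finrank_alpha/beta`: fundamental identity and degree `q` of `α, β`;
* **fibres** `fbm_restrict_alpha`, `fbm_restrict_beta`: a place `P ∉ {∞, 0, mid_i}` of `F_M`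
  restricts along `α` and along `β` to a place different from `∞_N` and `0_N`, i.e.
  over `∞_N`: `α⁻¹ = {∞, mid_i}` (`e = 1`), `β⁻¹ = {∞}` (`e = q`);
  over `0_N`: `α⁻¹ = {0}` (`e = q`), `β⁻¹ = {0, mid_i}` (`e = 1`);
* **regularity** `fbm_reg_alpha`, `fbm_reg_beta` (functions of level `N` regular off `∞_N, 0_N`)
  and `fbm_reg_pi1`, `fbm_reg_pi2`, `fbm_reg_pi3`: `g ∈ F_{M'}` regular off `∞'` ⟹ `π_i g`
  regular off `{∞, 0, mid_i}`; `fbm_reg_prod` for the products `π₁ g₁ · π₂ g₂ · π₃ g₃`.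
-/
import Mathlib
import Fermat.Agent.S36lib.FibreMid

set_option autoImplicit false
set_option linter.style.haveILetI false
set_option linter.unusedSectionVars false
set_option synthInstance.maxHeartbeats 400000

noncomputable section

namespace Fermat.Agent.S36lib

open AlgebraicCurve ModularCurve HahnSeries
open Fermat.Agent.S24lib Fermat.Agent.S34lib Fermat.Agent.S37lib Fermat.Agent.HeckeBar
open Fermat.Agent.S35lib

section Fibres

variable (M' q : ℕ) [NeZero M'] [NeZero q] (hq : q.Prime) (hqM : ¬ q ∣ M')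

/-! ### `α` and `β`: integrality, fundamental identity, degree -/

theorem fbr_isIntegral_alpha : (heckeAlphaBar Kbar (M' * q) q).toRingHom.IsIntegral :=
  isIntegral_inclBar (M' * q) (M' * q * q) (dvd_mul_right (M' * q) q)

theorem fbr_isIntegral_beta : (heckeBetaBar Kbar (M' * q) q).toRingHom.IsIntegral := by
  rw [heckeBetaBar_eq_qpowBar]
  exact isIntegral_qpowBar (M' * q) (M' * q * q) q dvd_rfl

theorem fbr_finiteAlong_beta : FiniteAlong Kbar (heckeBetaBar Kbar (M' * q) q) := by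
  rw [heckeBetaBar_eq_qpowBar]
  exact finiteAlong_qpowBar (M' * q) (M' * q * q) q dvd_rfl

theorem fbr_fundId_alpha :
    haveI : HasPrincipalDivisors Kbar (FF (M' * q * q)) := wir_hasPrincipalDivisors (M' * q * q)
    FundamentalIdentityAlong Kbar (heckeAlphaBar Kbar (M' * q) q) (fbr_isIntegral_alpha M' q) :=
  exp_fundId_alpha (M' * q) q

theorem fbr_fundId_beta :
    haveI : HasPrincipalDivisors Kbar (FF (M' * q * q)) := wir_hasPrincipalDivisors (M' * q * q)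
    FundamentalIdentityAlong Kbar (heckeBetaBar Kbar (M' * q) q) (fbr_isIntegral_beta M' q) := by
  haveI : HasPrincipalDivisors Kbar (FF (M' * q * q)) := wir_hasPrincipalDivisors (M' * q * q)
  haveI := fin_ffData (M' * q * q)
  exact gen_fundamentalIdentity (heckeBetaBar Kbar (M' * q) q) (x' := jF (M' * q * q))
    (fbr_isIntegral_beta M' q) (fbr_finiteAlong_beta M' q)

include hq in
theorem fbr_finrank_alpha : finrankAlong Kbar (heckeAlphaBar Kbar (M' * q) q) = q := by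
  have h := finrankAlong_inclBar_prime (M' * q) hq (M' * q * q) rfl
  rw [if_pos (dvd_mul_left q M')] at h
  exact h

include hq in
theorem fbr_finrank_beta : finrankAlong Kbar (heckeBetaBar Kbar (M' * q) q) = q := by
  have h := nq2_finrankAlong_beta (M' * q) q hq
  rw [if_pos (dvd_mul_left q M')] at h
  exact h

/-! ### The family of the middle places -/

variable (ζ₀ : Kbarˣ) (hζ₀ : IsPrimitiveRoot (ζ₀ : Kbar) q)

include hq hζ₀ in
theorem fbr_prim (i : Fin (q - 1)) :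
    IsPrimitiveRoot ((ζ₀ ^ ((i : ℕ) + 1) : Kbarˣ) : Kbar) q := by
  rw [Units.val_pow_eq_pow_val]
  apply hζ₀.pow_of_coprime
  apply Nat.Coprime.symm
  rw [Nat.Prime.coprime_iff_not_dvd hq]
  intro hdvd
  have h1 := Nat.le_of_dvd (Nat.succ_pos _) hdvd
  have h2 := i.2
  omega

/-- the middle place of `ζ₀ ^ (i + 1)`, `i : Fin (q - 1)` -/
def fbmMid (i : Fin (q - 1)) : Place Kbar (FF (M' * q * q)) :=
  midPlace M' q hq hqM (ζ₀ ^ ((i : ℕ) + 1)) (fbr_prim q hq ζ₀ hζ₀ i)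

theorem fbmMid_ord (i : Fin (q - 1)) (f : FF (M' * q * q)) :
    (fbmMid M' q hq hqM ζ₀ hζ₀ i).ord f
      = (ecMid M' q hq hqM (ζ₀ ^ ((i : ℕ) + 1)) (fbr_prim q hq ζ₀ hζ₀ i) f).order :=
  midPlace_ord _ _ _ _ _ _ f

theorem fbmMid_injective : Function.Injective (fbmMid M' q hq hqM ζ₀ hζ₀) := by
  intro i j hij
  have h2 := midPlace_injective M' q hq hqM _ _ _ _ hij
  have h3 : (ζ₀ : Kbar) ^ ((i : ℕ) + 1) = (ζ₀ : Kbar) ^ ((j : ℕ) + 1) := by
    have := congrArg (fun u : Kbarˣ => (u : Kbar)) h2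
    simpa using this
  have hi := i.2
  have hj := j.2
  have h4 := hζ₀.pow_inj (by omega) (by omega) h3
  exact Fin.ext (by omega)

/-- every middle place is one of the `fbmMid i` -/
theorem fbm_exists_fbmMid (ζ : Kbarˣ) (hζ : IsPrimitiveRoot (ζ : Kbar) q) :
    ∃ i : Fin (q - 1), midPlace M' q hq hqM ζ hζ = fbmMid M' q hq hqM ζ₀ hζ₀ i := by
  have hq0 : 0 < q := hq.pos
  obtain ⟨n, hn, hnζ⟩ := hζ₀.eq_pow_of_pow_eq_one hζ.pow_eq_one
  have hn0 : n ≠ 0 := by
    rintro rfl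
    rw [pow_zero] at hnζ
    have h1 : (ζ : Kbar) = 1 := hnζ.symm
    have h2 := hζ.unique (h1 ▸ IsPrimitiveRoot.one)
    have h3 := hq.one_lt
    omega
  refine ⟨⟨n - 1, by omega⟩, ?_⟩
  have hζeq : ζ = ζ₀ ^ ((n - 1) + 1) := by
    apply Units.ext
    rw [Units.val_pow_eq_pow_val, Nat.sub_add_cancel (Nat.pos_of_ne_zero hn0)]
    exact hnζ.symm
  unfold fbmMid
  congr 1

/-- the family `{∞} ∪ {mid_i}` -/
def fbrFamInf : Option (Fin (q - 1)) → Place Kbar (FF (M' * q * q)) :=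
  fun o => o.elim (infPlaceBar (M' * q * q)) (fbmMid M' q hq hqM ζ₀ hζ₀)

/-- the family `{0} ∪ {mid_i}` -/
def fbrFamZero : Option (Fin (q - 1)) → Place Kbar (FF (M' * q * q)) :=
  fun o => o.elim (fbmZero M' q hq hqM) (fbmMid M' q hq hqM ζ₀ hζ₀)

theorem fbrFamInf_injective : Function.Injective (fbrFamInf M' q hq hqM ζ₀ hζ₀) := by
  intro a b hab
  cases a with
  | none =>
    cases b with
    | none => rfl
    | some j => exact absurd hab (fbm_inf_ne_mid M' q hq hqM _ _)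
  | some i =>
    cases b with
    | none => exact absurd hab.symm (fbm_inf_ne_mid M' q hq hqM _ _)
    | some j => exact congrArg some (fbmMid_injective M' q hq hqM ζ₀ hζ₀ hab)

theorem fbrFamZero_injective : Function.Injective (fbrFamZero M' q hq hqM ζ₀ hζ₀) := by
  intro a b hab
  cases a with
  | none =>
    cases b with
    | none => rfl
    | some j => exact absurd hab.symm (fbm_mid_ne_zero M' q hq hqM _ _)
  | some i =>
    cases b with
    | none => exact absurd hab (fbm_mid_ne_zero M' q hq hqM _ _)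
    | some j => exact congrArg some (fbmMid_injective M' q hq hqM ζ₀ hζ₀ hab)

include hq in
theorem fbr_sum_one : ∑ _o : Option (Fin (q - 1)), 1 = q := by
  rw [Finset.sum_const, Finset.card_univ, Fintype.card_option, Fintype.card_fin, smul_eq_mul,
    mul_one]
  have := hq.pos
  omega

/-! ### The fibres -/

/-- **fibres of `α`**: a place outside `{∞, 0, mid_i}` does not lie over `∞_N` or `0_N`. -/
theorem fbm_restrict_alpha (P : Place Kbar (FF (M' * q * q)))
    (hPinf : P ≠ infPlaceBar (M' * q * q)) (h0 : P ≠ fbmZero M' q hq hqM)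
    (hmid : ∀ i, P ≠ fbmMid M' q hq hqM ζ₀ hζ₀ i) :
    P.restrictAlong (heckeAlphaBar Kbar (M' * q) q) (fbr_isIntegral_alpha M' q)
        ≠ infPlaceBar (M' * q) ∧
    P.restrictAlong (heckeAlphaBar Kbar (M' * q) q) (fbr_isIntegral_alpha M' q)
        ≠ zeroPlaceBar (M' * q) q hq (dvd_mul_left q M') (inf_not_sq_dvd M' q hq hqM) := by
  haveI : HasPrincipalDivisors Kbar (FF (M' * q * q)) := wir_hasPrincipalDivisors (M' * q * q)
  constructor
  · refine fbg_restrict_ne_along (heckeAlphaBar Kbar (M' * q) q) (fbr_isIntegral_alpha M' q)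
      (fbr_fundId_alpha M' q) (wir_deg_eq_one (M' * q * q)) (infPlaceBar (M' * q))
      (wir_deg_eq_one (M' * q) _) (fbrFamInf M' q hq hqM ζ₀ hζ₀)
      (fbrFamInf_injective M' q hq hqM ζ₀ hζ₀) (fun _ => 1) (fun _ => Nat.one_pos) ?_ ?_ P ?_
    · intro o f
      rw [Nat.cast_one, one_mul]
      cases o with
      | none => exact fbm_inf_ord_alpha M' q f
      | some i => exact midPlace_ord_alpha M' q hq hqM _ _ f
    · rw [fbr_sum_one q hq, fbr_finrank_alpha M' q hq]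
    · intro o
      cases o with
      | none => exact hPinf
      | some i => exact hmid i
  · refine fbg_restrict_ne_along (heckeAlphaBar Kbar (M' * q) q) (fbr_isIntegral_alpha M' q)
      (fbr_fundId_alpha M' q) (wir_deg_eq_one (M' * q * q))
      (zeroPlaceBar (M' * q) q hq (dvd_mul_left q M') (inf_not_sq_dvd M' q hq hqM))
      (wir_deg_eq_one (M' * q) _) (fun _ : Unit => fbmZero M' q hq hqM)
      (fun _ _ _ => rfl) (fun _ => q) (fun _ => hq.pos) ?_ ?_ P (fun _ => h0)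
    · intro _ f
      exact fbmZero_ord_alpha M' q hq hqM f
    · rw [Finset.sum_const, Finset.card_univ, Fintype.card_unit, one_smul,
        fbr_finrank_alpha M' q hq]

/-- **fibres of `β`**: a place outside `{∞, 0, mid_i}` does not lie over `∞_N` or `0_N`. -/
theorem fbm_restrict_beta (P : Place Kbar (FF (M' * q * q)))
    (hPinf : P ≠ infPlaceBar (M' * q * q)) (h0 : P ≠ fbmZero M' q hq hqM)
    (hmid : ∀ i, P ≠ fbmMid M' q hq hqM ζ₀ hζ₀ i) :
    P.restrictAlong (heckeBetaBar Kbar (M' * q) q) (fbr_isIntegral_beta M' q)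
        ≠ infPlaceBar (M' * q) ∧
    P.restrictAlong (heckeBetaBar Kbar (M' * q) q) (fbr_isIntegral_beta M' q)
        ≠ zeroPlaceBar (M' * q) q hq (dvd_mul_left q M') (inf_not_sq_dvd M' q hq hqM) := by
  haveI : HasPrincipalDivisors Kbar (FF (M' * q * q)) := wir_hasPrincipalDivisors (M' * q * q)
  constructor
  · refine fbg_restrict_ne_along (heckeBetaBar Kbar (M' * q) q) (fbr_isIntegral_beta M' q)
      (fbr_fundId_beta M' q) (wir_deg_eq_one (M' * q * q)) (infPlaceBar (M' * q))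
      (wir_deg_eq_one (M' * q) _) (fun _ : Unit => infPlaceBar (M' * q * q))
      (fun _ _ _ => rfl) (fun _ => q) (fun _ => hq.pos) ?_ ?_ P (fun _ => hPinf)
    · intro _ f
      exact fbm_inf_ord_beta M' q f
    · rw [Finset.sum_const, Finset.card_univ, Fintype.card_unit, one_smul,
        fbr_finrank_beta M' q hq]
  · refine fbg_restrict_ne_along (heckeBetaBar Kbar (M' * q) q) (fbr_isIntegral_beta M' q)
      (fbr_fundId_beta M' q) (wir_deg_eq_one (M' * q * q))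
      (zeroPlaceBar (M' * q) q hq (dvd_mul_left q M') (inf_not_sq_dvd M' q hq hqM))
      (wir_deg_eq_one (M' * q) _) (fbrFamZero M' q hq hqM ζ₀ hζ₀)
      (fbrFamZero_injective M' q hq hqM ζ₀ hζ₀) (fun _ => 1) (fun _ => Nat.one_pos) ?_ ?_ P ?_
    · intro o f
      rw [Nat.cast_one, one_mul]
      cases o with
      | none => exact fbmZero_ord_beta M' q hq hqM f
      | some i => exact midPlace_ord_beta M' q hq hqM _ _ f
    · rw [fbr_sum_one q hq, fbr_finrank_beta M' q hq]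
    · intro o
      cases o with
      | none => exact h0
      | some i => exact hmid i

/-! ### Regularity -/

/-- a function of level `N` regular off `∞_N`, `0_N` is, along `α`, regular off `∞, 0, mid_i`. -/
theorem fbm_reg_alpha (Y : FF (M' * q))
    (hY : ∀ v : Place Kbar (FF (M' * q)), v ≠ infPlaceBar (M' * q) →
      v ≠ zeroPlaceBar (M' * q) q hq (dvd_mul_left q M') (inf_not_sq_dvd M' q hq hqM) →
      0 ≤ v.ord Y)
    (P : Place Kbar (FF (M' * q * q)))
    (hPinf : P ≠ infPlaceBar (M' * q * q)) (h0 : P ≠ fbmZero M' q hq hqM)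
    (hmid : ∀ i, P ≠ fbmMid M' q hq hqM ζ₀ hζ₀ i) :
    0 ≤ P.ord (heckeAlphaBar Kbar (M' * q) q Y) := by
  haveI : HasPrincipalDivisors Kbar (FF (M' * q * q)) := wir_hasPrincipalDivisors (M' * q * q)
  obtain ⟨h1, h2⟩ := fbm_restrict_alpha M' q hq hqM ζ₀ hζ₀ P hPinf h0 hmid
  exact fbg_ord_nonneg_along _ (fbr_isIntegral_alpha M' q) Y P (hY _ h1 h2)

/-- the same along `β`. -/
theorem fbm_reg_beta (Y : FF (M' * q))
    (hY : ∀ v : Place Kbar (FF (M' * q)), v ≠ infPlaceBar (M' * q) →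
      v ≠ zeroPlaceBar (M' * q) q hq (dvd_mul_left q M') (inf_not_sq_dvd M' q hq hqM) →
      0 ≤ v.ord Y)
    (P : Place Kbar (FF (M' * q * q)))
    (hPinf : P ≠ infPlaceBar (M' * q * q)) (h0 : P ≠ fbmZero M' q hq hqM)
    (hmid : ∀ i, P ≠ fbmMid M' q hq hqM ζ₀ hζ₀ i) :
    0 ≤ P.ord (heckeBetaBar Kbar (M' * q) q Y) := by
  haveI : HasPrincipalDivisors Kbar (FF (M' * q * q)) := wir_hasPrincipalDivisors (M' * q * q)
  obtain ⟨h1, h2⟩ := fbm_restrict_beta M' q hq hqM ζ₀ hζ₀ P hPinf h0 hmid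
  exact fbg_ord_nonneg_along _ (fbr_isIntegral_beta M' q) Y P (hY _ h1 h2)

/-- `g` regular off `∞'` ⟹ `π₁ g = α (α' g)` regular off `∞, 0, mid_i`. -/
theorem fbm_reg_pi1 (g : FF M')
    (hg : ∀ v' : Place Kbar (FF M'), v' ≠ infPlaceBar M' → 0 ≤ v'.ord g)
    (P : Place Kbar (FF (M' * q * q)))
    (hPinf : P ≠ infPlaceBar (M' * q * q)) (h0 : P ≠ fbmZero M' q hq hqM)
    (hmid : ∀ i, P ≠ fbmMid M' q hq hqM ζ₀ hζ₀ i) :
    0 ≤ P.ord (ecPi1 M' q g) :=
  fbm_reg_alpha M' q hq hqM ζ₀ hζ₀ _ (fun v hv hv' => exp_reg_alpha M' q hq hqM g hg v hv hv')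
    P hPinf h0 hmid

/-- `g` regular off `∞'` ⟹ `π₂ g = α (β' g)` regular off `∞, 0, mid_i`. -/
theorem fbm_reg_pi2 (g : FF M')
    (hg : ∀ v' : Place Kbar (FF M'), v' ≠ infPlaceBar M' → 0 ≤ v'.ord g)
    (P : Place Kbar (FF (M' * q * q)))
    (hPinf : P ≠ infPlaceBar (M' * q * q)) (h0 : P ≠ fbmZero M' q hq hqM)
    (hmid : ∀ i, P ≠ fbmMid M' q hq hqM ζ₀ hζ₀ i) :
    0 ≤ P.ord (ecPi2 M' q g) :=
  fbm_reg_alpha M' q hq hqM ζ₀ hζ₀ _ (fun v hv hv' => exp_reg_beta M' q hq hqM g hg v hv hv')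
    P hPinf h0 hmid

/-- `g` regular off `∞'` ⟹ `π₃ g = β (β' g)` regular off `∞, 0, mid_i`. -/
theorem fbm_reg_pi3 (g : FF M')
    (hg : ∀ v' : Place Kbar (FF M'), v' ≠ infPlaceBar M' → 0 ≤ v'.ord g)
    (P : Place Kbar (FF (M' * q * q)))
    (hPinf : P ≠ infPlaceBar (M' * q * q)) (h0 : P ≠ fbmZero M' q hq hqM)
    (hmid : ∀ i, P ≠ fbmMid M' q hq hqM ζ₀ hζ₀ i) :
    0 ≤ P.ord (ecPi3 M' q g) :=
  fbm_reg_beta M' q hq hqM ζ₀ hζ₀ _ (fun v hv hv' => exp_reg_beta M' q hq hqM g hg v hv hv')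
    P hPinf h0 hmid

/-- the products `π₁ g₁ · π₂ g₂ · π₃ g₃` are regular off `∞, 0, mid_i`. -/
theorem fbm_reg_prod (g₁ g₂ g₃ : FF M')
    (hg₁ : ∀ v' : Place Kbar (FF M'), v' ≠ infPlaceBar M' → 0 ≤ v'.ord g₁)
    (hg₂ : ∀ v' : Place Kbar (FF M'), v' ≠ infPlaceBar M' → 0 ≤ v'.ord g₂)
    (hg₃ : ∀ v' : Place Kbar (FF M'), v' ≠ infPlaceBar M' → 0 ≤ v'.ord g₃)
    (P : Place Kbar (FF (M' * q * q)))
    (hPinf : P ≠ infPlaceBar (M' * q * q)) (h0 : P ≠ fbmZero M' q hq hqM)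
    (hmid : ∀ i, P ≠ fbmMid M' q hq hqM ζ₀ hζ₀ i) :
    0 ≤ P.ord (ecPi1 M' q g₁ * ecPi2 M' q g₂ * ecPi3 M' q g₃) := by
  have h1 := fbm_reg_pi1 M' q hq hqM ζ₀ hζ₀ g₁ hg₁ P hPinf h0 hmid
  have h2 := fbm_reg_pi2 M' q hq hqM ζ₀ hζ₀ g₂ hg₂ P hPinf h0 hmid
  have h3 := fbm_reg_pi3 M' q hq hqM ζ₀ hζ₀ g₃ hg₃ P hPinf h0 hmid
  rw [← ffMem_iff_ord_nonneg] at h1 h2 h3 ⊢
  exact mul_mem (mul_mem h1 h2) h3

end Fibres

end Fermat.Agent.S36lib

end
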