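import Mathlib
import Fermat.Agent.S36lib.FibreReg
import Fermat.Agent.S36lib.SetupD1

/-!
# Item 83 (S36), interface (chief architect helper20): the set `D1` of the places over `∞'`

`s36D1 M' q hq hqM`: the cusps `∞`, `0 = w_{q²} ∞` and the middle places `mid_ζ` of level
`M = M' q²` (the fibre of `π₁` over `∞'`; helper15's `FibreMid`/`FibreReg`).  The affine ring of
item 83 is `B_{D1} = f0AffD A M (s36D1 …) O_∞ O_mid O_0` (helper24's `SetupD1`).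

* `not_mem_s36D1_iff`: the form used in `FibreReg` (`P ≠ ∞`, `P ≠ 0`, `P ≠ fbmMid i`);
* `s36D1_pi1/2/3`: `g` regular off `∞'` ⟹ `π_i g ∈ offRegular M D1`.
-/

set_option autoImplicit false
set_option linter.style.haveILetI false
set_option linter.unusedSectionVars false

noncomputable section

namespace Fermat.Agent.S36lib

open AlgebraicCurve ModularCurve HahnSeries
open Fermat.Agent.S24lib Fermat.Agent.S34lib Fermat.Agent.S37lib Fermat.Agent.HeckeBar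
open Fermat.Agent.S35lib

variable (M' q : ℕ) [NeZero M'] [NeZero q] (hq : q.Prime) (hqM : ¬ q ∣ M')

/-- the set `D1` of the places of level `M' q²` over the cusp `∞'` of level `M'` -/
def s36D1 : Set (Place Kbar (FF (M' * q * q))) :=
  {P | P = infPlaceBar (M' * q * q) ∨ P = fbmZero M' q hq hqM ∨
    ∃ (ζ : Kbarˣ) (hζ : IsPrimitiveRoot (ζ : Kbar) q), P = midPlace M' q hq hqM ζ hζ}

theorem inf_mem_s36D1 : infPlaceBar (M' * q * q) ∈ s36D1 M' q hq hqM := Or.inl rfl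

theorem zero_mem_s36D1 : fbmZero M' q hq hqM ∈ s36D1 M' q hq hqM := Or.inr (Or.inl rfl)

theorem mid_mem_s36D1 (ζ : Kbarˣ) (hζ : IsPrimitiveRoot (ζ : Kbar) q) :
    midPlace M' q hq hqM ζ hζ ∈ s36D1 M' q hq hqM := Or.inr (Or.inr ⟨ζ, hζ, rfl⟩)

variable (ζ₀ : Kbarˣ) (hζ₀ : IsPrimitiveRoot (ζ₀ : Kbar) q)

/-- the form of `P ∉ D1` used in `FibreReg` -/
theorem not_mem_s36D1_iff (P : Place Kbar (FF (M' * q * q))) :
    P ∉ s36D1 M' q hq hqM ↔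
      P ≠ infPlaceBar (M' * q * q) ∧ P ≠ fbmZero M' q hq hqM ∧
        ∀ i, P ≠ fbmMid M' q hq hqM ζ₀ hζ₀ i := by
  constructor
  · intro h
    refine ⟨fun h1 => h (Or.inl h1), fun h1 => h (Or.inr (Or.inl h1)), fun i h1 => h ?_⟩
    exact Or.inr (Or.inr ⟨_, _, h1⟩)
  · rintro ⟨h1, h2, h3⟩ (h | h | ⟨ζ, hζ, h⟩)
    · exact h1 h
    · exact h2 h
    · obtain ⟨i, hi⟩ := fbm_exists_fbmMid M' q hq hqM ζ₀ hζ₀ ζ hζ
      exact h3 i (h.trans hi)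

/-- there is a primitive `q`-th root of unity in `Kbar` -/
theorem s36_exists_zeta : ∃ ζ₀ : Kbarˣ, IsPrimitiveRoot (ζ₀ : Kbar) q := by
  obtain ⟨ζ, hζ⟩ := HasEnoughRootsOfUnity.exists_primitiveRoot (AlgebraicClosure ℚ) q
  have h0 : ζ ≠ 0 := hζ.ne_zero (NeZero.ne q)
  exact ⟨Units.mk0 ζ h0, hζ⟩

/-- membership in `offRegular` off `D1`, in the form of `FibreReg` -/
theorem mem_offRegular_s36D1 (f : FF (M' * q * q))
    (hf : ∀ P : Place Kbar (FF (M' * q * q)), P ≠ infPlaceBar (M' * q * q) →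
      P ≠ fbmZero M' q hq hqM → (∀ i, P ≠ fbmMid M' q hq hqM ζ₀ hζ₀ i) → 0 ≤ P.ord f) :
    f ∈ offRegular (M' * q * q) (s36D1 M' q hq hqM) := by
  rw [mem_offRegular_iff]
  intro P hP
  obtain ⟨h1, h2, h3⟩ := (not_mem_s36D1_iff M' q hq hqM ζ₀ hζ₀ P).1 hP
  rw [ffMem_iff_ord_nonneg]
  exact hf P h1 h2 h3

/-- `g` regular off `∞'` ⟹ `π₁ g` regular off `D1` -/
theorem s36D1_pi1 (g : FF M')
    (hg : ∀ v' : Place Kbar (FF M'), v' ≠ infPlaceBar M' → 0 ≤ v'.ord g) :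
    ecPi1 M' q g ∈ offRegular (M' * q * q) (s36D1 M' q hq hqM) := by
  obtain ⟨ζ₀, hζ₀⟩ := s36_exists_zeta q
  exact mem_offRegular_s36D1 M' q hq hqM ζ₀ hζ₀ _
    (fun P h1 h2 h3 => fbm_reg_pi1 M' q hq hqM ζ₀ hζ₀ g hg P h1 h2 h3)

/-- `g` regular off `∞'` ⟹ `π₂ g` regular off `D1` -/
theorem s36D1_pi2 (g : FF M')
    (hg : ∀ v' : Place Kbar (FF M'), v' ≠ infPlaceBar M' → 0 ≤ v'.ord g) :
    ecPi2 M' q g ∈ offRegular (M' * q * q) (s36D1 M' q hq hqM) := by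
  obtain ⟨ζ₀, hζ₀⟩ := s36_exists_zeta q
  exact mem_offRegular_s36D1 M' q hq hqM ζ₀ hζ₀ _
    (fun P h1 h2 h3 => fbm_reg_pi2 M' q hq hqM ζ₀ hζ₀ g hg P h1 h2 h3)

/-- `g` regular off `∞'` ⟹ `π₃ g` regular off `D1` -/
theorem s36D1_pi3 (g : FF M')
    (hg : ∀ v' : Place Kbar (FF M'), v' ≠ infPlaceBar M' → 0 ≤ v'.ord g) :
    ecPi3 M' q g ∈ offRegular (M' * q * q) (s36D1 M' q hq hqM) := by
  obtain ⟨ζ₀, hζ₀⟩ := s36_exists_zeta q
  exact mem_offRegular_s36D1 M' q hq hqM ζ₀ hζ₀ _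
    (fun P h1 h2 h3 => fbm_reg_pi3 M' q hq hqM ζ₀ hζ₀ g hg P h1 h2 h3)

end Fermat.Agent.S36lib

end
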