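/-
Item 83 (S36), piece NBC (helper7): NORM BASE CHANGE at the level `q²`.

For `M ∣ Mt`, `q` prime, `q ∤ Mt`: the norms `F_{Mt q²} → F_{Mt q}` along `α` and along `β`
restrict on `F_{M q²}` to the norms `F_{M q²} → F_{M q}`:

* `nbq_normCompat_alpha`, `nbq_normCompat_beta` : the two `NormCompat` squares;
* `nbq_norm_alpha_incl`, `nbq_norm_beta_incl` : the same in the form of `S35lib/DescK`;
* `nbq_isKummerNew_incl` : `IsKummerNew (M q) q m f → IsKummerNew (Mt q) q m (incl f)`.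

Proof: `HeckeBar.normCompat_of_adjoin` (generation + equal degrees).  Degrees: both `α` and `β`
have degree `ψ(Nq)/ψ(N)` (`nbq_psi_mul_finrankAlong_beta`).  Generation, `α`-side: the degree is
the prime `q` and `j(M q² z)` is not in `F_{Mt q}` (it is moved by `(1 0; Mt q 1) ∈ Γ₀(Mt q)`).
Generation, `β`-side: `F_L = ℚ̄(j, j_L)`.  No sorry.
-/
import Mathlib
import Fermat.Agent.HeckeBar.ModDeg
import Fermat.Agent.S37lib.NormConj
import Fermat.Agent.S35lib.Frob2K
import Fermat.Agent.S35lib.DegJBeta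
import Fermat.Agent.S36lib.Speed

set_option autoImplicit false
set_option linter.style.haveILetI false
set_option linter.unusedSectionVars false

open scoped MatrixGroups
open UpperHalfPlane ModularCurve CongruenceSubgroup AlgebraicCurve IntermediateField
open Fermat.Agent.S24lib Fermat.Agent.HeckeBar Fermat.Agent.S37lib

noncomputable section

namespace Fermat.Agent.S36lib

section Alpha

variable (N ℓ : ℕ) [NeZero N] [NeZero ℓ]

/-- the matrix `(1 0; N 1)` -/
def nbqMat (N : ℕ) : SL(2, ℤ) :=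
  ⟨!![1, 0; (N : ℤ), 1], by simp [Matrix.det_fin_two]⟩

theorem nbqMat_10 (N : ℕ) : (nbqMat N) 1 0 = (N : ℤ) := rfl

theorem nbqMat_mem (N : ℕ) : nbqMat N ∈ Gamma0 N :=
  nc_h_mem_Gamma0 N (nbqMat N) (nbqMat_10 N)

/-- `j(d z) ∈ F_{Nℓ}` is not in `F_N` when `d ∤ N`. -/
theorem nbq_jdF_notMem (d : ℕ) [NeZero d] (hd : d ∣ N * ℓ) (hdN : ¬ d ∣ N) (Y : FF N) :
    heckeAlphaBar Kbar N ℓ Y ≠ jdF (N * ℓ) d hd := by
  intro hY
  have h1 := nc_embF_twist_alpha N ℓ (nbqMat N) (nbqMat_mem N) Y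
  have h2 := nc_embF_expInf (N * ℓ) (heckeAlphaBar Kbar N ℓ Y)
  rw [coe_heckeAlphaBar] at h2
  rw [← h2, hY, embF_jdF, embF_jdF, twist_apply] at h1
  have h3 : nbqMat N • jdWH (N * ℓ) d hd = jdWH (N * ℓ) d hd := expInf_injective (N * ℓ) h1
  have h4 : (nbqMat N)⁻¹ * (1 : SL(2, ℤ)) ∈ Gamma0 d := by
    apply jN_comp_inv_injective
    intro z
    have h5 := congrArg (fun φ : WH (N * ℓ) => (φ : ℍ → ℂ) z) h3
    simp only [wh_smul_apply] at h5
    have e1 : ((jdWH (N * ℓ) d hd : WH (N * ℓ)) : ℍ → ℂ) = jdH d := rfl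
    rw [e1, jdH_eq_jFun, jdH_eq_jFun] at h5
    rw [inv_one, one_smul]
    exact h5
  rw [mul_one] at h4
  have h6 : nbqMat N ∈ Gamma0 d := by
    have := inv_mem h4
    rwa [inv_inv] at this
  rw [Gamma0_mem] at h6
  rw [nbqMat_10] at h6
  apply hdN
  have h7 : ((N : ℤ) : ZMod d) = 0 := h6
  have h8 : ((N : ℕ) : ZMod d) = 0 := by exact_mod_cast h7
  exact (ZMod.natCast_eq_zero_iff N d).mp h8

end Alpha

section Degree

/-- the degree along `w ∘ α` is the degree along `α`, for an automorphism `w` of the target -/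
theorem nbq_finrankAlong_comp_equiv {K : Type*} [Field K] {F F' : Type*} [Field F] [Field F']
    [Algebra K F] [Algebra K F'] (α : F →ₐ[K] F') (w : F' ≃ₐ[K] F') :
    finrankAlong K ((w : F' →ₐ[K] F').comp α) = finrankAlong K α := by
  unfold finrankAlong
  symm
  exact @Algebra.finrank_eq_of_equiv_equiv F F' _ _ (algebraAlong α) F F' _ _
    (algebraAlong ((w : F' →ₐ[K] F').comp α)) (RingEquiv.refl F) w.toRingEquiv
    (RingHom.ext fun _ => rfl)

variable (N q : ℕ) [NeZero N] [NeZero q]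

/-- the degree of `β : F_1 → F_q` is `q + 1` -/
theorem nbq_finrankAlong_beta_one (hq : q.Prime) :
    finrankAlong Kbar (heckeBetaBar Kbar 1 q) = q + 1 := by
  have hq1 : ¬ q ∣ 1 := fun h => hq.one_lt.ne' (Nat.dvd_one.mp h)
  rw [← Fermat.Agent.S35lib.dgj_al_alpha_eq_beta 1 hq hq1, nbq_finrankAlong_comp_equiv,
    heckeAlphaBar_eq_inclBar, finrankAlong_inclBar_prime 1 hq (1 * q) rfl, if_neg hq1]

/-- `[F_{1·q} : ℚ̄(j_q)] = q + 1` -/
theorem nbq_finrank_jq_one (hq : q.Prime) :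
    Module.finrank Kbar⟮jdF (1 * q) q (dvd_mul_left q 1)⟯ (FF (1 * q)) = q + 1 := by
  have h1 := finrank_adjoin_mul_finrankAlong (heckeBetaBar Kbar 1 q) (jF 1)
  rw [fin_finrank, nbq_finrankAlong_beta_one q hq, heckeBetaBar_eq_qpowBar, qpowBar_jF] at h1
  rw [← h1, dedekindPsi_one, one_mul]

/-- `[F_{Nq} : ℚ̄(j_q)] = ψ(Nq)` -/
theorem nbq_finrank_jq (hq : q.Prime) :
    Module.finrank Kbar⟮jdF (N * q) q (dvd_mul_left q N)⟯ (FF (N * q)) = dedekindPsi (N * q) := by
  have hd : 1 * q ∣ N * q := Nat.mul_dvd_mul_right (one_dvd N) q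
  have hq1 : ¬ q ∣ 1 := fun h => hq.one_lt.ne' (Nat.dvd_one.mp h)
  have h1 := finrank_adjoin_mul_finrankAlong (inclBar (1 * q) (N * q) hd)
    (jdF (1 * q) q (dvd_mul_left q 1))
  rw [nbq_finrank_jq_one q hq, inclBar_jdF] at h1
  have h2 := dedekindPsi_mul_finrankAlong_inclBar (1 * q) (N * q) hd
  have h4 : dedekindPsi (1 * q) = q + 1 := by
    rw [mul_comm 1 q, Fermat.Agent.S20lib.dedekindPsi_prime_mul_of_not_dvd hq one_ne_zero hq1,
      dedekindPsi_one, mul_one]
  rw [h4] at h2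
  rw [← h1, h2]

/-- **the degree of `β`**: `ψ(N) · [F_{Nq} : β F_N] = ψ(Nq)` -/
theorem nbq_psi_mul_finrankAlong_beta (hq : q.Prime) :
    dedekindPsi N * finrankAlong Kbar (heckeBetaBar Kbar N q) = dedekindPsi (N * q) := by
  have h1 := finrank_adjoin_mul_finrankAlong (heckeBetaBar Kbar N q) (jF N)
  have e : heckeBetaBar Kbar N q (jF N) = jdF (N * q) q (dvd_mul_left q N) := by
    rw [heckeBetaBar_eq_qpowBar, qpowBar_jF]
  rw [fin_finrank, e, nbq_finrank_jq N q hq] at h1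
  exact h1

/-- the degree of `β : F_{Nq} → F_{Nq²}` is `q` -/
theorem nbq_finrankAlong_beta (hq : q.Prime) :
    finrankAlong Kbar (heckeBetaBar Kbar (N * q) q) = q := by
  have h1 := nbq_psi_mul_finrankAlong_beta (N * q) q hq
  have hN : N * q ≠ 0 := NeZero.ne (N * q)
  have h3 : dedekindPsi (N * q * q) = dedekindPsi (N * q) * q := by
    rw [mul_comm (N * q) q, Fermat.Agent.S20lib.dedekindPsi_prime_mul_of_dvd hq hN
      (dvd_mul_left q N), mul_comm q]
  rw [h3] at h1
  exact Nat.eq_of_mul_eq_mul_left (dedekindPsi_pos (N * q)) h1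

end Degree

section Square

variable (M Mt q : ℕ) [NeZero M] [NeZero Mt] [NeZero q]

/-- the degree of `α : F_{Nq} → F_{Nq²}` is `q` -/
theorem nbq_finrankAlong_alpha (hq : q.Prime) :
    finrankAlong Kbar (heckeAlphaBar Kbar (M * q) q) = q := by
  rw [heckeAlphaBar_eq_inclBar, finrankAlong_inclBar_prime (M * q) hq (M * q * q) rfl,
    if_pos (dvd_mul_left q M)]

/-- generation, `α`-side: `F_{Mt q²}` is generated over `F_{Mt q}` by `F_{M q²}` -/
theorem nbq_adjoin_alpha (hq : q.Prime) (hqMt : ¬ q ∣ Mt) (h : M ∣ Mt) :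
    letI := algebraAlong (heckeAlphaBar Kbar (Mt * q) q)
    Algebra.adjoin (FF (Mt * q))
      (Set.range (inclBar (M * q * q) (Mt * q * q)
        (Nat.mul_dvd_mul_right (Nat.mul_dvd_mul_right h q) q))) = ⊤ := by
  letI := algebraAlong (heckeAlphaBar Kbar (Mt * q) q)
  haveI : IsScalarTower Kbar (FF (Mt * q)) (FF (Mt * q * q)) :=
    isScalarTower_along (heckeAlphaBar Kbar (Mt * q) q)
  haveI : Module.Finite (FF (Mt * q)) (FF (Mt * q * q)) :=
    finiteAlong_inclBar (Mt * q) (Mt * q * q) (dvd_mul_right _ _)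
  have hprime : (Module.finrank (FF (Mt * q)) (FF (Mt * q * q))).Prime := by
    have := nbq_finrankAlong_alpha Mt q hq
    unfold finrankAlong at this
    rw [this]
    exact hq
  haveI := IntermediateField.isSimpleOrder_of_finrank_prime (FF (Mt * q)) (FF (Mt * q * q)) hprime
  rw [← IntermediateField.adjoin_toSubalgebra, ← IntermediateField.top_toSubalgebra]
  congr 1
  rcases eq_bot_or_eq_top (IntermediateField.adjoin (FF (Mt * q))
    (Set.range (inclBar (M * q * q) (Mt * q * q)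
      (Nat.mul_dvd_mul_right (Nat.mul_dvd_mul_right h q) q)))) with hbot | htop
  · exfalso
    have hd : M * q * q ∣ Mt * q * q := Nat.mul_dvd_mul_right (Nat.mul_dvd_mul_right h q) q
    have hdN : ¬ M * q * q ∣ Mt * q := by
      intro h'
      have h1 : q * q ∣ Mt * q := (dvd_mul_left (q * q) M).trans (by rwa [mul_assoc] at h')
      exact hqMt (Nat.dvd_of_mul_dvd_mul_right hq.pos h1)
    have hx : (jdF (Mt * q * q) (M * q * q) hd) ∈ IntermediateField.adjoin (FF (Mt * q))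
        (Set.range (inclBar (M * q * q) (Mt * q * q) hd)) := by
      apply IntermediateField.subset_adjoin
      refine ⟨jdF (M * q * q) (M * q * q) dvd_rfl, ?_⟩
      rw [inclBar_jdF]
    rw [hbot, IntermediateField.mem_bot] at hx
    obtain ⟨Y, hY⟩ := hx
    exact nbq_jdF_notMem (Mt * q) q (M * q * q) hd hdN Y hY
  · exact htop

/-- **Norm base change, `α`-side** (as a `NormCompat` square). -/
theorem nbq_normCompat_alpha (hq : q.Prime) (hqMt : ¬ q ∣ Mt) (h : M ∣ Mt) :
    NormCompat (inclBar (M * q) (Mt * q) (Nat.mul_dvd_mul_right h q))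
      (heckeAlphaBar Kbar (M * q) q) (heckeAlphaBar Kbar (Mt * q) q)
      (inclBar (M * q * q) (Mt * q * q) (Nat.mul_dvd_mul_right (Nat.mul_dvd_mul_right h q) q)) := by
  refine normCompat_of_adjoin _ _ _ _ ?_ ?_ (nbq_adjoin_alpha M Mt q hq hqMt h) ?_
  · rw [heckeAlphaBar_eq_inclBar, heckeAlphaBar_eq_inclBar, inclBar_comp_inclBar,
      inclBar_comp_inclBar]
  · rw [heckeAlphaBar_eq_inclBar]
    exact finiteAlong_inclBar _ _ _
  · rw [nbq_finrankAlong_alpha Mt q hq, nbq_finrankAlong_alpha M q hq]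

/-- generation, `β`-side: `F_{Mt q²}` is generated over `β F_{Mt q}` by `F_{M q²}` -/
theorem nbq_adjoin_beta (h : M ∣ Mt) :
    letI := algebraAlong (heckeBetaBar Kbar (Mt * q) q)
    Algebra.adjoin (FF (Mt * q))
      (Set.range (inclBar (M * q * q) (Mt * q * q)
        (Nat.mul_dvd_mul_right (Nat.mul_dvd_mul_right h q) q))) = ⊤ := by
  letI := algebraAlong (heckeBetaBar Kbar (Mt * q) q)
  haveI : IsScalarTower Kbar (FF (Mt * q)) (FF (Mt * q * q)) :=
    isScalarTower_along (heckeBetaBar Kbar (Mt * q) q)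
  haveI : Module.Finite (FF (Mt * q)) (FF (Mt * q * q)) := by
    have := finiteAlong_qpowBar (Mt * q) (Mt * q * q) q dvd_rfl
    rwa [← heckeBetaBar_eq_qpowBar] at this
  rw [← IntermediateField.adjoin_toSubalgebra, ← IntermediateField.top_toSubalgebra]
  congr 1
  rw [← IntermediateField.restrictScalars_eq_top_iff (K := Kbar), eq_top_iff,
    ← adjoin_jF_jdF_eq_top (Mt * q * q), IntermediateField.adjoin_le_iff]
  rintro y (rfl | rfl)
  · rw [SetLike.mem_coe, IntermediateField.mem_restrictScalars]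
    apply IntermediateField.subset_adjoin
    exact ⟨jF (M * q * q), inclBar_jF _ _ _⟩
  · rw [SetLike.mem_coe, IntermediateField.mem_restrictScalars]
    have e : jdF (Mt * q * q) (Mt * q * q) dvd_rfl
        = heckeBetaBar Kbar (Mt * q) q (jdF (Mt * q) (Mt * q) dvd_rfl) := by
      rw [heckeBetaBar_eq_qpowBar, qpowBar_jdF]
      exact jdF_congr (Mt * q * q) _ _ (mul_comm _ _) _
    rw [e]
    exact IntermediateField.algebraMap_mem _ (jdF (Mt * q) (Mt * q) dvd_rfl)

/-- **Norm base change, `β`-side** (as a `NormCompat` square). -/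
theorem nbq_normCompat_beta (hq : q.Prime) (h : M ∣ Mt) :
    NormCompat (inclBar (M * q) (Mt * q) (Nat.mul_dvd_mul_right h q))
      (heckeBetaBar Kbar (M * q) q) (heckeBetaBar Kbar (Mt * q) q)
      (inclBar (M * q * q) (Mt * q * q) (Nat.mul_dvd_mul_right (Nat.mul_dvd_mul_right h q) q)) := by
  refine normCompat_of_adjoin _ _ _ _ ?_ ?_ (nbq_adjoin_beta M Mt q h) ?_
  · rw [heckeBetaBar_eq_qpowBar, heckeBetaBar_eq_qpowBar, qpowBar_comp_inclBar,
      inclBar_comp_qpowBar]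
  · rw [heckeBetaBar_eq_qpowBar]
    exact finiteAlong_qpowBar _ _ _ _
  · rw [nbq_finrankAlong_beta Mt q hq, nbq_finrankAlong_beta M q hq]

/-- **Norm base change, `α`.** -/
theorem nbq_norm_alpha_incl (hq : q.Prime) (hqMt : ¬ q ∣ Mt) (h : M ∣ Mt) (x : FF (M * q * q)) :
    (letI := algebraAlong (heckeAlphaBar Kbar (Mt * q) q)
     Algebra.norm (FF (Mt * q)) (inclBar (M * q * q) (Mt * q * q)
       (Nat.mul_dvd_mul_right (Nat.mul_dvd_mul_right h q) q) x))
    = inclBar (M * q) (Mt * q) (Nat.mul_dvd_mul_right h q)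
        (letI := algebraAlong (heckeAlphaBar Kbar (M * q) q)
         Algebra.norm (FF (M * q)) x) :=
  nbq_normCompat_alpha M Mt q hq hqMt h x

/-- **Norm base change, `β`.** -/
theorem nbq_norm_beta_incl (hq : q.Prime) (h : M ∣ Mt) (x : FF (M * q * q)) :
    (letI := algebraAlong (heckeBetaBar Kbar (Mt * q) q)
     Algebra.norm (FF (Mt * q)) (inclBar (M * q * q) (Mt * q * q)
       (Nat.mul_dvd_mul_right (Nat.mul_dvd_mul_right h q) q) x))
    = inclBar (M * q) (Mt * q) (Nat.mul_dvd_mul_right h q)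
        (letI := algebraAlong (heckeBetaBar Kbar (M * q) q)
         Algebra.norm (FF (M * q)) x) :=
  nbq_normCompat_beta M Mt q hq h x

/-- **(NBC)**: `IsKummerNew` at the level `q²` goes up along `F_{M q²} ⊂ F_{Mt q²}`. -/
theorem nbq_isKummerNew_incl (hq : q.Prime) (hqMt : ¬ q ∣ Mt) (h : M ∣ Mt) (m : ℕ)
    (f : FF (M * q * q)) (hf : Fermat.Agent.S35lib.IsKummerNew (M * q) q m f) :
    Fermat.Agent.S35lib.IsKummerNew (Mt * q) q m
      (inclBar (M * q * q) (Mt * q * q)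
        (Nat.mul_dvd_mul_right (Nat.mul_dvd_mul_right h q) q) f) := by
  obtain ⟨⟨c, g, hg⟩, ⟨c', g', hg'⟩⟩ := hf
  refine ⟨⟨c, inclBar (M * q) (Mt * q) (Nat.mul_dvd_mul_right h q) g, ?_⟩,
    ⟨c', inclBar (M * q) (Mt * q) (Nat.mul_dvd_mul_right h q) g', ?_⟩⟩
  · rw [nbq_norm_alpha_incl M Mt q hq hqMt h f, hg, map_mul, map_pow, AlgHom.commutes]
  · rw [nbq_norm_beta_incl M Mt q hq h f, hg', map_mul, map_pow, AlgHom.commutes]

end Square

end Fermat.Agent.S36lib

end
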