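/-
Item 83 (S36), piece V-B (helper7): **hred at the level `q²`**.

`M = M' q²`, `q ∤ M'`, `A ⊂ ℚ̄` a valuation ring over `q` with residue field `k`: the
coefficientwise reduction of every `A`-integral `q`-expansion lying in `F_M` lies in `F_{M',k}`
(`hq2_hred`); hence the Gauss valuation of the `q`-expansion at `∞` is a constant reduction
`R∞ : ConstRed A res F_{M',k} F_M` with `IsSeriesRed` (`hq2_exists_constRedInf`).

Proof: one-valuation inequality along `β : F_{M'q} → F_{M'q²}` (degree `q`,
`nbq_finrankAlong_beta`).  The restriction of `v_∞` to `β F_{M'q}` has residue field inside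
`φ(κ')`, `κ' = F_{M',k}`, `φ x = x(X^q)` (from `hred_semistable` at the level `M' q`); the powers
`1, j̄, …, j̄^{q-1}` are linearly independent over `φ(κ')` (orders), and an element outside `κ'`
would give `q + 1` independent reductions.  Helper lemmas are prefixed `hq2_`.
-/
import Mathlib
import Fermat.Agent.S34lib.ConstRedInf
import Fermat.Agent.S34lib.VKron
import Fermat.Agent.GM.RedGenBase
import Fermat.Agent.S36lib.NormBCQ2

set_option autoImplicit false
set_option linter.style.haveILetI false
set_option linter.unusedSectionVars false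
set_option synthInstance.maxHeartbeats 400000

noncomputable section

namespace Fermat.Agent.S36lib

open ModularCurve AlgebraicCurve Fermat.Agent.GoodRed Fermat.Agent.HeckeBar Fermat.Agent.S24lib
open Fermat.Agent.S34lib Fermat.Agent.GM Fermat.Agent.S37lib

/-! ### the one-valuation inequality, relative form -/

section Abstract

variable {K : Type*} [Field K] {A : ValuationSubring K}
variable {F₁ F : Type*} [Field F₁] [Field F] [Algebra K F₁] [Algebra K F]
variable {L : Type*} [Field L] [Algebra (IsLocalRing.ResidueField A) L]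

/-- a constant lying in the unit ball lies in `A` -/
theorem hq2_const_mem (R : VRed A F L) {c : K} (hc : algebraMap K F c ∈ R.O) : c ∈ A := by
  by_contra hcA
  have hc0 : c ≠ 0 := fun h0 => hcA (h0 ▸ A.zero_mem)
  have hlt : A.valuation c⁻¹ < 1 := by
    have h1 : ¬ A.valuation c ≤ 1 := fun h => hcA ((A.valuation_le_one_iff c).mp h)
    rw [map_inv₀]
    exact inv_lt_one_of_one_lt₀ (not_le.mp h1)
  obtain ⟨h, hr⟩ := R.red_eq_zero_of_valuation_lt hlt
  have h1 : (⟨algebraMap K F c, hc⟩ : R.O) * ⟨algebraMap K F c⁻¹, h⟩ = 1 := by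
    apply Subtype.ext
    show algebraMap K F c * algebraMap K F c⁻¹ = 1
    rw [← map_mul, mul_inv_cancel₀ hc0, map_one]
  have h2 := congrArg R.red h1
  rw [map_mul, hr, mul_zero, map_one] at h2
  exact zero_ne_one h2

/-- **the one-valuation inequality**: reductions linearly independent over a field containing the
residue field of the restriction to `β F₁` are at most `[F : β F₁]` in number. -/
theorem hq2_card_le (R : VRed A F L) (β : F₁ →ₐ[K] F) (hfin : FiniteAlong K β)
    (L₁ : Subfield L)
    (hβ : ∀ (x : F₁) (h : β x ∈ R.O), R.red ⟨β x, h⟩ ∈ L₁)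
    {ι : Type*} [Fintype ι] (u : ι → R.O)
    (hLI : LinearIndependent L₁ (fun i => R.red (u i))) :
    Fintype.card ι ≤ finrankAlong K β := by
  classical
  letI := algebraAlong β
  haveI : Module.Finite F₁ F := hfin
  have hli : LinearIndependent F₁ (fun i => ((u i : R.O) : F)) := by
    rw [Fintype.linearIndependent_iff]
    intro g hg
    by_contra hne
    push Not at hne
    obtain ⟨i₁, hi₁⟩ := hne
    -- the constants
    have hex : ∀ i, ∃ d : K, g i ≠ 0 → d ≠ 0 ∧ algebraMap K F d * β (g i) ∈ R.O ∧
        (algebraMap K F d * β (g i))⁻¹ ∈ R.O := by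
      intro i
      by_cases h0 : g i = 0
      · exact ⟨0, fun h => absurd h0 h⟩
      · obtain ⟨d, hd, h1, h2⟩ := R.exists_unit_smul (β (g i)) ((map_ne_zero β).mpr h0)
        exact ⟨d, fun _ => ⟨hd, h1, h2⟩⟩
    choose d hd using hex
    -- the index of maximal absolute value
    set S : Finset ι := Finset.univ.filter fun i => g i ≠ 0 with hS
    have hSne : S.Nonempty := ⟨i₁, Finset.mem_filter.mpr ⟨Finset.mem_univ _, hi₁⟩⟩
    obtain ⟨i₀, hi₀S, hmin⟩ := Finset.exists_min_image S (fun i => A.valuation (d i)) hSne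
    have hi₀ : g i₀ ≠ 0 := (Finset.mem_filter.mp hi₀S).2
    obtain ⟨hd₀, hu₀, hu₀'⟩ := hd i₀ hi₀
    have hβ₀ : β (g i₀) ≠ 0 := (map_ne_zero β).mpr hi₀
    -- the ratios lie in the unit ball
    have hratio : ∀ i, β (g i / g i₀) ∈ R.O := by
      intro i
      by_cases h0 : g i = 0
      · rw [h0, zero_div, map_zero]
        exact R.O.zero_mem
      · obtain ⟨hdi, hui, -⟩ := hd i h0
        have hle : A.valuation (d i₀) ≤ A.valuation (d i) :=
          hmin i (Finset.mem_filter.mpr ⟨Finset.mem_univ _, h0⟩)
        have hcA : d i₀ / d i ∈ A := by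
          rw [← A.valuation_le_one_iff, map_div₀]
          exact div_le_one_of_le₀ hle zero_le
        have e : β (g i / g i₀) = algebraMap K F (d i₀ / d i) *
            ((algebraMap K F (d i) * β (g i)) * (algebraMap K F (d i₀) * β (g i₀))⁻¹) := by
          have h1 : algebraMap K F (d i) ≠ 0 := (map_ne_zero _).mpr hdi
          have h2 : algebraMap K F (d i₀) ≠ 0 := (map_ne_zero _).mpr hd₀
          rw [map_div₀, map_div₀]
          field_simp
        rw [e]
        exact R.O.mul_mem (R.algebraMap_mem ⟨_, hcA⟩) (R.O.mul_mem hui hu₀')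
    -- the relation in the unit ball
    have hrel : ∑ i, (⟨β (g i / g i₀), hratio i⟩ : R.O) * u i = 0 := by
      apply Subtype.ext
      have h1 : ((∑ i, (⟨β (g i / g i₀), hratio i⟩ : R.O) * u i : R.O) : F)
          = ∑ i, β (g i / g i₀) * ((u i : R.O) : F) := by
        rw [← R.O.subtype_apply, map_sum]
        rfl
      rw [h1]
      have h2 : ∑ i, β (g i / g i₀) * ((u i : R.O) : F)
          = (β (g i₀))⁻¹ * ∑ i, g i • ((u i : R.O) : F) := by
        rw [Finset.mul_sum]
        refine Finset.sum_congr rfl fun i _ => ?_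
        rw [map_div₀, Algebra.smul_def]
        show β (g i) / β (g i₀) * _ = (β (g i₀))⁻¹ * (β (g i) * _)
        ring
      rw [h2, hg, mul_zero]
      rfl
    have hred := congrArg R.red hrel
    rw [map_sum, map_zero] at hred
    have hred' : ∑ i, (⟨R.red ⟨β (g i / g i₀), hratio i⟩, hβ _ _⟩ : L₁) • R.red (u i) = 0 := by
      rw [← hred]
      refine Finset.sum_congr rfl fun i _ => ?_
      rw [map_mul]
      rfl
    have h0 := Fintype.linearIndependent_iff.mp hLI _ hred' i₀
    have h1 : R.red ⟨β (g i₀ / g i₀), hratio i₀⟩ = 0 := congrArg Subtype.val h0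
    have h2 : (⟨β (g i₀ / g i₀), hratio i₀⟩ : R.O) = 1 := by
      apply Subtype.ext
      show β (g i₀ / g i₀) = 1
      rw [div_self hi₀, map_one]
    rw [h2, map_one] at h1
    exact one_ne_zero h1
  have := hli.fintype_card_le_finrank
  exact this

end Abstract

/-! ### linear independence in `k((X))` by orders -/

section Series

variable {k : Type*} [Field k]

/-- a finite family of Laurent series whose nonzero members have pairwise distinct orders and
whose sum vanishes consists of zeros -/
theorem hq2_eq_zero_of_sum {ι : Type*} [Fintype ι] (f : ι → LaurentSeries k)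
    (hinj : ∀ i j, f i ≠ 0 → f j ≠ 0 → (f i).order = (f j).order → i = j)
    (hsum : ∑ i, f i = 0) : ∀ i, f i = 0 := by
  classical
  by_contra hne
  push Not at hne
  obtain ⟨i₁, hi₁⟩ := hne
  set S : Finset ι := Finset.univ.filter fun i => f i ≠ 0 with hS
  have hSne : S.Nonempty := ⟨i₁, Finset.mem_filter.mpr ⟨Finset.mem_univ _, hi₁⟩⟩
  obtain ⟨i₀, hi₀S, hmin⟩ := Finset.exists_min_image S (fun i => (f i).order) hSne
  have hi₀ : f i₀ ≠ 0 := (Finset.mem_filter.mp hi₀S).2
  have hc : (∑ i, f i).coeff (f i₀).order = 0 := by rw [hsum, HahnSeries.coeff_zero]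
  rw [HahnSeries.coeff_sum, Finset.sum_eq_single i₀] at hc
  · exact HahnSeries.coeff_order_eq_zero.not.mpr hi₀ hc
  · intro i _ hi
    by_cases h0 : f i = 0
    · rw [h0, HahnSeries.coeff_zero]
    · have hle : (f i₀).order ≤ (f i).order :=
        hmin i (Finset.mem_filter.mpr ⟨Finset.mem_univ _, h0⟩)
      have hne' : (f i₀).order ≠ (f i).order := fun h => hi (hinj i i₀ h0 hi₀ h.symm)
      exact HahnSeries.coeff_eq_zero_of_lt_order (lt_of_le_of_ne hle hne')
  · intro h
    exact absurd (Finset.mem_univ _) h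

/-- the powers `1, x, …, x^{q-1}` of a series of order `-1` are linearly independent over a
subfield all of whose elements have order divisible by `q` -/
theorem hq2_li_pow (q : ℕ) (L₁ : Subfield (LaurentSeries k))
    (hL₁ : ∀ c ∈ L₁, (q : ℤ) ∣ c.order) {x : LaurentSeries k} (hx : x.order = -1) :
    LinearIndependent L₁ (fun i : Fin q => x ^ (i : ℕ)) := by
  rw [Fintype.linearIndependent_iff]
  intro g hg
  have hx0 : x ≠ 0 := by
    intro h
    rw [h, HahnSeries.order_zero] at hx
    omega
  have hord : ∀ i : Fin q, (g i : LaurentSeries k) ≠ 0 →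
      ((g i : LaurentSeries k) * x ^ (i : ℕ)).order = (g i : LaurentSeries k).order - (i : ℕ) := by
    intro i hi
    rw [HahnSeries.order_mul hi (pow_ne_zero _ hx0), HahnSeries.order_pow, hx]
    simp
    ring
  have key := hq2_eq_zero_of_sum (fun i : Fin q => (g i : LaurentSeries k) * x ^ (i : ℕ)) ?_ hg
  · intro i
    have h := key i
    rcases mul_eq_zero.mp h with h | h
    · exact Subtype.ext h
    · exact absurd h (pow_ne_zero _ hx0)
  · intro i j hi hj hij
    have hi' : (g i : LaurentSeries k) ≠ 0 := left_ne_zero_of_mul hi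
    have hj' : (g j : LaurentSeries k) ≠ 0 := left_ne_zero_of_mul hj
    rw [hord i hi', hord j hj'] at hij
    obtain ⟨a, ha⟩ := hL₁ _ (g i).2
    obtain ⟨b, hb⟩ := hL₁ _ (g j).2
    rw [ha, hb] at hij
    have hqpos : (0 : ℤ) < q := by
      have := i.2
      have : 0 < q := by omega
      exact_mod_cast this
    have h1 : ((i : ℕ) : ℤ) % q = ((j : ℕ) : ℤ) % q := by
      have e : ((i : ℕ) : ℤ) = ((j : ℕ) : ℤ) + q * (a - b) := by linarith
      rw [e, Int.add_mul_emod_self_left]
    rw [Int.emod_eq_of_lt (by positivity) (by exact_mod_cast i.2),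
      Int.emod_eq_of_lt (by positivity) (by exact_mod_cast j.2)] at h1
    exact Fin.ext (by exact_mod_cast h1)

/-- adding an element outside a field `Fk ⊇ L₁ ∪ {x}` keeps the independence -/
theorem hq2_li_snoc (q : ℕ) (L₁ Fk : Subfield (LaurentSeries k)) (hle : L₁ ≤ Fk)
    (hL₁ : ∀ c ∈ L₁, (q : ℤ) ∣ c.order) {x : LaurentSeries k} (hx : x.order = -1)
    (hxF : x ∈ Fk) {a : LaurentSeries k} (ha : a ∉ Fk) :
    LinearIndependent L₁
      (Fin.snoc (fun i : Fin q => x ^ (i : ℕ)) a : Fin (q + 1) → LaurentSeries k) := by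
  rw [Fintype.linearIndependent_iff]
  intro g hg
  rw [Fin.sum_univ_castSucc] at hg
  simp only [Fin.snoc_last, Fin.snoc_castSucc] at hg
  have hlast : g (Fin.last q) = 0 := by
    by_contra hQ
    have hQ' : (g (Fin.last q) : LaurentSeries k) ≠ 0 := fun h => hQ (Subtype.ext h)
    apply ha
    have h1 : a = -(∑ i : Fin q, (g i.castSucc : LaurentSeries k) * x ^ (i : ℕ)) *
        (g (Fin.last q) : LaurentSeries k)⁻¹ := by
      have h2 : (∑ i : Fin q, (g i.castSucc : LaurentSeries k) * x ^ (i : ℕ)) +
          (g (Fin.last q) : LaurentSeries k) * a = 0 := hg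
      field_simp
      linear_combination h2
    rw [h1]
    exact Fk.mul_mem (Fk.neg_mem (Fk.sum_mem fun i _ => Fk.mul_mem (hle (g i.castSucc).2)
      (Fk.pow_mem hxF _))) (Fk.inv_mem (hle (g (Fin.last q)).2))
  rw [hlast, zero_smul, add_zero] at hg
  have h0 := Fintype.linearIndependent_iff.mp (hq2_li_pow q L₁ hL₁ hx)
    (fun i => g i.castSucc) hg
  intro j
  refine Fin.lastCases ?_ (fun i => ?_) j
  · exact hlast
  · exact h0 i

end Series

/-! ### the level `M' q²` -/

section Concrete

variable (M' q : ℕ) [NeZero M'] (hq : q.Prime) (hqM : ¬ q ∣ M')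
variable (A : ValuationSubring Kbar) (hA : A.LiesOverPrime q)

/-- the constant `c`, as an element of `F_N`, is the series `C c` -/
theorem hq2_coe_algebraMap (N : ℕ) (c : Kbar) :
    ((algebraMap Kbar (FF N) c : FF N) : LaurentSeries Kbar) = HahnSeries.C c := by
  show algebraMap Kbar (LaurentSeries Kbar) c = _
  rw [algebraMap_laurentSeries_eq_single]
  rfl

include hq hqM hA in
/-- `hred` at the level `M' q` (`q ‖ M' q`), residue level `M'` -/
theorem hq2_hred_one : ∀ y : LaurentSeries A,
    coeffMap A.subtype y ∈ modularFunctionFieldBar (M' * q) →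
      coeffMap (IsLocalRing.residue A) y ∈
        modularFunctionFieldFullC (IsLocalRing.ResidueField A) M' := by
  haveI : NeZero (M' * q) := ⟨Nat.mul_ne_zero (NeZero.ne M') hq.ne_zero⟩
  have hq2 : ¬ q ^ 2 ∣ M' * q := by
    intro h
    rw [pow_two] at h
    exact hqM (Nat.dvd_of_mul_dvd_mul_right hq.pos h)
  have hdiv : M' * q / q = M' := Nat.mul_div_cancel M' hq.pos
  intro y hy
  have h := hred_semistable (M' * q) q hq (dvd_mul_left q M') hq2 A hA y hy
  rwa [hdiv] at h

set_option maxHeartbeats 1600000 in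
include hq hqM hA in
/-- **hred at the level `M' q²`** (piece V-B): the reduction of every `A`-integral `q`-expansion
lying in `F_{M' q²}` lies in `F_{M', k}`. -/
theorem hq2_hred : ∀ y : LaurentSeries A,
    coeffMap A.subtype y ∈ modularFunctionFieldBar (M' * q * q) →
      coeffMap (IsLocalRing.residue A) y ∈
        modularFunctionFieldFullC (IsLocalRing.ResidueField A) M' := by
  classical
  intro y hy
  by_contra hyk
  haveI : Fact q.Prime := ⟨hq⟩
  haveI : NeZero q := ⟨hq.ne_zero⟩
  haveI : NeZero (M' * q) := ⟨Nat.mul_ne_zero (NeZero.ne M') hq.ne_zero⟩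
  haveI : NeZero (M' * q * q) := ⟨Nat.mul_ne_zero (NeZero.ne (M' * q)) hq.ne_zero⟩
  haveI : IsAlgClosed (IsLocalRing.ResidueField A) := isAlgClosed_residueField A
  haveI : CharP (IsLocalRing.ResidueField A) q := charP_residueField hA
  haveI : PerfectRing (IsLocalRing.ResidueField A) q := inferInstance
  have hfrac₁ : HasPrimFrac A (modularFunctionFieldBar (M' * q)) := vri_hfrac (M' * q) q hq A hA
  have hfrac : HasPrimFrac A (modularFunctionFieldBar (M' * q * q)) :=
    vri_hfrac (M' * q * q) q hq A hA
  have hred₁ := hq2_hred_one M' q hq hqM A hA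
  have hfin : FiniteAlong Kbar (heckeBetaBar Kbar (M' * q) q) := by
    rw [heckeBetaBar_eq_qpowBar]
    exact finiteAlong_qpowBar _ _ _ _
  have hdeg : finrankAlong Kbar (heckeBetaBar Kbar (M' * q) q) = q :=
    nbq_finrankAlong_beta M' q hq
  -- the field `φ(κ')`
  set L₁ : Subfield (LaurentSeries (IsLocalRing.ResidueField A)) :=
    (modularFunctionFieldFullC (IsLocalRing.ResidueField A) M').toSubfield.map
      (qExpand (IsLocalRing.ResidueField A) q) with hL₁def
  have hL₁ord : ∀ c ∈ L₁, (q : ℤ) ∣ c.order := by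
    rintro c ⟨h, -, rfl⟩
    exact ⟨h.order, rg_order_qExpand q h⟩
  have hL₁le : L₁ ≤ (modularFunctionFieldFullC (IsLocalRing.ResidueField A) M').toSubfield := by
    rintro c ⟨h, hh, rfl⟩
    exact qExpand_mem_fullC (IsLocalRing.ResidueField A) q M' hh
  -- the restriction to `β F_{M'q}`
  have hβ : ∀ (x : FF (M' * q)) (h : heckeBetaBar Kbar (M' * q) q x ∈ (vredOfUnitBall hfrac).O),
      (vredOfUnitBall hfrac).red ⟨heckeBetaBar Kbar (M' * q) q x, h⟩ ∈ L₁ := by
    intro x h
    by_cases hx0 : x = 0
    · have e : (⟨heckeBetaBar Kbar (M' * q) q x, h⟩ : (vredOfUnitBall hfrac).O) = 0 :=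
        Subtype.ext (by
          show heckeBetaBar Kbar (M' * q) q x = 0
          rw [hx0, map_zero])
      rw [e, map_zero]
      exact L₁.zero_mem
    have hx' : (x : LaurentSeries Kbar) ≠ 0 := fun h0 => hx0 (Subtype.ext h0)
    obtain ⟨a, b, ha, hb, hpa, hpb, c, hc, hab⟩ := hfrac₁ x x.2 hx'
    have ha' : coeffMap A.subtype (qExpand A q a) ∈ modularFunctionFieldBar (M' * q * q) := by
      rw [vk_coeffMap_qExpand]
      exact (heckeBetaBar Kbar (M' * q) q ⟨_, ha⟩).2
    have hb' : coeffMap A.subtype (qExpand A q b) ∈ modularFunctionFieldBar (M' * q * q) := by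
      rw [vk_coeffMap_qExpand]
      exact (heckeBetaBar Kbar (M' * q) q ⟨_, hb⟩).2
    have hpa' : coeffMap (IsLocalRing.residue A) (qExpand A q a) ≠ 0 := by
      rw [vk_coeffMap_qExpand]
      intro h0
      exact hpa (qExpand_injective q (by rw [h0, map_zero]))
    have hpb' : coeffMap (IsLocalRing.residue A) (qExpand A q b) ≠ 0 := by
      rw [vk_coeffMap_qExpand]
      intro h0
      exact hpb (qExpand_injective q (by rw [h0, map_zero]))
    have ha0 : coeffMap A.subtype (qExpand A q a) ≠ 0 := by
      intro h0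
      have : qExpand A q a = 0 := coeffMap_valSubtype_injective A (by rw [h0, map_zero])
      exact hpa' (by rw [this, map_zero])
    -- the relation
    have hrel : ((heckeBetaBar Kbar (M' * q) q x : FF (M' * q * q)) : LaurentSeries Kbar) *
        coeffMap A.subtype (qExpand A q b) =
        HahnSeries.C c * coeffMap A.subtype (qExpand A q a) := by
      rw [coe_heckeBetaBar, vk_coeffMap_qExpand, vk_coeffMap_qExpand, ← map_mul, hab, map_mul,
        qExpand_C]
    -- the constant is integral
    obtain ⟨hfr, -⟩ := vredOfUnitBall_frac hfrac (qExpand A q b) (qExpand A q a) hb' ha' hpa'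
    have hcO : algebraMap Kbar (FF (M' * q * q)) c ∈ (vredOfUnitBall hfrac).O := by
      have e : algebraMap Kbar (FF (M' * q * q)) c = heckeBetaBar Kbar (M' * q) q x *
          ((⟨coeffMap A.subtype (qExpand A q b), hb'⟩ : FF (M' * q * q)) /
            ⟨coeffMap A.subtype (qExpand A q a), ha'⟩) := by
        apply Subtype.ext
        rw [hq2_coe_algebraMap]
        show _ = ((heckeBetaBar Kbar (M' * q) q x : FF (M' * q * q)) : LaurentSeries Kbar) *
          (coeffMap A.subtype (qExpand A q b) / coeffMap A.subtype (qExpand A q a))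
        rw [← mul_div_assoc, hrel, mul_div_cancel_right₀ _ ha0]
      rw [e]
      exact (vredOfUnitBall hfrac).O.mul_mem h hfr
    have hcA : c ∈ A := hq2_const_mem (vredOfUnitBall hfrac) hcO
    -- the representation
    have hrep : IsRep A (modularFunctionFieldBar (M' * q * q))
        ((heckeBetaBar Kbar (M' * q) q x : FF (M' * q * q)) : LaurentSeries Kbar)
        (HahnSeries.C (⟨c, hcA⟩ : A) * qExpand A q a) (qExpand A q b) := by
      refine ⟨?_, hb', hpb', ?_⟩
      · rw [map_mul, coeffMap_C]
        exact mul_mem (C_mem_intermediateField _ c) ha'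
      · rw [map_mul, coeffMap_C]
        exact hrel
    rw [vredOfUnitBall_red_eq hfrac _ h hrep, map_mul, coeffMap_C, vk_coeffMap_qExpand,
      vk_coeffMap_qExpand]
    refine ⟨HahnSeries.C (IsLocalRing.residue A ⟨c, hcA⟩) * coeffMap (IsLocalRing.residue A) a /
      coeffMap (IsLocalRing.residue A) b, ?_, ?_⟩
    · exact div_mem (mul_mem (C_mem_intermediateField _ _) (hred₁ a ha)) (hred₁ b hb)
    · show qExpand (IsLocalRing.ResidueField A) q _ = _
      rw [map_div₀, map_mul, qExpand_C]
  -- the family
  obtain ⟨hyO, hyred⟩ := vredOfUnitBall_series hfrac y hy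
  obtain ⟨hjO, hjred⟩ := vredOfUnitBall_series hfrac (jqModC A) (vri_mem_J (M' * q * q) A)
  set u : Fin (q + 1) → (vredOfUnitBall hfrac).O :=
    Fin.snoc (fun i : Fin q => (⟨_, hjO⟩ : (vredOfUnitBall hfrac).O) ^ (i : ℕ)) ⟨_, hyO⟩ with hu
  have hured : (fun i => (vredOfUnitBall hfrac).red (u i)) =
      (Fin.snoc (fun i : Fin q => jqModC (IsLocalRing.ResidueField A) ^ (i : ℕ))
        (coeffMap (IsLocalRing.residue A) y) :
        Fin (q + 1) → LaurentSeries (IsLocalRing.ResidueField A)) := by
    funext j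
    refine Fin.lastCases ?_ (fun i => ?_) j
    · rw [hu, Fin.snoc_last, Fin.snoc_last, hyred]
    · rw [hu, Fin.snoc_castSucc, Fin.snoc_castSucc, map_pow, hjred, coeffMap_jqModC]
  have hLI : LinearIndependent L₁ (fun i => (vredOfUnitBall hfrac).red (u i)) := by
    rw [hured]
    exact hq2_li_snoc q L₁ _ hL₁le hL₁ord (rg_order_jqModC _) (jqModC_mem_full _ M') hyk
  have key := hq2_card_le (vredOfUnitBall hfrac) (heckeBetaBar Kbar (M' * q) q) hfin L₁ hβ u hLI
  rw [Fintype.card_fin, hdeg] at key
  omega

include hq hqM hA in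
/-- **the constant reduction `R∞` at the level `M' q²`**, residue field `F_{M',k}`, with the
series property. -/
theorem hq2_exists_constRedInf :
    ∃ R : ConstRed A (IsLocalRing.residue A)
        (↥(modularFunctionFieldFullC (IsLocalRing.ResidueField A) M'))
        (↥(modularFunctionFieldBar (M' * q * q))),
      IsSeriesRed R := by
  haveI : NeZero (M' * q * q) :=
    ⟨Nat.mul_ne_zero (Nat.mul_ne_zero (NeZero.ne M') hq.ne_zero) hq.ne_zero⟩
  exact exists_constRedInf (M' * q * q) M' ⟨q * q, by ring⟩ A (cri_ne_top q A hA hq.ne_zero)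
    (hq2_hred M' q hq hqM A hA)

end Concrete

end Fermat.Agent.S36lib

end
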