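/-
Item 83 (S36), block V, piece V-E (helper24): **THE SETUP** (the CONCRETE `NodeSetup`s) over `A0 = k0Val A`.

Residue field `κ' = modularFunctionFieldFullC k M'` (`k` the residue field of `A`), as an
intermediate field of `k((X))`.  For a level `L` with `M' ∣ L`, a constant reduction
`R : ConstRed A res κ' (FF L)` with `IsSeriesRed R` (level `M' q`: `exists_constRedInf` +
`hq2_hred_one`; level `M' q²`: `hq2_exists_constRedInf`), an automorphism `w` of `FF L`
preserving `F0(L)` (`w_q`, resp. `w_{q²}`) and a middle valuation `vMid`: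

* `sconc_hinto`, `sconc_honto`: the hypotheses `hiInf`, `hoInf` of `nodeSetupSeriesD` for
  `vInf = SeriesVal.ofConstRed R`;
* `sconc_hinto_comap`, `sconc_honto_comap`: the same for `vZero = vInf.comap w`;
* `nodeSetupConc A M' D R hR … w hw vMid hiMid hoMid`: the `NodeSetup` with affine ring
  `B_D = {x ∈ F0(L) : x regular off D, x ∈ O∞ ∩ Omid ∩ O0}`, and its unfolding lemmas;
* `s36D1` (helper20's `D1Set.lean`): the cusps of level `M' q²` over `∞'`; `s36D1N`: the cusps
  `∞`, `0` of level `M' q` over `∞'`; `cuspSet L`: all the cusps (`B_j`);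
* **`nodeSetupM`** (level `M' q²`, `B_{D1}`), `nodeSetupMj` (level `M' q²`, `B_j`),
  `nodeSetupN` (level `M' q`, `B_{D1}`), `nodeSetupNj` (level `M' q`, `B_j`).
-/
import Mathlib
import Fermat.Agent.S36lib.SetupD1
import Fermat.Agent.S36lib.D1Set
import Fermat.Agent.S36lib.VSurj
import Fermat.Agent.S36lib.FixedF0
import Fermat.Agent.S36lib.HredQ2
import Fermat.Agent.S36lib.FibreReg
import Fermat.Agent.S34lib.VRedInto

set_option autoImplicit false
set_option linter.style.haveILetI false
set_option linter.unusedSectionVars false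
set_option linter.unusedVariables false
set_option synthInstance.maxHeartbeats 400000

noncomputable section

namespace Fermat.Agent.S36lib

open ModularCurve AlgebraicCurve
open Fermat.Agent.S24lib Fermat.Agent.S34lib Fermat.Agent.GoodRed Fermat.Agent.GM

section General

variable (A : ValuationSubring Kbar) {L : ℕ} [NeZero L] (M' : ℕ) [NeZero M']

/-- `hinto` at `∞`: all of `O∞` reduces into `κ'` -/
theorem sconc_hinto
    (R : ConstRed A (IsLocalRing.residue A)
      (↥(modularFunctionFieldFullC (IsLocalRing.ResidueField A) M')) (FF L)) :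
    ∀ (x : FF L) (hx : x ∈ (SeriesVal.ofConstRed R).O), x ∈ f0Field A L →
      (SeriesVal.ofConstRed R).red ⟨x, hx⟩ ∈
        modularFunctionFieldFullC (IsLocalRing.ResidueField A) M' :=
  fun x hx _ => (R.red ⟨x, hx⟩).2

/-- the reduction of `j_d` -/
theorem sconc_red_jdF
    (R : ConstRed A (IsLocalRing.residue A)
      (↥(modularFunctionFieldFullC (IsLocalRing.ResidueField A) M')) (FF L))
    (hR : IsSeriesRed R) (d : ℕ) [NeZero d] (hd : d ∣ L) :
    ∃ hx : jdF L d hd ∈ (SeriesVal.ofConstRed R).O,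
      (SeriesVal.ofConstRed R).red ⟨jdF L d hd, hx⟩ =
        qExpand (IsLocalRing.ResidueField A) d (jqModC (IsLocalRing.ResidueField A)) := by
  have e := vri_jdF_eq L A d hd
  have hmem := hR.mem (qExpand A d (jqModC A)) (vri_mem_Jd L A d hd)
  have hred := (hR.red (qExpand A d (jqModC A)) (vri_mem_Jd L A d hd)).trans
    (hr_coeffMap_gen (IsLocalRing.residue A) d)
  have hx : jdF L d hd ∈ R.O := by rw [e]; exact hmem
  refine ⟨hx, ?_⟩
  rw [← hred]
  show ((R.red ⟨jdF L d hd, hx⟩ : _) : LaurentSeries (IsLocalRing.ResidueField A)) = _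
  congr 2
  exact Subtype.ext e

/-- `honto` at `∞`: `κ'` is generated by `k` and the reductions of the `j_d`, `d ∣ M'` -/
theorem sconc_honto (q : ℕ) (hq : q.Prime) (hA : A.LiesOverPrime q) (hML : M' ∣ L)
    (R : ConstRed A (IsLocalRing.residue A)
      (↥(modularFunctionFieldFullC (IsLocalRing.ResidueField A) M')) (FF L))
    (hR : IsSeriesRed R) :
    ∀ w ∈ modularFunctionFieldFullC (IsLocalRing.ResidueField A) M',
      ∃ (x : FF L) (hx : x ∈ (SeriesVal.ofConstRed R).O), x ∈ f0Field A L ∧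
        (SeriesVal.ofConstRed R).red ⟨x, hx⟩ = w := by
  intro w hw
  refine (SeriesVal.ofConstRed R).vsurj_honto (vsurj_k0Res_surjective q hq hA)
    (divisorExpansionsC (IsLocalRing.ResidueField A) M') ?_ w hw
  rintro s ⟨d, hd0, hd, rfl⟩
  obtain ⟨hx, hred⟩ := sconc_red_jdF A M' R hR d (hd.trans hML)
  exact ⟨jdF L d (hd.trans hML), hx, jdF_mem_f0Field A L d (hd.trans hML), hred⟩

/-- `hinto` at `0` -/
theorem sconc_hinto_comap
    (R : ConstRed A (IsLocalRing.residue A)
      (↥(modularFunctionFieldFullC (IsLocalRing.ResidueField A) M')) (FF L))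
    (w : FF L ≃ₐ[Kbar] FF L) :
    ∀ (x : FF L) (hx : x ∈ ((SeriesVal.ofConstRed R).comap w).O), x ∈ f0Field A L →
      ((SeriesVal.ofConstRed R).comap w).red ⟨x, hx⟩ ∈
        modularFunctionFieldFullC (IsLocalRing.ResidueField A) M' :=
  fun x hx _ => (R.red ⟨w x, hx⟩).2

/-- `honto` at `0`, for `w` with `w⁻¹` preserving `F0(L)` -/
theorem sconc_honto_comap (q : ℕ) (hq : q.Prime) (hA : A.LiesOverPrime q) (hML : M' ∣ L)
    (R : ConstRed A (IsLocalRing.residue A)
      (↥(modularFunctionFieldFullC (IsLocalRing.ResidueField A) M')) (FF L))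
    (hR : IsSeriesRed R) (w : FF L ≃ₐ[Kbar] FF L)
    (hw : ∀ x ∈ f0Field A L, w.symm x ∈ f0Field A L) :
    ∀ y ∈ modularFunctionFieldFullC (IsLocalRing.ResidueField A) M',
      ∃ (x : FF L) (hx : x ∈ ((SeriesVal.ofConstRed R).comap w).O), x ∈ f0Field A L ∧
        ((SeriesVal.ofConstRed R).comap w).red ⟨x, hx⟩ = y := by
  intro y hy
  obtain ⟨x, hx, hx0, hxy⟩ := sconc_honto A M' q hq hA hML R hR y hy
  have hmem : w.symm x ∈ ((SeriesVal.ofConstRed R).comap w).O := by
    rw [SeriesVal.mem_comap_iff, AlgEquiv.apply_symm_apply]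
    exact hx
  refine ⟨w.symm x, hmem, hw x hx0, ?_⟩
  rw [SeriesVal.comap_red, ← hxy]
  congr 1
  exact Subtype.ext (AlgEquiv.apply_symm_apply w x)

/-- **the concrete setup**: `vInf` from `R`, `vZero = vInf ∘ w`, `vMid` given, affine ring
`B_D` (regular off `D`). -/
def nodeSetupConc (D : Set (Place Kbar (FF L))) (q : ℕ) (hq : q.Prime)
    (hA : A.LiesOverPrime q) (hML : M' ∣ L)
    (R : ConstRed A (IsLocalRing.residue A)
      (↥(modularFunctionFieldFullC (IsLocalRing.ResidueField A) M')) (FF L))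
    (hR : IsSeriesRed R) (w : FF L ≃ₐ[Kbar] FF L)
    (hw : ∀ x ∈ f0Field A L, w.symm x ∈ f0Field A L)
    (vMid : SeriesVal A L)
    (hiMid : ∀ (x : FF L) (hx : x ∈ vMid.O), x ∈ f0Field A L → vMid.red ⟨x, hx⟩ ∈
      modularFunctionFieldFullC (IsLocalRing.ResidueField A) M')
    (hoMid : ∀ y ∈ modularFunctionFieldFullC (IsLocalRing.ResidueField A) M',
      ∃ (x : FF L) (hx : x ∈ vMid.O), x ∈ f0Field A L ∧ vMid.red ⟨x, hx⟩ = y) :
    NodeSetup (k0Val A) (k0Res A)
      (↥(modularFunctionFieldFullC (IsLocalRing.ResidueField A) M')) (f0Field A L) :=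
  nodeSetupSeriesD A D (SeriesVal.ofConstRed R) vMid ((SeriesVal.ofConstRed R).comap w)
    (modularFunctionFieldFullC (IsLocalRing.ResidueField A) M')
    (sconc_hinto A M' R) (sconc_honto A M' q hq hA hML R hR) hiMid hoMid
    (sconc_hinto_comap A M' R w) (sconc_honto_comap A M' q hq hA hML R hR w hw)

section Unfold

variable (D : Set (Place Kbar (FF L))) (q : ℕ) (hq : q.Prime)
    (hA : A.LiesOverPrime q) (hML : M' ∣ L)
    (R : ConstRed A (IsLocalRing.residue A)
      (↥(modularFunctionFieldFullC (IsLocalRing.ResidueField A) M')) (FF L))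
    (hR : IsSeriesRed R) (w : FF L ≃ₐ[Kbar] FF L)
    (hw : ∀ x ∈ f0Field A L, w.symm x ∈ f0Field A L)
    (vMid : SeriesVal A L)
    (hiMid : ∀ (x : FF L) (hx : x ∈ vMid.O), x ∈ f0Field A L → vMid.red ⟨x, hx⟩ ∈
      modularFunctionFieldFullC (IsLocalRing.ResidueField A) M')
    (hoMid : ∀ y ∈ modularFunctionFieldFullC (IsLocalRing.ResidueField A) M',
      ∃ (x : FF L) (hx : x ∈ vMid.O), x ∈ f0Field A L ∧ vMid.red ⟨x, hx⟩ = y)

theorem mem_nodeSetupConc_B (x : f0Field A L) :
    x ∈ (nodeSetupConc A M' D q hq hA hML R hR w hw vMid hiMid hoMid).B ↔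
      (x : FF L) ∈ offRegular L D ∧ (x : FF L) ∈ R.O ∧ (x : FF L) ∈ vMid.O ∧
        w (x : FF L) ∈ R.O :=
  mem_f0AffD_iff A L D _ _ _ x

theorem mem_nodeSetupConc_vInf (x : f0Field A L) :
    x ∈ (nodeSetupConc A M' D q hq hA hML R hR w hw vMid hiMid hoMid).vInf.O ↔
      (x : FF L) ∈ R.O := Iff.rfl

theorem mem_nodeSetupConc_vMid (x : f0Field A L) :
    x ∈ (nodeSetupConc A M' D q hq hA hML R hR w hw vMid hiMid hoMid).vMid.O ↔
      (x : FF L) ∈ vMid.O := Iff.rfl

theorem mem_nodeSetupConc_vZero (x : f0Field A L) :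
    x ∈ (nodeSetupConc A M' D q hq hA hML R hR w hw vMid hiMid hoMid).vZero.O ↔
      w (x : FF L) ∈ R.O := Iff.rfl

/-- the reduction at `∞` of an element of `B`, as a series -/
theorem coe_nodeSetupConc_redInf
    (x : (nodeSetupConc A M' D q hq hA hML R hR w hw vMid hiMid hoMid).B) :
    (((nodeSetupConc A M' D q hq hA hML R hR w hw vMid hiMid hoMid).redInf x :
        ↥(modularFunctionFieldFullC (IsLocalRing.ResidueField A) M')) :
      LaurentSeries (IsLocalRing.ResidueField A)) =
      ((R.red ⟨((x : f0Field A L) : FF L),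
        ((mem_nodeSetupConc_B A M' D q hq hA hML R hR w hw vMid hiMid hoMid x.1).1 x.2).2.1⟩ :
          ↥(modularFunctionFieldFullC (IsLocalRing.ResidueField A) M')) :
        LaurentSeries (IsLocalRing.ResidueField A)) := rfl

/-- the reduction at `0` of an element of `B`, as a series -/
theorem coe_nodeSetupConc_redZero
    (x : (nodeSetupConc A M' D q hq hA hML R hR w hw vMid hiMid hoMid).B) :
    (((nodeSetupConc A M' D q hq hA hML R hR w hw vMid hiMid hoMid).redZero x :
        ↥(modularFunctionFieldFullC (IsLocalRing.ResidueField A) M')) :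
      LaurentSeries (IsLocalRing.ResidueField A)) =
      ((R.red ⟨w ((x : f0Field A L) : FF L),
        ((mem_nodeSetupConc_B A M' D q hq hA hML R hR w hw vMid hiMid hoMid x.1).1 x.2).2.2.2⟩ :
          ↥(modularFunctionFieldFullC (IsLocalRing.ResidueField A) M')) :
        LaurentSeries (IsLocalRing.ResidueField A)) := rfl

/-- the reduction at `mid` of an element of `B`, as a series -/
theorem coe_nodeSetupConc_redMid
    (x : (nodeSetupConc A M' D q hq hA hML R hR w hw vMid hiMid hoMid).B) :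
    (((nodeSetupConc A M' D q hq hA hML R hR w hw vMid hiMid hoMid).redMid x :
        ↥(modularFunctionFieldFullC (IsLocalRing.ResidueField A) M')) :
      LaurentSeries (IsLocalRing.ResidueField A)) =
      vMid.red ⟨((x : f0Field A L) : FF L),
        ((mem_nodeSetupConc_B A M' D q hq hA hML R hR w hw vMid hiMid hoMid x.1).1 x.2).2.2.1⟩ :=
  rfl

/-- monotonicity in `D`: `B_D ≤ B_{D'}` for `D ⊆ D'` -/
theorem nodeSetupConc_B_mono {D D' : Set (Place Kbar (FF L))} (h : D ⊆ D') :
    (nodeSetupConc A M' D q hq hA hML R hR w hw vMid hiMid hoMid).B ≤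
      (nodeSetupConc A M' D' q hq hA hML R hR w hw vMid hiMid hoMid).B :=
  f0AffD_mono A L h _ _ _

end Unfold

/-- the set of ALL cusps of level `L` (the poles of `j`) -/
def cuspSet (L : ℕ) [NeZero L] : Set (Place Kbar (FF L)) :=
  {P | jF L ∉ P.toValuationSubring}

theorem offRegular_cuspSet (L : ℕ) [NeZero L] : offRegular L (cuspSet L) = cuspRegular L :=
  (cuspRegular_eq_offRegular L).symm

end General

section Levels

variable (A : ValuationSubring Kbar) (M' q : ℕ) [NeZero M'] [NeZero q] (hq : q.Prime)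
  (hqM : ¬ q ∣ M')

/-- **the cusps of level `M' q` over `∞'`**: `∞` and `0 = w_q ∞` -/
def s36D1N : Set (Place Kbar (FF (M' * q))) :=
  {P | P = infPlaceBar (M' * q) ∨ P = alW1 M' hq hqM • infPlaceBar (M' * q)}

/-- `w_{q²}⁻¹` preserves `F0(M' q²)` -/
theorem sconc_alW2_symm_mem (x : FF (M' * q * q)) (hx : x ∈ f0Field A (M' * q * q)) :
    (alW2 M' hq hqM).symm x ∈ f0Field A (M' * q * q) := by
  have h1 : (alW2 M' hq hqM).symm x = alW2 M' hq hqM x := by
    rw [AlgEquiv.symm_apply_eq]
    exact (alQ_involutive _ _ _ _ x).symm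
  rw [h1]
  exact f0_alQ_mem (A := A) (L := M' * q * q) (q * q) _ _ hx

/-- `w_q⁻¹` preserves `F0(M' q)` -/
theorem sconc_alW1_symm_mem (x : FF (M' * q)) (hx : x ∈ f0Field A (M' * q)) :
    (alW1 M' hq hqM).symm x ∈ f0Field A (M' * q) := by
  have h1 : (alW1 M' hq hqM).symm x = alW1 M' hq hqM x := by
    rw [AlgEquiv.symm_apply_eq, alW1_eq_alQ]
    exact (alQ_involutive _ _ _ _ x).symm
  rw [h1, alW1_eq_alQ]
  exact f0_alQ_mem (A := A) (L := M' * q) q _ _ hx

variable (hA : A.LiesOverPrime q)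

/-- **level `M' q²`, affine ring `B_D`**, `vZero = vInf ∘ w_{q²}` -/
def nodeSetupMD (D : Set (Place Kbar (FF (M' * q * q))))
    (R : ConstRed A (IsLocalRing.residue A)
      (↥(modularFunctionFieldFullC (IsLocalRing.ResidueField A) M')) (FF (M' * q * q)))
    (hR : IsSeriesRed R) (vMid : SeriesVal A (M' * q * q))
    (hiMid : ∀ (x : FF (M' * q * q)) (hx : x ∈ vMid.O), x ∈ f0Field A (M' * q * q) →
      vMid.red ⟨x, hx⟩ ∈ modularFunctionFieldFullC (IsLocalRing.ResidueField A) M')
    (hoMid : ∀ y ∈ modularFunctionFieldFullC (IsLocalRing.ResidueField A) M',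
      ∃ (x : FF (M' * q * q)) (hx : x ∈ vMid.O), x ∈ f0Field A (M' * q * q) ∧
        vMid.red ⟨x, hx⟩ = y) :
    NodeSetup (k0Val A) (k0Res A)
      (↥(modularFunctionFieldFullC (IsLocalRing.ResidueField A) M'))
      (f0Field A (M' * q * q)) :=
  nodeSetupConc A M' D q hq hA ⟨q * q, by ring⟩ R hR (alW2 M' hq hqM)
    (sconc_alW2_symm_mem A M' q hq hqM) vMid hiMid hoMid

/-- **level `M' q²`, `B = B_{D1}`** (regular off the cusps over `∞'`) -/
def nodeSetupM
    (R : ConstRed A (IsLocalRing.residue A)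
      (↥(modularFunctionFieldFullC (IsLocalRing.ResidueField A) M')) (FF (M' * q * q)))
    (hR : IsSeriesRed R) (vMid : SeriesVal A (M' * q * q))
    (hiMid : ∀ (x : FF (M' * q * q)) (hx : x ∈ vMid.O), x ∈ f0Field A (M' * q * q) →
      vMid.red ⟨x, hx⟩ ∈ modularFunctionFieldFullC (IsLocalRing.ResidueField A) M')
    (hoMid : ∀ y ∈ modularFunctionFieldFullC (IsLocalRing.ResidueField A) M',
      ∃ (x : FF (M' * q * q)) (hx : x ∈ vMid.O), x ∈ f0Field A (M' * q * q) ∧
        vMid.red ⟨x, hx⟩ = y) :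
    NodeSetup (k0Val A) (k0Res A)
      (↥(modularFunctionFieldFullC (IsLocalRing.ResidueField A) M'))
      (f0Field A (M' * q * q)) :=
  nodeSetupMD A M' q hq hqM hA (s36D1 M' q hq hqM) R hR vMid hiMid hoMid

/-- the name of the chief architect's contract for `nodeSetupM` -/
abbrev s36SetupM
    (R : ConstRed A (IsLocalRing.residue A)
      (↥(modularFunctionFieldFullC (IsLocalRing.ResidueField A) M')) (FF (M' * q * q)))
    (hR : IsSeriesRed R) (vMid : SeriesVal A (M' * q * q))
    (hiMid : ∀ (x : FF (M' * q * q)) (hx : x ∈ vMid.O), x ∈ f0Field A (M' * q * q) →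
      vMid.red ⟨x, hx⟩ ∈ modularFunctionFieldFullC (IsLocalRing.ResidueField A) M')
    (hoMid : ∀ y ∈ modularFunctionFieldFullC (IsLocalRing.ResidueField A) M',
      ∃ (x : FF (M' * q * q)) (hx : x ∈ vMid.O), x ∈ f0Field A (M' * q * q) ∧
        vMid.red ⟨x, hx⟩ = y) :
    NodeSetup (k0Val A) (k0Res A)
      (↥(modularFunctionFieldFullC (IsLocalRing.ResidueField A) M'))
      (f0Field A (M' * q * q)) :=
  nodeSetupM A M' q hq hqM hA R hR vMid hiMid hoMid

/-- **level `M' q²`, `B = B_j`** (regular off ALL cusps) -/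
def nodeSetupMj
    (R : ConstRed A (IsLocalRing.residue A)
      (↥(modularFunctionFieldFullC (IsLocalRing.ResidueField A) M')) (FF (M' * q * q)))
    (hR : IsSeriesRed R) (vMid : SeriesVal A (M' * q * q))
    (hiMid : ∀ (x : FF (M' * q * q)) (hx : x ∈ vMid.O), x ∈ f0Field A (M' * q * q) →
      vMid.red ⟨x, hx⟩ ∈ modularFunctionFieldFullC (IsLocalRing.ResidueField A) M')
    (hoMid : ∀ y ∈ modularFunctionFieldFullC (IsLocalRing.ResidueField A) M',
      ∃ (x : FF (M' * q * q)) (hx : x ∈ vMid.O), x ∈ f0Field A (M' * q * q) ∧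
        vMid.red ⟨x, hx⟩ = y) :
    NodeSetup (k0Val A) (k0Res A)
      (↥(modularFunctionFieldFullC (IsLocalRing.ResidueField A) M'))
      (f0Field A (M' * q * q)) :=
  nodeSetupMD A M' q hq hqM hA (cuspSet (M' * q * q)) R hR vMid hiMid hoMid

/-- **level `M' q`, affine ring `B_D`**: `vMid := vInf`, `vZero = vInf ∘ w_q` -/
def nodeSetupND (D : Set (Place Kbar (FF (M' * q))))
    (R : ConstRed A (IsLocalRing.residue A)
      (↥(modularFunctionFieldFullC (IsLocalRing.ResidueField A) M')) (FF (M' * q)))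
    (hR : IsSeriesRed R) :
    NodeSetup (k0Val A) (k0Res A)
      (↥(modularFunctionFieldFullC (IsLocalRing.ResidueField A) M'))
      (f0Field A (M' * q)) :=
  nodeSetupConc A M' D q hq hA (dvd_mul_right M' q) R hR (alW1 M' hq hqM)
    (sconc_alW1_symm_mem A M' q hq hqM) (SeriesVal.ofConstRed R)
    (sconc_hinto A M' R) (sconc_honto A M' q hq hA (dvd_mul_right M' q) R hR)

/-- **level `M' q`, `B = B_{D1}`** -/
def nodeSetupN
    (R : ConstRed A (IsLocalRing.residue A)
      (↥(modularFunctionFieldFullC (IsLocalRing.ResidueField A) M')) (FF (M' * q)))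
    (hR : IsSeriesRed R) :
    NodeSetup (k0Val A) (k0Res A)
      (↥(modularFunctionFieldFullC (IsLocalRing.ResidueField A) M'))
      (f0Field A (M' * q)) :=
  nodeSetupND A M' q hq hqM hA (s36D1N M' q hq hqM) R hR

/-- **level `M' q`, `B = B_j`** -/
def nodeSetupNj
    (R : ConstRed A (IsLocalRing.residue A)
      (↥(modularFunctionFieldFullC (IsLocalRing.ResidueField A) M')) (FF (M' * q)))
    (hR : IsSeriesRed R) :
    NodeSetup (k0Val A) (k0Res A)
      (↥(modularFunctionFieldFullC (IsLocalRing.ResidueField A) M'))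
      (f0Field A (M' * q)) :=
  nodeSetupND A M' q hq hqM hA (cuspSet (M' * q)) R hR

include hq hqM hA in
/-- the constant reduction at `∞` of level `M' q` with the series property -/
theorem sconc_exists_constRedInfN :
    ∃ R : ConstRed A (IsLocalRing.residue A)
        (↥(modularFunctionFieldFullC (IsLocalRing.ResidueField A) M')) (FF (M' * q)),
      IsSeriesRed R :=
  exists_constRedInf (M' * q) M' ⟨q, rfl⟩ A (cri_ne_top q A hA hq.ne_zero)
    (hq2_hred_one M' q hq hqM A hA)

end Levels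

end Fermat.Agent.S36lib

end
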