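/-
Item 83 (S36), block V (helper8): **`Hrad` for the concrete setups** `nodeSetupSeriesD` (affine ring
`B_D`, any set `D` of places): every prime of `B` containing `q` contains one of the three vertical
primes `p_∞`, `p_mid`, `p_0`.  (Saturation of `B` + the archimedean properties `VArch.lean`.)

* `vhrad_sat`  : `B_D` is saturated in the ball (`hsat` of `s36_hrad_of_saturated`);
* `vhrad`      : `Hrad` from `harchInf/Mid/Zero` on the restrictions;
* `vhrad_levelN` : `Hrad` at level `N` (`vMid := vInf`, `vInf` from an `IsSeriesRed` constant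
  reduction, `vZero = vInf ∘ w`, `w` preserving `F0`);
* `vhrad_levelM` : `Hrad` at level `M = M'q²` (`vMid` any `SeriesVal` with `O = vmidO`).
-/
import Mathlib
import Fermat.Agent.S36lib.VArch
import Fermat.Agent.S36lib.SetupD1
import Fermat.Agent.S36lib.InvertSetup

set_option autoImplicit false
set_option linter.unusedSectionVars false
set_option linter.style.haveILetI false
set_option synthInstance.maxHeartbeats 400000

noncomputable section

namespace Fermat.Agent.S36lib

open ModularCurve HahnSeries AlgebraicCurve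
open Fermat.Agent.GoodRed Fermat.Agent.S24lib Fermat.Agent.S34lib Fermat.Agent.S37lib
  Fermat.Agent.HeckeBar

section Gen

variable (A : ValuationSubring Kbar) {q : ℕ} {L : ℕ} [NeZero L]
variable (D : Set (Place Kbar (FF L))) (vInf vMid vZero : SeriesVal A L)
    (κ : IntermediateField (IsLocalRing.ResidueField A)
      (LaurentSeries (IsLocalRing.ResidueField A)))
    (hiInf : ∀ (x : FF L) (hx : x ∈ vInf.O), x ∈ f0Field A L → vInf.red ⟨x, hx⟩ ∈ κ)
    (hoInf : ∀ w ∈ κ, ∃ (x : FF L) (hx : x ∈ vInf.O), x ∈ f0Field A L ∧ vInf.red ⟨x, hx⟩ = w)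
    (hiMid : ∀ (x : FF L) (hx : x ∈ vMid.O), x ∈ f0Field A L → vMid.red ⟨x, hx⟩ ∈ κ)
    (hoMid : ∀ w ∈ κ, ∃ (x : FF L) (hx : x ∈ vMid.O), x ∈ f0Field A L ∧ vMid.red ⟨x, hx⟩ = w)
    (hiZero : ∀ (x : FF L) (hx : x ∈ vZero.O), x ∈ f0Field A L → vZero.red ⟨x, hx⟩ ∈ κ)
    (hoZero : ∀ w ∈ κ, ∃ (x : FF L) (hx : x ∈ vZero.O), x ∈ f0Field A L ∧
      vZero.red ⟨x, hx⟩ = w)

/-- `q ≠ 0` in `A0` -/
theorem vhrad_q_ne_zero (hq : q.Prime) : (q : k0Val A) ≠ 0 := by
  intro h0
  have h1 : (((q : k0Val A) : k0Field A) : Kbar) = 0 := by rw [h0]; rfl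
  rw [k0Val_coe_natCast] at h1
  exact hq.ne_zero (Nat.cast_eq_zero.1 h1)

/-- **saturation**: `B_D` is saturated in the ball. -/
theorem vhrad_sat (hq : q.Prime) (w : f0Field A L)
    (hw : w ∈ (nodeSetupSeriesD A D vInf vMid vZero κ hiInf hoInf hiMid hoMid hiZero
      hoZero).ball)
    (hqw : algebraMap (k0Field A) (f0Field A L) (((q : k0Val A) : k0Val A) : k0Field A) * w
      ∈ (nodeSetupSeriesD A D vInf vMid vZero κ hiInf hoInf hiMid hoMid hiZero hoZero).B) :
    w ∈ (nodeSetupSeriesD A D vInf vMid vZero κ hiInf hoInf hiMid hoMid hiZero hoZero).B := by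
  rw [mem_nodeSetupSeriesD_B] at hqw ⊢
  obtain ⟨⟨h1, h2⟩, h3⟩ := hw
  refine ⟨?_, h1, h2, h3⟩
  rw [mem_offRegular_iff]
  intro Pl hPl
  have hq0 : (q : Kbar) ≠ 0 := Nat.cast_ne_zero.2 hq.ne_zero
  have hmem := (mem_offRegular_iff L D _).1 hqw.1 Pl hPl
  have hcoe : ((algebraMap (k0Field A) (f0Field A L) ((((q : k0Val A) : k0Val A) : k0Field A)) *
      w : f0Field A L) : FF L) = algebraMap Kbar (FF L) (q : Kbar) * (w : FF L) := by
    push_cast
    simp
  rw [hcoe] at hmem
  have hinv : algebraMap Kbar (FF L) ((q : Kbar)⁻¹) ∈ Pl.toValuationSubring :=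
    Pl.algebraMap_mem' _
  have : (w : FF L) = algebraMap Kbar (FF L) ((q : Kbar)⁻¹) *
      (algebraMap Kbar (FF L) (q : Kbar) * (w : FF L)) := by
    rw [← mul_assoc, ← map_mul, inv_mul_cancel₀ hq0, map_one, one_mul]
  rw [this]
  exact Pl.toValuationSubring.mul_mem _ _ hinv hmem

/-- **`Hrad`** for `nodeSetupSeriesD`, from the archimedean properties of the three
restrictions. -/
theorem vhrad (hq : q.Prime)
    (harchInf : ∀ z ∈ (vInf.O.comap (algebraMap (f0Field A L) (FF L))).nonunits,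
      ∃ n : ℕ, z ^ n * (algebraMap (k0Field A) (f0Field A L)
        ((((q : k0Val A) : k0Val A) : k0Field A)))⁻¹
          ∈ vInf.O.comap (algebraMap (f0Field A L) (FF L)))
    (harchMid : ∀ z ∈ (vMid.O.comap (algebraMap (f0Field A L) (FF L))).nonunits,
      ∃ n : ℕ, z ^ n * (algebraMap (k0Field A) (f0Field A L)
        ((((q : k0Val A) : k0Val A) : k0Field A)))⁻¹
          ∈ vMid.O.comap (algebraMap (f0Field A L) (FF L)))
    (harchZero : ∀ z ∈ (vZero.O.comap (algebraMap (f0Field A L) (FF L))).nonunits,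
      ∃ n : ℕ, z ^ n * (algebraMap (k0Field A) (f0Field A L)
        ((((q : k0Val A) : k0Val A) : k0Field A)))⁻¹
          ∈ vZero.O.comap (algebraMap (f0Field A L) (FF L)))
    (P : Ideal (nodeSetupSeriesD A D vInf vMid vZero κ hiInf hoInf hiMid hoMid hiZero hoZero).B)
    (hP : P.IsPrime)
    (hqP : (nodeSetupSeriesD A D vInf vMid vZero κ hiInf hoInf hiMid hoMid hiZero
      hoZero).constB (q : k0Val A) ∈ P) :
    (nodeSetupSeriesD A D vInf vMid vZero κ hiInf hoInf hiMid hoMid hiZero hoZero).pInf ≤ P ∨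
      (nodeSetupSeriesD A D vInf vMid vZero κ hiInf hoInf hiMid hoMid hiZero hoZero).pMid ≤ P ∨
      (nodeSetupSeriesD A D vInf vMid vZero κ hiInf hoInf hiMid hoMid hiZero hoZero).pZero ≤ P :=
  s36_hrad_of_saturated _ (q : k0Val A) (vhrad_q_ne_zero A hq)
    (vhrad_sat A D vInf vMid vZero κ hiInf hoInf hiMid hoMid hiZero hoZero hq)
    harchInf harchMid harchZero P hP hqP

end Gen

section LevelN

variable (A : ValuationSubring Kbar) {q : ℕ} {L : ℕ} [NeZero L]
variable (D : Set (Place Kbar (FF L)))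
    {κ : IntermediateField (IsLocalRing.ResidueField A)
      (LaurentSeries (IsLocalRing.ResidueField A))}
    (R : ConstRed A (IsLocalRing.residue A) (↥κ) (FF L))
    (w : FF L ≃ₐ[Kbar] FF L)
    (κ' : IntermediateField (IsLocalRing.ResidueField A)
      (LaurentSeries (IsLocalRing.ResidueField A)))

/-- **`Hrad` at level `N`**: `vInf = vMid` from an `IsSeriesRed` constant reduction `R`,
`vZero = vInf ∘ w` with `w` preserving `F0(L)` (e.g. `w = alQ`, `alQ_mem_f0Field`). -/
theorem vhrad_levelN (hq : q.Prime) (hA : A.LiesOverPrime q) (hR : IsSeriesRed R)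
    (hw : ∀ x ∈ f0Field A L, w x ∈ f0Field A L)
    (hiInf hoInf hiMid hoMid hiZero hoZero)
    (P : Ideal (nodeSetupSeriesD A D (SeriesVal.ofConstRed R) (SeriesVal.ofConstRed R)
      ((SeriesVal.ofConstRed R).comap w) κ' hiInf hoInf hiMid hoMid hiZero hoZero).B)
    (hP : P.IsPrime)
    (hqP : (nodeSetupSeriesD A D (SeriesVal.ofConstRed R) (SeriesVal.ofConstRed R)
      ((SeriesVal.ofConstRed R).comap w) κ' hiInf hoInf hiMid hoMid hiZero
        hoZero).constB (q : k0Val A) ∈ P) :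
    (nodeSetupSeriesD A D (SeriesVal.ofConstRed R) (SeriesVal.ofConstRed R)
      ((SeriesVal.ofConstRed R).comap w) κ' hiInf hoInf hiMid hoMid hiZero hoZero).pInf ≤ P ∨
    (nodeSetupSeriesD A D (SeriesVal.ofConstRed R) (SeriesVal.ofConstRed R)
      ((SeriesVal.ofConstRed R).comap w) κ' hiInf hoInf hiMid hoMid hiZero hoZero).pMid ≤ P ∨
    (nodeSetupSeriesD A D (SeriesVal.ofConstRed R) (SeriesVal.ofConstRed R)
      ((SeriesVal.ofConstRed R).comap w) κ' hiInf hoInf hiMid hoMid hiZero hoZero).pZero ≤ P :=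
  vhrad A D _ _ _ κ' hiInf hoInf hiMid hoMid hiZero hoZero hq
    (varch_inf A hq hA hR) (varch_inf A hq hA hR)
    (varch_zero A hq hA hR w hw _ (fun _ => Iff.rfl)) P hP hqP

end LevelN

section LevelM

variable (A : ValuationSubring Kbar) {M' q : ℕ} [NeZero M'] [NeZero q]
variable (D : Set (Place Kbar (FF (M' * q * q))))
    {κ : IntermediateField (IsLocalRing.ResidueField A)
      (LaurentSeries (IsLocalRing.ResidueField A))}
    (R : ConstRed A (IsLocalRing.residue A) (↥κ) (FF (M' * q * q)))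
    (w : FF (M' * q * q) ≃ₐ[Kbar] FF (M' * q * q))
    (κ' : IntermediateField (IsLocalRing.ResidueField A)
      (LaurentSeries (IsLocalRing.ResidueField A)))
    {ζ : Kbarˣ} {E : FF (M' * q * q) →+* LaurentSeries Kbar}

/-- **`Hrad` at level `M = M'q²`**: `vInf` from an `IsSeriesRed` constant reduction `R`,
`vZero = vInf ∘ w` with `w` preserving `F0(M)`, `vMid` any `SeriesVal` whose valuation ring is
the middle valuation ring `vmidO` of a middle expansion. -/
theorem vhrad_levelM (hq : q.Prime) (hA : A.LiesOverPrime q) (hR : IsSeriesRed R)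
    (hw : ∀ x ∈ f0Field A (M' * q * q), w x ∈ f0Field A (M' * q * q))
    (hζ : IsPrimitiveRoot (ζ : Kbar) q) (hE : IsMidExp M' q ζ E)
    (hlt : A.valuation (q : Kbar) < 1) (hζq : ζ ^ q = 1)
    (vMid : SeriesVal A (M' * q * q)) (hvMid : vMid.O = vmidO A hq hlt hζq hE)
    (hiInf hoInf hiMid hoMid hiZero hoZero)
    (P : Ideal (nodeSetupSeriesD A D (SeriesVal.ofConstRed R) vMid
      ((SeriesVal.ofConstRed R).comap w) κ' hiInf hoInf hiMid hoMid hiZero hoZero).B)
    (hP : P.IsPrime)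
    (hqP : (nodeSetupSeriesD A D (SeriesVal.ofConstRed R) vMid
      ((SeriesVal.ofConstRed R).comap w) κ' hiInf hoInf hiMid hoMid hiZero
        hoZero).constB (q : k0Val A) ∈ P) :
    (nodeSetupSeriesD A D (SeriesVal.ofConstRed R) vMid
      ((SeriesVal.ofConstRed R).comap w) κ' hiInf hoInf hiMid hoMid hiZero hoZero).pInf ≤ P ∨
    (nodeSetupSeriesD A D (SeriesVal.ofConstRed R) vMid
      ((SeriesVal.ofConstRed R).comap w) κ' hiInf hoInf hiMid hoMid hiZero hoZero).pMid ≤ P ∨
    (nodeSetupSeriesD A D (SeriesVal.ofConstRed R) vMid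
      ((SeriesVal.ofConstRed R).comap w) κ' hiInf hoInf hiMid hoMid hiZero hoZero).pZero ≤ P := by
  refine vhrad A D _ _ _ κ' hiInf hoInf hiMid hoMid hiZero hoZero hq
    (varch_inf A hq hA hR) ?_
    (varch_zero A hq hA hR w hw _ (fun _ => Iff.rfl)) P hP hqP
  rw [hvMid]
  exact varch_mid A hq hA hζ hE hlt hζq

end LevelM

end Fermat.Agent.S36lib

end
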