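/-
Item 83 (S36), block V, piece V-H part 2: RELATIVE DEGREES over `K0` (helper14).

* `vdrel_dep_abs` (Mathlib + Artin's lemma `s36_linearIndependent_of_fixed`): `φ : K → F` of finite
  degree `≤ n`, `G` a set of compatible pairs of endomorphisms of `F` and `K`, `K0 → K` with image
  containing the `G`-fixed elements of `K`: any family of more than `n` `G`-fixed elements of `F`
  is linearly dependent over `φ K0`;
* `vdrel_dep_of_comm` : the same for `φ : FF N → FF M` commuting with the arithmetic Galois action,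
  `K0 := F0(N)`, fixed elements `F0(M)`;
* `vdrel_dep` : any family of more than `q` elements of `F0(M' q²)` is linearly dependent over
  `α F0(M' q)`;  `vdrel_dep_beta` : the same over `β F0(M' q)`.
-/
import Mathlib
import Fermat.Agent.S36lib.FixedArtin
import Fermat.Agent.S36lib.FixedF0
import Fermat.Agent.S36lib.NormBCQ2
import Fermat.Agent.S36lib.MidExpGal
import Fermat.Agent.S36lib.NormProdQ2

set_option autoImplicit false
set_option linter.style.haveILetI false
set_option linter.unusedSectionVars false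

open ModularCurve AlgebraicCurve
open Fermat.Agent.HeckeBar Fermat.Agent.S24lib Fermat.Agent.S34lib

noncomputable section

namespace Fermat.Agent.S36lib

section Abstract

variable {K0 K F : Type*} [Field K0] [Field K] [Field F] [Algebra K0 K]

/-- **relative dependence**: more than `[F : φ K]` fixed elements of `F` are linearly dependent
over `φ K0`. -/
theorem vdrel_dep_abs (φ : K →+* F) (n : ℕ)
    (hfin : letI := φ.toAlgebra; Module.Finite K F)
    (hn : letI := φ.toAlgebra; Module.finrank K F ≤ n)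
    (G : Set ((F →+* F) × (K →+* K)))
    (hG : ∀ g ∈ G, ∀ c : K, g.1 (φ c) = φ (g.2 c))
    (hK0 : ∀ c : K, (∀ g ∈ G, g.2 c = c) → c ∈ Set.range (algebraMap K0 K))
    {ι : Type*} [Fintype ι] (w : ι → F) (hw : ∀ g ∈ G, ∀ i, g.1 (w i) = w i)
    (hcard : n < Fintype.card ι) :
    ∃ g : ι → K0, g ≠ 0 ∧ ∑ i, φ (algebraMap K0 K (g i)) * w i = 0 := by
  classical
  letI := φ.toAlgebra
  letI : Module K0 F := Module.compHom F (algebraMap K0 K)
  haveI : IsScalarTower K0 K F := ⟨fun a b c => by
    show φ (a • b) * c = φ (algebraMap K0 K a) * (φ b * c)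
    rw [Algebra.smul_def, map_mul, mul_assoc]⟩
  haveI : Module.Finite K F := hfin
  by_contra hcon
  have hli : LinearIndependent K0 w := by
    rw [Fintype.linearIndependent_iff]
    intro g hg
    by_contra hne
    apply hcon
    refine ⟨g, ?_, ?_⟩
    · intro h0
      apply hne
      intro i
      rw [h0]
      rfl
    · rw [← hg]
      rfl
  have h2 : LinearIndependent K w :=
    s36_linearIndependent_of_fixed G (fun g hg c => hG g hg c) hK0 w hw hli
  have h3 := h2.fintype_card_le_finrank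
  exact absurd (lt_of_lt_of_le hcard h3) (not_lt.mpr hn)

end Abstract

section Concrete

variable (A : ValuationSubring Kbar) {N M : ℕ} [NeZero N] [NeZero M]

/-- the pairs `(σ on FF M, σ on FF N)`, `σ` in the inertia group -/
def vdrelPairs (N M : ℕ) [NeZero N] [NeZero M] :
    Set ((FF M →+* FF M) × (FF N →+* FF N)) :=
  {g | ∃ σ ∈ A.inertiaSubgroupIn ℚ,
    g = (((arithmeticRingAut (modularFunctionFieldFull M) σ : _ ≃+* _) : _ →+* _),
      ((arithmeticRingAut (modularFunctionFieldFull N) σ : _ ≃+* _) : _ →+* _))}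

/-- **relative dependence over `φ F0(N)`** for a map `φ : FF N → FF M` of finite degree `≤ n`
commuting with the arithmetic Galois action. -/
theorem vdrel_dep_of_comm (φ : FF N →ₐ[Kbar] FF M)
    (hφ : ∀ σ ∈ A.inertiaSubgroupIn ℚ, ∀ x : FF N, galFF M σ • φ x = φ (galFF N σ • x))
    (n : ℕ) (hn0 : 0 < finrankAlong Kbar φ) (hn : finrankAlong Kbar φ ≤ n)
    {ι : Type*} [Fintype ι] (w : ι → FF M) (hcard : n < Fintype.card ι)
    (hw : ∀ i, w i ∈ f0Field A M) :
    ∃ g : ι → FF N, g ≠ 0 ∧ (∀ i, g i ∈ f0Field A N) ∧ ∑ i, φ (g i) * w i = 0 := by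
  have hfin : letI := (φ : FF N →+* FF M).toAlgebra; Module.Finite (FF N) (FF M) :=
    letI := (φ : FF N →+* FF M).toAlgebra
    Module.finite_of_finrank_pos hn0
  obtain ⟨g, hg0, hg⟩ := vdrel_dep_abs (K0 := f0Field A N) (φ : FF N →+* FF M) n hfin hn
    (vdrelPairs A N M)
    (by
      rintro _ ⟨σ, hσ, rfl⟩ c
      exact hφ σ hσ c)
    (by
      intro c hc
      have hmem : c ∈ f0Field A N := by
        rw [mem_f0Field_iff_isIFixed]
        intro σ hσ
        exact hc _ ⟨σ, hσ, rfl⟩
      exact ⟨⟨c, hmem⟩, rfl⟩)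
    w
    (by
      rintro _ ⟨σ, hσ, rfl⟩ i
      exact (mem_f0Field_iff_isIFixed A M (w i)).mp (hw i) σ hσ)
    hcard
  refine ⟨fun i => ((g i : f0Field A N) : FF N), ?_, fun i => (g i).2, hg⟩
  intro h0
  apply hg0
  funext i
  exact Subtype.ext (congrFun h0 i)

end Concrete

section AlphaBeta

variable (M' q : ℕ) [NeZero M'] [NeZero q]

/-- **`[F0(M' q²) : α F0(M' q)] ≤ q`**: any family of more than `q` elements of `F0(M' q²)` is
linearly dependent over `α F0(M' q)`. -/
theorem vdrel_dep (hq : q.Prime) (A : ValuationSubring Kbar)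
    {ι : Type*} [Fintype ι] (w : ι → FF (M' * q * q)) (hcard : q < Fintype.card ι)
    (hw : ∀ i, w i ∈ f0Field A (M' * q * q)) :
    ∃ g : ι → FF (M' * q), g ≠ 0 ∧ (∀ i, g i ∈ f0Field A (M' * q)) ∧
      ∑ i, heckeAlphaBar Kbar (M' * q) q (g i) * w i = 0 := by
  have hdeg := nbq_finrankAlong_alpha M' q hq
  exact vdrel_dep_of_comm A (heckeAlphaBar Kbar (M' * q) q)
    (fun σ _ x => mx_gal_alpha (M' * q) q σ x) q (by rw [hdeg]; exact hq.pos) hdeg.le w hcard hw

/-- the same over `β F0(M' q)`. -/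
theorem vdrel_dep_beta (hq : q.Prime) (A : ValuationSubring Kbar)
    {ι : Type*} [Fintype ι] (w : ι → FF (M' * q * q)) (hcard : q < Fintype.card ι)
    (hw : ∀ i, w i ∈ f0Field A (M' * q * q)) :
    ∃ g : ι → FF (M' * q), g ≠ 0 ∧ (∀ i, g i ∈ f0Field A (M' * q)) ∧
      ∑ i, heckeBetaBar Kbar (M' * q) q (g i) * w i = 0 := by
  have hdeg : finrankAlong Kbar (heckeBetaBar Kbar (M' * q) q) = q := by
    rw [nq2_finrankAlong_beta (M' * q) q hq, if_pos (dvd_mul_left q M')]
  exact vdrel_dep_of_comm A (heckeBetaBar Kbar (M' * q) q)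
    (fun σ _ x => mx_gal_beta (M' * q) q σ x) q (by rw [hdeg]; exact hq.pos) hdeg.le w hcard hw

end AlphaBeta

end Fermat.Agent.S36lib

end
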