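/-
Item 83 (S36), piece V-D2, abstract part (helper18).  Mathlib only.

The relative fundamental inequality `e₂ f₂ + e₁ f₁ ≤ [F : α F₁]` for two valuation rings
`O₁`, `O₂` of `F` over one DISCRETE valuation of `F₁` (uniformiser `ϖ`), in the form used for
the middle valuation of `X₀(M' q²)`:

`O₂` ramified of index `≥ q - 1` (`v₂ Y ^ (q-1) = v₂ ϖ`), `[F : α F₁] ≤ q` (`hdim`: any family
indexed by `(Fin (q-1) ⊕ Fin (q-1)) ⊕ Unit` is `α F₁`-dependent), `red₂ : O₂ → L` with kernel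
the maximal ideal, mapping `α F₁ ∩ O₂` into the subfield `L₁`.  Then `red₂ (O₂) ⊆ L₁`
(`vmi_abs`): the residue field of `O₂` is that of its restriction to `α F₁`.

Proof: if `r = red₂ x ∉ L₁`, the `2 (q - 1) + 1` elements `e Y^i`, `e Y^i x`, `1 - e`
(`e ∈ 𝔪₁`, `1 - e ∈ 𝔪₂`) are independent over `α F₁`.  Helper lemmas are prefixed `vmi_`.
-/
import Mathlib
import Fermat.Agent.S36lib.Speed

set_option autoImplicit false

namespace Fermat.Agent.S36lib

section VMI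

variable {F₁ F L : Type*} [Field F₁] [Field F] [Field L]

/-- a unit of a valuation ring has valuation one -/
theorem vmi_val_eq_one (O : ValuationSubring F) {x : F} (hx0 : x ≠ 0) (hx : x ∈ O)
    (hxi : x⁻¹ ∈ O) : O.valuation x = 1 := by
  have h1 := (O.valuation_le_one_iff x).mpr hx
  have h2 := (O.valuation_le_one_iff x⁻¹).mpr hxi
  rw [map_inv₀] at h2
  have h3 : O.valuation x ≠ 0 := (Valuation.ne_zero_iff _).mpr hx0
  exact le_antisymm h1 ((inv_le_one₀ (zero_lt_iff.mpr h3)).mp h2)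

/-- normalisation of a nonzero family of coefficients: all integral, each a unit or divisible
by `ϖ`, at least one a unit -/
theorem vmi_normalise (α : F₁ →+* F) (O₁ O₂ : ValuationSubring F) (ϖ : F₁) (hϖ0 : ϖ ≠ 0)
    (hϖ₁ : O₁.valuation (α ϖ) < 1) (hϖ₂ : O₂.valuation (α ϖ) < 1)
    (hdisc : ∀ a : F₁, a ≠ 0 → ∃ n : ℤ,
      O₁.valuation (α (ϖ ^ n * a)) = 1 ∧ O₂.valuation (α (ϖ ^ n * a)) = 1)
    {ι : Type*} [Fintype ι] (g : ι → F₁) (hg : g ≠ 0) :
    ∃ (d : F₁) (i₀ : ι), d ≠ 0 ∧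
      (O₁.valuation (α (d * g i₀)) = 1 ∧ O₂.valuation (α (d * g i₀)) = 1) ∧
      ∀ i, (O₁.valuation (α (d * g i)) = 1 ∧ O₂.valuation (α (d * g i)) = 1) ∨
        (O₁.valuation (α (d * g i)) ≤ O₁.valuation (α ϖ) ∧
          O₂.valuation (α (d * g i)) ≤ O₂.valuation (α ϖ)) := by
  classical
  obtain ⟨i₁, hi₁⟩ : ∃ i, g i ≠ 0 := by
    by_contra h
    apply hg
    funext i
    by_contra hne
    exact h ⟨i, hne⟩
  have hex : ∀ i, ∃ n : ℤ, g i ≠ 0 →
      O₁.valuation (α (ϖ ^ n * g i)) = 1 ∧ O₂.valuation (α (ϖ ^ n * g i)) = 1 := by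
    intro i
    by_cases h0 : g i = 0
    · exact ⟨0, fun h => absurd h0 h⟩
    · obtain ⟨n, hn⟩ := hdisc (g i) h0
      exact ⟨n, fun _ => hn⟩
  choose n hn using hex
  set S : Finset ι := Finset.univ.filter fun i => g i ≠ 0 with hS
  have hSne : S.Nonempty := ⟨i₁, Finset.mem_filter.mpr ⟨Finset.mem_univ _, hi₁⟩⟩
  obtain ⟨i₀, hi₀S, hmax⟩ := Finset.exists_max_image S n hSne
  have hi₀ : g i₀ ≠ 0 := (Finset.mem_filter.mp hi₀S).2
  refine ⟨ϖ ^ n i₀, i₀, zpow_ne_zero _ hϖ0, hn i₀ hi₀, ?_⟩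
  intro i
  by_cases h0 : g i = 0
  · right
    rw [h0, mul_zero, map_zero, map_zero, map_zero]
    exact ⟨zero_le, zero_le⟩
  · have hle : n i ≤ n i₀ := hmax i (Finset.mem_filter.mpr ⟨Finset.mem_univ _, h0⟩)
    obtain ⟨k, hk⟩ := Int.eq_ofNat_of_zero_le (sub_nonneg.mpr hle)
    have e1 : ϖ ^ n i₀ * g i = ϖ ^ k * (ϖ ^ n i * g i) := by
      have : n i₀ = (k : ℤ) + n i := by omega
      rw [this, zpow_add₀ hϖ0, zpow_natCast, mul_assoc]
    obtain ⟨h1, h2⟩ := hn i h0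
    rcases Nat.eq_zero_or_pos k with hk0 | hkpos
    · left
      rw [e1, hk0, pow_zero, one_mul]
      exact ⟨h1, h2⟩
    · right
      have e2 : α (ϖ ^ n i₀ * g i) = α ϖ ^ k * α (ϖ ^ n i * g i) := by
        rw [e1, RingHom.map_mul α, RingHom.map_pow α]
      rw [e2, Valuation.map_mul, Valuation.map_mul, Valuation.map_pow, Valuation.map_pow, h1, h2,
        mul_one, mul_one]
      exact ⟨pow_le_of_le_one zero_le hϖ₁.le hkpos.ne', pow_le_of_le_one zero_le hϖ₂.le hkpos.ne'⟩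

/-- `1` and `r = red₂ x ∉ L₁` are independent over `L₁`: a combination `α a + α b · x` with
coefficients which are units or divisible by `ϖ` is a unit or divisible by `ϖ` -/
theorem vmi_comb (α : F₁ →+* F) (O₂ : ValuationSubring F) (red₂ : O₂ →+* L)
    (hker : ∀ z : O₂, red₂ z = 0 ↔ O₂.valuation (z : F) < 1)
    (L₁ : Subfield L) (hα : ∀ (a : F₁) (h : α a ∈ O₂), red₂ ⟨α a, h⟩ ∈ L₁)
    (p : O₂.ValueGroup) (hp : p ≤ 1)
    (x : F) (hx : x ∈ O₂) (hr : red₂ ⟨x, hx⟩ ∉ L₁) (a b : F₁)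
    (ha : O₂.valuation (α a) = 1 ∨ O₂.valuation (α a) ≤ p)
    (hb : O₂.valuation (α b) = 1 ∨ O₂.valuation (α b) ≤ p) :
    (O₂.valuation (α a + α b * x) = 1 ∨ O₂.valuation (α a + α b * x) ≤ p) ∧
      ((O₂.valuation (α a) = 1 ∨ O₂.valuation (α b) = 1) →
        O₂.valuation (α a + α b * x) = 1) := by
  have hvx : O₂.valuation x ≤ 1 := (O₂.valuation_le_one_iff x).mpr hx
  have hva : O₂.valuation (α a) ≤ 1 := by
    rcases ha with h | h
    · exact h.le
    · exact h.trans hp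
  have hvb : O₂.valuation (α b) ≤ 1 := by
    rcases hb with h | h
    · exact h.le
    · exact h.trans hp
  have haO : α a ∈ O₂ := (O₂.valuation_le_one_iff _).mp hva
  have hbO : α b ∈ O₂ := (O₂.valuation_le_one_iff _).mp hvb
  have hmem : α a + α b * x ∈ O₂ := add_mem haO (mul_mem hbO hx)
  have key : (O₂.valuation (α a) = 1 ∨ O₂.valuation (α b) = 1) →
      O₂.valuation (α a + α b * x) = 1 := by
    intro h
    have hred : red₂ ⟨α a + α b * x, hmem⟩
        = red₂ ⟨α a, haO⟩ + red₂ ⟨α b, hbO⟩ * red₂ ⟨x, hx⟩ := by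
      rw [← map_mul, ← map_add]
      rfl
    have hne : red₂ ⟨α a + α b * x, hmem⟩ ≠ 0 := by
      rw [hred]
      intro h0
      by_cases hb0 : red₂ ⟨α b, hbO⟩ = 0
      · rw [hb0, zero_mul, add_zero] at h0
        have h1 := (hker ⟨α a, haO⟩).mp h0
        have h2 := (hker ⟨α b, hbO⟩).mp hb0
        rcases h with h | h
        · exact absurd h h1.ne
        · exact absurd h h2.ne
      · apply hr
        have e : red₂ ⟨x, hx⟩ = -(red₂ ⟨α a, haO⟩) / red₂ ⟨α b, hbO⟩ := by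
          rw [eq_div_iff hb0]
          linear_combination h0
        rw [e]
        exact L₁.div_mem (L₁.neg_mem (hα a haO)) (hα b hbO)
    have hnlt : ¬ O₂.valuation (α a + α b * x) < 1 :=
      fun h => hne ((hker ⟨α a + α b * x, hmem⟩).mpr h)
    exact le_antisymm ((O₂.valuation_le_one_iff _).mpr hmem) (not_lt.mp hnlt)
  refine ⟨?_, key⟩
  by_cases h : O₂.valuation (α a) = 1 ∨ O₂.valuation (α b) = 1
  · exact Or.inl (key h)
  · rw [not_or] at h
    right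
    have ha' : O₂.valuation (α a) ≤ p := ha.resolve_left h.1
    have hb' : O₂.valuation (α b) ≤ p := hb.resolve_left h.2
    refine Valuation.map_add_le _ ha' ?_
    rw [Valuation.map_mul]
    calc O₂.valuation (α b) * O₂.valuation x ≤ p * 1 := mul_le_mul' hb' hvx
      _ = p := mul_one p

/-- an idempotent-like element separating `O₁` and `O₂` -/
theorem vmi_exists_e (α : F₁ →+* F) (q : ℕ) (hq : 2 ≤ q) (O₁ O₂ : ValuationSubring F)
    (ϖ : F₁) (hϖ0 : ϖ ≠ 0)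
    (hϖ₁ : O₁.valuation (α ϖ) < 1) (hϖ₂ : O₂.valuation (α ϖ) < 1)
    (Y : F) (hY₁ : O₁.valuation Y = 1) (hY₂ : O₂.valuation Y ^ (q - 1) = O₂.valuation (α ϖ))
    (x : F) (harch : ∃ m : ℕ, O₁.valuation (α ϖ ^ m * x) < 1) :
    ∃ e : F, O₁.valuation e < 1 ∧ O₁.valuation (e * x) < 1 ∧ O₁.valuation (1 - e) = 1 ∧
      O₂.valuation e = 1 ∧ O₂.valuation (1 - e) < 1 := by
  have hαϖ : α ϖ ≠ 0 := (map_ne_zero α).mpr hϖ0
  have hp₂0 : O₂.valuation (α ϖ) ≠ 0 := (Valuation.ne_zero_iff _).mpr hαϖ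
  have hq1 : q - 1 ≠ 0 := by omega
  have hy0 : O₂.valuation Y ≠ 0 := by
    intro h
    rw [h, zero_pow hq1] at hY₂
    exact hp₂0 hY₂.symm
  have hy1 : O₂.valuation Y < 1 := by
    by_contra h
    have h1 := one_le_pow₀ (not_lt.mp h) (n := q - 1)
    rw [hY₂] at h1
    exact absurd hϖ₂ (not_lt.mpr h1)
  have hY0 : Y ≠ 0 := (Valuation.ne_zero_iff _).mp hy0
  obtain ⟨m₀, hm₀⟩ := harch
  have hm0 : m₀ + 1 ≠ 0 := Nat.succ_ne_zero m₀
  have hmx : O₁.valuation (α ϖ ^ (m₀ + 1) * x) < 1 := by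
    have e1 : α ϖ ^ (m₀ + 1) * x = α ϖ * (α ϖ ^ m₀ * x) := by ring
    rw [e1, Valuation.map_mul]
    calc O₁.valuation (α ϖ) * O₁.valuation (α ϖ ^ m₀ * x)
        ≤ 1 * O₁.valuation (α ϖ ^ m₀ * x) := mul_le_mul_left hϖ₁.le _
      _ = O₁.valuation (α ϖ ^ m₀ * x) := one_mul _
      _ < 1 := hm₀
  generalize m₀ + 1 = m at hm0 hmx
  have hv₁t : O₁.valuation (α ϖ ^ m * (Y ^ (q * m))⁻¹) = O₁.valuation (α ϖ) ^ m := by
    rw [Valuation.map_mul, map_inv₀, Valuation.map_pow, Valuation.map_pow, hY₁, one_pow, inv_one,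
      mul_one]
  have hv₁t1 : O₁.valuation (α ϖ ^ m * (Y ^ (q * m))⁻¹) < 1 := by
    rw [hv₁t]
    exact pow_lt_one₀ zero_le hϖ₁ hm0
  have hym0 : O₂.valuation Y ^ m ≠ 0 := pow_ne_zero _ hy0
  have hym : O₂.valuation Y ^ m < 1 := pow_lt_one₀ zero_le hy1 hm0
  have hv₂t : O₂.valuation (α ϖ ^ m * (Y ^ (q * m))⁻¹) = (O₂.valuation Y ^ m)⁻¹ := by
    rw [Valuation.map_mul, map_inv₀, Valuation.map_pow, Valuation.map_pow, ← hY₂, ← pow_mul]
    have e2 : q * m = (q - 1) * m + m := by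
      have h3 : (q - 1) * m + m = (q - 1 + 1) * m := by ring
      rw [h3, Nat.sub_add_cancel (by omega : 1 ≤ q)]
    rw [e2, pow_add, mul_inv, ← mul_assoc, mul_inv_cancel₀ (pow_ne_zero _ hy0), one_mul]
  have hv₂t1 : 1 < O₂.valuation (α ϖ ^ m * (Y ^ (q * m))⁻¹) := by
    rw [hv₂t]
    exact (one_lt_inv₀ (zero_lt_iff.mpr hym0)).mpr hym
  have hv₁tx : O₁.valuation (α ϖ ^ m * (Y ^ (q * m))⁻¹ * x) < 1 := by
    have e3 : α ϖ ^ m * (Y ^ (q * m))⁻¹ * x = α ϖ ^ m * x * (Y ^ (q * m))⁻¹ := by ring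
    rw [e3, Valuation.map_mul, map_inv₀, Valuation.map_pow, hY₁, one_pow, inv_one, mul_one]
    exact hmx
  generalize α ϖ ^ m * (Y ^ (q * m))⁻¹ = t at hv₁t hv₁t1 hv₂t hv₂t1 hv₁tx
  have hv₁1t : O₁.valuation (1 + t) = 1 := by
    have h := Valuation.map_add_eq_of_lt_left O₁.valuation (x := 1) (y := t)
      (by rw [Valuation.map_one]; exact hv₁t1)
    rw [h, Valuation.map_one]
  have h1t0 : 1 + t ≠ 0 := by
    apply (Valuation.ne_zero_iff O₁.valuation).mp
    rw [hv₁1t]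
    exact one_ne_zero
  have hv₂1t : O₂.valuation (1 + t) = O₂.valuation t :=
    Valuation.map_add_eq_of_lt_right O₂.valuation (by rw [Valuation.map_one]; exact hv₂t1)
  have hv₂t0 : O₂.valuation t ≠ 0 := fun h => by
    rw [h] at hv₂t1
    exact absurd hv₂t1 (not_lt.mpr zero_le)
  have he1 : 1 - t * (1 + t)⁻¹ = (1 + t)⁻¹ := by
    field_simp
    ring
  refine ⟨t * (1 + t)⁻¹, ?_, ?_, ?_, ?_, ?_⟩
  · rw [Valuation.map_mul, map_inv₀, hv₁1t, inv_one, mul_one]
    exact hv₁t1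
  · have e4 : t * (1 + t)⁻¹ * x = t * x * (1 + t)⁻¹ := by ring
    rw [e4, Valuation.map_mul, map_inv₀, hv₁1t, inv_one, mul_one]
    exact hv₁tx
  · rw [he1, map_inv₀, hv₁1t, inv_one]
  · rw [Valuation.map_mul, map_inv₀, hv₂1t]
    exact mul_inv_cancel₀ hv₂t0
  · rw [he1, map_inv₀, hv₂1t, hv₂t, inv_inv]
    exact hym

/-- **the residue field of the ramified extension `O₂` is that of its restriction to `α F₁`**
(relative fundamental inequality for the two valuations `O₁`, `O₂`). -/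
theorem vmi_abs (α : F₁ →+* F) (q : ℕ) (hq : 2 ≤ q) (O₁ O₂ : ValuationSubring F)
    (red₂ : O₂ →+* L) (hker : ∀ z : O₂, red₂ z = 0 ↔ O₂.valuation (z : F) < 1)
    (L₁ : Subfield L) (hα : ∀ (a : F₁) (h : α a ∈ O₂), red₂ ⟨α a, h⟩ ∈ L₁)
    (ϖ : F₁) (hϖ0 : ϖ ≠ 0)
    (hϖ₁ : O₁.valuation (α ϖ) < 1) (hϖ₂ : O₂.valuation (α ϖ) < 1)
    (hdisc : ∀ a : F₁, a ≠ 0 → ∃ n : ℤ,
      O₁.valuation (α (ϖ ^ n * a)) = 1 ∧ O₂.valuation (α (ϖ ^ n * a)) = 1)
    (Y : F) (hY₁ : O₁.valuation Y = 1) (hY₂ : O₂.valuation Y ^ (q - 1) = O₂.valuation (α ϖ))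
    (hdim : ∀ w : (Fin (q - 1) ⊕ Fin (q - 1)) ⊕ Unit → F,
      ∃ g : (Fin (q - 1) ⊕ Fin (q - 1)) ⊕ Unit → F₁, g ≠ 0 ∧ ∑ i, α (g i) * w i = 0)
    (x : F) (hx : x ∈ O₂) (harch : ∃ m : ℕ, O₁.valuation (α ϖ ^ m * x) < 1) :
    red₂ ⟨x, hx⟩ ∈ L₁ := by
  classical
  by_contra hr
  have hαϖ : α ϖ ≠ 0 := (map_ne_zero α).mpr hϖ0
  have hp₂0 : O₂.valuation (α ϖ) ≠ 0 := (Valuation.ne_zero_iff _).mpr hαϖ
  have hq1 : q - 1 ≠ 0 := by omega
  have hy0 : O₂.valuation Y ≠ 0 := by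
    intro h
    rw [h, zero_pow hq1] at hY₂
    exact hp₂0 hY₂.symm
  have hy1 : O₂.valuation Y < 1 := by
    by_contra h
    have h1 := one_le_pow₀ (not_lt.mp h) (n := q - 1)
    rw [hY₂] at h1
    exact absurd hϖ₂ (not_lt.mpr h1)
  have hvx : O₂.valuation x ≤ 1 := (O₂.valuation_le_one_iff x).mpr hx
  obtain ⟨e, he₁, hex₁, h1e₁, he₂, h1e₂⟩ :=
    vmi_exists_e α q hq O₁ O₂ ϖ hϖ0 hϖ₁ hϖ₂ Y hY₁ hY₂ x harch
  -- the family
  set w : (Fin (q - 1) ⊕ Fin (q - 1)) ⊕ Unit → F :=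
    Sum.elim (Sum.elim (fun i : Fin (q - 1) => e * Y ^ (i : ℕ))
      (fun i : Fin (q - 1) => e * Y ^ (i : ℕ) * x)) (fun _ : Unit => 1 - e) with hw
  obtain ⟨g, hg, hsum⟩ := hdim w
  obtain ⟨d, i₀, hd0, hi₀, hall⟩ := vmi_normalise α O₁ O₂ ϖ hϖ0 hϖ₁ hϖ₂ hdisc g hg
  have hsum' : ∑ i, α (d * g i) * w i = 0 := by
    have h1 : ∑ i, α (d * g i) * w i = α d * ∑ i, α (g i) * w i := by
      rw [Finset.mul_sum]
      refine Finset.sum_congr rfl fun i _ => ?_
      rw [RingHom.map_mul α, mul_assoc]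
    rw [h1, hsum, mul_zero]
  generalize hc : (fun i => d * g i) = c at hsum' hi₀ hall
  have hcapp : ∀ i, d * g i = c i := fun i => congrFun hc i
  simp only [hcapp] at hsum' hi₀ hall
  -- all coefficients are integral
  have hc₁ : ∀ i, O₁.valuation (α (c i)) ≤ 1 := by
    intro i
    rcases hall i with h | h
    · exact h.1.le
    · exact h.1.trans hϖ₁.le
  -- the relation, regrouped
  set T : Fin (q - 1) → F := fun i =>
    e * Y ^ (i : ℕ) * (α (c (Sum.inl (Sum.inl i))) + α (c (Sum.inl (Sum.inr i))) * x) with hT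
  have hrel : ∑ i, T i + α (c (Sum.inr ())) * (1 - e) = 0 := by
    rw [← hsum', Fintype.sum_sum_type, Fintype.sum_sum_type, ← Finset.sum_add_distrib]
    simp only [hw, Sum.elim_inl, Sum.elim_inr, Finset.univ_unique, Finset.sum_singleton]
    congr 1
    refine Finset.sum_congr rfl fun i _ => ?_
    rw [hT]
    ring
  rcases hall (Sum.inr ()) with hA | hB
  · -- case A: the coefficient of `1 - e` is a unit: look at `O₁`
    have hTlt : ∀ i ∈ (Finset.univ : Finset (Fin (q - 1))), O₁.valuation (T i) < 1 := by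
      intro i _
      have e5 : T i = α (c (Sum.inl (Sum.inl i))) * (e * Y ^ (i : ℕ))
          + α (c (Sum.inl (Sum.inr i))) * (e * x * Y ^ (i : ℕ)) := by
        rw [hT]
        ring
      rw [e5]
      refine lt_of_le_of_lt (Valuation.map_add _ _ _) (max_lt ?_ ?_)
      · rw [Valuation.map_mul, Valuation.map_mul, Valuation.map_pow, hY₁, one_pow, mul_one]
        calc O₁.valuation (α (c (Sum.inl (Sum.inl i)))) * O₁.valuation e
            ≤ 1 * O₁.valuation e := mul_le_mul_left (hc₁ _) _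
          _ = O₁.valuation e := one_mul _
          _ < 1 := he₁
      · rw [Valuation.map_mul, Valuation.map_mul (O₁.valuation) (e * x), Valuation.map_pow, hY₁,
          one_pow, mul_one]
        calc O₁.valuation (α (c (Sum.inl (Sum.inr i)))) * O₁.valuation (e * x)
            ≤ 1 * O₁.valuation (e * x) := mul_le_mul_left (hc₁ _) _
          _ = O₁.valuation (e * x) := one_mul _
          _ < 1 := hex₁
    have h1 : O₁.valuation (∑ i, T i) < 1 := Valuation.map_sum_lt _ one_ne_zero hTlt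
    have h2 : O₁.valuation (α (c (Sum.inr ())) * (1 - e)) = 1 := by
      rw [Valuation.map_mul, hA.1, h1e₁, one_mul]
    have h3 := Valuation.map_add_eq_of_lt_right O₁.valuation (x := ∑ i, T i)
      (y := α (c (Sum.inr ())) * (1 - e)) (by rw [h2]; exact h1)
    rw [hrel, Valuation.map_zero, h2] at h3
    exact zero_ne_one h3
  · -- case B: look at `O₂`
    have hcomb := fun i : Fin (q - 1) =>
      vmi_comb α O₂ red₂ hker L₁ hα (O₂.valuation (α ϖ)) hϖ₂.le x hx hr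
        (c (Sum.inl (Sum.inl i))) (c (Sum.inl (Sum.inr i)))
        ((hall (Sum.inl (Sum.inl i))).imp (fun h => h.2) (fun h => h.2))
        ((hall (Sum.inl (Sum.inr i))).imp (fun h => h.2) (fun h => h.2))
    have hvT : ∀ i, O₂.valuation (T i) = O₂.valuation Y ^ (i : ℕ) *
        O₂.valuation (α (c (Sum.inl (Sum.inl i))) + α (c (Sum.inl (Sum.inr i))) * x) := by
      intro i
      rw [hT]
      simp only
      rw [Valuation.map_mul, Valuation.map_mul, Valuation.map_pow, he₂, one_mul]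
    -- a unit among the combinations
    obtain ⟨j₀, hj₀⟩ : ∃ j₀ : Fin (q - 1), O₂.valuation
        (α (c (Sum.inl (Sum.inl j₀))) + α (c (Sum.inl (Sum.inr j₀))) * x) = 1 := by
      rcases i₀ with (j | j) | u
      · exact ⟨j, (hcomb j).2 (Or.inl hi₀.2)⟩
      · exact ⟨j, (hcomb j).2 (Or.inr hi₀.2)⟩
      · exfalso
        have h1 : O₁.valuation (α (c (Sum.inr u))) = 1 := hi₀.1
        have h2 : O₁.valuation (α (c (Sum.inr ()))) ≤ O₁.valuation (α ϖ) := hB.1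
        have h3 : O₁.valuation (α (c (Sum.inr ()))) = 1 := h1
        rw [h3] at h2
        exact absurd hϖ₁ (not_lt.mpr h2)
    set I : Finset (Fin (q - 1)) := Finset.univ.filter fun i => O₂.valuation
      (α (c (Sum.inl (Sum.inl i))) + α (c (Sum.inl (Sum.inr i))) * x) = 1 with hI
    have hIne : I.Nonempty := ⟨j₀, Finset.mem_filter.mpr ⟨Finset.mem_univ _, hj₀⟩⟩
    obtain ⟨j, hjI, hjmin⟩ := Finset.exists_min_image I (fun i => (i : ℕ)) hIne
    have hj1 := (Finset.mem_filter.mp hjI).2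
    have hvTj : O₂.valuation (T j) = O₂.valuation Y ^ (j : ℕ) := by
      rw [hvT, hj1, mul_one]
    have hpj : O₂.valuation (α ϖ) < O₂.valuation Y ^ (j : ℕ) := by
      rw [← hY₂]
      exact pow_lt_pow_right_of_lt_one₀ (zero_lt_iff.mpr hy0) hy1 j.2
    have hlt : ∀ i ∈ (Finset.univ : Finset (Fin (q - 1))) \ {j},
        O₂.valuation (T i) < O₂.valuation (T j) := by
      intro i hi
      have hij : i ≠ j := by
        intro h
        rw [h] at hi
        exact (Finset.mem_sdiff.mp hi).2 (Finset.mem_singleton_self j)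
      rw [hvTj, hvT]
      by_cases hiI : O₂.valuation
          (α (c (Sum.inl (Sum.inl i))) + α (c (Sum.inl (Sum.inr i))) * x) = 1
      · have hle : (j : ℕ) ≤ (i : ℕ) :=
          hjmin i (Finset.mem_filter.mpr ⟨Finset.mem_univ _, hiI⟩)
        have hlt' : (j : ℕ) < (i : ℕ) :=
          lt_of_le_of_ne hle (fun h => hij (Fin.ext h.symm))
        rw [hiI, mul_one]
        exact pow_lt_pow_right_of_lt_one₀ (zero_lt_iff.mpr hy0) hy1 hlt'
      · have hle := (hcomb i).1.resolve_left hiI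
        calc O₂.valuation Y ^ (i : ℕ) * O₂.valuation
              (α (c (Sum.inl (Sum.inl i))) + α (c (Sum.inl (Sum.inr i))) * x)
            ≤ 1 * O₂.valuation (α ϖ) :=
              mul_le_mul' (pow_le_one₀ zero_le hy1.le) hle
          _ = O₂.valuation (α ϖ) := one_mul _
          _ < O₂.valuation Y ^ (j : ℕ) := hpj
    have hsumv : O₂.valuation (∑ i, T i) = O₂.valuation Y ^ (j : ℕ) := by
      rw [Valuation.map_sum_eq_of_lt O₂.valuation (Finset.mem_univ j) hlt, hvTj]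
    have hneg : ∑ i, T i = -(α (c (Sum.inr ())) * (1 - e)) := eq_neg_of_add_eq_zero_left hrel
    rw [hneg, Valuation.map_neg, Valuation.map_mul] at hsumv
    have h4 : O₂.valuation (α (c (Sum.inr ()))) * O₂.valuation (1 - e)
        ≤ O₂.valuation (α ϖ) := by
      calc O₂.valuation (α (c (Sum.inr ()))) * O₂.valuation (1 - e)
          ≤ O₂.valuation (α ϖ) * 1 := mul_le_mul' hB.2 h1e₂.le
        _ = O₂.valuation (α ϖ) := mul_one _
    rw [hsumv] at h4
    exact absurd hpj (not_lt.mpr h4)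

end VMI

end Fermat.Agent.S36lib
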