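/-
Item 83 (S36), piece V-D2 part 2 (helper18): **`hiMid`** — the residue field of the middle
valuation restricted to the inertia-fixed functions `F0(M' q²)` is `κ' = F_{M',k}`.

`vmid_hinto` : `x ∈ O_mid`, `x ∈ F0(M' q²)` ⟹ `red_mid x ∈ κ'`.

Proof: `vmi_abs` (VMidIntoAbs) for `F₁ = F0(M' q) —α→ F = F0(M' q²)` (degree `q`, helper14's
`vdrel_dep`), `O₁ = O_∞`, `O₂ = O_mid`, uniformiser `q` (helper8's `vdisc_inf`),
`Y = j_{q²} − j` with `v_mid Y ^ (q - 1) = v_mid q` (`vmid_unit`, `vdisc_val_unit`) and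
`v_∞ Y = 1`.  Helper lemmas are prefixed `vmi_`.  No sorry.
-/
import Mathlib
import Fermat.Agent.S36lib.VMidSV
import Fermat.Agent.S36lib.VMidIntoAbs
import Fermat.Agent.S36lib.VDegRel
import Fermat.Agent.S36lib.HredQ2

set_option autoImplicit false
set_option linter.style.haveILetI false
set_option linter.unusedSectionVars false
set_option synthInstance.maxHeartbeats 400000

noncomputable section

open ModularCurve AlgebraicCurve HahnSeries
open Fermat.Agent.S24lib Fermat.Agent.HeckeBar Fermat.Agent.S37lib Fermat.Agent.S35lib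
  Fermat.Agent.GoodRed Fermat.Agent.S34lib Fermat.Agent.GM

namespace Fermat.Agent.S36lib

/-! ### generic lemmas -/

section Generic

variable {K L : Type*} [Field K] [Field L]

theorem vmi_comap_lt_one (O : ValuationSubring L) (f : K →+* L) (x : K) :
    (O.comap f).valuation x < 1 ↔ O.valuation (f x) < 1 := by
  rw [← ValuationSubring.mem_nonunits_iff, ← ValuationSubring.mem_nonunits_iff,
    ValuationSubring.mem_nonunits_iff_or, ValuationSubring.mem_nonunits_iff_or,
    ValuationSubring.mem_comap, map_inv₀, map_eq_zero]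

theorem vmi_comap_le_one (O : ValuationSubring L) (f : K →+* L) (x : K) :
    (O.comap f).valuation x ≤ 1 ↔ O.valuation (f x) ≤ 1 := by
  rw [ValuationSubring.valuation_le_one_iff, ValuationSubring.valuation_le_one_iff,
    ValuationSubring.mem_comap]

theorem vmi_comap_eq_one (O : ValuationSubring L) (f : K →+* L) (x : K) :
    (O.comap f).valuation x = 1 ↔ O.valuation (f x) = 1 := by
  constructor
  · intro h
    exact le_antisymm ((vmi_comap_le_one O f x).mp h.le)
      (not_lt.mp fun h1 => absurd h ((vmi_comap_lt_one O f x).mpr h1).ne)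
  · intro h
    exact le_antisymm ((vmi_comap_le_one O f x).mpr h.le)
      (not_lt.mp fun h1 => absurd h ((vmi_comap_lt_one O f x).mp h1).ne)

theorem vmi_comap_val_eq (O : ValuationSubring L) (f : K →+* L) (s t : K) :
    (O.comap f).valuation s = (O.comap f).valuation t ↔
      O.valuation (f s) = O.valuation (f t) := by
  by_cases ht : t = 0
  · rw [ht, RingHom.map_zero f, Valuation.map_zero, Valuation.map_zero, Valuation.zero_iff,
      Valuation.zero_iff, map_eq_zero]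
  · have h1 : (O.comap f).valuation t ≠ 0 := (Valuation.ne_zero_iff _).mpr ht
    have h2 : O.valuation (f t) ≠ 0 := (Valuation.ne_zero_iff _).mpr ((map_ne_zero f).mpr ht)
    rw [← div_eq_one_iff_eq h1, ← div_eq_one_iff_eq h2, ← map_div₀, ← map_div₀, ← map_div₀,
      vmi_comap_eq_one]

end Generic

section SV

variable {A : ValuationSubring Kbar} {L : ℕ} [NeZero L]

/-- constants of value `< 1` are non-units of a `SeriesVal` -/
theorem vmi_sv_const_lt_one (v : SeriesVal A L) {c : Kbar} (hc : A.valuation c < 1) :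
    v.O.valuation (algebraMap Kbar (FF L) c) < 1 := by
  have hcA : c ∈ A := (A.valuation_le_one_iff c).mp hc.le
  have hres : IsLocalRing.residue A ⟨c, hcA⟩ = 0 := by
    rw [IsLocalRing.residue_eq_zero_iff]
    exact (A.valuation_lt_one_iff ⟨c, hcA⟩).mpr hc
  have h1 := v.red_algebraMap ⟨c, hcA⟩
  rw [hres, map_zero] at h1
  exact (ValuationSubring.mem_nonunits_iff _).mp ((v.red_eq_zero_iff _).mp h1)

/-- constants of value `1` are units of a `SeriesVal` -/
theorem vmi_sv_const_eq_one (v : SeriesVal A L) {c : Kbar} (hc : A.valuation c = 1) :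
    v.O.valuation (algebraMap Kbar (FF L) c) = 1 := by
  have hc0 : c ≠ 0 := by
    intro h
    rw [h, map_zero] at hc
    exact zero_ne_one hc
  have hcA : c ∈ A := (A.valuation_le_one_iff c).mp hc.le
  have hciA : c⁻¹ ∈ A := by
    rw [← A.valuation_le_one_iff, map_inv₀, hc, inv_one]
  apply vmi_val_eq_one
  · exact (map_ne_zero _).mpr hc0
  · exact v.algebraMap_mem ⟨c, hcA⟩
  · rw [← map_inv₀]
    exact v.algebraMap_mem ⟨c⁻¹, hciA⟩

/-- the kernel of the reduction of the restriction of a `SeriesVal` to `F0(L)` -/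
theorem vmi_hker (v : SeriesVal A L)
    (z : ↥(v.O.comap (algebraMap ↥(f0Field A L) (FF L)))) :
    (v.red.comp v.inclK0) z = 0 ↔
      (v.O.comap (algebraMap ↥(f0Field A L) (FF L))).valuation (z : ↥(f0Field A L)) < 1 := by
  rw [vmi_comap_lt_one, ← ValuationSubring.mem_nonunits_iff]
  exact v.red_eq_zero_iff (v.inclK0 z)

end SV

/-! ### the objects at the levels `M' q` and `M' q²` -/

section Main

variable {M' q : ℕ} [NeZero M'] [NeZero q] (A : ValuationSubring Kbar)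
variable {ζ : Kbarˣ} {E : FF (M' * q * q) →+* LaurentSeries Kbar}

/-- `α` restricted to the inertia-fixed functions -/
def vmiAlpha (M' q : ℕ) [NeZero M'] [NeZero q] (A : ValuationSubring Kbar) :
    ↥(f0Field A (M' * q)) →+* ↥(f0Field A (M' * q * q)) :=
  RingHom.codRestrict
    (((heckeAlphaBar Kbar (M' * q) q : FF (M' * q) →ₐ[Kbar] FF (M' * q * q)) :
        FF (M' * q) →+* FF (M' * q * q)).comp (algebraMap ↥(f0Field A (M' * q)) (FF (M' * q))))
    (f0Field A (M' * q * q)) (fun x => f0_heckeAlphaBar_mem A q x.2)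

@[simp] theorem coe_vmiAlpha (x : ↥(f0Field A (M' * q))) :
    ((vmiAlpha M' q A x : ↥(f0Field A (M' * q * q))) : FF (M' * q * q))
      = heckeAlphaBar Kbar (M' * q) q (x : FF (M' * q)) := rfl

/-- `hα`: the middle reduction of `α F0(M' q)` lies in `κ'` -/
theorem vmi_red_alpha_mem (hq : q.Prime) (hqM : ¬ q ∣ M') (hA : A.LiesOverPrime q)
    (hζ : ζ ^ q = 1) (hE : IsMidExp M' q ζ E) (Y : FF (M' * q))
    (hY : heckeAlphaBar Kbar (M' * q) q Y ∈ vmidO A hq ((A.mem_nonunits_iff).mp hA) hζ hE) :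
    vmidRed A hq ((A.mem_nonunits_iff).mp hA) hζ hE ⟨_, hY⟩
      ∈ modularFunctionFieldFullC (IsLocalRing.ResidueField A) M' := by
  obtain ⟨a, b, h⟩ := (vmid_alpha_mem_iff A hq ((A.mem_nonunits_iff).mp hA) hζ hE Y).mp hY
  rw [vmidRed_alpha A hq ((A.mem_nonunits_iff).mp hA) hζ hE Y hY h]
  exact div_mem (hq2_hred_one M' q hq hqM A hA a h.1) (hq2_hred_one M' q hq hqM A hA b h.2.1)

/-! ### the element `Y = j_{q²} − j` -/

/-- `Y = j_{q²} − j` -/
def vmiY (M' q : ℕ) [NeZero M'] [NeZero q] : FF (M' * q * q) :=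
  heckeBetaBar Kbar (M' * q) q (heckeBetaBar Kbar M' q (jF M'))
    - heckeAlphaBar Kbar (M' * q) q (jF (M' * q))

theorem vmi_jF_mem (L : ℕ) [NeZero L] : jF L ∈ f0Field A L := by
  have h1 : jF L = jdF L 1 (one_dvd L) := by
    apply Subtype.ext
    rw [coe_jF, coe_jdF, qExpand_one_apply]
  rw [h1]
  exact jdF_mem_f0Field A L 1 (one_dvd L)

theorem vmiY_mem : vmiY M' q ∈ f0Field A (M' * q * q) :=
  sub_mem (f0_heckeBetaBar_mem A q (f0_heckeBetaBar_mem A q (vmi_jF_mem A M')))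
    (f0_heckeAlphaBar_mem A q (vmi_jF_mem A (M' * q)))

/-- the `q`-expansion of `Y` at `∞` -/
theorem vmiY_coe : ((vmiY M' q : FF (M' * q * q)) : LaurentSeries Kbar)
    = coeffMap A.subtype (qExpand A q (qExpand A q (jqModC A)) - jqModC A) := by
  have h1 : ((vmiY M' q : FF (M' * q * q)) : LaurentSeries Kbar)
      = ((heckeBetaBar Kbar (M' * q) q (heckeBetaBar Kbar M' q (jF M')) : FF (M' * q * q)) :
          LaurentSeries Kbar)
        - ((heckeAlphaBar Kbar (M' * q) q (jF (M' * q)) : FF (M' * q * q)) :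
          LaurentSeries Kbar) := rfl
  rw [h1, coe_heckeBetaBar, coe_heckeBetaBar, coe_heckeAlphaBar, vmu_coe_jF A M',
    vmu_coe_jF A (M' * q), map_sub, vk_coeffMap_qExpand, vk_coeffMap_qExpand]

theorem vmiY_red_ne (hq : q.Prime) :
    coeffMap (IsLocalRing.residue A) (qExpand A q (qExpand A q (jqModC A)) - jqModC A) ≠ 0 := by
  rw [map_sub, vk_coeffMap_qExpand, vk_coeffMap_qExpand, coeffMap_jqModC]
  intro h
  have h1 := congrArg HahnSeries.order (sub_eq_zero.mp h)
  rw [rg_order_qExpand, rg_order_qExpand, rg_order_jqModC] at h1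
  have hq2 : (2 : ℤ) ≤ q := by exact_mod_cast hq.two_le
  nlinarith

variable {R_N : ConstRed A (IsLocalRing.residue A)
    (↥(modularFunctionFieldFullC (IsLocalRing.ResidueField A) M')) (FF (M' * q))}
variable {R_M : ConstRed A (IsLocalRing.residue A)
    (↥(modularFunctionFieldFullC (IsLocalRing.ResidueField A) M')) (FF (M' * q * q))}

/-- `v_∞ Y = 1` -/
theorem vmiY_val_inf (hq : q.Prime) (hR_M : IsSeriesRed R_M) :
    R_M.O.valuation (vmiY M' q) = 1 := by
  have hy : coeffMap A.subtype (qExpand A q (qExpand A q (jqModC A)) - jqModC A)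
      ∈ modularFunctionFieldBar (M' * q * q) := by
    rw [← vmiY_coe (M' := M') (q := q) A]
    exact (vmiY M' q).2
  have e : vmiY M' q = ⟨_, hy⟩ := Subtype.ext (vmiY_coe (M' := M') (q := q) A)
  have hne : vmiY M' q ≠ 0 := by
    intro h0
    have h1 := vmiY_coe (M' := M') (q := q) A
    rw [h0] at h1
    apply vmiY_red_ne A hq
    have h2 : qExpand A q (qExpand A q (jqModC A)) - jqModC A = 0 := by
      apply coeffMap_valSubtype_injective A
      rw [← h1, map_zero]
      rfl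
    rw [h2, map_zero]
  apply vmi_val_eq_one _ hne
  · rw [e]
    exact hR_M.mem _ hy
  · rw [e]
    exact hR_M.inv_mem _ hy (vmiY_red_ne A hq)

/-- `v_mid Y ^ (q - 1) = v_mid q` -/
theorem vmiY_val_mid (hq : q.Prime) (hlt : A.valuation (q : Kbar) < 1) (hζq : ζ ^ q = 1)
    (hζ : IsPrimitiveRoot (ζ : Kbar) q) (hE : IsMidExp M' q ζ E) :
    (vmidO A hq hlt hζq hE).valuation (vmiY M' q) ^ (q - 1)
      = (vmidO A hq hlt hζq hE).valuation ((q : ℕ) : FF (M' * q * q)) := by
  have hζ1 : (ζ : Kbar) ≠ 1 := hζ.ne_one hq.one_lt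
  have hq0 : (q : Kbar) ≠ 0 := Nat.cast_ne_zero.mpr hq.ne_zero
  obtain ⟨hu, hui⟩ := vmid_unit A hq hlt hζq hζ1 hE
  have hu0 : vmidY M' q ζ ≠ 0 := by
    intro h0
    have h1 := vmidY_mul (M' := M') (q := q) hζ1
    rw [h0, mul_zero] at h1
    have h2 : vmiY M' q = 0 := h1.symm
    have h3 := vmiY_coe (M' := M') (q := q) A
    rw [h2] at h3
    apply vmiY_red_ne A hq
    have h4 : qExpand A q (qExpand A q (jqModC A)) - jqModC A = 0 := by
      apply coeffMap_valSubtype_injective A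
      rw [← h3, map_zero]
      rfl
    rw [h4, map_zero]
  have hvu : (vmidO A hq hlt hζq hE).valuation (vmidY M' q ζ) = 1 :=
    vmi_val_eq_one _ hu0 hu hui
  have hY : vmiY M' q = algebraMap Kbar (FF (M' * q * q)) ((ζ : Kbar) - 1) * vmidY M' q ζ :=
    (vmidY_mul hζ1).symm
  have hε := vmi_sv_const_eq_one (vmidSV A hq hlt hζq hE) (vdisc_val_unit A hq hζ)
  rw [vmidSV_O] at hε
  have e1 : algebraMap Kbar (FF (M' * q * q)) (((ζ : Kbar) - 1) ^ (q - 1))
      = algebraMap Kbar (FF (M' * q * q)) (((ζ : Kbar) - 1) ^ (q - 1) / (q : Kbar))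
        * ((q : ℕ) : FF (M' * q * q)) := by
    rw [← map_natCast (algebraMap Kbar (FF (M' * q * q))) q, ← map_mul,
      div_mul_cancel₀ _ hq0]
  rw [hY, Valuation.map_mul, hvu, mul_one, ← Valuation.map_pow, ← map_pow, e1,
    Valuation.map_mul, hε, one_mul]

/-- `hdisc`: `q` is a uniformiser of `F0(M' q)` for `v_∞` and `v_mid` -/
theorem vmi_hdisc (hq : q.Prime) (hA : A.LiesOverPrime q) (hζq : ζ ^ q = 1)
    (hE : IsMidExp M' q ζ E) (hR_N : IsSeriesRed R_N) (hR_M : IsSeriesRed R_M)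
    (a : ↥(f0Field A (M' * q))) (ha : a ≠ 0) :
    ∃ n : ℤ,
      (R_M.O.comap (algebraMap ↥(f0Field A (M' * q * q)) (FF (M' * q * q)))).valuation
          (vmiAlpha M' q A (((q : ℕ) : ↥(f0Field A (M' * q))) ^ n * a)) = 1 ∧
      ((vmidO A hq ((A.mem_nonunits_iff).mp hA) hζq hE).comap
          (algebraMap ↥(f0Field A (M' * q * q)) (FF (M' * q * q)))).valuation
          (vmiAlpha M' q A (((q : ℕ) : ↥(f0Field A (M' * q))) ^ n * a)) = 1 := by
  have hlt := (A.mem_nonunits_iff).mp hA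
  have hfrac : HasPrimFrac A (modularFunctionFieldBar (M' * q)) :=
    vmid_hasPrimFrac_bar A (M' * q) hq hlt
  have ha0 : (a : FF (M' * q)) ≠ 0 := fun h => ha (Subtype.ext h)
  obtain ⟨n, hu, hui⟩ := vdisc_inf hq hA hR_N a.2 ha0
  have hu0 : algebraMap Kbar (FF (M' * q)) ((q : Kbar) ^ n) * (a : FF (M' * q)) ≠ 0 :=
    mul_ne_zero ((map_ne_zero _).mpr (zpow_ne_zero _ (Nat.cast_ne_zero.mpr hq.ne_zero))) ha0
  have key : algebraMap ↥(f0Field A (M' * q * q)) (FF (M' * q * q))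
      (vmiAlpha M' q A (((q : ℕ) : ↥(f0Field A (M' * q))) ^ n * a))
      = heckeAlphaBar Kbar (M' * q) q
          (algebraMap Kbar (FF (M' * q)) ((q : Kbar) ^ n) * (a : FF (M' * q))) := by
    show heckeAlphaBar Kbar (M' * q) q (algebraMap ↥(f0Field A (M' * q)) (FF (M' * q))
      (((q : ℕ) : ↥(f0Field A (M' * q))) ^ n * a)) = _
    congr 1
    rw [map_mul, map_zpow₀, map_natCast, map_zpow₀, map_natCast]
    rfl
  have hαu0 : heckeAlphaBar Kbar (M' * q) q
      (algebraMap Kbar (FF (M' * q)) ((q : Kbar) ^ n) * (a : FF (M' * q))) ≠ 0 :=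
    (map_ne_zero _).mpr hu0
  refine ⟨n, ?_, ?_⟩
  · rw [vmi_comap_eq_one, key]
    apply vmi_val_eq_one _ hαu0
    · exact vk_alpha_mem (M' * q) q hR_N hR_M hfrac hu
    · rw [← map_inv₀]
      exact vk_alpha_mem (M' * q) q hR_N hR_M hfrac hui
  · rw [vmi_comap_eq_one, key]
    apply vmi_val_eq_one _ hαu0
    · exact (vmid_alpha_mem_iff A hq hlt hζq hE _).mpr (hR_N.exists_isRep hfrac hu)
    · rw [← map_inv₀]
      exact (vmid_alpha_mem_iff A hq hlt hζq hE _).mpr (hR_N.exists_isRep hfrac hui)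

/-- `hdim`: `[F0(M' q²) : α F0(M' q)] ≤ q` (helper14's `vdrel_dep`) -/
theorem vmi_hdim (hq : q.Prime)
    (w : (Fin (q - 1) ⊕ Fin (q - 1)) ⊕ Unit → ↥(f0Field A (M' * q * q))) :
    ∃ g : (Fin (q - 1) ⊕ Fin (q - 1)) ⊕ Unit → ↥(f0Field A (M' * q)),
      g ≠ 0 ∧ ∑ i, vmiAlpha M' q A (g i) * w i = 0 := by
  have hcard : q < Fintype.card ((Fin (q - 1) ⊕ Fin (q - 1)) ⊕ Unit) := by
    simp only [Fintype.card_sum, Fintype.card_fin, Fintype.card_unit]
    have := hq.two_le
    omega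
  obtain ⟨g, hg0, hgmem, hsum⟩ := vdrel_dep M' q hq A
    (fun i => (w i : FF (M' * q * q))) hcard (fun i => (w i).2)
  refine ⟨fun i => ⟨g i, hgmem i⟩, ?_, ?_⟩
  · intro h
    apply hg0
    funext i
    exact congrArg Subtype.val (congrFun h i)
  · apply (algebraMap ↥(f0Field A (M' * q * q)) (FF (M' * q * q))).injective
    rw [map_sum, map_zero, ← hsum]
    rfl

set_option maxHeartbeats 1600000 in
/-- `harch` -/
theorem vmi_harch (hq : q.Prime) (hA : A.LiesOverPrime q) (hR_M : IsSeriesRed R_M)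
    (x : ↥(f0Field A (M' * q * q))) :
    ∃ m : ℕ, (R_M.O.comap (algebraMap ↥(f0Field A (M' * q * q)) (FF (M' * q * q)))).valuation
      (vmiAlpha M' q A ((q : ℕ) : ↥(f0Field A (M' * q))) ^ m * x) < 1 := by
  have hlt := (A.mem_nonunits_iff).mp hA
  by_cases hx0 : x = 0
  · refine ⟨0, ?_⟩
    rw [hx0, mul_zero, Valuation.map_zero]
    exact zero_lt_one
  have hx0' : (x : FF (M' * q * q)) ≠ 0 := fun h => hx0 (Subtype.ext h)
  obtain ⟨n, hu, hui⟩ := vdisc_inf hq hA hR_M x.2 hx0'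
  have hq0 : ((q : ℕ) : FF (M' * q * q)) ≠ 0 := Nat.cast_ne_zero.mpr hq.ne_zero
  have hu0 : algebraMap Kbar (FF (M' * q * q)) ((q : Kbar) ^ n) * (x : FF (M' * q * q)) ≠ 0 :=
    mul_ne_zero ((map_ne_zero _).mpr (zpow_ne_zero _ (Nat.cast_ne_zero.mpr hq.ne_zero))) hx0'
  have hvu := vmi_val_eq_one R_M.O hu0 hu hui
  have hvq : R_M.O.valuation ((q : ℕ) : FF (M' * q * q)) < 1 := by
    have h := vmi_sv_const_lt_one (SeriesVal.ofConstRed R_M) hlt
    rwa [map_natCast] at h
  obtain ⟨k, hk⟩ := Int.eq_ofNat_of_zero_le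
    (sub_nonneg.mpr (Int.self_le_toNat (n + 1)) : (0 : ℤ) ≤ ((n + 1).toNat : ℤ) - (n + 1))
  have hm : ((n + 1).toNat : ℤ) = ((k + 1 : ℕ) : ℤ) + n := by
    push_cast
    omega
  refine ⟨(n + 1).toNat, ?_⟩
  rw [vmi_comap_lt_one, map_mul, map_pow, map_natCast, map_natCast]
  have e0 : algebraMap Kbar (FF (M' * q * q)) ((q : Kbar) ^ n)
      = ((q : ℕ) : FF (M' * q * q)) ^ n := by
    rw [map_zpow₀, map_natCast]
  have e : ((q : ℕ) : FF (M' * q * q)) ^ (n + 1).toNat
        * algebraMap ↥(f0Field A (M' * q * q)) (FF (M' * q * q)) x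
      = ((q : ℕ) : FF (M' * q * q)) ^ (k + 1)
        * (algebraMap Kbar (FF (M' * q * q)) ((q : Kbar) ^ n) * (x : FF (M' * q * q))) := by
    rw [e0]
    generalize ((q : ℕ) : FF (M' * q * q)) = Q at hq0
    have e1 : Q ^ (n + 1).toNat = Q ^ (k + 1) * Q ^ n := by
      rw [← zpow_natCast Q (n + 1).toNat, hm, zpow_add₀ hq0, zpow_natCast]
    rw [e1]
    exact mul_assoc _ _ _
  rw [e, Valuation.map_mul, hvu, mul_one, Valuation.map_pow]
  exact pow_lt_one₀ zero_le hvq (Nat.succ_ne_zero k)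

/-- **`hiMid`**: the middle reduction of an inertia-fixed function lies in `κ' = F_{M',k}`. -/
theorem vmid_hinto (hq : q.Prime) (hqM : ¬ q ∣ M') (hA : A.LiesOverPrime q) (hζq : ζ ^ q = 1)
    (hζ : IsPrimitiveRoot (ζ : Kbar) q) (hE : IsMidExp M' q ζ E) :
    ∀ (x : FF (M' * q * q)) (hx : x ∈ (vmidSV A hq ((A.mem_nonunits_iff).mp hA) hζq hE).O),
      x ∈ f0Field A (M' * q * q) →
        (vmidSV A hq ((A.mem_nonunits_iff).mp hA) hζq hE).red ⟨x, hx⟩
          ∈ modularFunctionFieldFullC (IsLocalRing.ResidueField A) M' := by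
  intro x hx hxF
  have hlt := (A.mem_nonunits_iff).mp hA
  obtain ⟨R_N, hR_N⟩ := exists_constRedInf_aux M' q hq hqM A hA
  obtain ⟨R_M, hR_M⟩ := hq2_exists_constRedInf M' q hq hqM A hA
  have hq0 : ((q : ℕ) : ↥(f0Field A (M' * q))) ≠ 0 := Nat.cast_ne_zero.mpr hq.ne_zero
  have hϖ₁ : (R_M.O.comap (algebraMap ↥(f0Field A (M' * q * q)) (FF (M' * q * q)))).valuation
      (vmiAlpha M' q A ((q : ℕ) : ↥(f0Field A (M' * q)))) < 1 := by
    rw [vmi_comap_lt_one, map_natCast, map_natCast]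
    have h := vmi_sv_const_lt_one (SeriesVal.ofConstRed R_M) hlt
    rwa [map_natCast] at h
  have hϖ₂ : ((vmidSV A hq hlt hζq hE).O.comap
      (algebraMap ↥(f0Field A (M' * q * q)) (FF (M' * q * q)))).valuation
      (vmiAlpha M' q A ((q : ℕ) : ↥(f0Field A (M' * q)))) < 1 := by
    rw [vmi_comap_lt_one, map_natCast, map_natCast]
    have h := vmi_sv_const_lt_one (vmidSV A hq hlt hζq hE) hlt
    rwa [map_natCast] at h
  have hY₁ : (R_M.O.comap (algebraMap ↥(f0Field A (M' * q * q)) (FF (M' * q * q)))).valuation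
      (⟨vmiY M' q, vmiY_mem A⟩ : ↥(f0Field A (M' * q * q))) = 1 := by
    rw [vmi_comap_eq_one]
    exact vmiY_val_inf A hq hR_M
  have hY₂ : ((vmidSV A hq hlt hζq hE).O.comap
      (algebraMap ↥(f0Field A (M' * q * q)) (FF (M' * q * q)))).valuation
      (⟨vmiY M' q, vmiY_mem A⟩ : ↥(f0Field A (M' * q * q))) ^ (q - 1)
      = ((vmidSV A hq hlt hζq hE).O.comap
        (algebraMap ↥(f0Field A (M' * q * q)) (FF (M' * q * q)))).valuation
        (vmiAlpha M' q A ((q : ℕ) : ↥(f0Field A (M' * q)))) := by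
    rw [← Valuation.map_pow, vmi_comap_val_eq, map_pow, Valuation.map_pow, map_natCast,
      map_natCast]
    exact vmiY_val_mid A hq hlt hζq hζ hE
  exact vmi_abs (vmiAlpha M' q A) q hq.two_le
    (R_M.O.comap (algebraMap ↥(f0Field A (M' * q * q)) (FF (M' * q * q))))
    ((vmidSV A hq hlt hζq hE).O.comap (algebraMap ↥(f0Field A (M' * q * q)) (FF (M' * q * q))))
    ((vmidSV A hq hlt hζq hE).red.comp (vmidSV A hq hlt hζq hE).inclK0)
    (vmi_hker (vmidSV A hq hlt hζq hE))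
    (modularFunctionFieldFullC (IsLocalRing.ResidueField A) M').toSubfield
    (fun a h => vmi_red_alpha_mem A hq hqM hA hζq hE (a : FF (M' * q)) h)
    ((q : ℕ) : ↥(f0Field A (M' * q))) hq0 hϖ₁ hϖ₂
    (vmi_hdisc A hq hA hζq hE hR_N hR_M)
    ⟨vmiY M' q, vmiY_mem A⟩ hY₁ hY₂ (vmi_hdim A hq) ⟨x, hxF⟩ hx
    (vmi_harch A hq hA hR_M ⟨x, hxF⟩)

end Main

end Fermat.Agent.S36lib

end
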