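import Mathlib
import Fermat.Agent.S36lib.Apply2NV
import Fermat.Agent.S36lib.TheSetup
import Fermat.Agent.S36lib.VMidInto
import Fermat.Agent.S36lib.VHrad
import Fermat.Agent.S36lib.ALF0

/-!
# Item 83 (S36), block APPLY2 (chief architect helper20): the FINAL setup and the reduction of
the contract to `REG` (nodes) and `CRUX`

`s36Final A M' q hq hqM hA hζq hζ hE R hR := nodeSetupM A M' q hq hqM hA R hR vMid hiMid hoMid`
with `vMid := vmidSV …`, `hiMid := vmid_hinto …`, `hoMid := vmid_honto …` (helper18), i.e. THE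
setup of helper24's `TheSetup.lean` with all its arguments filled in.

Proved here for `S := s36Final …`:
* `s36Final_nv   : A2NV M' q A S m (q ^ 2 - 1)`                      (NV/COMP, all `m`)
* `s36Final_sat`, `s36Final_harchInf/Mid/Zero`                       (parts of `A2Reg`)
* `s36Final_reg  : A2Reg M' q A S` from `IsNoetherianRing S.B`, `hfrac` and the node list
* `a2contract_of_final`: `A2Contract M' q A p` from the remaining inputs
  (`IsNoetherianRing`, `hfrac`, the nodes, `A2Crux`).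
-/

set_option autoImplicit false
set_option linter.style.haveILetI false
set_option linter.unusedSectionVars false
set_option linter.unusedVariables false
set_option synthInstance.maxHeartbeats 400000

noncomputable section

namespace Fermat.Agent.S36lib

open ModularCurve HahnSeries AlgebraicCurve
open Fermat.Agent.GoodRed Fermat.Agent.S24lib Fermat.Agent.S34lib Fermat.Agent.S37lib
  Fermat.Agent.HeckeBar Fermat.Agent.S35lib Fermat.Agent.GM

variable (A : ValuationSubring Kbar) (M' q : ℕ) [NeZero M'] [NeZero q]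
variable (hq : q.Prime) (hqM : ¬ q ∣ M') (hA : A.LiesOverPrime q)
variable {ζ : Kbarˣ} {E : FF (M' * q * q) →+* LaurentSeries Kbar}
variable (hζq : ζ ^ q = 1) (hζ : IsPrimitiveRoot (ζ : Kbar) q) (hE : IsMidExp M' q ζ E)
variable (R : ConstRed A (IsLocalRing.residue A)
      (↥(modularFunctionFieldFullC (IsLocalRing.ResidueField A) M')) (FF (M' * q * q)))
    (hR : IsSeriesRed R)

/-- **THE FINAL SETUP** of item 83: helper24's `nodeSetupM` with helper18's middle valuation. -/
def s36Final : NodeSetup (k0Val A) (k0Res A)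
    (↥(modularFunctionFieldFullC (IsLocalRing.ResidueField A) M')) (f0Field A (M' * q * q)) :=
  nodeSetupM A M' q hq hqM hA R hR (vmidSV A hq ((A.mem_nonunits_iff).mp hA) hζq hE)
    (vmid_hinto A hq hqM hA hζq hζ hE) (vmid_honto A hq hA hζq hE)

local notation "SF" => s36Final A M' q hq hqM hA hζq hζ hE R hR

/-! ### Unfolding -/

theorem mem_s36Final_B (x : f0Field A (M' * q * q)) :
    x ∈ (SF).B ↔
      (x : FF (M' * q * q)) ∈ offRegular (M' * q * q) (s36D1 M' q hq hqM) ∧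
        (x : FF (M' * q * q)) ∈ R.O ∧
        (x : FF (M' * q * q)) ∈ vmidO A hq ((A.mem_nonunits_iff).mp hA) hζq hE ∧
          alW2 M' hq hqM (x : FF (M' * q * q)) ∈ R.O :=
  mem_f0AffD_iff A (M' * q * q) (s36D1 M' q hq hqM) _ _ _ x

theorem mem_s36Final_vInf (x : f0Field A (M' * q * q)) :
    x ∈ (SF).vInf.O ↔ (x : FF (M' * q * q)) ∈ R.O := Iff.rfl

theorem mem_s36Final_vMid (x : f0Field A (M' * q * q)) :
    x ∈ (SF).vMid.O ↔
      (x : FF (M' * q * q)) ∈ vmidO A hq ((A.mem_nonunits_iff).mp hA) hζq hE := Iff.rfl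

theorem mem_s36Final_vZero (x : f0Field A (M' * q * q)) :
    x ∈ (SF).vZero.O ↔ alW2 M' hq hqM (x : FF (M' * q * q)) ∈ R.O := Iff.rfl

/-! ### NV/COMP -/

theorem s36Final_nv (m : ℕ) : A2NV M' q A (SF) m (q ^ 2 - 1) := by
  haveI : NeZero (M' * q * q) :=
    ⟨Nat.mul_ne_zero (Nat.mul_ne_zero (NeZero.ne M') (NeZero.ne q)) (NeZero.ne q)⟩
  refine a2nv_of_vdGauss A hq hqM hA (SF) ζ hζ E hE R.O
    (vmidO A hq ((A.mem_nonunits_iff).mp hA) hζq hE)
    ((SeriesVal.ofConstRed R).comap (alW2 M' hq hqM)).O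
    (fun _ => Iff.rfl) (fun _ => Iff.rfl) (fun _ => Iff.rfl)
    (fun x a h hp => vdGauss_of_isSeriesRed hR x a h hp)
    (vmid_vdGauss A hq _ hζq hE) ?_ m
  exact a2nv_vdGauss_comap A _ R.O (fun x a h hp => vdGauss_of_isSeriesRed hR x a h hp)
    (alW2 M' hq hqM) _ (fun _ => Iff.rfl)

/-! ### Saturation and the archimedean properties (helper8) -/

theorem s36Final_sat (w : f0Field A (M' * q * q)) (hw : w ∈ (SF).ball)
    (hqw : algebraMap (k0Field A) (f0Field A (M' * q * q))
      ((((q : k0Val A) : k0Val A) : k0Field A)) * w ∈ (SF).B) : w ∈ (SF).B := by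
  rw [mem_s36Final_B] at hqw ⊢
  obtain ⟨⟨h1, h2⟩, h3⟩ := hw
  refine ⟨?_, h1, h2, h3⟩
  have hmem : w ∈ f0AffD A (M' * q * q) (s36D1 M' q hq hqM) R.O R.O R.O := by
    refine a2i_sat_f0AffD A q hq _ R.O R.O R.O w h1 h1 h1 ?_
    rw [mem_f0AffD_iff]
    exact ⟨hqw.1, hqw.2.1, hqw.2.1, hqw.2.1⟩
  exact ((mem_f0AffD_iff A _ _ _ _ _ w).1 hmem).1

theorem s36Final_harchInf (z : f0Field A (M' * q * q)) (hz : z ∈ (SF).vInf.O.nonunits) :
    ∃ n : ℕ, z ^ n * (algebraMap (k0Field A) (f0Field A (M' * q * q))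
      ((((q : k0Val A) : k0Val A) : k0Field A)))⁻¹ ∈ (SF).vInf.O :=
  varch_inf A hq hA hR z hz

theorem s36Final_harchMid (z : f0Field A (M' * q * q)) (hz : z ∈ (SF).vMid.O.nonunits) :
    ∃ n : ℕ, z ^ n * (algebraMap (k0Field A) (f0Field A (M' * q * q))
      ((((q : k0Val A) : k0Val A) : k0Field A)))⁻¹ ∈ (SF).vMid.O :=
  varch_mid A hq hA hζ hE ((A.mem_nonunits_iff).mp hA) hζq z hz

theorem s36Final_harchZero (z : f0Field A (M' * q * q)) (hz : z ∈ (SF).vZero.O.nonunits) :
    ∃ n : ℕ, z ^ n * (algebraMap (k0Field A) (f0Field A (M' * q * q))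
      ((((q : k0Val A) : k0Val A) : k0Field A)))⁻¹ ∈ (SF).vZero.O :=
  varch_zero A hq hA hR (alW2 M' hq hqM) (fun _ hx => alW2_mem_f0Field A M' hq hqM hx) _
    (fun _ => Iff.rfl) z hz

/-! ### The node list from finiteness -/

/-- the node list of `A2Reg` from: finitely many nodes, at least one node, every node factorial -/
theorem a2_nodes_of_finite {K : Type*} [Field K] {k : Type*} [Field k]
    {A₀ : ValuationSubring K} {π : A₀ →+* k} {κ : Type*} [Field κ] [Algebra k κ]
    {F : Type*} [Field F] [Algebra K F] (S : NodeSetup A₀ π κ F)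
    (hfin : {t : Ideal S.B | S.IsNode t}.Finite) (hne : ∃ t : Ideal S.B, S.IsNode t)
    (hufd : ∀ t : Ideal S.B, S.IsNode t → ∀ _ : t.IsMaximal,
      UniqueFactorizationMonoid (Localization.AtPrime t)) :
    ∃ (n : ℕ) (t : Fin (n + 1) → Ideal S.B), (∀ i, (t i).IsMaximal) ∧
      Function.Injective t ∧
      (∀ i, ∀ _ : (t i).IsMaximal, UniqueFactorizationMonoid (Localization.AtPrime (t i))) ∧
      ∀ t' : Ideal S.B, S.IsNode t' → ∃ i, t' = t i := by
  classical
  set s : Finset (Ideal S.B) := hfin.toFinset with hs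
  have hmem : ∀ t : Ideal S.B, t ∈ s ↔ S.IsNode t := fun t => by
    rw [hs, Set.Finite.mem_toFinset]; rfl
  have hpos : 0 < s.card := by
    obtain ⟨t, ht⟩ := hne
    exact Finset.card_pos.2 ⟨t, (hmem t).2 ht⟩
  obtain ⟨n, hn⟩ : ∃ n, s.card = n + 1 := ⟨s.card - 1, by omega⟩
  let e : Fin (n + 1) ≃ s := (finCongr hn.symm).trans s.equivFin.symm
  refine ⟨n, fun i => (e i : Ideal S.B), fun i => ((hmem _).1 (e i).2).1, ?_, ?_, ?_⟩
  · intro i j hij
    exact e.injective (Subtype.ext hij)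
  · intro i hi
    exact hufd _ ((hmem _).1 (e i).2) hi
  · intro t' ht'
    refine ⟨e.symm ⟨t', (hmem t').2 ht'⟩, ?_⟩
    simp

/-! ### `A2Reg` and the contract -/

/-- `A2Reg` for the final setup from the Noetherian property, `hfrac` and the node list -/
theorem s36Final_reg (hnoeth : IsNoetherianRing (SF).B)
    (hfrac : ∀ z : f0Field A (M' * q * q), ∃ a b : (SF).B,
      b ≠ 0 ∧ z * (b : f0Field A (M' * q * q)) = (a : f0Field A (M' * q * q)))
    (hnodes : ∃ (n : ℕ) (t : Fin (n + 1) → Ideal (SF).B), (∀ i, (t i).IsMaximal) ∧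
      Function.Injective t ∧
      (∀ i, ∀ _ : (t i).IsMaximal, UniqueFactorizationMonoid (Localization.AtPrime (t i))) ∧
      ∀ t' : Ideal (SF).B, (SF).IsNode t' → ∃ i, t' = t i) :
    A2Reg M' q A (SF) :=
  ⟨hnoeth, hfrac, hnodes, s36Final_sat A M' q hq hqM hA hζq hζ hE R hR,
    s36Final_harchInf A M' q hq hqM hA hζq hζ hE R hR,
    s36Final_harchMid A M' q hq hqM hA hζq hζ hE R hR,
    s36Final_harchZero A M' q hq hqM hA hζq hζ hE R hR⟩

/-- **the contract from REG (Noetherian, `hfrac`, nodes) and CRUX**, for the final setup. -/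
theorem a2contract_of_final (p : ℕ)
    (hnoeth : IsNoetherianRing (SF).B)
    (hfrac : ∀ z : f0Field A (M' * q * q), ∃ a b : (SF).B,
      b ≠ 0 ∧ z * (b : f0Field A (M' * q * q)) = (a : f0Field A (M' * q * q)))
    (hnodes : ∃ (n : ℕ) (t : Fin (n + 1) → Ideal (SF).B), (∀ i, (t i).IsMaximal) ∧
      Function.Injective t ∧
      (∀ i, ∀ _ : (t i).IsMaximal, UniqueFactorizationMonoid (Localization.AtPrime (t i))) ∧
      ∀ t' : Ideal (SF).B, (SF).IsNode t' → ∃ i, t' = t i)
    (c2 : ℕ) (hc2 : 0 < c2) (hcrux : ∀ n : ℕ, A2Crux M' q A (SF) (p ^ n) c2) :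
    A2Contract M' q A p := by
  have hq2 : 0 < q ^ 2 - 1 := by
    have h2 : 2 ≤ q := hq.two_le
    have : 4 ≤ q ^ 2 := by nlinarith
    omega
  exact ⟨_, inferInstance, inferInstance, SF, q ^ 2 - 1, c2, hq2, hc2,
    s36Final_reg A M' q hq hqM hA hζq hζ hE R hR hnoeth hfrac hnodes,
    fun n => s36Final_nv A M' q hq hqM hA hζq hζ hE R hR (p ^ n), hcrux⟩

end Fermat.Agent.S36lib

end
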