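/-
Item 83 (S36), piece DESC, final form (helper7): the descent of (INV), Kummer form, from the
auxiliary levels to all levels `M' q²`, `q ∤ M'`:

  `invK_descent_final : InvKAuxStatement → InvKStatement`.

Inputs: norm base change at the level `q²` (`S36lib/NormBCQ2.lean`), the inclusion commutes with
the Galois action (`S34lib/UnipDesc.lean`), and the transfer `S18lib.exists_root_of_inclBar`.
No sorry.
-/
import Mathlib
import Fermat.Agent.S36lib.Defs
import Fermat.Agent.S36lib.NormBCQ2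
import Fermat.Agent.S34lib.UnipDesc
import Fermat.Agent.S18lib.Transfer

set_option autoImplicit false
set_option linter.style.haveILetI false
set_option linter.unusedSectionVars false

noncomputable section

namespace Fermat.Agent.S36lib

open ModularCurve AlgebraicCurve
open Fermat.Agent.S24lib Fermat.Agent.HeckeBar Fermat.Agent.S34lib Fermat.Agent.GM
open Fermat.Agent.GalRep Fermat.Agent.S35lib

/-- `IsKummerFixed` goes up along `F_N ⊂ F_M` -/
theorem dsf_isKummerFixed_incl (N M : ℕ) [NeZero N] [NeZero M] (h : N ∣ M) (m : ℕ)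
    (A : ValuationSubring Kbar) (f : FF N) (hf : IsKummerFixed N m A f) :
    IsKummerFixed M m A (inclBar N M h f) := by
  intro σ hσ
  obtain ⟨c, s, hcs⟩ := hf σ hσ
  refine ⟨c, inclBar N M h s, ?_⟩
  rw [← ud_incl_smul, ← map_div₀, hcs, map_mul, map_pow, AlgHom.commutes]

/-- divisibility of all orders passes to powers -/
theorem dsf_dvd_ord_pow (N m c : ℕ) (f : FF N)
    (hdiv : ∀ P : Place Kbar (FF N), (m : ℤ) ∣ P.ord f) (P : Place Kbar (FF N)) :
    (m : ℤ) ∣ P.ord (f ^ c) := by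
  rw [Fermat.Agent.S18lib.ord_pow_nat]
  exact Dvd.dvd.mul_left (hdiv P) _

/-- **DESC, one step**: descent of `InvK` from the level `Mt q²` to the level `M q²`. -/
theorem dsf_invK_descent (M Mt q e : ℕ) [NeZero M] [NeZero Mt] [NeZero q] (hq : q.Prime)
    (hqMt : ¬ q ∣ Mt) (hdvd : M ∣ Mt) (hM : Mt * q * q = M * q * q * e)
    (hdeg : dedekindPsi (Mt * q * q) < 2 * e * dedekindPsi (M * q * q)) (m c : ℕ) (hm : 0 < m)
    (A : ValuationSubring Kbar) (h : InvK Mt q m c A) : InvK M q m c A := by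
  intro f hf hdiv hnew hfix
  have hNM : M * q * q ∣ Mt * q * q := Nat.mul_dvd_mul_right (Nat.mul_dvd_mul_right hdvd q) q
  have hιf : inclBar (M * q * q) (Mt * q * q) hNM f ≠ 0 := (map_ne_zero _).2 hf
  obtain ⟨c₀, s, hcs⟩ := h (inclBar (M * q * q) (Mt * q * q) hNM f) hιf
    (ud_dvd_ord_incl (M * q * q) (Mt * q * q) hNM m f hdiv)
    (nbq_isKummerNew_incl M Mt q hq hqMt hdvd m f hnew)
    (dsf_isKummerFixed_incl (M * q * q) (Mt * q * q) hNM m A f hfix)
  rw [← map_pow] at hcs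
  obtain ⟨g₀, c₁, h0⟩ := Fermat.Agent.S18lib.exists_root_of_inclBar (M * q * q) (Mt * q * q) e hM
    hdeg m hm (f ^ c) (pow_ne_zero _ hf) (dsf_dvd_ord_pow (M * q * q) m c f hdiv) s c₀ hcs
  exact ⟨c₁, g₀, h0⟩

/-- **DESC**: (INV) at all levels `M' q²`, `q ∤ M'`, from (INV) at the auxiliary levels. -/
theorem invK_descent_final (h : InvKAuxStatement) : InvKStatement := by
  intro q M' p _ _ hq hp hqp hqM A hA
  obtain ⟨e, hlcm, hdeg, haux⟩ := Fermat.Agent.S18lib.dedekindPsi_lcm_lt M' q hq hqM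
  have hN0 : M' ≠ 0 := NeZero.ne M'
  have hM0 : Nat.lcm M' (baseLevel q) ≠ 0 := by
    intro h0
    rw [h0] at haux
    exact haux.1 (dvd_zero q)
  haveI : NeZero (Nat.lcm M' (baseLevel q)) := ⟨hM0⟩
  obtain ⟨c, hc, hInv⟩ := h q (Nat.lcm M' (baseLevel q)) p hq hp hqp haux A hA
  refine ⟨c, hc, fun n => ?_⟩
  have hM : Nat.lcm M' (baseLevel q) * q * q = M' * q * q * e := by
    rw [hlcm]
    ring
  refine dsf_invK_descent M' (Nat.lcm M' (baseLevel q)) q e hq haux.1 (Nat.dvd_lcm_left _ _) hM ?_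
    (p ^ n) c (pow_pos hp.pos n) A (hInv n)
  have hq0 : M' * q ≠ 0 := Nat.mul_ne_zero hN0 hq.ne_zero
  have hq0' : Nat.lcm M' (baseLevel q) * q ≠ 0 := Nat.mul_ne_zero hM0 hq.ne_zero
  have e1 : dedekindPsi (Nat.lcm M' (baseLevel q) * q * q)
      = q * ((q + 1) * dedekindPsi (Nat.lcm M' (baseLevel q))) := by
    rw [mul_comm (Nat.lcm M' (baseLevel q) * q) q,
      Fermat.Agent.S20lib.dedekindPsi_prime_mul_of_dvd hq hq0' (dvd_mul_left q _),
      mul_comm (Nat.lcm M' (baseLevel q)) q,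
      Fermat.Agent.S20lib.dedekindPsi_prime_mul_of_not_dvd hq hM0 haux.1]
  have e2 : dedekindPsi (M' * q * q) = q * ((q + 1) * dedekindPsi M') := by
    rw [mul_comm (M' * q) q,
      Fermat.Agent.S20lib.dedekindPsi_prime_mul_of_dvd hq hq0 (dvd_mul_left q _),
      mul_comm M' q,
      Fermat.Agent.S20lib.dedekindPsi_prime_mul_of_not_dvd hq hN0 hqM]
  rw [e1, e2]
  have hq1 : 0 < q * (q + 1) := Nat.mul_pos hq.pos (Nat.succ_pos q)
  calc q * ((q + 1) * dedekindPsi (Nat.lcm M' (baseLevel q)))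
      = q * (q + 1) * dedekindPsi (Nat.lcm M' (baseLevel q)) := by ring
    _ < q * (q + 1) * (2 * e * dedekindPsi M') := Nat.mul_lt_mul_of_pos_left hdeg hq1
    _ = 2 * e * (q * ((q + 1) * dedekindPsi M')) := by ring

end Fermat.Agent.S36lib

end
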