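import Mathlib
import Fermat.Agent.S36lib.Apply2Final
import Fermat.Agent.S36lib.DescFinal
import Fermat.Agent.S36lib.AlgMain

/-!
# Item 83 (S36), block APPLY2 (chief architect helper20): the LAST STEP

`A2Inputs`: the six remaining inputs (R1)–(R5), (C) about the final setup `s36Final`, for every
admissible choice of `(q, M', p, A, ζ, E, R)`.

`invKAux_of_inputs : A2Inputs → InvKAuxStatement` and
`invK_of_inputs : A2Inputs → InvKStatement` (through DESC).
-/

set_option autoImplicit false
set_option linter.style.haveILetI false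
set_option linter.unusedSectionVars false
set_option linter.unusedVariables false
set_option synthInstance.maxHeartbeats 400000

noncomputable section

namespace Fermat.Agent.S36lib

open ModularCurve HahnSeries AlgebraicCurve
open Fermat.Agent.GoodRed Fermat.Agent.S24lib Fermat.Agent.S34lib Fermat.Agent.S37lib
  Fermat.Agent.HeckeBar Fermat.Agent.S35lib Fermat.Agent.GM

/-- **the six remaining inputs** (R1)–(R5), (C) of the final theorem, for the final setup
`s36Final` built on SOME admissible choice `(ζ, E, R)` (the provider chooses: `E := ecMid …`). -/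
def A2Inputs : Prop :=
  ∀ (q M' p : ℕ) [NeZero M'] [NeZero q] (hq : q.Prime) (_hp : p.Prime) (_hqp : q ≠ p)
    (haux : IsAuxLevel q M') (A : ValuationSubring Kbar) (hA : A.LiesOverPrime q),
    ∃ (ζ : Kbarˣ) (hζq : ζ ^ q = 1) (hζ : IsPrimitiveRoot (ζ : Kbar) q)
    (E : FF (M' * q * q) →+* LaurentSeries Kbar) (hE : IsMidExp M' q ζ E)
    (R : ConstRed A (IsLocalRing.residue A)
      (↥(modularFunctionFieldFullC (IsLocalRing.ResidueField A) M')) (FF (M' * q * q)))
    (hR : IsSeriesRed R),
    IsNoetherianRing (s36Final A M' q hq haux.1 hA hζq hζ hE R hR).B ∧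
    (∀ z : f0Field A (M' * q * q), ∃ a b : (s36Final A M' q hq haux.1 hA hζq hζ hE R hR).B,
      b ≠ 0 ∧ z * (b : f0Field A (M' * q * q)) = (a : f0Field A (M' * q * q))) ∧
    {t : Ideal (s36Final A M' q hq haux.1 hA hζq hζ hE R hR).B |
      (s36Final A M' q hq haux.1 hA hζq hζ hE R hR).IsNode t}.Finite ∧
    (∃ t : Ideal (s36Final A M' q hq haux.1 hA hζq hζ hE R hR).B,
      (s36Final A M' q hq haux.1 hA hζq hζ hE R hR).IsNode t) ∧
    (∀ t : Ideal (s36Final A M' q hq haux.1 hA hζq hζ hE R hR).B,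
      (s36Final A M' q hq haux.1 hA hζq hζ hE R hR).IsNode t → ∀ _ : t.IsMaximal,
        UniqueFactorizationMonoid (Localization.AtPrime t)) ∧
    ∃ c2 : ℕ, 0 < c2 ∧ ∀ n : ℕ,
      A2Crux M' q A (s36Final A M' q hq haux.1 hA hζq hζ hE R hR) (p ^ n) c2

/-- the inputs give the contract at every auxiliary level -/
theorem a2contract_of_inputs (h : A2Inputs) (q M' p : ℕ) [NeZero M'] [NeZero q]
    (hq : q.Prime) (hp : p.Prime) (hqp : q ≠ p) (haux : IsAuxLevel q M')
    (A : ValuationSubring Kbar) (hA : A.LiesOverPrime q) : A2Contract M' q A p := by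
  obtain ⟨ζ₀, hζq, hζ₀, E, hE, R, hR, h1, h2, h3, h4, h5, c2, hc2, h6⟩ :=
    h q M' p hq hp hqp haux A hA
  exact a2contract_of_final A M' q hq haux.1 hA hζq hζ₀ hE R hR p h1 h2
    (a2_nodes_of_finite _ h3 h4 h5) c2 hc2 h6

/-- a primitive `q`-th root of unity of `Kbar` as a unit, with `ζ ^ q = 1` -/
theorem a2m_exists_zeta (q : ℕ) [NeZero q] :
    ∃ ζ : Kbarˣ, ζ ^ q = 1 ∧ IsPrimitiveRoot (ζ : Kbar) q := by
  obtain ⟨ζ₀, hζ₀⟩ := s36_exists_zeta q
  exact ⟨ζ₀, Units.ext (by rw [Units.val_pow_eq_pow_val, hζ₀.pow_eq_one, Units.val_one]), hζ₀⟩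

/-- a series reduction at level `M'` always exists -/
theorem a2m_exists_red (q M' : ℕ) [NeZero M'] [NeZero q] (hq : q.Prime) (hqM : ¬ q ∣ M')
    (A : ValuationSubring Kbar) (hA : A.LiesOverPrime q) :
    ∃ R : ConstRed A (IsLocalRing.residue A)
      (↥(modularFunctionFieldFullC (IsLocalRing.ResidueField A) M')) (FF (M' * q * q)),
      IsSeriesRed R :=
  hq2_exists_constRedInf M' q hq hqM A hA

/-- **APPLY2**: `InvKAuxStatement` from the six inputs -/
theorem invKAux_of_inputs (h : A2Inputs) : InvKAuxStatement :=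
  invKAux_of_contract fun q M' p _ _ hq hp hqp haux A hA =>
    a2contract_of_inputs h q M' p hq hp hqp haux A hA

/-- (INV) at every level `M' q²`, `q ∤ M'`, from the six inputs -/
theorem invK_of_inputs (h : A2Inputs) : InvKStatement :=
  invK_descent_final (invKAux_of_inputs h)

end Fermat.Agent.S36lib

end
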