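/-
Item 83 (S36), CRUX piece C-2b (helper26): **(h1), local ⇒ global** — pure commutative algebra,
Mathlib only.  No sorry in this file.

Situation (see `NOTES/S36_blueprint.md`, CRUX): `B ⊂ O ⊂ F`, `q ∈ B`, `I = I_E ⊂ B` the ideal of
the functions vanishing on the (good) divisor `E`, `s = s̃ ∈ B` a lift of the `m`-th root of the
reduction of the Kummer function.  If `I + qB = sB + qB` LOCALLY at every maximal ideal `𝔪 ∋ q`
of `B` (and `I` is locally principal there, with a generator which is a nonzerodivisor mod `q`),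
then there is ONE global section `h₀ = b₁ / g₁` of `I⁻¹` with `s · h₀ ∈ 1 + qO`.

* `h1Local_of_notMem`, `h1Local_of_congr`: the local hypothesis at a node / at a point with a
  local `m`-th root;
* `s36_h1_colon`  : the colon ideal `(g₁ B : I)` is comaximal with `q`;
* `s36_h1_global` : `∃ g₁ ∈ I, ∃ b₁, g₁ ≡ s, b₁ ≡ 1 mod q, b₁ I ⊂ g₁ B`;
* `s36_h1_section`: the section `h₀` in the field `F`: `h₀ I ⊂ B`, `s h₀ − 1 ∈ q O`.
-/
import Mathlib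
import Fermat.Agent.S36lib.Speed

set_option autoImplicit false

namespace Fermat.Agent.S36lib

section Abstract

variable {B : Type*} [CommRing B]

/-- the local hypothesis at a maximal ideal `𝔪 ∋ q`: `I` is principal at `𝔪`, generated by `g`,
`g` is a nonzerodivisor modulo `q` at `𝔪`, and `g ∈ sB + qB` at `𝔪`. -/
def H1Local (q s : B) (I 𝔪 : Ideal B) : Prop :=
  ∃ g ∈ I, (∃ w, w ∉ 𝔪 ∧ ∀ x ∈ I, w * x ∈ Ideal.span {g}) ∧
    (∀ x : B, g * x ∈ Ideal.span {q} → ∃ w, w ∉ 𝔪 ∧ w * x ∈ Ideal.span {q}) ∧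
    (∃ w, w ∉ 𝔪 ∧ w * g ∈ Ideal.span {s} ⊔ Ideal.span {q})

/-- the local hypothesis at a point where `I` and `s` are units (e.g. a node, for a good
divisor): `g ∈ I`, `g ∉ 𝔪`, `s ∉ 𝔪`. -/
theorem h1Local_of_notMem (q s : B) (I 𝔪 : Ideal B) (g : B) (hg : g ∈ I) (hg𝔪 : g ∉ 𝔪)
    (hs : s ∉ 𝔪) : H1Local q s I 𝔪 := by
  refine ⟨g, hg, ⟨g, hg𝔪, fun x _ => ?_⟩, fun x hx => ⟨g, hg𝔪, hx⟩, ⟨s, hs, ?_⟩⟩
  · rw [mul_comm]
    exact Ideal.mul_mem_left _ _ (Ideal.subset_span rfl)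
  · rw [mul_comm]
    exact Ideal.mem_sup_left (Ideal.mul_mem_left _ _ (Ideal.subset_span rfl))

/-- the local hypothesis from a local generator `g` of `I` and a local congruence
`s ≡ ε g mod q` with `ε` a unit at `𝔪` (the local `m`-th root). -/
theorem h1Local_of_congr (q s : B) (I 𝔪 : Ideal B) (g : B) (hg : g ∈ I)
    (hprinc : ∃ w, w ∉ 𝔪 ∧ ∀ x ∈ I, w * x ∈ Ideal.span {g})
    (hnzd : ∀ x : B, g * x ∈ Ideal.span {q} → ∃ w, w ∉ 𝔪 ∧ w * x ∈ Ideal.span {q})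
    (h𝔪 : 𝔪.IsPrime) (ε w' : B) (hε : ε ∉ 𝔪) (hw' : w' ∉ 𝔪)
    (hcongr : w' * (s - ε * g) ∈ Ideal.span {q}) : H1Local q s I 𝔪 := by
  refine ⟨g, hg, hprinc, hnzd, ⟨w' * ε, fun h => ?_, ?_⟩⟩
  · rcases h𝔪.mem_or_mem h with h | h
    · exact hw' h
    · exact hε h
  · have e : w' * ε * g = w' * s - w' * (s - ε * g) := by ring
    rw [e]
    refine Ideal.sub_mem _ (Ideal.mem_sup_left ?_) (Ideal.mem_sup_right hcongr)
    exact Ideal.mul_mem_left _ _ (Ideal.subset_span rfl)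

/-- the colon ideal `(g B : I)` -/
def h1Colon (g : B) (I : Ideal B) : Ideal B where
  carrier := {b | ∀ x ∈ I, b * x ∈ Ideal.span {g}}
  zero_mem' := fun x _ => by rw [zero_mul]; exact Ideal.zero_mem _
  add_mem' := fun {a b} ha hb x hx => by
    rw [add_mul]
    exact Ideal.add_mem _ (ha x hx) (hb x hx)
  smul_mem' := fun c {a} ha x hx => by
    rw [smul_eq_mul, mul_assoc]
    exact Ideal.mul_mem_left _ c (ha x hx)

theorem mem_h1Colon {g b : B} {I : Ideal B} :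
    b ∈ h1Colon g I ↔ ∀ x ∈ I, b * x ∈ Ideal.span {g} := Iff.rfl

/-- if `g₁ ∈ I`, `g₁ ≡ s mod q` and the local hypotheses hold, the colon ideal `(g₁ B : I)` is
comaximal with `q`. -/
theorem s36_h1_colon (q s g₁ : B) (I : Ideal B) (hg₁ : g₁ ∈ I)
    (hs : s - g₁ ∈ Ideal.span {q})
    (hloc : ∀ 𝔪 : Ideal B, 𝔪.IsMaximal → q ∈ 𝔪 → H1Local q s I 𝔪) :
    h1Colon g₁ I ⊔ Ideal.span {q} = ⊤ := by
  by_contra hne
  obtain ⟨𝔪, hmax, hle⟩ := Ideal.exists_le_maximal _ hne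
  have hq𝔪 : q ∈ 𝔪 := hle (Ideal.mem_sup_right (Ideal.subset_span rfl))
  have hC𝔪 : h1Colon g₁ I ≤ 𝔪 := le_trans le_sup_left hle
  have hprime : 𝔪.IsPrime := hmax.isPrime
  obtain ⟨g, -, ⟨w, hw, hwI⟩, hnzd, ⟨w₁, hw₁, hw₁g⟩⟩ := hloc 𝔪 hmax hq𝔪
  -- `w g₁ = a g`
  obtain ⟨a, ha⟩ := Ideal.mem_span_singleton'.mp (hwI g₁ hg₁)
  -- `w₁ g = x s + y q`
  obtain ⟨t₁, ht₁, t₂, ht₂, hsum⟩ := Submodule.mem_sup.mp hw₁g
  obtain ⟨x, hx⟩ := Ideal.mem_span_singleton'.mp ht₁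
  obtain ⟨y, hy⟩ := Ideal.mem_span_singleton'.mp ht₂
  obtain ⟨z, hz⟩ := Ideal.mem_span_singleton'.mp hs
  -- `g (w w₁ − a x) ∈ (q)`
  have hkey : g * (w * w₁ - a * x) ∈ Ideal.span {q} := by
    have e : g * (w * w₁ - a * x) = (w * (x * z + y)) * q := by
      have h1 : w₁ * g = x * s + y * q := by rw [← hsum, ← hx, ← hy]
      have h2 : s = g₁ + z * q := by rw [hz]; ring
      have h3 : a * g = w * g₁ := ha
      calc g * (w * w₁ - a * x) = w * (w₁ * g) - (a * g) * x := by ring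
        _ = w * (x * (g₁ + z * q) + y * q) - (w * g₁) * x := by rw [h1, h2, h3]
        _ = (w * (x * z + y)) * q := by ring
    rw [e]
    exact Ideal.mul_mem_left _ _ (Ideal.subset_span rfl)
  obtain ⟨w₂, hw₂, hw₂k⟩ := hnzd _ hkey
  -- hence `a ∉ 𝔪`
  have ha𝔪 : a ∉ 𝔪 := by
    intro ha𝔪
    have h1 : w₂ * (w * w₁ - a * x) ∈ 𝔪 :=
      (Ideal.span_singleton_le_iff_mem (I := 𝔪)).mpr hq𝔪 hw₂k
    have h2 : w₂ * (a * x) ∈ 𝔪 := 𝔪.mul_mem_left _ (𝔪.mul_mem_right _ ha𝔪)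
    have h3 : w₂ * (w * w₁) ∈ 𝔪 := by
      have e : w₂ * (w * w₁) = w₂ * (w * w₁ - a * x) + w₂ * (a * x) := by ring
      rw [e]
      exact 𝔪.add_mem h1 h2
    rcases hprime.mem_or_mem h3 with h | h
    · exact hw₂ h
    · rcases hprime.mem_or_mem h with h | h
      · exact hw h
      · exact hw₁ h
  -- `a w ∈ (g₁ B : I)`
  have hmem : a * w ∈ h1Colon g₁ I := by
    intro i hi
    obtain ⟨c, hc⟩ := Ideal.mem_span_singleton'.mp (hwI i hi)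
    have e : a * w * i = (w * c) * g₁ := by
      calc a * w * i = a * (w * i) := by ring
        _ = a * (c * g) := by rw [hc]
        _ = c * (a * g) := by ring
        _ = c * (w * g₁) := by rw [ha]
        _ = (w * c) * g₁ := by ring
    rw [e]
    exact Ideal.mul_mem_left _ _ (Ideal.subset_span rfl)
  rcases hprime.mem_or_mem (hC𝔪 hmem) with h | h
  · exact ha𝔪 h
  · exact hw h

/-- **(h1), local ⇒ global.**  `s ∈ I + qB` and the local hypotheses at all maximal ideals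
containing `q` give `g₁ ∈ I`, `b₁ ∈ B` with `g₁ ≡ s`, `b₁ ≡ 1 mod q` and `b₁ I ⊂ g₁ B`. -/
theorem s36_h1_global (q s : B) (I : Ideal B) (hs : s ∈ I ⊔ Ideal.span {q})
    (hloc : ∀ 𝔪 : Ideal B, 𝔪.IsMaximal → q ∈ 𝔪 → H1Local q s I 𝔪) :
    ∃ g₁ ∈ I, ∃ b₁ z₁ z₂ : B, s = g₁ + z₁ * q ∧ b₁ = 1 + z₂ * q ∧
      ∀ x ∈ I, b₁ * x ∈ Ideal.span {g₁} := by
  obtain ⟨g₁, hg₁, t, ht, hsum⟩ := Submodule.mem_sup.mp hs
  obtain ⟨z₁, hz₁⟩ := Ideal.mem_span_singleton'.mp ht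
  have hs' : s - g₁ ∈ Ideal.span {q} := by
    have e : s - g₁ = z₁ * q := by rw [← hsum, hz₁]; ring
    rw [e]
    exact Ideal.mul_mem_left _ _ (Ideal.subset_span rfl)
  have htop := s36_h1_colon q s g₁ I hg₁ hs' hloc
  have h1 : (1 : B) ∈ h1Colon g₁ I ⊔ Ideal.span {q} := by rw [htop]; exact Submodule.mem_top
  obtain ⟨b₁, hb₁, t', ht', hsum'⟩ := Submodule.mem_sup.mp h1
  obtain ⟨z₂, hz₂⟩ := Ideal.mem_span_singleton'.mp ht'
  refine ⟨g₁, hg₁, b₁, z₁, -z₂, ?_, ?_, hb₁⟩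
  · rw [← hsum, hz₁]
  · have e : b₁ = 1 - t' := by rw [← hsum']; ring
    rw [e, ← hz₂]
    ring

end Abstract

section Field

variable {F : Type*} [Field F]

/-- **(h1), the section.**  `B ≤ O` subrings of a field `F`, `q ∈ B` in the Jacobson radical of
`O` (in the form: `1 + q z` is a unit of `O` for `z ∈ O`), `s ∈ B` a unit of `O`.  Under the
hypotheses of `s36_h1_global` there is `h₀ ∈ F` with `h₀ · I ⊂ B` and `s · h₀ = 1 + q · z`,
`z ∈ O`. -/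
theorem s36_h1_section (B O : Subring F) (hBO : B ≤ O) (q s : B) (I : Ideal B)
    (hs : s ∈ I ⊔ Ideal.span {q})
    (hloc : ∀ 𝔪 : Ideal B, 𝔪.IsMaximal → q ∈ 𝔪 → H1Local q s I 𝔪)
    (hs0 : ((s : B) : F) ≠ 0) (hsO : ((s : B) : F)⁻¹ ∈ O)
    (hrad : ∀ z : F, z ∈ O → 1 + (q : F) * z ≠ 0 ∧ (1 + (q : F) * z)⁻¹ ∈ O) :
    ∃ h₀ : F, (∀ x ∈ I, h₀ * ((x : B) : F) ∈ B) ∧
      ∃ z : F, z ∈ O ∧ (s : F) * h₀ = 1 + (q : F) * z := by
  obtain ⟨g₁, -, b₁, z₁, z₂, hsg, hb, hcol⟩ := s36_h1_global q s I hs hloc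
  have hsg' : (s : F) = (g₁ : F) + (z₁ : F) * (q : F) := by
    have := congrArg (Subtype.val : B → F) hsg
    simpa using this
  have hb' : (b₁ : F) = 1 + (z₂ : F) * (q : F) := by
    have := congrArg (Subtype.val : B → F) hb
    simpa using this
  -- `g₁ = s (1 + q z₀)` with `z₀ = - z₁ / s ∈ O`
  set z₀ : F := -((z₁ : F) * ((s : B) : F)⁻¹) with hz₀
  have hz₀O : z₀ ∈ O := O.neg_mem (O.mul_mem (hBO z₁.2) hsO)
  obtain ⟨hne, hinv⟩ := hrad z₀ hz₀O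
  have hg₁ : (g₁ : F) = (s : F) * (1 + (q : F) * z₀) := by
    rw [hz₀]
    field_simp
    rw [hsg']
    ring
  have hg₁0 : (g₁ : F) ≠ 0 := by
    rw [hg₁]
    exact mul_ne_zero hs0 hne
  refine ⟨(b₁ : F) / (g₁ : F), fun x hx => ?_, (z₂ - z₀) * (1 + (q : F) * z₀)⁻¹,
    O.mul_mem (O.sub_mem (hBO z₂.2) hz₀O) hinv, ?_⟩
  · obtain ⟨c, hc⟩ := Ideal.mem_span_singleton'.mp (hcol x hx)
    have hc' : (c : F) * (g₁ : F) = (b₁ : F) * (x : F) := by
      have := congrArg (Subtype.val : B → F) hc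
      simpa using this
    have e : (b₁ : F) / (g₁ : F) * (x : F) = (c : F) := by
      rw [div_mul_eq_mul_div, ← hc', mul_div_assoc, div_self hg₁0, mul_one]
    rw [e]
    exact c.2
  · rw [hg₁, hb']
    field_simp
    ring

end Field

end Fermat.Agent.S36lib
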