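/-
Item 83 (S36), CRUX piece C-2c (helper26): **(h1), the NORMAL FORM** — pure commutative algebra,
Mathlib + `S36lib/H1Global.lean`.  No sorry in this file.

Situation (`NOTES/S36_blueprint.md`, CRUX): `B ⊂ O ⊂ F`, `q ∈ B`; `u ∈ B` the Kummer function
(`div u = m E` off the cusps, `u` a unit at the nodes), `s ∈ B` a global `m`-th root of `u`
modulo `q`: `u ≡ s ^ m mod q B`.  At every maximal ideal `𝔪 ∋ q` of `B` either `u ∉ 𝔪` (nodes,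
and all points off `E`), or `𝔪` is a REGULAR point of ONE component (`H1Reg`): there is a prime
`p ≤ 𝔪` generated at `𝔪` by `π`, `q = unit · π ^ e` at `𝔪`, `B / p` is root-closed at `𝔪`, `u ∉ p`
and `u = unit · g ^ m` at `𝔪` (factoriality of `B_𝔪` + `m ∣ ord`).

Result (`s36_h1_normal_form`): there is `h₀ ∈ O` with `s h₀ ∈ 1 + q O` and
`u₁ := u h₀ ^ m ∈ B ∩ (1 + q O)`.  So the divisor `E₁ = E + div h₀` of `u₁` is effective off the
cusps, `red u₁ = 1`, and (h1) for `(u₁, E₁)` is the statement `1 ∈ L (a₁ D₁ + E₁)`.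

* `LocDvd 𝔪 a y`      : `a` divides `y` locally at `𝔪` (`∃ w ∉ 𝔪, a ∣ w y`);
* `H1Reg 𝔪 q u m`     : the regular local data;
* `h1reg_cancel`      : `G ∉ p` is a nonzerodivisor modulo `π ^ j` at `𝔪`;
* `h1reg_nzd`         : `g` is a nonzerodivisor modulo `q` at `𝔪`;
* `h1reg_root`        : the local `m`-th root: `W s = r g + q x`, `W, r ∉ 𝔪` (Newton by hand);
* `h1Ideal u m`       : the ideal generated by `{x | u ∣ x ^ m}` (`= I_E`);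
* `s36_h1_normal_form`: the normal form.
-/
import Mathlib
import Fermat.Agent.S36lib.H1Global

set_option autoImplicit false

namespace Fermat.Agent.S36lib

section Local

variable {B : Type*} [CommRing B]

/-- `a` divides `y` locally at `𝔪`: `a ∣ w y` for some `w ∉ 𝔪`. -/
def LocDvd (𝔪 : Ideal B) (a y : B) : Prop := ∃ w, w ∉ 𝔪 ∧ a ∣ w * y

theorem h1_one_notMem (𝔪 : Ideal B) [h𝔪 : 𝔪.IsPrime] : (1 : B) ∉ 𝔪 :=
  fun h1 => h𝔪.ne_top ((Ideal.eq_top_iff_one 𝔪).mpr h1)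

theorem h1_mul_notMem {𝔪 : Ideal B} [h𝔪 : 𝔪.IsPrime] {a b : B} (ha : a ∉ 𝔪) (hb : b ∉ 𝔪) :
    a * b ∉ 𝔪 := fun h => (h𝔪.mem_or_mem h).elim ha hb

theorem h1_pow_notMem {𝔪 : Ideal B} [h𝔪 : 𝔪.IsPrime] {a : B} (ha : a ∉ 𝔪) (n : ℕ) :
    a ^ n ∉ 𝔪 := fun h => ha (h𝔪.mem_of_pow_mem n h)

theorem LocDvd.of_dvd (𝔪 : Ideal B) [𝔪.IsPrime] {a y : B} (h : a ∣ y) : LocDvd 𝔪 a y :=
  ⟨1, h1_one_notMem 𝔪, by rwa [one_mul]⟩

end Local

section LocalDomain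

variable {B : Type*} [CommRing B] [IsDomain B]

/-- the REGULAR local data at `𝔪`: a prime `p ≤ 𝔪` (the component through `𝔪`), generated at `𝔪`
by `π`, with `q = unit · π ^ e` at `𝔪`, `B / p` root-closed at `𝔪`, `u ∉ p`, and
`u = unit · g ^ m` at `𝔪` (in the form `g ^ m = w₀ u`, `w₀ ∉ 𝔪`). -/
def H1Reg (𝔪 : Ideal B) (q u : B) (m : ℕ) : Prop :=
  ∃ (p : Ideal B) (π g w₀ w₁ w₂ : B) (e : ℕ),
    p.IsPrime ∧ p ≤ 𝔪 ∧ π ∈ p ∧ (∀ x ∈ p, LocDvd 𝔪 π x) ∧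
    w₁ ∉ 𝔪 ∧ w₂ ∉ 𝔪 ∧ w₁ * q = w₂ * π ^ e ∧
    (∀ a b c w : B, b ∉ p → w ∉ 𝔪 → w * a ^ m - c * b ^ m ∈ p → ∃ d, w * a - d * b ∈ p) ∧
    u ∉ p ∧ w₀ ∉ 𝔪 ∧ g ^ m = w₀ * u

/-- an element `G ∉ p` is a nonzerodivisor modulo `π ^ j` at `𝔪`. -/
theorem h1reg_cancel (𝔪 p : Ideal B) [h𝔪 : 𝔪.IsPrime] [hp : p.IsPrime]
    (π : B) (hπ0 : π ≠ 0) (hπp : π ∈ p) (hgen : ∀ x ∈ p, LocDvd 𝔪 π x) (G : B) (hG : G ∉ p) :
    ∀ (j : ℕ) (Z : B), π ^ j ∣ Z * G → LocDvd 𝔪 (π ^ j) Z := by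
  intro j
  induction j with
  | zero =>
    intro Z _
    exact ⟨1, h1_one_notMem 𝔪, by simp⟩
  | succ j ih =>
    intro Z hZ
    obtain ⟨c, hc⟩ := hZ
    have h1 : π ^ j ∣ Z * G := ⟨π * c, by rw [hc, pow_succ]; ring⟩
    obtain ⟨w, hw, Z', hZ'⟩ := ih Z h1
    -- `w Z = π^j Z'`, `Z G = π^(j+1) c`  ⟹  `Z' G = w π c`
    have h2 : Z' * G = w * π * c := by
      have hπj : π ^ j ≠ 0 := pow_ne_zero _ hπ0
      apply mul_left_cancel₀ hπj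
      calc π ^ j * (Z' * G) = (w * Z) * G := by rw [hZ']; ring
        _ = w * (Z * G) := by ring
        _ = w * (π ^ (j + 1) * c) := by rw [hc]
        _ = π ^ j * (w * π * c) := by rw [pow_succ]; ring
    have h3 : Z' ∈ p := by
      have : Z' * G ∈ p := by
        rw [h2]
        exact p.mul_mem_right _ (p.mul_mem_left _ hπp)
      exact (hp.mem_or_mem this).resolve_right hG
    obtain ⟨w', hw', Z'', hZ''⟩ := hgen Z' h3
    refine ⟨w' * w, h1_mul_notMem hw' hw, Z'', ?_⟩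
    calc w' * w * Z = w' * (w * Z) := by ring
      _ = w' * (π ^ j * Z') := by rw [hZ']
      _ = π ^ j * (w' * Z') := by ring
      _ = π ^ j * (π * Z'') := by rw [hZ'']
      _ = π ^ (j + 1) * Z'' := by rw [pow_succ]; ring

/-- `g ∉ p` is a nonzerodivisor modulo `q` at `𝔪` (`q = unit · π ^ e` at `𝔪`). -/
theorem h1reg_nzd (𝔪 p : Ideal B) [𝔪.IsPrime] [p.IsPrime] (q π g w₁ w₂ : B) (e : ℕ)
    (hπ0 : π ≠ 0) (hπp : π ∈ p) (hgen : ∀ x ∈ p, LocDvd 𝔪 π x)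
    (hw₁ : w₁ ∉ 𝔪) (hw₂ : w₂ ∉ 𝔪) (hqπ : w₁ * q = w₂ * π ^ e) (hg : g ∉ p) :
    ∀ x : B, g * x ∈ Ideal.span {q} → ∃ w, w ∉ 𝔪 ∧ w * x ∈ Ideal.span {q} := by
  intro x hx
  obtain ⟨c, hc⟩ := Ideal.mem_span_singleton'.mp hx
  have h1 : π ^ e ∣ (w₁ * x) * g := ⟨w₂ * c, by
    calc w₁ * x * g = w₁ * (g * x) := by ring
      _ = w₁ * (c * q) := by rw [hc]
      _ = c * (w₁ * q) := by ring
      _ = c * (w₂ * π ^ e) := by rw [hqπ]
      _ = π ^ e * (w₂ * c) := by ring⟩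
  obtain ⟨w, hw, y, hy⟩ := h1reg_cancel 𝔪 p π hπ0 hπp hgen g hg e (w₁ * x) h1
  refine ⟨w₂ * w * w₁, h1_mul_notMem (h1_mul_notMem hw₂ hw) hw₁, ?_⟩
  rw [Ideal.mem_span_singleton']
  refine ⟨w₁ * y, ?_⟩
  calc w₁ * y * q = y * (w₁ * q) := by ring
    _ = y * (w₂ * π ^ e) := by rw [hqπ]
    _ = w₂ * (π ^ e * y) := by ring
    _ = w₂ * (w * (w₁ * x)) := by rw [hy]
    _ = w₂ * w * w₁ * x := by ring

/-- **the local `m`-th root** (Newton by hand): `W s = r g + q x` with `W, r ∉ 𝔪`. -/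
theorem h1reg_root (𝔪 p : Ideal B) [h𝔪 : 𝔪.IsPrime] [hp : p.IsPrime] (hp𝔪 : p ≤ 𝔪)
    (q s u π g w₀ w₁ w₂ : B) (e m : ℕ) (hm : 0 < m) (hm𝔪 : ((m : ℕ) : B) ∉ 𝔪)
    (hq0 : q ≠ 0) (hq𝔪 : q ∈ 𝔪)
    (hus : u - s ^ m ∈ Ideal.span {q})
    (hπp : π ∈ p) (hgen : ∀ x ∈ p, LocDvd 𝔪 π x)
    (hw₁ : w₁ ∉ 𝔪) (hw₂ : w₂ ∉ 𝔪) (hqπ : w₁ * q = w₂ * π ^ e)
    (hN : ∀ a b c w : B, b ∉ p → w ∉ 𝔪 → w * a ^ m - c * b ^ m ∈ p → ∃ d, w * a - d * b ∈ p)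
    (hup : u ∉ p) (hw₀ : w₀ ∉ 𝔪) (hg : g ^ m = w₀ * u) :
    ∃ W r x : B, W ∉ 𝔪 ∧ r ∉ 𝔪 ∧ W * s = r * g + q * x := by
  have hnot𝔪p : ∀ {w : B}, w ∉ 𝔪 → w ∉ p := fun hw hwp => hw (hp𝔪 hwp)
  -- `e ≥ 1`
  have he : 1 ≤ e := by
    rcases Nat.eq_zero_or_pos e with h0 | h0
    · exfalso
      rw [h0, pow_zero, mul_one] at hqπ
      exact hw₂ (hqπ ▸ 𝔪.mul_mem_left _ hq𝔪)
    · exact h0
  have hw₁0 : w₁ ≠ 0 := fun h => hw₁ (h ▸ 𝔪.zero_mem)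
  -- `π ≠ 0`
  have hπ0 : π ≠ 0 := by
    rintro rfl
    rw [zero_pow (by omega), mul_zero] at hqπ
    rcases mul_eq_zero.mp hqπ with h | h
    · exact hw₁0 h
    · exact hq0 h
  -- `q ∈ p`
  have hqp : q ∈ p := by
    have : w₁ * q ∈ p := by
      rw [hqπ]
      exact p.mul_mem_left _ (p.pow_mem_of_mem hπp e he)
    exact (hp.mem_or_mem this).resolve_left (hnot𝔪p hw₁)
  -- `g ∉ p`
  have hgp : g ∉ p := by
    intro h
    have : w₀ * u ∈ p := by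
      rw [← hg]
      exact p.pow_mem_of_mem h m hm
    rcases hp.mem_or_mem this with h' | h'
    · exact hnot𝔪p hw₀ h'
    · exact hup h'
  have hgmp : ∀ n : ℕ, g ^ n ∉ p := fun n h => hgp (hp.mem_of_pow_mem n h)
  obtain ⟨c₀, hc₀⟩ := Ideal.mem_span_singleton'.mp hus
  -- the induction
  have key : ∀ j : ℕ, 1 ≤ j → j ≤ e →
      ∃ W r x : B, W ∉ 𝔪 ∧ r ∉ 𝔪 ∧ W * s = r * g + π ^ j * x := by
    intro j hj
    induction j, hj using Nat.le_induction with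
    | base =>
      intro _
      -- `w₀ s^m - g^m ∈ p`
      have h1 : w₀ * s ^ m - 1 * g ^ m ∈ p := by
        have e1 : w₀ * s ^ m - 1 * g ^ m = -(w₀ * c₀) * q := by
          rw [hg]
          linear_combination w₀ * hc₀
        rw [e1]
        exact p.mul_mem_left _ hqp
      obtain ⟨d, hd⟩ := hN s g 1 w₀ hgp hw₀ h1
      obtain ⟨w₃, hw₃, x₁, hx₁⟩ := hgen _ hd
      have hWs : w₃ * w₀ * s = w₃ * d * g + π ^ 1 * x₁ := by
        rw [pow_one]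
        linear_combination hx₁
      refine ⟨w₃ * w₀, w₃ * d, x₁, h1_mul_notMem hw₃ hw₀, ?_, hWs⟩
      -- `r ∉ 𝔪`
      intro hr
      have h2 : (w₃ * w₀ * s) - (w₃ * d * g) ∈ p := by
        have : (w₃ * w₀ * s) - (w₃ * d * g) = x₁ * π := by
          rw [hWs, pow_one]; ring
        rw [this]
        exact p.mul_mem_left _ hπp
      have h3 : (w₃ * w₀ * s) ^ m - (w₃ * d * g) ^ m ∈ p := by
        obtain ⟨t, ht⟩ := sub_dvd_pow_sub_pow (w₃ * w₀ * s) (w₃ * d * g) m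
        rw [ht]
        exact p.mul_mem_right _ h2
      -- `((w₃ w₀)^m - w₀ (w₃ d)^m) g^m ∈ p`
      have h4 : ((w₃ * w₀) ^ m - w₀ * (w₃ * d) ^ m) * g ^ m ∈ p := by
        have e1 : ((w₃ * w₀) ^ m - w₀ * (w₃ * d) ^ m) * g ^ m
            = w₀ * ((w₃ * w₀ * s) ^ m - (w₃ * d * g) ^ m) + (w₃ * w₀) ^ m * w₀ * c₀ * q := by
          have e2 : (w₃ * w₀ * s) ^ m = (w₃ * w₀) ^ m * s ^ m := by rw [mul_pow]
          have e3 : (w₃ * d * g) ^ m = (w₃ * d) ^ m * g ^ m := by rw [mul_pow]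
          rw [e2, e3]
          linear_combination ((w₃ * w₀) ^ m) * hg - ((w₃ * w₀) ^ m * w₀) * hc₀
        rw [e1]
        exact p.add_mem (p.mul_mem_left _ h3) (p.mul_mem_left _ hqp)
      have h5 : (w₃ * w₀) ^ m - w₀ * (w₃ * d) ^ m ∈ 𝔪 :=
        hp𝔪 ((hp.mem_or_mem h4).resolve_right (hgmp m))
      have h6 : w₀ * (w₃ * d) ^ m ∈ 𝔪 := 𝔪.mul_mem_left _ (𝔪.pow_mem_of_mem hr m hm)
      have h7 : (w₃ * w₀) ^ m ∈ 𝔪 := by
        have : (w₃ * w₀) ^ m = ((w₃ * w₀) ^ m - w₀ * (w₃ * d) ^ m) + w₀ * (w₃ * d) ^ m := by ring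
        rw [this]
        exact 𝔪.add_mem h5 h6
      exact h1_pow_notMem (h1_mul_notMem hw₃ hw₀) m h7
    | succ j hj ih =>
      intro hje
      obtain ⟨W, r, x, hW, hr, hWs⟩ := ih (by omega)
      obtain ⟨T, hT⟩ := Polynomial.powAddExpansion (r * g) (π ^ j * x) m
      have e1 : W ^ m * s ^ m
          = (r * g) ^ m + m * (r * g) ^ (m - 1) * (π ^ j * x) + T * (π ^ j * x) ^ 2 := by
        rw [← mul_pow, hWs, hT]
      have e2 : π ^ e = π ^ j * π ^ (e - j) := by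
        rw [← pow_add]
        congr 1
        omega
      have e3 : (r * g) ^ m = r ^ m * g ^ m := mul_pow r g m
      -- the key identity
      set Y : B := w₁ * w₀ * m * (r * g) ^ (m - 1) * x + w₁ * w₀ * T * π ^ j * x ^ 2
        + w₀ * W ^ m * w₂ * π ^ (e - j) * c₀ with hY
      have hkey : w₁ * (W ^ m - w₀ * r ^ m) * g ^ m = π ^ j * Y := by
        rw [hY]
        linear_combination (w₁ * W ^ m) * hg - (w₁ * w₀ * W ^ m) * hc₀ + (w₁ * w₀) * e1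
          + (w₀ * W ^ m * c₀) * hqπ + (w₀ * W ^ m * c₀ * w₂) * e2 - (w₁ * w₀) * e3
      obtain ⟨w₄, hw₄, δ, hδ⟩ :=
        h1reg_cancel 𝔪 p π hπ0 hπp hgen (g ^ m) (hgmp m) j (w₁ * (W ^ m - w₀ * r ^ m))
          ⟨Y, hkey⟩
      have h1 : δ * g ^ m = w₄ * Y := by
        apply mul_left_cancel₀ (pow_ne_zero j hπ0)
        calc π ^ j * (δ * g ^ m) = (w₄ * (w₁ * (W ^ m - w₀ * r ^ m))) * g ^ m := by
              rw [hδ]; ring
          _ = w₄ * (w₁ * (W ^ m - w₀ * r ^ m) * g ^ m) := by ring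
          _ = w₄ * (π ^ j * Y) := by rw [hkey]
          _ = π ^ j * (w₄ * Y) := by ring
      -- modulo `p`
      set μ : B := w₄ * w₁ * w₀ * m * r ^ (m - 1) with hμ
      have hgm : g ^ m = g ^ (m - 1) * g := by
        rw [← pow_succ]
        congr 1
        omega
      have h2 : g ^ (m - 1) * (δ * g - μ * x) ∈ p := by
        have e4 : g ^ (m - 1) * (δ * g - μ * x)
            = π ^ j * (w₄ * w₁ * w₀ * T * x ^ 2) + π ^ (e - j) * (w₄ * w₀ * W ^ m * w₂ * c₀) := by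
          have e5 : (r * g) ^ (m - 1) = r ^ (m - 1) * g ^ (m - 1) := mul_pow _ _ _
          rw [hμ]
          have h1' := h1
          rw [hY, e5, hgm] at h1'
          linear_combination h1'
        rw [e4]
        exact p.add_mem (p.mul_mem_right _ (p.pow_mem_of_mem hπp j (by omega)))
          (p.mul_mem_right _ (p.pow_mem_of_mem hπp (e - j) (by omega)))
      have h3 : δ * g - μ * x ∈ p := (hp.mem_or_mem h2).resolve_left (hgmp (m - 1))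
      obtain ⟨w₅, hw₅, x', hx'⟩ := hgen _ h3
      have hμ𝔪 : μ ∉ 𝔪 := by
        rw [hμ]
        exact h1_mul_notMem (h1_mul_notMem (h1_mul_notMem (h1_mul_notMem hw₄ hw₁) hw₀) hm𝔪)
          (h1_pow_notMem hr _)
      refine ⟨w₅ * μ * W, w₅ * μ * r + π ^ j * (w₅ * δ), -x',
        h1_mul_notMem (h1_mul_notMem hw₅ hμ𝔪) hW, ?_, ?_⟩
      · intro h
        have h4 : π ^ j * (w₅ * δ) ∈ 𝔪 :=
          𝔪.mul_mem_right _ (hp𝔪 (p.pow_mem_of_mem hπp j (by omega)))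
        have h5 : w₅ * μ * r ∈ 𝔪 := by
          have : w₅ * μ * r = (w₅ * μ * r + π ^ j * (w₅ * δ)) - π ^ j * (w₅ * δ) := by ring
          rw [this]
          exact 𝔪.sub_mem h h4
        exact h1_mul_notMem (h1_mul_notMem hw₅ hμ𝔪) hr h5
      · rw [pow_succ]
        linear_combination (w₅ * μ) * hWs - (π ^ j) * hx'
  obtain ⟨W, r, x, hW, hr, hWs⟩ := key e he le_rfl
  refine ⟨w₂ * W, w₂ * r, w₁ * x, h1_mul_notMem hw₂ hW, h1_mul_notMem hw₂ hr, ?_⟩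
  linear_combination w₂ * hWs - x * hqπ

/-- basic consequences of the regular data: `π ≠ 0` and `g ∉ p`. -/
theorem h1reg_basic (𝔪 p : Ideal B) [h𝔪 : 𝔪.IsPrime] [hp : p.IsPrime] (hp𝔪 : p ≤ 𝔪)
    (q u π g w₀ w₁ w₂ : B) (e m : ℕ) (hm : 0 < m) (hq0 : q ≠ 0) (hq𝔪 : q ∈ 𝔪)
    (hw₁ : w₁ ∉ 𝔪) (hw₂ : w₂ ∉ 𝔪) (hqπ : w₁ * q = w₂ * π ^ e)
    (hup : u ∉ p) (hw₀ : w₀ ∉ 𝔪) (hg : g ^ m = w₀ * u) : π ≠ 0 ∧ g ∉ p := by
  have he : 1 ≤ e := by
    rcases Nat.eq_zero_or_pos e with h0 | h0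
    · exfalso
      rw [h0, pow_zero, mul_one] at hqπ
      exact hw₂ (hqπ ▸ 𝔪.mul_mem_left _ hq𝔪)
    · exact h0
  have hw₁0 : w₁ ≠ 0 := fun h => hw₁ (h ▸ 𝔪.zero_mem)
  refine ⟨?_, ?_⟩
  · rintro rfl
    rw [zero_pow (by omega), mul_zero] at hqπ
    rcases mul_eq_zero.mp hqπ with h | h
    · exact hw₁0 h
    · exact hq0 h
  · intro h
    have : w₀ * u ∈ p := by
      rw [← hg]
      exact p.pow_mem_of_mem h m hm
    rcases hp.mem_or_mem this with h' | h'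
    · exact hw₀ (hp𝔪 h')
    · exact hup h'

/-- the transporter `{w | w s ∈ N}` -/
def h1Transp (N : Ideal B) (s : B) : Ideal B where
  carrier := {w | w * s ∈ N}
  zero_mem' := by simp
  add_mem' := by
    intro a b ha hb
    simp only [Set.mem_setOf_eq] at *
    rw [add_mul]
    exact N.add_mem ha hb
  smul_mem' := by
    intro c a ha
    simp only [Set.mem_setOf_eq, smul_eq_mul] at *
    rw [mul_assoc]
    exact N.mul_mem_left _ ha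

theorem mem_h1Transp {N : Ideal B} {s w : B} : w ∈ h1Transp N s ↔ w * s ∈ N := Iff.rfl

/-- local ⇒ global membership: if `q s ∈ N` and at every maximal ideal `𝔪 ∋ q` some `w ∉ 𝔪` has
`w s ∈ N`, then `s ∈ N`. -/
theorem h1_mem_of_local (N : Ideal B) (q s : B) (hq : q * s ∈ N)
    (hloc : ∀ 𝔪 : Ideal B, 𝔪.IsMaximal → q ∈ 𝔪 → ∃ w, w ∉ 𝔪 ∧ w * s ∈ N) : s ∈ N := by
  by_contra hs
  have hne : h1Transp N s ≠ ⊤ := by
    intro h
    have : (1 : B) ∈ h1Transp N s := by rw [h]; trivial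
    rw [mem_h1Transp, one_mul] at this
    exact hs this
  obtain ⟨𝔪, h𝔪, hle⟩ := Ideal.exists_le_maximal _ hne
  obtain ⟨w, hw, hws⟩ := hloc 𝔪 h𝔪 (hle hq)
  exact hw (hle hws)

end LocalDomain

section Field

variable {F : Type*} [Field F]

/-- the ideal `I_E` of the divisor `E = div u / m`: generated by the `x ∈ B` with `u ∣ x ^ m`. -/
def h1Ideal (B : Subring F) (u : B) (m : ℕ) : Ideal B := Ideal.span {x : B | u ∣ x ^ m}

theorem h1Ideal_mem_of_pow (B : Subring F) (u : B) (m : ℕ) {g w : B} (hg : g ^ m = w * u) :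
    g ∈ h1Ideal B u m :=
  Ideal.subset_span ⟨w, by rw [hg, mul_comm]⟩

/-- `I_E` is generated at `𝔪` by `g` when `g ^ m = w₀ u` (`B` root-closed in `F`). -/
theorem h1Ideal_principal (B : Subring F) (m : ℕ) (hm : 0 < m)
    (hroot : ∀ z : F, z ^ m ∈ B → z ∈ B) (u g w₀ : B) (hu0 : u ≠ 0) (hw₀0 : w₀ ≠ 0)
    (hg : g ^ m = w₀ * u) : ∀ x ∈ h1Ideal B u m, w₀ * x ∈ Ideal.span {g} := by
  have hg0 : g ≠ 0 := by
    rintro rfl
    rw [zero_pow hm.ne'] at hg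
    exact mul_ne_zero hw₀0 hu0 hg.symm
  have hgF : (g : F) ≠ 0 := fun h => hg0 (Subtype.ext h)
  have huF : (u : F) ≠ 0 := fun h => hu0 (Subtype.ext h)
  have hwF : (w₀ : F) ≠ 0 := fun h => hw₀0 (Subtype.ext h)
  have hgF' : (g : F) ^ m = (w₀ : F) * (u : F) := by
    have := congrArg (Subtype.val : B → F) hg
    simpa using this
  intro x hx
  refine Submodule.span_induction (p := fun x _ => w₀ * x ∈ Ideal.span {g}) ?_ ?_ ?_ ?_ hx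
  · rintro x ⟨b, hb⟩
    have hbF : (x : F) ^ m = (u : F) * (b : F) := by
      have := congrArg (Subtype.val : B → F) hb
      simpa using this
    have hm1 : m = (m - 1) + 1 := by omega
    have hz : ((w₀ : F) * (x : F) / (g : F)) ^ m ∈ B := by
      have e1 : ((w₀ : F) * (x : F) / (g : F)) ^ m = (((w₀ ^ (m - 1) * b : B)) : F) := by
        rw [div_pow, mul_pow, hgF', hbF]
        push_cast
        have : (w₀ : F) ^ m = (w₀ : F) ^ (m - 1) * (w₀ : F) := by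
          rw [← pow_succ, ← hm1]
        rw [this]
        field_simp
      rw [e1]
      exact (w₀ ^ (m - 1) * b).2
    have hz' := hroot _ hz
    rw [Ideal.mem_span_singleton']
    refine ⟨⟨_, hz'⟩, ?_⟩
    apply Subtype.ext
    push_cast
    field_simp
  · simp
  · intro x y _ _ hx hy
    rw [mul_add]
    exact Ideal.add_mem _ hx hy
  · intro a x _ hx
    rw [smul_eq_mul, mul_left_comm]
    exact Ideal.mul_mem_left _ _ hx

/-- the denominators of `y ∈ F`: `{w ∈ B | w y ∈ B}` -/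
def h1Denom (B : Subring F) (y : F) : Ideal B where
  carrier := {w | (w : F) * y ∈ B}
  zero_mem' := by simp
  add_mem' := by
    intro a b ha hb
    simp only [Set.mem_setOf_eq] at *
    push_cast
    rw [add_mul]
    exact B.add_mem ha hb
  smul_mem' := by
    intro c a ha
    simp only [Set.mem_setOf_eq, smul_eq_mul] at *
    push_cast
    rw [mul_assoc]
    exact B.mul_mem c.2 ha

theorem mem_h1Denom {B : Subring F} {y : F} {w : B} : w ∈ h1Denom B y ↔ (w : F) * y ∈ B :=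
  Iff.rfl

/-- the local package at a maximal ideal `𝔪 ∋ q`: `H1Local`, the local membership of `s` in
`I + qB`, and a local generator `g` of `I` with `g ^ m = w u`. -/
theorem h1_local_package (B : Subring F) (m : ℕ) (hm : 0 < m)
    (hroot : ∀ z : F, z ^ m ∈ B → z ∈ B) (q s u : B) (hq0 : q ≠ 0) (hu0 : u ≠ 0)
    (hus : u - s ^ m ∈ Ideal.span {q}) (𝔪 : Ideal B) (h𝔪 : 𝔪.IsMaximal) (hq𝔪 : q ∈ 𝔪)
    (hloc : u ∉ 𝔪 ∨ (((m : ℕ) : B) ∉ 𝔪 ∧ H1Reg 𝔪 q u m)) :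
    H1Local q s (h1Ideal B u m) 𝔪 ∧
      (∃ w, w ∉ 𝔪 ∧ w * s ∈ h1Ideal B u m ⊔ Ideal.span {q}) ∧
      (∃ w g, w ∉ 𝔪 ∧ g ∈ h1Ideal B u m ∧ g ^ m = w * u) := by
  haveI : 𝔪.IsPrime := h𝔪.isPrime
  have hm1 : m = (m - 1) + 1 := by omega
  have huI : u ∈ h1Ideal B u m :=
    Ideal.subset_span ⟨u ^ (m - 1), by rw [← pow_succ', ← hm1]⟩
  rcases hloc with hu𝔪 | ⟨hm𝔪, p, π, g, w₀, w₁, w₂, e, hp, hp𝔪, hπp, hgen, hw₁, hw₂, hqπ, hN,
    hup, hw₀, hg⟩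
  · -- the unit case
    have hs𝔪 : s ∉ 𝔪 := by
      intro hs
      have h1 : s ^ m ∈ 𝔪 := 𝔪.pow_mem_of_mem hs m hm
      have h2 : u - s ^ m ∈ 𝔪 := by
        obtain ⟨c, hc⟩ := Ideal.mem_span_singleton'.mp hus
        rw [← hc]
        exact 𝔪.mul_mem_left _ hq𝔪
      have : u = (u - s ^ m) + s ^ m := by ring
      exact hu𝔪 (this ▸ 𝔪.add_mem h2 h1)
    refine ⟨h1Local_of_notMem q s _ 𝔪 u huI hu𝔪 hs𝔪, ⟨u, hu𝔪, ?_⟩,
      ⟨u ^ (m - 1), u, h1_pow_notMem hu𝔪 _, huI, by rw [← pow_succ, ← hm1]⟩⟩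
    exact Ideal.mem_sup_left (Ideal.mul_mem_right _ _ huI)
  · -- the regular case
    obtain ⟨hπ0, hgp⟩ := h1reg_basic 𝔪 p hp𝔪 q u π g w₀ w₁ w₂ e m hm hq0 hq𝔪 hw₁ hw₂ hqπ hup
      hw₀ hg
    have hgI : g ∈ h1Ideal B u m := h1Ideal_mem_of_pow B u m hg
    have hw₀0 : w₀ ≠ 0 := fun h => hw₀ (h ▸ 𝔪.zero_mem)
    obtain ⟨W, r, x, hW, hr, hWs⟩ := h1reg_root 𝔪 p hp𝔪 q s u π g w₀ w₁ w₂ e m hm hm𝔪 hq0 hq𝔪
      hus hπp hgen hw₁ hw₂ hqπ hN hup hw₀ hg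
    have hqx : q * x ∈ Ideal.span {q} := Ideal.mul_mem_right _ _ (Ideal.subset_span rfl)
    refine ⟨⟨g, hgI, ⟨w₀, hw₀, h1Ideal_principal B m hm hroot u g w₀ hu0 hw₀0 hg⟩,
      h1reg_nzd 𝔪 p q π g w₁ w₂ e hπ0 hπp hgen hw₁ hw₂ hqπ hgp, ⟨r, hr, ?_⟩⟩,
      ⟨W, hW, ?_⟩, ⟨w₀, g, hw₀, hgI, hg⟩⟩
    · have e1 : r * g = W * s - q * x := by rw [hWs]; ring
      rw [e1]
      refine Ideal.sub_mem _ (Ideal.mem_sup_left ?_) (Ideal.mem_sup_right hqx)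
      exact Ideal.mul_mem_left _ _ (Ideal.subset_span rfl)
    · rw [hWs]
      exact Ideal.add_mem _ (Ideal.mem_sup_left (Ideal.mul_mem_left _ _ hgI))
        (Ideal.mem_sup_right hqx)

/-- **(h1), the NORMAL FORM.**  `B ≤ O` subrings of a field `F`, `B` closed under `m`-th roots
in `F`, `q ∈ B` in the Jacobson radical of `O`, `s ∈ B` a unit of `O` with `u ≡ s ^ m mod q B`,
and at every maximal ideal `𝔪 ∋ q` of `B` either `u ∉ 𝔪` or the regular data `H1Reg`.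
Then there is a unit `h₀` of `O` with `s h₀ ∈ 1 + q O` and `u h₀ ^ m ∈ B ∩ (1 + q O)`. -/
theorem s36_h1_normal_form (B O : Subring F) (hBO : B ≤ O) (m : ℕ) (hm : 0 < m)
    (hroot : ∀ z : F, z ^ m ∈ B → z ∈ B) (q s u : B) (hq0 : q ≠ 0)
    (hus : u - s ^ m ∈ Ideal.span {q})
    (hs0 : ((s : B) : F) ≠ 0) (hsO : ((s : B) : F)⁻¹ ∈ O)
    (hrad : ∀ z : F, z ∈ O → 1 + (q : F) * z ≠ 0 ∧ (1 + (q : F) * z)⁻¹ ∈ O)
    (hloc : ∀ 𝔪 : Ideal B, 𝔪.IsMaximal → q ∈ 𝔪 →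
      u ∉ 𝔪 ∨ (((m : ℕ) : B) ∉ 𝔪 ∧ H1Reg 𝔪 q u m)) :
    ∃ h₀ : F, h₀ ≠ 0 ∧ h₀ ∈ O ∧ h₀⁻¹ ∈ O ∧ (u : F) * h₀ ^ m ∈ B ∧
      (∃ z : F, z ∈ O ∧ (s : F) * h₀ = 1 + (q : F) * z) ∧
      ∃ z : F, z ∈ O ∧ (u : F) * h₀ ^ m = 1 + (q : F) * z := by
  obtain ⟨c₀, hc₀⟩ := Ideal.mem_span_singleton'.mp hus
  have hc₀F : (c₀ : F) * (q : F) = (u : F) - (s : F) ^ m := by
    have := congrArg (Subtype.val : B → F) hc₀
    simpa using this
  -- `u ≠ 0`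
  have hu0 : u ≠ 0 := by
    rintro rfl
    have hz : (s : F)⁻¹ ^ m * (c₀ : F) ∈ O :=
      O.mul_mem (O.pow_mem hsO m) (hBO c₀.2)
    apply (hrad _ hz).1
    have hsm : (s : F) ^ m ≠ 0 := pow_ne_zero _ hs0
    have e1 : (c₀ : F) * (q : F) = -(s : F) ^ m := by
      rw [hc₀F]; simp
    have e2 : (q : F) * ((s : F)⁻¹ ^ m * (c₀ : F)) = (s : F)⁻¹ ^ m * ((c₀ : F) * (q : F)) := by
      ring
    rw [e2, e1, inv_pow]
    field_simp
    ring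
  set I := h1Ideal B u m with hI
  have hpack := fun 𝔪 h𝔪 hq𝔪 =>
    h1_local_package B m hm hroot q s u hq0 hu0 hus 𝔪 h𝔪 hq𝔪 (hloc 𝔪 h𝔪 hq𝔪)
  -- `s ∈ I + qB`
  have hs : s ∈ I ⊔ Ideal.span {q} :=
    h1_mem_of_local _ q s
      (Ideal.mem_sup_right (Ideal.mul_mem_right _ _ (Ideal.subset_span rfl)))
      (fun 𝔪 h𝔪 hq𝔪 => (hpack 𝔪 h𝔪 hq𝔪).2.1)
  -- the section
  obtain ⟨h₁, hh₁I, z, hzO, hz⟩ := s36_h1_section B O hBO q s I hs
    (fun 𝔪 h𝔪 hq𝔪 => (hpack 𝔪 h𝔪 hq𝔪).1) hs0 hsO hrad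
  -- the denominators of `u h₁^m` are comaximal with `q`
  have htop : h1Denom B ((u : F) * h₁ ^ m) ⊔ Ideal.span {q} = ⊤ := by
    by_contra hne
    obtain ⟨𝔪, h𝔪, hle⟩ := Ideal.exists_le_maximal _ hne
    have hq𝔪 : q ∈ 𝔪 := hle (Ideal.mem_sup_right (Ideal.subset_span rfl))
    obtain ⟨w, g, hw, hgI, hg⟩ := (hpack 𝔪 h𝔪 hq𝔪).2.2
    apply hw
    apply hle
    apply Ideal.mem_sup_left
    rw [mem_h1Denom]
    have hgF : (g : F) ^ m = (w : F) * (u : F) := by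
      have := congrArg (Subtype.val : B → F) hg
      simpa using this
    have e1 : (w : F) * ((u : F) * h₁ ^ m) = (h₁ * (g : F)) ^ m := by
      rw [mul_pow, hgF]; ring
    rw [e1]
    exact B.pow_mem (hh₁I g hgI) m
  have h1 : (1 : B) ∈ h1Denom B ((u : F) * h₁ ^ m) ⊔ Ideal.span {q} := by
    rw [htop]; trivial
  obtain ⟨c, hc, t, ht, hct⟩ := Submodule.mem_sup.mp h1
  obtain ⟨b, hb⟩ := Ideal.mem_span_singleton'.mp ht
  rw [mem_h1Denom] at hc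
  have hcF : (c : F) = 1 - (b : F) * (q : F) := by
    have := congrArg (Subtype.val : B → F) hct
    have hb' := congrArg (Subtype.val : B → F) hb
    simp only [Subring.coe_add, Subring.coe_one, Subring.coe_mul] at this hb'
    rw [← hb'] at this
    linear_combination this
  -- `h₀ := c h₁`
  set z₁ : F := z - (b : F) - (b : F) * (q : F) * z with hz₁
  have hz₁O : z₁ ∈ O :=
    O.sub_mem (O.sub_mem hzO (hBO b.2)) (O.mul_mem (O.mul_mem (hBO b.2) (hBO q.2)) hzO)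
  have hsh : (s : F) * ((c : F) * h₁) = 1 + (q : F) * z₁ := by
    rw [hz₁, hcF]
    linear_combination (1 - (b : F) * (q : F)) * hz
  obtain ⟨hne, hinv⟩ := hrad z₁ hz₁O
  have hh₀ : (c : F) * h₁ = (s : F)⁻¹ * (1 + (q : F) * z₁) := by
    rw [← hsh]
    field_simp
  have hm1 : m = (m - 1) + 1 := by omega
  have h1O : (1 : F) + (q : F) * z₁ ∈ O := O.add_mem O.one_mem (O.mul_mem (hBO q.2) hz₁O)
  have hh₀O : (c : F) * h₁ ∈ O := by
    rw [hh₀]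
    exact O.mul_mem hsO h1O
  refine ⟨(c : F) * h₁, ?_, hh₀O, ?_, ?_, ⟨z₁, hz₁O, hsh⟩, ?_⟩
  · rw [hh₀]
    exact mul_ne_zero (inv_ne_zero hs0) hne
  · rw [hh₀, mul_inv, inv_inv]
    exact O.mul_mem (hBO s.2) hinv
  · have e1 : (u : F) * ((c : F) * h₁) ^ m = (c : F) ^ (m - 1) * ((c : F) * ((u : F) * h₁ ^ m)) := by
      rw [mul_pow]
      have : (c : F) ^ m = (c : F) ^ (m - 1) * (c : F) := by rw [← pow_succ, ← hm1]
      rw [this]
      ring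
    rw [e1]
    exact B.mul_mem (B.pow_mem c.2 _) hc
  · -- `u h₀^m = (s h₀)^m + q c₀ h₀^m`
    -- the divisibility inside `O`
    obtain ⟨TO, hTO⟩ := sub_dvd_pow_sub_pow
      ((⟨(1 : F) + (q : F) * z₁, h1O⟩ : O)) 1 m
    have hTO' : ((1 : F) + (q : F) * z₁) ^ m - 1 = ((q : F) * z₁) * (TO : F) := by
      have := congrArg (Subtype.val : O → F) hTO
      push_cast at this
      rw [one_pow] at this
      rw [this]
      ring
    refine ⟨z₁ * (TO : F) + (c₀ : F) * ((c : F) * h₁) ^ m,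
      O.add_mem (O.mul_mem hz₁O TO.2) (O.mul_mem (hBO c₀.2) (O.pow_mem hh₀O m)), ?_⟩
    have e2 : (u : F) = (s : F) ^ m + (c₀ : F) * (q : F) := by rw [hc₀F]; ring
    have e3 : ((s : F) * ((c : F) * h₁)) ^ m = ((1 : F) + (q : F) * z₁) ^ m := by rw [hsh]
    rw [mul_pow] at e3
    rw [e2]
    linear_combination e3 + hTO'

end Field

end Fermat.Agent.S36lib
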