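import Mathlib
import Fermat.Agent.S36lib.Setup
import Fermat.Agent.S36lib.SemilocalMove

/-!
# Item 83 (S36), piece R-4(c) (helper10): REG3, the LOCAL criterion

(NOTES/S36_reg3_helper5.md §2, §4(c).)  Regularity of the normal model ALONG the components at
the NON-NODAL closed points: at a closed point `P` of `C_mid` which is not a node, the prime
`p_mid B_P` is principal, generated by `π`, as soon as `π ^ (q-1) = q · (unit at P)`; then `B_P`
is factorial.  At the non-nodal points of `C_∞` and `C_0` the generator is `q` itself.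

## Abstract part (Mathlib only)
* `reg3_mem_of_pow_mem`: a valuation ring contains `t` if it contains `t ^ e`, `e > 0`.
* `reg3_sat_local`: LOCAL SATURATION.  If `z ∈ O ∩ O' ∩ O''`, `q z ∈ B ⟹ z ∈ B`, and the prime
  `P` of `B` is away from `O'`, `O''` (there are `s', s'' ∉ P` with `s'/q ∈ O'`, `s''/q ∈ O''`),
  then `z ∈ O`, `q z ∈ B ⟹ ∃ w ∉ P, w z ∈ B`.
* `reg3_dvd_of_pow_eq`: LOCAL CRITERION, elementwise: `w π ^ e = q b`, `b ∉ P`, ramification
  index `≤ e` (`x ^ e / q ∈ O` for `v x > 0`) ⟹ for all `z ∈ B` with `v z > 0`: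
  `∃ w' ∉ P, π ∣ w' z`.
* `reg3_map_eq_span`: the same as an equality of ideals of `B_P`.
* `reg3_ufm`: `B` Noetherian domain, `p < P`, `B ⧸ p` Dedekind, `p B_P = π B_P`
  ⟹ `B_P` is a UFD (via `s36_ufm_of_quotient_dvr`).

## Over a `NodeSetup` (`S36lib/Setup.lean`)
* `Reg3Hyp S q e`: `B = B[1/q] ∩ O_∞ ∩ O_mid ∩ O_0` and the ramification indices `(1, e, 1)`.
* `reg3_mid_exists`: for `π ∈ p_mid` and `P` a prime on `C_mid` only:
  `∃ w b, w ∉ P ∧ w π ^ e = q b`   (`b/w = π^e/q` is REGULAR at `P`; this is (T2) of the count).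
* `reg3_mid_dvd`, `reg3_mid_ufm`: if moreover `b ∉ P`, then `p_mid B_P = π B_P`, `B_P` is a UFD.
* `reg3_inf_dvd`, `reg3_inf_ufm`, `reg3_zero_dvd`, `reg3_zero_ufm`: at the primes on `C_∞` only
  (resp. `C_0` only): `p_∞ B_P = q B_P`, `B_P` is a UFD.
-/

set_option autoImplicit false
set_option linter.style.haveILetI false

namespace Fermat.Agent.S36lib

open IsLocalRing


/-- a valuation ring contains `t` as soon as it contains a positive power of `t` -/
theorem reg3_mem_of_pow_mem {F : Type*} [Field F] (O : ValuationSubring F) (t : F) (e : ℕ)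
    (he : 0 < e) (h : t ^ e ∈ O) : t ∈ O := by
  rw [← O.valuation_le_one_iff] at h ⊢
  rw [map_pow] at h
  exact (pow_le_one_iff he.ne').1 h

/-- **local saturation**: if `B = B[1/q] ∩ O ∩ O' ∩ O''` (one step) and `P` is a prime of `B`
away from `O'` and `O''` (`s' ∉ P` divisible by `q` in `O'`, `s'' ∉ P` divisible by `q` in
`O''`), then `B_P = B_P[1/q] ∩ O` (one step). -/
theorem reg3_sat_local {F : Type*} [Field F] (B : Subring F) (O O' O'' : ValuationSubring F)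
    (hBO : B ≤ O.toSubring) (hBO' : B ≤ O'.toSubring) (hBO'' : B ≤ O''.toSubring)
    (q : B)
    (hsat : ∀ z : F, z ∈ O → z ∈ O' → z ∈ O'' → (q : F) * z ∈ B → z ∈ B)
    (P : Ideal B) [P.IsPrime]
    (s' s'' : B) (hs' : s' ∉ P) (hs'' : s'' ∉ P)
    (hs'q : ∃ y ∈ O', (s' : F) = q * y) (hs''q : ∃ y ∈ O'', (s'' : F) = q * y) :
    ∀ z : F, z ∈ O → (q : F) * z ∈ B → ∃ w : B, w ∉ P ∧ (w : F) * z ∈ B := by
  intro z hz hqz
  obtain ⟨y', hy', hy'eq⟩ := hs'q
  obtain ⟨y'', hy'', hy''eq⟩ := hs''q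
  refine ⟨s' * s'', fun h => ?_, ?_⟩
  · rcases Ideal.IsPrime.mem_or_mem ‹P.IsPrime› h with h | h
    · exact hs' h
    · exact hs'' h
  · have hqzO' : (q : F) * z ∈ O' := hBO' hqz
    have hqzO'' : (q : F) * z ∈ O'' := hBO'' hqz
    apply hsat
    · exact O.mul_mem _ _ (hBO (s' * s'').2) hz
    · have : ((s' * s'' : B) : F) * z = (s'' : F) * (y' * ((q : F) * z)) := by
        push_cast
        rw [hy'eq]; ring
      rw [this]
      exact O'.mul_mem _ _ (hBO' s''.2) (O'.mul_mem _ _ hy' hqzO')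
    · have : ((s' * s'' : B) : F) * z = (s' : F) * (y'' * ((q : F) * z)) := by
        push_cast
        rw [hy''eq]; ring
      rw [this]
      exact O''.mul_mem _ _ (hBO'' s'.2) (O''.mul_mem _ _ hy'' hqzO'')
    · have : (q : F) * (((s' * s'' : B) : F) * z) = ((s' * s'' : B) : F) * ((q : F) * z) := by
        ring
      rw [this]
      exact B.mul_mem (s' * s'').2 hqz

/-- **REG3, local criterion (elementwise form).**  `B ⊆ O` (valuation ring), `P` a prime of `B`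
containing `p = {x ∈ B : v x > 0}`, ramification index `≤ e` (`x ^ e / q ∈ O` for `v x > 0`),
local saturation, and `π ∈ B` with `π ^ e = q · (unit at P)`.  Then `p B_P = π B_P`. -/
theorem reg3_dvd_of_pow_eq {F : Type*} [Field F] (B : Subring F) (O : ValuationSubring F)
    (hBO : B ≤ O.toSubring) (P : Ideal B) [P.IsPrime]
    (hP : ∀ x : B, (x : F) ∈ O.nonunits → x ∈ P)
    (q : B) (hq0 : q ≠ 0) (e : ℕ) (he : 0 < e)
    (hram : ∀ x : F, x ∈ O.nonunits → ∃ y ∈ O, x ^ e = (q : F) * y)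
    (hsatP : ∀ z : F, z ∈ O → (q : F) * z ∈ B → ∃ w : B, w ∉ P ∧ (w : F) * z ∈ B)
    (π w b : B) (hb : b ∉ P) (hπ : w * π ^ e = q * b) :
    ∀ z : B, (z : F) ∈ O.nonunits → ∃ w' c : B, w' ∉ P ∧ w' * z = π * c := by
  intro z hz
  have hqF : (q : F) ≠ 0 := fun h => hq0 (Subtype.ext h)
  have hb0 : (b : F) ≠ 0 := by
    intro h
    apply hb
    have : b = 0 := Subtype.ext h
    rw [this]; exact P.zero_mem
  have hπF : (w : F) * (π : F) ^ e = (q : F) * (b : F) := by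
    have := congrArg (Subtype.val) hπ
    simpa using this
  have hπ0 : (π : F) ≠ 0 := by
    intro h
    rw [h, zero_pow he.ne', mul_zero] at hπF
    exact mul_ne_zero hqF hb0 hπF.symm
  -- `b` is a unit of `O`
  have hbO : (b : F) ∈ O := hBO b.2
  have hbinv : (b : F)⁻¹ ∈ O := by
    by_contra hcon
    apply hb
    apply hP
    rw [ValuationSubring.mem_nonunits_iff_exists_mem_maximalIdeal]
    refine ⟨hbO, ?_⟩
    rw [IsLocalRing.mem_maximalIdeal, mem_nonunits_iff]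
    intro hu
    apply hcon
    obtain ⟨u, hu⟩ := hu
    have h1 : ((u⁻¹ : (O)ˣ) : O) * ⟨(b : F), hbO⟩ = 1 := by
      rw [← hu]; exact Units.inv_mul u
    have h2 := congrArg (Subtype.val) h1
    simp only [MulMemClass.coe_mul, OneMemClass.coe_one] at h2
    have h3 : (b : F)⁻¹ = (((u⁻¹ : (O)ˣ) : O) : F) := by
      field_simp
      rw [mul_comm]; exact h2.symm
    rw [h3]
    exact (((u⁻¹ : (O)ˣ) : O)).2
  obtain ⟨y, hy, hzy⟩ := hram _ hz
  set t : F := (z : F) / (π : F) with ht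
  have hte : t ^ e = (w : F) * y * (b : F)⁻¹ := by
    rw [ht, div_pow, hzy]
    field_simp
    linear_combination (-(y : F)) * hπF
  have htO : t ∈ O := by
    apply reg3_mem_of_pow_mem O t e he
    rw [hte]
    exact O.mul_mem _ _ (O.mul_mem _ _ (hBO w.2) hy) hbinv
  have hbt : (b : F) * t ∈ O := O.mul_mem _ _ hbO htO
  have hqbt : (q : F) * ((b : F) * t) ∈ B := by
    obtain ⟨e', rfl⟩ : ∃ e', e = e' + 1 := ⟨e - 1, by omega⟩
    have : (q : F) * ((b : F) * t) = ((w * π ^ e' * z : B) : F) := by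
      push_cast
      rw [ht]
      field_simp
      rw [pow_succ] at hπF
      linear_combination (-(z : F)) * hπF
    rw [this]
    exact (w * π ^ e' * z).2
  obtain ⟨w', hw', hw'B⟩ := hsatP _ hbt hqbt
  refine ⟨w' * b, ⟨(w' : F) * ((b : F) * t), hw'B⟩, fun h => ?_, ?_⟩
  · rcases Ideal.IsPrime.mem_or_mem ‹P.IsPrime› h with h | h
    · exact hw' h
    · exact hb h
  · apply Subtype.ext
    push_cast
    rw [ht]
    field_simp



/-- if `p B_P ⊆ π B_P` elementwise and `π ∈ p`, then `p B_P = π B_P` as ideals of the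
localisation -/
theorem reg3_map_eq_span {B : Type*} [CommRing B] (p P : Ideal B) [P.IsPrime] (π : B)
    (hπp : π ∈ p) (h : ∀ z ∈ p, ∃ w' c : B, w' ∉ P ∧ w' * z = π * c) :
    p.map (algebraMap B (Localization.AtPrime P)) =
      Ideal.span {algebraMap B (Localization.AtPrime P) π} := by
  apply le_antisymm
  · rw [Ideal.map_le_iff_le_comap]
    intro z hz
    obtain ⟨w', c, hw', hwz⟩ := h z hz
    rw [Ideal.mem_comap, Ideal.mem_span_singleton']
    have hu : IsUnit (algebraMap B (Localization.AtPrime P) w') :=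
      IsLocalization.map_units (Localization.AtPrime P) (⟨w', hw'⟩ : P.primeCompl)
    obtain ⟨u, hu⟩ := hu
    refine ⟨((u⁻¹ : (Localization.AtPrime P)ˣ) : Localization.AtPrime P) *
      algebraMap B (Localization.AtPrime P) c, ?_⟩
    have h1 := congrArg (algebraMap B (Localization.AtPrime P)) hwz
    rw [map_mul, map_mul, ← hu] at h1
    calc ((u⁻¹ : (Localization.AtPrime P)ˣ) : Localization.AtPrime P) *
          algebraMap B (Localization.AtPrime P) c * algebraMap B (Localization.AtPrime P) π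
        = ((u⁻¹ : (Localization.AtPrime P)ˣ) : Localization.AtPrime P) *
          (algebraMap B (Localization.AtPrime P) π * algebraMap B (Localization.AtPrime P) c) := by
            ring
      _ = ((u⁻¹ : (Localization.AtPrime P)ˣ) : Localization.AtPrime P) *
          ((u : Localization.AtPrime P) * algebraMap B (Localization.AtPrime P) z) := by rw [h1]
      _ = algebraMap B (Localization.AtPrime P) z := by
            rw [← mul_assoc, Units.inv_mul, one_mul]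
  · rw [Ideal.span_singleton_le_iff_mem]
    exact Ideal.mem_map_of_mem _ hπp

/-- transport of the UFD lemma along an equality of ideals -/
theorem reg3_ufm_aux {O : Type*} [CommRing O] [IsDomain O] [IsLocalRing O] [IsNoetherianRing O]
    (x : O) (hxm : x ∈ maximalIdeal O) (I : Ideal O) (hI : I = Ideal.span {x})
    [IsDomain (O ⧸ I)] [IsDiscreteValuationRing (O ⧸ I)] : UniqueFactorizationMonoid O := by
  subst hI
  exact s36_ufm_of_quotient_dvr x hxm

/-- **REG3 ⇒ factorial.**  `B` a Noetherian domain, `p < P` primes with `B ⧸ p` Dedekind and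
`p B_P = π B_P`: then `B_P` is a unique factorisation domain. -/
theorem reg3_ufm {B : Type*} [CommRing B] [IsDomain B] [IsNoetherianRing B]
    (p P : Ideal B) [hp : p.IsPrime] [hPp : P.IsPrime] (hpP : p ≤ P) (hne : p ≠ P)
    [IsDedekindDomain (B ⧸ p)]
    (π : B) (hπp : π ∈ p)
    (h : ∀ z ∈ p, ∃ w' c : B, w' ∉ P ∧ w' * z = π * c) :
    UniqueFactorizationMonoid (Localization.AtPrime P) := by
  set L := Localization.AtPrime P with hL
  set I : Ideal L := p.map (algebraMap B L) with hI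
  have hIeq : I = Ideal.span {algebraMap B L π} := reg3_map_eq_span p P π hπp h
  -- the image of `P` in `B ⧸ p`
  set Pb : Ideal (B ⧸ p) := P.map (Ideal.Quotient.mk p) with hPb
  have hker : RingHom.ker (Ideal.Quotient.mk p) ≤ P := by rw [Ideal.mk_ker]; exact hpP
  have hPbprime : Pb.IsPrime :=
    Ideal.map_isPrime_of_surjective Ideal.Quotient.mk_surjective hker
  have hPbne : Pb ≠ ⊥ := by
    intro hbot
    apply hne
    apply le_antisymm hpP
    intro x hx
    have h1 : Ideal.Quotient.mk p x ∈ Pb := Ideal.mem_map_of_mem _ hx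
    rw [hbot, Ideal.mem_bot, Ideal.Quotient.eq_zero_iff_mem] at h1
    exact h1
  have hcomap : Pb.comap (Ideal.Quotient.mk p) = P := by
    rw [hPb, Ideal.comap_map_of_surjective _ Ideal.Quotient.mk_surjective]
    rw [← RingHom.ker_eq_comap_bot]
    exact sup_eq_left.2 hker
  have hsub : Algebra.algebraMapSubmonoid (B ⧸ p) P.primeCompl = Pb.primeCompl := by
    ext y
    constructor
    · rintro ⟨x, hx, rfl⟩
      intro hy
      apply hx
      rw [← hcomap]
      exact hy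
    · intro hy
      obtain ⟨x, rfl⟩ := Ideal.Quotient.mk_surjective y
      refine ⟨x, ?_, rfl⟩
      intro hx
      exact hy (Ideal.mem_map_of_mem _ hx)
  have hloc : IsLocalization (Algebra.algebraMapSubmonoid (B ⧸ p) P.primeCompl) (L ⧸ I) :=
    inferInstance
  have hloc' : IsLocalization.AtPrime (L ⧸ I) Pb := by
    rw [IsLocalization.AtPrime, ← hsub]
    exact hloc
  have hdisj : Disjoint (P.primeCompl : Set B) (p : Set B) := by
    rw [Set.disjoint_left]
    intro a ha hap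
    exact ha (hpP hap)
  have hIprime : I.IsPrime :=
    IsLocalization.isPrime_of_isPrime_disjoint P.primeCompl L p hp hdisj
  have hdom : IsDomain (L ⧸ I) := (Ideal.Quotient.isDomain_iff_prime I).2 hIprime
  have hdvr : IsDiscreteValuationRing (L ⧸ I) :=
    IsLocalization.AtPrime.isDiscreteValuationRing_of_dedekind_domain (B ⧸ p) hPbne (L ⧸ I)
  have hπm : algebraMap B L π ∈ maximalIdeal L := by
    rw [← Localization.AtPrime.map_eq_maximalIdeal]
    exact Ideal.mem_map_of_mem _ (hpP hπp)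
  exact reg3_ufm_aux (algebraMap B L π) hπm I hIeq

/-! ### Over a `NodeSetup` -/

section Node

variable {K : Type*} [Field K] {k : Type*} [Field k] {A : ValuationSubring K} {π : A →+* k}
  {κ : Type*} [Field κ] [Algebra k κ] {F : Type*} [Field F] [Algebra K F]

/-- The hypotheses of REG3 on the setup: `q ∈ B` is a uniformiser of the base,
`B = B[1/q] ∩ O_∞ ∩ O_mid ∩ O_0` (one step), and the ramification indices of the three
valuations over `q` are `1`, `≤ e`, `1`. -/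
structure Reg3Hyp (S : NodeSetup A π κ F) (q : S.B) (e : ℕ) : Prop where
  q_ne : q ≠ 0
  e_pos : 0 < e
  q_inf : q ∈ S.pInf
  q_mid : q ∈ S.pMid
  q_zero : q ∈ S.pZero
  sat : ∀ z : F, z ∈ S.ball → (q : F) * z ∈ S.B → z ∈ S.B
  ramInf : ∀ x : F, x ∈ S.vInf.O.nonunits → ∃ y ∈ S.vInf.O, x = (q : F) * y
  ramMid : ∀ x : F, x ∈ S.vMid.O.nonunits → ∃ y ∈ S.vMid.O, x ^ e = (q : F) * y
  ramZero : ∀ x : F, x ∈ S.vZero.O.nonunits → ∃ y ∈ S.vZero.O, x = (q : F) * y

variable {S : NodeSetup A π κ F} {q : S.B} {e : ℕ}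

theorem reg3_exists_notMem {B : Type*} [CommRing B] {p P : Ideal B} (h : ¬ p ≤ P) :
    ∃ s ∈ p, s ∉ P := by
  by_contra hcon
  apply h
  intro s hs
  by_contra hsP
  exact hcon ⟨s, hs, hsP⟩

namespace Reg3Hyp

theorem sat' (H : Reg3Hyp S q e) (z : F) (h1 : z ∈ S.vMid.O) (h2 : z ∈ S.vInf.O)
    (h3 : z ∈ S.vZero.O) (hq : (q : F) * z ∈ S.B) : z ∈ S.B :=
  H.sat z ⟨⟨h2, h1⟩, h3⟩ hq

/-- local saturation at a prime on `C_mid` only -/
theorem sat_mid (H : Reg3Hyp S q e) (P : Ideal S.B) [P.IsPrime]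
    (hinf : ¬ S.pInf ≤ P) (hzero : ¬ S.pZero ≤ P) :
    ∀ z : F, z ∈ S.vMid.O → (q : F) * z ∈ S.B → ∃ w : S.B, w ∉ P ∧ (w : F) * z ∈ S.B := by
  obtain ⟨s', hs'p, hs'P⟩ := reg3_exists_notMem hinf
  obtain ⟨s'', hs''p, hs''P⟩ := reg3_exists_notMem hzero
  exact reg3_sat_local S.B S.vMid.O S.vInf.O S.vZero.O S.B_le_mid S.B_le_inf S.B_le_zero q
    H.sat' P s' s'' hs'P hs''P (H.ramInf _ ((S.mem_pInf_iff s').1 hs'p))
    (H.ramZero _ ((S.mem_pZero_iff s'').1 hs''p))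

/-- local saturation at a prime on `C_∞` only -/
theorem sat_inf (H : Reg3Hyp S q e) (P : Ideal S.B) [P.IsPrime]
    (hmid : ¬ S.pMid ≤ P) (hzero : ¬ S.pZero ≤ P) :
    ∀ z : F, z ∈ S.vInf.O → (q : F) * z ∈ S.B → ∃ w : S.B, w ∉ P ∧ (w : F) * z ∈ S.B := by
  obtain ⟨s', hs'p, hs'P⟩ := reg3_exists_notMem hmid
  obtain ⟨s'', hs''p, hs''P⟩ := reg3_exists_notMem hzero
  have hs'e : s' ^ e ∉ P := fun h => hs'P (Ideal.IsPrime.mem_of_pow_mem ‹P.IsPrime› e h)
  have hram : ∃ y ∈ S.vMid.O, ((s' ^ e : S.B) : F) = (q : F) * y := by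
    obtain ⟨y, hy, hyeq⟩ := H.ramMid _ ((S.mem_pMid_iff s').1 hs'p)
    exact ⟨y, hy, by push_cast; exact hyeq⟩
  exact reg3_sat_local S.B S.vInf.O S.vMid.O S.vZero.O S.B_le_inf S.B_le_mid S.B_le_zero q
    (fun z h1 h2 h3 hq => H.sat z ⟨⟨h1, h2⟩, h3⟩ hq) P (s' ^ e) s'' hs'e hs''P hram
    (H.ramZero _ ((S.mem_pZero_iff s'').1 hs''p))

/-- local saturation at a prime on `C_0` only -/
theorem sat_zero (H : Reg3Hyp S q e) (P : Ideal S.B) [P.IsPrime]
    (hinf : ¬ S.pInf ≤ P) (hmid : ¬ S.pMid ≤ P) :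
    ∀ z : F, z ∈ S.vZero.O → (q : F) * z ∈ S.B → ∃ w : S.B, w ∉ P ∧ (w : F) * z ∈ S.B := by
  obtain ⟨s', hs'p, hs'P⟩ := reg3_exists_notMem hmid
  obtain ⟨s'', hs''p, hs''P⟩ := reg3_exists_notMem hinf
  have hs'e : s' ^ e ∉ P := fun h => hs'P (Ideal.IsPrime.mem_of_pow_mem ‹P.IsPrime› e h)
  have hram : ∃ y ∈ S.vMid.O, ((s' ^ e : S.B) : F) = (q : F) * y := by
    obtain ⟨y, hy, hyeq⟩ := H.ramMid _ ((S.mem_pMid_iff s').1 hs'p)
    exact ⟨y, hy, by push_cast; exact hyeq⟩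
  exact reg3_sat_local S.B S.vZero.O S.vMid.O S.vInf.O S.B_le_zero S.B_le_mid S.B_le_inf q
    (fun z h1 h2 h3 hq => H.sat z ⟨⟨h3, h2⟩, h1⟩ hq) P (s' ^ e) s'' hs'e hs''P hram
    (H.ramInf _ ((S.mem_pInf_iff s'').1 hs''p))

end Reg3Hyp

/-- **(T2) regularity of `π ^ e / q` at `P`.**  For `π ∈ p_mid` and a prime `P` on `C_mid` only,
`π ^ e / q = b / w` with `b, w ∈ B`, `w ∉ P`. -/
theorem reg3_mid_exists (H : Reg3Hyp S q e) (P : Ideal S.B) [P.IsPrime]
    (hinf : ¬ S.pInf ≤ P) (hzero : ¬ S.pZero ≤ P) (π₀ : S.B) (hπ₀ : π₀ ∈ S.pMid) :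
    ∃ w b : S.B, w ∉ P ∧ w * π₀ ^ e = q * b := by
  obtain ⟨y, hy, hyeq⟩ := H.ramMid _ ((S.mem_pMid_iff π₀).1 hπ₀)
  have hqy : (q : F) * y ∈ S.B := by
    rw [← hyeq]
    exact (π₀ ^ e).2
  obtain ⟨w, hw, hwy⟩ := H.sat_mid P hinf hzero y hy hqy
  refine ⟨w, ⟨(w : F) * y, hwy⟩, hw, ?_⟩
  apply Subtype.ext
  push_cast
  rw [hyeq]
  ring

/-- **REG3 at the non-nodal points of `C_mid`, elementwise form**: `p_mid B_P = π B_P`. -/
theorem reg3_mid_dvd (H : Reg3Hyp S q e) (P : Ideal S.B) [P.IsPrime] (hmid : S.pMid ≤ P)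
    (hinf : ¬ S.pInf ≤ P) (hzero : ¬ S.pZero ≤ P) (π₀ w b : S.B) (hb : b ∉ P)
    (hπ : w * π₀ ^ e = q * b) :
    ∀ z ∈ S.pMid, ∃ w' c : S.B, w' ∉ P ∧ w' * z = π₀ * c := by
  intro z hz
  exact reg3_dvd_of_pow_eq S.B S.vMid.O S.B_le_mid P
    (fun x hx => hmid ((S.mem_pMid_iff x).2 hx)) q H.q_ne e H.e_pos H.ramMid
    (H.sat_mid P hinf hzero) π₀ w b hb hπ z ((S.mem_pMid_iff z).1 hz)

/-- in the situation of `reg3_mid_dvd` (with `w ∉ P`), `π ∈ p_mid` -/
theorem reg3_mid_mem (H : Reg3Hyp S q e) (P : Ideal S.B) [P.IsPrime] (hmid : S.pMid ≤ P)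
    (π₀ w b : S.B) (hw : w ∉ P) (hπ : w * π₀ ^ e = q * b) : π₀ ∈ S.pMid := by
  have h1 : w * π₀ ^ e ∈ S.pMid := by
    rw [hπ]
    exact S.pMid.mul_mem_right _ H.q_mid
  rcases Ideal.IsPrime.mem_or_mem S.pMid_isPrime h1 with h | h
  · exact absurd (hmid h) hw
  · exact Ideal.IsPrime.mem_of_pow_mem S.pMid_isPrime e h

/-- **REG3 at the non-nodal points of `C_mid`**: `B_P` is factorial. -/
theorem reg3_mid_ufm [IsNoetherianRing S.B] [IsDedekindDomain (S.B ⧸ S.pMid)]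
    (H : Reg3Hyp S q e) (P : Ideal S.B) [P.IsPrime] (hmid : S.pMid ≤ P) (hne : S.pMid ≠ P)
    (hinf : ¬ S.pInf ≤ P) (hzero : ¬ S.pZero ≤ P) (π₀ w b : S.B) (hw : w ∉ P) (hb : b ∉ P)
    (hπ : w * π₀ ^ e = q * b) :
    UniqueFactorizationMonoid (Localization.AtPrime P) :=
  reg3_ufm S.pMid P hmid hne π₀ (reg3_mid_mem H P hmid π₀ w b hw hπ)
    (reg3_mid_dvd H P hmid hinf hzero π₀ w b hb hπ)

/-- at the non-nodal points of `C_∞`: `p_∞ B_P = q B_P` -/
theorem reg3_inf_dvd (H : Reg3Hyp S q e) (P : Ideal S.B) [P.IsPrime] (hinf : S.pInf ≤ P)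
    (hmid : ¬ S.pMid ≤ P) (hzero : ¬ S.pZero ≤ P) :
    ∀ z ∈ S.pInf, ∃ w' c : S.B, w' ∉ P ∧ w' * z = q * c := by
  intro z hz
  have h1 : (1 : S.B) ∉ P := fun h => (‹P.IsPrime›).ne_top ((Ideal.eq_top_iff_one P).2 h)
  exact reg3_dvd_of_pow_eq S.B S.vInf.O S.B_le_inf P
    (fun x hx => hinf ((S.mem_pInf_iff x).2 hx)) q H.q_ne 1 one_pos
    (fun x hx => by
      obtain ⟨y, hy, hyeq⟩ := H.ramInf x hx
      exact ⟨y, hy, by rw [pow_one, hyeq]⟩)
    (H.sat_inf P hmid hzero) q 1 1 h1 (by ring) z ((S.mem_pInf_iff z).1 hz)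

/-- at the non-nodal points of `C_∞`, `B_P` is factorial -/
theorem reg3_inf_ufm [IsNoetherianRing S.B] [IsDedekindDomain (S.B ⧸ S.pInf)]
    (H : Reg3Hyp S q e) (P : Ideal S.B) [P.IsPrime] (hinf : S.pInf ≤ P) (hne : S.pInf ≠ P)
    (hmid : ¬ S.pMid ≤ P) (hzero : ¬ S.pZero ≤ P) :
    UniqueFactorizationMonoid (Localization.AtPrime P) :=
  reg3_ufm S.pInf P hinf hne q H.q_inf (reg3_inf_dvd H P hinf hmid hzero)

/-- at the non-nodal points of `C_0`: `p_0 B_P = q B_P` -/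
theorem reg3_zero_dvd (H : Reg3Hyp S q e) (P : Ideal S.B) [P.IsPrime] (hzero : S.pZero ≤ P)
    (hinf : ¬ S.pInf ≤ P) (hmid : ¬ S.pMid ≤ P) :
    ∀ z ∈ S.pZero, ∃ w' c : S.B, w' ∉ P ∧ w' * z = q * c := by
  intro z hz
  have h1 : (1 : S.B) ∉ P := fun h => (‹P.IsPrime›).ne_top ((Ideal.eq_top_iff_one P).2 h)
  exact reg3_dvd_of_pow_eq S.B S.vZero.O S.B_le_zero P
    (fun x hx => hzero ((S.mem_pZero_iff x).2 hx)) q H.q_ne 1 one_pos
    (fun x hx => by
      obtain ⟨y, hy, hyeq⟩ := H.ramZero x hx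
      exact ⟨y, hy, by rw [pow_one, hyeq]⟩)
    (H.sat_zero P hinf hmid) q 1 1 h1 (by ring) z ((S.mem_pZero_iff z).1 hz)

/-- at the non-nodal points of `C_0`, `B_P` is factorial -/
theorem reg3_zero_ufm [IsNoetherianRing S.B] [IsDedekindDomain (S.B ⧸ S.pZero)]
    (H : Reg3Hyp S q e) (P : Ideal S.B) [P.IsPrime] (hzero : S.pZero ≤ P) (hne : S.pZero ≠ P)
    (hinf : ¬ S.pInf ≤ P) (hmid : ¬ S.pMid ≤ P) :
    UniqueFactorizationMonoid (Localization.AtPrime P) :=
  reg3_ufm S.pZero P hzero hne q H.q_zero (reg3_zero_dvd H P hzero hinf hmid)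

end Node

end Fermat.Agent.S36lib
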