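/-
Item 83 (S36), CRUX piece C-2e (helper26): **(h1) over a `NodeSetup`** — the head of the crux.
Imports `Setup`, `Reg3Local` (for `Reg3Hyp`), `H1Normal`.  No sorry in this file.

Input (abstract `NodeSetup S`, `B = S.B`, `O = S.ball`, `q : S.B` the prime `qN`):
* `H : Reg3Hyp S q e` (saturation `B = B[1/q] ∩ O` and the ramification indices `1, ≤ e, 1`),
  `e ≤ qN`;
* `x ∈ B` (in the application `x = c̃⁻¹ · b ^ ((q-1)(q+1))`) and `s̃ ∈ B` (GLUE-s) with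
  `red_v x = (red_v s̃) ^ m ≠ 0` for the three `v`;
* at every maximal ideal `𝔪 ∋ q` of `B`: `x ∉ 𝔪` or the regular data `H1Reg 𝔪 q x m`.

Output (`s36_h1_apply`): `h₀`, a unit of the ball, with
`u₁ := x ^ qN · h₀ ^ m ∈ B ∩ (1 + q · ball)`.

* `h1a_rad`            : `q` is in the Jacobson radical of the ball;
* `h1a_unit_of_red_ne` : `red_v s ≠ 0` for the three `v` ⟹ `s⁻¹ ∈ ball`;
* `h1a_pow_mem_span`   : `d ∈ p_∞ ∩ p_mid ∩ p_0 ⟹ d ^ e ∈ q B`;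
* `h1a_pow_congr`      : `x ≡ y mod p_∞ ∩ p_mid ∩ p_0 ⟹ x ^ qN ≡ y ^ qN mod q B`;
* `H1Reg.pow`          : the regular data for `x ^ n` from those for `x`;
* `s36_h1_apply`.
-/
import Mathlib
import Fermat.Agent.S36lib.Setup
import Fermat.Agent.S36lib.Reg3Local
import Fermat.Agent.S36lib.H1Normal

set_option autoImplicit false
set_option linter.style.haveILetI false

namespace Fermat.Agent.S36lib

section ValuationSubring

variable {F : Type*} [Field F]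

/-- `1 + x` is a unit of a valuation ring when `x` is a nonunit -/
theorem h1a_one_add_unit (O : ValuationSubring F) (x : F) (hx : x ∈ O.nonunits) :
    1 + x ≠ 0 ∧ (1 + x)⁻¹ ∈ O := by
  have h1 : O.valuation x < 1 := by
    have := (O.mem_nonunits_iff).1 hx
    simpa using this
  have h2 : O.valuation (1 + x) = 1 := O.valuation.map_one_add_of_lt h1
  refine ⟨fun h => ?_, ?_⟩
  · rw [h, map_zero] at h2
    exact zero_ne_one h2
  · rw [← O.valuation_le_one_iff, map_inv₀, h2, inv_one]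

/-- an element of a valuation ring which is not a nonunit has its inverse in the ring -/
theorem h1a_inv_mem (O : ValuationSubring F) (x : F) (hx : x ∈ O) (hx' : x ∉ O.nonunits) :
    x⁻¹ ∈ O := by
  have h1 : O.valuation x ≤ 1 := (O.valuation_le_one_iff x).2 hx
  have h2 : ¬ O.valuation x < 1 := fun h => hx' ((O.mem_nonunits_iff).2 (by simpa using h))
  have h3 : O.valuation x = 1 := le_antisymm h1 (not_lt.1 h2)
  rw [← O.valuation_le_one_iff, map_inv₀, h3, inv_one]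

/-- nonunits are stable under multiplication by elements of the ring -/
theorem h1a_mul_nonunit (O : ValuationSubring F) (x z : F) (hx : x ∈ O.nonunits) (hz : z ∈ O) :
    x * z ∈ O.nonunits := by
  have h1 : O.valuation x < 1 := by
    have := (O.mem_nonunits_iff).1 hx
    simpa using this
  have h2 : O.valuation z ≤ 1 := (O.valuation_le_one_iff z).2 hz
  rw [O.mem_nonunits_iff, map_mul]
  calc O.valuation x * O.valuation z ≤ O.valuation x * 1 := by gcongr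
    _ = O.valuation x := mul_one _
    _ < 1 := h1

end ValuationSubring

section Node

variable {K : Type*} [Field K] {k : Type*} [Field k] {A : ValuationSubring K} {π : A →+* k}
  {κ : Type*} [Field κ] [Algebra k κ] {F : Type*} [Field F] [Algebra K F]
variable {S : NodeSetup A π κ F} {q : S.B} {e : ℕ}

/-- `q` is in the Jacobson radical of the ball -/
theorem h1a_rad (H : Reg3Hyp S q e) (z : F) (hz : z ∈ S.ball) :
    1 + (q : F) * z ≠ 0 ∧ (1 + (q : F) * z)⁻¹ ∈ S.ball := by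
  obtain ⟨⟨hzI, hzM⟩, hzZ⟩ := hz
  have hI : (q : F) * z ∈ S.vInf.O.nonunits := by
    have h := (S.mem_pInf_iff q).1 H.q_inf
    exact h1a_mul_nonunit _ _ _ h hzI
  have hM : (q : F) * z ∈ S.vMid.O.nonunits := by
    have h := (S.mem_pMid_iff q).1 H.q_mid
    exact h1a_mul_nonunit _ _ _ h hzM
  have hZ : (q : F) * z ∈ S.vZero.O.nonunits := by
    have h := (S.mem_pZero_iff q).1 H.q_zero
    exact h1a_mul_nonunit _ _ _ h hzZ
  exact ⟨(h1a_one_add_unit _ _ hI).1,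
    ⟨⟨(h1a_one_add_unit _ _ hI).2, (h1a_one_add_unit _ _ hM).2⟩, (h1a_one_add_unit _ _ hZ).2⟩⟩

/-- an element of `B` with nonzero reductions is a unit of the ball -/
theorem h1a_unit_of_red_ne (s : S.B) (hI : S.redInf s ≠ 0) (hM : S.redMid s ≠ 0)
    (hZ : S.redZero s ≠ 0) : ((s : S.B) : F) ≠ 0 ∧ ((s : S.B) : F)⁻¹ ∈ S.ball := by
  have h1 : (s : F) ∉ S.vInf.O.nonunits := fun h => hI ((S.mem_pInf_iff s).2 h)
  have h2 : (s : F) ∉ S.vMid.O.nonunits := fun h => hM ((S.mem_pMid_iff s).2 h)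
  have h3 : (s : F) ∉ S.vZero.O.nonunits := fun h => hZ ((S.mem_pZero_iff s).2 h)
  refine ⟨fun h => hI ?_, ⟨⟨h1a_inv_mem _ _ (S.B_le_inf s.2) h1, h1a_inv_mem _ _ (S.B_le_mid s.2) h2⟩,
    h1a_inv_mem _ _ (S.B_le_zero s.2) h3⟩⟩
  have : s = 0 := Subtype.ext h
  rw [this, map_zero]

/-- `d ∈ p_∞ ∩ p_mid ∩ p_0 ⟹ d ^ e ∈ q B` -/
theorem h1a_pow_mem_span (H : Reg3Hyp S q e) (d : S.B) (hI : d ∈ S.pInf) (hM : d ∈ S.pMid)
    (hZ : d ∈ S.pZero) : d ^ e ∈ Ideal.span {q} := by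
  have hqF : (q : F) ≠ 0 := fun h => H.q_ne (Subtype.ext h)
  have he1 : e = (e - 1) + 1 := by have := H.e_pos; omega
  obtain ⟨yI, hyI, hyI'⟩ := H.ramInf _ ((S.mem_pInf_iff d).1 hI)
  obtain ⟨yM, hyM, hyM'⟩ := H.ramMid _ ((S.mem_pMid_iff d).1 hM)
  obtain ⟨yZ, hyZ, hyZ'⟩ := H.ramZero _ ((S.mem_pZero_iff d).1 hZ)
  -- `z := d^e / q`
  have hzI : (d : F) ^ e / (q : F) ∈ S.vInf.O := by
    have : (d : F) ^ e / (q : F) = (d : F) ^ (e - 1) * yI := by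
      rw [he1, pow_succ, Nat.add_sub_cancel]
      rw [hyI'] 
      field_simp
    rw [this]
    exact mul_mem (pow_mem (S.B_le_inf d.2) _) hyI
  have hzM : (d : F) ^ e / (q : F) ∈ S.vMid.O := by
    have : (d : F) ^ e / (q : F) = yM := by
      rw [hyM']
      field_simp
    rw [this]
    exact hyM
  have hzZ : (d : F) ^ e / (q : F) ∈ S.vZero.O := by
    have : (d : F) ^ e / (q : F) = (d : F) ^ (e - 1) * yZ := by
      rw [he1, pow_succ, Nat.add_sub_cancel]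
      rw [hyZ'] 
      field_simp
    rw [this]
    exact mul_mem (pow_mem (S.B_le_zero d.2) _) hyZ
  have hqz : (q : F) * ((d : F) ^ e / (q : F)) = (d : F) ^ e := by field_simp
  have hzB : (d : F) ^ e / (q : F) ∈ S.B :=
    H.sat _ ⟨⟨hzI, hzM⟩, hzZ⟩ (by rw [hqz]; exact S.B.pow_mem d.2 e)
  rw [Ideal.mem_span_singleton']
  refine ⟨⟨_, hzB⟩, ?_⟩
  apply Subtype.ext
  push_cast
  field_simp

/-- `x ≡ y` modulo `p_∞ ∩ p_mid ∩ p_0` ⟹ `x ^ qN ≡ y ^ qN` modulo `q B` (`q = qN` prime,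
`e ≤ qN`). -/
theorem h1a_pow_congr (H : Reg3Hyp S q e) (qN : ℕ) (hqN : qN.Prime) (hq : q = ((qN : ℕ) : S.B))
    (he : e ≤ qN) (x y : S.B) (hI : x - y ∈ S.pInf) (hM : x - y ∈ S.pMid)
    (hZ : x - y ∈ S.pZero) : x ^ qN - y ^ qN ∈ Ideal.span {q} := by
  haveI : Fact qN.Prime := ⟨hqN⟩
  have hnu : ((qN : ℕ) : S.B) ∈ nonunits S.B := by
    intro hu
    rw [← hq] at hu
    have : S.pInf = ⊤ := Ideal.eq_top_of_isUnit_mem _ H.q_inf hu
    exact (S.pInf_isPrime).ne_top this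
  haveI hchar : CharP (S.B ⧸ (Ideal.span ({((qN : ℕ) : S.B)} : Set S.B) : Ideal S.B)) qN :=
    CharP.quotient S.B qN hnu
  have hd : (x - y) ^ qN ∈ Ideal.span {q} := by
    have h1 := h1a_pow_mem_span H (x - y) hI hM hZ
    have e1 : (x - y) ^ qN = (x - y) ^ e * (x - y) ^ (qN - e) := by
      rw [← pow_add]
      congr 1
      omega
    rw [e1]
    exact Ideal.mul_mem_right _ _ h1
  rw [hq] at hd ⊢
  rw [← Ideal.Quotient.eq_zero_iff_mem] at hd ⊢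
  rw [map_sub, map_pow, map_pow, sub_eq_zero]
  rw [map_pow, map_sub] at hd
  set mk := Ideal.Quotient.mk (Ideal.span ({((qN : ℕ) : S.B)} : Set S.B)) with hmk
  have e2 : mk x = mk y + (mk x - mk y) := by ring
  rw [e2, add_pow_char, hd, add_zero]

/-- the regular data for a power of `x` -/
theorem H1Reg.pow {B : Type*} [CommRing B] [IsDomain B] {𝔪 : Ideal B} [h𝔪 : 𝔪.IsPrime]
    {q x : B} {m : ℕ} (h : H1Reg 𝔪 q x m) (n : ℕ) : H1Reg 𝔪 q (x ^ n) m := by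
  obtain ⟨p, π, g, w₀, w₁, w₂, e, hp, hp𝔪, hπp, hgen, hw₁, hw₂, hqπ, hN, hup, hw₀, hg⟩ := h
  refine ⟨p, π, g ^ n, w₀ ^ n, w₁, w₂, e, hp, hp𝔪, hπp, hgen, hw₁, hw₂, hqπ, hN, ?_,
    h1_pow_notMem hw₀ n, ?_⟩
  · exact fun h => hup (hp.mem_of_pow_mem n h)
  · rw [← pow_mul, mul_comm n m, pow_mul, hg, mul_pow]

/-- `(m : B) ∉ 𝔪` when `m` is prime to `qN` and `(qN : B) ∈ 𝔪` -/
theorem h1a_natCast_notMem {B : Type*} [CommRing B] (𝔪 : Ideal B) (h𝔪 : 𝔪 ≠ ⊤) (m qN : ℕ)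
    (hmq : Nat.Coprime m qN) (hq : ((qN : ℕ) : B) ∈ 𝔪) : ((m : ℕ) : B) ∉ 𝔪 := by
  intro hm
  have h1 : IsCoprime (m : ℤ) (qN : ℤ) := Nat.isCoprime_iff_coprime.2 hmq
  obtain ⟨a, b, hab⟩ := h1
  have h2 : ((a : ℤ) : B) * ((m : ℕ) : B) + ((b : ℤ) : B) * ((qN : ℕ) : B) = 1 := by
    have := congrArg (Int.cast : ℤ → B) hab
    push_cast at this
    exact this
  apply h𝔪
  rw [Ideal.eq_top_iff_one, ← h2]
  exact 𝔪.add_mem (𝔪.mul_mem_left _ hm) (𝔪.mul_mem_left _ hq)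

/-- **(h1) over a `NodeSetup`.**  `x, s̃ ∈ B` with `red_v x = (red_v s̃) ^ m ≠ 0` for the three
`v`, and at every maximal ideal `𝔪 ∋ q` either `x ∉ 𝔪` or the regular data `H1Reg 𝔪 q x m`.
Then there is a unit `h₀` of the ball with `x ^ qN · h₀ ^ m ∈ B ∩ (1 + q · ball)`. -/
theorem s36_h1_apply (H : Reg3Hyp S q e) (qN : ℕ) (hqN : qN.Prime)
    (hq : q = ((qN : ℕ) : S.B)) (he : e ≤ qN) (m : ℕ) (hm : 0 < m) (hmq : Nat.Coprime m qN)
    (hroot : ∀ z : F, z ^ m ∈ S.B → z ∈ S.B) (x s : S.B)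
    (hxI : S.redInf x = S.redInf s ^ m) (hxM : S.redMid x = S.redMid s ^ m)
    (hxZ : S.redZero x = S.redZero s ^ m)
    (hsI : S.redInf s ≠ 0) (hsM : S.redMid s ≠ 0) (hsZ : S.redZero s ≠ 0)
    (hloc : ∀ 𝔪 : Ideal S.B, 𝔪.IsMaximal → q ∈ 𝔪 → x ∉ 𝔪 ∨ H1Reg 𝔪 q x m) :
    ∃ h₀ : F, h₀ ≠ 0 ∧ h₀ ∈ S.ball ∧ h₀⁻¹ ∈ S.ball ∧ ((x : S.B) : F) ^ qN * h₀ ^ m ∈ S.B ∧
      (∃ z : F, z ∈ S.ball ∧ ((s : S.B) : F) ^ qN * h₀ = 1 + (q : F) * z) ∧
      ∃ z : F, z ∈ S.ball ∧ ((x : S.B) : F) ^ qN * h₀ ^ m = 1 + (q : F) * z := by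
  -- `u = x^qN ≡ (s^qN)^m`
  have hus : x ^ qN - (s ^ qN) ^ m ∈ Ideal.span {q} := by
    have e1 : (s ^ qN) ^ m = (s ^ m) ^ qN := by rw [← pow_mul, mul_comm, pow_mul]
    rw [e1]
    refine h1a_pow_congr H qN hqN hq he x (s ^ m) ?_ ?_ ?_
    · rw [NodeSetup.pInf, RingHom.mem_ker, map_sub, map_pow, hxI, sub_self]
    · rw [NodeSetup.pMid, RingHom.mem_ker, map_sub, map_pow, hxM, sub_self]
    · rw [NodeSetup.pZero, RingHom.mem_ker, map_sub, map_pow, hxZ, sub_self]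
  obtain ⟨hs0, hsO⟩ := h1a_unit_of_red_ne (S := S) (s ^ qN)
    (by rw [map_pow]; exact pow_ne_zero _ hsI) (by rw [map_pow]; exact pow_ne_zero _ hsM)
    (by rw [map_pow]; exact pow_ne_zero _ hsZ)
  have hloc' : ∀ 𝔪 : Ideal S.B, 𝔪.IsMaximal → q ∈ 𝔪 →
      x ^ qN ∉ 𝔪 ∨ (((m : ℕ) : S.B) ∉ 𝔪 ∧ H1Reg 𝔪 q (x ^ qN) m) := by
    intro 𝔪 h𝔪 hq𝔪
    haveI : 𝔪.IsPrime := h𝔪.isPrime
    rcases hloc 𝔪 h𝔪 hq𝔪 with h | h
    · exact Or.inl (h1_pow_notMem h qN)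
    · exact Or.inr ⟨h1a_natCast_notMem 𝔪 h𝔪.ne_top m qN hmq (hq ▸ hq𝔪), h.pow qN⟩
  have := s36_h1_normal_form S.B S.ball S.B_le_ball m hm hroot q (s ^ qN) (x ^ qN) H.q_ne hus
    hs0 hsO (h1a_rad H) hloc'
  simpa using this

end Node

end Fermat.Agent.S36lib
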