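import Mathlib
import Fermat.Agent.S36lib.SemilocalRing

/-!
# S36 (Carayol at `q² ∥ M`), piece M-3a: ABSTRACT (INVERT)
(NOTES/S36_invert_helper20.md §4, interface v2 of helper20).  Mathlib only.

* `s36_piOrd π z` : the `π`-adic order of `z ∈ Frac R` for a prime element `π` of a UFD `R`.
* `s36_exists_unit_mul_pow_of_local` : `R` a UFD, `f ∈ (Frac R)^×` which is locally at every prime
  element `π` of the shape (unit at `π`)·(`m`-th power)  ⇒  `f = u · g ^ m`, `u ∈ R^×`.
* `s36_invert_abs_semilocal`, `s36_invert_abs` : the same for the semilocalisation of `B` at the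
  nodes, hypotheses and conclusion in terms of `B`: `f = b · g ^ m`, `b ∈ B` outside all the nodes.
-/

set_option autoImplicit false

namespace Fermat.Agent.S36lib

open IsLocalRing

/-! ### the `π`-adic order on the fraction field of a UFD -/

section PiOrd

variable {R F : Type*} [CommRing R] [IsDomain R] [UniqueFactorizationMonoid R] [Field F]
  [Algebra R F] [IsFractionRing R F]

/-- the `π`-adic order of `z ∈ F = Frac R` (meaningful for `π` prime, `z ≠ 0`). -/
noncomputable def s36_piOrd (π : R) (z : F) : ℤ :=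
  (multiplicity π (IsLocalization.sec (nonZeroDivisors R) z).1 : ℤ) -
    (multiplicity π ((IsLocalization.sec (nonZeroDivisors R) z).2 : R) : ℤ)

theorem s36_multiplicity_mul {π : R} (hπ : Prime π) {a b : R} (ha : a ≠ 0) (hb : b ≠ 0) :
    multiplicity π (a * b) = multiplicity π a + multiplicity π b :=
  multiplicity_mul hπ (FiniteMultiplicity.of_prime_left hπ (mul_ne_zero ha hb))

/-- `s36_piOrd` computed on any representation `z · b = a`. -/
theorem s36_piOrd_eq {π : R} (hπ : Prime π) {z : F} {a b : R} (ha : a ≠ 0) (hb : b ≠ 0)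
    (h : z * algebraMap R F b = algebraMap R F a) :
    s36_piOrd π z = (multiplicity π a : ℤ) - (multiplicity π b : ℤ) := by
  have hinj : Function.Injective (algebraMap R F) := IsFractionRing.injective R F
  set a' := (IsLocalization.sec (nonZeroDivisors R) z).1 with ha'
  set b' := ((IsLocalization.sec (nonZeroDivisors R) z).2 : R) with hb'
  have hspec : z * algebraMap R F b' = algebraMap R F a' :=
    IsLocalization.sec_spec (nonZeroDivisors R) z
  have hb'0 : b' ≠ 0 := nonZeroDivisors.ne_zero (IsLocalization.sec (nonZeroDivisors R) z).2.2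
  have hz0 : z ≠ 0 := by
    rintro rfl
    rw [zero_mul] at h
    exact ha (hinj (by rw [← h, map_zero]))
  have ha'0 : a' ≠ 0 := by
    intro h0
    rw [h0, map_zero] at hspec
    rcases mul_eq_zero.1 hspec with h1 | h1
    · exact hz0 h1
    · exact hb'0 (hinj (by rw [h1, map_zero]))
  have hcross : a * b' = a' * b := by
    apply hinj
    rw [map_mul, map_mul, ← h, ← hspec]
    ring
  have hm := congrArg (multiplicity π) hcross
  rw [s36_multiplicity_mul hπ ha hb'0, s36_multiplicity_mul hπ ha'0 hb] at hm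
  unfold s36_piOrd
  rw [← ha', ← hb']
  have hm' : (multiplicity π a : ℤ) + multiplicity π b' = multiplicity π a' + multiplicity π b := by
    exact_mod_cast hm
  linarith

theorem s36_piOrd_algebraMap {π : R} (hπ : Prime π) {c : R} (hc : c ≠ 0) :
    s36_piOrd π (algebraMap R F c) = multiplicity π c := by
  rw [s36_piOrd_eq hπ hc one_ne_zero (by rw [map_one, mul_one]),
    multiplicity_of_one_right hπ.not_isUnit]
  simp

theorem s36_piOrd_mul {π : R} (hπ : Prime π) {z w : F} (hz : z ≠ 0) (hw : w ≠ 0) :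
    s36_piOrd π (z * w) = s36_piOrd π z + s36_piOrd π w := by
  have hinj : Function.Injective (algebraMap R F) := IsFractionRing.injective R F
  obtain ⟨a, b, hb, rfl⟩ := IsFractionRing.div_surjective (A := R) z
  obtain ⟨c, d, hd, rfl⟩ := IsFractionRing.div_surjective (A := R) w
  have hb0 : b ≠ 0 := nonZeroDivisors.ne_zero hb
  have hd0 : d ≠ 0 := nonZeroDivisors.ne_zero hd
  have hbF : algebraMap R F b ≠ 0 := fun h0 => hb0 (hinj (by rw [h0, map_zero]))
  have hdF : algebraMap R F d ≠ 0 := fun h0 => hd0 (hinj (by rw [h0, map_zero]))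
  have ha0 : a ≠ 0 := by
    rintro rfl
    simp at hz
  have hc0 : c ≠ 0 := by
    rintro rfl
    simp at hw
  rw [s36_piOrd_eq hπ ha0 hb0 (div_mul_cancel₀ _ hbF),
    s36_piOrd_eq hπ hc0 hd0 (div_mul_cancel₀ _ hdF),
    s36_piOrd_eq hπ (mul_ne_zero ha0 hc0) (mul_ne_zero hb0 hd0)
      (by rw [map_mul, map_mul]; field_simp),
    s36_multiplicity_mul hπ ha0 hc0, s36_multiplicity_mul hπ hb0 hd0]
  push_cast
  ring

theorem s36_piOrd_self {π : R} (hπ : Prime π) : s36_piOrd π (algebraMap R F π) = 1 := by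
  rw [s36_piOrd_algebraMap hπ hπ.ne_zero, multiplicity_self]
  simp

theorem s36_piOrd_of_not_dvd {π : R} (hπ : Prime π) {c : R} (hc : c ≠ 0) (hdvd : ¬ π ∣ c) :
    s36_piOrd π (algebraMap R F c) = 0 := by
  rw [s36_piOrd_algebraMap hπ hc, multiplicity_eq_zero.2 hdvd]
  simp

/-- **abstract (INVERT) in a UFD**: if `f ≠ 0` is, at every prime element `π`, of the shape
(unit at `π`)·(`m`-th power), then `f = u · g ^ m` with `u ∈ R^×`. -/
theorem s36_exists_unit_mul_pow_of_local (m : ℕ) (f : F) (hf : f ≠ 0)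
    (hloc : ∀ π : R, Prime π → ∃ (s : F) (u₁ u₂ : R), ¬ π ∣ u₁ ∧ ¬ π ∣ u₂ ∧
      f * algebraMap R F u₂ = algebraMap R F u₁ * s ^ m) :
    ∃ (g : F) (u : Rˣ), g ≠ 0 ∧ f = algebraMap R F (u : R) * g ^ m := by
  have hinj : Function.Injective (algebraMap R F) := IsFractionRing.injective R F
  obtain ⟨g, u, a, hg0, hfg⟩ := s36_move_unit_of_ord (R := R) (F := F) (ι := Fin 0)
    (fun i => i.elim0) (fun i => i.elim0) m f hf (by
      intro π hπ _
      refine ⟨s36_piOrd π, fun a b ha hb => s36_piOrd_mul hπ ha hb, s36_piOrd_self hπ,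
        fun c hc hdvd => s36_piOrd_of_not_dvd hπ hc hdvd, ?_⟩
      obtain ⟨s, u₁, u₂, h1, h2, hfs⟩ := hloc π hπ
      have hu1 : u₁ ≠ 0 := fun h0 => h1 (h0 ▸ dvd_zero π)
      have hu2 : u₂ ≠ 0 := fun h0 => h2 (h0 ▸ dvd_zero π)
      have hu1F : algebraMap R F u₁ ≠ 0 := fun h0 => hu1 (hinj (by rw [h0, map_zero]))
      have hu2F : algebraMap R F u₂ ≠ 0 := fun h0 => hu2 (hinj (by rw [h0, map_zero]))
      have hsm0 : s ^ m ≠ 0 := by
        intro h0
        rw [h0, mul_zero] at hfs
        exact mul_ne_zero hf hu2F hfs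
      have h3 := congrArg (s36_piOrd π) hfs
      rw [s36_piOrd_mul hπ hf hu2F, s36_piOrd_mul hπ hu1F hsm0,
        s36_piOrd_of_not_dvd hπ hu1 h1, s36_piOrd_of_not_dvd hπ hu2 h2, add_zero, zero_add] at h3
      rcases Nat.eq_zero_or_pos m with hm | hm
      · subst hm
        rw [pow_zero, s36_ord_one (s36_piOrd π) (fun a b ha hb => s36_piOrd_mul hπ ha hb)] at h3
        rw [h3]
        exact dvd_zero _
      · have hs0 : s ≠ 0 := by
          rintro rfl
          exact hsm0 (zero_pow hm.ne')
        rw [s36_ord_pow (s36_piOrd π) (fun a b ha hb => s36_piOrd_mul hπ ha hb) hs0] at h3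
        exact ⟨s36_piOrd π s, h3⟩)
  refine ⟨g, u, hg0, ?_⟩
  rw [hfg]
  simp

/-- the localisation of a UFD at a prime element is a valuation ring of the fraction field. -/
theorem s36_valuationRing_at_prime {π : R} (hπ : Prime π) {z : F} (hz : z ≠ 0) :
    ∃ a b : R, ¬ π ∣ b ∧ (z * algebraMap R F b = algebraMap R F a ∨
      algebraMap R F b = z * algebraMap R F a) := by
  have hinj : Function.Injective (algebraMap R F) := IsFractionRing.injective R F
  obtain ⟨a₀, b₀, hb, rfl⟩ := IsFractionRing.div_surjective (A := R) z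
  have hb0 : b₀ ≠ 0 := nonZeroDivisors.ne_zero hb
  have ha0 : a₀ ≠ 0 := by
    rintro rfl
    simp at hz
  have hbF : algebraMap R F b₀ ≠ 0 := fun h0 => hb0 (hinj (by rw [h0, map_zero]))
  obtain ⟨i, a₁, ha₁, rfl⟩ := WfDvdMonoid.max_power_factor ha0 hπ.irreducible
  obtain ⟨j, b₁, hb₁, rfl⟩ := WfDvdMonoid.max_power_factor hb0 hπ.irreducible
  have hπF : algebraMap R F π ≠ 0 := fun h0 => hπ.ne_zero (hinj (by rw [h0, map_zero]))
  have hb₁F : algebraMap R F b₁ ≠ 0 := fun h0 => by
    apply hbF
    rw [map_mul, h0, mul_zero]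
  rcases le_total j i with hji | hij
  · refine ⟨π ^ (i - j) * a₁, b₁, hb₁, Or.inl ?_⟩
    obtain ⟨d, rfl⟩ := Nat.exists_eq_add_of_le hji
    rw [Nat.add_sub_cancel_left]
    simp only [map_mul, map_pow, pow_add]
    field_simp
  · refine ⟨π ^ (j - i) * b₁, a₁, ha₁, Or.inr ?_⟩
    obtain ⟨d, rfl⟩ := Nat.exists_eq_add_of_le hij
    rw [Nat.add_sub_cancel_left]
    simp only [map_mul, map_pow, pow_add]
    field_simp

end PiOrd

/-! ### (INVERT) for the semilocalisation at the nodes -/

/-- **abstract (INVERT), semilocal form.**  `R` the semilocalisation of `B` at the nodes `t i`,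
a UFD with fraction field `F`.  Suppose that for every nonzero prime `P` of `B` through a node
such that `B_P` is a valuation ring of `F`, `f` is (unit of `B_P`)·(`m`-th power).  Then
`f = b · g ^ m` with `b ∈ B` outside all the nodes. -/
theorem s36_invert_abs_semilocal {B R F : Type*} [CommRing B] [CommRing R] [Field F]
    [Algebra B R] [Algebra R F] [Algebra B F] [IsScalarTower B R F]
    [IsDomain R] [UniqueFactorizationMonoid R] [IsFractionRing R F]
    {ι : Type*} [Finite ι] [Nonempty ι] (t : ι → Ideal B) [∀ i, (t i).IsMaximal]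
    [IsLocalization (s36_nodeCompl t) R]
    (m : ℕ) (hm : 0 < m) (f : F) (hf : f ≠ 0)
    (hloc : ∀ P : Ideal B, P.IsPrime → P ≠ ⊥ → (∃ i, P ≤ t i) →
      (∀ z : F, z ≠ 0 → ∃ a b : B, b ∉ P ∧
        (z * algebraMap B F b = algebraMap B F a ∨ algebraMap B F b = z * algebraMap B F a)) →
      ∃ (s : F) (u₁ u₂ : B), u₁ ∉ P ∧ u₂ ∉ P ∧
        f * algebraMap B F u₂ = algebraMap B F u₁ * s ^ m) :
    ∃ (g : F) (b : B), g ≠ 0 ∧ b ∈ s36_nodeCompl t ∧ f = algebraMap B F b * g ^ m := by
  have hinj : Function.Injective (algebraMap R F) := IsFractionRing.injective R F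
  have htower : ∀ b : B, algebraMap R F (algebraMap B R b) = algebraMap B F b := fun b =>
    (IsScalarTower.algebraMap_apply B R F b).symm
  have hunitS : ∀ s ∈ s36_nodeCompl t, IsUnit (algebraMap B R s) := fun s hs =>
    IsLocalization.map_units R ⟨s, hs⟩
  -- the local hypothesis at the prime elements of `R`
  have hlocR : ∀ π : R, Prime π → ∃ (s : F) (u₁ u₂ : R), ¬ π ∣ u₁ ∧ ¬ π ∣ u₂ ∧
      f * algebraMap R F u₂ = algebraMap R F u₁ * s ^ m := by
    intro π hπ
    have hsp : (Ideal.span {π} : Ideal R).IsPrime := (Ideal.span_singleton_prime hπ.ne_zero).2 hπ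
    set P : Ideal B := (Ideal.span {π} : Ideal R).comap (algebraMap B R) with hP
    have hmemP : ∀ b : B, b ∈ P ↔ π ∣ algebraMap B R b := fun b => by
      rw [hP, Ideal.mem_comap, Ideal.mem_span_singleton]
    have hPprime : P.IsPrime := Ideal.comap_isPrime (algebraMap B R) _
    have hnotS : ∀ s ∈ s36_nodeCompl t, s ∉ P := fun s hs hsP =>
      hπ.not_isUnit (isUnit_of_dvd_unit ((hmemP s).1 hsP) (hunitS s hs))
    have hPne : P ≠ ⊥ := by
      intro hbot
      obtain ⟨⟨b₀, s₀⟩, hbs⟩ := IsLocalization.surj (s36_nodeCompl t) π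
      have hb₀ : b₀ ∈ P := (hmemP b₀).2 ⟨algebraMap B R s₀, hbs.symm⟩
      rw [hbot, Ideal.mem_bot] at hb₀
      rw [hb₀, map_zero] at hbs
      rcases mul_eq_zero.1 hbs with h | h
      · exact hπ.ne_zero h
      · exact (hunitS s₀ s₀.2).ne_zero h
    have hPle : ∃ i, P ≤ t i := by
      by_contra hcon
      obtain ⟨s, hsP, hsS⟩ := s36_exists_mem_nodeCompl t P (fun i hi => hcon ⟨i, hi⟩)
      exact hnotS s hsS hsP
    have hval : ∀ z : F, z ≠ 0 → ∃ a b : B, b ∉ P ∧
        (z * algebraMap B F b = algebraMap B F a ∨ algebraMap B F b = z * algebraMap B F a) := by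
      intro z hz
      obtain ⟨a, b, hb, hab⟩ := s36_valuationRing_at_prime (F := F) hπ hz
      obtain ⟨⟨α, σa⟩, hα⟩ := IsLocalization.surj (s36_nodeCompl t) a
      obtain ⟨⟨β, σb⟩, hβ⟩ := IsLocalization.surj (s36_nodeCompl t) b
      have hαF : algebraMap R F a * algebraMap B F σa = algebraMap B F α := by
        rw [← htower, ← htower, ← map_mul, hα]
      have hβF : algebraMap R F b * algebraMap B F σb = algebraMap B F β := by
        rw [← htower, ← htower, ← map_mul, hβ]
      refine ⟨α * σb, β * σa, ?_, ?_⟩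
      · rw [hmemP, map_mul, ← hβ]
        intro hdvd
        rcases hπ.dvd_or_dvd hdvd with h | h
        · rcases hπ.dvd_or_dvd h with h' | h'
          · exact hb h'
          · exact hπ.not_isUnit (isUnit_of_dvd_unit h' (hunitS σb σb.2))
        · exact hπ.not_isUnit (isUnit_of_dvd_unit h (hunitS σa σa.2))
      · rcases hab with h | h
        · left
          rw [map_mul, map_mul, ← hβF, ← hαF, ← h]
          ring
        · right
          rw [map_mul, map_mul, ← hβF, ← hαF, h]
          ring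
    obtain ⟨s, u₁, u₂, h1, h2, hfs⟩ := hloc P hPprime hPne hPle hval
    refine ⟨s, algebraMap B R u₁, algebraMap B R u₂, fun h => h1 ((hmemP u₁).2 h),
      fun h => h2 ((hmemP u₂).2 h), ?_⟩
    rw [htower, htower]
    exact hfs
  obtain ⟨g, u, hg0, hfg⟩ := s36_exists_unit_mul_pow_of_local (R := R) m f hf hlocR
  obtain ⟨b, s, hb, hs, hus⟩ := s36_unit_semilocalization t R u
  have hs0 : algebraMap B F s ≠ 0 := by
    rw [← htower]
    intro h0
    exact (hunitS s hs).ne_zero (hinj (by rw [h0, map_zero]))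
  refine ⟨g / algebraMap B F s, b * s ^ (m - 1), div_ne_zero hg0 hs0,
    Submonoid.mul_mem _ hb (Submonoid.pow_mem _ hs _), ?_⟩
  have hu : algebraMap R F (u : R) * algebraMap B F s = algebraMap B F b := by
    rw [← htower, ← htower, ← map_mul, hus]
  have hpow : algebraMap B F s ^ m = algebraMap B F s ^ (m - 1) * algebraMap B F s := by
    rw [← pow_succ, Nat.sub_add_cancel hm]
  rw [hfg, map_mul, map_pow, ← hu, div_pow, hpow]
  field_simp

/-- **abstract (INVERT)**, in terms of `B` and `F = Frac B` only: `B` a Noetherian domain,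
`t i` finitely many distinct maximal ideals (the nodes) with `B_{t i}` factorial.  If for every
nonzero prime `P` of `B` through a node such that `B_P` is a valuation ring of `F` the element
`f ≠ 0` is (unit of `B_P`)·(`m`-th power), then `f = b · g ^ m` with `b ∈ B` outside all nodes. -/
theorem s36_invert_abs {B F : Type*} [CommRing B] [IsDomain B] [IsNoetherianRing B] [Field F]
    [Algebra B F] [IsFractionRing B F]
    {ι : Type*} [Finite ι] [Nonempty ι] (t : ι → Ideal B) [∀ i, (t i).IsMaximal]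
    (hinj : Function.Injective t)
    (hufd : ∀ i, UniqueFactorizationMonoid (Localization.AtPrime (t i)))
    (m : ℕ) (hm : 0 < m) (f : F) (hf : f ≠ 0)
    (hloc : ∀ P : Ideal B, P.IsPrime → P ≠ ⊥ → (∃ i, P ≤ t i) →
      (∀ z : F, z ≠ 0 → ∃ a b : B, b ∉ P ∧
        (z * algebraMap B F b = algebraMap B F a ∨ algebraMap B F b = z * algebraMap B F a)) →
      ∃ (s : F) (u₁ u₂ : B), u₁ ∉ P ∧ u₂ ∉ P ∧
        f * algebraMap B F u₂ = algebraMap B F u₁ * s ^ m) :
    ∃ (g : F) (b : B), g ≠ 0 ∧ (∀ i, b ∉ t i) ∧ f = algebraMap B F b * g ^ m := by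
  have hinjF : Function.Injective (algebraMap B F) := IsFractionRing.injective B F
  have hunit : ∀ s : s36_nodeCompl t, IsUnit (algebraMap B F (s : B)) := by
    intro s
    refine IsUnit.mk0 _ fun h0 => ?_
    have hs0 : (s : B) = 0 := hinjF (by rw [h0, map_zero])
    exact zero_notMem_nonZeroDivisors (hs0 ▸ s36_nodeCompl_le_nonZeroDivisors t s.2)
  let _ : Algebra (Localization (s36_nodeCompl t)) F :=
    (IsLocalization.lift (M := s36_nodeCompl t) (g := algebraMap B F) hunit).toAlgebra
  have : IsScalarTower B (Localization (s36_nodeCompl t)) F :=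
    IsScalarTower.of_algebraMap_eq fun b => (IsLocalization.lift_eq hunit b).symm
  have : IsDomain (Localization (s36_nodeCompl t)) :=
    s36_isDomain_semilocalization t (Localization (s36_nodeCompl t))
  have : IsFractionRing (Localization (s36_nodeCompl t)) F :=
    IsFractionRing.isFractionRing_of_isDomain_of_isLocalization (s36_nodeCompl t)
      (Localization (s36_nodeCompl t)) F
  have : UniqueFactorizationMonoid (Localization (s36_nodeCompl t)) :=
    s36_ufm_semilocalization t (Localization (s36_nodeCompl t)) hinj hufd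
  obtain ⟨g, b, hg, hb, hfb⟩ :=
    s36_invert_abs_semilocal (R := Localization (s36_nodeCompl t)) t m hm f hf hloc
  exact ⟨g, b, hg, (s36_mem_nodeCompl t).1 hb, hfb⟩

/-- an ideal generated locally at `t` by one of its elements (elementary form) is principal in
`Bₜ`. -/
theorem s36_map_isPrincipal_of_local_generator {B : Type*} [CommRing B] (t : Ideal B)
    [t.IsPrime] (p : Ideal B) (x : B) (hx : x ∈ p)
    (h : ∀ z ∈ p, ∃ s : B, s ∉ t ∧ s * z ∈ Ideal.span {x}) :
    (p.map (algebraMap B (Localization.AtPrime t))).IsPrincipal := by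
  refine ⟨⟨algebraMap B (Localization.AtPrime t) x, le_antisymm ?_ ?_⟩⟩
  · rw [Ideal.map_le_iff_le_comap]
    intro z hz
    obtain ⟨s, hs, hsz⟩ := h z hz
    obtain ⟨r, hr⟩ := Ideal.mem_span_singleton'.1 hsz
    have hu : IsUnit (algebraMap B (Localization.AtPrime t) s) :=
      IsLocalization.map_units (Localization.AtPrime t) (⟨s, hs⟩ : t.primeCompl)
    rw [Ideal.mem_comap]
    show algebraMap B (Localization.AtPrime t) z ∈
      Ideal.span {algebraMap B (Localization.AtPrime t) x}
    rw [Ideal.mem_span_singleton']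
    refine ⟨↑hu.unit⁻¹ * algebraMap B (Localization.AtPrime t) r, ?_⟩
    rw [mul_assoc, ← map_mul, hr, map_mul, ← mul_assoc, IsUnit.val_inv_mul, one_mul]
  · show Ideal.span {algebraMap B (Localization.AtPrime t) x} ≤ _
    rw [Ideal.span_singleton_le_iff_mem]
    exact Ideal.mem_map_of_mem _ hx

/-- **abstract (INVERT), the form used at level `M' q²`**: `B` a Noetherian domain with fraction
field `F`, `t i` the nodes, `p` (`= p_∞`) a prime with `B ⧸ p` Dedekind, `p < t i`, generated at
every node by one element.  Same local hypothesis and conclusion as `s36_invert_abs`. -/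
theorem s36_invert_abs_dedekind {B F : Type*} [CommRing B] [IsDomain B] [IsNoetherianRing B]
    [Field F] [Algebra B F] [IsFractionRing B F]
    {ι : Type*} [Finite ι] [Nonempty ι] (t : ι → Ideal B) [∀ i, (t i).IsMaximal]
    (hinj : Function.Injective t)
    (p : Ideal B) [p.IsPrime] [IsDedekindDomain (B ⧸ p)] (hpt : ∀ i, p < t i)
    (hgen : ∀ i, ∃ x ∈ p, ∀ z ∈ p, ∃ s : B, s ∉ t i ∧ s * z ∈ Ideal.span {x})
    (m : ℕ) (hm : 0 < m) (f : F) (hf : f ≠ 0)
    (hloc : ∀ P : Ideal B, P.IsPrime → P ≠ ⊥ → (∃ i, P ≤ t i) →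
      (∀ z : F, z ≠ 0 → ∃ a b : B, b ∉ P ∧
        (z * algebraMap B F b = algebraMap B F a ∨ algebraMap B F b = z * algebraMap B F a)) →
      ∃ (s : F) (u₁ u₂ : B), u₁ ∉ P ∧ u₂ ∉ P ∧
        f * algebraMap B F u₂ = algebraMap B F u₁ * s ^ m) :
    ∃ (g : F) (b : B), g ≠ 0 ∧ (∀ i, b ∉ t i) ∧ f = algebraMap B F b * g ^ m :=
  s36_invert_abs t hinj
    (fun i => by
      obtain ⟨x, hx, hxz⟩ := hgen i
      exact s36_ufm_localization_of_dedekind p (t i) (hpt i)
        (s36_map_isPrincipal_of_local_generator (t i) p x hx hxz))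
    m hm f hf hloc

end Fermat.Agent.S36lib
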