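/-
Item 83 (S36), CRUX piece C-2f (helper26): **constructors of the regular local data `H1Reg`**
from the landed REG / INVERT statements.  Imports `H1Normal`, `InvertAbs`.  No sorry.

* `h1_hN_of_red`   : the root-closedness clause `hN` of `H1Reg` from a reduction map
  `red : B → κ` with kernel `p` whose image is closed under `m`-th roots in `κ`
  (`B / p_v ≅` affine ring, `TorClosed.root_mem`);
* `h1_root_of_invert` : `(P4)`: at a maximal ideal `𝔪` with `B_𝔪` factorial, if `x` is locally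
  (unit)·(`m`-th power) at every prime `P ≤ 𝔪` with `B_P` a valuation ring (hypothesis `hloc`
  of helper20's `s36_invert_abs`), then `g ^ m = w₀ x` with `g ∈ B`, `w₀ ∉ 𝔪`;
* `h1Reg_mk` : `H1Reg 𝔪 q x m` from `(P1)` `p B_𝔪 = π B_𝔪` (shape of helper10's `reg3_*_dvd`),
  `(P2)` `w π ^ e = q b` (`reg3_mid_exists` + count), `(P3) = hN`, `(P4)`.
-/
import Mathlib
import Fermat.Agent.S36lib.H1Normal
import Fermat.Agent.S36lib.InvertAbs

set_option autoImplicit false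
set_option linter.style.haveILetI false

namespace Fermat.Agent.S36lib

section HN

variable {B : Type*} [CommRing B] {κ : Type*} [Field κ]

/-- `(P3)`: `B / p` is root-closed (at every `𝔪`) when `p` is the kernel of `red : B → κ` and
the image of `red` is closed under `m`-th roots in `κ`. -/
theorem h1_hN_of_red (red : B →+* κ) (p : Ideal B) (hker : RingHom.ker red = p) (m : ℕ)
    (hm : 0 < m) (hrootκ : ∀ z : κ, z ^ m ∈ Set.range red → z ∈ Set.range red)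
    (𝔪 : Ideal B) :
    ∀ a b c w : B, b ∉ p → w ∉ 𝔪 → w * a ^ m - c * b ^ m ∈ p → ∃ d, w * a - d * b ∈ p := by
  subst hker
  intro a b c w hb _ h
  rw [RingHom.mem_ker] at hb h
  rw [map_sub, map_mul, map_mul, map_pow, map_pow, sub_eq_zero] at h
  have hm1 : m = (m - 1) + 1 := by omega
  have hz : (red (w * a) / red b) ^ m ∈ Set.range red := by
    refine ⟨w ^ (m - 1) * c, ?_⟩
    rw [div_pow, map_mul, map_mul, map_pow, mul_pow]
    have e1 : red w ^ m = red w ^ (m - 1) * red w := by rw [← pow_succ, ← hm1]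
    rw [eq_div_iff (pow_ne_zero _ hb), e1]
    linear_combination (red w ^ (m - 1)) * h.symm
  obtain ⟨d, hd⟩ := hrootκ _ hz
  refine ⟨d, ?_⟩
  rw [RingHom.mem_ker, map_sub, red.map_mul d b, hd, div_mul_cancel₀ _ hb, sub_self]

end HN

section Invert

variable {F : Type*} [Field F]

/-- `(P4)`: at a maximal ideal `𝔪` with `B_𝔪` factorial, an element `x ≠ 0` of `B` which is
locally (unit)·(`m`-th power) at every prime `P ≤ 𝔪` such that `B_P` is a valuation ring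
satisfies `g ^ m = w₀ x` with `g ∈ B`, `w₀ ∉ 𝔪`. -/
theorem h1_root_of_invert (B : Subring F) [IsNoetherianRing B] [IsFractionRing B F]
    (m : ℕ) (hm : 0 < m) (hroot : ∀ z : F, z ^ m ∈ B → z ∈ B)
    (𝔪 : Ideal B) [h𝔪 : 𝔪.IsMaximal]
    (hufd : UniqueFactorizationMonoid (Localization.AtPrime 𝔪)) (x : B) (hx0 : x ≠ 0)
    (hloc : ∀ P : Ideal B, P.IsPrime → P ≠ ⊥ → P ≤ 𝔪 →
      (∀ z : F, z ≠ 0 → ∃ a b : B, b ∉ P ∧
        (z * (b : F) = (a : F) ∨ (b : F) = z * (a : F))) →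
      ∃ (s : F) (u₁ u₂ : B), u₁ ∉ P ∧ u₂ ∉ P ∧ (x : F) * (u₂ : F) = (u₁ : F) * s ^ m) :
    ∃ g w₀ : B, w₀ ∉ 𝔪 ∧ g ^ m = w₀ * x := by
  haveI : ∀ i : Unit, ((fun _ : Unit => 𝔪) i).IsMaximal := fun _ => h𝔪
  have hxF : ((x : B) : F) ≠ 0 := fun h => hx0 (Subtype.ext h)
  obtain ⟨g, b, hg0, hb, hxb⟩ := s36_invert_abs (B := B) (F := F) (fun _ : Unit => 𝔪)
    (fun a b _ => Subsingleton.elim a b) (fun _ => hufd) m hm (x : F) hxF
    (fun P hP hP0 ⟨_, hle⟩ hval => hloc P hP hP0 hle hval)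
  have hb𝔪 : b ∉ 𝔪 := hb ()
  have hm1 : m = (m - 1) + 1 := by omega
  have hxb' : (x : F) = (b : F) * g ^ m := hxb
  have hz : ((b : F) * g) ^ m ∈ B := by
    have e1 : ((b : F) * g) ^ m = (((b ^ (m - 1) * x : B)) : F) := by
      push_cast
      rw [hxb', mul_pow]
      have : (b : F) ^ m = (b : F) ^ (m - 1) * (b : F) := by rw [← pow_succ, ← hm1]
      rw [this]
      ring
    rw [e1]
    exact (b ^ (m - 1) * x).2
  refine ⟨⟨_, hroot _ hz⟩, b ^ (m - 1), ?_, ?_⟩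
  · haveI := h𝔪.isPrime
    exact h1_pow_notMem hb𝔪 _
  · apply Subtype.ext
    push_cast
    rw [hxb', mul_pow]
    have : (b : F) ^ m = (b : F) ^ (m - 1) * (b : F) := by rw [← pow_succ, ← hm1]
    rw [this]
    ring

/-- **the regular local data from the landed REG / INVERT shapes.** -/
theorem h1Reg_mk (B : Subring F) [IsNoetherianRing B] [IsFractionRing B F]
    (m : ℕ) (hm : 0 < m) (hroot : ∀ z : F, z ^ m ∈ B → z ∈ B)
    (𝔪 : Ideal B) [h𝔪 : 𝔪.IsMaximal] (q x : B) (hx0 : x ≠ 0)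
    (p : Ideal B) [hp : p.IsPrime] (hp𝔪 : p ≤ 𝔪) (π : B) (hπp : π ∈ p)
    (hgen : ∀ z ∈ p, ∃ w' c : B, w' ∉ 𝔪 ∧ w' * z = π * c)
    (w b : B) (e : ℕ) (hw : w ∉ 𝔪) (hb : b ∉ 𝔪) (hπ : w * π ^ e = q * b)
    (hN : ∀ a b c w : B, b ∉ p → w ∉ 𝔪 → w * a ^ m - c * b ^ m ∈ p → ∃ d, w * a - d * b ∈ p)
    (hxp : x ∉ p)
    (hufd : UniqueFactorizationMonoid (Localization.AtPrime 𝔪))
    (hloc : ∀ P : Ideal B, P.IsPrime → P ≠ ⊥ → P ≤ 𝔪 →
      (∀ z : F, z ≠ 0 → ∃ a b : B, b ∉ P ∧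
        (z * (b : F) = (a : F) ∨ (b : F) = z * (a : F))) →
      ∃ (s : F) (u₁ u₂ : B), u₁ ∉ P ∧ u₂ ∉ P ∧ (x : F) * (u₂ : F) = (u₁ : F) * s ^ m) :
    H1Reg 𝔪 q x m := by
  obtain ⟨g, w₀, hw₀, hg⟩ := h1_root_of_invert B m hm hroot 𝔪 hufd x hx0 hloc
  refine ⟨p, π, g, w₀, b, w, e, hp, hp𝔪, hπp, ?_, hb, hw, ?_, hN, hxp, hw₀, hg⟩
  · intro z hz
    obtain ⟨w', c, hw', hc⟩ := hgen z hz
    exact ⟨w', hw', c, hc⟩
  · rw [mul_comm b q, ← hπ]

end Invert

end Fermat.Agent.S36lib
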