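import Mathlib
import Fermat.Agent.S36lib.H1Global

/-!
# Item 83 (S36), piece D1-B (abstract part): TRANSFER between `B₁ = B_{D1}` and `B₂ = B_j`

`ι : B₁ → B₂` injective (in the application the inclusion of two subrings of the field `F`),
`t ∈ B₁` with `B₂ ⊆ B₁[1/t]` (`TrfCover ι t`: every `z ∈ B₂` has `t ^ n z ∈ B₁`).  For an ideal
`𝔞` of `B₁` let `trfIdeal hc 𝔞 = 𝔞 B₁[1/t] ∩ B₂`.

* `trfIdeal_comap`, `trfIdeal_isPrime`, `trfIdeal_isMaximal`, `trfIdeal_eq_of_comap`,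
  `trfIdeal_le_iff`: for a prime `𝔪 ∌ t` of `B₁`, `𝔪' = trfIdeal hc 𝔪` is THE prime of `B₂` over
  `𝔪`; it is maximal if `𝔪` is; `𝔭 ≤ 𝔪' ↔ 𝔭 ∩ B₁ ≤ 𝔪`.
* `trf_uniform`: a pointwise local divisibility on a finitely generated ideal is uniform.
* `trf_dvd_form`: the form `∃ x ε, x ∈ 𝔭 ∧ ε ∉ 𝔪 ∧ ∀ z ∈ 𝔭, x ∣ ε * z` of local principality
  transfers from `(B₂, 𝔪')` to `(B₁, 𝔪)`.
* `trf_isLocalization_atPrime`, `trfLocEquiv`, `trf_ufm`: `(B₁)_𝔪 = (B₂)_𝔪'`; factoriality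
  transfers.
* `trf_h1Local`: the local hypothesis `H1Local` of (h1) transfers.
* `trfCover_subring`: the cover hypothesis for two subrings of a field.
* `trf_inc_cusp`: INC at the cusps (the `ρ`-trick): a maximal ideal containing `b` and not
  `w`, with `b - w` in a prime `𝔭`, does not contain `𝔭`.
-/

set_option autoImplicit false

namespace Fermat.Agent.S36lib

section Transfer

variable {B₁ B₂ : Type*} [CommRing B₁] [CommRing B₂]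

/-- `B₂ ⊆ B₁[1/t]`: every `z ∈ B₂` has `t ^ n z ∈ B₁` -/
def TrfCover (ι : B₁ →+* B₂) (t : B₁) : Prop :=
  ∀ z : B₂, ∃ (n : ℕ) (w : B₁), ι w = ι t ^ n * z

variable {ι : B₁ →+* B₂} {t : B₁}

/-- the ideal `𝔞 B₁[1/t] ∩ B₂` of `B₂` -/
def trfIdeal (hc : TrfCover ι t) (𝔞 : Ideal B₁) : Ideal B₂ where
  carrier := {z | ∃ (n : ℕ) (w : B₁), w ∈ 𝔞 ∧ ι w = ι t ^ n * z}
  zero_mem' := ⟨0, 0, 𝔞.zero_mem, by simp⟩
  add_mem' := by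
    rintro a b ⟨n, w, hw, h⟩ ⟨m, u, hu, h'⟩
    refine ⟨n + m, t ^ m * w + t ^ n * u,
      𝔞.add_mem (𝔞.mul_mem_left _ hw) (𝔞.mul_mem_left _ hu), ?_⟩
    simp only [map_add, map_mul, map_pow, h, h']
    ring
  smul_mem' := by
    rintro c z ⟨n, w, hw, h⟩
    obtain ⟨m, u, hu⟩ := hc c
    refine ⟨m + n, u * w, 𝔞.mul_mem_left _ hw, ?_⟩
    simp only [map_mul, hu, h, smul_eq_mul]
    ring

theorem mem_trfIdeal (hc : TrfCover ι t) (𝔞 : Ideal B₁) (z : B₂) :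
    z ∈ trfIdeal hc 𝔞 ↔ ∃ (n : ℕ) (w : B₁), w ∈ 𝔞 ∧ ι w = ι t ^ n * z := Iff.rfl

theorem map_mem_trfIdeal (hc : TrfCover ι t) {𝔞 : Ideal B₁} {w : B₁} (hw : w ∈ 𝔞) :
    ι w ∈ trfIdeal hc 𝔞 := ⟨0, w, hw, by simp⟩

theorem trfIdeal_mono (hc : TrfCover ι t) {𝔞 𝔟 : Ideal B₁} (h : 𝔞 ≤ 𝔟) :
    trfIdeal hc 𝔞 ≤ trfIdeal hc 𝔟 := by
  rintro z ⟨n, w, hw, hz⟩
  exact ⟨n, w, h hw, hz⟩

/-- an element of `B₂` outside `trfIdeal hc 𝔞` has its numerators outside `𝔞` -/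
theorem trf_notMem_of_notMem (hc : TrfCover ι t) {𝔞 : Ideal B₁} {z : B₂}
    (hz : z ∉ trfIdeal hc 𝔞) {n : ℕ} {w : B₁} (h : ι w = ι t ^ n * z) : w ∉ 𝔞 :=
  fun hw => hz ⟨n, w, hw, h⟩

theorem trfIdeal_comap (hc : TrfCover ι t) (hι : Function.Injective ι) (𝔞 : Ideal B₁)
    [𝔞.IsPrime] (ht : t ∉ 𝔞) : (trfIdeal hc 𝔞).comap ι = 𝔞 := by
  ext x
  rw [Ideal.mem_comap]
  constructor
  · rintro ⟨n, w, hw, h⟩
    have h1 : w = t ^ n * x := hι (by rw [h, map_mul, map_pow])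
    rw [h1] at hw
    rcases Ideal.IsPrime.mem_or_mem inferInstance hw with h2 | h2
    · exact absurd (Ideal.IsPrime.mem_of_pow_mem inferInstance n h2) ht
    · exact h2
  · intro hx
    exact map_mem_trfIdeal hc hx

theorem map_notMem_trfIdeal (hc : TrfCover ι t) (hι : Function.Injective ι) (𝔞 : Ideal B₁)
    [𝔞.IsPrime] (ht : t ∉ 𝔞) {w : B₁} (hw : w ∉ 𝔞) : ι w ∉ trfIdeal hc 𝔞 := fun h =>
  hw (by rw [← trfIdeal_comap hc hι 𝔞 ht]; exact h)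

theorem trfIdeal_isPrime (hc : TrfCover ι t) (hι : Function.Injective ι) (𝔞 : Ideal B₁)
    [h𝔞 : 𝔞.IsPrime] (ht : t ∉ 𝔞) : (trfIdeal hc 𝔞).IsPrime := by
  rw [Ideal.isPrime_iff]
  constructor
  · intro h
    have h1 : (1 : B₂) ∈ trfIdeal hc 𝔞 := by rw [h]; trivial
    have h2 : ι 1 ∈ trfIdeal hc 𝔞 := by rwa [map_one]
    exact map_notMem_trfIdeal hc hι 𝔞 ht (fun h3 => h𝔞.ne_top ((Ideal.eq_top_iff_one 𝔞).2 h3)) h2
  · rintro z₁ z₂ ⟨n, w, hw, h⟩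
    obtain ⟨a, u₁, hu₁⟩ := hc z₁
    obtain ⟨b, u₂, hu₂⟩ := hc z₂
    have h1 : t ^ n * (u₁ * u₂) = t ^ (a + b) * w := by
      apply hι
      simp only [map_mul, map_pow, hu₁, hu₂, h]
      ring
    have h2 : t ^ n * (u₁ * u₂) ∈ 𝔞 := by rw [h1]; exact 𝔞.mul_mem_left _ hw
    rcases h𝔞.mem_or_mem h2 with h3 | h3
    · exact absurd (h𝔞.mem_of_pow_mem n h3) ht
    · rcases h𝔞.mem_or_mem h3 with h4 | h4
      · exact Or.inl ⟨a, u₁, h4, hu₁⟩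
      · exact Or.inr ⟨b, u₂, h4, hu₂⟩

theorem trfIdeal_isMaximal (hc : TrfCover ι t) (hι : Function.Injective ι) (𝔪 : Ideal B₁)
    (h𝔪 : 𝔪.IsMaximal) (ht : t ∉ 𝔪) : (trfIdeal hc 𝔪).IsMaximal := by
  haveI := h𝔪.isPrime
  rw [Ideal.isMaximal_iff]
  constructor
  · intro h1
    have h2 : ι 1 ∈ trfIdeal hc 𝔪 := by rwa [map_one]
    exact map_notMem_trfIdeal hc hι 𝔪 ht
      (fun h3 => h𝔪.ne_top ((Ideal.eq_top_iff_one 𝔪).2 h3)) h2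
  · intro J x hJ hx hxJ
    obtain ⟨n, u, hu⟩ := hc x
    have hu𝔪 : u ∉ 𝔪 := trf_notMem_of_notMem hc hx hu
    obtain ⟨v, i, hi, hvi⟩ := h𝔪.exists_inv hu𝔪
    have h1 : ι v * (ι t ^ n * x) + ι i = 1 := by
      rw [← hu, ← map_mul, ← map_add, hvi, map_one]
    rw [← h1]
    refine J.add_mem (J.mul_mem_left _ (J.mul_mem_left _ hxJ)) (hJ (map_mem_trfIdeal hc hi))

/-- `trfIdeal hc 𝔞` is THE prime of `B₂` over the prime `𝔞 ∌ t` -/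
theorem trfIdeal_eq_of_comap (hc : TrfCover ι t) (𝔞 : Ideal B₁) (ht : t ∉ 𝔞)
    (𝔮 : Ideal B₂) [h𝔮 : 𝔮.IsPrime] (h : 𝔮.comap ι = 𝔞) : 𝔮 = trfIdeal hc 𝔞 := by
  ext z
  constructor
  · intro hz
    obtain ⟨n, w, hw⟩ := hc z
    refine ⟨n, w, ?_, hw⟩
    rw [← h, Ideal.mem_comap, hw]
    exact 𝔮.mul_mem_left _ hz
  · rintro ⟨n, w, hw, hz⟩
    have h1 : ι t ^ n * z ∈ 𝔮 := by
      rw [← hz, ← Ideal.mem_comap, h]
      exact hw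
    rcases h𝔮.mem_or_mem h1 with h2 | h2
    · exfalso
      apply ht
      rw [← h, Ideal.mem_comap]
      exact h𝔮.mem_of_pow_mem n h2
    · exact h2

/-- `𝔭 ≤ 𝔪'` iff `𝔭 ∩ B₁ ≤ 𝔪` -/
theorem trfIdeal_le_iff (hc : TrfCover ι t) (hι : Function.Injective ι) (𝔪 : Ideal B₁)
    [𝔪.IsPrime] (ht : t ∉ 𝔪) (𝔭 : Ideal B₂) : 𝔭 ≤ trfIdeal hc 𝔪 ↔ 𝔭.comap ι ≤ 𝔪 := by
  constructor
  · intro h
    rw [← trfIdeal_comap hc hι 𝔪 ht]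
    exact Ideal.comap_mono h
  · intro h z hz
    obtain ⟨n, w, hw⟩ := hc z
    refine ⟨n, w, h ?_, hw⟩
    rw [Ideal.mem_comap, hw]
    exact 𝔭.mul_mem_left _ hz

/-- a pointwise local divisibility on a finitely generated ideal is uniform -/
theorem trf_uniform (𝔭 𝔪 : Ideal B₁) [h𝔪 : 𝔪.IsPrime] (hfg : 𝔭.FG) (x : B₁)
    (h : ∀ z ∈ 𝔭, ∃ ε : B₁, ε ∉ 𝔪 ∧ x ∣ ε * z) : ∃ ε : B₁, ε ∉ 𝔪 ∧ ∀ z ∈ 𝔭, x ∣ ε * z := by
  classical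
  obtain ⟨s, hs⟩ := hfg
  have hsub : ∀ g ∈ s, g ∈ 𝔭 := fun g hg => hs ▸ Ideal.subset_span hg
  have key : ∀ s' : Finset B₁, (∀ g ∈ s', g ∈ 𝔭) →
      ∃ ε : B₁, ε ∉ 𝔪 ∧ ∀ g ∈ s', x ∣ ε * g := by
    intro s'
    induction s' using Finset.induction_on with
    | empty => exact fun _ => ⟨1, fun h1 => h𝔪.ne_top ((Ideal.eq_top_iff_one 𝔪).2 h1), by simp⟩
    | insert a s' ha ih =>
      intro hmem
      obtain ⟨ε₁, hε₁, h1⟩ := ih (fun g hg => hmem g (Finset.mem_insert_of_mem hg))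
      obtain ⟨ε₂, hε₂, h2⟩ := h a (hmem a (Finset.mem_insert_self a s'))
      refine ⟨ε₁ * ε₂, fun h3 => ?_, ?_⟩
      · rcases h𝔪.mem_or_mem h3 with h4 | h4
        · exact hε₁ h4
        · exact hε₂ h4
      · intro g hg
        rcases Finset.mem_insert.1 hg with rfl | hg'
        · have : ε₁ * ε₂ * g = ε₁ * (ε₂ * g) := by ring
          rw [this]
          exact Dvd.dvd.mul_left h2 _
        · have : ε₁ * ε₂ * g = ε₂ * (ε₁ * g) := by ring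
          rw [this]
          exact Dvd.dvd.mul_left (h1 g hg') _
  obtain ⟨ε, hε, hdvd⟩ := key s hsub
  refine ⟨ε, hε, fun z hz => ?_⟩
  rw [← hs] at hz
  refine Submodule.span_induction (p := fun z _ => x ∣ ε * z) ?_ ?_ ?_ ?_ hz
  · intro g hg
    exact hdvd g hg
  · simp
  · intro a b _ _ ha hb
    rw [mul_add]
    exact dvd_add ha hb
  · intro c a _ ha
    rw [smul_eq_mul]
    have : ε * (c * a) = c * (ε * a) := by ring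
    rw [this]
    exact Dvd.dvd.mul_left ha _

/-- **transfer of local principality**, with the generator exposed: if `x ∈ B₂` generates `𝔭`
at `𝔪'` (form `x ∣ ε * z`), then every numerator `x₁ ∈ B₁` of `x` generates `𝔭 ∩ B₁` at `𝔪`. -/
theorem trf_dvd_form_gen (hc : TrfCover ι t) (hι : Function.Injective ι) (𝔪 : Ideal B₁)
    [h𝔪 : 𝔪.IsPrime] (ht : t ∉ 𝔪) (𝔭 : Ideal B₂) (hfg : (𝔭.comap ι).FG)
    (x ε : B₂) (hε : ε ∉ trfIdeal hc 𝔪) (hdvd : ∀ z ∈ 𝔭, x ∣ ε * z)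
    (a : ℕ) (x₁ : B₁) (hx₁ : ι x₁ = ι t ^ a * x) :
    ∃ ε₁ : B₁, ε₁ ∉ 𝔪 ∧ ∀ z ∈ 𝔭.comap ι, x₁ ∣ ε₁ * z := by
  obtain ⟨b, ε₀, hε₀⟩ := hc ε
  have hε₀𝔪 : ε₀ ∉ 𝔪 := trf_notMem_of_notMem hc hε hε₀
  have hpt : ∀ z ∈ 𝔭.comap ι, ∃ ε' : B₁, ε' ∉ 𝔪 ∧ x₁ ∣ ε' * z := by
    intro z hz
    obtain ⟨c, hc'⟩ := hdvd (ι z) hz
    obtain ⟨m, d, hd⟩ := hc c
    refine ⟨ε₀ * t ^ (a + m), fun h1 => ?_, ⟨t ^ b * d, ?_⟩⟩
    · rcases h𝔪.mem_or_mem h1 with h2 | h2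
      · exact hε₀𝔪 h2
      · exact ht (h𝔪.mem_of_pow_mem _ h2)
    · apply hι
      simp only [map_mul, map_pow, hε₀, hx₁, hd]
      have e1 : ι t ^ b * ε * ι t ^ (a + m) * ι z = ι t ^ (a + b + m) * (ε * ι z) := by ring
      rw [e1, hc']
      ring
  exact trf_uniform (𝔭.comap ι) 𝔪 hfg x₁ hpt

/-- **transfer of local principality** (the form of REG1/REG2/REG3) from `(B₂, 𝔪')` to
`(B₁, 𝔪)`. -/
theorem trf_dvd_form (hc : TrfCover ι t) (hι : Function.Injective ι) (𝔪 : Ideal B₁)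
    [h𝔪 : 𝔪.IsPrime] (ht : t ∉ 𝔪) (𝔭 : Ideal B₂) (hfg : (𝔭.comap ι).FG)
    (h : ∃ x ε : B₂, x ∈ 𝔭 ∧ ε ∉ trfIdeal hc 𝔪 ∧ ∀ z ∈ 𝔭, x ∣ ε * z) :
    ∃ x ε : B₁, x ∈ 𝔭.comap ι ∧ ε ∉ 𝔪 ∧ ∀ z ∈ 𝔭.comap ι, x ∣ ε * z := by
  obtain ⟨x, ε, hx, hε, hdvd⟩ := h
  obtain ⟨a, x₁, hx₁⟩ := hc x
  have hx₁mem : x₁ ∈ 𝔭.comap ι := by
    rw [Ideal.mem_comap, hx₁]
    exact 𝔭.mul_mem_left _ hx
  obtain ⟨ε₁, hε₁, h1⟩ := trf_dvd_form_gen hc hι 𝔪 ht 𝔭 hfg x ε hε hdvd a x₁ hx₁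
  exact ⟨x₁, ε₁, hx₁mem, hε₁, h1⟩

/-- **transfer of the local hypothesis `H1Local`** of (h1) from `(B₂, 𝔪')` to `(B₁, 𝔪)`. -/
theorem trf_h1Local (hc : TrfCover ι t) (hι : Function.Injective ι) (𝔪 : Ideal B₁)
    [h𝔪 : 𝔪.IsPrime] (ht : t ∉ 𝔪) (q s : B₁) (I : Ideal B₂) (hfg : (I.comap ι).FG)
    (h : H1Local (ι q) (ι s) I (trfIdeal hc 𝔪)) : H1Local q s (I.comap ι) 𝔪 := by
  obtain ⟨g, hg, ⟨w, hw, hprinc⟩, hnzd, ⟨w', hw', hcongr⟩⟩ := h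
  obtain ⟨a, g₁, hg₁⟩ := hc g
  have hg₁mem : g₁ ∈ I.comap ι := by
    rw [Ideal.mem_comap, hg₁]
    exact I.mul_mem_left _ hg
  have hpow : ∀ n : ℕ, t ^ n ∉ 𝔪 := fun n h1 => ht (h𝔪.mem_of_pow_mem n h1)
  refine ⟨g₁, hg₁mem, ?_, ?_, ?_⟩
  · obtain ⟨ε₁, hε₁, h1⟩ := trf_dvd_form_gen hc hι 𝔪 ht I hfg g w hw
      (fun z hz => Ideal.mem_span_singleton.1 (hprinc z hz)) a g₁ hg₁
    exact ⟨ε₁, hε₁, fun x hx => Ideal.mem_span_singleton.2 (h1 x hx)⟩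
  · intro x hx
    obtain ⟨c, hc₁⟩ := Ideal.mem_span_singleton.1 hx
    have h1 : g * ι (t ^ a * x) ∈ Ideal.span {ι q} := by
      rw [Ideal.mem_span_singleton]
      refine ⟨ι c, ?_⟩
      have : g * ι (t ^ a * x) = ι (g₁ * x) := by
        rw [map_mul, map_mul, map_pow, hg₁]; ring
      rw [this, hc₁, map_mul]
    obtain ⟨u, hu, hux⟩ := hnzd _ h1
    obtain ⟨c', hc'⟩ := Ideal.mem_span_singleton.1 hux
    obtain ⟨b, u₀, hu₀⟩ := hc u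
    obtain ⟨m, c₀, hc₀⟩ := hc c'
    have hu₀𝔪 : u₀ ∉ 𝔪 := trf_notMem_of_notMem hc hu hu₀
    refine ⟨u₀ * t ^ (a + m), fun h2 => ?_, ?_⟩
    · rcases h𝔪.mem_or_mem h2 with h3 | h3
      · exact hu₀𝔪 h3
      · exact hpow _ h3
    · rw [Ideal.mem_span_singleton]
      refine ⟨t ^ b * c₀, ?_⟩
      apply hι
      simp only [map_mul, map_pow, hu₀, hc₀]
      have e1 : ι t ^ b * u * ι t ^ (a + m) * ι x
          = ι t ^ (b + m) * (u * ι (t ^ a * x)) := by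
        rw [map_mul, map_pow]; ring
      rw [e1, hc']
      ring
  · obtain ⟨y₁, hy₁, y₂, hy₂, hsum⟩ := Submodule.mem_sup.1 hcongr
    obtain ⟨c₁, hc₁⟩ := Ideal.mem_span_singleton.1 hy₁
    obtain ⟨c₂, hc₂⟩ := Ideal.mem_span_singleton.1 hy₂
    obtain ⟨b, w₀, hw₀⟩ := hc w'
    obtain ⟨m₁, d₁, hd₁⟩ := hc c₁
    obtain ⟨m₂, d₂, hd₂⟩ := hc c₂
    have hw₀𝔪 : w₀ ∉ 𝔪 := trf_notMem_of_notMem hc hw' hw₀
    refine ⟨w₀ * t ^ (m₁ + m₂), fun h2 => ?_, ?_⟩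
    · rcases h𝔪.mem_or_mem h2 with h3 | h3
      · exact hw₀𝔪 h3
      · exact hpow _ h3
    · have key : w₀ * t ^ (m₁ + m₂) * g₁
          = s * (t ^ (a + b + m₂) * d₁) + q * (t ^ (a + b + m₁) * d₂) := by
        apply hι
        simp only [map_mul, map_pow, map_add, hw₀, hg₁, hd₁, hd₂]
        have e1 : ι t ^ b * w' * ι t ^ (m₁ + m₂) * (ι t ^ a * g)
            = ι t ^ (a + b + m₁ + m₂) * (w' * g) := by ring
        rw [e1, ← hsum, hc₁, hc₂]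
        ring
      rw [key]
      exact Submodule.add_mem_sup
        (Ideal.mem_span_singleton.2 ⟨_, rfl⟩) (Ideal.mem_span_singleton.2 ⟨_, rfl⟩)

/-- **INC at the cusps** (the `ρ`-trick): if `b ∈ 𝔪`, `w ∉ 𝔪` and `b - w ∈ 𝔭`, then `𝔪` does
not contain `𝔭`. -/
theorem trf_inc_cusp {B : Type*} [CommRing B] (𝔪 𝔭 : Ideal B) (b w : B) (hb : b ∈ 𝔪)
    (hw : w ∉ 𝔪) (hbw : b - w ∈ 𝔭) : ¬ 𝔭 ≤ 𝔪 := by
  intro h
  apply hw
  have h1 : b - (b - w) ∈ 𝔪 := 𝔪.sub_mem hb (h hbw)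
  simpa using h1

/-- the cover hypothesis for two subrings `B₁ ≤ B₂` of a commutative ring -/
theorem trfCover_subring {F : Type*} [CommRing F] (B₁ B₂ : Subring F) (h : B₁ ≤ B₂) (t : B₁)
    (hcov : ∀ z ∈ B₂, ∃ n : ℕ, (t : F) ^ n * z ∈ B₁) :
    TrfCover (Subring.inclusion h) t := by
  intro z
  obtain ⟨n, hn⟩ := hcov (z : F) z.2
  refine ⟨n, ⟨_, hn⟩, ?_⟩
  apply Subtype.ext
  simp [Subring.inclusion]

end Transfer

section Loc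

variable {B₁ B₂ : Type*} [CommRing B₁] [CommRing B₂] [IsDomain B₂]
  {ι : B₁ →+* B₂} {t : B₁}

/-- `(B₂)_𝔪'` is the localization of `B₁` at `𝔪` -/
theorem trf_isLocalization_atPrime (hc : TrfCover ι t) (hι : Function.Injective ι)
    (𝔪 : Ideal B₁) [h𝔪 : 𝔪.IsPrime] (ht : t ∉ 𝔪)
    (L : Type*) [CommRing L] [Algebra B₂ L]
    [h𝔪' : (trfIdeal hc 𝔪).IsPrime] [IsLocalization.AtPrime L (trfIdeal hc 𝔪)] :
    letI : Algebra B₁ L := ((algebraMap B₂ L).comp ι).toAlgebra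
    IsLocalization.AtPrime L 𝔪 := by
  letI : Algebra B₁ L := ((algebraMap B₂ L).comp ι).toAlgebra
  have halg : ∀ x : B₁, algebraMap B₁ L x = algebraMap B₂ L (ι x) := fun _ => rfl
  have hinj : Function.Injective (algebraMap B₂ L) :=
    IsLocalization.injective L (M := (trfIdeal hc 𝔪).primeCompl)
      (fun x hx => mem_nonZeroDivisors_of_ne_zero
        (fun h0 => hx (h0 ▸ (trfIdeal hc 𝔪).zero_mem)))
  have hunit : ∀ w : B₁, w ∉ 𝔪 → IsUnit (algebraMap B₂ L (ι w)) := fun w hw =>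
    IsLocalization.map_units L
      (⟨ι w, map_notMem_trfIdeal hc hι 𝔪 ht hw⟩ : (trfIdeal hc 𝔪).primeCompl)
  refine ⟨?_, ?_, ?_⟩
  · rintro ⟨y, hy⟩
    rw [halg]
    exact hunit y hy
  · intro z
    obtain ⟨⟨b, ⟨u, hu⟩⟩, hz⟩ := IsLocalization.surj (trfIdeal hc 𝔪).primeCompl z
    obtain ⟨n, b₁, hb₁⟩ := hc b
    obtain ⟨m, u₁, hu₁⟩ := hc u
    have hu₁𝔪 : u₁ ∉ 𝔪 := trf_notMem_of_notMem hc hu hu₁
    have hden : t ^ n * u₁ ∉ 𝔪 := fun h1 => by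
      rcases h𝔪.mem_or_mem h1 with h2 | h2
      · exact ht (h𝔪.mem_of_pow_mem _ h2)
      · exact hu₁𝔪 h2
    refine ⟨(t ^ m * b₁, ⟨t ^ n * u₁, hden⟩), ?_⟩
    simp only [halg, map_mul, map_pow, hb₁, hu₁]
    simp only at hz
    calc z * (algebraMap B₂ L (ι t) ^ n * (algebraMap B₂ L (ι t) ^ m * algebraMap B₂ L u))
        = algebraMap B₂ L (ι t) ^ n * algebraMap B₂ L (ι t) ^ m * (z * algebraMap B₂ L u) := by
          ring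
      _ = algebraMap B₂ L (ι t) ^ m * (algebraMap B₂ L (ι t) ^ n * algebraMap B₂ L b) := by
          rw [hz]; ring
  · intro x y hxy
    rw [halg, halg] at hxy
    have h1 : x = y := hι (hinj hxy)
    exact ⟨1, by rw [h1]⟩

/-- the ring isomorphism `(B₁)_𝔪 ≃ (B₂)_𝔪'` -/
noncomputable def trfLocEquiv (hc : TrfCover ι t) (hι : Function.Injective ι)
    (𝔪 : Ideal B₁) [h𝔪 : 𝔪.IsPrime] (ht : t ∉ 𝔪) [h𝔪' : (trfIdeal hc 𝔪).IsPrime] :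
    Localization.AtPrime 𝔪 ≃+* Localization.AtPrime (trfIdeal hc 𝔪) :=
  letI : Algebra B₁ (Localization.AtPrime (trfIdeal hc 𝔪)) :=
    ((algebraMap B₂ (Localization.AtPrime (trfIdeal hc 𝔪))).comp ι).toAlgebra
  haveI : IsLocalization.AtPrime (Localization.AtPrime (trfIdeal hc 𝔪)) 𝔪 :=
    trf_isLocalization_atPrime hc hι 𝔪 ht (Localization.AtPrime (trfIdeal hc 𝔪))
  (IsLocalization.algEquiv 𝔪.primeCompl (Localization.AtPrime 𝔪)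
    (Localization.AtPrime (trfIdeal hc 𝔪))).toRingEquiv

theorem trfLocEquiv_algebraMap (hc : TrfCover ι t) (hι : Function.Injective ι)
    (𝔪 : Ideal B₁) [h𝔪 : 𝔪.IsPrime] (ht : t ∉ 𝔪) [h𝔪' : (trfIdeal hc 𝔪).IsPrime] (x : B₁) :
    trfLocEquiv hc hι 𝔪 ht (algebraMap B₁ (Localization.AtPrime 𝔪) x) =
      algebraMap B₂ (Localization.AtPrime (trfIdeal hc 𝔪)) (ι x) := by
  letI : Algebra B₁ (Localization.AtPrime (trfIdeal hc 𝔪)) :=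
    ((algebraMap B₂ (Localization.AtPrime (trfIdeal hc 𝔪))).comp ι).toAlgebra
  haveI : IsLocalization.AtPrime (Localization.AtPrime (trfIdeal hc 𝔪)) 𝔪 :=
    trf_isLocalization_atPrime hc hι 𝔪 ht (Localization.AtPrime (trfIdeal hc 𝔪))
  exact (IsLocalization.algEquiv 𝔪.primeCompl (Localization.AtPrime 𝔪)
    (Localization.AtPrime (trfIdeal hc 𝔪))).commutes x

/-- **transfer of factoriality** from `(B₂)_𝔪'` to `(B₁)_𝔪` -/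
theorem trf_ufm (hc : TrfCover ι t) (hι : Function.Injective ι)
    (𝔪 : Ideal B₁) [h𝔪 : 𝔪.IsPrime] (ht : t ∉ 𝔪) [h𝔪' : (trfIdeal hc 𝔪).IsPrime]
    (h : UniqueFactorizationMonoid (Localization.AtPrime (trfIdeal hc 𝔪))) :
    haveI : IsDomain B₁ := hι.isDomain ι
    UniqueFactorizationMonoid (Localization.AtPrime 𝔪) := by
  haveI : IsDomain B₁ := hι.isDomain ι
  exact (trfLocEquiv hc hι 𝔪 ht).symm.toMulEquiv.uniqueFactorizationMonoid h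

end Loc

end Fermat.Agent.S36lib
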