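import Mathlib
import Fermat.Agent.S36lib.Setup
import Fermat.Agent.S36lib.H1Normal
import Fermat.Agent.S36lib.TransferD1

/-!
# Item 83 (S36), piece D1-B (abstract part, continued): transfer of `LocDvd`, `H1Reg`, `IsNode`

* `trf_locDvd`, `trf_locDvd_map` : transfer of `LocDvd` from `(B₂, 𝔪')` to `(B₁, 𝔪)`;
* `trf_rootClosed_of_isIntegrallyClosed` : the root-closed clause of `H1Reg` from
  `IsIntegrallyClosed (B ⧸ p)`;
* `trf_h1Reg_prime` : in `H1Reg 𝔪 q u m` with `q ∈ 𝔪`, the prime `p` is one of the given primes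
  `p_v` (when every prime containing `q` contains a `p_v`);
* `trf_h1Reg` : **transfer of `H1Reg`** from `(B₂, 𝔪')` to `(B₁, 𝔪)` (the root-closed clause for
  `B₁` is a hypothesis: it does not transfer, it comes from `B₁ ⧸ p_v` Dedekind);
* for two `NodeSetup`s `S1, S2` on the same field with the same valuation rings and
  `S1.B ≤ S2.B`: `trf_setup_comap_pInf/_pMid/_pZero`, `trf_setup_le_iff_*`,
  `trf_setup_isNode_iff`;
* `trf_setup_inc_cusp_*` : INC at the cusps for a `NodeSetup` (the `ρ`-trick).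
-/

set_option autoImplicit false

namespace Fermat.Agent.S36lib

section LocDvd

variable {B₁ B₂ : Type*} [CommRing B₁] [CommRing B₂] {ι : B₁ →+* B₂} {t : B₁}

/-- transfer of `LocDvd`, with a numerator `a₁` of `a` -/
theorem trf_locDvd (hc : TrfCover ι t) (hι : Function.Injective ι) (𝔪 : Ideal B₁)
    [h𝔪 : 𝔪.IsPrime] (ht : t ∉ 𝔪) (a : B₂) (y₁ : B₁)
    (h : LocDvd (trfIdeal hc 𝔪) a (ι y₁)) (n : ℕ) (a₁ : B₁) (ha₁ : ι a₁ = ι t ^ n * a) :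
    LocDvd 𝔪 a₁ y₁ := by
  obtain ⟨w, hw, c, hc'⟩ := h
  obtain ⟨b, w₀, hw₀⟩ := hc w
  obtain ⟨m, c₀, hc₀⟩ := hc c
  have hw₀𝔪 : w₀ ∉ 𝔪 := trf_notMem_of_notMem hc hw hw₀
  refine ⟨w₀ * t ^ (n + m), fun h1 => ?_, ⟨t ^ b * c₀, ?_⟩⟩
  · rcases h𝔪.mem_or_mem h1 with h2 | h2
    · exact hw₀𝔪 h2
    · exact ht (h𝔪.mem_of_pow_mem _ h2)
  · apply hι
    simp only [map_mul, map_pow, hw₀, ha₁, hc₀]
    have e1 : ι t ^ b * w * ι t ^ (n + m) * ι y₁ = ι t ^ (b + n + m) * (w * ι y₁) := by ring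
    rw [e1, hc']
    ring

/-- transfer of `LocDvd` between elements of `B₁` -/
theorem trf_locDvd_map (hc : TrfCover ι t) (hι : Function.Injective ι) (𝔪 : Ideal B₁)
    [h𝔪 : 𝔪.IsPrime] (ht : t ∉ 𝔪) (a₁ y₁ : B₁)
    (h : LocDvd (trfIdeal hc 𝔪) (ι a₁) (ι y₁)) : LocDvd 𝔪 a₁ y₁ :=
  trf_locDvd hc hι 𝔪 ht (ι a₁) y₁ h 0 a₁ (by simp)

end LocDvd

section RootClosed

/-- root-closedness in an integrally closed domain -/
theorem trf_rootClosed_domain {R : Type*} [CommRing R] [IsDomain R] [IsIntegrallyClosed R]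
    (m : ℕ) (hm : 0 < m) (a b c w : R) (hb : b ≠ 0) (h : w * a ^ m = c * b ^ m) :
    ∃ d, w * a = d * b := by
  let K := FractionRing R
  have hbK : algebraMap R K b ≠ 0 := by
    intro h0
    exact hb ((IsFractionRing.injective R K) (by rw [h0, map_zero]))
  obtain ⟨k, rfl⟩ : ∃ k, m = k + 1 := ⟨m - 1, by omega⟩
  have hxm : (algebraMap R K (w * a) / algebraMap R K b) ^ (k + 1)
      = algebraMap R K (w ^ k * c) := by
    rw [div_pow, div_eq_iff (pow_ne_zero _ hbK), ← map_pow, ← map_pow, ← map_mul]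
    congr 1
    have e1 : (w * a) ^ (k + 1) = w ^ k * (w * a ^ (k + 1)) := by ring
    rw [e1, h]
    ring
  have hint : IsIntegral R (algebraMap R K (w * a) / algebraMap R K b) := by
    refine ⟨Polynomial.X ^ (k + 1) - Polynomial.C (w ^ k * c), ?_, ?_⟩
    · exact Polynomial.monic_X_pow_sub_C _ (Nat.succ_ne_zero k)
    · simp only [Polynomial.eval₂_sub, Polynomial.eval₂_pow, Polynomial.eval₂_X,
        Polynomial.eval₂_C]
      rw [hxm, sub_self]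
  obtain ⟨d, hd⟩ := IsIntegrallyClosed.isIntegral_iff.1 hint
  refine ⟨d, ?_⟩
  apply IsFractionRing.injective R K
  rw [map_mul (algebraMap R K) d b, hd, div_mul_cancel₀ _ hbK]

/-- the root-closed clause of `H1Reg` for a prime `p` with `B ⧸ p` integrally closed -/
theorem trf_rootClosed_of_isIntegrallyClosed {B : Type*} [CommRing B] (p : Ideal B)
    [hp : p.IsPrime] [IsIntegrallyClosed (B ⧸ p)] (m : ℕ) (hm : 0 < m) (a b c w : B)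
    (hb : b ∉ p) (h : w * a ^ m - c * b ^ m ∈ p) : ∃ d, w * a - d * b ∈ p := by
  have hb0 : Ideal.Quotient.mk p b ≠ 0 := fun h0 => hb (Ideal.Quotient.eq_zero_iff_mem.1 h0)
  have heq : Ideal.Quotient.mk p w * Ideal.Quotient.mk p a ^ m
      = Ideal.Quotient.mk p c * Ideal.Quotient.mk p b ^ m := by
    have := Ideal.Quotient.eq_zero_iff_mem.2 h
    rw [map_sub, sub_eq_zero] at this
    simpa using this
  obtain ⟨d, hd⟩ := trf_rootClosed_domain m hm _ _ _ _ hb0 heq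
  obtain ⟨d', rfl⟩ := Ideal.Quotient.mk_surjective d
  refine ⟨d', ?_⟩
  rw [← Ideal.Quotient.eq_zero_iff_mem, map_sub, sub_eq_zero, map_mul, map_mul]
  exact hd

end RootClosed

section H1Reg

variable {B₁ B₂ : Type*} [CommRing B₁] [CommRing B₂] {ι : B₁ →+* B₂} {t : B₁}

/-- in the regular local data at `𝔪 ∋ q`, the prime is one of the primes `p_v` -/
theorem trf_h1Reg_prime {B : Type*} [CommRing B] (𝔪 : Ideal B) (q : B) (hq𝔪 : q ∈ 𝔪)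
    {V : Type*} (pv : V → Ideal B) (hpv : ∀ v, (pv v).IsPrime) (hqv : ∀ v, q ∈ pv v)
    (Hrad : ∀ P : Ideal B, P.IsPrime → q ∈ P → ∃ v, pv v ≤ P)
    (p : Ideal B) (hp : p.IsPrime) (hle : p ≤ 𝔪) (π : B) (hπ : π ∈ p)
    (hgen : ∀ x ∈ p, LocDvd 𝔪 π x) (w₁ w₂ : B) (hw₁ : w₁ ∉ 𝔪) (hw₂ : w₂ ∉ 𝔪) (e : ℕ)
    (hqe : w₁ * q = w₂ * π ^ e) : ∃ v, pv v = p := by
  have he : e ≠ 0 := by
    rintro rfl
    apply hw₂
    have : w₂ = w₁ * q := by rw [hqe, pow_zero, mul_one]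
    rw [this]
    exact 𝔪.mul_mem_left _ hq𝔪
  have hqp : q ∈ p := by
    have h1 : w₁ * q ∈ p := by
      rw [hqe]
      exact p.mul_mem_left _ (Ideal.pow_mem_of_mem p hπ e (Nat.pos_of_ne_zero he))
    rcases hp.mem_or_mem h1 with h2 | h2
    · exact absurd (hle h2) hw₁
    · exact h2
  obtain ⟨v, hv⟩ := Hrad p hp hqp
  refine ⟨v, le_antisymm hv ?_⟩
  have hpvv := hpv v
  have hπv : π ∈ pv v := by
    have h1 : w₂ * π ^ e ∈ pv v := by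
      rw [← hqe]
      exact (pv v).mul_mem_left _ (hqv v)
    rcases hpvv.mem_or_mem h1 with h2 | h2
    · exact absurd (hle (hv h2)) hw₂
    · exact hpvv.mem_of_pow_mem e h2
  intro x hx
  obtain ⟨w, hw, c, hc⟩ := hgen x hx
  have h1 : w * x ∈ pv v := by
    rw [hc]
    exact (pv v).mul_mem_right _ hπv
  rcases hpvv.mem_or_mem h1 with h2 | h2
  · exact absurd (hle (hv h2)) hw
  · exact h2

/-- **transfer of `H1Reg`** from `(B₂, 𝔪')` to `(B₁, 𝔪)`.  The root-closed clause for `B₁` is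
the hypothesis `hroot` (for the primes `p_v ∩ B₁`, `p_v ≤ 𝔪'`); see
`trf_rootClosed_of_isIntegrallyClosed`. -/
theorem trf_h1Reg (hc : TrfCover ι t) (hι : Function.Injective ι) (𝔪 : Ideal B₁)
    [h𝔪 : 𝔪.IsPrime] (ht : t ∉ 𝔪) (q u : B₁) (m : ℕ) (hm : 0 < m) (hq𝔪 : q ∈ 𝔪)
    {V : Type*} (pv : V → Ideal B₂) (hpv : ∀ v, (pv v).IsPrime) (hqv : ∀ v, ι q ∈ pv v)
    (Hrad : ∀ P : Ideal B₂, P.IsPrime → ι q ∈ P → ∃ v, pv v ≤ P)
    (hroot : ∀ v, pv v ≤ trfIdeal hc 𝔪 → ∀ a b c w : B₁, b ∉ (pv v).comap ι → w ∉ 𝔪 →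
      w * a ^ m - c * b ^ m ∈ (pv v).comap ι → ∃ d, w * a - d * b ∈ (pv v).comap ι)
    (h : H1Reg (trfIdeal hc 𝔪) (ι q) (ι u) m) : H1Reg 𝔪 q u m := by
  obtain ⟨p, π, g, w₀, w₁, w₂, e, hp, hle, hπ, hgen, hw₁, hw₂, hqe, -, hu, hw₀, hg⟩ := h
  obtain ⟨v, rfl⟩ := trf_h1Reg_prime (trfIdeal hc 𝔪) (ι q) (map_mem_trfIdeal hc hq𝔪) pv hpv hqv
    Hrad p hp hle π hπ hgen w₁ w₂ hw₁ hw₂ e hqe
  have hpow : ∀ n : ℕ, t ^ n ∉ 𝔪 := fun n h1 => ht (h𝔪.mem_of_pow_mem n h1)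
  have hmul : ∀ {x y : B₁}, x ∉ 𝔪 → y ∉ 𝔪 → x * y ∉ 𝔪 := fun hx hy h1 =>
    (h𝔪.mem_or_mem h1).elim hx hy
  obtain ⟨a, π₁, hπ₁⟩ := hc π
  obtain ⟨c, g₁, hg₁⟩ := hc g
  obtain ⟨b₀, w₀', hw₀'⟩ := hc w₀
  obtain ⟨b₁, w₁', hw₁'⟩ := hc w₁
  obtain ⟨b₂, w₂', hw₂'⟩ := hc w₂
  have hw₀'𝔪 : w₀' ∉ 𝔪 := trf_notMem_of_notMem hc hw₀ hw₀'
  have hw₁'𝔪 : w₁' ∉ 𝔪 := trf_notMem_of_notMem hc hw₁ hw₁'
  have hw₂'𝔪 : w₂' ∉ 𝔪 := trf_notMem_of_notMem hc hw₂ hw₂'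
  obtain ⟨k, rfl⟩ : ∃ k, m = k + 1 := ⟨m - 1, by omega⟩
  refine ⟨(pv v).comap ι, π₁, t ^ b₀ * g₁, t ^ (b₀ * k + c * (k + 1)) * w₀',
    w₁' * t ^ (b₂ + a * e), t ^ b₁ * w₂', e, Ideal.comap_isPrime ι (pv v),
    (trfIdeal_le_iff hc hι 𝔪 ht (pv v)).1 hle, ?_, ?_, hmul hw₁'𝔪 (hpow _),
    hmul (hpow _) hw₂'𝔪, ?_, hroot v hle, hu, hmul (hpow _) hw₀'𝔪, ?_⟩
  · rw [Ideal.mem_comap, hπ₁]
    exact (pv v).mul_mem_left _ hπ
  · intro x hx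
    exact trf_locDvd hc hι 𝔪 ht π x (hgen (ι x) hx) a π₁ hπ₁
  · apply hι
    simp only [map_mul, map_pow, hw₁', hw₂', hπ₁]
    have e1 : ι t ^ b₁ * w₁ * ι t ^ (b₂ + a * e) * ι q
        = ι t ^ (b₁ + b₂ + a * e) * (w₁ * ι q) := by ring
    rw [e1, hqe]
    ring
  · apply hι
    simp only [map_mul, map_pow, hw₀', hg₁]
    have e1 : (ι t ^ b₀ * (ι t ^ c * g)) ^ (k + 1)
        = ι t ^ (b₀ * (k + 1) + c * (k + 1)) * g ^ (k + 1) := by ring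
    rw [e1, hg]
    ring

end H1Reg

section Setup

variable {K : Type*} [Field K] {k : Type*} [Field k]
  {A : ValuationSubring K} {π : A →+* k} {κ : Type*} [Field κ] [Algebra k κ]
  {F : Type*} [Field F] [Algebra K F]

section Two

variable (S1 S2 : NodeSetup A π κ F) (hB : S1.B ≤ S2.B)

theorem trf_setup_comap_pInf (hInf : S1.vInf.O = S2.vInf.O) :
    S2.pInf.comap (Subring.inclusion hB) = S1.pInf := by
  ext x
  rw [Ideal.mem_comap, S2.mem_pInf_iff, S1.mem_pInf_iff, hInf]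
  rfl

theorem trf_setup_comap_pMid (hMid : S1.vMid.O = S2.vMid.O) :
    S2.pMid.comap (Subring.inclusion hB) = S1.pMid := by
  ext x
  rw [Ideal.mem_comap, S2.mem_pMid_iff, S1.mem_pMid_iff, hMid]
  rfl

theorem trf_setup_comap_pZero (hZero : S1.vZero.O = S2.vZero.O) :
    S2.pZero.comap (Subring.inclusion hB) = S1.pZero := by
  ext x
  rw [Ideal.mem_comap, S2.mem_pZero_iff, S1.mem_pZero_iff, hZero]
  rfl

variable {S1 S2} {hB} {t : S1.B} (hc : TrfCover (Subring.inclusion hB) t)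
  (𝔪 : Ideal S1.B) [𝔪.IsPrime] (ht : t ∉ 𝔪)

include ht in
theorem trf_setup_le_iff_inf (hInf : S1.vInf.O = S2.vInf.O) :
    S2.pInf ≤ trfIdeal hc 𝔪 ↔ S1.pInf ≤ 𝔪 := by
  rw [trfIdeal_le_iff hc (Subring.inclusion_injective hB) 𝔪 ht,
    trf_setup_comap_pInf S1 S2 hB hInf]

include ht in
theorem trf_setup_le_iff_mid (hMid : S1.vMid.O = S2.vMid.O) :
    S2.pMid ≤ trfIdeal hc 𝔪 ↔ S1.pMid ≤ 𝔪 := by
  rw [trfIdeal_le_iff hc (Subring.inclusion_injective hB) 𝔪 ht,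
    trf_setup_comap_pMid S1 S2 hB hMid]

include ht in
theorem trf_setup_le_iff_zero (hZero : S1.vZero.O = S2.vZero.O) :
    S2.pZero ≤ trfIdeal hc 𝔪 ↔ S1.pZero ≤ 𝔪 := by
  rw [trfIdeal_le_iff hc (Subring.inclusion_injective hB) 𝔪 ht,
    trf_setup_comap_pZero S1 S2 hB hZero]

omit [𝔪.IsPrime] in
/-- the nodes of `B₁` off `t = 0` are the nodes of `B₂` -/
theorem trf_setup_isNode_iff (h𝔪 : 𝔪.IsMaximal) (ht : t ∉ 𝔪)
    (hInf : S1.vInf.O = S2.vInf.O) (hZero : S1.vZero.O = S2.vZero.O) :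
    S2.IsNode (trfIdeal hc 𝔪) ↔ S1.IsNode 𝔪 := by
  haveI := h𝔪.isPrime
  constructor
  · rintro ⟨-, h⟩
    refine ⟨h𝔪, sup_le ?_ ?_⟩
    · exact (trf_setup_le_iff_inf hc 𝔪 ht hInf).1 (le_sup_left.trans h)
    · exact (trf_setup_le_iff_zero hc 𝔪 ht hZero).1 (le_sup_right.trans h)
  · rintro ⟨-, h⟩
    refine ⟨trfIdeal_isMaximal hc (Subring.inclusion_injective hB) 𝔪 h𝔪 ht, sup_le ?_ ?_⟩
    · exact (trf_setup_le_iff_inf hc 𝔪 ht hInf).2 (le_sup_left.trans h)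
    · exact (trf_setup_le_iff_zero hc 𝔪 ht hZero).2 (le_sup_right.trans h)

end Two

section Cusp

variable (S : NodeSetup A π κ F) (𝔪 : Ideal S.B) (b w : S.B)

/-- INC at a cuspidal point of `C_∞`: `b ∈ 𝔪`, `w ∉ 𝔪`, `red_mid b = red_mid w`,
`red_0 b = red_0 w` (`ρ' = b / w`). -/
theorem trf_setup_inc_cusp_inf (hb : b ∈ 𝔪) (hw : w ∉ 𝔪)
    (hMid : S.redMid b = S.redMid w) (hZero : S.redZero b = S.redZero w) :
    ¬ S.pMid ≤ 𝔪 ∧ ¬ S.pZero ≤ 𝔪 :=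
  ⟨trf_inc_cusp 𝔪 S.pMid b w hb hw (by rw [NodeSetup.pMid, RingHom.mem_ker, map_sub, hMid,
      sub_self]),
    trf_inc_cusp 𝔪 S.pZero b w hb hw (by rw [NodeSetup.pZero, RingHom.mem_ker, map_sub, hZero,
      sub_self])⟩

/-- INC at a cuspidal point of `C_0`: `b ∈ 𝔪`, `w ∉ 𝔪`, `red_∞ b = red_∞ w`,
`red_mid b = red_mid w` (`ρ = b / w`). -/
theorem trf_setup_inc_cusp_zero (hb : b ∈ 𝔪) (hw : w ∉ 𝔪)
    (hInf : S.redInf b = S.redInf w) (hMid : S.redMid b = S.redMid w) :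
    ¬ S.pInf ≤ 𝔪 ∧ ¬ S.pMid ≤ 𝔪 :=
  ⟨trf_inc_cusp 𝔪 S.pInf b w hb hw (by rw [NodeSetup.pInf, RingHom.mem_ker, map_sub, hInf,
      sub_self]),
    trf_inc_cusp 𝔪 S.pMid b w hb hw (by rw [NodeSetup.pMid, RingHom.mem_ker, map_sub, hMid,
      sub_self])⟩

/-- INC at a cuspidal point of `C_mid`: `b ∈ 𝔪`, `w ∉ 𝔪`, `red_∞ b = red_∞ w`,
`red_0 b = red_0 w`. -/
theorem trf_setup_inc_cusp_mid (hb : b ∈ 𝔪) (hw : w ∉ 𝔪)
    (hInf : S.redInf b = S.redInf w) (hZero : S.redZero b = S.redZero w) :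
    ¬ S.pInf ≤ 𝔪 ∧ ¬ S.pZero ≤ 𝔪 :=
  ⟨trf_inc_cusp 𝔪 S.pInf b w hb hw (by rw [NodeSetup.pInf, RingHom.mem_ker, map_sub, hInf,
      sub_self]),
    trf_inc_cusp 𝔪 S.pZero b w hb hw (by rw [NodeSetup.pZero, RingHom.mem_ker, map_sub, hZero,
      sub_self])⟩

end Cusp

end Setup

end Fermat.Agent.S36lib
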