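/-
Item 83 (S36), CRUX piece C-2g (helper26): **the local hypothesis `hloc` of `(h1)` over a
`NodeSetup`**, from the landed shapes of INVERT (`hhor`, helper20/helper27), REG3 (input form
`w₁ π₀ ^ e = q b`, helper5/helper10) and the root-closedness of `B ⧸ p_v`.  No sorry.

* `s36_h1_invert_at`  : INVERT at an arbitrary finite family of maximal ideals (no node
  hypothesis): `f = b g ^ m`, `b ∉ t i`;
* `s36_h1_root_nodeSetup` : `(P4)`: `g ^ m = w₀ x`, `g ∈ B`, `w₀ ∉ 𝔪`, for `x ∈ B` a unit of the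
  three valuation rings, of order divisible by `m` at the horizontal primes (`hhor`);
* `s36_h1Reg_inf / _mid / _zero` : the regular data `H1Reg 𝔪 q x m` at a maximal ideal on exactly
  one component;
* `s36_h1Reg_at` : the three cases together (trichotomy form of helper22's
  `inc_nodeSetup_trichotomy`).
-/
import Mathlib
import Fermat.Agent.S36lib.H1RegMk
import Fermat.Agent.S36lib.H1Apply
import Fermat.Agent.S36lib.InvertSetup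
import Fermat.Agent.S36lib.TransferSetup

set_option autoImplicit false
set_option linter.style.haveILetI false

noncomputable section

namespace Fermat.Agent.S36lib

section Root

universe u

variable {K : Type*} [Field K] {k : Type*} [Field k]
  {A : ValuationSubring K} {π : A →+* k} {κ : Type*} [Field κ] [Algebra k κ]
  {F : Type u} [Field F] [Algebra K F]

/-- **INVERT at an arbitrary finite family of maximal ideals** (same hypotheses as helper20's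
`s36_invert_nodeSetup`, without `hnode`): `f = b · g ^ m` with `b ∈ B` outside all the `t i`. -/
theorem s36_h1_invert_at (S : NodeSetup A π κ F) [IsNoetherianRing S.B]
    (hfrac : ∀ z : F, ∃ a b : S.B, b ≠ 0 ∧ z * (b : F) = (a : F))
    {ι : Type*} [Finite ι] [Nonempty ι] (t : ι → Ideal S.B) [∀ i, (t i).IsMaximal]
    (hinj : Function.Injective t)
    (hufd : ∀ i, UniqueFactorizationMonoid (Localization.AtPrime (t i)))
    (ϖ : A) (hϖ0 : ϖ ≠ 0) (hπϖ : π ϖ = 0)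
    (hϖK : ∀ c : K, ∃ n : ℕ, c * (ϖ : K) ^ n ∈ A)
    (Hrad : ∀ P : Ideal S.B, P.IsPrime → S.constB ϖ ∈ P →
      S.pInf ≤ P ∨ S.pMid ≤ P ∨ S.pZero ≤ P)
    (m : ℕ) (hm : 0 < m) (f : F) (hf : f ≠ 0)
    (hhor : ∀ (R : Type u) [CommRing R] [IsDomain R] [UniqueFactorizationMonoid R]
      [Algebra R F] [IsFractionRing R F] (p : R), Prime p →
      (∀ c : K, ∃ a b : R, ¬ p ∣ b ∧
        algebraMap K F c * algebraMap R F b = algebraMap R F a) →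
      ∃ v : F → ℤ, (∀ a b : F, a ≠ 0 → b ≠ 0 → v (a * b) = v a + v b) ∧
        v (algebraMap R F p) = 1 ∧
        (∀ c : R, c ≠ 0 → ¬ p ∣ c → v (algebraMap R F c) = 0) ∧ (m : ℤ) ∣ v f)
    (hInf : ∃ s u : F, u ∈ S.vInf.O ∧ u⁻¹ ∈ S.vInf.O ∧ f = u * s ^ m)
    (hMid : ∃ s u : F, u ∈ S.vMid.O ∧ u⁻¹ ∈ S.vMid.O ∧ f = u * s ^ m)
    (hZero : ∃ s u : F, u ∈ S.vZero.O ∧ u⁻¹ ∈ S.vZero.O ∧ f = u * s ^ m) :
    ∃ (g : F) (b : S.B), g ≠ 0 ∧ (∀ i, b ∉ t i) ∧ f = (b : F) * g ^ m := by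
  classical
  haveI hBF : IsFractionRing S.B F := s36_isFractionRing_of_hfrac S.B hfrac
  have hMle : s36_nodeCompl t ≤ nonZeroDivisors S.B := s36_nodeCompl_le_nonZeroDivisors t
  have hunits : ∀ y : s36_nodeCompl t, IsUnit (algebraMap S.B F y) := by
    intro y
    have hy0 : (y : S.B) ≠ 0 := nonZeroDivisors.ne_zero (hMle y.2)
    have : algebraMap S.B F y ≠ 0 := fun h0 => hy0 (Subtype.ext h0)
    exact IsUnit.mk0 _ this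
  let R := Localization (s36_nodeCompl t)
  letI algRF : Algebra R F := (IsLocalization.lift (M := s36_nodeCompl t)
    (g := algebraMap S.B F) hunits).toAlgebra
  haveI hST : IsScalarTower S.B R F := IsScalarTower.of_algebraMap_eq fun x =>
    (IsLocalization.lift_eq (M := s36_nodeCompl t) (g := algebraMap S.B F) hunits x).symm
  haveI hdom : IsDomain R := s36_isDomain_semilocalization t R
  haveI hufm : UniqueFactorizationMonoid R := s36_ufm_semilocalization t R hinj hufd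
  haveI hRF : IsFractionRing R F :=
    IsFractionRing.isFractionRing_of_isDomain_of_isLocalization (s36_nodeCompl t) R F
  have hq0 : S.constB ϖ ≠ 0 := by
    intro h0
    have h1 : ((S.constB ϖ : S.B) : F) = 0 := by rw [h0]; rfl
    rw [S.coe_constB] at h1
    have h2 : (ϖ : K) = 0 := (map_eq_zero (algebraMap K F)).1 h1
    exact hϖ0 (Subtype.ext h2)
  have hqInf : S.constB ϖ ∈ S.pInf := by
    show S.redInf (S.constB ϖ) = 0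
    rw [S.redInf_constB, hπϖ, map_zero]
  have hqMid : S.constB ϖ ∈ S.pMid := by
    show S.redMid (S.constB ϖ) = 0
    rw [S.redMid_constB, hπϖ, map_zero]
  have hqZero : S.constB ϖ ∈ S.pZero := by
    show S.redZero (S.constB ϖ) = 0
    rw [S.redZero_constB, hπϖ, map_zero]
  have hne : ∀ p : Ideal S.B, S.constB ϖ ∈ p → p ≠ ⊥ := by
    intro p hp h0
    rw [h0, Ideal.mem_bot] at hp
    exact hq0 hp
  obtain ⟨g, b, hg, hb, hfb⟩ := s36_invert_semilocal (B := S.B) (R := R) (F := F) t m hm f hf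
    (algebraMap S.B R (S.constB ϖ)) (by
      intro p hp hpq
      refine hhor R p hp ?_
      intro c
      obtain ⟨n, hn⟩ := hϖK c
      refine ⟨algebraMap S.B R (S.constB ⟨_, hn⟩), (algebraMap S.B R (S.constB ϖ)) ^ n, ?_, ?_⟩
      · intro hdvd
        exact hpq (hp.dvd_of_dvd_pow hdvd)
      · rw [map_pow, s36_algebraMap_R_F, s36_algebraMap_R_F, S.coe_constB, S.coe_constB,
          ← map_pow, ← map_mul]) (by
      intro p hp hdvd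
      have hPprime : ((Ideal.span {p}).comap (algebraMap S.B R)).IsPrime :=
        Ideal.comap_isPrime _ _ (H := (Ideal.span_singleton_prime hp.ne_zero).2 hp)
      have hqP : S.constB ϖ ∈ (Ideal.span {p}).comap (algebraMap S.B R) :=
        Ideal.mem_span_singleton.2 hdvd
      rcases Hrad _ hPprime hqP with h | h | h
      · obtain ⟨h1, h2, h3⟩ := s36_vertical_prime S.B t S.vInf.O S.B_le_inf S.pInf
          S.mem_pInf_iff (hne _ hqInf) p hp h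
        exact ⟨S.vInf.O, h1, h2, h3, hInf⟩
      · obtain ⟨h1, h2, h3⟩ := s36_vertical_prime S.B t S.vMid.O S.B_le_mid S.pMid
          S.mem_pMid_iff (hne _ hqMid) p hp h
        exact ⟨S.vMid.O, h1, h2, h3, hMid⟩
      · obtain ⟨h1, h2, h3⟩ := s36_vertical_prime S.B t S.vZero.O S.B_le_zero S.pZero
          S.mem_pZero_iff (hne _ hqZero) p hp h
        exact ⟨S.vZero.O, h1, h2, h3, hZero⟩)
  exact ⟨g, b, hg, (s36_mem_nodeCompl t).1 hb, hfb⟩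

/-- an element of `B` with nonzero reduction is a unit of the valuation ring -/
theorem s36_h1_unit_inf (S : NodeSetup A π κ F) (x : S.B) (hx : S.redInf x ≠ 0) (m : ℕ) :
    ∃ s u : F, u ∈ S.vInf.O ∧ u⁻¹ ∈ S.vInf.O ∧ (x : F) = u * s ^ m :=
  ⟨1, (x : F), S.B_le_inf x.2, s36_unit_of_notMem_nonunits S.vInf.O (S.B_le_inf x.2)
    (fun h => hx ((S.mem_pInf_iff x).2 h)), by rw [one_pow, mul_one]⟩

theorem s36_h1_unit_mid (S : NodeSetup A π κ F) (x : S.B) (hx : S.redMid x ≠ 0) (m : ℕ) :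
    ∃ s u : F, u ∈ S.vMid.O ∧ u⁻¹ ∈ S.vMid.O ∧ (x : F) = u * s ^ m :=
  ⟨1, (x : F), S.B_le_mid x.2, s36_unit_of_notMem_nonunits S.vMid.O (S.B_le_mid x.2)
    (fun h => hx ((S.mem_pMid_iff x).2 h)), by rw [one_pow, mul_one]⟩

theorem s36_h1_unit_zero (S : NodeSetup A π κ F) (x : S.B) (hx : S.redZero x ≠ 0) (m : ℕ) :
    ∃ s u : F, u ∈ S.vZero.O ∧ u⁻¹ ∈ S.vZero.O ∧ (x : F) = u * s ^ m :=
  ⟨1, (x : F), S.B_le_zero x.2, s36_unit_of_notMem_nonunits S.vZero.O (S.B_le_zero x.2)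
    (fun h => hx ((S.mem_pZero_iff x).2 h)), by rw [one_pow, mul_one]⟩

/-- **`(P4)` over a `NodeSetup`.**  `x ∈ B` a unit of the three valuation rings, of order
divisible by `m` at every horizontal prime (`hhor`, the M-2 form of INVERT).  At a maximal ideal
`𝔪` with `B_𝔪` factorial: `g ^ m = w₀ x` with `g ∈ B`, `w₀ ∉ 𝔪`. -/
theorem s36_h1_root_nodeSetup (S : NodeSetup A π κ F) [IsNoetherianRing S.B]
    (hfrac : ∀ z : F, ∃ a b : S.B, b ≠ 0 ∧ z * (b : F) = (a : F))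
    (ϖ : A) (hϖ0 : ϖ ≠ 0) (hπϖ : π ϖ = 0)
    (hϖK : ∀ c : K, ∃ n : ℕ, c * (ϖ : K) ^ n ∈ A)
    (Hrad : ∀ P : Ideal S.B, P.IsPrime → S.constB ϖ ∈ P →
      S.pInf ≤ P ∨ S.pMid ≤ P ∨ S.pZero ≤ P)
    (m : ℕ) (hm : 0 < m) (hroot : ∀ z : F, z ^ m ∈ S.B → z ∈ S.B)
    (x : S.B) (hxI : S.redInf x ≠ 0) (hxM : S.redMid x ≠ 0) (hxZ : S.redZero x ≠ 0)
    (hhor : ∀ (R : Type u) [CommRing R] [IsDomain R] [UniqueFactorizationMonoid R]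
      [Algebra R F] [IsFractionRing R F] (p : R), Prime p →
      (∀ c : K, ∃ a b : R, ¬ p ∣ b ∧
        algebraMap K F c * algebraMap R F b = algebraMap R F a) →
      ∃ v : F → ℤ, (∀ a b : F, a ≠ 0 → b ≠ 0 → v (a * b) = v a + v b) ∧
        v (algebraMap R F p) = 1 ∧
        (∀ c : R, c ≠ 0 → ¬ p ∣ c → v (algebraMap R F c) = 0) ∧ (m : ℤ) ∣ v (x : F))
    (𝔪 : Ideal S.B) [h𝔪 : 𝔪.IsMaximal]
    (hufd : UniqueFactorizationMonoid (Localization.AtPrime 𝔪)) :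
    ∃ g w₀ : S.B, w₀ ∉ 𝔪 ∧ g ^ m = w₀ * x := by
  haveI : ∀ i : Unit, ((fun _ : Unit => 𝔪) i).IsMaximal := fun _ => h𝔪
  have hxF : ((x : S.B) : F) ≠ 0 := by
    intro h0
    apply hxI
    have : x = 0 := Subtype.ext h0
    rw [this, map_zero]
  obtain ⟨g, b, -, hb, hxb⟩ := s36_h1_invert_at S hfrac (fun _ : Unit => 𝔪)
    (fun a b _ => Subsingleton.elim a b) (fun _ => hufd) ϖ hϖ0 hπϖ hϖK Hrad m hm (x : F) hxF
    hhor (s36_h1_unit_inf S x hxI m) (s36_h1_unit_mid S x hxM m) (s36_h1_unit_zero S x hxZ m)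
  have hb𝔪 : b ∉ 𝔪 := hb ()
  have hm1 : m = (m - 1) + 1 := by omega
  have hz : ((b : F) * g) ^ m ∈ S.B := by
    have e1 : ((b : F) * g) ^ m = (((b ^ (m - 1) * x : S.B)) : F) := by
      push_cast
      rw [hxb, mul_pow]
      have : (b : F) ^ m = (b : F) ^ (m - 1) * (b : F) := by rw [← pow_succ, ← hm1]
      rw [this]
      ring
    rw [e1]
    exact (b ^ (m - 1) * x).2
  refine ⟨⟨_, hroot _ hz⟩, b ^ (m - 1), ?_, ?_⟩
  · haveI := h𝔪.isPrime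
    exact h1_pow_notMem hb𝔪 _
  · apply Subtype.ext
    push_cast
    rw [hxb, mul_pow]
    have : (b : F) ^ m = (b : F) ^ (m - 1) * (b : F) := by rw [← pow_succ, ← hm1]
    rw [this]
    ring


/-- **the regular local data at a maximal ideal on the component `p`** (core form): `p` one of
the vertical primes with `B ⧸ p` integrally closed, `p B_𝔪 = π₀ B_𝔪`, `w π₀ ^ e = q b` with
`w, b ∉ 𝔪`, `B_𝔪` factorial. -/
theorem s36_h1Reg_core (S : NodeSetup A π κ F) [IsNoetherianRing S.B]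
    (hfrac : ∀ z : F, ∃ a b : S.B, b ≠ 0 ∧ z * (b : F) = (a : F))
    (ϖ : A) (hϖ0 : ϖ ≠ 0) (hπϖ : π ϖ = 0)
    (hϖK : ∀ c : K, ∃ n : ℕ, c * (ϖ : K) ^ n ∈ A)
    (Hrad : ∀ P : Ideal S.B, P.IsPrime → S.constB ϖ ∈ P →
      S.pInf ≤ P ∨ S.pMid ≤ P ∨ S.pZero ≤ P)
    (m : ℕ) (hm : 0 < m) (hroot : ∀ z : F, z ^ m ∈ S.B → z ∈ S.B)
    (x : S.B) (hxI : S.redInf x ≠ 0) (hxM : S.redMid x ≠ 0) (hxZ : S.redZero x ≠ 0)
    (hhor : ∀ (R : Type u) [CommRing R] [IsDomain R] [UniqueFactorizationMonoid R]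
      [Algebra R F] [IsFractionRing R F] (p : R), Prime p →
      (∀ c : K, ∃ a b : R, ¬ p ∣ b ∧
        algebraMap K F c * algebraMap R F b = algebraMap R F a) →
      ∃ v : F → ℤ, (∀ a b : F, a ≠ 0 → b ≠ 0 → v (a * b) = v a + v b) ∧
        v (algebraMap R F p) = 1 ∧
        (∀ c : R, c ≠ 0 → ¬ p ∣ c → v (algebraMap R F c) = 0) ∧ (m : ℤ) ∣ v (x : F))
    (𝔪 : Ideal S.B) [h𝔪 : 𝔪.IsMaximal]
    (hufd : UniqueFactorizationMonoid (Localization.AtPrime 𝔪))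
    (q : S.B) (p : Ideal S.B) [hp : p.IsPrime] [IsIntegrallyClosed (S.B ⧸ p)] (hp𝔪 : p ≤ 𝔪)
    (hxp : x ∉ p) (π₀ : S.B) (hπ₀ : π₀ ∈ p)
    (hgen : ∀ z ∈ p, ∃ w' c : S.B, w' ∉ 𝔪 ∧ w' * z = π₀ * c)
    (w b : S.B) (e : ℕ) (hw : w ∉ 𝔪) (hb : b ∉ 𝔪) (hπ : w * π₀ ^ e = q * b) :
    H1Reg 𝔪 q x m := by
  obtain ⟨g, w₀, hw₀, hg⟩ := s36_h1_root_nodeSetup S hfrac ϖ hϖ0 hπϖ hϖK Hrad m hm hroot x
    hxI hxM hxZ hhor 𝔪 hufd
  refine ⟨p, π₀, g, w₀, b, w, e, hp, hp𝔪, hπ₀, ?_, hb, hw, ?_, ?_, hxp, hw₀, hg⟩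
  · intro z hz
    obtain ⟨w', c, hw', hc⟩ := hgen z hz
    exact ⟨w', hw', c, hc⟩
  · rw [mul_comm b q, ← hπ]
  · intro a b' c w' hb' _ h
    exact trf_rootClosed_of_isIntegrallyClosed p m hm a b' c w' hb' h

variable {S : NodeSetup A π κ F} {q : S.B} {e : ℕ}

/-- **the regular local data of `(h1)` at a maximal ideal `𝔪 ∋ q` on exactly one component.**
On `C_∞` and `C_0` the generator is `q`; on `C_mid` the REG3 input `w₁ π₀ ^ e = q b`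
(helper5's `Reg3CountHyp.exists_input`, `reg3_cusp_input`) is a hypothesis. -/
theorem s36_h1Reg_at (H : Reg3Hyp S q e) [IsNoetherianRing S.B]
    [IsIntegrallyClosed (S.B ⧸ S.pInf)] [IsIntegrallyClosed (S.B ⧸ S.pMid)]
    [IsIntegrallyClosed (S.B ⧸ S.pZero)]
    (hfrac : ∀ z : F, ∃ a b : S.B, b ≠ 0 ∧ z * (b : F) = (a : F))
    (ϖ : A) (hϖ0 : ϖ ≠ 0) (hπϖ : π ϖ = 0)
    (hϖK : ∀ c : K, ∃ n : ℕ, c * (ϖ : K) ^ n ∈ A)
    (Hrad : ∀ P : Ideal S.B, P.IsPrime → S.constB ϖ ∈ P →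
      S.pInf ≤ P ∨ S.pMid ≤ P ∨ S.pZero ≤ P)
    (m : ℕ) (hm : 0 < m) (hroot : ∀ z : F, z ^ m ∈ S.B → z ∈ S.B)
    (x : S.B) (hxI : S.redInf x ≠ 0) (hxM : S.redMid x ≠ 0) (hxZ : S.redZero x ≠ 0)
    (hhor : ∀ (R : Type u) [CommRing R] [IsDomain R] [UniqueFactorizationMonoid R]
      [Algebra R F] [IsFractionRing R F] (p : R), Prime p →
      (∀ c : K, ∃ a b : R, ¬ p ∣ b ∧
        algebraMap K F c * algebraMap R F b = algebraMap R F a) →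
      ∃ v : F → ℤ, (∀ a b : F, a ≠ 0 → b ≠ 0 → v (a * b) = v a + v b) ∧
        v (algebraMap R F p) = 1 ∧
        (∀ c : R, c ≠ 0 → ¬ p ∣ c → v (algebraMap R F c) = 0) ∧ (m : ℤ) ∣ v (x : F))
    (𝔪 : Ideal S.B) [h𝔪 : 𝔪.IsMaximal]
    (hufd : UniqueFactorizationMonoid (Localization.AtPrime 𝔪))
    (htri : (S.pInf ≤ 𝔪 ∧ ¬ S.pMid ≤ 𝔪 ∧ ¬ S.pZero ≤ 𝔪) ∨
      (¬ S.pInf ≤ 𝔪 ∧ S.pMid ≤ 𝔪 ∧ ¬ S.pZero ≤ 𝔪) ∨
      (¬ S.pInf ≤ 𝔪 ∧ ¬ S.pMid ≤ 𝔪 ∧ S.pZero ≤ 𝔪))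
    (hmid : S.pMid ≤ 𝔪 → ¬ S.pInf ≤ 𝔪 → ¬ S.pZero ≤ 𝔪 →
      ∃ π₀ w₁ b : S.B, π₀ ∈ S.pMid ∧ w₁ ∉ 𝔪 ∧ b ∉ 𝔪 ∧ w₁ * π₀ ^ e = q * b) :
    H1Reg 𝔪 q x m := by
  haveI : 𝔪.IsPrime := h𝔪.isPrime
  have h1 : (1 : S.B) ∉ 𝔪 := h1_one_notMem 𝔪
  rcases htri with ⟨hI, hM, hZ⟩ | ⟨hI, hM, hZ⟩ | ⟨hI, hM, hZ⟩
  · exact s36_h1Reg_core S hfrac ϖ hϖ0 hπϖ hϖK Hrad m hm hroot x hxI hxM hxZ hhor 𝔪 hufd q
      S.pInf hI (fun h => hxI h) q H.q_inf (reg3_inf_dvd H 𝔪 hI hM hZ) 1 1 1 h1 h1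
      (by rw [pow_one, one_mul, mul_one])
  · obtain ⟨π₀, w₁, b, hπ₀, hw₁, hb, hπ⟩ := hmid hM hI hZ
    exact s36_h1Reg_core S hfrac ϖ hϖ0 hπϖ hϖK Hrad m hm hroot x hxI hxM hxZ hhor 𝔪 hufd q
      S.pMid hM (fun h => hxM h) π₀ hπ₀ (reg3_mid_dvd H 𝔪 hM hI hZ π₀ w₁ b hb hπ) w₁ b e hw₁ hb
      hπ
  · exact s36_h1Reg_core S hfrac ϖ hϖ0 hπϖ hϖK Hrad m hm hroot x hxI hxM hxZ hhor 𝔪 hufd q
      S.pZero hZ (fun h => hxZ h) q H.q_zero (reg3_zero_dvd H 𝔪 hZ hI hM) 1 1 1 h1 h1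
      (by rw [pow_one, one_mul, mul_one])

/-- **the hypothesis `hloc` of `s36_h1_apply`**: at every maximal ideal `𝔪 ∋ q` of `B`, either
`x ∉ 𝔪` (nodes) or the regular data `H1Reg 𝔪 q x m`.  Inputs: the trichotomy (helper22's
`inc_nodeSetup_trichotomy`), factoriality of `B_𝔪` and the REG3 input on `C_mid` off the
nodes, INVERT's `hhor` for `x`. -/
theorem s36_h1_hloc (H : Reg3Hyp S q e) [IsNoetherianRing S.B]
    [IsIntegrallyClosed (S.B ⧸ S.pInf)] [IsIntegrallyClosed (S.B ⧸ S.pMid)]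
    [IsIntegrallyClosed (S.B ⧸ S.pZero)]
    (hfrac : ∀ z : F, ∃ a b : S.B, b ≠ 0 ∧ z * (b : F) = (a : F))
    (ϖ : A) (hϖ0 : ϖ ≠ 0) (hπϖ : π ϖ = 0)
    (hϖK : ∀ c : K, ∃ n : ℕ, c * (ϖ : K) ^ n ∈ A)
    (Hrad : ∀ P : Ideal S.B, P.IsPrime → S.constB ϖ ∈ P →
      S.pInf ≤ P ∨ S.pMid ≤ P ∨ S.pZero ≤ P)
    (m : ℕ) (hm : 0 < m) (hroot : ∀ z : F, z ^ m ∈ S.B → z ∈ S.B)
    (x : S.B) (hxu : S.IsUnitAtNodes x)
    (hxI : S.redInf x ≠ 0) (hxM : S.redMid x ≠ 0) (hxZ : S.redZero x ≠ 0)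
    (hhor : ∀ (R : Type u) [CommRing R] [IsDomain R] [UniqueFactorizationMonoid R]
      [Algebra R F] [IsFractionRing R F] (p : R), Prime p →
      (∀ c : K, ∃ a b : R, ¬ p ∣ b ∧
        algebraMap K F c * algebraMap R F b = algebraMap R F a) →
      ∃ v : F → ℤ, (∀ a b : F, a ≠ 0 → b ≠ 0 → v (a * b) = v a + v b) ∧
        v (algebraMap R F p) = 1 ∧
        (∀ c : R, c ≠ 0 → ¬ p ∣ c → v (algebraMap R F c) = 0) ∧ (m : ℤ) ∣ v (x : F))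
    (htri : ∀ 𝔪 : Ideal S.B, 𝔪.IsMaximal → q ∈ 𝔪 → S.IsNode 𝔪 ∨
      (S.pInf ≤ 𝔪 ∧ ¬ S.pMid ≤ 𝔪 ∧ ¬ S.pZero ≤ 𝔪) ∨
      (¬ S.pInf ≤ 𝔪 ∧ S.pMid ≤ 𝔪 ∧ ¬ S.pZero ≤ 𝔪) ∨
      (¬ S.pInf ≤ 𝔪 ∧ ¬ S.pMid ≤ 𝔪 ∧ S.pZero ≤ 𝔪))
    (hufd : ∀ (𝔪 : Ideal S.B) [𝔪.IsMaximal], q ∈ 𝔪 → ¬ S.IsNode 𝔪 → x ∈ 𝔪 →
      UniqueFactorizationMonoid (Localization.AtPrime 𝔪))
    (hmid : ∀ 𝔪 : Ideal S.B, 𝔪.IsMaximal → q ∈ 𝔪 → x ∈ 𝔪 →
      S.pMid ≤ 𝔪 → ¬ S.pInf ≤ 𝔪 → ¬ S.pZero ≤ 𝔪 →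
      ∃ π₀ w₁ b : S.B, π₀ ∈ S.pMid ∧ w₁ ∉ 𝔪 ∧ b ∉ 𝔪 ∧ w₁ * π₀ ^ e = q * b) :
    ∀ 𝔪 : Ideal S.B, 𝔪.IsMaximal → q ∈ 𝔪 → x ∉ 𝔪 ∨ H1Reg 𝔪 q x m := by
  intro 𝔪 h𝔪 hq𝔪
  by_cases hx𝔪 : x ∈ 𝔪
  swap
  · exact Or.inl hx𝔪
  right
  have hnode : ¬ S.IsNode 𝔪 := fun hn => hxu.notMem S hn hx𝔪
  rcases htri 𝔪 h𝔪 hq𝔪 with hn | h3
  · exact absurd hn hnode
  · haveI := h𝔪
    exact s36_h1Reg_at H hfrac ϖ hϖ0 hπϖ hϖK Hrad m hm hroot x hxI hxM hxZ hhor 𝔪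
      (hufd 𝔪 hq𝔪 hnode hx𝔪) h3 (hmid 𝔪 h𝔪 hq𝔪 hx𝔪)

end Root

section Head

variable {K : Type*} [Field K] {k : Type*} [Field k]
  {A : ValuationSubring K} {π : A →+* k} {κ : Type*} [Field κ] [Algebra k κ]
  {F : Type*} [Field F] [Algebra K F] {S : NodeSetup A π κ F} {q : S.B} {e : ℕ}

/-- **the head of the crux.**  `b, s ∈ B` with `b ^ E ≡ s ^ m` modulo `p_∞ ∩ p_mid ∩ p_0`
(GLUE-s, helper3's `s36_glue_tor_adapt`), `s` with nonzero reductions, and the local hypothesis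
`hloc` for `b`.  Then `u₁ := b ^ (E qN) · h₀ ^ m` lies in `B ∩ (1 + q B)` for a unit `h₀` of the
ball `O_∞ ∩ O_mid ∩ O_0`. -/
theorem s36_h1_head (H : Reg3Hyp S q e) (qN : ℕ) (hqN : qN.Prime)
    (hq : q = ((qN : ℕ) : S.B)) (he : e ≤ qN) (m : ℕ) (hm : 0 < m) (hmq : Nat.Coprime m qN)
    (hroot : ∀ z : F, z ^ m ∈ S.B → z ∈ S.B) (b s : S.B) (E : ℕ)
    (hbs : b ^ E - s ^ m ∈ S.pInf ⊓ S.pMid ⊓ S.pZero)
    (hsI : S.redInf s ≠ 0) (hsM : S.redMid s ≠ 0) (hsZ : S.redZero s ≠ 0)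
    (hloc : ∀ 𝔪 : Ideal S.B, 𝔪.IsMaximal → q ∈ 𝔪 → b ∉ 𝔪 ∨ H1Reg 𝔪 q b m) :
    ∃ (h₀ : F) (u₁ y : S.B), h₀ ≠ 0 ∧ h₀ ∈ S.ball ∧ h₀⁻¹ ∈ S.ball ∧
      (u₁ : F) = (b : F) ^ (E * qN) * h₀ ^ m ∧ u₁ = 1 + q * y := by
  have hI : S.redInf (b ^ E) = S.redInf s ^ m := by
    have h : b ^ E - s ^ m ∈ S.pInf := (Ideal.mem_inf.1 (Ideal.mem_inf.1 hbs).1).1
    rw [NodeSetup.pInf, RingHom.mem_ker, map_sub, sub_eq_zero] at h
    rw [h, map_pow]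
  have hM : S.redMid (b ^ E) = S.redMid s ^ m := by
    have h : b ^ E - s ^ m ∈ S.pMid := (Ideal.mem_inf.1 (Ideal.mem_inf.1 hbs).1).2
    rw [NodeSetup.pMid, RingHom.mem_ker, map_sub, sub_eq_zero] at h
    rw [h, map_pow]
  have hZ : S.redZero (b ^ E) = S.redZero s ^ m := by
    have h : b ^ E - s ^ m ∈ S.pZero := (Ideal.mem_inf.1 hbs).2
    rw [NodeSetup.pZero, RingHom.mem_ker, map_sub, sub_eq_zero] at h
    rw [h, map_pow]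
  have hloc' : ∀ 𝔪 : Ideal S.B, 𝔪.IsMaximal → q ∈ 𝔪 → b ^ E ∉ 𝔪 ∨ H1Reg 𝔪 q (b ^ E) m := by
    intro 𝔪 h𝔪 hq𝔪
    haveI : 𝔪.IsPrime := h𝔪.isPrime
    rcases hloc 𝔪 h𝔪 hq𝔪 with h | h
    · exact Or.inl (h1_pow_notMem h E)
    · exact Or.inr (h.pow E)
  obtain ⟨h₀, hh0, hhO, hhO', hmem, -, z, hz, hu⟩ := s36_h1_apply H qN hqN hq he m hm hmq hroot
    (b ^ E) s hI hM hZ hsI hsM hsZ hloc'
  have hzB : z ∈ S.B := by
    refine H.sat z hz ?_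
    have : (q : F) * z = (b : F) ^ (E * qN) * h₀ ^ m - 1 := by
      have e1 : (((b ^ E : S.B) : S.B) : F) ^ qN = (b : F) ^ (E * qN) := by
        push_cast
        rw [← pow_mul]
      rw [e1] at hu
      rw [hu]
      ring
    rw [this]
    have e1 : (((b ^ E : S.B) : S.B) : F) ^ qN = (b : F) ^ (E * qN) := by
      push_cast
      rw [← pow_mul]
    rw [e1] at hmem
    exact S.B.sub_mem hmem S.B.one_mem
  have e1 : (((b ^ E : S.B) : S.B) : F) ^ qN = (b : F) ^ (E * qN) := by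
    push_cast
    rw [← pow_mul]
  rw [e1] at hmem hu
  refine ⟨h₀, ⟨_, hmem⟩, ⟨z, hzB⟩, hh0, hhO, hhO', rfl, ?_⟩
  apply Subtype.ext
  push_cast
  exact hu

end Head

end Fermat.Agent.S36lib

end
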