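/-
Item 83 (S36), CRUX piece C-2h (helper26): **the HEAD of the crux over a setup on `F0(L)`**
(`K = K0`, `A = A0`, `F = F0(L)`): the hypothesis `hhead` of helper16's `ctl_a2crux`.

* `s36_hhead_of_glue` : for `b ∈ B` a unit at the nodes with `m ∣ ord_P b` at all places, and
  `s ∈ B` a unit at the nodes with `b ^ E ≡ s ^ m` modulo `p_∞ ∩ p_mid ∩ p_0` (GLUE-s ∘ TOR):
  `b ^ (E q) · h₀ ^ m ∈ B ∩ (1 + q B)`;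
* `s36_hhead` : the same for all `b`, from `htor` (`= ∃ s` as above) — literally `hhead`.

Inputs on the setup: `Reg3Hyp` (saturation + ramification `1, ≤ e, 1`), Noetherian, `hfrac`,
`harch`, root-closedness of `B` in `F` and of the three `B ⧸ p_v`, the trichotomy (INC), and at
the non-nodal maximal ideals `𝔪 ∋ q`: factoriality of `B_𝔪` and (on `C_mid`) the REG3 input
`w₁ π₀ ^ e = q b`.  No sorry.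
-/
import Mathlib
import Fermat.Agent.S36lib.H1Loc
import Fermat.Agent.S36lib.Apply2Invert
import Fermat.Agent.S36lib.PlaceDictFF

set_option autoImplicit false
set_option linter.style.haveILetI false
set_option linter.unusedSectionVars false

noncomputable section

namespace Fermat.Agent.S36lib

open ModularCurve AlgebraicCurve
open Fermat.Agent.S24lib Fermat.Agent.S34lib Fermat.Agent.GoodRed

variable (A : ValuationSubring Kbar) (q : ℕ)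
variable {L : ℕ} [NeZero L] {κ : Type*} [Field κ] [Algebra (IsLocalRing.ResidueField A) κ]

/-- **the head for one `b`**, from the output `s` of GLUE-s. -/
theorem s36_hhead_of_glue (S : NodeSetup (k0Val A) (k0Res A) κ (f0Field A L))
    (hq : q.Prime) (hA : A.LiesOverPrime q) [IsNoetherianRing S.B]
    [IsIntegrallyClosed (S.B ⧸ S.pInf)] [IsIntegrallyClosed (S.B ⧸ S.pMid)]
    [IsIntegrallyClosed (S.B ⧸ S.pZero)]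
    (hfrac : ∀ z : f0Field A L, ∃ a b : S.B, b ≠ 0 ∧ z * (b : f0Field A L) = (a : f0Field A L))
    (harchInf : ∀ z ∈ S.vInf.O.nonunits, ∃ n : ℕ, z ^ n * (algebraMap (k0Field A) (f0Field A L)
      ((((q : k0Val A) : k0Val A) : k0Field A)))⁻¹ ∈ S.vInf.O)
    (harchMid : ∀ z ∈ S.vMid.O.nonunits, ∃ n : ℕ, z ^ n * (algebraMap (k0Field A) (f0Field A L)
      ((((q : k0Val A) : k0Val A) : k0Field A)))⁻¹ ∈ S.vMid.O)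
    (harchZero : ∀ z ∈ S.vZero.O.nonunits, ∃ n : ℕ, z ^ n * (algebraMap (k0Field A) (f0Field A L)
      ((((q : k0Val A) : k0Val A) : k0Field A)))⁻¹ ∈ S.vZero.O)
    (e : ℕ) (H : Reg3Hyp S (S.constB (q : k0Val A)) e) (he : e ≤ q)
    (m : ℕ) (hm : 0 < m) (hmq : Nat.Coprime m q)
    (hroot : ∀ z : f0Field A L, z ^ m ∈ S.B → z ∈ S.B)
    (htri : ∀ 𝔪 : Ideal S.B, 𝔪.IsMaximal → S.constB (q : k0Val A) ∈ 𝔪 → S.IsNode 𝔪 ∨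
      (S.pInf ≤ 𝔪 ∧ ¬ S.pMid ≤ 𝔪 ∧ ¬ S.pZero ≤ 𝔪) ∨
      (¬ S.pInf ≤ 𝔪 ∧ S.pMid ≤ 𝔪 ∧ ¬ S.pZero ≤ 𝔪) ∨
      (¬ S.pInf ≤ 𝔪 ∧ ¬ S.pMid ≤ 𝔪 ∧ S.pZero ≤ 𝔪))
    (hufd : ∀ (𝔪 : Ideal S.B) [𝔪.IsMaximal], S.constB (q : k0Val A) ∈ 𝔪 → ¬ S.IsNode 𝔪 →
      UniqueFactorizationMonoid (Localization.AtPrime 𝔪))
    (hmid : ∀ 𝔪 : Ideal S.B, 𝔪.IsMaximal → S.constB (q : k0Val A) ∈ 𝔪 →
      S.pMid ≤ 𝔪 → ¬ S.pInf ≤ 𝔪 → ¬ S.pZero ≤ 𝔪 →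
      ∃ π₀ w₁ b : S.B, π₀ ∈ S.pMid ∧ w₁ ∉ 𝔪 ∧ b ∉ 𝔪 ∧
        w₁ * π₀ ^ e = S.constB (q : k0Val A) * b)
    (E : ℕ) (b : S.B) (hbu : S.IsUnitAtNodes b)
    (hbI : S.redInf b ≠ 0) (hbM : S.redMid b ≠ 0) (hbZ : S.redZero b ≠ 0)
    (hord : ∀ P : Place Kbar (FF L), (m : ℤ) ∣ P.ord (((b : f0Field A L)) : FF L))
    (s : S.B) (hsI : S.redInf s ≠ 0) (hsM : S.redMid s ≠ 0) (hsZ : S.redZero s ≠ 0)
    (hbs : b ^ E - s ^ m ∈ S.pInf ⊓ S.pMid ⊓ S.pZero) :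
    ∃ h₀ : f0Field A L, h₀ ≠ 0 ∧ (b : f0Field A L) ^ (E * q) * h₀ ^ m ∈ S.B ∧
      ∃ z : f0Field A L, z ∈ S.B ∧
        (b : f0Field A L) ^ (E * q) * h₀ ^ m = 1 + a2iQ A q (L := L) * z := by
  have hqcast : S.constB (q : k0Val A) = ((q : ℕ) : S.B) := map_natCast S.constB q
  have hsat : ∀ w : f0Field A L, w ∈ S.ball →
      algebraMap (k0Field A) (f0Field A L) ((((q : k0Val A) : k0Val A) : k0Field A)) * w ∈ S.B →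
        w ∈ S.B := fun w hw hqw => H.sat w hw hqw
  have Hrad := s36_hrad_of_saturated S (q : k0Val A) (a2i_q_ne_zero A q hq) hsat harchInf
    harchMid harchZero
  have hloc := s36_h1_hloc H hfrac (q : k0Val A) (a2i_q_ne_zero A q hq) (a2i_res_q A q hA)
    (fun c => a2i_exists_pow_mem A q hq hA c) Hrad m hm hroot b hbu hbI hbM hbZ
    (fun R _ _ _ _ _ p hp h => pd_hhor_FF A L m (b : f0Field A L) hord R p hp h)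
    htri (fun 𝔪 _ hq𝔪 hn _ => hufd 𝔪 hq𝔪 hn) (fun 𝔪 h𝔪 hq𝔪 _ => hmid 𝔪 h𝔪 hq𝔪)
  obtain ⟨h₀, u₁, y, hh0, -, -, hu₁, huy⟩ := s36_h1_head H q hq hqcast he m hm hmq hroot b s E
    hbs hsI hsM hsZ hloc
  refine ⟨h₀, hh0, ?_, (y : f0Field A L), y.2, ?_⟩
  · rw [← hu₁]
    exact u₁.2
  · rw [← hu₁, huy]
    rfl

/-- **the head of the crux**: the hypothesis `hhead` of `ctl_a2crux`, from `htor`
(GLUE-s ∘ TOR ∘ ABEL: `b ^ E ≡ s ^ m` modulo the three vertical primes, `s` with nonzero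
reductions) and the regular data off the nodes. -/
theorem s36_hhead (S : NodeSetup (k0Val A) (k0Res A) κ (f0Field A L))
    (hq : q.Prime) (hA : A.LiesOverPrime q) [IsNoetherianRing S.B]
    [IsIntegrallyClosed (S.B ⧸ S.pInf)] [IsIntegrallyClosed (S.B ⧸ S.pMid)]
    [IsIntegrallyClosed (S.B ⧸ S.pZero)]
    (hfrac : ∀ z : f0Field A L, ∃ a b : S.B, b ≠ 0 ∧ z * (b : f0Field A L) = (a : f0Field A L))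
    (harchInf : ∀ z ∈ S.vInf.O.nonunits, ∃ n : ℕ, z ^ n * (algebraMap (k0Field A) (f0Field A L)
      ((((q : k0Val A) : k0Val A) : k0Field A)))⁻¹ ∈ S.vInf.O)
    (harchMid : ∀ z ∈ S.vMid.O.nonunits, ∃ n : ℕ, z ^ n * (algebraMap (k0Field A) (f0Field A L)
      ((((q : k0Val A) : k0Val A) : k0Field A)))⁻¹ ∈ S.vMid.O)
    (harchZero : ∀ z ∈ S.vZero.O.nonunits, ∃ n : ℕ, z ^ n * (algebraMap (k0Field A) (f0Field A L)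
      ((((q : k0Val A) : k0Val A) : k0Field A)))⁻¹ ∈ S.vZero.O)
    (e : ℕ) (H : Reg3Hyp S (S.constB (q : k0Val A)) e) (he : e ≤ q)
    (m : ℕ) (hm : 0 < m) (hmq : Nat.Coprime m q)
    (hroot : ∀ z : f0Field A L, z ^ m ∈ S.B → z ∈ S.B)
    (hnode : ∃ t : Ideal S.B, S.IsNode t ∧ S.pMid ≤ t)
    (htri : ∀ 𝔪 : Ideal S.B, 𝔪.IsMaximal → S.constB (q : k0Val A) ∈ 𝔪 → S.IsNode 𝔪 ∨
      (S.pInf ≤ 𝔪 ∧ ¬ S.pMid ≤ 𝔪 ∧ ¬ S.pZero ≤ 𝔪) ∨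
      (¬ S.pInf ≤ 𝔪 ∧ S.pMid ≤ 𝔪 ∧ ¬ S.pZero ≤ 𝔪) ∨
      (¬ S.pInf ≤ 𝔪 ∧ ¬ S.pMid ≤ 𝔪 ∧ S.pZero ≤ 𝔪))
    (hufd : ∀ (𝔪 : Ideal S.B) [𝔪.IsMaximal], S.constB (q : k0Val A) ∈ 𝔪 → ¬ S.IsNode 𝔪 →
      UniqueFactorizationMonoid (Localization.AtPrime 𝔪))
    (hmid : ∀ 𝔪 : Ideal S.B, 𝔪.IsMaximal → S.constB (q : k0Val A) ∈ 𝔪 →
      S.pMid ≤ 𝔪 → ¬ S.pInf ≤ 𝔪 → ¬ S.pZero ≤ 𝔪 →
      ∃ π₀ w₁ b : S.B, π₀ ∈ S.pMid ∧ w₁ ∉ 𝔪 ∧ b ∉ 𝔪 ∧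
        w₁ * π₀ ^ e = S.constB (q : k0Val A) * b)
    (E : ℕ) (P : S.B → Prop)
    (htor : ∀ b : S.B, (b : f0Field A L) ≠ 0 → S.IsUnitAtNodes b →
      (∀ P : Place Kbar (FF L), (m : ℤ) ∣ P.ord (((b : f0Field A L)) : FF L)) → P b →
      ∃ s : S.B, S.IsUnitAtNodes s ∧ b ^ E - s ^ m ∈ S.pInf ⊓ S.pMid ⊓ S.pZero) :
    ∀ b : S.B, (b : f0Field A L) ≠ 0 → S.IsUnitAtNodes b →
      (∀ P : Place Kbar (FF L), (m : ℤ) ∣ P.ord (((b : f0Field A L)) : FF L)) → P b →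
      ∃ h₀ : f0Field A L, h₀ ≠ 0 ∧ (b : f0Field A L) ^ (E * q) * h₀ ^ m ∈ S.B ∧
        ∃ z : f0Field A L, z ∈ S.ball ∧
          (b : f0Field A L) ^ (E * q) * h₀ ^ m = 1 + a2iQ A q (L := L) * z := by
  intro b hb0 hbu hord hPb
  obtain ⟨s, hsu, hbs⟩ := htor b hb0 hbu hord hPb
  obtain ⟨t, ht, htM⟩ := hnode
  have key : ∀ z : S.B, S.IsUnitAtNodes z →
      S.redInf z ≠ 0 ∧ S.redMid z ≠ 0 ∧ S.redZero z ≠ 0 := by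
    intro z hz
    refine ⟨fun h0 => ?_, fun h0 => ?_, fun h0 => ?_⟩
    · exact hz.notMem S ht (ht.2 (Ideal.mem_sup_left h0))
    · exact hz.notMem S ht (htM h0)
    · exact hz.notMem S ht (ht.2 (Ideal.mem_sup_right h0))
  obtain ⟨hbI, hbM, hbZ⟩ := key b hbu
  obtain ⟨hsI, hsM, hsZ⟩ := key s hsu
  obtain ⟨h₀, hh0, hmem, z, hz, huz⟩ := s36_hhead_of_glue A q S hq hA hfrac harchInf harchMid
    harchZero e H he m hm hmq hroot htri hufd hmid E b hbu hbI hbM hbZ hord s hsI hsM hsZ hbs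
  exact ⟨h₀, hh0, hmem, z, S.B_le_ball hz, huz⟩

/-- **factoriality off the nodes** (`hufd` of `s36_hhead`) from the trichotomy, the REG3 input
on `C_mid` and `B ⧸ p_v` Dedekind, not a field. -/
theorem s36_hufd_of_input {K : Type*} [Field K] {k : Type*} [Field k]
    {A : ValuationSubring K} {π : A →+* k} {κ : Type*} [Field κ] [Algebra k κ]
    {F : Type*} [Field F] [Algebra K F] {S : NodeSetup A π κ F} {q : S.B} {e : ℕ}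
    (H : Reg3Hyp S q e) [IsNoetherianRing S.B]
    [IsDedekindDomain (S.B ⧸ S.pInf)] [IsDedekindDomain (S.B ⧸ S.pMid)]
    [IsDedekindDomain (S.B ⧸ S.pZero)]
    (hnmI : ¬ S.pInf.IsMaximal) (hnmM : ¬ S.pMid.IsMaximal) (hnmZ : ¬ S.pZero.IsMaximal)
    (htri : ∀ 𝔪 : Ideal S.B, 𝔪.IsMaximal → q ∈ 𝔪 → S.IsNode 𝔪 ∨
      (S.pInf ≤ 𝔪 ∧ ¬ S.pMid ≤ 𝔪 ∧ ¬ S.pZero ≤ 𝔪) ∨
      (¬ S.pInf ≤ 𝔪 ∧ S.pMid ≤ 𝔪 ∧ ¬ S.pZero ≤ 𝔪) ∨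
      (¬ S.pInf ≤ 𝔪 ∧ ¬ S.pMid ≤ 𝔪 ∧ S.pZero ≤ 𝔪))
    (hmid : ∀ 𝔪 : Ideal S.B, 𝔪.IsMaximal → q ∈ 𝔪 →
      S.pMid ≤ 𝔪 → ¬ S.pInf ≤ 𝔪 → ¬ S.pZero ≤ 𝔪 →
      ∃ π₀ w₁ b : S.B, π₀ ∈ S.pMid ∧ w₁ ∉ 𝔪 ∧ b ∉ 𝔪 ∧ w₁ * π₀ ^ e = q * b) :
    ∀ (𝔪 : Ideal S.B) [𝔪.IsMaximal], q ∈ 𝔪 → ¬ S.IsNode 𝔪 →
      UniqueFactorizationMonoid (Localization.AtPrime 𝔪) := by
  intro 𝔪 h𝔪 hq𝔪 hnode
  rcases htri 𝔪 h𝔪 hq𝔪 with h | ⟨hI, hM, hZ⟩ | ⟨hI, hM, hZ⟩ | ⟨hI, hM, hZ⟩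
  · exact absurd h hnode
  · exact reg3_inf_ufm H 𝔪 hI (fun h => hnmI (h ▸ h𝔪)) hM hZ
  · obtain ⟨π₀, w₁, b, -, hw₁, hb, hπ⟩ := hmid 𝔪 h𝔪 hq𝔪 hM hI hZ
    exact reg3_mid_ufm H 𝔪 hM (fun h => hnmM (h ▸ h𝔪)) hI hZ π₀ w₁ b hw₁ hb hπ
  · exact reg3_zero_ufm H 𝔪 hZ (fun h => hnmZ (h ▸ h𝔪)) hI hM

/-- **the head of the crux, Dedekind form**: as `s36_hhead`, with `hufd` derived from
`B ⧸ p_v` Dedekind (not a field) and the REG3 input. -/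
theorem s36_hhead_dedekind (S : NodeSetup (k0Val A) (k0Res A) κ (f0Field A L))
    (hq : q.Prime) (hA : A.LiesOverPrime q) [IsNoetherianRing S.B]
    [IsDedekindDomain (S.B ⧸ S.pInf)] [IsDedekindDomain (S.B ⧸ S.pMid)]
    [IsDedekindDomain (S.B ⧸ S.pZero)]
    (hnmI : ¬ S.pInf.IsMaximal) (hnmM : ¬ S.pMid.IsMaximal) (hnmZ : ¬ S.pZero.IsMaximal)
    (hfrac : ∀ z : f0Field A L, ∃ a b : S.B, b ≠ 0 ∧ z * (b : f0Field A L) = (a : f0Field A L))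
    (harchInf : ∀ z ∈ S.vInf.O.nonunits, ∃ n : ℕ, z ^ n * (algebraMap (k0Field A) (f0Field A L)
      ((((q : k0Val A) : k0Val A) : k0Field A)))⁻¹ ∈ S.vInf.O)
    (harchMid : ∀ z ∈ S.vMid.O.nonunits, ∃ n : ℕ, z ^ n * (algebraMap (k0Field A) (f0Field A L)
      ((((q : k0Val A) : k0Val A) : k0Field A)))⁻¹ ∈ S.vMid.O)
    (harchZero : ∀ z ∈ S.vZero.O.nonunits, ∃ n : ℕ, z ^ n * (algebraMap (k0Field A) (f0Field A L)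
      ((((q : k0Val A) : k0Val A) : k0Field A)))⁻¹ ∈ S.vZero.O)
    (e : ℕ) (H : Reg3Hyp S (S.constB (q : k0Val A)) e) (he : e ≤ q)
    (m : ℕ) (hm : 0 < m) (hmq : Nat.Coprime m q)
    (hroot : ∀ z : f0Field A L, z ^ m ∈ S.B → z ∈ S.B)
    (hnode : ∃ t : Ideal S.B, S.IsNode t ∧ S.pMid ≤ t)
    (htri : ∀ 𝔪 : Ideal S.B, 𝔪.IsMaximal → S.constB (q : k0Val A) ∈ 𝔪 → S.IsNode 𝔪 ∨
      (S.pInf ≤ 𝔪 ∧ ¬ S.pMid ≤ 𝔪 ∧ ¬ S.pZero ≤ 𝔪) ∨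
      (¬ S.pInf ≤ 𝔪 ∧ S.pMid ≤ 𝔪 ∧ ¬ S.pZero ≤ 𝔪) ∨
      (¬ S.pInf ≤ 𝔪 ∧ ¬ S.pMid ≤ 𝔪 ∧ S.pZero ≤ 𝔪))
    (hmid : ∀ 𝔪 : Ideal S.B, 𝔪.IsMaximal → S.constB (q : k0Val A) ∈ 𝔪 →
      S.pMid ≤ 𝔪 → ¬ S.pInf ≤ 𝔪 → ¬ S.pZero ≤ 𝔪 →
      ∃ π₀ w₁ b : S.B, π₀ ∈ S.pMid ∧ w₁ ∉ 𝔪 ∧ b ∉ 𝔪 ∧
        w₁ * π₀ ^ e = S.constB (q : k0Val A) * b)
    (E : ℕ) (P : S.B → Prop)
    (htor : ∀ b : S.B, (b : f0Field A L) ≠ 0 → S.IsUnitAtNodes b →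
      (∀ P : Place Kbar (FF L), (m : ℤ) ∣ P.ord (((b : f0Field A L)) : FF L)) → P b →
      ∃ s : S.B, S.IsUnitAtNodes s ∧ b ^ E - s ^ m ∈ S.pInf ⊓ S.pMid ⊓ S.pZero) :
    ∀ b : S.B, (b : f0Field A L) ≠ 0 → S.IsUnitAtNodes b →
      (∀ P : Place Kbar (FF L), (m : ℤ) ∣ P.ord (((b : f0Field A L)) : FF L)) → P b →
      ∃ h₀ : f0Field A L, h₀ ≠ 0 ∧ (b : f0Field A L) ^ (E * q) * h₀ ^ m ∈ S.B ∧
        ∃ z : f0Field A L, z ∈ S.ball ∧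
          (b : f0Field A L) ^ (E * q) * h₀ ^ m = 1 + a2iQ A q (L := L) * z :=
  s36_hhead A q S hq hA hfrac harchInf harchMid harchZero e H he m hm hmq hroot hnode htri
    (s36_hufd_of_input H hnmI hnmM hnmZ htri hmid) hmid E P htor

end Fermat.Agent.S36lib

end
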