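import Mathlib
import Fermat.Agent.S36lib.Speed

/-!
# Item 83 (S36), piece INC: incidence / trichotomy at the special fibre

Abstract commutative algebra (Mathlib only).  A maximal ideal of `B` which contains two of the
three primes `p_∞, p_mid, p_0` contains all three.

The proof uses: an integral map `φ : B₁ → B` (from the lower level), the table of contractions of
the three primes, the radical statement (`Hrad`), the purely inseparable statement (`hPI`) and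
local principality of the contracted prime at the lower level (`hreg1`), together with Krull's
principal ideal theorem in the Noetherian domain `B`.
-/

namespace Fermat.Agent.S36lib

/-- In a Noetherian domain, a nonzero prime contained in a prime of height `≤ 1` is equal to
it. -/
theorem inc_eq_of_le_of_height_le_one {B : Type*} [CommRing B] [IsDomain B]
    (Q 𝔓 : Ideal B) [Q.IsPrime] [𝔓.IsPrime] (hQ0 : Q ≠ ⊥) (hQ𝔓 : Q ≤ 𝔓)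
    (hht : 𝔓.height ≤ 1) : Q = 𝔓 := by
  by_contra hne
  have hlt : Q < 𝔓 := lt_of_le_of_ne hQ𝔓 hne
  have hbot : (⊥ : Ideal B) < Q := bot_lt_iff_ne_bot.mpr hQ0
  have : (⊥ : Ideal B).IsPrime := Ideal.isPrime_bot
  have h1 : (⊥ : Ideal B).height + 1 ≤ Q.height :=
    Ideal.height_add_one_le_of_lt_of_isPrime hbot
  have h2 : Q.height + 1 ≤ 𝔓.height := Ideal.height_add_one_le_of_lt_of_isPrime hlt
  have h3 : (1 : ℕ∞) ≤ Q.height := le_trans le_add_self h1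
  have h4 : (1 : ℕ∞) + 1 ≤ 1 := le_trans (le_trans (add_le_add_left h3 1) h2) hht
  exact absurd h4 (by decide)

/-- **Core of INC.**  `φ : B₁ → B` integral, `P, Q₁, Q₂` primes of the Noetherian domain `B`
with `φ⁻¹ P = P'`, `φ⁻¹ Q₁ = φ⁻¹ Q₂ = Q'`, `P' ≰ Q'`.  Then a maximal ideal of `B` containing
`P` and one of `Q₁, Q₂` contains both `Q₁` and `Q₂`. -/
theorem inc_core {B₁ B : Type*} [CommRing B₁] [CommRing B] [IsDomain B] [IsNoetherianRing B]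
    (φ : B₁ →+* B) (hint : φ.IsIntegral)
    (P Q₁ Q₂ : Ideal B) [P.IsPrime] [Q₁.IsPrime] [Q₂.IsPrime] (P' Q' : Ideal B₁)
    (hP : P.comap φ = P') (hQ₁ : Q₁.comap φ = Q') (hQ₂ : Q₂.comap φ = Q')
    (hnle : ¬ P' ≤ Q') (hQ₁0 : Q₁ ≠ ⊥) (hQ₂0 : Q₂ ≠ ⊥)
    (ϖ : B₁) (hϖ : ϖ ∈ P') (π : B) (hπ : φ ϖ = π)
    (Hrad : ∀ 𝔓 : Ideal B, 𝔓.IsPrime → π ∈ 𝔓 → P ≤ 𝔓 ∨ Q₁ ≤ 𝔓 ∨ Q₂ ≤ 𝔓)
    (e : ℕ) (he : 0 < e) (hPI : ∀ z : B, ∃ w : B₁, z ^ e - φ w ∈ P)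
    (hreg1 : ∀ s : Ideal B₁, s.IsMaximal → P' ≤ s → Q' ≤ s →
      ∃ y ε : B₁, y ∈ P' ∧ ε ∉ s ∧ ∀ z ∈ P', y ∣ ε * z)
    (𝔪 : Ideal B) (h𝔪 : 𝔪.IsMaximal) (hP𝔪 : P ≤ 𝔪) (hQ𝔪 : Q₁ ≤ 𝔪 ∨ Q₂ ≤ 𝔪) :
    Q₁ ≤ 𝔪 ∧ Q₂ ≤ 𝔪 := by
  classical
  let : Algebra B₁ B := φ.toAlgebra
  have : Algebra.IsIntegral B₁ B := ⟨hint⟩
  have halg : algebraMap B₁ B = φ := rfl
  -- the contraction of `𝔪`
  set 𝔫 : Ideal B₁ := 𝔪.comap φ with h𝔫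
  have h𝔫max : 𝔫.IsMaximal := Ideal.isMaximal_comap_of_isIntegral_of_isMaximal' φ hint 𝔪
  have hP'𝔫 : P' ≤ 𝔫 := hP ▸ Ideal.comap_mono hP𝔪
  have hQ'𝔫 : Q' ≤ 𝔫 := by
    rcases hQ𝔪 with h | h
    · exact hQ₁ ▸ Ideal.comap_mono h
    · exact hQ₂ ▸ Ideal.comap_mono h
  obtain ⟨y, ε, hyP', hε, hdvd⟩ := hreg1 𝔫 h𝔫max hP'𝔫 hQ'𝔫
  -- the key claim, for `Q = Q₁` and for `Q = Q₂`
  have key : ∀ Q : Ideal B, Q.IsPrime → Q.comap φ = Q' → Q ≠ ⊥ →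
      (∀ 𝔓 : Ideal B, 𝔓.IsPrime → π ∈ 𝔓 → P ≤ 𝔓 ∨ Q ≤ 𝔓 ∨ Q.comap φ = Q' ∧
        ∃ R : Ideal B, R.IsPrime ∧ R ≠ ⊥ ∧ R.comap φ = Q' ∧ R ≤ 𝔓) → Q ≤ 𝔪 := by
    intro Q hQprime hQ hQ0 HradQ
    have := hQprime
    -- going up: a prime `t ⊇ Q` over `𝔫`
    obtain ⟨t, htQ, htprime, htcomap⟩ :=
      Ideal.exists_ideal_over_prime_of_isIntegral_of_isPrime (R := B₁) (S := B) 𝔫 Q
        (by rw [halg, hQ]; exact hQ'𝔫)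
    have := htprime
    rw [halg] at htcomap
    have hyt : φ y ∈ t := by
      have : y ∈ t.comap φ := by rw [htcomap]; exact hP'𝔫 hyP'
      exact this
    -- a minimal prime over `φ y` inside `t`
    have hspan : Ideal.span {φ y} ≤ t := (Ideal.span_singleton_le_iff_mem t).mpr hyt
    obtain ⟨𝔓, h𝔓min, h𝔓t⟩ := Ideal.exists_minimalPrimes_le hspan
    have h𝔓prime : 𝔓.IsPrime := h𝔓min.1.1
    have hy𝔓 : φ y ∈ 𝔓 := h𝔓min.1.2 (Ideal.mem_span_singleton_self _)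
    have hht : 𝔓.height ≤ 1 :=
      Ideal.height_le_one_of_isPrincipal_of_mem_minimalPrimes (Ideal.span {φ y}) 𝔓 h𝔓min
    -- `P' ≤ φ⁻¹ 𝔓`
    have hP'𝔓 : P' ≤ 𝔓.comap φ := by
      intro z hz
      obtain ⟨c, hc⟩ := hdvd z hz
      have h1 : φ ε * φ z ∈ 𝔓 := by
        have : φ (ε * z) = φ y * φ c := by rw [hc, map_mul]
        rw [← map_mul, this]
        exact 𝔓.mul_mem_right _ hy𝔓
      rcases h𝔓prime.mem_or_mem h1 with h | h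
      · exfalso
        apply hε
        have : ε ∈ t.comap φ := h𝔓t h
        rwa [htcomap] at this
      · exact h
    have hπ𝔓 : π ∈ 𝔓 := hπ ▸ hP'𝔓 hϖ
    -- `P ≤ 𝔓`
    have hP𝔓 : P ≤ 𝔓 := by
      rcases HradQ 𝔓 h𝔓prime hπ𝔓 with h | h | ⟨-, R, hRprime, hR0, hRcomap, hR𝔓⟩
      · exact h
      · exfalso
        have := inc_eq_of_le_of_height_le_one Q 𝔓 hQ0 h hht
        apply hnle
        rw [← hQ, this]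
        exact hP'𝔓
      · exfalso
        have := hRprime
        have := inc_eq_of_le_of_height_le_one R 𝔓 hR0 hR𝔓 hht
        apply hnle
        rw [← hRcomap, this]
        exact hP'𝔓
    have hPt : P ≤ t := hP𝔓.trans h𝔓t
    -- `𝔪 ≤ t`
    have h𝔪t : 𝔪 ≤ t := by
      intro z hz
      obtain ⟨w, hw⟩ := hPI z
      have hze : z ^ e ∈ 𝔪 := Ideal.pow_mem_of_mem 𝔪 hz e he
      have hφw : φ w ∈ 𝔪 := by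
        have h1 : z ^ e - (z ^ e - φ w) ∈ 𝔪 := 𝔪.sub_mem hze (hP𝔪 hw)
        simpa using h1
      have hwt : φ w ∈ t := by
        have : w ∈ t.comap φ := by rw [htcomap]; exact hφw
        exact this
      have hzet : z ^ e ∈ t := by
        have h1 : (z ^ e - φ w) + φ w ∈ t := t.add_mem (hPt hw) hwt
        simpa using h1
      exact htprime.mem_of_pow_mem e hzet
    have : 𝔪 = t := h𝔪.eq_of_le htprime.ne_top h𝔪t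
    rw [this]
    exact htQ
  refine ⟨key Q₁ inferInstance hQ₁ hQ₁0 ?_, key Q₂ inferInstance hQ₂ hQ₂0 ?_⟩
  · intro 𝔓 h𝔓 hπ𝔓
    rcases Hrad 𝔓 h𝔓 hπ𝔓 with h | h | h
    · exact Or.inl h
    · exact Or.inr (Or.inl h)
    · exact Or.inr (Or.inr ⟨hQ₁, Q₂, inferInstance, hQ₂0, hQ₂, h⟩)
  · intro 𝔓 h𝔓 hπ𝔓
    rcases Hrad 𝔓 h𝔓 hπ𝔓 with h | h | h
    · exact Or.inl h
    · exact Or.inr (Or.inr ⟨hQ₂, Q₁, inferInstance, hQ₁0, hQ₁, h⟩)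
    · exact Or.inr (Or.inl h)

/-- **INC.**  Two levels `B₁ → B` with the two degeneracy maps `α, β`, three primes
`p_∞, p_mid, p_0` of `B` and two primes `p¹_∞, p¹_0` of `B₁` with the table of contractions
`β⁻¹(p_∞) = p¹_∞`, `β⁻¹(p_mid) = β⁻¹(p_0) = p¹_0`, `α⁻¹(p_∞) = α⁻¹(p_mid) = p¹_∞`,
`α⁻¹(p_0) = p¹_0`.  A maximal ideal of `B` containing two of the three primes contains all
three. -/
theorem inc_node {B₁ B : Type*} [CommRing B₁] [CommRing B] [IsDomain B] [IsNoetherianRing B]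
    (α β : B₁ →+* B) (hα : α.IsIntegral) (hβ : β.IsIntegral)
    (pInf pMid pZero : Ideal B) [pInf.IsPrime] [pMid.IsPrime] [pZero.IsPrime]
    (pInf₁ pZero₁ : Ideal B₁)
    (hβInf : pInf.comap β = pInf₁) (hβMid : pMid.comap β = pZero₁)
    (hβZero : pZero.comap β = pZero₁)
    (hαInf : pInf.comap α = pInf₁) (hαMid : pMid.comap α = pInf₁)
    (hαZero : pZero.comap α = pZero₁)
    (hnle : ¬ pInf₁ ≤ pZero₁) (hnle' : ¬ pZero₁ ≤ pInf₁)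
    (hInf0 : pInf ≠ ⊥) (hMid0 : pMid ≠ ⊥) (hZero0 : pZero ≠ ⊥)
    (ϖ : B₁) (hϖInf : ϖ ∈ pInf₁) (hϖZero : ϖ ∈ pZero₁)
    (π : B) (hπα : α ϖ = π) (hπβ : β ϖ = π)
    (Hrad : ∀ 𝔓 : Ideal B, 𝔓.IsPrime → π ∈ 𝔓 → pInf ≤ 𝔓 ∨ pMid ≤ 𝔓 ∨ pZero ≤ 𝔓)
    (e : ℕ) (he : 0 < e)
    (hPIβ : ∀ z : B, ∃ w : B₁, z ^ e - β w ∈ pInf)
    (hPIα : ∀ z : B, ∃ w : B₁, z ^ e - α w ∈ pZero)
    (hreg1Inf : ∀ s : Ideal B₁, s.IsMaximal → pInf₁ ≤ s → pZero₁ ≤ s →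
      ∃ y ε : B₁, y ∈ pInf₁ ∧ ε ∉ s ∧ ∀ z ∈ pInf₁, y ∣ ε * z)
    (hreg1Zero : ∀ s : Ideal B₁, s.IsMaximal → pInf₁ ≤ s → pZero₁ ≤ s →
      ∃ y ε : B₁, y ∈ pZero₁ ∧ ε ∉ s ∧ ∀ z ∈ pZero₁, y ∣ ε * z)
    (𝔪 : Ideal B) (h𝔪 : 𝔪.IsMaximal)
    (h2 : (pInf ≤ 𝔪 ∧ pMid ≤ 𝔪) ∨ (pInf ≤ 𝔪 ∧ pZero ≤ 𝔪) ∨ (pMid ≤ 𝔪 ∧ pZero ≤ 𝔪)) :
    pInf ≤ 𝔪 ∧ pMid ≤ 𝔪 ∧ pZero ≤ 𝔪 := by
  have hβcase : pInf ≤ 𝔪 → (pMid ≤ 𝔪 ∨ pZero ≤ 𝔪) → pInf ≤ 𝔪 ∧ pMid ≤ 𝔪 ∧ pZero ≤ 𝔪 := by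
    intro h1 h2
    have := inc_core β hβ pInf pMid pZero pInf₁ pZero₁ hβInf hβMid hβZero hnle hMid0 hZero0
      ϖ hϖInf π hπβ Hrad e he hPIβ hreg1Inf 𝔪 h𝔪 h1 h2
    exact ⟨h1, this.1, this.2⟩
  rcases h2 with ⟨h1, h2⟩ | ⟨h1, h2⟩ | ⟨h1, h2⟩
  · exact hβcase h1 (Or.inl h2)
  · exact hβcase h1 (Or.inr h2)
  · have := inc_core α hα pZero pInf pMid pZero₁ pInf₁ hαZero hαInf hαMid hnle' hInf0 hMid0
      ϖ hϖZero π hπα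
      (fun 𝔓 h𝔓 hπ𝔓 => by
        rcases Hrad 𝔓 h𝔓 hπ𝔓 with h | h | h
        · exact Or.inr (Or.inl h)
        · exact Or.inr (Or.inr h)
        · exact Or.inl h)
      e he hPIα
      (fun s hs h1 h2 => hreg1Zero s hs h2 h1) 𝔪 h𝔪 h2 (Or.inr h1)
    exact ⟨this.1, h1, h2⟩

/-- **Trichotomy.**  Under the hypotheses of `inc_node`, a maximal ideal containing `π` either
contains all three primes (a node) or exactly one of them. -/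
theorem inc_trichotomy {B₁ B : Type*} [CommRing B₁] [CommRing B] [IsDomain B]
    [IsNoetherianRing B]
    (α β : B₁ →+* B) (hα : α.IsIntegral) (hβ : β.IsIntegral)
    (pInf pMid pZero : Ideal B) [pInf.IsPrime] [pMid.IsPrime] [pZero.IsPrime]
    (pInf₁ pZero₁ : Ideal B₁)
    (hβInf : pInf.comap β = pInf₁) (hβMid : pMid.comap β = pZero₁)
    (hβZero : pZero.comap β = pZero₁)
    (hαInf : pInf.comap α = pInf₁) (hαMid : pMid.comap α = pInf₁)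
    (hαZero : pZero.comap α = pZero₁)
    (hnle : ¬ pInf₁ ≤ pZero₁) (hnle' : ¬ pZero₁ ≤ pInf₁)
    (hInf0 : pInf ≠ ⊥) (hMid0 : pMid ≠ ⊥) (hZero0 : pZero ≠ ⊥)
    (ϖ : B₁) (hϖInf : ϖ ∈ pInf₁) (hϖZero : ϖ ∈ pZero₁)
    (π : B) (hπα : α ϖ = π) (hπβ : β ϖ = π)
    (Hrad : ∀ 𝔓 : Ideal B, 𝔓.IsPrime → π ∈ 𝔓 → pInf ≤ 𝔓 ∨ pMid ≤ 𝔓 ∨ pZero ≤ 𝔓)
    (e : ℕ) (he : 0 < e)
    (hPIβ : ∀ z : B, ∃ w : B₁, z ^ e - β w ∈ pInf)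
    (hPIα : ∀ z : B, ∃ w : B₁, z ^ e - α w ∈ pZero)
    (hreg1Inf : ∀ s : Ideal B₁, s.IsMaximal → pInf₁ ≤ s → pZero₁ ≤ s →
      ∃ y ε : B₁, y ∈ pInf₁ ∧ ε ∉ s ∧ ∀ z ∈ pInf₁, y ∣ ε * z)
    (hreg1Zero : ∀ s : Ideal B₁, s.IsMaximal → pInf₁ ≤ s → pZero₁ ≤ s →
      ∃ y ε : B₁, y ∈ pZero₁ ∧ ε ∉ s ∧ ∀ z ∈ pZero₁, y ∣ ε * z)
    (𝔪 : Ideal B) (h𝔪 : 𝔪.IsMaximal) (hπ𝔪 : π ∈ 𝔪) :
    (pInf ≤ 𝔪 ∧ pMid ≤ 𝔪 ∧ pZero ≤ 𝔪) ∨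
    (pInf ≤ 𝔪 ∧ ¬ pMid ≤ 𝔪 ∧ ¬ pZero ≤ 𝔪) ∨
    (¬ pInf ≤ 𝔪 ∧ pMid ≤ 𝔪 ∧ ¬ pZero ≤ 𝔪) ∨
    (¬ pInf ≤ 𝔪 ∧ ¬ pMid ≤ 𝔪 ∧ pZero ≤ 𝔪) := by
  have node := inc_node α β hα hβ pInf pMid pZero pInf₁ pZero₁ hβInf hβMid hβZero hαInf hαMid
    hαZero hnle hnle' hInf0 hMid0 hZero0 ϖ hϖInf hϖZero π hπα hπβ Hrad e he hPIβ hPIα
    hreg1Inf hreg1Zero 𝔪 h𝔪
  by_cases hI : pInf ≤ 𝔪 <;> by_cases hM : pMid ≤ 𝔪 <;> by_cases hZ : pZero ≤ 𝔪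
  · exact Or.inl ⟨hI, hM, hZ⟩
  · exact Or.inl (node (Or.inl ⟨hI, hM⟩))
  · exact Or.inl (node (Or.inr (Or.inl ⟨hI, hZ⟩)))
  · exact Or.inr (Or.inl ⟨hI, hM, hZ⟩)
  · exact Or.inl (node (Or.inr (Or.inr ⟨hM, hZ⟩)))
  · exact Or.inr (Or.inr (Or.inl ⟨hI, hM, hZ⟩))
  · exact Or.inr (Or.inr (Or.inr ⟨hI, hM, hZ⟩))
  · exfalso
    rcases Hrad 𝔪 h𝔪.isPrime hπ𝔪 with h | h | h
    · exact hI h
    · exact hM h
    · exact hZ h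

end Fermat.Agent.S36lib
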