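import Mathlib
import Fermat.Agent.S36lib.Speed

/-!
# Item 83 (S36), piece R-2b (REG1, generators): thickness one at the nodes, abstract form

`B` an integrally closed domain (the ring of integral functions of level `M'q` over the discrete
valuation ring `A0`), `C` the affine ring of the residue curve (a Dedekind domain with residue
fields `k`), `r₁ r₂ : B → C` the two reductions, `S` the nodes as maximal ideals of `C` in the
`r₁`-coordinate, `h` the `Δ`-quotient (`p₂ ^ e ≤ (h)`, `e = 12`, `p₂ = ker r₂`).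

* sandwich: the ideal `J = ∏ t` of the nodes is generated by elements `a ∈ J` that lift to
  `z ∈ B` with `r₁ z = a`, `r₂ z = 0` (`reg1_generator`; `reg1_generator'` is the variant in
  which every `a ∈ J` lifts);
* count: `e · #S ≤ dim_k C ⧸ (r₁ h)`.

`B` may be the integral closure of `A0[j]` (regular off ALL cusps; then `h = Δ(z)/Δ(qz) ∈ B`) and
`C` the integral closure of `k[j̄]`; the nodes are not cusps, so the local rings are the same as
for the ring of functions regular off the cusps above `∞'`.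

`reg1_dvd_of_pow_eq` is the normality step alone (to be reused at level `M'q²` with `α h`).

Then (`reg1_generator`) at every node `t` there is `y ∈ p₂` with `y ^ e = ε h`, `ε` a unit at `t`,
`r₁ y` a uniformiser at `t`, and `p₂ B_t = y B_t` in the elementwise form `∀ z ∈ p₂, y ∣ ε z`.

Proof: `J := ∏ t`; sandwich + `p₂ ^ e ≤ (h)` give `J ^ e ≤ (r₁ h)`; `dim C ⧸ J ^ e ≤ e · #S`
(filtration in the Dedekind domain `C`), so `(r₁ h) = J ^ e` by the count; for `a ∈ J ∖ J t` with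
lift `y`, `y ^ e = ε h` and `r₁ ε ∈ t` would give `a ^ e ∈ J ^ e t`; normality of `B` gives
`y ∣ ε z`.  Mathlib only.
-/

set_option autoImplicit false
set_option linter.style.haveILetI false

namespace Fermat.Agent.S36lib

open Ideal

/-- `C ⧸ I` is spanned over `k` by the images of `d` elements of `C`. -/
def Reg1SpanMod (k : Type*) {C : Type*} [Field k] [CommRing C] [Algebra k C] (I : Ideal C)
    (d : ℕ) : Prop :=
  ∃ v : Fin d → C, ∀ c : C, ∃ l : Fin d → k, c - ∑ i, l i • v i ∈ I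

section dim

variable {k C : Type*} [Field k] [CommRing C] [Algebra k C]

theorem reg1_spanMod_top : Reg1SpanMod k (⊤ : Ideal C) 0 :=
  ⟨Fin.elim0, fun _ => ⟨Fin.elim0, Submodule.mem_top⟩⟩

/-- a spanning family of `d` elements bounds the dimension of the quotient. -/
theorem reg1_finrank_le (I : Ideal C) (d : ℕ) (h : Reg1SpanMod k I d) :
    Module.Finite k (C ⧸ I) ∧ Module.finrank k (C ⧸ I) ≤ d := by
  obtain ⟨v, hv⟩ := h
  set b : Fin d → C ⧸ I := fun i => Ideal.Quotient.mk I (v i) with hb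
  have hspan : Submodule.span k (Set.range b) = ⊤ := by
    rw [eq_top_iff]
    rintro x -
    obtain ⟨c, rfl⟩ := Ideal.Quotient.mk_surjective x
    obtain ⟨l, hl⟩ := hv c
    have h1 : Ideal.Quotient.mk I c = ∑ i, l i • b i := by
      have h2 : Ideal.Quotient.mk I (c - ∑ i, l i • v i) = 0 :=
        Ideal.Quotient.eq_zero_iff_mem.2 hl
      rw [map_sub, sub_eq_zero] at h2
      rw [h2, map_sum]
      refine Finset.sum_congr rfl fun i _ => ?_
      rw [hb, Algebra.smul_def, Algebra.smul_def, map_mul, Ideal.Quotient.mk_algebraMap]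
    rw [h1]
    exact Submodule.sum_mem _ fun i _ =>
      Submodule.smul_mem _ _ (Submodule.subset_span (Set.mem_range_self i))
  have hfin : Module.Finite k (C ⧸ I) := by
    refine Module.finite_def.2 ?_
    rw [← hspan]
    exact Submodule.fg_span (Set.finite_range b)
  refine ⟨hfin, ?_⟩
  have h3 := finrank_range_le_card (R := k) b
  rw [Set.finrank, hspan, finrank_top, Fintype.card_fin] at h3
  exact h3

end dim

section dedekind

variable {k C : Type*} [Field k] [CommRing C] [IsDedekindDomain C] [Algebra k C]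

/-- in a Dedekind domain, `I = (a) + I t` for `a ∈ I ∖ I t`, `t` maximal. -/
theorem reg1_sup_eq (I t : Ideal C) (hI : I ≠ ⊥) (ht : t.IsMaximal) (a : C) (haI : a ∈ I)
    (ha : a ∉ I * t) : Ideal.span {a} ⊔ I * t = I := by
  have hle : Ideal.span {a} ⊔ I * t ≤ I :=
    sup_le ((Ideal.span_singleton_le_iff_mem _).2 haI) Ideal.mul_le_left
  obtain ⟨b, hb⟩ := Ideal.dvd_iff_le.2 hle
  have h1 : I * t ≤ I * b := by
    rw [← hb]
    exact le_sup_right
  have h2 : b ∣ t := (mul_dvd_mul_iff_left hI).1 (Ideal.dvd_iff_le.2 h1)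
  have h3 : t ≤ b := Ideal.le_of_dvd h2
  by_cases hbt : b = ⊤
  · rw [hb, hbt, Ideal.mul_top]
  · exfalso
    have h4 : t = b := ht.eq_of_le hbt h3
    apply ha
    rw [h4, ← hb]
    exact Ideal.mem_sup_left (Ideal.mem_span_singleton_self a)

theorem reg1_mul_lt (I t : Ideal C) (hI : I ≠ ⊥) (ht : t.IsMaximal) : I * t < I := by
  refine lt_of_le_of_ne Ideal.mul_le_left ?_
  intro heq
  have h1 : I * t = I * ⊤ := by rw [heq, Ideal.mul_top]
  exact ht.ne_top (mul_left_cancel₀ hI h1)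

/-- one more maximal factor costs at most one dimension. -/
theorem reg1_spanMod_mul (I t : Ideal C) (hI : I ≠ ⊥) (ht : t.IsMaximal)
    (hres : Function.Surjective (algebraMap k (C ⧸ t))) (d : ℕ) (h : Reg1SpanMod k I d) :
    Reg1SpanMod k (I * t) (d + 1) := by
  obtain ⟨v, hv⟩ := h
  obtain ⟨a, haI, ha⟩ := SetLike.exists_of_lt (reg1_mul_lt I t hI ht)
  have hsup := reg1_sup_eq I t hI ht a haI ha
  refine ⟨Fin.snoc (α := fun _ => C) v a, fun c => ?_⟩
  obtain ⟨l, hl⟩ := hv c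
  rw [← hsup] at hl
  obtain ⟨x, hx, e, he, hxe⟩ := Submodule.mem_sup.1 hl
  obtain ⟨dd, rfl⟩ := Ideal.mem_span_singleton'.1 hx
  obtain ⟨μ, hμ⟩ := hres (Ideal.Quotient.mk t dd)
  have hdt : dd - algebraMap k C μ ∈ t := by
    rw [← Ideal.Quotient.eq, Ideal.Quotient.mk_algebraMap]
    exact hμ.symm
  refine ⟨Fin.snoc (α := fun _ => k) l μ, ?_⟩
  rw [Fin.sum_univ_castSucc]
  simp only [Fin.snoc_castSucc, Fin.snoc_last]
  have h1 : c - (∑ i, l i • v i + μ • a) = a * (dd - algebraMap k C μ) + e := by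
    rw [Algebra.smul_def]
    linear_combination (-1 : C) * hxe
  rw [h1]
  exact (I * t).add_mem (Ideal.mul_mem_mul haI hdt) he

theorem reg1_spanMod_mul_prod (S : Finset (Ideal C)) (hmax : ∀ t ∈ S, t.IsMaximal)
    (hbot : ∀ t ∈ S, t ≠ ⊥) (hres : ∀ t ∈ S, Function.Surjective (algebraMap k (C ⧸ t)))
    (I : Ideal C) (hI : I ≠ ⊥) (d : ℕ) (h : Reg1SpanMod k I d) :
    Reg1SpanMod k (I * ∏ t ∈ S, t) (d + S.card) := by
  classical
  induction S using Finset.induction_on with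
  | empty =>
    rw [Finset.prod_empty, Finset.card_empty, add_zero, Ideal.one_eq_top, Ideal.mul_top]
    exact h
  | insert t S' htS' ih =>
    have hmax' : ∀ s ∈ S', s.IsMaximal := fun s hs => hmax s (Finset.mem_insert_of_mem hs)
    have hbot' : ∀ s ∈ S', s ≠ ⊥ := fun s hs => hbot s (Finset.mem_insert_of_mem hs)
    have hres' : ∀ s ∈ S', Function.Surjective (algebraMap k (C ⧸ s)) :=
      fun s hs => hres s (Finset.mem_insert_of_mem hs)
    have ih' := ih hmax' hbot' hres'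
    have hne : I * ∏ s ∈ S', s ≠ ⊥ := by
      rw [← Ideal.zero_eq_bot]
      refine mul_ne_zero hI ?_
      rw [Finset.prod_ne_zero_iff]
      intro s hs
      rw [Ideal.zero_eq_bot]
      exact hbot' s hs
    have h2 := reg1_spanMod_mul (k := k) (I * ∏ s ∈ S', s) t hne
      (hmax t (Finset.mem_insert_self t S')) (hres t (Finset.mem_insert_self t S'))
      (d + S'.card) ih'
    rw [Finset.prod_insert htS', Finset.card_insert_of_notMem htS']
    have h3 : I * (t * ∏ s ∈ S', s) = (I * ∏ s ∈ S', s) * t := by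
      rw [mul_comm t, mul_assoc]
    rw [h3, ← add_assoc]
    exact h2

theorem reg1_prod_ne_bot (S : Finset (Ideal C)) (hbot : ∀ t ∈ S, t ≠ ⊥) :
    (∏ t ∈ S, t) ≠ ⊥ := by
  rw [← Ideal.zero_eq_bot, Finset.prod_ne_zero_iff]
  intro s hs
  rw [Ideal.zero_eq_bot]
  exact hbot s hs

theorem reg1_spanMod_pow (S : Finset (Ideal C)) (hmax : ∀ t ∈ S, t.IsMaximal)
    (hbot : ∀ t ∈ S, t ≠ ⊥) (hres : ∀ t ∈ S, Function.Surjective (algebraMap k (C ⧸ t)))
    (e : ℕ) : Reg1SpanMod k ((∏ t ∈ S, t) ^ e) (e * S.card) := by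
  induction e with
  | zero =>
    rw [pow_zero, Ideal.one_eq_top, zero_mul]
    exact reg1_spanMod_top
  | succ e ih =>
    have hne : (∏ t ∈ S, t) ^ e ≠ ⊥ := by
      rw [← Ideal.zero_eq_bot]
      refine pow_ne_zero e ?_
      rw [Ideal.zero_eq_bot]
      exact reg1_prod_ne_bot S hbot
    have h1 := reg1_spanMod_mul_prod (k := k) S hmax hbot hres _ hne _ ih
    rw [pow_succ, Nat.succ_mul]
    exact h1

end dedekind

/-- **Normality step.**  `B` an integrally closed domain, `p` an ideal with `p ^ e ≤ (h)`,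
`y ≠ 0` with `y ^ e = ε h`.  Then `y ∣ ε z` for every `z ∈ p`
(so `p B_t = y B_t` wherever `ε` is a unit). -/
theorem reg1_dvd_of_pow_eq {B : Type*} [CommRing B] [IsDomain B] [IsIntegrallyClosed B]
    (p : Ideal B) (e : ℕ) (he : 0 < e) (h y ε : B) (hy0 : y ≠ 0)
    (hdiv : p ^ e ≤ Ideal.span {h}) (hε : y ^ e = ε * h) :
    ∀ z ∈ p, y ∣ ε * z := by
  intro z hz
  have hze : z ^ e ∈ Ideal.span {h} := hdiv (Ideal.pow_mem_pow hz e)
  obtain ⟨z₁, hz₁⟩ := Ideal.mem_span_singleton'.1 hze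
  obtain ⟨e', rfl⟩ : ∃ e', e = e' + 1 := ⟨e - 1, by omega⟩
  have hkey : (ε * z) ^ (e' + 1) = ε ^ e' * z₁ * y ^ (e' + 1) := by
    rw [mul_pow, ← hz₁, hε, pow_succ ε e']
    ring
  set K := FractionRing B
  have hyK : algebraMap B K y ≠ 0 := by
    intro h0
    exact hy0 ((injective_iff_map_eq_zero (algebraMap B K)).1
      (IsFractionRing.injective B K) y h0)
  set x : K := algebraMap B K (ε * z) / algebraMap B K y with hx
  have hxpow : x ^ (e' + 1) = algebraMap B K (ε ^ e' * z₁) := by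
    rw [hx, div_pow, ← map_pow, ← map_pow, hkey, map_mul, mul_div_assoc,
      div_self (by rw [map_pow]; exact pow_ne_zero _ hyK), mul_one]
  have hint : IsIntegral B (x ^ (e' + 1)) := by
    rw [hxpow]
    exact isIntegral_algebraMap
  obtain ⟨w, hw⟩ := IsIntegrallyClosed.exists_algebraMap_eq_of_isIntegral_pow
    (R := B) (K := K) (Nat.succ_pos e') hint
  refine ⟨w, ?_⟩
  apply IsFractionRing.injective B K
  rw [map_mul (algebraMap B K) y w, hw, hx, mul_div_cancel₀ _ hyK]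

/-- **R-2b (REG1, abstract form).**  See the header. -/
theorem reg1_generator
    {k B C : Type*} [Field k] [CommRing B] [IsDomain B] [IsIntegrallyClosed B]
    [CommRing C] [IsDedekindDomain C] [Algebra k C]
    (r₁ r₂ : B →+* C)
    (S : Finset (Ideal C)) (hmax : ∀ t ∈ S, t.IsMaximal) (hbot : ∀ t ∈ S, t ≠ ⊥)
    (hres : ∀ t ∈ S, Function.Surjective (algebraMap k (C ⧸ t)))
    (hsand : ∏ t ∈ S, t ≤
      Ideal.span {a : C | a ∈ ∏ t ∈ S, t ∧ ∃ z : B, r₁ z = a ∧ r₂ z = 0})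
    (e : ℕ) (he : 0 < e) (h : B)
    (hdiv : RingHom.ker r₂ ^ e ≤ Ideal.span {h})
    (hcount : e * S.card ≤ Module.finrank k (C ⧸ Ideal.span {r₁ h})) :
    ∀ t ∈ S, ∃ y ε : B, r₂ y = 0 ∧ r₁ y ∈ t ∧ r₁ y ∉ t ^ 2 ∧ y ^ e = ε * h ∧ r₁ ε ∉ t ∧
      Ideal.span {r₁ h} = (∏ t ∈ S, t) ^ e ∧
      ∀ z : B, r₂ z = 0 → y ∣ ε * z := by
  classical
  set J : Ideal C := ∏ t ∈ S, t with hJ
  have hJne : J ≠ ⊥ := reg1_prod_ne_bot S hbot
  -- Step 1: `J ^ e ≤ (r₁ h)`
  have hJmap : J ≤ (RingHom.ker r₂).map r₁ := by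
    refine hsand.trans ?_
    rw [Ideal.span_le]
    rintro a ⟨-, z, hz1, hz2⟩
    rw [← hz1]
    exact Ideal.mem_map_of_mem r₁ ((RingHom.mem_ker).2 hz2)
  have hstep1 : J ^ e ≤ Ideal.span {r₁ h} := by
    calc J ^ e ≤ ((RingHom.ker r₂).map r₁) ^ e := Ideal.pow_right_mono hJmap e
      _ = ((RingHom.ker r₂) ^ e).map r₁ := (Ideal.map_pow r₁ _ e).symm
      _ ≤ (Ideal.span {h}).map r₁ := Ideal.map_mono hdiv
      _ = Ideal.span {r₁ h} := by rw [Ideal.map_span, Set.image_singleton]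
  -- Step 2: equality by the count
  obtain ⟨hfin, hdim⟩ := reg1_finrank_le (k := k) (J ^ e) (e * S.card)
    (reg1_spanMod_pow S hmax hbot hres e)
  have hstep2 : Ideal.span {r₁ h} ≤ J ^ e := by
    set f : (C ⧸ J ^ e) →ₗ[k] (C ⧸ Ideal.span {r₁ h}) :=
      (Ideal.Quotient.factorₐ k hstep1).toLinearMap with hf
    have hfs : Function.Surjective f := by
      intro x
      obtain ⟨c, rfl⟩ := Ideal.Quotient.mk_surjective x
      exact ⟨Ideal.Quotient.mk _ c, rfl⟩
    haveI : Module.Finite k (C ⧸ J ^ e) := hfin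
    haveI : Module.Finite k (C ⧸ Ideal.span {r₁ h}) := Module.Finite.of_surjective f hfs
    have h1 : Module.finrank k (C ⧸ Ideal.span {r₁ h}) ≤ Module.finrank k (C ⧸ J ^ e) :=
      LinearMap.finrank_le_finrank_of_surjective hfs
    have h2 : Module.finrank k (C ⧸ J ^ e) = Module.finrank k (C ⧸ Ideal.span {r₁ h}) :=
      le_antisymm (hdim.trans hcount) h1
    have hinj : Function.Injective f :=
      (LinearMap.injective_iff_surjective_of_finrank_eq_finrank h2).2 hfs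
    intro x hx
    have h3 : f (Ideal.Quotient.mk _ x) = 0 := by
      show Ideal.Quotient.mk (Ideal.span {r₁ h}) x = 0
      exact Ideal.Quotient.eq_zero_iff_mem.2 hx
    have h4 : Ideal.Quotient.mk (J ^ e) x = 0 := hinj (by rw [h3, map_zero])
    exact Ideal.Quotient.eq_zero_iff_mem.1 h4
  have hspan : Ideal.span {r₁ h} = J ^ e := le_antisymm hstep2 hstep1
  -- Step 3: the generator at a node
  intro t ht
  haveI htmax : t.IsMaximal := hmax t ht
  haveI htprime : t.IsPrime := htmax.isPrime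
  -- a liftable element of `J` outside `J t`
  obtain ⟨a, haJ, ⟨y, hy1, hy2⟩, haJt⟩ :
      ∃ a, a ∈ J ∧ (∃ z : B, r₁ z = a ∧ r₂ z = 0) ∧ a ∉ J * t := by
    by_contra hcon
    push Not at hcon
    have h1 : J ≤ J * t := by
      refine hsand.trans ?_
      rw [Ideal.span_le]
      rintro a ⟨haJ, z, hz1, hz2⟩
      exact hcon a haJ ⟨z, hz1, hz2⟩
    exact absurd h1 (not_le_of_gt (reg1_mul_lt J t hJne htmax))
  have hye : y ^ e ∈ Ideal.span {h} := hdiv (Ideal.pow_mem_pow ((RingHom.mem_ker).2 hy2) e)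
  obtain ⟨ε, hε⟩ := Ideal.mem_span_singleton'.1 hye
  -- `(a) = J * b`
  have haJle : Ideal.span {a} ≤ J := (Ideal.span_singleton_le_iff_mem _).2 haJ
  obtain ⟨b, hb⟩ := Ideal.dvd_iff_le.2 haJle
  have hbt : ¬ b ≤ t := by
    intro hle
    apply haJt
    have : Ideal.span {a} ≤ J * t := by
      rw [hb]
      exact Ideal.mul_mono_right hle
    exact this (Ideal.mem_span_singleton_self a)
  have hJt : J ≤ t := Ideal.le_of_dvd (Finset.dvd_prod_of_mem (fun s => s) ht)
  have hy0 : y ≠ 0 := by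
    intro h0
    apply haJt
    rw [← hy1, h0, map_zero]
    exact zero_mem _
  refine ⟨y, ε, hy2, ?_, ?_, hε.symm, ?_, hspan, ?_⟩
  · rw [hy1]
    exact hJt haJ
  · -- simple zero
    rw [hy1]
    intro ha2
    have h1 : Ideal.span {a} ≤ t ^ 2 := (Ideal.span_singleton_le_iff_mem _).2 ha2
    have hJfac : J = t * ∏ s ∈ S.erase t, s := (Finset.mul_prod_erase S (fun s => s) ht).symm
    have h2 : t * t ∣ t * ((∏ s ∈ S.erase t, s) * b) := by
      rw [← mul_assoc, ← hJfac, ← hb, ← pow_two]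
      exact Ideal.dvd_iff_le.2 h1
    have h3 : t ∣ (∏ s ∈ S.erase t, s) * b := (mul_dvd_mul_iff_left (hbot t ht)).1 h2
    have h4 : (∏ s ∈ S.erase t, s) * b ≤ t := Ideal.le_of_dvd h3
    rcases (Ideal.IsPrime.mul_le htprime).1 h4 with h5 | h5
    · obtain ⟨s, hs, hst⟩ := (Ideal.IsPrime.prod_le htprime).1 h5
      have hsmax : s.IsMaximal := hmax s (Finset.mem_of_mem_erase hs)
      have : s = t := hsmax.eq_of_le htmax.ne_top hst
      exact (Finset.ne_of_mem_erase hs) this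
    · exact hbt h5
  · -- `ε` is a unit at `t`
    intro hεt
    have h1 : a ^ e = r₁ ε * r₁ h := by
      rw [← hy1, ← map_pow, ← hε, map_mul]
    have h2 : a ^ e ∈ J ^ e * t := by
      have hh : r₁ h ∈ J ^ e := by
        rw [← hspan]
        exact Ideal.mem_span_singleton_self _
      rw [h1, mul_comm (r₁ ε) (r₁ h)]
      exact Ideal.mul_mem_mul hh hεt
    have h3 : (Ideal.span {a}) ^ e ≤ J ^ e * t := by
      rw [Ideal.span_singleton_pow]
      exact (Ideal.span_singleton_le_iff_mem _).2 h2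
    have h4 : J ^ e * t ∣ J ^ e * b ^ e := by
      rw [← mul_pow, ← hb]
      exact Ideal.dvd_iff_le.2 h3
    have hJe : J ^ e ≠ 0 := by
      refine pow_ne_zero e ?_
      rw [Ideal.zero_eq_bot]
      exact hJne
    have h5 : t ∣ b ^ e := (mul_dvd_mul_iff_left hJe).1 h4
    have h6 : b ^ e ≤ t := Ideal.le_of_dvd h5
    exact hbt ((Ideal.IsPrime.pow_le_iff he.ne').1 h6)
  · -- normality
    intro z hz
    exact reg1_dvd_of_pow_eq (RingHom.ker r₂) e he h y ε hy0 hdiv hε.symm z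
      ((RingHom.mem_ker).2 hz)

/-- Variant of `reg1_generator` in which EVERY element of the ideal of the nodes lifts. -/
theorem reg1_generator'
    {k B C : Type*} [Field k] [CommRing B] [IsDomain B] [IsIntegrallyClosed B]
    [CommRing C] [IsDedekindDomain C] [Algebra k C]
    (r₁ r₂ : B →+* C)
    (S : Finset (Ideal C)) (hmax : ∀ t ∈ S, t.IsMaximal) (hbot : ∀ t ∈ S, t ≠ ⊥)
    (hres : ∀ t ∈ S, Function.Surjective (algebraMap k (C ⧸ t)))
    (hsand : ∀ a ∈ ∏ t ∈ S, t, ∃ z : B, r₁ z = a ∧ r₂ z = 0)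
    (e : ℕ) (he : 0 < e) (h : B)
    (hdiv : RingHom.ker r₂ ^ e ≤ Ideal.span {h})
    (hcount : e * S.card ≤ Module.finrank k (C ⧸ Ideal.span {r₁ h})) :
    ∀ t ∈ S, ∃ y ε : B, r₂ y = 0 ∧ r₁ y ∈ t ∧ r₁ y ∉ t ^ 2 ∧ y ^ e = ε * h ∧ r₁ ε ∉ t ∧
      Ideal.span {r₁ h} = (∏ t ∈ S, t) ^ e ∧
      ∀ z : B, r₂ z = 0 → y ∣ ε * z := by
  refine reg1_generator r₁ r₂ S hmax hbot hres ?_ e he h hdiv hcount
  intro a ha
  exact Ideal.subset_span ⟨ha, hsand a ha⟩

/-- Variant: the ideal generated by `r₁ (ker r₂)` is the ideal of the nodes. -/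
theorem reg1_generator''
    {k B C : Type*} [Field k] [CommRing B] [IsDomain B] [IsIntegrallyClosed B]
    [CommRing C] [IsDedekindDomain C] [Algebra k C]
    (r₁ r₂ : B →+* C)
    (S : Finset (Ideal C)) (hmax : ∀ t ∈ S, t.IsMaximal) (hbot : ∀ t ∈ S, t ≠ ⊥)
    (hres : ∀ t ∈ S, Function.Surjective (algebraMap k (C ⧸ t)))
    (hsand : (RingHom.ker r₂).map r₁ = ∏ t ∈ S, t)
    (e : ℕ) (he : 0 < e) (h : B)
    (hdiv : RingHom.ker r₂ ^ e ≤ Ideal.span {h})
    (hcount : e * S.card ≤ Module.finrank k (C ⧸ Ideal.span {r₁ h})) :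
    ∀ t ∈ S, ∃ y ε : B, r₂ y = 0 ∧ r₁ y ∈ t ∧ r₁ y ∉ t ^ 2 ∧ y ^ e = ε * h ∧ r₁ ε ∉ t ∧
      Ideal.span {r₁ h} = (∏ t ∈ S, t) ^ e ∧
      ∀ z : B, r₂ z = 0 → y ∣ ε * z := by
  refine reg1_generator r₁ r₂ S hmax hbot hres ?_ e he h hdiv hcount
  rw [← hsand]
  show Ideal.span (r₁ '' (RingHom.ker r₂ : Set B)) ≤ _
  rw [Ideal.span_le]
  rintro a ⟨z, hz, rfl⟩
  exact Ideal.subset_span ⟨Ideal.mem_map_of_mem r₁ hz, z, rfl, (RingHom.mem_ker).1 hz⟩

end Fermat.Agent.S36lib
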