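import Mathlib
import Fermat.Agent.S36lib.Reg1Gen

/-!
# Item 83 (S36), REG: adapters from the elementwise form of `reg1_generator` to localisations

* `reg1_map_eq_span`: `y ∈ p`, `ε ∉ t`, `∀ z ∈ p, y ∣ ε z`  ⟹  `p B_t = y B_t`
  (`B_t = Localization.AtPrime t`, or any `IsLocalization.AtPrime`).
* `reg1_generator_loc`: `reg1_generator` with the conclusion `p₂ B_t = y B_t`, `t = r₁⁻¹ (t_C)`.
* `reg2_dvd_of_map`: transport of a generator along a ring homomorphism `α : B_N → B_M`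
  (REG2: `x_0 := α y₁`, `x_∞ := β x₁`), from `p_M ^ e ≤ (α h)`.
* `reg2_ord_eq_one`: the intersection numbers: `a + (q - 1) b = q`, `a, b ≥ 1` ⟹ `a = b = 1`,
  in the form used for `ord_t red_0 (x_∞)`, `ord_t red_0 (x_mid)`.

Mathlib only.
-/

set_option autoImplicit false

namespace Fermat.Agent.S36lib

/-- elementwise principality gives principality in the localisation. -/
theorem reg1_map_eq_span {B : Type*} [CommRing B] (L : Type*) [CommRing L] [Algebra B L]
    (t : Ideal B) [t.IsPrime] [IsLocalization.AtPrime L t]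
    (p : Ideal B) (y ε : B) (hy : y ∈ p) (hε : ε ∉ t) (hdvd : ∀ z ∈ p, y ∣ ε * z) :
    p.map (algebraMap B L) = Ideal.span {algebraMap B L y} := by
  apply le_antisymm
  · rw [Ideal.map, Ideal.span_le]
    rintro _ ⟨z, hz, rfl⟩
    obtain ⟨w, hw⟩ := hdvd z hz
    have hunit : IsUnit (algebraMap B L ε) :=
      IsLocalization.map_units L (⟨ε, hε⟩ : t.primeCompl)
    obtain ⟨u, hu⟩ := hunit
    have h1 : algebraMap B L z = algebraMap B L y * (algebraMap B L w * ↑u⁻¹) := by
      have h2 : algebraMap B L ε * algebraMap B L z = algebraMap B L y * algebraMap B L w := by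
        rw [← map_mul, ← map_mul, hw]
      calc algebraMap B L z = ↑u⁻¹ * (algebraMap B L ε * algebraMap B L z) := by
            rw [← hu, ← mul_assoc, Units.inv_mul, one_mul]
        _ = algebraMap B L y * (algebraMap B L w * ↑u⁻¹) := by rw [h2]; ring
    show algebraMap B L z ∈ Ideal.span {algebraMap B L y}
    rw [h1]
    exact Ideal.mul_mem_right _ _ (Ideal.mem_span_singleton_self _)
  · rw [Ideal.span_le]
    intro x hx
    rw [Set.mem_singleton_iff] at hx
    rw [hx]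
    exact Ideal.mem_map_of_mem _ hy

/-- `reg1_generator` with the conclusion in the localisation at the node `r₁⁻¹ t` of `B`. -/
theorem reg1_generator_loc
    {k B C : Type*} [Field k] [CommRing B] [IsDomain B] [IsIntegrallyClosed B]
    [CommRing C] [IsDedekindDomain C] [Algebra k C]
    (r₁ r₂ : B →+* C)
    (S : Finset (Ideal C)) (hmax : ∀ t ∈ S, t.IsMaximal) (hbot : ∀ t ∈ S, t ≠ ⊥)
    (hres : ∀ t ∈ S, Function.Surjective (algebraMap k (C ⧸ t)))
    (hsand : ∏ t ∈ S, t ≤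
      Ideal.span {a : C | a ∈ ∏ t ∈ S, t ∧ ∃ z : B, r₁ z = a ∧ r₂ z = 0})
    (e : ℕ) (he : 0 < e) (h : B)
    (hdiv : RingHom.ker r₂ ^ e ≤ Ideal.span {h})
    (hcount : e * S.card ≤ Module.finrank k (C ⧸ Ideal.span {r₁ h}))
    (t : Ideal C) (ht : t ∈ S) [ht' : (t.comap r₁).IsPrime] :
    ∃ y ε : B, y ∈ RingHom.ker r₂ ∧ r₁ y ∈ t ∧ r₁ y ∉ t ^ 2 ∧ y ^ e = ε * h ∧ ε ∉ t.comap r₁ ∧
      (RingHom.ker r₂).map (algebraMap B (Localization.AtPrime (t.comap r₁))) =
        Ideal.span {algebraMap B (Localization.AtPrime (t.comap r₁)) y} := by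
  obtain ⟨y, ε, hy2, hy1, hy1', hε, hεt, -, hdvd⟩ :=
    reg1_generator r₁ r₂ S hmax hbot hres hsand e he h hdiv hcount t ht
  have hεt' : ε ∉ t.comap r₁ := fun hmem => hεt (Ideal.mem_comap.1 hmem)
  refine ⟨y, ε, (RingHom.mem_ker).2 hy2, hy1, hy1', hε, hεt', ?_⟩
  exact reg1_map_eq_span (Localization.AtPrime (t.comap r₁)) (t.comap r₁) (RingHom.ker r₂) y ε
    ((RingHom.mem_ker).2 hy2) hεt' (fun z hz => hdvd z ((RingHom.mem_ker).1 hz))

/-- **REG2, generators.**  Transport along `α : B_N → B_M`: if `y ^ e = ε h` in `B_N` and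
`p_M ^ e ≤ (α h)` in the integrally closed domain `B_M`, then `α y ∣ α ε · z` for all `z ∈ p_M`. -/
theorem reg2_dvd_of_map {BN BM : Type*} [CommRing BN] [CommRing BM] [IsDomain BM]
    [IsIntegrallyClosed BM] (α : BN →+* BM) (pM : Ideal BM) (e : ℕ) (he : 0 < e)
    (h y ε : BN) (hε : y ^ e = ε * h) (hy0 : α y ≠ 0)
    (hdivM : pM ^ e ≤ Ideal.span {α h}) :
    ∀ z ∈ pM, α y ∣ α ε * z :=
  reg1_dvd_of_pow_eq pM e he (α h) (α y) (α ε) hy0 hdivM (by rw [← map_pow, hε, map_mul])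

/-- **REG2, generators, localised.** -/
theorem reg2_map_eq_span {BN BM : Type*} [CommRing BN] [CommRing BM] [IsDomain BM]
    [IsIntegrallyClosed BM] (L : Type*) [CommRing L] [Algebra BM L]
    (t : Ideal BM) [t.IsPrime] [IsLocalization.AtPrime L t]
    (α : BN →+* BM) (pM : Ideal BM) (e : ℕ) (he : 0 < e)
    (h y ε : BN) (hε : y ^ e = ε * h) (hy0 : α y ≠ 0) (hyp : α y ∈ pM) (hεt : α ε ∉ t)
    (hdivM : pM ^ e ≤ Ideal.span {α h}) :
    pM.map (algebraMap BM L) = Ideal.span {algebraMap BM L (α y)} :=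
  reg1_map_eq_span L t pM (α y) (α ε) hyp hεt (reg2_dvd_of_map α pM e he h y ε hε hy0 hdivM)

/-- **REG2, intersection numbers** (arithmetic core): `a + (q - 1) b = q`, `1 ≤ a`, `1 ≤ b`
⟹ `a = 1 ∧ b = 1`. -/
theorem reg2_ord_eq_one {q a b : ℕ} (hq : 2 ≤ q) (ha : 1 ≤ a) (hb : 1 ≤ b)
    (h : a + (q - 1) * b = q) : a = 1 ∧ b = 1 := by
  obtain ⟨q', rfl⟩ : ∃ q', q = q' + 1 := ⟨q - 1, by omega⟩
  have hq' : 1 ≤ q' := by omega
  simp only [Nat.add_sub_cancel] at h
  have hb1 : b = 1 := by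
    by_contra hne
    have hb2 : 2 ≤ b := by omega
    have : q' * 2 ≤ q' * b := Nat.mul_le_mul_left q' hb2
    omega
  subst hb1
  constructor
  · omega
  · rfl

/-- **REG2, intersection numbers** in a discrete valuation setting: `v` an additive "order"
on a commutative monoid-with-zero-free part (values in `ℕ`), `w = u · x · y ^ (q - 1)` with `u` of
order `0`, `x, y` of order `≥ 1` and `w` of order `q`.  Then `x` and `y` have order `1`. -/
theorem reg2_ord_eq_one_of_factor {R : Type*} [CommMonoid R] (v : R → ℕ)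
    (hv : ∀ a b, v (a * b) = v a + v b) {q : ℕ} (hq : 2 ≤ q)
    (w u x y : R) (hw : w = u * x * y ^ (q - 1)) (hu : v u = 0) (hx : 1 ≤ v x) (hy : 1 ≤ v y)
    (hwq : v w = q) : v x = 1 ∧ v y = 1 := by
  have hpow : ∀ n : ℕ, v (y ^ n) = n * v y := by
    intro n
    induction n with
    | zero =>
      have h1 := hv 1 1
      rw [mul_one] at h1
      rw [pow_zero, zero_mul]
      omega
    | succ n ih => rw [pow_succ, hv, ih]; ring
  have h1 : v w = v x + (q - 1) * v y := by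
    rw [hw, hv, hv, hu, zero_add, hpow]
  rw [hwq] at h1
  exact reg2_ord_eq_one hq hx hy h1.symm

end Fermat.Agent.S36lib
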