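import Mathlib
import Fermat.Agent.S36lib.Setup
import Fermat.Agent.S36lib.Reg1Loc
import Fermat.Agent.S36lib.SemilocalRing

/-!
# Item 83 (S36), piece R-3 (REG2, helper9): the vertical primes are principal at the nodes of
level `M = M' q²`

Abstract form, over two `NodeSetup`s `SN` (level `N = M' q`, with `vMid := vInf`) and `SM`
(level `M`) and a *map of setups* `f : SetupMap SN SM` (a field homomorphism `F_N → F_M` mapping
`B_N` into `B_M`, with `v_∞^M` over `v_∞^N` and `v_0^M` over `v_0^N`; both `α` and `β` are such).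

* `reg2_mem_nonunits_iff` : a reflected valuation ring reflects its maximal ideal;
* `SetupMap.toB : SN.B →+* SM.B`, `SetupMap.mem_pInf_iff`, `SetupMap.mem_pZero_iff`;
* `SetupMap.isNode_comap` : the nodes of level `M` lie over the nodes of level `N`;
* `reg2_generator_zero`, `reg2_generator_inf` : **REG2**.  From REG1 at level `N`
  (`y ^ e = ε h`, `y ∈ p_0`, `ε` a unit at the node; helper21's `reg1_generator`) and
  `p_0(M) ^ e ≤ (f h)`: at every node `t` of level `M`, `x := f y ∈ p_0(M)` satisfies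
  `x ∣ f ε · z` for all `z ∈ p_0(M)`, with `f ε ∉ t`, and `p_0(M) · B_t = x · B_t`
  (forms (L2) and (L1) of the note; used with `f = α` for `p_0` and `f = β` for `p_∞`);
* `reg2_hdiv_zero`, `reg2_hdiv_inf` : the hypothesis `p ^ e ≤ (g)` from valuations:
  `B = R₀ ∩ O_∞ ∩ O_mid ∩ O_0`, `g⁻¹ ∈ R₀, O_∞, O_mid`, `ϖ ^ e g⁻¹ ∈ O_0`, `p_0 ⊆ ϖ O_0`.
-/

set_option autoImplicit false
set_option linter.style.haveILetI false

noncomputable section

namespace Fermat.Agent.S36lib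

section Nonunits

variable {FN FM : Type*} [Field FN] [Field FM]

/-- membership in the maximal ideal of a valuation ring, by the inverse -/
theorem reg2_mem_nonunits_iff_inv {F : Type*} [Field F] (O : ValuationSubring F) (x : F) :
    x ∈ O.nonunits ↔ x = 0 ∨ x⁻¹ ∉ O := by
  rw [ValuationSubring.mem_nonunits_iff]
  rcases eq_or_ne x 0 with rfl | hx
  · simp
  · have hv : O.valuation x ≠ 0 := (Valuation.ne_zero_iff _).2 hx
    have hpos : 0 < O.valuation x := zero_lt_iff.2 hv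
    rw [← ValuationSubring.valuation_le_one_iff, map_inv₀, inv_le_one₀ hpos]
    constructor
    · intro h
      exact Or.inr (not_le.2 h)
    · rintro (h | h)
      · exact absurd h hx
      · exact not_le.1 h

/-- a reflected valuation ring reflects its maximal ideal -/
theorem reg2_mem_nonunits_iff {ON : ValuationSubring FN} {OM : ValuationSubring FM}
    (φ : FN →+* FM) (h : ∀ x, φ x ∈ OM ↔ x ∈ ON) (x : FN) :
    φ x ∈ OM.nonunits ↔ x ∈ ON.nonunits := by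
  rw [reg2_mem_nonunits_iff_inv, reg2_mem_nonunits_iff_inv, ← map_inv₀, h, map_eq_zero]

end Nonunits

section Abstract

variable {K : Type*} [Field K] {k : Type*} [Field k]
  {A : ValuationSubring K} {π : A →+* k} {κ : Type*} [Field κ] [Algebra k κ]
  {FN FM : Type*} [Field FN] [Field FM] [Algebra K FN] [Algebra K FM]

/-- A map of setups: a field homomorphism `F_N → F_M` mapping `B_N` into `B_M`, with `v_∞^M`
over `v_∞^N` and `v_0^M` over `v_0^N`.  (`α` and `β` at the level `q²`.) -/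
structure SetupMap (SN : NodeSetup A π κ FN) (SM : NodeSetup A π κ FM) where
  /-- the field homomorphism -/
  φ : FN →+* FM
  map_B : ∀ x ∈ SN.B, φ x ∈ SM.B
  inf_iff : ∀ x, φ x ∈ SM.vInf.O ↔ x ∈ SN.vInf.O
  zero_iff : ∀ x, φ x ∈ SM.vZero.O ↔ x ∈ SN.vZero.O

namespace SetupMap

variable {SN : NodeSetup A π κ FN} {SM : NodeSetup A π κ FM} (f : SetupMap SN SM)

/-- the restriction `B_N → B_M` -/
def toB : SN.B →+* SM.B where
  toFun x := ⟨f.φ (x : FN), f.map_B (x : FN) x.2⟩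
  map_one' := Subtype.ext (map_one f.φ)
  map_mul' x y := Subtype.ext (map_mul f.φ (x : FN) (y : FN))
  map_zero' := Subtype.ext (map_zero f.φ)
  map_add' x y := Subtype.ext (map_add f.φ (x : FN) (y : FN))

@[simp] theorem coe_toB (x : SN.B) : ((f.toB x : SM.B) : FM) = f.φ (x : FN) := rfl

theorem toB_injective : Function.Injective f.toB := by
  intro x y h
  have h1 : f.φ (x : FN) = f.φ (y : FN) := congrArg Subtype.val h
  exact Subtype.ext (f.φ.injective h1)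

theorem mem_pInf_iff (x : SN.B) : f.toB x ∈ SM.pInf ↔ x ∈ SN.pInf := by
  rw [SM.mem_pInf_iff, SN.mem_pInf_iff, coe_toB]
  exact reg2_mem_nonunits_iff f.φ f.inf_iff _

theorem mem_pZero_iff (x : SN.B) : f.toB x ∈ SM.pZero ↔ x ∈ SN.pZero := by
  rw [SM.mem_pZero_iff, SN.mem_pZero_iff, coe_toB]
  exact reg2_mem_nonunits_iff f.φ f.zero_iff _

theorem comap_pInf : SM.pInf.comap f.toB = SN.pInf :=
  Ideal.ext fun x => by rw [Ideal.mem_comap, f.mem_pInf_iff]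

theorem comap_pZero : SM.pZero.comap f.toB = SN.pZero :=
  Ideal.ext fun x => by rw [Ideal.mem_comap, f.mem_pZero_iff]

/-- the nodes of level `M` lie over the nodes of level `N` -/
theorem isNode_comap (hmax : ∀ t : Ideal SM.B, t.IsMaximal → (t.comap f.toB).IsMaximal)
    {t : Ideal SM.B} (ht : SM.IsNode t) : SN.IsNode (t.comap f.toB) := by
  refine ⟨hmax t ht.1, sup_le ?_ ?_⟩
  · intro x hx
    rw [Ideal.mem_comap]
    exact ht.2 (Ideal.mem_sup_left ((f.mem_pInf_iff x).2 hx))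
  · intro x hx
    rw [Ideal.mem_comap]
    exact ht.2 (Ideal.mem_sup_right ((f.mem_pZero_iff x).2 hx))

/-- integrality of `B_M` over `B_N` gives the hypothesis `hmax` -/
theorem comap_isMaximal_of_isIntegral (hint : f.toB.IsIntegral)
    (t : Ideal SM.B) (ht : t.IsMaximal) : (t.comap f.toB).IsMaximal :=
  letI := f.toB.toAlgebra
  haveI : Algebra.IsIntegral SN.B SM.B := ⟨hint⟩
  Ideal.isMaximal_comap_of_isIntegral_of_isMaximal (R := SN.B) t

end SetupMap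

/-- **REG2, generic core.**  `φ : B_N → B_M`, `B_M` an integrally closed domain, `t` a prime of
`B_M`; `y ^ e = ε h` in `B_N` with `φ y ∈ p_M`, `φ ε ∉ t`, and `p_M ^ e ≤ (φ h)`, `φ h ≠ 0`.  Then
`x := φ y` generates `p_M` at `t`. -/
theorem reg2_generator_core {BN BM : Type*} [CommRing BN] [CommRing BM] [IsDomain BM]
    [IsIntegrallyClosed BM] (φ : BN →+* BM) (pM : Ideal BM) (t : Ideal BM) [t.IsPrime]
    (e : ℕ) (he : 0 < e) (h y ε : BN) (hε : y ^ e = ε * h) (hyp : φ y ∈ pM) (hεt : φ ε ∉ t)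
    (hh : φ h ≠ 0) (hdiv : pM ^ e ≤ Ideal.span {φ h}) :
    ∃ x ε' : BM, x ∈ pM ∧ ε' ∉ t ∧ (∀ z ∈ pM, x ∣ ε' * z) ∧
      pM.map (algebraMap BM (Localization.AtPrime t)) =
        Ideal.span {algebraMap BM (Localization.AtPrime t) x} := by
  have hε0 : φ ε ≠ 0 := fun h0 => hεt (h0 ▸ t.zero_mem)
  have hy0 : φ y ≠ 0 := by
    intro h0
    have h1 : φ y ^ e = φ ε * φ h := by rw [← map_pow, hε, map_mul]
    rw [h0, zero_pow he.ne'] at h1
    exact mul_ne_zero hε0 hh h1.symm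
  exact ⟨φ y, φ ε, hyp, hεt, reg2_dvd_of_map φ pM e he h y ε hε hy0 hdiv,
    reg2_map_eq_span (Localization.AtPrime t) t φ pM e he h y ε hε hy0 hyp hεt hdiv⟩

variable {SN : NodeSetup A π κ FN} {SM : NodeSetup A π κ FM}

/-- **REG2 for `p_0`** (to be used with `f = α`, `h = Δ(z)/Δ(qz)`, `e = 12`). -/
theorem reg2_generator_zero [IsIntegrallyClosed SM.B] (f : SetupMap SN SM)
    (hmax : ∀ t : Ideal SM.B, t.IsMaximal → (t.comap f.toB).IsMaximal)
    (e : ℕ) (he : 0 < e) (h : SN.B) (hh : h ≠ 0)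
    (hreg1 : ∀ s : Ideal SN.B, SN.IsNode s → ∃ y ε : SN.B, y ∈ SN.pZero ∧ y ^ e = ε * h ∧ ε ∉ s)
    (hdiv : SM.pZero ^ e ≤ Ideal.span {f.toB h})
    (t : Ideal SM.B) (ht : SM.IsNode t) :
    haveI : t.IsPrime := ht.1.isPrime
    ∃ x ε : SM.B, x ∈ SM.pZero ∧ ε ∉ t ∧ (∀ z ∈ SM.pZero, x ∣ ε * z) ∧
      SM.pZero.map (algebraMap SM.B (Localization.AtPrime t)) =
        Ideal.span {algebraMap SM.B (Localization.AtPrime t) x} := by
  haveI : t.IsPrime := ht.1.isPrime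
  obtain ⟨y, ε, hy, hε, hεs⟩ := hreg1 _ (f.isNode_comap hmax ht)
  exact reg2_generator_core f.toB SM.pZero t e he h y ε hε ((f.mem_pZero_iff y).2 hy)
    (fun hmem => hεs (Ideal.mem_comap.2 hmem))
    (fun h0 => hh (f.toB_injective (h0.trans (map_zero f.toB).symm))) hdiv

/-- **REG2 for `p_∞`** (to be used with `f = β`, `h = q ^ 12 Δ(qz)/Δ(z)`, `e = 12`). -/
theorem reg2_generator_inf [IsIntegrallyClosed SM.B] (f : SetupMap SN SM)
    (hmax : ∀ t : Ideal SM.B, t.IsMaximal → (t.comap f.toB).IsMaximal)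
    (e : ℕ) (he : 0 < e) (h : SN.B) (hh : h ≠ 0)
    (hreg1 : ∀ s : Ideal SN.B, SN.IsNode s → ∃ y ε : SN.B, y ∈ SN.pInf ∧ y ^ e = ε * h ∧ ε ∉ s)
    (hdiv : SM.pInf ^ e ≤ Ideal.span {f.toB h})
    (t : Ideal SM.B) (ht : SM.IsNode t) :
    haveI : t.IsPrime := ht.1.isPrime
    ∃ x ε : SM.B, x ∈ SM.pInf ∧ ε ∉ t ∧ (∀ z ∈ SM.pInf, x ∣ ε * z) ∧
      SM.pInf.map (algebraMap SM.B (Localization.AtPrime t)) =
        Ideal.span {algebraMap SM.B (Localization.AtPrime t) x} := by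
  haveI : t.IsPrime := ht.1.isPrime
  obtain ⟨y, ε, hy, hε, hεs⟩ := hreg1 _ (f.isNode_comap hmax ht)
  exact reg2_generator_core f.toB SM.pInf t e he h y ε hε ((f.mem_pInf_iff y).2 hy)
    (fun hmem => hεs (Ideal.mem_comap.2 hmem))
    (fun h0 => hh (f.toB_injective (h0.trans (map_zero f.toB).symm))) hdiv

/-- **REG2 ⇒ (hufd), via `p_∞`** (`f = β`): the local ring of `B_M` at a node is a UFD.
This is the hypothesis `hufd` of `s36_invert_nodeSetup` (M-3). -/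
theorem reg2_hufd_inf [IsNoetherianRing SM.B] [IsIntegrallyClosed SM.B]
    [IsDedekindDomain (SM.B ⧸ SM.pInf)] (f : SetupMap SN SM)
    (hmax : ∀ t : Ideal SM.B, t.IsMaximal → (t.comap f.toB).IsMaximal)
    (e : ℕ) (he : 0 < e) (h : SN.B) (hh : h ≠ 0)
    (hreg1 : ∀ s : Ideal SN.B, SN.IsNode s → ∃ y ε : SN.B, y ∈ SN.pInf ∧ y ^ e = ε * h ∧ ε ∉ s)
    (hdiv : SM.pInf ^ e ≤ Ideal.span {f.toB h})
    (hne : ¬ SM.pZero ≤ SM.pInf)
    (t : Ideal SM.B) [t.IsMaximal] (ht : SM.IsNode t) :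
    UniqueFactorizationMonoid (Localization.AtPrime t) := by
  obtain ⟨x, ε, -, -, -, hmap⟩ := reg2_generator_inf f hmax e he h hh hreg1 hdiv t ht
  have hlt : SM.pInf < t :=
    lt_of_le_of_ne (le_trans le_sup_left ht.2)
      (fun heq => hne (heq ▸ le_trans le_sup_right ht.2))
  exact s36_ufm_localization_of_dedekind SM.pInf t hlt ⟨⟨_, hmap⟩⟩

/-- **REG2 ⇒ (hufd), via `p_0`** (`f = α`). -/
theorem reg2_hufd_zero [IsNoetherianRing SM.B] [IsIntegrallyClosed SM.B]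
    [IsDedekindDomain (SM.B ⧸ SM.pZero)] (f : SetupMap SN SM)
    (hmax : ∀ t : Ideal SM.B, t.IsMaximal → (t.comap f.toB).IsMaximal)
    (e : ℕ) (he : 0 < e) (h : SN.B) (hh : h ≠ 0)
    (hreg1 : ∀ s : Ideal SN.B, SN.IsNode s → ∃ y ε : SN.B, y ∈ SN.pZero ∧ y ^ e = ε * h ∧ ε ∉ s)
    (hdiv : SM.pZero ^ e ≤ Ideal.span {f.toB h})
    (hne : ¬ SM.pInf ≤ SM.pZero)
    (t : Ideal SM.B) [t.IsMaximal] (ht : SM.IsNode t) :
    UniqueFactorizationMonoid (Localization.AtPrime t) := by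
  obtain ⟨x, ε, -, -, -, hmap⟩ := reg2_generator_zero f hmax e he h hh hreg1 hdiv t ht
  have hlt : SM.pZero < t :=
    lt_of_le_of_ne (le_trans le_sup_right ht.2)
      (fun heq => hne (heq ▸ le_trans le_sup_left ht.2))
  exact s36_ufm_localization_of_dedekind SM.pZero t hlt ⟨⟨_, hmap⟩⟩

end Abstract

section Hdiv

variable {F : Type*} [Field F]

/-- the elements of `B` of "order `≥ e`" for the valuation ring `O` with uniformiser `ϖ` -/
def reg2OrdIdeal (B : Subring F) (O : ValuationSubring F) (hBO : B ≤ O.toSubring) (ϖ : F)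
    (e : ℕ) : Ideal B where
  carrier := {z | (z : F) * (ϖ⁻¹) ^ e ∈ O}
  add_mem' := fun {a b} ha hb => by
    show ((a + b : B) : F) * (ϖ⁻¹) ^ e ∈ O
    rw [Subring.coe_add, add_mul]
    exact O.add_mem _ _ ha hb
  zero_mem' := by
    show ((0 : B) : F) * (ϖ⁻¹) ^ e ∈ O
    rw [Subring.coe_zero, zero_mul]
    exact O.zero_mem
  smul_mem' := fun c {a} ha => by
    show ((c * a : B) : F) * (ϖ⁻¹) ^ e ∈ O
    rw [Subring.coe_mul, mul_assoc]
    exact O.mul_mem _ _ (hBO c.2) ha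

theorem mem_reg2OrdIdeal (B : Subring F) (O : ValuationSubring F) (hBO : B ≤ O.toSubring)
    (ϖ : F) (e : ℕ) (z : B) :
    z ∈ reg2OrdIdeal B O hBO ϖ e ↔ (z : F) * (ϖ⁻¹) ^ e ∈ O := Iff.rfl

/-- `p ^ e` consists of elements of order `≥ e` if `p ⊆ ϖ O` -/
theorem reg2_pow_le_ordIdeal (B : Subring F) (O : ValuationSubring F) (hBO : B ≤ O.toSubring)
    (ϖ : F) (p : Ideal B) (hp : ∀ z ∈ p, (z : F) * ϖ⁻¹ ∈ O) (e : ℕ) :
    p ^ e ≤ reg2OrdIdeal B O hBO ϖ e := by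
  induction e with
  | zero =>
    intro z _
    rw [mem_reg2OrdIdeal, pow_zero, mul_one]
    exact hBO z.2
  | succ n ih =>
    rw [pow_succ, Ideal.mul_le]
    intro a ha b hb
    rw [mem_reg2OrdIdeal, Subring.coe_mul, pow_succ]
    have h1 := (mem_reg2OrdIdeal B O hBO ϖ n a).1 (ih ha)
    have h2 := hp b hb
    have e1 : (a : F) * (b : F) * ((ϖ⁻¹) ^ n * ϖ⁻¹) = ((a : F) * (ϖ⁻¹) ^ n) * ((b : F) * ϖ⁻¹) := by
      ring
    rw [e1]
    exact O.mul_mem _ _ h1 h2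

/-- **the hypothesis `hdiv` from valuations** (generic): `B = R₀ ∩ O₁ ∩ O₂ ∩ O`, `p ⊆ ϖ O`,
`g ≠ 0`, `g⁻¹ ∈ R₀, O₁, O₂` and `ϖ ^ e g⁻¹ ∈ O`.  Then `p ^ e ≤ (g)`. -/
theorem reg2_hdiv (B R₀ : Subring F) (O₁ O₂ O : ValuationSubring F)
    (hB : ∀ x : F, x ∈ B ↔ x ∈ R₀ ∧ x ∈ O₁ ∧ x ∈ O₂ ∧ x ∈ O)
    (ϖ : F) (hϖ : ϖ ≠ 0) (p : Ideal B) (hp : ∀ z ∈ p, (z : F) * ϖ⁻¹ ∈ O)
    (e : ℕ) (g : B) (hg0' : g ≠ 0) (hgR : (g : F)⁻¹ ∈ R₀) (hg₁ : (g : F)⁻¹ ∈ O₁)
    (hg₂ : (g : F)⁻¹ ∈ O₂) (hg : ϖ ^ e * (g : F)⁻¹ ∈ O) : p ^ e ≤ Ideal.span {g} := by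
  have hBO : B ≤ O.toSubring := fun x hx => ((hB x).1 hx).2.2.2
  intro z hz
  have hz1 : (z : F) * (ϖ⁻¹) ^ e ∈ O :=
    (mem_reg2OrdIdeal B O hBO ϖ e z).1 (reg2_pow_le_ordIdeal B O hBO ϖ p hp e hz)
  have hzB := (hB (z : F)).1 z.2
  have hg0 : (g : F) ≠ 0 := fun h0 => hg0' (Subtype.ext h0)
  have hw : (z : F) * (g : F)⁻¹ ∈ B := by
    rw [hB]
    refine ⟨R₀.mul_mem hzB.1 hgR, O₁.mul_mem _ _ hzB.2.1 hg₁, O₂.mul_mem _ _ hzB.2.2.1 hg₂, ?_⟩
    have e1 : (z : F) * (g : F)⁻¹ = ((z : F) * (ϖ⁻¹) ^ e) * (ϖ ^ e * (g : F)⁻¹) := by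
      rw [inv_pow]
      field_simp
    rw [e1]
    exact O.mul_mem _ _ hz1 hg
  rw [Ideal.mem_span_singleton']
  refine ⟨⟨_, hw⟩, Subtype.ext ?_⟩
  show (z : F) * (g : F)⁻¹ * (g : F) = (z : F)
  field_simp

end Hdiv

end Fermat.Agent.S36lib

end
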