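import Mathlib
import Fermat.Agent.S36lib.Setup
import Fermat.Agent.S36lib.Reg2
import Fermat.Agent.S36lib.Incidence

/-!
# Item 83 (S36), piece INC at the level of `NodeSetup`

`SN` is the setup of level `N = M' q` (with `vMid := vInf`), `SM` the setup of level
`M = M' q²`, `fα, fβ : SetupMap SN SM` the two degeneracy maps.  The table of contractions is
`β⁻¹(p_∞) = p¹_∞`, `β⁻¹(p_mid) = β⁻¹(p_0) = p¹_0`, `α⁻¹(p_∞) = α⁻¹(p_mid) = p¹_∞`,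
`α⁻¹(p_0) = p¹_0`; the first and the last column are part of `SetupMap`, the middle column is
the hypothesis `hαMid`, `hβMid` (valuation rings) here.

* `inc_setup_comap_pMid` : the middle column of the table, from the valuation rings;
* `inc_setup_const_mem_*`, `inc_setup_p*_ne_bot` : `ϖ` lies in the three primes, which are
  nonzero;
* `inc_nodeSetup` : **INC**, a maximal ideal of `SM.B` containing two of `p_∞, p_mid, p_0` is a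
  node and contains `p_mid`;
* `inc_nodeSetup_trichotomy` : a maximal ideal of `SM.B` containing `ϖ` is a node (containing
  the three primes) or contains exactly one of the three primes.
-/

set_option autoImplicit false

noncomputable section

namespace Fermat.Agent.S36lib

section Setup

variable {K : Type*} [Field K] {k : Type*} [Field k]
  {A : ValuationSubring K} {π : A →+* k} {κ : Type*} [Field κ] [Algebra k κ]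
  {FN FM : Type*} [Field FN] [Field FM] [Algebra K FN] [Algebra K FM]

/-- the middle column of the table of contractions, for a map with `v_mid^M` over `v_∞^N` -/
theorem inc_setup_comap_pMid_inf {SN : NodeSetup A π κ FN} {SM : NodeSetup A π κ FM}
    (f : SetupMap SN SM) (hMid : ∀ x, f.φ x ∈ SM.vMid.O ↔ x ∈ SN.vInf.O) :
    SM.pMid.comap f.toB = SN.pInf := by
  ext x
  rw [Ideal.mem_comap, SM.mem_pMid_iff, SN.mem_pInf_iff, SetupMap.coe_toB]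
  exact reg2_mem_nonunits_iff f.φ hMid _

/-- the middle column of the table of contractions, for a map with `v_mid^M` over `v_0^N` -/
theorem inc_setup_comap_pMid_zero {SN : NodeSetup A π κ FN} {SM : NodeSetup A π κ FM}
    (f : SetupMap SN SM) (hMid : ∀ x, f.φ x ∈ SM.vMid.O ↔ x ∈ SN.vZero.O) :
    SM.pMid.comap f.toB = SN.pZero := by
  ext x
  rw [Ideal.mem_comap, SM.mem_pMid_iff, SN.mem_pZero_iff, SetupMap.coe_toB]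
  exact reg2_mem_nonunits_iff f.φ hMid _

variable {F : Type*} [Field F] [Algebra K F] (S : NodeSetup A π κ F)

theorem inc_setup_const_mem_pInf (ϖ : A) (hϖ : π ϖ = 0) : S.constB ϖ ∈ S.pInf := by
  change S.redInf (S.constB ϖ) = 0
  rw [S.redInf_constB, hϖ, map_zero]

theorem inc_setup_const_mem_pMid (ϖ : A) (hϖ : π ϖ = 0) : S.constB ϖ ∈ S.pMid := by
  change S.redMid (S.constB ϖ) = 0
  rw [S.redMid_constB, hϖ, map_zero]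

theorem inc_setup_const_mem_pZero (ϖ : A) (hϖ : π ϖ = 0) : S.constB ϖ ∈ S.pZero := by
  change S.redZero (S.constB ϖ) = 0
  rw [S.redZero_constB, hϖ, map_zero]

theorem inc_setup_const_ne_zero (ϖ : A) (hϖ0 : ϖ ≠ 0) : S.constB ϖ ≠ 0 := by
  intro h
  have h1 : algebraMap K F (ϖ : K) = 0 := by
    have := congrArg (Subtype.val : S.B → F) h
    simpa using this
  have h2 : (ϖ : K) = 0 := by
    rwa [map_eq_zero] at h1
  exact hϖ0 (Subtype.ext h2)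

theorem inc_setup_pInf_ne_bot (ϖ : A) (hϖ0 : ϖ ≠ 0) (hϖ : π ϖ = 0) : S.pInf ≠ ⊥ := fun h =>
  inc_setup_const_ne_zero S ϖ hϖ0 ((Ideal.mem_bot).1 (h ▸ inc_setup_const_mem_pInf S ϖ hϖ))

theorem inc_setup_pMid_ne_bot (ϖ : A) (hϖ0 : ϖ ≠ 0) (hϖ : π ϖ = 0) : S.pMid ≠ ⊥ := fun h =>
  inc_setup_const_ne_zero S ϖ hϖ0 ((Ideal.mem_bot).1 (h ▸ inc_setup_const_mem_pMid S ϖ hϖ))

theorem inc_setup_pZero_ne_bot (ϖ : A) (hϖ0 : ϖ ≠ 0) (hϖ : π ϖ = 0) : S.pZero ≠ ⊥ := fun h =>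
  inc_setup_const_ne_zero S ϖ hϖ0 ((Ideal.mem_bot).1 (h ▸ inc_setup_const_mem_pZero S ϖ hϖ))

end Setup

section Main

variable {K : Type*} [Field K] {k : Type*} [Field k]
  {A : ValuationSubring K} {π : A →+* k} {κ : Type*} [Field κ] [Algebra k κ]
  {FN FM : Type*} [Field FN] [Field FM] [Algebra K FN] [Algebra K FM]
  {SN : NodeSetup A π κ FN} {SM : NodeSetup A π κ FM}

/-- **INC for `NodeSetup`.**  A maximal ideal of `B_M` containing two of the three primes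
`p_∞, p_mid, p_0` is a node, and contains `p_mid`. -/
theorem inc_nodeSetup [IsNoetherianRing SM.B]
    (fα fβ : SetupMap SN SM) (hα : fα.toB.IsIntegral) (hβ : fβ.toB.IsIntegral)
    (hαMid : SM.pMid.comap fα.toB = SN.pInf) (hβMid : SM.pMid.comap fβ.toB = SN.pZero)
    (hnle : ¬ SN.pInf ≤ SN.pZero) (hnle' : ¬ SN.pZero ≤ SN.pInf)
    (ϖ : A) (hϖ0 : ϖ ≠ 0) (hϖ : π ϖ = 0)
    (hαc : fα.toB (SN.constB ϖ) = SM.constB ϖ) (hβc : fβ.toB (SN.constB ϖ) = SM.constB ϖ)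
    (Hrad : ∀ P : Ideal SM.B, P.IsPrime → SM.constB ϖ ∈ P →
      SM.pInf ≤ P ∨ SM.pMid ≤ P ∨ SM.pZero ≤ P)
    (e : ℕ) (he : 0 < e)
    (hPIβ : ∀ z : SM.B, ∃ w : SN.B, z ^ e - fβ.toB w ∈ SM.pInf)
    (hPIα : ∀ z : SM.B, ∃ w : SN.B, z ^ e - fα.toB w ∈ SM.pZero)
    (hreg1Inf : ∀ s : Ideal SN.B, SN.IsNode s →
      ∃ y ε : SN.B, y ∈ SN.pInf ∧ ε ∉ s ∧ ∀ z ∈ SN.pInf, y ∣ ε * z)
    (hreg1Zero : ∀ s : Ideal SN.B, SN.IsNode s →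
      ∃ y ε : SN.B, y ∈ SN.pZero ∧ ε ∉ s ∧ ∀ z ∈ SN.pZero, y ∣ ε * z)
    (𝔪 : Ideal SM.B) (h𝔪 : 𝔪.IsMaximal)
    (h2 : (SM.pInf ≤ 𝔪 ∧ SM.pMid ≤ 𝔪) ∨ (SM.pInf ≤ 𝔪 ∧ SM.pZero ≤ 𝔪) ∨
      (SM.pMid ≤ 𝔪 ∧ SM.pZero ≤ 𝔪)) :
    SM.IsNode 𝔪 ∧ SM.pMid ≤ 𝔪 := by
  have h := inc_node fα.toB fβ.toB hα hβ SM.pInf SM.pMid SM.pZero SN.pInf SN.pZero
    fβ.comap_pInf hβMid fβ.comap_pZero fα.comap_pInf hαMid fα.comap_pZero hnle hnle'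
    (inc_setup_pInf_ne_bot SM ϖ hϖ0 hϖ) (inc_setup_pMid_ne_bot SM ϖ hϖ0 hϖ)
    (inc_setup_pZero_ne_bot SM ϖ hϖ0 hϖ)
    (SN.constB ϖ) (inc_setup_const_mem_pInf SN ϖ hϖ) (inc_setup_const_mem_pZero SN ϖ hϖ)
    (SM.constB ϖ) hαc hβc Hrad e he hPIβ hPIα
    (fun s hs h1 h2 => hreg1Inf s ⟨hs, sup_le h1 h2⟩)
    (fun s hs h1 h2 => hreg1Zero s ⟨hs, sup_le h1 h2⟩) 𝔪 h𝔪 h2
  exact ⟨⟨h𝔪, sup_le h.1 h.2.2⟩, h.2.1⟩

/-- **Trichotomy for `NodeSetup`.**  A maximal ideal of `B_M` containing `ϖ` is a node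
(containing the three primes) or contains exactly one of the three primes. -/
theorem inc_nodeSetup_trichotomy [IsNoetherianRing SM.B]
    (fα fβ : SetupMap SN SM) (hα : fα.toB.IsIntegral) (hβ : fβ.toB.IsIntegral)
    (hαMid : SM.pMid.comap fα.toB = SN.pInf) (hβMid : SM.pMid.comap fβ.toB = SN.pZero)
    (hnle : ¬ SN.pInf ≤ SN.pZero) (hnle' : ¬ SN.pZero ≤ SN.pInf)
    (ϖ : A) (hϖ0 : ϖ ≠ 0) (hϖ : π ϖ = 0)
    (hαc : fα.toB (SN.constB ϖ) = SM.constB ϖ) (hβc : fβ.toB (SN.constB ϖ) = SM.constB ϖ)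
    (Hrad : ∀ P : Ideal SM.B, P.IsPrime → SM.constB ϖ ∈ P →
      SM.pInf ≤ P ∨ SM.pMid ≤ P ∨ SM.pZero ≤ P)
    (e : ℕ) (he : 0 < e)
    (hPIβ : ∀ z : SM.B, ∃ w : SN.B, z ^ e - fβ.toB w ∈ SM.pInf)
    (hPIα : ∀ z : SM.B, ∃ w : SN.B, z ^ e - fα.toB w ∈ SM.pZero)
    (hreg1Inf : ∀ s : Ideal SN.B, SN.IsNode s →
      ∃ y ε : SN.B, y ∈ SN.pInf ∧ ε ∉ s ∧ ∀ z ∈ SN.pInf, y ∣ ε * z)
    (hreg1Zero : ∀ s : Ideal SN.B, SN.IsNode s →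
      ∃ y ε : SN.B, y ∈ SN.pZero ∧ ε ∉ s ∧ ∀ z ∈ SN.pZero, y ∣ ε * z)
    (𝔪 : Ideal SM.B) (h𝔪 : 𝔪.IsMaximal) (hϖ𝔪 : SM.constB ϖ ∈ 𝔪) :
    (SM.IsNode 𝔪 ∧ SM.pMid ≤ 𝔪) ∨
    (SM.pInf ≤ 𝔪 ∧ ¬ SM.pMid ≤ 𝔪 ∧ ¬ SM.pZero ≤ 𝔪) ∨
    (¬ SM.pInf ≤ 𝔪 ∧ SM.pMid ≤ 𝔪 ∧ ¬ SM.pZero ≤ 𝔪) ∨
    (¬ SM.pInf ≤ 𝔪 ∧ ¬ SM.pMid ≤ 𝔪 ∧ SM.pZero ≤ 𝔪) := by
  have node := inc_nodeSetup fα fβ hα hβ hαMid hβMid hnle hnle' ϖ hϖ0 hϖ hαc hβc Hrad e he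
    hPIβ hPIα hreg1Inf hreg1Zero 𝔪 h𝔪
  by_cases hI : SM.pInf ≤ 𝔪 <;> by_cases hM : SM.pMid ≤ 𝔪 <;> by_cases hZ : SM.pZero ≤ 𝔪
  · exact Or.inl (node (Or.inl ⟨hI, hM⟩))
  · exact Or.inl (node (Or.inl ⟨hI, hM⟩))
  · exact Or.inl (node (Or.inr (Or.inl ⟨hI, hZ⟩)))
  · exact Or.inr (Or.inl ⟨hI, hM, hZ⟩)
  · exact Or.inl (node (Or.inr (Or.inr ⟨hM, hZ⟩)))
  · exact Or.inr (Or.inr (Or.inl ⟨hI, hM, hZ⟩))
  · exact Or.inr (Or.inr (Or.inr ⟨hI, hM, hZ⟩))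
  · exfalso
    rcases Hrad 𝔪 h𝔪.isPrime hϖ𝔪 with h | h | h
    · exact hI h
    · exact hM h
    · exact hZ h

end Main

end Fermat.Agent.S36lib

end
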