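import Mathlib
import Fermat.Agent.S36lib.Setup
import Fermat.Agent.S36lib.Reg2
import Fermat.Agent.S36lib.Incidence
import Fermat.Agent.S36lib.IncidenceSetup

/-!
# Item 83 (S36), piece INC, concrete form (helper22): INC from the REDUCTION TABLE

`Incidence.lean` proves INC for two integral maps `α, β : B₁ → B`.  Here integrality is
replaced by what the reduction table gives for free: for the columns with `e = f = 1` the map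
`B₁ → B ⧸ Q` is ONTO (`hS : ∀ z, ∃ w, z - φ w ∈ Q`), for the inseparable column the map
`B₁ → B ⧸ P` is onto up to `e`-th powers (`hPI`).  No integrality of `α`, `β` is needed.

Rings:
* `incc_comap_isMaximal`, `incc_lift` : contraction of maximal ideals, lying over;
* `incc_key` : over a maximal ideal `𝔫 ⊇ P' + Q'` of `B₁` with a local generator of `P'` there is
  a maximal ideal `t ⊇ P + Q` of `B`;
* `incc_core`, `incc_node`, `incc_trichotomy` : INC and the trichotomy;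
* `incc_exists_node` : over every node of `B₁` there is a node of `B`.

`NodeSetup` (the hypotheses have the shapes of `s36_crux_head`, `s36_redMem_nodeSetup`):
* `incc_setup_hS`, `incc_setup_hPI` : the two kinds of columns from the table;
* `incc_setup_comap_pMid_α/β` : the middle column of the table of contractions;
* `incc_nodeSetup`, `incc_nodeSetup_trichotomy`, `incc_nodeSetup_htri` (the hypothesis `htri` of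
  `s36_hhead` for `SM`), `incc_nodeSetup_hnode` (the hypothesis `hnode`).
-/

set_option autoImplicit false
set_option linter.style.haveILetI false

noncomputable section

namespace Fermat.Agent.S36lib

section Rings

variable {B₁ B : Type*} [CommRing B₁] [CommRing B]

/-- the contraction of a maximal ideal `𝔪 ⊇ Q` is maximal, if `B₁ → B ⧸ Q` is onto -/
theorem incc_comap_isMaximal (φ : B₁ →+* B) (Q : Ideal B)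
    (hS : ∀ z : B, ∃ w : B₁, z - φ w ∈ Q)
    (𝔪 : Ideal B) (h𝔪 : 𝔪.IsMaximal) (hQ𝔪 : Q ≤ 𝔪) : (𝔪.comap φ).IsMaximal := by
  have hsurj : Function.Surjective ((Ideal.Quotient.mk 𝔪).comp φ) := by
    intro x
    obtain ⟨z, rfl⟩ := Ideal.Quotient.mk_surjective x
    obtain ⟨w, hw⟩ := hS z
    refine ⟨w, ?_⟩
    rw [RingHom.comp_apply]
    exact ((Ideal.Quotient.mk_eq_mk_iff_sub_mem z (φ w)).2 (hQ𝔪 hw)).symm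
  letI : Field (B ⧸ 𝔪) := Ideal.Quotient.field 𝔪
  have h := RingHom.ker_isMaximal_of_surjective ((Ideal.Quotient.mk 𝔪).comp φ) hsurj
  have hker : RingHom.ker ((Ideal.Quotient.mk 𝔪).comp φ) = 𝔪.comap φ := by
    ext x
    rw [RingHom.mem_ker, RingHom.comp_apply, Ideal.Quotient.eq_zero_iff_mem, Ideal.mem_comap]
  rwa [hker] at h

/-- **lying over without integrality**: if `B₁ → B ⧸ Q` is onto and `φ⁻¹ Q = Q'`, every maximal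
ideal `𝔫 ⊇ Q'` of `B₁` is the contraction of a maximal ideal `t ⊇ Q` of `B`. -/
theorem incc_lift (φ : B₁ →+* B) (Q : Ideal B) (Q' : Ideal B₁)
    (hQ : Q.comap φ = Q') (hS : ∀ z : B, ∃ w : B₁, z - φ w ∈ Q)
    (𝔫 : Ideal B₁) (h𝔫 : 𝔫.IsMaximal) (hQ𝔫 : Q' ≤ 𝔫) :
    ∃ t : Ideal B, t.IsMaximal ∧ Q ≤ t ∧ t.comap φ = 𝔫 := by
  set ψ : B₁ →+* B ⧸ Q := (Ideal.Quotient.mk Q).comp φ with hψ
  have hsurj : Function.Surjective ψ := by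
    intro x
    obtain ⟨z, rfl⟩ := Ideal.Quotient.mk_surjective x
    obtain ⟨w, hw⟩ := hS z
    refine ⟨w, ?_⟩
    rw [hψ, RingHom.comp_apply]
    exact ((Ideal.Quotient.mk_eq_mk_iff_sub_mem z (φ w)).2 hw).symm
  have hker : RingHom.ker ψ = Q' := by
    rw [← hQ]
    ext x
    rw [RingHom.mem_ker, hψ, RingHom.comp_apply, Ideal.Quotient.eq_zero_iff_mem,
      Ideal.mem_comap]
  have hcm : (𝔫.map ψ).comap ψ = 𝔫 := by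
    rw [Ideal.comap_map_of_surjective ψ hsurj, ← RingHom.ker_eq_comap_bot, hker]
    exact sup_eq_left.2 hQ𝔫
  have hmax : (𝔫.map ψ).IsMaximal := by
    rcases Ideal.map_eq_top_or_isMaximal_of_surjective ψ hsurj h𝔫 with h | h
    · exfalso
      rw [h, Ideal.comap_top] at hcm
      exact h𝔫.ne_top hcm.symm
    · exact h
  refine ⟨(𝔫.map ψ).comap (Ideal.Quotient.mk Q), ?_, ?_, ?_⟩
  · exact Ideal.comap_isMaximal_of_surjective _ Ideal.Quotient.mk_surjective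
  · intro x hx
    rw [Ideal.mem_comap, Ideal.Quotient.eq_zero_iff_mem.2 hx]
    exact Ideal.zero_mem _
  · rw [Ideal.comap_comap]
    exact hcm

variable [IsDomain B] [IsNoetherianRing B]

/-- **the key step of INC**: `φ : B₁ → B`, `P, Q` primes of `B`, `φ⁻¹ Q = Q'`, `B₁ → B ⧸ Q` onto,
`𝔫 ⊇ P' + Q'` a maximal ideal of `B₁` at which `P'` is locally principal.  If every prime of `B`
containing `π = φ ϖ` contains `P` or a nonzero prime with contraction `Q'`, and `P' ≰ Q'`, there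
is a maximal ideal `t ⊇ P + Q` of `B` over `𝔫`. -/
theorem incc_key (φ : B₁ →+* B) (P Q : Ideal B) (P' Q' : Ideal B₁)
    (hQ : Q.comap φ = Q') (hnle : ¬ P' ≤ Q')
    (ϖ : B₁) (hϖ : ϖ ∈ P') (π : B) (hπ : φ ϖ = π)
    (HradQ : ∀ 𝔓 : Ideal B, 𝔓.IsPrime → π ∈ 𝔓 → P ≤ 𝔓 ∨
      ∃ R : Ideal B, R.IsPrime ∧ R ≠ ⊥ ∧ R.comap φ = Q' ∧ R ≤ 𝔓)
    (hS : ∀ z : B, ∃ w : B₁, z - φ w ∈ Q)
    (𝔫 : Ideal B₁) (h𝔫 : 𝔫.IsMaximal) (hP'𝔫 : P' ≤ 𝔫) (hQ'𝔫 : Q' ≤ 𝔫)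
    (hreg1 : ∃ y ε : B₁, y ∈ P' ∧ ε ∉ 𝔫 ∧ ∀ z ∈ P', y ∣ ε * z) :
    ∃ t : Ideal B, t.IsMaximal ∧ P ≤ t ∧ Q ≤ t ∧ t.comap φ = 𝔫 := by
  classical
  obtain ⟨y, ε, hyP', hε, hdvd⟩ := hreg1
  obtain ⟨t, htmax, htQ, htcomap⟩ := incc_lift φ Q Q' hQ hS 𝔫 h𝔫 hQ'𝔫
  have htprime : t.IsPrime := htmax.isPrime
  refine ⟨t, htmax, ?_, htQ, htcomap⟩
  have hyt : φ y ∈ t := by
    have : y ∈ t.comap φ := by rw [htcomap]; exact hP'𝔫 hyP'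
    exact this
  -- a minimal prime over `φ y` inside `t`
  have hspan : Ideal.span {φ y} ≤ t := (Ideal.span_singleton_le_iff_mem t).mpr hyt
  obtain ⟨𝔓, h𝔓min, h𝔓t⟩ := Ideal.exists_minimalPrimes_le hspan
  have h𝔓prime : 𝔓.IsPrime := h𝔓min.1.1
  have hy𝔓 : φ y ∈ 𝔓 := h𝔓min.1.2 (Ideal.mem_span_singleton_self _)
  have hht : 𝔓.height ≤ 1 :=
    Ideal.height_le_one_of_isPrincipal_of_mem_minimalPrimes (Ideal.span {φ y}) 𝔓 h𝔓min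
  -- `P' ≤ φ⁻¹ 𝔓`
  have hP'𝔓 : P' ≤ 𝔓.comap φ := by
    intro z hz
    obtain ⟨c, hc⟩ := hdvd z hz
    have h1 : φ ε * φ z ∈ 𝔓 := by
      have : φ (ε * z) = φ y * φ c := by rw [hc, map_mul]
      rw [← map_mul, this]
      exact 𝔓.mul_mem_right _ hy𝔓
    rcases h𝔓prime.mem_or_mem h1 with h | h
    · exfalso
      apply hε
      have : ε ∈ t.comap φ := h𝔓t h
      rwa [htcomap] at this
    · exact h
  have hπ𝔓 : π ∈ 𝔓 := hπ ▸ hP'𝔓 hϖ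
  rcases HradQ 𝔓 h𝔓prime hπ𝔓 with h | ⟨R, hRprime, hR0, hRcomap, hR𝔓⟩
  · exact h.trans h𝔓t
  · exfalso
    have := hRprime
    have := inc_eq_of_le_of_height_le_one R 𝔓 hR0 hR𝔓 hht
    apply hnle
    rw [← hRcomap, this]
    exact hP'𝔓

/-- **Core of INC, without integrality.**  `φ : B₁ → B`, `P, Q₁, Q₂` primes of the Noetherian
domain `B` with `φ⁻¹ P = P'`, `φ⁻¹ Q₁ = φ⁻¹ Q₂ = Q'`, `P' ≰ Q'`, `B₁ → B ⧸ Q_i` onto,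
`B₁ → B ⧸ P` onto up to `e`-th powers.  Then a maximal ideal of `B` containing `P` and one of
`Q₁, Q₂` contains both `Q₁` and `Q₂`. -/
theorem incc_core (φ : B₁ →+* B)
    (P Q₁ Q₂ : Ideal B) [P.IsPrime] [Q₁.IsPrime] [Q₂.IsPrime] (P' Q' : Ideal B₁)
    (hP : P.comap φ = P') (hQ₁ : Q₁.comap φ = Q') (hQ₂ : Q₂.comap φ = Q')
    (hnle : ¬ P' ≤ Q') (hQ₁0 : Q₁ ≠ ⊥) (hQ₂0 : Q₂ ≠ ⊥)
    (ϖ : B₁) (hϖ : ϖ ∈ P') (π : B) (hπ : φ ϖ = π)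
    (Hrad : ∀ 𝔓 : Ideal B, 𝔓.IsPrime → π ∈ 𝔓 → P ≤ 𝔓 ∨ Q₁ ≤ 𝔓 ∨ Q₂ ≤ 𝔓)
    (e : ℕ) (he : 0 < e) (hPI : ∀ z : B, ∃ w : B₁, z ^ e - φ w ∈ P)
    (hS₁ : ∀ z : B, ∃ w : B₁, z - φ w ∈ Q₁) (hS₂ : ∀ z : B, ∃ w : B₁, z - φ w ∈ Q₂)
    (hreg1 : ∀ s : Ideal B₁, s.IsMaximal → P' ≤ s → Q' ≤ s →
      ∃ y ε : B₁, y ∈ P' ∧ ε ∉ s ∧ ∀ z ∈ P', y ∣ ε * z)
    (𝔪 : Ideal B) (h𝔪 : 𝔪.IsMaximal) (hP𝔪 : P ≤ 𝔪) (hQ𝔪 : Q₁ ≤ 𝔪 ∨ Q₂ ≤ 𝔪) :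
    Q₁ ≤ 𝔪 ∧ Q₂ ≤ 𝔪 := by
  -- the contraction of `𝔪`
  set 𝔫 : Ideal B₁ := 𝔪.comap φ with h𝔫
  have h𝔫max : 𝔫.IsMaximal := by
    rcases hQ𝔪 with h | h
    · exact incc_comap_isMaximal φ Q₁ hS₁ 𝔪 h𝔪 h
    · exact incc_comap_isMaximal φ Q₂ hS₂ 𝔪 h𝔪 h
  have hP'𝔫 : P' ≤ 𝔫 := hP ▸ Ideal.comap_mono hP𝔪
  have hQ'𝔫 : Q' ≤ 𝔫 := by
    rcases hQ𝔪 with h | h
    · exact hQ₁ ▸ Ideal.comap_mono h
    · exact hQ₂ ▸ Ideal.comap_mono h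
  have hreg := hreg1 𝔫 h𝔫max hP'𝔫 hQ'𝔫
  have key : ∀ Q : Ideal B, Q.comap φ = Q' → (∀ z : B, ∃ w : B₁, z - φ w ∈ Q) →
      (∀ 𝔓 : Ideal B, 𝔓.IsPrime → π ∈ 𝔓 → P ≤ 𝔓 ∨
        ∃ R : Ideal B, R.IsPrime ∧ R ≠ ⊥ ∧ R.comap φ = Q' ∧ R ≤ 𝔓) → Q ≤ 𝔪 := by
    intro Q hQ hS HradQ
    obtain ⟨t, htmax, hPt, htQ, htcomap⟩ :=
      incc_key φ P Q P' Q' hQ hnle ϖ hϖ π hπ HradQ hS 𝔫 h𝔫max hP'𝔫 hQ'𝔫 hreg
    have htprime : t.IsPrime := htmax.isPrime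
    -- `𝔪 ≤ t`
    have h𝔪t : 𝔪 ≤ t := by
      intro z hz
      obtain ⟨w, hw⟩ := hPI z
      have hze : z ^ e ∈ 𝔪 := Ideal.pow_mem_of_mem 𝔪 hz e he
      have hφw : φ w ∈ 𝔪 := by
        have h1 : z ^ e - (z ^ e - φ w) ∈ 𝔪 := 𝔪.sub_mem hze (hP𝔪 hw)
        simpa using h1
      have hwt : φ w ∈ t := by
        have : w ∈ t.comap φ := by rw [htcomap]; exact hφw
        exact this
      have hzet : z ^ e ∈ t := by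
        have h1 : (z ^ e - φ w) + φ w ∈ t := t.add_mem (hPt hw) hwt
        simpa using h1
      exact htprime.mem_of_pow_mem e hzet
    have : 𝔪 = t := h𝔪.eq_of_le htprime.ne_top h𝔪t
    rw [this]
    exact htQ
  refine ⟨key Q₁ hQ₁ hS₁ ?_, key Q₂ hQ₂ hS₂ ?_⟩
  · intro 𝔓 h𝔓 hπ𝔓
    rcases Hrad 𝔓 h𝔓 hπ𝔓 with h | h | h
    · exact Or.inl h
    · exact Or.inr ⟨Q₁, inferInstance, hQ₁0, hQ₁, h⟩
    · exact Or.inr ⟨Q₂, inferInstance, hQ₂0, hQ₂, h⟩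
  · intro 𝔓 h𝔓 hπ𝔓
    rcases Hrad 𝔓 h𝔓 hπ𝔓 with h | h | h
    · exact Or.inl h
    · exact Or.inr ⟨Q₁, inferInstance, hQ₁0, hQ₁, h⟩
    · exact Or.inr ⟨Q₂, inferInstance, hQ₂0, hQ₂, h⟩

/-- **INC, without integrality.**  The table of contractions is `β⁻¹(p_∞) = p¹_∞`,
`β⁻¹(p_mid) = β⁻¹(p_0) = p¹_0`, `α⁻¹(p_∞) = α⁻¹(p_mid) = p¹_∞`, `α⁻¹(p_0) = p¹_0`; the columns
`(β, mid)`, `(β, 0)`, `(α, ∞)`, `(α, mid)` are onto, the columns `(β, ∞)`, `(α, 0)` are onto up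
to `e`-th powers.  A maximal ideal of `B` containing two of the three primes contains all
three. -/
theorem incc_node (α β : B₁ →+* B)
    (pInf pMid pZero : Ideal B) [pInf.IsPrime] [pMid.IsPrime] [pZero.IsPrime]
    (pInf₁ pZero₁ : Ideal B₁)
    (hβInf : pInf.comap β = pInf₁) (hβMid : pMid.comap β = pZero₁)
    (hβZero : pZero.comap β = pZero₁)
    (hαInf : pInf.comap α = pInf₁) (hαMid : pMid.comap α = pInf₁)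
    (hαZero : pZero.comap α = pZero₁)
    (hnle : ¬ pInf₁ ≤ pZero₁) (hnle' : ¬ pZero₁ ≤ pInf₁)
    (hInf0 : pInf ≠ ⊥) (hMid0 : pMid ≠ ⊥) (hZero0 : pZero ≠ ⊥)
    (ϖ : B₁) (hϖInf : ϖ ∈ pInf₁) (hϖZero : ϖ ∈ pZero₁)
    (π : B) (hπα : α ϖ = π) (hπβ : β ϖ = π)
    (Hrad : ∀ 𝔓 : Ideal B, 𝔓.IsPrime → π ∈ 𝔓 → pInf ≤ 𝔓 ∨ pMid ≤ 𝔓 ∨ pZero ≤ 𝔓)
    (e : ℕ) (he : 0 < e)
    (hPIβ : ∀ z : B, ∃ w : B₁, z ^ e - β w ∈ pInf)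
    (hPIα : ∀ z : B, ∃ w : B₁, z ^ e - α w ∈ pZero)
    (hSβMid : ∀ z : B, ∃ w : B₁, z - β w ∈ pMid)
    (hSβZero : ∀ z : B, ∃ w : B₁, z - β w ∈ pZero)
    (hSαInf : ∀ z : B, ∃ w : B₁, z - α w ∈ pInf)
    (hSαMid : ∀ z : B, ∃ w : B₁, z - α w ∈ pMid)
    (hreg1Inf : ∀ s : Ideal B₁, s.IsMaximal → pInf₁ ≤ s → pZero₁ ≤ s →
      ∃ y ε : B₁, y ∈ pInf₁ ∧ ε ∉ s ∧ ∀ z ∈ pInf₁, y ∣ ε * z)
    (hreg1Zero : ∀ s : Ideal B₁, s.IsMaximal → pInf₁ ≤ s → pZero₁ ≤ s →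
      ∃ y ε : B₁, y ∈ pZero₁ ∧ ε ∉ s ∧ ∀ z ∈ pZero₁, y ∣ ε * z)
    (𝔪 : Ideal B) (h𝔪 : 𝔪.IsMaximal)
    (h2 : (pInf ≤ 𝔪 ∧ pMid ≤ 𝔪) ∨ (pInf ≤ 𝔪 ∧ pZero ≤ 𝔪) ∨ (pMid ≤ 𝔪 ∧ pZero ≤ 𝔪)) :
    pInf ≤ 𝔪 ∧ pMid ≤ 𝔪 ∧ pZero ≤ 𝔪 := by
  have hβcase : pInf ≤ 𝔪 → (pMid ≤ 𝔪 ∨ pZero ≤ 𝔪) → pInf ≤ 𝔪 ∧ pMid ≤ 𝔪 ∧ pZero ≤ 𝔪 := by
    intro h1 h2
    have := incc_core β pInf pMid pZero pInf₁ pZero₁ hβInf hβMid hβZero hnle hMid0 hZero0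
      ϖ hϖInf π hπβ Hrad e he hPIβ hSβMid hSβZero hreg1Inf 𝔪 h𝔪 h1 h2
    exact ⟨h1, this.1, this.2⟩
  rcases h2 with ⟨h1, h2⟩ | ⟨h1, h2⟩ | ⟨h1, h2⟩
  · exact hβcase h1 (Or.inl h2)
  · exact hβcase h1 (Or.inr h2)
  · have := incc_core α pZero pInf pMid pZero₁ pInf₁ hαZero hαInf hαMid hnle' hInf0 hMid0
      ϖ hϖZero π hπα
      (fun 𝔓 h𝔓 hπ𝔓 => by
        rcases Hrad 𝔓 h𝔓 hπ𝔓 with h | h | h
        · exact Or.inr (Or.inl h)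
        · exact Or.inr (Or.inr h)
        · exact Or.inl h)
      e he hPIα hSαInf hSαMid
      (fun s hs h1 h2 => hreg1Zero s hs h2 h1) 𝔪 h𝔪 h2 (Or.inr h1)
    exact ⟨this.1, h1, h2⟩

/-- **existence of nodes**: over every maximal ideal `s ⊇ p¹_∞ + p¹_0` of `B₁` there is a
maximal ideal `t ⊇ p_∞ + p_0` of `B` (with `β⁻¹ t = s`). -/
theorem incc_exists_node (β : B₁ →+* B)
    (pInf pMid pZero : Ideal B) [pInf.IsPrime] [pMid.IsPrime] [pZero.IsPrime]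
    (pInf₁ pZero₁ : Ideal B₁)
    (hβMid : pMid.comap β = pZero₁) (hβZero : pZero.comap β = pZero₁)
    (hnle : ¬ pInf₁ ≤ pZero₁) (hMid0 : pMid ≠ ⊥) (hZero0 : pZero ≠ ⊥)
    (ϖ : B₁) (hϖInf : ϖ ∈ pInf₁) (π : B) (hπβ : β ϖ = π)
    (Hrad : ∀ 𝔓 : Ideal B, 𝔓.IsPrime → π ∈ 𝔓 → pInf ≤ 𝔓 ∨ pMid ≤ 𝔓 ∨ pZero ≤ 𝔓)
    (hSβZero : ∀ z : B, ∃ w : B₁, z - β w ∈ pZero)
    (s : Ideal B₁) (hs : s.IsMaximal) (hsInf : pInf₁ ≤ s) (hsZero : pZero₁ ≤ s)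
    (hreg1Inf : ∃ y ε : B₁, y ∈ pInf₁ ∧ ε ∉ s ∧ ∀ z ∈ pInf₁, y ∣ ε * z) :
    ∃ t : Ideal B, t.IsMaximal ∧ pInf ≤ t ∧ pZero ≤ t ∧ t.comap β = s := by
  refine incc_key β pInf pZero pInf₁ pZero₁ hβZero hnle ϖ hϖInf π hπβ ?_ hSβZero s hs hsInf
    hsZero hreg1Inf
  intro 𝔓 h𝔓 hπ𝔓
  rcases Hrad 𝔓 h𝔓 hπ𝔓 with h | h | h
  · exact Or.inl h
  · exact Or.inr ⟨pMid, inferInstance, hMid0, hβMid, h⟩
  · exact Or.inr ⟨pZero, inferInstance, hZero0, hβZero, h⟩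

end Rings

section Setup

variable {K : Type*} [Field K] {k : Type*} [Field k]
  {A : ValuationSubring K} {π : A →+* k} {κ : Type*} [Field κ] [Algebra k κ]
  {FN FM : Type*} [Field FN] [Field FM] [Algebra K FN] [Algebra K FM]
  {SN : NodeSetup A π κ FN} {SM : NodeSetup A π κ FM}

/-- **a column of the table with `e = f = 1` is onto**: `ρM ∘ f = ρN`, `ρM (B_M) ⊆ R`,
`ρN (B_N) ⊇ R`. -/
theorem incc_setup_hS (f : SN.B →+* SM.B) (ρN : SN.B →+* κ) (ρM : SM.B →+* κ) (R : Set κ)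
    (hM : ∀ z : SM.B, ρM z ∈ R) (hs : ∀ r ∈ R, ∃ w : SN.B, ρN w = r)
    (tab : ∀ w, ρM (f w) = ρN w) :
    ∀ z : SM.B, ∃ w : SN.B, z - f w ∈ RingHom.ker ρM := by
  intro z
  obtain ⟨w, hw⟩ := hs (ρM z) (hM z)
  refine ⟨w, ?_⟩
  rw [RingHom.mem_ker, map_sub, tab, hw, sub_self]

/-- **an inseparable column of the table is onto up to `q`-th powers**: `ρM ∘ f = φ ∘ ρN` with
`φ ∘ Fr = (·)^q`, `ρM (B_M) ⊆ R`, `Fr R ⊆ R`, `ρN (B_N) ⊇ R`. -/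
theorem incc_setup_hPI (f : SN.B →+* SM.B) (ρN : SN.B →+* κ) (ρM : SM.B →+* κ) (R : Set κ)
    (hM : ∀ z : SM.B, ρM z ∈ R) (hs : ∀ r ∈ R, ∃ w : SN.B, ρN w = r)
    (φ : κ →+* κ) (Fr : κ → κ) (hFrR : ∀ x ∈ R, Fr x ∈ R) (q : ℕ)
    (hφFr : ∀ x : κ, φ (Fr x) = x ^ q)
    (tab : ∀ w, ρM (f w) = φ (ρN w)) :
    ∀ z : SM.B, ∃ w : SN.B, z ^ q - f w ∈ RingHom.ker ρM := by
  intro z
  obtain ⟨w, hw⟩ := hs (Fr (ρM z)) (hFrR _ (hM z))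
  refine ⟨w, ?_⟩
  rw [RingHom.mem_ker, map_sub, tab, hw, hφFr, map_pow, sub_self]

/-- the middle column of the table of contractions for `α`, from the reduction table -/
theorem incc_setup_comap_pMid_α (fα : SetupMap SN SM)
    (tαMid : ∀ z, SM.redMid (fα.toB z) = SN.redInf z) :
    SM.pMid.comap fα.toB = SN.pInf := by
  ext x
  rw [Ideal.mem_comap]
  show SM.redMid (fα.toB x) = 0 ↔ SN.redInf x = 0
  rw [tαMid]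

/-- the middle column of the table of contractions for `β`, from the reduction table -/
theorem incc_setup_comap_pMid_β (fβ : SetupMap SN SM)
    (tβMid : ∀ z, SM.redMid (fβ.toB z) = SN.redZero z) :
    SM.pMid.comap fβ.toB = SN.pZero := by
  ext x
  rw [Ideal.mem_comap]
  show SM.redMid (fβ.toB x) = 0 ↔ SN.redZero x = 0
  rw [tβMid]

/-- `p¹_∞ ≰ p¹_0` from an element of `B_N` with `red_∞ = 0`, `red_0 ≠ 0` -/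
theorem incc_setup_hnle (w : SN.B) (h1 : SN.redInf w = 0) (h2 : SN.redZero w ≠ 0) :
    ¬ SN.pInf ≤ SN.pZero := fun h => h2 (h (show w ∈ SN.pInf from h1))

/-- `p¹_0 ≰ p¹_∞` from an element of `B_N` with `red_0 = 0`, `red_∞ ≠ 0` -/
theorem incc_setup_hnle' (w : SN.B) (h1 : SN.redZero w = 0) (h2 : SN.redInf w ≠ 0) :
    ¬ SN.pZero ≤ SN.pInf := fun h => h2 (h (show w ∈ SN.pZero from h1))

variable [IsNoetherianRing SM.B]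
  (fα fβ : SetupMap SN SM) (R : Subalgebra k κ)
  (hsInf : ∀ r ∈ R, ∃ w : SN.B, SN.redInf w = r)
  (hsZero : ∀ r ∈ R, ∃ w : SN.B, SN.redZero w = r)
  (hMInf : ∀ z : SM.B, SM.redInf z ∈ R) (hMMid : ∀ z : SM.B, SM.redMid z ∈ R)
  (hMZero : ∀ z : SM.B, SM.redZero z ∈ R)
  (φ : κ →+* κ)
  (tαInf : ∀ z, SM.redInf (fα.toB z) = SN.redInf z)
  (tαMid : ∀ z, SM.redMid (fα.toB z) = SN.redInf z)
  (tαZero : ∀ z, SM.redZero (fα.toB z) = φ (SN.redZero z))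
  (tβInf : ∀ z, SM.redInf (fβ.toB z) = φ (SN.redInf z))
  (tβMid : ∀ z, SM.redMid (fβ.toB z) = SN.redZero z)
  (tβZero : ∀ z, SM.redZero (fβ.toB z) = SN.redZero z)
  (Fr : κ ≃+* κ) (hFrR : ∀ x : κ, Fr x ∈ R ↔ x ∈ R) (q : ℕ) (hq : 0 < q)
  (hφFr : ∀ x : κ, φ (Fr x) = x ^ q)
  (hnle : ¬ SN.pInf ≤ SN.pZero) (hnle' : ¬ SN.pZero ≤ SN.pInf)
  (ϖ : A) (hϖ0 : ϖ ≠ 0) (hϖ : π ϖ = 0)
  (hαc : fα.toB (SN.constB ϖ) = SM.constB ϖ) (hβc : fβ.toB (SN.constB ϖ) = SM.constB ϖ)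
  (Hrad : ∀ P : Ideal SM.B, P.IsPrime → SM.constB ϖ ∈ P →
    SM.pInf ≤ P ∨ SM.pMid ≤ P ∨ SM.pZero ≤ P)
  (hreg1Inf : ∀ s : Ideal SN.B, SN.IsNode s →
    ∃ y ε : SN.B, y ∈ SN.pInf ∧ ε ∉ s ∧ ∀ z ∈ SN.pInf, y ∣ ε * z)
  (hreg1Zero : ∀ s : Ideal SN.B, SN.IsNode s →
    ∃ y ε : SN.B, y ∈ SN.pZero ∧ ε ∉ s ∧ ∀ z ∈ SN.pZero, y ∣ ε * z)

include hsInf hsZero hMInf hMMid hMZero tαInf tαMid tαZero tβInf tβMid tβZero hFrR hq hφFr hnle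
  hnle' hϖ0 hϖ hαc hβc Hrad hreg1Inf hreg1Zero in
/-- **INC for `NodeSetup`, from the reduction table** (no integrality).  A maximal ideal of
`B_M` containing two of the three primes `p_∞, p_mid, p_0` is a node, and contains `p_mid`. -/
theorem incc_nodeSetup (𝔪 : Ideal SM.B) (h𝔪 : 𝔪.IsMaximal)
    (h2 : (SM.pInf ≤ 𝔪 ∧ SM.pMid ≤ 𝔪) ∨ (SM.pInf ≤ 𝔪 ∧ SM.pZero ≤ 𝔪) ∨
      (SM.pMid ≤ 𝔪 ∧ SM.pZero ≤ 𝔪)) :
    SM.IsNode 𝔪 ∧ SM.pMid ≤ 𝔪 := by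
  have h := incc_node fα.toB fβ.toB SM.pInf SM.pMid SM.pZero SN.pInf SN.pZero
    fβ.comap_pInf (incc_setup_comap_pMid_β fβ tβMid) fβ.comap_pZero
    fα.comap_pInf (incc_setup_comap_pMid_α fα tαMid) fα.comap_pZero hnle hnle'
    (inc_setup_pInf_ne_bot SM ϖ hϖ0 hϖ) (inc_setup_pMid_ne_bot SM ϖ hϖ0 hϖ)
    (inc_setup_pZero_ne_bot SM ϖ hϖ0 hϖ)
    (SN.constB ϖ) (inc_setup_const_mem_pInf SN ϖ hϖ) (inc_setup_const_mem_pZero SN ϖ hϖ)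
    (SM.constB ϖ) hαc hβc Hrad q hq
    (incc_setup_hPI fβ.toB SN.redInf SM.redInf R hMInf hsInf φ Fr
      (fun x hx => (hFrR x).2 hx) q hφFr tβInf)
    (incc_setup_hPI fα.toB SN.redZero SM.redZero R hMZero hsZero φ Fr
      (fun x hx => (hFrR x).2 hx) q hφFr tαZero)
    (incc_setup_hS fβ.toB SN.redZero SM.redMid R hMMid hsZero tβMid)
    (incc_setup_hS fβ.toB SN.redZero SM.redZero R hMZero hsZero tβZero)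
    (incc_setup_hS fα.toB SN.redInf SM.redInf R hMInf hsInf tαInf)
    (incc_setup_hS fα.toB SN.redInf SM.redMid R hMMid hsInf tαMid)
    (fun s hs h1 h2 => hreg1Inf s ⟨hs, sup_le h1 h2⟩)
    (fun s hs h1 h2 => hreg1Zero s ⟨hs, sup_le h1 h2⟩) 𝔪 h𝔪 h2
  exact ⟨⟨h𝔪, sup_le h.1 h.2.2⟩, h.2.1⟩

include hsInf hsZero hMInf hMMid hMZero tαInf tαMid tαZero tβInf tβMid tβZero hFrR hq hφFr hnle
  hnle' hϖ0 hϖ hαc hβc Hrad hreg1Inf hreg1Zero in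
/-- **Trichotomy for `NodeSetup`, from the reduction table.**  A maximal ideal of `B_M`
containing `ϖ` is a node (containing the three primes) or contains exactly one of the three
primes. -/
theorem incc_nodeSetup_trichotomy (𝔪 : Ideal SM.B) (h𝔪 : 𝔪.IsMaximal)
    (hϖ𝔪 : SM.constB ϖ ∈ 𝔪) :
    (SM.IsNode 𝔪 ∧ SM.pMid ≤ 𝔪) ∨
    (SM.pInf ≤ 𝔪 ∧ ¬ SM.pMid ≤ 𝔪 ∧ ¬ SM.pZero ≤ 𝔪) ∨
    (¬ SM.pInf ≤ 𝔪 ∧ SM.pMid ≤ 𝔪 ∧ ¬ SM.pZero ≤ 𝔪) ∨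
    (¬ SM.pInf ≤ 𝔪 ∧ ¬ SM.pMid ≤ 𝔪 ∧ SM.pZero ≤ 𝔪) := by
  have node := incc_nodeSetup fα fβ R hsInf hsZero hMInf hMMid hMZero φ tαInf tαMid tαZero
    tβInf tβMid tβZero Fr hFrR q hq hφFr hnle hnle' ϖ hϖ0 hϖ hαc hβc Hrad hreg1Inf hreg1Zero
    𝔪 h𝔪
  by_cases hI : SM.pInf ≤ 𝔪 <;> by_cases hM : SM.pMid ≤ 𝔪 <;> by_cases hZ : SM.pZero ≤ 𝔪
  · exact Or.inl (node (Or.inl ⟨hI, hM⟩))
  · exact Or.inl (node (Or.inl ⟨hI, hM⟩))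
  · exact Or.inl (node (Or.inr (Or.inl ⟨hI, hZ⟩)))
  · exact Or.inr (Or.inl ⟨hI, hM, hZ⟩)
  · exact Or.inl (node (Or.inr (Or.inr ⟨hM, hZ⟩)))
  · exact Or.inr (Or.inr (Or.inl ⟨hI, hM, hZ⟩))
  · exact Or.inr (Or.inr (Or.inr ⟨hI, hM, hZ⟩))
  · exfalso
    rcases Hrad 𝔪 h𝔪.isPrime hϖ𝔪 with h | h | h
    · exact hI h
    · exact hM h
    · exact hZ h

include hsInf hsZero hMInf hMMid hMZero tαInf tαMid tαZero tβInf tβMid tβZero hFrR hq hφFr hnle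
  hnle' hϖ0 hϖ hαc hβc Hrad hreg1Inf hreg1Zero in
/-- **the hypothesis `htri` of `s36_hhead`** (for `SM`, `q_B = SM.constB ϖ`). -/
theorem incc_nodeSetup_htri : ∀ 𝔪 : Ideal SM.B, 𝔪.IsMaximal → SM.constB ϖ ∈ 𝔪 →
    SM.IsNode 𝔪 ∨
    (SM.pInf ≤ 𝔪 ∧ ¬ SM.pMid ≤ 𝔪 ∧ ¬ SM.pZero ≤ 𝔪) ∨
    (¬ SM.pInf ≤ 𝔪 ∧ SM.pMid ≤ 𝔪 ∧ ¬ SM.pZero ≤ 𝔪) ∨
    (¬ SM.pInf ≤ 𝔪 ∧ ¬ SM.pMid ≤ 𝔪 ∧ SM.pZero ≤ 𝔪) := by
  intro 𝔪 h𝔪 hϖ𝔪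
  rcases incc_nodeSetup_trichotomy fα fβ R hsInf hsZero hMInf hMMid hMZero φ tαInf tαMid
    tαZero tβInf tβMid tβZero Fr hFrR q hq hφFr hnle hnle' ϖ hϖ0 hϖ hαc hβc Hrad hreg1Inf
    hreg1Zero 𝔪 h𝔪 hϖ𝔪 with h | h | h | h
  · exact Or.inl h.1
  · exact Or.inr (Or.inl h)
  · exact Or.inr (Or.inr (Or.inl h))
  · exact Or.inr (Or.inr (Or.inr h))

include hsInf hsZero hMInf hMMid hMZero tαInf tαMid tαZero tβInf tβMid tβZero hFrR hq hφFr hnle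
  hnle' hϖ0 hϖ hαc hβc Hrad hreg1Inf hreg1Zero in
/-- **nodes of level `M` over the nodes of level `N`**: over every node `s` of `B_N` there is a
node `t` of `B_M` with `β⁻¹ t = s`, and `p_mid ≤ t`. -/
theorem incc_nodeSetup_over (s : Ideal SN.B) (hs : SN.IsNode s) :
    ∃ t : Ideal SM.B, SM.IsNode t ∧ SM.pMid ≤ t ∧ t.comap fβ.toB = s := by
  obtain ⟨t, htmax, hI, hZ, htc⟩ := incc_exists_node fβ.toB SM.pInf SM.pMid SM.pZero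
    SN.pInf SN.pZero (incc_setup_comap_pMid_β fβ tβMid) fβ.comap_pZero hnle
    (inc_setup_pMid_ne_bot SM ϖ hϖ0 hϖ) (inc_setup_pZero_ne_bot SM ϖ hϖ0 hϖ)
    (SN.constB ϖ) (inc_setup_const_mem_pInf SN ϖ hϖ) (SM.constB ϖ) hβc Hrad
    (incc_setup_hS fβ.toB SN.redZero SM.redZero R hMZero hsZero tβZero)
    s hs.1 (le_sup_left.trans hs.2) (le_sup_right.trans hs.2) (hreg1Inf s hs)
  have h := incc_nodeSetup fα fβ R hsInf hsZero hMInf hMMid hMZero φ tαInf tαMid tαZero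
    tβInf tβMid tβZero Fr hFrR q hq hφFr hnle hnle' ϖ hϖ0 hϖ hαc hβc Hrad hreg1Inf hreg1Zero
    t htmax (Or.inr (Or.inl ⟨hI, hZ⟩))
  exact ⟨t, h.1, h.2, htc⟩

include hsInf hsZero hMInf hMMid hMZero tαInf tαMid tαZero tβInf tβMid tβZero hFrR hq hφFr hnle
  hnle' hϖ0 hϖ hαc hβc Hrad hreg1Inf hreg1Zero in
/-- **the hypothesis `hnode` of `s36_hhead`** (for `SM`), from a node of level `N`. -/
theorem incc_nodeSetup_hnode (hN : ∃ s : Ideal SN.B, SN.IsNode s) :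
    ∃ t : Ideal SM.B, SM.IsNode t ∧ SM.pMid ≤ t := by
  obtain ⟨s, hs⟩ := hN
  obtain ⟨t, h1, h2, -⟩ := incc_nodeSetup_over fα fβ R hsInf hsZero hMInf hMMid hMZero φ
    tαInf tαMid tαZero tβInf tβMid tβZero Fr hFrR q hq hφFr hnle hnle' ϖ hϖ0 hϖ hαc hβc Hrad
    hreg1Inf hreg1Zero s hs
  exact ⟨t, h1, h2⟩

end Setup

end Fermat.Agent.S36lib

end
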