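/-
Item 83 (S36), CRUX piece C-2l (helper26): **the HEAD of the crux from the TABLE PACKAGE.**

One entry point for the final instantiation: the hypothesis `hhead` of helper16's `ctl_a2crux`
for `SM` (level `M' q²`) from
* the table package of helper3's `s36_crux_head` (ABEL + TOR + GLUE-s) = the same hypotheses as
  helper22's `incc_nodeSetup_htri / _hnode` (INC), over the pair `SN → SM`;
* REG1 at the nodes of level `N`, `Hrad`, `Reg3Hyp`, `B ⧸ p_v` Dedekind (not fields);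
* the REG3 input on `C_mid` (helper5's `reg3_hmid`);
* the norm data (A2) for `b` (`N_α b = c_α y_α ^ m`, `N_β b = c_β y_β ^ m`).
Exponent: `c2 = (q - 1) (q + 1) q`.  No sorry.

* `s36_hhead_hrad`  : `s36_hhead_of_glue` with `Hrad` as a hypothesis (instead of `harch`);
* `s36_isNode_of_eval` : a node of level `N` from one evaluation `e i`;
* `s36_hhead_pkg`   : the package.
-/
import Mathlib
import Fermat.Agent.S36lib.H1Head
import Fermat.Agent.S36lib.CruxHead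
import Fermat.Agent.S36lib.IncConc

set_option autoImplicit false
set_option linter.style.haveILetI false
set_option linter.unusedSectionVars false
set_option linter.unusedVariables false

noncomputable section

namespace Fermat.Agent.S36lib

open ModularCurve AlgebraicCurve
open Fermat.Agent.S24lib Fermat.Agent.S34lib Fermat.Agent.GoodRed

section Hrad

variable (A : ValuationSubring Kbar) (q : ℕ)
variable {L : ℕ} [NeZero L] {κ : Type*} [Field κ] [Algebra (IsLocalRing.ResidueField A) κ]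

/-- **the head for one `b`**, with `Hrad` as a hypothesis and `hufd` derived from the REG3
input (Dedekind form). -/
theorem s36_hhead_hrad (S : NodeSetup (k0Val A) (k0Res A) κ (f0Field A L))
    (hq : q.Prime) (hA : A.LiesOverPrime q) [IsNoetherianRing S.B]
    [IsDedekindDomain (S.B ⧸ S.pInf)] [IsDedekindDomain (S.B ⧸ S.pMid)]
    [IsDedekindDomain (S.B ⧸ S.pZero)]
    (hnmI : ¬ S.pInf.IsMaximal) (hnmM : ¬ S.pMid.IsMaximal) (hnmZ : ¬ S.pZero.IsMaximal)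
    (hfrac : ∀ z : f0Field A L, ∃ a b : S.B, b ≠ 0 ∧ z * (b : f0Field A L) = (a : f0Field A L))
    (Hrad : ∀ P : Ideal S.B, P.IsPrime → S.constB (q : k0Val A) ∈ P →
      S.pInf ≤ P ∨ S.pMid ≤ P ∨ S.pZero ≤ P)
    (e : ℕ) (H : Reg3Hyp S (S.constB (q : k0Val A)) e) (he : e ≤ q)
    (m : ℕ) (hm : 0 < m) (hmq : Nat.Coprime m q)
    (hroot : ∀ z : f0Field A L, z ^ m ∈ S.B → z ∈ S.B)
    (hnode : ∃ t : Ideal S.B, S.IsNode t ∧ S.pMid ≤ t)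
    (htri : ∀ 𝔪 : Ideal S.B, 𝔪.IsMaximal → S.constB (q : k0Val A) ∈ 𝔪 → S.IsNode 𝔪 ∨
      (S.pInf ≤ 𝔪 ∧ ¬ S.pMid ≤ 𝔪 ∧ ¬ S.pZero ≤ 𝔪) ∨
      (¬ S.pInf ≤ 𝔪 ∧ S.pMid ≤ 𝔪 ∧ ¬ S.pZero ≤ 𝔪) ∨
      (¬ S.pInf ≤ 𝔪 ∧ ¬ S.pMid ≤ 𝔪 ∧ S.pZero ≤ 𝔪))
    (hmid : ∀ 𝔪 : Ideal S.B, 𝔪.IsMaximal → S.constB (q : k0Val A) ∈ 𝔪 →
      S.pMid ≤ 𝔪 → ¬ S.pInf ≤ 𝔪 → ¬ S.pZero ≤ 𝔪 →
      ∃ π₀ w₁ b : S.B, π₀ ∈ S.pMid ∧ w₁ ∉ 𝔪 ∧ b ∉ 𝔪 ∧
        w₁ * π₀ ^ e = S.constB (q : k0Val A) * b)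
    (E : ℕ) (b : S.B) (hbu : S.IsUnitAtNodes b)
    (hord : ∀ P : Place Kbar (FF L), (m : ℤ) ∣ P.ord (((b : f0Field A L)) : FF L))
    (s : S.B) (hsu : S.IsUnitAtNodes s)
    (hbs : b ^ E - s ^ m ∈ S.pInf ⊓ S.pMid ⊓ S.pZero) :
    ∃ h₀ : f0Field A L, h₀ ≠ 0 ∧ (b : f0Field A L) ^ (E * q) * h₀ ^ m ∈ S.B ∧
      ∃ z : f0Field A L, z ∈ S.ball ∧
        (b : f0Field A L) ^ (E * q) * h₀ ^ m = 1 + a2iQ A q (L := L) * z := by
  obtain ⟨t, ht, htM⟩ := hnode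
  have key : ∀ z : S.B, S.IsUnitAtNodes z →
      S.redInf z ≠ 0 ∧ S.redMid z ≠ 0 ∧ S.redZero z ≠ 0 := by
    intro z hz
    refine ⟨fun h0 => ?_, fun h0 => ?_, fun h0 => ?_⟩
    · exact hz.notMem S ht (ht.2 (Ideal.mem_sup_left h0))
    · exact hz.notMem S ht (htM h0)
    · exact hz.notMem S ht (ht.2 (Ideal.mem_sup_right h0))
  obtain ⟨hbI, hbM, hbZ⟩ := key b hbu
  obtain ⟨hsI, hsM, hsZ⟩ := key s hsu
  have hqcast : S.constB (q : k0Val A) = ((q : ℕ) : S.B) := map_natCast S.constB q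
  have hufd := s36_hufd_of_input H hnmI hnmM hnmZ htri hmid
  have hloc := s36_h1_hloc H hfrac (q : k0Val A) (a2i_q_ne_zero A q hq) (a2i_res_q A q hA)
    (fun c => a2i_exists_pow_mem A q hq hA c) Hrad m hm hroot b hbu hbI hbM hbZ
    (fun R _ _ _ _ _ p hp h => pd_hhor_FF A L m (b : f0Field A L) hord R p hp h)
    htri (fun 𝔪 _ hq𝔪 hn _ => hufd 𝔪 hq𝔪 hn) (fun 𝔪 h𝔪 hq𝔪 _ => hmid 𝔪 h𝔪 hq𝔪)
  obtain ⟨h₀, u₁, y, hh0, -, -, hu₁, huy⟩ := s36_h1_head H q hq hqcast he m hm hmq hroot b s E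
    hbs hsI hsM hsZ hloc
  refine ⟨h₀, hh0, ?_, (y : f0Field A L), S.B_le_ball y.2, ?_⟩
  · rw [← hu₁]
    exact u₁.2
  · rw [← hu₁, huy]
    rfl

end Hrad

section Node

variable {K : Type*} [Field K] {k : Type*} [Field k]
  {A : ValuationSubring K} {π : A →+* k} {κ : Type*} [Field κ] [Algebra k κ]
  {FN : Type*} [Field FN] [Algebra K FN] {SN : NodeSetup A π κ FN} {ι : Type*}

/-- **a node of level `N` from an evaluation**: the kernel of `e i ∘ red_∞` is a node. -/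
theorem s36_isNode_of_eval (R : Subalgebra k κ)
    (hNInf : ∀ z : SN.B, SN.redInf z ∈ R) (hNZero : ∀ z : SN.B, SN.redZero z ∈ R)
    (hsInf : ∀ r ∈ R, ∃ w : SN.B, SN.redInf w = r)
    (e e' : ι → R →ₐ[k] k)
    (hgl : ∀ (y : SN.B) (i : ι), e i ⟨SN.redInf y, hNInf y⟩ = e' i ⟨SN.redZero y, hNZero y⟩)
    (i : ι) : ∃ s : Ideal SN.B, SN.IsNode s := by
  let ρ : SN.B →+* R := SN.redInf.codRestrict R.toSubring hNInf
  have hρ : ∀ z, ρ z = ⟨SN.redInf z, hNInf z⟩ := fun z => rfl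
  let f : SN.B →+* k := (e i).toRingHom.comp ρ
  have hf : ∀ z, f z = e i ⟨SN.redInf z, hNInf z⟩ := fun z => rfl
  have hsurj : Function.Surjective f := by
    intro c
    obtain ⟨w, hw⟩ := hsInf (algebraMap k κ c) (R.algebraMap_mem c)
    refine ⟨w, ?_⟩
    rw [hf]
    have : (⟨SN.redInf w, hNInf w⟩ : R) = algebraMap k R c := Subtype.ext hw
    rw [this, AlgHom.commutes]
    rfl
  refine ⟨RingHom.ker f, RingHom.ker_isMaximal_of_surjective f hsurj, sup_le ?_ ?_⟩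
  · intro z hz
    rw [RingHom.mem_ker, hf]
    have hz0 : SN.redInf z = 0 := hz
    have : (⟨SN.redInf z, hNInf z⟩ : R) = 0 := Subtype.ext hz0
    rw [this, map_zero]
  · intro z hz
    rw [RingHom.mem_ker, hf, hgl z i]
    have hz0 : SN.redZero z = 0 := hz
    have : (⟨SN.redZero z, hNZero z⟩ : R) = 0 := Subtype.ext hz0
    rw [this, map_zero]

end Node

section Pkg

variable (A : ValuationSubring Kbar) (q : ℕ)
variable {LN LM : ℕ} [NeZero LN] [NeZero LM]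
  {κ : Type*} [Field κ] [Algebra (IsLocalRing.ResidueField A) κ]
  {SN : NodeSetup (k0Val A) (k0Res A) κ (f0Field A LN)}
  {SM : NodeSetup (k0Val A) (k0Res A) κ (f0Field A LM)} {ι : Type*}

/-- **the HEAD of the crux from the table package**: `hhead` of `ctl_a2crux` for `SM`, with
`c2 = (q - 1) (q + 1) q`. -/
theorem s36_hhead_pkg (hq : q.Prime) (hA : A.LiesOverPrime q) [IsNoetherianRing SM.B]
    [IsDedekindDomain (SM.B ⧸ SM.pInf)] [IsDedekindDomain (SM.B ⧸ SM.pMid)]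
    [IsDedekindDomain (SM.B ⧸ SM.pZero)]
    (hnmI : ¬ SM.pInf.IsMaximal) (hnmM : ¬ SM.pMid.IsMaximal) (hnmZ : ¬ SM.pZero.IsMaximal)
    (hfrac : ∀ z : f0Field A LM, ∃ a b : SM.B,
      b ≠ 0 ∧ z * (b : f0Field A LM) = (a : f0Field A LM))
    (Hrad : ∀ P : Ideal SM.B, P.IsPrime → SM.constB (q : k0Val A) ∈ P →
      SM.pInf ≤ P ∨ SM.pMid ≤ P ∨ SM.pZero ≤ P)
    (e₀ : ℕ) (H : Reg3Hyp SM (SM.constB (q : k0Val A)) e₀) (he₀ : e₀ ≤ q)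
    (m : ℕ) (hm : 0 < m) (hmq : Nat.Coprime m q)
    (hrootB : ∀ z : f0Field A LM, z ^ m ∈ SM.B → z ∈ SM.B)
    (hmid : ∀ 𝔪 : Ideal SM.B, 𝔪.IsMaximal → SM.constB (q : k0Val A) ∈ 𝔪 →
      SM.pMid ≤ 𝔪 → ¬ SM.pInf ≤ 𝔪 → ¬ SM.pZero ≤ 𝔪 →
      ∃ π₀ w₁ b : SM.B, π₀ ∈ SM.pMid ∧ w₁ ∉ 𝔪 ∧ b ∉ 𝔪 ∧
        w₁ * π₀ ^ e₀ = SM.constB (q : k0Val A) * b)
    -- the table package (`s36_crux_head`, `incc_nodeSetup_htri`)
    (fα fβ : SetupMap SN SM) (hαint : fα.toB.IsIntegral)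
    (R : Subalgebra (IsLocalRing.ResidueField A) κ) (hRic : ∀ x : κ, IsIntegral R x → x ∈ R)
    (hcl : TorClosed (IsLocalRing.ResidueField A) R) [Nonempty ι]
    (hπ : Function.Surjective (k0Res A))
    (φ : κ →+* κ) (hφR : ∀ x ∈ R, φ x ∈ R)
    (hNInf : ∀ z : SN.B, SN.redInf z ∈ R) (hNZero : ∀ z : SN.B, SN.redZero z ∈ R)
    (hsInf : ∀ r ∈ R, ∃ w : SN.B, SN.redInf w = r)
    (hsZero : ∀ r ∈ R, ∃ w : SN.B, SN.redZero w = r)
    (tαInf : ∀ z, SM.redInf (fα.toB z) = SN.redInf z)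
    (tαMid : ∀ z, SM.redMid (fα.toB z) = SN.redInf z)
    (tαZero : ∀ z, SM.redZero (fα.toB z) = φ (SN.redZero z))
    (tβInf : ∀ z, SM.redInf (fβ.toB z) = φ (SN.redInf z))
    (tβMid : ∀ z, SM.redMid (fβ.toB z) = SN.redZero z)
    (tβZero : ∀ z, SM.redZero (fβ.toB z) = SN.redZero z)
    (e e' : ι → R →ₐ[IsLocalRing.ResidueField A] IsLocalRing.ResidueField A) (Fr : κ ≃+* κ)
    (hFrR : ∀ x : κ, Fr x ∈ R ↔ x ∈ R)
    (hFrk : ∀ c : IsLocalRing.ResidueField A, ∃ c' : IsLocalRing.ResidueField A,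
      Fr (algebraMap (IsLocalRing.ResidueField A) κ c') =
        algebraMap (IsLocalRing.ResidueField A) κ c)
    (hFre : ∀ i (r : R) (h : Fr (r : κ) ∈ R), e' i ⟨Fr (r : κ), h⟩ = e i r ^ q)
    (hφFr : ∀ x : κ, φ (Fr x) = x ^ q)
    (hglue : ∀ r₁ r₂ : R, (∀ i, e i r₁ = e' i r₂) →
      ∃ z : SN.B, SN.redInf z = r₁ ∧ SN.redZero z = r₂)
    (hgl : ∀ (y : SN.B) (i : ι), e i ⟨SN.redInf y, hNInf y⟩ = e' i ⟨SN.redZero y, hNZero y⟩)
    (hgl' : ∀ (y : SN.B) (i : ι), e' i ⟨SN.redInf y, hNInf y⟩ = e i ⟨SN.redZero y, hNZero y⟩)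
    (Nα Nβ : SM.B → SN.B)
    (nαInf : ∀ z, SN.redInf (Nα z) = SM.redInf z * SM.redMid z ^ (q - 1))
    (nαZero : ∀ z, SN.redZero (Nα z) = Fr (SM.redZero z))
    (nβInf : ∀ z, SN.redInf (Nβ z) = Fr (SM.redInf z))
    (nβZero : ∀ z, SN.redZero (Nβ z) = SM.redMid z ^ (q - 1) * SM.redZero z)
    (mi : SM.B) (hmi : (m : SM.B) * mi = 1)
    (hrootk : ∀ c : IsLocalRing.ResidueField A, ∃ d : IsLocalRing.ResidueField A, d ^ m = c)
    -- INC extras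
    (hnle : ¬ SN.pInf ≤ SN.pZero) (hnle' : ¬ SN.pZero ≤ SN.pInf)
    (hαc : fα.toB (SN.constB (q : k0Val A)) = SM.constB (q : k0Val A))
    (hβc : fβ.toB (SN.constB (q : k0Val A)) = SM.constB (q : k0Val A))
    (hreg1Inf : ∀ s : Ideal SN.B, SN.IsNode s →
      ∃ y ε : SN.B, y ∈ SN.pInf ∧ ε ∉ s ∧ ∀ z ∈ SN.pInf, y ∣ ε * z)
    (hreg1Zero : ∀ s : Ideal SN.B, SN.IsNode s →
      ∃ y ε : SN.B, y ∈ SN.pZero ∧ ε ∉ s ∧ ∀ z ∈ SN.pZero, y ∣ ε * z)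
    -- the norm data (A2)
    (P : SM.B → Prop)
    (hnorm : ∀ b : SM.B, (b : f0Field A LM) ≠ 0 → SM.IsUnitAtNodes b →
      (∀ P : Place Kbar (FF LM), (m : ℤ) ∣ P.ord (((b : f0Field A LM)) : FF LM)) → P b →
      ∃ (cα cβ : k0Val A) (yα yβ : SN.B), k0Res A cα ≠ 0 ∧ k0Res A cβ ≠ 0 ∧
        Nα b = SN.constB cα * yα ^ m ∧ Nβ b = SN.constB cβ * yβ ^ m) :
    ∀ b : SM.B, (b : f0Field A LM) ≠ 0 → SM.IsUnitAtNodes b →
      (∀ P : Place Kbar (FF LM), (m : ℤ) ∣ P.ord (((b : f0Field A LM)) : FF LM)) → P b →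
      ∃ h₀ : f0Field A LM, h₀ ≠ 0 ∧
        (b : f0Field A LM) ^ ((q - 1) * (q + 1) * q) * h₀ ^ m ∈ SM.B ∧
        ∃ z : f0Field A LM, z ∈ SM.ball ∧
          (b : f0Field A LM) ^ ((q - 1) * (q + 1) * q) * h₀ ^ m
            = 1 + a2iQ A q (L := LM) * z := by
  intro b hb0 hbu hord hPb
  obtain ⟨cα, cβ, yα, yβ, hcα, hcβ, hyα, hyβ⟩ := hnorm b hb0 hbu hord hPb
  obtain ⟨hMInf, hMMid, hMZero⟩ := s36_redMem_nodeSetup fα hαint R hRic φ hφR hNInf hNZero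
    tαInf tαMid tαZero
  obtain ⟨s, hsu, hbs⟩ := s36_crux_head fα fβ hαint R hRic hcl m q hm hq.two_le hπ φ hφR
    hNInf hNZero tαInf tαMid tαZero tβInf tβMid tβZero e e' Fr hFrR hFrk hFre hφFr hglue hgl hgl'
    Nα Nβ nαInf nαZero nβInf nβZero mi hmi hrootk b hbu cα cβ hcα hcβ yα yβ hyα hyβ
  have hq0 : (q : k0Val A) ≠ 0 := a2i_q_ne_zero A q hq
  have hres : k0Res A (q : k0Val A) = 0 := a2i_res_q A q hA
  have htri := incc_nodeSetup_htri fα fβ R hsInf hsZero hMInf hMMid hMZero φ tαInf tαMid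
    tαZero tβInf tβMid tβZero Fr hFrR q hq.pos hφFr hnle hnle' (q : k0Val A) hq0 hres hαc hβc
    Hrad hreg1Inf hreg1Zero
  obtain ⟨i₀⟩ := ‹Nonempty ι›
  have hN : ∃ s : Ideal SN.B, SN.IsNode s :=
    s36_isNode_of_eval R hNInf hNZero hsInf e e' hgl i₀
  have hnode := incc_nodeSetup_hnode fα fβ R hsInf hsZero hMInf hMMid hMZero φ tαInf tαMid
    tαZero tβInf tβMid tβZero Fr hFrR q hq.pos hφFr hnle hnle' (q : k0Val A) hq0 hres hαc hβc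
    Hrad hreg1Inf hreg1Zero hN
  exact s36_hhead_hrad A q SM hq hA hnmI hnmM hnmZ hfrac Hrad e₀ H he₀ m hm hmq hrootB hnode
    htri hmid ((q - 1) * (q + 1)) b hbu hord s hsu hbs

end Pkg

end Fermat.Agent.S36lib

end
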