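/-
Item 83 (S36), CRUX piece C-2j (helper26): **`hroot` for the affine rings `B_D`**: the ring
`f0AffD A L D O₁ O₂ O₃` (functions of `F0(L)` regular off `D`, integral for three valuation
rings) is ROOT-CLOSED in `F0(L)`: `z ^ m ∈ B_D ⟹ z ∈ B_D` (`m > 0`).  This is the hypothesis
`hroot` of `s36_hhead` / `s36_h1_apply` for `nodeSetupSeriesD` (any `D`).  No sorry.
-/
import Mathlib
import Fermat.Agent.S36lib.SetupD1

set_option autoImplicit false
set_option linter.style.haveILetI false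
set_option linter.unusedSectionVars false
set_option synthInstance.maxHeartbeats 400000

noncomputable section

namespace Fermat.Agent.S36lib

open ModularCurve AlgebraicCurve
open Fermat.Agent.S24lib Fermat.Agent.S34lib Fermat.Agent.GoodRed

/-- a valuation ring is root-closed -/
theorem h1root_valuationSubring {F : Type*} [Field F] (O : ValuationSubring F) (m : ℕ)
    (hm : 0 < m) (z : F) (hz : z ^ m ∈ O) : z ∈ O := by
  rw [← O.valuation_le_one_iff] at hz ⊢
  rw [map_pow] at hz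
  exact (pow_le_one_iff hm.ne').1 hz

variable (A : ValuationSubring Kbar) (L : ℕ) [NeZero L]

/-- the functions regular off `D` form a root-closed subring of `FF L` -/
theorem h1root_offRegular (D : Set (Place Kbar (FF L))) (m : ℕ) (hm : 0 < m) (z : FF L)
    (hz : z ^ m ∈ offRegular L D) : z ∈ offRegular L D := by
  rw [mem_offRegular_iff] at hz ⊢
  exact fun P hP => h1root_valuationSubring P.toValuationSubring m hm z (hz P hP)

/-- **`B_D` is root-closed in `F0(L)`.** -/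
theorem h1root_f0AffD (D : Set (Place Kbar (FF L))) (O₁ O₂ O₃ : ValuationSubring (FF L))
    (m : ℕ) (hm : 0 < m) (z : f0Field A L) (hz : z ^ m ∈ f0AffD A L D O₁ O₂ O₃) :
    z ∈ f0AffD A L D O₁ O₂ O₃ := by
  rw [mem_f0AffD_iff] at hz ⊢
  have hc : (((z ^ m : f0Field A L)) : FF L) = (z : FF L) ^ m := by push_cast; rfl
  rw [hc] at hz
  exact ⟨h1root_offRegular L D m hm _ hz.1, h1root_valuationSubring O₁ m hm _ hz.2.1,
    h1root_valuationSubring O₂ m hm _ hz.2.2.1, h1root_valuationSubring O₃ m hm _ hz.2.2.2⟩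

variable {L}

/-- **`hroot` for `nodeSetupSeriesD`.** -/
theorem h1root_nodeSetupSeriesD (D : Set (Place Kbar (FF L))) (vInf vMid vZero : SeriesVal A L)
    (κ : IntermediateField (IsLocalRing.ResidueField A)
      (LaurentSeries (IsLocalRing.ResidueField A)))
    (hiInf : ∀ (x : FF L) (hx : x ∈ vInf.O), x ∈ f0Field A L → vInf.red ⟨x, hx⟩ ∈ κ)
    (hoInf : ∀ w ∈ κ, ∃ (x : FF L) (hx : x ∈ vInf.O), x ∈ f0Field A L ∧ vInf.red ⟨x, hx⟩ = w)
    (hiMid : ∀ (x : FF L) (hx : x ∈ vMid.O), x ∈ f0Field A L → vMid.red ⟨x, hx⟩ ∈ κ)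
    (hoMid : ∀ w ∈ κ, ∃ (x : FF L) (hx : x ∈ vMid.O), x ∈ f0Field A L ∧ vMid.red ⟨x, hx⟩ = w)
    (hiZero : ∀ (x : FF L) (hx : x ∈ vZero.O), x ∈ f0Field A L → vZero.red ⟨x, hx⟩ ∈ κ)
    (hoZero : ∀ w ∈ κ, ∃ (x : FF L) (hx : x ∈ vZero.O), x ∈ f0Field A L ∧
      vZero.red ⟨x, hx⟩ = w)
    (m : ℕ) (hm : 0 < m) :
    ∀ z : f0Field A L,
      z ^ m ∈ (nodeSetupSeriesD A D vInf vMid vZero κ hiInf hoInf hiMid hoMid hiZero hoZero).B →
      z ∈ (nodeSetupSeriesD A D vInf vMid vZero κ hiInf hoInf hiMid hoMid hiZero hoZero).B :=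
  fun z hz => h1root_f0AffD A L D vInf.O vMid.O vZero.O m hm z hz

end Fermat.Agent.S36lib

end
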