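/-
Item 83 (S36), piece R6-f (helper18): **`Reg3Hyp` for the concrete setups**.

`Reg3Hyp S q e` (helper10, `Reg3Local.lean`): `q ∈ p_∞ ∩ p_mid ∩ p_0`, `B` saturated in the ball,
ramification indices `1, ≤ e, 1` (a non-unit `x` of `O_v` has `x = q y`, resp. `x ^ e = q y`,
`y ∈ O_v`).

* `r3h_ram` : the ramification statement for the restriction to `F0(L)` of one valuation ring,
  from the unit form of discreteness (helper8's `varch_of_unit`);
* `r3h_seriesD` : `Reg3Hyp` for `nodeSetupSeriesD` (any `D`, any three `SeriesVal`s);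
* `r3h_nodeSetupMD`, `r3h_nodeSetupM`, `r3h_nodeSetupMj` : `Reg3Hyp S q (q - 1)` for helper24's
  setups of level `M' q²` with `vMid = vmidSV`.
No sorry.
-/
import Mathlib
import Fermat.Agent.S36lib.TheSetup
import Fermat.Agent.S36lib.VHrad
import Fermat.Agent.S36lib.Reg3Local
import Fermat.Agent.S36lib.Apply2Invert
import Fermat.Agent.S36lib.VMidInto

set_option autoImplicit false
set_option linter.style.haveILetI false
set_option linter.unusedSectionVars false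
set_option synthInstance.maxHeartbeats 400000

noncomputable section

open ModularCurve AlgebraicCurve HahnSeries
open Fermat.Agent.S24lib Fermat.Agent.HeckeBar Fermat.Agent.S37lib Fermat.Agent.S35lib
  Fermat.Agent.GoodRed Fermat.Agent.S34lib

namespace Fermat.Agent.S36lib

section Gen

variable (A : ValuationSubring Kbar) {q : ℕ} {L : ℕ} [NeZero L]

/-- **ramification index `≤ m`** of the restriction to `F0(L)` of a valuation ring `O`, from the
unit form of discreteness -/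
theorem r3h_ram (O : ValuationSubring (FF L)) (hq : q.Prime)
    (hqO : algebraMap Kbar (FF L) (q : Kbar) ∈ O) (m : ℕ) (hm : 0 < m)
    (hunit : ∀ f ∈ f0Field A L, f ≠ 0 →
      ∃ n : ℤ, algebraMap Kbar (FF L) ((q : Kbar) ^ n) * f ^ m ∈ O ∧
        (algebraMap Kbar (FF L) ((q : Kbar) ^ n) * f ^ m)⁻¹ ∈ O)
    (x : f0Field A L) (hx : x ∈ (O.comap (algebraMap (f0Field A L) (FF L))).nonunits) :
    ∃ y ∈ O.comap (algebraMap (f0Field A L) (FF L)),
      x ^ m = algebraMap (k0Field A) (f0Field A L) (((q : k0Val A) : k0Val A) : k0Field A) * y := by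
  have h := varch_of_unit A O hq hqO m hm hunit x.2 (varch_nonunits_comap A O x hx)
  have hQ0 : algebraMap (k0Field A) (f0Field A L) (((q : k0Val A) : k0Val A) : k0Field A) ≠ 0 :=
    a2i_Q_ne_zero A q hq
  refine ⟨x ^ m * (algebraMap (k0Field A) (f0Field A L)
    (((q : k0Val A) : k0Val A) : k0Field A))⁻¹, ?_, ?_⟩
  · show ((x ^ m * (algebraMap (k0Field A) (f0Field A L)
        ((((q : k0Val A) : k0Val A) : k0Field A)))⁻¹ : f0Field A L) : FF L) ∈ O
    have e : ((x ^ m * (algebraMap (k0Field A) (f0Field A L)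
        ((((q : k0Val A) : k0Val A) : k0Field A)))⁻¹ : f0Field A L) : FF L) =
        (x : FF L) ^ m * (algebraMap Kbar (FF L) (q : Kbar))⁻¹ := by
      push_cast
      simp
    rw [e]
    exact h
  · rw [mul_comm (x ^ m), ← mul_assoc, mul_inv_cancel₀ hQ0, one_mul]

/-- **`Reg3Hyp` for `nodeSetupSeriesD`**: from the unit forms of discreteness of the three
valuation rings on `F0(L)` (exponent `1` at `∞` and `0`, exponent `e` at `mid`). -/
theorem r3h_seriesD (D : Set (Place Kbar (FF L))) (vInf vMid vZero : SeriesVal A L)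
    (κ : IntermediateField (IsLocalRing.ResidueField A)
      (LaurentSeries (IsLocalRing.ResidueField A)))
    (hiInf : ∀ (x : FF L) (hx : x ∈ vInf.O), x ∈ f0Field A L → vInf.red ⟨x, hx⟩ ∈ κ)
    (hoInf : ∀ w ∈ κ, ∃ (x : FF L) (hx : x ∈ vInf.O), x ∈ f0Field A L ∧ vInf.red ⟨x, hx⟩ = w)
    (hiMid : ∀ (x : FF L) (hx : x ∈ vMid.O), x ∈ f0Field A L → vMid.red ⟨x, hx⟩ ∈ κ)
    (hoMid : ∀ w ∈ κ, ∃ (x : FF L) (hx : x ∈ vMid.O), x ∈ f0Field A L ∧ vMid.red ⟨x, hx⟩ = w)
    (hiZero : ∀ (x : FF L) (hx : x ∈ vZero.O), x ∈ f0Field A L → vZero.red ⟨x, hx⟩ ∈ κ)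
    (hoZero : ∀ w ∈ κ, ∃ (x : FF L) (hx : x ∈ vZero.O), x ∈ f0Field A L ∧
      vZero.red ⟨x, hx⟩ = w)
    (hq : q.Prime) (hA : A.LiesOverPrime q) (e : ℕ) (he : 0 < e)
    (huInf : ∀ f ∈ f0Field A L, f ≠ 0 →
      ∃ n : ℤ, algebraMap Kbar (FF L) ((q : Kbar) ^ n) * f ^ 1 ∈ vInf.O ∧
        (algebraMap Kbar (FF L) ((q : Kbar) ^ n) * f ^ 1)⁻¹ ∈ vInf.O)
    (huMid : ∀ f ∈ f0Field A L, f ≠ 0 →
      ∃ n : ℤ, algebraMap Kbar (FF L) ((q : Kbar) ^ n) * f ^ e ∈ vMid.O ∧
        (algebraMap Kbar (FF L) ((q : Kbar) ^ n) * f ^ e)⁻¹ ∈ vMid.O)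
    (huZero : ∀ f ∈ f0Field A L, f ≠ 0 →
      ∃ n : ℤ, algebraMap Kbar (FF L) ((q : Kbar) ^ n) * f ^ 1 ∈ vZero.O ∧
        (algebraMap Kbar (FF L) ((q : Kbar) ^ n) * f ^ 1)⁻¹ ∈ vZero.O) :
    Reg3Hyp (nodeSetupSeriesD A D vInf vMid vZero κ hiInf hoInf hiMid hoMid hiZero hoZero)
      ((nodeSetupSeriesD A D vInf vMid vZero κ hiInf hoInf hiMid hoMid hiZero hoZero).constB
        (q : k0Val A)) e := by
  have hqA : (q : Kbar) ∈ A := A.nonunits_le hA
  refine ⟨?_, he, ?_, ?_, ?_, ?_, ?_, ?_, ?_⟩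
  · intro h
    have h1 := congrArg Subtype.val h
    exact a2i_Q_ne_zero A q hq h1
  · show (nodeSetupSeriesD A D vInf vMid vZero κ hiInf hoInf hiMid hoMid hiZero hoZero).redInf
      _ = 0
    rw [NodeSetup.redInf_constB, a2i_res_q A q hA, map_zero]
  · show (nodeSetupSeriesD A D vInf vMid vZero κ hiInf hoInf hiMid hoMid hiZero hoZero).redMid
      _ = 0
    rw [NodeSetup.redMid_constB, a2i_res_q A q hA, map_zero]
  · show (nodeSetupSeriesD A D vInf vMid vZero κ hiInf hoInf hiMid hoMid hiZero hoZero).redZero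
      _ = 0
    rw [NodeSetup.redZero_constB, a2i_res_q A q hA, map_zero]
  · intro z hz hqz
    exact vhrad_sat A D vInf vMid vZero κ hiInf hoInf hiMid hoMid hiZero hoZero hq z hz hqz
  · intro x hx
    obtain ⟨y, hy, hxy⟩ := r3h_ram A vInf.O hq (vInf.algebraMap_mem ⟨_, hqA⟩) 1 Nat.one_pos
      huInf x hx
    rw [pow_one] at hxy
    exact ⟨y, hy, hxy⟩
  · intro x hx
    exact r3h_ram A vMid.O hq (vMid.algebraMap_mem ⟨_, hqA⟩) e he huMid x hx
  · intro x hx
    obtain ⟨y, hy, hxy⟩ := r3h_ram A vZero.O hq (vZero.algebraMap_mem ⟨_, hqA⟩) 1 Nat.one_pos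
      huZero x hx
    rw [pow_one] at hxy
    exact ⟨y, hy, hxy⟩

end Gen

/-! ### the setups of level `M' q²` -/

section Mid

variable (A : ValuationSubring Kbar) (M' q : ℕ) [NeZero M'] [NeZero q] (hq : q.Prime)
  (hqM : ¬ q ∣ M') (hA : A.LiesOverPrime q)
variable {ζ : Kbarˣ} {E : FF (M' * q * q) →+* LaurentSeries Kbar}

include hA in
/-- the unit form of discreteness at `0 = w_{q²} ∞` -/
theorem r3h_unit_zero
    (R : ConstRed A (IsLocalRing.residue A)
      (↥(modularFunctionFieldFullC (IsLocalRing.ResidueField A) M')) (FF (M' * q * q)))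
    (hR : IsSeriesRed R) (f : FF (M' * q * q)) (hf : f ∈ f0Field A (M' * q * q)) (hf0 : f ≠ 0) :
    ∃ n : ℤ, algebraMap Kbar (FF (M' * q * q)) ((q : Kbar) ^ n) * f ^ 1
        ∈ ((SeriesVal.ofConstRed R).comap (alW2 M' hq hqM)).O ∧
      (algebraMap Kbar (FF (M' * q * q)) ((q : Kbar) ^ n) * f ^ 1)⁻¹
        ∈ ((SeriesVal.ofConstRed R).comap (alW2 M' hq hqM)).O := by
  have hwf : alW2 M' hq hqM f ∈ f0Field A (M' * q * q) :=
    f0_alQ_mem (A := A) (L := M' * q * q) (q * q) _ _ hf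
  have hwf0 : alW2 M' hq hqM f ≠ 0 := (map_ne_zero _).mpr hf0
  obtain ⟨n, h1, h2⟩ := vdisc_inf hq hA hR hwf hwf0
  refine ⟨n, ?_, ?_⟩
  · show alW2 M' hq hqM (algebraMap Kbar (FF (M' * q * q)) ((q : Kbar) ^ n) * f ^ 1) ∈ R.O
    rw [pow_one, map_mul, AlgEquiv.commutes]
    exact h1
  · show alW2 M' hq hqM (algebraMap Kbar (FF (M' * q * q)) ((q : Kbar) ^ n) * f ^ 1)⁻¹ ∈ R.O
    rw [pow_one, map_inv₀, map_mul, AlgEquiv.commutes]
    exact h2

/-- **`Reg3Hyp` at level `M' q²`**, affine ring `B_D`, `e = q - 1`, `vMid = vmidSV` -/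
theorem r3h_nodeSetupMD (D : Set (Place Kbar (FF (M' * q * q))))
    (R : ConstRed A (IsLocalRing.residue A)
      (↥(modularFunctionFieldFullC (IsLocalRing.ResidueField A) M')) (FF (M' * q * q)))
    (hR : IsSeriesRed R) (hζq : ζ ^ q = 1) (hζ : IsPrimitiveRoot (ζ : Kbar) q)
    (hE : IsMidExp M' q ζ E)
    (hiMid : ∀ (x : FF (M' * q * q))
      (hx : x ∈ (vmidSV A hq ((A.mem_nonunits_iff).mp hA) hζq hE).O),
      x ∈ f0Field A (M' * q * q) →
        (vmidSV A hq ((A.mem_nonunits_iff).mp hA) hζq hE).red ⟨x, hx⟩ ∈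
          modularFunctionFieldFullC (IsLocalRing.ResidueField A) M')
    (hoMid : ∀ y ∈ modularFunctionFieldFullC (IsLocalRing.ResidueField A) M',
      ∃ (x : FF (M' * q * q)) (hx : x ∈ (vmidSV A hq ((A.mem_nonunits_iff).mp hA) hζq hE).O),
        x ∈ f0Field A (M' * q * q) ∧
          (vmidSV A hq ((A.mem_nonunits_iff).mp hA) hζq hE).red ⟨x, hx⟩ = y) :
    Reg3Hyp (nodeSetupMD A M' q hq hqM hA D R hR
        (vmidSV A hq ((A.mem_nonunits_iff).mp hA) hζq hE) hiMid hoMid)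
      ((nodeSetupMD A M' q hq hqM hA D R hR
        (vmidSV A hq ((A.mem_nonunits_iff).mp hA) hζq hE) hiMid hoMid).constB (q : k0Val A))
      (q - 1) := by
  have h2 := hq.two_le
  exact r3h_seriesD A D (SeriesVal.ofConstRed R)
    (vmidSV A hq ((A.mem_nonunits_iff).mp hA) hζq hE)
    ((SeriesVal.ofConstRed R).comap (alW2 M' hq hqM))
    (modularFunctionFieldFullC (IsLocalRing.ResidueField A) M') _ _ hiMid hoMid _ _
    hq hA (q - 1) (by omega)
    (fun f hf hf0 => by rw [pow_one]; exact vdisc_inf hq hA hR hf hf0)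
    (fun f hf hf0 => vdisc_vmid_pow A hq hA hζ hE hf hf0)
    (fun f hf hf0 => r3h_unit_zero A M' q hq hqM hA R hR f hf hf0)

/-- **`Reg3Hyp` for `nodeSetupM`** (`B = B_{D1}`) with the middle valuation `vmidSV`,
`hiMid = vmid_hinto`, `hoMid = vmid_honto` -/
theorem r3h_nodeSetupM
    (R : ConstRed A (IsLocalRing.residue A)
      (↥(modularFunctionFieldFullC (IsLocalRing.ResidueField A) M')) (FF (M' * q * q)))
    (hR : IsSeriesRed R) (hζq : ζ ^ q = 1) (hζ : IsPrimitiveRoot (ζ : Kbar) q)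
    (hE : IsMidExp M' q ζ E) :
    Reg3Hyp (nodeSetupM A M' q hq hqM hA R hR
        (vmidSV A hq ((A.mem_nonunits_iff).mp hA) hζq hE)
        (vmid_hinto A hq hqM hA hζq hζ hE) (vmid_honto A hq hA hζq hE))
      ((nodeSetupM A M' q hq hqM hA R hR
        (vmidSV A hq ((A.mem_nonunits_iff).mp hA) hζq hE)
        (vmid_hinto A hq hqM hA hζq hζ hE) (vmid_honto A hq hA hζq hE)).constB (q : k0Val A))
      (q - 1) :=
  r3h_nodeSetupMD A M' q hq hqM hA (s36D1 M' q hq hqM) R hR hζq hζ hE _ _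

/-- **`Reg3Hyp` for `nodeSetupMj`** (`B = B_j`) -/
theorem r3h_nodeSetupMj
    (R : ConstRed A (IsLocalRing.residue A)
      (↥(modularFunctionFieldFullC (IsLocalRing.ResidueField A) M')) (FF (M' * q * q)))
    (hR : IsSeriesRed R) (hζq : ζ ^ q = 1) (hζ : IsPrimitiveRoot (ζ : Kbar) q)
    (hE : IsMidExp M' q ζ E) :
    Reg3Hyp (nodeSetupMj A M' q hq hqM hA R hR
        (vmidSV A hq ((A.mem_nonunits_iff).mp hA) hζq hE)
        (vmid_hinto A hq hqM hA hζq hζ hE) (vmid_honto A hq hA hζq hE))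
      ((nodeSetupMj A M' q hq hqM hA R hR
        (vmidSV A hq ((A.mem_nonunits_iff).mp hA) hζq hE)
        (vmid_hinto A hq hqM hA hζq hζ hE) (vmid_honto A hq hA hζq hE)).constB (q : k0Val A))
      (q - 1) :=
  r3h_nodeSetupMD A M' q hq hqM hA (cuspSet (M' * q * q)) R hR hζq hζ hE _ _

end Mid

end Fermat.Agent.S36lib

end
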