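/-
Item 83 (S36), CRUX HEAD, concrete form (helper26).  No sorry in this file.

The hypothesis `hhead` of `ctl_a2crux_D1` (`CruxFinal.lean`) for THE FINAL SETUP
`SF = s36Final A M' q hq hqM hA hζq hζ hE R hR` (`Apply2Final.lean`), with
`c2 = (q - 1) (q + 1) q`.

Discharged here, for `SF`:
* `Hrad`            (`s36Final_Hrad`, from `s36Final_sat`, `s36Final_harch*`);
* `Reg3Hyp SF q (q - 1)` (`r3h_nodeSetupM`, helper18);
* `hrootB`          (`h1root_nodeSetupSeriesD`);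
* `Nat.Coprime m q` from `(m : k) ≠ 0` (`s36_coprime_of_residue`).

`s36_hhead_final_of_tor`: `hhead` from the TOR output `htor` (for every `b`: `∃ s` unit at the
nodes with `b ^ ((q-1)(q+1)) - s ^ m ∈ p_∞ ⊓ p_mid ⊓ p_0`), the trichotomy `htri`, a node
`hnode`, the REG3 input `hmid`, the Dedekind quotients, `IsNoetherianRing`, `hfrac`.
-/
import Mathlib
import Fermat.Agent.S36lib.H1Pkg
import Fermat.Agent.S36lib.H1Root
import Fermat.Agent.S36lib.Apply2Final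
import Fermat.Agent.S36lib.Reg3HypM

set_option autoImplicit false
set_option linter.style.haveILetI false
set_option linter.unusedSectionVars false
set_option linter.unusedVariables false
set_option synthInstance.maxHeartbeats 400000

noncomputable section

namespace Fermat.Agent.S36lib

open ModularCurve HahnSeries AlgebraicCurve
open Fermat.Agent.GoodRed Fermat.Agent.S24lib Fermat.Agent.S34lib Fermat.Agent.S37lib
  Fermat.Agent.HeckeBar Fermat.Agent.S35lib Fermat.Agent.GM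

variable (A : ValuationSubring Kbar) (M' q : ℕ) [NeZero M'] [NeZero q]
variable (hq : q.Prime) (hqM : ¬ q ∣ M') (hA : A.LiesOverPrime q)
variable {ζ : Kbarˣ} {E : FF (M' * q * q) →+* LaurentSeries Kbar}
variable (hζq : ζ ^ q = 1) (hζ : IsPrimitiveRoot (ζ : Kbar) q) (hE : IsMidExp M' q ζ E)
variable (R : ConstRed A (IsLocalRing.residue A)
      (↥(modularFunctionFieldFullC (IsLocalRing.ResidueField A) M')) (FF (M' * q * q)))
    (hR : IsSeriesRed R)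

local notation "SF" => s36Final A M' q hq hqM hA hζq hζ hE R hR

/-- `q ∤ m` from `(m : k) ≠ 0` -/
theorem s36_coprime_of_residue (hq : q.Prime) (hA : A.LiesOverPrime q) (m : ℕ)
    (hmk : (m : IsLocalRing.ResidueField A) ≠ 0) : Nat.Coprime m q := by
  rw [Nat.coprime_comm, Nat.Prime.coprime_iff_not_dvd hq]
  rintro ⟨c, rfl⟩
  apply hmk
  have h0 : ((q : ℕ) : IsLocalRing.ResidueField A) = 0 := by
    have h := a2i_res_q A q hA
    rwa [map_natCast] at h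
  rw [Nat.cast_mul, h0, zero_mul]

/-- **`Hrad` for the final setup** -/
theorem s36Final_Hrad (P : Ideal (SF).B) (hP : P.IsPrime)
    (hqP : (SF).constB (q : k0Val A) ∈ P) :
    (SF).pInf ≤ P ∨ (SF).pMid ≤ P ∨ (SF).pZero ≤ P :=
  s36_hrad_of_saturated (SF) (q : k0Val A) (a2i_q_ne_zero A q hq)
    (s36Final_sat A M' q hq hqM hA hζq hζ hE R hR)
    (s36Final_harchInf A M' q hq hqM hA hζq hζ hE R hR)
    (s36Final_harchMid A M' q hq hqM hA hζq hζ hE R hR)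
    (s36Final_harchZero A M' q hq hqM hA hζq hζ hE R hR) P hP hqP

/-- **`Reg3Hyp` for the final setup**, `e = q - 1` -/
theorem s36Final_reg3Hyp : Reg3Hyp (SF) ((SF).constB (q : k0Val A)) (q - 1) :=
  r3h_nodeSetupM A M' q hq hqM hA R hR hζq hζ hE

/-- **`hroot` for the final setup** -/
theorem s36Final_hroot (m : ℕ) (hm : 0 < m) (z : f0Field A (M' * q * q))
    (hz : z ^ m ∈ (SF).B) : z ∈ (SF).B := by
  rw [mem_s36Final_B] at hz ⊢
  have hc : (((z ^ m : f0Field A (M' * q * q))) : FF (M' * q * q))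
      = (z : FF (M' * q * q)) ^ m := by push_cast; rfl
  rw [hc, map_pow] at hz
  exact ⟨h1root_offRegular (M' * q * q) _ m hm _ hz.1,
    h1root_valuationSubring _ m hm _ hz.2.1,
    h1root_valuationSubring _ m hm _ hz.2.2.1,
    h1root_valuationSubring _ m hm _ hz.2.2.2⟩

set_option maxHeartbeats 2000000 in
/-- **the HEAD for the final setup, from the TOR output.** -/
theorem s36_hhead_final_of_tor (hnoeth : IsNoetherianRing (SF).B)
    (hfrac : ∀ z : f0Field A (M' * q * q), ∃ a b : (SF).B,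
      b ≠ 0 ∧ z * (b : f0Field A (M' * q * q)) = (a : f0Field A (M' * q * q)))
    (hDI : IsDedekindDomain ((SF).B ⧸ (SF).pInf))
    (hDM : IsDedekindDomain ((SF).B ⧸ (SF).pMid))
    (hDZ : IsDedekindDomain ((SF).B ⧸ (SF).pZero))
    (hnmI : ¬ (SF).pInf.IsMaximal) (hnmM : ¬ (SF).pMid.IsMaximal)
    (hnmZ : ¬ (SF).pZero.IsMaximal)
    (m : ℕ) (hm : 0 < m) (hmk : (m : IsLocalRing.ResidueField A) ≠ 0)
    (hnode : ∃ t : Ideal (SF).B, (SF).IsNode t ∧ (SF).pMid ≤ t)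
    (htri : ∀ 𝔪 : Ideal (SF).B, 𝔪.IsMaximal → (SF).constB (q : k0Val A) ∈ 𝔪 → (SF).IsNode 𝔪 ∨
      ((SF).pInf ≤ 𝔪 ∧ ¬ (SF).pMid ≤ 𝔪 ∧ ¬ (SF).pZero ≤ 𝔪) ∨
      (¬ (SF).pInf ≤ 𝔪 ∧ (SF).pMid ≤ 𝔪 ∧ ¬ (SF).pZero ≤ 𝔪) ∨
      (¬ (SF).pInf ≤ 𝔪 ∧ ¬ (SF).pMid ≤ 𝔪 ∧ (SF).pZero ≤ 𝔪))
    (hmid : ∀ 𝔪 : Ideal (SF).B, 𝔪.IsMaximal → (SF).constB (q : k0Val A) ∈ 𝔪 →
      (SF).pMid ≤ 𝔪 → ¬ (SF).pInf ≤ 𝔪 → ¬ (SF).pZero ≤ 𝔪 →
      ∃ π₀ w₁ b : (SF).B, π₀ ∈ (SF).pMid ∧ w₁ ∉ 𝔪 ∧ b ∉ 𝔪 ∧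
        w₁ * π₀ ^ (q - 1) = (SF).constB (q : k0Val A) * b)
    (htor : ∀ b : (SF).B, (SF).IsUnitAtNodes b →
      IsKummerNew2 M' q m (((b : f0Field A (M' * q * q)) : FF (M' * q * q))) →
      (SF).redInf b ≠ 0 → (SF).redMid b ≠ 0 → (SF).redZero b ≠ 0 →
      ∃ s : (SF).B, (SF).IsUnitAtNodes s ∧
        b ^ ((q - 1) * (q + 1)) - s ^ m ∈ (SF).pInf ⊓ (SF).pMid ⊓ (SF).pZero) :
    ∀ b : (SF).B, (b : f0Field A (M' * q * q)) ≠ 0 → (SF).IsUnitAtNodes b →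
      (∀ P : Place Kbar (FF (M' * q * q)),
        (m : ℤ) ∣ P.ord (((b : f0Field A (M' * q * q)) : FF (M' * q * q)))) →
      IsKummerNew2 M' q m (((b : f0Field A (M' * q * q)) : FF (M' * q * q))) →
      ∃ h₀ : f0Field A (M' * q * q), h₀ ≠ 0 ∧
        (b : f0Field A (M' * q * q)) ^ ((q - 1) * (q + 1) * q) * h₀ ^ m ∈ (SF).B ∧
        ∃ z : f0Field A (M' * q * q), z ∈ (SF).ball ∧
          (b : f0Field A (M' * q * q)) ^ ((q - 1) * (q + 1) * q) * h₀ ^ m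
            = 1 + a2iQ A q (L := M' * q * q) * z := by
  intro b hb0 hbu hord hnew
  haveI := hnoeth
  haveI := hDI
  haveI := hDM
  haveI := hDZ
  haveI : NeZero (M' * q * q) :=
    ⟨Nat.mul_ne_zero (Nat.mul_ne_zero (NeZero.ne M') (NeZero.ne q)) (NeZero.ne q)⟩
  obtain ⟨t, ht, htM⟩ := hnode
  have hbI : (SF).redInf b ≠ 0 := fun h0 => hbu.notMem (SF) ht (ht.2 (Ideal.mem_sup_left h0))
  have hbM : (SF).redMid b ≠ 0 := fun h0 => hbu.notMem (SF) ht (htM h0)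
  have hbZ : (SF).redZero b ≠ 0 := fun h0 => hbu.notMem (SF) ht (ht.2 (Ideal.mem_sup_right h0))
  obtain ⟨s, hsu, hbs⟩ := htor b hbu hnew hbI hbM hbZ
  exact s36_hhead_hrad A q (SF) hq hA hnmI hnmM hnmZ hfrac
    (s36Final_Hrad A M' q hq hqM hA hζq hζ hE R hR) (q - 1)
    (s36Final_reg3Hyp A M' q hq hqM hA hζq hζ hE R hR) (Nat.sub_le q 1) m hm
    (s36_coprime_of_residue A q hq hA m hmk)
    (s36Final_hroot A M' q hq hqM hA hζq hζ hE R hR m hm) ⟨t, ht, htM⟩ htri hmid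
    ((q - 1) * (q + 1)) b hbu hord s hsu hbs

end Fermat.Agent.S36lib

end
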