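/-
Item 83 (S36), piece C-16 CRUX-FINAL, part 6 (helper16).  Complete proofs.

`s36Final_crux_final`: **the input (C) of `A2Inputs`** (helper20, `Apply2Main.lean`) for the
final setup `SF = s36Final … (cfm_isMidExp …) …` (middle expansion `ecMid ζ`):

  `∃ c2, 0 < c2 ∧ ∀ n, A2Crux M' q A SF (p ^ n) c2`     (`c2 = (q - 1)(q + 1) q`)

from
* `hyp : G3Hyp SF s36S0 q (q - 1)`                         (helper8),
* `(R1)`, `(R2)` : Noetherian, `hfrac`                      (helper28),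
* Dedekind quotients and `¬ p_v.IsMaximal`                  (helper27),
* `hnode`, `htri`                                           (helper26 / helper25 / helper9),
* `hmid`                                                    (helper5),
* `htor` for every `m = p ^ n`                              (helper25),
through helper26's `s36_hhead_final_of_tor` (`H1Conc.lean`) and `s36Final_crux_of_g3_head`
(`CruxH0b.lean`).
-/
import Mathlib
import Fermat.Agent.S36lib.CruxH0b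
import Fermat.Agent.S36lib.H1Conc

set_option autoImplicit false
set_option linter.style.longLine false
set_option linter.unusedSectionVars false
set_option linter.unusedVariables false
set_option linter.style.haveILetI false
set_option synthInstance.maxHeartbeats 400000

noncomputable section

namespace Fermat.Agent.S36lib

open ModularCurve HahnSeries AlgebraicCurve
open Fermat.Agent.GoodRed Fermat.Agent.S24lib Fermat.Agent.S34lib Fermat.Agent.S37lib
  Fermat.Agent.HeckeBar Fermat.Agent.S35lib Fermat.Agent.GM Fermat.Agent.RRlib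

variable (A : ValuationSubring Kbar) (M' q : ℕ) [NeZero M'] [NeZero q]
variable (hq : q.Prime) (hqM : ¬ q ∣ M') (hA : A.LiesOverPrime q)
variable {ζ : Kbarˣ} (hζq : ζ ^ q = 1) (hζ : IsPrimitiveRoot (ζ : Kbar) q)
variable (R : ConstRed A (IsLocalRing.residue A)
      (↥(modularFunctionFieldFullC (IsLocalRing.ResidueField A) M')) (FF (M' * q * q)))
    (hR : IsSeriesRed R)

local notation "SFc" =>
  s36Final A M' q hq hqM hA hζq hζ (cfm_isMidExp M' q hq hqM ζ hζ) R hR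

set_option maxHeartbeats 2000000 in
/-- **the input (C) of `A2Inputs` for the final setup.** -/
theorem s36Final_crux_final (haux : IsAuxLevel q M') (p : ℕ) (hp : p.Prime) (hqp : q ≠ p)
    (hyp : letI := DvrBall.algebraRed (s36Dball A M' q hq hqM hA hζq hζ R hR) (k0Res A) (s36_k0Res_surjective A q hq hA)
      G3Hyp (SFc) (s36S0 A M' q hq hqM hA hζq hζ R hR) (q : k0Val A) (q - 1))
    (hnoeth : IsNoetherianRing (SFc).B)
    (hfrac : ∀ z : f0Field A (M' * q * q), ∃ a b : (SFc).B,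
      b ≠ 0 ∧ z * (b : f0Field A (M' * q * q)) = (a : f0Field A (M' * q * q)))
    (hDI : IsDedekindDomain ((SFc).B ⧸ (SFc).pInf))
    (hDM : IsDedekindDomain ((SFc).B ⧸ (SFc).pMid))
    (hDZ : IsDedekindDomain ((SFc).B ⧸ (SFc).pZero))
    (hnmI : ¬ (SFc).pInf.IsMaximal) (hnmM : ¬ (SFc).pMid.IsMaximal)
    (hnmZ : ¬ (SFc).pZero.IsMaximal)
    (hnode : ∃ t : Ideal (SFc).B, (SFc).IsNode t ∧ (SFc).pMid ≤ t)
    (htri : ∀ 𝔪 : Ideal (SFc).B, 𝔪.IsMaximal → (SFc).constB (q : k0Val A) ∈ 𝔪 → (SFc).IsNode 𝔪 ∨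
      ((SFc).pInf ≤ 𝔪 ∧ ¬ (SFc).pMid ≤ 𝔪 ∧ ¬ (SFc).pZero ≤ 𝔪) ∨
      (¬ (SFc).pInf ≤ 𝔪 ∧ (SFc).pMid ≤ 𝔪 ∧ ¬ (SFc).pZero ≤ 𝔪) ∨
      (¬ (SFc).pInf ≤ 𝔪 ∧ ¬ (SFc).pMid ≤ 𝔪 ∧ (SFc).pZero ≤ 𝔪))
    (hmid : ∀ 𝔪 : Ideal (SFc).B, 𝔪.IsMaximal → (SFc).constB (q : k0Val A) ∈ 𝔪 →
      (SFc).pMid ≤ 𝔪 → ¬ (SFc).pInf ≤ 𝔪 → ¬ (SFc).pZero ≤ 𝔪 →
      ∃ π₀ w₁ b : (SFc).B, π₀ ∈ (SFc).pMid ∧ w₁ ∉ 𝔪 ∧ b ∉ 𝔪 ∧
        w₁ * π₀ ^ (q - 1) = (SFc).constB (q : k0Val A) * b)
    (htor : ∀ n : ℕ, ∀ b : (SFc).B, (SFc).IsUnitAtNodes b →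
      IsKummerNew2 M' q (p ^ n) (((b : f0Field A (M' * q * q)) : FF (M' * q * q))) →
      (SFc).redInf b ≠ 0 → (SFc).redMid b ≠ 0 → (SFc).redZero b ≠ 0 →
      ∃ s : (SFc).B, (SFc).IsUnitAtNodes s ∧
        b ^ ((q - 1) * (q + 1)) - s ^ (p ^ n) ∈ (SFc).pInf ⊓ (SFc).pMid ⊓ (SFc).pZero) :
    ∃ c2 : ℕ, 0 < c2 ∧ ∀ n : ℕ, A2Crux M' q A (SFc) (p ^ n) c2 := by
  have hq2 : 2 ≤ q := hq.two_le
  have hqp' : ¬ q ∣ p := fun h => hqp ((Nat.prime_dvd_prime_iff_eq hq hp).1 h)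
  have hcharP : CharP (IsLocalRing.ResidueField A) q :=
    vmid_charP A hq ((A.mem_nonunits_iff).mp hA)
  refine ⟨(q - 1) * (q + 1) * q, ?_, fun n => ?_⟩
  · have h1 : 0 < q - 1 := by omega
    positivity
  · refine s36Final_crux_of_g3_head A M' q hq hqM hA hζq hζ R hR haux hyp hnode p hqp' hp.pos
      ((q - 1) * (q + 1) * q) (fun n' => ?_) n
    have hqm : ¬ q ∣ p ^ n' := fun h => hqp' (hq.dvd_of_dvd_pow h)
    have hmk : ((p ^ n' : ℕ) : IsLocalRing.ResidueField A) ≠ 0 := by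
      intro h0
      exact hqm ((CharP.cast_eq_zero_iff (IsLocalRing.ResidueField A) q (p ^ n')).1 h0)
    exact s36_hhead_final_of_tor A M' q hq hqM hA hζq hζ (cfm_isMidExp M' q hq hqM ζ hζ) R hR
      hnoeth hfrac hDI hDM hDZ hnmI hnmM hnmZ (p ^ n') (pow_pos hp.pos n') hmk hnode htri hmid
      (htor n')

end Fermat.Agent.S36lib

end
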