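/-
Item 83 (S36), block CRUX, piece FIX-1a (helper14): the field `fg` of the `DvrBall` over `A0`.

* `bfg_arch` : the valuation of `A` is archimedean with respect to `q`;
* `bfg_exists_dual` : a linearly independent finite family has a dual family of functionals on
  the whole space;
* `bfg_fg` : `R` a constant reduction of `FF L` over `A` (orthonormal bases).  For every
  finite-dimensional `K0`-subspace `V` of `F0(L)` the lattice `V ∩ R.O` lies in a finitely
  generated `A0`-module (exact shape of the field `fg` of `DvrBall`);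
* `bfg_fg_of_le` : the same for every subring `O` of `F0(L)` contained in `R.O`.
-/
import Mathlib
import Fermat.Agent.S36lib.VDesc
import Fermat.Agent.S36lib.FixedF0
import Fermat.Agent.S36lib.K0Unram

set_option autoImplicit false
set_option linter.style.haveILetI false
set_option linter.unusedSectionVars false
set_option synthInstance.maxHeartbeats 400000

open ModularCurve AlgebraicCurve
open Fermat.Agent.S24lib Fermat.Agent.S34lib Fermat.Agent.GoodRed

noncomputable section

namespace Fermat.Agent.S36lib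

/-- a linearly independent finite family has a dual family of functionals -/
theorem bfg_exists_dual {K F : Type*} [Field K] [AddCommGroup F] [Module K F] {n : ℕ}
    (w : Fin n → F) (hw : LinearIndependent K w) :
    ∃ φ : Fin n → F →ₗ[K] K, ∀ i j, φ j (w i) = if j = i then 1 else 0 := by
  classical
  let b := Module.Basis.span hw
  have hex : ∀ j, ∃ g : F →ₗ[K] K, g.comp (Submodule.span K (Set.range w)).subtype = b.coord j :=
    fun j => LinearMap.exists_extend (b.coord j)
  choose φ hφ using hex
  refine ⟨φ, fun i j => ?_⟩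
  have h1 : w i = ((b i : Submodule.span K (Set.range w)) : F) :=
    congrArg Subtype.val (Module.Basis.span_apply hw i).symm
  have h2 : φ j (w i) = b.coord j (b i) := by
    rw [← hφ j, h1]
    rfl
  rw [h2, Module.Basis.coord_apply, Module.Basis.repr_self, Finsupp.single_apply]
  by_cases h : i = j
  · rw [if_pos h, if_pos h.symm]
  · rw [if_neg h, if_neg (Ne.symm h)]

theorem bfg_rescale {K F : Type*} [Field K] [Field F] [Algebra K F] (Q a : K) (hQ : Q ≠ 0)
    (v : F) : algebraMap K F a * v = algebraMap K F (Q * a) * (algebraMap K F Q⁻¹ * v) := by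
  rw [← mul_assoc, ← map_mul, mul_comm Q, mul_assoc, mul_inv_cancel₀ hQ, mul_one]

variable (A : ValuationSubring Kbar)

/-- the valuation of `A` is archimedean with respect to `q` -/
theorem bfg_arch {q : ℕ} (hq : q.Prime) (hA : A.LiesOverPrime q) (y : Kbar) :
    ∃ N : ℕ, ∀ N' : ℕ, N ≤ N' → (q : Kbar) ^ N' * y ∈ A := by
  have hqA : (q : Kbar) ∈ A := A.nonunits_subset hA
  by_cases hy : y = 0
  · exact ⟨0, fun N' _ => by rw [hy, mul_zero]; exact A.zero_mem⟩
  obtain ⟨N, hN⟩ := k0_exists_pow_lt A q hq hA y⁻¹ (inv_ne_zero hy)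
  refine ⟨N, fun N' hN' => ?_⟩
  have h1 : (q : Kbar) ^ N * y ∈ A := by
    rw [← A.valuation_le_one_iff, map_mul, map_pow]
    rw [map_inv₀] at hN
    have hvy : 0 < A.valuation y := by
      rw [zero_lt_iff, Ne, map_eq_zero]; exact hy
    have := mul_lt_mul_of_pos_right hN hvy
    rw [inv_mul_cancel₀ hvy.ne'] at this
    exact this.le
  obtain ⟨d, rfl⟩ := Nat.exists_eq_add_of_le hN'
  rw [_root_.pow_add, mul_comm ((q : Kbar) ^ N), mul_assoc]
  exact A.mul_mem _ _ (pow_mem hqA d) h1

variable (L : ℕ) [NeZero L]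

/-- a `K0`-combination of elements of `F0(L)`, seen in `FF L` -/
theorem bfg_coe_sum {n : ℕ} (a : Fin n → k0Field A) (v : Fin n → f0Field A L) :
    ((∑ i, algebraMap (k0Field A) (f0Field A L) (a i) * v i : f0Field A L) : FF L)
      = ∑ i, ((a i : k0Field A) : Kbar) • ((v i : f0Field A L) : FF L) := by
  rw [AddSubmonoidClass.coe_finsetSum]
  refine Finset.sum_congr rfl fun i _ => ?_
  rw [MulMemClass.coe_mul, Algebra.smul_def]
  rfl

/-- the expansion in a basis of a `K0`-subspace of `F0(L)` -/
theorem bfg_basis_sum (V : Submodule (k0Field A) (f0Field A L)) {n : ℕ}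
    (b : Module.Basis (Fin n) (k0Field A) V) (x : V) :
    (x : f0Field A L) = ∑ i, algebraMap (k0Field A) (f0Field A L) (b.repr x i) *
      ((b i : V) : f0Field A L) := by
  have h3 : ((∑ i, b.repr x i • b i : V) : f0Field A L)
      = ∑ i, algebraMap (k0Field A) (f0Field A L) (b.repr x i) * ((b i : V) : f0Field A L) := by
    rw [Submodule.coe_sum]
    refine Finset.sum_congr rfl fun i _ => ?_
    rw [Submodule.coe_smul, Algebra.smul_def]
  rw [← h3, b.sum_repr x]

theorem bfg_basis_exists (V : Submodule (k0Field A) (f0Field A L)) {n : ℕ}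
    (b : Module.Basis (Fin n) (k0Field A) V) (x : V) :
    ∃ a : Fin n → k0Field A, (x : f0Field A L) =
      ∑ i, algebraMap (k0Field A) (f0Field A L) (a i) * ((b i : V) : f0Field A L) :=
  ⟨fun i => b.repr x i, bfg_basis_sum A L V b x⟩

theorem bfg_coe_qpow_mul (q N : ℕ) (a : k0Field A) :
    (((q : k0Field A) ^ N * a : k0Field A) : Kbar) = (q : Kbar) ^ N * (a : Kbar) := by
  push_cast
  rfl

/-- the core: boundedness of the coordinates w.r.t. a `K0`-independent family -/
theorem bfg_coord_bounded {q : ℕ} (hq : q.Prime) (hA : A.LiesOverPrime q)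
    {Fk : Type*} [Field Fk] [Algebra (IsLocalRing.ResidueField A) Fk]
    (R : ConstRed A (IsLocalRing.residue A) Fk (FF L)) {n : ℕ}
    (v : Fin n → f0Field A L) (hv : LinearIndependent (k0Field A) v) :
    ∃ N : ℕ, ∀ a : Fin n → k0Field A,
      ((∑ i, algebraMap (k0Field A) (f0Field A L) (a i) * v i : f0Field A L) : FF L) ∈ R.O →
      ∀ j, (q : k0Field A) ^ N * a j ∈ k0Val A := by
  classical
  have hw : LinearIndependent Kbar (fun i => ((v i : f0Field A L) : FF L)) :=
    f0_linearIndependent A L v hv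
  obtain ⟨φ, hφ⟩ := bfg_exists_dual _ hw
  have hV' : Module.Finite Kbar
      (Submodule.span Kbar (Set.range fun i => ((v i : f0Field A L) : FF L))) :=
    FiniteDimensional.span_of_finite Kbar (Set.finite_range _)
  obtain ⟨N, hN⟩ := vdesc_forms_bounded R _ hV' (q : Kbar) (bfg_arch A hq hA) φ
  refine ⟨N, fun a hO j => ?_⟩
  rw [bfg_coe_sum] at hO
  have hmem : (∑ i, ((a i : k0Field A) : Kbar) • ((v i : f0Field A L) : FF L))
      ∈ Submodule.span Kbar (Set.range fun i => ((v i : f0Field A L) : FF L)) :=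
    Submodule.sum_mem _ fun i _ =>
      Submodule.smul_mem _ _ (Submodule.subset_span ⟨i, rfl⟩)
  have hcoord : φ j (∑ i, ((a i : k0Field A) : Kbar) • ((v i : f0Field A L) : FF L))
      = ((a j : k0Field A) : Kbar) := by
    rw [map_sum, Finset.sum_eq_single j]
    · rw [map_smul, hφ j j, if_pos rfl, smul_eq_mul, mul_one]
    · intro i _ hij
      rw [map_smul, hφ i j, if_neg (Ne.symm hij), smul_zero]
    · intro h
      exact absurd (Finset.mem_univ j) h
  have h1 := hN _ hmem hO j
  rw [hcoord] at h1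
  rw [mem_k0Val_iff, bfg_coe_qpow_mul]
  exact h1

/-- **FIX-1a** (`fg` of the ball over `A0`): for a constant reduction `R` of `FF L` over `A` and
a finite-dimensional `K0`-subspace `V` of `F0(L)`, the lattice `V ∩ R.O` lies in a finitely
generated `A0`-module. -/
theorem bfg_fg {q : ℕ} (hq : q.Prime) (hA : A.LiesOverPrime q)
    {Fk : Type*} [Field Fk] [Algebra (IsLocalRing.ResidueField A) Fk]
    (R : ConstRed A (IsLocalRing.residue A) Fk (FF L))
    (V : Submodule (k0Field A) (f0Field A L)) (hV : Module.Finite (k0Field A) V) :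
    ∃ (n : ℕ) (g : Fin n → f0Field A L), ∀ x ∈ V, ((x : f0Field A L) : FF L) ∈ R.O →
      ∃ c : Fin n → k0Val A,
        x = ∑ i, algebraMap (k0Field A) (f0Field A L) (c i : k0Field A) * g i := by
  classical
  haveI := hV
  haveI : Module.Free (k0Field A) V := Module.Free.of_divisionRing _ _
  obtain ⟨n, ⟨b⟩⟩ : ∃ n : ℕ, Nonempty (Module.Basis (Fin n) (k0Field A) V) :=
    ⟨_, ⟨Module.finBasis (k0Field A) V⟩⟩
  have hv : LinearIndependent (k0Field A) (fun i => ((b i : V) : f0Field A L)) :=
    b.linearIndependent.map' V.subtype (Submodule.ker_subtype V)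
  obtain ⟨N, hN⟩ := bfg_coord_bounded A L hq hA R _ hv
  have hq0 : (q : k0Field A) ≠ 0 := Nat.cast_ne_zero.mpr hq.ne_zero
  have hQ0 : ((q : k0Field A) ^ N) ≠ 0 := pow_ne_zero N hq0
  have key : ∀ x ∈ V, ((x : f0Field A L) : FF L) ∈ R.O →
      ∃ c : Fin n → k0Val A,
        x = ∑ i, algebraMap (k0Field A) (f0Field A L) (c i : k0Field A) *
          (algebraMap (k0Field A) (f0Field A L) (((q : k0Field A) ^ N)⁻¹) *
            ((b i : V) : f0Field A L)) := by
    intro x hxV hxO
    obtain ⟨a, ha⟩ : ∃ a : Fin n → k0Field A,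
        x = ∑ i, algebraMap (k0Field A) (f0Field A L) (a i) * ((b i : V) : f0Field A L) :=
      bfg_basis_exists A L V b ⟨x, hxV⟩
    have hO' : ((∑ i, algebraMap (k0Field A) (f0Field A L) (a i) *
        ((b i : V) : f0Field A L) : f0Field A L) : FF L) ∈ R.O := by
      rw [← ha]
      exact hxO
    have hc := hN a hO'
    refine ⟨fun i => ⟨(q : k0Field A) ^ N * a i, hc i⟩, ?_⟩
    conv_lhs => rw [ha]
    refine Finset.sum_congr rfl fun i _ => ?_
    exact bfg_rescale ((q : k0Field A) ^ N) (a i) hQ0 ((b i : V) : f0Field A L)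
  exact ⟨_, _, key⟩

/-- the same for a subring `O ⊆ R.O` of `F0(L)` -/
theorem bfg_fg_of_le {q : ℕ} (hq : q.Prime) (hA : A.LiesOverPrime q)
    {Fk : Type*} [Field Fk] [Algebra (IsLocalRing.ResidueField A) Fk]
    (R : ConstRed A (IsLocalRing.residue A) Fk (FF L))
    (O : Subring (f0Field A L)) (hO : ∀ x ∈ O, ((x : f0Field A L) : FF L) ∈ R.O)
    (V : Submodule (k0Field A) (f0Field A L)) (hV : Module.Finite (k0Field A) V) :
    ∃ (n : ℕ) (g : Fin n → f0Field A L), ∀ x ∈ V, x ∈ O →
      ∃ c : Fin n → k0Val A,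
        x = ∑ i, algebraMap (k0Field A) (f0Field A L) (c i : k0Field A) * g i := by
  obtain ⟨n, g, hg⟩ := bfg_fg A L hq hA R V hV
  exact ⟨n, g, fun x hxV hxO => hg x hxV (hO x hxO)⟩

end Fermat.Agent.S36lib

end
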