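/-
Item 83 (S36), abstract block (helper12): a sup-norm unit ball over a DISCRETE valuation ring is a
semistable constant reduction `SSRed` with values in the (possibly NON-REDUCED) ring `O ⧸ ϖ O`.

`DvrBall A F`: `A` a valuation subring of `K` with principal maximal ideal `(ϖ)`, `O ⊂ F` a
subring containing `A`, absorbing (`ϖⁿ f ∈ O` for `n` large) and such that `V ∩ O` lies in a
finitely generated `A`-module for every finite-dimensional `V ⊂ F`.
`DvrBall.toSSRed`: the structure `SSRed A π (O ⧸ ϖ O) F` (orthonormal bases are automatic: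
`V ∩ O` is a free `A`-module and `ϖ O ∩ V = ϖ (V ∩ O)`).  Mathlib + `S34lib/CruxSS` only.
-/
import Mathlib
import Fermat.Agent.S34lib.CruxSS
import Fermat.Agent.S36lib.Speed

set_option autoImplicit false

noncomputable section

namespace Fermat.Agent.S36lib

open Fermat.Agent.S34lib

variable {K F : Type*} [Field K] [Field F] [Algebra K F]

/-- A unit ball over a discrete valuation ring `A` of `K` with uniformiser `ϖ`. -/
structure DvrBall (A : ValuationSubring K) (F : Type*) [Field F] [Algebra K F] where
  /-- the unit ball -/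
  O : Subring F
  /-- the uniformiser -/
  ϖ : A
  ϖ_ne_zero : ϖ ≠ 0
  maximalIdeal_eq : IsLocalRing.maximalIdeal A = Ideal.span {ϖ}
  algebraMap_mem : ∀ a : A, algebraMap K F (a : K) ∈ O
  absorb : ∀ f : F, ∃ n : ℕ, algebraMap K F ((ϖ : K) ^ n) * f ∈ O
  fg : ∀ V : Submodule K F, Module.Finite K V → ∃ (n : ℕ) (g : Fin n → F),
    ∀ x ∈ V, x ∈ O → ∃ c : Fin n → A, x = ∑ i, algebraMap K F (c i : K) * g i

namespace DvrBall

variable {A : ValuationSubring K} (D : DvrBall A F)

/-- the inclusion `A → O` -/
def incl : A →+* D.O :=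
  ((algebraMap K F).comp A.subtype).codRestrict D.O fun a => D.algebraMap_mem a

theorem coe_incl (a : A) : ((D.incl a : D.O) : F) = algebraMap K F (a : K) := rfl

/-- the uniformiser as an element of `O` -/
def ϖO : D.O := D.incl D.ϖ

theorem coe_ϖO : ((D.ϖO : D.O) : F) = algebraMap K F (D.ϖ : K) := rfl

theorem ϖ_coe_ne_zero : (D.ϖ : K) ≠ 0 := fun h => D.ϖ_ne_zero (Subtype.ext h)

theorem ϖF_ne_zero : algebraMap K F (D.ϖ : K) ≠ 0 :=
  (map_ne_zero (algebraMap K F)).mpr D.ϖ_coe_ne_zero

/-- the reduction ring `O ⧸ ϖ O` -/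
abbrev RedRing : Type _ := D.O ⧸ Ideal.span {D.ϖO}

/-- the reduction map `O → O ⧸ ϖ O` -/
def red : D.O →+* D.RedRing := Ideal.Quotient.mk _

theorem red_eq_zero_iff (x : D.O) : D.red x = 0 ↔ ∃ z : D.O, x = D.ϖO * z := by
  rw [red, Ideal.Quotient.eq_zero_iff_mem, Ideal.mem_span_singleton']
  constructor
  · rintro ⟨z, hz⟩
    exact ⟨z, by rw [← hz, mul_comm]⟩
  · rintro ⟨z, hz⟩
    exact ⟨z, by rw [hz, mul_comm]⟩

section Residue

variable {k : Type*} [Field k] (π : A →+* k) (hπ : Function.Surjective π)

include hπ in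
theorem ker_π : RingHom.ker π = IsLocalRing.maximalIdeal A :=
  IsLocalRing.eq_maximalIdeal (RingHom.ker_isMaximal_of_surjective π hπ)

include hπ in
theorem π_ϖ : π D.ϖ = 0 := by
  have : D.ϖ ∈ RingHom.ker π := by
    rw [ker_π π hπ, D.maximalIdeal_eq]
    exact Ideal.subset_span rfl
  exact this

include hπ in
theorem ker_le : RingHom.ker π ≤ RingHom.ker (D.red.comp D.incl) := by
  intro a ha
  rw [ker_π π hπ, D.maximalIdeal_eq, Ideal.mem_span_singleton'] at ha
  obtain ⟨b, rfl⟩ := ha
  rw [RingHom.mem_ker, RingHom.comp_apply, map_mul, map_mul]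
  have : D.red (D.incl D.ϖ) = 0 := (D.red_eq_zero_iff _).mpr ⟨1, by rw [mul_one]; rfl⟩
  rw [this, mul_zero]

/-- the ring hom `k → O ⧸ ϖ O` induced by `π` -/
def resHom : k →+* D.RedRing :=
  RingHom.liftOfSurjective π hπ ⟨D.red.comp D.incl, D.ker_le π hπ⟩

theorem resHom_π (a : A) : D.resHom π hπ (π a) = D.red (D.incl a) := by
  rw [resHom]
  exact RingHom.liftOfRightInverse_comp_apply _ _ _ _ a

/-- the `k`-algebra structure on `O ⧸ ϖ O` induced by `π` -/
@[reducible] def algebraRed : Algebra k D.RedRing := (D.resHom π hπ).toAlgebra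

theorem algebraMap_red (c : k) :
    letI := D.algebraRed π hπ
    algebraMap k D.RedRing c = D.resHom π hπ c := rfl

end Residue

section Lattice

/-- the lattice `V ∩ O`, as an `A`-submodule of `F` -/
def lattice (V : Submodule K F) : Submodule A F where
  carrier := {x | x ∈ V ∧ x ∈ D.O}
  zero_mem' := ⟨V.zero_mem, D.O.zero_mem⟩
  add_mem' := fun hx hy => ⟨V.add_mem hx.1 hy.1, D.O.add_mem hx.2 hy.2⟩
  smul_mem' := fun a x hx => by
    have h1 : a • x = (a : K) • x := rfl
    refine ⟨?_, ?_⟩
    · rw [h1]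
      exact V.smul_mem _ hx.1
    · rw [h1, Algebra.smul_def]
      exact D.O.mul_mem (D.algebraMap_mem a) hx.2

theorem mem_lattice {V : Submodule K F} {x : F} : x ∈ D.lattice V ↔ x ∈ V ∧ x ∈ D.O := Iff.rfl

theorem lattice_finite [IsPrincipalIdealRing A] (V : Submodule K F) (hV : Module.Finite K V) :
    Module.Finite A (D.lattice V) := by
  obtain ⟨n, g, hg⟩ := D.fg V hV
  have hle : D.lattice V ≤ Submodule.span A (Set.range g) := by
    intro x hx
    obtain ⟨c, rfl⟩ := hg x hx.1 hx.2
    refine Submodule.sum_mem _ fun i _ => ?_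
    have : algebraMap K F (c i : K) * g i = (c i) • g i := by
      rw [Algebra.smul_def]
      rfl
    rw [this]
    exact Submodule.smul_mem _ _ (Submodule.subset_span ⟨i, rfl⟩)
  have hN : IsNoetherian A (Submodule.span A (Set.range g)) :=
    isNoetherian_span_of_finite A (Set.finite_range g)
  have := isNoetherian_of_le hle
  exact Module.IsNoetherian.finite A (D.lattice V)

end Lattice

section Ortho

variable {k : Type*} [Field k] (π : A →+* k) (hπ : Function.Surjective π)

/-- **orthonormal bases exist** over a discrete valuation ring -/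
theorem exists_orthonormal [IsPrincipalIdealRing A] (V : Submodule K F)
    (hV : Module.Finite K V) :
    letI := D.algebraRed π hπ
    ∃ (n : ℕ) (b : Fin n → D.O),
      Submodule.span K (Set.range fun i => ((b i : D.O) : F)) = V ∧
      LinearIndependent k (fun i => D.red (b i)) := by
  classical
  let _ := D.algebraRed π hπ
  have hfin := D.lattice_finite V hV
  have hfree : Module.Free A (D.lattice V) := Module.free_of_finite_type_torsion_free'
  let ι := Module.Free.ChooseBasisIndex A (D.lattice V)
  let β : Module.Basis ι A (D.lattice V) := Module.Free.chooseBasis A (D.lattice V)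
  let e : ι ≃ Fin (Fintype.card ι) := Fintype.equivFin ι
  let b : Fin (Fintype.card ι) → D.O := fun i => ⟨(β (e.symm i) : F), (β (e.symm i)).2.2⟩
  have hbV : ∀ i, ((b i : D.O) : F) ∈ V := fun i => (β (e.symm i)).2.1
  -- every element of the lattice is an `A`-combination of the `b i`
  have hrepr : ∀ x : D.lattice V, ((x : D.lattice V) : F) =
      ∑ i, algebraMap K F ((β.repr x (e.symm i) : A) : K) * ((b i : D.O) : F) := by
    intro x
    have h1 := β.sum_repr x
    have h2 := congrArg (fun y : D.lattice V => (y : F)) h1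
    simp only [Submodule.coe_sum, Submodule.coe_smul] at h2
    rw [← h2, ← e.symm.sum_comp]
    refine Finset.sum_congr rfl fun i _ => ?_
    rw [Algebra.smul_def]
    rfl
  refine ⟨Fintype.card ι, b, ?_, ?_⟩
  · apply le_antisymm
    · rw [Submodule.span_le]
      rintro _ ⟨i, rfl⟩
      exact hbV i
    · intro x hx
      obtain ⟨N, hN⟩ := D.absorb x
      have hmem : algebraMap K F ((D.ϖ : K) ^ N) * x ∈ D.lattice V := by
        refine ⟨?_, hN⟩
        rw [← Algebra.smul_def]
        exact V.smul_mem _ hx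
      have h := hrepr ⟨_, hmem⟩
      have hne : algebraMap K F ((D.ϖ : K) ^ N) ≠ 0 :=
        (map_ne_zero (algebraMap K F)).mpr (pow_ne_zero _ D.ϖ_coe_ne_zero)
      have hx' : x = ((D.ϖ : K) ^ N)⁻¹ • ∑ i,
          algebraMap K F ((β.repr ⟨_, hmem⟩ (e.symm i) : A) : K) * ((b i : D.O) : F) := by
        rw [← h, Algebra.smul_def, map_inv₀, inv_mul_cancel_left₀ hne]
      rw [hx']
      refine Submodule.smul_mem _ _ (Submodule.sum_mem _ fun i _ => ?_)
      rw [← Algebra.smul_def]
      exact Submodule.smul_mem _ _ (Submodule.subset_span ⟨i, rfl⟩)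
  · rw [Fintype.linearIndependent_iff]
    intro c hc i
    choose a ha using fun j => hπ (c j)
    -- the combination `y = Σ a_j b_j` reduces to zero
    let y : D.O := ∑ j, D.incl (a j) * b j
    have hy : D.red y = 0 := by
      rw [← hc, map_sum]
      refine Finset.sum_congr rfl fun j _ => ?_
      rw [map_mul, Algebra.smul_def, ← ha j]
      congr 1
      exact (D.resHom_π π hπ (a j)).symm
    obtain ⟨z, hz⟩ := (D.red_eq_zero_iff y).mp hy
    have hyF : ((y : D.O) : F) = ∑ j, algebraMap K F (a j : K) * ((b j : D.O) : F) := by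
      show ((∑ j, D.incl (a j) * b j : D.O) : F) = _
      rw [AddSubmonoidClass.coe_finsetSum]
      exact Finset.sum_congr rfl fun j _ => rfl
    have hyV : ((y : D.O) : F) ∈ V := by
      rw [hyF]
      refine V.sum_mem fun j _ => ?_
      rw [← Algebra.smul_def]
      exact V.smul_mem _ (hbV j)
    have hzF : ((z : D.O) : F) = (algebraMap K F (D.ϖ : K))⁻¹ * ((y : D.O) : F) := by
      have := congrArg (fun t : D.O => (t : F)) hz
      simp only [Subring.coe_mul, D.coe_ϖO] at this
      rw [this, inv_mul_cancel_left₀ D.ϖF_ne_zero]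
    have hzV : ((z : D.O) : F) ∈ V := by
      rw [hzF, ← map_inv₀, ← Algebra.smul_def]
      exact V.smul_mem _ hyV
    -- `z` is in the lattice: expand it in the basis
    let zΛ : D.lattice V := ⟨(z : F), hzV, z.2⟩
    -- the element `Σ a_j β_j` of the lattice equals `ϖ • z`
    have hkey : ∑ j, (a j) • β (e.symm j) = D.ϖ • zΛ := by
      apply Subtype.ext
      have h1 : ((∑ j, (a j) • β (e.symm j) : D.lattice V) : F) =
          ∑ j, algebraMap K F (a j : K) * ((b j : D.O) : F) := by
        simp only [Submodule.coe_sum, Submodule.coe_smul]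
        refine Finset.sum_congr rfl fun j _ => ?_
        rw [Algebra.smul_def]
        rfl
      have h2 : ((D.ϖ • zΛ : D.lattice V) : F) = algebraMap K F (D.ϖ : K) * (z : F) := by
        rw [Submodule.coe_smul, Algebra.smul_def]
        rfl
      rw [h1, h2, ← hyF]
      have := congrArg (fun t : D.O => (t : F)) hz
      simpa only [Subring.coe_mul, D.coe_ϖO] using this
    have hcoef : a i = D.ϖ * β.repr zΛ (e.symm (i)) := by
      have h3 := congrArg (fun t => β.repr t (e.symm i)) hkey
      simp only [map_sum, map_smul, Finsupp.coe_finsetSum, Finsupp.coe_smul, Finset.sum_apply,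
        Pi.smul_apply, Module.Basis.repr_self, smul_eq_mul] at h3
      rw [Finset.sum_eq_single i] at h3
      · simpa using h3
      · intro j _ hji
        rw [Finsupp.single_eq_of_ne (fun h => hji (e.symm.injective h).symm), mul_zero]
      · intro h
        exact absurd (Finset.mem_univ i) h
    rw [← ha i, hcoef, map_mul, D.π_ϖ π hπ, zero_mul]

/-- **the semistable constant reduction attached to a unit ball over a discrete valuation
ring**: `red : O → O ⧸ ϖ O`. -/
def toSSRed [IsPrincipalIdealRing A] :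
    letI := D.algebraRed π hπ
    SSRed A π D.RedRing F :=
  letI := D.algebraRed π hπ
  { O := D.O
    red := D.red
    π_surjective := hπ
    algebraMap_mem := D.algebraMap_mem
    red_algebraMap := fun a => (D.resHom_π π hπ a).symm
    exists_orthonormal := fun V hV => D.exists_orthonormal π hπ V hV }

theorem toSSRed_O [IsPrincipalIdealRing A] :
    letI := D.algebraRed π hπ
    (D.toSSRed π hπ).O = D.O := rfl

theorem toSSRed_red [IsPrincipalIdealRing A] (x : D.O) :
    letI := D.algebraRed π hπ
    (D.toSSRed π hπ).red x = D.red x := rfl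

/-- membership in the kernel of the reduction, in terms of `F` -/
theorem red_eq_zero_iff_coe (x : D.O) :
    D.red x = 0 ↔ (algebraMap K F (D.ϖ : K))⁻¹ * (x : F) ∈ D.O := by
  rw [D.red_eq_zero_iff]
  constructor
  · rintro ⟨z, rfl⟩
    rw [Subring.coe_mul, D.coe_ϖO, inv_mul_cancel_left₀ D.ϖF_ne_zero]
    exact z.2
  · intro h
    refine ⟨⟨_, h⟩, Subtype.ext ?_⟩
    rw [Subring.coe_mul, D.coe_ϖO, mul_inv_cancel_left₀ D.ϖF_ne_zero]

/-- `red x = red y` iff `(x - y)/ϖ ∈ O` -/
theorem red_eq_iff_coe (x y : D.O) :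
    D.red x = D.red y ↔ (algebraMap K F (D.ϖ : K))⁻¹ * ((x : F) - (y : F)) ∈ D.O := by
  rw [← sub_eq_zero, ← map_sub, D.red_eq_zero_iff_coe]
  rfl

end Ortho

end DvrBall

end Fermat.Agent.S36lib

end
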