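/-
Item 83 (S36), piece C-1a (helper16).  No sorry in this file.

Abstract constructors for helper12's `DvrBall` (`S36lib/SSRedDvr.lean`):

* `dbe_exists_finset`: a family of linear functionals separating the points of a
  finite-dimensional space `V` has a FINITE subfamily separating the points of `V`.
* `dbe_fg`: the field `fg` of `DvrBall` from ONE family of `K`-linear "coefficient" functionals
  `ℓ j : F → K` which is jointly injective and takes values in `A` on `O` (e.g. the coefficients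
  of the `q`-expansion at `∞` of the `K₀`-rational functions of the ball).
* `dbe_absorb`: the field `absorb` for `O = O₁ ⊓ … ⊓ Oₙ` (valuation subrings) from the value
  group facts: for every `z ≠ 0` some power `z^e`, `e > 0`, times a power of `ϖ` lies in `O_i`.
* `DvrBall.ofExp`: the resulting `DvrBall`.
-/
import Mathlib
import Fermat.Agent.S36lib.SSRedDvr

set_option autoImplicit false

noncomputable section

namespace Fermat.Agent.S36lib

variable {K F : Type*} [Field K] [Field F] [Algebra K F]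

/-- a separating family of functionals on a finite-dimensional space has a finite separating
subfamily -/
theorem dbe_exists_finset {J : Type*} (ℓ : J → F →ₗ[K] K)
    (hinj : ∀ x : F, (∀ j, ℓ j x = 0) → x = 0) (V : Submodule K F) [Module.Finite K V] :
    ∃ J₀ : Finset J, ∀ x ∈ V, (∀ j ∈ J₀, ℓ j x = 0) → x = 0 := by
  classical
  suffices h : ∀ (d : ℕ) (W : Submodule K F), W ≤ V → Module.finrank K W ≤ d →
      ∃ J₀ : Finset J, ∀ x ∈ W, (∀ j ∈ J₀, ℓ j x = 0) → x = 0 from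
    h _ V le_rfl le_rfl
  intro d
  induction d with
  | zero =>
    intro W hWV hd
    have : Module.Finite K W := Submodule.finiteDimensional_of_le hWV
    have hW : W = ⊥ := Submodule.finrank_eq_zero.mp (Nat.le_zero.mp hd)
    refine ⟨∅, fun x hx _ => ?_⟩
    rw [hW] at hx
    exact (Submodule.mem_bot K).mp hx
  | succ d ih =>
    intro W hWV hd
    have hfin : Module.Finite K W := Submodule.finiteDimensional_of_le hWV
    by_cases hW : W = ⊥
    · refine ⟨∅, fun x hx _ => ?_⟩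
      rw [hW] at hx
      exact (Submodule.mem_bot K).mp hx
    · obtain ⟨x₀, hx₀W, hx₀⟩ := Submodule.exists_mem_ne_zero_of_ne_bot hW
      obtain ⟨j₀, hj₀⟩ : ∃ j, ℓ j x₀ ≠ 0 := by
        by_contra hcon
        exact hx₀ (hinj x₀ fun j => by
          by_contra h
          exact hcon ⟨j, h⟩)
      have hlt : W ⊓ LinearMap.ker (ℓ j₀) < W := by
        refine lt_of_le_of_ne inf_le_left fun heq => ?_
        have : x₀ ∈ W ⊓ LinearMap.ker (ℓ j₀) := by rw [heq]; exact hx₀W
        exact hj₀ (LinearMap.mem_ker.mp this.2)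
      have hrank : Module.finrank K ↥(W ⊓ LinearMap.ker (ℓ j₀)) ≤ d := by
        have := Submodule.finrank_lt_finrank_of_lt hlt
        omega
      obtain ⟨J₀, hJ₀⟩ := ih _ (le_trans inf_le_left hWV) hrank
      refine ⟨insert j₀ J₀, fun x hx hx0 => ?_⟩
      refine hJ₀ x ⟨hx, LinearMap.mem_ker.mpr (hx0 j₀ (Finset.mem_insert_self _ _))⟩ ?_
      intro j hj
      exact hx0 j (Finset.mem_insert_of_mem hj)

/-- **`fg` from coefficients**: if a jointly injective family of `K`-linear functionals takes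
values in `A` on `O`, then `V ∩ O` lies in a finitely generated `A`-module for every
finite-dimensional `V`. -/
theorem dbe_fg (A : ValuationSubring K) (O : Subring F) {J : Type*} (ℓ : J → F →ₗ[K] K)
    (hinj : ∀ x : F, (∀ j, ℓ j x = 0) → x = 0)
    (hint : ∀ x ∈ O, ∀ j, ℓ j x ∈ A)
    (V : Submodule K F) (hV : Module.Finite K V) :
    ∃ (n : ℕ) (g : Fin n → F),
      ∀ x ∈ V, x ∈ O → ∃ c : Fin n → A, x = ∑ i, algebraMap K F (c i : K) * g i := by
  classical
  obtain ⟨J₀, hJ₀⟩ := dbe_exists_finset ℓ hinj V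
  -- the evaluation `V → K^{J₀}`
  let Φ : V →ₗ[K] (J₀ → K) := LinearMap.pi fun j => (ℓ j.1).comp V.subtype
  have hΦ : Function.Injective Φ := by
    rw [← LinearMap.ker_eq_bot, LinearMap.ker_eq_bot']
    intro x hx
    have h0 : (x : F) = 0 := by
      refine hJ₀ x x.2 fun j hj => ?_
      have := congrFun hx ⟨j, hj⟩
      exact this
    exact Subtype.ext h0
  obtain ⟨Ψ, hΨ⟩ := LinearMap.exists_leftInverse_of_injective Φ (LinearMap.ker_eq_bot.mpr hΦ)
  let e : J₀ ≃ Fin (Fintype.card J₀) := Fintype.equivFin J₀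
  refine ⟨Fintype.card J₀, fun i => ((Ψ (Pi.single (e.symm i) 1) : V) : F), ?_⟩
  intro x hxV hxO
  refine ⟨fun i => ⟨ℓ (e.symm i).1 x, hint x hxO _⟩, ?_⟩
  have h1 : Ψ (Φ ⟨x, hxV⟩) = ⟨x, hxV⟩ := by
    have := congrArg (fun f => f ⟨x, hxV⟩) hΨ
    simpa using this
  have h2 : Φ ⟨x, hxV⟩ = ∑ j : J₀, (ℓ j.1 x) • (Pi.single j (1 : K) : J₀ → K) := by
    funext j
    rw [Finset.sum_apply]
    simp only [Pi.smul_apply, Pi.single_apply, smul_eq_mul, mul_ite, mul_one, mul_zero,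
      Finset.sum_ite_eq, Finset.mem_univ, if_true]
    rfl
  have h3 : (x : F) = ∑ j : J₀, algebraMap K F (ℓ j.1 x) * ((Ψ (Pi.single j 1) : V) : F) := by
    have e1 : ((Ψ (Φ ⟨x, hxV⟩) : V) : F) = x := congrArg Subtype.val h1
    have e2 : ((Ψ (Φ ⟨x, hxV⟩) : V) : F) =
        ∑ j : J₀, algebraMap K F (ℓ j.1 x) * ((Ψ (Pi.single j 1) : V) : F) := by
      rw [h2, map_sum, Submodule.coe_sum]
      refine Finset.sum_congr rfl fun j _ => ?_
      rw [map_smul, Submodule.coe_smul, Algebra.smul_def]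
    exact e1.symm.trans e2
  refine h3.trans ?_
  exact (Equiv.sum_comp e.symm
    (fun j : J₀ => algebraMap K F (ℓ j.1 x) * ((Ψ (Pi.single j 1) : V) : F))).symm

/-- **`absorb` from the value groups**: `O` an intersection of finitely many valuation subrings
containing `ϖ`, such that for every `z ≠ 0` some `z^e · ϖ^j` (`e > 0`) lies in each of them. -/
theorem dbe_absorb {ι : Type*} [Finite ι] (Ov : ι → ValuationSubring F) (ϖ : K)
    (hϖ : ∀ i, algebraMap K F ϖ ∈ Ov i)
    (hval : ∀ (i : ι) (z : F), z ≠ 0 →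
      ∃ (e j : ℕ), 0 < e ∧ z ^ e * algebraMap K F ϖ ^ j ∈ Ov i) (f : F) :
    ∃ n : ℕ, ∀ i, algebraMap K F (ϖ ^ n) * f ∈ Ov i := by
  classical
  by_cases hf : f = 0
  · exact ⟨0, fun i => by rw [hf, mul_zero]; exact (Ov i).zero_mem⟩
  have key : ∀ i, ∃ n : ℕ, ∀ n', n ≤ n' → algebraMap K F (ϖ ^ n') * f ∈ Ov i := by
    intro i
    obtain ⟨e, j, he, hmem⟩ := hval i f hf
    refine ⟨j, fun n' hn' => ?_⟩
    -- `(ϖ^n' f)^e = (f^e ϖ^j) · ϖ^(n' e - j)` lies in the valuation ring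
    have hje : j ≤ n' * e := le_trans hn' (Nat.le_mul_of_pos_right n' he)
    have hpow : (algebraMap K F (ϖ ^ n') * f) ^ e ∈ Ov i := by
      have e1 : (algebraMap K F (ϖ ^ n') * f) ^ e =
          f ^ e * algebraMap K F ϖ ^ j * algebraMap K F ϖ ^ (n' * e - j) := by
        rw [mul_pow, map_pow, ← pow_mul, mul_assoc (f ^ e), ← pow_add,
          Nat.add_sub_cancel' hje, mul_comm]
      rw [e1]
      exact (Ov i).mul_mem _ _ hmem (pow_mem (hϖ i) _)
    -- valuation rings are closed under roots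
    rcases (Ov i).mem_or_inv_mem (algebraMap K F (ϖ ^ n') * f) with h | h
    · exact h
    · by_cases hx0 : algebraMap K F (ϖ ^ n') * f = 0
      · rw [hx0]; exact (Ov i).zero_mem
      have hinvpow : ((algebraMap K F (ϖ ^ n') * f)⁻¹) ^ (e - 1) ∈ Ov i := pow_mem h _
      have e2 : algebraMap K F (ϖ ^ n') * f =
          (algebraMap K F (ϖ ^ n') * f) ^ e * ((algebraMap K F (ϖ ^ n') * f)⁻¹) ^ (e - 1) := by
        obtain ⟨e', rfl⟩ : ∃ e', e = e' + 1 := ⟨e - 1, by omega⟩
        rw [Nat.add_sub_cancel, pow_succ, inv_pow, mul_assoc, mul_comm (_ * f) ((_ ^ e')⁻¹),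
          ← mul_assoc, mul_inv_cancel₀ (pow_ne_zero _ hx0), one_mul]
      rw [e2]
      exact (Ov i).mul_mem _ _ hpow hinvpow
  choose N hN using key
  obtain ⟨M, hM⟩ : ∃ M : ℕ, ∀ i, N i ≤ M := by
    have : Fintype ι := Fintype.ofFinite ι
    exact ⟨Finset.univ.sup N, fun i => Finset.le_sup (Finset.mem_univ i)⟩
  exact ⟨M, fun i => hN i M (hM i)⟩

/-- **the unit ball of finitely many valuations over a DVR** as a `DvrBall`. -/
def DvrBall.ofExp (A : ValuationSubring K) (ϖ : A) (hϖ0 : ϖ ≠ 0)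
    (hmax : IsLocalRing.maximalIdeal A = Ideal.span {ϖ})
    {ι : Type*} [Finite ι] (Ov : ι → ValuationSubring F)
    (hA : ∀ (i : ι) (a : A), algebraMap K F (a : K) ∈ Ov i)
    (hval : ∀ (i : ι) (z : F), z ≠ 0 →
      ∃ (e j : ℕ), 0 < e ∧ z ^ e * algebraMap K F (ϖ : K) ^ j ∈ Ov i)
    {J : Type*} (ℓ : J → F →ₗ[K] K) (hinj : ∀ x : F, (∀ j, ℓ j x = 0) → x = 0)
    (hint : ∀ x : F, (∀ i, x ∈ Ov i) → ∀ j, ℓ j x ∈ A) : DvrBall A F where
  O := ⨅ i, (Ov i).toSubring
  ϖ := ϖ
  ϖ_ne_zero := hϖ0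
  maximalIdeal_eq := hmax
  algebraMap_mem := fun a => by
    rw [Subring.mem_iInf]
    exact fun i => hA i a
  absorb := fun f => by
    obtain ⟨n, hn⟩ := dbe_absorb Ov (ϖ : K) (fun i => hA i ϖ) hval f
    refine ⟨n, ?_⟩
    rw [Subring.mem_iInf]
    exact hn
  fg := fun V hV => dbe_fg A _ ℓ hinj (fun x hx j => hint x (fun i => by
    rw [Subring.mem_iInf] at hx
    exact hx i) j) V hV

theorem DvrBall.ofExp_O (A : ValuationSubring K) (ϖ : A) (hϖ0 : ϖ ≠ 0)
    (hmax : IsLocalRing.maximalIdeal A = Ideal.span {ϖ})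
    {ι : Type*} [Finite ι] (Ov : ι → ValuationSubring F)
    (hA : ∀ (i : ι) (a : A), algebraMap K F (a : K) ∈ Ov i)
    (hval : ∀ (i : ι) (z : F), z ≠ 0 →
      ∃ (e j : ℕ), 0 < e ∧ z ^ e * algebraMap K F (ϖ : K) ^ j ∈ Ov i)
    {J : Type*} (ℓ : J → F →ₗ[K] K) (hinj : ∀ x : F, (∀ j, ℓ j x = 0) → x = 0)
    (hint : ∀ x : F, (∀ i, x ∈ Ov i) → ∀ j, ℓ j x ∈ A) (x : F) :
    x ∈ (DvrBall.ofExp A ϖ hϖ0 hmax Ov hA hval ℓ hinj hint).O ↔ ∀ i, x ∈ Ov i := by
  show x ∈ ⨅ i, (Ov i).toSubring ↔ _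
  rw [Subring.mem_iInf]
  rfl

end Fermat.Agent.S36lib

end
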