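/-
Item 83 (S36), block CRUX, piece D (helper14): the `DvrBall` over `A0` of a `NodeSetup`.

* `bfg_hval`, `bfg_absorb` : the field `absorb` for the ball `S.ball = O_∞ ∩ O_mid ∩ O_0` from the
  discreteness of the three valuations on `F0(L)`;
* `bfgBall` : the `DvrBall (k0Val A) (f0Field A L)` with `O = S.ball` (`bfgBall_O : rfl`),
  `ϖ = q`, for ANY `NodeSetup` over `A0` whose `v_∞` lies under a constant reduction `R` of `FF L`
  (`fg` from `bfg_fg_of_le`, `BallFg.lean`);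
* `bfg_disc_of_FF` : the discreteness hypothesis from its `FF L`-level unit form (`VDisc.lean`);
* `bfgBallSeries` : the instance for `nodeSetupSeriesD` (`SetupD1.lean`);
* `bfgSSRed` : the semistable reduction datum `(bfgBall …).toSSRed` with `O = S.ball`.
-/
import Mathlib
import Fermat.Agent.S36lib.BallFg
import Fermat.Agent.S36lib.SSRedDvr
import Fermat.Agent.S36lib.DvrBallExp
import Fermat.Agent.S36lib.Apply2Invert
import Fermat.Agent.S36lib.SetupD1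

set_option autoImplicit false
set_option linter.style.haveILetI false
set_option linter.unusedSectionVars false
set_option synthInstance.maxHeartbeats 400000

open ModularCurve AlgebraicCurve
open Fermat.Agent.S24lib Fermat.Agent.S34lib Fermat.Agent.GoodRed

noncomputable section

namespace Fermat.Agent.S36lib

section Abstract

variable (A : ValuationSubring Kbar) {L : ℕ} [NeZero L] (q : ℕ)
variable {κ : Type*} [Field κ] [Algebra (IsLocalRing.ResidueField A) κ]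

/-- the hypothesis `hval` of `dbe_absorb` from the discreteness on `F0(L)` -/
theorem bfg_hval (O : ValuationSubring (f0Field A L)) (hqO : a2iQ A q (L := L) ∈ O)
    (hq : q.Prime)
    (hd : ∀ z : f0Field A L, z ≠ 0 →
      ∃ (e : ℕ) (n : ℤ), 0 < e ∧ a2iQ A q (L := L) ^ n * z ^ e ∈ O)
    (z : f0Field A L) (hz : z ≠ 0) :
    ∃ e j : ℕ, 0 < e ∧ z ^ e * a2iQ A q (L := L) ^ j ∈ O := by
  have hQ0 : (a2iQ A q (L := L) : f0Field A L) ≠ 0 := a2i_Q_ne_zero A q hq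
  obtain ⟨e, n, he, hmem⟩ := hd z hz
  rcases le_or_gt 0 n with hn | hn
  · obtain ⟨j, rfl⟩ := Int.eq_ofNat_of_zero_le hn
    refine ⟨e, j, he, ?_⟩
    rw [zpow_natCast] at hmem
    rw [mul_comm]
    exact hmem
  · refine ⟨e, 0, he, ?_⟩
    obtain ⟨j, hj⟩ : ∃ j : ℕ, n = -(j : ℤ) := ⟨(-n).toNat, by omega⟩
    have h1 : z ^ e * a2iQ A q (L := L) ^ 0
        = a2iQ A q (L := L) ^ j * (a2iQ A q (L := L) ^ n * z ^ e) := by
      rw [pow_zero, mul_one, ← mul_assoc, hj, zpow_neg, zpow_natCast,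
        mul_inv_cancel₀ (pow_ne_zero j hQ0), one_mul]
    rw [h1]
    exact O.mul_mem _ _ (pow_mem hqO j) hmem

variable (S : NodeSetup (k0Val A) (k0Res A) κ (f0Field A L))

theorem bfg_mem_ball_iff (x : f0Field A L) :
    x ∈ S.ball ↔ x ∈ S.vInf.O ∧ x ∈ S.vMid.O ∧ x ∈ S.vZero.O := by
  unfold NodeSetup.ball
  rw [Subring.mem_inf, Subring.mem_inf]
  constructor
  · rintro ⟨⟨h1, h2⟩, h3⟩
    exact ⟨h1, h2, h3⟩
  · rintro ⟨h1, h2, h3⟩
    exact ⟨⟨h1, h2⟩, h3⟩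

/-- **`absorb`** for the ball of a `NodeSetup` over `A0` -/
theorem bfg_absorb (hq : q.Prime)
    (hdInf : ∀ z : f0Field A L, z ≠ 0 →
      ∃ (e : ℕ) (n : ℤ), 0 < e ∧ a2iQ A q (L := L) ^ n * z ^ e ∈ S.vInf.O)
    (hdMid : ∀ z : f0Field A L, z ≠ 0 →
      ∃ (e : ℕ) (n : ℤ), 0 < e ∧ a2iQ A q (L := L) ^ n * z ^ e ∈ S.vMid.O)
    (hdZero : ∀ z : f0Field A L, z ≠ 0 →
      ∃ (e : ℕ) (n : ℤ), 0 < e ∧ a2iQ A q (L := L) ^ n * z ^ e ∈ S.vZero.O)
    (f : f0Field A L) :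
    ∃ n : ℕ, algebraMap (k0Field A) (f0Field A L) ((((q : k0Val A) : k0Val A) : k0Field A) ^ n)
      * f ∈ S.ball := by
  classical
  let Ov : Fin 3 → ValuationSubring (f0Field A L) := ![S.vInf.O, S.vMid.O, S.vZero.O]
  have hqO : ∀ i, algebraMap (k0Field A) (f0Field A L) (((q : k0Val A) : k0Val A) : k0Field A)
      ∈ Ov i := by
    intro i
    fin_cases i
    · exact S.vInf.algebraMap_mem (q : k0Val A)
    · exact S.vMid.algebraMap_mem (q : k0Val A)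
    · exact S.vZero.algebraMap_mem (q : k0Val A)
  have hval : ∀ (i : Fin 3) (z : f0Field A L), z ≠ 0 → ∃ e j : ℕ, 0 < e ∧
      z ^ e * algebraMap (k0Field A) (f0Field A L)
        (((q : k0Val A) : k0Val A) : k0Field A) ^ j ∈ Ov i := by
    intro i
    fin_cases i
    · exact bfg_hval A q S.vInf.O (hqO 0) hq hdInf
    · exact bfg_hval A q S.vMid.O (hqO 1) hq hdMid
    · exact bfg_hval A q S.vZero.O (hqO 2) hq hdZero
  obtain ⟨n, hn⟩ := dbe_absorb Ov (((q : k0Val A) : k0Val A) : k0Field A) hqO hval f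
  exact ⟨n, (bfg_mem_ball_iff A S _).mpr ⟨hn 0, hn 1, hn 2⟩⟩

/-- **the `DvrBall` over `A0` of a `NodeSetup`**: `O = S.ball`, `ϖ = q`. -/
def bfgBall (hq : q.Prime) (hA : A.LiesOverPrime q)
    {Fk : Type*} [Field Fk] [Algebra (IsLocalRing.ResidueField A) Fk]
    (R : ConstRed A (IsLocalRing.residue A) Fk (FF L))
    (hInf : ∀ x : f0Field A L, x ∈ S.vInf.O → ((x : f0Field A L) : FF L) ∈ R.O)
    (hdInf : ∀ z : f0Field A L, z ≠ 0 →
      ∃ (e : ℕ) (n : ℤ), 0 < e ∧ a2iQ A q (L := L) ^ n * z ^ e ∈ S.vInf.O)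
    (hdMid : ∀ z : f0Field A L, z ≠ 0 →
      ∃ (e : ℕ) (n : ℤ), 0 < e ∧ a2iQ A q (L := L) ^ n * z ^ e ∈ S.vMid.O)
    (hdZero : ∀ z : f0Field A L, z ≠ 0 →
      ∃ (e : ℕ) (n : ℤ), 0 < e ∧ a2iQ A q (L := L) ^ n * z ^ e ∈ S.vZero.O) :
    DvrBall (k0Val A) (f0Field A L) where
  O := S.ball
  ϖ := (q : k0Val A)
  ϖ_ne_zero := a2i_q_ne_zero A q hq
  maximalIdeal_eq := k0Val_maximalIdeal_eq A q hq hA
  algebraMap_mem := fun a => S.B_le_ball (S.algebraMap_mem_B a)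
  absorb := bfg_absorb A q S hq hdInf hdMid hdZero
  fg := fun V hV => bfg_fg_of_le A L hq hA R S.ball
    (fun x hx => hInf x ((bfg_mem_ball_iff A S x).mp hx).1) V hV

section Unfold

variable (hq : q.Prime) (hA : A.LiesOverPrime q)
    {Fk : Type*} [Field Fk] [Algebra (IsLocalRing.ResidueField A) Fk]
    (R : ConstRed A (IsLocalRing.residue A) Fk (FF L))
    (hInf : ∀ x : f0Field A L, x ∈ S.vInf.O → ((x : f0Field A L) : FF L) ∈ R.O)
    (hdInf : ∀ z : f0Field A L, z ≠ 0 →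
      ∃ (e : ℕ) (n : ℤ), 0 < e ∧ a2iQ A q (L := L) ^ n * z ^ e ∈ S.vInf.O)
    (hdMid : ∀ z : f0Field A L, z ≠ 0 →
      ∃ (e : ℕ) (n : ℤ), 0 < e ∧ a2iQ A q (L := L) ^ n * z ^ e ∈ S.vMid.O)
    (hdZero : ∀ z : f0Field A L, z ≠ 0 →
      ∃ (e : ℕ) (n : ℤ), 0 < e ∧ a2iQ A q (L := L) ^ n * z ^ e ∈ S.vZero.O)

theorem bfgBall_O : (bfgBall A q S hq hA R hInf hdInf hdMid hdZero).O = S.ball := rfl

theorem bfgBall_ϖ : (bfgBall A q S hq hA R hInf hdInf hdMid hdZero).ϖ = (q : k0Val A) := rfl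

theorem bfgBall_coe_ϖO :
    (((bfgBall A q S hq hA R hInf hdInf hdMid hdZero).ϖO :
      (bfgBall A q S hq hA R hInf hdInf hdMid hdZero).O) : f0Field A L) = a2iQ A q (L := L) :=
  rfl

end Unfold

/-- the discreteness hypothesis of `bfgBall` from its unit form at the level of `FF L` -/
theorem bfg_disc_of_FF (O₀ : ValuationSubring (f0Field A L))
    (O : ValuationSubring (FF L)) (hO : ∀ x : f0Field A L, x ∈ O₀ ↔ ((x : f0Field A L) : FF L) ∈ O)
    (e : ℕ) (he : 0 < e)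
    (hd : ∀ f ∈ f0Field A L, f ≠ 0 →
      ∃ n : ℤ, algebraMap Kbar (FF L) ((q : Kbar) ^ n) * f ^ e ∈ O) :
    ∀ z : f0Field A L, z ≠ 0 →
      ∃ (e : ℕ) (n : ℤ), 0 < e ∧ a2iQ A q (L := L) ^ n * z ^ e ∈ O₀ := by
  intro z hz
  have hz' : ((z : f0Field A L) : FF L) ≠ 0 := fun h => hz (Subtype.ext h)
  obtain ⟨n, hn⟩ := hd (z : FF L) z.2 hz'
  refine ⟨e, n, he, ?_⟩
  rw [hO]
  have e1 : ((a2iQ A q (L := L) ^ n * z ^ e : f0Field A L) : FF L)
      = algebraMap Kbar (FF L) ((q : Kbar) ^ n) * ((z : f0Field A L) : FF L) ^ e := by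
    rw [MulMemClass.coe_mul, a2i_coe_zpow, a2i_coe_Q, map_zpow₀]
    rfl
  rw [e1]
  exact hn

end Abstract

end Fermat.Agent.S36lib

end
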