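/-
Item 83 (S36), block CRUX, piece D (helper14): THE `DvrBall` of the final setup `s36Final`.

* `s36FinalBall A M' q hq hqM hA hζq hζ hE R hR : DvrBall (k0Val A) (f0Field A (M' * q * q))`
  with `O = (s36Final …).ball` (`s36FinalBall_O : rfl`), `ϖ = q` (`s36FinalBall_ϖ : rfl`);
* `s36Final_discInf/Mid/Zero` : the discreteness of the three valuations of `s36Final` on
  `F0(M' q²)` in the shape of `bfgBall`.
-/
import Mathlib
import Fermat.Agent.S36lib.BallInst
import Fermat.Agent.S36lib.Apply2Final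
import Fermat.Agent.S36lib.VArch

set_option autoImplicit false
set_option linter.style.haveILetI false
set_option linter.unusedSectionVars false
set_option linter.unusedVariables false
set_option synthInstance.maxHeartbeats 400000

noncomputable section

namespace Fermat.Agent.S36lib

open ModularCurve HahnSeries AlgebraicCurve
open Fermat.Agent.GoodRed Fermat.Agent.S24lib Fermat.Agent.S34lib Fermat.Agent.S37lib
  Fermat.Agent.HeckeBar Fermat.Agent.S35lib Fermat.Agent.GM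

variable (A : ValuationSubring Kbar) (M' q : ℕ) [NeZero M'] [NeZero q]
variable (hq : q.Prime) (hqM : ¬ q ∣ M') (hA : A.LiesOverPrime q)
variable {ζ : Kbarˣ} {E : FF (M' * q * q) →+* LaurentSeries Kbar}
variable (hζq : ζ ^ q = 1) (hζ : IsPrimitiveRoot (ζ : Kbar) q) (hE : IsMidExp M' q ζ E)
variable (R : ConstRed A (IsLocalRing.residue A)
      (↥(modularFunctionFieldFullC (IsLocalRing.ResidueField A) M')) (FF (M' * q * q)))
    (hR : IsSeriesRed R)

local notation "SF" => s36Final A M' q hq hqM hA hζq hζ hE R hR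

theorem s36Final_discInf : ∀ z : f0Field A (M' * q * q), z ≠ 0 →
    ∃ (e : ℕ) (n : ℤ), 0 < e ∧ a2iQ A q (L := M' * q * q) ^ n * z ^ e ∈ (SF).vInf.O := by
  haveI : NeZero (M' * q * q) :=
    ⟨Nat.mul_ne_zero (Nat.mul_ne_zero (NeZero.ne M') (NeZero.ne q)) (NeZero.ne q)⟩
  refine bfg_disc_of_FF A q (SF).vInf.O R.O (fun _ => Iff.rfl) 1 Nat.one_pos ?_
  intro f hf hf0
  obtain ⟨n, h1, -⟩ := vdisc_inf hq hA hR hf hf0
  exact ⟨n, by rw [pow_one]; exact h1⟩

theorem s36Final_discMid : ∀ z : f0Field A (M' * q * q), z ≠ 0 →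
    ∃ (e : ℕ) (n : ℤ), 0 < e ∧ a2iQ A q (L := M' * q * q) ^ n * z ^ e ∈ (SF).vMid.O := by
  haveI : NeZero (M' * q * q) :=
    ⟨Nat.mul_ne_zero (Nat.mul_ne_zero (NeZero.ne M') (NeZero.ne q)) (NeZero.ne q)⟩
  refine bfg_disc_of_FF A q (SF).vMid.O (vmidO A hq ((A.mem_nonunits_iff).mp hA) hζq hE)
    (fun _ => Iff.rfl) (q - 1) (Nat.sub_pos_of_lt hq.one_lt) ?_
  intro f hf hf0
  obtain ⟨n, h1, -⟩ := vdisc_vmid_pow A hq hA hζ hE hf hf0
  exact ⟨n, h1⟩

theorem s36Final_discZero : ∀ z : f0Field A (M' * q * q), z ≠ 0 →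
    ∃ (e : ℕ) (n : ℤ), 0 < e ∧ a2iQ A q (L := M' * q * q) ^ n * z ^ e ∈ (SF).vZero.O := by
  haveI : NeZero (M' * q * q) :=
    ⟨Nat.mul_ne_zero (Nat.mul_ne_zero (NeZero.ne M') (NeZero.ne q)) (NeZero.ne q)⟩
  refine bfg_disc_of_FF A q (SF).vZero.O
    ((SeriesVal.ofConstRed R).comap (alW2 M' hq hqM)).O (fun _ => Iff.rfl) 1 Nat.one_pos ?_
  intro f hf hf0
  obtain ⟨n, h1, -⟩ := vdisc_comap (A := A) (alW2 M' hq hqM)
    (fun _ hx => alW2_mem_f0Field A M' hq hqM hx)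
    (fun g hg hg0 => vdisc_inf hq hA hR hg hg0) hf hf0
  refine ⟨n, ?_⟩
  rw [pow_one, SeriesVal.mem_comap_iff]
  exact h1

/-- **THE `DvrBall`** of the final setup: `O = (s36Final …).ball`, `ϖ = q`. -/
def s36FinalBall : DvrBall (k0Val A) (f0Field A (M' * q * q)) :=
  haveI : NeZero (M' * q * q) :=
    ⟨Nat.mul_ne_zero (Nat.mul_ne_zero (NeZero.ne M') (NeZero.ne q)) (NeZero.ne q)⟩
  bfgBall A q (SF) hq hA R (fun _ hx => hx)
    (s36Final_discInf A M' q hq hqM hA hζq hζ hE R hR)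
    (s36Final_discMid A M' q hq hqM hA hζq hζ hE R hR)
    (s36Final_discZero A M' q hq hqM hA hζq hζ hE R hR)

theorem s36FinalBall_O :
    (s36FinalBall A M' q hq hqM hA hζq hζ hE R hR).O = (SF).ball := rfl

theorem s36FinalBall_ϖ :
    (s36FinalBall A M' q hq hqM hA hζq hζ hE R hR).ϖ = (q : k0Val A) := rfl

theorem mem_s36FinalBall_O (x : f0Field A (M' * q * q)) :
    x ∈ (s36FinalBall A M' q hq hqM hA hζq hζ hE R hR).O ↔
      (x : FF (M' * q * q)) ∈ R.O ∧
        (x : FF (M' * q * q)) ∈ vmidO A hq ((A.mem_nonunits_iff).mp hA) hζq hE ∧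
          alW2 M' hq hqM (x : FF (M' * q * q)) ∈ R.O :=
  bfg_mem_ball_iff A (SF) x

end Fermat.Agent.S36lib

end
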