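/-
Item 83 (S36), block CRUX, piece C-3c = APPROX3 (helper13).  No gaps in this file.

WEAK APPROXIMATION for three valuation rings of rank one of a field `F` (Artin–Whaples):

* `ap3_exists_sep`    : two incomparable valuation rings: `z` with `v₁ z > 1`, `v₂ z < 1`;
* `ap3_exists_sep3`   : three valuation rings: `z` with `v₁ z > 1`, `v₂ z < 1`, `v₃ z < 1`;
* `ap3_exists_idem`   : `g` with `g ≡ 1` at `v₁` and `g ∈ 𝔪₂ ∩ 𝔪₃`;
* `ap3_exists_mult`   : for every `x : F` a multiplier `u ≡ 1` at `v₁` with `x u ∈ 𝔪₂ ∩ 𝔪₃`;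
* `ap3_exists_lift`   : every `x ∈ O₁` is congruent modulo `𝔪₁` to an element of `O₁ ∩ 𝔪₂ ∩ 𝔪₃`;
* `ResVal.ap3_lift`   : for three `ResVal`s: every `w : κ` is the reduction at `v₁` of an element
                        of `𝔪₂ ∩ 𝔪₃` (the hypotheses `liftT`, `liftM` of `G3Data`, piece C-3b).

"Rank one" is the hypothesis `Ap3Arch v`: the powers of a nonunit absorb every element.
Mathlib + `S36lib/Setup` (for `ResVal`) only.
-/
import Mathlib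
import Fermat.Agent.S36lib.Setup

set_option autoImplicit false

noncomputable section

namespace Fermat.Agent.S36lib

section Field

variable {F : Type*} [Field F]

/-- rank one: the powers of a nonunit absorb every element -/
def Ap3Arch (V : ValuationSubring F) : Prop :=
  ∀ a : F, a ∈ V.nonunits → ∀ c : F, ∃ n : ℕ, a ^ n * c ∈ V

theorem ap3_val_lt_one {V : ValuationSubring F} {x : F} : V.valuation x < 1 ↔ x ∈ V.nonunits :=
  Iff.rfl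

theorem ap3_val_le_one {V : ValuationSubring F} {x : F} : V.valuation x ≤ 1 ↔ x ∈ V :=
  V.valuation_le_one_iff x

/-- `x ∉ V` iff `v x > 1` -/
theorem ap3_one_lt_val {V : ValuationSubring F} {x : F} : 1 < V.valuation x ↔ x ∉ V := by
  rw [← ap3_val_le_one, not_le]

/-- `v x > 1` iff `x ≠ 0` and `x⁻¹ ∈ 𝔪` -/
theorem ap3_one_lt_val_iff_inv {V : ValuationSubring F} {x : F} :
    1 < V.valuation x ↔ V.valuation x⁻¹ < 1 ∧ x ≠ 0 := by
  constructor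
  · intro h
    have hx : x ≠ 0 := by
      rintro rfl
      rw [map_zero] at h
      exact not_lt_of_ge zero_le_one h
    refine ⟨?_, hx⟩
    rw [map_inv₀]
    exact inv_lt_one_of_one_lt₀ h
  · rintro ⟨h, hx⟩
    rw [map_inv₀] at h
    have h0 : V.valuation x ≠ 0 := (Valuation.ne_zero_iff _).mpr hx
    by_contra hcon
    rw [not_lt] at hcon
    have : 1 ≤ (V.valuation x)⁻¹ := (one_le_inv₀ (zero_lt_iff.mpr h0)).mpr hcon
    exact not_lt_of_ge this h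

/-- Arch in terms of valuations, strict form -/
theorem Ap3Arch.exists_lt {V : ValuationSubring F} (hV : Ap3Arch V) {a : F}
    (ha : V.valuation a < 1) (c : F) : ∃ n : ℕ, ∀ m, n ≤ m → V.valuation (a ^ m * c) < 1 := by
  obtain ⟨n, hn⟩ := hV a (ap3_val_lt_one.mp ha) c
  refine ⟨n + 1, fun m hm => ?_⟩
  obtain ⟨d, rfl⟩ := Nat.exists_eq_add_of_le hm
  have h1 : a ^ (n + 1 + d) * c = a ^ (d + 1) * (a ^ n * c) := by ring
  rw [h1, map_mul, map_pow]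
  have h2 : V.valuation (a ^ n * c) ≤ 1 := ap3_val_le_one.mpr hn
  have h3 : V.valuation a ^ (d + 1) < 1 := pow_lt_one₀ zero_le ha (Nat.succ_ne_zero d)
  calc V.valuation a ^ (d + 1) * V.valuation (a ^ n * c)
      ≤ V.valuation a ^ (d + 1) * 1 := mul_le_mul' le_rfl h2
    _ = V.valuation a ^ (d + 1) := mul_one _
    _ < 1 := h3

/-- two incomparable valuation rings are separated by an element -/
theorem ap3_exists_sep (V₁ V₂ : ValuationSubring F) (h12 : ¬ V₁ ≤ V₂) (h21 : ¬ V₂ ≤ V₁) :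
    ∃ z : F, 1 < V₁.valuation z ∧ V₂.valuation z < 1 := by
  obtain ⟨x, hx1, hx2⟩ := SetLike.not_le_iff_exists.mp h12
  obtain ⟨y, hy2, hy1⟩ := SetLike.not_le_iff_exists.mp h21
  have hx1' : V₁.valuation x ≤ 1 := ap3_val_le_one.mpr hx1
  have hx2' : 1 < V₂.valuation x := ap3_one_lt_val.mpr hx2
  have hy2' : V₂.valuation y ≤ 1 := ap3_val_le_one.mpr hy2
  have hy1' : 1 < V₁.valuation y := ap3_one_lt_val.mpr hy1
  have hx0 : V₁.valuation x ≠ 0 ∨ x = 0 := by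
    by_cases h : x = 0
    · exact Or.inr h
    · exact Or.inl ((Valuation.ne_zero_iff _).mpr h)
  have hxne : x ≠ 0 := by
    rintro rfl
    rw [map_zero] at hx2'
    exact not_lt_of_ge zero_le_one hx2'
  refine ⟨y * x⁻¹, ?_, ?_⟩
  · rw [map_mul, map_inv₀]
    have h0 : 0 < V₁.valuation x := zero_lt_iff.mpr ((Valuation.ne_zero_iff _).mpr hxne)
    have h1 : 1 ≤ (V₁.valuation x)⁻¹ := (one_le_inv₀ h0).mpr hx1'
    calc (1 : V₁.ValueGroup) < V₁.valuation y := hy1'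
      _ = V₁.valuation y * 1 := (mul_one _).symm
      _ ≤ V₁.valuation y * (V₁.valuation x)⁻¹ := mul_le_mul' le_rfl h1
  · rw [map_mul, map_inv₀]
    have h1 : (V₂.valuation x)⁻¹ < 1 := inv_lt_one_of_one_lt₀ hx2'
    calc V₂.valuation y * (V₂.valuation x)⁻¹ ≤ 1 * (V₂.valuation x)⁻¹ := mul_le_mul' hy2' le_rfl
      _ = (V₂.valuation x)⁻¹ := one_mul _
      _ < 1 := h1

/-- `v (1 + u)⁻¹ = 1` for `v u < 1` -/
theorem ap3_val_inv_one_add {V : ValuationSubring F} {u : F} (hu : V.valuation u < 1) :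
    V.valuation (1 + u)⁻¹ = 1 := by
  rw [map_inv₀, V.valuation.map_one_add_of_lt hu, inv_one]

/-- three pairwise incomparable valuation rings, the second of rank one: an element which is
large at `V₁` and small at `V₂`, `V₃` -/
theorem ap3_exists_sep3 (V₁ V₂ V₃ : ValuationSubring F) (h12 : ¬ V₁ ≤ V₂) (h21 : ¬ V₂ ≤ V₁)
    (h13 : ¬ V₁ ≤ V₃) (h31 : ¬ V₃ ≤ V₁) (a₂ : Ap3Arch V₂) :
    ∃ z : F, 1 < V₁.valuation z ∧ V₂.valuation z < 1 ∧ V₃.valuation z < 1 := by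
  obtain ⟨z₂, hz21, hz22⟩ := ap3_exists_sep V₁ V₂ h12 h21
  obtain ⟨z₃, hz31, hz33⟩ := ap3_exists_sep V₁ V₃ h13 h31
  obtain ⟨n, hn⟩ := a₂.exists_lt hz22 z₃
  have hn1 := hn (n + 1) (Nat.le_succ n)
  have hpow1 : 1 < V₁.valuation (z₂ ^ (n + 1)) := by
    rw [map_pow]
    exact one_lt_pow₀ hz21 (Nat.succ_ne_zero n)
  by_cases h3 : V₃.valuation z₂ ≤ 1
  · -- `z = z₂ ^ (n+1) z₃`
    refine ⟨z₂ ^ (n + 1) * z₃, ?_, hn1, ?_⟩
    · rw [map_mul]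
      calc (1 : V₁.ValueGroup) = 1 * 1 := (one_mul _).symm
        _ < V₁.valuation (z₂ ^ (n + 1)) * V₁.valuation z₃ :=
          mul_lt_mul'' hpow1 hz31 zero_le_one zero_le_one
    · rw [map_mul, map_pow]
      calc V₃.valuation z₂ ^ (n + 1) * V₃.valuation z₃ ≤ 1 * V₃.valuation z₃ :=
            mul_le_mul' (pow_le_one₀ zero_le h3) le_rfl
        _ = V₃.valuation z₃ := one_mul _
        _ < 1 := hz33
  · -- `z = z₂ ^ (n+1) (1 + z₂ ^ (n+1))⁻¹ z₃`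
    rw [not_le] at h3
    set w : F := z₂ ^ (n + 1) with hw
    have hw3 : 1 < V₃.valuation w := by
      rw [hw, map_pow]
      exact one_lt_pow₀ h3 (Nat.succ_ne_zero n)
    have hw2 : V₂.valuation w < 1 := by
      rw [hw, map_pow]
      exact pow_lt_one₀ zero_le hz22 (Nat.succ_ne_zero n)
    have hw0 : w ≠ 0 := (ap3_one_lt_val_iff_inv.mp hpow1).2
    -- `w (1 + w)⁻¹ = (1 + w⁻¹)⁻¹`
    have hform : w * (1 + w)⁻¹ = (1 + w⁻¹)⁻¹ := by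
      have h1 : 1 + w⁻¹ = w⁻¹ * (1 + w) := by
        rw [mul_add, mul_one, inv_mul_cancel₀ hw0, add_comm]
      rw [h1, mul_inv, inv_inv]
    have ht1 : V₁.valuation (w * (1 + w)⁻¹) = 1 := by
      rw [hform]
      exact ap3_val_inv_one_add (ap3_one_lt_val_iff_inv.mp hpow1).1
    have ht3 : V₃.valuation (w * (1 + w)⁻¹) = 1 := by
      rw [hform]
      exact ap3_val_inv_one_add (ap3_one_lt_val_iff_inv.mp hw3).1
    have ht2 : V₂.valuation (w * (1 + w)⁻¹) = V₂.valuation w := by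
      rw [map_mul, ap3_val_inv_one_add hw2, mul_one]
    refine ⟨w * (1 + w)⁻¹ * z₃, ?_, ?_, ?_⟩
    · rw [map_mul, ht1, one_mul]
      exact hz31
    · rw [map_mul, ht2, ← map_mul]
      exact hn1
    · rw [map_mul, ht3, one_mul]
      exact hz33

/-- an element `g ≡ 1` at `V₁` lying in `𝔪₂ ∩ 𝔪₃` -/
theorem ap3_exists_idem (V₁ V₂ V₃ : ValuationSubring F) (h12 : ¬ V₁ ≤ V₂) (h21 : ¬ V₂ ≤ V₁)
    (h13 : ¬ V₁ ≤ V₃) (h31 : ¬ V₃ ≤ V₁) (a₂ : Ap3Arch V₂) :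
    ∃ g : F, V₁.valuation (g - 1) < 1 ∧ V₂.valuation g < 1 ∧ V₃.valuation g < 1 := by
  obtain ⟨z, hz1, hz2, hz3⟩ := ap3_exists_sep3 V₁ V₂ V₃ h12 h21 h13 h31 a₂
  obtain ⟨hzi, hz0⟩ := ap3_one_lt_val_iff_inv.mp hz1
  have hform : z * (1 + z)⁻¹ = (1 + z⁻¹)⁻¹ := by
    have h1 : 1 + z⁻¹ = z⁻¹ * (1 + z) := by
      rw [mul_add, mul_one, inv_mul_cancel₀ hz0, add_comm]
    rw [h1, mul_inv, inv_inv]
  refine ⟨z * (1 + z)⁻¹, ?_, ?_, ?_⟩
  · -- `g - 1 = - z⁻¹ (1 + z⁻¹)⁻¹`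
    have hne : (1 + z⁻¹) ≠ 0 := by
      intro h0
      have := V₁.valuation.map_one_add_of_lt hzi
      rw [h0, map_zero] at this
      exact zero_ne_one this
    have h2 : z * (1 + z)⁻¹ - 1 = -(z⁻¹ * (1 + z⁻¹)⁻¹) := by
      rw [hform]
      have ht : (1 + z⁻¹)⁻¹ * (1 + z⁻¹) = 1 := inv_mul_cancel₀ hne
      linear_combination ht
    rw [h2, Valuation.map_neg, map_mul, ap3_val_inv_one_add hzi, mul_one]
    exact hzi
  · rw [map_mul, ap3_val_inv_one_add hz2, mul_one]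
    exact hz2
  · rw [map_mul, ap3_val_inv_one_add hz3, mul_one]
    exact hz3

/-- `g ≡ 1` implies `g ^ n ≡ 1` -/
theorem ap3_pow_sub_one {V : ValuationSubring F} {g : F} (hg : V.valuation (g - 1) < 1)
    (n : ℕ) : V.valuation (g ^ n - 1) < 1 := by
  induction n with
  | zero => simp
  | succ n ih =>
    have h1 : g ^ (n + 1) - 1 = (g ^ n - 1) * g + (g - 1) := by ring
    have hgle : V.valuation g ≤ 1 := by
      have : g = (g - 1) + 1 := by ring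
      rw [this]
      exact (V.valuation.map_add _ _).trans (max_le hg.le (by rw [map_one]))
    rw [h1]
    refine lt_of_le_of_lt (V.valuation.map_add _ _) (max_lt ?_ hg)
    rw [map_mul]
    calc V.valuation (g ^ n - 1) * V.valuation g ≤ V.valuation (g ^ n - 1) * 1 :=
          mul_le_mul' le_rfl hgle
      _ = V.valuation (g ^ n - 1) := mul_one _
      _ < 1 := ih

/-- **multiplier**: for every `x : F` there is `u ≡ 1` at `V₁` with `x u ∈ 𝔪₂ ∩ 𝔪₃` -/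
theorem ap3_exists_mult (V₁ V₂ V₃ : ValuationSubring F) (h12 : ¬ V₁ ≤ V₂) (h21 : ¬ V₂ ≤ V₁)
    (h13 : ¬ V₁ ≤ V₃) (h31 : ¬ V₃ ≤ V₁) (a₂ : Ap3Arch V₂) (a₃ : Ap3Arch V₃) (x : F) :
    ∃ u : F, V₁.valuation (u - 1) < 1 ∧ V₂.valuation (x * u) < 1 ∧
      V₃.valuation (x * u) < 1 := by
  obtain ⟨g, hg1, hg2, hg3⟩ := ap3_exists_idem V₁ V₂ V₃ h12 h21 h13 h31 a₂
  obtain ⟨n₂, hn₂⟩ := a₂.exists_lt hg2 x
  obtain ⟨n₃, hn₃⟩ := a₃.exists_lt hg3 x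
  refine ⟨g ^ (n₂ + n₃), ap3_pow_sub_one hg1 _, ?_, ?_⟩
  · rw [mul_comm]
    exact hn₂ _ (Nat.le_add_right _ _)
  · rw [mul_comm]
    exact hn₃ _ (Nat.le_add_left _ _)

/-- **weak approximation**: every `x ∈ O₁` is congruent modulo `𝔪₁` to an element of
`O₁ ∩ 𝔪₂ ∩ 𝔪₃` -/
theorem ap3_exists_lift (V₁ V₂ V₃ : ValuationSubring F) (h12 : ¬ V₁ ≤ V₂) (h21 : ¬ V₂ ≤ V₁)
    (h13 : ¬ V₁ ≤ V₃) (h31 : ¬ V₃ ≤ V₁) (a₂ : Ap3Arch V₂) (a₃ : Ap3Arch V₃) (x : F)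
    (hx : x ∈ V₁) :
    ∃ x' : F, x' ∈ V₁ ∧ x' - x ∈ V₁.nonunits ∧ x' ∈ V₂.nonunits ∧ x' ∈ V₃.nonunits := by
  obtain ⟨u, hu1, hu2, hu3⟩ := ap3_exists_mult V₁ V₂ V₃ h12 h21 h13 h31 a₂ a₃ x
  have hx1 : V₁.valuation x ≤ 1 := ap3_val_le_one.mpr hx
  have hsub : V₁.valuation (x * u - x) < 1 := by
    have : x * u - x = x * (u - 1) := by ring
    rw [this, map_mul]
    calc V₁.valuation x * V₁.valuation (u - 1) ≤ 1 * V₁.valuation (u - 1) :=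
          mul_le_mul' hx1 le_rfl
      _ = V₁.valuation (u - 1) := one_mul _
      _ < 1 := hu1
  refine ⟨x * u, ?_, hsub, hu2, hu3⟩
  have : x * u = (x * u - x) + x := by ring
  rw [this]
  exact V₁.add_mem _ _ (ValuationSubring.nonunits_le hsub) hx

/-- two different valuation rings, the first of rank one, with a common nonzero nonunit, are
incomparable -/
theorem ap3_not_le (V₁ V₂ : ValuationSubring F) (hne : V₁ ≠ V₂) (a₁ : Ap3Arch V₁) (q : F)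
    (hq0 : q ≠ 0) (hq2 : q ∈ V₂.nonunits) : ¬ V₁ ≤ V₂ := by
  intro hle
  have hnot : ¬ V₂ ≤ V₁ := fun h => hne (le_antisymm hle h)
  obtain ⟨c, hc2, hc1⟩ := SetLike.not_le_iff_exists.mp hnot
  have hc1' : 1 < V₁.valuation c := ap3_one_lt_val.mpr hc1
  obtain ⟨hci, hc0⟩ := ap3_one_lt_val_iff_inv.mp hc1'
  obtain ⟨n, hn⟩ := a₁ c⁻¹ hci q⁻¹
  have h2 : c⁻¹ ^ n * q⁻¹ ∈ V₂ := hle hn
  have h3 : q⁻¹ = c ^ n * (c⁻¹ ^ n * q⁻¹) := by
    rw [← mul_assoc, ← mul_pow, mul_inv_cancel₀ hc0, one_pow, one_mul]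
  have h4 : q⁻¹ ∈ V₂ := by
    rw [h3]
    exact V₂.mul_mem _ _ (V₂.pow_mem hc2 n) h2
  have h5 : 1 < V₂.valuation q⁻¹ := by
    rw [ap3_one_lt_val_iff_inv, inv_inv]
    exact ⟨hq2, inv_ne_zero hq0⟩
  exact (ap3_one_lt_val.mp h5) h4

end Field

section ResVal

variable {K : Type*} [Field K] {k : Type*} [Field k]
variable {A : ValuationSubring K} {π : A →+* k} {κ : Type*} [Field κ] [Algebra k κ]
  {F : Type*} [Field F] [Algebra K F]

/-- **lifts with zeros**: three different valuations of rank one with a common nonzero nonunit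
`q`: every `w : κ` is the reduction at `v₁` of an element of `𝔪₂ ∩ 𝔪₃`. -/
theorem ap3_resVal_lift (v₁ v₂ v₃ : ResVal A π κ F) (h12 : v₁.O ≠ v₂.O) (h13 : v₁.O ≠ v₃.O)
    (a₁ : Ap3Arch v₁.O) (a₂ : Ap3Arch v₂.O) (a₃ : Ap3Arch v₃.O) (q : F) (hq0 : q ≠ 0)
    (hq1 : q ∈ v₁.O.nonunits) (hq2 : q ∈ v₂.O.nonunits) (hq3 : q ∈ v₃.O.nonunits) (w : κ) :
    ∃ (x : F) (h₁ : x ∈ v₁.O), v₁.red ⟨x, h₁⟩ = w ∧ x ∈ v₂.O.nonunits ∧
      x ∈ v₃.O.nonunits := by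
  obtain ⟨x₀, hx₀⟩ := v₁.red_surjective w
  obtain ⟨x', hx'1, hsub, hx'2, hx'3⟩ := ap3_exists_lift v₁.O v₂.O v₃.O
    (ap3_not_le _ _ h12 a₁ q hq0 hq2) (ap3_not_le _ _ (Ne.symm h12) a₂ q hq0 hq1)
    (ap3_not_le _ _ h13 a₁ q hq0 hq3) (ap3_not_le _ _ (Ne.symm h13) a₃ q hq0 hq1)
    a₂ a₃ (x₀ : F) x₀.2
  refine ⟨x', hx'1, ?_, hx'2, hx'3⟩
  have h0 : v₁.red (⟨x', hx'1⟩ - x₀) = 0 :=
    (v₁.red_eq_zero_iff (⟨x', hx'1⟩ - x₀)).mpr hsub
  rw [map_sub, sub_eq_zero] at h0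
  rw [h0, hx₀]

/-- **a uniformiser with zeros**: every `y` can be multiplied by a `1`-unit of `v₁` so as to lie
in `𝔪₂ ∩ 𝔪₃`. -/
theorem ap3_resVal_mult (v₁ v₂ v₃ : ResVal A π κ F) (h12 : v₁.O ≠ v₂.O) (h13 : v₁.O ≠ v₃.O)
    (a₁ : Ap3Arch v₁.O) (a₂ : Ap3Arch v₂.O) (a₃ : Ap3Arch v₃.O) (q : F) (hq0 : q ≠ 0)
    (hq1 : q ∈ v₁.O.nonunits) (hq2 : q ∈ v₂.O.nonunits) (hq3 : q ∈ v₃.O.nonunits) (y : F) :
    ∃ (u : F) (h₁ : u ∈ v₁.O), v₁.red ⟨u, h₁⟩ = 1 ∧ y * u ∈ v₂.O.nonunits ∧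
      y * u ∈ v₃.O.nonunits := by
  obtain ⟨u, hu1, hu2, hu3⟩ := ap3_exists_mult v₁.O v₂.O v₃.O
    (ap3_not_le _ _ h12 a₁ q hq0 hq2) (ap3_not_le _ _ (Ne.symm h12) a₂ q hq0 hq1)
    (ap3_not_le _ _ h13 a₁ q hq0 hq3) (ap3_not_le _ _ (Ne.symm h13) a₃ q hq0 hq1)
    a₂ a₃ y
  have hu : u ∈ v₁.O := by
    have : u = (u - 1) + 1 := by ring
    rw [this]
    exact v₁.O.add_mem _ _ (ValuationSubring.nonunits_le hu1) v₁.O.one_mem
  refine ⟨u, hu, ?_, hu2, hu3⟩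
  have hmem : (((⟨u, hu⟩ : v₁.O) - 1 : v₁.O) : F) ∈ v₁.O.nonunits := hu1
  have h0 : v₁.red ((⟨u, hu⟩ : v₁.O) - 1) = 0 := (v₁.red_eq_zero_iff _).mpr hmem
  rw [map_sub, map_one, sub_eq_zero] at h0
  exact h0

end ResVal

end Fermat.Agent.S36lib

end
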