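/-
Item 83 (S36), block CRUX, piece C-3b = GROWTH3 (helper13).  No gaps in this file.

The JOINT GROWTH LEMMA for a fibre with several reduced ("thin") components and ONE component of
multiplicity `e` ("thick"), in the setting of a semistable constant reduction `S : SSRed A π R F`
with values in an arbitrary `k`-algebra `R` (in the application `R = O / q O`, the thin components
are `C_∞`, `C_0`, the thick one is `C_mid`, `e = q - 1`):

  `g3_degree_le`:  for `f ∈ L(B) ∩ O`, `B ≥ 0`, the pole divisors `X_t` (thin), `X_M` (thick) of the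
  reductions of `f` on the components satisfy   `∑_t deg X_t + e · deg X_M ≤ deg B`.

This is `S34lib/GrowthSS.lean` (`gss_degree_le`, helper19) with a multiplicity.  Consequence
(`g3_const`): if there is an element `f ∈ L(n D₁) ∩ O` whose reductions have a pole of order
`n w_t`, `n w_M` at the place `Q` with `∑ w_t + e w_M = deg D₁`, then the reductions of every
`z ∈ L(c D₁) ∩ O`, `c ≤ n`, without pole at `Q`, are CONSTANT: the hypotheses `constInf`,
`constMid`, `constZero` of `H0Data` (piece C-3).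
-/
import Mathlib
import Fermat.Agent.S34lib.F3Dim
import Fermat.Agent.S34lib.Twist
import Fermat.Agent.S36lib.Speed

set_option autoImplicit false

noncomputable section

namespace Fermat.Agent.S36lib

open AlgebraicCurve Fermat.Agent.RRlib Fermat.Agent.GoodRed Fermat.Agent.S34lib

variable {K F k : Type*} [Field K] [Field F] [Algebra K F] [Field k]
variable {A : ValuationSubring K} {π : A →+* k}
variable {R : Type*} [CommRing R] [Algebra k R]

/-- The components of the fibre: thin components `t : τ` with reductions `ρT t : R → κ`, one thick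
component with reduction `ρM : R → κ` and uniformiser `η`, of multiplicity `e`. -/
structure G3Data (S : SSRed A π R F) (κ : Type*) [Field κ] [Algebra k κ] (τ : Type*)
    (e : ℕ) where
  /-- the reductions onto the thin components -/
  ρT : τ → R →ₐ[k] κ
  /-- the reduction onto the thick component -/
  ρM : R →ₐ[k] κ
  /-- a uniformiser of the thick component -/
  η : S.O
  η_T : ∀ t, ρT t (S.red η) = 0
  liftT : ∀ (t : τ) (w : κ), ∃ x : S.O, ρT t (S.red x) = w ∧
    (∀ t', t' ≠ t → ρT t' (S.red x) = 0) ∧ ρM (S.red x) = 0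
  liftM : ∀ w : κ, ∃ x : S.O, ρM (S.red x) = w ∧ ∀ t, ρT t (S.red x) = 0
  /-- the layers `η^i` (`i < e`) of the thick component are independent -/
  indep : ∀ x : Fin e → R, (∀ i, x i = 0 ∨ ρM (x i) ≠ 0) →
    ∑ i : Fin e, S.red η ^ (i : ℕ) * x i = 0 → ∀ i, x i = 0

/-- the pole part of the divisor of a function -/
def g3Pol [RRBase K F] (x : F) : Divisor K F := (-divOf (K := K) x) ⊔ 0

theorem g3Pol_nonneg [RRBase K F] (x : F) : 0 ≤ g3Pol (K := K) x := le_sup_right

theorem g3_mem_pol [RRBase K F] (x : F) : x ∈ riemannRochSpace (K := K) (g3Pol (K := K) x) := by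
  by_cases hx : x = 0
  · rw [hx]; exact Submodule.zero_mem _
  · rw [mem_riemannRochSpace_iff_divOf hx]
    have h2 : -divOf (K := K) x ≤ g3Pol (K := K) x := le_sup_left
    have h3 := sub_nonneg.mpr h2
    rwa [sub_neg_eq_add] at h3

section Growth

variable {κ : Type*} [Field κ] [Algebra k κ] {τ : Type*} {e : ℕ}
variable {S : SSRed A π R F}

/-- lifts of `k`-independent elements of `R` lying in `V`: their number is at most `dim V` -/
theorem g3_card_le_finrank {ι : Type*} [Fintype ι] (V : Submodule K F) [Module.Finite K V]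
    (x : ι → S.O) (hx : ∀ i, ((x i : S.O) : F) ∈ V)
    (h : LinearIndependent k (fun i => S.red (x i))) :
    Fintype.card ι ≤ Module.finrank K V := by
  have hindK := S.linearIndependent_of_red x h
  have hV : LinearIndependent K (fun i => (⟨((x i : S.O) : F), hx i⟩ : V)) := by
    apply LinearIndependent.of_comp V.subtype
    exact hindK
  exact hV.fintype_card_le_finrank

/-- a finite family of functions lies in `L(E)` for one `E ≥ 0` -/
theorem g3_exists_bound [RRBase K F] {ι : Type*} [Fintype ι] (x : ι → F) :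
    ∃ E : Divisor K F, 0 ≤ E ∧ ∀ i, x i ∈ riemannRochSpace (K := K) E := by
  classical
  refine ⟨∑ i, g3Pol (K := K) (x i), Finset.sum_nonneg fun p _ => g3Pol_nonneg _, fun i => ?_⟩
  have h1 : g3Pol (K := K) (x i) ≤ ∑ i, g3Pol (K := K) (x i) :=
    Finset.single_le_sum (f := fun i => g3Pol (K := K) (x i)) (fun p _ => g3Pol_nonneg _)
      (Finset.mem_univ i)
  exact riemannRochSpace_mono h1 (g3_mem_pol _)

/-- the family of the growth lemma -/
def g3Fam (G : G3Data S κ τ e) (f : S.O) (m : ℕ) {ιT : τ → Type*} {ιM : Type*}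
    (zlT : ∀ t, ιT t → S.O) (zlM : ιM → S.O) :
    (Σ t : τ, Fin (m + 1) × ιT t) ⊕ (Fin e × (Fin (m + 1) × ιM)) → S.O :=
  Sum.elim (fun q => f ^ (q.2.1 : ℕ) * zlT q.1 q.2.2)
    (fun q => G.η ^ (q.1 : ℕ) * (f ^ (q.2.1 : ℕ) * zlM q.2.2))

/-- independence of the reductions of the family -/
theorem g3_indep [Fintype τ] (G : G3Data S κ τ e) (f : S.O) (m : ℕ) {ιT : τ → Type*}
    {ιM : Type*} [∀ t, Fintype (ιT t)] [Fintype ιM]
    (zbT : ∀ t, ιT t → κ) (zbM : ιM → κ) (zlT : ∀ t, ιT t → S.O) (zlM : ιM → S.O)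
    (hzlT : ∀ t p, G.ρT t (S.red (zlT t p)) = zbT t p)
    (hzlT' : ∀ t p t', t' ≠ t → G.ρT t' (S.red (zlT t p)) = 0)
    (hzlM : ∀ p, G.ρM (S.red (zlM p)) = zbM p)
    (hzlMT : ∀ p t, G.ρT t (S.red (zlM p)) = 0)
    (hindT : ∀ t, LinearIndependent k (fun q : Fin (m + 1) × ιT t =>
        (G.ρT t (S.red f)) ^ (q.1 : ℕ) * zbT t q.2))
    (hindM : LinearIndependent k (fun q : Fin (m + 1) × ιM =>
        (G.ρM (S.red f)) ^ (q.1 : ℕ) * zbM q.2)) :
    LinearIndependent k (fun q => S.red (g3Fam G f m zlT zlM q)) := by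
  classical
  rw [Fintype.linearIndependent_iff]
  intro g hg
  rw [Fintype.sum_sum_type] at hg
  simp only [g3Fam, Sum.elim_inl, Sum.elim_inr] at hg
  -- the thin coefficients vanish
  have hthin : ∀ q : (Σ t : τ, Fin (m + 1) × ιT t), g (Sum.inl q) = 0 := by
    rintro ⟨t, q⟩
    have h1 := congrArg (G.ρT t) hg
    rw [map_add, map_sum, map_sum, map_zero] at h1
    have h2 : ∑ x : Fin e × (Fin (m + 1) × ιM),
        G.ρT t (g (Sum.inr x) • S.red (G.η ^ (x.1 : ℕ) * (f ^ (x.2.1 : ℕ) * zlM x.2.2)))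
        = 0 := by
      refine Finset.sum_eq_zero fun x _ => ?_
      rw [map_smul, map_mul, map_mul, map_mul, map_mul, hzlMT x.2.2 t, mul_zero, mul_zero,
        smul_zero]
    rw [h2, add_zero, Fintype.sum_sigma] at h1
    have h3 : ∀ t' : τ, t' ≠ t →
        ∑ x : Fin (m + 1) × ιT t',
          G.ρT t (g (Sum.inl ⟨t', x⟩) • S.red (f ^ (x.1 : ℕ) * zlT t' x.2)) = 0 := by
      intro t' ht'
      refine Finset.sum_eq_zero fun x _ => ?_
      rw [map_smul, map_mul, map_mul, hzlT' t' x.2 t (Ne.symm ht'), mul_zero, smul_zero]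
    rw [Finset.sum_eq_single t (fun t' _ ht' => h3 t' ht')
      (fun h => absurd (Finset.mem_univ t) h)] at h1
    have h4 : ∑ x : Fin (m + 1) × ιT t,
        g (Sum.inl ⟨t, x⟩) • ((G.ρT t (S.red f)) ^ (x.1 : ℕ) * zbT t x.2) = 0 := by
      rw [← h1]
      refine Finset.sum_congr rfl fun x _ => ?_
      rw [map_smul, map_mul, map_mul, map_pow, map_pow, hzlT t x.2]
    exact Fintype.linearIndependent_iff.mp (hindT t) (fun x => g (Sum.inl ⟨t, x⟩)) h4 q
  -- the thick part
  have hg' : ∑ x : Fin e × (Fin (m + 1) × ιM),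
      g (Sum.inr x) • S.red (G.η ^ (x.1 : ℕ) * (f ^ (x.2.1 : ℕ) * zlM x.2.2)) = 0 := by
    rw [← hg]
    have : ∑ x : (Σ t : τ, Fin (m + 1) × ιT t),
        g (Sum.inl x) • S.red (f ^ (x.2.1 : ℕ) * zlT x.1 x.2.2) = 0 :=
      Finset.sum_eq_zero fun x _ => by rw [hthin x, zero_smul]
    rw [this, zero_add]
  set xs : Fin e → R := fun i => ∑ y : Fin (m + 1) × ιM,
    g (Sum.inr (i, y)) • S.red (f ^ (y.1 : ℕ) * zlM y.2) with hxs
  have hρxs : ∀ i, G.ρM (xs i) = ∑ y : Fin (m + 1) × ιM,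
      g (Sum.inr (i, y)) • ((G.ρM (S.red f)) ^ (y.1 : ℕ) * zbM y.2) := by
    intro i
    rw [hxs, map_sum]
    refine Finset.sum_congr rfl fun y _ => ?_
    rw [map_smul, map_mul, map_mul, map_pow, map_pow, hzlM y.2]
  have hcoef : ∀ i, G.ρM (xs i) = 0 → ∀ y, g (Sum.inr (i, y)) = 0 := by
    intro i h0 y
    rw [hρxs i] at h0
    exact Fintype.linearIndependent_iff.mp hindM (fun y => g (Sum.inr (i, y))) h0 y
  have hxs0 : ∀ i, xs i = 0 ∨ G.ρM (xs i) ≠ 0 := by
    intro i
    by_cases h0 : G.ρM (xs i) = 0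
    · left
      rw [hxs]
      exact Finset.sum_eq_zero fun y _ => by rw [hcoef i h0 y, zero_smul]
    · exact Or.inr h0
  have hsum : ∑ i : Fin e, S.red G.η ^ (i : ℕ) * xs i = 0 := by
    rw [← hg', Fintype.sum_prod_type]
    refine Finset.sum_congr rfl fun i _ => ?_
    rw [hxs, Finset.mul_sum]
    refine Finset.sum_congr rfl fun y _ => ?_
    simp only [map_mul, map_pow, mul_smul_comm]
  have hall := G.indep xs hxs0 hsum
  rintro (q | ⟨i, y⟩)
  · exact hthin q
  · exact hcoef i (by rw [hall i, map_zero]) y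

/-- **the joint growth lemma with multiplicity**: for `f ∈ L(B) ∩ O`, `B ≥ 0`, the pole divisors
`X_t` of the reductions of `f` on the thin components and `X_M` on the thick component satisfy
`∑_t deg X_t + e · deg X_M ≤ deg B`. -/
theorem g3_degree_le [RRHyp K F] [RRHyp k κ] [Fintype τ] (G : G3Data S κ τ e)
    (f : S.O) {B : Divisor K F} (hB : 0 ≤ B)
    (hf : ((f : S.O) : F) ∈ riemannRochSpace (K := K) B)
    {XT : τ → Divisor k κ} {XM : Divisor k κ}
    (hXT : ∀ (t : τ) (Q : Place k κ), XT t Q = max 0 (-(Q.ord (G.ρT t (S.red f)))))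
    (hXM : ∀ Q : Place k κ, XM Q = max 0 (-(Q.ord (G.ρM (S.red f))))) :
    (∑ t, Divisor.degree (XT t)) + (e : ℤ) * Divisor.degree XM ≤ Divisor.degree B := by
  classical
  have hXT0 : ∀ t, 0 ≤ XT t := fun t Q => by rw [hXT t Q]; exact le_max_left _ _
  have hXM0 : 0 ≤ XM := fun Q => by rw [hXM Q]; exact le_max_left _ _
  -- the functions `zbar` and their lifts
  have hzT : ∀ (t : τ) (p : ↥(grIndex (XT t))), ∃ z : κ, z ≠ 0 ∧ p.1.1.ord z = (p.1.2 : ℤ) ∧
      ∀ Q' ∈ (XT t).support, Q' ≠ p.1.1 → XT t Q' ≤ Q'.ord z := fun t p =>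
    exists_ord_eq_of_finset k κ (XT t).support p.1.1 (p.1.2 : ℤ) (fun Q' => XT t Q')
  have hzM : ∀ p : ↥(grIndex XM), ∃ z : κ, z ≠ 0 ∧ p.1.1.ord z = (p.1.2 : ℤ) ∧
      ∀ Q' ∈ XM.support, Q' ≠ p.1.1 → XM Q' ≤ Q'.ord z := fun p =>
    exists_ord_eq_of_finset k κ XM.support p.1.1 (p.1.2 : ℤ) (fun Q' => XM Q')
  choose zbT hzbT0 hzbTQ hzbTQ' using hzT
  choose zbM hzbM0 hzbMQ hzbMQ' using hzM
  have hlT : ∀ (t : τ) (p : ↥(grIndex (XT t))), ∃ x : S.O, G.ρT t (S.red x) = zbT t p ∧
      (∀ t', t' ≠ t → G.ρT t' (S.red x) = 0) ∧ G.ρM (S.red x) = 0 := fun t p => G.liftT t _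
  have hlM : ∀ p : ↥(grIndex XM), ∃ x : S.O, G.ρM (S.red x) = zbM p ∧
      ∀ t, G.ρT t (S.red x) = 0 := fun p => G.liftM _
  choose zlT hzlT hzlT' hzlTM using hlT
  choose zlM hzlM hzlMT using hlM
  -- a bound for the poles of the lifts
  obtain ⟨ET, hET0, hzlTE⟩ := g3_exists_bound (K := K)
    (fun q : (Σ t : τ, ↥(grIndex (XT t))) => ((zlT q.1 q.2 : S.O) : F))
  obtain ⟨EM, hEM0, hzlME⟩ := g3_exists_bound (K := K)
    (fun p : ↥(grIndex XM) => ((zlM p : S.O) : F))
  obtain ⟨Eη, hEη0, hηE⟩ := g3_exists_bound (K := K)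
    (fun i : Fin e => ((G.η : S.O) : F) ^ (i : ℕ))
  obtain ⟨E, hE⟩ : ∃ E : Divisor K F, E = ET + EM + Eη := ⟨_, rfl⟩
  have hE0 : 0 ≤ E := hE ▸ add_nonneg (add_nonneg hET0 hEM0) hEη0
  have hdegE : 0 ≤ Divisor.degree E := degree_nonneg hE0
  have hdegB : 0 ≤ Divisor.degree B := degree_nonneg hB
  have hdegXM : 0 ≤ Divisor.degree XM := degree_nonneg hXM0
  have hdegXT : ∀ t, 0 ≤ Divisor.degree (XT t) := fun t => degree_nonneg (hXT0 t)
  -- the growth estimate
  have hgrowth : ∀ m : ℕ, ((m : ℤ) + 1) *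
      ((∑ t, Divisor.degree (XT t)) + (e : ℤ) * Divisor.degree XM)
      ≤ (m : ℤ) * Divisor.degree B + Divisor.degree E + 1 := by
    intro m
    have hfin := finite_riemannRochSpace (K := K) (m • B + E)
    have hpow : ∀ j : Fin (m + 1),
        ((f : S.O) : F) ^ (j : ℕ) ∈ riemannRochSpace (K := K) (m • B) := fun j =>
      riemannRochSpace_mono (gr_nsmul_le hB (Nat.lt_succ_iff.mp j.2)) (gr_pow_mem hf _)
    have hmem : ∀ q, (((g3Fam G f m zlT zlM q : S.O)) : F) ∈
        riemannRochSpace (K := K) (m • B + E) := by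
      rintro (⟨t, j, p⟩ | ⟨i, j, p⟩)
      · have h2 := gr_mul_mem (hpow j) (hzlTE ⟨t, p⟩)
        have h3 : m • B + ET ≤ m • B + E := by
          rw [hE, add_assoc ET, ← add_assoc (m • B)]
          exact le_add_of_nonneg_right (add_nonneg hEM0 hEη0)
        exact riemannRochSpace_mono h3 h2
      · have h2 := gr_mul_mem (hηE i) (gr_mul_mem (hpow j) (hzlME p))
        have h3 : Eη + (m • B + EM) ≤ m • B + E := by
          have : Eη + (m • B + EM) + ET = m • B + E := by rw [hE]; abel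
          rw [← this]
          exact le_add_of_nonneg_right hET0
        exact riemannRochSpace_mono h3 h2
    have hindT : ∀ t, LinearIndependent k (fun q : Fin (m + 1) × ↥(grIndex (XT t)) =>
        (G.ρT t (S.red f)) ^ (q.1 : ℕ) * zbT t q.2) := fun t =>
      gss_linearIndependent (k := k) (hXT t) (zbT t)
        (fun p => ⟨hzbT0 t p, hzbTQ t p⟩) (hzbTQ' t) m
    have hindM : LinearIndependent k (fun q : Fin (m + 1) × ↥(grIndex XM) =>
        (G.ρM (S.red f)) ^ (q.1 : ℕ) * zbM q.2) :=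
      gss_linearIndependent (k := k) hXM zbM (fun p => ⟨hzbM0 p, hzbMQ p⟩) hzbMQ' m
    have hind := g3_indep G f m zbT zbM zlT zlM hzlT hzlT' hzlM hzlMT hindT hindM
    have hcard := g3_card_le_finrank (S := S) (riemannRochSpace (K := K) (m • B + E))
      (g3Fam G f m zlT zlM) hmem hind
    rw [Fintype.card_sum, Fintype.card_sigma] at hcard
    simp only [Fintype.card_prod, Fintype.card_fin, Fintype.card_coe] at hcard
    have hell : (ell (m • B + E) : ℤ) ≤ Divisor.degree (m • B + E) + 1 := by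
      apply ell_le_degree_add_one
      rw [map_add, map_nsmul]
      have : 0 ≤ m • Divisor.degree B := nsmul_nonneg hdegB m
      linarith
    rw [map_add, map_nsmul, nsmul_eq_mul] at hell
    have hcard' : (((∑ t : τ, (m + 1) * (grIndex (XT t)).card) +
        e * ((m + 1) * (grIndex XM).card) : ℕ) : ℤ) ≤ (ell (m • B + E) : ℤ) := by
      exact_mod_cast hcard
    push_cast at hcard'
    rw [card_grIndex hXM0] at hcard'
    have hsumT : ∑ t : τ, ((m : ℤ) + 1) * ((grIndex (XT t)).card : ℤ)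
        = ((m : ℤ) + 1) * ∑ t, Divisor.degree (XT t) := by
      rw [Finset.mul_sum]
      exact Finset.sum_congr rfl fun t _ => by rw [card_grIndex (hXT0 t)]
    rw [hsumT] at hcard'
    nlinarith
  -- conclusion
  by_contra hcon
  rw [not_le] at hcon
  have h := hgrowth ((Divisor.degree E).toNat + 1)
  push_cast at h
  rw [Int.toNat_of_nonneg hdegE] at h
  have h5 : (0 : ℤ) ≤ (Divisor.degree E + 1 + 1) *
      ((∑ t, Divisor.degree (XT t)) + (e : ℤ) * Divisor.degree XM - Divisor.degree B - 1) :=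
    mul_nonneg (by linarith) (by linarith)
  nlinarith

/-- **POLE BOUND**: if `y ∈ L(B) ∩ O` and the reductions of `y` on the components have poles of
order `≥ N_t`, `≥ N_M` at `Q` with `deg B ≤ ∑ N_t + e N_M`, then these reductions are regular
off `Q`. -/
theorem g3_regular [RRHyp K F] [RRHyp k κ] [Fintype τ] (G : G3Data S κ τ e) (he : 0 < e)
    (Q : Place k κ) (y : S.O) {B : Divisor K F} (hB : 0 ≤ B)
    (hy : ((y : S.O) : F) ∈ riemannRochSpace (K := K) B) (NT : τ → ℤ) (NM : ℤ)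
    (hdeg : Divisor.degree B ≤ (∑ t, NT t) + (e : ℤ) * NM)
    (hT : ∀ t, Q.ord (G.ρT t (S.red y)) ≤ -NT t) (hM : Q.ord (G.ρM (S.red y)) ≤ -NM) :
    (∀ t, ∀ Q' : Place k κ, Q' ≠ Q → 0 ≤ Q'.ord (G.ρT t (S.red y))) ∧
      ∀ Q' : Place k κ, Q' ≠ Q → 0 ≤ Q'.ord (G.ρM (S.red y)) := by
  classical
  have hgr := g3_degree_le G y hB hy (XT := fun t => f3dPol (k := k) (G.ρT t (S.red y)))
    (XM := f3dPol (k := k) (G.ρM (S.red y))) (fun t Q' => f3dPol_apply _ Q')
    (fun Q' => f3dPol_apply _ Q')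
  have hTle : ∀ t, NT t ≤ Divisor.degree (f3dPol (k := k) (G.ρT t (S.red y))) := fun t =>
    f3d_le_degree_pol _ Q _ (hT t)
  have hMle : NM ≤ Divisor.degree (f3dPol (k := k) (G.ρM (S.red y))) :=
    f3d_le_degree_pol _ Q _ hM
  have hsum : (∑ t, NT t) ≤ ∑ t, Divisor.degree (f3dPol (k := k) (G.ρT t (S.red y))) :=
    Finset.sum_le_sum fun t _ => hTle t
  have he' : (1 : ℤ) ≤ e := by exact_mod_cast he
  constructor
  · intro t Q' hQ'
    by_contra hneg
    rw [not_le] at hneg
    have h1 : NT t + 1 ≤ Divisor.degree (f3dPol (k := k) (G.ρT t (S.red y))) :=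
      f3d_le_degree_pol₂ _ Q Q' hQ' _ _ (hT t) (by omega)
    have hsum' : (∑ t, NT t) + 1 ≤
        ∑ t, Divisor.degree (f3dPol (k := k) (G.ρT t (S.red y))) := by
      have h2 : ∑ t', (NT t' + if t' = t then 1 else 0) ≤
          ∑ t', Divisor.degree (f3dPol (k := k) (G.ρT t' (S.red y))) := by
        refine Finset.sum_le_sum fun t' _ => ?_
        by_cases h : t' = t
        · rw [if_pos h, h]; exact h1
        · rw [if_neg h, add_zero]; exact hTle t'
      rw [Finset.sum_add_distrib, Finset.sum_ite_eq' Finset.univ t,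
        if_pos (Finset.mem_univ t)] at h2
      exact h2
    nlinarith
  · intro Q' hQ'
    by_contra hneg
    rw [not_le] at hneg
    have h1 : NM + 1 ≤ Divisor.degree (f3dPol (k := k) (G.ρM (S.red y))) :=
      f3d_le_degree_pol₂ _ Q Q' hQ' _ _ hM (by omega)
    nlinarith

/-- **constants**: if `x ∈ L(B) ∩ O` has reductions with poles of order `N_t ≥ 1`, `N_M ≥ 1` at
`Q` with `deg B ≤ ∑ N_t + e N_M` (an EXACT element), then the reductions of every `z ∈ L(B) ∩ O`
without pole at `Q` are constants. -/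
theorem g3_const [RRHyp K F] [RRHyp k κ] [Fintype τ] (G : G3Data S κ τ e) (he : 0 < e)
    (Q : Place k κ) {B : Divisor K F} (hB : 0 ≤ B) (NT : τ → ℤ) (NM : ℤ)
    (hNT : ∀ t, 1 ≤ NT t) (hNM : 1 ≤ NM)
    (hdeg : Divisor.degree B ≤ (∑ t, NT t) + (e : ℤ) * NM)
    (x : S.O) (hx : ((x : S.O) : F) ∈ riemannRochSpace (K := K) B)
    (hxT : ∀ t, Q.ord (G.ρT t (S.red x)) ≤ -NT t) (hxM : Q.ord (G.ρM (S.red x)) ≤ -NM)
    (z : S.O) (hz : ((z : S.O) : F) ∈ riemannRochSpace (K := K) B)
    (hzT : ∀ t, 0 ≤ Q.ord (G.ρT t (S.red z))) (hzM : 0 ≤ Q.ord (G.ρM (S.red z))) :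
    (∀ t, G.ρT t (S.red z) ∈ Set.range (algebraMap k κ)) ∧
      G.ρM (S.red z) ∈ Set.range (algebraMap k κ) := by
  classical
  -- orders of sums
  have hadd : ∀ (a b : κ) (N : ℤ), 1 ≤ N → Q.ord a ≤ -N → 0 ≤ Q.ord b → Q.ord (a + b) ≤ -N := by
    intro a b N hN ha hb
    have ha0 : a ≠ 0 := by
      rintro rfl
      rw [Place.ord_zero] at ha
      omega
    by_cases hb0 : b = 0
    · rw [hb0, add_zero]; exact ha
    · rw [pol_ord_add_of_lt ha0 hb0 (by omega)]
      exact ha
  have hsub : ∀ (a b : κ) (Q' : Place k κ), 0 ≤ Q'.ord (a + b) → 0 ≤ Q'.ord a →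
      0 ≤ Q'.ord b := by
    intro a b Q' hab ha
    by_cases hb0 : b = 0
    · rw [hb0, Place.ord_zero]
    · have h1 : a + b ∈ polBall Q' 0 := mem_polBall_iff.mpr (Or.inr hab)
      have h2 : a ∈ polBall Q' 0 := mem_polBall_iff.mpr (Or.inr ha)
      have h3 : b ∈ polBall Q' 0 := by
        have : b = (a + b) - a := by ring
        rw [this]
        exact Submodule.sub_mem _ h1 h2
      exact (mem_polBall_iff.mp h3).resolve_left hb0
  have hyB : (((x + z : S.O) : S.O) : F) ∈ riemannRochSpace (K := K) B :=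
    Submodule.add_mem _ hx hz
  obtain ⟨hyT, hyM⟩ := g3_regular G he Q (x + z) hB hyB NT NM hdeg
    (fun t => by rw [map_add, map_add]; exact hadd _ _ _ (hNT t) (hxT t) (hzT t))
    (by rw [map_add, map_add]; exact hadd _ _ _ hNM hxM hzM)
  obtain ⟨hxT', hxM'⟩ := g3_regular G he Q x hB hx NT NM hdeg hxT hxM
  constructor
  · intro t
    apply RRBase.const_of_forall_ord_nonneg
    intro Q'
    by_cases hQ' : Q' = Q
    · rw [hQ']; exact hzT t
    · have h1 := hyT t Q' hQ'
      rw [map_add, map_add] at h1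
      exact hsub _ _ Q' h1 (hxT' t Q' hQ')
  · apply RRBase.const_of_forall_ord_nonneg
    intro Q'
    by_cases hQ' : Q' = Q
    · rw [hQ']; exact hzM
    · have h1 := hyM Q' hQ'
      rw [map_add, map_add] at h1
      exact hsub _ _ Q' h1 (hxM' Q' hQ')

end Growth

end Fermat.Agent.S36lib
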