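/-
Item 83 (S36), block CRUX, piece C-3d = G3-INST (helper13).  No gaps in this file.

The components `G3Data` (piece C-3b, `Growth3.lean`) of a `NodeSetup` (helper24):
`S : NodeSetup A π κ F` (three valuations `v_∞`, `v_mid`, `v_0` with residue field `κ`) and
`S₀ : SSRed A π R F` a semistable reduction on the ball of `S` with `R = O / q O`
(`red` onto, kernel `q O`).  Then

  `g3_exists`: there is `G : G3Data S₀ κ Bool e` with `ρT true ∘ red = red_∞`,
  `ρT false ∘ red = red_0`, `ρM ∘ red = red_mid`,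

provided the three valuation rings are different, of rank one (`Ap3Arch`, helper8's `VArch`),
and `v_mid` has a uniformiser `y` with `y ^ e = q · unit` (`e = q - 1`).  The lifts come from weak
approximation (`Approx3.lean`), the independence of the layers from the valuation `v_mid`.
-/
import Mathlib
import Fermat.Agent.S36lib.Growth3
import Fermat.Agent.S36lib.Approx3

set_option autoImplicit false

noncomputable section

namespace Fermat.Agent.S36lib

open Fermat.Agent.S34lib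

variable {K : Type*} [Field K] {k : Type*} [Field k]
variable {A : ValuationSubring K} {π : A →+* k} {κ : Type*} [Field κ] [Algebra k κ]
  {F : Type*} [Field F] [Algebra K F]
variable {R : Type*} [CommRing R] [Algebra k R]

/-- the reduction `R → κ` induced by a valuation containing the ball `S₀.O` -/
def g3Rho (S₀ : SSRed A π R F) (hsurj : Function.Surjective S₀.red) (v : ResVal A π κ F)
    (hle : S₀.O ≤ v.O.toSubring)
    (hker : ∀ x : S₀.O, S₀.red x = 0 → v.red ⟨(x : F), hle x.2⟩ = 0) : R →ₐ[k] κ :=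
  { RingHom.liftOfSurjective S₀.red hsurj
      ⟨v.red.comp (Subring.inclusion hle), fun x hx => hker x hx⟩ with
    commutes' := by
      intro c
      obtain ⟨a, rfl⟩ := S₀.π_surjective c
      have h1 : algebraMap k R (π a) = S₀.red (S₀.C a) := (S₀.red_C a).symm
      show RingHom.liftOfSurjective S₀.red hsurj
        ⟨v.red.comp (Subring.inclusion hle), fun x hx => hker x hx⟩ (algebraMap k R (π a)) = _
      rw [h1, RingHom.liftOfRightInverse_comp_apply]
      exact v.red_algebraMap a }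

theorem g3Rho_red (S₀ : SSRed A π R F) (hsurj : Function.Surjective S₀.red)
    (v : ResVal A π κ F) (hle : S₀.O ≤ v.O.toSubring)
    (hker : ∀ x : S₀.O, S₀.red x = 0 → v.red ⟨(x : F), hle x.2⟩ = 0) (x : S₀.O) :
    g3Rho S₀ hsurj v hle hker (S₀.red x) = v.red ⟨(x : F), hle x.2⟩ := by
  show RingHom.liftOfSurjective S₀.red hsurj
    ⟨v.red.comp (Subring.inclusion hle), fun x hx => hker x hx⟩ (S₀.red x) = _
  rw [RingHom.liftOfRightInverse_comp_apply]
  rfl

/-- The hypotheses on a `NodeSetup` and a semistable reduction `S₀` on its ball. -/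
structure G3Hyp (S : NodeSetup A π κ F) (S₀ : SSRed A π R F) (q : A) (e : ℕ) : Prop where
  /-- the ball of `S₀` is the ball of the three valuations -/
  O_le : S₀.O ≤ S.ball
  le_O : S.ball ≤ S₀.O
  /-- `R = O / q O` -/
  red_surjective : Function.Surjective S₀.red
  ker : ∀ x : S₀.O, S₀.red x = 0 → ∃ w : F, w ∈ S.ball ∧ (x : F) = algebraMap K F (q : K) * w
  q_ne_zero : (q : K) ≠ 0
  π_q : π q = 0
  neIM : S.vInf.O ≠ S.vMid.O
  neIZ : S.vInf.O ≠ S.vZero.O
  neMZ : S.vMid.O ≠ S.vZero.O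
  archI : Ap3Arch S.vInf.O
  archM : Ap3Arch S.vMid.O
  archZ : Ap3Arch S.vZero.O
  /-- `v_mid` has a uniformiser `y` with `y ^ e = q · unit`, i.e. `v_mid(y) ^ e = v_mid(q)` -/
  unif : ∃ y : F, S.vMid.O.valuation y ^ e = S.vMid.O.valuation (algebraMap K F (q : K))
  e_pos : 0 < e

namespace G3Hyp

variable {S : NodeSetup A π κ F} {S₀ : SSRed A π R F} {q : A} {e : ℕ}

theorem qF_ne_zero (h : G3Hyp S S₀ q e) : algebraMap K F (q : K) ≠ 0 :=
  (map_ne_zero (algebraMap K F)).mpr h.q_ne_zero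

/-- `q` is a nonunit of every valuation ring over `A` -/
theorem q_mem_nonunits (h : G3Hyp S S₀ q e) (v : ResVal A π κ F) :
    algebraMap K F (q : K) ∈ v.O.nonunits := by
  rw [← v.red_eq_zero_iff ⟨_, v.algebraMap_mem q⟩, v.red_algebraMap, h.π_q, map_zero]

theorem le_inf (h : G3Hyp S S₀ q e) : S₀.O ≤ S.vInf.O.toSubring := fun _ hx => (h.O_le hx).1.1

theorem le_mid (h : G3Hyp S S₀ q e) : S₀.O ≤ S.vMid.O.toSubring := fun _ hx => (h.O_le hx).1.2

theorem le_zero (h : G3Hyp S S₀ q e) : S₀.O ≤ S.vZero.O.toSubring := fun _ hx => (h.O_le hx).2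

theorem ker_red (h : G3Hyp S S₀ q e) (v : ResVal A π κ F) (hle : S₀.O ≤ v.O.toSubring)
    (hball : S.ball ≤ v.O.toSubring) (x : S₀.O) (hx : S₀.red x = 0) :
    v.red ⟨(x : F), hle x.2⟩ = 0 := by
  obtain ⟨w, hw, hxw⟩ := h.ker x hx
  have h1 : (⟨(x : F), hle x.2⟩ : v.O) = ⟨_, v.algebraMap_mem q⟩ * ⟨w, hball hw⟩ :=
    Subtype.ext hxw
  rw [h1, map_mul, v.red_algebraMap, h.π_q, map_zero, zero_mul]

/-- the reduction onto `C_∞` -/
def ρI (h : G3Hyp S S₀ q e) : R →ₐ[k] κ :=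
  g3Rho S₀ h.red_surjective S.vInf h.le_inf
    (h.ker_red S.vInf h.le_inf (fun _ hx => hx.1.1))

/-- the reduction onto `C_mid` -/
def ρM (h : G3Hyp S S₀ q e) : R →ₐ[k] κ :=
  g3Rho S₀ h.red_surjective S.vMid h.le_mid
    (h.ker_red S.vMid h.le_mid (fun _ hx => hx.1.2))

/-- the reduction onto `C_0` -/
def ρZ (h : G3Hyp S S₀ q e) : R →ₐ[k] κ :=
  g3Rho S₀ h.red_surjective S.vZero h.le_zero
    (h.ker_red S.vZero h.le_zero (fun _ hx => hx.2))

theorem ρI_red (h : G3Hyp S S₀ q e) (x : S₀.O) :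
    h.ρI (S₀.red x) = S.vInf.red ⟨(x : F), h.le_inf x.2⟩ := g3Rho_red _ _ _ _ _ x

theorem ρM_red (h : G3Hyp S S₀ q e) (x : S₀.O) :
    h.ρM (S₀.red x) = S.vMid.red ⟨(x : F), h.le_mid x.2⟩ := g3Rho_red _ _ _ _ _ x

theorem ρZ_red (h : G3Hyp S S₀ q e) (x : S₀.O) :
    h.ρZ (S₀.red x) = S.vZero.red ⟨(x : F), h.le_zero x.2⟩ := g3Rho_red _ _ _ _ _ x

/-- an element of the ball lying in `𝔪_v` reduces to `0` at `v` -/
theorem red_eq_zero_of_mem (v : ResVal A π κ F) (x : F) (hx : x ∈ v.O.nonunits) :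
    v.red ⟨x, ValuationSubring.nonunits_le hx⟩ = 0 :=
  (v.red_eq_zero_iff ⟨x, ValuationSubring.nonunits_le hx⟩).mpr hx

/-- lifts with zeros, `C_∞` -/
theorem liftI (h : G3Hyp S S₀ q e) (w : κ) :
    ∃ x : S₀.O, h.ρI (S₀.red x) = w ∧ h.ρM (S₀.red x) = 0 ∧ h.ρZ (S₀.red x) = 0 := by
  obtain ⟨x, h₁, hr, h₂, h₃⟩ := ap3_resVal_lift S.vInf S.vMid S.vZero h.neIM h.neIZ
    h.archI h.archM h.archZ _ h.qF_ne_zero (h.q_mem_nonunits _) (h.q_mem_nonunits _)
    (h.q_mem_nonunits _) w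
  have hball : x ∈ S.ball :=
    ⟨⟨h₁, ValuationSubring.nonunits_le h₂⟩, ValuationSubring.nonunits_le h₃⟩
  refine ⟨⟨x, h.le_O hball⟩, ?_, ?_, ?_⟩
  · rw [h.ρI_red]; exact hr
  · rw [h.ρM_red]; exact red_eq_zero_of_mem S.vMid x h₂
  · rw [h.ρZ_red]; exact red_eq_zero_of_mem S.vZero x h₃

/-- lifts with zeros, `C_0` -/
theorem liftZ (h : G3Hyp S S₀ q e) (w : κ) :
    ∃ x : S₀.O, h.ρZ (S₀.red x) = w ∧ h.ρI (S₀.red x) = 0 ∧ h.ρM (S₀.red x) = 0 := by
  obtain ⟨x, h₁, hr, h₂, h₃⟩ := ap3_resVal_lift S.vZero S.vInf S.vMid (Ne.symm h.neIZ)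
    (Ne.symm h.neMZ) h.archZ h.archI h.archM _ h.qF_ne_zero (h.q_mem_nonunits _)
    (h.q_mem_nonunits _) (h.q_mem_nonunits _) w
  have hball : x ∈ S.ball :=
    ⟨⟨ValuationSubring.nonunits_le h₂, ValuationSubring.nonunits_le h₃⟩, h₁⟩
  refine ⟨⟨x, h.le_O hball⟩, ?_, ?_, ?_⟩
  · rw [h.ρZ_red]; exact hr
  · rw [h.ρI_red]; exact red_eq_zero_of_mem S.vInf x h₂
  · rw [h.ρM_red]; exact red_eq_zero_of_mem S.vMid x h₃

/-- lifts with zeros, `C_mid` -/
theorem liftM (h : G3Hyp S S₀ q e) (w : κ) :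
    ∃ x : S₀.O, h.ρM (S₀.red x) = w ∧ h.ρI (S₀.red x) = 0 ∧ h.ρZ (S₀.red x) = 0 := by
  obtain ⟨x, h₁, hr, h₂, h₃⟩ := ap3_resVal_lift S.vMid S.vInf S.vZero (Ne.symm h.neIM)
    h.neMZ h.archM h.archI h.archZ _ h.qF_ne_zero (h.q_mem_nonunits _)
    (h.q_mem_nonunits _) (h.q_mem_nonunits _) w
  have hball : x ∈ S.ball :=
    ⟨⟨ValuationSubring.nonunits_le h₂, h₁⟩, ValuationSubring.nonunits_le h₃⟩
  refine ⟨⟨x, h.le_O hball⟩, ?_, ?_, ?_⟩
  · rw [h.ρM_red]; exact hr
  · rw [h.ρI_red]; exact red_eq_zero_of_mem S.vInf x h₂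
  · rw [h.ρZ_red]; exact red_eq_zero_of_mem S.vZero x h₃

/-- a uniformiser of `v_mid` lying in `𝔪_∞ ∩ 𝔪_0`, with `v_mid(η)^e = v_mid(q)` -/
theorem exists_unif (h : G3Hyp S S₀ q e) :
    ∃ η : S₀.O, h.ρI (S₀.red η) = 0 ∧ h.ρZ (S₀.red η) = 0 ∧
      S.vMid.O.valuation (η : F) ^ e = S.vMid.O.valuation (algebraMap K F (q : K)) := by
  obtain ⟨y, hy⟩ := h.unif
  obtain ⟨u, hu₁, hur, hu₂, hu₃⟩ := ap3_resVal_mult S.vMid S.vInf S.vZero (Ne.symm h.neIM)
    h.neMZ h.archM h.archI h.archZ _ h.qF_ne_zero (h.q_mem_nonunits _)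
    (h.q_mem_nonunits _) (h.q_mem_nonunits _) y
  have hq : S.vMid.O.valuation (algebraMap K F (q : K)) < 1 := h.q_mem_nonunits S.vMid
  -- `v u = 1`
  have hu1 : S.vMid.O.valuation u = 1 := by
    have hle : S.vMid.O.valuation u ≤ 1 := ap3_val_le_one.mpr hu₁
    rcases lt_or_eq_of_le hle with hlt | heq
    · exfalso
      have := red_eq_zero_of_mem S.vMid u hlt
      rw [hur] at this
      exact one_ne_zero this
    · exact heq
  -- `v y < 1`
  have hy1 : S.vMid.O.valuation y < 1 := by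
    by_contra hcon
    rw [not_lt] at hcon
    have := one_le_pow₀ (n := e) hcon
    rw [hy] at this
    exact not_lt_of_ge this hq
  have hηM : y * u ∈ S.vMid.O := by
    rw [← ap3_val_le_one, map_mul, hu1, mul_one]
    exact hy1.le
  have hball : y * u ∈ S.ball :=
    ⟨⟨ValuationSubring.nonunits_le hu₂, hηM⟩, ValuationSubring.nonunits_le hu₃⟩
  refine ⟨⟨y * u, h.le_O hball⟩, ?_, ?_, ?_⟩
  · rw [h.ρI_red]; exact red_eq_zero_of_mem S.vInf _ hu₂
  · rw [h.ρZ_red]; exact red_eq_zero_of_mem S.vZero _ hu₃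
  · show S.vMid.O.valuation (y * u) ^ e = _
    rw [map_mul, hu1, mul_one, hy]

/-- **independence of the layers** `η^i`, `i < e`, of the thick component -/
theorem indep (h : G3Hyp S S₀ q e) (η : S₀.O)
    (hη : S.vMid.O.valuation (η : F) ^ e = S.vMid.O.valuation (algebraMap K F (q : K)))
    (x : Fin e → R) (hx : ∀ i, x i = 0 ∨ h.ρM (x i) ≠ 0)
    (hsum : ∑ i : Fin e, S₀.red η ^ (i : ℕ) * x i = 0) : ∀ i, x i = 0 := by
  classical
  by_contra hcon
  push Not at hcon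
  obtain ⟨i₁, hi₁⟩ := hcon
  -- the lifts
  have hl : ∀ i, ∃ xt : S₀.O, S₀.red xt = x i ∧ (x i = 0 → xt = 0) := by
    intro i
    by_cases h0 : x i = 0
    · exact ⟨0, by rw [map_zero, h0], fun _ => rfl⟩
    · obtain ⟨xt, hxt⟩ := h.red_surjective (x i)
      exact ⟨xt, hxt, fun h => absurd h h0⟩
  choose xt hxt hxt0 using hl
  -- valuations of the lifts
  have hvx : ∀ i, x i ≠ 0 → S.vMid.O.valuation ((xt i : S₀.O) : F) = 1 := by
    intro i hi
    have hne : h.ρM (x i) ≠ 0 := (hx i).resolve_left hi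
    rw [← hxt i, h.ρM_red] at hne
    have hle : S.vMid.O.valuation ((xt i : S₀.O) : F) ≤ 1 :=
      ap3_val_le_one.mpr (h.le_mid (xt i).2)
    rcases lt_or_eq_of_le hle with hlt | heq
    · exact absurd ((S.vMid.red_eq_zero_iff ⟨_, h.le_mid (xt i).2⟩).mpr hlt) hne
    · exact heq
  -- the minimal index
  have hI : (Finset.univ.filter (fun i : Fin e => x i ≠ 0)).Nonempty :=
    ⟨i₁, Finset.mem_filter.mpr ⟨Finset.mem_univ _, hi₁⟩⟩
  obtain ⟨i₀, hi₀, hmin⟩ := Finset.exists_min_image _ (fun i : Fin e => (i : ℕ)) hI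
  have hi₀' : x i₀ ≠ 0 := (Finset.mem_filter.mp hi₀).2
  -- the sum of the lifts
  have hW : S₀.red (∑ i : Fin e, η ^ (i : ℕ) * xt i) = 0 := by
    rw [map_sum, ← hsum]
    refine Finset.sum_congr rfl fun i _ => ?_
    rw [map_mul, map_pow, hxt]
  obtain ⟨w, hw, hWw⟩ := h.ker _ hW
  have hq : S.vMid.O.valuation (algebraMap K F (q : K)) < 1 := h.q_mem_nonunits S.vMid
  have hq0 : S.vMid.O.valuation (algebraMap K F (q : K)) ≠ 0 :=
    (Valuation.ne_zero_iff _).mpr h.qF_ne_zero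
  have hvW : S.vMid.O.valuation (((∑ i : Fin e, η ^ (i : ℕ) * xt i : S₀.O) : S₀.O) : F) ≤
      S.vMid.O.valuation (algebraMap K F (q : K)) := by
    rw [hWw, map_mul]
    have hw1 : S.vMid.O.valuation w ≤ 1 := ap3_val_le_one.mpr hw.1.2
    calc S.vMid.O.valuation (algebraMap K F (q : K)) * S.vMid.O.valuation w
        ≤ S.vMid.O.valuation (algebraMap K F (q : K)) * 1 := mul_le_mul' le_rfl hw1
      _ = _ := mul_one _
  -- the valuation of `η`
  have he0 : e ≠ 0 := Nat.pos_iff_ne_zero.mp h.e_pos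
  have hη0 : S.vMid.O.valuation (η : F) ≠ 0 := by
    intro h0
    rw [h0, zero_pow he0] at hη
    exact hq0 hη.symm
  have hηpos : 0 < S.vMid.O.valuation (η : F) := zero_lt_iff.mpr hη0
  have hη1 : S.vMid.O.valuation (η : F) < 1 := by
    by_contra hc
    rw [not_lt] at hc
    have := one_le_pow₀ (n := e) hc
    rw [hη] at this
    exact not_lt_of_ge this hq
  -- the main term and the rest
  have hterm : S.vMid.O.valuation ((η : F) ^ (i₀ : ℕ) * ((xt i₀ : S₀.O) : F)) =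
      S.vMid.O.valuation (η : F) ^ (i₀ : ℕ) := by
    rw [map_mul, map_pow, hvx i₀ hi₀', mul_one]
  have hcoe : (((∑ i : Fin e, η ^ (i : ℕ) * xt i : S₀.O) : S₀.O) : F) =
      ∑ i : Fin e, (η : F) ^ (i : ℕ) * ((xt i : S₀.O) : F) := by
    rw [AddSubmonoidClass.coe_finsetSum]
    rfl
  have hsplit : ∑ i : Fin e, (η : F) ^ (i : ℕ) * ((xt i : S₀.O) : F) =
      (η : F) ^ (i₀ : ℕ) * ((xt i₀ : S₀.O) : F) +
        ∑ i ∈ Finset.univ.erase i₀, (η : F) ^ (i : ℕ) * ((xt i : S₀.O) : F) :=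
    (Finset.add_sum_erase Finset.univ (fun i : Fin e => (η : F) ^ (i : ℕ) * ((xt i : S₀.O) : F))
      (Finset.mem_univ i₀)).symm
  have hrest : S.vMid.O.valuation
      (∑ i ∈ Finset.univ.erase i₀, (η : F) ^ (i : ℕ) * ((xt i : S₀.O) : F)) <
      S.vMid.O.valuation (η : F) ^ (i₀ : ℕ) := by
    refine Valuation.map_sum_lt _ (pow_ne_zero _ hη0) fun i hi => ?_
    have hne : i ≠ i₀ := (Finset.mem_erase.mp hi).1
    by_cases h0 : x i = 0
    · rw [hxt0 i h0]
      simp only [ZeroMemClass.coe_zero, mul_zero, map_zero]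
      exact pow_pos hηpos _
    · have hle : (i₀ : ℕ) ≤ (i : ℕ) :=
        hmin i (Finset.mem_filter.mpr ⟨Finset.mem_univ _, h0⟩)
      have hlt : (i₀ : ℕ) < (i : ℕ) :=
        lt_of_le_of_ne hle (fun heq => hne (Fin.ext heq.symm))
      rw [map_mul, map_pow, hvx i h0, mul_one]
      exact pow_lt_pow_right_of_lt_one₀ hηpos hη1 hlt
  have hvW' : S.vMid.O.valuation (((∑ i : Fin e, η ^ (i : ℕ) * xt i : S₀.O) : S₀.O) : F) =
      S.vMid.O.valuation (η : F) ^ (i₀ : ℕ) := by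
    rw [hcoe, hsplit, Valuation.map_add_eq_of_lt_left _ (by rw [hterm]; exact hrest), hterm]
  rw [hvW', ← hη] at hvW
  exact not_lt_of_ge hvW (pow_lt_pow_right_of_lt_one₀ hηpos hη1 i₀.2)

/-- **the components of a `NodeSetup`**: thin components `C_∞` (`true`), `C_0` (`false`), thick
component `C_mid` of multiplicity `e`. -/
theorem g3_exists (h : G3Hyp S S₀ q e) :
    ∃ G : G3Data S₀ κ Bool e, G.ρT true = h.ρI ∧ G.ρT false = h.ρZ ∧ G.ρM = h.ρM := by
  obtain ⟨η, hηI, hηZ, hη⟩ := h.exists_unif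
  refine ⟨{ ρT := fun b => if b then h.ρI else h.ρZ
            ρM := h.ρM
            η := η
            η_T := ?_
            liftT := ?_
            liftM := ?_
            indep := h.indep η hη }, by simp, by simp, rfl⟩
  · intro t
    cases t
    · simpa using hηZ
    · simpa using hηI
  · intro t w
    cases t
    · obtain ⟨x, h1, h2, h3⟩ := h.liftZ w
      refine ⟨x, by simpa using h1, ?_, h3⟩
      intro t' ht'
      cases t'
      · exact absurd rfl ht'
      · simpa using h2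
    · obtain ⟨x, h1, h2, h3⟩ := h.liftI w
      refine ⟨x, by simpa using h1, ?_, h2⟩
      intro t' ht'
      cases t'
      · simpa using h3
      · exact absurd rfl ht'
  · intro w
    obtain ⟨x, h1, h2, h3⟩ := h.liftM w
    refine ⟨x, h1, ?_⟩
    intro t
    cases t
    · simpa using h3
    · simpa using h2

end G3Hyp

end Fermat.Agent.S36lib

end
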