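import Mathlib
import Fermat.Agent.S36lib.Reg3Local
import Fermat.Agent.RRlib.InstSepKaehler
import Fermat.Agent.RRlib.Hurwitz
import Fermat.Agent.RRlib.KaehlerLink

/-!
# Item 83 (S36), piece R-4(a),(b) (helper5): REG3, the COUNT

(`NOTES/S36_reg3_helper5.md`.)  At a closed point `P` of the component `C_mid` (multiplicity
`e = q - 1`) of the normal model which is not a node (and not a cusp: `B = B_j`), the prime
`p_mid B_P` is generated by `π_x := φ₁ x - φ₂ x` (`φ₁ = αα'`, `φ₂ = ββ'`, `x` a function of level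
`M'` whose reduction is a uniformiser at `P`).  By the local criterion `reg3_mid_dvd`
(helper10, `Reg3Local.lean`) it suffices to have `s π_x ^ e = q b` with `s, b ∈ B`, `s, b ∉ P`.

* `reg3_taylor_derivation`, `reg3_taylor` **(T1)**: for two ring homomorphisms `φ₁, φ₂ : R' → O`
  with the same reduction `red'` (onto `κ`) and `ker red = π₀ O`, `π₀ = φ₁ x₀ - φ₂ x₀`:
  `y ↦ red ((φ₁ y - φ₂ y) / π₀)` is a `k`-derivation of `κ`, so
  `red ((φ₁ y - φ₂ y) / π₀) = dy / dx₀`.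
* `reg3_divisor_eq_of_le`: a divisor `W ≤ bound` pointwise with `Σ bound ≤ deg W` is `= bound`.
* `Reg3CountHyp`: the hypotheses of the count, over a `NodeSetup` with `Reg3Hyp`.
* `Reg3CountHyp.bound` **(T2), (T3)**: `W(w) ≤ ord_w (red_mid s)` for `s ∈ p_∞ ∩ p_0`,
  `W := e · div (dx₀) - div (b₀)`, `b₀ := red_mid (π₀ ^ e / q)`.
* `Reg3CountHyp.W_eq_zero`: the count, `W(w) = 0` off the nodes and the cusps
  (and `W = 2` at the nodes, `W = -e` at the cusps).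
* `Reg3CountHyp.exists_generator`, `reg3_count_main`: for `w` not a node, not a cusp:
  `s π_x ^ e = q b`, `red_mid b ≠ 0`, `ord_w (red_mid b) = 0 = ord_w (red_mid s)`; hence for a
  prime `P` of `B` which contains no `z` with `ord_w (red_mid z) = 0`: the input of
  `reg3_mid_dvd` / `reg3_mid_ufm`.
-/

set_option autoImplicit false
set_option linter.style.haveILetI false
set_option linter.unusedSectionVars false

noncomputable section

namespace Fermat.Agent.S36lib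

open AlgebraicCurve KaehlerDifferential Fermat.Agent.RRlib Fermat.Agent.FFlib
  Fermat.Agent.S24lib

/-! ### (T1) the Taylor derivation -/

section Taylor

variable {k κ : Type*} [Field k] [Field κ] [Algebra k κ]
variable {R' : Type*} [CommRing R'] {O : Type*} [CommRing O] [IsDomain O]

/-- the difference quotient `(φ₁ y - φ₂ y) / π₀` of two ring homomorphisms which are congruent
modulo the ideal `π₀ O = ker red` -/

theorem reg3_dq_exists (red : O →+* κ) (red' : R' →+* κ) (φ₁ φ₂ : R' →+* O)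
    (h₁ : ∀ y, red (φ₁ y) = red' y) (h₂ : ∀ y, red (φ₂ y) = red' y)
    (π₀ : O) (hgen : ∀ z : O, red z = 0 → ∃ u : O, z = π₀ * u) (y : R') :
    ∃ u : O, φ₁ y - φ₂ y = π₀ * u :=
  hgen _ (by rw [map_sub, h₁, h₂, sub_self])

/-- **(T1), the Taylor derivation.**  Two ring homomorphisms `φ₁, φ₂ : R' → O` with the same
reduction `red' : R' → κ` (onto), `ker red = π₀ O`; then `y ↦ red ((φ₁ y - φ₂ y) / π₀)` is a
`k`-derivation of `κ`, provided it kills `ker red'` and the constants. -/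
theorem reg3_taylor_derivation (red : O →+* κ) (red' : R' →+* κ)
    (hred' : Function.Surjective red') (φ₁ φ₂ : R' →+* O)
    (h₁ : ∀ y, red (φ₁ y) = red' y) (h₂ : ∀ y, red (φ₂ y) = red' y)
    (π₀ : O) (hπ₀ : π₀ ≠ 0) (hgen : ∀ z : O, red z = 0 → ∃ u : O, z = π₀ * u)
    (hunr : ∀ y : R', red' y = 0 → ∃ u : O, red u = 0 ∧ φ₁ y - φ₂ y = π₀ * u)
    (hconst : ∀ c : k, ∃ y : R', red' y = algebraMap k κ c ∧ φ₁ y = φ₂ y) :
    ∃ Δ : Derivation k κ κ, ∀ (y : R') (u : O), φ₁ y - φ₂ y = π₀ * u → Δ (red' y) = red u := by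
  classical
  -- the difference quotient on `R'`
  have hex := reg3_dq_exists red red' φ₁ φ₂ h₁ h₂ π₀ hgen
  choose dq0 hdq0 using hex
  set dq : R' → κ := fun y => red (dq0 y) with hdq
  have huniq : ∀ (y : R') (u : O), φ₁ y - φ₂ y = π₀ * u → dq y = red u := by
    intro y u hu
    have : dq0 y = u := mul_left_cancel₀ hπ₀ ((hdq0 y).symm.trans hu)
    simp only [hdq, this]
  have hadd : ∀ y y', dq (y + y') = dq y + dq y' := by
    intro y y'
    rw [huniq (y + y') (dq0 y + dq0 y') (by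
      rw [map_add, map_add, mul_add, ← hdq0 y, ← hdq0 y']; ring), map_add]
  have hmul : ∀ y y', dq (y * y') = red' y * dq y' + red' y' * dq y := by
    intro y y'
    rw [huniq (y * y') (φ₁ y * dq0 y' + φ₂ y' * dq0 y) (by
      rw [map_mul, map_mul, mul_add]
      have e1 := hdq0 y
      have e2 := hdq0 y'
      calc φ₁ y * φ₁ y' - φ₂ y * φ₂ y'
          = φ₁ y * (φ₁ y' - φ₂ y') + φ₂ y' * (φ₁ y - φ₂ y) := by ring
        _ = φ₁ y * (π₀ * dq0 y') + φ₂ y' * (π₀ * dq0 y) := by rw [e1, e2]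
        _ = π₀ * (φ₁ y * dq0 y') + π₀ * (φ₂ y' * dq0 y) := by ring), map_add, map_mul,
      map_mul, h₁, h₂]
  have hzero : ∀ y, red' y = 0 → dq y = 0 := by
    intro y hy
    obtain ⟨u, hu0, hu⟩ := hunr y hy
    rw [huniq y u hu, hu0]
  have hneg : ∀ y, dq (-y) = -dq y := by
    intro y
    rw [huniq (-y) (-dq0 y) (by rw [map_neg, map_neg, mul_neg, ← hdq0 y]; ring), map_neg]
  have hwd : ∀ y y', red' y = red' y' → dq y = dq y' := by
    intro y y' h
    have h0 : dq (y + -y') = 0 := hzero _ (by rw [map_add, map_neg, h, add_neg_cancel])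
    rw [hadd, hneg] at h0
    exact add_neg_eq_zero.1 h0
  have heq : ∀ y, φ₁ y = φ₂ y → dq y = 0 := by
    intro y hy
    rw [huniq y 0 (by rw [hy, sub_self, mul_zero]), map_zero]
  -- the function on `κ`
  set Δf : κ → κ := fun c => dq (Function.surjInv hred' c) with hΔf
  have hΔ : ∀ y : R', Δf (red' y) = dq y := fun y =>
    hwd _ _ (Function.surjInv_eq hred' (red' y))
  have hsurj : ∀ c : κ, ∃ y, red' y = c := hred'
  have hΔadd : ∀ a b : κ, Δf (a + b) = Δf a + Δf b := by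
    intro a b
    obtain ⟨y, rfl⟩ := hsurj a
    obtain ⟨y', rfl⟩ := hsurj b
    rw [← map_add, hΔ, hΔ, hΔ, hadd]
  have hΔmul : ∀ a b : κ, Δf (a * b) = a * Δf b + b * Δf a := by
    intro a b
    obtain ⟨y, rfl⟩ := hsurj a
    obtain ⟨y', rfl⟩ := hsurj b
    rw [← map_mul, hΔ, hΔ, hΔ, hmul]
  have hΔconst : ∀ c : k, Δf (algebraMap k κ c) = 0 := by
    intro c
    obtain ⟨y, hy, hyφ⟩ := hconst c
    rw [← hy, hΔ, heq y hyφ]
  let L : κ →ₗ[k] κ :=
    { toFun := Δf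
      map_add' := hΔadd
      map_smul' := by
        intro c a
        rw [Algebra.smul_def, hΔmul, hΔconst, mul_zero, add_zero, RingHom.id_apply,
          Algebra.smul_def] }
  refine ⟨Derivation.mk' L (fun a b => by
    show Δf (a * b) = a • Δf b + b • Δf a
    rw [hΔmul, smul_eq_mul, smul_eq_mul]), ?_⟩
  intro y u hu
  show Δf (red' y) = red u
  rw [hΔ, huniq y u hu]

/-- **(T1)**: `red ((φ₁ y - φ₂ y) / π₀) = dy/dx₀` if `π₀ = φ₁ x₀ - φ₂ x₀`. -/
theorem reg3_taylor (red : O →+* κ) (red' : R' →+* κ)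
    (hred' : Function.Surjective red') (φ₁ φ₂ : R' →+* O)
    (h₁ : ∀ y, red (φ₁ y) = red' y) (h₂ : ∀ y, red (φ₂ y) = red' y)
    (x₀ : R') (hπ₀ : φ₁ x₀ - φ₂ x₀ ≠ 0)
    (hgen : ∀ z : O, red z = 0 → ∃ u : O, z = (φ₁ x₀ - φ₂ x₀) * u)
    (hunr : ∀ y : R', red' y = 0 → ∃ u : O, red u = 0 ∧ φ₁ y - φ₂ y = (φ₁ x₀ - φ₂ x₀) * u)
    (hconst : ∀ c : k, ∃ y : R', red' y = algebraMap k κ c ∧ φ₁ y = φ₂ y) :
    D k κ (red' x₀) ≠ 0 ∧
    ∀ (y : R') (u : O) (g : κ), φ₁ y - φ₂ y = (φ₁ x₀ - φ₂ x₀) * u →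
      D k κ (red' y) = g • D k κ (red' x₀) → red u = g := by
  obtain ⟨Δ, hΔ⟩ := reg3_taylor_derivation red red' hred' φ₁ φ₂ h₁ h₂ _ hπ₀ hgen hunr hconst
  have h1 : Δ (red' x₀) = 1 := by
    rw [hΔ x₀ 1 (by rw [mul_one]), map_one]
  have hlift : ∀ c : κ, Δ.liftKaehlerDifferential (D k κ c) = Δ c := fun c =>
    Derivation.liftKaehlerDifferential_comp_D Δ c
  refine ⟨fun h0 => ?_, fun y u g hu hg => ?_⟩
  · have := hlift (red' x₀)
    rw [h0, map_zero, h1] at this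
    exact zero_ne_one this
  · have := hlift (red' y)
    rw [hg, map_smul, hlift, h1, smul_eq_mul, mul_one, hΔ y u hu] at this
    exact this.symm

end Taylor

/-! ### the count for divisors -/

section Count

variable {k κ : Type*} [Field k] [Field κ] [Algebra k κ]

/-- a divisor bounded above pointwise by `bound` (supported on `T`) whose degree is at least
`Σ bound` is equal to `bound` everywhere. -/
theorem reg3_divisor_eq_of_le [RRBase k κ] (Wd : Divisor k κ) (bound : Place k κ → ℤ)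
    (T : Finset (Place k κ)) (hT : ∀ v, v ∉ T → bound v = 0) (hle : ∀ v, Wd v ≤ bound v)
    (hdeg : ∑ v ∈ T, bound v ≤ Divisor.degree Wd) : ∀ v, Wd v = bound v := by
  classical
  set U : Finset (Place k κ) := Wd.support ∪ T with hU
  have h1 : Divisor.degree Wd = ∑ v ∈ U, Wd v := by
    rw [degree_eq_sum, Finsupp.sum]
    refine Finset.sum_subset Finset.subset_union_left fun v _ hv => ?_
    exact Finsupp.notMem_support_iff.1 hv
  have h2 : ∑ v ∈ T, bound v = ∑ v ∈ U, bound v := by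
    refine Finset.sum_subset Finset.subset_union_right fun v _ hv => hT v hv
  have h3 : ∑ v ∈ U, (bound v - Wd v) ≤ 0 := by
    rw [Finset.sum_sub_distrib, ← h1, ← h2]
    linarith
  have h4 : ∀ v ∈ U, bound v - Wd v = 0 := by
    have hnn : ∀ v ∈ U, 0 ≤ bound v - Wd v := fun v _ => by linarith [hle v]
    have h5 : ∑ v ∈ U, (bound v - Wd v) = 0 := le_antisymm h3 (Finset.sum_nonneg hnn)
    exact (Finset.sum_eq_zero_iff_of_nonneg hnn).1 h5
  intro v
  by_cases hv : v ∈ U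
  · linarith [h4 v hv]
  · have hv1 : v ∉ Wd.support := fun h => hv (Finset.mem_union_left _ h)
    have hv2 : v ∉ T := fun h => hv (Finset.mem_union_right _ h)
    rw [Finsupp.notMem_support_iff.1 hv1, hT v hv2]

theorem reg3_ord_pow (v : Place k κ) (f : κ) (n : ℕ) : v.ord (f ^ n) = n * v.ord f := by
  rw [← zpow_natCast, v.ord_zpow]

end Count

/-! ### the count over a `NodeSetup` -/

section Main

variable {K : Type*} [Field K] {k : Type*} [Field k] {A : ValuationSubring K} {π : A →+* k}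
  {κ : Type*} [Field κ] [Algebra k κ] {F : Type*} [Field F] [Algebra K F]

/-- **The hypotheses of the count (REG3).**  `R'` is the valuation ring of level `M'`
(reduction `red'` onto `κ`), `φ₁ = αα'`, `φ₂ = ββ' : R' → O_mid` have the same reduction,
`x₀` is a reference function (`j`) with `π₀ := φ₁ x₀ - φ₂ x₀` of exact value `v(q) / e`
(`π₀ ^ e = q y₀`, `y₀` a unit of `O_mid`), `cusps` and `nodes` are finite sets of places of `κ`. -/
structure Reg3CountHyp (S : NodeSetup A π κ F) (q : S.B) (e : ℕ) (R' : Type*) [CommRing R']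
    (red' : R' →+* κ) (φ₁ φ₂ : R' →+* S.vMid.O) (x₀ : R') (y₀ : S.vMid.O)
    (cusps nodes : Finset (Place k κ)) : Prop where
  red'_surjective : Function.Surjective red'
  red_φ₁ : ∀ y, S.vMid.red (φ₁ y) = red' y
  red_φ₂ : ∀ y, S.vMid.red (φ₂ y) = red' y
  /-- `π₀ ^ e = q y₀` -/
  pow_eq : ((φ₁ x₀ - φ₂ x₀ : S.vMid.O) : F) ^ e = (q : F) * (y₀ : F)
  /-- `y₀ = π₀ ^ e / q` is a unit of `O_mid` -/
  red_y₀ : S.vMid.red y₀ ≠ 0
  /-- level `M'` is unramified: `φ₁ y - φ₂ y ∈ π₀ 𝔪` for `y ∈ ker red'` (`y = q y'`) -/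
  unr : ∀ y : R', red' y = 0 →
    ∃ u : S.vMid.O, S.vMid.red u = 0 ∧ φ₁ y - φ₂ y = (φ₁ x₀ - φ₂ x₀) * u
  /-- constants -/
  const : ∀ c : k, ∃ y : R', red' y = algebraMap k κ c ∧ φ₁ y = φ₂ y
  disj : Disjoint nodes cusps
  /-- the reductions of the elements of `B` are regular off the cusps -/
  aff : ∀ w : Place k κ, w ∉ cusps → ∀ z : S.B, 0 ≤ w.ord (S.redMid z)
  /-- uniformisers at the non-cuspidal places lift to functions of level `M'` regular off the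
  cusps -/
  lift : ∀ w : Place k κ, w ∉ cusps → ∃ x : R', w.ord (red' x) = 1 ∧
    ((φ₁ x : S.vMid.O) : F) ∈ S.B ∧ ((φ₂ x : S.vMid.O) : F) ∈ S.B
  /-- off the nodes and the cusps the component `C_mid` does not meet `C_∞ ∪ C_0` -/
  nonnode : ∀ w : Place k κ, w ∉ cusps → w ∉ nodes →
    ∃ s : S.B, s ∈ S.pInf ∧ s ∈ S.pZero ∧ S.redMid s ≠ 0 ∧ w.ord (S.redMid s) = 0
  /-- (REG2) at a node the intersection numbers `C_mid . C_∞`, `C_mid . C_0` are `1` -/
  node : ∀ t ∈ nodes,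
    ∃ s : S.B, s ∈ S.pInf ∧ s ∈ S.pZero ∧ S.redMid s ≠ 0 ∧ t.ord (S.redMid s) ≤ 2
  /-- (T4) the bound at the cusps -/
  cusp : ∀ c ∈ cusps,
    (e : ℤ) * c.ordDifferential (D k κ (red' x₀)) - c.ord (S.vMid.red y₀) ≤ -(e : ℤ)
  /-- the numerics `(q - 1)(2 g' - 2) = 2 s - (q - 1) c'` (only `≥` is needed) -/
  num : 2 * (nodes.card : ℤ) - e * cusps.card ≤ (e : ℤ) * (2 * (genusFF k κ : ℤ) - 2)

namespace Reg3CountHyp

variable {S : NodeSetup A π κ F} {q : S.B} {e : ℕ} {R' : Type*} [CommRing R']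
  {red' : R' →+* κ} {φ₁ φ₂ : R' →+* S.vMid.O} {x₀ : R'} {y₀ : S.vMid.O}
  {cusps nodes : Finset (Place k κ)}

theorem π₀_ne_zero (H : Reg3Hyp S q e)
    (C : Reg3CountHyp S q e R' red' φ₁ φ₂ x₀ y₀ cusps nodes) : φ₁ x₀ - φ₂ x₀ ≠ 0 := by
  intro h0
  have h1 := C.pow_eq
  rw [h0, ZeroMemClass.coe_zero, zero_pow H.e_pos.ne'] at h1
  have hq : (q : F) ≠ 0 := fun h => H.q_ne (Subtype.ext h)
  have hy : (y₀ : F) = 0 := by
    rcases mul_eq_zero.1 h1.symm with h | h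
    · exact absurd h hq
    · exact h
  apply C.red_y₀
  have : y₀ = 0 := Subtype.ext hy
  rw [this, map_zero]

/-- `𝔪_mid = π₀ O_mid` -/
theorem gen (H : Reg3Hyp S q e) (C : Reg3CountHyp S q e R' red' φ₁ φ₂ x₀ y₀ cusps nodes)
    (z : S.vMid.O) (hz : S.vMid.red z = 0) : ∃ u : S.vMid.O, z = (φ₁ x₀ - φ₂ x₀) * u := by
  have hπ₀ := C.π₀_ne_zero H
  have hπ₀F : ((φ₁ x₀ - φ₂ x₀ : S.vMid.O) : F) ≠ 0 := fun h => hπ₀ (Subtype.ext h)
  have hq : (q : F) ≠ 0 := fun h => H.q_ne (Subtype.ext h)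
  have hy₀ : (y₀ : F) ≠ 0 := by
    intro h
    apply C.red_y₀
    have : y₀ = 0 := Subtype.ext h
    rw [this, map_zero]
  -- `y₀` is a unit of `O_mid`
  have hy₀u : (y₀ : F)⁻¹ ∈ S.vMid.O := by
    by_contra hni
    have hnu : (y₀ : F) ∈ S.vMid.O.nonunits := by
      rw [ValuationSubring.mem_nonunits_iff]
      have hle : S.vMid.O.valuation (y₀ : F) ≤ 1 := (S.vMid.O.valuation_le_one_iff _).2 y₀.2
      rcases lt_or_eq_of_le hle with h | h
      · exact h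
      · exfalso
        apply hni
        rw [← S.vMid.O.valuation_le_one_iff, map_inv₀, h, inv_one]
    exact C.red_y₀ ((S.vMid.red_eq_zero_iff y₀).2 hnu)
  obtain ⟨y, hy, hyeq⟩ := H.ramMid (z : F) ((S.vMid.red_eq_zero_iff z).1 hz)
  -- `(z / π₀) ^ e = y / y₀ ∈ O_mid`
  have hpow : ((z : F) / ((φ₁ x₀ - φ₂ x₀ : S.vMid.O) : F)) ^ e ∈ S.vMid.O := by
    have : ((z : F) / ((φ₁ x₀ - φ₂ x₀ : S.vMid.O) : F)) ^ e = y * (y₀ : F)⁻¹ := by
      rw [div_pow, hyeq, C.pow_eq]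
      field_simp
    rw [this]
    exact S.vMid.O.mul_mem _ _ hy hy₀u
  have hmem := reg3_mem_of_pow_mem S.vMid.O _ e H.e_pos hpow
  refine ⟨⟨_, hmem⟩, Subtype.ext ?_⟩
  show (z : F) = ((φ₁ x₀ - φ₂ x₀ : S.vMid.O) : F) *
    ((z : F) / ((φ₁ x₀ - φ₂ x₀ : S.vMid.O) : F))
  field_simp

/-- the data of (T1) -/
theorem taylor (H : Reg3Hyp S q e) (C : Reg3CountHyp S q e R' red' φ₁ φ₂ x₀ y₀ cusps nodes) :
    D k κ (red' x₀) ≠ 0 ∧
    ∀ (y : R') (u : S.vMid.O) (g : κ), φ₁ y - φ₂ y = (φ₁ x₀ - φ₂ x₀) * u →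
      D k κ (red' y) = g • D k κ (red' x₀) → S.vMid.red u = g :=
  reg3_taylor S.vMid.red red' C.red'_surjective φ₁ φ₂ C.red_φ₁ C.red_φ₂ x₀ (C.π₀_ne_zero H)
    (C.gen H) C.unr C.const

/-- the element `b = s π_x ^ e / q ∈ B` and its reduction `red_mid s · b₀ · (red u) ^ e`,
`π_x = π₀ u` -/
theorem exists_b (H : Reg3Hyp S q e)
    (C : Reg3CountHyp S q e R' red' φ₁ φ₂ x₀ y₀ cusps nodes) (x : R')
    (hx₁ : ((φ₁ x : S.vMid.O) : F) ∈ S.B) (hx₂ : ((φ₂ x : S.vMid.O) : F) ∈ S.B)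
    (s : S.B) (hsInf : s ∈ S.pInf) (hsZero : s ∈ S.pZero) (u : S.vMid.O)
    (hu : φ₁ x - φ₂ x = (φ₁ x₀ - φ₂ x₀) * u) :
    ∃ πx b : S.B, (πx : F) = ((φ₁ x : S.vMid.O) : F) - ((φ₂ x : S.vMid.O) : F) ∧
      πx ∈ S.pMid ∧ s * πx ^ e = q * b ∧
      S.redMid b = S.redMid s * S.vMid.red y₀ * S.vMid.red u ^ e := by
  have hq : (q : F) ≠ 0 := fun h => H.q_ne (Subtype.ext h)
  set πx : S.B := ⟨((φ₁ x : S.vMid.O) : F) - ((φ₂ x : S.vMid.O) : F), S.B.sub_mem hx₁ hx₂⟩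
    with hπx
  have hπxO : (⟨(πx : F), S.B_le_mid πx.2⟩ : S.vMid.O) = φ₁ x - φ₂ x := Subtype.ext rfl
  have hπxmid : πx ∈ S.pMid := by
    show S.redMid πx = 0
    show S.vMid.red ⟨(πx : F), S.B_le_mid πx.2⟩ = 0
    rw [hπxO, map_sub, C.red_φ₁, C.red_φ₂, sub_self]
  -- the element `b` in `F`
  set bF : F := (s : F) * (y₀ : F) * (u : F) ^ e with hbF
  have hπxu : (πx : F) = ((φ₁ x₀ - φ₂ x₀ : S.vMid.O) : F) * (u : F) := by
    have := congrArg (fun t : S.vMid.O => (t : F)) hu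
    simpa using this
  have hqb : (q : F) * bF = (s : F) * (πx : F) ^ e := by
    rw [hπxu, mul_pow, C.pow_eq, hbF]
    ring
  have hmid : bF ∈ S.vMid.O :=
    S.vMid.O.mul_mem _ _ (S.vMid.O.mul_mem _ _ (S.B_le_mid s.2) y₀.2) (S.vMid.O.pow_mem u.2 e)
  have hinf : bF ∈ S.vInf.O := by
    obtain ⟨s', hs', hss'⟩ := H.ramInf _ ((S.mem_pInf_iff s).1 hsInf)
    have : bF = s' * (πx : F) ^ e := by
      apply mul_left_cancel₀ hq
      rw [hqb, hss']
      ring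
    rw [this]
    exact S.vInf.O.mul_mem _ _ hs' (S.vInf.O.pow_mem (S.B_le_inf πx.2) e)
  have hzero : bF ∈ S.vZero.O := by
    obtain ⟨s', hs', hss'⟩ := H.ramZero _ ((S.mem_pZero_iff s).1 hsZero)
    have : bF = s' * (πx : F) ^ e := by
      apply mul_left_cancel₀ hq
      rw [hqb, hss']
      ring
    rw [this]
    exact S.vZero.O.mul_mem _ _ hs' (S.vZero.O.pow_mem (S.B_le_zero πx.2) e)
  have hbB : bF ∈ S.B := by
    refine H.sat bF ⟨⟨hinf, hmid⟩, hzero⟩ ?_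
    rw [hqb]
    exact S.B.mul_mem s.2 (S.B.pow_mem πx.2 e)
  refine ⟨πx, ⟨bF, hbB⟩, rfl, hπxmid, Subtype.ext ?_, ?_⟩
  · push_cast
    rw [hqb]
  · show S.vMid.red ⟨bF, S.B_le_mid hbB⟩ = S.vMid.red ⟨(s : F), S.B_le_mid s.2⟩ * _ * _
    rw [← map_pow, ← map_mul, ← map_mul]
    congr 1

section RR

variable [IsAlgClosed k] {xs : κ} [hsep : FFSep k xs]

include hsep in
/-- **(T1) + (T2)**: for `x` of level `M'` whose reduction is a uniformiser at `w ∉ cusps` and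
`s ∈ p_∞ ∩ p_0`: `b := s π_x ^ e / q ∈ B` has
`ord_w (red_mid b) = ord_w (red_mid s) - W(w)`, `W := e · div (dx₀) - div (b₀)`. -/
theorem ord_b (H : Reg3Hyp S q e)
    (C : Reg3CountHyp S q e R' red' φ₁ φ₂ x₀ y₀ cusps nodes) (w : Place k κ) (x : R')
    (hxw : w.ord (red' x) = 1)
    (hx₁ : ((φ₁ x : S.vMid.O) : F) ∈ S.B) (hx₂ : ((φ₂ x : S.vMid.O) : F) ∈ S.B)
    (s : S.B) (hsInf : s ∈ S.pInf) (hsZero : s ∈ S.pZero) (hs0 : S.redMid s ≠ 0) :
    ∃ πx b : S.B, (πx : F) = ((φ₁ x : S.vMid.O) : F) - ((φ₂ x : S.vMid.O) : F) ∧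
      πx ∈ S.pMid ∧ s * πx ^ e = q * b ∧ S.redMid b ≠ 0 ∧
      w.ord (S.redMid b) = w.ord (S.redMid s) -
        ((e : ℤ) * w.ordDifferential (D k κ (red' x₀)) - w.ord (S.vMid.red y₀)) := by
  haveI : RRBase k κ := rrBase_of_ffSep (K := k) xs
  haveI : Nontrivial Ω[κ⁄k] := fsNontrivial_kaehler (K := k) (x := xs)
  haveI : w.DCoordGenerates := fsDCoordGenerates (K := k) (x := xs) w
  obtain ⟨hD₀, hT⟩ := C.taylor H
  obtain ⟨u, hu⟩ := C.gen H (φ₁ x - φ₂ x) (by rw [map_sub, C.red_φ₁, C.red_φ₂, sub_self])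
  obtain ⟨πx, b, hπx, hπxmid, hsb, hredb⟩ := C.exists_b H x hx₁ hx₂ s hsInf hsZero u hu
  -- `dx = g dx₀`
  have hspan : D k κ (red' x) ∈ Submodule.span κ {D k κ (red' x₀)} := by
    rw [fsSpan_D_eq_top_of_ne_zero (K := k) (x := xs) hD₀]
    exact Submodule.mem_top
  obtain ⟨g, hg⟩ := Submodule.mem_span_singleton.1 hspan
  have hug : S.vMid.red u = g := hT x u g hu hg.symm
  have hDx : D k κ (red' x) ≠ 0 := D_ne_zero_of_ord_eq_one w hxw
  have hg0 : g ≠ 0 := by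
    rintro rfl
    rw [zero_smul] at hg
    exact hDx hg.symm
  have hordDx : w.ordDifferential (D k κ (red' x)) = 0 := by
    rw [hw_ordDifferential_D_eq w (by rw [hxw]; simp), hxw, sub_self]
  have hordg : w.ord g = -w.ordDifferential (D k κ (red' x₀)) := by
    have h1 := kl_ordDifferential_smul w hD₀ hg0
    rw [hg, hordDx] at h1
    linarith
  have hb₀ : S.vMid.red y₀ ≠ 0 := C.red_y₀
  refine ⟨πx, b, hπx, hπxmid, hsb, ?_, ?_⟩
  · rw [hredb, hug]
    exact mul_ne_zero (mul_ne_zero hs0 hb₀) (pow_ne_zero _ hg0)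
  · rw [hredb, hug, w.ord_mul (mul_ne_zero hs0 hb₀) (pow_ne_zero _ hg0), w.ord_mul hs0 hb₀,
      reg3_ord_pow, hordg]
    ring

include hsep in
/-- **(T2), (T3)**: `W(w) ≤ ord_w (red_mid s)` for `w ∉ cusps`, `s ∈ p_∞ ∩ p_0`. -/
theorem bound (H : Reg3Hyp S q e)
    (C : Reg3CountHyp S q e R' red' φ₁ φ₂ x₀ y₀ cusps nodes) (w : Place k κ) (hw : w ∉ cusps)
    (s : S.B) (hsInf : s ∈ S.pInf) (hsZero : s ∈ S.pZero) (hs0 : S.redMid s ≠ 0) :
    (e : ℤ) * w.ordDifferential (D k κ (red' x₀)) - w.ord (S.vMid.red y₀) ≤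
      w.ord (S.redMid s) := by
  obtain ⟨x, hxw, hx₁, hx₂⟩ := C.lift w hw
  obtain ⟨πx, b, -, -, -, -, hord⟩ :=
    C.ord_b (xs := xs) H w x hxw hx₁ hx₂ s hsInf hsZero hs0
  have := C.aff w hw b
  linarith

open Classical in
include hsep in
/-- **The count.**  `W = e · div (dx₀) - div (b₀)` is `2` at the nodes, `-e` at the cusps and
`0` elsewhere. -/
theorem W_eq (H : Reg3Hyp S q e)
    (C : Reg3CountHyp S q e R' red' φ₁ φ₂ x₀ y₀ cusps nodes) (w : Place k κ) :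
    (e : ℤ) * w.ordDifferential (D k κ (red' x₀)) - w.ord (S.vMid.red y₀) =
      if w ∈ nodes then 2 else if w ∈ cusps then -(e : ℤ) else 0 := by
  haveI : RRBase k κ := rrBase_of_ffSep (K := k) xs
  haveI : HasCanonicalDivisor (K := k) (F := κ) := fsHasCanonicalDivisor (K := k) (x := xs)
  obtain ⟨hD₀, -⟩ := C.taylor H
  set Wd : Divisor k κ := (e : ℤ) • canonicalDivisorOf hD₀ - divOf (K := k) (S.vMid.red y₀)
    with hWd
  have hWdv : ∀ v : Place k κ, Wd v =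
      (e : ℤ) * v.ordDifferential (D k κ (red' x₀)) - v.ord (S.vMid.red y₀) := by
    intro v
    rw [hWd, Finsupp.sub_apply, Finsupp.smul_apply, canonicalDivisorOf_apply, divOf_apply',
      smul_eq_mul]
  have hdeg : Divisor.degree Wd = (e : ℤ) * (2 * (genusFF k κ : ℤ) - 2) := by
    rw [hWd, map_sub, map_zsmul, fsDegree_canonical (K := k) (x := xs) hD₀, degree_divOf,
      sub_zero, smul_eq_mul]
  set bd : Place k κ → ℤ := fun v => if v ∈ nodes then 2 else if v ∈ cusps then -(e : ℤ) else 0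
    with hbd
  have hsum : ∑ v ∈ nodes ∪ cusps, bd v = 2 * (nodes.card : ℤ) - e * cusps.card := by
    rw [Finset.sum_union C.disj]
    have h1 : ∑ v ∈ nodes, bd v = 2 * (nodes.card : ℤ) := by
      rw [Finset.sum_congr rfl (fun v hv => by simp only [hbd, if_pos hv] : ∀ v ∈ nodes, bd v = 2),
        Finset.sum_const, nsmul_eq_mul]
      ring
    have h2 : ∑ v ∈ cusps, bd v = -((e : ℤ) * cusps.card) := by
      rw [Finset.sum_congr rfl (fun v hv => by
          have hvn : v ∉ nodes := fun h => (Finset.disjoint_left.1 C.disj h) hv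
          simp only [hbd, if_neg hvn, if_pos hv] : ∀ v ∈ cusps, bd v = -(e : ℤ)),
        Finset.sum_const, nsmul_eq_mul]
      ring
    rw [h1, h2]
    ring
  have hle : ∀ v, Wd v ≤ bd v := by
    intro v
    rw [hWdv]
    by_cases hvn : v ∈ nodes
    · have hvc : v ∉ cusps := fun h => (Finset.disjoint_left.1 C.disj hvn) h
      obtain ⟨s, hsInf, hsZero, hs0, hs2⟩ := C.node v hvn
      have := C.bound (xs := xs) H v hvc s hsInf hsZero hs0
      simp only [hbd, if_pos hvn]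
      linarith
    · by_cases hvc : v ∈ cusps
      · simp only [hbd, if_neg hvn, if_pos hvc]
        exact C.cusp v hvc
      · obtain ⟨s, hsInf, hsZero, hs0, hs2⟩ := C.nonnode v hvc hvn
        have := C.bound (xs := xs) H v hvc s hsInf hsZero hs0
        simp only [hbd, if_neg hvn, if_neg hvc]
        linarith
  have hT : ∀ v, v ∉ nodes ∪ cusps → bd v = 0 := by
    intro v hv
    rw [Finset.mem_union, not_or] at hv
    simp only [hbd, if_neg hv.1, if_neg hv.2]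
  have key := reg3_divisor_eq_of_le Wd bd (nodes ∪ cusps) hT hle (by
    rw [hsum, hdeg]
    exact C.num) w
  rw [← hWdv, key]

include hsep in
/-- **REG3, the generator** (place form): at a place `w` which is neither a cusp nor a node,
for every `x` of level `M'` whose reduction is a uniformiser at `w` and every `s ∈ p_∞ ∩ p_0`
not vanishing at `w`:  `s π_x ^ e = q b` with `b ∈ B` a unit at `w`. -/
theorem exists_generator (H : Reg3Hyp S q e)
    (C : Reg3CountHyp S q e R' red' φ₁ φ₂ x₀ y₀ cusps nodes) (w : Place k κ)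
    (hwc : w ∉ cusps) (hwn : w ∉ nodes) (x : R') (hxw : w.ord (red' x) = 1)
    (hx₁ : ((φ₁ x : S.vMid.O) : F) ∈ S.B) (hx₂ : ((φ₂ x : S.vMid.O) : F) ∈ S.B)
    (s : S.B) (hsInf : s ∈ S.pInf) (hsZero : s ∈ S.pZero) (hs0 : S.redMid s ≠ 0)
    (hsw : w.ord (S.redMid s) = 0) :
    ∃ πx b : S.B, (πx : F) = ((φ₁ x : S.vMid.O) : F) - ((φ₂ x : S.vMid.O) : F) ∧
      πx ∈ S.pMid ∧ s * πx ^ e = q * b ∧ S.redMid b ≠ 0 ∧ w.ord (S.redMid b) = 0 := by
  obtain ⟨πx, b, hπx, hmid, hsb, hb0, hord⟩ :=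
    C.ord_b (xs := xs) H w x hxw hx₁ hx₂ s hsInf hsZero hs0
  refine ⟨πx, b, hπx, hmid, hsb, hb0, ?_⟩
  rw [hord, C.W_eq (xs := xs) H w, if_neg hwn, if_neg hwc, hsw, sub_zero]

include hsep in
/-- **REG3 (count) ⟹ the input of the local criterion** `reg3_mid_dvd` / `reg3_mid_ufm`:
for a place `w` of `κ`, not a cusp, not a node, and an ideal `P` of `B` containing no element
whose reduction is a unit at `w`, there are `π₀ ∈ p_mid` and `w₁, b ∉ P` with
`w₁ π₀ ^ e = q b`. -/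
theorem exists_input (H : Reg3Hyp S q e)
    (C : Reg3CountHyp S q e R' red' φ₁ φ₂ x₀ y₀ cusps nodes) (w : Place k κ)
    (hwc : w ∉ cusps) (hwn : w ∉ nodes) (P : Ideal S.B)
    (hP : ∀ z : S.B, S.redMid z ≠ 0 → w.ord (S.redMid z) = 0 → z ∉ P) :
    ∃ π₀ w₁ b : S.B, π₀ ∈ S.pMid ∧ w₁ ∉ P ∧ b ∉ P ∧ w₁ * π₀ ^ e = q * b := by
  obtain ⟨x, hxw, hx₁, hx₂⟩ := C.lift w hwc
  obtain ⟨s, hsInf, hsZero, hs0, hsw⟩ := C.nonnode w hwc hwn
  obtain ⟨πx, b, -, hmid, hsb, hb0, hbw⟩ :=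
    C.exists_generator (xs := xs) H w hwc hwn x hxw hx₁ hx₂ s hsInf hsZero hs0 hsw
  exact ⟨πx, s, b, hmid, hP s hs0 hsw, hP b hb0 hbw, hsb⟩

end RR

end Reg3CountHyp

section Final

variable [IsAlgClosed k] {xs : κ} [hsep : FFSep k xs]
  {S : NodeSetup A π κ F} {q : S.B} {e : ℕ} {R' : Type*} [CommRing R']
  {red' : R' →+* κ} {φ₁ φ₂ : R' →+* S.vMid.O} {x₀ : R'} {y₀ : S.vMid.O}
  {cusps nodes : Finset (Place k κ)}

include hsep in
/-- **REG3**: `p_mid B_P = π B_P` at a prime `P ⊇ p_mid` of `B` lying over a place `w` of `κ`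
which is neither a cusp nor a node. -/
theorem reg3_count_dvd (H : Reg3Hyp S q e)
    (C : Reg3CountHyp S q e R' red' φ₁ φ₂ x₀ y₀ cusps nodes) (w : Place k κ)
    (hwc : w ∉ cusps) (hwn : w ∉ nodes) (P : Ideal S.B) [P.IsPrime] (hmid : S.pMid ≤ P)
    (hinf : ¬ S.pInf ≤ P) (hzero : ¬ S.pZero ≤ P)
    (hP : ∀ z : S.B, S.redMid z ≠ 0 → w.ord (S.redMid z) = 0 → z ∉ P) :
    ∃ π₀ : S.B, π₀ ∈ S.pMid ∧ ∀ z ∈ S.pMid, ∃ w' c : S.B, w' ∉ P ∧ w' * z = π₀ * c := by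
  obtain ⟨π₀, w₁, b, hπ₀, -, hb, hπ⟩ := C.exists_input (xs := xs) H w hwc hwn P hP
  exact ⟨π₀, hπ₀, reg3_mid_dvd H P hmid hinf hzero π₀ w₁ b hb hπ⟩

include hsep in
/-- **REG3**: `B_P` is factorial at a prime `P ⊋ p_mid` of `B` lying over a place `w` of `κ`
which is neither a cusp nor a node. -/
theorem reg3_count_ufm [IsNoetherianRing S.B] [IsDedekindDomain (S.B ⧸ S.pMid)]
    (H : Reg3Hyp S q e)
    (C : Reg3CountHyp S q e R' red' φ₁ φ₂ x₀ y₀ cusps nodes) (w : Place k κ)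
    (hwc : w ∉ cusps) (hwn : w ∉ nodes) (P : Ideal S.B) [P.IsPrime] (hmid : S.pMid ≤ P)
    (hne : S.pMid ≠ P) (hinf : ¬ S.pInf ≤ P) (hzero : ¬ S.pZero ≤ P)
    (hP : ∀ z : S.B, S.redMid z ≠ 0 → w.ord (S.redMid z) = 0 → z ∉ P) :
    UniqueFactorizationMonoid (Localization.AtPrime P) := by
  obtain ⟨π₀, w₁, b, -, hw₁, hb, hπ⟩ := C.exists_input (xs := xs) H w hwc hwn P hP
  exact reg3_mid_ufm H P hmid hne hinf hzero π₀ w₁ b hw₁ hb hπ

end Final

end Main

end Fermat.Agent.S36lib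

end
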