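import Mathlib
import Fermat.Agent.S36lib.VMidUnit
import Fermat.Agent.S36lib.ExpCalc
import Fermat.Agent.S36lib.Reg3Count
import Fermat.Agent.S34lib.InfPlace
import Fermat.Agent.GoodRed.ModRR
import Fermat.Agent.GM.Defs

/-!
# Item 83 (S36), piece R-5 (helper5): REG3, the bound (T4) at the cusp `∞'` of `C_mid`

At the cusps `c ≠ ∞'` the bound (T4) of `Reg3CountHyp` is `reg3_cusp_T4` (`Reg3Cusp.lean`).  At
`∞'` itself (where the functions of `B = B_{D1}` have poles) it is a computation with the middle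
expansion: `π₀ = π₁ j - π₃ j` has the expansion `j(X) - j(ζ X) = -(ζ - 1) Q`,
`Q := (j(ζ X) - j(X)) / (ζ - 1) = -X⁻¹ + …` an integral series, so
`y₀ = π₀ ^ e / q = c₀ Q ^ e`, `c₀ := (-1) ^ e (ζ - 1) ^ e / q` a unit of `A` (`e = q - 1`), and
`red y₀ = c̄₀ Q̄ ^ e` has `X`-order `-e`.  As `ord_{∞'} j̄ = -1` (tame), `ord_{∞'} (dj̄) = -2` and
`e · ord (dj̄) - ord (red y₀) = -2e + e = -e`.

* `reg3inf_order_quot`: `Q̄` has order `-1`;
* `reg3inf_apply_sub`: the middle expansion of `π₁ j - π₃ j`;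
* `reg3inf_const_val`: `c₀` is a unit of `A`;
* `reg3inf_isRep`, `reg3inf_mem`, `reg3inf_red_eq`, `reg3inf_red_ne_zero`, `reg3inf_red_order`:
  `y₀ ∈ O_mid`, `red y₀ = c̄₀ Q̄ ^ e ≠ 0` of order `-e`;
* `reg3inf_T4_place`: (T4) at a place `c` with `ord_c x̄₀ = -1`, `-e ≤ ord_c ȳ₀`;
* `reg3inf_T4`: (T4) at the place `infPlace κ` of an intermediate field `κ ⊆ k((X))`.
-/

set_option autoImplicit false
set_option linter.style.haveILetI false
set_option linter.unusedSectionVars false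
set_option synthInstance.maxHeartbeats 400000

noncomputable section

open ModularCurve AlgebraicCurve HahnSeries KaehlerDifferential
open Fermat.Agent.S24lib Fermat.Agent.HeckeBar Fermat.Agent.S37lib Fermat.Agent.S35lib
  Fermat.Agent.GoodRed Fermat.Agent.S34lib Fermat.Agent.RRlib Fermat.Agent.FFlib
  Fermat.Agent.GM

namespace Fermat.Agent.S36lib

/-! ### the abstract bound -/

section Abstract

variable {k κ : Type*} [Field k] [Field κ] [Algebra k κ] [IsAlgClosed k] {xs : κ}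
  [hsep : FFSep k xs]

include hsep in
/-- **(T4) at a simple pole of `x̄₀`**: if `ord_c x̄₀ = -1` and `ord_c ȳ₀ ≥ -e` then
`e · ord_c (dx̄₀) - ord_c ȳ₀ ≤ -e`. -/
theorem reg3inf_T4_place (c : Place k κ) (x₀' y₀' : κ) (e : ℕ) (hx : c.ord x₀' = -1)
    (hy : -(e : ℤ) ≤ c.ord y₀') :
    (e : ℤ) * c.ordDifferential (D k κ x₀') - c.ord y₀' ≤ -(e : ℤ) := by
  haveI : RRBase k κ := rrBase_of_ffSep (K := k) xs
  haveI : Nontrivial Ω[κ⁄k] := fsNontrivial_kaehler (K := k) (x := xs)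
  haveI : c.DCoordGenerates := fsDCoordGenerates (K := k) (x := xs) c
  have hd : c.ordDifferential (D k κ x₀') = -2 := by
    rw [hw_ordDifferential_D_eq c (by rw [hx]; simp), hx]
    norm_num
  rw [hd]
  linarith

end Abstract

section AbstractSeries

variable {k : Type} [Field k] [IsAlgClosed k] (κ : IntermediateField k (LaurentSeries k))
  {xs : κ} [hsep : FFSep k xs]

include hsep in
/-- **(T4) at the place `∞'`** of a field of Laurent series: `x̄₀` of order `-1`, `ȳ₀` of order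
`≥ -e`. -/
theorem reg3inf_T4 (hF : ∃ f : κ, (f : LaurentSeries k).order = -1) (x₀' y₀' : κ) (e : ℕ)
    (hx : (x₀' : LaurentSeries k).order = -1)
    (hy : -(e : ℤ) ≤ (y₀' : LaurentSeries k).order) :
    (e : ℤ) * (infPlace κ hF).ordDifferential (D k κ x₀') - (infPlace κ hF).ord y₀'
      ≤ -(e : ℤ) :=
  reg3inf_T4_place (xs := xs) (infPlace κ hF) x₀' y₀' e (by rw [infPlace_ord, hx])
    (by rw [infPlace_ord]; exact hy)

end AbstractSeries


/-! ### the middle expansion of `π₁ j - π₃ j` -/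

section Series

variable {M' q : ℕ} [NeZero M'] [NeZero q] (A : ValuationSubring Kbar)
variable {ζ : Kbarˣ} {E : FF (M' * q * q) →+* LaurentSeries Kbar}

theorem reg3inf_jqModC_coeff_of_lt (n : ℤ) (hn : n < -1) : (jqModC A).coeff n = 0 := by
  rw [coeff_jqModC_eq_intCast]
  have h1 : (jqModC ℤ).coeff n = 0 := by
    have h2 := coeff_jq_of_lt hn
    rw [← jqModC_rat, coeff_jqModC_eq_intCast] at h2
    exact_mod_cast h2
  rw [h1, Int.cast_zero]

/-- `Q̄ = red ((j(ζ X) - j(X)) / (ζ - 1))` has order `-1` -/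
theorem reg3inf_order_quot (hq : q.Prime) (hlt : A.valuation (q : Kbar) < 1) (hζ : ζ ^ q = 1)
    (hζ1 : (ζ : Kbar) ≠ 1) :
    (coeffMap (IsLocalRing.residue A) (vmuQuot (vmidUnit A hq hζ) (jqModC A))).order = -1 := by
  have h1 := vmidY_red_coeff A hq hlt hζ hζ1
  set Q := coeffMap (IsLocalRing.residue A) (vmuQuot (vmidUnit A hq hζ) (jqModC A)) with hQ
  have hne : Q ≠ 0 := by
    intro h0
    rw [h0, HahnSeries.coeff_zero] at h1
    exact (neg_ne_zero.mpr one_ne_zero) h1.symm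
  apply le_antisymm
  · exact HahnSeries.order_le_of_coeff_ne_zero (by rw [h1]; exact neg_ne_zero.mpr one_ne_zero)
  · by_contra hlt'
    have hlt'' := not_le.mp hlt'
    have h3 : Q.coeff Q.order = 0 := by
      rw [hQ, coeffMap_coeff, vmuQuot_coeff, reg3inf_jqModC_coeff_of_lt A _ hlt'', mul_zero,
        map_zero]
    exact hne (HahnSeries.coeff_order_eq_zero.mp h3)

/-- the middle expansion of `π₁ j - π₃ j` is `-(ζ - 1) Q` -/
theorem reg3inf_apply_sub (hq : q.Prime) (hζ : ζ ^ q = 1) (hE : IsMidExp M' q ζ E) :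
    E (ecPi1 M' q (jF M') - ecPi3 M' q (jF M'))
      = -(HahnSeries.C ((ζ : Kbar) - 1)
          * coeffMap A.subtype (vmuQuot (vmidUnit A hq hζ) (jqModC A))) := by
  have h3 := congrArg (coeffMap A.subtype) (vmuQuot_mul (vmidUnit A hq hζ) (jqModC A))
  rw [map_mul, coeffMap_C, RingHom.map_sub (coeffMap A.subtype), coeffMap_twq,
    vmidUnit_map_subtype] at h3
  have h4 : (HahnSeries.C (A.subtype ((vmidUnit A hq hζ : Aˣ) : A) - 1) : LaurentSeries Kbar)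
      = HahnSeries.C ((ζ : Kbar) - 1) := rfl
  rw [RingHom.map_sub E, ecPi1_apply, ecPi3_apply, hE.alpha, hE.beta, coe_heckeAlphaBar,
    vmu_coe_jF A]
  rw [show (HahnSeries.C ((ζ : Kbar) - 1) : LaurentSeries Kbar)
      * coeffMap A.subtype (vmuQuot (vmidUnit A hq hζ) (jqModC A))
      = twq ζ (coeffMap A.subtype (jqModC A)) - coeffMap A.subtype (jqModC A) from h3]
  ring

end Series


/-! ### the unit `y₀ = π₀ ^ (q - 1) / q` -/

section Unit

variable {M' q : ℕ} [NeZero M'] [NeZero q] (A : ValuationSubring Kbar)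
variable {ζ : Kbarˣ} {E : FF (M' * q * q) →+* LaurentSeries Kbar}

theorem reg3inf_primitive (hq : q.Prime) (hζ : ζ ^ q = 1) (hζ1 : (ζ : Kbar) ≠ 1) :
    IsPrimitiveRoot (ζ : Kbar) q := by
  have h1 : (ζ : Kbar) ^ q = 1 := by rw [← Units.val_pow_eq_pow_val, hζ, Units.val_one]
  haveI : Fact q.Prime := ⟨hq⟩
  have h2 : orderOf (ζ : Kbar) = q := orderOf_eq_prime h1 hζ1
  have h3 := IsPrimitiveRoot.orderOf (ζ : Kbar)
  rwa [h2] at h3

/-- the constant `c₀ = (-1) ^ e (ζ - 1) ^ e / q`, `e = q - 1` -/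
def reg3infConst (q : ℕ) (ζ : Kbarˣ) : Kbar :=
  (-1) ^ (q - 1) * ((ζ : Kbar) - 1) ^ (q - 1) / (q : Kbar)

theorem reg3inf_const_val (hq : q.Prime) (hζ : ζ ^ q = 1) (hζ1 : (ζ : Kbar) ≠ 1) :
    A.valuation (reg3infConst q ζ) = 1 := by
  have h1 := zi_val_zeta_sub_one_pow A.valuation hq (reg3inf_primitive hq hζ hζ1)
  have hq0 : (q : Kbar) ≠ 0 := Nat.cast_ne_zero.mpr hq.ne_zero
  have hvq : A.valuation (q : Kbar) ≠ 0 := (Valuation.ne_zero_iff _).mpr hq0
  unfold reg3infConst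
  rw [map_div₀, map_mul, map_pow, map_pow, Valuation.map_neg, map_one, one_pow, one_mul, h1,
    div_self hvq]

theorem reg3inf_const_mem (hq : q.Prime) (hζ : ζ ^ q = 1) (hζ1 : (ζ : Kbar) ≠ 1) :
    reg3infConst q ζ ∈ A :=
  (A.valuation_le_one_iff _).mp (reg3inf_const_val A hq hζ hζ1).le

theorem reg3inf_const_residue_ne_zero (hq : q.Prime) (hζ : ζ ^ q = 1) (hζ1 : (ζ : Kbar) ≠ 1) :
    IsLocalRing.residue A ⟨reg3infConst q ζ, reg3inf_const_mem A hq hζ hζ1⟩ ≠ 0 := by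
  intro h0
  rw [IsLocalRing.residue_eq_zero_iff] at h0
  have h1 := (A.valuation_lt_one_iff _).1 h0
  rw [reg3inf_const_val A hq hζ hζ1] at h1
  exact lt_irrefl _ h1

/-- the middle expansion of `y₀ = (π₁ j - π₃ j) ^ (q - 1) / q` -/
theorem reg3inf_apply_y₀ (hq : q.Prime) (hζ : ζ ^ q = 1) (hζ1 : (ζ : Kbar) ≠ 1)
    (hE : IsMidExp M' q ζ E) (y₀ : FF (M' * q * q))
    (hpow : (ecPi1 M' q (jF M') - ecPi3 M' q (jF M')) ^ (q - 1)
      = algebraMap Kbar (FF (M' * q * q)) (q : Kbar) * y₀) :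
    E y₀ = coeffMap A.subtype
      (HahnSeries.C (⟨reg3infConst q ζ, reg3inf_const_mem A hq hζ hζ1⟩ : A)
        * vmuQuot (vmidUnit A hq hζ) (jqModC A) ^ (q - 1)) := by
  have hq0 : (q : Kbar) ≠ 0 := Nat.cast_ne_zero.mpr hq.ne_zero
  have hC : (HahnSeries.C (q : Kbar) : LaurentSeries Kbar) ≠ 0 := HahnSeries.C_ne_zero hq0
  apply mul_left_cancel₀ hC
  have h1 := congrArg E hpow
  rw [map_pow, reg3inf_apply_sub A hq hζ hE, map_mul, hE.const,
    algebraMap_laurentSeries_eq_single] at h1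
  rw [map_mul, map_pow, coeffMap_C]
  show HahnSeries.C (q : Kbar) * E y₀ = HahnSeries.C (q : Kbar) * (HahnSeries.C (reg3infConst q ζ)
    * coeffMap A.subtype (vmuQuot (vmidUnit A hq hζ) (jqModC A)) ^ (q - 1))
  have h2 : (HahnSeries.C (q : Kbar) : LaurentSeries Kbar) * HahnSeries.C (reg3infConst q ζ)
      = HahnSeries.C ((-1) ^ (q - 1) * ((ζ : Kbar) - 1) ^ (q - 1)) := by
    rw [← map_mul]
    congr 1
    unfold reg3infConst
    field_simp
  rw [← mul_assoc, h2, map_mul, map_pow, map_pow, map_neg, map_one]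
  have h3 : (HahnSeries.single (0 : ℤ) (q : Kbar) : LaurentSeries Kbar)
      = HahnSeries.C (q : Kbar) := rfl
  rw [h3] at h1
  rw [← h1]
  ring

theorem reg3inf_isRep (hq : q.Prime) (hζ : ζ ^ q = 1) (hζ1 : (ζ : Kbar) ≠ 1)
    (hE : IsMidExp M' q ζ E) (y₀ : FF (M' * q * q))
    (hpow : (ecPi1 M' q (jF M') - ecPi3 M' q (jF M')) ^ (q - 1)
      = algebraMap Kbar (FF (M' * q * q)) (q : Kbar) * y₀) :
    IsRep A (vmidField hE) (E y₀)
      (HahnSeries.C (⟨reg3infConst q ζ, reg3inf_const_mem A hq hζ hζ1⟩ : A)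
        * vmuQuot (vmidUnit A hq hζ) (jqModC A) ^ (q - 1)) 1 := by
  refine ⟨?_, ?_, ?_, ?_⟩
  · rw [← reg3inf_apply_y₀ A hq hζ hζ1 hE y₀ hpow]
    exact vmid_apply_mem hE _
  · rw [map_one]
    exact one_mem _
  · rw [map_one]
    exact one_ne_zero
  · rw [map_one, mul_one, reg3inf_apply_y₀ A hq hζ hζ1 hE y₀ hpow]

/-- `y₀ ∈ O_mid` -/
theorem reg3inf_mem (hq : q.Prime) (hlt : A.valuation (q : Kbar) < 1) (hζ : ζ ^ q = 1)
    (hζ1 : (ζ : Kbar) ≠ 1) (hE : IsMidExp M' q ζ E) (y₀ : FF (M' * q * q))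
    (hpow : (ecPi1 M' q (jF M') - ecPi3 M' q (jF M')) ^ (q - 1)
      = algebraMap Kbar (FF (M' * q * q)) (q : Kbar) * y₀) :
    y₀ ∈ vmidO A hq hlt hζ hE :=
  ⟨_, _, reg3inf_isRep A hq hζ hζ1 hE y₀ hpow⟩

/-- `red y₀ = c̄₀ Q̄ ^ (q - 1)` -/
theorem reg3inf_red_eq (hq : q.Prime) (hlt : A.valuation (q : Kbar) < 1) (hζ : ζ ^ q = 1)
    (hζ1 : (ζ : Kbar) ≠ 1) (hE : IsMidExp M' q ζ E) (y₀ : FF (M' * q * q))
    (hpow : (ecPi1 M' q (jF M') - ecPi3 M' q (jF M')) ^ (q - 1)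
      = algebraMap Kbar (FF (M' * q * q)) (q : Kbar) * y₀)
    (hy : y₀ ∈ vmidO A hq hlt hζ hE) :
    vmidRed A hq hlt hζ hE ⟨y₀, hy⟩
      = HahnSeries.C (IsLocalRing.residue A ⟨reg3infConst q ζ, reg3inf_const_mem A hq hζ hζ1⟩)
        * coeffMap (IsLocalRing.residue A) (vmuQuot (vmidUnit A hq hζ) (jqModC A)) ^ (q - 1) := by
  rw [vmidRed_eq A hq hlt hζ hE ⟨y₀, hy⟩ (reg3inf_isRep A hq hζ hζ1 hE y₀ hpow), map_one, div_one,
    map_mul, map_pow, coeffMap_C]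

theorem reg3inf_red_ne_zero (hq : q.Prime) (hlt : A.valuation (q : Kbar) < 1) (hζ : ζ ^ q = 1)
    (hζ1 : (ζ : Kbar) ≠ 1) (hE : IsMidExp M' q ζ E) (y₀ : FF (M' * q * q))
    (hpow : (ecPi1 M' q (jF M') - ecPi3 M' q (jF M')) ^ (q - 1)
      = algebraMap Kbar (FF (M' * q * q)) (q : Kbar) * y₀)
    (hy : y₀ ∈ vmidO A hq hlt hζ hE) :
    vmidRed A hq hlt hζ hE ⟨y₀, hy⟩ ≠ 0 := by
  rw [reg3inf_red_eq A hq hlt hζ hζ1 hE y₀ hpow hy]
  refine mul_ne_zero (HahnSeries.C_ne_zero (reg3inf_const_residue_ne_zero A hq hζ hζ1))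
    (pow_ne_zero _ ?_)
  intro h0
  have h1 := reg3inf_order_quot A hq hlt hζ hζ1
  rw [h0, HahnSeries.order_zero] at h1
  omega

/-- **the order of `red y₀` at `∞'` is `-(q - 1)`** -/
theorem reg3inf_red_order (hq : q.Prime) (hlt : A.valuation (q : Kbar) < 1) (hζ : ζ ^ q = 1)
    (hζ1 : (ζ : Kbar) ≠ 1) (hE : IsMidExp M' q ζ E) (y₀ : FF (M' * q * q))
    (hpow : (ecPi1 M' q (jF M') - ecPi3 M' q (jF M')) ^ (q - 1)
      = algebraMap Kbar (FF (M' * q * q)) (q : Kbar) * y₀)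
    (hy : y₀ ∈ vmidO A hq hlt hζ hE) :
    (vmidRed A hq hlt hζ hE ⟨y₀, hy⟩).order = -((q - 1 : ℕ) : ℤ) := by
  have hQ0 : coeffMap (IsLocalRing.residue A) (vmuQuot (vmidUnit A hq hζ) (jqModC A)) ≠ 0 := by
    intro h0
    have h1 := reg3inf_order_quot A hq hlt hζ hζ1
    rw [h0, HahnSeries.order_zero] at h1
    omega
  rw [reg3inf_red_eq A hq hlt hζ hζ1 hE y₀ hpow hy,
    HahnSeries.order_mul (HahnSeries.C_ne_zero (reg3inf_const_residue_ne_zero A hq hζ hζ1))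
      (pow_ne_zero _ hQ0), HahnSeries.order_C, HahnSeries.order_pow,
    reg3inf_order_quot A hq hlt hζ hζ1]
  simp

end Unit


/-! ### (T4) at `∞'`, concrete form -/

section Concrete

variable {M' q : ℕ} [NeZero M'] [NeZero q] (A : ValuationSubring Kbar)
variable {ζ : Kbarˣ} {E : FF (M' * q * q) →+* LaurentSeries Kbar}

/-- **(T4) at the cusp `∞'` of `C_mid`**: for `y₀ = (π₁ j - π₃ j) ^ (q - 1) / q` and `ȳ₀ ∈ κ'`
its middle reduction: `(q - 1) ord_{∞'} (dj̄) - ord_{∞'} ȳ₀ ≤ -(q - 1)` (in fact `=`). -/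
theorem reg3inf_T4_conc (hq : q.Prime) (hlt : A.valuation (q : Kbar) < 1) (hζ : ζ ^ q = 1)
    (hζ1 : (ζ : Kbar) ≠ 1) (hE : IsMidExp M' q ζ E) (y₀ : FF (M' * q * q))
    (hpow : (ecPi1 M' q (jF M') - ecPi3 M' q (jF M')) ^ (q - 1)
      = algebraMap Kbar (FF (M' * q * q)) (q : Kbar) * y₀)
    (hy : y₀ ∈ vmidO A hq hlt hζ hE)
    (y₀' : Fk (IsLocalRing.ResidueField A) M')
    (hy₀' : (y₀' : LaurentSeries (IsLocalRing.ResidueField A))
      = vmidRed A hq hlt hζ hE ⟨y₀, hy⟩) :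
    ((q - 1 : ℕ) : ℤ) * (infPlaceC (IsLocalRing.ResidueField A) M').ordDifferential
        (D (IsLocalRing.ResidueField A) (Fk (IsLocalRing.ResidueField A) M')
          (jk (IsLocalRing.ResidueField A) M'))
      - (infPlaceC (IsLocalRing.ResidueField A) M').ord y₀' ≤ -((q - 1 : ℕ) : ℤ) := by
  haveI : IsAlgClosed (IsLocalRing.ResidueField A) := isAlgClosed_residueField A
  haveI : FFSep (IsLocalRing.ResidueField A) (jk (IsLocalRing.ResidueField A) M') :=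
    mr_ffSep (IsLocalRing.ResidueField A) M'
  refine reg3inf_T4_place (xs := jk (IsLocalRing.ResidueField A) M')
    (infPlaceC (IsLocalRing.ResidueField A) M') _ y₀' (q - 1) ?_ ?_
  · rw [infPlaceC_ord]
    exact inf_order_jqModC _
  · rw [infPlaceC_ord, hy₀', reg3inf_red_order A hq hlt hζ hζ1 hE y₀ hpow hy]

end Concrete

end Fermat.Agent.S36lib

end
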