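/-
Item 83 (S36), block CRUX, the hypotheses `G3Hyp` for the final setup (helper8).

* `g3c_arch`   : rank one (`Ap3Arch`) of the restriction to `F0(L)` of a valuation ring `O` of
  `FF L`, from the unit form of discreteness (`VDisc.lean`);
* `g3c_archInf/Mid/Zero` : `Ap3Arch` of the three valuations of `s36Final`;
* `g3c_of_dvrBall` : `G3Hyp S (D.toSSRed π hπ) q e` for a `DvrBall` `D` over `A0` with
  `D.O = S.ball`, `D.ϖ = q`, from `arch`, `ne`, `unif`;
* `g3cPi` (`= π₁ j − π₃ j`), `g3c_unif` : `v_mid(π₀) ^ (q − 1) = v_mid(q)`;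
* `g3c_neIM`, `g3c_neIZ`, `g3c_neMZ` : the three valuations of `s36Final` are different;
* **`g3c_s36Final`** : `G3Hyp (s36Final …) ((s36FinalBall …).toSSRed (k0Res A) hπ) q (q − 1)`,
  no side condition.
-/
import Mathlib
import Fermat.Agent.S36lib.Apply2Final
import Fermat.Agent.S36lib.G3Inst
import Fermat.Agent.S36lib.BallInst
import Fermat.Agent.S36lib.BallFinal
import Fermat.Agent.S36lib.VArch
import Fermat.Agent.S36lib.Reg3Inf
import Fermat.Agent.S36lib.IncCuspConcM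

set_option autoImplicit false
set_option linter.style.haveILetI false
set_option linter.unusedSectionVars false
set_option linter.unusedVariables false
set_option synthInstance.maxHeartbeats 400000

noncomputable section

namespace Fermat.Agent.S36lib

open ModularCurve HahnSeries AlgebraicCurve
open Fermat.Agent.GoodRed Fermat.Agent.S24lib Fermat.Agent.S34lib Fermat.Agent.S37lib
  Fermat.Agent.HeckeBar Fermat.Agent.S35lib Fermat.Agent.GM

section Arch

variable (A : ValuationSubring Kbar) {q : ℕ} {L : ℕ} [NeZero L]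

/-- **rank one on `F0(L)`** from the unit form of discreteness -/
theorem g3c_arch (O : ValuationSubring (FF L)) (hq : q.Prime)
    (hqO : algebraMap Kbar (FF L) (q : Kbar) ∈ O) (m : ℕ) (hm : 0 < m)
    (hunit : ∀ f ∈ f0Field A L, f ≠ 0 →
      ∃ n : ℤ, algebraMap Kbar (FF L) ((q : Kbar) ^ n) * f ^ m ∈ O ∧
        (algebraMap Kbar (FF L) ((q : Kbar) ^ n) * f ^ m)⁻¹ ∈ O) :
    Ap3Arch (O.comap (algebraMap (f0Field A L) (FF L))) := by
  intro a ha c
  by_cases hc0 : c = 0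
  · exact ⟨0, by rw [hc0, mul_zero]; exact zero_mem _⟩
  have hq0 : (q : Kbar) ≠ 0 := Nat.cast_ne_zero.mpr hq.ne_zero
  have hQ0 : algebraMap Kbar (FF L) (q : Kbar) ≠ 0 := (map_ne_zero _).mpr hq0
  have haO : (a : FF L) ∈ O.nonunits := varch_nonunits_comap A O a ha
  have h1 : (a : FF L) ^ m * (algebraMap Kbar (FF L) (q : Kbar))⁻¹ ∈ O :=
    varch_of_unit A O hq hqO m hm hunit a.2 haO
  have hc0' : (c : FF L) ≠ 0 := fun h => hc0 (Subtype.ext h)
  obtain ⟨n, hu, -⟩ := hunit (c : FF L) c.2 hc0'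
  -- `(a ^ (m k) c) ^ m = (a^m / q) ^ (k m) · q ^ (k m - n) · (q ^ n c ^ m)`, `k = n.toNat`
  set k : ℕ := n.toNat with hk
  refine ⟨m * k, ?_⟩
  show ((a ^ (m * k) * c : f0Field A L) : FF L) ∈ O
  have hcoe : ((a ^ (m * k) * c : f0Field A L) : FF L) = (a : FF L) ^ (m * k) * (c : FF L) := rfl
  rw [hcoe]
  have hkn : (0 : ℤ) ≤ (k : ℤ) * m - n := by
    have h2 : n ≤ (k : ℤ) := Int.self_le_toNat n
    have h3 : (k : ℤ) ≤ (k : ℤ) * m := by
      have : (1 : ℤ) ≤ m := by exact_mod_cast hm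
      nlinarith [Int.natCast_nonneg k]
    omega
  obtain ⟨j, hj⟩ := Int.eq_ofNat_of_zero_le hkn
  have key : ((a : FF L) ^ (m * k) * (c : FF L)) ^ m
      = ((a : FF L) ^ m * (algebraMap Kbar (FF L) (q : Kbar))⁻¹) ^ (k * m)
        * (algebraMap Kbar (FF L) (q : Kbar) ^ j
          * (algebraMap Kbar (FF L) ((q : Kbar) ^ n) * (c : FF L) ^ m)) := by
    have e1 : algebraMap Kbar (FF L) (q : Kbar) ^ j * algebraMap Kbar (FF L) ((q : Kbar) ^ n)
        = algebraMap Kbar (FF L) (q : Kbar) ^ (k * m) := by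
      rw [map_zpow₀, ← zpow_natCast, ← zpow_add₀ hQ0, ← hj, ← zpow_natCast]
      congr 1
      push_cast
      ring
    rw [← mul_assoc (algebraMap Kbar (FF L) (q : Kbar) ^ j), e1, mul_pow, mul_pow, inv_pow,
      ← pow_mul, ← pow_mul]
    have hne : algebraMap Kbar (FF L) (q : Kbar) ^ (k * m) ≠ 0 := pow_ne_zero _ hQ0
    field_simp
    ring
  have hmemO : ((a : FF L) ^ (m * k) * (c : FF L)) ^ m ∈ O := by
    rw [key]
    exact O.mul_mem _ _ (pow_mem h1 _) (O.mul_mem _ _ (pow_mem hqO _) hu)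
  -- a valuation ring is integrally closed
  rw [← O.valuation_le_one_iff] at hmemO ⊢
  rw [map_pow] at hmemO
  exact (pow_le_one_iff_of_nonneg zero_le (Nat.pos_iff_ne_zero.mp hm)).mp hmemO

variable {A}

/-- rank one at `∞` -/
theorem g3c_arch_inf (hq : q.Prime) (hA : A.LiesOverPrime q)
    {Fk : IntermediateField (IsLocalRing.ResidueField A)
      (LaurentSeries (IsLocalRing.ResidueField A))}
    {R : ConstRed A (IsLocalRing.residue A) (↥Fk) (FF L)} (hR : IsSeriesRed R) :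
    Ap3Arch (R.O.comap (algebraMap (f0Field A L) (FF L))) := by
  have hqA : (q : Kbar) ∈ A := A.nonunits_le hA
  refine g3c_arch A R.O hq (R.algebraMap_mem ⟨(q : Kbar), hqA⟩) 1 Nat.one_pos ?_
  intro f hf hf0
  rw [pow_one]
  exact vdisc_inf hq hA hR hf hf0

/-- rank one at `0` -/
theorem g3c_arch_zero (hq : q.Prime) (hA : A.LiesOverPrime q)
    {Fk : IntermediateField (IsLocalRing.ResidueField A)
      (LaurentSeries (IsLocalRing.ResidueField A))}
    {R : ConstRed A (IsLocalRing.residue A) (↥Fk) (FF L)} (hR : IsSeriesRed R)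
    {L' : ℕ} [NeZero L'] (w : FF L' ≃ₐ[Kbar] FF L) (hw : ∀ x ∈ f0Field A L', w x ∈ f0Field A L)
    (O' : ValuationSubring (FF L')) (hO' : ∀ x, x ∈ O' ↔ w x ∈ R.O) :
    Ap3Arch (O'.comap (algebraMap (f0Field A L') (FF L'))) := by
  have hqA : (q : Kbar) ∈ A := A.nonunits_le hA
  have hqO : algebraMap Kbar (FF L') (q : Kbar) ∈ O' := by
    rw [hO', AlgEquiv.commutes]
    exact R.algebraMap_mem ⟨(q : Kbar), hqA⟩
  refine g3c_arch A O' hq hqO 1 Nat.one_pos ?_
  intro f hf hf0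
  rw [pow_one]
  obtain ⟨n, h1, h2⟩ := vdisc_comap w hw (fun g hg hg0 => vdisc_inf hq hA hR hg hg0) hf hf0
  refine ⟨n, (hO' _).mpr h1, (hO' _).mpr ?_⟩
  rw [map_inv₀]
  exact h2

end Arch

section Mid

variable (A : ValuationSubring Kbar) {M' q : ℕ} [NeZero M'] [NeZero q]
  {ζ : Kbarˣ} {E : FF (M' * q * q) →+* LaurentSeries Kbar}

/-- rank one at the middle cusp -/
theorem g3c_arch_mid (hq : q.Prime) (hA : A.LiesOverPrime q)
    (hζ : IsPrimitiveRoot (ζ : Kbar) q) (hE : IsMidExp M' q ζ E)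
    (hlt : A.valuation (q : Kbar) < 1) (hζq : ζ ^ q = 1) :
    Ap3Arch ((vmidO A hq hlt hζq hE).comap
      (algebraMap (f0Field A (M' * q * q)) (FF (M' * q * q)))) := by
  have hqA : (q : Kbar) ∈ A := A.nonunits_le hA
  have hEC : ∀ c : Kbar, E (algebraMap Kbar (FF (M' * q * q)) c) = HahnSeries.C c := by
    intro c
    rw [hE.const, algebraMap_laurentSeries_eq_single]
    rfl
  have hqO : algebraMap Kbar (FF (M' * q * q)) (q : Kbar) ∈ vmidO A hq hlt hζq hE :=
    (vdGauss_vmidO A hq hlt hζq hE).const_mem A hEC hqA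
  refine g3c_arch A (vmidO A hq hlt hζq hE) hq hqO (q - 1)
    (Nat.sub_pos_of_lt hq.one_lt) ?_
  intro f hf hf0
  exact vdisc_mid_pow hq hA ζ hζ E hE.const hE.alpha hE.beta
    (vdGauss_vmidO A hq hlt hζq hE) hf hf0

end Mid

section Assembly

variable {K : Type*} [Field K] {k : Type*} [Field k] {A₀ : ValuationSubring K}
  [IsPrincipalIdealRing A₀] {κ : Type*} [Field κ] [Algebra k κ]
  {F : Type*} [Field F] [Algebra K F]

/-- **`G3Hyp` for the semistable reduction datum of a `DvrBall` on the ball of `S`** -/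
theorem g3c_of_dvrBall (π : A₀ →+* k) (hπ : Function.Surjective π) (S : NodeSetup A₀ π κ F)
    (D : DvrBall A₀ F) (hDO : D.O = S.ball) (e : ℕ) (he : 0 < e)
    (neIM : S.vInf.O ≠ S.vMid.O) (neIZ : S.vInf.O ≠ S.vZero.O) (neMZ : S.vMid.O ≠ S.vZero.O)
    (archI : Ap3Arch S.vInf.O) (archM : Ap3Arch S.vMid.O) (archZ : Ap3Arch S.vZero.O)
    (unif : ∃ y : F, S.vMid.O.valuation y ^ e
      = S.vMid.O.valuation (algebraMap K F (D.ϖ : K))) :
    letI := D.algebraRed π hπ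
    G3Hyp S (D.toSSRed π hπ) D.ϖ e := by
  letI := D.algebraRed π hπ
  refine
    { O_le := ?_
      le_O := ?_
      red_surjective := ?_
      ker := ?_
      q_ne_zero := D.ϖ_coe_ne_zero
      π_q := D.π_ϖ π hπ
      neIM := neIM
      neIZ := neIZ
      neMZ := neMZ
      archI := archI
      archM := archM
      archZ := archZ
      unif := unif
      e_pos := he }
  · show D.O ≤ S.ball
    exact hDO.le
  · show S.ball ≤ D.O
    exact hDO.ge
  · show Function.Surjective D.red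
    exact Ideal.Quotient.mk_surjective
  · intro x hx
    have hx' : D.red x = 0 := hx
    obtain ⟨z, hz⟩ := (D.red_eq_zero_iff x).mp hx'
    refine ⟨(z : F), hDO ▸ z.2, ?_⟩
    have := congrArg (fun t : D.O => (t : F)) hz
    simpa [D.coe_ϖO] using this

end Assembly

section Generic

variable {K : Type*} [Field K] {k : Type*} [Field k] {A₀ : ValuationSubring K}
  {π : A₀ →+* k} {κ : Type*} [Field κ] [Algebra k κ] {F : Type*} [Field F] [Algebra K F]

/-- two valuations are different if a non-unit of one has a nonzero reduction for the other -/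
theorem g3c_ne_of_nonunit (v w : ResVal A₀ π κ F) (x : F) (r : κ) (hv : x ∈ v.O.nonunits)
    (hw : w.RedTo x r) (hr : r ≠ 0) : v.O ≠ w.O := by
  intro h
  obtain ⟨hxw, hwr⟩ := hw
  rw [h] at hv
  exact hr (hwr ▸ (w.red_eq_zero_iff ⟨x, hxw⟩).mpr hv)

/-- two valuations are different if an element reduces to `0` for one and to `r ≠ 0` for the
other -/
theorem g3c_ne_of_redTo (v w : ResVal A₀ π κ F) (x : F) (r : κ) (hv : v.RedTo x 0)
    (hw : w.RedTo x r) (hr : r ≠ 0) : v.O ≠ w.O := by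
  obtain ⟨hxv, hv0⟩ := hv
  exact g3c_ne_of_nonunit v w x r ((v.red_eq_zero_iff ⟨x, hxv⟩).mp hv0) hw hr

/-- `a / b` a unit of `O` gives `v(a) = v(b)` -/
theorem g3c_val_eq (O : ValuationSubring F) (a b : F) (ha : a ≠ 0) (hb : b ≠ 0)
    (h1 : a * b⁻¹ ∈ O) (h2 : (a * b⁻¹)⁻¹ ∈ O) : O.valuation a = O.valuation b := by
  have hvb : O.valuation b ≠ 0 := (Valuation.ne_zero_iff _).mpr hb
  have h1' : O.valuation (a * b⁻¹) ≤ 1 := (O.valuation_le_one_iff _).mpr h1
  have h2' : O.valuation (a * b⁻¹)⁻¹ ≤ 1 := (O.valuation_le_one_iff _).mpr h2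
  rw [map_inv₀] at h2'
  have hne : O.valuation (a * b⁻¹) ≠ 0 :=
    (Valuation.ne_zero_iff _).mpr (mul_ne_zero ha (inv_ne_zero hb))
  have h3 := (inv_le_one₀ (zero_lt_iff.mpr hne)).mp h2'
  have e : O.valuation (a * b⁻¹) = 1 := le_antisymm h1' h3
  rw [map_mul, map_inv₀] at e
  exact (mul_inv_eq_one₀ hvb).mp e

end Generic

section JPow

/-- `j̄` is not a root of unity: `j̄ ^ a ≠ j̄ ^ b` for `a ≠ b` -/
theorem g3c_jk_pow_ne (k : Type) [Field k] (M : ℕ) [NeZero M] {a b : ℕ} (hab : a ≠ b) :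
    jk k M ^ a ≠ jk k M ^ b := by
  intro h
  have h1 := congrArg (fun x : Fk k M => ((x : LaurentSeries k)).order) h
  simp only [SubmonoidClass.coe_pow, coe_jk, HahnSeries.order_pow, inf_order_jqModC] at h1
  apply hab
  have h2 : (a : ℤ) * (-1) = (b : ℤ) * (-1) := by simpa using h1
  omega

end JPow

section Conc

variable (A : ValuationSubring Kbar) (M' q : ℕ) [NeZero M'] [NeZero q]
variable (hq : q.Prime) (hqM : ¬ q ∣ M') (hA : A.LiesOverPrime q)
variable {ζ : Kbarˣ} {E : FF (M' * q * q) →+* LaurentSeries Kbar}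
variable (hζq : ζ ^ q = 1) (hζ : IsPrimitiveRoot (ζ : Kbar) q) (hE : IsMidExp M' q ζ E)
variable (R : ConstRed A (IsLocalRing.residue A)
      (↥(modularFunctionFieldFullC (IsLocalRing.ResidueField A) M')) (FF (M' * q * q)))
    (hR : IsSeriesRed R)

local notation "SF" => s36Final A M' q hq hqM hA hζq hζ hE R hR
local notation "κA" => IsLocalRing.ResidueField A

/-- the uniformiser `π₀ = π₁ j − π₃ j` of `v_mid` -/
def g3cPi : f0Field A (M' * q * q) := iccX1 A M' q - iccX3 A M' q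

theorem g3c_coe_pi : ((g3cPi A M' q : f0Field A (M' * q * q)) : FF (M' * q * q))
    = ecPi1 M' q (jF M') - ecPi3 M' q (jF M') := rfl

/-- **`v_mid(π₀) ^ (q − 1) = v_mid(q)`** -/
theorem g3c_unif :
    (SF).vMid.O.valuation (g3cPi A M' q) ^ (q - 1)
      = (SF).vMid.O.valuation (a2iQ A q (L := M' * q * q)) := by
  haveI : NeZero (M' * q * q) :=
    ⟨Nat.mul_ne_zero (Nat.mul_ne_zero (NeZero.ne M') (NeZero.ne q)) (NeZero.ne q)⟩
  have hlt : A.valuation (q : Kbar) < 1 := (A.mem_nonunits_iff).mp hA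
  have hζ1 : (ζ : Kbar) ≠ 1 := hζ.ne_one hq.one_lt
  have hq0 : (q : Kbar) ≠ 0 := Nat.cast_ne_zero.mpr hq.ne_zero
  have hQ0 : algebraMap Kbar (FF (M' * q * q)) (q : Kbar) ≠ 0 := (map_ne_zero _).mpr hq0
  set y₀ : FF (M' * q * q) := (ecPi1 M' q (jF M') - ecPi3 M' q (jF M')) ^ (q - 1)
    * (algebraMap Kbar (FF (M' * q * q)) (q : Kbar))⁻¹ with hy₀
  have hpow : (ecPi1 M' q (jF M') - ecPi3 M' q (jF M')) ^ (q - 1)
      = algebraMap Kbar (FF (M' * q * q)) (q : Kbar) * y₀ := by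
    rw [hy₀, mul_comm _ (algebraMap Kbar (FF (M' * q * q)) (q : Kbar))⁻¹, ← mul_assoc,
      mul_inv_cancel₀ hQ0, one_mul]
  have hy := reg3inf_mem A hq hlt hζq hζ1 hE y₀ hpow
  have hne := reg3inf_red_ne_zero A hq hlt hζq hζ1 hE y₀ hpow hy
  have hnu : ¬ (y₀ ∈ (vmidO A hq hlt hζq hE).nonunits) := fun h =>
    hne ((vmidRed_eq_zero_iff A hq hlt hζq hE ⟨_, hy⟩).mpr h)
  rw [ValuationSubring.mem_nonunits_iff_or, not_or, not_not] at hnu
  have hpi0 : g3cPi A M' q ^ (q - 1) ≠ 0 := by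
    intro h0
    apply hnu.1
    have h1 := congrArg (fun x : f0Field A (M' * q * q) => (x : FF (M' * q * q))) h0
    have h2 : (ecPi1 M' q (jF M') - ecPi3 M' q (jF M')) ^ (q - 1) = 0 := h1
    rw [hy₀, h2, zero_mul]
  rw [← map_pow]
  refine g3c_val_eq _ _ _ hpi0 (a2i_Q_ne_zero A q hq) ?_ ?_
  · show ((g3cPi A M' q ^ (q - 1) * (a2iQ A q (L := M' * q * q))⁻¹ :
      f0Field A (M' * q * q)) : FF (M' * q * q)) ∈ vmidO A hq hlt hζq hE
    have e : ((g3cPi A M' q ^ (q - 1) * (a2iQ A q (L := M' * q * q))⁻¹ :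
      f0Field A (M' * q * q)) : FF (M' * q * q)) = y₀ := by
      rw [hy₀, ← a2i_coe_Q A q]
      rfl
    rw [e]
    exact hy
  · show (((g3cPi A M' q ^ (q - 1) * (a2iQ A q (L := M' * q * q))⁻¹)⁻¹ :
      f0Field A (M' * q * q)) : FF (M' * q * q)) ∈ vmidO A hq hlt hζq hE
    have e : (((g3cPi A M' q ^ (q - 1) * (a2iQ A q (L := M' * q * q))⁻¹)⁻¹ :
      f0Field A (M' * q * q)) : FF (M' * q * q)) = y₀⁻¹ := by
      rw [hy₀, ← a2i_coe_Q A q]
      rfl
    rw [e]
    exact hnu.2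

/-- `π₀` is a non-unit of `v_mid` -/
theorem g3c_pi_nonunit : g3cPi A M' q ∈ (SF).vMid.O.nonunits := by
  haveI : NeZero (M' * q * q) :=
    ⟨Nat.mul_ne_zero (Nat.mul_ne_zero (NeZero.ne M') (NeZero.ne q)) (NeZero.ne q)⟩
  have h1 := g3c_unif A M' q hq hqM hA hζq hζ hE R hR
  have hQ : a2iQ A q (L := M' * q * q) ∈ (SF).vMid.O.nonunits := by
    have hmem : a2iQ A q (L := M' * q * q) ∈ (SF).vMid.O := (SF).vMid.algebraMap_mem (q : k0Val A)
    refine ((SF).vMid.red_eq_zero_iff ⟨_, hmem⟩).mp ?_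
    have h2 := (SF).vMid.red_algebraMap (q : k0Val A)
    have h3 : k0Res A (q : k0Val A) = 0 := by
      rw [map_natCast]
      haveI : CharP κA q := vmid_charP A hq ((A.mem_nonunits_iff).mp hA)
      exact CharP.cast_eq_zero _ q
    rw [h3, map_zero] at h2
    exact h2
  rw [ValuationSubring.mem_nonunits_iff] at hQ ⊢
  rw [← h1] at hQ
  by_contra hcon
  have h4 : (1 : _) ≤ (SF).vMid.O.valuation (g3cPi A M' q) := not_lt.mp hcon
  exact absurd hQ (not_lt.mpr (one_le_pow₀ h4))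

include hR in
/-- `v_∞ ≠ v_mid` -/
theorem g3c_neIM : (SF).vInf.O ≠ (SF).vMid.O := by
  have hlt : A.valuation (q : Kbar) < 1 := (A.mem_nonunits_iff).mp hA
  have hI := (icc_tI1 A M' q hq hqM hA R hR hlt hζq hE (vmid_hinto A hq hqM hA hζq hζ hE)
    (vmid_honto A hq hA hζq hE)).sub
    (icc_tI3 A M' q hq hqM hA R hR hlt hζq hE (vmid_hinto A hq hqM hA hζq hζ hE)
      (vmid_honto A hq hA hζq hE))
  refine (g3c_ne_of_nonunit (SF).vMid (SF).vInf (g3cPi A M' q) _
    (g3c_pi_nonunit A M' q hq hqM hA hζq hζ hE R hR) hI ?_).symm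
  rw [sub_ne_zero]
  have h1 := g3c_jk_pow_ne κA M' (a := 1) (b := q * q)
    (by have := hq.two_le; nlinarith)
  rwa [pow_one] at h1

include hR in
/-- `v_mid ≠ v_0` -/
theorem g3c_neMZ : (SF).vMid.O ≠ (SF).vZero.O := by
  have hlt : A.valuation (q : Kbar) < 1 := (A.mem_nonunits_iff).mp hA
  have hZ := (icc_tZ1 A M' q hq hqM hA R hR hlt hζq hE (vmid_hinto A hq hqM hA hζq hζ hE)
    (vmid_honto A hq hA hζq hE)).sub
    (icc_tZ3 A M' q hq hqM hA R hR hlt hζq hE (vmid_hinto A hq hqM hA hζq hζ hE)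
      (vmid_honto A hq hA hζq hE))
  refine g3c_ne_of_nonunit (SF).vMid (SF).vZero (g3cPi A M' q) _
    (g3c_pi_nonunit A M' q hq hqM hA hζq hζ hE R hR) hZ ?_
  rw [sub_ne_zero]
  have h1 := g3c_jk_pow_ne κA M' (a := q * q) (b := 1)
    (by have := hq.two_le; nlinarith)
  rwa [pow_one] at h1

include hR in
/-- `v_∞ ≠ v_0` -/
theorem g3c_neIZ : (SF).vInf.O ≠ (SF).vZero.O := by
  have hlt : A.valuation (q : Kbar) < 1 := (A.mem_nonunits_iff).mp hA
  have hI := (icc_tI2 A M' q hq hqM hA R hR hlt hζq hE (vmid_hinto A hq hqM hA hζq hζ hE)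
    (vmid_honto A hq hA hζq hE)).sub
    ((icc_tI1 A M' q hq hqM hA R hR hlt hζq hE (vmid_hinto A hq hqM hA hζq hζ hE)
      (vmid_honto A hq hA hζq hE)).pow q)
  have hZ := (icc_tZ2 A M' q hq hqM hA R hR hlt hζq hE (vmid_hinto A hq hqM hA hζq hζ hE)
    (vmid_honto A hq hA hζq hE)).sub
    ((icc_tZ1 A M' q hq hqM hA R hR hlt hζq hE (vmid_hinto A hq hqM hA hζq hζ hE)
      (vmid_honto A hq hA hζq hE)).pow q)
  refine g3c_ne_of_redTo (SF).vInf (SF).vZero _ _ (hI.congr (sub_self _)) hZ ?_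
  rw [sub_ne_zero, ← pow_mul]
  exact g3c_jk_pow_ne κA M' (by have := hq.two_le; nlinarith)

/-- **`G3Hyp` for the final setup** `s36Final` and the unit ball `s36FinalBall`, `e = q − 1`. -/
theorem g3c_s36Final [IsPrincipalIdealRing (k0Val A)] (hπ : Function.Surjective (k0Res A)) :
    letI := (s36FinalBall A M' q hq hqM hA hζq hζ hE R hR).algebraRed (k0Res A) hπ
    G3Hyp (SF) ((s36FinalBall A M' q hq hqM hA hζq hζ hE R hR).toSSRed (k0Res A) hπ)
      (q : k0Val A) (q - 1) := by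
  haveI : NeZero (M' * q * q) :=
    ⟨Nat.mul_ne_zero (Nat.mul_ne_zero (NeZero.ne M') (NeZero.ne q)) (NeZero.ne q)⟩
  have hlt : A.valuation (q : Kbar) < 1 := (A.mem_nonunits_iff).mp hA
  exact g3c_of_dvrBall (k0Res A) hπ (SF) (s36FinalBall A M' q hq hqM hA hζq hζ hE R hR) rfl
    (q - 1) (Nat.sub_pos_of_lt hq.one_lt)
    (g3c_neIM A M' q hq hqM hA hζq hζ hE R hR)
    (g3c_neIZ A M' q hq hqM hA hζq hζ hE R hR)
    (g3c_neMZ A M' q hq hqM hA hζq hζ hE R hR)
    (g3c_arch_inf hq hA hR)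
    (g3c_arch_mid A hq hA hζ hE hlt hζq)
    (g3c_arch_zero hq hA hR (alW2 M' hq hqM) (fun _ hx => alW2_mem_f0Field A M' hq hqM hx)
      ((SeriesVal.ofConstRed R).comap (alW2 M' hq hqM)).O (fun _ => Iff.rfl))
    ⟨g3cPi A M' q, g3c_unif A M' q hq hqM hA hζq hζ hE R hR⟩

end Conc

end Fermat.Agent.S36lib

end
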