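/-
Item 83 (S36), piece C-17 CRUX-FINAL, part 7 (helper16).  Complete proofs.

`s36Final_crux_main`: `s36Final_crux_final` (`CruxFinal6.lean`) with `G3Hyp` discharged by
helper8's `g3c_s36Final` (`G3HypConc.lean`).  **The input (C) of `A2Inputs`** from
(R1), (R2), the Dedekind quotients, `hnode`, `htri`, `hmid`, `htor`.
-/
import Mathlib
import Fermat.Agent.S36lib.CruxFinal6
import Fermat.Agent.S36lib.G3HypConc

set_option autoImplicit false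
set_option linter.style.longLine false
set_option linter.unusedSectionVars false
set_option linter.unusedVariables false
set_option linter.style.haveILetI false
set_option synthInstance.maxHeartbeats 400000

noncomputable section

namespace Fermat.Agent.S36lib

open ModularCurve HahnSeries AlgebraicCurve
open Fermat.Agent.GoodRed Fermat.Agent.S24lib Fermat.Agent.S34lib Fermat.Agent.S37lib
  Fermat.Agent.HeckeBar Fermat.Agent.S35lib Fermat.Agent.GM Fermat.Agent.RRlib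

variable (A : ValuationSubring Kbar) (M' q : ℕ) [NeZero M'] [NeZero q]
variable (hq : q.Prime) (hqM : ¬ q ∣ M') (hA : A.LiesOverPrime q)
variable {ζ : Kbarˣ} (hζq : ζ ^ q = 1) (hζ : IsPrimitiveRoot (ζ : Kbar) q)
variable (R : ConstRed A (IsLocalRing.residue A)
      (↥(modularFunctionFieldFullC (IsLocalRing.ResidueField A) M')) (FF (M' * q * q)))
    (hR : IsSeriesRed R)

local notation "SFc" =>
  s36Final A M' q hq hqM hA hζq hζ (cfm_isMidExp M' q hq hqM ζ hζ) R hR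

/-- **`G3Hyp` for the final setup and `s36S0`** (helper8's `g3c_s36Final`) -/
theorem s36Final_g3Hyp :
    letI := DvrBall.algebraRed (s36Dball A M' q hq hqM hA hζq hζ R hR) (k0Res A) (s36_k0Res_surjective A q hq hA)
    G3Hyp (SFc) (s36S0 A M' q hq hqM hA hζq hζ R hR) (q : k0Val A) (q - 1) := by
  haveI : IsDiscreteValuationRing (k0Val A) := k0Val_isDiscreteValuationRing A q hq hA
  exact g3c_s36Final A M' q hq hqM hA hζq hζ (cfm_isMidExp M' q hq hqM ζ hζ) R hR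
    (s36_k0Res_surjective A q hq hA)

set_option maxHeartbeats 2000000 in
/-- **the input (C) of `A2Inputs` for the final setup**, `G3Hyp` discharged. -/
theorem s36Final_crux_main (haux : IsAuxLevel q M') (p : ℕ) (hp : p.Prime) (hqp : q ≠ p)
    (hnoeth : IsNoetherianRing (SFc).B)
    (hfrac : ∀ z : f0Field A (M' * q * q), ∃ a b : (SFc).B,
      b ≠ 0 ∧ z * (b : f0Field A (M' * q * q)) = (a : f0Field A (M' * q * q)))
    (hDI : IsDedekindDomain ((SFc).B ⧸ (SFc).pInf))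
    (hDM : IsDedekindDomain ((SFc).B ⧸ (SFc).pMid))
    (hDZ : IsDedekindDomain ((SFc).B ⧸ (SFc).pZero))
    (hnmI : ¬ (SFc).pInf.IsMaximal) (hnmM : ¬ (SFc).pMid.IsMaximal)
    (hnmZ : ¬ (SFc).pZero.IsMaximal)
    (hnode : ∃ t : Ideal (SFc).B, (SFc).IsNode t ∧ (SFc).pMid ≤ t)
    (htri : ∀ 𝔪 : Ideal (SFc).B, 𝔪.IsMaximal → (SFc).constB (q : k0Val A) ∈ 𝔪 → (SFc).IsNode 𝔪 ∨
      ((SFc).pInf ≤ 𝔪 ∧ ¬ (SFc).pMid ≤ 𝔪 ∧ ¬ (SFc).pZero ≤ 𝔪) ∨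
      (¬ (SFc).pInf ≤ 𝔪 ∧ (SFc).pMid ≤ 𝔪 ∧ ¬ (SFc).pZero ≤ 𝔪) ∨
      (¬ (SFc).pInf ≤ 𝔪 ∧ ¬ (SFc).pMid ≤ 𝔪 ∧ (SFc).pZero ≤ 𝔪))
    (hmid : ∀ 𝔪 : Ideal (SFc).B, 𝔪.IsMaximal → (SFc).constB (q : k0Val A) ∈ 𝔪 →
      (SFc).pMid ≤ 𝔪 → ¬ (SFc).pInf ≤ 𝔪 → ¬ (SFc).pZero ≤ 𝔪 →
      ∃ π₀ w₁ b : (SFc).B, π₀ ∈ (SFc).pMid ∧ w₁ ∉ 𝔪 ∧ b ∉ 𝔪 ∧
        w₁ * π₀ ^ (q - 1) = (SFc).constB (q : k0Val A) * b)
    (htor : ∀ n : ℕ, ∀ b : (SFc).B, (SFc).IsUnitAtNodes b →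
      IsKummerNew2 M' q (p ^ n) (((b : f0Field A (M' * q * q)) : FF (M' * q * q))) →
      (SFc).redInf b ≠ 0 → (SFc).redMid b ≠ 0 → (SFc).redZero b ≠ 0 →
      ∃ s : (SFc).B, (SFc).IsUnitAtNodes s ∧
        b ^ ((q - 1) * (q + 1)) - s ^ (p ^ n) ∈ (SFc).pInf ⊓ (SFc).pMid ⊓ (SFc).pZero) :
    ∃ c2 : ℕ, 0 < c2 ∧ ∀ n : ℕ, A2Crux M' q A (SFc) (p ^ n) c2 :=
  s36Final_crux_final A M' q hq hqM hA hζq hζ R hR haux p hp hqp
    (s36Final_g3Hyp A M' q hq hqM hA hζq hζ R hR) hnoeth hfrac hDI hDM hDZ hnmI hnmM hnmZ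
    hnode htri hmid htor

end Fermat.Agent.S36lib

end
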