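import Fermat.Agent.S36lib.Setup

set_option autoImplicit false

/-!
# Item 83 (S36), piece V-4 (abstract part): the quotient `B ⧸ p_∞` and the finiteness of the nodes

For `S : NodeSetup A π κ F`:

* `NodeSetup.quotInfEquiv : S.B ⧸ S.pInf ≃+* S.redInf.range`;
* `NodeSetup.isDedekindDomain_quot_pInf`: if the image `red_∞(B) ⊆ κ` is a Dedekind domain, then so
  is `B ⧸ p_∞` (the input of `s36_quotient_map_dvr_of_dedekind`);
* `NodeSetup.finite_nodes`: if moreover `p_0 ⊄ p_∞`, there are only finitely many nodes;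
* `NodeSetup.pInf_not_isMaximal`: if `red_∞(B)` is not a field, `p_∞` is not maximal.
Same statements with `0` and `∞` exchanged, and for `mid`.
-/

noncomputable section

namespace Fermat.Agent.S36lib

namespace NodeSetup

variable {K : Type*} [Field K] {k : Type*} [Field k]
  {A : ValuationSubring K} {π : A →+* k} {κ : Type*} [Field κ] [Algebra k κ]
  {F : Type*} [Field F] [Algebra K F] (S : NodeSetup A π κ F)

/-- abstract form: the maximal ideals containing `p + J` are finitely many when `R ⧸ p` is a
Dedekind domain and `J ⊄ p`. -/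
theorem v4_finite_maximal_of_dedekind {R : Type*} [CommRing R] (p J : Ideal R) [p.IsPrime]
    [IsDedekindDomain (R ⧸ p)] (hJ : ¬ J ≤ p) :
    {t : Ideal R | t.IsMaximal ∧ p ⊔ J ≤ t}.Finite := by
  classical
  set I : Ideal (R ⧸ p) := J.map (Ideal.Quotient.mk p) with hI
  have hI0 : I ≠ ⊥ := by
    intro h
    apply hJ
    intro y hy
    have : Ideal.Quotient.mk p y ∈ I := Ideal.mem_map_of_mem _ hy
    rw [h, Ideal.mem_bot, Ideal.Quotient.eq_zero_iff_mem] at this
    exact this
  -- the minimal primes over `I` are finitely many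
  have hfin : (I.minimalPrimes).Finite := Ideal.finite_minimalPrimes_of_isNoetherianRing _ I
  have hfin' : ((Ideal.comap (Ideal.Quotient.mk p)) '' I.minimalPrimes).Finite := hfin.image _
  refine hfin'.subset ?_
  rintro t ⟨ht, hle⟩
  have hpt : p ≤ t := le_trans le_sup_left hle
  have hJt : J ≤ t := le_trans le_sup_right hle
  refine ⟨t.map (Ideal.Quotient.mk p), ?_, ?_⟩
  · -- `t / p` is a minimal prime over `I`
    have hmax : (t.map (Ideal.Quotient.mk p)).IsMaximal := by
      rcases Ideal.map_eq_top_or_isMaximal_of_surjective (Ideal.Quotient.mk p)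
        Ideal.Quotient.mk_surjective ht with h | h
      · exfalso
        have h1 : (1 : R ⧸ p) ∈ t.map (Ideal.Quotient.mk p) := by rw [h]; trivial
        rw [← map_one (Ideal.Quotient.mk p), Ideal.mem_quotient_iff_mem hpt] at h1
        exact ht.ne_top ((Ideal.eq_top_iff_one t).mpr h1)
      · exact h
    have hIle : I ≤ t.map (Ideal.Quotient.mk p) := Ideal.map_mono hJt
    refine ⟨⟨hmax.isPrime, hIle⟩, ?_⟩
    rintro Q ⟨hQ, hIQ⟩ hQt
    -- `Q ≠ ⊥` is a prime of a Dedekind domain, hence maximal
    have hQ0 : Q ≠ ⊥ := fun h => hI0 (le_bot_iff.mp (h ▸ hIQ))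
    have hQmax : Q.IsMaximal := hQ.isMaximal hQ0
    exact (hQmax.eq_of_le hmax.ne_top hQt).ge
  · rw [Ideal.comap_map_of_surjective _ Ideal.Quotient.mk_surjective]
    have : Ideal.comap (Ideal.Quotient.mk p) ⊥ = p := by
      rw [← RingHom.ker_eq_comap_bot, Ideal.mk_ker]
    rw [this]
    exact sup_eq_left.mpr hpt

/-- transport of `IsDedekindDomain` along a ring isomorphism -/
theorem v4_isDedekindDomain_of_ringEquiv {R R' : Type*} [CommRing R] [CommRing R']
    [IsDedekindDomain R] (e : R ≃+* R') : IsDedekindDomain R' := by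
  have hdom : IsDomain R' := e.toMulEquiv.isDomain_iff.mp inferInstance
  have hnoeth : IsNoetherianRing R' := isNoetherianRing_of_ringEquiv R e
  have hic : IsIntegrallyClosed R' := IsIntegrallyClosed.of_equiv e
  have hdim : Ring.DimensionLEOne R' := by
    refine ⟨fun {P} hP0 hP => ?_⟩
    have hP' : (P.comap (e : R →+* R')).IsPrime := Ideal.comap_isPrime _ _
    have hP'0 : P.comap (e : R →+* R') ≠ ⊥ := by
      intro h
      apply hP0
      rw [eq_bot_iff]
      intro y hy
      have : e.symm y ∈ P.comap (e : R →+* R') := by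
        rw [Ideal.mem_comap]
        simpa using hy
      rw [h, Ideal.mem_bot] at this
      have h2 := congrArg e this
      simpa using h2
    have hmax : (P.comap (e : R →+* R')).IsMaximal := hP'.isMaximal hP'0
    have := Ideal.map_eq_top_or_isMaximal_of_surjective (e : R →+* R') e.surjective hmax
    have hmc : Ideal.map (e : R →+* R') (Ideal.comap (e : R →+* R') P) = P :=
      Ideal.map_comap_of_surjective (e : R →+* R') e.surjective P
    rw [hmc] at this
    rcases this with h | h
    · exact absurd h hP.ne_top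
    · exact h
  exact { toIsDomain := hdom, toIsDedekindRing := { } }

/-- `B ⧸ p_∞ ≃ red_∞(B)` -/
def quotInfEquiv : S.B ⧸ S.pInf ≃+* S.redInf.range :=
  RingHom.quotientKerEquivRange S.redInf

/-- `B ⧸ p_mid ≃ red_mid(B)` -/
def quotMidEquiv : S.B ⧸ S.pMid ≃+* S.redMid.range :=
  RingHom.quotientKerEquivRange S.redMid

/-- `B ⧸ p_0 ≃ red_0(B)` -/
def quotZeroEquiv : S.B ⧸ S.pZero ≃+* S.redZero.range :=
  RingHom.quotientKerEquivRange S.redZero

theorem isDedekindDomain_quot_pInf [IsDedekindDomain S.redInf.range] :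
    IsDedekindDomain (S.B ⧸ S.pInf) :=
  v4_isDedekindDomain_of_ringEquiv S.quotInfEquiv.symm

theorem isDedekindDomain_quot_pMid [IsDedekindDomain S.redMid.range] :
    IsDedekindDomain (S.B ⧸ S.pMid) :=
  v4_isDedekindDomain_of_ringEquiv S.quotMidEquiv.symm

theorem isDedekindDomain_quot_pZero [IsDedekindDomain S.redZero.range] :
    IsDedekindDomain (S.B ⧸ S.pZero) :=
  v4_isDedekindDomain_of_ringEquiv S.quotZeroEquiv.symm

/-- **finitely many nodes** -/
theorem finite_nodes [IsDedekindDomain S.redInf.range] (hne : ¬ S.pZero ≤ S.pInf) :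
    {t : Ideal S.B | S.IsNode t}.Finite := by
  have := S.isDedekindDomain_quot_pInf
  exact v4_finite_maximal_of_dedekind S.pInf S.pZero hne

/-- `p_∞` is not maximal if `red_∞(B)` is not a field -/
theorem pInf_not_isMaximal (h : ¬ IsField S.redInf.range) : ¬ S.pInf.IsMaximal := by
  intro hmax
  apply h
  have hf : IsField (S.B ⧸ S.pInf) := (Ideal.Quotient.maximal_ideal_iff_isField_quotient _).mp hmax
  exact S.quotInfEquiv.symm.toMulEquiv.isField hf

theorem pMid_not_isMaximal (h : ¬ IsField S.redMid.range) : ¬ S.pMid.IsMaximal := by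
  intro hmax
  apply h
  have hf : IsField (S.B ⧸ S.pMid) := (Ideal.Quotient.maximal_ideal_iff_isField_quotient _).mp hmax
  exact S.quotMidEquiv.symm.toMulEquiv.isField hf

theorem pZero_not_isMaximal (h : ¬ IsField S.redZero.range) : ¬ S.pZero.IsMaximal := by
  intro hmax
  apply h
  have hf : IsField (S.B ⧸ S.pZero) := (Ideal.Quotient.maximal_ideal_iff_isField_quotient _).mp hmax
  exact S.quotZeroEquiv.symm.toMulEquiv.isField hf

end NodeSetup

end Fermat.Agent.S36lib
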