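import Mathlib
import Fermat.Agent.S34lib.AffRing
import Fermat.Agent.S36lib.NodesFinite

/-!
# Item 83 (S36), piece D1-Q, abstract part (helper27): the Dedekind ranges of the reductions

`ρ : B → κ` a reduction map (`red_∞`, `red_mid`, `red_0` of a `NodeSetup`), `R ⊆ κ` the affine
ring of the residue curve (`affRing Q`, a Dedekind domain with fraction field `κ`).  If the
reductions of `B` lie in `R` and every element of `R` is a reduction, then

* `d1q_range_eq`               : `ρ.range = R`;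
* `d1q_isDedekindDomain_range` : `ρ.range` is a Dedekind domain;
* `d1q_hfrac`                  : every `w : κ` is a quotient of reductions
                                 (`hfrac` of `pdict_inf/mid/zero`);
* `d1q_affRing_frac`           : every function is a quotient of functions regular off `Q`;
* `d1q_affRing_not_isField`    : `affRing Q` is not a field;
* `d1q_nodeSetup_inf/mid/zero` : `IsDedekindDomain (S.B ⧸ S.p_v)`, `hfrac`, `¬ S.p_v.IsMaximal`
                                 for a `NodeSetup`, from `hmem` (RED-MEM) and `hsurj` (lifting).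
-/

set_option autoImplicit false
set_option linter.style.haveILetI false
set_option linter.unusedSectionVars false

noncomputable section

namespace Fermat.Agent.S36lib

open AlgebraicCurve Fermat.Agent.RRlib Fermat.Agent.S24lib Fermat.Agent.S34lib

section Abstract

variable {k κ : Type*} [Field k] [Field κ] [Algebra k κ] {B : Type*} [CommRing B]

/-- the range of a reduction map with values in `R` and onto `R` -/
theorem d1q_range_eq (ρ : B →+* κ) (R : Subalgebra k κ) (hmem : ∀ z : B, ρ z ∈ R)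
    (hsurj : ∀ c ∈ R, ∃ z : B, ρ z = c) : ρ.range = R.toSubring := by
  ext x
  constructor
  · rintro ⟨z, rfl⟩
    exact hmem z
  · intro hx
    obtain ⟨z, hz⟩ := hsurj x hx
    exact ⟨z, hz⟩

/-- a subring equal to a Dedekind subalgebra is a Dedekind domain -/
theorem d1q_isDedekindDomain_of_eq (T : Subring κ) (R : Subalgebra k κ) [IsDedekindDomain R]
    (h : T = R.toSubring) : IsDedekindDomain T := by
  subst h
  exact (inferInstance : IsDedekindDomain R)

/-- **the range of the reduction map is a Dedekind domain** -/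
theorem d1q_isDedekindDomain_range (ρ : B →+* κ) (R : Subalgebra k κ) [IsDedekindDomain R]
    (hmem : ∀ z : B, ρ z ∈ R) (hsurj : ∀ c ∈ R, ∃ z : B, ρ z = c) :
    IsDedekindDomain ρ.range :=
  d1q_isDedekindDomain_of_eq ρ.range R (d1q_range_eq ρ R hmem hsurj)

/-- **the fraction field of the range is `κ`** -/
theorem d1q_hfrac (ρ : B →+* κ) (R : Subalgebra k κ)
    (hfracR : ∀ w : κ, ∃ a b : κ, a ∈ R ∧ b ∈ R ∧ b ≠ 0 ∧ w * b = a)
    (hsurj : ∀ c ∈ R, ∃ z : B, ρ z = c) (w : κ) :
    ∃ a b : B, ρ b ≠ 0 ∧ w * ρ b = ρ a := by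
  obtain ⟨a, b, ha, hb, hb0, hab⟩ := hfracR w
  obtain ⟨za, hza⟩ := hsurj a ha
  obtain ⟨zb, hzb⟩ := hsurj b hb
  exact ⟨za, zb, by rw [hzb]; exact hb0, by rw [hzb, hza]; exact hab⟩

/-- the range is not a field if `R` is not -/
theorem d1q_not_isField_range (ρ : B →+* κ) (R : Subalgebra k κ) (hnf : ¬ IsField R)
    (hmem : ∀ z : B, ρ z ∈ R) (hsurj : ∀ c ∈ R, ∃ z : B, ρ z = c) : ¬ IsField ρ.range := by
  have h := d1q_range_eq ρ R hmem hsurj
  intro hf
  apply hnf
  have hx : ∀ x : κ, x ∈ ρ.range ↔ x ∈ R := fun x => by rw [h]; rfl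
  have e : R ≃+* ρ.range :=
    { toFun := fun x => ⟨x.1, (hx _).2 x.2⟩
      invFun := fun x => ⟨x.1, (hx _).1 x.2⟩
      left_inv := fun _ => rfl
      right_inv := fun _ => rfl
      map_mul' := fun _ _ => rfl
      map_add' := fun _ _ => rfl }
  exact e.toMulEquiv.isField hf

end Abstract

section AffRing

variable {K F : Type*} [Field K] [Field F] [Algebra K F]

/-- **every function is a quotient of functions regular off `Q`** (Riemann–Roch) -/
theorem d1q_affRing_frac [RRHyp K F] (Q : Place K F) (w : F) :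
    ∃ a b : F, a ∈ affRing Q ∧ b ∈ affRing Q ∧ b ≠ 0 ∧ w * b = a := by
  classical
  rcases eq_or_ne w 0 with rfl | hw
  · exact ⟨0, 1, zero_mem _, one_mem _, one_ne_zero, by rw [zero_mul]⟩
  -- the polar divisor of `w`
  set E : Divisor K F :=
    Finsupp.mapRange (fun x : ℤ => max 0 (-x)) (by simp) (divOf (K := K) w) with hE
  have hEv : ∀ v : Place K F, E v = max 0 (-v.ord w) := by
    intro v
    rw [hE, Finsupp.mapRange_apply, divOf_apply hw]
  set n : ℤ := Divisor.degree E + genusFF K F with hn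
  set D : Divisor K F := n • Finsupp.single Q (1 : ℤ) - E with hD
  have hDdeg : Divisor.degree D = genusFF K F := by
    rw [hD, map_sub, map_zsmul, degree_single_one, smul_eq_mul, mul_one, hn]
    ring
  have hell : 0 < ell D := by
    have := riemann_inequality (K := K) D
    rw [hDdeg] at this
    have : (0 : ℤ) < ell D := by linarith
    exact_mod_cast this
  have hne : riemannRochSpace D ≠ ⊥ := by
    intro hbot
    rw [ell, hbot, finrank_bot] at hell
    exact lt_irrefl _ hell
  obtain ⟨b, hbmem, hb0⟩ := Submodule.exists_mem_ne_zero_of_ne_bot hne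
  rw [mem_riemannRochSpace_iff] at hbmem
  have hbv : ∀ v : Place K F, v ≠ Q → max 0 (-v.ord w) ≤ v.ord b := by
    intro v hv
    rcases hbmem v with h | h
    · exact absurd h hb0
    · rw [hD, Finsupp.sub_apply, Finsupp.smul_apply, Finsupp.single_eq_of_ne hv, smul_zero,
        zero_sub, neg_neg, hEv] at h
      exact h
  refine ⟨w * b, b, ?_, ?_, hb0, rfl⟩
  · intro v hv
    rw [v.ord_mul hw hb0]
    have := hbv v hv
    have h2 : -v.ord w ≤ max 0 (-v.ord w) := le_max_right _ _
    omega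
  · intro v hv
    have := hbv v hv
    have h2 : (0 : ℤ) ≤ max 0 (-v.ord w) := le_max_left _ _
    omega

/-- **the affine ring is not a field** -/
theorem d1q_affRing_not_isField [RRHyp K F] (Q : Place K F) : ¬ IsField (affRing Q) := by
  intro hf
  obtain ⟨f, hfc, hreg, -⟩ := exists_pole_only_at (K := K) Q
  have hfmem : f ∈ affRing Q := hreg
  have hf0 : (⟨f, hfmem⟩ : affRing Q) ≠ 0 := by
    intro h
    apply hfc
    have h0 : f = 0 := congrArg Subtype.val h
    rw [h0]
    exact ⟨0, map_zero _⟩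
  obtain ⟨g, hg⟩ := hf.mul_inv_cancel hf0
  have hu : IsUnit (⟨f, hfmem⟩ : affRing Q) := IsUnit.of_mul_eq_one _ hg
  exact hfc (affRing_const_of_isUnit Q hu)

end AffRing

section Node

variable {K : Type*} [Field K] {k : Type*} [Field k]
  {A : ValuationSubring K} {π : A →+* k} {κ : Type*} [Field κ] [Algebra k κ]
  {F : Type*} [Field F] [Algebra K F] (S : NodeSetup A π κ F)

/-- **D1-Q at `∞`**: `B ⧸ p_∞` is a Dedekind domain, `κ` is the fraction field of `red_∞(B)`,
`p_∞` is not maximal. -/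
theorem d1q_nodeSetup_inf (R : Subalgebra k κ) [IsDedekindDomain R] (hnf : ¬ IsField R)
    (hfracR : ∀ w : κ, ∃ a b : κ, a ∈ R ∧ b ∈ R ∧ b ≠ 0 ∧ w * b = a)
    (hmem : ∀ z : S.B, S.redInf z ∈ R) (hsurj : ∀ c ∈ R, ∃ z : S.B, S.redInf z = c) :
    IsDedekindDomain S.redInf.range ∧ IsDedekindDomain (S.B ⧸ S.pInf) ∧
      (∀ w : κ, ∃ a b : S.B, S.redInf b ≠ 0 ∧ w * S.redInf b = S.redInf a) ∧
      ¬ S.pInf.IsMaximal := by
  haveI h1 : IsDedekindDomain S.redInf.range :=
    d1q_isDedekindDomain_range S.redInf R hmem hsurj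
  exact ⟨h1, S.isDedekindDomain_quot_pInf, d1q_hfrac S.redInf R hfracR hsurj,
    S.pInf_not_isMaximal (d1q_not_isField_range S.redInf R hnf hmem hsurj)⟩

/-- **D1-Q at `mid`** -/
theorem d1q_nodeSetup_mid (R : Subalgebra k κ) [IsDedekindDomain R] (hnf : ¬ IsField R)
    (hfracR : ∀ w : κ, ∃ a b : κ, a ∈ R ∧ b ∈ R ∧ b ≠ 0 ∧ w * b = a)
    (hmem : ∀ z : S.B, S.redMid z ∈ R) (hsurj : ∀ c ∈ R, ∃ z : S.B, S.redMid z = c) :
    IsDedekindDomain S.redMid.range ∧ IsDedekindDomain (S.B ⧸ S.pMid) ∧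
      (∀ w : κ, ∃ a b : S.B, S.redMid b ≠ 0 ∧ w * S.redMid b = S.redMid a) ∧
      ¬ S.pMid.IsMaximal := by
  haveI h1 : IsDedekindDomain S.redMid.range :=
    d1q_isDedekindDomain_range S.redMid R hmem hsurj
  exact ⟨h1, S.isDedekindDomain_quot_pMid, d1q_hfrac S.redMid R hfracR hsurj,
    S.pMid_not_isMaximal (d1q_not_isField_range S.redMid R hnf hmem hsurj)⟩

/-- **D1-Q at `0`** -/
theorem d1q_nodeSetup_zero (R : Subalgebra k κ) [IsDedekindDomain R] (hnf : ¬ IsField R)
    (hfracR : ∀ w : κ, ∃ a b : κ, a ∈ R ∧ b ∈ R ∧ b ≠ 0 ∧ w * b = a)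
    (hmem : ∀ z : S.B, S.redZero z ∈ R) (hsurj : ∀ c ∈ R, ∃ z : S.B, S.redZero z = c) :
    IsDedekindDomain S.redZero.range ∧ IsDedekindDomain (S.B ⧸ S.pZero) ∧
      (∀ w : κ, ∃ a b : S.B, S.redZero b ≠ 0 ∧ w * S.redZero b = S.redZero a) ∧
      ¬ S.pZero.IsMaximal := by
  haveI h1 : IsDedekindDomain S.redZero.range :=
    d1q_isDedekindDomain_range S.redZero R hmem hsurj
  exact ⟨h1, S.isDedekindDomain_quot_pZero, d1q_hfrac S.redZero R hfracR hsurj,
    S.pZero_not_isMaximal (d1q_not_isField_range S.redZero R hnf hmem hsurj)⟩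

end Node

end Fermat.Agent.S36lib

end
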