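/-
Item 83 (S36), piece C-4, part C4-1b (helper17): ORDERS AND LEADING COEFFICIENTS of the
expansions of `P n₁ n₂ n₃ = π₁ g₁ · π₂ g₂ · π₃ g₃` at the three cusps `∞`, `mid`, `0` of
level `M' q²`.  No sorry.

For a Laurent series `x` over a commutative ring with pole order `≤ a` (`ClPole a x` of
`CruxLaurent.lean`) the "top coefficient" is `x.coeff (-a)`.

* abstract calculus: `eo_coeff_mul_top`, `eo_clPole_qExpand`, `eo_coeff_qExpand_top`,
  `eo_clPole_twq`, `eo_coeff_twq_top`;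
* integrality: `EoInt S x` (all coefficients in the subring `S`), stable under `+`, `*`,
  `qExpand`, `twq ζ` (`ζ, ζ⁻¹ ∈ S`);  `eoInt_iff_coeffMap`;
* the table for `P`:
  `E_∞ P`  : pole `≤ n₁ + q n₂ + q² n₃`, top coefficient `c₁ c₂ c₃`,
  `E_mid P`: pole `≤ n₁ + q n₂ + n₃`,   top coefficient `c₁ c₂ (ζ^(-n₃) c₃)`,
  `E_0 P`  : pole `≤ q² n₁ + q n₂ + n₃`, top coefficient `c₁ c₂ c₃`.
-/
import Mathlib
import Fermat.Agent.S36lib.ExpCalc
import Fermat.Agent.S36lib.CruxLaurent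
import Fermat.Agent.S36lib.SetupK0
import Fermat.Agent.S36lib.DescK0

set_option autoImplicit false
set_option linter.style.haveILetI false
set_option linter.unusedSectionVars false
set_option synthInstance.maxHeartbeats 400000

noncomputable section

namespace Fermat.Agent.S36lib

open AlgebraicCurve ModularCurve HahnSeries
open Fermat.Agent.S24lib Fermat.Agent.S34lib Fermat.Agent.S37lib

/-! ### Abstract calculus -/

section Abstract

variable {Λ : Type*} [CommRing Λ]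

/-- the top coefficient of a product is the product of the top coefficients -/
theorem eo_coeff_mul_top {a b : ℕ} {x y : LaurentSeries Λ} (hx : ClPole a x) (hy : ClPole b y) :
    (x * y).coeff (-((a + b : ℕ) : ℤ)) = x.coeff (-(a : ℤ)) * y.coeff (-(b : ℤ)) := by
  rw [HahnSeries.coeff_mul]
  rw [Finset.sum_eq_single (⟨-(a : ℤ), -(b : ℤ)⟩ : ℤ × ℤ)]
  · intro ij hij hne
    rw [Finset.mem_antidiagonal] at hij
    obtain ⟨-, -, hsum⟩ := hij
    by_cases h1 : ij.1 < -(a : ℤ)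
    · rw [hx _ h1, zero_mul]
    · by_cases h2 : ij.2 < -(b : ℤ)
      · rw [hy _ h2, mul_zero]
      · exfalso
        apply hne
        push_cast at hsum
        have e1 : ij.1 = -(a : ℤ) := by linarith [not_lt.mp h1, not_lt.mp h2]
        have e2 : ij.2 = -(b : ℤ) := by linarith [not_lt.mp h1, not_lt.mp h2]
        exact Prod.ext e1 e2
  · intro hnot
    rw [Finset.mem_antidiagonal] at hnot
    by_cases h1 : x.coeff (-(a : ℤ)) = 0
    · rw [h1, zero_mul]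
    · by_cases h2 : y.coeff (-(b : ℤ)) = 0
      · rw [h2, mul_zero]
      · exfalso
        apply hnot
        refine ⟨h1, h2, ?_⟩
        push_cast
        ring

/-- `qExpand N` multiplies pole orders by `N` -/
theorem eo_clPole_qExpand (N : ℕ) [NeZero N] {a : ℕ} {x : LaurentSeries Λ} (hx : ClPole a x) :
    ClPole (N * a) (qExpand Λ N x) := by
  intro n hn
  by_cases hd : (N : ℤ) ∣ n
  · obtain ⟨m, rfl⟩ := hd
    rw [qExpand_coeff_mul]
    apply hx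
    have hN : (0 : ℤ) < (N : ℤ) := by exact_mod_cast Nat.pos_of_ne_zero (NeZero.ne N)
    push_cast at hn
    by_contra hcon
    have := not_lt.mp hcon
    nlinarith
  · exact qExpand_coeff_of_not_dvd N x hd

/-- `qExpand N` keeps the top coefficient -/
theorem eo_coeff_qExpand_top (N : ℕ) [NeZero N] (a : ℕ) (x : LaurentSeries Λ) :
    (qExpand Λ N x).coeff (-((N * a : ℕ) : ℤ)) = x.coeff (-(a : ℤ)) := by
  have e : (-((N * a : ℕ) : ℤ)) = (N : ℤ) * (-(a : ℤ)) := by push_cast; ring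
  rw [e, qExpand_coeff_mul]

/-- `twq u` keeps pole orders -/
theorem eo_clPole_twq (u : Λˣ) {a : ℕ} {x : LaurentSeries Λ} (hx : ClPole a x) :
    ClPole a (twq u x) := by
  intro n hn
  rw [twq_coeff, hx n hn, mul_zero]

/-- the top coefficient of `twq u x` -/
theorem eo_coeff_twq_top (u : Λˣ) (a : ℕ) (x : LaurentSeries Λ) :
    (twq u x).coeff (-(a : ℤ)) = ((u ^ (-(a : ℤ)) : Λˣ) : Λ) * x.coeff (-(a : ℤ)) :=
  twq_coeff u x _

/-! ### Integrality -/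

/-- all coefficients of `x` lie in the subring `S` -/
def EoInt (S : Subring Λ) (x : LaurentSeries Λ) : Prop := ∀ n : ℤ, x.coeff n ∈ S

theorem eoInt_zero (S : Subring Λ) : EoInt S (0 : LaurentSeries Λ) := fun _ => S.zero_mem

theorem eoInt_one (S : Subring Λ) : EoInt S (1 : LaurentSeries Λ) := by
  intro n
  rw [HahnSeries.coeff_one]
  split_ifs
  · exact S.one_mem
  · exact S.zero_mem

theorem eoInt_add {S : Subring Λ} {x y : LaurentSeries Λ} (hx : EoInt S x) (hy : EoInt S y) :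
    EoInt S (x + y) := fun n => by
  rw [HahnSeries.coeff_add]
  exact S.add_mem (hx n) (hy n)

theorem eoInt_neg {S : Subring Λ} {x : LaurentSeries Λ} (hx : EoInt S x) : EoInt S (-x) :=
  fun n => by
    rw [HahnSeries.coeff_neg]
    exact S.neg_mem (hx n)

theorem eoInt_sub {S : Subring Λ} {x y : LaurentSeries Λ} (hx : EoInt S x) (hy : EoInt S y) :
    EoInt S (x - y) := by
  rw [sub_eq_add_neg]
  exact eoInt_add hx (eoInt_neg hy)

theorem eoInt_mul {S : Subring Λ} {x y : LaurentSeries Λ} (hx : EoInt S x) (hy : EoInt S y) :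
    EoInt S (x * y) := fun n => by
  rw [HahnSeries.coeff_mul]
  exact S.sum_mem fun ij _ => S.mul_mem (hx _) (hy _)

theorem eoInt_pow {S : Subring Λ} {x : LaurentSeries Λ} (hx : EoInt S x) (m : ℕ) :
    EoInt S (x ^ m) := by
  induction m with
  | zero => rw [pow_zero]; exact eoInt_one S
  | succ m ih => rw [pow_succ]; exact eoInt_mul ih hx

theorem eoInt_C {S : Subring Λ} {c : Λ} (hc : c ∈ S) : EoInt S (HahnSeries.C c : LaurentSeries Λ) := by
  intro n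
  rw [HahnSeries.C_apply, HahnSeries.coeff_single]
  split_ifs
  · exact hc
  · exact S.zero_mem

theorem eoInt_smul {S : Subring Λ} {c : Λ} (hc : c ∈ S) {x : LaurentSeries Λ} (hx : EoInt S x) :
    EoInt S (c • x) := fun n => by
  rw [HahnSeries.coeff_smul]
  exact S.mul_mem hc (hx n)

theorem eoInt_qExpand {S : Subring Λ} (N : ℕ) [NeZero N] {x : LaurentSeries Λ} (hx : EoInt S x) :
    EoInt S (qExpand Λ N x) := by
  intro n
  by_cases hd : (N : ℤ) ∣ n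
  · obtain ⟨m, rfl⟩ := hd
    rw [qExpand_coeff_mul]
    exact hx m
  · rw [qExpand_coeff_of_not_dvd N x hd]
    exact S.zero_mem

theorem eo_zpow_mem {S : Subring Λ} {u : Λˣ} (hu : (u : Λ) ∈ S) (hu' : ((u⁻¹ : Λˣ) : Λ) ∈ S)
    (n : ℤ) : ((u ^ n : Λˣ) : Λ) ∈ S := by
  obtain ⟨m, rfl | rfl⟩ := Int.eq_nat_or_neg n
  · rw [zpow_natCast, Units.val_pow_eq_pow_val]
    exact S.pow_mem hu m
  · rw [zpow_neg, zpow_natCast, ← inv_pow, Units.val_pow_eq_pow_val]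
    exact S.pow_mem hu' m

theorem eoInt_twq {S : Subring Λ} {u : Λˣ} (hu : (u : Λ) ∈ S) (hu' : ((u⁻¹ : Λˣ) : Λ) ∈ S)
    {x : LaurentSeries Λ} (hx : EoInt S x) : EoInt S (twq u x) := fun n => by
  rw [twq_coeff]
  exact S.mul_mem (eo_zpow_mem hu hu' n) (hx n)

/-- integrality = being the image of a Laurent series over `S` -/
theorem eoInt_iff_coeffMap (S : Subring Λ) (x : LaurentSeries Λ) :
    EoInt S x ↔ ∃ y : LaurentSeries S, coeffMap S.subtype y = x := by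
  constructor
  · intro hx
    refine ⟨⟨fun n => ⟨x.coeff n, hx n⟩, x.isPWO_support.mono ?_⟩, ?_⟩
    · intro n hn
      rw [Function.mem_support] at hn
      rw [HahnSeries.mem_support]
      intro h0
      exact hn (Subtype.ext h0)
    · ext n
      rw [coeffMap_coeff]
      rfl
  · rintro ⟨y, rfl⟩ n
    rw [coeffMap_coeff]
    exact (y.coeff n).2

end Abstract

/-! ### The table for `P = π₁ g₁ · π₂ g₂ · π₃ g₃` -/

section Table

variable (M' q : ℕ) [NeZero M'] [NeZero q]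

/-- `P g₁ g₂ g₃ = π₁ g₁ · π₂ g₂ · π₃ g₃ ∈ F_{M' q²}` -/
def ecP (g₁ g₂ g₃ : FF M') : FF (M' * q * q) :=
  ecPi1 M' q g₁ * ecPi2 M' q g₂ * ecPi3 M' q g₃

theorem ecInf_P (g₁ g₂ g₃ : FF M') :
    ecInf M' q (ecP M' q g₁ g₂ g₃) =
      (g₁ : LaurentSeries Kbar) * qExpand Kbar q (g₂ : LaurentSeries Kbar)
        * qExpand Kbar q (qExpand Kbar q (g₃ : LaurentSeries Kbar)) := by
  rw [ecP, map_mul, map_mul, ecInf_pi1, ecInf_pi2, ecInf_pi3]

variable {M' q}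

variable {g₁ g₂ g₃ : FF M'} {n₁ n₂ n₃ : ℕ}

theorem eo_inf_pole (h₁ : ClPole n₁ (g₁ : LaurentSeries Kbar))
    (h₂ : ClPole n₂ (g₂ : LaurentSeries Kbar)) (h₃ : ClPole n₃ (g₃ : LaurentSeries Kbar)) :
    ClPole (n₁ + q * n₂ + q ^ 2 * n₃) (ecInf M' q (ecP M' q g₁ g₂ g₃)) := by
  rw [ecInf_P]
  have h3 : ClPole (q ^ 2 * n₃) (qExpand Kbar q (qExpand Kbar q (g₃ : LaurentSeries Kbar))) := by
    have := eo_clPole_qExpand q (eo_clPole_qExpand q h₃)
    rwa [← mul_assoc, ← sq] at this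
  exact clPole_mul (clPole_mul h₁ (eo_clPole_qExpand q h₂)) h3

theorem eo_inf_top (h₁ : ClPole n₁ (g₁ : LaurentSeries Kbar))
    (h₂ : ClPole n₂ (g₂ : LaurentSeries Kbar)) (h₃ : ClPole n₃ (g₃ : LaurentSeries Kbar)) :
    (ecInf M' q (ecP M' q g₁ g₂ g₃)).coeff (-((n₁ + q * n₂ + q ^ 2 * n₃ : ℕ) : ℤ)) =
      (g₁ : LaurentSeries Kbar).coeff (-(n₁ : ℤ)) * (g₂ : LaurentSeries Kbar).coeff (-(n₂ : ℤ))
        * (g₃ : LaurentSeries Kbar).coeff (-(n₃ : ℤ)) := by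
  rw [ecInf_P]
  have h3 : ClPole (q * (q * n₃)) (qExpand Kbar q (qExpand Kbar q (g₃ : LaurentSeries Kbar))) :=
    eo_clPole_qExpand q (eo_clPole_qExpand q h₃)
  have e : q ^ 2 * n₃ = q * (q * n₃) := by rw [sq, mul_assoc]
  rw [e, eo_coeff_mul_top (clPole_mul h₁ (eo_clPole_qExpand q h₂)) h3,
    eo_coeff_mul_top h₁ (eo_clPole_qExpand q h₂), eo_coeff_qExpand_top, eo_coeff_qExpand_top,
    eo_coeff_qExpand_top]

theorem eo_inf_int {S : Subring Kbar} (h₁ : EoInt S (g₁ : LaurentSeries Kbar))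
    (h₂ : EoInt S (g₂ : LaurentSeries Kbar)) (h₃ : EoInt S (g₃ : LaurentSeries Kbar)) :
    EoInt S (ecInf M' q (ecP M' q g₁ g₂ g₃)) := by
  rw [ecInf_P]
  exact eoInt_mul (eoInt_mul h₁ (eoInt_qExpand q h₂)) (eoInt_qExpand q (eoInt_qExpand q h₃))

section Mid

variable (hq : q.Prime) (hqM : ¬ q ∣ M') (ζ : Kbarˣ) (hζ : IsPrimitiveRoot (ζ : Kbar) q)

theorem ecMid_P (g₁ g₂ g₃ : FF M') :
    ecMid M' q hq hqM ζ hζ (ecP M' q g₁ g₂ g₃) =
      (g₁ : LaurentSeries Kbar) * qExpand Kbar q (g₂ : LaurentSeries Kbar)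
        * twq ζ (g₃ : LaurentSeries Kbar) := by
  rw [ecP, map_mul, map_mul, ecMid_pi1, ecMid_pi2, ecMid_pi3]

theorem eo_mid_pole (h₁ : ClPole n₁ (g₁ : LaurentSeries Kbar))
    (h₂ : ClPole n₂ (g₂ : LaurentSeries Kbar)) (h₃ : ClPole n₃ (g₃ : LaurentSeries Kbar)) :
    ClPole (n₁ + q * n₂ + n₃) (ecMid M' q hq hqM ζ hζ (ecP M' q g₁ g₂ g₃)) := by
  rw [ecMid_P]
  exact clPole_mul (clPole_mul h₁ (eo_clPole_qExpand q h₂)) (eo_clPole_twq ζ h₃)

/-- the top coefficient at the middle cusp: `c₁ c₂ (ζ^(-n₃) c₃)` -/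
theorem eo_mid_top (h₁ : ClPole n₁ (g₁ : LaurentSeries Kbar))
    (h₂ : ClPole n₂ (g₂ : LaurentSeries Kbar)) (h₃ : ClPole n₃ (g₃ : LaurentSeries Kbar)) :
    (ecMid M' q hq hqM ζ hζ (ecP M' q g₁ g₂ g₃)).coeff (-((n₁ + q * n₂ + n₃ : ℕ) : ℤ)) =
      (g₁ : LaurentSeries Kbar).coeff (-(n₁ : ℤ)) * (g₂ : LaurentSeries Kbar).coeff (-(n₂ : ℤ))
        * (((ζ ^ (-(n₃ : ℤ)) : Kbarˣ) : Kbar) * (g₃ : LaurentSeries Kbar).coeff (-(n₃ : ℤ))) := by
  rw [ecMid_P, eo_coeff_mul_top (clPole_mul h₁ (eo_clPole_qExpand q h₂)) (eo_clPole_twq ζ h₃),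
    eo_coeff_mul_top h₁ (eo_clPole_qExpand q h₂), eo_coeff_qExpand_top, eo_coeff_twq_top]

/-- the same, in the form `(c₁ c₂ c₃) · (ζ⁻¹)^n₃` -/
theorem eo_mid_top' (h₁ : ClPole n₁ (g₁ : LaurentSeries Kbar))
    (h₂ : ClPole n₂ (g₂ : LaurentSeries Kbar)) (h₃ : ClPole n₃ (g₃ : LaurentSeries Kbar)) :
    (ecMid M' q hq hqM ζ hζ (ecP M' q g₁ g₂ g₃)).coeff (-((n₁ + q * n₂ + n₃ : ℕ) : ℤ)) =
      ((g₁ : LaurentSeries Kbar).coeff (-(n₁ : ℤ)) * (g₂ : LaurentSeries Kbar).coeff (-(n₂ : ℤ))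
        * (g₃ : LaurentSeries Kbar).coeff (-(n₃ : ℤ))) * ((ζ⁻¹ : Kbarˣ) : Kbar) ^ n₃ := by
  rw [eo_mid_top hq hqM ζ hζ h₁ h₂ h₃, zpow_neg, zpow_natCast, ← inv_pow,
    Units.val_pow_eq_pow_val]
  ring

theorem eo_mid_int {S : Subring Kbar} (hζS : (ζ : Kbar) ∈ S)
    (h₁ : EoInt S (g₁ : LaurentSeries Kbar))
    (h₂ : EoInt S (g₂ : LaurentSeries Kbar)) (h₃ : EoInt S (g₃ : LaurentSeries Kbar)) :
    EoInt S (ecMid M' q hq hqM ζ hζ (ecP M' q g₁ g₂ g₃)) := by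
  rw [ecMid_P]
  have hinv : ((ζ⁻¹ : Kbarˣ) : Kbar) ∈ S := by
    have h1 : ((ζ⁻¹ : Kbarˣ) : Kbar) = (ζ : Kbar) ^ (q - 1) := by
      have hpow : (ζ : Kbar) ^ q = 1 := hζ.pow_eq_one
      have hq1 : q = (q - 1) + 1 := (Nat.succ_pred_eq_of_pos hq.pos).symm
      rw [Units.val_inv_eq_inv_val]
      apply inv_eq_of_mul_eq_one_right
      rw [← pow_succ', ← hq1, hpow]
    rw [h1]
    exact S.pow_mem hζS _
  exact eoInt_mul (eoInt_mul h₁ (eoInt_qExpand q h₂)) (eoInt_twq hζS hinv h₃)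

end Mid

section Zero

variable (hq : q.Prime) (hqM : ¬ q ∣ M')

theorem ecZero_P (g₁ g₂ g₃ : FF M') :
    ecZero M' q hq hqM (ecP M' q g₁ g₂ g₃) =
      qExpand Kbar q (qExpand Kbar q (g₁ : LaurentSeries Kbar))
        * qExpand Kbar q (g₂ : LaurentSeries Kbar) * (g₃ : LaurentSeries Kbar) := by
  rw [ecP, map_mul, map_mul, ecZero_pi1, ecZero_pi2, ecZero_pi3]

theorem eo_zero_pole (h₁ : ClPole n₁ (g₁ : LaurentSeries Kbar))
    (h₂ : ClPole n₂ (g₂ : LaurentSeries Kbar)) (h₃ : ClPole n₃ (g₃ : LaurentSeries Kbar)) :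
    ClPole (q ^ 2 * n₁ + q * n₂ + n₃) (ecZero M' q hq hqM (ecP M' q g₁ g₂ g₃)) := by
  rw [ecZero_P]
  have h1 : ClPole (q ^ 2 * n₁) (qExpand Kbar q (qExpand Kbar q (g₁ : LaurentSeries Kbar))) := by
    have := eo_clPole_qExpand q (eo_clPole_qExpand q h₁)
    rwa [← mul_assoc, ← sq] at this
  exact clPole_mul (clPole_mul h1 (eo_clPole_qExpand q h₂)) h₃

theorem eo_zero_top (h₁ : ClPole n₁ (g₁ : LaurentSeries Kbar))
    (h₂ : ClPole n₂ (g₂ : LaurentSeries Kbar)) (h₃ : ClPole n₃ (g₃ : LaurentSeries Kbar)) :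
    (ecZero M' q hq hqM (ecP M' q g₁ g₂ g₃)).coeff (-((q ^ 2 * n₁ + q * n₂ + n₃ : ℕ) : ℤ)) =
      (g₁ : LaurentSeries Kbar).coeff (-(n₁ : ℤ)) * (g₂ : LaurentSeries Kbar).coeff (-(n₂ : ℤ))
        * (g₃ : LaurentSeries Kbar).coeff (-(n₃ : ℤ)) := by
  rw [ecZero_P]
  have h1 : ClPole (q * (q * n₁)) (qExpand Kbar q (qExpand Kbar q (g₁ : LaurentSeries Kbar))) :=
    eo_clPole_qExpand q (eo_clPole_qExpand q h₁)
  have e : q ^ 2 * n₁ = q * (q * n₁) := by rw [sq, mul_assoc]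
  rw [e, eo_coeff_mul_top (clPole_mul h1 (eo_clPole_qExpand q h₂)) h₃,
    eo_coeff_mul_top h1 (eo_clPole_qExpand q h₂), eo_coeff_qExpand_top, eo_coeff_qExpand_top,
    eo_coeff_qExpand_top]

theorem eo_zero_int {S : Subring Kbar} (h₁ : EoInt S (g₁ : LaurentSeries Kbar))
    (h₂ : EoInt S (g₂ : LaurentSeries Kbar)) (h₃ : EoInt S (g₃ : LaurentSeries Kbar)) :
    EoInt S (ecZero M' q hq hqM (ecP M' q g₁ g₂ g₃)) := by
  rw [ecZero_P]
  exact eoInt_mul (eoInt_mul (eoInt_qExpand q (eoInt_qExpand q h₁)) (eoInt_qExpand q h₂)) h₃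

end Zero

end Table

/-! ### Rationality over `K0` -/

section Rational

variable (A : ValuationSubring Kbar)

/-- inertia-fixed = the expansion at `∞` has coefficients in `K0` -/
theorem eo_isIFixed_iff (L : ℕ) [NeZero L] (x : FF L) :
    IsIFixed L A x ↔ EoInt (k0Field A).toSubfield.toSubring (x : LaurentSeries Kbar) := by
  constructor
  · intro h n
    show (x : LaurentSeries Kbar).coeff n ∈ k0Field A
    rw [mem_k0Field_iff]
    intro σ hσ
    have := congrArg (fun y : FF L => (y : LaurentSeries Kbar).coeff n) (h σ hσ)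
    exact this
  · intro h σ hσ
    apply Subtype.ext
    ext n
    have hn : (x : LaurentSeries Kbar).coeff n ∈ k0Field A := h n
    exact (mem_k0Field_iff A _).mp hn σ hσ

variable {M' q : ℕ} [NeZero M'] [NeZero q]

/-- `P` of inertia-fixed functions is inertia-fixed -/
theorem eo_isIFixed_P {g₁ g₂ g₃ : FF M'} (h₁ : IsIFixed M' A g₁) (h₂ : IsIFixed M' A g₂)
    (h₃ : IsIFixed M' A g₃) : IsIFixed (M' * q * q) A (ecP M' q g₁ g₂ g₃) := by
  rw [eo_isIFixed_iff] at h₁ h₂ h₃ ⊢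
  exact eo_inf_int h₁ h₂ h₃

theorem eo_isIFixed_pi1 {g : FF M'} (h : IsIFixed M' A g) :
    IsIFixed (M' * q * q) A (ecPi1 M' q g) := by
  rw [eo_isIFixed_iff] at h ⊢
  rw [← ecInf_apply, ecInf_pi1]
  exact h

theorem eo_isIFixed_pi2 {g : FF M'} (h : IsIFixed M' A g) :
    IsIFixed (M' * q * q) A (ecPi2 M' q g) := by
  rw [eo_isIFixed_iff] at h ⊢
  rw [← ecInf_apply, ecInf_pi2]
  exact eoInt_qExpand q h

theorem eo_isIFixed_pi3 {g : FF M'} (h : IsIFixed M' A g) :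
    IsIFixed (M' * q * q) A (ecPi3 M' q g) := by
  rw [eo_isIFixed_iff] at h ⊢
  rw [← ecInf_apply, ecInf_pi3]
  exact eoInt_qExpand q (eoInt_qExpand q h)

/-- a ring homomorphism `FF L → FF L'` which is the identity on constants and maps every `j_d`
to some `j_{d'}` maps `F0(L)` into `F0(L')` -/
theorem eo_map_f0Field {L L' : ℕ} [NeZero L] [NeZero L'] (φ : FF L →+* FF L')
    (hc : ∀ c : Kbar, φ (algebraMap Kbar (FF L) c) = algebraMap Kbar (FF L') c)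
    (hj : ∀ (d : ℕ) [NeZero d] (hd : d ∣ L), φ (jdF L d hd) ∈ f0Gens L')
    {x : FF L} (hx : x ∈ f0Field A L) : φ x ∈ f0Field A L' := by
  induction hx using IntermediateField.adjoin_induction with
  | mem x hx =>
    obtain ⟨d, hd, hne, rfl⟩ := hx
    exact IntermediateField.subset_adjoin _ _ (hj d hd)
  | algebraMap c =>
    have e : algebraMap (k0Field A) (FF L) c = algebraMap Kbar (FF L) (c : Kbar) := rfl
    rw [e, hc]
    exact const_mem_f0Field A L' c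
  | add x y _ _ hx hy => rw [map_add]; exact add_mem hx hy
  | inv x _ hx => rw [map_inv₀]; exact inv_mem hx
  | mul x y _ _ hx hy => rw [map_mul]; exact mul_mem hx hy

theorem ecPi1_mem_f0Field {g : FF M'} (hg : g ∈ f0Field A M') :
    ecPi1 M' q g ∈ f0Field A (M' * q * q) := by
  refine eo_map_f0Field A (ecPi1 M' q) (ecPi1_algebraMap M' q) ?_ hg
  intro d hne hd
  rw [ecPi1_jdF]
  exact ⟨d, _, hne, rfl⟩

theorem ecPi2_mem_f0Field {g : FF M'} (hg : g ∈ f0Field A M') :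
    ecPi2 M' q g ∈ f0Field A (M' * q * q) := by
  refine eo_map_f0Field A (ecPi2 M' q) (ecPi2_algebraMap M' q) ?_ hg
  intro d hne hd
  haveI : NeZero (d * q) := ⟨Nat.mul_ne_zero (NeZero.ne d) (NeZero.ne q)⟩
  rw [ecPi2_jdF]
  exact ⟨d * q, _, inferInstance, rfl⟩

theorem ecPi3_mem_f0Field {g : FF M'} (hg : g ∈ f0Field A M') :
    ecPi3 M' q g ∈ f0Field A (M' * q * q) := by
  refine eo_map_f0Field A (ecPi3 M' q) (ecPi3_algebraMap M' q) ?_ hg
  intro d hne hd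
  haveI : NeZero (d * q) := ⟨Nat.mul_ne_zero (NeZero.ne d) (NeZero.ne q)⟩
  haveI : NeZero (d * q * q) := ⟨Nat.mul_ne_zero (NeZero.ne (d * q)) (NeZero.ne q)⟩
  rw [ecPi3_jdF]
  exact ⟨d * q * q, _, inferInstance, rfl⟩

theorem ecP_mem_f0Field {g₁ g₂ g₃ : FF M'} (h₁ : g₁ ∈ f0Field A M') (h₂ : g₂ ∈ f0Field A M')
    (h₃ : g₃ ∈ f0Field A M') : ecP M' q g₁ g₂ g₃ ∈ f0Field A (M' * q * q) :=
  mul_mem (mul_mem (ecPi1_mem_f0Field A h₁) (ecPi2_mem_f0Field A h₂)) (ecPi3_mem_f0Field A h₃)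

end Rational

end Fermat.Agent.S36lib
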