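/-
Item 83 (S36), block V, piece V-C (helper4): the tables of the valuations `v_∞` and
`v₀ = v_∞ ∘ w_{q²}` along `α`, `β : F_{M'q} → F_{M'q²}`, on top of helper23's `ZeroSide.lean`
(`inredZero2 R = inredComap R w₂`).

General (any levels `N`, `N ℓ`, series reductions `RN`, `R` with the same residue field `Fk`):
* `vz2_alpha_mem_red`, `vz2_alpha_mem_iff`, `vz2_alpha_red` :
  `α x ∈ R.O ↔ x ∈ RN.O`, `red (α x) = red x`;
* `vz2_beta_mem_red`, `vz2_beta_mem_iff`, `vz2_beta_red` :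
  `β x ∈ R.O ↔ x ∈ RN.O`, `red (β x) = (red x)(X^ℓ)`.
Level `M' q²` (`w₁ = alW1`, `w₂ = alW2`, `R₀ = inredZero2 R`, `RN₀ = inredComap RN w₁`, which is
the S34 object `inredZero RN`: `vz2_inredZero_eq`):
* `vz2Zero_beta_mem_iff`, `vz2Zero_beta_red` : `β x ∈ R₀.O ↔ x ∈ RN₀.O`, `red₀ (β x) = red₀ x`;
* `vz2Zero_alpha_mem_iff`, `vz2Zero_alpha_red` : `α x ∈ R₀.O ↔ x ∈ RN₀.O`,
  `red₀ (α x) = (red₀ x)(X^q)`.
-/
import Mathlib
import Fermat.Agent.S36lib.ZeroSide
import Fermat.Agent.GoodRed.DescTower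
import Fermat.Agent.Kron.Core

set_option autoImplicit false
set_option linter.style.haveILetI false
set_option linter.unusedSectionVars false
set_option synthInstance.maxHeartbeats 400000

noncomputable section

namespace Fermat.Agent.S36lib

open AlgebraicCurve ModularCurve HahnSeries
open Fermat.Agent.S24lib Fermat.Agent.HeckeBar Fermat.Agent.S37lib Fermat.Agent.S34lib
open Fermat.Agent.S35lib Fermat.Agent.GoodRed

section Abstract

variable {K k : Type*} [Field K] [Field k] {A : ValuationSubring K} {π : A →+* k}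
variable {Fk : Type*} [Field Fk] [Algebra k Fk]
variable {F F' : Type*} [Field F] [Field F'] [Algebra K F] [Algebra K F']

/-- a ring homomorphism of function fields mapping the unit ball into the unit ball, with
injective induced map on residue fields, reflects the unit ball -/
theorem vz2_mem_of_map_mem (RN : ConstRed A π Fk F) (R : ConstRed A π Fk F') (φ : F →+* F')
    (Φ : Fk →+* Fk)
    (h : ∀ (x : F) (hx : x ∈ RN.O), ∃ h : φ x ∈ R.O, R.red ⟨φ x, h⟩ = Φ (RN.red ⟨x, hx⟩))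
    {x : F} (hx : φ x ∈ R.O) : x ∈ RN.O := by
  by_contra hcon
  have hx0 : x ≠ 0 := fun h0 => hcon (by rw [h0]; exact RN.O.zero_mem)
  have hinv : x⁻¹ ∈ RN.O := (RN.O.mem_or_inv_mem x).resolve_left hcon
  have hnu : x⁻¹ ∈ RN.O.nonunits := by
    rw [ValuationSubring.mem_nonunits_iff_or]
    right
    rwa [inv_inv]
  have hred : RN.red ⟨x⁻¹, hinv⟩ = 0 := (RN.red_eq_zero_iff ⟨x⁻¹, hinv⟩).mpr hnu
  obtain ⟨h1, h2⟩ := h x⁻¹ hinv
  rw [hred, map_zero] at h2
  have hnu' : φ x⁻¹ ∈ R.O.nonunits := (R.red_eq_zero_iff ⟨φ x⁻¹, h1⟩).mp h2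
  rw [ValuationSubring.mem_nonunits_iff_or] at hnu'
  rcases hnu' with h0 | h0
  · exact inv_ne_zero hx0 ((map_eq_zero φ).mp h0)
  · rw [map_inv₀, inv_inv] at h0
    exact h0 hx

end Abstract

section Tables

variable (N ℓ : ℕ) [NeZero N] [NeZero ℓ]
variable {A : ValuationSubring Kbar}
variable {Fk : IntermediateField (IsLocalRing.ResidueField A)
  (LaurentSeries (IsLocalRing.ResidueField A))}
variable {RN : ConstRed A (IsLocalRing.residue A) (↥Fk) (FF N)}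
variable {R : ConstRed A (IsLocalRing.residue A) (↥Fk) (FF (N * ℓ))}

/-- `α` maps the unit ball of `v_∞(N)` into the unit ball of `v_∞(N ℓ)`, compatibly with the
reductions -/
theorem vz2_alpha_mem_red (hRN : IsSeriesRed RN) (hR : IsSeriesRed R)
    (hfrac : HasPrimFrac A (modularFunctionFieldBar N)) {x : FF N} (hx : x ∈ RN.O) :
    ∃ h : heckeAlphaBar Kbar N ℓ x ∈ R.O,
      R.red ⟨heckeAlphaBar Kbar N ℓ x, h⟩ = RN.red ⟨x, hx⟩ := by
  obtain ⟨a, b, hrep⟩ := hRN.exists_isRep hfrac hx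
  have hrep' : IsRep A (modularFunctionFieldBar (N * ℓ))
      ((heckeAlphaBar Kbar N ℓ x : FF (N * ℓ)) : LaurentSeries Kbar) a b := by
    refine ⟨?_, ?_, hrep.2.2.1, ?_⟩
    · exact (heckeAlphaBar Kbar N ℓ ⟨_, hrep.1⟩).2
    · exact (heckeAlphaBar Kbar N ℓ ⟨_, hrep.2.1⟩).2
    · rw [coe_heckeAlphaBar]
      exact hrep.2.2.2
  have h := hR.mem_of_isRep hrep'
  refine ⟨h, ?_⟩
  apply Subtype.ext
  rw [hR.red_of_isRep hrep' h, hRN.red_of_isRep hrep hx]

theorem vz2_alpha_mem_iff (hRN : IsSeriesRed RN) (hR : IsSeriesRed R)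
    (hfrac : HasPrimFrac A (modularFunctionFieldBar N)) (x : FF N) :
    heckeAlphaBar Kbar N ℓ x ∈ R.O ↔ x ∈ RN.O := by
  refine ⟨fun h => ?_, fun h => (vz2_alpha_mem_red N ℓ hRN hR hfrac h).1⟩
  refine vz2_mem_of_map_mem RN R ((heckeAlphaBar Kbar N ℓ : FF N →ₐ[Kbar] FF (N * ℓ)) :
    FF N →+* FF (N * ℓ)) (RingHom.id _) ?_ h
  intro y hy
  exact vz2_alpha_mem_red N ℓ hRN hR hfrac hy

theorem vz2_alpha_red (hRN : IsSeriesRed RN) (hR : IsSeriesRed R)
    (hfrac : HasPrimFrac A (modularFunctionFieldBar N)) {x : FF N} (hx : x ∈ RN.O)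
    (h : heckeAlphaBar Kbar N ℓ x ∈ R.O) :
    R.red ⟨heckeAlphaBar Kbar N ℓ x, h⟩ = RN.red ⟨x, hx⟩ :=
  (vz2_alpha_mem_red N ℓ hRN hR hfrac hx).2

/-- `β` maps the unit ball of `v_∞(N)` into the unit ball of `v_∞(N ℓ)`; the reduction of `β x`
is `(red x)(X^ℓ)` -/
theorem vz2_beta_mem_red (hRN : IsSeriesRed RN) (hR : IsSeriesRed R)
    (hfrac : HasPrimFrac A (modularFunctionFieldBar N)) {x : FF N} (hx : x ∈ RN.O) :
    ∃ h : heckeBetaBar Kbar N ℓ x ∈ R.O,
      ((R.red ⟨heckeBetaBar Kbar N ℓ x, h⟩ : ↥Fk) : LaurentSeries (IsLocalRing.ResidueField A))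
        = qExpand (IsLocalRing.ResidueField A) ℓ
            ((RN.red ⟨x, hx⟩ : ↥Fk) : LaurentSeries (IsLocalRing.ResidueField A)) := by
  obtain ⟨a, b, hrep⟩ := hRN.exists_isRep hfrac hx
  have hrep' : IsRep A (modularFunctionFieldBar (N * ℓ))
      ((heckeBetaBar Kbar N ℓ x : FF (N * ℓ)) : LaurentSeries Kbar)
      (qExpand A ℓ a) (qExpand A ℓ b) := by
    refine ⟨?_, ?_, ?_, ?_⟩
    · rw [Fermat.Agent.Kron.coeffMap_qExpand]
      exact (heckeBetaBar Kbar N ℓ ⟨_, hrep.1⟩).2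
    · rw [Fermat.Agent.Kron.coeffMap_qExpand]
      exact (heckeBetaBar Kbar N ℓ ⟨_, hrep.2.1⟩).2
    · rw [Fermat.Agent.Kron.coeffMap_qExpand]
      intro h0
      exact hrep.2.2.1 (qExpand_injective ℓ (h0.trans (map_zero _).symm))
    · rw [coe_heckeBetaBar, Fermat.Agent.Kron.coeffMap_qExpand,
        Fermat.Agent.Kron.coeffMap_qExpand, ← map_mul, hrep.2.2.2]
  have h := hR.mem_of_isRep hrep'
  refine ⟨h, ?_⟩
  rw [hR.red_of_isRep hrep' h, hRN.red_of_isRep hrep hx, Fermat.Agent.Kron.coeffMap_qExpand,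
    Fermat.Agent.Kron.coeffMap_qExpand, map_div₀]

theorem vz2_beta_red (hRN : IsSeriesRed RN) (hR : IsSeriesRed R)
    (hfrac : HasPrimFrac A (modularFunctionFieldBar N)) {x : FF N} (hx : x ∈ RN.O)
    (h : heckeBetaBar Kbar N ℓ x ∈ R.O) :
    ((R.red ⟨heckeBetaBar Kbar N ℓ x, h⟩ : ↥Fk) : LaurentSeries (IsLocalRing.ResidueField A))
      = qExpand (IsLocalRing.ResidueField A) ℓ
          ((RN.red ⟨x, hx⟩ : ↥Fk) : LaurentSeries (IsLocalRing.ResidueField A)) :=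
  (vz2_beta_mem_red N ℓ hRN hR hfrac hx).2

theorem vz2_beta_mem_iff (hRN : IsSeriesRed RN) (hR : IsSeriesRed R)
    (hfrac : HasPrimFrac A (modularFunctionFieldBar N)) (x : FF N) :
    heckeBetaBar Kbar N ℓ x ∈ R.O ↔ x ∈ RN.O := by
  refine ⟨fun h => ?_, fun h => (vz2_beta_mem_red N ℓ hRN hR hfrac h).1⟩
  by_contra hcon
  have hx0 : x ≠ 0 := fun h0 => hcon (by rw [h0]; exact RN.O.zero_mem)
  have hinv : x⁻¹ ∈ RN.O := (RN.O.mem_or_inv_mem x).resolve_left hcon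
  have hnu : x⁻¹ ∈ RN.O.nonunits := by
    rw [ValuationSubring.mem_nonunits_iff_or]
    right
    rwa [inv_inv]
  have hred : RN.red ⟨x⁻¹, hinv⟩ = 0 := (RN.red_eq_zero_iff ⟨x⁻¹, hinv⟩).mpr hnu
  obtain ⟨h1, h2⟩ := vz2_beta_mem_red N ℓ hRN hR hfrac hinv
  rw [hred] at h2
  have h3 : R.red ⟨heckeBetaBar Kbar N ℓ x⁻¹, h1⟩ = 0 := by
    apply Subtype.ext
    rw [h2]
    exact map_zero _
  have hnu' : heckeBetaBar Kbar N ℓ x⁻¹ ∈ R.O.nonunits :=
    (R.red_eq_zero_iff ⟨heckeBetaBar Kbar N ℓ x⁻¹, h1⟩).mp h3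
  rw [ValuationSubring.mem_nonunits_iff_or] at hnu'
  rcases hnu' with h0 | h0
  · exact inv_ne_zero hx0 ((map_eq_zero (heckeBetaBar Kbar N ℓ)).mp h0)
  · rw [map_inv₀, inv_inv] at h0
    exact h0 h

end Tables

section Zero

variable (M' : ℕ) [NeZero M'] {q : ℕ} [NeZero q] [NeZero (M' * q)] [NeZero (M' * q * q)]
variable (hq : q.Prime) (hqM : ¬ q ∣ M')
variable {A : ValuationSubring Kbar}
variable {Fk : IntermediateField (IsLocalRing.ResidueField A)
  (LaurentSeries (IsLocalRing.ResidueField A))}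
variable {R : ConstRed A (IsLocalRing.residue A) (↥Fk) (FF (M' * q * q))}
variable {RN : ConstRed A (IsLocalRing.residue A) (↥Fk) (FF (M' * q))}

/-- the level-`M'q` object `RN₀ = inredZero RN` (S34) in terms of `w₁ = alW1` -/
theorem vz2_inredZero_eq (RN : ConstRed A (IsLocalRing.residue A) (↥Fk) (FF (M' * q))) :
    inredZero (M' * q) q hq (dvd_mul_left q M') (dgj_not_sq_dvd_mul_self hq hqM) RN
      = inredComap RN (alW1 M' hq hqM) := rfl

/-- table of `v₀` along `β` (`e = f = 1`) -/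
theorem vz2Zero_beta_mem_iff (hRN : IsSeriesRed RN) (hR : IsSeriesRed R)
    (hfrac : HasPrimFrac A (modularFunctionFieldBar (M' * q))) (x : FF (M' * q)) :
    heckeBetaBar Kbar (M' * q) q x ∈ (inredZero2 M' hq hqM R).O ↔
      x ∈ (inredComap RN (alW1 M' hq hqM)).O := by
  rw [mem_inredZero2_O, al2_beta_apply, mem_inredComap_O]
  exact vz2_alpha_mem_iff (M' * q) q hRN hR hfrac _

theorem vz2Zero_beta_red (hRN : IsSeriesRed RN) (hR : IsSeriesRed R)
    (hfrac : HasPrimFrac A (modularFunctionFieldBar (M' * q))) {x : FF (M' * q)}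
    (hx : x ∈ (inredComap RN (alW1 M' hq hqM)).O)
    (h : heckeBetaBar Kbar (M' * q) q x ∈ (inredZero2 M' hq hqM R).O) :
    (inredZero2 M' hq hqM R).red ⟨heckeBetaBar Kbar (M' * q) q x, h⟩
      = (inredComap RN (alW1 M' hq hqM)).red ⟨x, hx⟩ := by
  have e : alW2 M' hq hqM (heckeBetaBar Kbar (M' * q) q x)
      = heckeAlphaBar Kbar (M' * q) q (alW1 M' hq hqM x) := al2_beta_apply M' hq hqM x
  have hx' : alW1 M' hq hqM x ∈ RN.O := hx
  have h' : heckeAlphaBar Kbar (M' * q) q (alW1 M' hq hqM x) ∈ R.O := by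
    rw [← e]
    exact h
  have h1 : R.red ⟨heckeAlphaBar Kbar (M' * q) q (alW1 M' hq hqM x), h'⟩
      = RN.red ⟨alW1 M' hq hqM x, hx'⟩ := vz2_alpha_red (M' * q) q hRN hR hfrac hx' h'
  show R.red ⟨alW2 M' hq hqM (heckeBetaBar Kbar (M' * q) q x), h⟩
    = RN.red ⟨alW1 M' hq hqM x, hx'⟩
  rw [← h1]
  congr 1
  exact Subtype.ext e

/-- table of `v₀` along `α` (`e = 1`, `f = q` inseparable) -/
theorem vz2Zero_alpha_mem_iff (hRN : IsSeriesRed RN) (hR : IsSeriesRed R)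
    (hfrac : HasPrimFrac A (modularFunctionFieldBar (M' * q))) (x : FF (M' * q)) :
    heckeAlphaBar Kbar (M' * q) q x ∈ (inredZero2 M' hq hqM R).O ↔
      x ∈ (inredComap RN (alW1 M' hq hqM)).O := by
  rw [mem_inredZero2_O, al2_alpha_apply, mem_inredComap_O]
  exact vz2_beta_mem_iff (M' * q) q hRN hR hfrac _

theorem vz2Zero_alpha_red (hRN : IsSeriesRed RN) (hR : IsSeriesRed R)
    (hfrac : HasPrimFrac A (modularFunctionFieldBar (M' * q))) {x : FF (M' * q)}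
    (hx : x ∈ (inredComap RN (alW1 M' hq hqM)).O)
    (h : heckeAlphaBar Kbar (M' * q) q x ∈ (inredZero2 M' hq hqM R).O) :
    (((inredZero2 M' hq hqM R).red ⟨heckeAlphaBar Kbar (M' * q) q x, h⟩ : ↥Fk) :
        LaurentSeries (IsLocalRing.ResidueField A))
      = qExpand (IsLocalRing.ResidueField A) q
          (((inredComap RN (alW1 M' hq hqM)).red ⟨x, hx⟩ : ↥Fk) :
            LaurentSeries (IsLocalRing.ResidueField A)) := by
  have e : alW2 M' hq hqM (heckeAlphaBar Kbar (M' * q) q x)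
      = heckeBetaBar Kbar (M' * q) q (alW1 M' hq hqM x) := al2_alpha_apply M' hq hqM x
  have hx' : alW1 M' hq hqM x ∈ RN.O := hx
  have h' : heckeBetaBar Kbar (M' * q) q (alW1 M' hq hqM x) ∈ R.O := by
    rw [← e]
    exact h
  have h1 := vz2_beta_red (M' * q) q hRN hR hfrac hx' h'
  show ((R.red ⟨alW2 M' hq hqM (heckeAlphaBar Kbar (M' * q) q x), h⟩ : ↥Fk) :
      LaurentSeries (IsLocalRing.ResidueField A))
    = qExpand (IsLocalRing.ResidueField A) q
        ((RN.red ⟨alW1 M' hq hqM x, hx'⟩ : ↥Fk) : LaurentSeries (IsLocalRing.ResidueField A))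
  rw [← h1]
  congr 2
  exact Subtype.ext e

end Zero

end Fermat.Agent.S36lib

end
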