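import Mathlib
import Fermat.Agent.S36lib.D1DedekindAbs
import Fermat.Agent.S36lib.TheSetup
import Fermat.Agent.S36lib.VZeroQ2
import Fermat.Agent.S36lib.VDesc
import Fermat.Agent.S36lib.VDisc
import Fermat.Agent.S36lib.ExpOrd
import Fermat.Agent.S34lib.LiftInfMain

/-!
# Item 83 (S36), piece D1-Q, concrete part 1 (helper27): lifting at level `M'`

`R = affRing (infPlaceC k M')`, the functions of `κ' = F_{M',k}` regular off `∞̄'`.

* `d1q_lift`: **lifting at level `M'`**: every `c ∈ R` is the reduction of an element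
  `x' ∈ F0(M') ∩ O'` regular off `∞'` (`liftInf_lift` + `vdesc_main`).
* `d1q_exists_lift`: the same with the existence of the constant reduction `R'` of level `M'`.
-/

set_option autoImplicit false
set_option linter.style.haveILetI false
set_option linter.unusedSectionVars false
set_option linter.unusedVariables false
set_option synthInstance.maxHeartbeats 400000

noncomputable section

namespace Fermat.Agent.S36lib

open ModularCurve AlgebraicCurve HahnSeries
open Fermat.Agent.S24lib Fermat.Agent.S34lib Fermat.Agent.GoodRed Fermat.Agent.GM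
open Fermat.Agent.RRlib Fermat.Agent.HeckeBar Fermat.Agent.S37lib Fermat.Agent.S35lib

section Lift

variable (M' q : ℕ) [NeZero M'] (A : ValuationSubring Kbar)

/-- **lifting at level `M'`**: every function of `F_{M',k}` regular off `∞̄'` is the reduction
of an inertia-fixed function of level `M'`, regular off `∞'`, in the unit ball. -/
theorem d1q_lift [Fact q.Prime] (haux : IsAuxLevel q M') (hA : A.LiesOverPrime q)
    (R' : ConstRed A (IsLocalRing.residue A) (Fk (IsLocalRing.ResidueField A) M') (FF M'))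
    (hR' : IsSeriesRed R') (c : Fk (IsLocalRing.ResidueField A) M')
    (hc : c ∈ affRing (infPlaceC (IsLocalRing.ResidueField A) M')) :
    ∃ x' : FF M', x' ∈ f0Field A M' ∧
      (∀ v' : Place Kbar (FF M'), v' ≠ infPlaceBar M' → 0 ≤ v'.ord x') ∧
      ∃ hx : x' ∈ R'.O, R'.red ⟨x', hx⟩ = c := by
  haveI : RRHyp Kbar (FF M') := mod_rrHyp M'
  have hq : q.Prime := Fact.out
  obtain ⟨n, hn⟩ := mem_affRing_iff_rr.mp hc
  obtain ⟨x, hxL, hxred⟩ := liftInf_lift q haux hA hR' (n : ℤ) c hn
  obtain ⟨z₀, hz₀L, hz₀F, hz₀O, hz₀red⟩ :=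
    vdesc_main hq hA (fun _ : Unit => ResVal.ofConstRed R') R' () rfl
      (fun _ f hf hf0 => vdisc_inf hq hA hR' hf hf0) _
      (fun σ _ => by rw [SemilinearAut.smul_single, galFF_smul_infPlaceBar])
      (x : FF M') hxL (fun _ => x.2)
  refine ⟨z₀, hz₀F, mem_affRing_iff.mp (affRing_of_mem_rr hz₀L), hz₀O (), ?_⟩
  rw [← hxred]
  exact hz₀red ()

/-- there is a constant reduction of level `M'` compatible with `q`-expansions, and every
function of `F_{M',k}` regular off `∞̄'` lifts along it -/
theorem d1q_exists_lift [Fact q.Prime] (haux : IsAuxLevel q M') (hA : A.LiesOverPrime q) :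
    ∃ R' : ConstRed A (IsLocalRing.residue A) (Fk (IsLocalRing.ResidueField A) M') (FF M'),
      IsSeriesRed R' ∧
      ∀ c ∈ affRing (infPlaceC (IsLocalRing.ResidueField A) M'),
        ∃ x' : FF M', x' ∈ f0Field A M' ∧
          (∀ v' : Place Kbar (FF M'), v' ≠ infPlaceBar M' → 0 ≤ v'.ord x') ∧
          ∃ hx : x' ∈ R'.O, R'.red ⟨x', hx⟩ = c := by
  obtain ⟨R', -, hR', -⟩ := liftInf_exists_red M' A q haux hA
  exact ⟨R', hR', fun c hc => d1q_lift M' q A haux hA R' hR' c hc⟩

end Lift

end Fermat.Agent.S36lib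

end
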