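import Mathlib
import Fermat.Agent.S36lib.Speed

/-!
# Item 83 (S36), piece D1-A, part 1 (helper28): the LATTICE argument, abstract form

`R` a ring, `F` a domain over `R`, `B ⊆ F` a subring containing `R` and `g`, exhausted by
`R`-submodules `Λ n` ("pole order `≤ n`") such that
* `Λ N` is contained in the `R`-span of a finite set `T ⊆ B`,
* for `n > N` every `b ∈ Λ n` is, modulo `Λ (n - 1)`, an `R`-multiple of some `g ^ a * t`, `t ∈ T`.
Then `B` is the `R[g]`-span of `T`, so every element of `B` is integral over `R[g]`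
(`d1l_isIntegralElem`).  Mathlib only.
-/

set_option autoImplicit false
set_option linter.style.haveILetI false

namespace Fermat.Agent.S36lib

open Polynomial

section Abstract

variable {R F : Type*} [CommRing R] [CommRing F] [Algebra R F]

/-- the filtration is contained in the `R[g]`-span of `T` -/
theorem d1l_mem_span (g : F) (Λ : ℕ → Submodule R F) (N : ℕ) (T : Set F)
    (hbase : ∀ b ∈ Λ N, b ∈ Submodule.span R T)
    (hstep : ∀ n, N < n → ∀ b ∈ Λ n, ∃ (c : R) (a : ℕ) (t : F),
      t ∈ T ∧ b - c • (g ^ a * t) ∈ Λ (n - 1))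
    (hmono : ∀ n, n ≤ N → Λ n ≤ Λ N) (n : ℕ) (b : F) (hb : b ∈ Λ n) :
    letI : Algebra R[X] F := (Polynomial.aeval g : R[X] →ₐ[R] F).toRingHom.toAlgebra
    b ∈ Submodule.span R[X] T := by
  letI : Algebra R[X] F := (Polynomial.aeval g : R[X] →ₐ[R] F).toRingHom.toAlgebra
  have hsmul : ∀ (p : R[X]) (y : F), p • y = Polynomial.aeval g p * y := fun p y => rfl
  have hR : ∀ y : F, y ∈ Submodule.span R T → y ∈ Submodule.span R[X] T := by
    intro y hy
    induction hy using Submodule.span_induction with
    | mem t ht => exact Submodule.subset_span ht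
    | zero => exact Submodule.zero_mem _
    | add x y _ _ hx hy => exact Submodule.add_mem _ hx hy
    | smul c x _ hx =>
      have e : c • x = (Polynomial.C c : R[X]) • x := by
        rw [hsmul, Polynomial.aeval_C, Algebra.smul_def]
      rw [e]
      exact Submodule.smul_mem _ _ hx
  induction n using Nat.strong_induction_on generalizing b with
  | _ n ih =>
    by_cases hn : n ≤ N
    · exact hR b (hbase b (hmono n hn hb))
    · have hn' : N < n := not_le.1 hn
      obtain ⟨c, a, t, ht, hbt⟩ := hstep n hn' b hb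
      have h1 := ih (n - 1) (by omega) _ hbt
      have h2 : c • (g ^ a * t) ∈ Submodule.span R[X] T := by
        have e : c • (g ^ a * t) = (Polynomial.C c * Polynomial.X ^ a : R[X]) • t := by
          rw [hsmul, map_mul, Polynomial.aeval_C, map_pow, Polynomial.aeval_X,
            Algebra.smul_def, mul_assoc]
        rw [e]
        exact Submodule.smul_mem _ _ (Submodule.subset_span ht)
      have e : b = (b - c • (g ^ a * t)) + c • (g ^ a * t) := by ring
      rw [e]
      exact Submodule.add_mem _ h1 h2

/-- **the lattice argument**: every element of `B` is integral over `R[g]`. -/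
theorem d1l_isIntegralElem [IsDomain F] (g : F) (B : Subring F)
    (hRB : ∀ r : R, algebraMap R F r ∈ B) (hgB : g ∈ B)
    (Λ : ℕ → Submodule R F) (hΛ : ∀ b ∈ B, ∃ n, b ∈ Λ n)
    (N : ℕ) (T : Finset F) (hT : ∀ t ∈ T, t ∈ B)
    (hbase : ∀ b ∈ Λ N, b ∈ Submodule.span R (T : Set F))
    (hstep : ∀ n, N < n → ∀ b ∈ Λ n, ∃ (c : R) (a : ℕ) (t : F),
      t ∈ T ∧ b - c • (g ^ a * t) ∈ Λ (n - 1))
    (hmono : ∀ n, n ≤ N → Λ n ≤ Λ N)
    (x : F) (hx : x ∈ B) :
    (Polynomial.aeval g : R[X] →ₐ[R] F).toRingHom.IsIntegralElem x := by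
  letI : Algebra R[X] F := (Polynomial.aeval g : R[X] →ₐ[R] F).toRingHom.toAlgebra
  have hsmul : ∀ (p : R[X]) (y : F), p • y = Polynomial.aeval g p * y := fun p y => rfl
  set W : Submodule R[X] F := Submodule.span R[X] (T : Set F) with hW
  have hBW : ∀ b ∈ B, b ∈ W := by
    intro b hb
    obtain ⟨n, hn⟩ := hΛ b hb
    exact d1l_mem_span g Λ N (T : Set F) hbase hstep hmono n b hn
  have hpB : ∀ p : R[X], Polynomial.aeval g p ∈ B := by
    intro p
    induction p using Polynomial.induction_on with
    | C a =>
      rw [Polynomial.aeval_C]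
      exact hRB a
    | add p q hp hq =>
      rw [map_add]
      exact B.add_mem hp hq
    | monomial n a h =>
      rw [pow_succ, ← mul_assoc, map_mul, Polynomial.aeval_X]
      exact B.mul_mem h hgB
  have hWB : ∀ y ∈ W, y ∈ B := by
    intro y hy
    induction hy using Submodule.span_induction with
    | mem t ht => exact hT t ht
    | zero => exact B.zero_mem
    | add x y _ _ hx hy => exact B.add_mem hx hy
    | smul p x _ hx =>
      rw [hsmul]
      exact B.mul_mem (hpB p) hx
  have hfg : W.FG := Submodule.fg_span T.finite_toSet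
  have hne : W ≠ ⊥ := by
    intro h0
    have h1 : (1 : F) ∈ W := hBW 1 B.one_mem
    rw [h0, Submodule.mem_bot] at h1
    exact one_ne_zero h1
  have hint : IsIntegral R[X] x := by
    refine isIntegral_of_smul_mem_submodule (M := F) W hne hfg x ?_
    intro y hy
    rw [smul_eq_mul]
    exact hBW _ (B.mul_mem hx (hWB y hy))
  exact hint

end Abstract

/-- a submodule on which a linear map into a module is injective, with image in a finitely
generated submodule, is finitely generated (over a Noetherian ring) -/
theorem d1l_fg_of_coord {R V W : Type*} [CommRing R] [IsNoetherianRing R] [AddCommGroup V]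
    [Module R V] [AddCommGroup W] [Module R W] (Λ : Submodule R V) (c : V →ₗ[R] W)
    (W0 : Submodule R W) (hW0 : W0.FG) (hmap : ∀ b ∈ Λ, c b ∈ W0)
    (hinj : ∀ b ∈ Λ, c b = 0 → b = 0) : Λ.FG := by
  have hN : IsNoetherian R W0 := isNoetherian_of_fg_of_noetherian W0 hW0
  have h1 : (Λ.map c).FG := by
    refine (isNoetherian_submodule.mp hN) (Λ.map c) ?_
    rintro w ⟨b, hb, rfl⟩
    exact hmap b hb
  have h2 : (Λ ⊓ LinearMap.ker c).FG := by
    have : Λ ⊓ LinearMap.ker c = ⊥ := by
      rw [eq_bot_iff]
      rintro b ⟨hb, hk⟩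
      exact (Submodule.mem_bot R).2 (hinj b hb (LinearMap.mem_ker.1 hk))
    rw [this]
    exact Submodule.fg_bot
  exact Submodule.fg_of_fg_map_of_fg_inf_ker c h1 h2

/-- the integral points of `K^n` form a finitely generated module -/
theorem d1l_fg_range_compLeft {R K : Type*} [CommRing R] [CommRing K] [Algebra R K] (n : ℕ) :
    (LinearMap.range ((Algebra.linearMap R K).compLeft (Fin n))).FG := by
  rw [LinearMap.range_eq_map]
  exact Submodule.FG.map _ Module.Finite.fg_top

end Fermat.Agent.S36lib
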