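/-
Item 83 (S36), piece C4-2, part 2 (helper6): PIVOTS (pure linear algebra).

* `gnp_exists_pivots`   : `d` linearly independent Laurent series over a field `k` have `d`
                          coefficient positions `p j` with `det ((w i).coeff (p j)) ≠ 0`;
* `gnp_exists_unit_det` : the same over a valuation ring `A`, from the independence of the
                          reductions: `det ((y i).coeff (p j))` is a unit of `A`;
* `gnp_repr`            : a family `g = B • x` (`B` invertible) dual to functionals `φ j`
                          represents every `v` of the span of `x` as `v = ∑ j, φ j v • g j`.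
No sorry.
-/
import Mathlib
import Fermat.Agent.S36lib.DescK0

set_option autoImplicit false

noncomputable section

namespace Fermat.Agent.S36lib

open ModularCurve HahnSeries

theorem gnp_exists_pivots {k : Type*} [Field k] {d : ℕ} (w : Fin d → LaurentSeries k)
    (hw : LinearIndependent k w) :
    ∃ p : Fin d → ℤ, (Matrix.of fun i j : Fin d => (w i).coeff (p j)).det ≠ 0 := by
  classical
  let Φ : (Fin d → k) →ₗ[k] (ℤ → k) :=
    { toFun := fun c n => ∑ i, c i * (w i).coeff n
      map_add' := by
        intro c c'
        funext n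
        simp [add_mul, Finset.sum_add_distrib]
      map_smul' := by
        intro a c
        funext n
        simp [Finset.mul_sum, mul_assoc] }
  have hΦapp : ∀ (c : Fin d → k) (n : ℤ), Φ c n = ∑ i, c i * (w i).coeff n := fun _ _ => rfl
  have hΦ : Function.Injective Φ := by
    rw [injective_iff_map_eq_zero]
    intro c hc
    have h0 : ∑ i, c i • w i = 0 := by
      ext n
      have h1 := congrFun hc n
      rw [hΦapp] at h1
      rw [HahnSeries.coeff_sum, HahnSeries.coeff_zero]
      simpa using h1
    exact funext fun i => Fintype.linearIndependent_iff.mp hw c h0 i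
  obtain ⟨κ, hF, hDec, β, piv, hδ, hrepr⟩ := dk_exists_echelon Φ hΦ
  have hcard : Fintype.card κ = d := by
    have h1 := Module.finrank_eq_card_basis β
    rw [Module.finrank_fin_fun] at h1
    exact h1.symm
  let e : Fin d ≃ κ := (Fintype.equivFinOfCardEq hcard).symm
  refine ⟨fun j => piv (e j), ?_⟩
  apply Matrix.det_ne_zero_of_right_inverse (B := Matrix.of fun (j : Fin d) (i' : Fin d) => β (e j) i')
  ext i i'
  rw [Matrix.mul_apply]
  simp only [Matrix.of_apply]
  have h1 : ∀ j : Fin d, (w i).coeff (piv (e j)) = β.repr (Pi.single i 1) (e j) := by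
    intro j
    rw [hrepr, hΦapp]
    simp [Pi.single_apply]
  have h2 : (∑ j : κ, β.repr (Pi.single i (1 : k)) j • β j) = Pi.single i (1 : k) :=
    β.sum_repr _
  have h3 := congrFun h2 i'
  rw [Finset.sum_apply] at h3
  simp only [Pi.smul_apply, smul_eq_mul] at h3
  rw [← Equiv.sum_comp e] at h3
  rw [Matrix.one_apply]
  simp only [h1]
  rw [h3, Pi.single_apply]
  by_cases h : i = i'
  · simp [h]
  · have h' : ¬ i' = i := fun h'' => h h''.symm
    simp [h, h']

theorem gnp_exists_unit_det {K : Type*} [Field K] (A : ValuationSubring K) {d : ℕ}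
    (y : Fin d → LaurentSeries A)
    (hy : LinearIndependent (IsLocalRing.ResidueField A)
      fun i => coeffMap (IsLocalRing.residue A) (y i)) :
    ∃ p : Fin d → ℤ, IsUnit (Matrix.of fun i j : Fin d => (y i).coeff (p j)).det := by
  obtain ⟨p, hp⟩ := gnp_exists_pivots _ hy
  refine ⟨p, ?_⟩
  have h1 : IsLocalRing.residue A (Matrix.of fun i j : Fin d => (y i).coeff (p j)).det
      = (Matrix.of fun i j : Fin d =>
          (coeffMap (IsLocalRing.residue A) (y i)).coeff (p j)).det := by
    rw [RingHom.map_det]
    congr 1
  by_contra hnu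
  apply hp
  rw [← h1]
  exact (IsLocalRing.residue_eq_zero_iff _).mpr ((IsLocalRing.mem_maximalIdeal _).mpr hnu)

theorem gnp_repr {K F : Type*} [Field K] [AddCommGroup F] [Module K F] {d : ℕ}
    (x : Fin d → F) (φ : Fin d → (F →ₗ[K] K)) (B : Matrix (Fin d) (Fin d) K)
    (hB : IsUnit B.det)
    (hδ : ∀ i j, φ j (∑ l, B i l • x l) = if i = j then 1 else 0)
    (v : F) (hv : v ∈ Submodule.span K (Set.range x)) :
    v = ∑ j, φ j v • ∑ l, B j l • x l := by
  classical
  set g : Fin d → F := fun i => ∑ l, B i l • x l with hg
  have hx : ∀ l, x l = ∑ i, B⁻¹ l i • g i := by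
    intro l
    have h1 : ∑ i, B⁻¹ l i • g i = ∑ m, (B⁻¹ * B) l m • x m := by
      simp only [hg, Finset.smul_sum, smul_smul, Matrix.mul_apply, Finset.sum_smul]
      rw [Finset.sum_comm]
    rw [h1, Matrix.nonsing_inv_mul B hB]
    simp [Matrix.one_apply]
  have hle : Submodule.span K (Set.range x) ≤ Submodule.span K (Set.range g) := by
    rw [Submodule.span_le]
    rintro _ ⟨l, rfl⟩
    rw [hx l]
    exact Submodule.sum_mem _ fun i _ =>
      Submodule.smul_mem _ _ (Submodule.subset_span ⟨i, rfl⟩)
  obtain ⟨a, ha⟩ := (Submodule.mem_span_range_iff_exists_fun K).mp (hle hv)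
  have haj : ∀ j, φ j v = a j := by
    intro j
    rw [← ha, map_sum]
    simp only [map_smul, smul_eq_mul]
    rw [Finset.sum_eq_single j]
    · rw [hδ j j, if_pos rfl, mul_one]
    · intro i _ hij
      rw [hδ i j, if_neg hij, mul_zero]
    · intro h
      exact absurd (Finset.mem_univ j) h
  simp only [haj]
  exact ha.symm

end Fermat.Agent.S36lib

end
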