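/-
Item 83 (S36), piece C4-2, part 1 (helper6): LQEP = "functions of `O ∩ L(n • P∞)` have
`A`-integral `q`-expansions", at an auxiliary level, for every constant reduction `R` of `FF M`
along `A ∣ q` with `IsSeriesRed R`.

* `lqVan m f`      : all coefficients of index `< m` of the Laurent series `f` vanish;
* `LqGood R r n t` : `t ∈ O`, the expansion of `t` vanishes below `-n`, and `t` is regular at the
                     places `P ≠ P∞` over `Q∞`;
* `lqep_coeff_mem` : the coefficient of index `-n` of an `n`-good function lies in `A`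
                     (specialization of divisors `IsPlaceRed` applied to `j ^ n - c⁻¹ t`);
* `lqep_good`      : all coefficients of an `n`-good function lie in `A`;
* `lqep_exists`    : LQEP.
No sorry.
-/
import Mathlib
import Fermat.Agent.S34lib.LiftInfMain
import Fermat.Agent.S36lib.Speed

set_option autoImplicit false
set_option linter.style.haveILetI false
set_option linter.unusedSectionVars false
set_option synthInstance.maxHeartbeats 400000

noncomputable section

namespace Fermat.Agent.S36lib

open AlgebraicCurve ModularCurve IntermediateField CongruenceSubgroup HahnSeries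
open Fermat.Agent.S24lib Fermat.Agent.S28lib Fermat.Agent.FFlib Fermat.Agent.RRlib
  Fermat.Agent.GoodRed Fermat.Agent.GM Fermat.Agent.S16lib Fermat.Agent.S34lib
open scoped MatrixGroups

/-! ### series vanishing below a bound -/

section Van

variable {K : Type*} [Field K]

/-- all coefficients of index `< m` vanish -/
def lqVan (m : ℤ) (f : LaurentSeries K) : Prop := ∀ k : ℤ, k < m → f.coeff k = 0

theorem lqVan_zero (m : ℤ) : lqVan m (0 : LaurentSeries K) := fun _ _ => rfl

theorem lqVan_add {m : ℤ} {f g : LaurentSeries K} (hf : lqVan m f) (hg : lqVan m g) :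
    lqVan m (f + g) := by
  intro k hk
  rw [HahnSeries.coeff_add, hf k hk, hg k hk, add_zero]

theorem lqVan_mono {m m' : ℤ} (h : m' ≤ m) {f : LaurentSeries K} (hf : lqVan m f) :
    lqVan m' f := fun k hk => hf k (lt_of_lt_of_le hk h)

theorem lqVan_iff_le_order {m : ℤ} {f : LaurentSeries K} (hf : f ≠ 0) :
    lqVan m f ↔ m ≤ f.order := (HahnSeries.le_order_iff_forall hf).symm

theorem lqVan_mul {a b : ℤ} {f g : LaurentSeries K} (hf : lqVan a f) (hg : lqVan b g) :
    lqVan (a + b) (f * g) := by
  by_cases hf0 : f = 0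
  · rw [hf0, zero_mul]
    exact lqVan_zero _
  by_cases hg0 : g = 0
  · rw [hg0, mul_zero]
    exact lqVan_zero _
  rw [lqVan_iff_le_order (mul_ne_zero hf0 hg0), HahnSeries.order_mul hf0 hg0]
  exact add_le_add ((lqVan_iff_le_order hf0).mp hf) ((lqVan_iff_le_order hg0).mp hg)

/-- the leading terms multiply -/
theorem lqVan_coeff_mul {a b : ℤ} {f g : LaurentSeries K} (hf : lqVan a f) (hg : lqVan b g) :
    (f * g).coeff (a + b) = f.coeff a * g.coeff b := by
  by_cases hf0 : f = 0
  · rw [hf0, zero_mul]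
    simp
  by_cases hg0 : g = 0
  · rw [hg0, mul_zero]
    simp
  have h1 := (lqVan_iff_le_order hf0).mp hf
  have h2 := (lqVan_iff_le_order hg0).mp hg
  rcases lt_or_eq_of_le h1 with h | h
  · rw [HahnSeries.coeff_eq_zero_of_lt_order h, zero_mul]
    apply HahnSeries.coeff_eq_zero_of_lt_order
    rw [HahnSeries.order_mul hf0 hg0]
    omega
  rcases lt_or_eq_of_le h2 with h' | h'
  · rw [HahnSeries.coeff_eq_zero_of_lt_order h', mul_zero]
    apply HahnSeries.coeff_eq_zero_of_lt_order
    rw [HahnSeries.order_mul hf0 hg0]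
    omega
  rw [h, h', HahnSeries.coeff_mul_order_add_order, HahnSeries.leadingCoeff_eq,
    HahnSeries.leadingCoeff_eq]

theorem lqVan_pow {a : ℤ} {f : LaurentSeries K} (hf : lqVan a f) (n : ℕ) :
    lqVan ((n : ℤ) * a) (f ^ n) ∧ (f ^ n).coeff ((n : ℤ) * a) = (f.coeff a) ^ n := by
  induction n with
  | zero =>
    refine ⟨?_, ?_⟩
    · intro k hk
      rw [pow_zero]
      have hk' : k ≠ 0 := by
        intro h
        rw [h] at hk
        simp at hk
      exact HahnSeries.coeff_single_of_ne hk'
    · rw [pow_zero, pow_zero]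
      simp
  | succ n ih =>
    have e : ((n + 1 : ℕ) : ℤ) * a = (n : ℤ) * a + a := by push_cast; ring
    rw [e, pow_succ, pow_succ]
    exact ⟨lqVan_mul ih.1 hf, by rw [lqVan_coeff_mul ih.1 hf, ih.2]⟩

end Van

/-! ### integral series -/

section Int

variable {K : Type*} [Field K] (A : ValuationSubring K)

/-- all coefficients lie in `A` -/
def lqInt (f : LaurentSeries K) : Prop := ∀ k : ℤ, f.coeff k ∈ A

variable {A}

theorem lqInt_coeffMap (s : LaurentSeries A) : lqInt A (coeffMap A.subtype s) := fun k => by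
  rw [coeffMap_coeff]
  exact (s.coeff k).2

theorem lqInt_iff (f : LaurentSeries K) :
    lqInt A f ↔ ∃ s : LaurentSeries A, f = coeffMap A.subtype s :=
  ⟨fun h => ⟨liftSeries A f h, (coeffMap_liftSeries A f h).symm⟩,
    fun ⟨s, hs⟩ => hs ▸ lqInt_coeffMap s⟩

theorem lqInt_add {f g : LaurentSeries K} (hf : lqInt A f) (hg : lqInt A g) :
    lqInt A (f + g) := fun k => by
  rw [HahnSeries.coeff_add]
  exact A.add_mem _ _ (hf k) (hg k)

theorem lqInt_mul {f g : LaurentSeries K} (hf : lqInt A f) (hg : lqInt A g) :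
    lqInt A (f * g) := by
  obtain ⟨s, rfl⟩ := (lqInt_iff f).mp hf
  obtain ⟨s', rfl⟩ := (lqInt_iff g).mp hg
  rw [← map_mul]
  exact lqInt_coeffMap _

theorem lqInt_C {c : K} (hc : c ∈ A) : lqInt A (HahnSeries.C c : LaurentSeries K) := by
  have h := lqInt_coeffMap (A := A) (HahnSeries.C (⟨c, hc⟩ : A))
  rwa [coeffMap_C] at h

theorem lqInt_pow {f : LaurentSeries K} (hf : lqInt A f) (n : ℕ) : lqInt A (f ^ n) := by
  obtain ⟨s, rfl⟩ := (lqInt_iff f).mp hf
  rw [← map_pow]
  exact lqInt_coeffMap _

end Int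

/-! ### the modular function field -/

variable {M : ℕ} [NeZero M] {A : ValuationSubring Kbar}
section Internal

/-- instance shortcut (the instance found by inference, but found at once); used only inside
the proofs, the exported statements `lqep_int`, `lqep_exists` do not contain it -/
local instance (priority := 10000) lqAlgFk :
    Algebra (IsLocalRing.ResidueField A) (Fk (IsLocalRing.ResidueField A) M) :=
  SubalgebraClass.toAlgebra (modularFunctionFieldFullC (IsLocalRing.ResidueField A) M)

variable {R : ConstRed A (IsLocalRing.residue A) (Fk (IsLocalRing.ResidueField A) M) (FF M)}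

theorem lqep_jF_van : lqVan (-1) ((jF M : FF M) : LaurentSeries Kbar) := by
  have h : ((jF M : FF M) : LaurentSeries Kbar).order = -1 := by
    rw [coe_jF, inf_order_coeffEmb_jq]
  intro k hk
  apply HahnSeries.coeff_eq_zero_of_lt_order
  rw [h]
  exact hk

theorem lqep_jF_coeff : ((jF M : FF M) : LaurentSeries Kbar).coeff (-1) = 1 := by
  rw [coe_jF, coeffEmb_coeff, coeff_jq_neg_one, map_one]

theorem lqep_jF_int : lqInt A ((jF M : FF M) : LaurentSeries Kbar) := by
  rw [dw_jF_eq (A := A)]
  exact lqInt_coeffMap _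

theorem lqep_jF_pow_van (n : ℕ) :
    lqVan (-(n : ℤ)) (((jF M : FF M) : LaurentSeries Kbar) ^ n) := by
  have h := (lqVan_pow (lqep_jF_van (M := M)) n).1
  have e : (n : ℤ) * (-1) = -(n : ℤ) := by ring
  rwa [e] at h

theorem lqep_jF_pow_coeff (n : ℕ) :
    (((jF M : FF M) : LaurentSeries Kbar) ^ n).coeff (-(n : ℤ)) = 1 := by
  have h := (lqVan_pow (lqep_jF_van (M := M)) n).2
  have e : (n : ℤ) * (-1) = -(n : ℤ) := by ring
  rw [e, lqep_jF_coeff, one_pow] at h
  exact h

section Places

variable [IsAlgClosed (IsLocalRing.ResidueField A)]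
variable [RRHyp Kbar (FF M)] [RRHyp (IsLocalRing.ResidueField A) (Fk (IsLocalRing.ResidueField A) M)]
variable {r : Place Kbar (FF M) →
    Place (IsLocalRing.ResidueField A) (Fk (IsLocalRing.ResidueField A) M)}

/-- `j` is regular at the places `P ≠ P∞` over `Q∞` -/
theorem lqep_hother (hR : IsSeriesRed R)
    (hD : Nonempty (FiberData (IsLocalRing.ResidueField A) (Fk (IsLocalRing.ResidueField A) M)
      (IsLocalRing.ResidueField A) ((jk (IsLocalRing.ResidueField A) M)⁻¹)
      (SL(2, ℤ) ⧸ Gamma0 M) ModularGroup.T))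
    (hr : R.IsPlaceRed r)
    (hrInf : r (infPlaceBar M) = infPlaceC (IsLocalRing.ResidueField A) M)
    (P : Place Kbar (FF M)) (hP : r P = infPlaceC (IsLocalRing.ResidueField A) M)
    (hne : P ≠ infPlaceBar M) : jF M ∈ P.toValuationSubring := by
  classical
  set k := IsLocalRing.ResidueField A with hk
  set Q := infPlaceC k M with hQ
  set P₁ := infPlaceBar M with hP₁def
  obtain ⟨D, X, hD', hX', hdeg⟩ := liftInf_exists_poles hR hD
  have hnc : R.red ⟨jF M, dw_jF_mem hR⟩ ∉ Set.range (algebraMap k (Fk k M)) := by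
    rw [dw_red_jF hR]
    exact dd_jk_nonconst M
  have hmap := hr.mapDomain_poles ⟨jF M, dw_jF_mem hR⟩ hnc hD' hX' hdeg
  have hXQ : X Q = 1 := by
    rw [hX', dw_red_jF hR, hQ, infPlaceC_ord, coe_jk, inf_order_jqModC]
    norm_num
  have hDnn : ∀ v, 0 ≤ D v := fun v => by rw [hD']; exact le_max_left _ _
  set f : Place Kbar (FF M) → ℤ := fun P => if r P = Q then D P else 0 with hf
  have hfnn : ∀ P, 0 ≤ f P := by
    intro P
    rw [hf]
    show 0 ≤ (if r P = Q then D P else 0)
    split_ifs
    · exact hDnn P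
    · exact le_refl _
  have hsum : ∑ P ∈ D.support, f P = 1 := by
    have h := dz_mapDomain_apply r D Q
    rw [hmap, hXQ] at h
    exact h.symm
  have hDP₁ : D P₁ = 1 := by
    rw [hD']
    have h1 : P₁.ord (((⟨jF M, dw_jF_mem hR⟩ : R.O) : R.O) : FF M) = -1 := by
      show (infPlaceBar M).ord (jF M) = -1
      rw [infPlaceBar_ord, coe_jF, inf_order_coeffEmb_jq]
    rw [h1]
    norm_num
  have hP₁s : P₁ ∈ D.support := by
    rw [Finsupp.mem_support_iff, hDP₁]
    exact one_ne_zero
  have hfP₁ : f P₁ = 1 := by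
    rw [hf]
    show (if r P₁ = Q then D P₁ else 0) = 1
    rw [if_pos hrInf, hDP₁]
  have hsplit := Finset.add_sum_erase D.support f hP₁s
  have hrest : 0 ≤ ∑ P ∈ D.support.erase P₁, f P := Finset.sum_nonneg fun P _ => hfnn P
  have hrest0 : ∑ P ∈ D.support.erase P₁, f P = 0 := by omega
  have hDP : D P = 0 := by
    by_cases hPs : P ∈ D.support
    · have hmem : P ∈ D.support.erase P₁ := Finset.mem_erase.mpr ⟨hne, hPs⟩
      have h0 := (Finset.sum_eq_zero_iff_of_nonneg (fun P _ => hfnn P)).mp hrest0 P hmem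
      rw [hf] at h0
      have h1 : (if r P = Q then D P else 0) = 0 := h0
      rwa [if_pos hP] at h1
    · exact Finsupp.notMem_support_iff.mp hPs
  rw [hD'] at hDP
  have h3 : max 0 (-(P.ord (jF M))) = 0 := hDP
  have h1 : -(P.ord (jF M)) ≤ 0 := by
    have := le_max_right 0 (-(P.ord (jF M)))
    omega
  exact (ffMem_iff_ord_nonneg P).mpr (by omega)

variable (R r) in
/-- `t` is `n`-good: `t ∈ O`, the expansion of `t` vanishes below `-n`, and `t` is regular at the
places `P ≠ P∞` over `Q∞`. -/
structure LqGood (n : ℕ) (t : FF M) : Prop where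
  mem : t ∈ R.O
  van : lqVan (-(n : ℤ)) ((t : FF M) : LaurentSeries Kbar)
  reg : ∀ P : Place Kbar (FF M), r P = infPlaceC (IsLocalRing.ResidueField A) M →
    P ≠ infPlaceBar M → t ∈ P.toValuationSubring

/-- **the key step**: the coefficient of index `-n` of an `n`-good function lies in `A`. -/
theorem lqep_coeff_mem (hR : IsSeriesRed R) (hr : R.IsPlaceRed r)
    (hrInf : r (infPlaceBar M) = infPlaceC (IsLocalRing.ResidueField A) M)
    (hj : ∀ P : Place Kbar (FF M), r P = infPlaceC (IsLocalRing.ResidueField A) M →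
      P ≠ infPlaceBar M → jF M ∈ P.toValuationSubring)
    {n : ℕ} {t : FF M} (ht : LqGood R r n t) :
    ((t : FF M) : LaurentSeries Kbar).coeff (-(n : ℤ)) ∈ A := by
  classical
  set c := ((t : FF M) : LaurentSeries Kbar).coeff (-(n : ℤ)) with hc
  by_contra hcA
  have hc0 : c ≠ 0 := fun h => hcA (by rw [h]; exact A.zero_mem)
  have hnu : c⁻¹ ∈ A.nonunits := (A.inv_mem_nonunits_iff).mpr (Or.inr hcA)
  have hinv : c⁻¹ ∈ A := A.nonunits_subset hnu
  set a : A := ⟨c⁻¹, hinv⟩ with ha
  have hares : IsLocalRing.residue A a = 0 := by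
    rw [IsLocalRing.residue_eq_zero_iff]
    exact ValuationSubring.coe_mem_nonunits_iff.mp hnu
  set jO : R.O := ⟨jF M, dw_jF_mem hR⟩ with hjO
  set aO : R.O := ⟨algebraMap Kbar (FF M) (a : Kbar), R.algebraMap_mem a⟩ with haO
  set tO : R.O := ⟨t, ht.mem⟩ with htO
  set yO : R.O := jO ^ n - aO * tO with hyO
  have hjk0 : jk (IsLocalRing.ResidueField A) M ≠ 0 := by
    intro h0
    have h1 : ((jk (IsLocalRing.ResidueField A) M : Fk (IsLocalRing.ResidueField A) M) : LaurentSeries (IsLocalRing.ResidueField A)).order = -1 := by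
      rw [coe_jk, inf_order_jqModC]
    rw [h0] at h1
    have h2 : ((0 : Fk (IsLocalRing.ResidueField A) M) : LaurentSeries (IsLocalRing.ResidueField A)) = 0 := rfl
    rw [h2, HahnSeries.order_zero] at h1
    omega
  have hred : R.red yO = (jk (IsLocalRing.ResidueField A) M) ^ n := by
    rw [hyO, map_sub, map_pow, map_mul, hjO, dw_red_jF hR, haO, R.red_algebraMap a, hares,
      map_zero, zero_mul, sub_zero]
  have hy0 : R.red yO ≠ 0 := by
    rw [hred]
    exact pow_ne_zero n hjk0
  have hordQ : (infPlaceC (IsLocalRing.ResidueField A) M).ord (R.red yO) = -(n : ℤ) := by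
    rw [hred, ← zpow_natCast, Place.ord_zpow, infPlaceC_ord, coe_jk, inf_order_jqModC]
    ring
  have hAx := hr.2 yO hy0 (infPlaceC (IsLocalRing.ResidueField A) M)
  rw [hordQ, dz_mapDomain_apply] at hAx
  set E := divOf (K := Kbar) ((yO : R.O) : FF M) with hE
  have hyval : ((yO : R.O) : FF M) = jF M ^ n - algebraMap Kbar (FF M) c⁻¹ * t := rfl
  have hyne : (((yO : R.O) : FF M) : LaurentSeries Kbar) ≠ 0 := by
    intro h0
    apply hy0
    have h1 : ((yO : R.O) : FF M) = 0 := Subtype.ext h0
    have h2 : yO = 0 := Subtype.ext h1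
    rw [h2, map_zero]
  have hyser : (((yO : R.O) : FF M) : LaurentSeries Kbar)
      = ((jF M : FF M) : LaurentSeries Kbar) ^ n
        - HahnSeries.C c⁻¹ * ((t : FF M) : LaurentSeries Kbar) := by
    rw [hyval, AddSubgroupClass.coe_sub, SubmonoidClass.coe_pow, MulMemClass.coe_mul,
      coe_algebraMap_eq_C]
  have hvan : lqVan (-(n : ℤ) + 1) (((yO : R.O) : FF M) : LaurentSeries Kbar) := by
    intro i hi
    rw [hyser, HahnSeries.coeff_sub, HahnSeries.C_mul_eq_smul, HahnSeries.coeff_smul,
      smul_eq_mul]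
    rcases lt_or_eq_of_le (show i ≤ -(n : ℤ) by omega) with h | h
    · rw [lqep_jF_pow_van n i h, ht.van i h, mul_zero, sub_zero]
    · rw [h, lqep_jF_pow_coeff, ← hc, inv_mul_cancel₀ hc0, sub_self]
  have hordP : -(n : ℤ) + 1 ≤ (infPlaceBar M).ord ((yO : R.O) : FF M) := by
    rw [infPlaceBar_ord]
    exact (lqVan_iff_le_order hyne).mp hvan
  have hreg : ∀ P : Place Kbar (FF M), r P = infPlaceC (IsLocalRing.ResidueField A) M → P ≠ infPlaceBar M →
      0 ≤ P.ord ((yO : R.O) : FF M) := by
    intro P hP hne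
    apply (ffMem_iff_ord_nonneg P).mp
    rw [hyval]
    exact sub_mem (pow_mem (hj P hP hne) n) (mul_mem (P.algebraMap_mem' _) (ht.reg P hP hne))
  set g : Place Kbar (FF M) → ℤ := fun P => if r P = infPlaceC (IsLocalRing.ResidueField A) M then E P else 0 with hg
  have hgnn : ∀ P, P ≠ infPlaceBar M → 0 ≤ g P := by
    intro P hne
    rw [hg]
    show 0 ≤ (if r P = infPlaceC (IsLocalRing.ResidueField A) M then E P else 0)
    split_ifs with h
    · rw [hE, divOf_apply']
      exact hreg P h hne
    · exact le_refl _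
  have hgP : g (infPlaceBar M) = (infPlaceBar M).ord ((yO : R.O) : FF M) := by
    rw [hg]
    show (if r (infPlaceBar M) = infPlaceC (IsLocalRing.ResidueField A) M then E (infPlaceBar M) else 0) = _
    rw [if_pos hrInf, hE, divOf_apply']
  have hle : g (infPlaceBar M) ≤ ∑ P ∈ E.support, g P := by
    by_cases hPs : infPlaceBar M ∈ E.support
    · have hsplit2 := Finset.add_sum_erase E.support g hPs
      have hrest2 : 0 ≤ ∑ P ∈ E.support.erase (infPlaceBar M), g P :=
        Finset.sum_nonneg fun P hP => hgnn P (Finset.ne_of_mem_erase hP)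
      omega
    · have h0 : g (infPlaceBar M) = 0 := by
        rw [hg]
        show (if r (infPlaceBar M) = infPlaceC (IsLocalRing.ResidueField A) M then E (infPlaceBar M) else 0) = 0
        rw [if_pos hrInf]
        exact Finsupp.notMem_support_iff.mp hPs
      rw [h0]
      exact Finset.sum_nonneg fun P hP => hgnn P (fun h => hPs (h ▸ hP))
  have hAx' : ∑ P ∈ E.support, g P = -(n : ℤ) := hAx
  omega

/-- `0`-good functions are integral modulo `X ^ m`. -/
theorem lqep_approx (hR : IsSeriesRed R) (hr : R.IsPlaceRed r)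
    (hrInf : r (infPlaceBar M) = infPlaceC (IsLocalRing.ResidueField A) M)
    (hj : ∀ P : Place Kbar (FF M), r P = infPlaceC (IsLocalRing.ResidueField A) M →
      P ≠ infPlaceBar M → jF M ∈ P.toValuationSubring) (m : ℕ) :
    ∀ t : FF M, LqGood R r 0 t → ∃ s : LaurentSeries A,
      lqVan (m : ℤ) (((t : FF M) : LaurentSeries Kbar) - coeffMap A.subtype s) := by
  induction m with
  | zero =>
    intro t ht
    refine ⟨0, ?_⟩
    rw [map_zero, sub_zero]
    have h := ht.van
    simpa using h
  | succ m ih =>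
    intro t ht
    have hc := lqep_coeff_mem hR hr hrInf hj ht
    have e0 : (-((0 : ℕ) : ℤ)) = 0 := by simp
    rw [e0] at hc
    set c := ((t : FF M) : LaurentSeries Kbar).coeff 0 with hcdef
    set t₁ : FF M := (t - algebraMap Kbar (FF M) c) * jF M with ht₁
    have hser₁ : ((t₁ : FF M) : LaurentSeries Kbar)
        = (((t : FF M) : LaurentSeries Kbar) - HahnSeries.C c)
          * ((jF M : FF M) : LaurentSeries Kbar) := by
      rw [ht₁, MulMemClass.coe_mul, AddSubgroupClass.coe_sub, coe_algebraMap_eq_C]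
    have hv1 : lqVan 1 (((t : FF M) : LaurentSeries Kbar) - HahnSeries.C c) := by
      intro i hi
      rw [HahnSeries.coeff_sub]
      rcases lt_or_eq_of_le (show i ≤ 0 by omega) with h | h
      · have h1 := ht.van i (by simpa using h)
        rw [h1, HahnSeries.C_apply, HahnSeries.coeff_single_of_ne (ne_of_lt h), sub_zero]
      · rw [h, ← hcdef, HahnSeries.C_apply, HahnSeries.coeff_single_same, sub_self]
    have hgood₁ : LqGood R r 0 t₁ := by
      refine ⟨?_, ?_, ?_⟩
      · exact mul_mem (sub_mem ht.mem (R.algebraMap_mem ⟨c, hc⟩)) (dw_jF_mem hR)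
      · rw [hser₁]
        have h := lqVan_mul hv1 (lqep_jF_van (M := M))
        simpa using h
      · intro P hP hne
        exact mul_mem (sub_mem (ht.reg P hP hne) (P.algebraMap_mem' c)) (hj P hP hne)
    obtain ⟨s₁, hs₁⟩ := ih t₁ hgood₁
    obtain ⟨u, hu⟩ := exists_jqModC_mul_eq_one A
    have hU : ((jF M : FF M) : LaurentSeries Kbar) * coeffMap A.subtype u = 1 := by
      rw [dw_jF_eq (A := A), ← map_mul, hu, map_one]
    have hUv : lqVan 1 (coeffMap A.subtype u) := by
      have hU0 : coeffMap A.subtype u ≠ 0 := right_ne_zero_of_mul_eq_one hU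
      have hj0 : ((jF M : FF M) : LaurentSeries Kbar) ≠ 0 := left_ne_zero_of_mul_eq_one hU
      have h1 := HahnSeries.order_mul hj0 hU0
      rw [hU, HahnSeries.order_one, coe_jF, inf_order_coeffEmb_jq] at h1
      rw [lqVan_iff_le_order hU0]
      omega
    refine ⟨HahnSeries.C ⟨c, hc⟩ + u * s₁, ?_⟩
    have h3 : coeffMap A.subtype u * ((((t : FF M) : LaurentSeries Kbar) - HahnSeries.C c)
        * ((jF M : FF M) : LaurentSeries Kbar))
        = ((t : FF M) : LaurentSeries Kbar) - HahnSeries.C c := by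
      rw [mul_comm, mul_assoc, hU, mul_one]
    have key : ((t : FF M) : LaurentSeries Kbar)
        - coeffMap A.subtype (HahnSeries.C ⟨c, hc⟩ + u * s₁)
        = coeffMap A.subtype u
          * (((t₁ : FF M) : LaurentSeries Kbar) - coeffMap A.subtype s₁) := by
      rw [map_add, map_mul, coeffMap_C, hser₁, mul_sub, h3]
      show _ - (HahnSeries.C c + _) = _
      ring
    rw [key]
    have h4 := lqVan_mul hUv hs₁
    have e : (1 : ℤ) + (m : ℤ) = ((m + 1 : ℕ) : ℤ) := by push_cast; ring
    rwa [e] at h4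

/-- `0`-good functions have integral expansions. -/
theorem lqep_good_zero (hR : IsSeriesRed R) (hr : R.IsPlaceRed r)
    (hrInf : r (infPlaceBar M) = infPlaceC (IsLocalRing.ResidueField A) M)
    (hj : ∀ P : Place Kbar (FF M), r P = infPlaceC (IsLocalRing.ResidueField A) M →
      P ≠ infPlaceBar M → jF M ∈ P.toValuationSubring)
    {t : FF M} (ht : LqGood R r 0 t) : lqInt A ((t : FF M) : LaurentSeries Kbar) := by
  intro i
  rcases lt_or_ge i 0 with h | h
  · rw [ht.van i (by simpa using h)]
    exact A.zero_mem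
  · obtain ⟨s, hs⟩ := lqep_approx hR hr hrInf hj (i.toNat + 1) t ht
    have h1 := hs i (by push_cast; omega)
    rw [HahnSeries.coeff_sub, sub_eq_zero] at h1
    rw [h1]
    exact lqInt_coeffMap s i

/-- `n`-good functions have integral expansions. -/
theorem lqep_good (hR : IsSeriesRed R) (hr : R.IsPlaceRed r)
    (hrInf : r (infPlaceBar M) = infPlaceC (IsLocalRing.ResidueField A) M)
    (hj : ∀ P : Place Kbar (FF M), r P = infPlaceC (IsLocalRing.ResidueField A) M →
      P ≠ infPlaceBar M → jF M ∈ P.toValuationSubring) :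
    ∀ (n : ℕ) (t : FF M), LqGood R r n t → lqInt A ((t : FF M) : LaurentSeries Kbar) := by
  intro n
  induction n with
  | zero => exact fun t ht => lqep_good_zero hR hr hrInf hj ht
  | succ n ih =>
    intro t ht
    have hc := lqep_coeff_mem hR hr hrInf hj ht
    set c := ((t : FF M) : LaurentSeries Kbar).coeff (-((n + 1 : ℕ) : ℤ)) with hcdef
    set t' : FF M := t - algebraMap Kbar (FF M) c * jF M ^ (n + 1) with ht'
    have hser : ((t' : FF M) : LaurentSeries Kbar)
        = ((t : FF M) : LaurentSeries Kbar)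
          - HahnSeries.C c * ((jF M : FF M) : LaurentSeries Kbar) ^ (n + 1) := by
      rw [ht', AddSubgroupClass.coe_sub, MulMemClass.coe_mul, SubmonoidClass.coe_pow,
        coe_algebraMap_eq_C]
    have hgood : LqGood R r n t' := by
      refine ⟨?_, ?_, ?_⟩
      · exact sub_mem ht.mem (mul_mem (R.algebraMap_mem ⟨c, hc⟩) (pow_mem (dw_jF_mem hR) _))
      · intro i hi
        rw [hser, HahnSeries.coeff_sub, HahnSeries.C_mul_eq_smul, HahnSeries.coeff_smul,
          smul_eq_mul]
        rcases lt_or_eq_of_le (show i ≤ -((n + 1 : ℕ) : ℤ) by push_cast; omega) with h | h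
        · rw [ht.van i h, lqep_jF_pow_van (n + 1) i h, mul_zero, sub_zero]
        · rw [h, lqep_jF_pow_coeff, mul_one, ← hcdef, sub_self]
      · intro P hP hne
        exact sub_mem (ht.reg P hP hne)
          (mul_mem (P.algebraMap_mem' c) (pow_mem (hj P hP hne) _))
    have h1 := ih t' hgood
    have h2 : ((t : FF M) : LaurentSeries Kbar) = ((t' : FF M) : LaurentSeries Kbar)
        + HahnSeries.C c * ((jF M : FF M) : LaurentSeries Kbar) ^ (n + 1) := by
      rw [hser]
      ring
    rw [h2]
    exact lqInt_add h1 (lqInt_mul (lqInt_C hc) (lqInt_pow lqep_jF_int _))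

end Places

/-- LQEP, internal form -/
theorem lqep_int_aux (q : ℕ) [Fact q.Prime] (haux : IsAuxLevel q M)
    (hA : A.LiesOverPrime q) (hR : IsSeriesRed R) (n : ℕ) {x : FF M} (hxO : x ∈ R.O)
    (hx : x ∈ riemannRochSpace (K := Kbar) (Finsupp.single (infPlaceBar M) (n : ℤ))) :
    lqInt A ((x : FF M) : LaurentSeries Kbar) := by
  classical
  haveI : IsAlgClosed (IsLocalRing.ResidueField A) := isAlgClosed_residueField A
  haveI : RRHyp Kbar (FF M) := mod_rrHyp M
  haveI : RRHyp (IsLocalRing.ResidueField A) (Fk (IsLocalRing.ResidueField A) M) :=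
    mr_rrHyp (IsLocalRing.ResidueField A) M
  obtain ⟨r, hr, _, _, hrInf⟩ := liftInf_exists_r q haux hA hR
  have hD := exists_fiberData_modL' M haux.1 A hA
  have hj := lqep_hother hR hD hr hrInf
  refine lqep_good hR hr hrInf hj n x ⟨hxO, ?_, ?_⟩
  · intro i hi
    rw [mem_riemannRochSpace_iff] at hx
    rcases hx (infPlaceBar M) with h0 | h
    · rw [h0]
      rfl
    · rw [Finsupp.single_eq_same, infPlaceBar_ord] at h
      exact HahnSeries.coeff_eq_zero_of_lt_order (lt_of_lt_of_le hi h)
  · intro P hP hne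
    rw [mem_riemannRochSpace_iff] at hx
    rcases hx P with h0 | h
    · rw [h0]
      exact P.toValuationSubring.zero_mem
    · rw [Finsupp.single_apply, if_neg (Ne.symm hne), neg_zero] at h
      exact (ffMem_iff_ord_nonneg P).mpr h

end Internal

variable {R : ConstRed A (IsLocalRing.residue A) (Fk (IsLocalRing.ResidueField A) M) (FF M)}

/-- **LQEP**: the functions of `O ∩ L(n • P∞)` have `A`-integral `q`-expansions. -/
theorem lqep_int (q : ℕ) [Fact q.Prime] (haux : IsAuxLevel q M)
    (hA : A.LiesOverPrime q) (hR : IsSeriesRed R) (n : ℕ) {x : FF M} (hxO : x ∈ R.O)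
    (hx : x ∈ riemannRochSpace (K := Kbar) (Finsupp.single (infPlaceBar M) (n : ℤ))) :
    lqInt A ((x : FF M) : LaurentSeries Kbar) :=
  lqep_int_aux q haux hA hR n hxO hx

/-- **LQEP**, with the integral series. -/
theorem lqep_exists (q : ℕ) [Fact q.Prime] (haux : IsAuxLevel q M)
    (hA : A.LiesOverPrime q) (hR : IsSeriesRed R) (n : ℕ) (x : R.O)
    (hx : ((x : R.O) : FF M) ∈
      riemannRochSpace (K := Kbar) (Finsupp.single (infPlaceBar M) (n : ℤ))) :
    ∃ y : LaurentSeries A,
      (((x : R.O) : FF M) : LaurentSeries Kbar) = coeffMap A.subtype y :=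
  (lqInt_iff _).mp (lqep_int q haux hA hR n x.2 hx)

end Fermat.Agent.S36lib

end
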