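/-
Item 83 (S36), piece C4-2, part 3 (helper6): the functions `g_n` over `A0`.

`gnA0_exists`: at an auxiliary level `M`, for every constant reduction `R` of `FF M` along `A ∣ q`
with `IsSeriesRed R` and every `n ≥ 2g`, there is `g ∈ L(n • P∞)`, fixed by the inertia group of
`A` (in fact by the whole Galois group), whose `q`-expansion is `A`-integral with a UNIT
coefficient at `-n` (and no term below `-n`).

Proof: LQEP (`S36lib/Lqep.lean`) makes an orthonormal basis of `L(n • P∞)` integral; pivots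
(`S36lib/GnPivot.lean`) turn it into an integral reduced echelon basis, which is Galois-fixed by
uniqueness; the function of `liftInf_order` is an `A`-combination of it.
No sorry.
-/
import Mathlib
import Fermat.Agent.S36lib.Lqep
import Fermat.Agent.S36lib.GnPivot
import Fermat.Agent.S36lib.Setup
import Fermat.Agent.S34lib.GalRR

set_option autoImplicit false
set_option linter.style.haveILetI false
set_option linter.unusedSectionVars false
set_option synthInstance.maxHeartbeats 400000

noncomputable section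

namespace Fermat.Agent.S36lib

open AlgebraicCurve ModularCurve IntermediateField CongruenceSubgroup HahnSeries
open Fermat.Agent.S24lib Fermat.Agent.S28lib Fermat.Agent.FFlib Fermat.Agent.RRlib
  Fermat.Agent.GoodRed Fermat.Agent.GM Fermat.Agent.S16lib Fermat.Agent.S34lib
open scoped MatrixGroups

section Series

variable {K : Type*} [Field K] {A : ValuationSubring K}

theorem gnA0_coeff_comb {d : ℕ} (a : Fin d → A) (y : Fin d → LaurentSeries A) (n : ℤ) :
    (∑ l, HahnSeries.C (a l) * y l).coeff n = ∑ l, a l * (y l).coeff n := by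
  rw [HahnSeries.coeff_sum]
  refine Finset.sum_congr rfl fun l _ => ?_
  rw [HahnSeries.C_mul_eq_smul, HahnSeries.coeff_smul, smul_eq_mul]

end Series

variable {M : ℕ} [NeZero M] {A : ValuationSubring Kbar}

theorem gnA0_coeff_sum {d : ℕ} (c : Fin d → Kbar) (g : Fin d → FF M) (n : ℤ) :
    (((∑ l, c l • g l : FF M) : FF M) : LaurentSeries Kbar).coeff n
      = ∑ l, c l * ((g l : FF M) : LaurentSeries Kbar).coeff n := by
  have h := congrFun (map_sum (dkCoeff M) (fun l => c l • g l) Finset.univ) n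
  rw [dkCoeff_apply, Finset.sum_apply] at h
  rw [h]
  refine Finset.sum_congr rfl fun l _ => ?_
  rw [map_smul, Pi.smul_apply, dkCoeff_apply, smul_eq_mul]

theorem gnA0_van_of_mem {n : ℕ} {g : FF M}
    (hg : g ∈ riemannRochSpace (K := Kbar) (Finsupp.single (infPlaceBar M) (n : ℤ)))
    (i : ℤ) (hi : i < -(n : ℤ)) : ((g : FF M) : LaurentSeries Kbar).coeff i = 0 := by
  rw [mem_riemannRochSpace_iff] at hg
  rcases hg (infPlaceBar M) with h0 | h
  · rw [h0]
    rfl
  · rw [Finsupp.single_eq_same, infPlaceBar_ord] at h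
    exact HahnSeries.coeff_eq_zero_of_lt_order (lt_of_lt_of_le hi h)

theorem gnA0_galFF_mem {n : ℕ} {g : FF M} (σ : Kbar ≃ₐ[ℚ] Kbar)
    (hg : g ∈ riemannRochSpace (K := Kbar) (Finsupp.single (infPlaceBar M) (n : ℤ))) :
    galFF M σ • g ∈ riemannRochSpace (K := Kbar) (Finsupp.single (infPlaceBar M) (n : ℤ)) := by
  have h := tw_smul_mem_L (galFF M σ) hg
  rwa [SemilinearAut.smul_single, galFF_smul_infPlaceBar] at h

theorem gnA0_one_mem :
    (1 : FF M) ∈ riemannRochSpace (K := Kbar) (Finsupp.single (infPlaceBar M) ((0 : ℕ) : ℤ)) := by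
  rw [mem_riemannRochSpace_iff]
  intro v
  right
  rw [Place.ord_one]
  simp

/-- the inclusion `F_{M,k} ⊆ k((X))`, as a `k`-linear map (for the module structure of Hahn
series) -/
def gnA0_valLin (k : Type) [Field k] (N : ℕ) : Fk k N →ₗ[k] LaurentSeries k where
  toFun x := (x : LaurentSeries k)
  map_add' _ _ := rfl
  map_smul' c x := by
    show ((c • x : Fk k N) : LaurentSeries k) = c • (x : LaurentSeries k)
    rw [Algebra.smul_def, MulMemClass.coe_mul]
    have e : ((algebraMap k (Fk k N) c : Fk k N) : LaurentSeries k) = HahnSeries.C c := by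
      show algebraMap k (LaurentSeries k) c = _
      rw [algebraMap_laurentSeries_eq_single]
      rfl
    rw [e, HahnSeries.C_mul_eq_smul]

theorem gnA0_valLin_apply (k : Type) [Field k] (N : ℕ) (x : Fk k N) :
    gnA0_valLin k N x = (x : LaurentSeries k) := rfl

theorem gnA0_valLin_injective (k : Type) [Field k] (N : ℕ) :
    Function.Injective (gnA0_valLin k N) := fun _ _ h => Subtype.ext h

section Internal

attribute [local instance 10000] lqAlgFk

variable {R : ConstRed A (IsLocalRing.residue A) (Fk (IsLocalRing.ResidueField A) M) (FF M)}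

/-- the reduction of an element of `O` with an integral expansion -/
theorem gnA0_red_eq (hR : IsSeriesRed R) (x : R.O) (y : LaurentSeries A)
    (hy : (((x : R.O) : FF M) : LaurentSeries Kbar) = coeffMap A.subtype y) :
    ((R.red x : Fk (IsLocalRing.ResidueField A) M) :
      LaurentSeries (IsLocalRing.ResidueField A)) = coeffMap (IsLocalRing.residue A) y := by
  have hmem : coeffMap A.subtype y ∈ modularFunctionFieldBar M := by
    rw [← hy]
    exact ((x : R.O) : FF M).2
  have h := hR.red y hmem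
  have e : x = ⟨⟨coeffMap A.subtype y, hmem⟩, hR.mem y hmem⟩ := Subtype.ext (Subtype.ext hy)
  rw [e]
  exact h

/-- a function of `O ∩ L(n • P∞)` whose reduction has a nonzero coefficient at `-n` -/
theorem gnA0_exists_top (q : ℕ) [Fact q.Prime] (haux : IsAuxLevel q M)
    (hA : A.LiesOverPrime q) (hR : IsSeriesRed R) (n : ℕ)
    (hn : 2 * genusFF Kbar (FF M) ≤ n) :
    ∃ x : R.O, ((x : R.O) : FF M) ∈ riemannRochSpace (K := Kbar)
        (Finsupp.single (infPlaceBar M) (n : ℤ)) ∧
      ((R.red x : Fk (IsLocalRing.ResidueField A) M) :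
        LaurentSeries (IsLocalRing.ResidueField A)).coeff (-(n : ℤ)) ≠ 0 := by
  obtain ⟨x, hxV, hxord⟩ := liftInf_order q haux hA hR n hn
  by_cases h0 : ((R.red x : Fk (IsLocalRing.ResidueField A) M) :
      LaurentSeries (IsLocalRing.ResidueField A)) = 0
  · rw [h0, HahnSeries.order_zero] at hxord
    have hn0 : n = 0 := by omega
    subst hn0
    refine ⟨1, gnA0_one_mem, ?_⟩
    rw [map_one]
    show ((1 : LaurentSeries (IsLocalRing.ResidueField A))).coeff (-((0 : ℕ) : ℤ)) ≠ 0
    simp
  · refine ⟨x, hxV, ?_⟩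
    rw [← hxord]
    exact fun h => h0 (HahnSeries.coeff_order_eq_zero.mp h)

set_option maxHeartbeats 1600000 in
/-- C4-2, internal form, for the whole Galois group -/
theorem gnA0_exists_gal_aux (q : ℕ) [Fact q.Prime] (haux : IsAuxLevel q M)
    (hA : A.LiesOverPrime q) (hR : IsSeriesRed R) (n : ℕ)
    (hn : 2 * genusFF Kbar (FF M) ≤ n) :
    ∃ (g : FF M) (y : LaurentSeries A), (∀ σ : Kbar ≃ₐ[ℚ] Kbar, galFF M σ • g = g) ∧
      ((g : FF M) : LaurentSeries Kbar) = coeffMap A.subtype y ∧
      g ∈ riemannRochSpace (K := Kbar) (Finsupp.single (infPlaceBar M) (n : ℤ)) ∧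
      IsUnit (y.coeff (-(n : ℤ))) ∧ ∀ k : ℤ, k < -(n : ℤ) → y.coeff k = 0 := by
  classical
  haveI : RRHyp Kbar (FF M) := mod_rrHyp M
  have hfin : Module.Finite Kbar
      (riemannRochSpace (K := Kbar) (Finsupp.single (infPlaceBar M) (n : ℤ))) :=
    finite_riemannRochSpace _
  obtain ⟨d, b, hspan, hli⟩ := R.exists_orthonormal _ hfin
  have hbV : ∀ i, ((b i : R.O) : FF M) ∈
      riemannRochSpace (K := Kbar) (Finsupp.single (infPlaceBar M) (n : ℤ)) := fun i => by
    rw [← hspan]
    exact Submodule.subset_span ⟨i, rfl⟩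
  have hbint : ∀ i, ∃ y : LaurentSeries A,
      (((b i : R.O) : FF M) : LaurentSeries Kbar) = coeffMap A.subtype y :=
    fun i => lqep_exists q haux hA hR n (b i) (hbV i)
  choose y hy using hbint
  have hyli : LinearIndependent (IsLocalRing.ResidueField A)
      fun i => coeffMap (IsLocalRing.residue A) (y i) := by
    have h1 := hli.map' (gnA0_valLin (IsLocalRing.ResidueField A) M)
      (LinearMap.ker_eq_bot.mpr (gnA0_valLin_injective (IsLocalRing.ResidueField A) M))
    have h2 : (fun i => coeffMap (IsLocalRing.residue A) (y i))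
        = ⇑(gnA0_valLin (IsLocalRing.ResidueField A) M) ∘ fun i => R.red (b i) := by
      funext i
      exact (gnA0_red_eq hR (b i) (y i) (hy i)).symm
    rw [h2]
    exact h1
  obtain ⟨p, hp⟩ := gnp_exists_unit_det A y hyli
  set Mat : Matrix (Fin d) (Fin d) A := Matrix.of fun i j => (y i).coeff (p j) with hMat
  have hBAM : Mat⁻¹ * Mat = 1 := Matrix.nonsing_inv_mul Mat hp
  set BA : Matrix (Fin d) (Fin d) A := Mat⁻¹ with hBA
  set B : Matrix (Fin d) (Fin d) Kbar := A.subtype.mapMatrix BA with hBdef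
  have hBdet : IsUnit B.det := by
    have h1 : B.det = A.subtype BA.det := by
      rw [hBdef, ← RingHom.map_det]
    rw [h1]
    exact (Matrix.isUnit_det_of_right_inverse hBAM).map A.subtype
  set g : Fin d → FF M := fun i => ∑ l, B i l • ((b l : R.O) : FF M) with hg
  set s : Fin d → LaurentSeries A := fun i => ∑ l, HahnSeries.C (BA i l) * y l with hs
  have hgs : ∀ i, ((g i : FF M) : LaurentSeries Kbar) = coeffMap A.subtype (s i) := by
    intro i
    ext m
    rw [coeffMap_coeff]
    show (((∑ l, B i l • ((b l : R.O) : FF M) : FF M) : FF M) : LaurentSeries Kbar).coeff m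
      = A.subtype ((∑ l, HahnSeries.C (BA i l) * y l).coeff m)
    rw [gnA0_coeff_sum, gnA0_coeff_comb, map_sum]
    refine Finset.sum_congr rfl fun l _ => ?_
    rw [map_mul, hy l, coeffMap_coeff]
    rfl
  set φ : Fin d → (FF M →ₗ[Kbar] Kbar) :=
    fun j => (LinearMap.proj (p j)).comp (dkCoeff M) with hφ
  have hφapp : ∀ j (v : FF M), φ j v = ((v : FF M) : LaurentSeries Kbar).coeff (p j) :=
    fun _ _ => rfl
  have hδ : ∀ i j, φ j (g i) = if i = j then 1 else 0 := by
    intro i j
    rw [hφapp, hgs, coeffMap_coeff]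
    show A.subtype ((∑ l, HahnSeries.C (BA i l) * y l).coeff (p j)) = _
    rw [gnA0_coeff_comb]
    have h1 : ∑ l, BA i l * (y l).coeff (p j) = (BA * Mat) i j := by
      rw [Matrix.mul_apply]
      rfl
    rw [h1, hBAM, Matrix.one_apply]
    split_ifs
    · exact map_one _
    · exact map_zero _
  have hrepr : ∀ v ∈ riemannRochSpace (K := Kbar) (Finsupp.single (infPlaceBar M) (n : ℤ)),
      v = ∑ j, φ j v • g j := fun v hv =>
    gnp_repr (fun l => ((b l : R.O) : FF M)) φ B hBdet hδ v (by rw [hspan]; exact hv)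
  have hgV : ∀ i, g i ∈
      riemannRochSpace (K := Kbar) (Finsupp.single (infPlaceBar M) (n : ℤ)) := fun i =>
    Submodule.sum_mem _ fun l _ => Submodule.smul_mem _ _ (hbV l)
  have hfix : ∀ (σ : Kbar ≃ₐ[ℚ] Kbar) (i : Fin d), galFF M σ • g i = g i := by
    intro σ i
    have hmem := gnA0_galFF_mem σ (hgV i)
    have hc : ∀ j, φ j (galFF M σ • g i) = if i = j then 1 else 0 := by
      intro j
      have h1 : φ j (galFF M σ • g i) = σ (φ j (g i)) := dkCoeff_galFF M σ (g i) (p j)
      rw [h1, hδ i j]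
      split_ifs
      · exact map_one _
      · exact map_zero _
    have h2 := hrepr _ hmem
    simp only [hc] at h2
    rw [h2]
    simp
  obtain ⟨x, hxV, hxc⟩ := gnA0_exists_top q haux hA hR n hn
  obtain ⟨yx, hyx⟩ := lqep_exists q haux hA hR n x hxV
  have hunit : IsUnit (yx.coeff (-(n : ℤ))) := by
    by_contra hnu
    apply hxc
    rw [gnA0_red_eq hR x yx hyx, coeffMap_coeff]
    exact (IsLocalRing.residue_eq_zero_iff _).mpr ((IsLocalRing.mem_maximalIdeal _).mpr hnu)
  have hcoef : yx.coeff (-(n : ℤ)) = ∑ j, yx.coeff (p j) * (s j).coeff (-(n : ℤ)) := by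
    apply Subtype.ext
    have h1 := congrArg (fun v : FF M => ((v : FF M) : LaurentSeries Kbar).coeff (-(n : ℤ)))
      (hrepr _ hxV)
    beta_reduce at h1
    rw [gnA0_coeff_sum, hyx, coeffMap_coeff] at h1
    have h2 : ((∑ j, yx.coeff (p j) * (s j).coeff (-(n : ℤ)) : A) : Kbar)
        = ∑ j, ((yx.coeff (p j) : A) : Kbar) * (((s j).coeff (-(n : ℤ)) : A) : Kbar) := by
      have := map_sum A.subtype (fun j => yx.coeff (p j) * (s j).coeff (-(n : ℤ))) Finset.univ
      simp
    rw [h2]
    refine h1.trans (Finset.sum_congr rfl fun j _ => ?_)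
    rw [hφapp, hyx, coeffMap_coeff, hgs, coeffMap_coeff]
    rfl
  have hex : ∃ j, IsUnit ((s j).coeff (-(n : ℤ))) := by
    by_contra hcon
    have hmem : yx.coeff (-(n : ℤ)) ∈ IsLocalRing.maximalIdeal A := by
      rw [hcoef]
      refine Ideal.sum_mem _ fun j _ => Ideal.mul_mem_left _ _ ?_
      exact (IsLocalRing.mem_maximalIdeal _).mpr fun hu => hcon ⟨j, hu⟩
    exact (IsLocalRing.mem_maximalIdeal _).mp hmem hunit
  obtain ⟨j, hj⟩ := hex
  refine ⟨g j, s j, fun σ => hfix σ j, hgs j, hgV j, hj, ?_⟩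
  intro i hi
  have h1 := gnA0_van_of_mem (hgV j) i hi
  rw [hgs j, coeffMap_coeff] at h1
  exact Subtype.ext h1

/-- C4-2, internal form -/
theorem gnA0_exists_aux (q : ℕ) [Fact q.Prime] (haux : IsAuxLevel q M)
    (hA : A.LiesOverPrime q) (hR : IsSeriesRed R) (n : ℕ)
    (hn : 2 * genusFF Kbar (FF M) ≤ n) :
    ∃ (g : FF M) (y : LaurentSeries A), IsIFixed M A g ∧
      ((g : FF M) : LaurentSeries Kbar) = coeffMap A.subtype y ∧
      g ∈ riemannRochSpace (K := Kbar) (Finsupp.single (infPlaceBar M) (n : ℤ)) ∧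
      IsUnit (y.coeff (-(n : ℤ))) ∧ ∀ k : ℤ, k < -(n : ℤ) → y.coeff k = 0 := by
  obtain ⟨g, y, h1, h2⟩ := gnA0_exists_gal_aux q haux hA hR n hn
  exact ⟨g, y, fun σ _ => h1 σ, h2⟩

end Internal

variable {R : ConstRed A (IsLocalRing.residue A) (Fk (IsLocalRing.ResidueField A) M) (FF M)}

/-- **C4-2**: the functions `g_n`: for `n ≥ 2g` there is `g ∈ L(n • P∞)`, fixed by the inertia
group of `A`, with `A`-integral `q`-expansion `y`, `y.coeff (-n)` a unit of `A`, and no term
below `-n`. -/
theorem gnA0_exists (q : ℕ) [Fact q.Prime] (haux : IsAuxLevel q M)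
    (hA : A.LiesOverPrime q) (hR : IsSeriesRed R) (n : ℕ)
    (hn : 2 * genusFF Kbar (FF M) ≤ n) :
    ∃ (g : FF M) (y : LaurentSeries A), IsIFixed M A g ∧
      ((g : FF M) : LaurentSeries Kbar) = coeffMap A.subtype y ∧
      g ∈ riemannRochSpace (K := Kbar) (Finsupp.single (infPlaceBar M) (n : ℤ)) ∧
      IsUnit (y.coeff (-(n : ℤ))) ∧ ∀ k : ℤ, k < -(n : ℤ) → y.coeff k = 0 :=
  gnA0_exists_aux q haux hA hR n hn

/-- the same, fixed by the WHOLE Galois group -/
theorem gnA0_exists_gal (q : ℕ) [Fact q.Prime] (haux : IsAuxLevel q M)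
    (hA : A.LiesOverPrime q) (hR : IsSeriesRed R) (n : ℕ)
    (hn : 2 * genusFF Kbar (FF M) ≤ n) :
    ∃ (g : FF M) (y : LaurentSeries A), (∀ σ : Kbar ≃ₐ[ℚ] Kbar, galFF M σ • g = g) ∧
      ((g : FF M) : LaurentSeries Kbar) = coeffMap A.subtype y ∧
      g ∈ riemannRochSpace (K := Kbar) (Finsupp.single (infPlaceBar M) (n : ℤ)) ∧
      IsUnit (y.coeff (-(n : ℤ))) ∧ ∀ k : ℤ, k < -(n : ℤ) → y.coeff k = 0 :=
  gnA0_exists_gal_aux q haux hA hR n hn

end Fermat.Agent.S36lib

end
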