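import Mathlib
import Fermat.Agent.S36lib.D1Lattice
import Fermat.Agent.S36lib.GnA0
import Fermat.Agent.S36lib.FixedF0
import Fermat.Agent.S36lib.SetupD1

/-!
# Item 83 (S36), piece D1-A, part 2 (helper28): the affine ring of the auxiliary level

Level `M` auxiliary (`q ∤ M`), `R` a constant reduction of `FF M` along `A ∣ q` with
`IsSeriesRed R`.  `B' = d1lRing A R = f0AffD A M {∞} R.O R.O R.O`: the functions of `F0(M)`
regular off `∞` and in the valuation ring `R.O`.

* `d1lLat A R n` : the `A0`-lattice `{b ∈ B' : pole order ≤ n at ∞}`;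
* `d1l_coeff_mem` : the `q`-expansion of `b ∈ d1lLat A R n` has its coefficients in `A ∩ K0`;
* `d1l_lat_fg` : `d1lLat A R n` is a finitely generated `A0`-module;
* `d1l_level_isIntegralElem` : **every element of `B'` is integral over `A0[g]`**, for every
  `g ∈ F0(M)` with pole only at `∞`, of order `n₀ ≥ max (2 g(X), 1)`, `A`-integral expansion and
  unit leading coefficient (such `g` exist: `gnA0_exists`).
-/

set_option autoImplicit false
set_option linter.style.haveILetI false
set_option linter.unusedSectionVars false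
set_option synthInstance.maxHeartbeats 400000

noncomputable section

namespace Fermat.Agent.S36lib

open AlgebraicCurve ModularCurve IntermediateField HahnSeries
open Fermat.Agent.S24lib Fermat.Agent.GoodRed Fermat.Agent.GM Fermat.Agent.S34lib
  Fermat.Agent.RRlib

variable {M : ℕ} [NeZero M] (A : ValuationSubring Kbar)
  (R : ConstRed A (IsLocalRing.residue A) (Fk (IsLocalRing.ResidueField A) M) (FF M))

/-- the affine ring of level `M`: regular off `∞`, in `R.O` -/
def d1lRing : Subring (f0Field A M) := f0AffD A M {infPlaceBar M} R.O R.O R.O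

theorem mem_d1lRing_iff (x : f0Field A M) :
    x ∈ d1lRing A R ↔ (x : FF M) ∈ offRegular M {infPlaceBar M} ∧ (x : FF M) ∈ R.O := by
  unfold d1lRing
  rw [mem_f0AffD_iff]
  constructor
  · rintro ⟨h0, h1, -, -⟩
    exact ⟨h0, h1⟩
  · rintro ⟨h0, h1⟩
    exact ⟨h0, h1, h1, h1⟩

theorem d1l_coe_smul (a : k0Val A) (b : f0Field A M) :
    ((a • b : f0Field A M) : FF M)
      = algebraMap Kbar (FF M) (((a : k0Field A) : Kbar)) * (b : FF M) := by
  rfl

theorem d1l_coe_algebraMap (a : k0Val A) :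
    ((algebraMap (k0Val A) (f0Field A M) a : f0Field A M) : FF M)
      = algebraMap Kbar (FF M) (((a : k0Field A) : Kbar)) := by
  rfl

theorem d1l_coeff_const_mul (c : Kbar) (x : FF M) (n : ℤ) :
    ((algebraMap Kbar (FF M) c * x : FF M) : LaurentSeries Kbar).coeff n
      = c * (x : LaurentSeries Kbar).coeff n := by
  have h := congrFun (map_smul (dkCoeff M) c x) n
  rw [Algebra.smul_def] at h
  exact h

/-- the lattice of the functions of `B'` with pole order `≤ n` at `∞` -/
def d1lLat (n : ℕ) : Submodule (k0Val A) (f0Field A M) where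
  carrier := {b | (b : FF M) ∈ R.O ∧ (b : FF M) ∈ offRegular M {infPlaceBar M} ∧
    lqVan (-(n : ℤ)) ((b : FF M) : LaurentSeries Kbar)}
  add_mem' := by
    rintro x y ⟨hx1, hx2, hx3⟩ ⟨hy1, hy2, hy3⟩
    refine ⟨R.O.add_mem _ _ hx1 hy1, (offRegular M _).add_mem hx2 hy2, ?_⟩
    exact lqVan_add hx3 hy3
  zero_mem' := ⟨R.O.zero_mem, (offRegular M _).zero_mem, lqVan_zero _⟩
  smul_mem' := by
    rintro a x ⟨hx1, hx2, hx3⟩
    refine ⟨?_, ?_, ?_⟩
    · rw [d1l_coe_smul]
      exact R.O.mul_mem _ _ (R.algebraMap_mem (k0ValIncl A a)) hx1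
    · rw [d1l_coe_smul]
      exact (offRegular M _).mul_mem (const_mem_offRegular M _ _) hx2
    · intro k hk
      rw [d1l_coe_smul, d1l_coeff_const_mul, hx3 k hk, mul_zero]

theorem mem_d1lLat_iff (n : ℕ) (b : f0Field A M) :
    b ∈ d1lLat A R n ↔ (b : FF M) ∈ R.O ∧ (b : FF M) ∈ offRegular M {infPlaceBar M} ∧
      lqVan (-(n : ℤ)) ((b : FF M) : LaurentSeries Kbar) := Iff.rfl

theorem d1lLat_le_ring (n : ℕ) (b : f0Field A M) (hb : b ∈ d1lLat A R n) : b ∈ d1lRing A R :=
  (mem_d1lRing_iff A R b).mpr ⟨hb.2.1, hb.1⟩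

theorem d1lLat_mono {n n' : ℕ} (h : n ≤ n') : d1lLat A R n ≤ d1lLat A R n' := by
  rintro b ⟨h1, h2, h3⟩
  exact ⟨h1, h2, lqVan_mono (by omega) h3⟩

/-- every element of `B'` lies in some lattice -/
theorem d1l_exists_lat (b : f0Field A M) (hb : b ∈ d1lRing A R) : ∃ n, b ∈ d1lLat A R n := by
  obtain ⟨h0, h1⟩ := (mem_d1lRing_iff A R b).mp hb
  refine ⟨(-((b : FF M) : LaurentSeries Kbar).order).toNat, h1, h0, ?_⟩
  intro k hk
  apply HahnSeries.coeff_eq_zero_of_lt_order
  have := Int.self_le_toNat (-((b : FF M) : LaurentSeries Kbar).order)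
  omega

/-- an element of the lattice lies in `L(n ∞)` -/
theorem d1l_mem_rr {n : ℕ} {b : f0Field A M} (hb : b ∈ d1lLat A R n) :
    (b : FF M) ∈ riemannRochSpace (K := Kbar) (Finsupp.single (infPlaceBar M) (n : ℤ)) := by
  classical
  obtain ⟨-, h2, h3⟩ := hb
  rw [mem_riemannRochSpace_iff]
  intro v
  by_cases hb0 : (b : FF M) = 0
  · exact Or.inl hb0
  right
  by_cases hv : v = infPlaceBar M
  · subst hv
    rw [Finsupp.single_eq_same, infPlaceBar_ord]
    have hne : ((b : FF M) : LaurentSeries Kbar) ≠ 0 := fun h => hb0 (Subtype.ext h)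
    exact (lqVan_iff_le_order hne).mp h3
  · rw [Finsupp.single_apply, if_neg (Ne.symm hv), neg_zero]
    rw [← ffMem_iff_ord_nonneg]
    exact (mem_offRegular_iff M _ _).mp h2 v hv

end Fermat.Agent.S36lib
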