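import Mathlib
import Fermat.Agent.S36lib.D1Set
import Fermat.Agent.S36lib.ExpOrd
import Fermat.Agent.HeckeBar.LocDict
import Fermat.Agent.HeckeBar.GenBasic
import Fermat.Agent.HeckeBar.ModDeg
import Fermat.Agent.S24lib.Final

/-!
# Item 83 (S36), piece D1-H (HORIZONTAL) for D1-A (helper23, signatures of helper28).
Complete proofs.

Level `M = M' q²`, `F_M` as an algebra over `F_{M'}` along `π₁ = ecPi1 M' q`.

* `d1h_restrict_inf`: the places of `D1 = s36D1` restrict to `∞'` along `π₁`;
* `d1h_isIntegral`: `b ∈ F_M` regular off `D1` is integral over the valuation ring of every place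
  `P' ≠ ∞'` of `F_{M'}`;
* `d1h_coeff_reg`: the coefficients of `minpoly F_{M'} b` are regular off `∞'`;
* `d1h_gal_pi1`: `galFF` commutes with `π₁`;
* `d1h_coeff_fixed`: if `b` is inertia-fixed, so are the coefficients of `minpoly F_{M'} b`.
-/

set_option autoImplicit false
set_option linter.style.haveILetI false
set_option linter.unusedSectionVars false
set_option synthInstance.maxHeartbeats 400000

noncomputable section

namespace Fermat.Agent.S36lib

open AlgebraicCurve ModularCurve HahnSeries IsDedekindDomain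
open Fermat.Agent.S24lib Fermat.Agent.S34lib Fermat.Agent.S37lib Fermat.Agent.HeckeBar
open Fermat.Agent.S35lib

variable (M' q : ℕ) [NeZero M'] [NeZero q]

/-- `π₁` as an algebra homomorphism -/
def d1hPi1 : FF M' →ₐ[Kbar] FF (M' * q * q) :=
  (heckeAlphaBar Kbar (M' * q) q).comp (heckeAlphaBar Kbar M' q)

theorem d1hPi1_apply (g : FF M') : d1hPi1 M' q g = ecPi1 M' q g := rfl

theorem d1h_isScalarTower :
    letI := (ecPi1 M' q).toAlgebra
    IsScalarTower Kbar (FF M') (FF (M' * q * q)) :=
  letI := (ecPi1 M' q).toAlgebra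
  IsScalarTower.of_algebraMap_eq fun c => (ecPi1_algebraMap M' q c).symm

theorem d1h_finite :
    letI := (ecPi1 M' q).toAlgebra
    Module.Finite (FF M') (FF (M' * q * q)) := by
  haveI := fin_ffData (M' * q * q)
  exact gen_finiteAlong (d1hPi1 M' q) (transcendental_jF M') (x' := jF (M' * q * q))

theorem d1h_charZero (L : ℕ) : CharZero (FF L) := gen_charZero Kbar (FF L)

theorem d1h_algIsIntegral :
    letI := (ecPi1 M' q).toAlgebra
    Algebra.IsIntegral (FF M') (FF (M' * q * q)) := by
  letI := (ecPi1 M' q).toAlgebra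
  haveI : Module.Finite (FF M') (FF (M' * q * q)) := d1h_finite M' q
  infer_instance

section Fibre

variable (hq : q.Prime) (hqM : ¬ q ∣ M')

/-- at a place of `D1` a function `π₁ g` with `g` regular at `∞'` is regular -/
theorem d1h_pi1_mem_of_mem (w : Place Kbar (FF (M' * q * q))) (hw : w ∈ s36D1 M' q hq hqM)
    (g : FF M') (hg : g ∈ (infPlaceBar M').toValuationSubring) :
    ecPi1 M' q g ∈ w.toValuationSubring := by
  rw [infPlaceBar_mem_iff] at hg
  rw [ffMem_iff_ord_nonneg]
  rcases hw with rfl | rfl | ⟨ζ, hζ, rfl⟩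
  · rw [infPlaceBar_ord, ← ecInf_apply, ecInf_pi1]
    exact hg
  · rw [fbmZero_ord, ecZero_pi1, inf_order_qExpand, inf_order_qExpand]
    exact mul_nonneg (Int.natCast_nonneg _) (mul_nonneg (Int.natCast_nonneg _) hg)
  · rw [midPlace_ord, ecMid_pi1]
    exact hg

/-- the places of `D1` lie over `∞'` along `π₁` -/
theorem d1h_restrict_inf (w : Place Kbar (FF (M' * q * q))) (hw : w ∈ s36D1 M' q hq hqM) :
    letI := (ecPi1 M' q).toAlgebra
    haveI := d1h_isScalarTower M' q
    haveI := d1h_algIsIntegral M' q
    w.restrict (FF M') = infPlaceBar M' := by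
  letI := (ecPi1 M' q).toAlgebra
  haveI := d1h_isScalarTower M' q
  haveI := d1h_algIsIntegral M' q
  symm
  apply loc_place_eq_of_le
  intro g hg
  rw [Place.restrict_toValuationSubring, ValuationSubring.mem_comap]
  exact d1h_pi1_mem_of_mem M' q hq hqM w hw g hg

/-- `b` regular off `D1` is integral over the valuation ring of every place `P' ≠ ∞'` -/
theorem d1h_isIntegral (b : FF (M' * q * q))
    (hb : b ∈ offRegular (M' * q * q) (s36D1 M' q hq hqM))
    (P' : Place Kbar (FF M')) (hP' : P' ≠ infPlaceBar M') :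
    letI := (ecPi1 M' q).toAlgebra
    IsIntegral P'.toValuationSubring b := by
  letI := (ecPi1 M' q).toAlgebra
  haveI := d1h_isScalarTower M' q
  haveI : Module.Finite (FF M') (FF (M' * q * q)) := d1h_finite M' q
  haveI : CharZero (FF M') := d1h_charZero M'
  haveI := d1h_algIsIntegral M' q
  haveI : Algebra.IsSeparable (FF M') (FF (M' * q * q)) :=
    Algebra.IsSeparable.of_integral (FF M') (FF (M' * q * q))
  have hmem : b ∈ (algebraMap (locB P' (FF (M' * q * q))) (FF (M' * q * q))).range := by
    apply HeightOneSpectrum.mem_integers_of_valuation_le_one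
    intro Q
    have hw : locPlace P' Q ∉ s36D1 M' q hq hqM := by
      intro hw
      have h1 := d1h_restrict_inf M' q hq hqM _ hw
      rw [locPlace_restrict] at h1
      exact hP' h1
    have h2 := (mem_offRegular_iff _ _ _).1 hb _ hw
    rw [locPlace_toValuationSubring, Valuation.mem_valuationSubring_iff] at h2
    exact h2
  obtain ⟨r, hr⟩ := hmem
  rw [← hr]
  exact r.2

/-- **D1-H (regularity)**: the coefficients of the minimal polynomial over `F_{M'}` of a function
regular off `D1` are regular off `∞'`. -/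
theorem d1h_coeff_reg (b : FF (M' * q * q))
    (hb : b ∈ offRegular (M' * q * q) (s36D1 M' q hq hqM))
    (P' : Place Kbar (FF M')) (hP' : P' ≠ infPlaceBar M') (n : ℕ) :
    letI := (ecPi1 M' q).toAlgebra
    (minpoly (FF M') b).coeff n ∈ P'.toValuationSubring := by
  letI := (ecPi1 M' q).toAlgebra
  have hint := d1h_isIntegral M' q hq hqM b hb P' hP'
  haveI : IsIntegrallyClosed P'.toValuationSubring := inferInstance
  rw [minpoly.isIntegrallyClosed_eq_field_fractions' (FF M') hint, Polynomial.coeff_map]
  exact ((minpoly P'.toValuationSubring b).coeff n).2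

end Fibre

section Galois

variable (A : ValuationSubring Kbar)

/-- `galFF` commutes with `π₁` -/
theorem d1h_gal_pi1 (σ : Kbar ≃ₐ[ℚ] Kbar) (g : FF M') :
    galFF (M' * q * q) σ • ecPi1 M' q g = ecPi1 M' q (galFF M' σ • g) := by
  apply Subtype.ext
  ext n
  have h1 : ((galFF (M' * q * q) σ • ecPi1 M' q g : FF (M' * q * q)) :
      LaurentSeries Kbar).coeff n = σ ((ecPi1 M' q g : LaurentSeries Kbar).coeff n) := rfl
  have h2 : ((galFF M' σ • g : FF M') : LaurentSeries Kbar).coeff n =
      σ ((g : LaurentSeries Kbar).coeff n) := rfl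
  rw [h1, ← ecInf_apply, ← ecInf_apply, ecInf_pi1, ecInf_pi1, h2]

/-- **D1-H (rationality)**: the coefficients of the minimal polynomial over `F_{M'}` of an
inertia-fixed function are inertia-fixed. -/
theorem d1h_coeff_fixed (b : FF (M' * q * q)) (hb : IsIFixed (M' * q * q) A b) (n : ℕ) :
    letI := (ecPi1 M' q).toAlgebra
    IsIFixed M' A ((minpoly (FF M') b).coeff n) := by
  letI := (ecPi1 M' q).toAlgebra
  intro σ hσ
  set τ' : FF M' →+* FF M' :=
    MulSemiringAction.toRingHom (SemilinearAut Kbar (FF M')) (FF M') (galFF M' σ) with hτ'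
  set τ : FF (M' * q * q) →+* FF (M' * q * q) :=
    MulSemiringAction.toRingHom (SemilinearAut Kbar (FF (M' * q * q))) (FF (M' * q * q))
      (galFF (M' * q * q) σ) with hτ
  have hcomm : τ.comp (ecPi1 M' q) = (ecPi1 M' q).comp τ' := by
    ext g : 1
    exact d1h_gal_pi1 M' q σ g
  have hτb : τ b = b := hb σ hσ
  set p := minpoly (FF M') b with hp
  have hmonic_or : p = 0 ∨ p.Monic := by
    by_cases hint : IsIntegral (FF M') b
    · exact Or.inr (minpoly.monic hint)
    · exact Or.inl (minpoly.eq_zero hint)
  rcases hmonic_or with h0 | hmon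
  · rw [h0, Polynomial.coeff_zero]
    exact smul_zero _
  have hint : IsIntegral (FF M') b := by
    by_contra hcon
    exact hmon.ne_zero (minpoly.eq_zero hcon)
  have hroot : Polynomial.aeval b (p.map τ') = 0 := by
    rw [Polynomial.aeval_def, Polynomial.eval₂_map]
    have e : (algebraMap (FF M') (FF (M' * q * q))).comp τ' = τ.comp (ecPi1 M' q) := hcomm.symm
    rw [e]
    have h1 := Polynomial.hom_eval₂ p (ecPi1 M' q) τ b
    rw [hτb] at h1
    rw [← h1]
    have h2 : Polynomial.eval₂ (ecPi1 M' q) b p = 0 := minpoly.aeval (FF M') b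
    rw [h2, map_zero]
  have hτ'inj : Function.Injective τ' := τ'.injective
  have heq : p.map τ' = p := by
    refine minpoly.unique (FF M') b (hmon.map τ') hroot ?_
    intro r hr hr0
    rw [Polynomial.degree_map_eq_of_injective hτ'inj]
    exact minpoly.min (FF M') b hr hr0
  have hc := congrArg (fun r : Polynomial (FF M') => r.coeff n) heq
  simp only [Polynomial.coeff_map] at hc
  exact hc

end Galois

end Fermat.Agent.S36lib

end
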