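import Mathlib
import Fermat.Agent.S36lib.D1Level

/-!
# Item 83 (S36), piece D1-A, part 3 (helper28): `B'` is integral over `A0[g]`

See `D1Level.lean`.  `d1l_level_isIntegralElem`.
-/

set_option autoImplicit false
set_option linter.style.haveILetI false
set_option linter.unusedSectionVars false
set_option synthInstance.maxHeartbeats 400000

noncomputable section

namespace Fermat.Agent.S36lib

open AlgebraicCurve ModularCurve IntermediateField HahnSeries
open Fermat.Agent.S24lib Fermat.Agent.GoodRed Fermat.Agent.GM Fermat.Agent.S34lib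
  Fermat.Agent.RRlib

variable {M : ℕ} [NeZero M] {A : ValuationSubring Kbar}
  {R : ConstRed A (IsLocalRing.residue A) (Fk (IsLocalRing.ResidueField A) M) (FF M)}

/-- the coefficients of the expansion of an element of the lattice lie in `A ∩ K0` -/
theorem d1l_coeff_mem (q : ℕ) [Fact q.Prime] (haux : IsAuxLevel q M)
    (hA : A.LiesOverPrime q) (hR : IsSeriesRed R) {n : ℕ} {b : f0Field A M}
    (hb : b ∈ d1lLat A R n) (k : ℤ) :
    ((b : FF M) : LaurentSeries Kbar).coeff k ∈ A ∧
      ((b : FF M) : LaurentSeries Kbar).coeff k ∈ k0Field A :=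
  ⟨lqep_int q haux hA hR n hb.1 (d1l_mem_rr A R hb) k,
    (mem_f0Field_iff_coeff A M (b : FF M)).mp b.2 k⟩

/-- a function of `B'` whose expansion has no term of index `≤ 0` vanishes -/
theorem d1l_eq_zero_of_van {n : ℕ} {b : f0Field A M} (hb : b ∈ d1lLat A R n)
    (h0 : lqVan 1 ((b : FF M) : LaurentSeries Kbar)) : b = 0 := by
  haveI : RRHyp Kbar (FF M) := mod_rrHyp M
  by_contra hne
  have hb0 : (b : FF M) ≠ 0 := fun h => hne (Subtype.ext h)
  have hE0 : ((b : FF M) : LaurentSeries Kbar) ≠ 0 := fun h => hb0 (Subtype.ext h)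
  have hord : (1 : ℤ) ≤ ((b : FF M) : LaurentSeries Kbar).order := (lqVan_iff_le_order hE0).mp h0
  have hall : ∀ v : Place Kbar (FF M), 0 ≤ v.ord (b : FF M) := by
    intro v
    by_cases hv : v = infPlaceBar M
    · subst hv
      rw [infPlaceBar_ord]
      omega
    · rw [← ffMem_iff_ord_nonneg]
      exact (mem_offRegular_iff M _ _).mp hb.2.1 v hv
  obtain ⟨c, hc⟩ := RRBase.const_of_forall_ord_nonneg (K := Kbar) (b : FF M) hall
  have h1 : ((b : FF M) : LaurentSeries Kbar).coeff 0 = c := by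
    rw [← hc]
    have h := d1l_coeff_const_mul (M := M) c 1 0
    rw [mul_one] at h
    rw [h]
    have : ((1 : FF M) : LaurentSeries Kbar).coeff 0 = 1 := by
      show (1 : LaurentSeries Kbar).coeff 0 = 1
      simp
    rw [this, mul_one]
  have h2 : ((b : FF M) : LaurentSeries Kbar).coeff 0 = 0 := h0 0 (by norm_num)
  rw [h1] at h2
  rw [h2, map_zero] at hc
  exact hb0 hc.symm

set_option maxHeartbeats 1600000 in
/-- the coordinates (coefficients of index `-N, …, 0`) of the expansion of `b ∈ F0(M)` -/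
def d1lCoord (A : ValuationSubring Kbar) (M : ℕ) [NeZero M] (N : ℕ) :
    f0Field A M →ₗ[k0Val A] (Fin (N + 1) → k0Field A) where
  toFun b i := ⟨((b : FF M) : LaurentSeries Kbar).coeff ((i : ℤ) - N),
    (mem_f0Field_iff_coeff A M (b : FF M)).mp b.2 _⟩
  map_add' x y := by
    funext i
    apply Subtype.ext
    show (((x + y : f0Field A M) : FF M) : LaurentSeries Kbar).coeff _ = _
    simp
  map_smul' a x := by
    funext i
    apply Subtype.ext
    show (((a • x : f0Field A M) : FF M) : LaurentSeries Kbar).coeff _ = _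
    rw [d1l_coe_smul, d1l_coeff_const_mul]
    rfl

theorem d1lCoord_apply (N : ℕ) (b : f0Field A M) (i : Fin (N + 1)) :
    ((d1lCoord A M N b i : k0Field A) : Kbar)
      = ((b : FF M) : LaurentSeries Kbar).coeff ((i : ℤ) - N) := rfl

/-- the lattices are finitely generated `A0`-modules -/
theorem d1l_lat_fg (q : ℕ) [Fact q.Prime] (haux : IsAuxLevel q M)
    (hA : A.LiesOverPrime q) (hR : IsSeriesRed R) (N : ℕ) : (d1lLat A R N).FG := by
  haveI : IsDiscreteValuationRing (k0Val A) :=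
    k0Val_isDiscreteValuationRing A q (Fact.out) hA
  refine d1l_fg_of_coord (d1lLat A R N) (d1lCoord A M N)
    (LinearMap.range ((Algebra.linearMap (k0Val A) (k0Field A)).compLeft (Fin (N + 1))))
    (d1l_fg_range_compLeft (N + 1)) ?_ ?_
  · intro b hb
    refine ⟨fun i => ⟨d1lCoord A M N b i, ?_⟩, ?_⟩
    · rw [mem_k0Val_iff, d1lCoord_apply]
      exact (d1l_coeff_mem q haux hA hR hb _).1
    · funext i
      rfl
  · intro b hb h0
    apply d1l_eq_zero_of_van hb
    intro k hk
    by_cases hkN : k < -(N : ℤ)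
    · exact hb.2.2 k hkN
    · have hk0 : 0 ≤ k + N := by omega
      have hkN' : (k + N).toNat < N + 1 := by omega
      have h := congrFun h0 ⟨(k + N).toNat, hkN'⟩
      have h' : ((d1lCoord A M N b ⟨(k + N).toNat, hkN'⟩ : k0Field A) : Kbar) = 0 := by
        rw [h]
        rfl
      rw [d1lCoord_apply] at h'
      have e : (((⟨(k + N).toNat, hkN'⟩ : Fin (N + 1)) : ℕ) : ℤ) - N = k := by
        simp only
        rw [Int.toNat_of_nonneg hk0]
        ring
      rwa [e] at h'

/-! ### functions with unit leading coefficient -/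

/-- `γ ∈ B'` has pole order exactly `m` at `∞`, with leading coefficient a unit of `A` -/
def D1lGood (A : ValuationSubring Kbar)
    (R : ConstRed A (IsLocalRing.residue A) (Fk (IsLocalRing.ResidueField A) M) (FF M))
    (m : ℕ) (γ : f0Field A M) : Prop :=
  γ ∈ d1lLat A R m ∧ ∃ u : Kbar, u ∈ A ∧
    u * ((γ : FF M) : LaurentSeries Kbar).coeff (-(m : ℤ)) = 1

theorem D1lGood.mul {m m' : ℕ} {γ γ' : f0Field A M} (h : D1lGood A R m γ)
    (h' : D1lGood A R m' γ') : D1lGood A R (m + m') (γ * γ') := by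
  obtain ⟨⟨h1, h2, h3⟩, u, hu, hu1⟩ := h
  obtain ⟨⟨h1', h2', h3'⟩, u', hu', hu1'⟩ := h'
  have e : (-((m + m' : ℕ) : ℤ)) = -(m : ℤ) + -(m' : ℤ) := by push_cast; ring
  refine ⟨⟨?_, ?_, ?_⟩, u * u', A.mul_mem _ _ hu hu', ?_⟩
  · exact R.O.mul_mem _ _ h1 h1'
  · exact (offRegular M _).mul_mem h2 h2'
  · rw [e]
    exact lqVan_mul h3 h3'
  · rw [e]
    have := lqVan_coeff_mul h3 h3'
    have e2 : (((γ * γ' : f0Field A M) : FF M) : LaurentSeries Kbar)
        = ((γ : FF M) : LaurentSeries Kbar) * ((γ' : FF M) : LaurentSeries Kbar) := rfl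
    rw [e2, this]
    calc u * u' * (((γ : FF M) : LaurentSeries Kbar).coeff (-(m : ℤ)) *
          ((γ' : FF M) : LaurentSeries Kbar).coeff (-(m' : ℤ)))
        = (u * ((γ : FF M) : LaurentSeries Kbar).coeff (-(m : ℤ))) *
          (u' * ((γ' : FF M) : LaurentSeries Kbar).coeff (-(m' : ℤ))) := by ring
      _ = 1 := by rw [hu1, hu1', mul_one]

theorem d1lGood_one : D1lGood A R 0 (1 : f0Field A M) := by
  refine ⟨⟨R.O.one_mem, (offRegular M _).one_mem, ?_⟩, 1, A.one_mem, ?_⟩
  · intro k hk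
    show (1 : LaurentSeries Kbar).coeff k = 0
    have hk' : k ≠ 0 := by
      intro h
      rw [h] at hk
      simp at hk
    exact HahnSeries.coeff_single_of_ne hk'
  · show 1 * (1 : LaurentSeries Kbar).coeff (-((0 : ℕ) : ℤ)) = 1
    simp

theorem D1lGood.pow {m : ℕ} {γ : f0Field A M} (h : D1lGood A R m γ) (a : ℕ) :
    D1lGood A R (a * m) (γ ^ a) := by
  induction a with
  | zero =>
    rw [Nat.zero_mul, pow_zero]
    exact d1lGood_one
  | succ a ih =>
    rw [Nat.succ_mul, pow_succ]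
    exact ih.mul h

/-- **the reduction step**: subtract an `A0`-multiple of a good function of pole order `n` -/
theorem D1lGood.step (q : ℕ) [Fact q.Prime] (haux : IsAuxLevel q M)
    (hA : A.LiesOverPrime q) (hR : IsSeriesRed R) {n : ℕ} (hn : 0 < n) {γ : f0Field A M}
    (h : D1lGood A R n γ) {b : f0Field A M} (hb : b ∈ d1lLat A R n) :
    ∃ c : k0Val A, b - c • γ ∈ d1lLat A R (n - 1) := by
  obtain ⟨hγ, u, hu, hu1⟩ := h
  set cb : Kbar := ((b : FF M) : LaurentSeries Kbar).coeff (-(n : ℤ)) with hcb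
  set cγ : Kbar := ((γ : FF M) : LaurentSeries Kbar).coeff (-(n : ℤ)) with hcγ
  have hcbA := d1l_coeff_mem q haux hA hR hb (-(n : ℤ))
  have hcγA := d1l_coeff_mem q haux hA hR hγ (-(n : ℤ))
  have hcγ0 : cγ ≠ 0 := by
    intro h0
    rw [h0, mul_zero] at hu1
    exact zero_ne_one hu1
  have hu_eq : u = cγ⁻¹ := eq_inv_of_mul_eq_one_left hu1
  have huK : u ∈ k0Field A := by
    rw [hu_eq]
    exact inv_mem hcγA.2
  let c : k0Val A := ⟨⟨cb * u, mul_mem hcbA.2 huK⟩, A.mul_mem _ _ hcbA.1 hu⟩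
  refine ⟨c, ?_⟩
  have hsub : b - c • γ ∈ d1lLat A R n :=
    (d1lLat A R n).sub_mem hb ((d1lLat A R n).smul_mem c hγ)
  refine ⟨hsub.1, hsub.2.1, ?_⟩
  intro k hk
  have hk' : k < -(n : ℤ) ∨ k = -(n : ℤ) := by omega
  rcases hk' with hk' | hk'
  · exact hsub.2.2 k hk'
  · rw [hk']
    have e : (((b - c • γ : f0Field A M) : FF M) : LaurentSeries Kbar)
        = ((b : FF M) : LaurentSeries Kbar) - (((c • γ : f0Field A M) : FF M) :
            LaurentSeries Kbar) := rfl
    rw [e, HahnSeries.coeff_sub, d1l_coe_smul, d1l_coeff_const_mul]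
    show cb - cb * u * cγ = 0
    rw [mul_assoc, hu1, mul_one, sub_self]

/-- the functions `g_m` of `gnA0_exists` are good -/
theorem d1l_exists_good (q : ℕ) [Fact q.Prime] (haux : IsAuxLevel q M)
    (hA : A.LiesOverPrime q) (hR : IsSeriesRed R) (m : ℕ)
    (hm : 2 * genusFF Kbar (FF M) ≤ m) : ∃ γ : f0Field A M, D1lGood A R m γ := by
  classical
  obtain ⟨g, y, hfix, hgy, hgL, hunit, hvan⟩ := gnA0_exists (R := R) q haux hA hR m hm
  have hgF : g ∈ f0Field A M := (mem_f0Field_iff_isIFixed A M g).mpr hfix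
  have hmem : coeffMap A.subtype y ∈ modularFunctionFieldBar M := by
    rw [← hgy]
    exact g.2
  have hgeq : g = ⟨coeffMap A.subtype y, hmem⟩ := Subtype.ext hgy
  refine ⟨⟨g, hgF⟩, ⟨?_, ?_, ?_⟩, ?_⟩
  · show g ∈ R.O
    rw [hgeq]
    exact hR.mem y hmem
  · show g ∈ offRegular M {infPlaceBar M}
    rw [mem_offRegular_iff]
    intro P hP
    rw [mem_riemannRochSpace_iff] at hgL
    rcases hgL P with h0 | h
    · rw [h0]
      exact P.toValuationSubring.zero_mem
    · rw [Finsupp.single_apply, if_neg (fun h => hP (by rw [Set.mem_singleton_iff]; exact h.symm)),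
        neg_zero] at h
      exact (ffMem_iff_ord_nonneg P).mpr h
  · intro k hk
    show (g : LaurentSeries Kbar).coeff k = 0
    rw [hgy, coeffMap_coeff, hvan k hk]
    rfl
  · obtain ⟨v, hv⟩ := hunit.exists_left_inv
    refine ⟨(v : Kbar), v.2, ?_⟩
    show (v : Kbar) * (g : LaurentSeries Kbar).coeff (-(m : ℤ)) = 1
    rw [hgy, coeffMap_coeff]
    have := congrArg (Subtype.val) hv
    exact this

set_option maxHeartbeats 1600000 in
/-- **D1-A, level `M`**: every element of `B'` is integral over `A0[g]`, for every good `g`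
of pole order `n₀ ≥ max (2 g(X), 1)`. -/
theorem d1l_level_isIntegralElem (q : ℕ) [Fact q.Prime] (haux : IsAuxLevel q M)
    (hA : A.LiesOverPrime q) (hR : IsSeriesRed R) (n0 : ℕ) (hn0 : 0 < n0)
    (hgen : 2 * genusFF Kbar (FF M) ≤ n0) (g : f0Field A M) (hg : D1lGood A R n0 g)
    (x : f0Field A M) (hx : x ∈ d1lRing A R) :
    (Polynomial.aeval g :
      Polynomial (k0Val A) →ₐ[k0Val A] f0Field A M).toRingHom.IsIntegralElem x := by
  classical
  have hex : ∀ m : ℕ, ∃ γ : f0Field A M, 2 * genusFF Kbar (FF M) ≤ m → D1lGood A R m γ := by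
    intro m
    by_cases hm : 2 * genusFF Kbar (FF M) ≤ m
    · obtain ⟨γ, hγ⟩ := d1l_exists_good (R := R) q haux hA hR m hm
      exact ⟨γ, fun _ => hγ⟩
    · exact ⟨0, fun h => absurd h hm⟩
  choose γ hγ using hex
  obtain ⟨T0, hT0⟩ := d1l_lat_fg (R := R) q haux hA hR (2 * n0 - 1)
  refine d1l_isIntegralElem g (d1lRing A R) ?_ (d1lLat_le_ring A R n0 g hg.1) (d1lLat A R)
    (d1l_exists_lat A R) (2 * n0 - 1) ((Finset.Ico n0 (2 * n0)).image γ ∪ T0) ?_ ?_ ?_ ?_ x hx
  · intro r
    rw [mem_d1lRing_iff, d1l_coe_algebraMap]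
    exact ⟨const_mem_offRegular M _ _, R.algebraMap_mem (k0ValIncl A r)⟩
  · intro t ht
    rcases Finset.mem_union.1 ht with h | h
    · obtain ⟨m, hm, rfl⟩ := Finset.mem_image.1 h
      have hm' := Finset.mem_Ico.1 hm
      exact d1lLat_le_ring A R m _ (hγ m (by omega)).1
    · apply d1lLat_le_ring A R (2 * n0 - 1)
      rw [← hT0]
      exact Submodule.subset_span h
  · intro b hb
    rw [← hT0] at hb
    refine Submodule.span_mono ?_ hb
    intro t ht
    exact Finset.mem_coe.2 (Finset.mem_union_right _ (Finset.mem_coe.1 ht))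
  · intro n hn b hb
    have hn2 : 2 * n0 ≤ n := by omega
    have hdiv : 2 ≤ n / n0 := (Nat.le_div_iff_mul_le hn0).2 (by omega)
    have hdm := Nat.div_add_mod n n0
    have hmod := Nat.mod_lt n hn0
    set a := n / n0 - 1 with ha
    set m := n0 + n % n0 with hm
    have hnm : a * n0 + m = n := by
      have e : n / n0 = a + 1 := by omega
      rw [e] at hdm
      rw [hm]
      nlinarith
    have hgood : D1lGood A R n (g ^ a * γ m) := by
      have h := (hg.pow a).mul (hγ m (by omega))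
      rwa [hnm] at h
    obtain ⟨c, hc⟩ := hgood.step q haux hA hR (by omega) hb
    refine ⟨c, a, γ m, ?_, hc⟩
    exact Finset.mem_coe.2 (Finset.mem_union_left _
      (Finset.mem_image.2 ⟨m, Finset.mem_Ico.2 ⟨by omega, by omega⟩, rfl⟩))
  · intro n hn
    exact d1lLat_mono A R hn

/-- good functions exist -/
theorem d1l_exists_g (q : ℕ) [Fact q.Prime] (haux : IsAuxLevel q M)
    (hA : A.LiesOverPrime q) (hR : IsSeriesRed R) :
    ∃ (n0 : ℕ) (g : f0Field A M), 0 < n0 ∧ 2 * genusFF Kbar (FF M) ≤ n0 ∧ D1lGood A R n0 g := by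
  obtain ⟨g, hg⟩ := d1l_exists_good (R := R) q haux hA hR (2 * genusFF Kbar (FF M) + 1)
    (by omega)
  exact ⟨_, g, by omega, by omega, hg⟩

end Fermat.Agent.S36lib
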