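/-
Item 83 (S36), block V, piece V-H DEGREES (helper14).

* generic: `vdeg_li_simple_iff`, `vdeg_li_adjoin_of_li_pow`, `vdeg_li_pow_of_li_adjoin`
  (independence over `K(x)`, over `K[x]` and of the `x^k y_i` over `K`),
  `vdeg_finrank_adjoin_pow` : `[E : K(x^n)] = n [E : K(x)]` for `x` transcendental;
* `vdeg_isIFixed_of_mem` : the elements of `F0(L) = f0Field A L` are fixed by inertia;
* `vdeg_linearIndependent` : LINEAR DISJOINTNESS of `F0(L)` and `ℚ̄(j)` over `K0(j)`;
* `vdeg_span_top` : a `K0(j)`-spanning family of `F0(L)` spans `FF L` over `ℚ̄(j)`;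
* `vdeg_finite`, `vdeg_finrank`, `vdeg_isSeparable` : `F0(L)` is finite separable over
  `K0(j)` of degree `ψ(L)` (`vdeg_finrank_le`, `vdeg_finrank_ge`);
* `vdeg_finrank_kappa` : `[κ' : k(j̄^(q^i))] = q^i ψ(M')` for the residue function field
  `κ' = Fk k M'`, `q ∤ M'`.
-/
import Mathlib
import Fermat.Agent.S36lib.SetupK0
import Fermat.Agent.S36lib.FixedFF
import Fermat.Agent.S36lib.FixedF0
import Fermat.Agent.S34lib.InertiaRedAL
import Fermat.Agent.HeckeBar.ModDeg
import Fermat.Agent.GoodRed.HredMain
import Fermat.Agent.GoodRed.ModAlg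

set_option autoImplicit false
set_option linter.style.haveILetI false
set_option linter.unusedSectionVars false

open IntermediateField Polynomial ModularCurve AlgebraicCurve
open Fermat.Agent.HeckeBar Fermat.Agent.S24lib Fermat.Agent.S34lib

noncomputable section

namespace Fermat.Agent.S36lib

section Generic

variable {K E : Type*} [Field K] [Field E] [Algebra K E]

open scoped IntermediateField.algebraAdjoinAdjoin in
/-- independence over `K(x)` is independence over `K[x]` -/
theorem vdeg_li_simple_iff (x : E) {ι : Type*} (y : ι → E) :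
    LinearIndependent K⟮x⟯ y ↔ LinearIndependent (Algebra.adjoin K {x}) y :=
  (LinearIndependent.iff_fractionRing (Algebra.adjoin K {x}) K⟮x⟯).symm

/-- if the `x^k y_i` are independent over `K` then the `y_i` are independent over `K[x]` -/
theorem vdeg_li_adjoin_of_li_pow (x : E) {ι : Type*} (y : ι → E)
    (h : LinearIndependent K (fun p : ℕ × ι => x ^ p.1 * y p.2)) :
    LinearIndependent (Algebra.adjoin K {x}) y := by
  classical
  rw [linearIndependent_iff']
  intro s g hg i hi
  have hmem : ∀ j, ∃ P : K[X], aeval x P = ((g j : Algebra.adjoin K {x}) : E) := by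
    intro j
    have h1 : ((g j : Algebra.adjoin K {x}) : E) ∈ (aeval (R := K) x).range := by
      rw [← Algebra.adjoin_singleton_eq_range_aeval]
      exact (g j).2
    exact h1
  choose P hP using hmem
  obtain ⟨D, hD⟩ : ∃ D : ℕ, ∀ j ∈ s, (P j).natDegree < D := by
    refine ⟨s.sup (fun j => (P j).natDegree) + 1, fun j hj => ?_⟩
    exact Nat.lt_succ_of_le (Finset.le_sup (f := fun j => (P j).natDegree) hj)
  have hsum : ∑ p ∈ Finset.range D ×ˢ s, (P p.2).coeff p.1 • (x ^ p.1 * y p.2) = 0 := by
    rw [Finset.sum_product_right]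
    rw [← hg]
    refine Finset.sum_congr rfl fun j hj => ?_
    have h1 : g j • y j = aeval x (P j) * y j := by
      rw [hP j]
      rfl
    rw [h1, aeval_eq_sum_range' (hD j hj), Finset.sum_mul]
    refine Finset.sum_congr rfl fun k _ => ?_
    rw [smul_mul_assoc]
  have hzero := linearIndependent_iff'.mp h (Finset.range D ×ˢ s)
    (fun p => (P p.2).coeff p.1) hsum
  have hPi : P i = 0 := by
    ext k
    rw [coeff_zero]
    by_cases hk : k < D
    · exact hzero (k, i) (Finset.mem_product.mpr ⟨Finset.mem_range.mpr hk, hi⟩)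
    · exact coeff_eq_zero_of_natDegree_lt (lt_of_lt_of_le (hD i hi) (not_lt.mp hk))
  apply Subtype.ext
  rw [← hP i, hPi, map_zero]
  rfl

/-- the powers of a transcendental element are linearly independent -/
theorem vdeg_li_pow (x : E) (hx : Transcendental K x) :
    LinearIndependent K (fun k : ℕ => x ^ k) := by
  classical
  rw [linearIndependent_iff']
  intro s g hg i hi
  have hinj : Function.Injective (aeval (R := K) x) := transcendental_iff_injective.mp hx
  have h1 : aeval x (∑ k ∈ s, monomial k (g k)) = 0 := by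
    rw [map_sum, ← hg]
    refine Finset.sum_congr rfl fun k _ => ?_
    rw [aeval_monomial, Algebra.smul_def]
  have h2 : (∑ k ∈ s, monomial k (g k)) = 0 := hinj (by rw [h1, map_zero])
  have h3 := congrArg (fun P : K[X] => P.coeff i) h2
  simp only [finsetSum_coeff, coeff_monomial, coeff_zero] at h3
  rw [Finset.sum_ite_eq' s i (fun k => g k), if_pos hi] at h3
  exact h3

/-- if `x` is transcendental and the `y_i` are independent over `K[x]`, then the `x^k y_i` are
independent over `K` -/
theorem vdeg_li_pow_of_li_adjoin (x : E) (hx : Transcendental K x) {ι : Type*} (y : ι → E)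
    (h : LinearIndependent (Algebra.adjoin K {x}) y) :
    LinearIndependent K (fun p : ℕ × ι => x ^ p.1 * y p.2) := by
  let b : ℕ → Algebra.adjoin K {x} := fun k =>
    (⟨x, Algebra.self_mem_adjoin_singleton K x⟩ : Algebra.adjoin K {x}) ^ k
  have hb : LinearIndependent K b := by
    have h1 : LinearIndependent K (fun k : ℕ => x ^ k) := vdeg_li_pow x hx
    have h2 : (fun k : ℕ => x ^ k) = (Algebra.adjoin K {x}).val.toLinearMap ∘ b := by
      funext k
      simp [b]
    rw [h2] at h1
    exact LinearIndependent.of_comp _ h1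
  exact linearIndependent_smul hb h

/-- **degree over `K(x^n)`**: `[E : K(x^n)] = n [E : K(x)]` for `x` transcendental. -/
theorem vdeg_finrank_adjoin_pow (x : E) (hx : Transcendental K x) (n : ℕ) :
    Module.finrank K⟮x ^ n⟯ E = n * Module.finrank K⟮x⟯ E := by
  have hinj : Function.Injective (aeval (R := K) x) := transcendental_iff_injective.mp hx
  let φ : RatFunc K →ₐ[K] E := RatFunc.liftAlgHom (aeval (R := K) x) (by
    intro p hp
    rw [Submonoid.mem_comap, mem_nonZeroDivisors_iff_ne_zero]
    intro h0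
    have : p = 0 := hinj (by rw [h0, map_zero])
    exact (mem_nonZeroDivisors_iff_ne_zero.mp hp) this)
  have hφX : φ RatFunc.X = x := by
    have h1 : (RatFunc.X : RatFunc K) = algebraMap K[X] (RatFunc K) Polynomial.X := by
      rw [RatFunc.algebraMap_X]
    rw [h1]
    show RatFunc.liftAlgHom _ _ (algebraMap K[X] (RatFunc K) Polynomial.X) = x
    rw [RatFunc.liftAlgHom_apply]
    simp
  have h1 := finrank_adjoin_mul_finrankAlong φ (RatFunc.X : RatFunc K)
  have h2 := finrank_adjoin_mul_finrankAlong φ ((RatFunc.X : RatFunc K) ^ n)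
  rw [hφX] at h1
  rw [map_pow, hφX] at h2
  have e1 : Module.finrank K⟮(RatFunc.X : RatFunc K)⟯ (RatFunc K) = 1 := by
    rw [RatFunc.finrank_eq_max_natDegree, RatFunc.num_X, RatFunc.denom_X]
    simp
  have e2 : Module.finrank K⟮(RatFunc.X : RatFunc K) ^ n⟯ (RatFunc K) = n := by
    have h3 : ((RatFunc.X : RatFunc K) ^ n) = algebraMap K[X] (RatFunc K) (Polynomial.X ^ n) := by
      rw [map_pow, RatFunc.algebraMap_X]
    rw [RatFunc.finrank_eq_max_natDegree, h3, RatFunc.num_algebraMap, RatFunc.denom_algebraMap]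
    simp
  rw [e1, one_mul] at h1
  rw [e2, h1] at h2
  exact h2.symm

end Generic

section Concrete

variable (A : ValuationSubring Kbar) (L : ℕ) [NeZero L]

/-- `j ∈ F0(L)` -/
theorem vdeg_jF_mem : jF L ∈ f0Field A L := by
  have h1 : jF L = jdF L 1 (one_dvd L) := by
    apply Subtype.ext
    rw [coe_jF, coe_jdF, qExpand_one_apply]
  rw [h1]
  exact jdF_mem_f0Field A L 1 (one_dvd L)

/-- `j` as an element of `F0(L)` -/
noncomputable def vdegJ : f0Field A L := ⟨jF L, vdeg_jF_mem A L⟩

@[simp] theorem coe_vdegJ : ((vdegJ A L : f0Field A L) : FF L) = jF L := rfl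

/-- the elements of `F0(L)` are fixed by the inertia group -/
theorem vdeg_isIFixed_of_mem {x : FF L} (hx : x ∈ f0Field A L) : IsIFixed L A x := by
  have key : x ∈ fixedLBC (A.inertiaSubgroupIn ℚ : Set (Kbar ≃ₐ[ℚ] Kbar))
      (modularFunctionFieldFull L) := by
    unfold f0Field at hx
    induction hx using IntermediateField.adjoin_induction with
    | mem x hx =>
      obtain ⟨d, hd, hne, rfl⟩ := hx
      intro σ _
      exact inred_smul_jdF L σ d hd
    | algebraMap c =>
      exact (algebraMap_mem_fixedLBC_iff (modularFunctionFieldFull L)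
        (fun c => mem_k0Field_iff A c) (c : Kbar)).mpr c.2
    | add x y _ _ hx hy => exact add_mem hx hy
    | inv x _ hx => exact inv_mem hx
    | mul x y _ _ hx hy => exact mul_mem hx hy
  exact fun σ hσ => key σ hσ

theorem vdeg_transcendental : Transcendental (k0Field A) (vdegJ A L) := by
  have h1 : Transcendental (k0Field A) (jF L) :=
    (transcendental_jF L).restrictScalars (algebraMap (k0Field A) Kbar).injective
  exact (transcendental_algebraMap_iff (algebraMap (f0Field A L) (FF L)).injective).mp h1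

/-- **linear disjointness**: a family of `F0(L)` which is linearly independent over `K0(j)` is
linearly independent over `ℚ̄(j)`. -/
theorem vdeg_linearIndependent {ι : Type*} (y : ι → f0Field A L)
    (hy : LinearIndependent (k0Field A)⟮vdegJ A L⟯ y) :
    LinearIndependent Kbar⟮jF L⟯ (fun i => ((y i : f0Field A L) : FF L)) := by
  have h1 := (vdeg_li_simple_iff (vdegJ A L) y).mp hy
  have h2 := vdeg_li_pow_of_li_adjoin (vdegJ A L) (vdeg_transcendental A L) y h1
  have h3 : LinearIndependent (k0Field A)
      (fun p : ℕ × ι => (jF L) ^ p.1 * ((y p.2 : f0Field A L) : FF L)) := by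
    have := h2.map' (f0Field A L).val.toLinearMap
      (LinearMap.ker_eq_bot.mpr (f0Field A L).val.injective)
    exact this
  have h4 : LinearIndependent Kbar
      (fun p : ℕ × ι => (jF L) ^ p.1 * ((y p.2 : f0Field A L) : FF L)) := by
    refine linearIndependent_of_fixed (modularFunctionFieldFull L)
      (fun c => mem_k0Field_iff A c) _ ?_ h3
    intro p σ hσ
    have hj := vdeg_isIFixed_of_mem A L (vdeg_jF_mem A L) σ hσ
    have hy' := vdeg_isIFixed_of_mem A L (y p.2).2 σ hσ
    show galFF L σ • ((jF L) ^ p.1 * ((y p.2 : f0Field A L) : FF L)) = _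
    rw [smul_mul', smul_pow', hj, hy']
  exact (vdeg_li_simple_iff (jF L) _).mpr (vdeg_li_adjoin_of_li_pow (jF L) _ h4)

/-- **V-H (1)**: `F0(L)` is finite over `K0(j)` of degree at most `ψ(L)`. -/
theorem vdeg_rank_le :
    Module.rank (k0Field A)⟮vdegJ A L⟯ (f0Field A L) ≤ (dedekindPsi L : Cardinal) := by
  haveI : FFData Kbar (jF L) := fin_ffData L
  haveI : Module.Finite Kbar⟮jF L⟯ (FF L) := (fin_ffData L).fin
  apply rank_le
  intro s hs
  have h1 := vdeg_linearIndependent A L (fun i : s => (i : f0Field A L)) hs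
  have h2 := h1.fintype_card_le_finrank
  rw [fin_finrank, Fintype.card_coe] at h2
  exact h2

theorem vdeg_finite : Module.Finite (k0Field A)⟮vdegJ A L⟯ (f0Field A L) := by
  haveI : Module.Free (k0Field A)⟮vdegJ A L⟯ (f0Field A L) := Module.Free.of_divisionRing _ _
  exact Module.rank_lt_aleph0_iff.mp
    (lt_of_le_of_lt (vdeg_rank_le A L) (Cardinal.natCast_lt_aleph0))

theorem vdeg_finrank_le :
    Module.finrank (k0Field A)⟮vdegJ A L⟯ (f0Field A L) ≤ dedekindPsi L :=
  Module.finrank_le_of_rank_le (vdeg_rank_le A L)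

/-- the image of `K0(j) ⊆ F0(L)` in `FF L` lies in `ℚ̄(j)` -/
theorem vdeg_coe_mem' (c : f0Field A L) (hc : c ∈ (k0Field A)⟮vdegJ A L⟯) :
    (c : FF L) ∈ Kbar⟮jF L⟯ := by
  induction hc using IntermediateField.adjoin_induction with
  | mem x hx =>
    rw [Set.mem_singleton_iff] at hx
    rw [hx]
    exact IntermediateField.mem_adjoin_simple_self Kbar (jF L)
  | algebraMap a => exact Kbar⟮jF L⟯.algebraMap_mem (a : Kbar)
  | add x y _ _ hx hy => exact add_mem hx hy
  | inv x _ hx => exact inv_mem hx
  | mul x y _ _ hx hy => exact mul_mem hx hy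

theorem vdeg_coe_mem (c : (k0Field A)⟮vdegJ A L⟯) :
    (((c : f0Field A L)) : FF L) ∈ Kbar⟮jF L⟯ :=
  vdeg_coe_mem' A L c c.2

/-- a `K0(j)`-spanning family of `F0(L)` spans `FF L` over `ℚ̄(j)` -/
theorem vdeg_span_top {ι : Type*} (y : ι → f0Field A L)
    (hy : Submodule.span (k0Field A)⟮vdegJ A L⟯ (Set.range y) = ⊤) :
    Submodule.span Kbar⟮jF L⟯ (Set.range fun i => ((y i : f0Field A L) : FF L)) = ⊤ := by
  set T : Submodule Kbar⟮jF L⟯ (FF L) :=
    Submodule.span Kbar⟮jF L⟯ (Set.range fun i => ((y i : f0Field A L) : FF L)) with hT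
  have hF0 : ∀ z : f0Field A L, (z : FF L) ∈ T := by
    intro z
    have hz : z ∈ Submodule.span (k0Field A)⟮vdegJ A L⟯ (Set.range y) := by
      rw [hy]; exact Submodule.mem_top
    induction hz using Submodule.span_induction with
    | mem x hx =>
      obtain ⟨i, rfl⟩ := hx
      exact Submodule.subset_span ⟨i, rfl⟩
    | zero => exact T.zero_mem
    | add x y _ _ hx hy => exact T.add_mem hx hy
    | smul c x _ hx =>
      have h3 : ((c • x : f0Field A L) : FF L)
          = (⟨((c : f0Field A L) : FF L), vdeg_coe_mem A L c⟩ : Kbar⟮jF L⟯) • (x : FF L) := by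
        rw [IntermediateField.smul_def, smul_eq_mul, IntermediateField.smul_def, smul_eq_mul]
        rfl
      rw [h3]
      exact T.smul_mem _ hx
  have key : ∀ x : FF L, x ∈ Submodule.span Kbar ((f0Field A L : Set (FF L))) → x ∈ T := by
    intro x hx
    induction hx using Submodule.span_induction with
    | mem x hx => exact hF0 ⟨x, hx⟩
    | zero => exact T.zero_mem
    | add x y _ _ hx hy => exact T.add_mem hx hy
    | smul c x _ hx =>
      have h3 : c • x
          = (⟨algebraMap Kbar (FF L) c, Kbar⟮jF L⟯.algebraMap_mem c⟩ : Kbar⟮jF L⟯) • x := by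
        rw [Algebra.smul_def, IntermediateField.smul_def, smul_eq_mul]
      rw [h3]
      exact T.smul_mem _ hx
  rw [eq_top_iff]
  intro x _
  refine key x ?_
  rw [f0_span A L]; exact Submodule.mem_top

/-- **V-H (1), lower bound** -/
theorem vdeg_finrank_ge :
    dedekindPsi L ≤ Module.finrank (k0Field A)⟮vdegJ A L⟯ (f0Field A L) := by
  classical
  haveI := vdeg_finite A L
  haveI : Module.Free (k0Field A)⟮vdegJ A L⟯ (f0Field A L) := Module.Free.of_divisionRing _ _
  let b := Module.finBasis (k0Field A)⟮vdegJ A L⟯ (f0Field A L)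
  have hT := vdeg_span_top A L b b.span_eq
  haveI : FFData Kbar (jF L) := fin_ffData L
  haveI : Module.Finite Kbar⟮jF L⟯ (FF L) := (fin_ffData L).fin
  have h4 : Module.finrank Kbar⟮jF L⟯ (FF L) ≤ Fintype.card
      (Fin (Module.finrank (k0Field A)⟮vdegJ A L⟯ (f0Field A L))) := by
    rw [← finrank_top Kbar⟮jF L⟯ (FF L), ← hT]
    exact finrank_range_le_card _
  rw [fin_finrank, Fintype.card_fin] at h4
  exact h4

/-- **V-H (1)**: `[F0(L) : K0(j)] = ψ(L)`. -/
theorem vdeg_finrank :
    Module.finrank (k0Field A)⟮vdegJ A L⟯ (f0Field A L) = dedekindPsi L :=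
  le_antisymm (vdeg_finrank_le A L) (vdeg_finrank_ge A L)

end Concrete

section Sep

set_option synthInstance.maxHeartbeats 400000

variable (A : ValuationSubring Kbar) (L : ℕ) [NeZero L]

/-- `F0(L) / K0(j)` is separable (characteristic `0`) -/
theorem vdeg_isSeparable : Algebra.IsSeparable (k0Field A)⟮vdegJ A L⟯ (f0Field A L) := by
  haveI := vdeg_finite A L
  haveI : CharZero (k0Field A)⟮vdegJ A L⟯ :=
    charZero_of_injective_algebraMap (algebraMap ℚ (k0Field A)⟮vdegJ A L⟯).injective
  haveI : Algebra.IsAlgebraic (k0Field A)⟮vdegJ A L⟯ (f0Field A L) :=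
    Algebra.IsAlgebraic.of_finite _ _
  exact Algebra.IsAlgebraic.isSeparable_of_perfectField

end Sep


section Residue

set_option synthInstance.maxHeartbeats 400000

open Fermat.Agent.GM Fermat.Agent.GoodRed Fermat.Agent.FFlib

variable (M' : ℕ) [NeZero M'] {q : ℕ} [Fact q.Prime] (hqM : ¬ q ∣ M')
  (A : ValuationSubring Kbar) (hA : A.LiesOverPrime q)

include hqM hA in
/-- **V-H (2)**: `[κ' : k(j̄^(q^i))] = q^i ψ(M')`. -/
theorem vdeg_finrank_kappa (i : ℕ) :
    Module.finrank
      (IsLocalRing.ResidueField A)⟮(jk (IsLocalRing.ResidueField A) M') ^ (q ^ i)⟯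
      (Fk (IsLocalRing.ResidueField A) M') = q ^ i * dedekindPsi M' := by
  have htr : Transcendental (IsLocalRing.ResidueField A) (jk (IsLocalRing.ResidueField A) M') :=
    mr_transcendental_jbarC (IsLocalRing.ResidueField A) M'
  rw [vdeg_finrank_adjoin_pow _ htr (q ^ i),
    ← fsFinrank_of_adjoin_eq (fsAdjoin_inv (K := IsLocalRing.ResidueField A)
      (jk (IsLocalRing.ResidueField A) M')),
    finrank_Fk_modL M' hqM A hA]

end Residue

end Fermat.Agent.S36lib

end
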