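import Mathlib
import Fermat.Agent.S36lib.Speed

/-!
# S36 (Carayol at `q² ∥ M`), piece V-I [vnoeth_]: the affine ring `B` is Noetherian, `Frac B = F`
(NOTES/S36_V_blueprint_helper24.md).  Mathlib only, ABSTRACT.

* `vnoeth_isIntegral_inf` : `R₁, R₂ ⊆ K` integrally closed with fraction field `K`, `x` integral
  over `R₁` and over `R₂`  ⇒  `x` integral over `R₁ ⊓ R₂` (the minimal polynomial over `K` has its
  coefficients in both).
* `vnoeth_gauss` : Gauss lemma: `A₀` a valuation ring of `K₀`, `O` a valuation ring of `F ⊇ K₀`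
  over `A₀` in which the primitive polynomials in `j` are units; then a polynomial `P(j)`,
  `P ∈ K₀[X]`, lies in `O` only if `P ∈ A₀[X]`.
* `vnoeth_noeth`, `vnoeth_frac` : a subring `B` of `F` which is the set of elements integral over
  the image of a Noetherian integrally closed domain `R` (`F` finite separable over `Frac R`) is
  Noetherian with fraction field `F`.
-/

set_option autoImplicit false
set_option linter.style.haveILetI false

namespace Fermat.Agent.S36lib

open Polynomial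

/-! ### integral over `R₁` and over `R₂` ⇒ integral over `R₁ ⊓ R₂` -/

/-- if `x` is integral over two integrally closed domains `R₁`, `R₂` with fraction field `K`,
then the minimal polynomial of `x` over `K` has coefficients in the images of both. -/
theorem vnoeth_minpoly_coeff_mem {K F R₁ R₂ : Type*} [Field K] [Field F] [Algebra K F]
    [CommRing R₁] [IsDomain R₁] [Algebra R₁ K] [IsFractionRing R₁ K] [IsIntegrallyClosed R₁]
    [Algebra R₁ F] [IsScalarTower R₁ K F]
    [CommRing R₂] [IsDomain R₂] [Algebra R₂ K] [IsFractionRing R₂ K] [IsIntegrallyClosed R₂]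
    [Algebra R₂ F] [IsScalarTower R₂ K F] (x : F)
    (h₁ : IsIntegral R₁ x) (h₂ : IsIntegral R₂ x) (n : ℕ) :
    (minpoly K x).coeff n ∈ (algebraMap R₁ K).range ∧
      (minpoly K x).coeff n ∈ (algebraMap R₂ K).range := by
  have e₁ := minpoly.isIntegrallyClosed_eq_field_fractions' K h₁
  have e₂ := minpoly.isIntegrallyClosed_eq_field_fractions' K h₂
  constructor
  · rw [e₁, coeff_map]
    exact ⟨_, rfl⟩
  · rw [e₂, coeff_map]
    exact ⟨_, rfl⟩

/-! ### the Gauss lemma -/

/-- in a valuation ring, a nonzero polynomial has a coefficient dividing all the others. -/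
theorem vnoeth_exists_min_coeff {K₀ : Type*} [Field K₀] (A₀ : ValuationSubring K₀)
    (P : K₀[X]) (hP : P ≠ 0) :
    ∃ n₀, P.coeff n₀ ≠ 0 ∧ ∀ n, P.coeff n / P.coeff n₀ ∈ A₀ := by
  have hne : P.support.Nonempty := by
    rw [Finset.nonempty_iff_ne_empty, Ne, Polynomial.support_eq_empty]
    exact hP
  obtain ⟨n₀, hn₀, hmax⟩ := Finset.exists_max_image P.support
    (fun n => A₀.valuation (P.coeff n)) hne
  have h0 : P.coeff n₀ ≠ 0 := Polynomial.mem_support_iff.1 hn₀
  refine ⟨n₀, h0, fun n => ?_⟩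
  by_cases hn : P.coeff n = 0
  · rw [hn, zero_div]
    exact A₀.zero_mem
  · rw [← ValuationSubring.valuation_le_one_iff, map_div₀]
    have hv0 : A₀.valuation (P.coeff n₀) ≠ 0 := (Valuation.ne_zero_iff _).2 h0
    rw [div_le_one₀ (zero_lt_iff.2 hv0)]
    exact hmax n (Polynomial.mem_support_iff.2 hn)

/-- **Gauss lemma**: `A₀` a valuation ring of `K₀`, `O` a valuation ring of `F` with
`O ∩ K₀ ⊆ A₀`, `j ∈ F` such that every polynomial in `j` with coefficients in `A₀` and one
coefficient equal to `1` is a unit of `O`.  If `P(j) ∈ O` for `P ∈ K₀[X]`, then `P ∈ A₀[X]`. -/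
theorem vnoeth_gauss {K₀ F : Type*} [Field K₀] [Field F] [Algebra K₀ F]
    (A₀ : ValuationSubring K₀) (O : ValuationSubring F)
    (hdom : ∀ c : K₀, algebraMap K₀ F c ∈ O → c ∈ A₀) (j : F)
    (hunit : ∀ p : K₀[X], (∀ n, p.coeff n ∈ A₀) → (∃ n, p.coeff n = 1) →
      ∃ u ∈ O, aeval j p * u = 1)
    (P : K₀[X]) (hP : aeval j P ∈ O) (n : ℕ) : P.coeff n ∈ A₀ := by
  by_cases hP0 : P = 0
  · rw [hP0, coeff_zero]
    exact A₀.zero_mem
  obtain ⟨n₀, h0, hdiv⟩ := vnoeth_exists_min_coeff A₀ P hP0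
  set c := P.coeff n₀ with hc
  set P₁ : K₀[X] := C c⁻¹ * P with hP₁
  have hcoeff : ∀ n, P₁.coeff n = P.coeff n / c := fun n => by
    rw [hP₁, coeff_C_mul, div_eq_inv_mul]
  obtain ⟨u, huO, hu⟩ :=
    hunit P₁ (fun n => by rw [hcoeff]; exact hdiv n) ⟨n₀, by rw [hcoeff, ← hc, div_self h0]⟩
  have hPeq : aeval j P = algebraMap K₀ F c * aeval j P₁ := by
    rw [hP₁, map_mul, aeval_C, ← mul_assoc, ← map_mul, mul_inv_cancel₀ h0, map_one, one_mul]
  have hcO : algebraMap K₀ F c ∈ O := by
    have : algebraMap K₀ F c = aeval j P * u := by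
      rw [hPeq, mul_assoc, hu, mul_one]
    rw [this]
    exact O.mul_mem _ _ hP huO
  have hcA : c ∈ A₀ := hdom c hcO
  have : P.coeff n = c * (P.coeff n / c) := by field_simp
  rw [this]
  exact A₀.mul_mem _ _ hcA (hdiv n)

/-! ### Noetherianity and fraction field of a ring of integral elements -/

section Noeth

variable {R K F : Type*} [CommRing R] [IsDomain R] [IsNoetherianRing R] [IsIntegrallyClosed R]
  [Field K] [Field F] [Algebra R K] [IsFractionRing R K] [Algebra K F] [Algebra R F]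
  [IsScalarTower R K F] [FiniteDimensional K F] [Algebra.IsSeparable K F]

variable (K)
include K

/-- a subring `B ⊇ R` of `F` all of whose elements are integral over the Noetherian integrally
closed domain `R` (`F` finite separable over `Frac R`) is a finite `R`-module. -/
theorem vnoeth_isNoetherian_module (B : Subalgebra R F) (hint : ∀ x ∈ B, IsIntegral R x) :
    IsNoetherian R B := by
  have hC : IsNoetherian R (integralClosure R F) :=
    IsIntegralClosure.isNoetherian R K F (integralClosure R F)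
  have hle : B ≤ integralClosure R F := fun x hx => hint x hx
  exact isNoetherian_of_injective (Subalgebra.inclusion hle).toLinearMap
    (Subalgebra.inclusion_injective hle)

/-- the same: `B` is a Noetherian ring. -/
theorem vnoeth_noeth (B : Subring F) (hRB : ∀ r : R, algebraMap R F r ∈ B)
    (hint : ∀ x ∈ B, IsIntegral R x) : IsNoetherianRing B := by
  set B' : Subalgebra R F :=
    { B.toSubsemiring with
      algebraMap_mem' := hRB } with hB'
  have hmod : IsNoetherian R B' := vnoeth_isNoetherian_module K B' (fun x hx => hint x hx)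
  have hring : IsNoetherianRing B' := isNoetherianRing_iff.mpr (isNoetherian_of_tower R hmod)
  let e : B' ≃+* B :=
    { toFun := fun x => ⟨x.1, x.2⟩
      invFun := fun x => ⟨x.1, x.2⟩
      left_inv := fun _ => rfl
      right_inv := fun _ => rfl
      map_mul' := fun _ _ => rfl
      map_add' := fun _ _ => rfl }
  exact isNoetherianRing_of_ringEquiv B' e

omit [IsNoetherianRing R] [IsIntegrallyClosed R] [Algebra.IsSeparable K F] in
/-- if moreover `B` contains all elements integral over `R`, then `F = Frac B`. -/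
theorem vnoeth_frac (B : Subring F) (hcl : ∀ x : F, IsIntegral R x → x ∈ B) (z : F) :
    ∃ a b : B, b ≠ 0 ∧ z * (b : F) = (a : F) := by
  have hfr : IsFractionRing (integralClosure R F) F :=
    integralClosure.isFractionRing_of_finite_extension K F
  obtain ⟨⟨c, d⟩, hcd⟩ := IsLocalization.surj (nonZeroDivisors (integralClosure R F)) z
  have hd0 : (d : integralClosure R F) ≠ 0 := nonZeroDivisors.ne_zero d.2
  refine ⟨⟨(c : F), hcl _ c.2⟩, ⟨((d : integralClosure R F) : F), hcl _ (d : integralClosure R F).2⟩,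
    ?_, hcd⟩
  intro h
  apply hd0
  have h' : (((d : integralClosure R F) : F)) = 0 := congrArg Subtype.val h
  exact Subtype.ext h'

end Noeth

/-! ### integral over `K₀[j]` and over the Gauss valuation ring ⇒ integral over `A₀[j]` -/

section Gauss

open IntermediateField
open scoped IntermediateField.algebraAdjoinAdjoin

variable {K₀ F : Type*} [Field K₀] [Field F] [Algebra K₀ F]

/-- **the hard inclusion `B ⊆ integral closure of A₀[j]`**: `x ∈ F` integral over `K₀[j]`
(regular off the cusps) and over the valuation ring `O ∩ K₀(j)` of `K₀(j)` (by (SUM)), where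
`O ∩ K₀(j)` is the Gauss valuation ring (`hdom`, `hunit`), is integral over `A₀[j]`:
it is a root of a monic polynomial with coefficients `Q n (j)`, `Q n ∈ A₀[X]`. -/
theorem vnoeth_isIntegralElem (A₀ : ValuationSubring K₀) (O : ValuationSubring F)
    (hdom : ∀ c : K₀, algebraMap K₀ F c ∈ O → c ∈ A₀) (j : F) (hj : Transcendental K₀ j)
    (hunit : ∀ p : K₀[X], (∀ n, p.coeff n ∈ A₀) → (∃ n, p.coeff n = 1) →
      ∃ u ∈ O, aeval j p * u = 1)
    (x : F) (h₁ : IsIntegral (Algebra.adjoin K₀ {j}) x)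
    (h₂ : IsIntegral (O.comap (algebraMap K₀⟮j⟯ F)) x) :
    ((Polynomial.aeval j : A₀[X] →ₐ[A₀] F) : A₀[X] →+* F).IsIntegralElem x := by
  classical
  have hPID : IsPrincipalIdealRing (Algebra.adjoin K₀ {j}) :=
    IsPrincipalIdealRing.of_surjective
      (Polynomial.algEquivOfTranscendental K₀ j hj).toRingEquiv.toRingHom
      (Polynomial.algEquivOfTranscendental K₀ j hj).surjective
  have hmem := vnoeth_minpoly_coeff_mem (K := K₀⟮j⟯) (R₁ := Algebra.adjoin K₀ {j})
    (R₂ := O.comap (algebraMap K₀⟮j⟯ F)) x h₁ h₂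
  set p := minpoly K₀⟮j⟯ x with hp
  have hpm : p.Monic := minpoly.monic h₁.tower_top
  -- every coefficient is `Q(j)` with `Q ∈ A₀[X]`
  have hcoeff : ∀ n, ∃ Q : A₀[X], aeval j Q = ((p.coeff n : K₀⟮j⟯) : F) := by
    intro n
    obtain ⟨⟨⟨a, ha⟩, ha'⟩, ⟨b, hb⟩⟩ := hmem n
    rw [Algebra.adjoin_singleton_eq_range_aeval] at ha
    obtain ⟨P, hP⟩ := ha
    have haF : ((p.coeff n : K₀⟮j⟯) : F) = aeval j P := by
      rw [← ha']
      exact hP.symm
    have hbO : ((p.coeff n : K₀⟮j⟯) : F) ∈ O := by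
      rw [← hb]
      exact b.2
    have hPA : ∀ i, P.coeff i ∈ A₀ :=
      vnoeth_gauss A₀ O hdom j hunit P (by rw [← haF]; exact hbO)
    have hlift : P ∈ Polynomial.lifts (algebraMap A₀ K₀) := by
      rw [Polynomial.lifts_iff_coeff_lifts]
      intro i
      exact ⟨⟨_, hPA i⟩, rfl⟩
    obtain ⟨Q, hQ⟩ := hlift
    refine ⟨Q, ?_⟩
    rw [haF, ← hQ]
    exact (Polynomial.aeval_map_algebraMap K₀ j Q).symm
  choose Q hQ using hcoeff
  set d := p.natDegree with hd
  set q : (A₀[X])[X] := X ^ d + ∑ n ∈ Finset.range d, C (Q n) * X ^ n with hq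
  have hqm : q.Monic := by
    refine Polynomial.monic_X_pow_add ?_
    rw [Polynomial.degree_lt_iff_coeff_zero]
    intro m hm
    rw [Polynomial.finsetSum_coeff]
    refine Finset.sum_eq_zero fun n hn => ?_
    rw [Polynomial.coeff_C_mul_X_pow, if_neg]
    exact fun h => absurd (Finset.mem_range.1 hn) (by omega)
  refine ⟨q, hqm, ?_⟩
  have h0 : aeval x p = 0 := minpoly.aeval K₀⟮j⟯ x
  rw [Polynomial.aeval_eq_sum_range, Finset.sum_range_succ, ← hd] at h0
  have hlead : p.coeff d = 1 := hpm.coeff_natDegree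
  rw [hq, Polynomial.eval₂_add, Polynomial.eval₂_pow, Polynomial.eval₂_X,
    Polynomial.eval₂_finsetSum]
  rw [hlead, one_smul, add_comm] at h0
  rw [← h0]
  congr 1
  refine Finset.sum_congr rfl fun n _ => ?_
  rw [Polynomial.eval₂_mul, Polynomial.eval₂_C, Polynomial.eval₂_pow, Polynomial.eval₂_X,
    Algebra.smul_def]
  congr 1
  exact hQ n

/-- `A₀[X] → K₀(j)`, `Q ↦ Q(j)`, as a ring homomorphism. -/
noncomputable def vnoeth_evalK (A₀ : ValuationSubring K₀) (j : F) : A₀[X] →+* K₀⟮j⟯ :=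
  ((Polynomial.aeval (AdjoinSimple.gen K₀ j) : K₀[X] →ₐ[K₀] K₀⟮j⟯) : K₀[X] →+* K₀⟮j⟯).comp
    (Polynomial.mapRingHom (algebraMap A₀ K₀))

theorem vnoeth_evalK_coe (A₀ : ValuationSubring K₀) (j : F) (Q : A₀[X]) :
    ((vnoeth_evalK A₀ j Q : K₀⟮j⟯) : F) = aeval j Q := by
  simp only [vnoeth_evalK, RingHom.comp_apply, RingHom.coe_coe, Polynomial.coe_mapRingHom]
  rw [← IntermediateField.algebraMap_apply, ← Polynomial.aeval_algebraMap_apply,
    IntermediateField.algebraMap_apply, AdjoinSimple.coe_gen]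
  exact Polynomial.aeval_map_algebraMap K₀ j Q

theorem vnoeth_evalK_injective (A₀ : ValuationSubring K₀) (j : F) (hj : Transcendental K₀ j) :
    Function.Injective (vnoeth_evalK A₀ j) := by
  intro Q₁ Q₂ h
  have h1 : aeval j Q₁ = aeval j Q₂ := by
    rw [← vnoeth_evalK_coe, ← vnoeth_evalK_coe, h]
  rw [← Polynomial.aeval_map_algebraMap K₀ j Q₁, ← Polynomial.aeval_map_algebraMap K₀ j Q₂] at h1
  have h2 := (transcendental_iff_injective.1 hj) h1
  exact Polynomial.map_injective _ (FaithfulSMul.algebraMap_injective A₀ K₀) h2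

/-- every element of `K₀(j)` is a quotient of two polynomials in `j` with coefficients in
`A₀`. -/
theorem vnoeth_evalK_surj (A₀ : ValuationSubring K₀) (j : F) (z : K₀⟮j⟯) :
    ∃ Q₁ Q₂ : A₀[X], z = vnoeth_evalK A₀ j Q₁ / vnoeth_evalK A₀ j Q₂ := by
  obtain ⟨r, s, hrs⟩ := (IntermediateField.mem_adjoin_simple_iff K₀ (z : F)).1 z.2
  obtain ⟨b, hb, hr'⟩ := IsLocalization.integerNormalization_spec (nonZeroDivisors A₀) r
  obtain ⟨c, hc, hs'⟩ := IsLocalization.integerNormalization_spec (nonZeroDivisors A₀) s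
  set r' := IsLocalization.integerNormalization (nonZeroDivisors A₀) r with hr'def
  set s' := IsLocalization.integerNormalization (nonZeroDivisors A₀) s with hs'def
  have hb0 : (b : K₀) ≠ 0 := fun h => nonZeroDivisors.ne_zero hb (Subtype.ext h)
  have hc0 : (c : K₀) ≠ 0 := fun h => nonZeroDivisors.ne_zero hc (Subtype.ext h)
  refine ⟨C c * r', C b * s', Subtype.ext ?_⟩
  have e1 : aeval j r' = algebraMap K₀ F (b : K₀) * aeval j r := by
    rw [← Polynomial.aeval_map_algebraMap K₀ j r', hr', Algebra.smul_def, map_mul]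
    congr 1
    rw [Polynomial.algebraMap_apply, Polynomial.aeval_C]
    rfl
  have e2 : aeval j s' = algebraMap K₀ F (c : K₀) * aeval j s := by
    rw [← Polynomial.aeval_map_algebraMap K₀ j s', hs', Algebra.smul_def, map_mul]
    congr 1
    rw [Polynomial.algebraMap_apply, Polynomial.aeval_C]
    rfl
  have hbF : algebraMap K₀ F (b : K₀) ≠ 0 := (_root_.map_ne_zero _).2 hb0
  have hcF : algebraMap K₀ F (c : K₀) ≠ 0 := (_root_.map_ne_zero _).2 hc0
  have e3 : aeval j (C c * r') = algebraMap K₀ F (c : K₀) * aeval j r' := by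
    rw [map_mul, Polynomial.aeval_C]
    rfl
  have e4 : aeval j (C b * s') = algebraMap K₀ F (b : K₀) * aeval j s' := by
    rw [map_mul, Polynomial.aeval_C]
    rfl
  rw [IntermediateField.coe_div, vnoeth_evalK_coe, vnoeth_evalK_coe, hrs, e3, e4, e1, e2]
  by_cases hs0 : aeval j s = 0
  · simp [hs0]
  · field_simp

/-- **V-I, abstract main theorem.**  `A₀` a discrete valuation ring (or any principal valuation
ring) of `K₀`, `j ∈ F` transcendental over `K₀` with `F / K₀(j)` finite separable, `O` a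
valuation ring of `F` inducing the Gauss valuation on `K₀(j)` (`hdom`, `hunit`).  Let `B` be a
subring of `F`, integrally closed in `F`, containing `A₀` and `j`, all of whose elements are
integral over `K₀[j]` and over `O ∩ K₀(j)`.  Then `B` is Noetherian and `F = Frac B`. -/
theorem vnoeth_main (A₀ : ValuationSubring K₀) [IsPrincipalIdealRing A₀]
    (O : ValuationSubring F)
    (hdom : ∀ c : K₀, algebraMap K₀ F c ∈ O → c ∈ A₀) (j : F) (hj : Transcendental K₀ j)
    (hunit : ∀ p : K₀[X], (∀ n, p.coeff n ∈ A₀) → (∃ n, p.coeff n = 1) →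
      ∃ u ∈ O, aeval j p * u = 1)
    [FiniteDimensional K₀⟮j⟯ F] [Algebra.IsSeparable K₀⟮j⟯ F]
    (B : Subring F) (hA₀B : ∀ a : A₀, algebraMap K₀ F (a : K₀) ∈ B) (hjB : j ∈ B)
    (hB₁ : ∀ x ∈ B, IsIntegral (Algebra.adjoin K₀ {j}) x)
    (hB₂ : ∀ x ∈ B, IsIntegral (O.comap (algebraMap K₀⟮j⟯ F)) x)
    (hBcl : ∀ x : F, IsIntegral B x → x ∈ B) :
    IsNoetherianRing B ∧ ∀ z : F, ∃ a b : B, b ≠ 0 ∧ z * (b : F) = (a : F) := by
  letI algK : Algebra A₀[X] K₀⟮j⟯ := (vnoeth_evalK A₀ j).toAlgebra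
  letI algF : Algebra A₀[X] F :=
    ((Polynomial.aeval j : A₀[X] →ₐ[A₀] F) : A₀[X] →+* F).toAlgebra
  haveI : IsScalarTower A₀[X] K₀⟮j⟯ F :=
    IsScalarTower.of_algebraMap_eq fun Q => (vnoeth_evalK_coe A₀ j Q).symm
  haveI : FaithfulSMul A₀[X] K₀⟮j⟯ :=
    (faithfulSMul_iff_algebraMap_injective _ _).2 (vnoeth_evalK_injective A₀ j hj)
  haveI : IsFractionRing A₀[X] K₀⟮j⟯ := IsFractionRing.of_field _ _ (vnoeth_evalK_surj A₀ j)
  -- `A₀[j] ⊆ B`
  have hRB : ∀ r : A₀[X], algebraMap A₀[X] F r ∈ B := by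
    intro r
    show aeval j r ∈ B
    induction r using Polynomial.induction_on with
    | C a =>
      rw [Polynomial.aeval_C]
      exact hA₀B a
    | add p q hp hq =>
      rw [map_add]
      exact B.add_mem hp hq
    | monomial n a h =>
      rw [pow_succ, ← mul_assoc, map_mul, Polynomial.aeval_X]
      exact B.mul_mem h hjB
  -- `B ⊆` the integral closure
  have hint : ∀ x ∈ B, IsIntegral A₀[X] x := fun x hx =>
    vnoeth_isIntegralElem A₀ O hdom j hj hunit x (hB₁ x hx) (hB₂ x hx)
  -- the integral closure `⊆ B`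
  have hcl : ∀ x : F, IsIntegral A₀[X] x → x ∈ B := by
    intro x hx
    refine hBcl x ?_
    obtain ⟨q, hqm, hq⟩ := hx
    let ψ : A₀[X] →+* B := (algebraMap A₀[X] F).codRestrict B hRB
    refine ⟨q.map ψ, hqm.map ψ, ?_⟩
    rw [Polynomial.eval₂_map]
    exact hq
  exact ⟨vnoeth_noeth K₀⟮j⟯ B hRB hint, vnoeth_frac K₀⟮j⟯ B hcl⟩

end Gauss

end Fermat.Agent.S36lib
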