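import Mathlib
import Fermat.Agent.S36lib.SetupK0
import Fermat.Agent.S36lib.VNoeth
import Fermat.Agent.S24lib.Final
import Fermat.Agent.S28lib.IntAlg

/-!
# S36 (Carayol at `q² ∥ M`), piece V-I [vnoeth_], instantiation at `B = f0Aff A L O₁ O₂ O₃`

* `vnk_isIntegral_of_cuspRegular` : `x ∈ cuspRegular L` ⇒ `x` integral over `ℚ̄[j]`.
* `vnk_isIntegralElem_descent` : integral over `K[j]` ⇒ integral over `K₀[j]` (`K / K₀` algebraic).
* `vnk_f0Aff_closed` : `f0Aff` is integrally closed in `F0(L)`.
* `vnk_main` : `IsNoetherianRing (f0Aff A L O₁ O₂ O₃)` and `F0(L) = Frac (f0Aff …)`, from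
  (SUM) [V-G], `[F0(L) : K0(j)] < ∞` [V-H] and the transcendence of `red j`.
-/

set_option autoImplicit false
set_option linter.style.haveILetI false

noncomputable section

namespace Fermat.Agent.S36lib

open ModularCurve AlgebraicCurve Polynomial IntermediateField IsDedekindDomain
open Fermat.Agent.S24lib Fermat.Agent.S34lib Fermat.Agent.S28lib

/-! ### abstract: integral over `K[j]` ⇒ integral over `K₀[j]` -/

section Descent

variable {K₀ K F : Type*} [Field K₀] [Field K] [CommRing F] [Algebra K₀ K] [Algebra K F]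
  [Algebra K₀ F] [IsScalarTower K₀ K F] [Algebra.IsAlgebraic K₀ K]

/-- the elements of `K[j]` are integral over `K₀[j]`. -/
theorem vnk_aeval_isIntegralElem (j : F) (P : K[X]) :
    (Polynomial.aeval (R := K₀) j).toRingHom.IsIntegralElem (Polynomial.aeval j P) := by
  have hmem : ∀ y ∈ Algebra.adjoin K {j},
      y ∈ intElemSubring (Polynomial.aeval (R := K₀) j).toRingHom := by
    intro y hy
    induction hy using Algebra.adjoin_induction with
    | mem y hy =>
      rw [Set.mem_singleton_iff] at hy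
      subst hy
      rw [mem_intElemSubring]
      have := (Polynomial.aeval (R := K₀) y).toRingHom.isIntegralElem_map (x := (X : K₀[X]))
      simpa using this
    | algebraMap c =>
      rw [mem_intElemSubring]
      have hc : IsIntegral K₀ c := (Algebra.IsAlgebraic.isAlgebraic c).isIntegral
      obtain ⟨p, hp, hpc⟩ := hc
      refine ⟨p.map (C : K₀ →+* K₀[X]), hp.map _, ?_⟩
      rw [Polynomial.eval₂_map]
      have hcomp : (Polynomial.aeval (R := K₀) j).toRingHom.comp (C : K₀ →+* K₀[X]) =
          (algebraMap K F).comp (algebraMap K₀ K) := by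
        ext a
        simp [IsScalarTower.algebraMap_apply K₀ K F]
      rw [hcomp, ← Polynomial.hom_eval₂, hpc, map_zero]
    | add y z _ _ hy hz => exact Subring.add_mem _ hy hz
    | mul y z _ _ hy hz => exact Subring.mul_mem _ hy hz
  have h1 : Polynomial.aeval j P ∈ Algebra.adjoin K {j} := by
    rw [Algebra.adjoin_singleton_eq_range_aeval]
    exact ⟨P, rfl⟩
  exact (mem_intElemSubring _ _).1 (hmem _ h1)

/-- **integral over `K[j]` ⇒ integral over `K₀[j]`** (`K / K₀` algebraic). -/
theorem vnk_isIntegralElem_descent (j x : F)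
    (hx : (Polynomial.aeval (R := K) j).toRingHom.IsIntegralElem x) :
    (Polynomial.aeval (R := K₀) j).toRingHom.IsIntegralElem x := by
  letI : Algebra K₀[X] F := (Polynomial.aeval (R := K₀) j).toRingHom.toAlgebra
  obtain ⟨p, hp, hpx⟩ := hx
  -- the coefficients of `p` map into the integral closure
  have hcoe : ∀ P : K[X], (Polynomial.aeval (R := K) j).toRingHom P ∈
      (integralClosure K₀[X] F).toSubring := fun P => vnk_aeval_isIntegralElem (K₀ := K₀) j P
  let ι : K[X] →+* (integralClosure K₀[X] F) :=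
    (Polynomial.aeval (R := K) j).toRingHom.codRestrict (integralClosure K₀[X] F).toSubring hcoe
  have hC : IsIntegral (integralClosure K₀[X] F) x := by
    refine ⟨p.map ι, hp.map ι, ?_⟩
    rw [Polynomial.eval₂_map]
    exact hpx
  exact isIntegral_trans (R := K₀[X]) (A := integralClosure K₀[X] F) x hC

end Descent

/-! ### regular off the cusps ⇒ integral over `ℚ̄[j]` -/

/-- a function regular at every place where `j` is regular is integral over `ℚ̄[j]`. -/
theorem vnk_isIntegral_of_cuspRegular (L : ℕ) [NeZero L] (x : FF L) (hx : x ∈ cuspRegular L) :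
    IsIntegral (Algebra.adjoin Kbar ({jF L} : Set (FF L))) x := by
  haveI : FFData Kbar (jF L) := fin_ffData L
  haveI hDed : IsDedekindDomain (ffS Kbar (jF L)) := FFData.instDedekindS
  haveI hFrac : IsFractionRing (ffS Kbar (jF L)) (FF L) := FFData.instFracS
  have hval : ∀ Q : HeightOneSpectrum (ffS Kbar (jF L)), Q.valuation (FF L) x ≤ 1 := by
    intro Q
    have hj : jF L ∈ (ffPlaceOfPrime Q).toValuationSubring := by
      rw [ffPlaceOfPrime_toValuationSubring, Valuation.mem_valuationSubring_iff]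
      exact Q.valuation_le_one (K := FF L) (⟨jF L, ffx_mem_S⟩ : ffS Kbar (jF L))
    have hxQ := (mem_cuspRegular_iff L x).1 hx (ffPlaceOfPrime Q) hj
    rwa [ffPlaceOfPrime_toValuationSubring, Valuation.mem_valuationSubring_iff] at hxQ
  obtain ⟨s, hs⟩ := HeightOneSpectrum.mem_integers_of_valuation_le_one (FF L) x hval
  rw [← hs]
  exact s.2

/-- the same in the polynomial form, over any subfield `K₀ ⊆ ℚ̄`. -/
theorem vnk_isIntegralElem_of_cuspRegular {K₀ : Type*} [Field K₀] [Algebra K₀ Kbar]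
    (L : ℕ) [NeZero L] [Algebra K₀ (FF L)] [IsScalarTower K₀ Kbar (FF L)]
    [Algebra.IsAlgebraic K₀ Kbar] (x : FF L) (hx : x ∈ cuspRegular L) :
    (Polynomial.aeval (R := K₀) (jF L)).toRingHom.IsIntegralElem x :=
  vnk_isIntegralElem_descent (K := Kbar) (jF L) x
    ((isIntegral_adjoin_singleton_iff (jF L) x).1 (vnk_isIntegral_of_cuspRegular L x hx))

/-! ### `f0Aff` is integrally closed in `F0(L)` -/

/-- an element integral over a subring `B` whose image lies in a valuation ring `V` has its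
image in `V`. -/
theorem vnk_mem_valuationSubring_of_isIntegral {F E : Type*} [Field F] [Field E] (σ : F →+* E)
    (V : ValuationSubring E) (B : Subring F) (hB : ∀ b ∈ B, σ b ∈ V) (x : F)
    (hx : IsIntegral B x) : σ x ∈ V := by
  obtain ⟨p, hp, hpx⟩ := hx
  let τ : B →+* V := (σ.comp B.subtype).codRestrict V.toSubring fun b => hB b b.2
  have hV : IsIntegral V (σ x) := by
    refine ⟨p.map τ, hp.map τ, ?_⟩
    rw [Polynomial.eval₂_map]
    have hcomp : (algebraMap V E).comp τ = σ.comp (algebraMap B F) := by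
      ext b
      rfl
    rw [hcomp, ← Polynomial.hom_eval₂, hpx, map_zero]
  obtain ⟨y, hy⟩ := (IsIntegrallyClosed.isIntegral_iff (R := V) (K := E)).1 hV
  rw [← hy]
  exact y.2

set_option synthInstance.maxHeartbeats 400000 in
/-- **`f0Aff` is integrally closed in `F0(L)`.** -/
theorem vnk_f0Aff_closed (A : ValuationSubring Kbar) (L : ℕ) [NeZero L]
    (O₁ O₂ O₃ : ValuationSubring (FF L)) (x : f0Field A L)
    (hx : IsIntegral (f0Aff A L O₁ O₂ O₃) x) : x ∈ f0Aff A L O₁ O₂ O₃ := by
  rw [mem_f0Aff_iff]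
  refine ⟨?_, ?_, ?_, ?_⟩
  · rw [mem_cuspRegular_iff]
    intro P hP
    exact vnk_mem_valuationSubring_of_isIntegral (algebraMap (f0Field A L) (FF L))
      P.toValuationSubring _
      (fun b hb => (mem_cuspRegular_iff L _).1 ((mem_f0Aff_iff A L _ _ _ b).1 hb).1 P hP) x hx
  · exact vnk_mem_valuationSubring_of_isIntegral (algebraMap (f0Field A L) (FF L)) O₁ _
      (fun b hb => ((mem_f0Aff_iff A L _ _ _ b).1 hb).2.1) x hx
  · exact vnk_mem_valuationSubring_of_isIntegral (algebraMap (f0Field A L) (FF L)) O₂ _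
      (fun b hb => ((mem_f0Aff_iff A L _ _ _ b).1 hb).2.2.1) x hx
  · exact vnk_mem_valuationSubring_of_isIntegral (algebraMap (f0Field A L) (FF L)) O₃ _
      (fun b hb => ((mem_f0Aff_iff A L _ _ _ b).1 hb).2.2.2) x hx

/-! ### the Gauss hypotheses from a `ResVal` -/

section ResValGauss

variable {K : Type*} [Field K] {A : ValuationSubring K} {κ : Type*} [Field κ]
  [Algebra (IsLocalRing.ResidueField A) κ] {F : Type*} [Field F] [Algebra K F]

/-- `O ∩ K = A` for a valuation ring of `F` over `A` with compatible reduction. -/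
theorem vnk_mem_of_algebraMap_mem (v : ResVal A (IsLocalRing.residue A) κ F) (c : K)
    (hc : algebraMap K F c ∈ v.O) : c ∈ A := by
  by_contra hcA
  have hc0 : c ≠ 0 := fun h => hcA (h ▸ A.zero_mem)
  have hinv : c⁻¹ ∈ A := (A.mem_or_inv_mem c).resolve_left hcA
  have hnu : ¬ IsUnit (⟨c⁻¹, hinv⟩ : A) := by
    intro hu
    obtain ⟨u, hu⟩ := hu
    apply hcA
    have h1 : ((u⁻¹ : Aˣ) : K) = c := by
      have h2 : ((u : A) : K) * ((u⁻¹ : Aˣ) : K) = 1 := by
        rw [← A.coe_mul, Units.mul_inv]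
        rfl
      rw [hu] at h2
      have h3 : (c⁻¹ : K) * ((u⁻¹ : Aˣ) : K) = 1 := h2
      field_simp at h3
      exact h3
    rw [← h1]
    exact ((u⁻¹ : Aˣ) : A).2
  have hres : IsLocalRing.residue A ⟨c⁻¹, hinv⟩ = 0 := by
    rw [IsLocalRing.residue_eq_zero_iff]
    exact hnu
  have hred := v.red_algebraMap ⟨c⁻¹, hinv⟩
  rw [hres, map_zero] at hred
  have hnon := (v.red_eq_zero_iff _).1 hred
  have hunit : algebraMap K F c⁻¹ ∉ v.O.nonunits := by
    rw [ValuationSubring.mem_nonunits_iff_exists_mem_maximalIdeal]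
    rintro ⟨h, hm⟩
    have : IsUnit (⟨algebraMap K F c⁻¹, h⟩ : v.O) := by
      refine IsUnit.of_mul_eq_one (⟨algebraMap K F c, hc⟩ : v.O) (Subtype.ext ?_)
      show algebraMap K F c⁻¹ * algebraMap K F c = 1
      rw [← map_mul, inv_mul_cancel₀ hc0, map_one]
    exact hm this
  exact hunit hnon

/-- the constants `A → O`. -/
def vnk_const (v : ResVal A (IsLocalRing.residue A) κ F) : A →+* v.O :=
  ((algebraMap K F).comp A.subtype).codRestrict v.O.toSubring fun a => v.algebraMap_mem a

theorem vnk_red_const (v : ResVal A (IsLocalRing.residue A) κ F) (a : A) :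
    v.red (vnk_const v a) = algebraMap (IsLocalRing.ResidueField A) κ (IsLocalRing.residue A a) :=
  v.red_algebraMap a

/-- a polynomial in `j` with coefficients in `A` and nonzero reduction is a unit of `O`, if the
reduction of `j` is transcendental over the residue field of `A`. -/
theorem vnk_unit_of_transcendental (v : ResVal A (IsLocalRing.residue A) κ F) (j : F)
    (hj : j ∈ v.O) (hjbar : Transcendental (IsLocalRing.ResidueField A) (v.red ⟨j, hj⟩))
    (P : A[X]) (hP : P.map (IsLocalRing.residue A) ≠ 0) :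
    ∃ u ∈ v.O, Polynomial.aeval j (P.map (algebraMap A K)) * u = 1 := by
  set g : A[X] →+* v.O := Polynomial.eval₂RingHom (vnk_const v) ⟨j, hj⟩ with hg
  have hcoe : ∀ Q : A[X], ((g Q : v.O) : F) = Polynomial.aeval j (Q.map (algebraMap A K)) := by
    intro Q
    have h1 : (v.O.subtype.comp g) = ((Polynomial.aeval j : K[X] →ₐ[K] F) : K[X] →+* F).comp
        (Polynomial.mapRingHom (algebraMap A K)) := by
      refine Polynomial.ringHom_ext (fun a => ?_) ?_
      · rw [RingHom.comp_apply, RingHom.comp_apply, hg, Polynomial.coe_eval₂RingHom,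
          Polynomial.eval₂_C, Polynomial.coe_mapRingHom, Polynomial.map_C, RingHom.coe_coe,
          Polynomial.aeval_C]
        rfl
      · rw [RingHom.comp_apply, RingHom.comp_apply, hg, Polynomial.coe_eval₂RingHom,
          Polynomial.eval₂_X, Polynomial.coe_mapRingHom, Polynomial.map_X, RingHom.coe_coe,
          Polynomial.aeval_X]
        rfl
    exact congrArg (fun φ : A[X] →+* F => φ Q) h1
  have hred : v.red (g P) = Polynomial.aeval (v.red ⟨j, hj⟩) (P.map (IsLocalRing.residue A)) := by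
    have h1 : v.red.comp g = ((Polynomial.aeval (v.red ⟨j, hj⟩) :
        (IsLocalRing.ResidueField A)[X] →ₐ[IsLocalRing.ResidueField A] κ) :
        (IsLocalRing.ResidueField A)[X] →+* κ).comp
        (Polynomial.mapRingHom (IsLocalRing.residue A)) := by
      refine Polynomial.ringHom_ext (fun a => ?_) ?_
      · rw [RingHom.comp_apply, RingHom.comp_apply, hg, Polynomial.coe_eval₂RingHom,
          Polynomial.eval₂_C, Polynomial.coe_mapRingHom, Polynomial.map_C, RingHom.coe_coe,
          Polynomial.aeval_C, vnk_red_const]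
      · rw [RingHom.comp_apply, RingHom.comp_apply, hg, Polynomial.coe_eval₂RingHom,
          Polynomial.eval₂_X, Polynomial.coe_mapRingHom, Polynomial.map_X, RingHom.coe_coe,
          Polynomial.aeval_X]
    exact congrArg (fun φ : A[X] →+* κ => φ P) h1
  have hne : v.red (g P) ≠ 0 := by
    rw [hred]
    exact fun h0 => hP ((transcendental_iff.1 hjbar) _ h0)
  have hunit : IsUnit (g P) := by
    by_contra hnu
    apply hne
    rw [v.red_eq_zero_iff, ValuationSubring.mem_nonunits_iff_exists_mem_maximalIdeal]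
    exact ⟨(g P).2, hnu⟩
  obtain ⟨u, hu⟩ := hunit.exists_right_inv
  refine ⟨(u : F), u.2, ?_⟩
  rw [← hcoe]
  exact congrArg Subtype.val hu

end ResValGauss

/-! ### the instantiation -/

section Main

variable (A : ValuationSubring Kbar) (L : ℕ) [NeZero L]

theorem vnk_jF_mem : jF L ∈ f0Field A L := by
  have h : jF L = jdF L 1 (one_dvd L) := by
    apply Subtype.ext
    rw [coe_jF, coe_jdF, qExpand_one_apply]
  rw [h]
  exact jdF_mem_f0Field A L 1 (one_dvd L)

/-- `j` as an element of `F0(L)`. -/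
def vnk_j : f0Field A L := ⟨jF L, vnk_jF_mem A L⟩

@[simp] theorem vnk_coe_j : ((vnk_j A L : f0Field A L) : FF L) = jF L := rfl

theorem vnk_j_transcendental : Transcendental (k0Field A) (vnk_j A L) := by
  haveI : FFData Kbar (jF L) := fin_ffData L
  have h1 : Transcendental Kbar (jF L) := FFData.trans
  have h2 : Transcendental (k0Field A) (jF L) :=
    Transcendental.of_tower_top (K := ↥(k0Field A)) (L := Kbar) h1
  intro halg
  apply h2
  have := halg.algebraMap (A := FF L)
  simpa using this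

variable {κ : Type*} [Field κ] [Algebra (IsLocalRing.ResidueField A) κ]

/-- the valuation ring of `F0(L)` induced by a `ResVal` of `FF L`. -/
def vnk_O (v : ResVal A (IsLocalRing.residue A) κ (FF L)) : ValuationSubring (f0Field A L) :=
  v.O.comap (algebraMap (f0Field A L) (FF L))

omit [NeZero L] in
theorem vnk_mem_O (v : ResVal A (IsLocalRing.residue A) κ (FF L)) (x : f0Field A L) :
    x ∈ vnk_O A L v ↔ (x : FF L) ∈ v.O := Iff.rfl

omit [NeZero L] in
theorem vnk_hdom (v : ResVal A (IsLocalRing.residue A) κ (FF L)) (c : k0Field A)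
    (hc : algebraMap (k0Field A) (f0Field A L) c ∈ vnk_O A L v) : c ∈ k0Val A := by
  rw [mem_k0Val_iff]
  exact vnk_mem_of_algebraMap_mem v (c : Kbar) hc

theorem vnk_hunit (v : ResVal A (IsLocalRing.residue A) κ (FF L)) (hj : jF L ∈ v.O)
    (hjbar : Transcendental (IsLocalRing.ResidueField A) (v.red ⟨jF L, hj⟩))
    (p : (k0Field A)[X]) (hp : ∀ n, p.coeff n ∈ k0Val A) (h1 : ∃ n, p.coeff n = 1) :
    ∃ u ∈ vnk_O A L v, Polynomial.aeval (vnk_j A L) p * u = 1 := by
  -- lift `p` to `A[X]`
  have hlift : p ∈ Polynomial.lifts (algebraMap (k0Val A) (k0Field A)) := by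
    rw [Polynomial.lifts_iff_coeff_lifts]
    intro n
    exact ⟨⟨_, hp n⟩, rfl⟩
  obtain ⟨P₀, hP₀⟩ := hlift
  set P : A[X] := P₀.map (k0ValIncl A) with hP
  have hPmap : P.map (algebraMap A Kbar) = p.map (algebraMap (k0Field A) Kbar) := by
    rw [hP, ← hP₀, Polynomial.coe_mapRingHom, Polynomial.map_map, Polynomial.map_map]
    rfl
  have hPres : P.map (IsLocalRing.residue A) ≠ 0 := by
    obtain ⟨n, hn⟩ := h1
    intro h0
    have h2 : (P.map (IsLocalRing.residue A)).coeff n = 0 := by rw [h0, Polynomial.coeff_zero]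
    rw [Polynomial.coeff_map, hP, Polynomial.coeff_map] at h2
    have h3 : k0ValIncl A (P₀.coeff n) = 1 := by
      apply Subtype.ext
      have h4 : ((P₀.coeff n : k0Val A) : k0Field A) = 1 := by
        have := congrArg (fun r => Polynomial.coeff r n) hP₀
        rw [Polynomial.coe_mapRingHom] at this
        simp only [Polynomial.coeff_map] at this
        rw [hn] at this
        exact this
      have h5 : ((k0ValIncl A (P₀.coeff n) : A) : Kbar) = (((P₀.coeff n : k0Val A) : k0Field A) : Kbar) :=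
        rfl
      rw [h5, h4]
      rfl
    rw [h3, map_one] at h2
    exact one_ne_zero h2
  obtain ⟨u', hu'O, hu'⟩ := vnk_unit_of_transcendental v (jF L) hj hjbar P hPres
  have hval : Polynomial.aeval (jF L) (P.map (algebraMap A Kbar)) =
      ((Polynomial.aeval (vnk_j A L) p : f0Field A L) : FF L) := by
    rw [hPmap, Polynomial.aeval_map_algebraMap]
    exact Polynomial.aeval_algebraMap_apply (FF L) (vnk_j A L) p
  rw [hval] at hu'
  have hne : Polynomial.aeval (vnk_j A L) p ≠ 0 := by
    intro h0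
    rw [h0] at hu'
    simp at hu'
  refine ⟨(Polynomial.aeval (vnk_j A L) p)⁻¹, ?_, mul_inv_cancel₀ hne⟩
  rw [vnk_mem_O]
  have hu'eq : (((Polynomial.aeval (vnk_j A L) p)⁻¹ : f0Field A L) : FF L) = u' := by
    have hne' : ((Polynomial.aeval (vnk_j A L) p : f0Field A L) : FF L) ≠ 0 := fun h0 => by
      rw [h0, zero_mul] at hu'
      exact zero_ne_one hu'
    rw [IntermediateField.coe_inv]
    exact inv_eq_of_mul_eq_one_right hu'
  rw [hu'eq]
  exact hu'O

/-- cuspRegular ⇒ integral over `K0[j]`, inside `F0(L)`. -/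
theorem vnk_hB₁ (x : f0Field A L) (hx : (x : FF L) ∈ cuspRegular L) :
    IsIntegral (Algebra.adjoin (k0Field A) ({vnk_j A L} : Set (f0Field A L))) x := by
  haveI : Algebra.IsAlgebraic ℚ Kbar := AlgebraicClosure.isAlgebraic ℚ
  haveI : Algebra.IsAlgebraic (k0Field A) Kbar :=
    Algebra.IsAlgebraic.tower_top (K := ℚ) (k0Field A)
  rw [isIntegral_adjoin_singleton_iff]
  have h1 := vnk_isIntegralElem_of_cuspRegular (K₀ := k0Field A) L (x : FF L) hx
  refine isIntegralElem_of_map (algebraMap (f0Field A L) (FF L))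
    (algebraMap (f0Field A L) (FF L)).injective ?_
  have hcomp : (algebraMap (f0Field A L) (FF L)).comp
      (Polynomial.aeval (R := k0Field A) (vnk_j A L)).toRingHom =
      (Polynomial.aeval (R := k0Field A) (jF L)).toRingHom := by
    refine Polynomial.ringHom_ext (fun a => ?_) ?_
    · simp
    · simp
  rw [hcomp]
  exact h1

set_option synthInstance.maxHeartbeats 400000 in
set_option maxHeartbeats 1000000 in
/-- **V-I at `B = f0Aff A L O₁ O₂ O₃`**: `B` is Noetherian and `F0(L) = Frac B`.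
Hypotheses: `A0` is a DVR (K0-1), `j ∈ O_i`, `red₁ j` transcendental over `k`,
`[F0(L) : K0(j)] < ∞` (V-H), and (SUM) (V-G): an element of `F0(L)` in the three valuation rings
is integral over the Gauss valuation ring `O₁ ∩ K0(j)`. -/
theorem vnk_main [IsPrincipalIdealRing (k0Val A)]
    (v₁ v₂ v₃ : ResVal A (IsLocalRing.residue A) κ (FF L))
    (hj₁ : jF L ∈ v₁.O) (hj₂ : jF L ∈ v₂.O) (hj₃ : jF L ∈ v₃.O)
    (hjbar : Transcendental (IsLocalRing.ResidueField A) (v₁.red ⟨jF L, hj₁⟩))
    [FiniteDimensional (k0Field A)⟮vnk_j A L⟯ (f0Field A L)]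
    (hSUM : ∀ x : f0Field A L, (x : FF L) ∈ v₁.O → (x : FF L) ∈ v₂.O → (x : FF L) ∈ v₃.O →
      IsIntegral ((vnk_O A L v₁).comap
        (algebraMap (k0Field A)⟮vnk_j A L⟯ (f0Field A L))) x) :
    IsNoetherianRing (f0Aff A L v₁.O v₂.O v₃.O) ∧
      ∀ z : f0Field A L, ∃ a b : f0Aff A L v₁.O v₂.O v₃.O,
        b ≠ 0 ∧ z * (b : f0Field A L) = (a : f0Field A L) := by
  haveI : CharZero (k0Field A)⟮vnk_j A L⟯ := charZero_of_injective_algebraMap
    (algebraMap ℚ (k0Field A)⟮vnk_j A L⟯).injective
  haveI : Algebra.IsAlgebraic (k0Field A)⟮vnk_j A L⟯ (f0Field A L) :=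
    Algebra.IsAlgebraic.of_finite _ _
  haveI : Algebra.IsSeparable (k0Field A)⟮vnk_j A L⟯ (f0Field A L) :=
    Algebra.IsAlgebraic.isSeparable_of_perfectField
  refine vnoeth_main (k0Val A) (vnk_O A L v₁) (vnk_hdom A L v₁) (vnk_j A L)
    (vnk_j_transcendental A L) (vnk_hunit A L v₁ hj₁ hjbar) (f0Aff A L v₁.O v₂.O v₃.O)
    ?_ ?_ ?_ ?_ ?_
  · intro a
    rw [mem_f0Aff_iff]
    exact ⟨const_mem_cuspRegular L _, v₁.algebraMap_mem (k0ValIncl A a),
      v₂.algebraMap_mem (k0ValIncl A a), v₃.algebraMap_mem (k0ValIncl A a)⟩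
  · rw [mem_f0Aff_iff]
    exact ⟨jF_mem_cuspRegular L, hj₁, hj₂, hj₃⟩
  · intro x hx
    exact vnk_hB₁ A L x ((mem_f0Aff_iff A L _ _ _ x).1 hx).1
  · intro x hx
    obtain ⟨-, h1, h2, h3⟩ := (mem_f0Aff_iff A L _ _ _ x).1 hx
    exact hSUM x h1 h2 h3
  · intro x hx
    exact vnk_f0Aff_closed A L v₁.O v₂.O v₃.O x hx

end Main

end Fermat.Agent.S36lib

end
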