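import Mathlib
import Fermat.Agent.S36lib.VNoethK0
import Fermat.Agent.S36lib.SetupD1
import Fermat.Agent.S24lib.FFTrans

/-!
# S36 (Carayol at `q² ∥ M`), piece V-I, GENERIC instantiation `B = f0AffD A L D O₁ O₂ O₃`

Generalisation of `VNoethK0.lean` (`vnk_main`, the case `x = j`, `D = ` all cusps):

* `x : F0(L)` is any function (instead of `j`), `D` is the set of poles of `x`;
* `O₂ O₃` are bare valuation rings of `FF L` containing the constants of `A`;
* `O₁` comes with a reduction `red : O₁ →+* κ` (`κ` any nontrivial commutative ring, e.g. `k((X))` or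
  a residue field) with kernel the maximal ideal, compatible with the residue map of `A`.

Main results: `vnkd_main_raw`, and the corollaries `vnkd_main_resVal` (`O₁ = v₁.O`, `v₁ : ResVal`),
`vnkd_main_seriesVal` (`O₁ = v₁.O`, `v₁ : SeriesVal`), `vnkd_main_j` (`x = j`, `f0Aff`).
-/

set_option autoImplicit false
set_option linter.style.haveILetI false
set_option linter.unusedSectionVars false

noncomputable section

namespace Fermat.Agent.S36lib

open ModularCurve AlgebraicCurve Polynomial IntermediateField IsDedekindDomain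
open Fermat.Agent.S24lib Fermat.Agent.S34lib Fermat.Agent.S28lib

/-! ### regular off the poles of `x` ⇒ integral over `ℚ̄[x]` -/

/-- a function regular at every place outside `D`, where `x` has a pole at every place of `D`,
is integral over `ℚ̄[x]`. -/
theorem vnkd_isIntegral_of_offRegular (L : ℕ) [NeZero L] (x : FF L)
    (hx : Transcendental Kbar x) (D : Set (Place Kbar (FF L)))
    (hD : ∀ P : Place Kbar (FF L), P ∈ D → x ∉ P.toValuationSubring)
    (f : FF L) (hf : f ∈ offRegular L D) :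
    IsIntegral (Algebra.adjoin Kbar ({x} : Set (FF L))) f := by
  haveI : FFData Kbar (jF L) := fin_ffData L
  haveI : FFData Kbar x := FFData.of_transcendental (x := jF L) hx
  haveI hDed : IsDedekindDomain (ffS Kbar x) := FFData.instDedekindS
  haveI hFrac : IsFractionRing (ffS Kbar x) (FF L) := FFData.instFracS
  have hval : ∀ Q : HeightOneSpectrum (ffS Kbar x), Q.valuation (FF L) f ≤ 1 := by
    intro Q
    have hxQ : x ∈ (ffPlaceOfPrime Q).toValuationSubring := by
      rw [ffPlaceOfPrime_toValuationSubring, Valuation.mem_valuationSubring_iff]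
      exact Q.valuation_le_one (K := FF L) (⟨x, ffx_mem_S⟩ : ffS Kbar x)
    have hfQ := (mem_offRegular_iff L D f).1 hf (ffPlaceOfPrime Q) fun hP => hD _ hP hxQ
    rwa [ffPlaceOfPrime_toValuationSubring, Valuation.mem_valuationSubring_iff] at hfQ
  obtain ⟨s, hs⟩ := HeightOneSpectrum.mem_integers_of_valuation_le_one (FF L) f hval
  rw [← hs]
  exact s.2

/-- the same in the polynomial form, over any subfield `K₀ ⊆ ℚ̄`. -/
theorem vnkd_isIntegralElem_of_offRegular {K₀ : Type*} [Field K₀] [Algebra K₀ Kbar]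
    (L : ℕ) [NeZero L] [Algebra K₀ (FF L)] [IsScalarTower K₀ Kbar (FF L)]
    [Algebra.IsAlgebraic K₀ Kbar] (x : FF L) (hx : Transcendental Kbar x)
    (D : Set (Place Kbar (FF L)))
    (hD : ∀ P : Place Kbar (FF L), P ∈ D → x ∉ P.toValuationSubring)
    (f : FF L) (hf : f ∈ offRegular L D) :
    (Polynomial.aeval (R := K₀) x).toRingHom.IsIntegralElem f :=
  vnk_isIntegralElem_descent (K := Kbar) x f
    ((isIntegral_adjoin_singleton_iff x f).1 (vnkd_isIntegral_of_offRegular L x hx D hD f hf))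

/-! ### `f0AffD` is integrally closed in `F0(L)` -/

set_option synthInstance.maxHeartbeats 400000 in
/-- **`f0AffD` is integrally closed in `F0(L)`.** -/
theorem vnkd_f0AffD_closed (A : ValuationSubring Kbar) (L : ℕ) [NeZero L]
    (D : Set (Place Kbar (FF L))) (O₁ O₂ O₃ : ValuationSubring (FF L)) (x : f0Field A L)
    (hx : IsIntegral (f0AffD A L D O₁ O₂ O₃) x) : x ∈ f0AffD A L D O₁ O₂ O₃ := by
  rw [mem_f0AffD_iff]
  refine ⟨?_, ?_, ?_, ?_⟩
  · rw [mem_offRegular_iff]
    intro P hP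
    exact vnk_mem_valuationSubring_of_isIntegral (algebraMap (f0Field A L) (FF L))
      P.toValuationSubring _
      (fun b hb => (mem_offRegular_iff L D _).1 ((mem_f0AffD_iff A L D _ _ _ b).1 hb).1 P hP) x hx
  · exact vnk_mem_valuationSubring_of_isIntegral (algebraMap (f0Field A L) (FF L)) O₁ _
      (fun b hb => ((mem_f0AffD_iff A L D _ _ _ b).1 hb).2.1) x hx
  · exact vnk_mem_valuationSubring_of_isIntegral (algebraMap (f0Field A L) (FF L)) O₂ _
      (fun b hb => ((mem_f0AffD_iff A L D _ _ _ b).1 hb).2.2.1) x hx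
  · exact vnk_mem_valuationSubring_of_isIntegral (algebraMap (f0Field A L) (FF L)) O₃ _
      (fun b hb => ((mem_f0AffD_iff A L D _ _ _ b).1 hb).2.2.2) x hx

/-! ### the Gauss hypotheses from a raw reduction -/

section RawGauss

variable {K : Type*} [Field K] {A : ValuationSubring K} {κ : Type*} [CommRing κ]
  [Algebra (IsLocalRing.ResidueField A) κ] {F : Type*} [Field F] [Algebra K F]
  (O : ValuationSubring F) (red : O →+* κ)
  (hc : ∀ a : A, algebraMap K F (a : K) ∈ O)
  (hrc : ∀ a : A, red ⟨algebraMap K F (a : K), hc a⟩ =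
    algebraMap (IsLocalRing.ResidueField A) κ (IsLocalRing.residue A a))
  (hr0 : ∀ x : O, red x = 0 ↔ (x : F) ∈ O.nonunits)

include hrc hr0 in
/-- `O ∩ K = A` for a valuation ring of `F` over `A` with compatible reduction. -/
theorem vnkd_mem_of_algebraMap_mem (c : K) (hcO : algebraMap K F c ∈ O) : c ∈ A := by
  by_contra hcA
  have hc0 : c ≠ 0 := fun h => hcA (h ▸ A.zero_mem)
  have hinv : c⁻¹ ∈ A := (A.mem_or_inv_mem c).resolve_left hcA
  have hnu : ¬ IsUnit (⟨c⁻¹, hinv⟩ : A) := by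
    intro hu
    obtain ⟨u, hu⟩ := hu
    apply hcA
    have h1 : ((u⁻¹ : Aˣ) : K) = c := by
      have h2 : ((u : A) : K) * ((u⁻¹ : Aˣ) : K) = 1 := by
        rw [← A.coe_mul, Units.mul_inv]
        rfl
      rw [hu] at h2
      have h3 : (c⁻¹ : K) * ((u⁻¹ : Aˣ) : K) = 1 := h2
      field_simp at h3
      exact h3
    rw [← h1]
    exact ((u⁻¹ : Aˣ) : A).2
  have hres : IsLocalRing.residue A ⟨c⁻¹, hinv⟩ = 0 := by
    rw [IsLocalRing.residue_eq_zero_iff]
    exact hnu
  have hred := hrc ⟨c⁻¹, hinv⟩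
  rw [hres, map_zero] at hred
  have hnon := (hr0 _).1 hred
  have hunit : algebraMap K F c⁻¹ ∉ O.nonunits := by
    rw [ValuationSubring.mem_nonunits_iff_exists_mem_maximalIdeal]
    rintro ⟨h, hm⟩
    have : IsUnit (⟨algebraMap K F c⁻¹, h⟩ : O) := by
      refine IsUnit.of_mul_eq_one (⟨algebraMap K F c, hcO⟩ : O) (Subtype.ext ?_)
      show algebraMap K F c⁻¹ * algebraMap K F c = 1
      rw [← map_mul, inv_mul_cancel₀ hc0, map_one]
    exact hm this
  exact hunit hnon

/-- the constants `A → O`. -/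
def vnkd_const : A →+* O :=
  ((algebraMap K F).comp A.subtype).codRestrict O.toSubring fun a => hc a

include hrc hr0 in
/-- a polynomial in `x` with coefficients in `A` and nonzero reduction is a unit of `O`, if the
reduction of `x` is transcendental over the residue field of `A`. -/
theorem vnkd_unit_of_transcendental (x : F)
    (hx : x ∈ O) (hxbar : Transcendental (IsLocalRing.ResidueField A) (red ⟨x, hx⟩))
    (P : A[X]) (hP : P.map (IsLocalRing.residue A) ≠ 0) :
    ∃ u ∈ O, Polynomial.aeval x (P.map (algebraMap A K)) * u = 1 := by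
  set g : A[X] →+* O := Polynomial.eval₂RingHom (vnkd_const O hc) ⟨x, hx⟩ with hg
  have hcoe : ∀ Q : A[X], ((g Q : O) : F) = Polynomial.aeval x (Q.map (algebraMap A K)) := by
    intro Q
    have h1 : (O.subtype.comp g) = ((Polynomial.aeval x : K[X] →ₐ[K] F) : K[X] →+* F).comp
        (Polynomial.mapRingHom (algebraMap A K)) := by
      refine Polynomial.ringHom_ext (fun a => ?_) ?_
      · rw [RingHom.comp_apply, RingHom.comp_apply, hg, Polynomial.coe_eval₂RingHom,
          Polynomial.eval₂_C, Polynomial.coe_mapRingHom, Polynomial.map_C, RingHom.coe_coe,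
          Polynomial.aeval_C]
        rfl
      · rw [RingHom.comp_apply, RingHom.comp_apply, hg, Polynomial.coe_eval₂RingHom,
          Polynomial.eval₂_X, Polynomial.coe_mapRingHom, Polynomial.map_X, RingHom.coe_coe,
          Polynomial.aeval_X]
        rfl
    exact congrArg (fun φ : A[X] →+* F => φ Q) h1
  have hred : red (g P) = Polynomial.aeval (red ⟨x, hx⟩) (P.map (IsLocalRing.residue A)) := by
    have h1 : red.comp g = ((Polynomial.aeval (red ⟨x, hx⟩) :
        (IsLocalRing.ResidueField A)[X] →ₐ[IsLocalRing.ResidueField A] κ) :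
        (IsLocalRing.ResidueField A)[X] →+* κ).comp
        (Polynomial.mapRingHom (IsLocalRing.residue A)) := by
      refine Polynomial.ringHom_ext (fun a => ?_) ?_
      · rw [RingHom.comp_apply, RingHom.comp_apply, hg, Polynomial.coe_eval₂RingHom,
          Polynomial.eval₂_C, Polynomial.coe_mapRingHom, Polynomial.map_C, RingHom.coe_coe,
          Polynomial.aeval_C]
        exact hrc a
      · rw [RingHom.comp_apply, RingHom.comp_apply, hg, Polynomial.coe_eval₂RingHom,
          Polynomial.eval₂_X, Polynomial.coe_mapRingHom, Polynomial.map_X, RingHom.coe_coe,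
          Polynomial.aeval_X]
    exact congrArg (fun φ : A[X] →+* κ => φ P) h1
  have hne : red (g P) ≠ 0 := by
    rw [hred]
    exact fun h0 => hP ((transcendental_iff.1 hxbar) _ h0)
  have hunit : IsUnit (g P) := by
    by_contra hnu
    apply hne
    rw [hr0, ValuationSubring.mem_nonunits_iff_exists_mem_maximalIdeal]
    exact ⟨(g P).2, hnu⟩
  obtain ⟨u, hu⟩ := hunit.exists_right_inv
  refine ⟨(u : F), u.2, ?_⟩
  rw [← hcoe]
  exact congrArg Subtype.val hu

include hrc hr0 in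
/-- if the reduction of `x` is transcendental over the residue field, `x` is not a constant. -/
theorem vnkd_ne_const (x : F) (hx : x ∈ O)
    (hxbar : Transcendental (IsLocalRing.ResidueField A) (red ⟨x, hx⟩)) (c : K) :
    algebraMap K F c ≠ x := by
  intro hcx
  have hcO : algebraMap K F c ∈ O := hcx ▸ hx
  have hcA : c ∈ A := vnkd_mem_of_algebraMap_mem O red hc hrc hr0 c hcO
  apply hxbar
  have h1 : red ⟨x, hx⟩ = algebraMap (IsLocalRing.ResidueField A) κ
      (IsLocalRing.residue A ⟨c, hcA⟩) := by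
    rw [← hrc ⟨c, hcA⟩]
    congr 1
    exact Subtype.ext hcx.symm
  rw [h1]
  exact isAlgebraic_algebraMap _

end RawGauss

/-! ### the instantiation -/

section Main

variable (A : ValuationSubring Kbar) (L : ℕ) [NeZero L]
  {κ : Type*} [CommRing κ] [Algebra (IsLocalRing.ResidueField A) κ]
  (O₁ : ValuationSubring (FF L)) (red : O₁ →+* κ)
  (hc₁ : ∀ a : A, algebraMap Kbar (FF L) (a : Kbar) ∈ O₁)
  (hrc : ∀ a : A, red ⟨algebraMap Kbar (FF L) (a : Kbar), hc₁ a⟩ =
    algebraMap (IsLocalRing.ResidueField A) κ (IsLocalRing.residue A a))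
  (hr0 : ∀ x : O₁, red x = 0 ↔ (x : FF L) ∈ O₁.nonunits)

include hrc hr0 in
/-- `x` with transcendental reduction is transcendental over `ℚ̄`. -/
theorem vnkd_transcendental_bar (x : FF L) (hx : x ∈ O₁)
    (hxbar : Transcendental (IsLocalRing.ResidueField A) (red ⟨x, hx⟩)) :
    Transcendental Kbar x :=
  ffTranscendental_of_not_const (vnkd_ne_const O₁ red hc₁ hrc hr0 x hx hxbar)

include hrc hr0 in
/-- `x ∈ F0(L)` with transcendental reduction is transcendental over `K0`. -/
theorem vnkd_transcendental (x : f0Field A L) (hx : (x : FF L) ∈ O₁)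
    (hxbar : Transcendental (IsLocalRing.ResidueField A) (red ⟨x, hx⟩)) :
    Transcendental (k0Field A) x := by
  have h1 : Transcendental Kbar (x : FF L) :=
    vnkd_transcendental_bar A L O₁ red hc₁ hrc hr0 x hx hxbar
  have h2 : Transcendental (k0Field A) (x : FF L) :=
    Transcendental.of_tower_top (K := ↥(k0Field A)) (L := Kbar) h1
  intro halg
  apply h2
  have := halg.algebraMap (A := FF L)
  simpa using this

include hrc hr0 in
omit [NeZero L] in
theorem vnkd_hdom (c : k0Field A)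
    (hc : algebraMap (k0Field A) (f0Field A L) c ∈
      O₁.comap (algebraMap (f0Field A L) (FF L))) : c ∈ k0Val A := by
  rw [mem_k0Val_iff]
  exact vnkd_mem_of_algebraMap_mem O₁ red hc₁ hrc hr0 (c : Kbar) hc

include hrc hr0 in
theorem vnkd_hunit (x : f0Field A L) (hx : (x : FF L) ∈ O₁)
    (hxbar : Transcendental (IsLocalRing.ResidueField A) (red ⟨x, hx⟩))
    (p : (k0Field A)[X]) (hp : ∀ n, p.coeff n ∈ k0Val A) (h1 : ∃ n, p.coeff n = 1) :
    ∃ u ∈ O₁.comap (algebraMap (f0Field A L) (FF L)), Polynomial.aeval x p * u = 1 := by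
  -- lift `p` to `A[X]`
  have hlift : p ∈ Polynomial.lifts (algebraMap (k0Val A) (k0Field A)) := by
    rw [Polynomial.lifts_iff_coeff_lifts]
    intro n
    exact ⟨⟨_, hp n⟩, rfl⟩
  obtain ⟨P₀, hP₀⟩ := hlift
  set P : A[X] := P₀.map (k0ValIncl A) with hP
  have hPmap : P.map (algebraMap A Kbar) = p.map (algebraMap (k0Field A) Kbar) := by
    rw [hP, ← hP₀, Polynomial.coe_mapRingHom, Polynomial.map_map, Polynomial.map_map]
    rfl
  have hPres : P.map (IsLocalRing.residue A) ≠ 0 := by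
    obtain ⟨n, hn⟩ := h1
    intro h0
    have h2 : (P.map (IsLocalRing.residue A)).coeff n = 0 := by rw [h0, Polynomial.coeff_zero]
    rw [Polynomial.coeff_map, hP, Polynomial.coeff_map] at h2
    have h3 : k0ValIncl A (P₀.coeff n) = 1 := by
      apply Subtype.ext
      have h4 : ((P₀.coeff n : k0Val A) : k0Field A) = 1 := by
        have := congrArg (fun r => Polynomial.coeff r n) hP₀
        rw [Polynomial.coe_mapRingHom] at this
        simp only [Polynomial.coeff_map] at this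
        rw [hn] at this
        exact this
      have h5 : ((k0ValIncl A (P₀.coeff n) : A) : Kbar) =
          (((P₀.coeff n : k0Val A) : k0Field A) : Kbar) := rfl
      rw [h5, h4]
      rfl
    rw [h3, map_one] at h2
    exact one_ne_zero h2
  obtain ⟨u', hu'O, hu'⟩ := vnkd_unit_of_transcendental O₁ red hc₁ hrc hr0 (x : FF L) hx hxbar
    P hPres
  have hval : Polynomial.aeval (x : FF L) (P.map (algebraMap A Kbar)) =
      ((Polynomial.aeval x p : f0Field A L) : FF L) := by
    rw [hPmap, Polynomial.aeval_map_algebraMap]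
    exact Polynomial.aeval_algebraMap_apply (FF L) x p
  rw [hval] at hu'
  have hne : Polynomial.aeval x p ≠ 0 := by
    intro h0
    rw [h0] at hu'
    simp at hu'
  refine ⟨(Polynomial.aeval x p)⁻¹, ?_, mul_inv_cancel₀ hne⟩
  show (((Polynomial.aeval x p)⁻¹ : f0Field A L) : FF L) ∈ O₁
  have hu'eq : (((Polynomial.aeval x p)⁻¹ : f0Field A L) : FF L) = u' := by
    rw [IntermediateField.coe_inv]
    exact inv_eq_of_mul_eq_one_right hu'
  rw [hu'eq]
  exact hu'O

/-- regular off the poles of `x` ⇒ integral over `K0[x]`, inside `F0(L)`. -/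
theorem vnkd_hB₁ (x : f0Field A L) (hx : Transcendental Kbar (x : FF L))
    (D : Set (Place Kbar (FF L)))
    (hD : ∀ P : Place Kbar (FF L), P ∈ D → (x : FF L) ∉ P.toValuationSubring)
    (f : f0Field A L) (hf : (f : FF L) ∈ offRegular L D) :
    IsIntegral (Algebra.adjoin (k0Field A) ({x} : Set (f0Field A L))) f := by
  haveI : Algebra.IsAlgebraic ℚ Kbar := AlgebraicClosure.isAlgebraic ℚ
  haveI : Algebra.IsAlgebraic (k0Field A) Kbar :=
    Algebra.IsAlgebraic.tower_top (K := ℚ) (k0Field A)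
  rw [isIntegral_adjoin_singleton_iff]
  have h1 := vnkd_isIntegralElem_of_offRegular (K₀ := k0Field A) L (x : FF L) hx D hD
    (f : FF L) hf
  refine isIntegralElem_of_map (algebraMap (f0Field A L) (FF L))
    (algebraMap (f0Field A L) (FF L)).injective ?_
  have hcomp : (algebraMap (f0Field A L) (FF L)).comp
      (Polynomial.aeval (R := k0Field A) x).toRingHom =
      (Polynomial.aeval (R := k0Field A) (x : FF L)).toRingHom := by
    refine Polynomial.ringHom_ext (fun a => ?_) ?_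
    · simp
    · simp
  rw [hcomp]
  exact h1

include hrc hr0 in
set_option synthInstance.maxHeartbeats 400000 in
set_option maxHeartbeats 1000000 in
/-- **V-I, generic**: `B = f0AffD A L D O₁ O₂ O₃` is Noetherian and `F0(L) = Frac B`, where
`D` is the set of poles of `x ∈ F0(L)`.
Hypotheses: `A0` is a DVR (K0-1); `O₁` has a reduction `red` (kernel = maximal ideal, compatible
with the residue map of `A`); `O₂, O₃` contain `A`; `x ∈ O_i`; `red x` transcendental over `k`;
`[F0(L) : K0(x)] < ∞`; and (SUM): an element of `F0(L)` in the three valuation rings is integral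
over the Gauss valuation ring `O₁ ∩ K0(x)`. -/
theorem vnkd_main_raw [IsPrincipalIdealRing (k0Val A)]
    (O₂ O₃ : ValuationSubring (FF L))
    (hc₂ : ∀ a : A, algebraMap Kbar (FF L) (a : Kbar) ∈ O₂)
    (hc₃ : ∀ a : A, algebraMap Kbar (FF L) (a : Kbar) ∈ O₃)
    (x : f0Field A L) (D : Set (Place Kbar (FF L)))
    (hxD : ∀ P : Place Kbar (FF L), P ∈ D ↔ (x : FF L) ∉ P.toValuationSubring)
    (hx₁ : (x : FF L) ∈ O₁) (hx₂ : (x : FF L) ∈ O₂) (hx₃ : (x : FF L) ∈ O₃)
    (hxbar : Transcendental (IsLocalRing.ResidueField A) (red ⟨x, hx₁⟩))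
    [FiniteDimensional (k0Field A)⟮x⟯ (f0Field A L)]
    (hSUM : ∀ z : f0Field A L, (z : FF L) ∈ O₁ → (z : FF L) ∈ O₂ → (z : FF L) ∈ O₃ →
      IsIntegral ((O₁.comap (algebraMap (f0Field A L) (FF L))).comap
        (algebraMap (k0Field A)⟮x⟯ (f0Field A L))) z) :
    IsNoetherianRing (f0AffD A L D O₁ O₂ O₃) ∧
      ∀ z : f0Field A L, ∃ a b : f0AffD A L D O₁ O₂ O₃,
        b ≠ 0 ∧ z * (b : f0Field A L) = (a : f0Field A L) := by
  haveI : CharZero (k0Field A)⟮x⟯ := charZero_of_injective_algebraMap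
    (algebraMap ℚ (k0Field A)⟮x⟯).injective
  haveI : Algebra.IsAlgebraic (k0Field A)⟮x⟯ (f0Field A L) :=
    Algebra.IsAlgebraic.of_finite _ _
  haveI : Algebra.IsSeparable (k0Field A)⟮x⟯ (f0Field A L) :=
    Algebra.IsAlgebraic.isSeparable_of_perfectField
  have hxtr : Transcendental Kbar (x : FF L) :=
    vnkd_transcendental_bar A L O₁ red hc₁ hrc hr0 x hx₁ hxbar
  refine vnoeth_main (k0Val A) (O₁.comap (algebraMap (f0Field A L) (FF L)))
    (vnkd_hdom A L O₁ red hc₁ hrc hr0) x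
    (vnkd_transcendental A L O₁ red hc₁ hrc hr0 x hx₁ hxbar)
    (vnkd_hunit A L O₁ red hc₁ hrc hr0 x hx₁ hxbar) (f0AffD A L D O₁ O₂ O₃)
    ?_ ?_ ?_ ?_ ?_
  · intro a
    rw [mem_f0AffD_iff]
    exact ⟨const_mem_offRegular L D _, hc₁ (k0ValIncl A a), hc₂ (k0ValIncl A a),
      hc₃ (k0ValIncl A a)⟩
  · rw [mem_f0AffD_iff]
    refine ⟨?_, hx₁, hx₂, hx₃⟩
    rw [mem_offRegular_iff]
    intro P hP
    by_contra hxP
    exact hP ((hxD P).2 hxP)
  · intro f hf
    exact vnkd_hB₁ A L x hxtr D (fun P hP => (hxD P).1 hP) f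
      ((mem_f0AffD_iff A L D _ _ _ f).1 hf).1
  · intro f hf
    obtain ⟨-, h1, h2, h3⟩ := (mem_f0AffD_iff A L D _ _ _ f).1 hf
    exact hSUM f h1 h2 h3
  · intro f hf
    exact vnkd_f0AffD_closed A L D O₁ O₂ O₃ f hf

end Main

/-! ### corollaries -/

section Cor

variable (A : ValuationSubring Kbar) (L : ℕ) [NeZero L]

set_option synthInstance.maxHeartbeats 400000 in
/-- `vnkd_main_raw` with `O₁` the valuation ring of a `ResVal`. -/
theorem vnkd_main_resVal [IsPrincipalIdealRing (k0Val A)]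
    {κ : Type*} [Field κ] [Algebra (IsLocalRing.ResidueField A) κ]
    (v₁ : ResVal A (IsLocalRing.residue A) κ (FF L))
    (O₂ O₃ : ValuationSubring (FF L))
    (hc₂ : ∀ a : A, algebraMap Kbar (FF L) (a : Kbar) ∈ O₂)
    (hc₃ : ∀ a : A, algebraMap Kbar (FF L) (a : Kbar) ∈ O₃)
    (x : f0Field A L) (D : Set (Place Kbar (FF L)))
    (hxD : ∀ P : Place Kbar (FF L), P ∈ D ↔ (x : FF L) ∉ P.toValuationSubring)
    (hx₁ : (x : FF L) ∈ v₁.O) (hx₂ : (x : FF L) ∈ O₂) (hx₃ : (x : FF L) ∈ O₃)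
    (hxbar : Transcendental (IsLocalRing.ResidueField A) (v₁.red ⟨x, hx₁⟩))
    [FiniteDimensional (k0Field A)⟮x⟯ (f0Field A L)]
    (hSUM : ∀ z : f0Field A L, (z : FF L) ∈ v₁.O → (z : FF L) ∈ O₂ → (z : FF L) ∈ O₃ →
      IsIntegral ((v₁.O.comap (algebraMap (f0Field A L) (FF L))).comap
        (algebraMap (k0Field A)⟮x⟯ (f0Field A L))) z) :
    IsNoetherianRing (f0AffD A L D v₁.O O₂ O₃) ∧
      ∀ z : f0Field A L, ∃ a b : f0AffD A L D v₁.O O₂ O₃,
        b ≠ 0 ∧ z * (b : f0Field A L) = (a : f0Field A L) :=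
  vnkd_main_raw A L v₁.O v₁.red v₁.algebraMap_mem v₁.red_algebraMap v₁.red_eq_zero_iff
    O₂ O₃ hc₂ hc₃ x D hxD hx₁ hx₂ hx₃ hxbar hSUM

set_option synthInstance.maxHeartbeats 400000 in
/-- `vnkd_main_raw` with `O₁` the valuation ring of a `SeriesVal` (reduction into `k((X))`). -/
theorem vnkd_main_seriesVal [IsPrincipalIdealRing (k0Val A)]
    (v₁ : SeriesVal A L)
    (O₂ O₃ : ValuationSubring (FF L))
    (hc₂ : ∀ a : A, algebraMap Kbar (FF L) (a : Kbar) ∈ O₂)
    (hc₃ : ∀ a : A, algebraMap Kbar (FF L) (a : Kbar) ∈ O₃)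
    (x : f0Field A L) (D : Set (Place Kbar (FF L)))
    (hxD : ∀ P : Place Kbar (FF L), P ∈ D ↔ (x : FF L) ∉ P.toValuationSubring)
    (hx₁ : (x : FF L) ∈ v₁.O) (hx₂ : (x : FF L) ∈ O₂) (hx₃ : (x : FF L) ∈ O₃)
    (hxbar : Transcendental (IsLocalRing.ResidueField A) (v₁.red ⟨x, hx₁⟩))
    [FiniteDimensional (k0Field A)⟮x⟯ (f0Field A L)]
    (hSUM : ∀ z : f0Field A L, (z : FF L) ∈ v₁.O → (z : FF L) ∈ O₂ → (z : FF L) ∈ O₃ →
      IsIntegral ((v₁.O.comap (algebraMap (f0Field A L) (FF L))).comap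
        (algebraMap (k0Field A)⟮x⟯ (f0Field A L))) z) :
    IsNoetherianRing (f0AffD A L D v₁.O O₂ O₃) ∧
      ∀ z : f0Field A L, ∃ a b : f0AffD A L D v₁.O O₂ O₃,
        b ≠ 0 ∧ z * (b : f0Field A L) = (a : f0Field A L) :=
  vnkd_main_raw A L v₁.O v₁.red v₁.algebraMap_mem v₁.red_algebraMap v₁.red_eq_zero_iff
    O₂ O₃ hc₂ hc₃ x D hxD hx₁ hx₂ hx₃ hxbar hSUM

set_option synthInstance.maxHeartbeats 400000 in
/-- **V-I for `B_j = f0Aff A L O₁ O₂ O₃`** (`x = j`, `D` = all cusps), `O₁` from a `SeriesVal`,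
`O₂ O₃` bare valuation rings containing the constants of `A`. -/
theorem vnkd_main_j [IsPrincipalIdealRing (k0Val A)]
    (v₁ : SeriesVal A L)
    (O₂ O₃ : ValuationSubring (FF L))
    (hc₂ : ∀ a : A, algebraMap Kbar (FF L) (a : Kbar) ∈ O₂)
    (hc₃ : ∀ a : A, algebraMap Kbar (FF L) (a : Kbar) ∈ O₃)
    (hj₁ : jF L ∈ v₁.O) (hj₂ : jF L ∈ O₂) (hj₃ : jF L ∈ O₃)
    (hjbar : Transcendental (IsLocalRing.ResidueField A) (v₁.red ⟨jF L, hj₁⟩))
    [FiniteDimensional (k0Field A)⟮vnk_j A L⟯ (f0Field A L)]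
    (hSUM : ∀ z : f0Field A L, (z : FF L) ∈ v₁.O → (z : FF L) ∈ O₂ → (z : FF L) ∈ O₃ →
      IsIntegral ((v₁.O.comap (algebraMap (f0Field A L) (FF L))).comap
        (algebraMap (k0Field A)⟮vnk_j A L⟯ (f0Field A L))) z) :
    IsNoetherianRing (f0Aff A L v₁.O O₂ O₃) ∧
      ∀ z : f0Field A L, ∃ a b : f0Aff A L v₁.O O₂ O₃,
        b ≠ 0 ∧ z * (b : f0Field A L) = (a : f0Field A L) := by
  rw [f0Aff_eq_f0AffD]
  exact vnkd_main_seriesVal A L v₁ O₂ O₃ hc₂ hc₃ (vnk_j A L)
    {P | jF L ∉ P.toValuationSubring} (fun _ => Iff.rfl) hj₁ hj₂ hj₃ hjbar hSUM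

set_option synthInstance.maxHeartbeats 400000 in
/-- **V-I for `B_j = f0Aff A L O₁ O₂ O₃`** (`x = j`, `D` = all cusps), `O₁` from a `ResVal`,
`O₂ O₃` bare valuation rings containing the constants of `A`. -/
theorem vnkd_main_j_resVal [IsPrincipalIdealRing (k0Val A)]
    {κ : Type*} [Field κ] [Algebra (IsLocalRing.ResidueField A) κ]
    (v₁ : ResVal A (IsLocalRing.residue A) κ (FF L))
    (O₂ O₃ : ValuationSubring (FF L))
    (hc₂ : ∀ a : A, algebraMap Kbar (FF L) (a : Kbar) ∈ O₂)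
    (hc₃ : ∀ a : A, algebraMap Kbar (FF L) (a : Kbar) ∈ O₃)
    (hj₁ : jF L ∈ v₁.O) (hj₂ : jF L ∈ O₂) (hj₃ : jF L ∈ O₃)
    (hjbar : Transcendental (IsLocalRing.ResidueField A) (v₁.red ⟨jF L, hj₁⟩))
    [FiniteDimensional (k0Field A)⟮vnk_j A L⟯ (f0Field A L)]
    (hSUM : ∀ z : f0Field A L, (z : FF L) ∈ v₁.O → (z : FF L) ∈ O₂ → (z : FF L) ∈ O₃ →
      IsIntegral ((v₁.O.comap (algebraMap (f0Field A L) (FF L))).comap
        (algebraMap (k0Field A)⟮vnk_j A L⟯ (f0Field A L))) z) :
    IsNoetherianRing (f0Aff A L v₁.O O₂ O₃) ∧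
      ∀ z : f0Field A L, ∃ a b : f0Aff A L v₁.O O₂ O₃,
        b ≠ 0 ∧ z * (b : f0Field A L) = (a : f0Field A L) := by
  rw [f0Aff_eq_f0AffD]
  exact vnkd_main_resVal A L v₁ O₂ O₃ hc₂ hc₃ (vnk_j A L)
    {P | jF L ∉ P.toValuationSubring} (fun _ => Iff.rfl) hj₁ hj₂ hj₃ hjbar hSUM

end Cor

end Fermat.Agent.S36lib

end
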