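import Mathlib
import Fermat.Agent.S36lib.D1LevelInt
import Fermat.Agent.S36lib.D1Hor
import Fermat.Agent.S36lib.VNoethK0D
import Fermat.Agent.S36lib.VDeg

/-!
# Item 83 (S36), piece D1-A (helper28): `B_{D1}` is Noetherian with fraction field `F0(M' q²)`

Level `M = M' q²`, `π₁ = ecPi1 M' q : F_{M'} → F_M`, `D1 = s36D1` the places over `∞'`,
`B_{D1} = f0AffD A M D1 O₁ O₂ O₃`.

* `d1aPi1`: `π₁` on `F0`;
* `d1a_coeff_mem`: the coefficients of the minimal polynomial over `F_{M'}` of `b ∈ B_{D1}` lie in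
  the affine ring `B' = d1lRing A R'` of level `M'` (D1-H of helper23 + the vertical integrality
  (P4) of helper2);
* `d1a_isIntegralElem`: every element of `B_{D1}` is integral over `A0[π₁ g]`, `g` a good
  function of level `M'` (`D1LevelInt`);
* `d1a_abs_main`: the abstract conclusion (Noetherian + fraction field) from integrality over
  `A₀[x]` (tail of helper1's `vnoeth_main`);
* **`d1a_main`**: `IsNoetherianRing B_{D1}` and `F0(M) = Frac B_{D1}`.
-/

set_option autoImplicit false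
set_option linter.style.haveILetI false
set_option linter.unusedSectionVars false
set_option synthInstance.maxHeartbeats 400000

noncomputable section

namespace Fermat.Agent.S36lib

open AlgebraicCurve ModularCurve IntermediateField HahnSeries Polynomial
open Fermat.Agent.S24lib Fermat.Agent.GoodRed Fermat.Agent.GM Fermat.Agent.S34lib
  Fermat.Agent.RRlib Fermat.Agent.HeckeBar Fermat.Agent.S35lib Fermat.Agent.S37lib

/-! ### the abstract conclusion -/

section Abs

open scoped IntermediateField.algebraAdjoinAdjoin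

variable {K₀ F : Type*} [Field K₀] [Field F] [Algebra K₀ F]

/-- `A₀` a principal valuation ring of `K₀`, `x ∈ F` transcendental over `K₀` with `F / K₀(x)`
finite separable, `B ⊆ F` a subring, integrally closed in `F`, containing `A₀` and `x`, all of
whose elements are integral over `A₀[x]`.  Then `B` is Noetherian and `F = Frac B`. -/
theorem d1a_abs_main (A₀ : ValuationSubring K₀) [IsPrincipalIdealRing A₀]
    (x : F) (hx : Transcendental K₀ x)
    [FiniteDimensional K₀⟮x⟯ F] [Algebra.IsSeparable K₀⟮x⟯ F]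
    (B : Subring F) (hA₀B : ∀ a : A₀, algebraMap K₀ F (a : K₀) ∈ B) (hxB : x ∈ B)
    (hint : ∀ y ∈ B, (Polynomial.aeval x : A₀[X] →ₐ[A₀] F).toRingHom.IsIntegralElem y)
    (hBcl : ∀ y : F, IsIntegral B y → y ∈ B) :
    IsNoetherianRing B ∧ ∀ z : F, ∃ a b : B, b ≠ 0 ∧ z * (b : F) = (a : F) := by
  letI algK : Algebra A₀[X] K₀⟮x⟯ := (vnoeth_evalK A₀ x).toAlgebra
  letI algF : Algebra A₀[X] F :=
    ((Polynomial.aeval x : A₀[X] →ₐ[A₀] F) : A₀[X] →+* F).toAlgebra
  haveI : IsScalarTower A₀[X] K₀⟮x⟯ F :=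
    IsScalarTower.of_algebraMap_eq fun Q => (vnoeth_evalK_coe A₀ x Q).symm
  haveI : FaithfulSMul A₀[X] K₀⟮x⟯ :=
    (faithfulSMul_iff_algebraMap_injective _ _).2 (vnoeth_evalK_injective A₀ x hx)
  haveI : IsFractionRing A₀[X] K₀⟮x⟯ := IsFractionRing.of_field _ _ (vnoeth_evalK_surj A₀ x)
  have hRB : ∀ r : A₀[X], algebraMap A₀[X] F r ∈ B := by
    intro r
    show aeval x r ∈ B
    induction r using Polynomial.induction_on with
    | C a =>
      rw [Polynomial.aeval_C]
      exact hA₀B a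
    | add p q hp hq =>
      rw [map_add]
      exact B.add_mem hp hq
    | monomial n a h =>
      rw [pow_succ, ← mul_assoc, map_mul, Polynomial.aeval_X]
      exact B.mul_mem h hxB
  have hint' : ∀ y ∈ B, IsIntegral A₀[X] y := fun y hy => hint y hy
  have hcl : ∀ y : F, IsIntegral A₀[X] y → y ∈ B := by
    intro y hy
    refine hBcl y ?_
    obtain ⟨q, hqm, hq⟩ := hy
    let ψ : A₀[X] →+* B := (algebraMap A₀[X] F).codRestrict B hRB
    refine ⟨q.map ψ, hqm.map ψ, ?_⟩
    rw [Polynomial.eval₂_map]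
    exact hq
  exact ⟨vnoeth_noeth K₀⟮x⟯ B hRB hint', vnoeth_frac K₀⟮x⟯ B hcl⟩

end Abs

variable (A : ValuationSubring Kbar) (M' q : ℕ) [NeZero M'] [NeZero q]

/-- `π₁` preserves `F0` -/
theorem d1a_pi1_mem (g : FF M') (hg : g ∈ f0Field A M') :
    ecPi1 M' q g ∈ f0Field A (M' * q * q) := by
  rw [mem_f0Field_iff_isIFixed] at hg ⊢
  intro σ hσ
  rw [d1h_gal_pi1, hg σ hσ]

/-- `π₁` on `F0` -/
def d1aPi1 : f0Field A M' →+* f0Field A (M' * q * q) where
  toFun := fun g => ⟨ecPi1 M' q (g : FF M'), d1a_pi1_mem A M' q _ g.2⟩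
  map_one' := Subtype.ext (map_one (ecPi1 M' q))
  map_mul' := fun _ _ => Subtype.ext (map_mul (ecPi1 M' q) _ _)
  map_zero' := Subtype.ext (map_zero (ecPi1 M' q))
  map_add' := fun _ _ => Subtype.ext (map_add (ecPi1 M' q) _ _)

theorem coe_d1aPi1 (g : f0Field A M') :
    ((d1aPi1 A M' q g : f0Field A (M' * q * q)) : FF (M' * q * q)) = ecPi1 M' q (g : FF M') :=
  rfl

/-- `π₁ ∘ (aeval g) = aeval (π₁ g)` on `A0[X]` -/
theorem d1a_comp_aeval (g : f0Field A M') :
    (d1aPi1 A M' q).comp (Polynomial.aeval g :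
      Polynomial (k0Val A) →ₐ[k0Val A] f0Field A M').toRingHom =
    (Polynomial.aeval (d1aPi1 A M' q g) :
      Polynomial (k0Val A) →ₐ[k0Val A] f0Field A (M' * q * q)).toRingHom := by
  refine Polynomial.ringHom_ext (fun a => ?_) ?_
  · simp only [RingHom.comp_apply, AlgHom.toRingHom_eq_coe, RingHom.coe_coe, Polynomial.aeval_C]
    apply Subtype.ext
    rw [coe_d1aPi1, d1l_coe_algebraMap, d1l_coe_algebraMap, ecPi1_algebraMap]
  · simp only [RingHom.comp_apply, AlgHom.toRingHom_eq_coe, RingHom.coe_coe, Polynomial.aeval_X]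

variable (hq : q.Prime) (hqM : ¬ q ∣ M')
variable (R' : ConstRed A (IsLocalRing.residue A) (Fk (IsLocalRing.ResidueField A) M') (FF M'))

/-- a root of a monic polynomial over `F_{M'}` (along `π₁`) with coefficients in `O'` is integral
over `O'` -/
theorem d1a_isIntegral_O (O' : ValuationSubring (FF M')) (b : FF (M' * q * q))
    (hp : ∃ p : Polynomial (FF M'), p.Monic ∧ (∀ n, p.coeff n ∈ O') ∧
      Polynomial.eval₂ (ecPi1 M' q) b p = 0) :
    letI := (ecPi1 M' q).toAlgebra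
    IsIntegral O' b := by
  letI := (ecPi1 M' q).toAlgebra
  obtain ⟨p, hpm, hpc, hpb⟩ := hp
  have hlift : p ∈ Polynomial.lifts (algebraMap O' (FF M')) := by
    rw [Polynomial.lifts_iff_coeff_lifts]
    intro n
    exact ⟨⟨_, hpc n⟩, rfl⟩
  obtain ⟨p0, hp0, -, hp0m⟩ := Polynomial.lifts_and_natDegree_eq_and_monic hlift hpm
  refine ⟨p0, hp0m, ?_⟩
  rw [IsScalarTower.algebraMap_eq O' (FF M') (FF (M' * q * q)), ← Polynomial.eval₂_map, hp0]
  exact hpb

/-- the coefficients of the minimal polynomial over `F_{M'}` of a root of a monic polynomial over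
`O'` lie in `O'` -/
theorem d1a_coeff_mem_O (O' : ValuationSubring (FF M')) (b : FF (M' * q * q))
    (hp : ∃ p : Polynomial (FF M'), p.Monic ∧ (∀ n, p.coeff n ∈ O') ∧
      Polynomial.eval₂ (ecPi1 M' q) b p = 0) (n : ℕ) :
    letI := (ecPi1 M' q).toAlgebra
    (minpoly (FF M') b).coeff n ∈ O' := by
  letI := (ecPi1 M' q).toAlgebra
  have hint := d1a_isIntegral_O M' q O' b hp
  haveI : IsIntegrallyClosed O' := inferInstance
  rw [minpoly.isIntegrallyClosed_eq_field_fractions' (FF M') hint, Polynomial.coeff_map]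
  exact ((minpoly O' b).coeff n).2

/-- **the coefficients of the minimal polynomial over `F_{M'}` of `b ∈ B_{D1}` lie in `B'`** -/
theorem d1a_coeff_mem (O₁ O₂ O₃ : ValuationSubring (FF (M' * q * q)))
    (hP4 : ∀ b : FF (M' * q * q), b ∈ f0Field A (M' * q * q) → b ∈ O₁ → b ∈ O₂ → b ∈ O₃ →
      ∃ p : Polynomial (FF M'), p.Monic ∧ (∀ n, p.coeff n ∈ R'.O) ∧
        Polynomial.eval₂ (ecPi1 M' q) b p = 0)
    (b : f0Field A (M' * q * q))
    (hb : b ∈ f0AffD A (M' * q * q) (s36D1 M' q hq hqM) O₁ O₂ O₃) (n : ℕ) :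
    letI := (ecPi1 M' q).toAlgebra
    ∃ c : f0Field A M', c ∈ d1lRing A R' ∧
      (c : FF M') = (minpoly (FF M') (b : FF (M' * q * q))).coeff n := by
  letI := (ecPi1 M' q).toAlgebra
  obtain ⟨h0, h1, h2, h3⟩ := (mem_f0AffD_iff A (M' * q * q) _ _ _ _ b).1 hb
  have hfix : (minpoly (FF M') (b : FF (M' * q * q))).coeff n ∈ f0Field A M' :=
    (mem_f0Field_iff_isIFixed A M' _).2
      (d1h_coeff_fixed M' q A (b : FF (M' * q * q))
        ((mem_f0Field_iff_isIFixed A (M' * q * q) _).1 b.2) n)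
  refine ⟨⟨_, hfix⟩, ?_, rfl⟩
  rw [mem_d1lRing_iff]
  refine ⟨?_, ?_⟩
  · rw [mem_offRegular_iff]
    intro P hP
    exact d1h_coeff_reg M' q hq hqM (b : FF (M' * q * q)) h0 P (fun h => hP h) n
  · exact d1a_coeff_mem_O M' q R'.O (b : FF (M' * q * q)) (hP4 _ b.2 h1 h2 h3) n

set_option maxHeartbeats 1600000 in
/-- **D1-A, integrality**: every element of `B_{D1}` is integral over `A0[π₁ g]`. -/
theorem d1a_isIntegralElem [Fact q.Prime] (haux : IsAuxLevel q M') (hA : A.LiesOverPrime q)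
    (hR' : IsSeriesRed R') (n0 : ℕ) (hn0 : 0 < n0) (hgen : 2 * genusFF Kbar (FF M') ≤ n0)
    (g : f0Field A M') (hg : D1lGood A R' n0 g)
    (O₁ O₂ O₃ : ValuationSubring (FF (M' * q * q)))
    (hP4 : ∀ b : FF (M' * q * q), b ∈ f0Field A (M' * q * q) → b ∈ O₁ → b ∈ O₂ → b ∈ O₃ →
      ∃ p : Polynomial (FF M'), p.Monic ∧ (∀ n, p.coeff n ∈ R'.O) ∧
        Polynomial.eval₂ (ecPi1 M' q) b p = 0)
    (b : f0Field A (M' * q * q))
    (hb : b ∈ f0AffD A (M' * q * q) (s36D1 M' q hq hqM) O₁ O₂ O₃) :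
    (Polynomial.aeval (d1aPi1 A M' q g) :
      Polynomial (k0Val A) →ₐ[k0Val A] f0Field A (M' * q * q)).toRingHom.IsIntegralElem b := by
  classical
  letI algFF := (ecPi1 M' q).toAlgebra
  set ψ : Polynomial (k0Val A) →+* f0Field A (M' * q * q) :=
    (Polynomial.aeval (d1aPi1 A M' q g) :
      Polynomial (k0Val A) →ₐ[k0Val A] f0Field A (M' * q * q)).toRingHom with hψ
  letI algF : Algebra (Polynomial (k0Val A)) (f0Field A (M' * q * q)) := ψ.toAlgebra
  show IsIntegral (Polynomial (k0Val A)) b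
  -- the minimal polynomial
  haveI := d1h_algIsIntegral M' q
  have hbint : IsIntegral (FF M') (b : FF (M' * q * q)) := Algebra.IsIntegral.isIntegral _
  set m := minpoly (FF M') (b : FF (M' * q * q)) with hm
  have hmm : m.Monic := minpoly.monic hbint
  have hlift : m ∈ Polynomial.lifts (algebraMap (f0Field A M') (FF M')) := by
    rw [Polynomial.lifts_iff_coeff_lifts]
    intro n
    obtain ⟨c, -, hc⟩ := d1a_coeff_mem A M' q hq hqM R' O₁ O₂ O₃ hP4 b hb n
    exact ⟨c, hc⟩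
  obtain ⟨m0, hm0, -, hm0m⟩ := Polynomial.lifts_and_natDegree_eq_and_monic hlift hmm
  have hm0c : ∀ n, m0.coeff n ∈ d1lRing A R' := by
    intro n
    obtain ⟨c, hc, hc'⟩ := d1a_coeff_mem A M' q hq hqM R' O₁ O₂ O₃ hP4 b hb n
    have e : m0.coeff n = c := by
      apply Subtype.ext
      rw [hc', ← hm, ← hm0, Polynomial.coeff_map]
      rfl
    rw [e]
    exact hc
  -- the polynomial over `F0(M)`
  set P0 : Polynomial (f0Field A (M' * q * q)) := m0.map (d1aPi1 A M' q) with hP0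
  have hP0m : P0.Monic := hm0m.map _
  have hP0b : Polynomial.eval b P0 = 0 := by
    apply (algebraMap (f0Field A (M' * q * q)) (FF (M' * q * q))).injective
    rw [map_zero, hP0, Polynomial.eval_map, Polynomial.hom_eval₂]
    have hcomp : (algebraMap (f0Field A (M' * q * q)) (FF (M' * q * q))).comp (d1aPi1 A M' q)
        = (ecPi1 M' q).comp (algebraMap (f0Field A M') (FF M')) := rfl
    rw [hcomp, ← Polynomial.eval₂_map, hm0]
    exact minpoly.aeval (FF M') (b : FF (M' * q * q))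
  -- its coefficients are integral
  have hP0c : ∀ n, IsIntegral (Polynomial (k0Val A)) (P0.coeff n) := by
    intro n
    rw [hP0, Polynomial.coeff_map]
    obtain ⟨p, hpm, hp⟩ := d1l_level_isIntegralElem q haux hA hR' n0 hn0 hgen g hg _ (hm0c n)
    refine ⟨p, hpm, ?_⟩
    show Polynomial.eval₂ ψ _ p = 0
    rw [hψ, ← d1a_comp_aeval, ← Polynomial.hom_eval₂, hp, map_zero]
  -- lift to the integral closure
  have hlift2 : P0 ∈ Polynomial.lifts
      (algebraMap (integralClosure (Polynomial (k0Val A)) (f0Field A (M' * q * q)))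
        (f0Field A (M' * q * q))) := by
    rw [Polynomial.lifts_iff_coeff_lifts]
    intro n
    exact ⟨⟨_, hP0c n⟩, rfl⟩
  obtain ⟨Q, hQ, -, hQm⟩ := Polynomial.lifts_and_natDegree_eq_and_monic hlift2 hP0m
  have hint : IsIntegral (integralClosure (Polynomial (k0Val A)) (f0Field A (M' * q * q))) b := by
    refine ⟨Q, hQm, ?_⟩
    rw [← Polynomial.eval_map, hQ]
    exact hP0b
  exact isIntegral_trans b hint

/-- a good function of positive pole order has a pole at `∞'` -/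
theorem d1a_good_not_mem {n0 : ℕ} (hn0 : 0 < n0) {g : f0Field A M'} (hg : D1lGood A R' n0 g) :
    (g : FF M') ∉ (infPlaceBar M').toValuationSubring := by
  rw [infPlaceBar_mem_iff]
  intro h
  obtain ⟨-, u, -, hu⟩ := hg
  have hc : ((g : FF M') : LaurentSeries Kbar).coeff (-(n0 : ℤ)) = 0 := by
    apply HahnSeries.coeff_eq_zero_of_lt_order
    omega
  rw [hc, mul_zero] at hu
  exact zero_ne_one hu

/-- `π₁ g` is transcendental over `ℚ̄` -/
theorem d1a_transcendental_bar {n0 : ℕ} (hn0 : 0 < n0) {g : f0Field A M'}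
    (hg : D1lGood A R' n0 g) : Transcendental Kbar (ecPi1 M' q (g : FF M')) := by
  apply ffTranscendental_of_not_const
  intro c hc
  rw [← ecPi1_algebraMap M' q c] at hc
  have h := (ecPi1 M' q).injective hc
  apply d1a_good_not_mem A M' R' hn0 hg
  rw [← h]
  exact (infPlaceBar M').algebraMap_mem' c

/-- `π₁ g` is transcendental over `K0` -/
theorem d1a_transcendental {n0 : ℕ} (hn0 : 0 < n0) {g : f0Field A M'}
    (hg : D1lGood A R' n0 g) : Transcendental (k0Field A) (d1aPi1 A M' q g) := by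
  have h1 := d1a_transcendental_bar A M' q R' hn0 hg
  have h2 : Transcendental (k0Field A) (ecPi1 M' q (g : FF M')) :=
    Transcendental.of_tower_top (K := ↥(k0Field A)) (L := Kbar) h1
  intro halg
  apply h2
  have h3 := halg.algebraMap (A := FF (M' * q * q))
  exact h3

set_option maxHeartbeats 1600000 in
/-- **D1-A**: `B_{D1} = f0AffD A (M' q²) D1 O₁ O₂ O₃` is Noetherian and `F0(M' q²) = Frac B_{D1}`.
Hypotheses: `M'` auxiliary level, `R'` the constant reduction at `∞'` of level `M'` (series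
reduction), the `O_i` contain `A` and `π₁ (F0(M') ∩ O')`, and (P4) every element of
`F0(M) ∩ O₁ ∩ O₂ ∩ O₃` is a root of a monic polynomial over `O'` along `π₁`. -/
theorem d1a_main (haux : IsAuxLevel q M') (hA : A.LiesOverPrime q) (hR' : IsSeriesRed R')
    (O₁ O₂ O₃ : ValuationSubring (FF (M' * q * q)))
    (hc₁ : ∀ a : A, algebraMap Kbar (FF (M' * q * q)) (a : Kbar) ∈ O₁)
    (hc₂ : ∀ a : A, algebraMap Kbar (FF (M' * q * q)) (a : Kbar) ∈ O₂)
    (hc₃ : ∀ a : A, algebraMap Kbar (FF (M' * q * q)) (a : Kbar) ∈ O₃)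
    (hT₁ : ∀ g ∈ f0Field A M', g ∈ R'.O → ecPi1 M' q g ∈ O₁)
    (hT₂ : ∀ g ∈ f0Field A M', g ∈ R'.O → ecPi1 M' q g ∈ O₂)
    (hT₃ : ∀ g ∈ f0Field A M', g ∈ R'.O → ecPi1 M' q g ∈ O₃)
    (hP4 : ∀ b : FF (M' * q * q), b ∈ f0Field A (M' * q * q) → b ∈ O₁ → b ∈ O₂ → b ∈ O₃ →
      ∃ p : Polynomial (FF M'), p.Monic ∧ (∀ n, p.coeff n ∈ R'.O) ∧
        Polynomial.eval₂ (ecPi1 M' q) b p = 0) :
    IsNoetherianRing (f0AffD A (M' * q * q) (s36D1 M' q hq hqM) O₁ O₂ O₃) ∧
      ∀ z : f0Field A (M' * q * q), ∃ a b : f0AffD A (M' * q * q) (s36D1 M' q hq hqM) O₁ O₂ O₃,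
        b ≠ 0 ∧ z * (b : f0Field A (M' * q * q)) = (a : f0Field A (M' * q * q)) := by
  haveI : Fact q.Prime := ⟨hq⟩
  haveI : IsDiscreteValuationRing (k0Val A) := k0Val_isDiscreteValuationRing A q hq hA
  obtain ⟨n0, g, hn0, hgen, hg⟩ := d1l_exists_g (R := R') q haux hA hR'
  have hxtr := d1a_transcendental A M' q R' hn0 hg
  haveI := vdeg_finite A (M' * q * q)
  haveI : FiniteDimensional (k0Field A)⟮d1aPi1 A M' q g⟯ (f0Field A (M' * q * q)) :=
    ffFiniteDimensional_of_transcendental (x := vdegJ A (M' * q * q)) hxtr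
  haveI : CharZero (k0Field A)⟮d1aPi1 A M' q g⟯ := charZero_of_injective_algebraMap
    (algebraMap ℚ (k0Field A)⟮d1aPi1 A M' q g⟯).injective
  haveI : Algebra.IsAlgebraic (k0Field A)⟮d1aPi1 A M' q g⟯ (f0Field A (M' * q * q)) :=
    Algebra.IsAlgebraic.of_finite _ _
  haveI : Algebra.IsSeparable (k0Field A)⟮d1aPi1 A M' q g⟯ (f0Field A (M' * q * q)) :=
    Algebra.IsAlgebraic.isSeparable_of_perfectField
  refine d1a_abs_main (k0Val A) (d1aPi1 A M' q g) hxtr
    (f0AffD A (M' * q * q) (s36D1 M' q hq hqM) O₁ O₂ O₃) ?_ ?_ ?_ ?_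
  · intro a
    rw [mem_f0AffD_iff]
    exact ⟨const_mem_offRegular _ _ _, hc₁ (k0ValIncl A a), hc₂ (k0ValIncl A a),
      hc₃ (k0ValIncl A a)⟩
  · rw [mem_f0AffD_iff]
    have hgO : (g : FF M') ∈ R'.O := hg.1.1
    refine ⟨s36D1_pi1 M' q hq hqM _ ?_, hT₁ _ g.2 hgO, hT₂ _ g.2 hgO, hT₃ _ g.2 hgO⟩
    intro v' hv'
    rw [← ffMem_iff_ord_nonneg]
    exact (mem_offRegular_iff M' _ _).1 hg.1.2.1 v' (fun h => hv' h)
  · intro y hy
    exact d1a_isIntegralElem A M' q hq hqM R' haux hA hR' n0 hn0 hgen g hg O₁ O₂ O₃ hP4 y hy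
  · intro y hy
    exact vnkd_f0AffD_closed A _ _ O₁ O₂ O₃ y hy

end Fermat.Agent.S36lib

end
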