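import Mathlib
import Fermat.Agent.S36lib.D1Noeth
import Fermat.Agent.S36lib.TheSetup

/-!
# Item 83 (S36), piece D1-A (helper28): wiring of `d1a_main` for `nodeSetupM`

* `d1a_main_alg`: `d1a_main` with the hypothesis (P4) in the literal shape of the conclusion of
  helper2's `sumc_isIntegral` (`φ = d1hPi1 M' q`, coefficients in `v'.O ∩ F0(M')`);
* **`d1a_nodeSetupM`**: `(nodeSetupM …).B` is Noetherian with fraction field `F0(M' q²)`;
* `d1a_nodeSetupM_alg`: the same with (P4) in the shape of `sumc_isIntegral`.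
-/

set_option autoImplicit false
set_option linter.style.haveILetI false
set_option linter.unusedSectionVars false
set_option linter.unusedVariables false
set_option synthInstance.maxHeartbeats 400000

noncomputable section

namespace Fermat.Agent.S36lib

open AlgebraicCurve ModularCurve IntermediateField HahnSeries Polynomial
open Fermat.Agent.S24lib Fermat.Agent.GoodRed Fermat.Agent.GM Fermat.Agent.S34lib
  Fermat.Agent.RRlib Fermat.Agent.HeckeBar Fermat.Agent.S35lib Fermat.Agent.S37lib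

variable (A : ValuationSubring Kbar) (M' q : ℕ) [NeZero M'] [NeZero q]
variable (hq : q.Prime) (hqM : ¬ q ∣ M')
variable (R' : ConstRed A (IsLocalRing.residue A) (Fk (IsLocalRing.ResidueField A) M') (FF M'))

/-- `d1a_main` with (P4) in the shape of `sumc_isIntegral` (`φ = d1hPi1 M' q`). -/
theorem d1a_main_alg (haux : IsAuxLevel q M') (hA : A.LiesOverPrime q) (hR' : IsSeriesRed R')
    (O₁ O₂ O₃ : ValuationSubring (FF (M' * q * q)))
    (hc₁ : ∀ a : A, algebraMap Kbar (FF (M' * q * q)) (a : Kbar) ∈ O₁)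
    (hc₂ : ∀ a : A, algebraMap Kbar (FF (M' * q * q)) (a : Kbar) ∈ O₂)
    (hc₃ : ∀ a : A, algebraMap Kbar (FF (M' * q * q)) (a : Kbar) ∈ O₃)
    (hT₁ : ∀ g ∈ f0Field A M', g ∈ R'.O → d1hPi1 M' q g ∈ O₁)
    (hT₂ : ∀ g ∈ f0Field A M', g ∈ R'.O → d1hPi1 M' q g ∈ O₂)
    (hT₃ : ∀ g ∈ f0Field A M', g ∈ R'.O → d1hPi1 M' q g ∈ O₃)
    (hP4 : ∀ b : FF (M' * q * q), b ∈ f0Field A (M' * q * q) → b ∈ O₁ → b ∈ O₂ → b ∈ O₃ →
      ∃ p : Polynomial (FF M'), p.Monic ∧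
        (∀ n, p.coeff n ∈ R'.O ∧ p.coeff n ∈ f0Field A M') ∧
        Polynomial.eval₂ ((d1hPi1 M' q : FF M' →ₐ[Kbar] FF (M' * q * q)) :
          FF M' →+* FF (M' * q * q)) b p = 0) :
    IsNoetherianRing (f0AffD A (M' * q * q) (s36D1 M' q hq hqM) O₁ O₂ O₃) ∧
      ∀ z : f0Field A (M' * q * q), ∃ a b : f0AffD A (M' * q * q) (s36D1 M' q hq hqM) O₁ O₂ O₃,
        b ≠ 0 ∧ z * (b : f0Field A (M' * q * q)) = (a : f0Field A (M' * q * q)) := by
  refine d1a_main A M' q hq hqM R' haux hA hR' O₁ O₂ O₃ hc₁ hc₂ hc₃ hT₁ hT₂ hT₃ ?_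
  intro b hb h1 h2 h3
  obtain ⟨p, hp, hpc, hpb⟩ := hP4 b hb h1 h2 h3
  exact ⟨p, hp, fun n => (hpc n).1, hpb⟩

variable (hA : A.LiesOverPrime q)

/-- **D1-A for `nodeSetupM`**: the affine ring `B_{D1}` of the concrete setup of level `M' q²` is
Noetherian, with fraction field `F0(M' q²)`. -/
theorem d1a_nodeSetupM
    (R : ConstRed A (IsLocalRing.residue A)
      (↥(modularFunctionFieldFullC (IsLocalRing.ResidueField A) M')) (FF (M' * q * q)))
    (hR : IsSeriesRed R) (vMid : SeriesVal A (M' * q * q))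
    (hiMid : ∀ (x : FF (M' * q * q)) (hx : x ∈ vMid.O), x ∈ f0Field A (M' * q * q) →
      vMid.red ⟨x, hx⟩ ∈ modularFunctionFieldFullC (IsLocalRing.ResidueField A) M')
    (hoMid : ∀ y ∈ modularFunctionFieldFullC (IsLocalRing.ResidueField A) M',
      ∃ (x : FF (M' * q * q)) (hx : x ∈ vMid.O), x ∈ f0Field A (M' * q * q) ∧
        vMid.red ⟨x, hx⟩ = y)
    (haux : IsAuxLevel q M') (hR' : IsSeriesRed R')
    (hT₁ : ∀ g ∈ f0Field A M', g ∈ R'.O → ecPi1 M' q g ∈ R.O)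
    (hT₂ : ∀ g ∈ f0Field A M', g ∈ R'.O → ecPi1 M' q g ∈ vMid.O)
    (hT₃ : ∀ g ∈ f0Field A M', g ∈ R'.O → alW2 M' hq hqM (ecPi1 M' q g) ∈ R.O)
    (hP4 : ∀ b : FF (M' * q * q), b ∈ f0Field A (M' * q * q) → b ∈ R.O → b ∈ vMid.O →
      alW2 M' hq hqM b ∈ R.O →
      ∃ p : Polynomial (FF M'), p.Monic ∧ (∀ n, p.coeff n ∈ R'.O) ∧
        Polynomial.eval₂ (ecPi1 M' q) b p = 0) :
    IsNoetherianRing (nodeSetupM A M' q hq hqM hA R hR vMid hiMid hoMid).B ∧
      ∀ z : f0Field A (M' * q * q),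
        ∃ a b : (nodeSetupM A M' q hq hqM hA R hR vMid hiMid hoMid).B,
          b ≠ 0 ∧ z * (b : f0Field A (M' * q * q)) = (a : f0Field A (M' * q * q)) :=
  d1a_main A M' q hq hqM R' haux hA hR' R.O vMid.O
    ((SeriesVal.ofConstRed R).comap (alW2 M' hq hqM)).O
    R.algebraMap_mem vMid.algebraMap_mem
    ((SeriesVal.ofConstRed R).comap (alW2 M' hq hqM)).algebraMap_mem hT₁ hT₂ hT₃ hP4

/-- the same with (P4) in the shape of `sumc_isIntegral` (`φ = d1hPi1 M' q`,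
`v' = SeriesVal.ofConstRed R'`, `vInf = SeriesVal.ofConstRed R`, `vZero = vInf.comap w_{q²}`). -/
theorem d1a_nodeSetupM_alg
    (R : ConstRed A (IsLocalRing.residue A)
      (↥(modularFunctionFieldFullC (IsLocalRing.ResidueField A) M')) (FF (M' * q * q)))
    (hR : IsSeriesRed R) (vMid : SeriesVal A (M' * q * q))
    (hiMid : ∀ (x : FF (M' * q * q)) (hx : x ∈ vMid.O), x ∈ f0Field A (M' * q * q) →
      vMid.red ⟨x, hx⟩ ∈ modularFunctionFieldFullC (IsLocalRing.ResidueField A) M')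
    (hoMid : ∀ y ∈ modularFunctionFieldFullC (IsLocalRing.ResidueField A) M',
      ∃ (x : FF (M' * q * q)) (hx : x ∈ vMid.O), x ∈ f0Field A (M' * q * q) ∧
        vMid.red ⟨x, hx⟩ = y)
    (haux : IsAuxLevel q M') (hR' : IsSeriesRed R')
    (hT₁ : ∀ g ∈ f0Field A M', g ∈ (SeriesVal.ofConstRed R').O →
      d1hPi1 M' q g ∈ (SeriesVal.ofConstRed R).O)
    (hT₂ : ∀ g ∈ f0Field A M', g ∈ (SeriesVal.ofConstRed R').O → d1hPi1 M' q g ∈ vMid.O)
    (hT₃ : ∀ g ∈ f0Field A M', g ∈ (SeriesVal.ofConstRed R').O →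
      d1hPi1 M' q g ∈ ((SeriesVal.ofConstRed R).comap (alW2 M' hq hqM)).O)
    (hP4 : ∀ b : FF (M' * q * q), b ∈ f0Field A (M' * q * q) →
      b ∈ (SeriesVal.ofConstRed R).O → b ∈ vMid.O →
      b ∈ ((SeriesVal.ofConstRed R).comap (alW2 M' hq hqM)).O →
      ∃ p : Polynomial (FF M'), p.Monic ∧
        (∀ n, p.coeff n ∈ (SeriesVal.ofConstRed R').O ∧ p.coeff n ∈ f0Field A M') ∧
        Polynomial.eval₂ ((d1hPi1 M' q : FF M' →ₐ[Kbar] FF (M' * q * q)) :
          FF M' →+* FF (M' * q * q)) b p = 0) :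
    IsNoetherianRing (nodeSetupM A M' q hq hqM hA R hR vMid hiMid hoMid).B ∧
      ∀ z : f0Field A (M' * q * q),
        ∃ a b : (nodeSetupM A M' q hq hqM hA R hR vMid hiMid hoMid).B,
          b ≠ 0 ∧ z * (b : f0Field A (M' * q * q)) = (a : f0Field A (M' * q * q)) :=
  d1a_main_alg A M' q hq hqM R' haux hA hR' R.O vMid.O
    ((SeriesVal.ofConstRed R).comap (alW2 M' hq hqM)).O
    R.algebraMap_mem vMid.algebraMap_mem
    ((SeriesVal.ofConstRed R).comap (alW2 M' hq hqM)).algebraMap_mem hT₁ hT₂ hT₃ hP4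

end Fermat.Agent.S36lib

end
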