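import Mathlib
import Fermat.Agent.S36lib.Reg2

/-!
# Item 83 (S36), piece RED-MEM (helper3): the reductions of `B_M` lie in the affine ring `R`

Abstract (Mathlib + `Setup`/`Reg2`).  `R ⊆ κ` integrally closed in `κ` (the affine ring of `C'`,
`affRing_mem_of_isIntegral`).  If `α : B_N → B_M` is integral, the reductions of `B_N` lie in `R`
and `ρ (α z) = ψ (r z)` with `ψ R ⊆ R`, then the reduction `ρ` of `B_M` has values in `R`.

* `s36_red_mem_of_integral`      : rings;
* `s36_redMem_nodeSetup`         : the three facts `hMInf, hMMid, hMZero` for two `NodeSetup`s and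
                                   `fα : SetupMap SN SM` integral, from `hNInf, hNZero` and the
                                   `α`-column of the reduction table.
-/

set_option autoImplicit false
set_option linter.style.haveILetI false

namespace Fermat.Agent.S36lib

section Abstract

variable {BN B κ k : Type*} [CommRing BN] [CommRing B] [Field κ] [Field k] [Algebra k κ]

/-- the reduction of an element integral over `α(B_N)` lies in the integrally closed ring `R` -/
theorem s36_red_mem_of_integral (R : Subalgebra k κ)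
    (hRic : ∀ x : κ, IsIntegral R x → x ∈ R)
    (α : BN →+* B) (hα : α.IsIntegral) (r : BN →+* κ) (ρ : B →+* κ) (ψ : κ →+* κ)
    (hψ : ∀ x ∈ R, ψ x ∈ R) (htab : ∀ z, ρ (α z) = ψ (r z)) (hr : ∀ z, r z ∈ R) (z : B) :
    ρ z ∈ R := by
  obtain ⟨p, hp, hpz⟩ := hα z
  let r' : BN →+* R := (ψ.comp r).codRestrict R (fun w => hψ _ (hr w))
  refine hRic _ ⟨p.map r', hp.map r', ?_⟩
  have hcomp : (algebraMap R κ).comp r' = ρ.comp α := RingHom.ext fun w => (htab w).symm
  rw [Polynomial.eval₂_map, hcomp, ← Polynomial.hom_eval₂, hpz, map_zero]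

end Abstract

section Node

variable {K : Type*} [Field K] {k : Type*} [Field k]
  {A : ValuationSubring K} {π : A →+* k} {κ : Type*} [Field κ] [Algebra k κ]
  {FN FM : Type*} [Field FN] [Field FM] [Algebra K FN] [Algebra K FM]
  {SN : NodeSetup A π κ FN} {SM : NodeSetup A π κ FM}

/-- **RED-MEM for `NodeSetup`.**  The three reductions of `B_M` have values in `R`. -/
theorem s36_redMem_nodeSetup (fα : SetupMap SN SM) (hα : fα.toB.IsIntegral)
    (R : Subalgebra k κ) (hRic : ∀ x : κ, IsIntegral R x → x ∈ R)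
    (φ : κ →+* κ) (hφR : ∀ x ∈ R, φ x ∈ R)
    (hNInf : ∀ z : SN.B, SN.redInf z ∈ R) (hNZero : ∀ z : SN.B, SN.redZero z ∈ R)
    (hαInf : ∀ z, SM.redInf (fα.toB z) = SN.redInf z)
    (hαMid : ∀ z, SM.redMid (fα.toB z) = SN.redInf z)
    (hαZero : ∀ z, SM.redZero (fα.toB z) = φ (SN.redZero z)) :
    (∀ z : SM.B, SM.redInf z ∈ R) ∧ (∀ z : SM.B, SM.redMid z ∈ R) ∧
      (∀ z : SM.B, SM.redZero z ∈ R) := by
  refine ⟨fun z => ?_, fun z => ?_, fun z => ?_⟩
  · exact s36_red_mem_of_integral R hRic fα.toB hα SN.redInf SM.redInf (RingHom.id κ)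
      (fun x hx => hx) hαInf hNInf z
  · exact s36_red_mem_of_integral R hRic fα.toB hα SN.redInf SM.redMid (RingHom.id κ)
      (fun x hx => hx) hαMid hNInf z
  · exact s36_red_mem_of_integral R hRic fα.toB hα SN.redZero SM.redZero φ hφR hαZero hNZero z

end Node

end Fermat.Agent.S36lib
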