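import Mathlib
import Fermat.Agent.S36lib.Speed

/-!
# Item 83 (S36), block V: the abstract core of (SUM) (helper2).  Mathlib only, complete.

`F / F'` a finite separable field extension, `R` a discrete valuation ring with fraction field
`F'`.  Given finitely many pairwise distinct valuation subrings `O i ≠ ⊤` of `F` containing `R`,
with witnesses for lower bounds `e i` of the ramification index (a nonunit `z` of `O i` such that
a uniformiser of `R` lies in `z ^ e i • O i`) and `f i` of the residue degree (`f i` elements of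
`O i` whose reductions are linearly independent over the residue field of `R`), such that
`[F : F'] ≤ ∑ i, e i * f i`:

* `sumAbs_complete`: every valuation subring `W ≠ ⊤` of `F` containing `R` is one of the `O i`;
* `sumAbs_isIntegral`: an element of `F` lying in all `O i` is integral over `R`
  (so `⋂ O i` is the integral closure of `R` in `F`).

Route: the integral closure `S` of `R` in `F` is a Dedekind domain, finite over `R`; the valuation
subrings `≠ ⊤` of `F` containing `R` are the localisations of `S` at its nonzero primes; the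
fundamental identity `∑ e f = [F : F']` (`Ideal.sum_ramification_inertia`).
Helper lemmas are prefixed `sa_`.
-/

set_option autoImplicit false
set_option linter.deprecated false
set_option linter.style.haveILetI false
set_option linter.unusedSectionVars false
set_option linter.overlappingInstances false

noncomputable section

namespace Fermat.Agent.S36lib

open Module IsLocalRing

section Loc

variable {S F : Type*} [CommRing S] [IsDomain S] [IsDedekindDomain S] [Field F] [Algebra S F]
  [IsFractionRing S F]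

/-- the localisation of `S` at `P`, inside `F` -/
def saLoc (F : Type*) [Field F] [Algebra S F] [IsFractionRing S F] (P : Ideal S) [P.IsPrime] :
    Subalgebra S F :=
  Localization.subalgebra.ofField F P.primeCompl P.primeCompl_le_nonZeroDivisors

theorem sa_mem_saLoc (P : Ideal S) [P.IsPrime] (x : F) :
    x ∈ saLoc F P ↔ ∃ a s : S, s ∉ P ∧ x = algebraMap S F a * (algebraMap S F s)⁻¹ := by
  constructor
  · rintro ⟨a, s, hs, rfl⟩
    exact ⟨a, s, hs, rfl⟩
  · rintro ⟨a, s, hs, rfl⟩
    exact ⟨a, s, hs, rfl⟩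

/-- the localisation of a Dedekind domain at a nonzero prime is a valuation ring of `F` -/
theorem sa_mem_or_inv_mem (P : Ideal S) [P.IsPrime] (hP : P ≠ ⊥) (x : F) :
    x ∈ saLoc F P ∨ x⁻¹ ∈ saLoc F P := by
  haveI : IsLocalization.AtPrime (saLoc F P) P := by
    unfold saLoc; infer_instance
  haveI : IsDiscreteValuationRing (saLoc F P) :=
    IsLocalization.AtPrime.isDiscreteValuationRing_of_dedekind_domain S hP (saLoc F P)
  haveI : IsFractionRing (saLoc F P) F := by
    unfold saLoc; infer_instance
  rcases ValuationRing.isInteger_or_isInteger (saLoc F P) x with ⟨y, hy⟩ | ⟨y, hy⟩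
  · left; rw [← hy]; exact y.2
  · right; rw [← hy]; exact y.2

omit [IsDedekindDomain S] [IsFractionRing S F] [Algebra S F] in
theorem sa_nonunits_mul (W : ValuationSubring F) {x y : F} (hx : x ∈ W.nonunits) (hy : y ∈ W) :
    x * y ∈ W.nonunits := by
  rw [ValuationSubring.mem_nonunits_iff] at hx ⊢
  rw [map_mul]
  have hy' : W.valuation y ≤ 1 := (W.valuation_le_one_iff y).2 hy
  calc W.valuation x * W.valuation y ≤ W.valuation x * 1 := mul_le_mul' le_rfl hy'
    _ = W.valuation x := mul_one _
    _ < 1 := hx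

/-- the prime of `S` cut out by a valuation subring `W ⊇ S` -/
def saPrime (W : ValuationSubring F) (hW : ∀ s : S, algebraMap S F s ∈ W) : Ideal S :=
  (maximalIdeal W).comap ((algebraMap S F).codRestrict W.toSubring hW)

theorem sa_mem_saPrime (W : ValuationSubring F) (hW : ∀ s : S, algebraMap S F s ∈ W) (s : S) :
    s ∈ saPrime W hW ↔ algebraMap S F s ∈ W.nonunits := by
  unfold saPrime
  rw [Ideal.mem_comap]
  exact (ValuationSubring.coe_mem_nonunits_iff (A := W)
    (a := ((algebraMap S F).codRestrict W.toSubring hW s))).symm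

instance sa_saPrime_isPrime (W : ValuationSubring F) (hW : ∀ s : S, algebraMap S F s ∈ W) :
    (saPrime W hW).IsPrime := by
  unfold saPrime
  exact Ideal.comap_isPrime _ _

/-- `W ≠ ⊤` gives a nonzero prime -/
theorem sa_saPrime_ne_bot (W : ValuationSubring F) (hW : ∀ s : S, algebraMap S F s ∈ W)
    (hne : W ≠ ⊤) : saPrime W hW ≠ ⊥ := by
  intro hbot
  apply hne
  rw [eq_top_iff]
  intro x _
  by_contra hx
  -- `x ∉ W`, so `x⁻¹` is a nonunit of `W`
  have hx0 : x ≠ 0 := by
    rintro rfl
    exact hx W.zero_mem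
  have hxi : x⁻¹ ∈ W.nonunits := by
    rw [ValuationSubring.mem_nonunits_iff_or]
    right
    rwa [inv_inv]
  obtain ⟨a, b, hb, hab⟩ := IsFractionRing.div_surjective (A := S) x⁻¹
  have hb0 : algebraMap S F b ≠ 0 := by
    intro h
    exact nonZeroDivisors.ne_zero hb ((IsFractionRing.injective S F)
      (by rw [h, map_zero]))
  have ha : algebraMap S F a = x⁻¹ * algebraMap S F b := by
    rw [← hab, div_mul_cancel₀ _ hb0]
  have ha0 : a ≠ 0 := by
    rintro rfl
    rw [map_zero] at ha
    exact (mul_ne_zero (inv_ne_zero hx0) hb0) ha.symm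
  have hamem : a ∈ saPrime W hW := by
    rw [sa_mem_saPrime, ha]
    exact sa_nonunits_mul W hxi (hW b)
  rw [hbot] at hamem
  exact ha0 ((Ideal.mem_bot).1 hamem)

/-- a valuation subring `W ≠ ⊤` containing `S` is the localisation of `S` at its prime -/
theorem sa_mem_iff_mem_saLoc (W : ValuationSubring F) (hW : ∀ s : S, algebraMap S F s ∈ W)
    (hne : W ≠ ⊤) (x : F) : x ∈ W ↔ x ∈ saLoc F (saPrime W hW) := by
  have hunit : ∀ s : S, s ∉ saPrime W hW → (algebraMap S F s)⁻¹ ∈ W := by
    intro s hs
    rw [sa_mem_saPrime, ValuationSubring.mem_nonunits_iff_or, not_or, not_not] at hs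
    exact hs.2
  constructor
  · intro hx
    rcases sa_mem_or_inv_mem (saPrime W hW) (sa_saPrime_ne_bot W hW hne) x with h | h
    · exact h
    · rw [sa_mem_saLoc] at h ⊢
      obtain ⟨a, s, hs, hxa⟩ := h
      by_cases hx0 : x = 0
      · exact ⟨0, 1, (Ideal.ne_top_iff_one _).1 (Ideal.IsPrime.ne_top inferInstance),
          by rw [hx0, map_zero, zero_mul]⟩
      have hs0 : algebraMap S F s ≠ 0 := by
        intro h0
        rw [h0, inv_zero, mul_zero] at hxa
        exact (inv_ne_zero hx0) hxa
      have ha0 : algebraMap S F a ≠ 0 := by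
        intro h0
        rw [h0, zero_mul] at hxa
        exact (inv_ne_zero hx0) hxa
      by_cases ha : a ∈ saPrime W hW
      · exfalso
        have h1 : x⁻¹ ∈ W.nonunits := by
          rw [hxa]
          exact sa_nonunits_mul W ((sa_mem_saPrime W hW a).1 ha) (hunit s hs)
        rw [ValuationSubring.mem_nonunits_iff_or, inv_inv] at h1
        rcases h1 with h1 | h1
        · exact (inv_ne_zero hx0) h1
        · exact h1 hx
      · refine ⟨s, a, ha, ?_⟩
        have : x = (x⁻¹)⁻¹ := (inv_inv x).symm
        rw [this, hxa, mul_inv, inv_inv, mul_comm]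
  · intro hx
    rw [sa_mem_saLoc] at hx
    obtain ⟨a, s, hs, rfl⟩ := hx
    exact W.mul_mem _ _ (hW a) (hunit s hs)

/-- two valuation subrings `≠ ⊤` containing `S` with the same prime are equal -/
theorem sa_eq_of_saPrime_eq (W W' : ValuationSubring F) (hW : ∀ s : S, algebraMap S F s ∈ W)
    (hW' : ∀ s : S, algebraMap S F s ∈ W') (hne : W ≠ ⊤) (hne' : W' ≠ ⊤)
    (h : saPrime W hW = saPrime W' hW') : W = W' := by
  ext x
  rw [sa_mem_iff_mem_saLoc W hW hne, sa_mem_iff_mem_saLoc W' hW' hne', sa_mem_saLoc,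
    sa_mem_saLoc, h]

open IsDedekindDomain WithZero in
/-- the `P`-adic valuation is `≤ 1` on the localisation at `P` -/
theorem sa_valuation_le_one (P : Ideal S) [hPp : P.IsPrime] (hP : P ≠ ⊥) (x : F)
    (hx : x ∈ saLoc F P) :
    (HeightOneSpectrum.valuation F ⟨P, hPp, hP⟩) x ≤ 1 := by
  rw [sa_mem_saLoc] at hx
  obtain ⟨a, s, hs, rfl⟩ := hx
  set v : HeightOneSpectrum S := ⟨P, hPp, hP⟩ with hv
  have h1 : v.valuation F (algebraMap S F s) = 1 := by
    rw [HeightOneSpectrum.valuation_of_algebraMap]
    exact HeightOneSpectrum.intValuation_eq_one_iff.2 hs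
  rw [map_mul, map_inv₀, h1, inv_one, mul_one]
  exact HeightOneSpectrum.valuation_le_one v a

open IsDedekindDomain WithZero in
/-- the `P`-adic valuation is `< 1` on the maximal ideal of the localisation at `P` -/
theorem sa_valuation_lt_one (P : Ideal S) [hPp : P.IsPrime] (hP : P ≠ ⊥) (x : F)
    (hx : ∃ a s : S, a ∈ P ∧ s ∉ P ∧ x = algebraMap S F a * (algebraMap S F s)⁻¹) :
    (HeightOneSpectrum.valuation F ⟨P, hPp, hP⟩) x < 1 := by
  obtain ⟨a, s, ha, hs, rfl⟩ := hx
  set v : HeightOneSpectrum S := ⟨P, hPp, hP⟩ with hv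
  have h1 : v.valuation F (algebraMap S F s) = 1 := by
    rw [HeightOneSpectrum.valuation_of_algebraMap]
    exact HeightOneSpectrum.intValuation_eq_one_iff.2 hs
  rw [map_mul, map_inv₀, h1, inv_one, mul_one]
  exact (HeightOneSpectrum.valuation_lt_one_iff_mem v a).2 ha

open WithZero in
theorem sa_le_exp_neg_one {x : ℤᵐ⁰} (hx : x < 1) : x ≤ exp (-1 : ℤ) := by
  rw [← lt_mul_exp_iff_le exp_ne_zero, ← exp_add]
  simpa using hx

open IsDedekindDomain WithZero in
/-- an element of `S` which is `z ^ e * y` with `z` in the maximal ideal of the localisation at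
`P` and `y` in the localisation lies in `P ^ e` -/
theorem sa_mem_pow (P : Ideal S) [hPp : P.IsPrime] (hP : P ≠ ⊥) (r : S) (e : ℕ) (z y : F)
    (hz : ∃ a s : S, a ∈ P ∧ s ∉ P ∧ z = algebraMap S F a * (algebraMap S F s)⁻¹)
    (hy : y ∈ saLoc F P) (h : algebraMap S F r = z ^ e * y) : r ∈ P ^ e := by
  set v : HeightOneSpectrum S := ⟨P, hPp, hP⟩ with hv
  have hr : v.intValuation r ≤ exp (-(e : ℤ)) := by
    rw [← HeightOneSpectrum.valuation_of_algebraMap (K := F)]
    show v.valuation F (algebraMap S F r) ≤ _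
    rw [h, map_mul, map_pow]
    have h1 : v.valuation F z ≤ exp (-1 : ℤ) := sa_le_exp_neg_one (sa_valuation_lt_one P hP z hz)
    have h2 : v.valuation F y ≤ 1 := sa_valuation_le_one P hP y hy
    calc v.valuation F z ^ e * v.valuation F y ≤ exp (-1 : ℤ) ^ e * 1 :=
          mul_le_mul' (pow_le_pow_left' h1 e) h2
      _ = exp (-(e : ℤ)) := by
          rw [mul_one, ← exp_nsmul]
          congr 1
          simp
  exact (HeightOneSpectrum.intValuation_le_pow_iff_mem v r e).1 hr

/-- a nonunit of `W` is `a / s` with `a` in the prime of `W` and `s` outside -/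
theorem sa_nonunit_rep (W : ValuationSubring F) (hW : ∀ s : S, algebraMap S F s ∈ W)
    (hne : W ≠ ⊤) (z : F) (hz : z ∈ W.nonunits) :
    ∃ a s : S, a ∈ saPrime W hW ∧ s ∉ saPrime W hW ∧
      z = algebraMap S F a * (algebraMap S F s)⁻¹ := by
  have hzW : z ∈ W := by
    rw [ValuationSubring.mem_nonunits_iff] at hz
    exact (W.valuation_le_one_iff z).1 hz.le
  obtain ⟨a, s, hs, hzas⟩ := (sa_mem_saLoc _ z).1 ((sa_mem_iff_mem_saLoc W hW hne z).1 hzW)
  refine ⟨a, s, ?_, hs, hzas⟩
  have hs0 : algebraMap S F s ≠ 0 := by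
    intro h0
    apply hs
    have : s = 0 := (IsFractionRing.injective S F) (by rw [h0, map_zero])
    rw [this]
    exact Ideal.zero_mem _
  have ha : algebraMap S F a = z * algebraMap S F s := by
    rw [hzas, mul_assoc, inv_mul_cancel₀ hs0, mul_one]
  rw [sa_mem_saPrime, ha]
  exact sa_nonunits_mul W hz (hW s)

/-- (lower bound for the ramification index) -/
theorem sa_mem_saPrime_pow (W : ValuationSubring F) (hW : ∀ s : S, algebraMap S F s ∈ W)
    (hne : W ≠ ⊤) (r : S) (e : ℕ) (z y : F) (hz : z ∈ W.nonunits) (hy : y ∈ W)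
    (h : algebraMap S F r = z ^ e * y) : r ∈ saPrime W hW ^ e :=
  sa_mem_pow (saPrime W hW) (sa_saPrime_ne_bot W hW hne) r e z y (sa_nonunit_rep W hW hne z hz)
    ((sa_mem_iff_mem_saLoc W hW hne y).1 hy) h

/-- every element of `W` is congruent modulo the nonunits to an element of `S` -/
theorem sa_exists_lift (W : ValuationSubring F) (hW : ∀ s : S, algebraMap S F s ∈ W)
    (hne : W ≠ ⊤) (b : F) (hb : b ∈ W) :
    ∃ β : S, algebraMap S F β - b ∈ W.nonunits := by
  obtain ⟨a, s, hs, hbas⟩ := (sa_mem_saLoc _ b).1 ((sa_mem_iff_mem_saLoc W hW hne b).1 hb)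
  haveI hmax : (saPrime W hW).IsMaximal :=
    Ideal.IsPrime.isMaximal inferInstance (sa_saPrime_ne_bot W hW hne)
  obtain ⟨t, i, hi, hti⟩ := hmax.exists_inv hs
  have hs0 : algebraMap S F s ≠ 0 := by
    intro h0
    apply hs
    have : s = 0 := (IsFractionRing.injective S F) (by rw [h0, map_zero])
    rw [this]
    exact Ideal.zero_mem _
  refine ⟨a * t, ?_⟩
  have hi' : algebraMap S F i = 1 - algebraMap S F t * algebraMap S F s := by
    have h1 := congrArg (algebraMap S F) hti
    rw [map_add, map_mul, map_one] at h1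
    rw [← h1]; ring
  have : algebraMap S F (a * t) - b = (-algebraMap S F i) * b := by
    rw [hi', hbas, map_mul]
    field_simp
    ring
  rw [this]
  apply sa_nonunits_mul W _ hb
  have h1 : algebraMap S F (-i) ∈ W.nonunits :=
    (sa_mem_saPrime W hW (-i)).1 ((saPrime W hW).neg_mem hi)
  simpa using h1

end Loc

section Int

variable {R F' F : Type*} [CommRing R] [IsDomain R] [IsDiscreteValuationRing R]
  [Field F'] [Field F] [Algebra F' F] [Algebra R F'] [IsFractionRing R F'] [Algebra R F]
  [IsScalarTower R F' F]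

omit [IsDomain R] [IsDiscreteValuationRing R] [Algebra F' F] [Algebra R F'] [IsFractionRing R F']
  [IsScalarTower R F' F] in
/-- integral elements lie in every valuation subring containing `R` -/
theorem sa_integral_mem (W : ValuationSubring F) (hW : ∀ r : R, algebraMap R F r ∈ W)
    (s : F) (hs : IsIntegral R s) : s ∈ W := by
  obtain ⟨p, hp, hps⟩ := hs
  let φ : R →+* W := (algebraMap R F).codRestrict W.toSubring hW
  have hint : IsIntegral W s := by
    refine ⟨p.map φ, hp.map φ, ?_⟩
    rw [Polynomial.eval₂_map]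
    exact hps
  obtain ⟨y, hy⟩ := (IsIntegrallyClosed.isIntegral_iff (R := W) (K := F)).1 hint
  rw [← hy]
  exact y.2

omit [IsDomain R] [IsDiscreteValuationRing R] [Algebra F' F] [Algebra R F'] [IsFractionRing R F']
  [IsScalarTower R F' F] in
theorem sa_closure_mem (W : ValuationSubring F) (hW : ∀ r : R, algebraMap R F r ∈ W)
    (s : integralClosure R F) : algebraMap (integralClosure R F) F s ∈ W :=
  sa_integral_mem W hW _ s.2

end Int

section Closure

/-- the integral closure of a discrete valuation ring in a finite separable extension is a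
Dedekind domain with fraction field `F`, finite over `R` -/
theorem sa_closure_facts (R F' F : Type*) [CommRing R] [IsDomain R] [IsDiscreteValuationRing R]
    [Field F'] [Field F] [Algebra F' F] [Algebra R F'] [IsFractionRing R F'] [Algebra R F]
    [IsScalarTower R F' F] [FiniteDimensional F' F] [Algebra.IsSeparable F' F] :
    IsDedekindDomain (integralClosure R F) ∧ IsFractionRing (integralClosure R F) F ∧
      Module.Finite R (integralClosure R F) :=
  ⟨integralClosure.isDedekindDomain R F' F,
    integralClosure.isFractionRing_of_finite_extension F' F,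
    IsIntegralClosure.finite R F' F (integralClosure R F)⟩

end Closure

section Main

variable {R S F : Type*} [CommRing R] [IsDomain R] [IsDiscreteValuationRing R]
  [CommRing S] [IsDedekindDomain S] [Field F] [Algebra R F]
  [Algebra R S] [Algebra S F] [IsScalarTower R S F]
  [IsIntegralClosure S R F] [IsFractionRing S F] [Module.Finite R S]

omit [IsDomain R] [IsDiscreteValuationRing R] [IsDedekindDomain S] [IsFractionRing S F]
  [Module.Finite R S] in
/-- `S ⊆ W` -/
theorem sa_S_mem (W : ValuationSubring F) (hW : ∀ r : R, algebraMap R F r ∈ W) (s : S) :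
    algebraMap S F s ∈ W :=
  sa_integral_mem W hW _ ((IsIntegralClosure.isIntegral_iff (A := S)).2 ⟨s, rfl⟩)

/-- the prime of `W` lies over the maximal ideal of `R` -/
theorem sa_liesOver (W : ValuationSubring F) (hW : ∀ r : R, algebraMap R F r ∈ W)
    (hne : W ≠ ⊤) :
    (saPrime W (sa_S_mem (S := S) W hW)).LiesOver (maximalIdeal R) := by
  constructor
  haveI hmax : (saPrime W (sa_S_mem (S := S) W hW)).IsMaximal :=
    Ideal.IsPrime.isMaximal inferInstance (sa_saPrime_ne_bot W _ hne)
  haveI : Algebra.IsIntegral R S := IsIntegralClosure.isIntegral_algebra R F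
  have := Ideal.isMaximal_comap_of_isIntegral_of_isMaximal (R := R)
    (saPrime W (sa_S_mem (S := S) W hW))
  exact (IsLocalRing.eq_maximalIdeal this).symm

/-- lower bound for the ramification index from a witness -/
theorem sa_le_ramificationIdx (W : ValuationSubring F) (hW : ∀ r : R, algebraMap R F r ∈ W)
    (hne : W ≠ ⊤) (hRF : Function.Injective (algebraMap R F))
    (e : ℕ) (z : F) (hz : z ∈ W.nonunits)
    (h : ∀ ϖ ∈ maximalIdeal R, ∃ y ∈ W, algebraMap R F ϖ = z ^ e * y) :
    e ≤ Ideal.ramificationIdx' (maximalIdeal R) (saPrime W (sa_S_mem (S := S) W hW)) := by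
  set P := saPrime W (sa_S_mem (S := S) W hW) with hP
  have hle : Ideal.map (algebraMap R S) (maximalIdeal R) ≤ P ^ e := by
    rw [Ideal.map_le_iff_le_comap]
    intro ϖ hϖ
    obtain ⟨y, hy, hϖy⟩ := h ϖ hϖ
    rw [Ideal.mem_comap]
    refine sa_mem_saPrime_pow W _ hne (algebraMap R S ϖ) e z y hz hy ?_
    rw [← IsScalarTower.algebraMap_apply]
    exact hϖy
  haveI := sa_liesOver (S := S) W hW hne
  have hp0 : maximalIdeal R ≠ ⊥ := IsDiscreteValuationRing.not_a_field R
  haveI : Algebra.IsIntegral R S := IsIntegralClosure.isIntegral_algebra R F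
  have hr0 : Ideal.ramificationIdx' (maximalIdeal R) P ≠ 0 := by
    have hinj : Function.Injective (algebraMap R S) := by
      rw [IsScalarTower.algebraMap_eq R S F] at hRF
      exact Function.Injective.of_comp hRF
    apply Ideal.IsDedekindDomain.ramificationIdx'_ne_zero _ inferInstance
    · rw [Ideal.map_le_iff_le_comap]
      exact (Ideal.over_def P (maximalIdeal R)).le
    · rw [Ne, Ideal.map_eq_bot_iff_of_injective hinj]
      exact hp0
  have hbdd : BddAbove {n : ℕ | Ideal.map (algebraMap R S) (maximalIdeal R) ≤ P ^ n} := by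
    by_contra hb
    apply hr0
    apply Ideal.ramificationIdx'_eq_zero
    intro n
    by_contra hcon
    apply hb
    refine ⟨n, fun k hk => ?_⟩
    by_contra hkn
    exact hcon ⟨k, hk, lt_of_not_ge hkn⟩
  exact le_csSup hbdd hle

/-- lower bound for the residue degree from witnesses -/
theorem sa_le_inertiaDeg (W : ValuationSubring F) (hW : ∀ r : R, algebraMap R F r ∈ W)
    (hne : W ≠ ⊤) (f : ℕ) (b : Fin f → F) (hb : ∀ j, b j ∈ W)
    (hind : ∀ c : Fin f → R, (∑ j, algebraMap R F (c j) * b j) ∈ W.nonunits →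
      ∀ j, c j ∈ maximalIdeal R) :
    f ≤ Ideal.inertiaDeg' (maximalIdeal R) (saPrime W (sa_S_mem (S := S) W hW)) := by
  classical
  set P := saPrime W (sa_S_mem (S := S) W hW) with hP
  haveI := sa_liesOver (S := S) W hW hne
  rw [Ideal.inertiaDeg'_algebraMap]
  choose β hβ using fun j => sa_exists_lift W (sa_S_mem (S := S) W hW) hne (b j) (hb j)
  have hli : LinearIndependent (R ⧸ maximalIdeal R) (fun j => Ideal.Quotient.mk P (β j)) := by
    rw [Fintype.linearIndependent_iff]
    intro g hg j
    choose c hc using fun j => Ideal.Quotient.mk_surjective (g j)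
    have hsum : (∑ j, algebraMap R S (c j) * β j) ∈ P := by
      rw [← Ideal.Quotient.eq_zero_iff_mem, map_sum, ← hg]
      refine Finset.sum_congr rfl fun i _ => ?_
      rw [map_mul, ← hc i, Algebra.smul_def, Ideal.Quotient.algebraMap_mk_of_liesOver]
    have h1 : algebraMap S F (∑ j, algebraMap R S (c j) * β j) ∈ W.nonunits :=
      (sa_mem_saPrime W _ _).1 hsum
    have h2 : (∑ j, algebraMap R F (c j) * (algebraMap S F (β j) - b j)) ∈ W.nonunits := by
      refine W.nonunits.sum_mem fun i _ => ?_
      rw [mul_comm]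
      exact sa_nonunits_mul W (hβ i) (hW (c i))
    have h3 : (∑ j, algebraMap R F (c j) * b j) ∈ W.nonunits := by
      have : (∑ j, algebraMap R F (c j) * b j) =
          algebraMap S F (∑ j, algebraMap R S (c j) * β j) -
            ∑ j, algebraMap R F (c j) * (algebraMap S F (β j) - b j) := by
        rw [map_sum, ← Finset.sum_sub_distrib]
        refine Finset.sum_congr rfl fun i _ => ?_
        rw [map_mul, ← IsScalarTower.algebraMap_apply]
        ring
      rw [this]
      exact W.nonunits.sub_mem h1 h2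
    have h4 := hind c h3 j
    rw [← hc j]
    exact Ideal.Quotient.eq_zero_iff_mem.2 h4
  haveI : Module.Finite (R ⧸ maximalIdeal R) (S ⧸ P) := inferInstance
  have := hli.fintype_card_le_finrank
  simpa using this

end Main

section Count

variable {R S F' F : Type*} [CommRing R] [IsDomain R] [IsDiscreteValuationRing R]
  [CommRing S] [IsDedekindDomain S] [Field F'] [Field F] [Algebra F' F] [Algebra R F']
  [IsFractionRing R F'] [Algebra R F] [IsScalarTower R F' F]
  [Algebra R S] [Algebra S F] [IsScalarTower R S F]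
  [IsIntegralClosure S R F] [IsFractionRing S F] [Module.Finite R S]

omit [IsDiscreteValuationRing R] [IsDedekindDomain S] [Algebra R S] [Algebra S F]
  [IsScalarTower R S F] [IsIntegralClosure S R F] [IsFractionRing S F] [Module.Finite R S]
  [IsDomain R] in
theorem sa_injective_algebraMap (R F' F : Type*) [CommRing R] [Field F'] [Field F]
    [Algebra F' F] [Algebra R F'] [IsFractionRing R F'] [Algebra R F] [IsScalarTower R F' F] :
    Function.Injective (algebraMap R F) := by
  rw [IsScalarTower.algebraMap_eq R F' F]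
  exact (algebraMap F' F).injective.comp (IsFractionRing.injective R F')

omit [IsDomain R] [IsDiscreteValuationRing R] [Algebra F' F] [Algebra R F']
  [IsFractionRing R F'] [Algebra R F] [IsScalarTower R F' F] [Algebra S F] [IsScalarTower R S F]
  [IsIntegralClosure S R F] [IsFractionRing S F] [Module.Finite R S] in
/-- a nonzero prime of `S` lies over the maximal ideal of `R` -/
theorem sa_liesOver_of_prime [IsLocalRing R] [Algebra.IsIntegral R S] (P : Ideal S)
    [hP : P.IsPrime] (hP0 : P ≠ ⊥) :
    P.LiesOver (maximalIdeal R) := by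
  constructor
  haveI hmax : P.IsMaximal := Ideal.IsPrime.isMaximal hP hP0
  have := Ideal.isMaximal_comap_of_isIntegral_of_isMaximal (R := R) P
  exact (IsLocalRing.eq_maximalIdeal this).symm

/-- **(SUM), the count**: under `[F : F'] ≤ ∑ e i * f i` every nonzero prime of `S` is the prime
of one of the `O i`. -/
theorem sa_primes {ι : Type*} [Fintype ι] (O : ι → ValuationSubring F)
    (hRO : ∀ i, ∀ r : R, algebraMap R F r ∈ O i) (hne : ∀ i, O i ≠ ⊤)
    (hinj : Function.Injective O) (e f : ι → ℕ)
    (he : ∀ i, ∃ z ∈ (O i).nonunits, ∀ ϖ ∈ maximalIdeal R, ∃ y ∈ O i,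
      algebraMap R F ϖ = z ^ e i * y)
    (hf : ∀ i, ∃ b : Fin (f i) → F, (∀ j, b j ∈ O i) ∧ ∀ c : Fin (f i) → R,
      (∑ j, algebraMap R F (c j) * b j) ∈ (O i).nonunits → ∀ j, c j ∈ maximalIdeal R)
    (hsum : Module.finrank F' F ≤ ∑ i, e i * f i)
    (P : Ideal S) [hP : P.IsPrime] (hP0 : P ≠ ⊥) :
    ∃ i, P = saPrime (O i) (sa_S_mem (S := S) (O i) (hRO i)) := by
  classical
  have hRF : Function.Injective (algebraMap R F) := sa_injective_algebraMap R F' F
  have hinjRS : Function.Injective (algebraMap R S) := by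
    have h := hRF
    rw [IsScalarTower.algebraMap_eq R S F] at h
    exact Function.Injective.of_comp h
  haveI : Module.IsTorsionFree R S := isTorsionFree_iff_algebraMap_injective.2 hinjRS
  haveI : Algebra.IsIntegral R S := IsIntegralClosure.isIntegral_algebra R F
  have hp0 : maximalIdeal R ≠ ⊥ := IsDiscreteValuationRing.not_a_field R
  have key := Ideal.sum_ramification_inertia S F' F (p := maximalIdeal R) hp0
  set Pi : ι → Ideal S := fun i => saPrime (O i) (sa_S_mem (S := S) (O i) (hRO i)) with hPi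
  have hPinj : Function.Injective Pi := by
    intro i j hij
    exact hinj (sa_eq_of_saPrime_eq (O i) (O j) _ _ (hne i) (hne j) hij)
  have hmemall : ∀ Q : Ideal S, Q.IsPrime → Q ≠ ⊥ →
      Q ∈ IsDedekindDomain.primesOverFinset (maximalIdeal R) S := by
    intro Q hQ hQ0
    rw [IsDedekindDomain.mem_primesOverFinset_iff hp0]
    exact ⟨hQ, sa_liesOver_of_prime (R := R) Q hQ0⟩
  have hpos : ∀ Q : Ideal S, Q.IsPrime → Q ≠ ⊥ →
      0 < Ideal.ramificationIdx' (maximalIdeal R) Q * Ideal.inertiaDeg' (maximalIdeal R) Q := by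
    intro Q hQ hQ0
    haveI := hQ
    haveI := sa_liesOver_of_prime (R := R) Q hQ0
    apply Nat.mul_pos
    · apply Nat.pos_of_ne_zero
      apply Ideal.IsDedekindDomain.ramificationIdx'_ne_zero _ hQ
      · rw [Ideal.map_le_iff_le_comap]
        exact (Ideal.over_def Q (maximalIdeal R)).le
      · rw [Ne, Ideal.map_eq_bot_iff_of_injective hinjRS]
        exact hp0
    · exact Ideal.inertiaDeg'_pos (maximalIdeal R) Q
  by_contra hcon
  push Not at hcon
  have hPnot : P ∉ Finset.univ.image Pi := by
    intro h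
    obtain ⟨i, -, hi⟩ := Finset.mem_image.1 h
    exact hcon i hi.symm
  have hsub : insert P (Finset.univ.image Pi) ⊆
      IsDedekindDomain.primesOverFinset (maximalIdeal R) S := by
    intro Q hQ
    rcases Finset.mem_insert.1 hQ with rfl | hQ
    · exact hmemall Q hP hP0
    · obtain ⟨i, -, rfl⟩ := Finset.mem_image.1 hQ
      exact hmemall _ inferInstance (sa_saPrime_ne_bot _ _ (hne i))
  have h1 : ∑ i, e i * f i ≤ ∑ i, Ideal.ramificationIdx' (maximalIdeal R) (Pi i) *
      Ideal.inertiaDeg' (maximalIdeal R) (Pi i) := by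
    refine Finset.sum_le_sum fun i _ => ?_
    obtain ⟨z, hz, hzϖ⟩ := he i
    obtain ⟨b, hb, hbind⟩ := hf i
    exact Nat.mul_le_mul (sa_le_ramificationIdx (S := S) (O i) (hRO i) (hne i) hRF (e i) z hz hzϖ)
      (sa_le_inertiaDeg (S := S) (O i) (hRO i) (hne i) (f i) b hb hbind)
  have h2 : ∑ i, Ideal.ramificationIdx' (maximalIdeal R) (Pi i) *
      Ideal.inertiaDeg' (maximalIdeal R) (Pi i) =
      ∑ Q ∈ Finset.univ.image Pi, Ideal.ramificationIdx' (maximalIdeal R) Q *
        Ideal.inertiaDeg' (maximalIdeal R) Q :=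
    (Finset.sum_image (s := Finset.univ) (g := Pi)
      (f := fun Q => Ideal.ramificationIdx' (maximalIdeal R) Q *
        Ideal.inertiaDeg' (maximalIdeal R) Q) (fun i _ j _ h => hPinj h)).symm
  have h3 : ∑ Q ∈ insert P (Finset.univ.image Pi), Ideal.ramificationIdx' (maximalIdeal R) Q *
        Ideal.inertiaDeg' (maximalIdeal R) Q ≤ Module.finrank F' F := by
    rw [← key]
    exact Finset.sum_le_sum_of_subset hsub
  rw [Finset.sum_insert hPnot] at h3
  have h4 := hpos P hP hP0
  omega

/-- under the count, an element of `F` lying in all `O i` comes from `S` -/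
theorem sa_mem_range {ι : Type*} [Fintype ι] (O : ι → ValuationSubring F)
    (hRO : ∀ i, ∀ r : R, algebraMap R F r ∈ O i) (hne : ∀ i, O i ≠ ⊤)
    (hinj : Function.Injective O) (e f : ι → ℕ)
    (he : ∀ i, ∃ z ∈ (O i).nonunits, ∀ ϖ ∈ maximalIdeal R, ∃ y ∈ O i,
      algebraMap R F ϖ = z ^ e i * y)
    (hf : ∀ i, ∃ b : Fin (f i) → F, (∀ j, b j ∈ O i) ∧ ∀ c : Fin (f i) → R,
      (∑ j, algebraMap R F (c j) * b j) ∈ (O i).nonunits → ∀ j, c j ∈ maximalIdeal R)
    (hsum : Module.finrank F' F ≤ ∑ i, e i * f i)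
    (z : F) (hz : ∀ i, z ∈ O i) : ∃ s : S, algebraMap S F s = z := by
  have hRF : Function.Injective (algebraMap R F) := sa_injective_algebraMap R F' F
  have hinjRS : Function.Injective (algebraMap R S) := by
    have h := hRF
    rw [IsScalarTower.algebraMap_eq R S F] at h
    exact Function.Injective.of_comp h
  haveI : Algebra.IsIntegral R S := IsIntegralClosure.isIntegral_algebra R F
  have hmem : z ∈ (⨅ v : MaximalSpectrum S,
      Localization.subalgebra.ofField F _ v.asIdeal.primeCompl_le_nonZeroDivisors) := by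
    rw [Algebra.mem_iInf]
    intro v
    have hv0 : v.asIdeal ≠ ⊥ := by
      intro h0
      haveI := v.isMaximal
      have hmax := Ideal.isMaximal_comap_of_isIntegral_of_isMaximal (R := R) v.asIdeal
      rw [h0] at hmax
      have hbot : (⊥ : Ideal S).comap (algebraMap R S) = ⊥ := by
        rw [← RingHom.ker_eq_comap_bot]
        exact (RingHom.injective_iff_ker_eq_bot _).1 hinjRS
      rw [hbot] at hmax
      exact IsDiscreteValuationRing.not_a_field R (IsLocalRing.eq_maximalIdeal hmax).symm
    haveI : v.asIdeal.IsPrime := v.isMaximal.isPrime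
    obtain ⟨i, hi⟩ := sa_primes (F' := F') O hRO hne hinj e f he hf hsum v.asIdeal hv0
    have h1 := (sa_mem_iff_mem_saLoc (O i) (sa_S_mem (S := S) (O i) (hRO i)) (hne i) z).1 (hz i)
    rw [sa_mem_saLoc] at h1
    obtain ⟨a, s, hs, hzas⟩ := h1
    rw [← hi] at hs
    exact ⟨a, s, hs, hzas⟩
  rw [MaximalSpectrum.iInf_localization_eq_bot] at hmem
  obtain ⟨s, hs⟩ := Algebra.mem_bot.1 hmem
  exact ⟨s, hs⟩

end Count

section Final

variable (R F' F : Type*) [CommRing R] [IsDomain R] [IsDiscreteValuationRing R]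
  [Field F'] [Field F] [Algebra F' F] [Algebra R F'] [IsFractionRing R F'] [Algebra R F]
  [IsScalarTower R F' F] [FiniteDimensional F' F] [Algebra.IsSeparable F' F]

/-- **(SUM), abstract form, part 1.**  `R` a discrete valuation ring with fraction field `F'`,
`F / F'` finite separable, `O i` pairwise distinct valuation subrings `≠ ⊤` of `F` containing `R`
with witnesses for `e i ≤ e(O i / R)` and `f i ≤ f(O i / R)` and `[F : F'] ≤ ∑ e i * f i`.
Then every valuation subring `W ≠ ⊤` of `F` containing `R` is one of the `O i`. -/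
theorem sumAbs_complete {ι : Type*} [Fintype ι] (O : ι → ValuationSubring F)
    (hRO : ∀ i, ∀ r : R, algebraMap R F r ∈ O i) (hne : ∀ i, O i ≠ ⊤)
    (hinj : Function.Injective O) (e f : ι → ℕ)
    (he : ∀ i, ∃ z ∈ (O i).nonunits, ∀ ϖ ∈ maximalIdeal R, ∃ y ∈ O i,
      algebraMap R F ϖ = z ^ e i * y)
    (hf : ∀ i, ∃ b : Fin (f i) → F, (∀ j, b j ∈ O i) ∧ ∀ c : Fin (f i) → R,
      (∑ j, algebraMap R F (c j) * b j) ∈ (O i).nonunits → ∀ j, c j ∈ maximalIdeal R)
    (hsum : Module.finrank F' F ≤ ∑ i, e i * f i)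
    (W : ValuationSubring F) (hW : W ≠ ⊤) (hRW : ∀ r : R, algebraMap R F r ∈ W) :
    ∃ i, W = O i := by
  obtain ⟨h1, h2, h3⟩ := sa_closure_facts R F' F
  haveI := h1
  haveI := h2
  haveI := h3
  obtain ⟨i, hi⟩ := sa_primes (S := integralClosure R F) (F' := F') O hRO hne hinj e f he hf hsum
    (saPrime W (sa_S_mem (S := integralClosure R F) W hRW)) (sa_saPrime_ne_bot W _ hW)
  exact ⟨i, sa_eq_of_saPrime_eq W (O i) _ _ hW (hne i) hi⟩

/-- **(SUM), abstract form, part 2.**  Under the same hypotheses an element of `F` lying in all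
`O i` is integral over `R`: `⋂ O i` is the integral closure of `R` in `F`. -/
theorem sumAbs_isIntegral {ι : Type*} [Fintype ι] (O : ι → ValuationSubring F)
    (hRO : ∀ i, ∀ r : R, algebraMap R F r ∈ O i) (hne : ∀ i, O i ≠ ⊤)
    (hinj : Function.Injective O) (e f : ι → ℕ)
    (he : ∀ i, ∃ z ∈ (O i).nonunits, ∀ ϖ ∈ maximalIdeal R, ∃ y ∈ O i,
      algebraMap R F ϖ = z ^ e i * y)
    (hf : ∀ i, ∃ b : Fin (f i) → F, (∀ j, b j ∈ O i) ∧ ∀ c : Fin (f i) → R,
      (∑ j, algebraMap R F (c j) * b j) ∈ (O i).nonunits → ∀ j, c j ∈ maximalIdeal R)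
    (hsum : Module.finrank F' F ≤ ∑ i, e i * f i)
    (z : F) : IsIntegral R z ↔ ∀ i, z ∈ O i := by
  constructor
  · intro hz i
    exact sa_integral_mem (O i) (hRO i) z hz
  · intro hz
    obtain ⟨h1, h2, h3⟩ := sa_closure_facts R F' F
    haveI := h1
    haveI := h2
    haveI := h3
    obtain ⟨s, hs⟩ := sa_mem_range (S := integralClosure R F) (F' := F') O hRO hne hinj e f he hf
      hsum z hz
    rw [← hs]
    exact s.2

end Final

section ValSub

variable {F' F : Type*} [Field F'] [Field F] [Algebra F' F] [FiniteDimensional F' F]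
  [Algebra.IsSeparable F' F]

/-- **(SUM) for a valuation subring `R` of `F'`**, elementary statement.
`R` a discrete valuation subring of `F'`; `O i` pairwise distinct valuation subrings `≠ ⊤` of `F`
containing `R`; `z i` a nonunit of `O i` with `m_R ⊆ z i ^ e i • O i`; `b i j` (`j < f i`) elements
of `O i` with reductions linearly independent over the residue field of `R`;
`[F : F'] ≤ ∑ e i * f i`.  Then
* every valuation subring `W ≠ ⊤` of `F` containing `R` is one of the `O i`;
* every element of `⋂ O i` is a root of a monic polynomial with coefficients in `R`. -/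
theorem sumAbs_valuationSubring (R : ValuationSubring F') [IsDiscreteValuationRing R]
    {ι : Type*} [Fintype ι] (O : ι → ValuationSubring F)
    (hRO : ∀ i, ∀ x ∈ R, algebraMap F' F x ∈ O i) (hne : ∀ i, O i ≠ ⊤)
    (hinj : Function.Injective O) (e f : ι → ℕ)
    (he : ∀ i, ∃ z ∈ (O i).nonunits, ∀ ϖ ∈ R.nonunits, ∃ y ∈ O i,
      algebraMap F' F ϖ = z ^ e i * y)
    (hf : ∀ i, ∃ b : Fin (f i) → F, (∀ j, b j ∈ O i) ∧ ∀ c : Fin (f i) → F',
      (∀ j, c j ∈ R) → (∑ j, algebraMap F' F (c j) * b j) ∈ (O i).nonunits →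
        ∀ j, c j ∈ R.nonunits)
    (hsum : Module.finrank F' F ≤ ∑ i, e i * f i) :
    (∀ W : ValuationSubring F, W ≠ ⊤ → (∀ x ∈ R, algebraMap F' F x ∈ W) → ∃ i, W = O i) ∧
    (∀ z : F, (∀ i, z ∈ O i) →
      ∃ p : Polynomial F', p.Monic ∧ (∀ n, p.coeff n ∈ R) ∧ Polynomial.aeval z p = 0) := by
  letI : Algebra R F := ((algebraMap F' F).comp R.subtype).toAlgebra
  haveI : IsScalarTower R F' F := IsScalarTower.of_algebraMap_eq fun _ => rfl
  have hmap : ∀ r : R, algebraMap R F r = algebraMap F' F (r : F') := fun _ => rfl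
  have hRO' : ∀ i, ∀ r : R, algebraMap R F r ∈ O i := fun i r => hRO i r r.2
  have he' : ∀ i, ∃ z ∈ (O i).nonunits, ∀ ϖ ∈ maximalIdeal R, ∃ y ∈ O i,
      algebraMap R F ϖ = z ^ e i * y := by
    intro i
    obtain ⟨z, hz, h⟩ := he i
    refine ⟨z, hz, fun ϖ hϖ => ?_⟩
    exact h (ϖ : F') (ValuationSubring.coe_mem_nonunits_iff.2 hϖ)
  have hf' : ∀ i, ∃ b : Fin (f i) → F, (∀ j, b j ∈ O i) ∧ ∀ c : Fin (f i) → R,
      (∑ j, algebraMap R F (c j) * b j) ∈ (O i).nonunits → ∀ j, c j ∈ maximalIdeal R := by
    intro i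
    obtain ⟨b, hb, h⟩ := hf i
    refine ⟨b, hb, fun c hc j => ?_⟩
    exact ValuationSubring.coe_mem_nonunits_iff.1
      (h (fun j => (c j : F')) (fun j => (c j).2) hc j)
  refine ⟨fun W hW hRW => ?_, fun z hz => ?_⟩
  · exact sumAbs_complete R F' F O hRO' hne hinj e f he' hf' hsum W hW fun r => hRW r r.2
  · obtain ⟨p, hp, hpz⟩ := (sumAbs_isIntegral R F' F O hRO' hne hinj e f he' hf' hsum z).2 hz
    refine ⟨p.map (algebraMap R F'), hp.map _, fun n => ?_, ?_⟩
    · rw [Polynomial.coeff_map]
      exact (p.coeff n).2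
    · rw [Polynomial.aeval_def, Polynomial.eval₂_map, ← IsScalarTower.algebraMap_eq]
      exact hpz

end ValSub

end Fermat.Agent.S36lib

end
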