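import Mathlib
import Fermat.Agent.S36lib.SumAbs

/-!
# Item 83 (S36), block V, piece V-G (helper2): (SUM) in the shape consumed by V-I

`sumAbs_vs_isIntegral`: for a discrete valuation subring `R` of `F'` (with Mathlib's default
`Algebra R F`), under the hypotheses of `sumAbs_valuationSubring`, every element of `⋂ O i` is
integral over `R`; `sumAbs_vs_iff`: `IsIntegral R z ↔ ∀ i, z ∈ O i`.
`sumAbs_isDVR`: a valuation subring with a uniformiser is a discrete valuation ring.
-/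

set_option autoImplicit false

noncomputable section

namespace Fermat.Agent.S36lib

open Module IsLocalRing

variable {F' F : Type*} [Field F'] [Field F] [Algebra F' F] [FiniteDimensional F' F]
  [Algebra.IsSeparable F' F]

/-- (SUM): `IsIntegral R z ↔ z ∈ ⋂ O i`, for Mathlib's default algebra structure of a valuation
subring `R` of `F'` on `F`. -/
theorem sumAbs_vs_iff (R : ValuationSubring F') [IsDiscreteValuationRing R]
    {ι : Type*} [Fintype ι] (O : ι → ValuationSubring F)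
    (hRO : ∀ i, ∀ x ∈ R, algebraMap F' F x ∈ O i) (hne : ∀ i, O i ≠ ⊤)
    (hinj : Function.Injective O) (e f : ι → ℕ)
    (he : ∀ i, ∃ z ∈ (O i).nonunits, ∀ ϖ ∈ R.nonunits, ∃ y ∈ O i,
      algebraMap F' F ϖ = z ^ e i * y)
    (hf : ∀ i, ∃ b : Fin (f i) → F, (∀ j, b j ∈ O i) ∧ ∀ c : Fin (f i) → F',
      (∀ j, c j ∈ R) → (∑ j, algebraMap F' F (c j) * b j) ∈ (O i).nonunits →
        ∀ j, c j ∈ R.nonunits)
    (hsum : Module.finrank F' F ≤ ∑ i, e i * f i) (z : F) :
    IsIntegral R z ↔ ∀ i, z ∈ O i := by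
  have hRO' : ∀ i, ∀ r : R, algebraMap R F r ∈ O i := fun i r => hRO i r r.2
  have he' : ∀ i, ∃ z ∈ (O i).nonunits, ∀ ϖ ∈ maximalIdeal R, ∃ y ∈ O i,
      algebraMap R F ϖ = z ^ e i * y := by
    intro i
    obtain ⟨z, hz, h⟩ := he i
    refine ⟨z, hz, fun ϖ hϖ => ?_⟩
    exact h (ϖ : F') (ValuationSubring.coe_mem_nonunits_iff.2 hϖ)
  have hf' : ∀ i, ∃ b : Fin (f i) → F, (∀ j, b j ∈ O i) ∧ ∀ c : Fin (f i) → R,
      (∑ j, algebraMap R F (c j) * b j) ∈ (O i).nonunits → ∀ j, c j ∈ maximalIdeal R := by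
    intro i
    obtain ⟨b, hb, h⟩ := hf i
    refine ⟨b, hb, fun c hc j => ?_⟩
    exact ValuationSubring.coe_mem_nonunits_iff.1
      (h (fun j => (c j : F')) (fun j => (c j).2) hc j)
  exact sumAbs_isIntegral R F' F O hRO' hne hinj e f he' hf' hsum z

/-- (SUM), the shape consumed by V-I -/
theorem sumAbs_vs_isIntegral (R : ValuationSubring F') [IsDiscreteValuationRing R]
    {ι : Type*} [Fintype ι] (O : ι → ValuationSubring F)
    (hRO : ∀ i, ∀ x ∈ R, algebraMap F' F x ∈ O i) (hne : ∀ i, O i ≠ ⊤)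
    (hinj : Function.Injective O) (e f : ι → ℕ)
    (he : ∀ i, ∃ z ∈ (O i).nonunits, ∀ ϖ ∈ R.nonunits, ∃ y ∈ O i,
      algebraMap F' F ϖ = z ^ e i * y)
    (hf : ∀ i, ∃ b : Fin (f i) → F, (∀ j, b j ∈ O i) ∧ ∀ c : Fin (f i) → F',
      (∀ j, c j ∈ R) → (∑ j, algebraMap F' F (c j) * b j) ∈ (O i).nonunits →
        ∀ j, c j ∈ R.nonunits)
    (hsum : Module.finrank F' F ≤ ∑ i, e i * f i) (z : F) (hz : ∀ i, z ∈ O i) :
    IsIntegral R z :=
  (sumAbs_vs_iff R O hRO hne hinj e f he hf hsum z).2 hz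

omit [Algebra F' F] [FiniteDimensional F' F] [Algebra.IsSeparable F' F] in
/-- a valuation subring with a uniformiser `ϖ` (a nonzero nonunit such that every nonzero
element of `R` is a unit times a power of `ϖ`) is a discrete valuation ring -/
theorem sumAbs_isDVR (R : ValuationSubring F') (ϖ : F') (hϖR : ϖ ∈ R.nonunits) (hϖ0 : ϖ ≠ 0)
    (h : ∀ x ∈ R, x ≠ 0 → ∃ (n : ℕ) (u : F'), u ∈ R ∧ u⁻¹ ∈ R ∧ x = ϖ ^ n * u) :
    IsDiscreteValuationRing R := by
  have hϖmem : ϖ ∈ R := ValuationSubring.nonunits_subset hϖR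
  set p : R := ⟨ϖ, hϖmem⟩ with hp
  have hp0 : p ≠ 0 := by
    intro h0
    exact hϖ0 (congrArg Subtype.val h0)
  have hpnu : ¬ IsUnit p := by
    intro hu
    have hpm : p ∈ maximalIdeal R := ValuationSubring.coe_mem_nonunits_iff.1 hϖR
    exact (IsLocalRing.mem_maximalIdeal _).1 hpm hu
  have hfac : ∀ x : R, x ≠ 0 → ∃ n : ℕ, Associated (p ^ n) x := by
    intro x hx
    have hx0 : (x : F') ≠ 0 := fun h0 => hx (Subtype.ext h0)
    obtain ⟨n, u, hu, hui, hxu⟩ := h x x.2 hx0
    have hu0 : u ≠ 0 := by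
      rintro rfl
      rw [mul_zero] at hxu
      exact hx0 hxu
    refine ⟨n, ?_⟩
    let U : Rˣ := ⟨⟨u, hu⟩, ⟨u⁻¹, hui⟩, Subtype.ext (mul_inv_cancel₀ hu0),
      Subtype.ext (inv_mul_cancel₀ hu0)⟩
    refine ⟨U, Subtype.ext ?_⟩
    show (p : F') ^ n * u = x
    rw [hxu]
  have hirr : Irreducible p := by
    refine ⟨hpnu, fun a b hab => ?_⟩
    have ha0 : a ≠ 0 := by
      rintro rfl
      rw [zero_mul] at hab
      exact hp0 hab
    have hb0 : b ≠ 0 := by
      rintro rfl
      rw [mul_zero] at hab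
      exact hp0 hab
    obtain ⟨m, ua, hua⟩ := hfac a ha0
    obtain ⟨n, ub, hub⟩ := hfac b hb0
    -- p = p^(m+n) * unit
    have hpow : p = p ^ (m + n) * (ua * ub : Rˣ) := by
      calc p = a * b := hab
        _ = (p ^ m * ua) * (p ^ n * ub) := by rw [hua, hub]
        _ = p ^ (m + n) * (ua * ub : Rˣ) := by
          push_cast
          ring
    have hmn : m + n = 1 := by
      by_contra hne
      rcases Nat.lt_or_gt_of_ne hne with hlt | hgt
      · have h0 : m + n = 0 := by omega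
        rw [h0, pow_zero, one_mul] at hpow
        exact hpnu (hpow ▸ (ua * ub).isUnit)
      · obtain ⟨k, hk⟩ : ∃ k, m + n = k + 2 := ⟨m + n - 2, by omega⟩
        rw [hk] at hpow
        have h1 : p * 1 = p * (p ^ (k + 1) * (ua * ub : Rˣ)) := by
          rw [mul_one]
          conv_lhs => rw [hpow]
          ring
        have h2 := mul_left_cancel₀ hp0 h1
        apply hpnu
        have hunit : IsUnit (p ^ (k + 1) * ((ua * ub : Rˣ) : R)) := h2 ▸ isUnit_one
        have h3 : IsUnit (p ^ (k + 1)) := isUnit_of_mul_isUnit_left hunit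
        exact (isUnit_pow_iff (Nat.succ_ne_zero k)).1 h3
    rcases Nat.eq_zero_or_pos m with hm | hm
    · left
      rw [← hua, hm, pow_zero, one_mul]
      exact ua.isUnit
    · right
      have hn : n = 0 := by omega
      rw [← hub, hn, pow_zero, one_mul]
      exact ub.isUnit
  exact IsDiscreteValuationRing.ofHasUnitMulPowIrreducibleFactorization
    ⟨p, hirr, fun {x} hx => hfac x hx⟩

end Fermat.Agent.S36lib

end
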