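import Mathlib
import Fermat.Agent.S36lib.SumAbsInt

/-!
# Item 83 (S36), block V, piece V-G, relative form (helper2): (SUM) along a ring homomorphism

`φ : K' → F` a homomorphism of fields of characteristic `0` (no `Algebra` instance), `V` a
valuation subring of `K'` with a uniformiser `ϖ`, `W i` finitely many pairwise distinct valuation
subrings of `F` over `V` with `φ ϖ ∈ z i ^ e i • W i` (`z i` a nonunit), `f i` elements of `W i`
independent modulo the maximal ideal over `V`, and `[F : φ K'] ≤ ∑ e i * f i` (in the form: any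
`n + 1` elements of `F` are linearly dependent over `φ K'`, `n ≤ ∑ e i * f i`).

* `sumRel_finrank_le`: the dependence form of `[F : φ K'] ≤ n`;
* `sumRel_isIntegral`: every element of `⋂ W i` is a root of a monic polynomial over `K'` with
  coefficients in `V` (evaluated along `φ`);
* `sumRel_complete`: every valuation subring `≠ ⊤` of `F` containing `φ V` is one of the `W i`.
-/

set_option autoImplicit false
set_option linter.style.haveILetI false
set_option linter.unusedSectionVars false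

noncomputable section

namespace Fermat.Agent.S36lib

open Module Polynomial

section Degree

variable {K' F : Type*} [Field K'] [Field F]

/-- if any `n + 1` elements of `F` are linearly dependent over `φ K'` then `[F : φ K'] ≤ n` -/
theorem sumRel_finrank_le (φ : K' →+* F) (n : ℕ)
    (h : ∀ w : Fin (n + 1) → F, ∃ g : Fin (n + 1) → K', g ≠ 0 ∧ ∑ i, φ (g i) * w i = 0) :
    letI := φ.toAlgebra
    Module.Finite K' F ∧ Module.finrank K' F ≤ n := by
  letI := φ.toAlgebra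
  have hrank : Module.rank K' F ≤ n := by
    apply rank_le
    intro s hs
    by_contra hlt
    rw [not_le] at hlt
    -- a linearly independent family of `n + 1` elements
    have hcard : n + 1 ≤ Fintype.card s := by
      rw [Fintype.card_coe]
      exact hlt
    obtain ⟨emb⟩ : Nonempty (Fin (n + 1) ↪ s) :=
      Function.Embedding.nonempty_of_card_le (by rw [Fintype.card_fin]; exact hcard)
    have hli : LinearIndependent K' (fun i : Fin (n + 1) => ((emb i : s) : F)) :=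
      hs.comp emb emb.injective
    obtain ⟨g, hg0, hg⟩ := h (fun i => ((emb i : s) : F))
    apply hg0
    funext i
    exact (Fintype.linearIndependent_iff.1 hli) g (by
      rw [← hg]
      refine Finset.sum_congr rfl fun i _ => ?_
      rw [Algebra.smul_def]
      rfl) i
  have hlt : Module.rank K' F < Cardinal.aleph0 :=
    lt_of_le_of_lt hrank (Cardinal.natCast_lt_aleph0)
  haveI : Module.Finite K' F := Module.rank_lt_aleph0_iff.1 hlt
  refine ⟨inferInstance, ?_⟩
  have h2 : (Module.finrank K' F : Cardinal) ≤ n := by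
    rw [Module.finrank_eq_rank]
    exact hrank
  exact_mod_cast h2

end Degree

section Main

variable {K' F : Type*} [Field K'] [Field F] [CharZero K']

/-- **(SUM) along `φ`, integrality**. -/
theorem sumRel_isIntegral (φ : K' →+* F)
    (V : ValuationSubring K') (ϖ : K') (hϖ : ϖ ∈ V.nonunits) (hϖ0 : ϖ ≠ 0)
    (hV : ∀ x ∈ V, x ≠ 0 → ∃ (n : ℕ) (u : K'), u ∈ V ∧ u⁻¹ ∈ V ∧ x = ϖ ^ n * u)
    {ι : Type*} [Fintype ι] (W : ι → ValuationSubring F)
    (hVW : ∀ i, ∀ x ∈ V, φ x ∈ W i) (hϖW : ∀ i, φ ϖ ∈ (W i).nonunits)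
    (hinj : Function.Injective W) (e f : ι → ℕ)
    (he : ∀ i, ∃ z ∈ (W i).nonunits, ∃ y ∈ W i, φ ϖ = z ^ e i * y)
    (hf : ∀ i, ∃ b : Fin (f i) → F, (∀ l, b l ∈ W i) ∧ ∀ c : Fin (f i) → K',
      (∀ l, c l ∈ V) → (∑ l, φ (c l) * b l) ∈ (W i).nonunits → ∀ l, c l ∈ V.nonunits)
    (n : ℕ)
    (hdep : ∀ w : Fin (n + 1) → F, ∃ g : Fin (n + 1) → K', g ≠ 0 ∧ ∑ i, φ (g i) * w i = 0)
    (hsum : n ≤ ∑ i, e i * f i) (x : F) (hx : ∀ i, x ∈ W i) :
    ∃ p : K'[X], p.Monic ∧ (∀ m, p.coeff m ∈ V) ∧ eval₂ φ x p = 0 := by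
  classical
  letI := φ.toAlgebra
  obtain ⟨hfin, hrk⟩ := sumRel_finrank_le φ n hdep
  haveI : Module.Finite K' F := hfin
  haveI : Algebra.IsSeparable K' F := Algebra.IsAlgebraic.isSeparable_of_perfectField
  haveI : IsDiscreteValuationRing V := sumAbs_isDVR V ϖ hϖ hϖ0 hV
  have hne : ∀ i, W i ≠ ⊤ := by
    intro i htop
    have h1 := hϖW i
    rw [ValuationSubring.mem_nonunits_iff_or] at h1
    rcases h1 with h1 | h1
    · exact hϖ0 (φ.injective (by rw [h1, map_zero]))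
    · apply h1
      rw [htop]
      exact ValuationSubring.mem_top _
  have he' : ∀ i, ∃ z ∈ (W i).nonunits, ∀ ϖ' ∈ V.nonunits, ∃ y ∈ W i,
      algebraMap K' F ϖ' = z ^ e i * y := by
    intro i
    obtain ⟨z, hz, y, hy, hzy⟩ := he i
    refine ⟨z, hz, fun ϖ' hϖ' => ?_⟩
    by_cases h0 : ϖ' = 0
    · exact ⟨0, (W i).zero_mem, by rw [h0, map_zero, mul_zero]⟩
    obtain ⟨m, u, hu, hui, hxu⟩ := hV ϖ' (ValuationSubring.nonunits_subset hϖ') h0
    have hm : m ≠ 0 := by
      rintro rfl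
      rw [pow_zero, one_mul] at hxu
      rw [hxu, ValuationSubring.mem_nonunits_iff_or] at hϖ'
      rcases hϖ' with h | h
      · exact h0 (hxu.trans h)
      · exact h hui
    obtain ⟨m', rfl⟩ : ∃ m', m = m' + 1 := ⟨m - 1, by omega⟩
    have hϖV : ϖ ∈ V := ValuationSubring.nonunits_subset hϖ
    refine ⟨y * φ (ϖ ^ m' * u), (W i).mul_mem _ _ hy
      (hVW i _ (V.mul_mem _ _ (pow_mem hϖV m') hu)), ?_⟩
    show φ ϖ' = _
    rw [hxu, ← mul_assoc, ← hzy, ← map_mul]
    congr 1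
    ring
  have hint : IsIntegral V x :=
    sumAbs_vs_isIntegral V W hVW hne hinj e f he' hf (hrk.trans hsum) x hx
  obtain ⟨p, hp, hpx⟩ := hint
  refine ⟨p.map V.subtype, hp.map _, fun m => ?_, ?_⟩
  · rw [coeff_map]
    exact (p.coeff m).2
  · rw [eval₂_map]
    exact hpx

/-- **(SUM) along `φ`, completeness**. -/
theorem sumRel_complete (φ : K' →+* F)
    (V : ValuationSubring K') (ϖ : K') (hϖ : ϖ ∈ V.nonunits) (hϖ0 : ϖ ≠ 0)
    (hV : ∀ x ∈ V, x ≠ 0 → ∃ (n : ℕ) (u : K'), u ∈ V ∧ u⁻¹ ∈ V ∧ x = ϖ ^ n * u)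
    {ι : Type*} [Fintype ι] (W : ι → ValuationSubring F)
    (hVW : ∀ i, ∀ x ∈ V, φ x ∈ W i) (hϖW : ∀ i, φ ϖ ∈ (W i).nonunits)
    (hinj : Function.Injective W) (e f : ι → ℕ)
    (he : ∀ i, ∃ z ∈ (W i).nonunits, ∃ y ∈ W i, φ ϖ = z ^ e i * y)
    (hf : ∀ i, ∃ b : Fin (f i) → F, (∀ l, b l ∈ W i) ∧ ∀ c : Fin (f i) → K',
      (∀ l, c l ∈ V) → (∑ l, φ (c l) * b l) ∈ (W i).nonunits → ∀ l, c l ∈ V.nonunits)
    (n : ℕ)
    (hdep : ∀ w : Fin (n + 1) → F, ∃ g : Fin (n + 1) → K', g ≠ 0 ∧ ∑ i, φ (g i) * w i = 0)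
    (hsum : n ≤ ∑ i, e i * f i) (O : ValuationSubring F) (hO : O ≠ ⊤)
    (hVO : ∀ x ∈ V, φ x ∈ O) :
    ∃ i, O = W i := by
  classical
  letI := φ.toAlgebra
  obtain ⟨hfin, hrk⟩ := sumRel_finrank_le φ n hdep
  haveI : Module.Finite K' F := hfin
  haveI : Algebra.IsSeparable K' F := Algebra.IsAlgebraic.isSeparable_of_perfectField
  haveI : IsDiscreteValuationRing V := sumAbs_isDVR V ϖ hϖ hϖ0 hV
  have hne : ∀ i, W i ≠ ⊤ := by
    intro i htop
    have h1 := hϖW i
    rw [ValuationSubring.mem_nonunits_iff_or] at h1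
    rcases h1 with h1 | h1
    · exact hϖ0 (φ.injective (by rw [h1, map_zero]))
    · apply h1
      rw [htop]
      exact ValuationSubring.mem_top _
  have he' : ∀ i, ∃ z ∈ (W i).nonunits, ∀ ϖ' ∈ V.nonunits, ∃ y ∈ W i,
      algebraMap K' F ϖ' = z ^ e i * y := by
    intro i
    obtain ⟨z, hz, y, hy, hzy⟩ := he i
    refine ⟨z, hz, fun ϖ' hϖ' => ?_⟩
    by_cases h0 : ϖ' = 0
    · exact ⟨0, (W i).zero_mem, by rw [h0, map_zero, mul_zero]⟩
    obtain ⟨m, u, hu, hui, hxu⟩ := hV ϖ' (ValuationSubring.nonunits_subset hϖ') h0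
    have hm : m ≠ 0 := by
      rintro rfl
      rw [pow_zero, one_mul] at hxu
      rw [hxu, ValuationSubring.mem_nonunits_iff_or] at hϖ'
      rcases hϖ' with h | h
      · exact h0 (hxu.trans h)
      · exact h hui
    obtain ⟨m', rfl⟩ : ∃ m', m = m' + 1 := ⟨m - 1, by omega⟩
    have hϖV : ϖ ∈ V := ValuationSubring.nonunits_subset hϖ
    refine ⟨y * φ (ϖ ^ m' * u), (W i).mul_mem _ _ hy
      (hVW i _ (V.mul_mem _ _ (pow_mem hϖV m') hu)), ?_⟩
    show φ ϖ' = _
    rw [hxu, ← mul_assoc, ← hzy, ← map_mul]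
    congr 1
    ring
  exact (sumAbs_valuationSubring V W hVW hne hinj e f he' hf (hrk.trans hsum)).1 O hO hVO

end Main

end Fermat.Agent.S36lib

end
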