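import Mathlib
import Fermat.Agent.S36lib.Setup
import Fermat.Agent.S36lib.SumAbsInt

/-!
# Item 83 (S36), block V, piece V-G, semi-concrete form (helper2): (SUM) for `ResVal`s

`K ⊂ F` fields, `A` a discrete valuation subring of `K` with residue map `π : A → k` (onto),
`j ∈ F` transcendental over `K` with `F / K(j)` finite separable, and a finite family
`v i : ResVal A π κ F` of valuations of `F` over `A` such that `j ∈ (v i).O` and the reduction
`t i = red_i j` is transcendental over `k`.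

* `sr_gauss`: every `x ≠ 0` of `K(j)` is `c • u` with `c ∈ K` and `u ∈ K(j)` a unit of every
  `(v i).O`; hence all `(v i).O` induce the same valuation ring on `K(j)` (the Gauss ring),
  which is a discrete valuation ring (`sr_isDVR`);
* `sumRes_isIntegral`: if the `(v i).O` are pairwise distinct, `ϖ ∈ z i ^ e i • (v i).O` for a
  uniformiser `ϖ` of `A` and nonunits `z i`, `f i ≤ [κ : k(t i)]` and
  `[F : K(j)] ≤ ∑ e i * f i`, then every element of `⋂ (v i).O` is integral over the Gauss ring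
  `(v i₀).O ∩ K(j)` (= the hypothesis `hB₂` of `vnoeth_main`), and
* `sumRes_complete`: every valuation subring `W ≠ ⊤` of `F` containing the Gauss ring is one of
  the `(v i).O`.

Helper lemmas are prefixed `sr_`.
-/

set_option autoImplicit false
set_option linter.style.haveILetI false
set_option linter.unusedSectionVars false

noncomputable section

namespace Fermat.Agent.S36lib

open Polynomial IntermediateField IsLocalRing

variable {K : Type*} [Field K] {k : Type*} [Field k]
  {A : ValuationSubring K} {π : A →+* k} {κ : Type*} [Field κ] [Algebra k κ]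
  {F : Type*} [Field F] [Algebra K F]

section Eval

variable (v : ResVal A π κ F) (j : F) (hj : j ∈ v.O)

/-- the constants of `A` in `v.O` -/
def srConst : A →+* v.O where
  toFun a := ⟨algebraMap K F (a : K), v.algebraMap_mem a⟩
  map_one' := by ext; simp
  map_mul' a b := by ext; simp
  map_zero' := by ext; simp
  map_add' a b := by ext; simp

/-- evaluation at `j` of polynomials with coefficients in `A`, with values in `v.O` -/
def srEval : A[X] →+* v.O := Polynomial.eval₂RingHom (srConst v) ⟨j, hj⟩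

theorem sr_coe_srEval (p : A[X]) :
    ((srEval v j hj p : v.O) : F) = aeval j (p.map (algebraMap A K)) := by
  have h : (v.O.subtype.comp (srEval v j hj)) =
      ((aeval j : K[X] →ₐ[K] F) : K[X] →+* F).comp (Polynomial.mapRingHom (algebraMap A K)) := by
    apply Polynomial.ringHom_ext
    · intro a
      simp [srEval, srConst]
    · simp [srEval]
  exact congrArg (fun φ : A[X] →+* F => φ p) h

theorem sr_red_srEval (p : A[X]) :
    v.red (srEval v j hj p) = aeval (v.red ⟨j, hj⟩) (p.map π) := by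
  have h : (v.red.comp (srEval v j hj)) =
      ((aeval (v.red ⟨j, hj⟩) : k[X] →ₐ[k] κ) : k[X] →+* κ).comp (Polynomial.mapRingHom π) := by
    apply Polynomial.ringHom_ext
    · intro a
      simp only [srEval, srConst, RingHom.comp_apply, Polynomial.coe_eval₂RingHom, eval₂_C,
        RingHom.coe_mk, MonoidHom.coe_mk, OneHom.coe_mk, Polynomial.coe_mapRingHom, map_C,
        RingHom.coe_coe, aeval_C]
      exact v.red_algebraMap a
    · simp [srEval]
  exact congrArg (fun φ : A[X] →+* κ => φ p) h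

/-- a polynomial in `j` with coefficients in `A` and nonzero reduction is a unit of `v.O` -/
theorem sr_unit (ht : Transcendental k (v.red ⟨j, hj⟩)) (p : A[X]) (hp : p.map π ≠ 0) :
    aeval j (p.map (algebraMap A K)) ∈ v.O ∧ (aeval j (p.map (algebraMap A K)))⁻¹ ∈ v.O := by
  rw [← sr_coe_srEval v j hj p]
  refine ⟨(srEval v j hj p).2, ?_⟩
  have hne : v.red (srEval v j hj p) ≠ 0 := by
    rw [sr_red_srEval]
    intro h0
    exact hp ((transcendental_iff.1 ht) _ h0)
  have hnu : ((srEval v j hj p : v.O) : F) ∉ v.O.nonunits := fun h =>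
    hne ((v.red_eq_zero_iff _).2 h)
  rw [ValuationSubring.mem_nonunits_iff_or, not_or, not_not] at hnu
  exact hnu.2

end Eval

section Gauss

/-- a nonzero polynomial over `K` is a constant times a polynomial over `A` with a coefficient
equal to `1` -/
theorem sr_exists_primitive (A : ValuationSubring K) (P : K[X]) (hP : P ≠ 0) :
    ∃ (c : K) (p : A[X]), c ≠ 0 ∧ p.map (algebraMap A K) = C c⁻¹ * P ∧ ∃ n, p.coeff n = 1 := by
  classical
  have hne : P.support.Nonempty := by
    rw [Finset.nonempty_iff_ne_empty, Ne, Polynomial.support_eq_empty]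
    exact hP
  obtain ⟨n₀, hn₀, hmax⟩ := Finset.exists_max_image P.support
    (fun n => A.valuation (P.coeff n)) hne
  have h0 : P.coeff n₀ ≠ 0 := Polynomial.mem_support_iff.1 hn₀
  have hdiv : ∀ n, P.coeff n / P.coeff n₀ ∈ A := by
    intro n
    by_cases hn : P.coeff n = 0
    · rw [hn, zero_div]
      exact A.zero_mem
    · rw [← ValuationSubring.valuation_le_one_iff, map_div₀]
      have hv0 : A.valuation (P.coeff n₀) ≠ 0 := (Valuation.ne_zero_iff _).2 h0
      rw [div_le_iff₀ (zero_lt_iff.2 hv0), one_mul]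
      exact hmax n (Polynomial.mem_support_iff.2 hn)
  set c := P.coeff n₀ with hc
  set p : A[X] := ∑ n ∈ P.support, Polynomial.monomial n (⟨P.coeff n / c, hdiv n⟩ : A) with hp
  have hcoeff : ∀ n, ((p.coeff n : A) : K) = P.coeff n / c := by
    intro n
    rw [hp, Polynomial.finsetSum_coeff]
    simp only [Polynomial.coeff_monomial]
    rw [Finset.sum_ite_eq' P.support n]
    split_ifs with h
    · rfl
    · rw [Polynomial.notMem_support_iff.1 h, zero_div]
      rfl
  refine ⟨c, p, h0, ?_, n₀, ?_⟩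
  · ext n
    rw [Polynomial.coeff_map, Polynomial.coeff_C_mul, inv_mul_eq_div]
    exact hcoeff n
  · apply Subtype.ext
    rw [hcoeff n₀, hc, div_self h0]
    rfl

/-- **Gauss decomposition**: every nonzero element of `K(j)` is a constant times a quotient of
two polynomials in `j` with coefficients in `A` and nonzero reduction. -/
theorem sr_gauss (π : A →+* k) (j : F) (x : K⟮j⟯) (hx : x ≠ 0) :
    ∃ (c : K) (pr ps : A[X]), c ≠ 0 ∧ pr.map π ≠ 0 ∧ ps.map π ≠ 0 ∧
      (x : F) = algebraMap K F c *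
        (aeval j (pr.map (algebraMap A K)) / aeval j (ps.map (algebraMap A K))) := by
  obtain ⟨r, s, hrs⟩ := (IntermediateField.mem_adjoin_simple_iff K (x : F)).1 x.2
  have hxF : (x : F) ≠ 0 := fun h => hx (Subtype.ext h)
  have hr0 : aeval j r ≠ 0 := by
    intro h
    rw [h, zero_div] at hrs
    exact hxF hrs
  have hs0 : aeval j s ≠ 0 := by
    intro h
    rw [h, div_zero] at hrs
    exact hxF hrs
  have hr : r ≠ 0 := by
    rintro rfl
    exact hr0 (map_zero _)
  have hs : s ≠ 0 := by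
    rintro rfl
    exact hs0 (map_zero _)
  obtain ⟨cr, pr, hcr, hpr, nr, hnr⟩ := sr_exists_primitive A r hr
  obtain ⟨cs, ps, hcs, hps, ns, hns⟩ := sr_exists_primitive A s hs
  have hprπ : pr.map π ≠ 0 := by
    intro h
    have := congrArg (fun q => q.coeff nr) h
    simp only [Polynomial.coeff_map, hnr, map_one, Polynomial.coeff_zero] at this
    exact one_ne_zero this
  have hpsπ : ps.map π ≠ 0 := by
    intro h
    have := congrArg (fun q => q.coeff ns) h
    simp only [Polynomial.coeff_map, hns, map_one, Polynomial.coeff_zero] at this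
    exact one_ne_zero this
  have er : aeval j (pr.map (algebraMap A K)) = algebraMap K F cr⁻¹ * aeval j r := by
    rw [hpr, map_mul, Polynomial.aeval_C]
  have es : aeval j (ps.map (algebraMap A K)) = algebraMap K F cs⁻¹ * aeval j s := by
    rw [hps, map_mul, Polynomial.aeval_C]
  refine ⟨cr / cs, pr, ps, div_ne_zero hcr hcs, hprπ, hpsπ, ?_⟩
  rw [hrs, er, es, map_div₀, map_inv₀, map_inv₀]
  have h1 : algebraMap K F cr ≠ 0 := by simpa using hcr
  have h2 : algebraMap K F cs ≠ 0 := by simpa using hcs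
  field_simp

variable (v : ResVal A π κ F) (hπ : Function.Surjective π)

include hπ in
theorem sr_pi_eq_zero_iff (a : A) : π a = 0 ↔ (a : K) ∈ A.nonunits := by
  have hmax : (RingHom.ker π).IsMaximal := RingHom.ker_isMaximal_of_surjective π hπ
  have hker : RingHom.ker π = IsLocalRing.maximalIdeal A := IsLocalRing.eq_maximalIdeal hmax
  rw [ValuationSubring.coe_mem_nonunits_iff, ← hker, RingHom.mem_ker]

include hπ in
/-- `v.O ∩ K = A` -/
theorem sr_const_mem_iff (c : K) : algebraMap K F c ∈ v.O ↔ c ∈ A := by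
  constructor
  · intro hc
    by_contra hcA
    have hc0 : c ≠ 0 := by
      rintro rfl
      exact hcA A.zero_mem
    have hci : c⁻¹ ∈ A.nonunits := by
      rw [ValuationSubring.mem_nonunits_iff_or]
      right
      rwa [inv_inv]
    have hciA : c⁻¹ ∈ A := ValuationSubring.nonunits_subset hci
    have h1 : π ⟨c⁻¹, hciA⟩ = 0 := (sr_pi_eq_zero_iff hπ _).2 hci
    have h2 : v.red ⟨algebraMap K F c⁻¹, v.algebraMap_mem ⟨c⁻¹, hciA⟩⟩ = 0 := by
      rw [v.red_algebraMap ⟨c⁻¹, hciA⟩, h1, map_zero]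
    have h3 : algebraMap K F c⁻¹ ∈ v.O.nonunits := (v.red_eq_zero_iff _).1 h2
    rw [ValuationSubring.mem_nonunits_iff_or] at h3
    rcases h3 with h3 | h3
    · rw [map_inv₀, inv_eq_zero] at h3
      exact hc0 ((algebraMap K F).injective (by rw [h3, map_zero]))
    · apply h3
      rw [map_inv₀, inv_inv]
      exact hc
  · intro hc
    exact v.algebraMap_mem ⟨c, hc⟩

include hπ in
/-- `m_v ∩ K = m_A` -/
theorem sr_const_mem_nonunits_iff (c : K) :
    algebraMap K F c ∈ v.O.nonunits ↔ c ∈ A.nonunits := by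
  constructor
  · intro hc
    have hcA : c ∈ A := (sr_const_mem_iff v hπ c).1 (ValuationSubring.nonunits_subset hc)
    rw [← sr_pi_eq_zero_iff hπ ⟨c, hcA⟩]
    have h1 := (v.red_eq_zero_iff ⟨algebraMap K F c, v.algebraMap_mem ⟨c, hcA⟩⟩).2 hc
    rw [v.red_algebraMap ⟨c, hcA⟩] at h1
    exact (algebraMap k κ).injective (by rw [h1, map_zero])
  · intro hc
    have hcA : c ∈ A := ValuationSubring.nonunits_subset hc
    have h1 : π ⟨c, hcA⟩ = 0 := (sr_pi_eq_zero_iff hπ _).2 hc
    have h2 : v.red ⟨algebraMap K F c, v.algebraMap_mem ⟨c, hcA⟩⟩ = 0 := by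
      rw [v.red_algebraMap ⟨c, hcA⟩, h1, map_zero]
    exact (v.red_eq_zero_iff _).1 h2

variable (j : F) (hj : j ∈ v.O) (ht : Transcendental k (v.red ⟨j, hj⟩))

include hπ ht in
/-- membership in `v.O` of `c • (pr(j) / ps(j))` -/
theorem sr_mem_iff (c : K) (pr ps : A[X]) (hpr : pr.map π ≠ 0) (hps : ps.map π ≠ 0) :
    algebraMap K F c *
        (aeval j (pr.map (algebraMap A K)) / aeval j (ps.map (algebraMap A K))) ∈ v.O ↔
      c ∈ A := by
  have h1 := sr_unit v j hj ht pr hpr
  have h2 := sr_unit v j hj ht ps hps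
  have hu : aeval j (pr.map (algebraMap A K)) / aeval j (ps.map (algebraMap A K)) ∈ v.O := by
    rw [div_eq_mul_inv]
    exact v.O.mul_mem _ _ h1.1 h2.2
  have hui : (aeval j (pr.map (algebraMap A K)) / aeval j (ps.map (algebraMap A K)))⁻¹ ∈ v.O := by
    rw [inv_div, div_eq_mul_inv]
    exact v.O.mul_mem _ _ h2.1 h1.2
  have hu0 : aeval j (pr.map (algebraMap A K)) / aeval j (ps.map (algebraMap A K)) ≠ 0 := by
    intro h0
    have hnu : (0 : F)⁻¹ ∈ v.O := by rw [inv_zero]; exact v.O.zero_mem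
    have h3 := sr_unit v j hj ht pr hpr
    have h4 := sr_unit v j hj ht ps hps
    -- numerator is nonzero: it is a unit
    have hr0 : aeval j (pr.map (algebraMap A K)) ≠ 0 := by
      intro hr0
      have : v.red (srEval v j hj pr) = 0 := by
        have hz : (srEval v j hj pr : v.O) = 0 := Subtype.ext (by rw [sr_coe_srEval]; exact hr0)
        rw [hz, map_zero]
      rw [sr_red_srEval] at this
      exact hpr ((transcendental_iff.1 ht) _ this)
    have hs0 : aeval j (ps.map (algebraMap A K)) ≠ 0 := by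
      intro hs0
      have : v.red (srEval v j hj ps) = 0 := by
        have hz : (srEval v j hj ps : v.O) = 0 := Subtype.ext (by rw [sr_coe_srEval]; exact hs0)
        rw [hz, map_zero]
      rw [sr_red_srEval] at this
      exact hps ((transcendental_iff.1 ht) _ this)
    exact (div_ne_zero hr0 hs0) h0
  rw [← sr_const_mem_iff v hπ c]
  constructor
  · intro h
    have := v.O.mul_mem _ _ h hui
    rwa [mul_assoc, mul_inv_cancel₀ hu0, mul_one] at this
  · intro h
    exact v.O.mul_mem _ _ h hu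

include hπ ht in
/-- membership in the maximal ideal of `v.O` of `c • (pr(j) / ps(j))` -/
theorem sr_mem_nonunits_iff (c : K) (pr ps : A[X]) (hpr : pr.map π ≠ 0) (hps : ps.map π ≠ 0) :
    algebraMap K F c *
        (aeval j (pr.map (algebraMap A K)) / aeval j (ps.map (algebraMap A K))) ∈ v.O.nonunits ↔
      c ∈ A.nonunits := by
  set u := aeval j (pr.map (algebraMap A K)) / aeval j (ps.map (algebraMap A K)) with hu
  have hu1 : algebraMap K F 1 * u ∈ v.O := (sr_mem_iff v hπ j hj ht 1 pr ps hpr hps).2 A.one_mem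
  rw [map_one, one_mul] at hu1
  by_cases hc0 : c = 0
  · subst hc0
    rw [map_zero, zero_mul]
    constructor
    · intro _
      rw [ValuationSubring.mem_nonunits_iff_or]
      exact Or.inl rfl
    · intro _
      rw [ValuationSubring.mem_nonunits_iff_or]
      exact Or.inl rfl
  have hcF : algebraMap K F c ≠ 0 := by simpa using hc0
  by_cases hu0 : u = 0
  · -- impossible: `1 * u ∈ v.O` and `1⁻¹ * u⁻¹`...; but then every `c` would be in `A`
    exfalso
    have h2 := (sr_mem_iff v hπ j hj ht c⁻¹ pr ps hpr hps).1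
      (by rw [← hu, hu0, mul_zero]; exact v.O.zero_mem)
    have h3 := (sr_mem_iff v hπ j hj ht c pr ps hpr hps).1
      (by rw [← hu, hu0, mul_zero]; exact v.O.zero_mem)
    -- every nonzero constant is a unit of `A`: apply to a lift of `0`... use `π` of a nonunit
    -- `A` would be a field with `π` injective; contradiction is not available in general, so
    -- we argue directly: `u = 0` contradicts `sr_unit`
    have hr := sr_unit v j hj ht pr hpr
    have hs := sr_unit v j hj ht ps hps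
    have hr0 : aeval j (pr.map (algebraMap A K)) ≠ 0 := by
      intro hr0
      have : v.red (srEval v j hj pr) = 0 := by
        have hz : (srEval v j hj pr : v.O) = 0 := Subtype.ext (by rw [sr_coe_srEval]; exact hr0)
        rw [hz, map_zero]
      rw [sr_red_srEval] at this
      exact hpr ((transcendental_iff.1 ht) _ this)
    have hs0 : aeval j (ps.map (algebraMap A K)) ≠ 0 := by
      intro hs0
      have : v.red (srEval v j hj ps) = 0 := by
        have hz : (srEval v j hj ps : v.O) = 0 := Subtype.ext (by rw [sr_coe_srEval]; exact hs0)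
        rw [hz, map_zero]
      rw [sr_red_srEval] at this
      exact hps ((transcendental_iff.1 ht) _ this)
    exact (div_ne_zero hr0 hs0) hu0
  rw [ValuationSubring.mem_nonunits_iff_or, ValuationSubring.mem_nonunits_iff_or]
  have hne : algebraMap K F c * u ≠ 0 := mul_ne_zero hcF hu0
  constructor
  · rintro (h | h)
    · exact absurd h hne
    · right
      intro hci
      apply h
      have := (sr_mem_iff v hπ j hj ht c⁻¹ ps pr hps hpr).2 hci
      rw [mul_inv, ← map_inv₀, hu, inv_div]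
      exact this
  · rintro (h | h)
    · exact absurd h hc0
    · right
      intro hci
      apply h
      have h1 : algebraMap K F c⁻¹ *
          (aeval j (ps.map (algebraMap A K)) / aeval j (pr.map (algebraMap A K))) ∈ v.O := by
        rw [mul_inv, ← map_inv₀, hu, inv_div] at hci
        exact hci
      exact (sr_mem_iff v hπ j hj ht c⁻¹ ps pr hps hpr).1 h1

include hπ ht in
/-- the reduction of an element of `K(j) ∩ v.O` lies in `k(t)`, `t = red j` -/
theorem sr_red_mem (x : K⟮j⟯) (hx : (x : F) ∈ v.O) :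
    v.red ⟨(x : F), hx⟩ ∈ k⟮v.red ⟨j, hj⟩⟯ := by
  by_cases hx0 : x = 0
  · subst hx0
    have : (⟨((0 : K⟮j⟯) : F), hx⟩ : v.O) = 0 := Subtype.ext rfl
    rw [this, map_zero]
    exact zero_mem _
  obtain ⟨c, pr, ps, hc0, hpr, hps, hxc⟩ := sr_gauss π j x hx0
  have hcA : c ∈ A := (sr_mem_iff v hπ j hj ht c pr ps hpr hps).1 (hxc ▸ hx)
  have hs := sr_unit v j hj ht ps hps
  have hs0 : v.red (srEval v j hj ps) ≠ 0 := by
    rw [sr_red_srEval]
    intro h0
    exact hps ((transcendental_iff.1 ht) _ h0)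
  have hsF : ((srEval v j hj ps : v.O) : F) ≠ 0 := by
    intro h0
    apply hs0
    have : (srEval v j hj ps : v.O) = 0 := Subtype.ext h0
    rw [this, map_zero]
  have heq : (⟨(x : F), hx⟩ : v.O) * srEval v j hj ps =
      srConst v ⟨c, hcA⟩ * srEval v j hj pr := by
    apply Subtype.ext
    show (x : F) * ((srEval v j hj ps : v.O) : F) =
      algebraMap K F c * ((srEval v j hj pr : v.O) : F)
    rw [hxc, sr_coe_srEval, sr_coe_srEval]
    rw [sr_coe_srEval] at hsF
    field_simp
  have hred := congrArg v.red heq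
  rw [map_mul, map_mul, sr_red_srEval, sr_red_srEval] at hred
  have hconst : v.red (srConst v ⟨c, hcA⟩) = algebraMap k κ (π ⟨c, hcA⟩) :=
    v.red_algebraMap ⟨c, hcA⟩
  rw [hconst] at hred
  rw [sr_red_srEval] at hs0
  have hval : v.red ⟨(x : F), hx⟩ = algebraMap k κ (π ⟨c, hcA⟩) *
      aeval (v.red ⟨j, hj⟩) (pr.map π) / aeval (v.red ⟨j, hj⟩) (ps.map π) := by
    rw [eq_div_iff hs0]
    exact hred
  rw [hval]
  refine div_mem (mul_mem (IntermediateField.algebraMap_mem _ _) ?_) ?_
  · exact (IntermediateField.mem_adjoin_simple_iff k _).2 ⟨pr.map π, 1, by simp⟩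
  · exact (IntermediateField.mem_adjoin_simple_iff k _).2 ⟨ps.map π, 1, by simp⟩

end Gauss

section Comap

variable {F₁ F₂ : Type*} [Field F₁] [Field F₂]

theorem sr_mem_comap_nonunits_iff (O : ValuationSubring F₂) (f : F₁ →+* F₂) (x : F₁) :
    x ∈ (O.comap f).nonunits ↔ f x ∈ O.nonunits := by
  rw [ValuationSubring.mem_nonunits_iff_or, ValuationSubring.mem_nonunits_iff_or,
    ValuationSubring.mem_comap, map_inv₀]
  constructor
  · rintro (h | h)
    · left; rw [h, map_zero]
    · right; exact h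
  · rintro (h | h)
    · left; exact f.injective (by rw [h, map_zero])
    · right; exact h

end Comap

section Main

variable {ι : Type*} (v : ι → ResVal A π κ F) (hπ : Function.Surjective π)
  (j : F) (hj : ∀ i, j ∈ (v i).O) (ht : ∀ i, Transcendental k ((v i).red ⟨j, hj i⟩))

include hπ ht in
/-- all the `(v i).O` contain the same elements of `K(j)` -/
theorem sr_mem_iff_mem (i i' : ι) (x : K⟮j⟯) : (x : F) ∈ (v i).O ↔ (x : F) ∈ (v i').O := by
  by_cases hx0 : x = 0
  · subst hx0
    exact ⟨fun _ => (v i').O.zero_mem, fun _ => (v i).O.zero_mem⟩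
  obtain ⟨c, pr, ps, -, hpr, hps, hxc⟩ := sr_gauss π j x hx0
  rw [hxc, sr_mem_iff (v i) hπ j (hj i) (ht i) c pr ps hpr hps,
    sr_mem_iff (v i') hπ j (hj i') (ht i') c pr ps hpr hps]

include hπ ht in
/-- all the `(v i).O` have the same nonunits in `K(j)` -/
theorem sr_mem_nonunits_iff_mem (i i' : ι) (x : K⟮j⟯) :
    (x : F) ∈ (v i).O.nonunits ↔ (x : F) ∈ (v i').O.nonunits := by
  by_cases hx0 : x = 0
  · subst hx0
    constructor
    · intro _
      rw [ValuationSubring.mem_nonunits_iff_or]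
      exact Or.inl rfl
    · intro _
      rw [ValuationSubring.mem_nonunits_iff_or]
      exact Or.inl rfl
  obtain ⟨c, pr, ps, -, hpr, hps, hxc⟩ := sr_gauss π j x hx0
  rw [hxc, sr_mem_nonunits_iff (v i) hπ j (hj i) (ht i) c pr ps hpr hps,
    sr_mem_nonunits_iff (v i') hπ j (hj i') (ht i') c pr ps hpr hps]

include hπ ht in
/-- the Gauss ring does not depend on `i` -/
theorem sr_comap_eq (i i' : ι) :
    (v i).O.comap (algebraMap K⟮j⟯ F) = (v i').O.comap (algebraMap K⟮j⟯ F) := by
  ext x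
  rw [ValuationSubring.mem_comap, ValuationSubring.mem_comap]
  exact sr_mem_iff_mem v hπ j hj ht i i' x

variable (ϖ : K) (hϖ : ϖ ∈ A.nonunits) (hϖ0 : ϖ ≠ 0)
  (hA : ∀ c ∈ A, c ≠ 0 → ∃ (n : ℕ) (w : K), w ∈ A ∧ w⁻¹ ∈ A ∧ c = ϖ ^ n * w)

include hπ ht hϖ hϖ0 hA in
/-- the Gauss ring is a discrete valuation ring with uniformiser `ϖ` -/
theorem sr_isDVR (i₀ : ι) :
    IsDiscreteValuationRing ((v i₀).O.comap (algebraMap K⟮j⟯ F)) := by
  refine sumAbs_isDVR _ (algebraMap K K⟮j⟯ ϖ) ?_ ?_ ?_
  · rw [sr_mem_comap_nonunits_iff]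
    exact (sr_const_mem_nonunits_iff (v i₀) hπ ϖ).2 hϖ
  · simpa using hϖ0
  · intro x hx hx0
    rw [ValuationSubring.mem_comap] at hx
    obtain ⟨c, pr, ps, hc0, hpr, hps, hxc⟩ := sr_gauss π j x hx0
    have hcA : c ∈ A := (sr_mem_iff (v i₀) hπ j (hj i₀) (ht i₀) c pr ps hpr hps).1 (hxc ▸ hx)
    obtain ⟨n, w, hw, hwi, hcw⟩ := hA c hcA hc0
    have hmemr : aeval j (pr.map (algebraMap A K)) ∈ K⟮j⟯ :=
      (IntermediateField.mem_adjoin_simple_iff K _).2 ⟨pr.map (algebraMap A K), 1, by simp⟩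
    have hmems : aeval j (ps.map (algebraMap A K)) ∈ K⟮j⟯ :=
      (IntermediateField.mem_adjoin_simple_iff K _).2 ⟨ps.map (algebraMap A K), 1, by simp⟩
    set u : K⟮j⟯ := ⟨aeval j (pr.map (algebraMap A K)) / aeval j (ps.map (algebraMap A K)),
      div_mem hmemr hmems⟩ with hu
    refine ⟨n, algebraMap K K⟮j⟯ w * u, ?_, ?_, ?_⟩
    · rw [ValuationSubring.mem_comap]
      exact (sr_mem_iff (v i₀) hπ j (hj i₀) (ht i₀) w pr ps hpr hps).2 hw
    · rw [ValuationSubring.mem_comap]
      have h1 := (sr_mem_iff (v i₀) hπ j (hj i₀) (ht i₀) w⁻¹ ps pr hps hpr).2 hwi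
      have h2 : (algebraMap K⟮j⟯ F) (algebraMap K K⟮j⟯ w * u)⁻¹ =
          algebraMap K F w⁻¹ * (aeval j (ps.map (algebraMap A K)) /
            aeval j (pr.map (algebraMap A K))) := by
        rw [map_inv₀, map_mul, mul_inv, map_inv₀]
        congr 1
        show (aeval j (pr.map (algebraMap A K)) / aeval j (ps.map (algebraMap A K)))⁻¹ = _
        rw [inv_div]
      rw [h2]
      exact h1
    · apply Subtype.ext
      show (x : F) = algebraMap K F ϖ ^ n * (algebraMap K F w *
        (aeval j (pr.map (algebraMap A K)) / aeval j (ps.map (algebraMap A K))))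
      rw [hxc, hcw, map_mul, map_pow, mul_assoc]

variable [Fintype ι] [FiniteDimensional K⟮j⟯ F] [Algebra.IsSeparable K⟮j⟯ F]

include hπ ht hϖ hϖ0 hA in
/-- the hypotheses of `sumAbs_valuationSubring` for a family of `ResVal`s -/
theorem sr_hyps (e f : ι → ℕ)
    (he : ∀ i, ∃ z ∈ (v i).O.nonunits, ∃ y ∈ (v i).O, algebraMap K F ϖ = z ^ e i * y)
    (hf : ∀ i, f i ≤ Module.finrank k⟮(v i).red ⟨j, hj i⟩⟯ κ) (i₀ : ι) :
    (∀ i, ∀ x ∈ (v i₀).O.comap (algebraMap K⟮j⟯ F), algebraMap K⟮j⟯ F x ∈ (v i).O) ∧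
    (∀ i, (v i).O ≠ ⊤) ∧
    (∀ i, ∃ z ∈ (v i).O.nonunits, ∀ ϖ' ∈ ((v i₀).O.comap (algebraMap K⟮j⟯ F)).nonunits,
      ∃ y ∈ (v i).O, algebraMap K⟮j⟯ F ϖ' = z ^ e i * y) ∧
    (∀ i, ∃ b : Fin (f i) → F, (∀ l, b l ∈ (v i).O) ∧ ∀ c : Fin (f i) → K⟮j⟯,
      (∀ l, c l ∈ (v i₀).O.comap (algebraMap K⟮j⟯ F)) →
        (∑ l, algebraMap K⟮j⟯ F (c l) * b l) ∈ (v i).O.nonunits →
          ∀ l, c l ∈ ((v i₀).O.comap (algebraMap K⟮j⟯ F)).nonunits) := by
  classical
  have hRO : ∀ i, ∀ x ∈ (v i₀).O.comap (algebraMap K⟮j⟯ F), algebraMap K⟮j⟯ F x ∈ (v i).O := by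
    intro i x hx
    rw [ValuationSubring.mem_comap] at hx
    exact (sr_mem_iff_mem v hπ j hj ht i₀ i x).1 hx
  refine ⟨hRO, ?_, ?_, ?_⟩
  · intro i htop
    have h1 : algebraMap K F ϖ ∈ (v i).O.nonunits :=
      (sr_const_mem_nonunits_iff (v i) hπ ϖ).2 hϖ
    rw [ValuationSubring.mem_nonunits_iff_or] at h1
    rcases h1 with h1 | h1
    · exact hϖ0 ((algebraMap K F).injective (by rw [h1, map_zero]))
    · apply h1
      rw [htop]
      exact ValuationSubring.mem_top _
  · intro i
    obtain ⟨z, hz, y, hy, hzy⟩ := he i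
    refine ⟨z, hz, fun ϖ' hϖ' => ?_⟩
    rw [sr_mem_comap_nonunits_iff] at hϖ'
    by_cases h0 : ϖ' = 0
    · exact ⟨0, (v i).O.zero_mem, by rw [h0, map_zero, mul_zero]⟩
    obtain ⟨c, pr, ps, hc0, hpr, hps, hxc⟩ := sr_gauss π j ϖ' h0
    have hcn : c ∈ A.nonunits :=
      (sr_mem_nonunits_iff (v i₀) hπ j (hj i₀) (ht i₀) c pr ps hpr hps).1 (hxc ▸ hϖ')
    have hcA : c ∈ A := ValuationSubring.nonunits_subset hcn
    obtain ⟨n, w, hw, hwi, hcw⟩ := hA c hcA hc0
    have hn : n ≠ 0 := by
      rintro rfl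
      rw [pow_zero, one_mul] at hcw
      rw [hcw, ValuationSubring.mem_nonunits_iff_or] at hcn
      rcases hcn with h | h
      · exact hc0 (hcw.trans h)
      · exact h hwi
    obtain ⟨m, rfl⟩ : ∃ m, n = m + 1 := ⟨n - 1, by omega⟩
    have hϖA : ϖ ∈ A := ValuationSubring.nonunits_subset hϖ
    have hcdiv : ϖ ^ m * w ∈ A := A.mul_mem _ _ (pow_mem hϖA m) hw
    have hu := (sr_mem_iff (v i) hπ j (hj i) (ht i) (ϖ ^ m * w) pr ps hpr hps).2 hcdiv
    refine ⟨y * (algebraMap K F (ϖ ^ m * w) *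
      (aeval j (pr.map (algebraMap A K)) / aeval j (ps.map (algebraMap A K)))),
      (v i).O.mul_mem _ _ hy hu, ?_⟩
    show (ϖ' : F) = _
    rw [hxc, hcw, ← mul_assoc (z ^ e i), ← hzy, ← mul_assoc, ← map_mul]
    congr 2
    ring
  · intro i
    obtain ⟨bbar, hbbar⟩ := exists_linearIndependent_of_le_finrank (hf i)
    choose b hb using fun l => (v i).red_surjective (bbar l)
    refine ⟨fun l => (b l : F), fun l => (b l).2, fun c hc hsum l => ?_⟩
    have hcO : ∀ l, (c l : F) ∈ (v i).O := fun l => hRO i (c l) (hc l)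
    have hred : (v i).red ⟨∑ l, algebraMap K⟮j⟯ F (c l) * (b l : F),
        ValuationSubring.nonunits_subset hsum⟩ = 0 := ((v i).red_eq_zero_iff _).2 hsum
    have hsumeq : (⟨∑ l, algebraMap K⟮j⟯ F (c l) * (b l : F),
        ValuationSubring.nonunits_subset hsum⟩ : (v i).O) =
        ∑ l, (⟨(c l : F), hcO l⟩ : (v i).O) * b l := by
      apply Subtype.ext
      push_cast
      rfl
    rw [hsumeq, map_sum] at hred
    have hγ : ∀ l, (v i).red ⟨(c l : F), hcO l⟩ ∈ k⟮(v i).red ⟨j, hj i⟩⟯ := fun l =>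
      sr_red_mem (v i) hπ j (hj i) (ht i) (c l) (hcO l)
    have hlin : ∑ l, (⟨(v i).red ⟨(c l : F), hcO l⟩, hγ l⟩ : k⟮(v i).red ⟨j, hj i⟩⟯) • bbar l
        = 0 := by
      rw [← hred]
      refine Finset.sum_congr rfl fun l _ => ?_
      rw [map_mul, hb l]
      rfl
    have hzero := (Fintype.linearIndependent_iff.1 hbbar) _ hlin l
    have hzero' : (v i).red ⟨(c l : F), hcO l⟩ = 0 := congrArg Subtype.val hzero
    have hnu : (c l : F) ∈ (v i).O.nonunits := ((v i).red_eq_zero_iff _).1 hzero'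
    rw [sr_mem_comap_nonunits_iff]
    exact (sr_mem_nonunits_iff_mem v hπ j hj ht i i₀ (c l)).1 hnu

include hπ ht hϖ hϖ0 hA in
/-- **(SUM) for `ResVal`s, integrality**: under `[F : K(j)] ≤ ∑ e i * f i` every element of
`⋂ (v i).O` is integral over the Gauss ring `(v i₀).O ∩ K(j)`. -/
theorem sumRes_isIntegral (hinj : Function.Injective fun i => (v i).O) (e f : ι → ℕ)
    (he : ∀ i, ∃ z ∈ (v i).O.nonunits, ∃ y ∈ (v i).O, algebraMap K F ϖ = z ^ e i * y)
    (hf : ∀ i, f i ≤ Module.finrank k⟮(v i).red ⟨j, hj i⟩⟯ κ)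
    (hsum : Module.finrank K⟮j⟯ F ≤ ∑ i, e i * f i) (i₀ : ι) (x : F)
    (hx : ∀ i, x ∈ (v i).O) :
    IsIntegral ((v i₀).O.comap (algebraMap K⟮j⟯ F)) x := by
  haveI := sr_isDVR v hπ j hj ht ϖ hϖ hϖ0 hA i₀
  obtain ⟨h1, h2, h3, h4⟩ := sr_hyps v hπ j hj ht ϖ hϖ hϖ0 hA e f he hf i₀
  exact sumAbs_vs_isIntegral ((v i₀).O.comap (algebraMap K⟮j⟯ F)) (fun i => (v i).O)
    h1 h2 hinj e f h3 h4 hsum x hx

include hπ ht hϖ hϖ0 hA in
/-- **(SUM) for `ResVal`s, completeness**: under `[F : K(j)] ≤ ∑ e i * f i` every valuation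
subring `W ≠ ⊤` of `F` containing the Gauss ring is one of the `(v i).O`. -/
theorem sumRes_complete (hinj : Function.Injective fun i => (v i).O) (e f : ι → ℕ)
    (he : ∀ i, ∃ z ∈ (v i).O.nonunits, ∃ y ∈ (v i).O, algebraMap K F ϖ = z ^ e i * y)
    (hf : ∀ i, f i ≤ Module.finrank k⟮(v i).red ⟨j, hj i⟩⟯ κ)
    (hsum : Module.finrank K⟮j⟯ F ≤ ∑ i, e i * f i) (i₀ : ι)
    (W : ValuationSubring F) (hW : W ≠ ⊤)
    (hRW : ∀ x : K⟮j⟯, (x : F) ∈ (v i₀).O → (x : F) ∈ W) :
    ∃ i, W = (v i).O := by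
  haveI := sr_isDVR v hπ j hj ht ϖ hϖ hϖ0 hA i₀
  obtain ⟨h1, h2, h3, h4⟩ := sr_hyps v hπ j hj ht ϖ hϖ hϖ0 hA e f he hf i₀
  exact (sumAbs_valuationSubring ((v i₀).O.comap (algebraMap K⟮j⟯ F)) (fun i => (v i).O)
    h1 h2 hinj e f h3 h4 hsum).1 W hW fun x hx => hRW x hx

end Main

end Fermat.Agent.S36lib

end
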