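import Mathlib
import Fermat.Agent.S36lib.SumRel
import Fermat.Agent.S36lib.SumRes
import Fermat.Agent.S36lib.SetupRed
import Fermat.Agent.S36lib.VDegRel

/-!
# Item 83 (S36), block V, piece V-G concrete = P4 of D1-A (helper2): vertical integrality

`φ : FF M' → FF M` (for item 83: `π₁`, `M = M' q²`) commuting with the inertia action, of degree
`≤ q (q + 1)`; `v'` a `SeriesVal` of level `M'`, discrete on `F0(M')` with uniformiser `q`;
`vInf`, `vMid`, `vZero` three `SeriesVal`s of level `M` over `v'` along `φ`, with the witnesses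
`(e, f) = (1, 1), (q - 1, 1), (1, q²)`.  Then every `b ∈ F0(M) ∩ O_∞ ∩ O_mid ∩ O_0` is a root of
a monic polynomial over `F0(M') ∩ O'` (`sumc_isIntegral`), and every valuation subring `≠ ⊤` of
`F0(M)` over `F0(M') ∩ O'` is one of the three (`sumc_complete`).
-/

set_option autoImplicit false
set_option linter.style.haveILetI false
set_option linter.unusedSectionVars false
set_option synthInstance.maxHeartbeats 400000

noncomputable section

namespace Fermat.Agent.S36lib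

open ModularCurve AlgebraicCurve Polynomial
open Fermat.Agent.HeckeBar Fermat.Agent.S24lib Fermat.Agent.S34lib

section Hom

variable (A : ValuationSubring Kbar) {M' M : ℕ} [NeZero M'] [NeZero M]

/-- the restriction to `F0` of a homomorphism `FF M' → FF M` preserving `F0` -/
def sumcHom (φ : FF M' →ₐ[Kbar] FF M) (hφ0 : ∀ g ∈ f0Field A M', φ g ∈ f0Field A M) :
    f0Field A M' →+* f0Field A M where
  toFun := fun g => ⟨φ (g : FF M'), hφ0 _ g.2⟩
  map_one' := Subtype.ext (map_one φ)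
  map_mul' := fun _ _ => Subtype.ext (map_mul φ _ _)
  map_zero' := Subtype.ext (map_zero φ)
  map_add' := fun _ _ => Subtype.ext (map_add φ _ _)

theorem coe_sumcHom (φ : FF M' →ₐ[Kbar] FF M) (hφ0 : ∀ g ∈ f0Field A M', φ g ∈ f0Field A M)
    (g : f0Field A M') : ((sumcHom A φ hφ0 g : f0Field A M) : FF M) = φ (g : FF M') := rfl

/-- a homomorphism commuting with the inertia action preserves `F0` -/
theorem sumc_mem_f0Field (φ : FF M' →ₐ[Kbar] FF M)
    (hφG : ∀ σ ∈ A.inertiaSubgroupIn ℚ, ∀ x : FF M', galFF M σ • φ x = φ (galFF M' σ • x))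
    (g : FF M') (hg : g ∈ f0Field A M') : φ g ∈ f0Field A M := by
  rw [mem_f0Field_iff_isIFixed] at hg ⊢
  intro σ hσ
  rw [hφG σ hσ g, hg σ hσ]

/-- constants of valuation `< 1` are nonunits of a `SeriesVal` -/
theorem sumc_const_nonunit {L : ℕ} [NeZero L] (v : SeriesVal A L) {a : Kbar}
    (ha : A.valuation a < 1) : algebraMap Kbar (FF L) a ∈ v.O.nonunits := by
  have haA : a ∈ A := (A.valuation_le_one_iff a).mp ha.le
  have h1 := v.red_algebraMap ⟨a, haA⟩
  have h2 : IsLocalRing.residue A ⟨a, haA⟩ = 0 := by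
    rw [IsLocalRing.residue_eq_zero_iff]
    exact (A.valuation_lt_one_iff ⟨a, haA⟩).mpr ha
  rw [h2, map_zero] at h1
  exact (v.red_eq_zero_iff _).mp h1

/-- a nonzero element `u` with `u, u⁻¹ ∈ O` has valuation `1` -/
theorem sumc_val_eq_one {F : Type*} [Field F] (O : ValuationSubring F) {u : F} (hu0 : u ≠ 0)
    (h1 : u ∈ O) (h2 : u⁻¹ ∈ O) : O.valuation u = 1 := by
  have h3 := (O.valuation_le_one_iff u).mpr h1
  have h4 := (O.valuation_le_one_iff u⁻¹).mpr h2
  rw [map_inv₀] at h4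
  have hpos : 0 < O.valuation u := by
    rw [zero_lt_iff]
    exact (_root_.map_ne_zero _).mpr hu0
  exact le_antisymm h3 ((inv_le_one₀ hpos).mp h4)

/-- membership in the nonunits of the restriction to `F0` -/
theorem sumc_mem_nonunits_comap {L : ℕ} [NeZero L] (O : ValuationSubring (FF L))
    (x : f0Field A L) :
    x ∈ (O.comap (algebraMap (f0Field A L) (FF L))).nonunits ↔ (x : FF L) ∈ O.nonunits :=
  sr_mem_comap_nonunits_iff O (algebraMap (f0Field A L) (FF L)) x

end Hom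

section Main

variable (A : ValuationSubring Kbar) {M' M : ℕ} [NeZero M'] [NeZero M] {q : ℕ}

set_option maxHeartbeats 3200000 in
/-- the hypotheses of `sumRel_isIntegral` for three `SeriesVal`s over one -/
theorem sumc_hyps (hq : q.Prime) (hqA : A.valuation (q : Kbar) < 1)
    (φ : FF M' →ₐ[Kbar] FF M)
    (hφG : ∀ σ ∈ A.inertiaSubgroupIn ℚ, ∀ x : FF M', galFF M σ • φ x = φ (galFF M' σ • x))
    (v' : SeriesVal A M') (vInf vMid vZero : SeriesVal A M)
    (hdisc : ∀ f ∈ f0Field A M', f ≠ 0 →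
      ∃ n : ℤ, algebraMap Kbar (FF M') ((q : Kbar) ^ n) * f ∈ v'.O ∧
        (algebraMap Kbar (FF M') ((q : Kbar) ^ n) * f)⁻¹ ∈ v'.O)
    (hTInf : ∀ g ∈ f0Field A M', g ∈ v'.O → φ g ∈ vInf.O)
    (hTMid : ∀ g ∈ f0Field A M', g ∈ v'.O → φ g ∈ vMid.O)
    (hTZero : ∀ g ∈ f0Field A M', g ∈ v'.O → φ g ∈ vZero.O)
    (hE : ∃ z ∈ f0Field A M, z ∈ vMid.O.nonunits ∧ z⁻¹ ∈ vInf.O ∧ z⁻¹ ∈ vZero.O ∧
      ∃ y ∈ vMid.O, algebraMap Kbar (FF M) (q : Kbar) = z ^ (q - 1) * y)
    (hF : ∃ t ∈ f0Field A M, t ∈ vZero.O ∧ ∀ c : Fin (q * q) → FF M',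
      (∀ l, c l ∈ f0Field A M' ∧ c l ∈ v'.O) →
        (∑ l, φ (c l) * t ^ (l : ℕ)) ∈ vZero.O.nonunits → ∀ l, c l ∈ v'.O.nonunits)
    (hres : ∀ x ∈ f0Field A M, x ∈ vInf.O →
      ∃ c ∈ f0Field A M', c ∈ v'.O ∧ x - φ c ∈ vInf.O.nonunits) :
    let φ₀ := sumcHom A φ (sumc_mem_f0Field A φ hφG)
    let V := v'.O.comap (algebraMap (f0Field A M') (FF M'))
    let W : Fin 3 → ValuationSubring (f0Field A M) :=
      ![vInf.O.comap (algebraMap (f0Field A M) (FF M)),
        vMid.O.comap (algebraMap (f0Field A M) (FF M)),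
        vZero.O.comap (algebraMap (f0Field A M) (FF M))]
    ((q : f0Field A M') ∈ V.nonunits ∧ (q : f0Field A M') ≠ 0 ∧
      (∀ x ∈ V, x ≠ 0 → ∃ (n : ℕ) (u : f0Field A M'), u ∈ V ∧ u⁻¹ ∈ V ∧
        x = (q : f0Field A M') ^ n * u)) ∧
    (∀ i, ∀ x ∈ V, φ₀ x ∈ W i) ∧ (∀ i, φ₀ (q : f0Field A M') ∈ (W i).nonunits) ∧
    Function.Injective W ∧
    (∀ i, ∃ z ∈ (W i).nonunits, ∃ y ∈ W i,
      φ₀ (q : f0Field A M') = z ^ (![1, q - 1, 1] : Fin 3 → ℕ) i * y) ∧
    (∀ i, ∃ b : Fin ((![1, 1, q * q] : Fin 3 → ℕ) i) → f0Field A M,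
      (∀ l, b l ∈ W i) ∧ ∀ c : Fin ((![1, 1, q * q] : Fin 3 → ℕ) i) → f0Field A M',
        (∀ l, c l ∈ V) → (∑ l, φ₀ (c l) * b l) ∈ (W i).nonunits → ∀ l, c l ∈ V.nonunits) := by
  intro φ₀ V W
  have hq0 : (q : Kbar) ≠ 0 := Nat.cast_ne_zero.mpr hq.ne_zero
  have hcast' : ((q : f0Field A M') : FF M') = algebraMap Kbar (FF M') (q : Kbar) := by
    rw [map_natCast]
    rfl
  have hcast : ((q : f0Field A M) : FF M) = algebraMap Kbar (FF M) (q : Kbar) := by
    rw [map_natCast]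
    rfl
  have hφq : φ₀ (q : f0Field A M') = (q : f0Field A M) := map_natCast φ₀ q
  have hqV : (q : f0Field A M') ∈ V.nonunits := by
    rw [sumc_mem_nonunits_comap, hcast']
    exact sumc_const_nonunit A v' hqA
  have hqne : (q : f0Field A M') ≠ 0 := by
    intro h
    have h2 : ((q : f0Field A M') : FF M') = 0 := by rw [h]; rfl
    rw [hcast', map_eq_zero_iff _ (algebraMap Kbar (FF M')).injective] at h2
    exact hq0 h2
  -- units of `V` go to units
  have hVW : ∀ i, ∀ x ∈ V, φ₀ x ∈ W i := by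
    intro i x hx
    fin_cases i
    · exact hTInf _ x.2 hx
    · exact hTMid _ x.2 hx
    · exact hTZero _ x.2 hx
  have hqW : ∀ i, φ₀ (q : f0Field A M') ∈ (W i).nonunits := by
    intro i
    rw [hφq]
    fin_cases i
    · show (q : f0Field A M) ∈ (vInf.O.comap _).nonunits
      rw [sumc_mem_nonunits_comap, hcast]
      exact sumc_const_nonunit A vInf hqA
    · show (q : f0Field A M) ∈ (vMid.O.comap _).nonunits
      rw [sumc_mem_nonunits_comap, hcast]
      exact sumc_const_nonunit A vMid hqA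
    · show (q : f0Field A M) ∈ (vZero.O.comap _).nonunits
      rw [sumc_mem_nonunits_comap, hcast]
      exact sumc_const_nonunit A vZero hqA
  have hunit : ∀ i, ∀ c ∈ V, φ₀ c ∈ (W i).nonunits → c ∈ V.nonunits := by
    intro i c hc hnu
    rw [ValuationSubring.mem_nonunits_iff_or] at hnu ⊢
    rcases hnu with h | h
    · left
      exact (map_eq_zero_iff φ₀ φ₀.injective).mp h
    · right
      intro hinv
      apply h
      rw [← map_inv₀]
      exact hVW i _ hinv
  refine ⟨⟨hqV, hqne, ?_⟩, hVW, hqW, ?_, ?_, ?_⟩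
  · -- discreteness
    intro x hx hx0
    have hx0' : (x : FF M') ≠ 0 := fun h => hx0 (Subtype.ext h)
    obtain ⟨n, h1, h2⟩ := hdisc (x : FF M') x.2 hx0'
    have hc0 : algebraMap Kbar (FF M') ((q : Kbar) ^ n) ≠ 0 := by
      rw [Ne, map_eq_zero_iff _ (algebraMap Kbar (FF M')).injective]
      exact zpow_ne_zero _ hq0
    have hval := sumc_val_eq_one v'.O (mul_ne_zero hc0 hx0') h1 h2
    have hvq : v'.O.valuation (algebraMap Kbar (FF M') (q : Kbar)) < 1 :=
      (ValuationSubring.mem_nonunits_iff _).mp (sumc_const_nonunit A v' hqA)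
    have hvx : v'.O.valuation (x : FF M') ≤ 1 := (v'.O.valuation_le_one_iff _).mpr hx
    rw [map_mul, map_zpow₀, map_zpow₀] at hval
    have hn : n ≤ 0 := by
      by_contra hpos
      rw [not_le] at hpos
      obtain ⟨m, rfl⟩ : ∃ m : ℕ, n = (m : ℤ) + 1 := ⟨(n - 1).toNat, by omega⟩
      have h3 : v'.O.valuation (algebraMap Kbar (FF M') (q : Kbar)) ^ ((m : ℤ) + 1) < 1 := by
        rw [show ((m : ℤ) + 1) = ((m + 1 : ℕ) : ℤ) by push_cast; rfl, zpow_natCast]
        exact pow_lt_one₀ zero_le hvq (Nat.succ_ne_zero m)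
      have h4 : v'.O.valuation (algebraMap Kbar (FF M') (q : Kbar)) ^ ((m : ℤ) + 1) *
          v'.O.valuation (x : FF M') < 1 :=
        lt_of_le_of_lt (mul_le_of_le_one_right zero_le hvx) h3
      rw [hval] at h4
      exact lt_irrefl _ h4
    obtain ⟨m, rfl⟩ : ∃ m : ℕ, n = -(m : ℤ) := ⟨(-n).toNat, by omega⟩
    have hu : (((q : f0Field A M') ^ (-(m : ℤ)) * x : f0Field A M') : FF M')
        = algebraMap Kbar (FF M') ((q : Kbar) ^ (-(m : ℤ))) * (x : FF M') := by
      have : (((q : f0Field A M') ^ (-(m : ℤ)) : f0Field A M') : FF M')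
          = algebraMap Kbar (FF M') ((q : Kbar) ^ (-(m : ℤ))) := by
        rw [map_zpow₀, ← hcast']
        rfl
      rw [← this]
      rfl
    refine ⟨m, (q : f0Field A M') ^ (-(m : ℤ)) * x, ?_, ?_, ?_⟩
    · have hmem : (((q : f0Field A M') ^ (-(m : ℤ)) * x : f0Field A M') : FF M') ∈ v'.O := by
        rw [hu]
        exact h1
      exact hmem
    · have hmem : ((((q : f0Field A M') ^ (-(m : ℤ)) * x)⁻¹ : f0Field A M') : FF M')
          ∈ v'.O := by
        have : ((((q : f0Field A M') ^ (-(m : ℤ)) * x)⁻¹ : f0Field A M') : FF M')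
            = (algebraMap Kbar (FF M') ((q : Kbar) ^ (-(m : ℤ))) * (x : FF M'))⁻¹ := by
          rw [← hu]
          rfl
        rw [this]
        exact h2
      exact hmem
    · rw [zpow_neg, zpow_natCast, ← mul_assoc, mul_inv_cancel₀ (pow_ne_zero _ hqne), one_mul]
  · -- distinctness
    obtain ⟨z, hzF, hznu, hzInf, hzZero, y, hy, hzy⟩ := hE
    obtain ⟨t, htF, htO, ht⟩ := hF
    have hq1 : q - 1 ≠ 0 := by
      have := hq.two_le
      omega
    have hz0 : z ≠ 0 := by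
      rintro rfl
      rw [zero_pow hq1, zero_mul, map_eq_zero_iff _ (algebraMap Kbar (FF M)).injective] at hzy
      exact hq0 hzy
    have hsep : ∀ v : SeriesVal A M, z⁻¹ ∈ v.O →
        v.O.comap (algebraMap (f0Field A M) (FF M)) ≠
          vMid.O.comap (algebraMap (f0Field A M) (FF M)) := by
      intro v hv heq
      have h1 : (⟨z, hzF⟩ : f0Field A M) ∈
          (vMid.O.comap (algebraMap (f0Field A M) (FF M))).nonunits := by
        rw [sumc_mem_nonunits_comap]
        exact hznu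
      rw [← heq, sumc_mem_nonunits_comap, ValuationSubring.mem_nonunits_iff_or] at h1
      rcases h1 with h1 | h1
      · exact hz0 h1
      · exact h1 hv
    have h02 : vInf.O.comap (algebraMap (f0Field A M) (FF M)) ≠
        vZero.O.comap (algebraMap (f0Field A M) (FF M)) := by
      intro heq
      have htInf : t ∈ vInf.O := by
        have h1 : (⟨t, htF⟩ : f0Field A M) ∈
            vZero.O.comap (algebraMap (f0Field A M) (FF M)) := htO
        rw [← heq] at h1
        exact h1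
      obtain ⟨c', hc'F, hc'O, hc'⟩ := hres t htF htInf
      have hF' := sumc_mem_f0Field A φ hφG c' hc'F
      have h2 : (⟨t - φ c', sub_mem htF hF'⟩ : f0Field A M) ∈
          (vInf.O.comap (algebraMap (f0Field A M) (FF M))).nonunits := by
        rw [sumc_mem_nonunits_comap]
        exact hc'
      rw [heq, sumc_mem_nonunits_comap] at h2
      have hlt : 1 < q * q := by
        have := hq.two_le
        nlinarith
      set i0 : Fin (q * q) := ⟨0, by omega⟩ with hi0
      set i1 : Fin (q * q) := ⟨1, hlt⟩ with hi1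
      have hne : i0 ≠ i1 := by
        intro h
        have := congrArg Fin.val h
        simp [hi0, hi1] at this
      let c : Fin (q * q) → FF M' := fun l => if l = i0 then -c' else if l = i1 then 1 else 0
      have hc0 : c i0 = -c' := if_pos rfl
      have hc1 : c i1 = 1 := by
        show (if i1 = i0 then -c' else if i1 = i1 then 1 else 0) = 1
        rw [if_neg (Ne.symm hne), if_pos rfl]
      have hcmem : ∀ l, c l ∈ f0Field A M' ∧ c l ∈ v'.O := by
        intro l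
        show (if l = i0 then -c' else if l = i1 then 1 else 0) ∈ f0Field A M' ∧
          (if l = i0 then -c' else if l = i1 then 1 else 0) ∈ v'.O
        split_ifs
        · exact ⟨neg_mem hc'F, neg_mem hc'O⟩
        · exact ⟨one_mem _, one_mem _⟩
        · exact ⟨zero_mem _, zero_mem _⟩
      have hsum : ∑ l, φ (c l) * t ^ (l : ℕ) = t - φ c' := by
        rw [Finset.sum_eq_add i0 i1 hne]
        · rw [hc0, hc1, map_neg, map_one]
          simp only [hi0, hi1, pow_zero, pow_one]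
          ring
        · intro l _ hl
          show φ (if l = i0 then -c' else if l = i1 then 1 else 0) * t ^ (l : ℕ) = 0
          rw [if_neg hl.1, if_neg hl.2, map_zero, zero_mul]
        · intro h
          exact absurd (Finset.mem_univ _) h
        · intro h
          exact absurd (Finset.mem_univ _) h
      have h3 := ht c hcmem (hsum ▸ h2) i1
      rw [hc1, ValuationSubring.mem_nonunits_iff, map_one] at h3
      exact lt_irrefl _ h3
    have h10 := hsep vInf hzInf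
    have h12 := hsep vZero hzZero
    intro i j hij
    fin_cases i <;> fin_cases j
    · rfl
    · exact absurd hij h10
    · exact absurd hij h02
    · exact absurd hij.symm h10
    · rfl
    · exact absurd hij.symm h12
    · exact absurd hij.symm h02
    · exact absurd hij h12
    · rfl
  · -- the ramification witnesses
    have hone : ∀ i, ∃ z ∈ (W i).nonunits, ∃ y ∈ W i,
        φ₀ (q : f0Field A M') = z ^ 1 * y := fun i =>
      ⟨φ₀ (q : f0Field A M'), hqW i, 1, (W i).one_mem, by rw [pow_one, mul_one]⟩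
    intro i
    fin_cases i
    · exact hone 0
    · obtain ⟨z, hzF, hznu, -, -, y, hy, hzy⟩ := hE
      have hq1 : q - 1 ≠ 0 := by
        have := hq.two_le
        omega
      have hz0 : z ≠ 0 := by
        rintro rfl
        rw [zero_pow hq1, zero_mul, map_eq_zero_iff _ (algebraMap Kbar (FF M)).injective] at hzy
        exact hq0 hzy
      have hZ0 : (⟨z, hzF⟩ : f0Field A M) ≠ 0 := fun h => hz0 (congrArg Subtype.val h)
      have hyeq : y = (((q : f0Field A M) * ((⟨z, hzF⟩ : f0Field A M) ^ (q - 1))⁻¹ :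
          f0Field A M) : FF M) := by
        have h1 : (((q : f0Field A M) * ((⟨z, hzF⟩ : f0Field A M) ^ (q - 1))⁻¹ :
            f0Field A M) : FF M) = algebraMap Kbar (FF M) (q : Kbar) * (z ^ (q - 1))⁻¹ := by
          rw [← hcast]
          rfl
        rw [h1, hzy]
        field_simp
      refine ⟨⟨z, hzF⟩, (sumc_mem_nonunits_comap A vMid.O _).mpr hznu,
        (q : f0Field A M) * ((⟨z, hzF⟩ : f0Field A M) ^ (q - 1))⁻¹, ?_, ?_⟩
      · have hmem : (((q : f0Field A M) * ((⟨z, hzF⟩ : f0Field A M) ^ (q - 1))⁻¹ :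
            f0Field A M) : FF M) ∈ vMid.O := by
          rw [← hyeq]
          exact hy
        exact hmem
      · rw [hφq]
        show (q : f0Field A M) = (⟨z, hzF⟩ : f0Field A M) ^ (q - 1) * _
        rw [mul_comm (q : f0Field A M), ← mul_assoc, mul_inv_cancel₀ (pow_ne_zero _ hZ0),
          one_mul]
    · exact hone 2
  · -- the residue witnesses
    have hone : ∀ i, ∃ b : Fin 1 → f0Field A M,
        (∀ l, b l ∈ W i) ∧ ∀ c : Fin 1 → f0Field A M',
          (∀ l, c l ∈ V) → (∑ l, φ₀ (c l) * b l) ∈ (W i).nonunits → ∀ l, c l ∈ V.nonunits := by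
      intro i
      refine ⟨fun _ => 1, fun _ => (W i).one_mem, fun c hc hsum l => ?_⟩
      rw [Fin.sum_univ_one, mul_one] at hsum
      have hl : l = 0 := Subsingleton.elim _ _
      rw [hl]
      exact hunit i _ (hc 0) hsum
    intro i
    fin_cases i
    · exact hone 0
    · exact hone 1
    · obtain ⟨t, htF, htO, ht⟩ := hF
      refine ⟨fun l => (⟨t, htF⟩ : f0Field A M) ^ (l : ℕ), fun l => ?_, fun c hc hsum l => ?_⟩
      · exact (vZero.O.comap (algebraMap (f0Field A M) (FF M))).pow_mem htO _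
      · have hsum' : ((∑ l, φ₀ (c l) * (⟨t, htF⟩ : f0Field A M) ^ (l : ℕ) : f0Field A M) : FF M)
            ∈ vZero.O.nonunits := (sumc_mem_nonunits_comap A vZero.O _).mp hsum
        have hcoe : ((∑ l, φ₀ (c l) * (⟨t, htF⟩ : f0Field A M) ^ (l : ℕ) : f0Field A M) : FF M)
            = ∑ l, φ ((c l : f0Field A M') : FF M') * t ^ (l : ℕ) := by
          push_cast
          rfl
        rw [hcoe] at hsum'
        have h := ht (fun l => ((c l : f0Field A M') : FF M')) (fun l => ⟨(c l).2, hc l⟩) hsum' l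
        exact (sumc_mem_nonunits_comap A v'.O _).mpr h

/-- the degree hypothesis of `sumRel_isIntegral` from `vdrel_dep_of_comm` -/
theorem sumc_dep (φ : FF M' →ₐ[Kbar] FF M)
    (hφG : ∀ σ ∈ A.inertiaSubgroupIn ℚ, ∀ x : FF M', galFF M σ • φ x = φ (galFF M' σ • x))
    (n : ℕ) (hdeg0 : 0 < finrankAlong Kbar φ) (hdeg : finrankAlong Kbar φ ≤ n)
    (w : Fin (n + 1) → f0Field A M) :
    ∃ g : Fin (n + 1) → f0Field A M', g ≠ 0 ∧
      ∑ i, sumcHom A φ (sumc_mem_f0Field A φ hφG) (g i) * w i = 0 := by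
  obtain ⟨g, hg0, hgF, hsum⟩ := vdrel_dep_of_comm A φ hφG n hdeg0 hdeg
    (fun i => ((w i : f0Field A M) : FF M)) (by rw [Fintype.card_fin]; exact Nat.lt_succ_self n)
    (fun i => (w i).2)
  refine ⟨fun i => ⟨g i, hgF i⟩, ?_, ?_⟩
  · intro h
    apply hg0
    funext i
    exact congrArg Subtype.val (congrFun h i)
  · apply Subtype.ext
    have h0 : (((0 : f0Field A M)) : FF M) = 0 := rfl
    rw [h0, ← hsum]
    push_cast
    rfl

theorem sumc_sum_ef (hq : q.Prime) :
    q * (q + 1) ≤ ∑ i : Fin 3, (![1, q - 1, 1] : Fin 3 → ℕ) i * (![1, 1, q * q] : Fin 3 → ℕ) i := by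
  obtain ⟨m, rfl⟩ := Nat.exists_eq_succ_of_ne_zero hq.ne_zero
  rw [Fin.sum_univ_three]
  simp only [Matrix.cons_val_zero, Matrix.cons_val_one, Matrix.cons_val_two, Matrix.head_cons,
    Matrix.tail_cons, Nat.succ_sub_one]
  apply le_of_eq
  simp only [Nat.succ_eq_add_one]
  ring

/-- **P4 (vertical integrality along `φ`)**: every `b ∈ F0(M) ∩ O_∞ ∩ O_mid ∩ O_0` is a root of
a monic polynomial with coefficients in `F0(M') ∩ O'`. -/
theorem sumc_isIntegral (hq : q.Prime) (hqA : A.valuation (q : Kbar) < 1)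
    (φ : FF M' →ₐ[Kbar] FF M)
    (hφG : ∀ σ ∈ A.inertiaSubgroupIn ℚ, ∀ x : FF M', galFF M σ • φ x = φ (galFF M' σ • x))
    (hdeg0 : 0 < finrankAlong Kbar φ) (hdeg : finrankAlong Kbar φ ≤ q * (q + 1))
    (v' : SeriesVal A M') (vInf vMid vZero : SeriesVal A M)
    (hdisc : ∀ f ∈ f0Field A M', f ≠ 0 →
      ∃ n : ℤ, algebraMap Kbar (FF M') ((q : Kbar) ^ n) * f ∈ v'.O ∧
        (algebraMap Kbar (FF M') ((q : Kbar) ^ n) * f)⁻¹ ∈ v'.O)
    (hTInf : ∀ g ∈ f0Field A M', g ∈ v'.O → φ g ∈ vInf.O)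
    (hTMid : ∀ g ∈ f0Field A M', g ∈ v'.O → φ g ∈ vMid.O)
    (hTZero : ∀ g ∈ f0Field A M', g ∈ v'.O → φ g ∈ vZero.O)
    (hE : ∃ z ∈ f0Field A M, z ∈ vMid.O.nonunits ∧ z⁻¹ ∈ vInf.O ∧ z⁻¹ ∈ vZero.O ∧
      ∃ y ∈ vMid.O, algebraMap Kbar (FF M) (q : Kbar) = z ^ (q - 1) * y)
    (hF : ∃ t ∈ f0Field A M, t ∈ vZero.O ∧ ∀ c : Fin (q * q) → FF M',
      (∀ l, c l ∈ f0Field A M' ∧ c l ∈ v'.O) →
        (∑ l, φ (c l) * t ^ (l : ℕ)) ∈ vZero.O.nonunits → ∀ l, c l ∈ v'.O.nonunits)
    (hres : ∀ x ∈ f0Field A M, x ∈ vInf.O →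
      ∃ c ∈ f0Field A M', c ∈ v'.O ∧ x - φ c ∈ vInf.O.nonunits)
    (b : FF M) (hb : b ∈ f0Field A M) (h1 : b ∈ vInf.O) (h2 : b ∈ vMid.O) (h3 : b ∈ vZero.O) :
    ∃ p : Polynomial (FF M'), p.Monic ∧
      (∀ n, p.coeff n ∈ v'.O ∧ p.coeff n ∈ f0Field A M') ∧
      Polynomial.eval₂ (φ : FF M' →+* FF M) b p = 0 := by
  obtain ⟨⟨hqV, hqne, hV⟩, hVW, hqW, hinj, he, hf⟩ := sumc_hyps A hq hqA φ hφG v' vInf vMid vZero
    hdisc hTInf hTMid hTZero hE hF hres
  have hx : ∀ i, (⟨b, hb⟩ : f0Field A M) ∈ (![vInf.O.comap (algebraMap (f0Field A M) (FF M)),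
        vMid.O.comap (algebraMap (f0Field A M) (FF M)),
        vZero.O.comap (algebraMap (f0Field A M) (FF M))] :
          Fin 3 → ValuationSubring (f0Field A M)) i := by
    intro i
    fin_cases i
    · exact h1
    · exact h2
    · exact h3
  obtain ⟨p, hp, hpc, hpb⟩ := sumRel_isIntegral (sumcHom A φ (sumc_mem_f0Field A φ hφG))
    (v'.O.comap (algebraMap (f0Field A M') (FF M'))) (q : f0Field A M') hqV hqne hV _ hVW hqW
    hinj _ _ he hf (q * (q + 1)) (sumc_dep A φ hφG _ hdeg0 hdeg) (sumc_sum_ef hq) ⟨b, hb⟩ hx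
  refine ⟨p.map (algebraMap (f0Field A M') (FF M')), hp.map _, fun n => ?_, ?_⟩
  · rw [Polynomial.coeff_map]
    exact ⟨hpc n, (p.coeff n).2⟩
  · rw [Polynomial.eval₂_map]
    have hcomp : ((φ : FF M' →+* FF M).comp (algebraMap (f0Field A M') (FF M')))
        = (algebraMap (f0Field A M) (FF M)).comp
          (sumcHom A φ (sumc_mem_f0Field A φ hφG)) := rfl
    rw [hcomp]
    have h4 := Polynomial.hom_eval₂ p (sumcHom A φ (sumc_mem_f0Field A φ hφG))
      (algebraMap (f0Field A M) (FF M)) (⟨b, hb⟩ : f0Field A M)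
    have h5 : algebraMap (f0Field A M) (FF M) (⟨b, hb⟩ : f0Field A M) = b := rfl
    rw [h5] at h4
    rw [← h4, hpb, map_zero]

/-- **completeness**: every valuation subring `≠ ⊤` of `F0(M)` containing `φ (F0(M') ∩ O')` is
the restriction of `O_∞`, `O_mid` or `O_0`. -/
theorem sumc_complete (hq : q.Prime) (hqA : A.valuation (q : Kbar) < 1)
    (φ : FF M' →ₐ[Kbar] FF M)
    (hφG : ∀ σ ∈ A.inertiaSubgroupIn ℚ, ∀ x : FF M', galFF M σ • φ x = φ (galFF M' σ • x))
    (hdeg0 : 0 < finrankAlong Kbar φ) (hdeg : finrankAlong Kbar φ ≤ q * (q + 1))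
    (v' : SeriesVal A M') (vInf vMid vZero : SeriesVal A M)
    (hdisc : ∀ f ∈ f0Field A M', f ≠ 0 →
      ∃ n : ℤ, algebraMap Kbar (FF M') ((q : Kbar) ^ n) * f ∈ v'.O ∧
        (algebraMap Kbar (FF M') ((q : Kbar) ^ n) * f)⁻¹ ∈ v'.O)
    (hTInf : ∀ g ∈ f0Field A M', g ∈ v'.O → φ g ∈ vInf.O)
    (hTMid : ∀ g ∈ f0Field A M', g ∈ v'.O → φ g ∈ vMid.O)
    (hTZero : ∀ g ∈ f0Field A M', g ∈ v'.O → φ g ∈ vZero.O)
    (hE : ∃ z ∈ f0Field A M, z ∈ vMid.O.nonunits ∧ z⁻¹ ∈ vInf.O ∧ z⁻¹ ∈ vZero.O ∧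
      ∃ y ∈ vMid.O, algebraMap Kbar (FF M) (q : Kbar) = z ^ (q - 1) * y)
    (hF : ∃ t ∈ f0Field A M, t ∈ vZero.O ∧ ∀ c : Fin (q * q) → FF M',
      (∀ l, c l ∈ f0Field A M' ∧ c l ∈ v'.O) →
        (∑ l, φ (c l) * t ^ (l : ℕ)) ∈ vZero.O.nonunits → ∀ l, c l ∈ v'.O.nonunits)
    (hres : ∀ x ∈ f0Field A M, x ∈ vInf.O →
      ∃ c ∈ f0Field A M', c ∈ v'.O ∧ x - φ c ∈ vInf.O.nonunits)
    (O : ValuationSubring (f0Field A M)) (hO : O ≠ ⊤)
    (hVO : ∀ g : FF M', ∀ hg : g ∈ f0Field A M', g ∈ v'.O →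
      (⟨φ g, sumc_mem_f0Field A φ hφG g hg⟩ : f0Field A M) ∈ O) :
    O = vInf.O.comap (algebraMap (f0Field A M) (FF M)) ∨
    O = vMid.O.comap (algebraMap (f0Field A M) (FF M)) ∨
    O = vZero.O.comap (algebraMap (f0Field A M) (FF M)) := by
  obtain ⟨⟨hqV, hqne, hV⟩, hVW, hqW, hinj, he, hf⟩ := sumc_hyps A hq hqA φ hφG v' vInf vMid vZero
    hdisc hTInf hTMid hTZero hE hF hres
  obtain ⟨i, hi⟩ := sumRel_complete (sumcHom A φ (sumc_mem_f0Field A φ hφG))
    (v'.O.comap (algebraMap (f0Field A M') (FF M'))) (q : f0Field A M') hqV hqne hV _ hVW hqW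
    hinj _ _ he hf (q * (q + 1)) (sumc_dep A φ hφG _ hdeg0 hdeg) (sumc_sum_ef hq) O hO
    (fun x hx => hVO (x : FF M') x.2 hx)
  fin_cases i
  · exact Or.inl hi
  · exact Or.inr (Or.inl hi)
  · exact Or.inr (Or.inr hi)

end Main

end Fermat.Agent.S36lib

end
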