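import Mathlib
import Fermat.Agent.S36lib.SumConc
import Fermat.Agent.S36lib.TheSetup
import Fermat.Agent.S36lib.VMidUnit
import Fermat.Agent.S36lib.VMidSV
import Fermat.Agent.S36lib.VDisc
import Fermat.Agent.S36lib.ExpCalc
import Fermat.Agent.S34lib.ExProd

/-!
# Item 83 (S36), block V, P4 of D1-A (helper2): the tables of `π₁`, `π₃` (for `SumInst.lean`)

The instance of `sumc_isIntegral` / `sumc_complete` (`SumConc.lean`) for `φ = π₁`, the Gauss
valuation `R'` of level `M'`, and the three valuations `R` (at `∞`), `vmidO` (middle),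
`R ∘ w_{q²}` (at `0`) of level `M = M' q²`.
-/

set_option autoImplicit false
set_option linter.style.haveILetI false
set_option linter.unusedSectionVars false
set_option synthInstance.maxHeartbeats 400000

noncomputable section

namespace Fermat.Agent.S36lib

open ModularCurve AlgebraicCurve Polynomial HahnSeries
open Fermat.Agent.HeckeBar Fermat.Agent.S24lib Fermat.Agent.S34lib Fermat.Agent.GoodRed
  Fermat.Agent.S37lib Fermat.Agent.S35lib

section Degree

variable {K F₁ F₂ F₃ : Type*} [Field K] [Field F₁] [Field F₂] [Field F₃]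
  [Algebra K F₁] [Algebra K F₂] [Algebra K F₃]

/-- the degree along a composite -/
theorem sumi_finrankAlong_comp (a : F₁ →ₐ[K] F₂) (b : F₂ →ₐ[K] F₃) :
    finrankAlong K (b.comp a) = finrankAlong K a * finrankAlong K b := by
  letI i12 : Algebra F₁ F₂ := algebraAlong a
  letI i23 : Algebra F₂ F₃ := algebraAlong b
  letI i13 : Algebra F₁ F₃ := algebraAlong (b.comp a)
  haveI : IsScalarTower F₁ F₂ F₃ := IsScalarTower.of_algebraMap_eq fun _ => rfl
  exact (Module.finrank_mul_finrank F₁ F₂ F₃).symm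

end Degree

section Pi1

variable (M' q : ℕ) [NeZero M'] [NeZero q]

/-- `π₁` as a homomorphism of `ℚ̄`-algebras -/
def sumiPi1 : FF M' →ₐ[Kbar] FF (M' * q * q) :=
  (heckeAlphaBar Kbar (M' * q) q).comp (heckeAlphaBar Kbar M' q)

theorem sumiPi1_apply (x : FF M') :
    sumiPi1 M' q x = heckeAlphaBar Kbar (M' * q) q (heckeAlphaBar Kbar M' q x) := rfl

theorem sumiPi1_eq_ecPi1 : ((sumiPi1 M' q : FF M' →ₐ[Kbar] FF (M' * q * q)) :
    FF M' →+* FF (M' * q * q)) = ecPi1 M' q := rfl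

theorem sumi_finrank (hq : q.Prime) (hqM : ¬ q ∣ M') :
    finrankAlong Kbar (sumiPi1 M' q) = q * (q + 1) := by
  unfold sumiPi1
  rw [sumi_finrankAlong_comp, exp_finrankAlong_alpha M' q hq hqM, nbq_finrankAlong_alpha M' q hq,
    mul_comm]

theorem sumi_gal (σ : Kbar ≃ₐ[ℚ] Kbar) (x : FF M') :
    galFF (M' * q * q) σ • sumiPi1 M' q x = sumiPi1 M' q (galFF M' σ • x) := by
  rw [sumiPi1_apply, sumiPi1_apply]
  exact (mx_gal_alpha (M' * q) q σ _).trans
    (congrArg (heckeAlphaBar Kbar (M' * q) q) (mx_gal_alpha M' q σ x))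

end Pi1

section Tables

variable {A : ValuationSubring Kbar} (M' q : ℕ) [NeZero M'] [NeZero q]
variable {Fk : IntermediateField (IsLocalRing.ResidueField A)
  (LaurentSeries (IsLocalRing.ResidueField A))}
variable {R' : ConstRed A (IsLocalRing.residue A) (↥Fk) (FF M')}
variable {R : ConstRed A (IsLocalRing.residue A) (↥Fk) (FF (M' * q * q))}

/-- the table of `π₁` at `∞`: `red_∞ (π₁ x) = red' x` -/
theorem sumi_pi1_mem_red (hR' : IsSeriesRed R') (hR : IsSeriesRed R)
    (hfrac : HasPrimFrac A (modularFunctionFieldBar M')) {x : FF M'} (hx : x ∈ R'.O) :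
    ∃ h : sumiPi1 M' q x ∈ R.O, R.red ⟨sumiPi1 M' q x, h⟩ = R'.red ⟨x, hx⟩ := by
  obtain ⟨a, b, hrep⟩ := hR'.exists_isRep hfrac hx
  have hrep' : IsRep A (modularFunctionFieldBar (M' * q * q))
      ((sumiPi1 M' q x : FF (M' * q * q)) : LaurentSeries Kbar) a b := by
    refine ⟨?_, ?_, hrep.2.2.1, ?_⟩
    · exact (heckeAlphaBar Kbar (M' * q) q (heckeAlphaBar Kbar M' q ⟨_, hrep.1⟩)).2
    · exact (heckeAlphaBar Kbar (M' * q) q (heckeAlphaBar Kbar M' q ⟨_, hrep.2.1⟩)).2
    · rw [sumiPi1_apply, coe_heckeAlphaBar, coe_heckeAlphaBar]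
      exact hrep.2.2.2
  have h := hR.mem_of_isRep hrep'
  refine ⟨h, ?_⟩
  apply Subtype.ext
  rw [hR.red_of_isRep hrep' h, hR'.red_of_isRep hrep hx]

/-- the table of `π₃` at `∞`: `red_∞ (π₃ x) = (red' x)(X^{q²})` -/
theorem sumi_pi3_mem_red (hR' : IsSeriesRed R') (hR : IsSeriesRed R)
    (hfrac : HasPrimFrac A (modularFunctionFieldBar M')) {x : FF M'} (hx : x ∈ R'.O) :
    ∃ h : heckeBetaBar Kbar (M' * q) q (heckeBetaBar Kbar M' q x) ∈ R.O,
      ((R.red ⟨heckeBetaBar Kbar (M' * q) q (heckeBetaBar Kbar M' q x), h⟩ : ↥Fk) :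
          LaurentSeries (IsLocalRing.ResidueField A))
        = qExpand (IsLocalRing.ResidueField A) q (qExpand (IsLocalRing.ResidueField A) q
            ((R'.red ⟨x, hx⟩ : ↥Fk) : LaurentSeries (IsLocalRing.ResidueField A))) := by
  obtain ⟨a, b, hrep⟩ := hR'.exists_isRep hfrac hx
  have hrep' : IsRep A (modularFunctionFieldBar (M' * q * q))
      ((heckeBetaBar Kbar (M' * q) q (heckeBetaBar Kbar M' q x) : FF (M' * q * q)) :
        LaurentSeries Kbar)
      (qExpand A q (qExpand A q a)) (qExpand A q (qExpand A q b)) := by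
    refine ⟨?_, ?_, ?_, ?_⟩
    · rw [Fermat.Agent.Kron.coeffMap_qExpand, Fermat.Agent.Kron.coeffMap_qExpand]
      exact (heckeBetaBar Kbar (M' * q) q (heckeBetaBar Kbar M' q ⟨_, hrep.1⟩)).2
    · rw [Fermat.Agent.Kron.coeffMap_qExpand, Fermat.Agent.Kron.coeffMap_qExpand]
      exact (heckeBetaBar Kbar (M' * q) q (heckeBetaBar Kbar M' q ⟨_, hrep.2.1⟩)).2
    · rw [Fermat.Agent.Kron.coeffMap_qExpand, Fermat.Agent.Kron.coeffMap_qExpand]
      intro h0
      have h1 : qExpand (IsLocalRing.ResidueField A) q (coeffMap (IsLocalRing.residue A) b)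
          = 0 := qExpand_injective q (h0.trans (map_zero _).symm)
      exact hrep.2.2.1 (qExpand_injective q (h1.trans (map_zero _).symm))
    · rw [coe_heckeBetaBar, coe_heckeBetaBar, Fermat.Agent.Kron.coeffMap_qExpand,
        Fermat.Agent.Kron.coeffMap_qExpand, Fermat.Agent.Kron.coeffMap_qExpand,
        Fermat.Agent.Kron.coeffMap_qExpand, ← map_mul, ← map_mul, hrep.2.2.2]
  have h := hR.mem_of_isRep hrep'
  refine ⟨h, ?_⟩
  rw [hR.red_of_isRep hrep' h, hR'.red_of_isRep hrep hx, Fermat.Agent.Kron.coeffMap_qExpand,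
    Fermat.Agent.Kron.coeffMap_qExpand, Fermat.Agent.Kron.coeffMap_qExpand,
    Fermat.Agent.Kron.coeffMap_qExpand, map_div₀, map_div₀]

variable {ζ : Kbarˣ} {E : FF (M' * q * q) →+* LaurentSeries Kbar}

/-- the table of `π₁` at the middle valuation: `red_mid (π₁ x) = red' x` -/
theorem sumi_pi1_mem_mid (hq : q.Prime) (hlt : A.valuation (q : Kbar) < 1) (hζ : ζ ^ q = 1)
    (hE : IsMidExp M' q ζ E) (hR' : IsSeriesRed R')
    (hfrac : HasPrimFrac A (modularFunctionFieldBar M')) {x : FF M'} (hx : x ∈ R'.O) :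
    ∃ h : sumiPi1 M' q x ∈ vmidO A hq hlt hζ hE,
      vmidRed A hq hlt hζ hE ⟨sumiPi1 M' q x, h⟩
        = ((R'.red ⟨x, hx⟩ : ↥Fk) : LaurentSeries (IsLocalRing.ResidueField A)) := by
  obtain ⟨a, b, hrep⟩ := hR'.exists_isRep hfrac hx
  have hEx : E (sumiPi1 M' q x) = (x : LaurentSeries Kbar) := by
    rw [sumiPi1_apply, hE.alpha, coe_heckeAlphaBar]
  obtain ⟨h, hr⟩ := vmid_bridge A hq hlt hζ hE (sumiPi1 M' q x) a b hrep.2.2.1
    (by rw [hEx]; exact hrep.2.2.2)
  refine ⟨h, ?_⟩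
  rw [hr, hR'.red_of_isRep hrep hx]

end Tables

end Fermat.Agent.S36lib

end
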