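/-
Item 83 (S36), block TOR, piece T-2 (helper25): the toric invariants are killed by `q² − 1`.

ABSTRACT, Mathlib only.  `κ` a field (the residue field `κ'` of level `M'`), `R ⊂ κ` a
`k`-subalgebra (the affine ring of `C'`), `e i : R →ₐ[k] k` the nodes (points of `C'`; in the
application `GlueData.e₁` of level `N = M'q`), `e' i = e i ∘ φ` their Frobenius twists
(`GlueData.e₂`), `Fr` the coefficient Frobenius of `κ` (`e' (Fr r) = (e r)^q`).

* `tor_core`: elementary identity: `a·b = C₁ c^q`, `a^q = C₂ b c` ⟹ `a^(q+1) = C₁C₂ c^(q+1)` and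
  `b^(q+1) (C₁C₂)^q = C₁^(q+1) a^((q−1)(q+1))`.
* `tor_incidence` (T-1): if the reductions of the norm `N_α (z − λ)` are glued for all constants
  `λ`, the three reductions of `z` have the same value at every node.
* `abel_tor` (ABEL + T-2): if the reductions `r_∞, r_mid, r_0 ∈ R` of `b` do not vanish at the
  nodes and the reductions of the `m`-th roots of the two norms of `b` are glued at the nodes of
  the lower level, then `r_∞^E = c_∞ s_∞^m`, `r_mid^E = c_mid s_mid^m`, `r_0^E = c_0 s_0^m`,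
  `E = (q−1)(q+1)`, with `s_v ∈ R` and `s_∞(e) = s_mid(e) = s_0(e) ≠ 0` at every node `e`.
No sorry.
-/
import Mathlib
import Fermat.Agent.S36lib.Speed

set_option autoImplicit false

noncomputable section

namespace Fermat.Agent.S36lib

/-! ### the elementary identity -/

/-- **(TOR), core.**  The two norm relations force `a^(q+1) = C₁C₂·c^(q+1)` and
`b^(q+1)·(C₁C₂)^q = C₁^(q+1)·a^((q−1)(q+1))`. -/
theorem tor_core {k : Type*} [Field k] (q : ℕ) (hq : 0 < q) (a b c C₁ C₂ : k)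
    (ha : a ≠ 0)
    (h1 : a * b = C₁ * c ^ q) (h2 : a ^ q = C₂ * b * c) :
    a ^ (q + 1) = (C₁ * C₂) * c ^ (q + 1) ∧
      b ^ (q + 1) * (C₁ * C₂) ^ q = C₁ ^ (q + 1) * a ^ ((q - 1) * (q + 1)) := by
  have e1 : a ^ (q + 1) = (C₁ * C₂) * c ^ (q + 1) := by
    calc a ^ (q + 1) = a ^ q * a := pow_succ a q
      _ = C₂ * b * c * a := by rw [h2]
      _ = C₂ * c * (a * b) := by ring
      _ = C₂ * c * (C₁ * c ^ q) := by rw [h1]
      _ = (C₁ * C₂) * c ^ (q + 1) := by ring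
  refine ⟨e1, ?_⟩
  -- multiply by `a^(q+1) ≠ 0`
  have ha' : a ^ (q + 1) ≠ 0 := pow_ne_zero _ ha
  apply mul_left_cancel₀ ha'
  have hq1 : (q - 1) * (q + 1) + (q + 1) = q * (q + 1) := by
    obtain ⟨r, rfl⟩ : ∃ r, q = r + 1 := ⟨q - 1, by omega⟩
    simp only [Nat.add_sub_cancel]
    ring
  calc a ^ (q + 1) * (b ^ (q + 1) * (C₁ * C₂) ^ q)
      = (a * b) ^ (q + 1) * (C₁ * C₂) ^ q := by ring
    _ = (C₁ * c ^ q) ^ (q + 1) * (C₁ * C₂) ^ q := by rw [h1]
    _ = C₁ ^ (q + 1) * ((C₁ * C₂) * c ^ (q + 1)) ^ q := by ring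
    _ = C₁ ^ (q + 1) * (a ^ (q + 1)) ^ q := by rw [e1]
    _ = C₁ ^ (q + 1) * a ^ (q * (q + 1)) := by rw [← pow_mul, mul_comm (q + 1) q]
    _ = C₁ ^ (q + 1) * a ^ ((q - 1) * (q + 1) + (q + 1)) := by rw [hq1]
    _ = a ^ (q + 1) * (C₁ ^ (q + 1) * a ^ ((q - 1) * (q + 1))) := by ring

/-! ### incidence (T-1) -/

section Incidence

variable {k κ : Type*} [Field k] [Field κ] [Algebra k κ] {R : Subalgebra k κ}

/-- **(T-1), abstract.**  `rInf rMid rZero` the three reductions of an element `z`; `hN`: the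
gluing at the lower level of the norm `N_α (z − λ)`, for the two constants `λ = rInf(e)` and
`λ = rMid(e)` (its reductions are `(rInf − λ)(rMid − λ)^(q−1)` and `Fr (rZero − λ)`, and
`(Fr x)(e∘φ) = x(e)^q`).  Then `rInf(e) = rMid(e) = rZero(e)`. -/
theorem tor_incidence (q : ℕ) (hq : 2 ≤ q) (e : R →ₐ[k] k) (rInf rMid rZero : R)
    (hN : ∀ lam : k, (e rInf - lam) * (e rMid - lam) ^ (q - 1) = (e rZero - lam) ^ q) :
    e rInf = e rMid ∧ e rMid = e rZero := by
  have h1 : e rInf = e rZero := by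
    have h := hN (e rInf)
    rw [sub_self, zero_mul] at h
    exact (sub_eq_zero.mp (pow_eq_zero_iff (by omega) |>.mp h.symm)).symm
  have h2 : e rMid = e rZero := by
    have h := hN (e rMid)
    rw [sub_self, zero_pow (by omega), mul_zero] at h
    exact (sub_eq_zero.mp (pow_eq_zero_iff (by omega) |>.mp h.symm)).symm
  exact ⟨h1.trans h2.symm, h2⟩

/-- the case `q = 1` excluded, the shifted form of the gluing hypothesis: from the gluing of
the norms of all `z − λ`. -/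
theorem tor_incidence_of_glue (q : ℕ) (hq : 2 ≤ q) (e : R →ₐ[k] k)
    (red : R → R → R → Prop)
    (hglue : ∀ a b c : R, red a b c → e a * e b ^ (q - 1) = e c ^ q)
    (rInf rMid rZero : R)
    (hshift : ∀ lam : k, red (rInf - algebraMap k R lam) (rMid - algebraMap k R lam)
      (rZero - algebraMap k R lam)) :
    e rInf = e rMid ∧ e rMid = e rZero := by
  refine tor_incidence q hq e rInf rMid rZero fun lam => ?_
  have h := hglue _ _ _ (hshift lam)
  simpa [map_sub, AlgHom.commutes] using h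

end Incidence

/-! ### ABEL + TOR -/

section Main

variable {k κ : Type*} [Field k] [Field κ] [Algebra k κ] {R : Subalgebra k κ}
variable {ι : Type*}

/-- an `m`-th root in `κ` of an element of `R` lies in `R`, and an `m`-th root of a constant is
a constant: the two closedness hypotheses on the affine ring. -/
structure TorClosed (k : Type*) {κ : Type*} [Field k] [Field κ] [Algebra k κ]
    (R : Subalgebra k κ) : Prop where
  root_mem : ∀ (s : κ) (n : ℕ), 0 < n → s ^ n ∈ R → s ∈ R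
  root_const : ∀ (s : κ) (n : ℕ) (c : k), 0 < n → s ^ n = algebraMap k κ c →
    ∃ d : k, s = algebraMap k κ d

/-- **ABEL + TOR (T-2), abstract.**
`rInf rMid rZero ∈ R`: the reductions of `b`, nonzero, `rInf` nonvanishing at the nodes (`b` is a
unit at the nodes).  `yα₁ yα₂ ∈ R`: the reductions (at `∞`, `0` of the lower level) of an `m`-th root of
`N_α b / const`; `yβ₁ yβ₂`: the same for `N_β b`.  Norm reductions (A-2):
`red_∞ N_α b = rInf · rMid^(q−1)`, `red_0 N_α b = Fr rZero`, `red_∞ N_β b = Fr rInf`,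
`red_0 N_β b = rMid^(q−1) · rZero`.  Gluing at the lower level at the nodes `(e, e')`, `(e', e)`.
Conclusion: with `E = (q−1)(q+1)`, the `E`-th powers of the reductions of `b` are constants times
`m`-th powers of elements of `R` with the SAME nonzero value at every node. -/
theorem abel_tor (hcl : TorClosed k R) (m q : ℕ) (hm : 0 < m) (hq : 0 < q)
    (e e' : ι → R →ₐ[k] k) (Fr : κ ≃+* κ)
    (hFrR : ∀ x : κ, Fr x ∈ R ↔ x ∈ R)
    (hFrk : ∀ c : k, ∃ c' : k, Fr (algebraMap k κ c') = algebraMap k κ c)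
    (hFre : ∀ i (r : R) (h : Fr (r : κ) ∈ R), e' i ⟨Fr (r : κ), h⟩ = e i r ^ q)
    (rInf rMid rZero : R)
    (hInfne : rInf ≠ 0) (hMidne : rMid ≠ 0) (hZerone : rZero ≠ 0) (hInf0 : ∀ i, e i rInf ≠ 0)
    (yα₁ yα₂ yβ₁ yβ₂ : R) (cα cβ : k) (hcα : cα ≠ 0) (hcβ : cβ ≠ 0)
    (hα₁ : cα • (yα₁ : κ) ^ m = (rInf : κ) * (rMid : κ) ^ (q - 1))
    (hα₂ : cα • (yα₂ : κ) ^ m = Fr (rZero : κ))
    (hβ₁ : cβ • (yβ₁ : κ) ^ m = Fr (rInf : κ))
    (hβ₂ : cβ • (yβ₂ : κ) ^ m = (rMid : κ) ^ (q - 1) * (rZero : κ))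
    (hgα : ∀ i, e i yα₁ = e' i yα₂) (hgβ : ∀ i, e' i yβ₁ = e i yβ₂) :
    ∃ (cInf cMid cZero : k) (sInf sMid sZero : R), cInf ≠ 0 ∧ cMid ≠ 0 ∧ cZero ≠ 0 ∧
      (rInf : κ) ^ ((q - 1) * (q + 1)) = cInf • (sInf : κ) ^ m ∧
      (rMid : κ) ^ ((q - 1) * (q + 1)) = cMid • (sMid : κ) ^ m ∧
      (rZero : κ) ^ ((q - 1) * (q + 1)) = cZero • (sZero : κ) ^ m ∧
      ∀ i, e i sInf ≠ 0 ∧ e i sInf = e i sMid ∧ e i sMid = e i sZero := by
  classical
  have hmne : m ≠ 0 := hm.ne'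
  -- constants
  obtain ⟨cβ', hcβ'⟩ := hFrk cβ
  obtain ⟨cα', hcα'⟩ := hFrk cα
  have hcβ'0 : cβ' ≠ 0 := by
    rintro rfl
    rw [map_zero, map_zero] at hcβ'
    exact hcβ ((algebraMap k κ).injective (by rw [← hcβ', map_zero]))
  have hcα'0 : cα' ≠ 0 := by
    rintro rfl
    rw [map_zero, map_zero] at hcα'
    exact hcα ((algebraMap k κ).injective (by rw [← hcα', map_zero]))
  have hrI : (rInf : κ) ≠ 0 := fun h => hInfne (Subtype.ext h)
  have hrM : (rMid : κ) ≠ 0 := fun h => hMidne (Subtype.ext h)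
  have hrZ : (rZero : κ) ≠ 0 := fun h => hZerone (Subtype.ext h)
  -- the roots
  set sI : κ := Fr.symm (yβ₁ : κ) with hsI
  set sZ : κ := Fr.symm (yα₂ : κ) with hsZ
  have hFsI : Fr sI = (yβ₁ : κ) := Fr.apply_symm_apply _
  have hFsZ : Fr sZ = (yα₂ : κ) := Fr.apply_symm_apply _
  clear_value sI sZ
  have hsIR : sI ∈ R := (hFrR sI).mp (by rw [hFsI]; exact yβ₁.2)
  have hsZR : sZ ∈ R := (hFrR sZ).mp (by rw [hFsZ]; exact yα₂.2)
  have hI : (rInf : κ) = cβ' • sI ^ m := by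
    apply Fr.injective
    rw [← hβ₁, Algebra.smul_def, Algebra.smul_def, map_mul, map_pow, hcβ', hFsI]
  have hZ : (rZero : κ) = cα' • sZ ^ m := by
    apply Fr.injective
    rw [← hα₂, Algebra.smul_def, Algebra.smul_def, map_mul, map_pow, hcα', hFsZ]
  have hsI0 : sI ≠ 0 := by
    rintro h
    rw [h, zero_pow hmne, smul_zero] at hI
    exact hrI hI
  have hsZ0 : sZ ≠ 0 := by
    rintro h
    rw [h, zero_pow hmne, smul_zero] at hZ
    exact hrZ hZ
  set sM : κ := (yα₁ : κ) / sI with hsM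
  have hMI : sM * sI = (yα₁ : κ) := div_mul_cancel₀ _ hsI0
  clear_value sM
  have hcαk : (algebraMap k κ cα) ≠ 0 := fun h =>
    hcα ((algebraMap k κ).injective (by rw [h, map_zero]))
  have hcβk : (algebraMap k κ cβ) ≠ 0 := fun h =>
    hcβ ((algebraMap k κ).injective (by rw [h, map_zero]))
  have hcα'k : (algebraMap k κ cα') ≠ 0 := fun h =>
    hcα'0 ((algebraMap k κ).injective (by rw [h, map_zero]))
  have hcβ'k : (algebraMap k κ cβ') ≠ 0 := fun h =>
    hcβ'0 ((algebraMap k κ).injective (by rw [h, map_zero]))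
  have hsIm : sI ^ m ≠ 0 := pow_ne_zero _ hsI0
  have hM : (rMid : κ) ^ (q - 1) = (cα / cβ') • sM ^ m := by
    have h1 : cα • (sM * sI) ^ m = (cβ' • sI ^ m) * (rMid : κ) ^ (q - 1) := by
      rw [hMI, hα₁, hI]
    rw [Algebra.smul_def, Algebra.smul_def, mul_pow] at h1
    rw [Algebra.smul_def, map_div₀]
    have h2 : algebraMap k κ cα * sM ^ m = algebraMap k κ cβ' * (rMid : κ) ^ (q - 1) := by
      apply mul_right_cancel₀ hsIm
      linear_combination h1
    rw [div_mul_eq_mul_div, eq_div_iff hcβ'k, mul_comm, h2]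
  have hsMR : sM ∈ R := by
    apply hcl.root_mem sM m hm
    have : sM ^ m = (cβ' / cα) • (rMid : κ) ^ (q - 1) := by
      rw [hM, smul_smul, div_mul_div_comm, mul_comm cβ' cα, div_self (mul_ne_zero hcα hcβ'0),
        one_smul]
    rw [this]
    exact R.smul_mem (R.pow_mem rMid.2 _) _
  have hsM0 : sM ≠ 0 := by
    rintro h
    rw [h, zero_pow hmne, smul_zero] at hM
    exact pow_ne_zero _ hrM hM
  -- the fourth root is a constant multiple of `sM * sZ`
  have hsMZ0 : sM * sZ ≠ 0 := mul_ne_zero hsM0 hsZ0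
  have hsMm : sM ^ m ≠ 0 := pow_ne_zero _ hsM0
  have hsZm : sZ ^ m ≠ 0 := pow_ne_zero _ hsZ0
  obtain ⟨d, hd⟩ := hcl.root_const ((yβ₂ : κ) / (sM * sZ)) m (cα * cα' / (cβ' * cβ)) hm (by
    have h1 : cβ • (yβ₂ : κ) ^ m = ((cα / cβ') • sM ^ m) * (cα' • sZ ^ m) := by
      rw [hβ₂, hM, hZ]
    rw [Algebra.smul_def, Algebra.smul_def, Algebra.smul_def, map_div₀] at h1
    rw [div_pow, mul_pow, map_div₀, map_mul, map_mul,
      div_eq_div_iff (mul_ne_zero hsMm hsZm) (mul_ne_zero hcβ'k hcβk)]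
    have h2 : algebraMap k κ cβ' * (algebraMap k κ cβ * (yβ₂ : κ) ^ m) =
        algebraMap k κ cα * sM ^ m * (algebraMap k κ cα' * sZ ^ m) := by
      rw [h1]
      field_simp
    linear_combination h2)
  have hyβ₂ : (yβ₂ : κ) = d • (sM * sZ) := by
    rw [Algebra.smul_def, ← hd, div_mul_cancel₀ _ hsMZ0]
  have hyβ₂0 : (yβ₂ : κ) ≠ 0 := by
    intro h
    rw [h, zero_pow hmne, smul_zero] at hβ₂
    exact mul_ne_zero (pow_ne_zero _ hrM) hrZ hβ₂.symm
  have hd0 : d ≠ 0 := by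
    rintro rfl
    rw [zero_smul] at hyβ₂
    exact hyβ₂0 hyβ₂
  -- elements of `R`
  set sI' : R := ⟨sI, hsIR⟩ with hsI'
  set sM' : R := ⟨sM, hsMR⟩ with hsM'
  set sZ' : R := ⟨sZ, hsZR⟩ with hsZ'
  have e1 : yα₁ = sM' * sI' := Subtype.ext hMI.symm
  have e2 : yβ₂ = d • (sM' * sZ') := Subtype.ext hyβ₂
  have e3 : ∀ i, e' i yα₂ = e i sZ' ^ q := by
    intro i
    have h := hFre i sZ' (by show Fr sZ ∈ R; rw [hFsZ]; exact yα₂.2)
    rw [← h]
    congr 1
    exact Subtype.ext hFsZ.symm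
  have e4 : ∀ i, e' i yβ₁ = e i sI' ^ q := by
    intro i
    have h := hFre i sI' (by show Fr sI ∈ R; rw [hFsI]; exact yβ₁.2)
    rw [← h]
    congr 1
    exact Subtype.ext hFsI.symm
  have e5 : rInf = cβ' • sI' ^ m := Subtype.ext hI
  have hA0 : ∀ i, e i sI' ≠ 0 := by
    intro i h
    apply hInf0 i
    rw [e5, map_smul, map_pow, h, zero_pow hmne, smul_zero]
  have hcore : ∀ i, e i sI' ^ (q + 1) = (1 * d) * e i sZ' ^ (q + 1) ∧
      e i sM' ^ (q + 1) * (1 * d) ^ q = 1 ^ (q + 1) * e i sI' ^ ((q - 1) * (q + 1)) := by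
    intro i
    refine tor_core q hq (e i sI') (e i sM') (e i sZ') 1 d (hA0 i) ?_ ?_
    · have h := hgα i
      rw [e1, map_mul, e3] at h
      rw [one_mul, mul_comm]
      exact h
    · have h := hgβ i
      rw [e4, e2, map_smul, map_mul, smul_eq_mul] at h
      rw [h]
      ring
  -- the output
  refine ⟨cβ' ^ ((q - 1) * (q + 1)), (cα / cβ') ^ (q + 1) / (d ^ q) ^ m,
    cα' ^ ((q - 1) * (q + 1)) / (d ^ (q - 1)) ^ m,
    sI' ^ ((q - 1) * (q + 1)), d ^ q • sM' ^ (q + 1), d ^ (q - 1) • sZ' ^ ((q - 1) * (q + 1)),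
    pow_ne_zero _ hcβ'0, ?_, ?_, ?_, ?_, ?_, fun i => ⟨?_, ?_, ?_⟩⟩
  · exact div_ne_zero (pow_ne_zero _ (div_ne_zero hcα hcβ'0)) (pow_ne_zero _ (pow_ne_zero _ hd0))
  · exact div_ne_zero (pow_ne_zero _ hcα'0) (pow_ne_zero _ (pow_ne_zero _ hd0))
  · show (rInf : κ) ^ ((q - 1) * (q + 1)) = cβ' ^ ((q - 1) * (q + 1)) • (sI ^ ((q - 1) * (q + 1))) ^ m
    rw [hI, smul_pow, ← pow_mul, ← pow_mul, mul_comm m]
  · show (rMid : κ) ^ ((q - 1) * (q + 1)) =
      ((cα / cβ') ^ (q + 1) / (d ^ q) ^ m) • (d ^ q • sM ^ (q + 1)) ^ m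
    rw [pow_mul, hM, smul_pow, smul_pow, smul_smul, div_mul_cancel₀ _ (pow_ne_zero _
      (pow_ne_zero _ hd0)), ← pow_mul, ← pow_mul, mul_comm m]
  · show (rZero : κ) ^ ((q - 1) * (q + 1)) =
      (cα' ^ ((q - 1) * (q + 1)) / (d ^ (q - 1)) ^ m) • (d ^ (q - 1) • sZ ^ ((q - 1) * (q + 1))) ^ m
    rw [hZ, smul_pow, smul_pow, smul_smul, div_mul_cancel₀ _ (pow_ne_zero _
      (pow_ne_zero _ hd0)), ← pow_mul, ← pow_mul, mul_comm m]
  · rw [map_pow]
    exact pow_ne_zero _ (hA0 i)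
  · rw [map_pow, map_smul, map_pow, smul_eq_mul]
    have h := (hcore i).2
    rw [one_mul, one_pow, one_mul] at h
    rw [← h]
    ring
  · rw [map_smul, map_pow, smul_eq_mul, map_smul, map_pow, smul_eq_mul]
    have h1 := (hcore i).1
    have h2 := (hcore i).2
    rw [one_mul] at h1
    rw [one_mul, one_pow, one_mul] at h2
    have hE : e i sI' ^ ((q - 1) * (q + 1)) = d ^ (q - 1) * e i sZ' ^ ((q - 1) * (q + 1)) := by
      rw [mul_comm (q - 1) (q + 1), pow_mul, h1, mul_pow, ← pow_mul]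
    rw [mul_comm (d ^ q), h2, hE]

end Main

end Fermat.Agent.S36lib

end
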