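/-
Item 83 (S36), block TOR, piece T-INST (helper6): the concrete inputs of `abel_tor`
(`S36lib/Tor.lean`) which live on the residue function field `Fk = modularFunctionFieldFullC k N`
and its affine ring `affRing Q` (functions regular outside one place `Q`).

* `torClosed_affRing`   : `TorClosed K (affRing Q)` for every function field with `RRBase`
  (`root_mem` by orders, `root_const` by "no pole ⇒ constant").
* `torFr k q N : Fk ≃+* Fk`, the coefficientwise Frobenius (`torFr_apply : torFr x = frobK • x`),
  with `torFr_hFrR` (`Fr x ∈ affRing Q ↔ x ∈ affRing Q`, `Q = infPlaceC k N`),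
  `torFr_hFrk` (constants are hit), and the evaluation rule `torFr_hFre`:
  if `e' = e ∘ φ` (`φ = affFrobFk`, the `k`-linear Frobenius `x ↦ x(X^q)`), then
  `e' (Fr r) = (e r)^q`.
No sorry.
-/
import Mathlib
import Fermat.Agent.S36lib.Tor
import Fermat.Agent.S34lib.AffRing
import Fermat.Agent.S34lib.AffFrob

set_option autoImplicit false
set_option linter.unusedSectionVars false

noncomputable section

namespace Fermat.Agent.S36lib

open AlgebraicCurve ModularCurve Fermat.Agent.S37lib Fermat.Agent.RRlib Fermat.Agent.S34lib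

/-! ### (a) the affine ring is closed under roots -/

section Abstract

variable {K F : Type*} [Field K] [Field F] [Algebra K F]

/-- `ord_v (f^n) = n · ord_v f` -/
theorem torInst_ord_pow (v : Place K F) (f : F) (n : ℕ) : v.ord (f ^ n) = (n : ℤ) * v.ord f := by
  rcases eq_or_ne f 0 with rfl | hf
  · rcases Nat.eq_zero_or_pos n with rfl | hn
    · simp [Place.ord_one]
    · rw [zero_pow hn.ne', Place.ord_zero, mul_zero]
  · induction n with
    | zero => simp [Place.ord_one]
    | succ n ih =>
      rw [pow_succ, v.ord_mul (pow_ne_zero n hf) hf, ih]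
      push_cast
      ring

/-- the order of a root: `0 ≤ ord_v (s^n)`, `0 < n` ⟹ `0 ≤ ord_v s` -/
theorem torInst_ord_nonneg_of_pow (v : Place K F) (s : F) (n : ℕ) (hn : 0 < n)
    (h : 0 ≤ v.ord (s ^ n)) : 0 ≤ v.ord s := by
  rw [torInst_ord_pow] at h
  have hn' : (0 : ℤ) < (n : ℤ) := by exact_mod_cast hn
  exact nonneg_of_mul_nonneg_right h hn'

/-- **T-INST (a).**  The affine ring `affRing Q` of a function field satisfies the two closedness
hypotheses of `abel_tor`. -/
theorem torClosed_affRing [RRBase K F] (Q : Place K F) : TorClosed K (affRing Q) where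
  root_mem := by
    intro s n hn hs v hv
    exact torInst_ord_nonneg_of_pow v s n hn (hs v hv)
  root_const := by
    intro s n c hn hs
    have h : ∀ v : Place K F, 0 ≤ v.ord s := by
      intro v
      apply torInst_ord_nonneg_of_pow v s n hn
      rw [hs]
      exact (Fermat.Agent.S24lib.ffOrd_algebraMap v c).ge
    obtain ⟨d, hd⟩ := RRBase.const_of_forall_ord_nonneg (K := K) s h
    exact ⟨d, hd.symm⟩

/-- **T-INST (a), generic form**: the same for every subalgebra `B` with `B = ⋃ₐ L(aQ)`
(the field `GlueData.B` of `S34lib`, via `GlueData.mem_B`). -/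
theorem torClosed_of_mem_iff [RRBase K F] (Q : Place K F) (B : Subalgebra K F)
    (hB : ∀ x : F, x ∈ B ↔
      ∃ a : ℕ, x ∈ riemannRochSpace (K := K) (Finsupp.single Q (a : ℤ))) :
    TorClosed K B := by
  have hBa : ∀ x : F, x ∈ B ↔ x ∈ affRing Q := fun x => (hB x).trans mem_affRing_iff_rr.symm
  have h := torClosed_affRing (K := K) Q
  refine ⟨fun s n hn hs => ?_, h.root_const⟩
  rw [hBa] at hs ⊢
  exact h.root_mem s n hn hs

end Abstract

/-! ### (b) the coefficientwise Frobenius -/

section Frob

variable (k : Type) [Field k] (q : ℕ) [Fact q.Prime] [CharP k q] [PerfectRing k q] [NeZero q]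
  (N : ℕ) [NeZero N]

/-- the coefficientwise Frobenius of `F_{N,k}` as a ring automorphism -/
def torFr : modularFunctionFieldFullC k N ≃+* modularFunctionFieldFullC k N :=
  coeffRingAutC k N (frobeniusEquiv k q)

theorem torFr_apply (x : modularFunctionFieldFullC k N) :
    torFr k q N x = frobK k q N • x := rfl

theorem torFr_symm_apply (x : modularFunctionFieldFullC k N) :
    (torFr k q N).symm x = (frobK k q N)⁻¹ • x := by
  apply (torFr k q N).injective
  rw [RingEquiv.apply_symm_apply, torFr_apply, smul_inv_smul]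

/-- the defining property of `affRing (infPlaceC k N)` in the form used by `AffFrob.lean` -/
theorem torInst_hB (x : modularFunctionFieldFullC k N) :
    x ∈ affRing (infPlaceC k N) ↔
      ∃ a : ℕ, x ∈ riemannRochSpace (K := k) (Finsupp.single (infPlaceC k N) (a : ℤ)) :=
  mem_affRing_iff_rr

/-- **T-INST (b), `hFrR`.** -/
theorem torFr_hFrR (x : modularFunctionFieldFullC k N) :
    torFr k q N x ∈ affRing (infPlaceC k N) ↔ x ∈ affRing (infPlaceC k N) := by
  constructor
  · intro h
    have h1 := frobK_inv_smul_mem k q N (affRing (infPlaceC k N)) (torInst_hB k N) h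
    rwa [torFr_apply, inv_smul_smul] at h1
  · intro h
    exact frobK_smul_mem k q N (affRing (infPlaceC k N)) (torInst_hB k N) h

/-- **T-INST (b), `hFrk`.** -/
theorem torFr_hFrk (c : k) :
    ∃ c' : k, torFr k q N (algebraMap k (modularFunctionFieldFullC k N) c')
      = algebraMap k (modularFunctionFieldFullC k N) c := by
  refine ⟨(frobeniusEquiv k q).symm c, ?_⟩
  show coeffRingAutC k N (frobeniusEquiv k q) _ = _
  rw [coeffRingAutC_algebraMap, RingEquiv.apply_symm_apply]

/-- `Fr` on constants: `Fr c = c^q` -/
theorem torFr_algebraMap (c : k) :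
    torFr k q N (algebraMap k (modularFunctionFieldFullC k N) c)
      = algebraMap k (modularFunctionFieldFullC k N) (c ^ q) := by
  show coeffRingAutC k N (frobeniusEquiv k q) _ = _
  rw [coeffRingAutC_algebraMap, frobeniusEquiv_apply, frobenius_def]

/-- `φ (Fr x) = x^q`: the `k`-linear Frobenius after the coefficient Frobenius is the `q`-th
power. -/
theorem torFr_affFrobFk (x : modularFunctionFieldFullC k N) :
    affFrobFk k q N (torFr k q N x) = x ^ q := by
  rw [affFrobFk_eq_pow, torFr_apply, inv_smul_smul]

/-- **T-INST (b), `hFre`.**  If the points `e' i` are the Frobenius twists `e i ∘ φ` of the points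
`e i` of the affine ring, then `e' i (Fr r) = (e i r)^q`. -/
theorem torFr_hFre {ι : Type*}
    (e e' : ι → affRing (infPlaceC k N) →ₐ[k] k)
    (he : ∀ i (r : affRing (infPlaceC k N)),
      e' i r = e i (affFrob k q N (affRing (infPlaceC k N)) (torInst_hB k N) r))
    (i : ι) (r : affRing (infPlaceC k N))
    (h : torFr k q N (r : modularFunctionFieldFullC k N) ∈ affRing (infPlaceC k N)) :
    e' i ⟨torFr k q N (r : modularFunctionFieldFullC k N), h⟩ = e i r ^ q := by
  rw [he, ← map_pow]
  congr 1
  apply Subtype.ext
  rw [coe_affFrob, SubmonoidClass.coe_pow]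
  exact torFr_affFrobFk k q N (r : modularFunctionFieldFullC k N)

/-- **`hFrR`, generic form** (for `GlueData.B`). -/
theorem torFr_hFrR_of_mem_iff (B : Subalgebra k (modularFunctionFieldFullC k N))
    (hB : ∀ x : modularFunctionFieldFullC k N, x ∈ B ↔
      ∃ a : ℕ, x ∈ riemannRochSpace (K := k) (Finsupp.single (infPlaceC k N) (a : ℤ)))
    (x : modularFunctionFieldFullC k N) :
    torFr k q N x ∈ B ↔ x ∈ B := by
  constructor
  · intro h
    have h1 := frobK_inv_smul_mem k q N B hB h
    rwa [torFr_apply, inv_smul_smul] at h1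
  · intro h
    exact frobK_smul_mem k q N B hB h

/-- **`hFre`, generic form**: the hypothesis is the relation `X.e₂ i r = X.e₁ i ⟨φ r, _⟩` of
`graphs_glueData_frobK` (with `φK = affFrobFk k q N`). -/
theorem torFr_hFre_of_glue {ι : Type*} (B : Subalgebra k (modularFunctionFieldFullC k N))
    (e e' : ι → B →ₐ[k] k)
    (he : ∀ i (r : B) (h : affFrobFk k q N (r : modularFunctionFieldFullC k N) ∈ B),
      e' i r = e i ⟨affFrobFk k q N (r : modularFunctionFieldFullC k N), h⟩)
    (i : ι) (r : B) (h : torFr k q N (r : modularFunctionFieldFullC k N) ∈ B) :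
    e' i ⟨torFr k q N (r : modularFunctionFieldFullC k N), h⟩ = e i r ^ q := by
  have hpow : affFrobFk k q N (torFr k q N (r : modularFunctionFieldFullC k N)) ∈ B := by
    rw [torFr_affFrobFk]
    exact B.pow_mem r.2 q
  rw [he i ⟨_, h⟩ hpow, ← map_pow]
  congr 1
  apply Subtype.ext
  rw [SubmonoidClass.coe_pow]
  exact torFr_affFrobFk k q N (r : modularFunctionFieldFullC k N)

end Frob

end Fermat.Agent.S36lib

end
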