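import Mathlib
import Fermat.Agent.S36lib.D1Dedekind
import Fermat.Agent.S36lib.D1DedekindAbs
import Fermat.Agent.S36lib.D1Level
import Fermat.Agent.S36lib.D1NoethM
import Fermat.Agent.S36lib.RedMem
import Fermat.Agent.S36lib.SumTab
import Fermat.Agent.S36lib.TheSetup
import Fermat.Agent.S36lib.TorInst
import Fermat.Agent.S36lib.ZeroSide
import Fermat.Agent.S34lib.AffFrob

/-!
# Item 83 (S36), piece D1-Q, concrete part 2 (helper27): the Dedekind ranges for `B_{D1}`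

`S₁ = nodeSetupM A M' q … R hR (vmidSV …) hiMid hoMid` (level `M' q²`, affine ring `B_{D1}`),
`R' ` a constant reduction of level `M'`, `B' = d1lRing A R'` (helper28), `C = affRing ∞̄'`.

* `d1q_red_mem_level`: RED-MEM at level `M'`: `red' (B') ⊆ C`;
* `d1qRed : B' →+* κ'`, `d1qPi1, d1qPi3 : B' →+* S₁.B` (`π₁`, `π₃` on the affine rings);
* the tables `red_∞ ∘ π₁ = red'`, `red_mid ∘ π₁ = red'`, `red_0 ∘ π₃ = red'`;
* `d1q_surj_inf/mid/zero`: every `c ∈ C` is a reduction of an element of `B_{D1}`;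
* `d1q_main_inf`, `d1q_main_mid`, `d1q_main_zero`: **D1-Q**: if `B_{D1}` is integral over
  `π₁ (B')` (resp. `π₃ (B')` for `v = 0`), then `red_v (B_{D1}) = C`, `B_{D1} ⧸ p_v` is a Dedekind
  domain, `κ'` is its fraction field and `p_v` is not maximal.
-/

set_option autoImplicit false
set_option linter.style.haveILetI false
set_option linter.unusedSectionVars false
set_option linter.unusedVariables false
set_option synthInstance.maxHeartbeats 400000

noncomputable section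

namespace Fermat.Agent.S36lib

open ModularCurve AlgebraicCurve HahnSeries
open Fermat.Agent.S24lib Fermat.Agent.S34lib Fermat.Agent.GoodRed Fermat.Agent.GM
open Fermat.Agent.RRlib Fermat.Agent.HeckeBar Fermat.Agent.S37lib Fermat.Agent.S35lib

section Level

variable (M' q : ℕ) [NeZero M'] (A : ValuationSubring Kbar)

set_option maxHeartbeats 1600000 in
/-- **RED-MEM at level `M'`**: the reduction of a function regular off `∞'` is regular off
`∞̄'`. -/
theorem d1q_red_mem_level [Fact q.Prime] (haux : IsAuxLevel q M') (hA : A.LiesOverPrime q)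
    (R' : ConstRed A (IsLocalRing.residue A) (Fk (IsLocalRing.ResidueField A) M') (FF M'))
    (hR' : IsSeriesRed R') (x' : FF M')
    (hreg : ∀ v' : Place Kbar (FF M'), v' ≠ infPlaceBar M' → 0 ≤ v'.ord x')
    (hx : x' ∈ R'.O) :
    R'.red ⟨x', hx⟩ ∈ affRing (infPlaceC (IsLocalRing.ResidueField A) M') := by
  haveI : IsAlgClosed (IsLocalRing.ResidueField A) := isAlgClosed_residueField A
  haveI : RRHyp Kbar (FF M') := mod_rrHyp M'
  haveI : RRHyp (IsLocalRing.ResidueField A) (Fk (IsLocalRing.ResidueField A) M') :=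
    mr_rrHyp (IsLocalRing.ResidueField A) M'
  obtain ⟨r, -, hW, -, hrInf⟩ := liftInf_exists_r q haux hA hR'
  obtain ⟨m, hm⟩ : ∃ m : ℤ, m = max (-(infPlaceBar M').ord x')
    (2 * (genusFF Kbar (FF M') : ℤ)) := ⟨_, rfl⟩
  have h1 : -(infPlaceBar M').ord x' ≤ m := by rw [hm]; exact le_max_left _ _
  have h2 : 2 * (genusFF Kbar (FF M') : ℤ) ≤ m := by rw [hm]; exact le_max_right _ _
  have hxaff : x' ∈ affRing (infPlaceBar M') := mem_affRing_iff.2 hreg
  have hL : x' ∈ riemannRochSpace (K := Kbar) (Finsupp.single (infPlaceBar M') m) :=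
    affRing_mem_rr hxaff (by omega)
  have hWeq := liftInf_W_eq hW hrInf m (by omega)
  have hmem : R'.red ⟨x', hx⟩ ∈ R'.W (Finsupp.single (infPlaceBar M') m) :=
    (R'.mem_W_iff _ _).2 ⟨⟨x', hx⟩, hL, rfl⟩
  have hmem' : R'.red ⟨x', hx⟩ ∈ riemannRochSpace (K := IsLocalRing.ResidueField A)
      (Finsupp.single (infPlaceC (IsLocalRing.ResidueField A) M') m) := hWeq ▸ hmem
  exact affRing_of_mem_rr hmem'

variable {M'} {A}
variable (R' : ConstRed A (IsLocalRing.residue A) (Fk (IsLocalRing.ResidueField A) M') (FF M'))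

/-- the inclusion `B' → O'` -/
def d1qIncl : d1lRing A R' →+* R'.O where
  toFun x := ⟨((x : f0Field A M') : FF M'), ((mem_d1lRing_iff A R' x.1).1 x.2).2⟩
  map_one' := rfl
  map_mul' _ _ := rfl
  map_zero' := rfl
  map_add' _ _ := rfl

/-- the reduction `red' : B' → κ'` -/
def d1qRed : d1lRing A R' →+* Fk (IsLocalRing.ResidueField A) M' :=
  R'.red.comp (d1qIncl R')

theorem d1qRed_apply (x : d1lRing A R') :
    d1qRed R' x = R'.red ⟨((x : f0Field A M') : FF M'),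
      ((mem_d1lRing_iff A R' x.1).1 x.2).2⟩ := rfl

theorem d1q_reg_of_mem (x : d1lRing A R') (v' : Place Kbar (FF M'))
    (hv' : v' ≠ infPlaceBar M') : 0 ≤ v'.ord ((x : f0Field A M') : FF M') := by
  have h := ((mem_d1lRing_iff A R' x.1).1 x.2).1
  rw [mem_offRegular_iff] at h
  have h2 := h v' (fun hmem => hv' hmem)
  rwa [ffMem_iff_ord_nonneg] at h2

end Level

section Setup

variable (A : ValuationSubring Kbar) (M' q : ℕ) [NeZero M'] [NeZero q]
variable (hq : q.Prime) (hqM : ¬ q ∣ M') (hA : A.LiesOverPrime q)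
variable (R' : ConstRed A (IsLocalRing.residue A) (Fk (IsLocalRing.ResidueField A) M') (FF M'))
variable (R : ConstRed A (IsLocalRing.residue A)
      (↥(modularFunctionFieldFullC (IsLocalRing.ResidueField A) M')) (FF (M' * q * q)))
    (hR : IsSeriesRed R) (vMid : SeriesVal A (M' * q * q))
    (hiMid : ∀ (x : FF (M' * q * q)) (hx : x ∈ vMid.O), x ∈ f0Field A (M' * q * q) →
      vMid.red ⟨x, hx⟩ ∈ modularFunctionFieldFullC (IsLocalRing.ResidueField A) M')
    (hoMid : ∀ y ∈ modularFunctionFieldFullC (IsLocalRing.ResidueField A) M',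
      ∃ (x : FF (M' * q * q)) (hx : x ∈ vMid.O), x ∈ f0Field A (M' * q * q) ∧
        vMid.red ⟨x, hx⟩ = y)

include hq hA hR in
/-- the table of `π₁` at `∞`: `red_∞ (π₁ g) = red' g` -/
theorem d1q_tab_pi1_inf (hR' : IsSeriesRed R') {g : FF M'} (hg : g ∈ R'.O) :
    ∃ h : ecPi1 M' q g ∈ R.O, R.red ⟨ecPi1 M' q g, h⟩ = R'.red ⟨g, hg⟩ :=
  sumi_pi1_mem_red M' q hR' hR (vri_hfrac M' q hq A hA) hg

include hq hA hR in
/-- the table of `π₃` at `∞`: `red_∞ (π₃ g) = (red' g)(X^{q²})` -/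
theorem d1q_tab_pi3_inf (hR' : IsSeriesRed R') {g : FF M'} (hg : g ∈ R'.O) :
    ∃ h : ecPi3 M' q g ∈ R.O,
      ((R.red ⟨ecPi3 M' q g, h⟩ : Fk (IsLocalRing.ResidueField A) M') :
          LaurentSeries (IsLocalRing.ResidueField A))
        = qExpand (IsLocalRing.ResidueField A) q (qExpand (IsLocalRing.ResidueField A) q
            ((R'.red ⟨g, hg⟩ : Fk (IsLocalRing.ResidueField A) M') :
              LaurentSeries (IsLocalRing.ResidueField A))) :=
  sumi_pi3_mem_red M' q hR' hR (vri_hfrac M' q hq A hA) hg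

/-- `w_{q²} (π₁ g) = π₃ g` -/
theorem d1q_alW2_pi1 (g : FF M') : alW2 M' hq hqM (ecPi1 M' q g) = ecPi3 M' q g :=
  alW2_pi1 M' hq hqM g

/-- `w_{q²} (π₃ g) = π₁ g` -/
theorem d1q_alW2_pi3 (g : FF M') : alW2 M' hq hqM (ecPi3 M' q g) = ecPi1 M' q g :=
  alW2_pi3 M' hq hqM g

/-- membership in `B_{D1}`, unfolded -/
theorem d1q_mem_B_iff (x : f0Field A (M' * q * q)) :
    x ∈ (nodeSetupM A M' q hq hqM hA R hR vMid hiMid hoMid).B ↔
      (x : FF (M' * q * q)) ∈ offRegular (M' * q * q) (s36D1 M' q hq hqM) ∧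
        (x : FF (M' * q * q)) ∈ R.O ∧ (x : FF (M' * q * q)) ∈ vMid.O ∧
        alW2 M' hq hqM (x : FF (M' * q * q)) ∈ R.O :=
  mem_nodeSetupConc_B A M' (s36D1 M' q hq hqM) q hq hA ⟨q * q, by ring⟩ R hR
    (alW2 M' hq hqM) (sconc_alW2_symm_mem A M' q hq hqM) vMid hiMid hoMid x

/-- the reduction at `∞` on `B_{D1}`, unfolded -/
theorem d1q_redInf_eq (x : (nodeSetupM A M' q hq hqM hA R hR vMid hiMid hoMid).B) :
    (nodeSetupM A M' q hq hqM hA R hR vMid hiMid hoMid).redInf x =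
      R.red ⟨((x : f0Field A (M' * q * q)) : FF (M' * q * q)),
        ((d1q_mem_B_iff A M' q hq hqM hA R hR vMid hiMid hoMid x.1).1 x.2).2.1⟩ := rfl

/-- the reduction at `0` on `B_{D1}`, unfolded -/
theorem d1q_redZero_eq (x : (nodeSetupM A M' q hq hqM hA R hR vMid hiMid hoMid).B) :
    (nodeSetupM A M' q hq hqM hA R hR vMid hiMid hoMid).redZero x =
      R.red ⟨alW2 M' hq hqM ((x : f0Field A (M' * q * q)) : FF (M' * q * q)),
        ((d1q_mem_B_iff A M' q hq hqM hA R hR vMid hiMid hoMid x.1).1 x.2).2.2.2⟩ := rfl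

/-- the reduction at `mid` on `B_{D1}`, unfolded (as a series) -/
theorem d1q_coe_redMid_eq (x : (nodeSetupM A M' q hq hqM hA R hR vMid hiMid hoMid).B) :
    (((nodeSetupM A M' q hq hqM hA R hR vMid hiMid hoMid).redMid x :
        Fk (IsLocalRing.ResidueField A) M') : LaurentSeries (IsLocalRing.ResidueField A)) =
      vMid.red ⟨((x : f0Field A (M' * q * q)) : FF (M' * q * q)),
        ((d1q_mem_B_iff A M' q hq hqM hA R hR vMid hiMid hoMid x.1).1 x.2).2.2.1⟩ := rfl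

/-- `π₃` on `F0` -/
def d1qPi3F : f0Field A M' →+* f0Field A (M' * q * q) where
  toFun := fun g => ⟨ecPi3 M' q (g : FF M'), ecPi3_mem_f0Field A g.2⟩
  map_one' := Subtype.ext (map_one (ecPi3 M' q))
  map_mul' := fun _ _ => Subtype.ext (map_mul (ecPi3 M' q) _ _)
  map_zero' := Subtype.ext (map_zero (ecPi3 M' q))
  map_add' := fun _ _ => Subtype.ext (map_add (ecPi3 M' q) _ _)

theorem coe_d1qPi3F (g : f0Field A M') :
    ((d1qPi3F A M' q g : f0Field A (M' * q * q)) : FF (M' * q * q)) = ecPi3 M' q (g : FF M') :=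
  rfl

/-- `π₁ (B') ⊆ B_{D1}` -/
theorem d1q_pi1_mem_B (hR' : IsSeriesRed R')
    (hT₂ : ∀ g ∈ f0Field A M', g ∈ R'.O → ecPi1 M' q g ∈ vMid.O) (x : d1lRing A R') :
    d1aPi1 A M' q (x : f0Field A M') ∈
      (nodeSetupM A M' q hq hqM hA R hR vMid hiMid hoMid).B := by
  have hxO : ((x : f0Field A M') : FF M') ∈ R'.O := ((mem_d1lRing_iff A R' x.1).1 x.2).2
  rw [d1q_mem_B_iff, coe_d1aPi1]
  refine ⟨?_, ?_, ?_, ?_⟩
  · exact s36D1_pi1 M' q hq hqM _ (d1q_reg_of_mem R' x)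
  · obtain ⟨h, -⟩ := d1q_tab_pi1_inf A M' q hq hA R' R hR hR' hxO
    exact h
  · exact hT₂ _ (x : f0Field A M').2 hxO
  · obtain ⟨h, -⟩ := d1q_tab_pi3_inf A M' q hq hA R' R hR hR' hxO
    rw [d1q_alW2_pi1]
    exact h

/-- `π₃ (B') ⊆ B_{D1}` -/
theorem d1q_pi3_mem_B (hR' : IsSeriesRed R')
    (hT₂' : ∀ g ∈ f0Field A M', g ∈ R'.O → ecPi3 M' q g ∈ vMid.O) (x : d1lRing A R') :
    d1qPi3F A M' q (x : f0Field A M') ∈
      (nodeSetupM A M' q hq hqM hA R hR vMid hiMid hoMid).B := by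
  have hxO : ((x : f0Field A M') : FF M') ∈ R'.O := ((mem_d1lRing_iff A R' x.1).1 x.2).2
  rw [d1q_mem_B_iff, coe_d1qPi3F]
  refine ⟨?_, ?_, ?_, ?_⟩
  · exact s36D1_pi3 M' q hq hqM _ (d1q_reg_of_mem R' x)
  · obtain ⟨h, -⟩ := d1q_tab_pi3_inf A M' q hq hA R' R hR hR' hxO
    exact h
  · exact hT₂' _ (x : f0Field A M').2 hxO
  · obtain ⟨h, -⟩ := d1q_tab_pi1_inf A M' q hq hA R' R hR hR' hxO
    rw [d1q_alW2_pi3]
    exact h

/-- **`π₁ : B' → B_{D1}`** -/
def d1qPi1 (hR' : IsSeriesRed R')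
    (hT₂ : ∀ g ∈ f0Field A M', g ∈ R'.O → ecPi1 M' q g ∈ vMid.O) :
    d1lRing A R' →+* (nodeSetupM A M' q hq hqM hA R hR vMid hiMid hoMid).B :=
  ((d1aPi1 A M' q).comp (d1lRing A R').subtype).codRestrict
    (nodeSetupM A M' q hq hqM hA R hR vMid hiMid hoMid).B
    (d1q_pi1_mem_B A M' q hq hqM hA R' R hR vMid hiMid hoMid hR' hT₂)

/-- **`π₃ : B' → B_{D1}`** -/
def d1qPi3 (hR' : IsSeriesRed R')
    (hT₂' : ∀ g ∈ f0Field A M', g ∈ R'.O → ecPi3 M' q g ∈ vMid.O) :
    d1lRing A R' →+* (nodeSetupM A M' q hq hqM hA R hR vMid hiMid hoMid).B :=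
  ((d1qPi3F A M' q).comp (d1lRing A R').subtype).codRestrict
    (nodeSetupM A M' q hq hqM hA R hR vMid hiMid hoMid).B
    (d1q_pi3_mem_B A M' q hq hqM hA R' R hR vMid hiMid hoMid hR' hT₂')

theorem coe_d1qPi1 (hR' : IsSeriesRed R')
    (hT₂ : ∀ g ∈ f0Field A M', g ∈ R'.O → ecPi1 M' q g ∈ vMid.O) (x : d1lRing A R') :
    (((d1qPi1 A M' q hq hqM hA R' R hR vMid hiMid hoMid hR' hT₂ x :
        (nodeSetupM A M' q hq hqM hA R hR vMid hiMid hoMid).B) : f0Field A (M' * q * q)) :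
      FF (M' * q * q)) = ecPi1 M' q ((x : f0Field A M') : FF M') := rfl

theorem coe_d1qPi3 (hR' : IsSeriesRed R')
    (hT₂' : ∀ g ∈ f0Field A M', g ∈ R'.O → ecPi3 M' q g ∈ vMid.O) (x : d1lRing A R') :
    (((d1qPi3 A M' q hq hqM hA R' R hR vMid hiMid hoMid hR' hT₂' x :
        (nodeSetupM A M' q hq hqM hA R hR vMid hiMid hoMid).B) : f0Field A (M' * q * q)) :
      FF (M' * q * q)) = ecPi3 M' q ((x : f0Field A M') : FF M') := rfl

set_option maxHeartbeats 1600000 in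
/-- **`B_{D1}` is integral over `π₁ (B')`** (from (P4), via helper28's `d1a_coeff_mem`) -/
theorem d1q_pi1_isIntegral (hR' : IsSeriesRed R')
    (hT₂ : ∀ g ∈ f0Field A M', g ∈ R'.O → ecPi1 M' q g ∈ vMid.O)
    (hP4 : ∀ b : FF (M' * q * q), b ∈ f0Field A (M' * q * q) → b ∈ R.O → b ∈ vMid.O →
      alW2 M' hq hqM b ∈ R.O →
      ∃ p : Polynomial (FF M'), p.Monic ∧ (∀ n, p.coeff n ∈ R'.O) ∧
        Polynomial.eval₂ (ecPi1 M' q) b p = 0) :
    (d1qPi1 A M' q hq hqM hA R' R hR vMid hiMid hoMid hR' hT₂).IsIntegral := by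
  classical
  intro b
  letI algFF : Algebra (FF M') (FF (M' * q * q)) := (ecPi1 M' q).toAlgebra
  haveI := d1h_algIsIntegral M' q
  have hbint : IsIntegral (FF M') ((b : f0Field A (M' * q * q)) : FF (M' * q * q)) :=
    Algebra.IsIntegral.isIntegral _
  have hmm : (minpoly (FF M') ((b : f0Field A (M' * q * q)) : FF (M' * q * q))).Monic :=
    minpoly.monic hbint
  set ι : d1lRing A R' →+* FF M' :=
    (algebraMap (f0Field A M') (FF M')).comp (d1lRing A R').subtype with hι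
  have hlift : minpoly (FF M') ((b : f0Field A (M' * q * q)) : FF (M' * q * q))
      ∈ Polynomial.lifts ι := by
    rw [Polynomial.lifts_iff_coeff_lifts]
    intro n
    obtain ⟨c, hc, hc'⟩ := d1a_coeff_mem A M' q hq hqM R' R.O vMid.O
      ((SeriesVal.ofConstRed R).comap (alW2 M' hq hqM)).O hP4 (b : f0Field A (M' * q * q)) b.2 n
    exact ⟨⟨c, hc⟩, hc'⟩
  obtain ⟨m0, hm0, -, hm0m⟩ := Polynomial.lifts_and_natDegree_eq_and_monic hlift hmm
  refine ⟨m0, hm0m, ?_⟩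
  set j : (nodeSetupM A M' q hq hqM hA R hR vMid hiMid hoMid).B →+* FF (M' * q * q) :=
    (algebraMap (f0Field A (M' * q * q)) (FF (M' * q * q))).comp
      (nodeSetupM A M' q hq hqM hA R hR vMid hiMid hoMid).B.subtype with hj
  have hjinj : Function.Injective j := fun x y h => Subtype.ext (Subtype.ext h)
  apply hjinj
  rw [map_zero, Polynomial.hom_eval₂]
  have hcomp : j.comp (d1qPi1 A M' q hq hqM hA R' R hR vMid hiMid hoMid hR' hT₂)
      = (ecPi1 M' q).comp ι := rfl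
  rw [hcomp, ← Polynomial.eval₂_map, hm0]
  exact minpoly.aeval (FF M') _

end Setup

end Fermat.Agent.S36lib

end
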