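import Mathlib
import Fermat.Agent.S36lib.D1DedekindConc

/-!
# Item 83 (S36), piece D1-Q, concrete part 3 (helper27): **D1-Q for `nodeSetupM`**

`S₁ = nodeSetupM A M' q … R hR vMid hiMid hoMid` (level `M' q²`, affine ring `B_{D1}`),
`C = affRing ∞̄'` (level `M'`, over the residue field `k`).

* the tables `red_∞ ∘ π₁ = red'`, `red_mid ∘ π₁ = red'`, `red_0 ∘ π₃ = red'`,
  `red_0 ∘ π₁ = Frob² ∘ red'` on `B' = d1lRing A R'`;
* `d1q_hmem_inf/mid/zero`: RED-MEM, `red_v (B_{D1}) ⊆ C` (integrality of `B_{D1}` over `π₁ B'`);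
* `d1q_hsurj_inf/mid/zero`: every `c ∈ C` is `red_v z`, `z ∈ B_{D1}` (`z = π₁ x'`, `π₃ x'`);
* **`d1q_main_inf`, `d1q_main_mid`, `d1q_main_zero`**: `red_v (B_{D1})` is a Dedekind domain,
  `B_{D1} ⧸ p_v` is a Dedekind domain, `κ'` is the fraction field of `red_v (B_{D1})`, `p_v` is not
  maximal.
-/

set_option autoImplicit false
set_option linter.style.haveILetI false
set_option linter.unusedSectionVars false
set_option linter.unusedVariables false
set_option synthInstance.maxHeartbeats 400000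

noncomputable section

namespace Fermat.Agent.S36lib

open ModularCurve AlgebraicCurve HahnSeries
open Fermat.Agent.S24lib Fermat.Agent.S34lib Fermat.Agent.GoodRed Fermat.Agent.GM
open Fermat.Agent.RRlib Fermat.Agent.HeckeBar Fermat.Agent.S37lib Fermat.Agent.S35lib

section Setup

variable (A : ValuationSubring Kbar) (M' q : ℕ) [NeZero M'] [NeZero q]
variable (hq : q.Prime) (hqM : ¬ q ∣ M') (hA : A.LiesOverPrime q)
variable (R' : ConstRed A (IsLocalRing.residue A) (Fk (IsLocalRing.ResidueField A) M') (FF M'))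
variable (R : ConstRed A (IsLocalRing.residue A)
      (↥(modularFunctionFieldFullC (IsLocalRing.ResidueField A) M')) (FF (M' * q * q)))
    (hR : IsSeriesRed R) (vMid : SeriesVal A (M' * q * q))
    (hiMid : ∀ (x : FF (M' * q * q)) (hx : x ∈ vMid.O), x ∈ f0Field A (M' * q * q) →
      vMid.red ⟨x, hx⟩ ∈ modularFunctionFieldFullC (IsLocalRing.ResidueField A) M')
    (hoMid : ∀ y ∈ modularFunctionFieldFullC (IsLocalRing.ResidueField A) M',
      ∃ (x : FF (M' * q * q)) (hx : x ∈ vMid.O), x ∈ f0Field A (M' * q * q) ∧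
        vMid.red ⟨x, hx⟩ = y)

set_option maxHeartbeats 1600000 in
/-- the table `red_∞ ∘ π₁ = red'` on `B'` -/
theorem d1q_redInf_pi1 (hR' : IsSeriesRed R')
    (hT₂ : ∀ g ∈ f0Field A M', g ∈ R'.O → ecPi1 M' q g ∈ vMid.O) (x : d1lRing A R') :
    (nodeSetupM A M' q hq hqM hA R hR vMid hiMid hoMid).redInf
      (d1qPi1 A M' q hq hqM hA R' R hR vMid hiMid hoMid hR' hT₂ x) = d1qRed R' x := by
  obtain ⟨h, hred⟩ := d1q_tab_pi1_inf A M' q hq hA R' R hR hR'
    ((mem_d1lRing_iff A R' x.1).1 x.2).2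
  rw [d1q_redInf_eq, d1qRed_apply]
  exact hred

set_option maxHeartbeats 1600000 in
/-- the table `red_mid ∘ π₁ = red'` on `B'` -/
theorem d1q_redMid_pi1 (hR' : IsSeriesRed R')
    (hT₂ : ∀ (g : FF M') (hg : g ∈ R'.O), ∃ h : ecPi1 M' q g ∈ vMid.O,
      vMid.red ⟨ecPi1 M' q g, h⟩ = ((R'.red ⟨g, hg⟩ : Fk (IsLocalRing.ResidueField A) M') :
        LaurentSeries (IsLocalRing.ResidueField A))) (x : d1lRing A R') :
    (nodeSetupM A M' q hq hqM hA R hR vMid hiMid hoMid).redMid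
      (d1qPi1 A M' q hq hqM hA R' R hR vMid hiMid hoMid hR'
        (fun g _ hg => (hT₂ g hg).1) x) = d1qRed R' x := by
  obtain ⟨h, hred⟩ := hT₂ _ ((mem_d1lRing_iff A R' x.1).1 x.2).2
  apply Subtype.ext
  rw [d1q_coe_redMid_eq, d1qRed_apply]
  exact hred

set_option maxHeartbeats 1600000 in
/-- the table `red_0 ∘ π₃ = red'` on `B'` -/
theorem d1q_redZero_pi3 (hR' : IsSeriesRed R')
    (hT₂' : ∀ g ∈ f0Field A M', g ∈ R'.O → ecPi3 M' q g ∈ vMid.O) (x : d1lRing A R') :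
    (nodeSetupM A M' q hq hqM hA R hR vMid hiMid hoMid).redZero
      (d1qPi3 A M' q hq hqM hA R' R hR vMid hiMid hoMid hR' hT₂' x) = d1qRed R' x := by
  obtain ⟨h, hred⟩ := d1q_tab_pi1_inf A M' q hq hA R' R hR hR'
    ((mem_d1lRing_iff A R' x.1).1 x.2).2
  rw [d1q_redZero_eq, d1qRed_apply, ← hred]
  congr 1
  exact Subtype.ext (d1q_alW2_pi3 M' q hq hqM _)

set_option maxHeartbeats 1600000 in
/-- the table `red_0 ∘ π₁ = Frob² ∘ red'` on `B'`, at the level of series -/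
theorem d1q_redZero_pi1 (hR' : IsSeriesRed R')
    (hT₂ : ∀ g ∈ f0Field A M', g ∈ R'.O → ecPi1 M' q g ∈ vMid.O) (x : d1lRing A R') :
    (((nodeSetupM A M' q hq hqM hA R hR vMid hiMid hoMid).redZero
      (d1qPi1 A M' q hq hqM hA R' R hR vMid hiMid hoMid hR' hT₂ x) :
        Fk (IsLocalRing.ResidueField A) M') : LaurentSeries (IsLocalRing.ResidueField A)) =
      qExpand (IsLocalRing.ResidueField A) q (qExpand (IsLocalRing.ResidueField A) q
        ((d1qRed R' x : Fk (IsLocalRing.ResidueField A) M') :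
          LaurentSeries (IsLocalRing.ResidueField A))) := by
  obtain ⟨h, hred⟩ := d1q_tab_pi3_inf A M' q hq hA R' R hR hR'
    ((mem_d1lRing_iff A R' x.1).1 x.2).2
  rw [d1q_redZero_eq, d1qRed_apply, ← hred]
  congr 2
  exact Subtype.ext (d1q_alW2_pi1 M' q hq hqM _)

/-- an element of `F0(M')` regular off `∞'` in `R'.O` lies in `B'` -/
theorem d1q_mem_d1lRing {x' : FF M'} (hxF : x' ∈ f0Field A M')
    (hreg : ∀ v' : Place Kbar (FF M'), v' ≠ infPlaceBar M' → 0 ≤ v'.ord x')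
    (hxO : x' ∈ R'.O) : (⟨x', hxF⟩ : f0Field A M') ∈ d1lRing A R' := by
  rw [mem_d1lRing_iff]
  refine ⟨?_, hxO⟩
  rw [mem_offRegular_iff]
  intro P hP
  rw [ffMem_iff_ord_nonneg]
  exact hreg P (fun h => hP (by rw [h]; exact Set.mem_singleton _))

set_option maxHeartbeats 1600000 in
include hq in
/-- **RED-MEM at `∞`**: `red_∞ (B_{D1}) ⊆ C` -/
theorem d1q_hmem_inf (haux : IsAuxLevel q M') (hR' : IsSeriesRed R')
    (hT₂ : ∀ g ∈ f0Field A M', g ∈ R'.O → ecPi1 M' q g ∈ vMid.O)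
    (hP4 : ∀ b : FF (M' * q * q), b ∈ f0Field A (M' * q * q) → b ∈ R.O → b ∈ vMid.O →
      alW2 M' hq hqM b ∈ R.O →
      ∃ p : Polynomial (FF M'), p.Monic ∧ (∀ n, p.coeff n ∈ R'.O) ∧
        Polynomial.eval₂ (ecPi1 M' q) b p = 0)
    (z : (nodeSetupM A M' q hq hqM hA R hR vMid hiMid hoMid).B) :
    (nodeSetupM A M' q hq hqM hA R hR vMid hiMid hoMid).redInf z ∈
      affRing (infPlaceC (IsLocalRing.ResidueField A) M') := by
  haveI : Fact q.Prime := ⟨hq⟩
  exact s36_red_mem_of_integral (affRing (infPlaceC (IsLocalRing.ResidueField A) M'))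
    (fun x hx => affRing_mem_of_isIntegral _ hx)
    (d1qPi1 A M' q hq hqM hA R' R hR vMid hiMid hoMid hR' hT₂)
    (d1q_pi1_isIntegral A M' q hq hqM hA R' R hR vMid hiMid hoMid hR' hT₂ hP4)
    (d1qRed R') (nodeSetupM A M' q hq hqM hA R hR vMid hiMid hoMid).redInf
    (RingHom.id _) (fun x hx => hx)
    (fun x => d1q_redInf_pi1 A M' q hq hqM hA R' R hR vMid hiMid hoMid hR' hT₂ x)
    (fun x => d1q_red_mem_level M' q A haux hA R' hR' _ (d1q_reg_of_mem R' x) _) z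

set_option maxHeartbeats 1600000 in
include hq in
/-- **RED-MEM at `mid`**: `red_mid (B_{D1}) ⊆ C` -/
theorem d1q_hmem_mid (haux : IsAuxLevel q M') (hR' : IsSeriesRed R')
    (hT₂ : ∀ (g : FF M') (hg : g ∈ R'.O), ∃ h : ecPi1 M' q g ∈ vMid.O,
      vMid.red ⟨ecPi1 M' q g, h⟩ = ((R'.red ⟨g, hg⟩ : Fk (IsLocalRing.ResidueField A) M') :
        LaurentSeries (IsLocalRing.ResidueField A)))
    (hP4 : ∀ b : FF (M' * q * q), b ∈ f0Field A (M' * q * q) → b ∈ R.O → b ∈ vMid.O →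
      alW2 M' hq hqM b ∈ R.O →
      ∃ p : Polynomial (FF M'), p.Monic ∧ (∀ n, p.coeff n ∈ R'.O) ∧
        Polynomial.eval₂ (ecPi1 M' q) b p = 0)
    (z : (nodeSetupM A M' q hq hqM hA R hR vMid hiMid hoMid).B) :
    (nodeSetupM A M' q hq hqM hA R hR vMid hiMid hoMid).redMid z ∈
      affRing (infPlaceC (IsLocalRing.ResidueField A) M') := by
  haveI : Fact q.Prime := ⟨hq⟩
  exact s36_red_mem_of_integral (affRing (infPlaceC (IsLocalRing.ResidueField A) M'))
    (fun x hx => affRing_mem_of_isIntegral _ hx)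
    (d1qPi1 A M' q hq hqM hA R' R hR vMid hiMid hoMid hR' (fun g _ hg => (hT₂ g hg).1))
    (d1q_pi1_isIntegral A M' q hq hqM hA R' R hR vMid hiMid hoMid hR'
      (fun g _ hg => (hT₂ g hg).1) hP4)
    (d1qRed R') (nodeSetupM A M' q hq hqM hA R hR vMid hiMid hoMid).redMid
    (RingHom.id _) (fun x hx => hx)
    (fun x => d1q_redMid_pi1 A M' q hq hqM hA R' R hR vMid hiMid hoMid hR' hT₂ x)
    (fun x => d1q_red_mem_level M' q A haux hA R' hR' _ (d1q_reg_of_mem R' x) _) z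

set_option maxHeartbeats 1600000 in
include hq in
/-- **RED-MEM at `0`**: `red_0 (B_{D1}) ⊆ C` (the table of `π₁` at `0` is the `q²`-Frobenius) -/
theorem d1q_hmem_zero (haux : IsAuxLevel q M') (hR' : IsSeriesRed R')
    (hT₂ : ∀ g ∈ f0Field A M', g ∈ R'.O → ecPi1 M' q g ∈ vMid.O)
    (hP4 : ∀ b : FF (M' * q * q), b ∈ f0Field A (M' * q * q) → b ∈ R.O → b ∈ vMid.O →
      alW2 M' hq hqM b ∈ R.O →
      ∃ p : Polynomial (FF M'), p.Monic ∧ (∀ n, p.coeff n ∈ R'.O) ∧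
        Polynomial.eval₂ (ecPi1 M' q) b p = 0)
    (z : (nodeSetupM A M' q hq hqM hA R hR vMid hiMid hoMid).B) :
    (nodeSetupM A M' q hq hqM hA R hR vMid hiMid hoMid).redZero z ∈
      affRing (infPlaceC (IsLocalRing.ResidueField A) M') := by
  haveI : Fact q.Prime := ⟨hq⟩
  haveI : IsAlgClosed (IsLocalRing.ResidueField A) := isAlgClosed_residueField A
  haveI : CharP (IsLocalRing.ResidueField A) q := charP_residueField hA
  haveI : PerfectRing (IsLocalRing.ResidueField A) q := inferInstance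
  refine s36_red_mem_of_integral (affRing (infPlaceC (IsLocalRing.ResidueField A) M'))
    (fun x hx => affRing_mem_of_isIntegral _ hx)
    (d1qPi1 A M' q hq hqM hA R' R hR vMid hiMid hoMid hR' hT₂)
    (d1q_pi1_isIntegral A M' q hq hqM hA R' R hR vMid hiMid hoMid hR' hT₂ hP4)
    (d1qRed R') (nodeSetupM A M' q hq hqM hA R hR vMid hiMid hoMid).redZero
    ((affFrobFk (IsLocalRing.ResidueField A) q M').toRingHom.comp
      (affFrobFk (IsLocalRing.ResidueField A) q M').toRingHom) ?_ ?_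
    (fun x => d1q_red_mem_level M' q A haux hA R' hR' _ (d1q_reg_of_mem R' x) _) z
  · intro x hx
    exact affFrobFk_mem (IsLocalRing.ResidueField A) q M' _
      (torInst_hB (IsLocalRing.ResidueField A) M')
      (affFrobFk_mem (IsLocalRing.ResidueField A) q M' _
        (torInst_hB (IsLocalRing.ResidueField A) M') hx)
  · intro x
    apply Subtype.ext
    exact d1q_redZero_pi1 A M' q hq hqM hA R' R hR vMid hiMid hoMid hR' hT₂ x

include hq in
/-- **SURJ at `∞`**: every `c ∈ C` is `red_∞ (π₁ x')` -/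
theorem d1q_hsurj_inf (haux : IsAuxLevel q M') (hR' : IsSeriesRed R')
    (hT₂ : ∀ g ∈ f0Field A M', g ∈ R'.O → ecPi1 M' q g ∈ vMid.O)
    (c : Fk (IsLocalRing.ResidueField A) M')
    (hc : c ∈ affRing (infPlaceC (IsLocalRing.ResidueField A) M')) :
    ∃ z : (nodeSetupM A M' q hq hqM hA R hR vMid hiMid hoMid).B,
      (nodeSetupM A M' q hq hqM hA R hR vMid hiMid hoMid).redInf z = c := by
  haveI : Fact q.Prime := ⟨hq⟩
  obtain ⟨x', hxF, hreg, hxO, hred⟩ := d1q_lift M' q A haux hA R' hR' c hc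
  refine ⟨d1qPi1 A M' q hq hqM hA R' R hR vMid hiMid hoMid hR' hT₂
    ⟨⟨x', hxF⟩, d1q_mem_d1lRing A M' R' hxF hreg hxO⟩, ?_⟩
  rw [d1q_redInf_pi1, d1qRed_apply]
  exact hred

include hq in
/-- **SURJ at `mid`**: every `c ∈ C` is `red_mid (π₁ x')` -/
theorem d1q_hsurj_mid (haux : IsAuxLevel q M') (hR' : IsSeriesRed R')
    (hT₂ : ∀ (g : FF M') (hg : g ∈ R'.O), ∃ h : ecPi1 M' q g ∈ vMid.O,
      vMid.red ⟨ecPi1 M' q g, h⟩ = ((R'.red ⟨g, hg⟩ : Fk (IsLocalRing.ResidueField A) M') :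
        LaurentSeries (IsLocalRing.ResidueField A)))
    (c : Fk (IsLocalRing.ResidueField A) M')
    (hc : c ∈ affRing (infPlaceC (IsLocalRing.ResidueField A) M')) :
    ∃ z : (nodeSetupM A M' q hq hqM hA R hR vMid hiMid hoMid).B,
      (nodeSetupM A M' q hq hqM hA R hR vMid hiMid hoMid).redMid z = c := by
  haveI : Fact q.Prime := ⟨hq⟩
  obtain ⟨x', hxF, hreg, hxO, hred⟩ := d1q_lift M' q A haux hA R' hR' c hc
  refine ⟨d1qPi1 A M' q hq hqM hA R' R hR vMid hiMid hoMid hR' (fun g _ hg => (hT₂ g hg).1)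
    ⟨⟨x', hxF⟩, d1q_mem_d1lRing A M' R' hxF hreg hxO⟩, ?_⟩
  rw [d1q_redMid_pi1 A M' q hq hqM hA R' R hR vMid hiMid hoMid hR' hT₂, d1qRed_apply]
  exact hred

include hq in
/-- **SURJ at `0`**: every `c ∈ C` is `red_0 (π₃ x')` -/
theorem d1q_hsurj_zero (haux : IsAuxLevel q M') (hR' : IsSeriesRed R')
    (hT₂' : ∀ g ∈ f0Field A M', g ∈ R'.O → ecPi3 M' q g ∈ vMid.O)
    (c : Fk (IsLocalRing.ResidueField A) M')
    (hc : c ∈ affRing (infPlaceC (IsLocalRing.ResidueField A) M')) :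
    ∃ z : (nodeSetupM A M' q hq hqM hA R hR vMid hiMid hoMid).B,
      (nodeSetupM A M' q hq hqM hA R hR vMid hiMid hoMid).redZero z = c := by
  haveI : Fact q.Prime := ⟨hq⟩
  obtain ⟨x', hxF, hreg, hxO, hred⟩ := d1q_lift M' q A haux hA R' hR' c hc
  refine ⟨d1qPi3 A M' q hq hqM hA R' R hR vMid hiMid hoMid hR' hT₂'
    ⟨⟨x', hxF⟩, d1q_mem_d1lRing A M' R' hxF hreg hxO⟩, ?_⟩
  rw [d1q_redZero_pi3, d1qRed_apply]
  exact hred

set_option maxHeartbeats 1600000 in
include hq in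
/-- **D1-Q at `∞`** for `nodeSetupM`: `red_∞ (B_{D1})` and `B_{D1} ⧸ p_∞` are Dedekind domains,
`κ'` is the fraction field of `red_∞ (B_{D1})`, `p_∞` is not maximal. -/
theorem d1q_main_inf (haux : IsAuxLevel q M') (hR' : IsSeriesRed R')
    (hT₂ : ∀ g ∈ f0Field A M', g ∈ R'.O → ecPi1 M' q g ∈ vMid.O)
    (hP4 : ∀ b : FF (M' * q * q), b ∈ f0Field A (M' * q * q) → b ∈ R.O → b ∈ vMid.O →
      alW2 M' hq hqM b ∈ R.O →
      ∃ p : Polynomial (FF M'), p.Monic ∧ (∀ n, p.coeff n ∈ R'.O) ∧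
        Polynomial.eval₂ (ecPi1 M' q) b p = 0) :
    IsDedekindDomain (nodeSetupM A M' q hq hqM hA R hR vMid hiMid hoMid).redInf.range ∧
      IsDedekindDomain ((nodeSetupM A M' q hq hqM hA R hR vMid hiMid hoMid).B ⧸
        (nodeSetupM A M' q hq hqM hA R hR vMid hiMid hoMid).pInf) ∧
      (∀ w : Fk (IsLocalRing.ResidueField A) M',
        ∃ a b : (nodeSetupM A M' q hq hqM hA R hR vMid hiMid hoMid).B,
          (nodeSetupM A M' q hq hqM hA R hR vMid hiMid hoMid).redInf b ≠ 0 ∧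
            w * (nodeSetupM A M' q hq hqM hA R hR vMid hiMid hoMid).redInf b =
              (nodeSetupM A M' q hq hqM hA R hR vMid hiMid hoMid).redInf a) ∧
      ¬ (nodeSetupM A M' q hq hqM hA R hR vMid hiMid hoMid).pInf.IsMaximal := by
  haveI : IsAlgClosed (IsLocalRing.ResidueField A) := isAlgClosed_residueField A
  haveI : RRHyp (IsLocalRing.ResidueField A) (Fk (IsLocalRing.ResidueField A) M') :=
    mr_rrHyp (IsLocalRing.ResidueField A) M'
  exact d1q_nodeSetup_inf (nodeSetupM A M' q hq hqM hA R hR vMid hiMid hoMid)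
    (affRing (infPlaceC (IsLocalRing.ResidueField A) M'))
    (d1q_affRing_not_isField _) (d1q_affRing_frac _)
    (d1q_hmem_inf A M' q hq hqM hA R' R hR vMid hiMid hoMid haux hR' hT₂ hP4)
    (d1q_hsurj_inf A M' q hq hqM hA R' R hR vMid hiMid hoMid haux hR' hT₂)

set_option maxHeartbeats 1600000 in
include hq in
/-- **D1-Q at `mid`** for `nodeSetupM` (= R6-g) -/
theorem d1q_main_mid (haux : IsAuxLevel q M') (hR' : IsSeriesRed R')
    (hT₂ : ∀ (g : FF M') (hg : g ∈ R'.O), ∃ h : ecPi1 M' q g ∈ vMid.O,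
      vMid.red ⟨ecPi1 M' q g, h⟩ = ((R'.red ⟨g, hg⟩ : Fk (IsLocalRing.ResidueField A) M') :
        LaurentSeries (IsLocalRing.ResidueField A)))
    (hP4 : ∀ b : FF (M' * q * q), b ∈ f0Field A (M' * q * q) → b ∈ R.O → b ∈ vMid.O →
      alW2 M' hq hqM b ∈ R.O →
      ∃ p : Polynomial (FF M'), p.Monic ∧ (∀ n, p.coeff n ∈ R'.O) ∧
        Polynomial.eval₂ (ecPi1 M' q) b p = 0) :
    IsDedekindDomain (nodeSetupM A M' q hq hqM hA R hR vMid hiMid hoMid).redMid.range ∧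
      IsDedekindDomain ((nodeSetupM A M' q hq hqM hA R hR vMid hiMid hoMid).B ⧸
        (nodeSetupM A M' q hq hqM hA R hR vMid hiMid hoMid).pMid) ∧
      (∀ w : Fk (IsLocalRing.ResidueField A) M',
        ∃ a b : (nodeSetupM A M' q hq hqM hA R hR vMid hiMid hoMid).B,
          (nodeSetupM A M' q hq hqM hA R hR vMid hiMid hoMid).redMid b ≠ 0 ∧
            w * (nodeSetupM A M' q hq hqM hA R hR vMid hiMid hoMid).redMid b =
              (nodeSetupM A M' q hq hqM hA R hR vMid hiMid hoMid).redMid a) ∧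
      ¬ (nodeSetupM A M' q hq hqM hA R hR vMid hiMid hoMid).pMid.IsMaximal := by
  haveI : IsAlgClosed (IsLocalRing.ResidueField A) := isAlgClosed_residueField A
  haveI : RRHyp (IsLocalRing.ResidueField A) (Fk (IsLocalRing.ResidueField A) M') :=
    mr_rrHyp (IsLocalRing.ResidueField A) M'
  exact d1q_nodeSetup_mid (nodeSetupM A M' q hq hqM hA R hR vMid hiMid hoMid)
    (affRing (infPlaceC (IsLocalRing.ResidueField A) M'))
    (d1q_affRing_not_isField _) (d1q_affRing_frac _)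
    (d1q_hmem_mid A M' q hq hqM hA R' R hR vMid hiMid hoMid haux hR' hT₂ hP4)
    (d1q_hsurj_mid A M' q hq hqM hA R' R hR vMid hiMid hoMid haux hR' hT₂)

set_option maxHeartbeats 1600000 in
include hq in
/-- **D1-Q at `0`** for `nodeSetupM` -/
theorem d1q_main_zero (haux : IsAuxLevel q M') (hR' : IsSeriesRed R')
    (hT₂ : ∀ g ∈ f0Field A M', g ∈ R'.O → ecPi1 M' q g ∈ vMid.O)
    (hT₂' : ∀ g ∈ f0Field A M', g ∈ R'.O → ecPi3 M' q g ∈ vMid.O)
    (hP4 : ∀ b : FF (M' * q * q), b ∈ f0Field A (M' * q * q) → b ∈ R.O → b ∈ vMid.O →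
      alW2 M' hq hqM b ∈ R.O →
      ∃ p : Polynomial (FF M'), p.Monic ∧ (∀ n, p.coeff n ∈ R'.O) ∧
        Polynomial.eval₂ (ecPi1 M' q) b p = 0) :
    IsDedekindDomain (nodeSetupM A M' q hq hqM hA R hR vMid hiMid hoMid).redZero.range ∧
      IsDedekindDomain ((nodeSetupM A M' q hq hqM hA R hR vMid hiMid hoMid).B ⧸
        (nodeSetupM A M' q hq hqM hA R hR vMid hiMid hoMid).pZero) ∧
      (∀ w : Fk (IsLocalRing.ResidueField A) M',
        ∃ a b : (nodeSetupM A M' q hq hqM hA R hR vMid hiMid hoMid).B,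
          (nodeSetupM A M' q hq hqM hA R hR vMid hiMid hoMid).redZero b ≠ 0 ∧
            w * (nodeSetupM A M' q hq hqM hA R hR vMid hiMid hoMid).redZero b =
              (nodeSetupM A M' q hq hqM hA R hR vMid hiMid hoMid).redZero a) ∧
      ¬ (nodeSetupM A M' q hq hqM hA R hR vMid hiMid hoMid).pZero.IsMaximal := by
  haveI : IsAlgClosed (IsLocalRing.ResidueField A) := isAlgClosed_residueField A
  haveI : RRHyp (IsLocalRing.ResidueField A) (Fk (IsLocalRing.ResidueField A) M') :=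
    mr_rrHyp (IsLocalRing.ResidueField A) M'
  exact d1q_nodeSetup_zero (nodeSetupM A M' q hq hqM hA R hR vMid hiMid hoMid)
    (affRing (infPlaceC (IsLocalRing.ResidueField A) M'))
    (d1q_affRing_not_isField _) (d1q_affRing_frac _)
    (d1q_hmem_zero A M' q hq hqM hA R' R hR vMid hiMid hoMid haux hR' hT₂ hP4)
    (d1q_hsurj_zero A M' q hq hqM hA R' R hR vMid hiMid hoMid haux hR' hT₂')

end Setup

end Fermat.Agent.S36lib

end
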