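import Mathlib
import Fermat.Agent.S36lib.Setup
import Fermat.Agent.GoodRed.Polar

/-!
# Item 83 (S36), piece "INC at the cusps", abstract part (helper23).  Complete proofs.

Setting: a `NodeSetup S` (three valuations `v_∞, v_mid, v_0` of `F`, the affine ring `B`), and the
elements `x₁ = π₁ j`, `x₂ = π₂ j`, `x₃ = π₃ j`, `G₁ = π₁ j₂`, `G₃ = π₃ j₂` of `F` (`j₂` as in (J2):
`j j₂` is a unit at the cusp `c`), with the reduction table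
```
            x₁        x₂       x₃        G₁      G₃
 red_∞      jb        jb^q     jb^(q²)   gb      .
 red_mid    jb        jb^q     jb        gb      gb
 red_0      jb^(q²)   jb^q     jb        .       gb
```
(only the entries actually needed are hypotheses).  The elements
`s_a = (x₃ - x₂^q) G₃^(q²)` (in `p_∞`) and `s_b = (x₁ - x₂^q) G₁^(q²)` (in `p_0`) reduce on `C_mid`
to `(jb - jb^(q²)) gb^(q²)`, a unit at every cusp `c` where `jb gb` is a unit.  Hence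

* `incCusp_mid`: `∃ s ∈ B`, `s ∈ p_∞`, `s ∈ p_0`, `red_mid s ≠ 0`, `ord_c (red_mid s) = 0`
  (the hypothesis `s` of `reg3_cusp_T4`, helper5): a cuspidal point of `C_mid` lies on `C_mid` only;
* `incCusp_inf`: `∃ s ∈ B`, `s ∈ p_mid`, `s ∈ p_0`, `red_∞ s` a unit at `c`;
* `incCusp_zero`: `∃ s ∈ B`, `s ∈ p_∞`, `s ∈ p_mid`, `red_0 s` a unit at `c`;
* `incCusp_not_le`: the ideal form (`¬ 𝔭 ≤ 𝔪`).

`ResVal.RedTo v x r` means: `x ∈ v.O` and `v.red x = r`.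
-/

set_option autoImplicit false
set_option linter.style.haveILetI false
set_option linter.unusedSectionVars false

noncomputable section

namespace Fermat.Agent.S36lib

open AlgebraicCurve Fermat.Agent.GoodRed

section Field

variable {k κ : Type*} [Field k] [Field κ] [Algebra k κ]

theorem incCusp_ord_neg (c : Place k κ) (x : κ) : c.ord (-x) = c.ord x := by
  unfold Place.ord
  rw [Valuation.map_neg]

theorem incCusp_ord_pow (c : Place k κ) (x : κ) (n : ℕ) : c.ord (x ^ n) = (n : ℤ) * c.ord x := by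
  have := c.ord_zpow x (n : ℤ)
  rwa [zpow_natCast] at this

/-- the key computation: if `jb` has a pole at `c` and `jb gb` is a unit at `c`, then
`(jb - jb^n) gb^n` is a unit at `c` (`n ≥ 2`). -/
theorem incCusp_ord_unit (c : Place k κ) (jb gb : κ) (n : ℕ) (hn : 1 < n)
    (hc : c.ord jb < 0) (hjg0 : jb * gb ≠ 0) (hjg : c.ord (jb * gb) = 0) :
    (jb - jb ^ n) * gb ^ n ≠ 0 ∧ c.ord ((jb - jb ^ n) * gb ^ n) = 0 := by
  have hj0 : jb ≠ 0 := left_ne_zero_of_mul hjg0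
  have hg0 : gb ≠ 0 := right_ne_zero_of_mul hjg0
  have hord : c.ord gb = - c.ord jb := by
    have := c.ord_mul hj0 hg0
    omega
  have e : (jb - jb ^ n) * gb ^ n = -(jb * gb) ^ n + jb * gb ^ n := by ring
  have hx0 : -(jb * gb) ^ n ≠ 0 := neg_ne_zero.mpr (pow_ne_zero _ hjg0)
  have hy0 : jb * gb ^ n ≠ 0 := mul_ne_zero hj0 (pow_ne_zero _ hg0)
  have hx : c.ord (-(jb * gb) ^ n) = 0 := by
    rw [incCusp_ord_neg, incCusp_ord_pow, hjg, mul_zero]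
  have hy : 0 < c.ord (jb * gb ^ n) := by
    rw [c.ord_mul hj0 (pow_ne_zero _ hg0), incCusp_ord_pow, hord]
    have h1 : (2 : ℤ) ≤ (n : ℤ) := by exact_mod_cast hn
    nlinarith
  have hsum : c.ord (-(jb * gb) ^ n + jb * gb ^ n) = 0 := by
    rw [pol_ord_add_of_lt hx0 hy0 (by rw [hx]; exact hy), hx]
  refine ⟨?_, by rw [e]; exact hsum⟩
  rw [e]
  intro h0
  have h1 : jb * gb ^ n = -(-(jb * gb) ^ n) := by
    rw [eq_neg_iff_add_eq_zero, add_comm]; exact h0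
  have h2 : c.ord (jb * gb ^ n) = 0 := by
    rw [h1, incCusp_ord_neg, hx]
  omega

end Field

section Abstract

variable {K : Type*} [Field K] {k : Type*} [Field k]
  {A : ValuationSubring K} {π : A →+* k} {κ : Type*} [Field κ] [Algebra k κ]
  {F : Type*} [Field F] [Algebra K F]

/-- `x` lies in the valuation ring of `v` and reduces to `r` -/
def ResVal.RedTo (v : ResVal A π κ F) (x : F) (r : κ) : Prop :=
  ∃ hx : x ∈ v.O, v.red ⟨x, hx⟩ = r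

namespace ResVal.RedTo

variable {v : ResVal A π κ F} {x y : F} {r s : κ}

theorem mem (h : v.RedTo x r) : x ∈ v.O := h.1

theorem of_mem (hx : x ∈ v.O) : v.RedTo x (v.red ⟨x, hx⟩) := ⟨hx, rfl⟩

theorem red_eq (h : v.RedTo x r) (hx : x ∈ v.O) : v.red ⟨x, hx⟩ = r := h.2

theorem mul (hx : v.RedTo x r) (hy : v.RedTo y s) : v.RedTo (x * y) (r * s) := by
  obtain ⟨hx, rfl⟩ := hx
  obtain ⟨hy, rfl⟩ := hy
  exact ⟨v.O.mul_mem _ _ hx hy, map_mul v.red ⟨x, hx⟩ ⟨y, hy⟩⟩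

theorem sub (hx : v.RedTo x r) (hy : v.RedTo y s) : v.RedTo (x - y) (r - s) := by
  obtain ⟨hx, rfl⟩ := hx
  obtain ⟨hy, rfl⟩ := hy
  exact ⟨v.O.sub_mem hx hy, map_sub v.red ⟨x, hx⟩ ⟨y, hy⟩⟩

theorem pow (hx : v.RedTo x r) (n : ℕ) : v.RedTo (x ^ n) (r ^ n) := by
  obtain ⟨hx, rfl⟩ := hx
  exact ⟨v.O.pow_mem hx n, map_pow v.red ⟨x, hx⟩ n⟩

theorem congr (hx : v.RedTo x r) (h : r = s) : v.RedTo x s := h ▸ hx

end ResVal.RedTo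

variable (S : NodeSetup A π κ F)

theorem NodeSetup.redInf_eq_of_redTo {s : S.B} {r : κ} (h : S.vInf.RedTo (s : F) r) :
    S.redInf s = r := h.2

theorem NodeSetup.redMid_eq_of_redTo {s : S.B} {r : κ} (h : S.vMid.RedTo (s : F) r) :
    S.redMid s = r := h.2

theorem NodeSetup.redZero_eq_of_redTo {s : S.B} {r : κ} (h : S.vZero.RedTo (s : F) r) :
    S.redZero s = r := h.2

theorem NodeSetup.redTo_redInf (s : S.B) : S.vInf.RedTo (s : F) (S.redInf s) :=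
  ⟨S.B_le_inf s.2, rfl⟩

theorem NodeSetup.redTo_redMid (s : S.B) : S.vMid.RedTo (s : F) (S.redMid s) :=
  ⟨S.B_le_mid s.2, rfl⟩

theorem NodeSetup.redTo_redZero (s : S.B) : S.vZero.RedTo (s : F) (S.redZero s) :=
  ⟨S.B_le_zero s.2, rfl⟩

/-- the shape `(a - b) g` with `red a = red b`: the reduction vanishes. -/
theorem incCusp_redTo_zero {v : ResVal A π κ F} {a b g : F} {r : κ}
    (ha : v.RedTo a r) (hb : v.RedTo b r) (hg : g ∈ v.O) : v.RedTo ((a - b) * g) 0 := by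
  have := (ha.sub hb).mul (ResVal.RedTo.of_mem hg)
  rwa [sub_self, zero_mul] at this

/-- the two basic elements: `s_a = (x₃ - x₂^q) G₃^(q²) ∈ p_∞` and
`s_b = (x₁ - x₂^q) G₁^(q²) ∈ p_0`, both with `red_mid = (jb - jb^(q²)) gb^(q²)`. -/
theorem incCusp_mid_pair (q : ℕ) (x₁ x₂ x₃ G₁ G₃ : F) (jb gb : κ)
    (rI rZ : κ)
    (hI₂ : S.vInf.RedTo x₂ rI) (hI₃ : S.vInf.RedTo x₃ (rI ^ q)) (hIG : G₃ ∈ S.vInf.O)
    (hZ₂ : S.vZero.RedTo x₂ rZ) (hZ₁ : S.vZero.RedTo x₁ (rZ ^ q)) (hZG : G₁ ∈ S.vZero.O)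
    (hM₁ : S.vMid.RedTo x₁ jb) (hM₂ : S.vMid.RedTo x₂ (jb ^ q)) (hM₃ : S.vMid.RedTo x₃ jb)
    (hMG₁ : S.vMid.RedTo G₁ gb) (hMG₃ : S.vMid.RedTo G₃ gb)
    (sa sb : S.B) (hsa : (sa : F) = (x₃ - x₂ ^ q) * G₃ ^ (q * q))
    (hsb : (sb : F) = (x₁ - x₂ ^ q) * G₁ ^ (q * q)) :
    sa ∈ S.pInf ∧ sb ∈ S.pZero ∧
      S.redMid sa = (jb - jb ^ (q * q)) * gb ^ (q * q) ∧
      S.redMid sb = (jb - jb ^ (q * q)) * gb ^ (q * q) := by
  refine ⟨?_, ?_, ?_, ?_⟩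
  · show S.redInf sa = 0
    apply S.redInf_eq_of_redTo
    rw [hsa]
    exact incCusp_redTo_zero hI₃ (hI₂.pow q) (S.vInf.O.pow_mem hIG _)
  · show S.redZero sb = 0
    apply S.redZero_eq_of_redTo
    rw [hsb]
    exact incCusp_redTo_zero hZ₁ (hZ₂.pow q) (S.vZero.O.pow_mem hZG _)
  · apply S.redMid_eq_of_redTo
    rw [hsa]
    have := (hM₃.sub (hM₂.pow q)).mul (hMG₃.pow (q * q))
    rwa [← pow_mul] at this
  · apply S.redMid_eq_of_redTo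
    rw [hsb]
    have := (hM₁.sub (hM₂.pow q)).mul (hMG₁.pow (q * q))
    rwa [← pow_mul] at this

/-- **INC at the cusps of `C_mid`**: an element of `p_∞ ∩ p_0` whose reduction on `C_mid` is a
unit at the cusp `c` (the hypothesis `s` of `reg3_cusp_T4`). -/
theorem incCusp_mid (q : ℕ) (hq : 1 < q) (x₁ x₂ x₃ G₁ G₃ : F) (jb gb : κ)
    (rI rZ : κ)
    (hI₂ : S.vInf.RedTo x₂ rI) (hI₃ : S.vInf.RedTo x₃ (rI ^ q)) (hIG : G₃ ∈ S.vInf.O)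
    (hZ₂ : S.vZero.RedTo x₂ rZ) (hZ₁ : S.vZero.RedTo x₁ (rZ ^ q)) (hZG : G₁ ∈ S.vZero.O)
    (hM₁ : S.vMid.RedTo x₁ jb) (hM₂ : S.vMid.RedTo x₂ (jb ^ q)) (hM₃ : S.vMid.RedTo x₃ jb)
    (hMG₁ : S.vMid.RedTo G₁ gb) (hMG₃ : S.vMid.RedTo G₃ gb)
    (ha : (x₃ - x₂ ^ q) * G₃ ^ (q * q) ∈ S.B) (hb : (x₁ - x₂ ^ q) * G₁ ^ (q * q) ∈ S.B)
    (c : Place k κ) (hc : c.ord jb < 0) (hjg0 : jb * gb ≠ 0) (hjg : c.ord (jb * gb) = 0) :
    ∃ s : S.B, s ∈ S.pInf ∧ s ∈ S.pZero ∧ S.redMid s ≠ 0 ∧ c.ord (S.redMid s) = 0 := by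
  obtain ⟨h1, h2, h3, h4⟩ := incCusp_mid_pair S q x₁ x₂ x₃ G₁ G₃ jb gb rI rZ hI₂ hI₃ hIG hZ₂ hZ₁
    hZG hM₁ hM₂ hM₃ hMG₁ hMG₃ ⟨_, ha⟩ ⟨_, hb⟩ rfl rfl
  have hqq : 1 < q * q := by nlinarith
  obtain ⟨hu0, hu⟩ := incCusp_ord_unit c jb gb (q * q) hqq hc hjg0 hjg
  refine ⟨⟨_, ha⟩ * ⟨_, hb⟩, S.pInf.mul_mem_right _ h1, S.pZero.mul_mem_left _ h2, ?_, ?_⟩
  · rw [map_mul, h3, h4]
    exact mul_ne_zero hu0 hu0
  · rw [map_mul, h3, h4, c.ord_mul hu0 hu0, hu, add_zero]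

/-- **INC at the cusps of `C_∞`**: `s = (x₂ - x₃^q) G₁^(q³) ∈ p_mid ∩ p_0`, and `red_∞ s` is a
unit at the cusp `c`. -/
theorem incCusp_inf (q : ℕ) (hq : 1 < q) (x₂ x₃ G₁ : F) (jb gb : κ)
    (rM rZ : κ)
    (hM₂ : S.vMid.RedTo x₂ (rM ^ q)) (hM₃ : S.vMid.RedTo x₃ rM) (hMG : G₁ ∈ S.vMid.O)
    (hZ₂ : S.vZero.RedTo x₂ (rZ ^ q)) (hZ₃ : S.vZero.RedTo x₃ rZ) (hZG : G₁ ∈ S.vZero.O)
    (hI₂ : S.vInf.RedTo x₂ (jb ^ q)) (hI₃ : S.vInf.RedTo x₃ (jb ^ (q * q)))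
    (hIG : S.vInf.RedTo G₁ gb)
    (hs : (x₂ - x₃ ^ q) * G₁ ^ (q * (q * q)) ∈ S.B)
    (c : Place k κ) (hc : c.ord jb < 0) (hjg0 : jb * gb ≠ 0) (hjg : c.ord (jb * gb) = 0) :
    ∃ s : S.B, s ∈ S.pMid ∧ s ∈ S.pZero ∧ S.redInf s ≠ 0 ∧ c.ord (S.redInf s) = 0 := by
  have hq0 : q ≠ 0 := by omega
  have hqq : 1 < q * q := by nlinarith
  have hj0 : jb ≠ 0 := left_ne_zero_of_mul hjg0
  have hJ : c.ord (jb ^ q) < 0 := by
    rw [incCusp_ord_pow]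
    have : (0 : ℤ) < q := by exact_mod_cast (by omega : 0 < q)
    nlinarith
  have hJG0 : jb ^ q * gb ^ q ≠ 0 := by
    rw [← mul_pow]; exact pow_ne_zero _ hjg0
  have hJG : c.ord (jb ^ q * gb ^ q) = 0 := by
    rw [← mul_pow, incCusp_ord_pow, hjg, mul_zero]
  obtain ⟨hu0, hu⟩ := incCusp_ord_unit c (jb ^ q) (gb ^ q) (q * q) hqq hJ hJG0 hJG
  have hred : S.redInf ⟨_, hs⟩ = (jb ^ q - (jb ^ q) ^ (q * q)) * (gb ^ q) ^ (q * q) := by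
    apply S.redInf_eq_of_redTo
    have := (hI₂.sub (hI₃.pow q)).mul (hIG.pow (q * (q * q)))
    have e1 : (jb ^ (q * q)) ^ q = (jb ^ q) ^ (q * q) := by
      rw [← pow_mul, ← pow_mul]; congr 1; ring
    have e2 : gb ^ (q * (q * q)) = (gb ^ q) ^ (q * q) := by rw [← pow_mul]
    rwa [e1, e2] at this
  refine ⟨⟨_, hs⟩, ?_, ?_, ?_, ?_⟩
  · show S.redMid _ = 0
    apply S.redMid_eq_of_redTo
    exact incCusp_redTo_zero hM₂ (hM₃.pow q) (S.vMid.O.pow_mem hMG _)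
  · show S.redZero _ = 0
    apply S.redZero_eq_of_redTo
    exact incCusp_redTo_zero hZ₂ (hZ₃.pow q) (S.vZero.O.pow_mem hZG _)
  · rw [hred]; exact hu0
  · rw [hred]; exact hu

/-- **INC at the cusps of `C_0`**: `s = (x₂ - x₁^q) G₃^(q³) ∈ p_∞ ∩ p_mid`, and `red_0 s` is a
unit at the cusp `c`. -/
theorem incCusp_zero (q : ℕ) (hq : 1 < q) (x₁ x₂ G₃ : F) (jb gb : κ)
    (rI rM : κ)
    (hI₂ : S.vInf.RedTo x₂ (rI ^ q)) (hI₁ : S.vInf.RedTo x₁ rI) (hIG : G₃ ∈ S.vInf.O)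
    (hM₂ : S.vMid.RedTo x₂ (rM ^ q)) (hM₁ : S.vMid.RedTo x₁ rM) (hMG : G₃ ∈ S.vMid.O)
    (hZ₂ : S.vZero.RedTo x₂ (jb ^ q)) (hZ₁ : S.vZero.RedTo x₁ (jb ^ (q * q)))
    (hZG : S.vZero.RedTo G₃ gb)
    (hs : (x₂ - x₁ ^ q) * G₃ ^ (q * (q * q)) ∈ S.B)
    (c : Place k κ) (hc : c.ord jb < 0) (hjg0 : jb * gb ≠ 0) (hjg : c.ord (jb * gb) = 0) :
    ∃ s : S.B, s ∈ S.pInf ∧ s ∈ S.pMid ∧ S.redZero s ≠ 0 ∧ c.ord (S.redZero s) = 0 := by
  have hq0 : q ≠ 0 := by omega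
  have hqq : 1 < q * q := by nlinarith
  have hj0 : jb ≠ 0 := left_ne_zero_of_mul hjg0
  have hJ : c.ord (jb ^ q) < 0 := by
    rw [incCusp_ord_pow]
    have : (0 : ℤ) < q := by exact_mod_cast (by omega : 0 < q)
    nlinarith
  have hJG0 : jb ^ q * gb ^ q ≠ 0 := by
    rw [← mul_pow]; exact pow_ne_zero _ hjg0
  have hJG : c.ord (jb ^ q * gb ^ q) = 0 := by
    rw [← mul_pow, incCusp_ord_pow, hjg, mul_zero]
  obtain ⟨hu0, hu⟩ := incCusp_ord_unit c (jb ^ q) (gb ^ q) (q * q) hqq hJ hJG0 hJG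
  have hred : S.redZero ⟨_, hs⟩ = (jb ^ q - (jb ^ q) ^ (q * q)) * (gb ^ q) ^ (q * q) := by
    apply S.redZero_eq_of_redTo
    have := (hZ₂.sub (hZ₁.pow q)).mul (hZG.pow (q * (q * q)))
    have e1 : (jb ^ (q * q)) ^ q = (jb ^ q) ^ (q * q) := by
      rw [← pow_mul, ← pow_mul]; congr 1; ring
    have e2 : gb ^ (q * (q * q)) = (gb ^ q) ^ (q * q) := by rw [← pow_mul]
    rwa [e1, e2] at this
  refine ⟨⟨_, hs⟩, ?_, ?_, ?_, ?_⟩
  · show S.redInf _ = 0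
    apply S.redInf_eq_of_redTo
    exact incCusp_redTo_zero hI₂ (hI₁.pow q) (S.vInf.O.pow_mem hIG _)
  · show S.redMid _ = 0
    apply S.redMid_eq_of_redTo
    exact incCusp_redTo_zero hM₂ (hM₁.pow q) (S.vMid.O.pow_mem hMG _)
  · rw [hred]; exact hu0
  · rw [hred]; exact hu

/-- the ideal form: if `𝔪` contains no element of `B` whose reduction `ρ` is a unit at `c`, and
`s ∈ 𝔭` has such a reduction, then `𝔪` does not contain `𝔭`. -/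
theorem incCusp_not_le (ρ : S.B →+* κ) (c : Place k κ) (𝔪 𝔭 : Ideal S.B)
    (h𝔪 : ∀ z : S.B, ρ z ≠ 0 → c.ord (ρ z) = 0 → z ∉ 𝔪)
    (s : S.B) (hs : s ∈ 𝔭) (hs0 : ρ s ≠ 0) (hsc : c.ord (ρ s) = 0) : ¬ 𝔭 ≤ 𝔪 :=
  fun h => h𝔪 s hs0 hsc (h hs)

end Abstract

end Fermat.Agent.S36lib

end
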