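import Mathlib
import Fermat.Agent.S36lib.D1Set
import Fermat.Agent.S36lib.ExpOrd

/-!
# Item 83 (S36), piece "INC at the cusps", concrete part 1 (helper23).  Complete proofs.

Level `M = M' q²`; `x₁ = π₁ j`, `x₂ = π₂ j`, `x₃ = π₃ j`; `j₂ ∈ F_{M'}` regular off `∞'` with
`j j₂` regular off `∞'` (piece (J2)); `G₁ = π₁ j₂`, `G₃ = π₃ j₂`.  The four elements

* `s_a = (x₃ - x₂^q) G₃^(q²)`, `s_b = (x₁ - x₂^q) G₁^(q²)`  (for the cusps of `C_mid`),
* `s_∞ = (x₂ - x₃^q) G₁^(q³)`, `s_0 = (x₂ - x₁^q) G₃^(q³)`  (for the cusps of `C_∞`, `C_0`)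

are regular off `D1 = s36D1` (the cusps over `∞'`): the poles at the other cusps are killed by
the powers of `G₁`, `G₃`, by the pole order inequalities (L-q).  The inequalities are the fields
of the structure `IncLq` (to be discharged from helper27's `Reg3Lq.lean`).

* `incCusp_place_reg`: the general lemma at one place;
* `incCusp_sa_offRegular`, `incCusp_sb_offRegular`, `incCusp_sInf_offRegular`,
  `incCusp_sZero_offRegular`;
* `incCusp_mem_f0AffD`: membership in `B_{D1} = f0AffD A M D1 O₁ O₂ O₃`.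
-/

set_option autoImplicit false
set_option linter.style.haveILetI false
set_option linter.unusedSectionVars false
set_option synthInstance.maxHeartbeats 400000

noncomputable section

namespace Fermat.Agent.S36lib

open AlgebraicCurve ModularCurve HahnSeries
open Fermat.Agent.S24lib Fermat.Agent.S34lib Fermat.Agent.S37lib Fermat.Agent.HeckeBar
open Fermat.Agent.S35lib

section General

variable {K F : Type*} [Field K] [Field F] [Algebra K F]

/-- `(a - b) g^n` is regular at `P` if `g` and `x g` are, `a, b` are regular where `x` is, and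
have poles of order at most `n` times the pole order of `x` where `x` has a pole. -/
theorem incCusp_place_reg (P : Place K F) (a b x g : F) (n : ℕ)
    (hg : 0 ≤ P.ord g) (hxg : 0 ≤ P.ord (x * g))
    (ha : 0 ≤ P.ord x → 0 ≤ P.ord a) (hb : 0 ≤ P.ord x → 0 ≤ P.ord b)
    (ha' : P.ord x < 0 → (n : ℤ) * P.ord x ≤ P.ord a)
    (hb' : P.ord x < 0 → (n : ℤ) * P.ord x ≤ P.ord b) :
    0 ≤ P.ord ((a - b) * g ^ n) := by
  rw [← ffMem_iff_ord_nonneg] at hg hxg ⊢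
  rcases le_or_gt 0 (P.ord x) with hx | hx
  · have ha1 := (ffMem_iff_ord_nonneg P).2 (ha hx)
    have hb1 := (ffMem_iff_ord_nonneg P).2 (hb hx)
    exact mul_mem (sub_mem ha1 hb1) (pow_mem hg n)
  · have hx0 : x ≠ 0 := by
      rintro rfl
      rw [Place.ord_zero] at hx
      exact lt_irrefl _ hx
    have key : ∀ t : F, (n : ℤ) * P.ord x ≤ P.ord t → t * g ^ n ∈ P.toValuationSubring := by
      intro t ht
      rcases eq_or_ne t 0 with rfl | ht0
      · rw [zero_mul]; exact zero_mem _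
      have e : t * g ^ n = (t * (x ^ n)⁻¹) * (x * g) ^ n := by
        rw [mul_pow]
        field_simp
      rw [e]
      refine mul_mem ?_ (pow_mem hxg n)
      rw [ffMem_iff_ord_nonneg, P.ord_mul ht0 (inv_ne_zero (pow_ne_zero _ hx0)), Place.ord_inv]
      have h1 : P.ord (x ^ n) = (n : ℤ) * P.ord x := by
        have := P.ord_zpow x (n : ℤ)
        rwa [zpow_natCast] at this
      rw [h1]
      omega
    have e : (a - b) * g ^ n = a * g ^ n - b * g ^ n := by ring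
    rw [e]
    exact sub_mem (key a (ha' hx)) (key b (hb' hx))

theorem incCusp_ord_pow' (P : Place K F) (x : F) (n : ℕ) :
    P.ord (x ^ n) = (n : ℤ) * P.ord x := by
  have := P.ord_zpow x (n : ℤ)
  rwa [zpow_natCast] at this

/-- the pole order inequalities (L-q) between `x₁ = π₁ j`, `x₂ = π₂ j`, `x₃ = π₃ j` -/
structure IncLq (q : ℕ) (x₁ x₂ x₃ : F) : Prop where
  reg₂ : ∀ P : Place K F, 0 ≤ P.ord x₁ → 0 ≤ P.ord x₂
  reg₃ : ∀ P : Place K F, 0 ≤ P.ord x₁ → 0 ≤ P.ord x₃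
  pole₃ : ∀ P : Place K F, P.ord x₁ < 0 → P.ord x₃ < 0
  alpha : ∀ P : Place K F, P.ord x₁ < 0 → (q : ℤ) * P.ord x₁ ≤ P.ord x₂
  beta : ∀ P : Place K F, P.ord x₁ < 0 → (q : ℤ) * P.ord x₃ ≤ P.ord x₂

/-- the two further inequalities needed at the cusps of `C_∞` and `C_0` -/
structure IncLq2 (q : ℕ) (x₁ x₃ : F) : Prop where
  gamma : ∀ P : Place K F, P.ord x₁ < 0 → ((q * q : ℕ) : ℤ) * P.ord x₁ ≤ P.ord x₃
  delta : ∀ P : Place K F, P.ord x₁ < 0 → ((q * q : ℕ) : ℤ) * P.ord x₃ ≤ P.ord x₁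

variable {q : ℕ} {x₁ x₂ x₃ : F}

theorem IncLq.reg₁_of₃ (H : IncLq (K := K) q x₁ x₂ x₃) (P : Place K F) (h : 0 ≤ P.ord x₃) :
    0 ≤ P.ord x₁ := by
  by_contra hcon
  have := H.pole₃ P (not_le.mp hcon)
  omega

theorem IncLq.pole₁_of₃ (H : IncLq (K := K) q x₁ x₂ x₃) (P : Place K F) (h : P.ord x₃ < 0) :
    P.ord x₁ < 0 := by
  by_contra hcon
  have := H.reg₃ P (not_lt.mp hcon)
  omega

/-- `s_b = (x₁ - x₂^q) g^(q²)` at one place (`g = G₁`) -/
theorem IncLq.sb_reg (H : IncLq (K := K) q x₁ x₂ x₃) (hq : 0 < q) (P : Place K F) (g : F)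
    (hg : 0 ≤ P.ord g) (hxg : 0 ≤ P.ord (x₁ * g)) :
    0 ≤ P.ord ((x₁ - x₂ ^ q) * g ^ (q * q)) := by
  refine incCusp_place_reg P x₁ (x₂ ^ q) x₁ g (q * q) hg hxg (fun h => h) ?_ ?_ ?_
  · intro h
    rw [incCusp_ord_pow']
    exact mul_nonneg (Int.natCast_nonneg _) (H.reg₂ P h)
  · intro h
    have h1 : (1 : ℤ) ≤ ((q * q : ℕ) : ℤ) := by
      have : 1 ≤ q * q := Nat.mul_pos hq hq
      exact_mod_cast this
    nlinarith
  · intro h
    rw [incCusp_ord_pow']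
    have h1 := H.alpha P h
    have h2 : (0 : ℤ) ≤ (q : ℤ) := Int.natCast_nonneg _
    push_cast
    nlinarith

/-- `s_a = (x₃ - x₂^q) g^(q²)` at one place (`g = G₃`) -/
theorem IncLq.sa_reg (H : IncLq (K := K) q x₁ x₂ x₃) (hq : 0 < q) (P : Place K F) (g : F)
    (hg : 0 ≤ P.ord g) (hxg : 0 ≤ P.ord (x₃ * g)) :
    0 ≤ P.ord ((x₃ - x₂ ^ q) * g ^ (q * q)) := by
  refine incCusp_place_reg P x₃ (x₂ ^ q) x₃ g (q * q) hg hxg (fun h => h) ?_ ?_ ?_
  · intro h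
    rw [incCusp_ord_pow']
    exact mul_nonneg (Int.natCast_nonneg _) (H.reg₂ P (H.reg₁_of₃ P h))
  · intro h
    have h1 : (1 : ℤ) ≤ ((q * q : ℕ) : ℤ) := by
      have : 1 ≤ q * q := Nat.mul_pos hq hq
      exact_mod_cast this
    nlinarith
  · intro h
    rw [incCusp_ord_pow']
    have h1 := H.beta P (H.pole₁_of₃ P h)
    have h2 : (0 : ℤ) ≤ (q : ℤ) := Int.natCast_nonneg _
    push_cast
    nlinarith

/-- `s_∞ = (x₂ - x₃^q) g^(q³)` at one place (`g = G₁`) -/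
theorem IncLq.sInf_reg (H : IncLq (K := K) q x₁ x₂ x₃) (H2 : IncLq2 (K := K) q x₁ x₃)
    (hq : 0 < q) (P : Place K F) (g : F)
    (hg : 0 ≤ P.ord g) (hxg : 0 ≤ P.ord (x₁ * g)) :
    0 ≤ P.ord ((x₂ - x₃ ^ q) * g ^ (q * (q * q))) := by
  have hq1 : (1 : ℤ) ≤ (q : ℤ) := by exact_mod_cast hq
  refine incCusp_place_reg P x₂ (x₃ ^ q) x₁ g (q * (q * q)) hg hxg (H.reg₂ P) ?_ ?_ ?_
  · intro h
    rw [incCusp_ord_pow']
    exact mul_nonneg (Int.natCast_nonneg _) (H.reg₃ P h)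
  · intro h
    have h1 := H.alpha P h
    push_cast
    have h3 : (q : ℤ) * (q * q) * P.ord x₁ ≤ (q : ℤ) * P.ord x₁ := by
      have h4 : (1 : ℤ) ≤ (q : ℤ) * q := by nlinarith
      have h5 : (q : ℤ) * P.ord x₁ ≤ 0 := by nlinarith
      have h6 := mul_nonpos_of_nonneg_of_nonpos (sub_nonneg.mpr h4) h5
      linarith
    linarith
  · intro h
    rw [incCusp_ord_pow']
    have h1 := H2.gamma P h
    push_cast at h1 ⊢
    nlinarith

/-- `s_0 = (x₂ - x₁^q) g^(q³)` at one place (`g = G₃`) -/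
theorem IncLq.sZero_reg (H : IncLq (K := K) q x₁ x₂ x₃) (H2 : IncLq2 (K := K) q x₁ x₃)
    (hq : 0 < q) (P : Place K F) (g : F)
    (hg : 0 ≤ P.ord g) (hxg : 0 ≤ P.ord (x₃ * g)) :
    0 ≤ P.ord ((x₂ - x₁ ^ q) * g ^ (q * (q * q))) := by
  have hq1 : (1 : ℤ) ≤ (q : ℤ) := by exact_mod_cast hq
  refine incCusp_place_reg P x₂ (x₁ ^ q) x₃ g (q * (q * q)) hg hxg
    (fun h => H.reg₂ P (H.reg₁_of₃ P h)) ?_ ?_ ?_
  · intro h
    rw [incCusp_ord_pow']
    exact mul_nonneg (Int.natCast_nonneg _) (H.reg₁_of₃ P h)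
  · intro h
    have h1 := H.beta P (H.pole₁_of₃ P h)
    push_cast
    have h3 : (q : ℤ) * (q * q) * P.ord x₃ ≤ (q : ℤ) * P.ord x₃ := by
      have h4 : (1 : ℤ) ≤ (q : ℤ) * q := by nlinarith
      have h5 : (q : ℤ) * P.ord x₃ ≤ 0 := by nlinarith
      have h6 := mul_nonpos_of_nonneg_of_nonpos (sub_nonneg.mpr h4) h5
      linarith
    linarith
  · intro h
    rw [incCusp_ord_pow']
    have h1 := H2.delta P (H.pole₁_of₃ P h)
    push_cast at h1 ⊢
    nlinarith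

end General

section Concrete

variable (M' q : ℕ) [NeZero M'] [NeZero q] (hq : q.Prime) (hqM : ¬ q ∣ M')

/-- `π₁ g` is regular at the places outside `D1` (`g` regular off `∞'`) -/
theorem incCusp_pi1_ord (g : FF M')
    (hg : ∀ v' : Place Kbar (FF M'), v' ≠ infPlaceBar M' → 0 ≤ v'.ord g)
    (P : Place Kbar (FF (M' * q * q))) (hP : P ∉ s36D1 M' q hq hqM) :
    0 ≤ P.ord (ecPi1 M' q g) := by
  rw [← ffMem_iff_ord_nonneg]
  exact (mem_offRegular_iff _ _ _).1 (s36D1_pi1 M' q hq hqM g hg) P hP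

/-- `π₃ g` is regular at the places outside `D1` (`g` regular off `∞'`) -/
theorem incCusp_pi3_ord (g : FF M')
    (hg : ∀ v' : Place Kbar (FF M'), v' ≠ infPlaceBar M' → 0 ≤ v'.ord g)
    (P : Place Kbar (FF (M' * q * q))) (hP : P ∉ s36D1 M' q hq hqM) :
    0 ≤ P.ord (ecPi3 M' q g) := by
  rw [← ffMem_iff_ord_nonneg]
  exact (mem_offRegular_iff _ _ _).1 (s36D1_pi3 M' q hq hqM g hg) P hP

variable (j2 : FF M')
  (hj2 : ∀ v' : Place Kbar (FF M'), v' ≠ infPlaceBar M' → 0 ≤ v'.ord j2)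
  (hjj2 : ∀ v' : Place Kbar (FF M'), v' ≠ infPlaceBar M' → 0 ≤ v'.ord (jF M' * j2))
  (x₂ : FF (M' * q * q))
  (H : IncLq (K := Kbar) q (ecPi1 M' q (jF M')) x₂ (ecPi3 M' q (jF M')))

include hj2 hjj2 H in
/-- `s_b = (π₁ j - x₂^q) (π₁ j₂)^(q²)` is regular off `D1` -/
theorem incCusp_sb_offRegular :
    (ecPi1 M' q (jF M') - x₂ ^ q) * ecPi1 M' q j2 ^ (q * q) ∈
      offRegular (M' * q * q) (s36D1 M' q hq hqM) := by
  rw [mem_offRegular_iff]
  intro P hP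
  rw [ffMem_iff_ord_nonneg]
  refine H.sb_reg hq.pos P _ (incCusp_pi1_ord M' q hq hqM j2 hj2 P hP) ?_
  rw [← map_mul]
  exact incCusp_pi1_ord M' q hq hqM _ hjj2 P hP

include hj2 hjj2 H in
/-- `s_a = (π₃ j - x₂^q) (π₃ j₂)^(q²)` is regular off `D1` -/
theorem incCusp_sa_offRegular :
    (ecPi3 M' q (jF M') - x₂ ^ q) * ecPi3 M' q j2 ^ (q * q) ∈
      offRegular (M' * q * q) (s36D1 M' q hq hqM) := by
  rw [mem_offRegular_iff]
  intro P hP
  rw [ffMem_iff_ord_nonneg]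
  refine H.sa_reg hq.pos P _ (incCusp_pi3_ord M' q hq hqM j2 hj2 P hP) ?_
  rw [← map_mul]
  exact incCusp_pi3_ord M' q hq hqM _ hjj2 P hP

variable (H2 : IncLq2 (K := Kbar) q (ecPi1 M' q (jF M')) (ecPi3 M' q (jF M')))

include hj2 hjj2 H H2 in
/-- `s_∞ = (x₂ - (π₃ j)^q) (π₁ j₂)^(q³)` is regular off `D1` -/
theorem incCusp_sInf_offRegular :
    (x₂ - ecPi3 M' q (jF M') ^ q) * ecPi1 M' q j2 ^ (q * (q * q)) ∈
      offRegular (M' * q * q) (s36D1 M' q hq hqM) := by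
  rw [mem_offRegular_iff]
  intro P hP
  rw [ffMem_iff_ord_nonneg]
  refine H.sInf_reg H2 hq.pos P _ (incCusp_pi1_ord M' q hq hqM j2 hj2 P hP) ?_
  rw [← map_mul]
  exact incCusp_pi1_ord M' q hq hqM _ hjj2 P hP

include hj2 hjj2 H H2 in
/-- `s_0 = (x₂ - (π₁ j)^q) (π₃ j₂)^(q³)` is regular off `D1` -/
theorem incCusp_sZero_offRegular :
    (x₂ - ecPi1 M' q (jF M') ^ q) * ecPi3 M' q j2 ^ (q * (q * q)) ∈
      offRegular (M' * q * q) (s36D1 M' q hq hqM) := by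
  rw [mem_offRegular_iff]
  intro P hP
  rw [ffMem_iff_ord_nonneg]
  refine H.sZero_reg H2 hq.pos P _ (incCusp_pi3_ord M' q hq hqM j2 hj2 P hP) ?_
  rw [← map_mul]
  exact incCusp_pi3_ord M' q hq hqM _ hjj2 P hP

/-- membership in `B_{D1}` of an element of the shape `(a - b) g^n` with `a, b, g` in the three
valuation rings and in `F0`. -/
theorem incCusp_mem_f0AffD (A : ValuationSubring Kbar) (L : ℕ) [NeZero L]
    (D : Set (Place Kbar (FF L))) (O₁ O₂ O₃ : ValuationSubring (FF L))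
    (a b g : FF L) (n : ℕ)
    (haF : a ∈ f0Field A L) (hbF : b ∈ f0Field A L) (hgF : g ∈ f0Field A L)
    (ha : a ∈ O₁ ∧ a ∈ O₂ ∧ a ∈ O₃) (hb : b ∈ O₁ ∧ b ∈ O₂ ∧ b ∈ O₃)
    (hg : g ∈ O₁ ∧ g ∈ O₂ ∧ g ∈ O₃)
    (hreg : (a - b) * g ^ n ∈ offRegular L D) :
    (⟨(a - b) * g ^ n, mul_mem (sub_mem haF hbF) (pow_mem hgF n)⟩ : f0Field A L) ∈
      f0AffD A L D O₁ O₂ O₃ := by
  rw [mem_f0AffD_iff]
  exact ⟨hreg, mul_mem (sub_mem ha.1 hb.1) (pow_mem hg.1 n),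
    mul_mem (sub_mem ha.2.1 hb.2.1) (pow_mem hg.2.1 n),
    mul_mem (sub_mem ha.2.2 hb.2.2) (pow_mem hg.2.2 n)⟩

end Concrete

end Fermat.Agent.S36lib

end
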