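import Mathlib
import Fermat.Agent.S34lib.CuspU
import Fermat.Agent.S34lib.LiftInfCusp
import Fermat.Agent.S36lib.FibreReg

/-!
# Item 83 (S36), piece R-5 / D1-C, sub-piece (L-q) (helper27): orders of `j(q^d)` at the cusps

A CHARACTERISTIC ZERO statement on the places of `FF M` over `j = ∞`.

* `lq_cusp_order`: **the cusp order formula.**  For a place `Q` of `FF M` with a pole of `j`
  there are `m > 0` and `c : ℤ` (the lower left entry of a matrix of the cusp) with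
  `m * Q.ord (j_d) = - gcd(d, c)² · (M / d)` for ALL `d ∣ M`.
* `lq_pole`: every `j_d` has a pole at `Q`.
* `lq_alpha`, `lq_beta`: **(L-q)**: `q · ord_Q j ≤ ord_Q j_q` and `q · ord_Q j_{q²} ≤ ord_Q j_q`
  (pole orders `n₂ ≤ q n₁`, `n₂ ≤ q n₃`).
* `lq_reg_alpha`, `lq_reg_beta`: the consequences at ONE place `Q` of `FF M`:
  `g`, `j g` regular at `Q` ⟹ `j_q g^q` regular at `Q`;
  `g`, `j_{q²} g` regular at `Q` ⟹ `j_q g^q` regular at `Q`.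
* `lq_b_reg`, `lq_b'_reg`: **the shape consumed by REG3-CUSP** (level `M' q²`, `D₁ = {∞, 0, mid_i}`):
  for `j2 ∈ F_{M'}` with `j2` and `j · j2` regular off `∞'`,
  `b = π₂(j) · π₁(j2)^q` and `b' = π₂(j) · π₃(j2)^q` are regular off `D₁`.
* the other products regular off `D₁`: `lq_pi1_reg` (`π₁(j) π₁(j2)`), `lq_pi2_reg`, `lq_pi3_reg`,
  `lq_pi3_pi1_reg` (`π₃(j) π₁(j2)^(q²)`), `lq_pi1_pi3_reg` (`π₁(j) π₃(j2)^(q²)`),
  `lq_pi1_pi2_reg` (`π₁(j) π₂(j2)^q`), `lq_pi3_pi2_reg` (`π₃(j) π₂(j2)^q`).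
* `lq_mono` (`d ∣ d' ∣ M`: `(d'/d) ord j_{d'} ≤ ord j_d`), `lq_gamma`, `lq_pole_iff`.
-/

set_option autoImplicit false
set_option linter.style.haveILetI false
set_option linter.unusedSectionVars false
set_option synthInstance.maxHeartbeats 400000

noncomputable section

namespace Fermat.Agent.S36lib

open UpperHalfPlane ModularForm CongruenceSubgroup ModularCurve AlgebraicCurve
open Fermat.Agent.S24lib Fermat.Agent.S20lib Fermat.Agent.S34lib Fermat.Agent.S37lib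
open Fermat.Agent.HeckeBar
open scoped MatrixGroups

/-- the Hermite normal form of `diag(d, 1) · g` with the EXACT value `a = gcd(d, g₁₀)` -/
theorem lq_hermite (d : ℕ) [NeZero d] (g : SL(2, ℤ)) :
    ∃ (a δ : ℕ) (b : ℤ) (ha : 0 < a) (hδ : 0 < δ),
      a * δ = d ∧ 0 ≤ b ∧ b < δ ∧ a = Int.gcd d (g 1 0) ∧
      ∀ z : ℍ, jH (nmulH d (g • z)) = jH (affH a δ b ha hδ z) := by
  have hgdet : g 0 0 * g 1 1 - g 0 1 * g 1 0 = 1 := by
    have := g.det_coe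
    rw [Matrix.det_fin_two] at this
    exact this
  have hd : (0 : ℤ) < d := by exact_mod_cast Nat.pos_of_ne_zero (NeZero.ne d)
  obtain ⟨p, q, r, s, a, δ, b, hdet, ha, hδ, haδ, hb0, hb1, e00, e01, e10, e11⟩ :=
    conj_hermite_int d hd (g 0 0) (g 0 1) (g 1 0) (g 1 1) hgdet
  lift a to ℕ using ha.le
  lift δ to ℕ using hδ.le
  have ha' : 0 < a := by exact_mod_cast ha
  have hδ' : 0 < δ := by exact_mod_cast hδ
  let γ' : SL(2, ℤ) := ⟨!![p, q; r, s], by rw [Matrix.det_fin_two_of]; exact hdet⟩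
  have hgcd : a = Int.gcd d (g 1 0) := by
    apply Nat.dvd_antisymm
    · apply Int.natCast_dvd_natCast.1
      apply Int.dvd_coe_gcd
      · exact ⟨δ, haδ.symm⟩
      · exact ⟨r, by rw [e10]; ring⟩
    · apply Int.natCast_dvd_natCast.1
      have h1 : ((Int.gcd (d : ℤ) (g 1 0) : ℕ) : ℤ) ∣ (d : ℤ) := Int.gcd_dvd_left _ _
      have h2 : ((Int.gcd (d : ℤ) (g 1 0) : ℕ) : ℤ) ∣ g 1 0 := Int.gcd_dvd_right _ _
      have h3 : (a : ℤ) = s * ((d : ℤ) * g 0 0) - q * g 1 0 := by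
        rw [e00]
        have : q * g 1 0 = q * (r * a) := by rw [← e10]
        rw [this]
        linear_combination (-(a : ℤ)) * hdet
      rw [h3]
      exact dvd_sub (Dvd.dvd.mul_left (Dvd.dvd.mul_right h1 _) _) (Dvd.dvd.mul_left h2 _)
  refine ⟨a, δ, b, ha', hδ', by exact_mod_cast haδ, hb0, hb1, hgcd, fun z => ?_⟩
  have key : nmulH d (g • z) = γ' • affH a δ b ha' hδ' z := by
    apply UpperHalfPlane.ext
    rw [coe_nmulH, UpperHalfPlane.coe_specialLinearGroup_apply,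
      UpperHalfPlane.coe_specialLinearGroup_apply, coe_affH]
    simp only [algebraMap_int_eq, eq_intCast, Complex.ofReal_intCast]
    have hγ00 : γ' 0 0 = p := rfl
    have hγ01 : γ' 0 1 = q := rfl
    have hγ10 : γ' 1 0 = r := rfl
    have hγ11 : γ' 1 1 = s := rfl
    rw [hγ00, hγ01, hγ10, hγ11]
    have hδC : (δ : ℂ) ≠ 0 := by exact_mod_cast hδ'.ne'
    have hden1 : ((g 1 0 : ℤ) : ℂ) * (z : ℂ) + ((g 1 1 : ℤ) : ℂ) ≠ 0 :=
      dist_lin_ne_zero (g 1 0) (g 1 1) (by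
        by_contra hcon
        rw [not_or, not_not, not_not] at hcon
        rw [hcon.1, hcon.2] at hgdet
        simp at hgdet) z
    have hden2 : ((r : ℤ) : ℂ) * (((a : ℂ) * (z : ℂ) + (b : ℂ)) / (δ : ℂ)) + ((s : ℤ) : ℂ)
        ≠ 0 := by
      have := dist_lin_ne_zero r s (by
        by_contra hcon
        rw [not_or, not_not, not_not] at hcon
        rw [hcon.1, hcon.2] at hdet
        simp at hdet) (affH a δ b ha' hδ' z)
      simpa using this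
    have E00 : ((d : ℂ)) * ((g 0 0 : ℤ) : ℂ) = (p : ℂ) * (a : ℂ) := by exact_mod_cast e00
    have E01 : ((d : ℂ)) * ((g 0 1 : ℤ) : ℂ) = (p : ℂ) * (b : ℂ) + (q : ℂ) * (δ : ℂ) := by
      exact_mod_cast e01
    have E10 : ((g 1 0 : ℤ) : ℂ) = (r : ℂ) * (a : ℂ) := by exact_mod_cast e10
    have E11 : ((g 1 1 : ℤ) : ℂ) = (r : ℂ) * (b : ℂ) + (s : ℂ) * (δ : ℂ) := by exact_mod_cast e11
    rw [mul_div_assoc', div_eq_div_iff hden1 hden2]
    field_simp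
    rw [E10, E11]
    linear_combination ((r : ℂ) * ((a : ℂ) * (z : ℂ) + (b : ℂ)) + (s : ℂ) * (δ : ℂ)) *
      ((z : ℂ) * E00 + E01)
  rw [key, jH_smul]

/-- **the order of the conjugates of `j_d`**, `d ∣ N`: for `g' ∈ SL(2,ℤ)` the `q_N`-expansion
of `g' • j_d` has order `-a² · (N/d)` with `a = gcd(d, (g'⁻¹)₁₀)`. -/
theorem lq_order (N d : ℕ) [NeZero N] [NeZero d] (hd : d ∣ N) (g' : SL(2, ℤ)) :
    (expInf N (g' • jdWH N d hd)).order =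
      -(((Int.gcd d ((g'⁻¹ : SL(2, ℤ)) 1 0)) ^ 2 * (N / d) : ℕ) : ℤ) := by
  obtain ⟨a, δ, b, ha, hδ, haδ, -, -, hgcd, hj⟩ := lq_hermite d g'⁻¹
  have hδd : δ ∣ d := Dvd.intro_left a haδ
  have hδN : δ ∣ N := hδd.trans hd
  have hN : 0 < N := Nat.pos_of_ne_zero (NeZero.ne N)
  have hdpos : 0 < d := Nat.pos_of_ne_zero (NeZero.ne d)
  obtain ⟨e, he_def⟩ : ∃ e : ℕ, e = a * (N / δ) := ⟨_, rfl⟩
  have he : 0 < e := by
    rw [he_def]
    exact Nat.mul_pos ha (Nat.div_pos (Nat.le_of_dvd hN hδN) hδ)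
  -- `a * (N / δ) = a² * (N / d)`
  have hearith : e = a ^ 2 * (N / d) := by
    obtain ⟨t, ht⟩ := hd
    have h1 : N / d = t := by rw [ht]; exact Nat.mul_div_cancel_left t hdpos
    have h2 : N / δ = a * t := by
      rw [ht, ← haδ]
      rw [show a * δ * t = δ * (a * t) by ring]
      exact Nat.mul_div_cancel_left _ hδ
    rw [he_def, h1, h2]; ring
  obtain ⟨u, hu⟩ : ∃ u : ℂ, u = zetaC δ ^ b := ⟨_, rfl⟩
  have hune : u ≠ 0 := by
    rw [hu]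
    exact zpow_ne_zero _ (Complex.exp_ne_zero _)
  obtain ⟨c', hc'⟩ : ∃ c' : ℕ → ℂ, c' = fun n : ℕ =>
      ((ModularCurve.jq.coeff ((n : ℤ) - 1) : ℚ) : ℂ) * u ^ ((n : ℤ) - 1) := ⟨_, rfl⟩
  have hsum : ∀ z : ℍ, HasSum (fun k : ℕ => (if e ∣ k then c' (k / e) else 0) *
        Function.Periodic.qParam (N : ℝ) (z : ℂ) ^ k)
      (Function.Periodic.qParam (N : ℝ) (z : ℂ) ^ e *
        ((g' • jdWH N d hd : WH N) : ℍ → ℂ) z) := by
    intro z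
    apply hasSum_pow_reindex e he c'
    have h := hasSum_jH_affH N a δ b ha hδ hN hδN z
    rw [← hu, ← he_def] at h
    have h2 := h.mul_left (u⁻¹)
    have hval : ((g' • jdWH N d hd : WH N) : ℍ → ℂ) z = jH (affH a δ b ha hδ z) := by
      rw [wh_smul_apply]
      show jH (ofComplex ((d : ℂ) * ((g'⁻¹ • z : ℍ) : ℂ))) = _
      rw [jd_raw_eq, hj z]
    have hS : u⁻¹ * (u * Function.Periodic.qParam N (z : ℂ) ^ e * jH (affH a δ b ha hδ z)) =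
        Function.Periodic.qParam N (z : ℂ) ^ e *
          ((g' • jdWH N d hd : WH N) : ℍ → ℂ) z := by
      rw [hval]
      field_simp
    have hF : (fun i : ℕ => u⁻¹ * (((ModularCurve.jq.coeff ((i : ℤ) - 1) : ℚ) : ℂ) *
        (u * Function.Periodic.qParam N (z : ℂ) ^ e) ^ i)) =
        fun n : ℕ => c' n * (Function.Periodic.qParam N (z : ℂ) ^ e) ^ n := by
      funext n
      rw [hc']
      simp only
      rw [mul_pow, zpow_sub_one₀ hune, zpow_natCast]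
      ring
    rw [hS, hF] at h2
    exact h2
  rw [expInf_eq_of_hasSum N (g' • jdWH N d hd) e _ hsum, ← hgcd, ← hearith]
  apply cuspU_order_single_mul
  rw [if_pos (dvd_zero e), Nat.zero_div, hc']
  simp only [Nat.cast_zero, zero_sub]
  rw [coeff_jq_neg_one]
  simp only [Rat.cast_one, one_mul]
  exact zpow_ne_zero _ hune

/-- `jF M = jdF M 1` -/
theorem lq_jF_eq (M : ℕ) : jF M = jdF M 1 (one_dvd M) := by
  apply Subtype.ext
  rw [coe_jF, coe_jdF, qExpand_one_apply]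

/-- **the cusp order formula** -/
theorem lq_cusp_order (M : ℕ) [NeZero M] (Q : Place Kbar (FF M)) (hQ : Q.ord (jF M) < 0) :
    ∃ (m : ℕ) (c : ℤ), 0 < m ∧ ∀ (d : ℕ) [NeZero d] (hd : d ∣ M),
      (m : ℤ) * Q.ord (jdF M d hd) = -(((Int.gcd d c) ^ 2 * (M / d) : ℕ) : ℤ) := by
  letI : Algebra Kbar ℂ := ιC.toAlgebra
  have hj0 : jF M ≠ 0 := by
    intro h
    rw [h, Place.ord_zero] at hQ
    exact lt_irrefl _ hQ
  have hv : 0 < Q.ord (jF M)⁻¹ := by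
    rw [Q.ord_inv]
    omega
  obtain ⟨i, m, hm, hall⟩ := (fiberInf M).exists_index Q hv
  refine ⟨m, (i.out⁻¹ : SL(2, ℤ)) 1 0, hm, ?_⟩
  intro d _ hd
  have hσ : (fiberInf M).σ i (jdF M d hd) = expInf M (i.out • jdWH M d hd) := by
    show σInf M i _ = _
    unfold σInf
    rw [embF_jdF, twist_apply]
  have hjd0 : jdF M d hd ≠ 0 := by
    intro h
    have h1 := hσ
    rw [h, map_zero] at h1
    have h2 := lq_order M d hd i.out
    rw [← h1, HahnSeries.order_zero] at h2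
    have hpos : 0 < (Int.gcd (d : ℤ) ((i.out⁻¹ : SL(2, ℤ)) 1 0)) ^ 2 * (M / d) := by
      apply Nat.mul_pos
      · apply Nat.pow_pos
        apply Nat.pos_of_ne_zero
        intro h0
        rw [Int.gcd_eq_zero_iff] at h0
        exact NeZero.ne d (by exact_mod_cast h0.1)
      · exact Nat.div_pos (Nat.le_of_dvd (Nat.pos_of_ne_zero (NeZero.ne M)) hd)
          (Nat.pos_of_ne_zero (NeZero.ne d))
    have : ((Int.gcd (d : ℤ) ((i.out⁻¹ : SL(2, ℤ)) 1 0) ^ 2 * (M / d) : ℕ) : ℤ) = 0 := by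
      omega
    have h3 : (Int.gcd (d : ℤ) ((i.out⁻¹ : SL(2, ℤ)) 1 0)) ^ 2 * (M / d) = 0 := by
      exact_mod_cast this
    omega
  have h3 := hall (jdF M d hd) hjd0
  rw [hσ, lq_order M d hd i.out] at h3
  rw [← h3]

/-- every `j_d` has a pole at a pole of `j` -/
theorem lq_pole (M : ℕ) [NeZero M] (Q : Place Kbar (FF M)) (hQ : Q.ord (jF M) < 0)
    (d : ℕ) [NeZero d] (hd : d ∣ M) : Q.ord (jdF M d hd) < 0 := by
  obtain ⟨m, c, hm, h⟩ := lq_cusp_order M Q hQ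
  have h1 := h d hd
  have hpos : 0 < (Int.gcd (d : ℤ) c) ^ 2 * (M / d) := by
    apply Nat.mul_pos
    · apply Nat.pow_pos
      apply Nat.pos_of_ne_zero
      intro h0
      rw [Int.gcd_eq_zero_iff] at h0
      exact NeZero.ne d (by exact_mod_cast h0.1)
    · exact Nat.div_pos (Nat.le_of_dvd (Nat.pos_of_ne_zero (NeZero.ne M)) hd)
        (Nat.pos_of_ne_zero (NeZero.ne d))
  have hpos' : (0 : ℤ) < (((Int.gcd (d : ℤ) c) ^ 2 * (M / d) : ℕ) : ℤ) := by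
    exact_mod_cast hpos
  have hm' : (0 : ℤ) < (m : ℤ) := by exact_mod_cast hm
  by_contra hcon
  rw [not_lt] at hcon
  have := mul_nonneg hm'.le hcon
  omega

/-- **(L-q), first half**: `n₂ ≤ q n₁`, i.e. `q · ord_Q j ≤ ord_Q j_q` at every pole of `j` -/
theorem lq_alpha (M q : ℕ) [NeZero M] [NeZero q] (hq : q ∣ M) (Q : Place Kbar (FF M))
    (hQ : Q.ord (jF M) < 0) : (q : ℤ) * Q.ord (jF M) ≤ Q.ord (jdF M q hq) := by
  obtain ⟨m, c, hm, h⟩ := lq_cusp_order M Q hQ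
  have h1 := h 1 (one_dvd M)
  have hq' := h q hq
  rw [← lq_jF_eq] at h1
  have hm' : (0 : ℤ) < (m : ℤ) := by exact_mod_cast hm
  have hg1 : Int.gcd ((1 : ℕ) : ℤ) c = 1 := by
    rw [Nat.cast_one, Int.one_gcd]
  rw [hg1, one_pow, one_mul, Nat.div_one] at h1
  have hqpos : 0 < q := Nat.pos_of_ne_zero (NeZero.ne q)
  have hgle : Int.gcd (q : ℤ) c ≤ q := by
    have h2 : (Int.gcd (q : ℤ) c : ℤ) ∣ (q : ℤ) := Int.gcd_dvd_left _ _
    exact Nat.le_of_dvd hqpos (Int.natCast_dvd_natCast.1 h2)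
  have hMq : M / q * q = M := Nat.div_mul_cancel hq
  have hle : (Int.gcd (q : ℤ) c) ^ 2 * (M / q) ≤ q * M := by
    calc (Int.gcd (q : ℤ) c) ^ 2 * (M / q) ≤ q ^ 2 * (M / q) :=
          Nat.mul_le_mul_right _ (Nat.pow_le_pow_left hgle 2)
      _ = q * (M / q * q) := by ring
      _ = q * M := by rw [hMq]
  have hle' : (((Int.gcd (q : ℤ) c) ^ 2 * (M / q) : ℕ) : ℤ) ≤ (q : ℤ) * (M : ℤ) := by
    exact_mod_cast hle
  have key : (m : ℤ) * ((q : ℤ) * Q.ord (jF M)) ≤ (m : ℤ) * Q.ord (jdF M q hq) := by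
    rw [hq']
    have : (m : ℤ) * ((q : ℤ) * Q.ord (jF M)) = (q : ℤ) * ((m : ℤ) * Q.ord (jF M)) := by ring
    rw [this, h1]
    have : (q : ℤ) * -((M : ℕ) : ℤ) = -((q : ℤ) * (M : ℤ)) := by ring
    rw [this]
    exact neg_le_neg hle'
  exact le_of_mul_le_mul_left key hm'

/-- **monotonicity in `d`**: for `d ∣ d' ∣ M`, `(d'/d) · ord_Q j_{d'} ≤ ord_Q j_d` at every pole
of `j` (pole orders `n_d ≤ (d'/d) n_{d'}`) -/
theorem lq_mono (M d d' : ℕ) [NeZero M] [NeZero d] [NeZero d'] (hdd' : d ∣ d') (hd' : d' ∣ M)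
    (Q : Place Kbar (FF M)) (hQ : Q.ord (jF M) < 0) :
    ((d' / d : ℕ) : ℤ) * Q.ord (jdF M d' hd') ≤ Q.ord (jdF M d (hdd'.trans hd')) := by
  obtain ⟨m, c, hm, h⟩ := lq_cusp_order M Q hQ
  have hq' := h d (hdd'.trans hd')
  have hqq := h d' hd'
  have hm' : (0 : ℤ) < (m : ℤ) := by exact_mod_cast hm
  have hdpos : 0 < d := Nat.pos_of_ne_zero (NeZero.ne d)
  have hd'pos : 0 < d' := Nat.pos_of_ne_zero (NeZero.ne d')
  have hgdvd : Int.gcd (d : ℤ) c ∣ Int.gcd (d' : ℤ) c := by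
    apply Int.natCast_dvd_natCast.1
    apply Int.dvd_coe_gcd
    · exact (Int.gcd_dvd_left _ _).trans (Int.natCast_dvd_natCast.2 hdd')
    · exact Int.gcd_dvd_right _ _
  have hg0 : 0 < Int.gcd (d' : ℤ) c := by
    apply Nat.pos_of_ne_zero
    intro h0
    rw [Int.gcd_eq_zero_iff] at h0
    exact NeZero.ne d' (by exact_mod_cast h0.1)
  have hgle : Int.gcd (d : ℤ) c ≤ Int.gcd (d' : ℤ) c := Nat.le_of_dvd hg0 hgdvd
  have hMq : M / d = d' / d * (M / d') := by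
    obtain ⟨e, rfl⟩ := hdd'
    obtain ⟨t, rfl⟩ := hd'
    rw [Nat.mul_div_cancel_left e hdpos, Nat.mul_div_cancel_left t hd'pos,
      show d * e * t = d * (e * t) by ring, Nat.mul_div_cancel_left _ hdpos]
  have hle : (Int.gcd (d : ℤ) c) ^ 2 * (M / d) ≤
      d' / d * ((Int.gcd (d' : ℤ) c) ^ 2 * (M / d')) := by
    rw [hMq]
    calc (Int.gcd (d : ℤ) c) ^ 2 * (d' / d * (M / d'))
        ≤ (Int.gcd (d' : ℤ) c) ^ 2 * (d' / d * (M / d')) :=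
          Nat.mul_le_mul_right _ (Nat.pow_le_pow_left hgle 2)
      _ = d' / d * ((Int.gcd (d' : ℤ) c) ^ 2 * (M / d')) := by ring
  have hle' : (((Int.gcd (d : ℤ) c) ^ 2 * (M / d) : ℕ) : ℤ) ≤
      ((d' / d : ℕ) : ℤ) * (((Int.gcd (d' : ℤ) c) ^ 2 * (M / d') : ℕ) : ℤ) := by
    exact_mod_cast hle
  have key : (m : ℤ) * (((d' / d : ℕ) : ℤ) * Q.ord (jdF M d' hd')) ≤
      (m : ℤ) * Q.ord (jdF M d (hdd'.trans hd')) := by
    rw [hq']
    have : (m : ℤ) * (((d' / d : ℕ) : ℤ) * Q.ord (jdF M d' hd')) =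
        ((d' / d : ℕ) : ℤ) * ((m : ℤ) * Q.ord (jdF M d' hd')) := by ring
    rw [this, hqq]
    have : ((d' / d : ℕ) : ℤ) * -(((Int.gcd (d' : ℤ) c) ^ 2 * (M / d') : ℕ) : ℤ) =
        -(((d' / d : ℕ) : ℤ) * (((Int.gcd (d' : ℤ) c) ^ 2 * (M / d') : ℕ) : ℤ)) := by ring
    rw [this]
    exact neg_le_neg hle'
  exact le_of_mul_le_mul_left key hm'

/-- **(L-q), second half**: `n₂ ≤ q n₃`, i.e. `q · ord_Q j_{q²} ≤ ord_Q j_q` at every pole
of `j` -/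
theorem lq_beta (M q : ℕ) [NeZero M] [NeZero q] [NeZero (q * q)] (hq2 : q * q ∣ M)
    (Q : Place Kbar (FF M)) (hQ : Q.ord (jF M) < 0) :
    (q : ℤ) * Q.ord (jdF M (q * q) hq2) ≤
      Q.ord (jdF M q (Dvd.dvd.trans (dvd_mul_right q q) hq2)) := by
  have h := lq_mono M q (q * q) (dvd_mul_right q q) hq2 Q hQ
  rwa [Nat.mul_div_cancel_left q (Nat.pos_of_ne_zero (NeZero.ne q))] at h

/-- `d · ord_Q j_d ≤ ord_Q j` at every pole of `j` (pole orders `n₁ ≤ d n_d`) -/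
theorem lq_gamma (M d : ℕ) [NeZero M] [NeZero d] (hd : d ∣ M) (Q : Place Kbar (FF M))
    (hQ : Q.ord (jF M) < 0) : (d : ℤ) * Q.ord (jdF M d hd) ≤ Q.ord (jF M) := by
  have h := lq_mono M 1 d (one_dvd d) hd Q hQ
  rwa [Nat.div_one, ← lq_jF_eq] at h

/-- a pole of `j_d` is a pole of `j`, and conversely -/
theorem lq_pole_iff (M : ℕ) [NeZero M] (Q : Place Kbar (FF M)) (d : ℕ) [NeZero d]
    (hd : d ∣ M) : Q.ord (jdF M d hd) < 0 ↔ Q.ord (jF M) < 0 := by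
  constructor
  · intro h
    by_contra hcon
    rw [not_lt] at hcon
    have := liftInf_ord_jdF_nonneg Q hcon d hd
    omega
  · intro h
    exact lq_pole M Q h d hd

/-! ### Consequences at one place -/

theorem lq_ord_pow (M : ℕ) (Q : Place Kbar (FF M)) (f : FF M) (n : ℕ) :
    Q.ord (f ^ n) = (n : ℤ) * Q.ord f := by
  rw [← zpow_natCast, Q.ord_zpow]

/-- `g` and `j g` regular at `Q` ⟹ `j_q g^q` regular at `Q` -/
theorem lq_reg_alpha (M q : ℕ) [NeZero M] [NeZero q] (hq : q ∣ M) (Q : Place Kbar (FF M))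
    (g : FF M) (hg : 0 ≤ Q.ord g) (hjg : 0 ≤ Q.ord (jF M * g)) :
    0 ≤ Q.ord (jdF M q hq * g ^ q) := by
  rcases eq_or_ne g 0 with rfl | hg0
  · rw [zero_pow (NeZero.ne q), mul_zero, Place.ord_zero]
  rcases eq_or_ne (jdF M q hq) 0 with h0 | hjq0
  · rw [h0, zero_mul, Place.ord_zero]
  rw [Q.ord_mul hjq0 (pow_ne_zero _ hg0), lq_ord_pow]
  have hqpos : (0 : ℤ) ≤ (q : ℤ) := Int.natCast_nonneg q
  rcases lt_or_ge (Q.ord (jF M)) 0 with hQ | hQ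
  · have hj0 : jF M ≠ 0 := by
      intro h
      rw [h, Place.ord_zero] at hQ
      exact lt_irrefl _ hQ
    rw [Q.ord_mul hj0 hg0] at hjg
    have h1 := lq_alpha M q hq Q hQ
    have h2 : 0 ≤ (q : ℤ) * (Q.ord (jF M) + Q.ord g) := mul_nonneg hqpos hjg
    rw [mul_add] at h2
    linarith
  · have h1 := liftInf_ord_jdF_nonneg Q hQ q hq
    have h2 : 0 ≤ (q : ℤ) * Q.ord g := mul_nonneg hqpos hg
    linarith

/-- `g` and `j_{q²} g` regular at `Q` ⟹ `j_q g^q` regular at `Q` -/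
theorem lq_reg_beta (M q : ℕ) [NeZero M] [NeZero q] [NeZero (q * q)] (hq2 : q * q ∣ M)
    (Q : Place Kbar (FF M)) (g : FF M) (hg : 0 ≤ Q.ord g)
    (hjg : 0 ≤ Q.ord (jdF M (q * q) hq2 * g)) :
    0 ≤ Q.ord (jdF M q (Dvd.dvd.trans (dvd_mul_right q q) hq2) * g ^ q) := by
  rcases eq_or_ne g 0 with rfl | hg0
  · rw [zero_pow (NeZero.ne q), mul_zero, Place.ord_zero]
  rcases eq_or_ne (jdF M q (Dvd.dvd.trans (dvd_mul_right q q) hq2)) 0 with h0 | hjq0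
  · rw [h0, zero_mul, Place.ord_zero]
  rw [Q.ord_mul hjq0 (pow_ne_zero _ hg0), lq_ord_pow]
  have hqpos : (0 : ℤ) ≤ (q : ℤ) := Int.natCast_nonneg q
  rcases lt_or_ge (Q.ord (jF M)) 0 with hQ | hQ
  · have hj0 : jdF M (q * q) hq2 ≠ 0 := by
      intro h
      have := lq_pole M Q hQ (q * q) hq2
      rw [h, Place.ord_zero] at this
      exact lt_irrefl _ this
    rw [Q.ord_mul hj0 hg0] at hjg
    have h1 := lq_beta M q hq2 Q hQ
    have h2 : 0 ≤ (q : ℤ) * (Q.ord (jdF M (q * q) hq2) + Q.ord g) := mul_nonneg hqpos hjg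
    rw [mul_add] at h2
    linarith
  · have h1 := liftInf_ord_jdF_nonneg Q hQ q (Dvd.dvd.trans (dvd_mul_right q q) hq2)
    have h2 : 0 ≤ (q : ℤ) * Q.ord g := mul_nonneg hqpos hg
    linarith

/-- `g` and `j_d g` regular at `Q` ⟹ `j g^d` regular at `Q` -/
theorem lq_reg_gamma (M d : ℕ) [NeZero M] [NeZero d] (hd : d ∣ M)
    (Q : Place Kbar (FF M)) (g : FF M) (hg : 0 ≤ Q.ord g)
    (hjg : 0 ≤ Q.ord (jdF M d hd * g)) :
    0 ≤ Q.ord (jF M * g ^ d) := by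
  rcases eq_or_ne g 0 with rfl | hg0
  · rw [zero_pow (NeZero.ne d), mul_zero, Place.ord_zero]
  rcases eq_or_ne (jF M) 0 with h0 | hj0
  · rw [h0, zero_mul, Place.ord_zero]
  rw [Q.ord_mul hj0 (pow_ne_zero _ hg0), lq_ord_pow]
  have hqpos : (0 : ℤ) ≤ (d : ℤ) := Int.natCast_nonneg d
  rcases lt_or_ge (Q.ord (jF M)) 0 with hQ | hQ
  · have hjd0 : jdF M d hd ≠ 0 := by
      intro h
      have := lq_pole M Q hQ d hd
      rw [h, Place.ord_zero] at this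
      exact lt_irrefl _ this
    rw [Q.ord_mul hjd0 hg0] at hjg
    have h1 := lq_gamma M d hd Q hQ
    have h2 : 0 ≤ (d : ℤ) * (Q.ord (jdF M d hd) + Q.ord g) := mul_nonneg hqpos hjg
    rw [mul_add] at h2
    linarith
  · have h2 : 0 ≤ (d : ℤ) * Q.ord g := mul_nonneg hqpos hg
    linarith

/-! ### The shape consumed by REG3-CUSP: level `M' q²`, `D₁ = {∞, 0, mid_i}` -/

section D1

variable (M' q : ℕ) [NeZero M'] [NeZero q]

theorem lq_pi1_jF : ecPi1 M' q (jF M') = jF (M' * q * q) := by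
  apply Subtype.ext
  rw [← ecInf_apply, ecInf_pi1, coe_jF, coe_jF]

omit [NeZero M'] [NeZero q] in
theorem lq_jdF_congr (M : ℕ) (d d' : ℕ) [NeZero d] [NeZero d'] (h : d = d') (hd : d ∣ M)
    (hd' : d' ∣ M) : jdF M d hd = jdF M d' hd' := by
  subst h
  rfl

theorem lq_pi2_jF :
    ecPi2 M' q (jF M') = jdF (M' * q * q) q (dvd_mul_left q (M' * q)) := by
  haveI : NeZero (1 * q) := ⟨by rw [one_mul]; exact NeZero.ne q⟩
  rw [lq_jF_eq, ecPi2_jdF M' q 1 (one_dvd M')]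
  exact lq_jdF_congr _ _ _ (one_mul q) _ _

theorem lq_pi3_jF [NeZero (q * q)] :
    ecPi3 M' q (jF M') = jdF (M' * q * q) (q * q) ⟨M', by ring⟩ := by
  haveI : NeZero (1 * q) := ⟨by rw [one_mul]; exact NeZero.ne q⟩
  haveI : NeZero (1 * q * q) := ⟨by rw [one_mul]; exact NeZero.ne (q * q)⟩
  rw [lq_jF_eq, ecPi3_jdF M' q 1 (one_dvd M')]
  exact lq_jdF_congr _ _ _ (by rw [one_mul]) _ _

variable (hq : q.Prime) (hqM : ¬ q ∣ M') (ζ₀ : Kbarˣ) (hζ₀ : IsPrimitiveRoot (ζ₀ : Kbar) q)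

/-- **(L-q) for `b`**: `π₂(j) · π₁(j2)^q` is regular off `D₁` -/
theorem lq_b_reg (j2 : FF M')
    (hj2 : ∀ v' : Place Kbar (FF M'), v' ≠ infPlaceBar M' → 0 ≤ v'.ord j2)
    (hjj2 : ∀ v' : Place Kbar (FF M'), v' ≠ infPlaceBar M' → 0 ≤ v'.ord (jF M' * j2))
    (P : Place Kbar (FF (M' * q * q)))
    (hPinf : P ≠ infPlaceBar (M' * q * q)) (h0 : P ≠ fbmZero M' q hq hqM)
    (hmid : ∀ i, P ≠ fbmMid M' q hq hqM ζ₀ hζ₀ i) :
    0 ≤ P.ord (ecPi2 M' q (jF M') * ecPi1 M' q j2 ^ q) := by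
  have h1 := fbm_reg_pi1 M' q hq hqM ζ₀ hζ₀ j2 hj2 P hPinf h0 hmid
  have h2 := fbm_reg_pi1 M' q hq hqM ζ₀ hζ₀ (jF M' * j2) hjj2 P hPinf h0 hmid
  rw [map_mul, lq_pi1_jF] at h2
  rw [lq_pi2_jF]
  exact lq_reg_alpha (M' * q * q) q _ P _ h1 h2

/-- **(L-q) for `b'`**: `π₂(j) · π₃(j2)^q` is regular off `D₁` -/
theorem lq_b'_reg (j2 : FF M')
    (hj2 : ∀ v' : Place Kbar (FF M'), v' ≠ infPlaceBar M' → 0 ≤ v'.ord j2)
    (hjj2 : ∀ v' : Place Kbar (FF M'), v' ≠ infPlaceBar M' → 0 ≤ v'.ord (jF M' * j2))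
    (P : Place Kbar (FF (M' * q * q)))
    (hPinf : P ≠ infPlaceBar (M' * q * q)) (h0 : P ≠ fbmZero M' q hq hqM)
    (hmid : ∀ i, P ≠ fbmMid M' q hq hqM ζ₀ hζ₀ i) :
    0 ≤ P.ord (ecPi2 M' q (jF M') * ecPi3 M' q j2 ^ q) := by
  haveI : NeZero (q * q) := ⟨mul_ne_zero (NeZero.ne q) (NeZero.ne q)⟩
  have h1 := fbm_reg_pi3 M' q hq hqM ζ₀ hζ₀ j2 hj2 P hPinf h0 hmid
  have h2 := fbm_reg_pi3 M' q hq hqM ζ₀ hζ₀ (jF M' * j2) hjj2 P hPinf h0 hmid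
  rw [map_mul, lq_pi3_jF] at h2
  rw [lq_pi2_jF]
  exact lq_reg_beta (M' * q * q) q _ P _ h1 h2

/-- `π₁(j) · π₁(j2)` is regular off `D₁` -/
theorem lq_pi1_reg (j2 : FF M')
    (hjj2 : ∀ v' : Place Kbar (FF M'), v' ≠ infPlaceBar M' → 0 ≤ v'.ord (jF M' * j2))
    (P : Place Kbar (FF (M' * q * q)))
    (hPinf : P ≠ infPlaceBar (M' * q * q)) (h0 : P ≠ fbmZero M' q hq hqM)
    (hmid : ∀ i, P ≠ fbmMid M' q hq hqM ζ₀ hζ₀ i) :
    0 ≤ P.ord (ecPi1 M' q (jF M') * ecPi1 M' q j2) := by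
  have h2 := fbm_reg_pi1 M' q hq hqM ζ₀ hζ₀ (jF M' * j2) hjj2 P hPinf h0 hmid
  rwa [map_mul] at h2

/-- `π₃(j) · π₃(j2)` is regular off `D₁` -/
theorem lq_pi3_reg (j2 : FF M')
    (hjj2 : ∀ v' : Place Kbar (FF M'), v' ≠ infPlaceBar M' → 0 ≤ v'.ord (jF M' * j2))
    (P : Place Kbar (FF (M' * q * q)))
    (hPinf : P ≠ infPlaceBar (M' * q * q)) (h0 : P ≠ fbmZero M' q hq hqM)
    (hmid : ∀ i, P ≠ fbmMid M' q hq hqM ζ₀ hζ₀ i) :
    0 ≤ P.ord (ecPi3 M' q (jF M') * ecPi3 M' q j2) := by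
  have h2 := fbm_reg_pi3 M' q hq hqM ζ₀ hζ₀ (jF M' * j2) hjj2 P hPinf h0 hmid
  rwa [map_mul] at h2

/-- `π₂(j) · π₂(j2)` is regular off `D₁` -/
theorem lq_pi2_reg (j2 : FF M')
    (hjj2 : ∀ v' : Place Kbar (FF M'), v' ≠ infPlaceBar M' → 0 ≤ v'.ord (jF M' * j2))
    (P : Place Kbar (FF (M' * q * q)))
    (hPinf : P ≠ infPlaceBar (M' * q * q)) (h0 : P ≠ fbmZero M' q hq hqM)
    (hmid : ∀ i, P ≠ fbmMid M' q hq hqM ζ₀ hζ₀ i) :
    0 ≤ P.ord (ecPi2 M' q (jF M') * ecPi2 M' q j2) := by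
  have h2 := fbm_reg_pi2 M' q hq hqM ζ₀ hζ₀ (jF M' * j2) hjj2 P hPinf h0 hmid
  rwa [map_mul] at h2

/-- `π₃(j) · π₁(j2)^(q²)` is regular off `D₁` -/
theorem lq_pi3_pi1_reg (j2 : FF M')
    (hj2 : ∀ v' : Place Kbar (FF M'), v' ≠ infPlaceBar M' → 0 ≤ v'.ord j2)
    (hjj2 : ∀ v' : Place Kbar (FF M'), v' ≠ infPlaceBar M' → 0 ≤ v'.ord (jF M' * j2))
    (P : Place Kbar (FF (M' * q * q)))
    (hPinf : P ≠ infPlaceBar (M' * q * q)) (h0 : P ≠ fbmZero M' q hq hqM)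
    (hmid : ∀ i, P ≠ fbmMid M' q hq hqM ζ₀ hζ₀ i) :
    0 ≤ P.ord (ecPi3 M' q (jF M') * ecPi1 M' q j2 ^ (q * q)) := by
  haveI : NeZero (q * q) := ⟨mul_ne_zero (NeZero.ne q) (NeZero.ne q)⟩
  have h1 := fbm_reg_pi1 M' q hq hqM ζ₀ hζ₀ j2 hj2 P hPinf h0 hmid
  have h2 := fbm_reg_pi1 M' q hq hqM ζ₀ hζ₀ (jF M' * j2) hjj2 P hPinf h0 hmid
  rw [map_mul, lq_pi1_jF] at h2
  rw [lq_pi3_jF]
  exact lq_reg_alpha (M' * q * q) (q * q) _ P _ h1 h2

/-- `π₁(j) · π₃(j2)^(q²)` is regular off `D₁` -/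
theorem lq_pi1_pi3_reg (j2 : FF M')
    (hj2 : ∀ v' : Place Kbar (FF M'), v' ≠ infPlaceBar M' → 0 ≤ v'.ord j2)
    (hjj2 : ∀ v' : Place Kbar (FF M'), v' ≠ infPlaceBar M' → 0 ≤ v'.ord (jF M' * j2))
    (P : Place Kbar (FF (M' * q * q)))
    (hPinf : P ≠ infPlaceBar (M' * q * q)) (h0 : P ≠ fbmZero M' q hq hqM)
    (hmid : ∀ i, P ≠ fbmMid M' q hq hqM ζ₀ hζ₀ i) :
    0 ≤ P.ord (ecPi1 M' q (jF M') * ecPi3 M' q j2 ^ (q * q)) := by
  haveI : NeZero (q * q) := ⟨mul_ne_zero (NeZero.ne q) (NeZero.ne q)⟩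
  have h1 := fbm_reg_pi3 M' q hq hqM ζ₀ hζ₀ j2 hj2 P hPinf h0 hmid
  have h2 := fbm_reg_pi3 M' q hq hqM ζ₀ hζ₀ (jF M' * j2) hjj2 P hPinf h0 hmid
  rw [map_mul, lq_pi3_jF] at h2
  rw [lq_pi1_jF]
  exact lq_reg_gamma (M' * q * q) (q * q) _ P _ h1 h2

/-- `π₁(j) · π₂(j2)^q` is regular off `D₁` -/
theorem lq_pi1_pi2_reg (j2 : FF M')
    (hj2 : ∀ v' : Place Kbar (FF M'), v' ≠ infPlaceBar M' → 0 ≤ v'.ord j2)
    (hjj2 : ∀ v' : Place Kbar (FF M'), v' ≠ infPlaceBar M' → 0 ≤ v'.ord (jF M' * j2))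
    (P : Place Kbar (FF (M' * q * q)))
    (hPinf : P ≠ infPlaceBar (M' * q * q)) (h0 : P ≠ fbmZero M' q hq hqM)
    (hmid : ∀ i, P ≠ fbmMid M' q hq hqM ζ₀ hζ₀ i) :
    0 ≤ P.ord (ecPi1 M' q (jF M') * ecPi2 M' q j2 ^ q) := by
  have h1 := fbm_reg_pi2 M' q hq hqM ζ₀ hζ₀ j2 hj2 P hPinf h0 hmid
  have h2 := fbm_reg_pi2 M' q hq hqM ζ₀ hζ₀ (jF M' * j2) hjj2 P hPinf h0 hmid
  rw [map_mul, lq_pi2_jF] at h2
  rw [lq_pi1_jF]
  exact lq_reg_gamma (M' * q * q) q _ P _ h1 h2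

/-- `π₃(j) · π₂(j2)^q` is regular off `D₁` -/
theorem lq_pi3_pi2_reg (j2 : FF M')
    (hj2 : ∀ v' : Place Kbar (FF M'), v' ≠ infPlaceBar M' → 0 ≤ v'.ord j2)
    (hjj2 : ∀ v' : Place Kbar (FF M'), v' ≠ infPlaceBar M' → 0 ≤ v'.ord (jF M' * j2))
    (P : Place Kbar (FF (M' * q * q)))
    (hPinf : P ≠ infPlaceBar (M' * q * q)) (h0 : P ≠ fbmZero M' q hq hqM)
    (hmid : ∀ i, P ≠ fbmMid M' q hq hqM ζ₀ hζ₀ i) :
    0 ≤ P.ord (ecPi3 M' q (jF M') * ecPi2 M' q j2 ^ q) := by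
  haveI : NeZero (q * q) := ⟨mul_ne_zero (NeZero.ne q) (NeZero.ne q)⟩
  have h1 := fbm_reg_pi2 M' q hq hqM ζ₀ hζ₀ j2 hj2 P hPinf h0 hmid
  have h2 := fbm_reg_pi2 M' q hq hqM ζ₀ hζ₀ (jF M' * j2) hjj2 P hPinf h0 hmid
  rw [map_mul, lq_pi2_jF] at h2
  rw [lq_pi3_jF]
  rcases eq_or_ne (ecPi2 M' q j2) 0 with hz | hg0
  · rw [hz, zero_pow (NeZero.ne q), mul_zero, Place.ord_zero]
  rcases eq_or_ne (jdF (M' * q * q) (q * q) ⟨M', by ring⟩) 0 with hz | hj0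
  · rw [hz, zero_mul, Place.ord_zero]
  rw [P.ord_mul hj0 (pow_ne_zero _ hg0), lq_ord_pow]
  have hqpos : (0 : ℤ) ≤ (q : ℤ) := Int.natCast_nonneg q
  rcases lt_or_ge (P.ord (jF (M' * q * q))) 0 with hQ | hQ
  · have hjq0 : jdF (M' * q * q) q (dvd_mul_left q (M' * q)) ≠ 0 := by
      intro h
      have := lq_pole (M' * q * q) P hQ q (dvd_mul_left q (M' * q))
      rw [h, Place.ord_zero] at this
      exact lt_irrefl _ this
    rw [P.ord_mul hjq0 hg0] at h2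
    -- `n₃ ≤ q n₂`: `lq_alpha`-type bound between `j_q` and `j_{q²}`
    obtain ⟨m, c, hm, h⟩ := lq_cusp_order (M' * q * q) P hQ
    have e1 := h q (dvd_mul_left q (M' * q))
    have e2 := h (q * q) ⟨M', by ring⟩
    have hm' : (0 : ℤ) < (m : ℤ) := by exact_mod_cast hm
    have hqp : 0 < q := Nat.pos_of_ne_zero (NeZero.ne q)
    have hdiv1 : M' * q * q / q = M' * q := Nat.mul_div_cancel _ hqp
    have hdiv2 : M' * q * q / (q * q) = M' := by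
      rw [mul_assoc]
      exact Nat.mul_div_cancel _ (Nat.mul_pos hqp hqp)
    rw [hdiv1] at e1
    rw [hdiv2] at e2
    -- `gcd(q², c) ≤ q · gcd(q, c)`
    have hg : Int.gcd ((q * q : ℕ) : ℤ) c ≤ q * Int.gcd (q : ℤ) c := by
      apply Nat.le_of_dvd
      · apply Nat.mul_pos hqp
        apply Nat.pos_of_ne_zero
        intro h0'
        rw [Int.gcd_eq_zero_iff] at h0'
        exact NeZero.ne q (by exact_mod_cast h0'.1)
      · have := Int.gcd_mul_left (q : ℤ) (q : ℤ) c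
        -- gcd(q*q, c) ∣ gcd(q*q, q*c) = q * gcd(q, c)
        have h3 : Int.gcd ((q * q : ℕ) : ℤ) c ∣ Int.gcd ((q : ℤ) * (q : ℤ)) ((q : ℤ) * c) := by
          apply Int.natCast_dvd_natCast.1
          apply Int.dvd_coe_gcd
          · rw [Nat.cast_mul]
            exact Int.gcd_dvd_left _ _
          · exact (Int.gcd_dvd_right _ _).mul_left _
        rw [Int.gcd_mul_left, Int.natAbs_natCast] at h3
        exact h3
    have hle : (Int.gcd ((q * q : ℕ) : ℤ) c) ^ 2 * M' ≤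
        q * ((Int.gcd (q : ℤ) c) ^ 2 * (M' * q)) := by
      calc (Int.gcd ((q * q : ℕ) : ℤ) c) ^ 2 * M'
          ≤ (q * Int.gcd (q : ℤ) c) ^ 2 * M' :=
            Nat.mul_le_mul_right _ (Nat.pow_le_pow_left hg 2)
        _ = q * ((Int.gcd (q : ℤ) c) ^ 2 * (M' * q)) := by ring
    have hle' : (((Int.gcd ((q * q : ℕ) : ℤ) c) ^ 2 * M' : ℕ) : ℤ) ≤
        (q : ℤ) * (((Int.gcd (q : ℤ) c) ^ 2 * (M' * q) : ℕ) : ℤ) := by
      exact_mod_cast hle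
    have key : (m : ℤ) * ((q : ℤ) * P.ord (jdF (M' * q * q) q (dvd_mul_left q (M' * q)))) ≤
        (m : ℤ) * P.ord (jdF (M' * q * q) (q * q) ⟨M', by ring⟩) := by
      rw [e2]
      have : (m : ℤ) * ((q : ℤ) * P.ord (jdF (M' * q * q) q (dvd_mul_left q (M' * q)))) =
          (q : ℤ) * ((m : ℤ) * P.ord (jdF (M' * q * q) q (dvd_mul_left q (M' * q)))) := by
        ring
      rw [this, e1]
      have : (q : ℤ) * -(((Int.gcd (q : ℤ) c) ^ 2 * (M' * q) : ℕ) : ℤ) =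
          -((q : ℤ) * (((Int.gcd (q : ℤ) c) ^ 2 * (M' * q) : ℕ) : ℤ)) := by ring
      rw [this]
      exact neg_le_neg hle'
    have h1' := le_of_mul_le_mul_left key hm'
    have h3 : 0 ≤ (q : ℤ) * (P.ord (jdF (M' * q * q) q (dvd_mul_left q (M' * q))) +
        P.ord (ecPi2 M' q j2)) := mul_nonneg hqpos h2
    rw [mul_add] at h3
    linarith
  · have h1' := liftInf_ord_jdF_nonneg P hQ (q * q) ⟨M', by ring⟩
    have h3 : 0 ≤ (q : ℤ) * P.ord (ecPi2 M' q j2) := mul_nonneg hqpos h1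
    linarith

end D1

end Fermat.Agent.S36lib
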