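import Mathlib
import Fermat.Agent.S36lib.IncCuspFF
import Fermat.Agent.S36lib.Reg3Lq

/-!
# Item 83 (S36), piece "INC at the cusps", concrete part 2 (helper23).  Complete proofs.

The pole order inequalities `IncLq`, `IncLq2` of `IncCuspFF.lean` for
`x₁ = π₁ j`, `x₂ = π₂ j`, `x₃ = π₃ j` at level `M = M' q²`, from helper27's `Reg3Lq.lean`, and the
unconditional statements: for `j₂ ∈ F_{M'}` with `j₂` and `j j₂` regular off `∞'`,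

* `incCusp_sa_reg`  : `(π₃ j - (π₂ j)^q) (π₃ j₂)^(q²) ∈ offRegular M D1`;
* `incCusp_sb_reg`  : `(π₁ j - (π₂ j)^q) (π₁ j₂)^(q²) ∈ offRegular M D1`;
* `incCusp_sInf_reg`: `(π₂ j - (π₃ j)^q) (π₁ j₂)^(q³) ∈ offRegular M D1`;
* `incCusp_sZero_reg`: `(π₂ j - (π₁ j)^q) (π₃ j₂)^(q³) ∈ offRegular M D1`;
* `incCusp_sa_mem`, `incCusp_sb_mem`, `incCusp_sInf_mem`, `incCusp_sZero_mem`: membership in
  `B_{D1} = f0AffD A M D1 O₁ O₂ O₃` (given that `π_i j`, `π_i j₂` lie in the three valuation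
  rings and `j₂ ∈ F0(M')`).
-/

set_option autoImplicit false
set_option linter.style.haveILetI false
set_option linter.unusedSectionVars false
set_option synthInstance.maxHeartbeats 400000

noncomputable section

namespace Fermat.Agent.S36lib

open AlgebraicCurve ModularCurve HahnSeries
open Fermat.Agent.S24lib Fermat.Agent.S34lib Fermat.Agent.S37lib Fermat.Agent.HeckeBar
open Fermat.Agent.S35lib

variable (M' q : ℕ) [NeZero M'] [NeZero q]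

/-- (L-q) for `π₁ j, π₂ j, π₃ j` -/
theorem incLq_pi : IncLq (K := Kbar) q (ecPi1 M' q (jF M')) (ecPi2 M' q (jF M'))
    (ecPi3 M' q (jF M')) := by
  haveI : NeZero (q * q) := ⟨Nat.mul_ne_zero (NeZero.ne q) (NeZero.ne q)⟩
  rw [lq_pi1_jF, lq_pi2_jF, lq_pi3_jF]
  refine ⟨?_, ?_, ?_, ?_, ?_⟩
  · intro P h
    exact liftInf_ord_jdF_nonneg P h _ _
  · intro P h
    exact liftInf_ord_jdF_nonneg P h _ _
  · intro P h
    exact lq_pole _ P h _ _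
  · intro P h
    exact lq_alpha _ q _ P h
  · intro P h
    exact lq_beta _ q _ P h

/-- the two further inequalities for `π₁ j, π₃ j` -/
theorem incLq2_pi : IncLq2 (K := Kbar) q (ecPi1 M' q (jF M')) (ecPi3 M' q (jF M')) := by
  haveI : NeZero (q * q) := ⟨Nat.mul_ne_zero (NeZero.ne q) (NeZero.ne q)⟩
  rw [lq_pi1_jF, lq_pi3_jF]
  refine ⟨?_, ?_⟩
  · intro P h
    exact lq_alpha _ (q * q) _ P h
  · intro P h
    exact lq_gamma _ (q * q) _ P h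

variable (hq : q.Prime) (hqM : ¬ q ∣ M')
  (j2 : FF M')
  (hj2 : ∀ v' : Place Kbar (FF M'), v' ≠ infPlaceBar M' → 0 ≤ v'.ord j2)
  (hjj2 : ∀ v' : Place Kbar (FF M'), v' ≠ infPlaceBar M' → 0 ≤ v'.ord (jF M' * j2))

include hj2 hjj2 in
theorem incCusp_sa_reg :
    (ecPi3 M' q (jF M') - ecPi2 M' q (jF M') ^ q) * ecPi3 M' q j2 ^ (q * q) ∈
      offRegular (M' * q * q) (s36D1 M' q hq hqM) :=
  incCusp_sa_offRegular M' q hq hqM j2 hj2 hjj2 _ (incLq_pi M' q)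

include hj2 hjj2 in
theorem incCusp_sb_reg :
    (ecPi1 M' q (jF M') - ecPi2 M' q (jF M') ^ q) * ecPi1 M' q j2 ^ (q * q) ∈
      offRegular (M' * q * q) (s36D1 M' q hq hqM) :=
  incCusp_sb_offRegular M' q hq hqM j2 hj2 hjj2 _ (incLq_pi M' q)

include hj2 hjj2 in
theorem incCusp_sInf_reg :
    (ecPi2 M' q (jF M') - ecPi3 M' q (jF M') ^ q) * ecPi1 M' q j2 ^ (q * (q * q)) ∈
      offRegular (M' * q * q) (s36D1 M' q hq hqM) :=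
  incCusp_sInf_offRegular M' q hq hqM j2 hj2 hjj2 _ (incLq_pi M' q) (incLq2_pi M' q)

include hj2 hjj2 in
theorem incCusp_sZero_reg :
    (ecPi2 M' q (jF M') - ecPi1 M' q (jF M') ^ q) * ecPi3 M' q j2 ^ (q * (q * q)) ∈
      offRegular (M' * q * q) (s36D1 M' q hq hqM) :=
  incCusp_sZero_offRegular M' q hq hqM j2 hj2 hjj2 _ (incLq_pi M' q) (incLq2_pi M' q)

/-! ### Membership in `B_{D1}` -/

variable (A : ValuationSubring Kbar)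

theorem incCusp_jF_mem_f0Field (L : ℕ) [NeZero L] : jF L ∈ f0Field A L := by
  rw [lq_jF_eq]
  exact jdF_mem_f0Field A L 1 (one_dvd L)

variable (O₁ O₂ O₃ : ValuationSubring (FF (M' * q * q)))
  (hj2F : j2 ∈ f0Field A M')

/-- the hypothesis "`π_i j`, `π_i j₂` lie in the three valuation rings" -/
structure IncBall : Prop where
  x₁ : ecPi1 M' q (jF M') ∈ O₁ ∧ ecPi1 M' q (jF M') ∈ O₂ ∧ ecPi1 M' q (jF M') ∈ O₃
  x₂ : ecPi2 M' q (jF M') ∈ O₁ ∧ ecPi2 M' q (jF M') ∈ O₂ ∧ ecPi2 M' q (jF M') ∈ O₃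
  x₃ : ecPi3 M' q (jF M') ∈ O₁ ∧ ecPi3 M' q (jF M') ∈ O₂ ∧ ecPi3 M' q (jF M') ∈ O₃
  G₁ : ecPi1 M' q j2 ∈ O₁ ∧ ecPi1 M' q j2 ∈ O₂ ∧ ecPi1 M' q j2 ∈ O₃
  G₃ : ecPi3 M' q j2 ∈ O₁ ∧ ecPi3 M' q j2 ∈ O₂ ∧ ecPi3 M' q j2 ∈ O₃

variable (hB : IncBall M' q j2 O₁ O₂ O₃)

theorem incCusp_pow_mem3 {x : FF (M' * q * q)} (hx : x ∈ O₁ ∧ x ∈ O₂ ∧ x ∈ O₃) (n : ℕ) :
    x ^ n ∈ O₁ ∧ x ^ n ∈ O₂ ∧ x ^ n ∈ O₃ :=
  ⟨pow_mem hx.1 n, pow_mem hx.2.1 n, pow_mem hx.2.2 n⟩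

include hj2 hjj2 hj2F hB in
theorem incCusp_sa_mem :
    ∃ s : f0Field A (M' * q * q), s ∈ f0AffD A (M' * q * q) (s36D1 M' q hq hqM) O₁ O₂ O₃ ∧
      (s : FF (M' * q * q)) =
        (ecPi3 M' q (jF M') - ecPi2 M' q (jF M') ^ q) * ecPi3 M' q j2 ^ (q * q) :=
  ⟨_, incCusp_mem_f0AffD A _ _ O₁ O₂ O₃ _ _ _ _
    (ecPi3_mem_f0Field A (incCusp_jF_mem_f0Field A M'))
    (pow_mem (ecPi2_mem_f0Field A (incCusp_jF_mem_f0Field A M')) q)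
    (ecPi3_mem_f0Field A hj2F) hB.x₃ (incCusp_pow_mem3 M' q O₁ O₂ O₃ hB.x₂ q) hB.G₃
    (incCusp_sa_reg M' q hq hqM j2 hj2 hjj2), rfl⟩

include hj2 hjj2 hj2F hB in
theorem incCusp_sb_mem :
    ∃ s : f0Field A (M' * q * q), s ∈ f0AffD A (M' * q * q) (s36D1 M' q hq hqM) O₁ O₂ O₃ ∧
      (s : FF (M' * q * q)) =
        (ecPi1 M' q (jF M') - ecPi2 M' q (jF M') ^ q) * ecPi1 M' q j2 ^ (q * q) :=
  ⟨_, incCusp_mem_f0AffD A _ _ O₁ O₂ O₃ _ _ _ _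
    (ecPi1_mem_f0Field A (incCusp_jF_mem_f0Field A M'))
    (pow_mem (ecPi2_mem_f0Field A (incCusp_jF_mem_f0Field A M')) q)
    (ecPi1_mem_f0Field A hj2F) hB.x₁ (incCusp_pow_mem3 M' q O₁ O₂ O₃ hB.x₂ q) hB.G₁
    (incCusp_sb_reg M' q hq hqM j2 hj2 hjj2), rfl⟩

include hj2 hjj2 hj2F hB in
theorem incCusp_sInf_mem :
    ∃ s : f0Field A (M' * q * q), s ∈ f0AffD A (M' * q * q) (s36D1 M' q hq hqM) O₁ O₂ O₃ ∧
      (s : FF (M' * q * q)) =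
        (ecPi2 M' q (jF M') - ecPi3 M' q (jF M') ^ q) * ecPi1 M' q j2 ^ (q * (q * q)) :=
  ⟨_, incCusp_mem_f0AffD A _ _ O₁ O₂ O₃ _ _ _ _
    (ecPi2_mem_f0Field A (incCusp_jF_mem_f0Field A M'))
    (pow_mem (ecPi3_mem_f0Field A (incCusp_jF_mem_f0Field A M')) q)
    (ecPi1_mem_f0Field A hj2F) hB.x₂ (incCusp_pow_mem3 M' q O₁ O₂ O₃ hB.x₃ q) hB.G₁
    (incCusp_sInf_reg M' q hq hqM j2 hj2 hjj2), rfl⟩

include hj2 hjj2 hj2F hB in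
theorem incCusp_sZero_mem :
    ∃ s : f0Field A (M' * q * q), s ∈ f0AffD A (M' * q * q) (s36D1 M' q hq hqM) O₁ O₂ O₃ ∧
      (s : FF (M' * q * q)) =
        (ecPi2 M' q (jF M') - ecPi1 M' q (jF M') ^ q) * ecPi3 M' q j2 ^ (q * (q * q)) :=
  ⟨_, incCusp_mem_f0AffD A _ _ O₁ O₂ O₃ _ _ _ _
    (ecPi2_mem_f0Field A (incCusp_jF_mem_f0Field A M'))
    (pow_mem (ecPi1_mem_f0Field A (incCusp_jF_mem_f0Field A M')) q)
    (ecPi3_mem_f0Field A hj2F) hB.x₂ (incCusp_pow_mem3 M' q O₁ O₂ O₃ hB.x₁ q) hB.G₃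
    (incCusp_sZero_reg M' q hq hqM j2 hj2 hjj2), rfl⟩

end Fermat.Agent.S36lib

end
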