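import Mathlib
import Fermat.Agent.S36lib.IncCusp
import Fermat.Agent.S36lib.IncCuspLq
import Fermat.Agent.S36lib.TheSetup
import Fermat.Agent.S36lib.VMidSV
import Fermat.Agent.S36lib.ZeroSide
import Fermat.Agent.S37lib.FrobQ

/-!
# Item 83 (S36), piece R6-d, the `s`-field (helper23): INC at the cusps of `C_mid`, CONCRETE.
Complete proofs.

`S = nodeSetupM A M' q hq hqM hA R hR (vmidSV A hq hlt hζ hE) hiMid hoMid` (helper24's
`TheSetup.lean`, helper18's `vmidSV`), `R'` a series reduction of level `M'`, `j₂` as in (J2)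
(helper10's `reg3j2_cusp`): `j₂ ∈ R'.O ∩ F0(M')`, `j₂` and `j j₂` regular off `∞'`,
`red'(j) red'(j₂)` a unit at the cusp `c`.  Then

`incCusp_mid_conc`: `∃ s : S.B, s ∈ S.pInf ∧ s ∈ S.pZero ∧ S.redMid s ≠ 0 ∧ c.ord (S.redMid s) = 0`,

the field `s` of `Reg3CuspDataAt` (helper5).  Tables used (all proved here):
* `icc_inf_pi1`, `icc_inf_pi3`: `π₁`, `π₃` map `R'.O` into `R.O`;
* `icc_mid_pi1`, `icc_mid_pi3`: `π₁`, `π₃` map `R'.O` into `O_mid`, with `red_mid ∘ π_i = red'`;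
* `icc_qExpand_jq`: `j̄(X^q) = j̄^q`, `icc_qExpand_qq_jq`: `j̄(X^{q²}) = (j̄(X^q))^q`.
-/

set_option autoImplicit false
set_option linter.style.haveILetI false
set_option linter.unusedSectionVars false
set_option linter.unusedVariables false
set_option synthInstance.maxHeartbeats 400000

noncomputable section

namespace Fermat.Agent.S36lib

open AlgebraicCurve ModularCurve HahnSeries
open Fermat.Agent.S24lib Fermat.Agent.S34lib Fermat.Agent.S37lib Fermat.Agent.HeckeBar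
open Fermat.Agent.S35lib Fermat.Agent.GoodRed Fermat.Agent.GM

section Frob

variable (k : Type) [Field k] (q : ℕ) [Fact q.Prime] [CharP k q] [NeZero q]

/-- `j̄(X^q) = j̄^q` in characteristic `q` -/
theorem icc_qExpand_jq : qExpand k q (jqModC k) = jqModC k ^ q := by
  have h := coeffMap_frobenius_qExpand k q (jqModC k)
  rwa [hr_coeffMap_gen] at h

/-- `j̄(X^{q²}) = (j̄(X^q))^q` in characteristic `q` -/
theorem icc_qExpand_qq_jq [NeZero (q * q)] :
    qExpand k (q * q) (jqModC k) = qExpand k q (jqModC k) ^ q := by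
  have h := coeffMap_frobenius_qExpand k q (qExpand k q (jqModC k))
  rwa [qExpand_qExpand, hr_coeffMap_gen] at h

end Frob

section Tables

variable (A : ValuationSubring Kbar) (M' q : ℕ) [NeZero M'] [NeZero q]
variable (R : ConstRed A (IsLocalRing.residue A)
  (↥(modularFunctionFieldFullC (IsLocalRing.ResidueField A) M')) (FF (M' * q * q)))
  (hR : IsSeriesRed R)
variable (R' : ConstRed A (IsLocalRing.residue A)
  (↥(modularFunctionFieldFullC (IsLocalRing.ResidueField A) M')) (FF M'))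
  (hR' : IsSeriesRed R')

theorem icc_coe_pi1 (g : FF M') :
    ((ecPi1 M' q g : FF (M' * q * q)) : LaurentSeries Kbar) = (g : LaurentSeries Kbar) :=
  ecInf_pi1 M' q g

theorem icc_coe_pi3 (g : FF M') :
    ((ecPi3 M' q g : FF (M' * q * q)) : LaurentSeries Kbar)
      = qExpand Kbar q (qExpand Kbar q (g : LaurentSeries Kbar)) :=
  ecInf_pi3 M' q g

include hR hR' in
/-- `π₁` maps `R'.O` into `R.O`, compatibly with the reductions -/
theorem icc_inf_pi1 (hfrac : HasPrimFrac A (modularFunctionFieldBar M')) {y : FF M'}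
    (hy : y ∈ R'.O) :
    ∃ h : ecPi1 M' q y ∈ R.O, R.red ⟨ecPi1 M' q y, h⟩ = R'.red ⟨y, hy⟩ := by
  obtain ⟨a, b, hrep⟩ := hR'.exists_isRep hfrac hy
  have hrep' : IsRep A (modularFunctionFieldBar (M' * q * q))
      ((ecPi1 M' q y : FF (M' * q * q)) : LaurentSeries Kbar) a b := by
    refine ⟨?_, ?_, hrep.2.2.1, ?_⟩
    · have := (ecPi1 M' q ⟨_, hrep.1⟩).2
      rwa [icc_coe_pi1] at this
    · have := (ecPi1 M' q ⟨_, hrep.2.1⟩).2
      rwa [icc_coe_pi1] at this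
    · rw [icc_coe_pi1]
      exact hrep.2.2.2
  have h := hR.mem_of_isRep hrep'
  refine ⟨h, ?_⟩
  apply Subtype.ext
  rw [hR.red_of_isRep hrep' h, hR'.red_of_isRep hrep hy]

include hR hR' in
/-- `π₃` maps `R'.O` into `R.O` -/
theorem icc_inf_pi3 (hfrac : HasPrimFrac A (modularFunctionFieldBar M')) {y : FF M'}
    (hy : y ∈ R'.O) : ecPi3 M' q y ∈ R.O := by
  obtain ⟨a, b, hrep⟩ := hR'.exists_isRep hfrac hy
  have hrep' : IsRep A (modularFunctionFieldBar (M' * q * q))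
      ((ecPi3 M' q y : FF (M' * q * q)) : LaurentSeries Kbar)
      (qExpand A q (qExpand A q a)) (qExpand A q (qExpand A q b)) := by
    refine ⟨?_, ?_, ?_, ?_⟩
    · rw [Fermat.Agent.Kron.coeffMap_qExpand, Fermat.Agent.Kron.coeffMap_qExpand]
      have := (ecPi3 M' q ⟨_, hrep.1⟩).2
      rwa [icc_coe_pi3] at this
    · rw [Fermat.Agent.Kron.coeffMap_qExpand, Fermat.Agent.Kron.coeffMap_qExpand]
      have := (ecPi3 M' q ⟨_, hrep.2.1⟩).2
      rwa [icc_coe_pi3] at this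
    · rw [Fermat.Agent.Kron.coeffMap_qExpand, Fermat.Agent.Kron.coeffMap_qExpand]
      intro h0
      apply hrep.2.2.1
      apply qExpand_injective (N := q)
      apply qExpand_injective (N := q)
      rw [h0, map_zero, map_zero]
    · rw [icc_coe_pi3, Fermat.Agent.Kron.coeffMap_qExpand, Fermat.Agent.Kron.coeffMap_qExpand,
        Fermat.Agent.Kron.coeffMap_qExpand, Fermat.Agent.Kron.coeffMap_qExpand, ← map_mul,
        ← map_mul, hrep.2.2.2]
  exact hR.mem_of_isRep hrep'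

variable {ζ : Kbarˣ} {E : FF (M' * q * q) →+* LaurentSeries Kbar}
  (hq : q.Prime) (hlt : A.valuation (q : Kbar) < 1) (hζ : ζ ^ q = 1) (hE : IsMidExp M' q ζ E)

include hR' in
/-- `π₁` maps `R'.O` into `O_mid`, and `red_mid ∘ π₁ = red'` -/
theorem icc_mid_pi1 {y : FF M'} (hy : y ∈ R'.O) :
    ∃ h : ecPi1 M' q y ∈ vmidO A hq hlt hζ hE,
      vmidRed A hq hlt hζ hE ⟨ecPi1 M' q y, h⟩
        = ((R'.red ⟨y, hy⟩ : ↥(modularFunctionFieldFullC (IsLocalRing.ResidueField A) M')) :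
            LaurentSeries (IsLocalRing.ResidueField A)) := by
  obtain ⟨a, b, hrep⟩ := hR'.exists_isRep (vmid_hasPrimFrac_bar A M' hq hlt) hy
  have hE1 : E (ecPi1 M' q y) = (y : LaurentSeries Kbar) := by
    rw [ecPi1_apply, hE.alpha, coe_heckeAlphaBar]
  obtain ⟨h, hr⟩ := vmid_bridge A hq hlt hζ hE (ecPi1 M' q y) a b hrep.2.2.1
    (by rw [hE1]; exact hrep.2.2.2)
  exact ⟨h, by rw [hr, hR'.red_of_isRep hrep hy]⟩

include hR' in
/-- `π₃` maps `R'.O` into `O_mid`, and `red_mid ∘ π₃ = red'` -/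
theorem icc_mid_pi3 {y : FF M'} (hy : y ∈ R'.O) :
    ∃ h : ecPi3 M' q y ∈ vmidO A hq hlt hζ hE,
      vmidRed A hq hlt hζ hE ⟨ecPi3 M' q y, h⟩
        = ((R'.red ⟨y, hy⟩ : ↥(modularFunctionFieldFullC (IsLocalRing.ResidueField A) M')) :
            LaurentSeries (IsLocalRing.ResidueField A)) := by
  obtain ⟨a, b, hrep⟩ := hR'.exists_isRep (vmid_hasPrimFrac_bar A M' hq hlt) hy
  have h : ecPi3 M' q y ∈ vmidO A hq hlt hζ hE :=
    (vmid_beta_mem_iff A hq hlt hζ hE y).2 ⟨a, b, hrep⟩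
  refine ⟨h, ?_⟩
  rw [hR'.red_of_isRep hrep hy]
  exact vmidRed_beta A hq hlt hζ hE y h hrep

include hR' in
/-- the reduction of `j` at level `M'` -/
theorem icc_red_jF :
    ∃ h : jF M' ∈ R'.O, R'.red ⟨jF M', h⟩ = jk (IsLocalRing.ResidueField A) M' := by
  obtain ⟨hx, hred⟩ := sconc_red_jdF A M' R' hR' 1 (one_dvd M')
  have e : jF M' = jdF M' 1 (one_dvd M') := lq_jF_eq M'
  have hx' : jF M' ∈ R'.O := by rw [e]; exact hx
  refine ⟨hx', ?_⟩
  apply Subtype.ext
  rw [coe_jk, ← qExpand_one_apply (jqModC (IsLocalRing.ResidueField A)), ← hred]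
  show ((R'.red ⟨jF M', hx'⟩ : _) : LaurentSeries (IsLocalRing.ResidueField A)) = _
  congr 2
  exact Subtype.ext e

end Tables

section Main

variable (A : ValuationSubring Kbar) (M' q : ℕ) [NeZero M'] [NeZero q]
  (hq : q.Prime) (hqM : ¬ q ∣ M') (hA : A.LiesOverPrime q)
variable (R : ConstRed A (IsLocalRing.residue A)
  (↥(modularFunctionFieldFullC (IsLocalRing.ResidueField A) M')) (FF (M' * q * q)))
  (hR : IsSeriesRed R)
variable (R' : ConstRed A (IsLocalRing.residue A)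
  (↥(modularFunctionFieldFullC (IsLocalRing.ResidueField A) M')) (FF M'))
  (hR' : IsSeriesRed R')
variable {ζ : Kbarˣ} {E : FF (M' * q * q) →+* LaurentSeries Kbar}
  (hlt : A.valuation (q : Kbar) < 1) (hζ : ζ ^ q = 1) (hE : IsMidExp M' q ζ E)
variable
  (hiMid : ∀ (x : FF (M' * q * q)) (hx : x ∈ (vmidSV A hq hlt hζ hE).O),
    x ∈ f0Field A (M' * q * q) → (vmidSV A hq hlt hζ hE).red ⟨x, hx⟩ ∈
      modularFunctionFieldFullC (IsLocalRing.ResidueField A) M')
  (hoMid : ∀ y ∈ modularFunctionFieldFullC (IsLocalRing.ResidueField A) M',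
    ∃ (x : FF (M' * q * q)) (hx : x ∈ (vmidSV A hq hlt hζ hE).O),
      x ∈ f0Field A (M' * q * q) ∧ (vmidSV A hq hlt hζ hE).red ⟨x, hx⟩ = y)

/-- `RedTo` for the valuation `v_∞` of `nodeSetupM` -/
theorem icc_redTo_inf (x : f0Field A (M' * q * q))
    (r : ↥(modularFunctionFieldFullC (IsLocalRing.ResidueField A) M'))
    (hx : (x : FF (M' * q * q)) ∈ R.O) (h : R.red ⟨(x : FF (M' * q * q)), hx⟩ = r) :
    (nodeSetupM A M' q hq hqM hA R hR (vmidSV A hq hlt hζ hE) hiMid hoMid).vInf.RedTo x r :=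
  ⟨hx, Subtype.ext (congrArg Subtype.val h)⟩

/-- `RedTo` for the valuation `v_0` of `nodeSetupM` -/
theorem icc_redTo_zero (x : f0Field A (M' * q * q))
    (r : ↥(modularFunctionFieldFullC (IsLocalRing.ResidueField A) M'))
    (hx : alW2 M' hq hqM (x : FF (M' * q * q)) ∈ R.O)
    (h : R.red ⟨alW2 M' hq hqM (x : FF (M' * q * q)), hx⟩ = r) :
    (nodeSetupM A M' q hq hqM hA R hR (vmidSV A hq hlt hζ hE) hiMid hoMid).vZero.RedTo x r :=
  ⟨hx, Subtype.ext (congrArg Subtype.val h)⟩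

/-- `RedTo` for the valuation `v_mid` of `nodeSetupM` -/
theorem icc_redTo_mid (x : f0Field A (M' * q * q))
    (r : ↥(modularFunctionFieldFullC (IsLocalRing.ResidueField A) M'))
    (hx : (x : FF (M' * q * q)) ∈ vmidO A hq hlt hζ hE)
    (h : vmidRed A hq hlt hζ hE ⟨(x : FF (M' * q * q)), hx⟩
      = (r : LaurentSeries (IsLocalRing.ResidueField A))) :
    (nodeSetupM A M' q hq hqM hA R hR (vmidSV A hq hlt hζ hE) hiMid hoMid).vMid.RedTo x r :=
  ⟨hx, Subtype.ext h⟩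

theorem icc_alW2_pi1 (g : FF M') : alW2 M' hq hqM (ecPi1 M' q g) = ecPi3 M' q g :=
  alW2_pi1 M' hq hqM g

theorem icc_alW2_pi3 (g : FF M') : alW2 M' hq hqM (ecPi3 M' q g) = ecPi1 M' q g :=
  alW2_pi3 M' hq hqM g

theorem icc_alW2_pi2 (g : FF M') : alW2 M' hq hqM (ecPi2 M' q g) = ecPi2 M' q g :=
  alW2_pi2 M' hq hqM g

include hR in
/-- `π₂ j ∈ R.O` with reduction `j̄(X^q)` -/
theorem icc_inf_x2 :
    ∃ h : ecPi2 M' q (jF M') ∈ R.O,
      ((R.red ⟨ecPi2 M' q (jF M'), h⟩ :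
          ↥(modularFunctionFieldFullC (IsLocalRing.ResidueField A) M')) :
        LaurentSeries (IsLocalRing.ResidueField A))
        = qExpand (IsLocalRing.ResidueField A) q (jqModC (IsLocalRing.ResidueField A)) := by
  obtain ⟨hx, hred⟩ := sconc_red_jdF A M' R hR q (dvd_mul_left q (M' * q))
  have e := lq_pi2_jF M' q
  have hx' : ecPi2 M' q (jF M') ∈ R.O := by rw [e]; exact hx
  refine ⟨hx', ?_⟩
  rw [← hred]
  show ((R.red ⟨ecPi2 M' q (jF M'), hx'⟩ : _) : LaurentSeries (IsLocalRing.ResidueField A)) = _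
  congr 2
  exact Subtype.ext e

include hR in
/-- `π₃ j ∈ R.O` with reduction `j̄(X^{q²})` -/
theorem icc_inf_x3 [NeZero (q * q)] :
    ∃ h : ecPi3 M' q (jF M') ∈ R.O,
      ((R.red ⟨ecPi3 M' q (jF M'), h⟩ :
          ↥(modularFunctionFieldFullC (IsLocalRing.ResidueField A) M')) :
        LaurentSeries (IsLocalRing.ResidueField A))
        = qExpand (IsLocalRing.ResidueField A) (q * q)
            (jqModC (IsLocalRing.ResidueField A)) := by
  obtain ⟨hx, hred⟩ := sconc_red_jdF A M' R hR (q * q) ⟨M', by ring⟩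
  have e := lq_pi3_jF M' q
  have hx' : ecPi3 M' q (jF M') ∈ R.O := by rw [e]; exact hx
  refine ⟨hx', ?_⟩
  rw [← hred]
  show ((R.red ⟨ecPi3 M' q (jF M'), hx'⟩ : _) : LaurentSeries (IsLocalRing.ResidueField A)) = _
  congr 2
  exact Subtype.ext e

include hR in
/-- `π₁ j ∈ R.O` -/
theorem icc_inf_x1 : ecPi1 M' q (jF M') ∈ R.O := by
  obtain ⟨hx, -⟩ := sconc_red_jdF A M' R hR 1 (one_dvd (M' * q * q))
  rw [lq_pi1_jF, lq_jF_eq]
  exact hx

/-- `π₂ j ∈ O_mid` with reduction `j̄(X^q)` -/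
theorem icc_mid_x2 :
    ∃ h : ecPi2 M' q (jF M') ∈ vmidO A hq hlt hζ hE,
      vmidRed A hq hlt hζ hE ⟨ecPi2 M' q (jF M'), h⟩
        = qExpand (IsLocalRing.ResidueField A) q (jqModC (IsLocalRing.ResidueField A)) := by
  obtain ⟨hx, hred⟩ := vmid_jdF A hq hlt hζ hE q (dvd_mul_left q M')
  have e : ecPi2 M' q (jF M') = jdF (M' * q * q) q ((dvd_mul_left q M').mul_right q) :=
    lq_pi2_jF M' q
  have hx' : ecPi2 M' q (jF M') ∈ vmidO A hq hlt hζ hE := by rw [e]; exact hx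
  refine ⟨hx', ?_⟩
  rw [← hred]
  congr 1
  exact Subtype.ext e

end Main

end Fermat.Agent.S36lib

end
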