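import Mathlib
import Fermat.Agent.S36lib.SumTab
import Fermat.Agent.S36lib.ZetaIndep
import Fermat.Agent.S36lib.ZeroSide

/-!
# Item 83 (S36), block V, P4 of D1-A (helper2): the ramification witness at the middle valuation

* `sumiZ = j_{q²} − j = π₃ j − π₁ j ∈ F0(M)`, `w_{q²} z = −z`, `z` a unit at `∞`
  (`sumiZ_inv_mem`);
* `sumi_hE`: `z` is a nonunit of the middle valuation ring and `q = z ^ (q − 1) · y` with
  `y ∈ O_mid` (ramification index `≥ q − 1`).
-/

set_option autoImplicit false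
set_option linter.style.haveILetI false
set_option linter.unusedSectionVars false
set_option synthInstance.maxHeartbeats 400000

noncomputable section

namespace Fermat.Agent.S36lib

open ModularCurve AlgebraicCurve Polynomial HahnSeries
open Fermat.Agent.HeckeBar Fermat.Agent.S24lib Fermat.Agent.S34lib Fermat.Agent.GoodRed
  Fermat.Agent.S37lib Fermat.Agent.S35lib

section Z

variable (A : ValuationSubring Kbar) (M' q : ℕ) [NeZero M'] [NeZero q]

/-- `z = j_{q²} − j = π₃ j − π₁ j` -/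
def sumiZ : FF (M' * q * q) :=
  heckeBetaBar Kbar (M' * q) q (heckeBetaBar Kbar M' q (jF M'))
    - heckeAlphaBar Kbar (M' * q) q (jF (M' * q))

theorem sumi_jF_mem (L : ℕ) [NeZero L] : jF L ∈ f0Field A L := by
  have h1 : jF L = jdF L 1 (one_dvd L) := by
    apply Subtype.ext
    rw [coe_jF, coe_jdF, qExpand_one_apply]
  rw [h1]
  exact jdF_mem_f0Field A L 1 (one_dvd L)

theorem sumi_alpha_jF : heckeAlphaBar Kbar M' q (jF M') = jF (M' * q) := by
  rw [heckeAlphaBar_eq_inclBar, inclBar_jF]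

theorem sumiZ_eq : sumiZ M' q =
    heckeBetaBar Kbar (M' * q) q (heckeBetaBar Kbar M' q (jF M')) - sumiPi1 M' q (jF M') := by
  rw [sumiPi1_apply, sumi_alpha_jF]
  rfl

/-- `π₃` as a homomorphism of `ℚ̄`-algebras -/
def sumiPi3 : FF M' →ₐ[Kbar] FF (M' * q * q) :=
  (heckeBetaBar Kbar (M' * q) q).comp (heckeBetaBar Kbar M' q)

theorem sumiPi3_apply (x : FF M') :
    sumiPi3 M' q x = heckeBetaBar Kbar (M' * q) q (heckeBetaBar Kbar M' q x) := rfl

theorem sumi_gal3 (σ : Kbar ≃ₐ[ℚ] Kbar) (x : FF M') :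
    galFF (M' * q * q) σ • sumiPi3 M' q x = sumiPi3 M' q (galFF M' σ • x) := by
  rw [sumiPi3_apply, sumiPi3_apply]
  exact (mx_gal_beta (M' * q) q σ _).trans
    (congrArg (heckeBetaBar Kbar (M' * q) q) (mx_gal_beta M' q σ x))

theorem sumi_pi1_mem_f0Field (g : FF M') (hg : g ∈ f0Field A M') :
    sumiPi1 M' q g ∈ f0Field A (M' * q * q) :=
  sumc_mem_f0Field A (sumiPi1 M' q) (fun σ _ x => sumi_gal M' q σ x) g hg

theorem sumi_pi3_mem_f0Field (g : FF M') (hg : g ∈ f0Field A M') :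
    sumiPi3 M' q g ∈ f0Field A (M' * q * q) :=
  sumc_mem_f0Field A (sumiPi3 M' q) (fun σ _ x => sumi_gal3 M' q σ x) g hg

theorem sumiZ_mem_f0Field : sumiZ M' q ∈ f0Field A (M' * q * q) := by
  rw [sumiZ_eq]
  exact sub_mem (sumi_pi3_mem_f0Field A M' q _ (sumi_jF_mem A M'))
    (sumi_pi1_mem_f0Field A M' q _ (sumi_jF_mem A M'))

variable (hq : q.Prime) (hqM : ¬ q ∣ M')

theorem sumi_alW2_Z : alW2 M' hq hqM (sumiZ M' q) = - sumiZ M' q := by
  rw [sumiZ_eq, map_sub, sumiPi1_apply, alW2_pi1, alW2_pi3]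
  ring

end Z

section HE

variable {A : ValuationSubring Kbar} {M' q : ℕ} [NeZero M'] [NeZero q]
variable {Fk : IntermediateField (IsLocalRing.ResidueField A)
  (LaurentSeries (IsLocalRing.ResidueField A))}
variable {R : ConstRed A (IsLocalRing.residue A) (↥Fk) (FF (M' * q * q))}
variable {ζ : Kbarˣ} {E : FF (M' * q * q) →+* LaurentSeries Kbar}

/-- the integral series of `z = j_{q²} − j` -/
def sumiZser (A : ValuationSubring Kbar) (q : ℕ) [NeZero q] : LaurentSeries A :=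
  qExpand A q (qExpand A q (jqModC A)) - jqModC A

theorem sumiZ_coe : ((sumiZ M' q : FF (M' * q * q)) : LaurentSeries Kbar)
    = coeffMap A.subtype (sumiZser A q) := by
  have h1 : ((sumiZ M' q : FF (M' * q * q)) : LaurentSeries Kbar)
      = ((heckeBetaBar Kbar (M' * q) q (heckeBetaBar Kbar M' q (jF M')) : FF (M' * q * q)) :
          LaurentSeries Kbar)
        - ((heckeAlphaBar Kbar (M' * q) q (jF (M' * q)) : FF (M' * q * q)) :
          LaurentSeries Kbar) := rfl
  rw [h1, coe_heckeBetaBar, coe_heckeBetaBar, coe_heckeAlphaBar, vmu_coe_jF A, vmu_coe_jF A]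
  unfold sumiZser
  rw [map_sub, Fermat.Agent.Kron.coeffMap_qExpand, Fermat.Agent.Kron.coeffMap_qExpand]

theorem sumiZser_red_ne_zero (hq : q.Prime) :
    coeffMap (IsLocalRing.residue A) (sumiZser A q) ≠ 0 := by
  unfold sumiZser
  rw [map_sub, Fermat.Agent.Kron.coeffMap_qExpand, Fermat.Agent.Kron.coeffMap_qExpand,
    coeffMap_jqModC]
  intro h0
  have h1 := congrArg (fun s : LaurentSeries (IsLocalRing.ResidueField A) => s.coeff (-1)) h0
  simp only [HahnSeries.coeff_sub, HahnSeries.coeff_zero] at h1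
  have hnd : ¬ ((q : ℤ) ∣ (-1 : ℤ)) := by
    intro hd
    have h2 : ((q : ℤ)) ∣ 1 := (Int.dvd_neg).mp hd
    have h3 : (q : ℤ) = 1 := Int.eq_one_of_dvd_one (by positivity) h2
    have h4 : q = 1 := by exact_mod_cast h3
    exact hq.one_lt.ne' h4
  rw [qExpand_coeff_of_not_dvd q _ hnd, zero_sub, neg_eq_zero] at h1
  have h5 : (jqModC (IsLocalRing.ResidueField A)).coeff
      (jqModC (IsLocalRing.ResidueField A)).order ≠ 0 :=
    HahnSeries.coeff_order_eq_zero.not.mpr (jqModC_ne_zero_of_nontrivial _)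
  rw [inf_order_jqModC] at h5
  exact h5 h1

/-- `z` is a unit at `∞` -/
theorem sumiZ_inv_mem (hq : q.Prime) (hR : IsSeriesRed R) : (sumiZ M' q)⁻¹ ∈ R.O := by
  have hy : coeffMap A.subtype (sumiZser A q) ∈ modularFunctionFieldBar (M' * q * q) := by
    rw [← sumiZ_coe (M' := M')]
    exact (sumiZ M' q).2
  have h1 : sumiZ M' q = ⟨coeffMap A.subtype (sumiZser A q), hy⟩ := Subtype.ext sumiZ_coe
  rw [h1]
  exact hR.inv_mem _ hy (sumiZser_red_ne_zero hq)

/-- `v (ζ − 1) < 1` -/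
theorem sumi_val_zeta_sub_one (hq : q.Prime) (hlt : A.valuation (q : Kbar) < 1)
    (hζp : IsPrimitiveRoot (ζ : Kbar) q) : A.valuation ((ζ : Kbar) - 1) < 1 := by
  have h := zi_val_zeta_sub_one_pow A.valuation hq hζp
  by_contra hcon
  rw [not_lt] at hcon
  have h2 : 1 ≤ A.valuation ((ζ : Kbar) - 1) ^ (q - 1) := one_le_pow₀ hcon
  rw [h] at h2
  exact absurd hlt (not_lt.mpr h2)

/-- **the ramification witness at the middle valuation** -/
theorem sumi_hE (hq : q.Prime) (hlt : A.valuation (q : Kbar) < 1) (hζ : ζ ^ q = 1)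
    (hζp : IsPrimitiveRoot (ζ : Kbar) q) (hE : IsMidExp M' q ζ E) :
    sumiZ M' q ∈ (vmidO A hq hlt hζ hE).nonunits ∧
      ∃ y ∈ vmidO A hq hlt hζ hE,
        algebraMap Kbar (FF (M' * q * q)) (q : Kbar) = sumiZ M' q ^ (q - 1) * y := by
  have hζ1 : (ζ : Kbar) ≠ 1 := hζp.ne_one hq.one_lt
  have hz0 : (ζ : Kbar) - 1 ≠ 0 := sub_ne_zero.mpr hζ1
  obtain ⟨hY, hYi⟩ := vmid_unit A hq hlt hζ hζ1 hE
  have hmul : algebraMap Kbar (FF (M' * q * q)) ((ζ : Kbar) - 1) * vmidY M' q ζ = sumiZ M' q :=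
    vmidY_mul hζ1
  have hvz := sumi_val_zeta_sub_one hq hlt hζp
  have hcnu : algebraMap Kbar (FF (M' * q * q)) ((ζ : Kbar) - 1) ∈
      (vmidO A hq hlt hζ hE).nonunits :=
    sumc_const_nonunit A (vmidSV A hq hlt hζ hE) hvz
  have hY0 : vmidY M' q ζ ≠ 0 := by
    intro h0
    have h1 : sumiZ M' q = 0 := by rw [← hmul, h0, mul_zero]
    have h2 : ((sumiZ M' q : FF (M' * q * q)) : LaurentSeries Kbar) = 0 := by
      rw [h1]
      rfl
    rw [sumiZ_coe (A := A)] at h2
    have h3 : coeffMap (IsLocalRing.residue A) (sumiZser A q) = 0 := by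
      have : sumiZser A q = 0 := by
        apply coeffMap_valSubtype_injective A
        rw [h2, map_zero]
      rw [this, map_zero]
    exact sumiZser_red_ne_zero hq h3
  refine ⟨?_, ?_⟩
  · rw [← hmul, ValuationSubring.mem_nonunits_iff, map_mul]
    exact lt_of_le_of_lt (mul_le_of_le_one_right zero_le
      (((vmidO A hq hlt hζ hE).valuation_le_one_iff _).mpr hY))
      ((ValuationSubring.mem_nonunits_iff _).mp hcnu)
  · -- the constant `c = q / (ζ - 1)^(q-1)` is a unit of `A`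
    have hc : A.valuation ((q : Kbar) / ((ζ : Kbar) - 1) ^ (q - 1)) = 1 := by
      rw [map_div₀, map_pow, zi_val_zeta_sub_one_pow A.valuation hq hζp]
      exact div_self ((_root_.map_ne_zero _).mpr (Nat.cast_ne_zero.mpr hq.ne_zero))
    have hcA : (q : Kbar) / ((ζ : Kbar) - 1) ^ (q - 1) ∈ A :=
      (A.valuation_le_one_iff _).mp hc.le
    refine ⟨algebraMap Kbar (FF (M' * q * q)) ((q : Kbar) / ((ζ : Kbar) - 1) ^ (q - 1))
      * (vmidY M' q ζ)⁻¹ ^ (q - 1), ?_, ?_⟩
    · exact (vmidO A hq hlt hζ hE).mul_mem _ _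
        ((vmidSV A hq hlt hζ hE).algebraMap_mem ⟨_, hcA⟩)
        (pow_mem hYi _)
    · rw [← hmul, mul_pow, ← map_pow, inv_pow]
      have h1 : vmidY M' q ζ ^ (q - 1) ≠ 0 := pow_ne_zero _ hY0
      have h2 : ((ζ : Kbar) - 1) ^ (q - 1) ≠ 0 := pow_ne_zero _ hz0
      calc algebraMap Kbar (FF (M' * q * q)) (q : Kbar)
          = algebraMap Kbar (FF (M' * q * q)) (((ζ : Kbar) - 1) ^ (q - 1)
              * ((q : Kbar) / ((ζ : Kbar) - 1) ^ (q - 1))) := by
            rw [mul_div_cancel₀ _ h2]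
        _ = _ := by
            rw [map_mul]
            field_simp

end HE

end Fermat.Agent.S36lib

end
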