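import Mathlib
import Fermat.Agent.S36lib.SumWit

/-!
# Item 83 (S36), block V, P4 of D1-A (helper2): vertical integrality for `nodeSetupM`

The instance of `sumc_isIntegral` / `sumc_complete` (`SumConc.lean`) for `φ = π₁`, the Gauss
valuation `R'` of level `M'`, and the three valuations `R` (at `∞`), `vMid` (middle),
`R ∘ w_{q²}` (at `0`) of level `M = M' q²`.

* `sumi_hres`: the residue degree at `∞` is `1`;
* `sumi_hF`: the powers of `j_{q²}` witness the residue degree `q²` at `0`;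
* `sumi_hT₁`, `sumi_hT₂`, `sumi_hT₃`: `π₁ (O') ⊆ O_∞, O_mid, O_0`;
* `sumi_isIntegral` (P4), `sumi_complete`.
-/

set_option autoImplicit false
set_option linter.style.haveILetI false
set_option linter.unusedSectionVars false
set_option synthInstance.maxHeartbeats 400000

noncomputable section

namespace Fermat.Agent.S36lib

open ModularCurve AlgebraicCurve Polynomial HahnSeries
open Fermat.Agent.HeckeBar Fermat.Agent.S24lib Fermat.Agent.S34lib Fermat.Agent.GoodRed
  Fermat.Agent.S37lib Fermat.Agent.S35lib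

section Res

variable (A : ValuationSubring Kbar) (M' q : ℕ) [NeZero M'] [NeZero q]
variable (R' : ConstRed A (IsLocalRing.residue A)
  (↥(modularFunctionFieldFullC (IsLocalRing.ResidueField A) M')) (FF M'))
variable (R : ConstRed A (IsLocalRing.residue A)
  (↥(modularFunctionFieldFullC (IsLocalRing.ResidueField A) M')) (FF (M' * q * q)))

set_option maxHeartbeats 1600000 in
/-- **the residue degree at `∞` is `1`**: every element of `O_∞ ∩ F0(M)` is congruent to an
element of `π₁ (O' ∩ F0(M'))`. -/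
theorem sumi_hres (hq : q.Prime) (hA : A.LiesOverPrime q) (hR' : IsSeriesRed R')
    (hR : IsSeriesRed R) (x : FF (M' * q * q)) (hx : x ∈ R.O) :
    ∃ c ∈ f0Field A M', c ∈ R'.O ∧ x - sumiPi1 M' q c ∈ R.O.nonunits := by
  obtain ⟨c, hc, hcF, hred⟩ := sconc_honto A M' q hq hA (dvd_refl M') R' hR'
    ((R.red ⟨x, hx⟩ : ↥(modularFunctionFieldFullC (IsLocalRing.ResidueField A) M')) :
      LaurentSeries (IsLocalRing.ResidueField A)) (R.red ⟨x, hx⟩).2
  have hc' : c ∈ R'.O := hc
  obtain ⟨h1, h2⟩ := sumi_pi1_mem_red M' q hR' hR (vri_hfrac M' q hq A hA) hc'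
  have hred' : ((R'.red ⟨c, hc'⟩ : ↥(modularFunctionFieldFullC (IsLocalRing.ResidueField A) M')) :
      LaurentSeries (IsLocalRing.ResidueField A))
      = ((R.red ⟨x, hx⟩ : ↥(modularFunctionFieldFullC (IsLocalRing.ResidueField A) M')) :
      LaurentSeries (IsLocalRing.ResidueField A)) := hred
  have h3 : R'.red ⟨c, hc'⟩ = R.red ⟨x, hx⟩ := Subtype.ext hred'
  refine ⟨c, hcF, hc', ?_⟩
  have h4 : R.red ⟨x - sumiPi1 M' q c, R.O.sub_mem hx h1⟩ = 0 := by
    have e : (⟨x - sumiPi1 M' q c, R.O.sub_mem hx h1⟩ : R.O)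
        = ⟨x, hx⟩ - ⟨sumiPi1 M' q c, h1⟩ := rfl
    rw [e, map_sub, h2, h3, sub_self]
  exact (R.red_eq_zero_iff _).mp h4

end Res

section HF

variable {A : ValuationSubring Kbar} {M' q : ℕ} [NeZero M'] [NeZero q]
variable {Fk : IntermediateField (IsLocalRing.ResidueField A)
  (LaurentSeries (IsLocalRing.ResidueField A))}
variable {R' : ConstRed A (IsLocalRing.residue A) (↥Fk) (FF M')}
variable {R : ConstRed A (IsLocalRing.residue A) (↥Fk) (FF (M' * q * q))}

/-- the subfield `{f(X^{q²})}` of `k((X))` -/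
def sumiL1 (k : Type*) [Field k] (q : ℕ) [NeZero q] : Subfield (LaurentSeries k) :=
  ((qExpand k q).comp (qExpand k q)).fieldRange

theorem sumiL1_order {k : Type*} [Field k] (q : ℕ) [NeZero q] (c : LaurentSeries k)
    (hc : c ∈ sumiL1 k q) : ((q * q : ℕ) : ℤ) ∣ c.order := by
  obtain ⟨γ, rfl⟩ := hc
  rw [RingHom.comp_apply, inf_order_qExpand, inf_order_qExpand]
  exact ⟨γ.order, by push_cast; ring⟩

/-- `j ∈ O'` with reduction `j̄` -/
theorem sumi_red_jF (hR' : IsSeriesRed R') :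
    ∃ h : jF M' ∈ R'.O, ((R'.red ⟨jF M', h⟩ : ↥Fk) : LaurentSeries (IsLocalRing.ResidueField A))
      = jqModC (IsLocalRing.ResidueField A) := by
  have e := vri_jF_eq M' A
  have hmem := hR'.mem (jqModC A) (vri_mem_J M' A)
  have hred := hR'.red (jqModC A) (vri_mem_J M' A)
  have hr2 : coeffMap (IsLocalRing.residue A) (jqModC A)
      = jqModC (IsLocalRing.ResidueField A) := coeffMap_jqModC _
  have hx : jF M' ∈ R'.O := by rw [e]; exact hmem
  refine ⟨hx, ?_⟩
  have e2 : (⟨jF M', hx⟩ : R'.O)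
      = ⟨⟨coeffMap A.subtype (jqModC A), vri_mem_J M' A⟩, hmem⟩ := Subtype.ext e
  rw [e2]
  exact hred.trans hr2

set_option maxHeartbeats 1600000 in
/-- **the residue degree at `0` is `≥ q²`**: the powers `j_{q²} ^ l`, `l < q²`, are independent
modulo the maximal ideal of `O_0` over `π₁ (O')`. -/
theorem sumi_hF (hq : q.Prime) (hqM : ¬ q ∣ M') (hA : A.LiesOverPrime q)
    (hR' : IsSeriesRed R') (hR : IsSeriesRed R)
    (c : Fin (q * q) → FF M') (hc : ∀ l, c l ∈ R'.O)
    (hsum : alW2 M' hq hqM (∑ l, sumiPi1 M' q (c l) * sumiPi3 M' q (jF M') ^ (l : ℕ))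
      ∈ R.O.nonunits) :
    ∀ l, c l ∈ R'.O.nonunits := by
  classical
  have hfrac := vri_hfrac M' q hq A hA
  obtain ⟨hj, hjred⟩ := sumi_red_jF (M' := M') hR'
  obtain ⟨h1j, h1jred⟩ := sumi_pi1_mem_red M' q hR' hR hfrac hj
  have h3 : ∀ l, ∃ h : sumiPi3 M' q (c l) ∈ R.O,
      ((R.red ⟨sumiPi3 M' q (c l), h⟩ : ↥Fk) : LaurentSeries (IsLocalRing.ResidueField A))
        = qExpand (IsLocalRing.ResidueField A) q (qExpand (IsLocalRing.ResidueField A) q
            ((R'.red ⟨c l, hc l⟩ : ↥Fk) : LaurentSeries (IsLocalRing.ResidueField A))) :=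
    fun l => sumi_pi3_mem_red M' q hR' hR hfrac (hc l)
  have hT : alW2 M' hq hqM (∑ l, sumiPi1 M' q (c l) * sumiPi3 M' q (jF M') ^ (l : ℕ))
      = ∑ l, sumiPi3 M' q (c l) * sumiPi1 M' q (jF M') ^ (l : ℕ) := by
    rw [map_sum]
    refine Finset.sum_congr rfl fun l _ => ?_
    rw [map_mul, map_pow, sumiPi1_apply, sumiPi3_apply, alW2_pi1, alW2_pi3]
    rfl
  rw [hT] at hsum
  have hTmem : (∑ l, sumiPi3 M' q (c l) * sumiPi1 M' q (jF M') ^ (l : ℕ)) ∈ R.O :=
    ValuationSubring.nonunits_subset hsum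
  have hred0 : R.red ⟨_, hTmem⟩ = 0 := (R.red_eq_zero_iff _).mpr hsum
  have hsplit : (⟨_, hTmem⟩ : R.O)
      = ∑ l, (⟨sumiPi3 M' q (c l), (h3 l).1⟩ : R.O) * (⟨sumiPi1 M' q (jF M'), h1j⟩ : R.O)
          ^ (l : ℕ) := by
    apply Subtype.ext
    push_cast
    rfl
  rw [hsplit, map_sum] at hred0
  have hser : ∑ l : Fin (q * q),
      qExpand (IsLocalRing.ResidueField A) q (qExpand (IsLocalRing.ResidueField A) q
        ((R'.red ⟨c l, hc l⟩ : ↥Fk) : LaurentSeries (IsLocalRing.ResidueField A)))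
        * jqModC (IsLocalRing.ResidueField A) ^ (l : ℕ) = 0 := by
    have h4 := congrArg (fun x : ↥Fk => (x : LaurentSeries (IsLocalRing.ResidueField A))) hred0
    simp only [map_mul, map_pow] at h4
    rw [← hjred, ← h1jred]
    have h5 : ((0 : ↥Fk) : LaurentSeries (IsLocalRing.ResidueField A)) = 0 := rfl
    rw [h5] at h4
    rw [← h4]
    push_cast
    refine Finset.sum_congr rfl fun l _ => ?_
    rw [(h3 l).2]
  have hli := hq2_li_pow (q * q) (sumiL1 (IsLocalRing.ResidueField A) q)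
    (sumiL1_order q) (inf_order_jqModC (IsLocalRing.ResidueField A))
  rw [Fintype.linearIndependent_iff] at hli
  have hg := hli (fun l => ⟨qExpand (IsLocalRing.ResidueField A) q
      (qExpand (IsLocalRing.ResidueField A) q
        ((R'.red ⟨c l, hc l⟩ : ↥Fk) : LaurentSeries (IsLocalRing.ResidueField A))),
      ⟨_, rfl⟩⟩) hser
  intro l
  have h6 := congrArg Subtype.val (hg l)
  have h7 : qExpand (IsLocalRing.ResidueField A) q (qExpand (IsLocalRing.ResidueField A) q
      ((R'.red ⟨c l, hc l⟩ : ↥Fk) : LaurentSeries (IsLocalRing.ResidueField A))) = 0 := h6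
  have h8 : ((R'.red ⟨c l, hc l⟩ : ↥Fk) : LaurentSeries (IsLocalRing.ResidueField A)) = 0 :=
    qExpand_injective q ((qExpand_injective q (h7.trans (map_zero _).symm)).trans
      (map_zero _).symm)
  have h9 : R'.red ⟨c l, hc l⟩ = 0 := Subtype.ext h8
  exact (R'.red_eq_zero_iff _).mp h9

end HF

end Fermat.Agent.S36lib

end
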