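import Mathlib
import Fermat.Agent.S36lib.SumInst

/-!
# Item 83 (S36), block V, P4 of D1-A (helper2): vertical integrality for `nodeSetupM`, final form

`sumi_isIntegral`: every `b ∈ F0(M' q²)` lying in the three valuation rings `R.O` (at `∞`),
`vMid.O`, `R.O ∘ w_{q²}` (at `0`) is a root of a monic polynomial over `F_{M'}` (along `π₁`) with
coefficients in `R'.O ∩ F0(M')`.  `sumi_hT₁`, `sumi_hT₂`, `sumi_hT₃`: the tables
`π₁ (R'.O) ⊆ R.O, vMid.O, w_{q²}⁻¹ R.O`.  `sumi_complete`: the three rings are the only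
valuation rings of `F0(M' q²)` over `R'.O ∩ F0(M')`.
-/

set_option autoImplicit false
set_option linter.style.haveILetI false
set_option linter.unusedSectionVars false
set_option synthInstance.maxHeartbeats 400000

noncomputable section

namespace Fermat.Agent.S36lib

open ModularCurve AlgebraicCurve Polynomial HahnSeries
open Fermat.Agent.HeckeBar Fermat.Agent.S24lib Fermat.Agent.S34lib Fermat.Agent.GoodRed
  Fermat.Agent.S37lib Fermat.Agent.S35lib

section Final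

variable (A : ValuationSubring Kbar) (M' q : ℕ) [NeZero M'] [NeZero q]
variable (hq : q.Prime) (hqM : ¬ q ∣ M') (hA : A.LiesOverPrime q)
variable (R' : ConstRed A (IsLocalRing.residue A)
  (↥(modularFunctionFieldFullC (IsLocalRing.ResidueField A) M')) (FF M'))
variable (R : ConstRed A (IsLocalRing.residue A)
  (↥(modularFunctionFieldFullC (IsLocalRing.ResidueField A) M')) (FF (M' * q * q)))
variable {ζ : Kbarˣ} {E : FF (M' * q * q) →+* LaurentSeries Kbar}

include hq hA in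
/-- `π₁ (O') ⊆ O_∞` -/
theorem sumi_hT₁ (hR' : IsSeriesRed R') (hR : IsSeriesRed R) (g : FF M') (hg : g ∈ R'.O) :
    ecPi1 M' q g ∈ R.O :=
  (sumi_pi1_mem_red M' q hR' hR (vri_hfrac M' q hq A hA) hg).1

include hA in
/-- `π₁ (O') ⊆ O_mid` -/
theorem sumi_hT₂ (hR' : IsSeriesRed R') (hlt : A.valuation (q : Kbar) < 1) (hζ : ζ ^ q = 1)
    (hE : IsMidExp M' q ζ E) (g : FF M') (hg : g ∈ R'.O) :
    ecPi1 M' q g ∈ vmidO A hq hlt hζ hE :=
  (sumi_pi1_mem_mid M' q hq hlt hζ hE hR' (vri_hfrac M' q hq A hA) hg).1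

include hA in
/-- `π₁ (O') ⊆ O_0 = w_{q²}⁻¹ O_∞` -/
theorem sumi_hT₃ (hR' : IsSeriesRed R') (hR : IsSeriesRed R) (g : FF M') (hg : g ∈ R'.O) :
    alW2 M' hq hqM (ecPi1 M' q g) ∈ R.O := by
  have h := (sumi_pi3_mem_red M' q hR' hR (vri_hfrac M' q hq A hA) hg).1
  have e : alW2 M' hq hqM (ecPi1 M' q g)
      = heckeBetaBar Kbar (M' * q) q (heckeBetaBar Kbar M' q g) := alW2_pi1 M' hq hqM g
  rw [e]
  exact h

set_option maxHeartbeats 1600000 in
include hA in
/-- **P4 for `nodeSetupM`** (vertical integrality along `π₁`): an element of `F0(M' q²)` in the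
three vertical valuation rings is a root of a monic polynomial with coefficients in
`R'.O ∩ F0(M')`. -/
theorem sumi_isIntegral (hR' : IsSeriesRed R') (hR : IsSeriesRed R)
    (hlt : A.valuation (q : Kbar) < 1) (hζ : ζ ^ q = 1)
    (hζp : IsPrimitiveRoot (ζ : Kbar) q) (hE : IsMidExp M' q ζ E)
    (vMid : SeriesVal A (M' * q * q)) (hvMid : vMid.O = vmidO A hq hlt hζ hE)
    (b : FF (M' * q * q)) (hb : b ∈ f0Field A (M' * q * q))
    (h1 : b ∈ R.O) (h2 : b ∈ vMid.O) (h3 : alW2 M' hq hqM b ∈ R.O) :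
    ∃ p : Polynomial (FF M'), p.Monic ∧
      (∀ n, p.coeff n ∈ R'.O ∧ p.coeff n ∈ f0Field A M') ∧
      Polynomial.eval₂ (ecPi1 M' q) b p = 0 := by
  refine sumc_isIntegral A hq hlt (sumiPi1 M' q) (fun σ _ x => sumi_gal M' q σ x)
    (by rw [sumi_finrank M' q hq hqM]; exact Nat.mul_pos hq.pos (Nat.succ_pos q))
    (sumi_finrank M' q hq hqM).le
    (SeriesVal.ofConstRed R') (SeriesVal.ofConstRed R) vMid
    ((SeriesVal.ofConstRed R).comap (alW2 M' hq hqM))
    (fun f hf hf0 => vdisc_inf hq hA hR' hf hf0)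
    (fun g _ hg => (sumi_pi1_mem_red M' q hR' hR (vri_hfrac M' q hq A hA) hg).1)
    (fun g _ hg => hvMid ▸
      (sumi_pi1_mem_mid M' q hq hlt hζ hE hR' (vri_hfrac M' q hq A hA) hg).1)
    (fun g _ hg => sumi_hT₃ A M' q hq hqM hA R' R hR' hR g hg)
    ?_ ?_ (fun x _ hx => sumi_hres A M' q R' R hq hA hR' hR x hx) b hb h1 h2 h3
  · -- hE
    obtain ⟨hz, y, hy, hzy⟩ := sumi_hE (M' := M') hq hlt hζ hζp hE
    have hzi : (sumiZ M' q)⁻¹ ∈ R.O := sumiZ_inv_mem hq hR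
    refine ⟨sumiZ M' q, sumiZ_mem_f0Field A M' q, by rw [hvMid]; exact hz, hzi, ?_, y,
      by rw [hvMid]; exact hy, hzy⟩
    show alW2 M' hq hqM (sumiZ M' q)⁻¹ ∈ R.O
    rw [map_inv₀, sumi_alW2_Z, inv_neg]
    exact R.O.neg_mem _ hzi
  · -- hF
    refine ⟨sumiPi3 M' q (jF M'), sumi_pi3_mem_f0Field A M' q _ (sumi_jF_mem A M'), ?_, ?_⟩
    · show alW2 M' hq hqM (sumiPi3 M' q (jF M')) ∈ R.O
      rw [sumiPi3_apply, alW2_pi3]
      obtain ⟨hj, -⟩ := sumi_red_jF (M' := M') hR'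
      exact (sumi_pi1_mem_red M' q hR' hR (vri_hfrac M' q hq A hA) hj).1
    · intro c hc hsum
      refine sumi_hF hq hqM hA hR' hR c (fun l => (hc l).2) ?_
      exact (sr_mem_comap_nonunits_iff R.O
        ((alW2 M' hq hqM : FF (M' * q * q) ≃ₐ[Kbar] FF (M' * q * q)) :
          FF (M' * q * q) →+* FF (M' * q * q)) _).mp hsum

set_option maxHeartbeats 1600000 in
include hA in
/-- **completeness for `nodeSetupM`**: every valuation subring `≠ ⊤` of `F0(M' q²)` containing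
`π₁ (R'.O ∩ F0(M'))` is the restriction of `O_∞`, `O_mid` or `O_0`. -/
theorem sumi_complete (hR' : IsSeriesRed R') (hR : IsSeriesRed R)
    (hlt : A.valuation (q : Kbar) < 1) (hζ : ζ ^ q = 1)
    (hζp : IsPrimitiveRoot (ζ : Kbar) q) (hE : IsMidExp M' q ζ E)
    (vMid : SeriesVal A (M' * q * q)) (hvMid : vMid.O = vmidO A hq hlt hζ hE)
    (O : ValuationSubring (f0Field A (M' * q * q))) (hO : O ≠ ⊤)
    (hVO : ∀ g : FF M', ∀ hg : g ∈ f0Field A M', g ∈ R'.O →
      (⟨sumiPi1 M' q g, sumi_pi1_mem_f0Field A M' q g hg⟩ : f0Field A (M' * q * q)) ∈ O) :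
    O = R.O.comap (algebraMap (f0Field A (M' * q * q)) (FF (M' * q * q))) ∨
    O = vMid.O.comap (algebraMap (f0Field A (M' * q * q)) (FF (M' * q * q))) ∨
    O = ((SeriesVal.ofConstRed R).comap (alW2 M' hq hqM)).O.comap
      (algebraMap (f0Field A (M' * q * q)) (FF (M' * q * q))) := by
  refine sumc_complete A hq hlt (sumiPi1 M' q) (fun σ _ x => sumi_gal M' q σ x)
    (by rw [sumi_finrank M' q hq hqM]; exact Nat.mul_pos hq.pos (Nat.succ_pos q))
    (sumi_finrank M' q hq hqM).le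
    (SeriesVal.ofConstRed R') (SeriesVal.ofConstRed R) vMid
    ((SeriesVal.ofConstRed R).comap (alW2 M' hq hqM))
    (fun f hf hf0 => vdisc_inf hq hA hR' hf hf0)
    (fun g _ hg => (sumi_pi1_mem_red M' q hR' hR (vri_hfrac M' q hq A hA) hg).1)
    (fun g _ hg => hvMid ▸
      (sumi_pi1_mem_mid M' q hq hlt hζ hE hR' (vri_hfrac M' q hq A hA) hg).1)
    (fun g _ hg => sumi_hT₃ A M' q hq hqM hA R' R hR' hR g hg)
    ?_ ?_ (fun x _ hx => sumi_hres A M' q R' R hq hA hR' hR x hx) O hO hVO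
  · -- hE
    obtain ⟨hz, y, hy, hzy⟩ := sumi_hE (M' := M') hq hlt hζ hζp hE
    have hzi : (sumiZ M' q)⁻¹ ∈ R.O := sumiZ_inv_mem hq hR
    refine ⟨sumiZ M' q, sumiZ_mem_f0Field A M' q, by rw [hvMid]; exact hz, hzi, ?_, y,
      by rw [hvMid]; exact hy, hzy⟩
    show alW2 M' hq hqM (sumiZ M' q)⁻¹ ∈ R.O
    rw [map_inv₀, sumi_alW2_Z, inv_neg]
    exact R.O.neg_mem _ hzi
  · -- hF
    refine ⟨sumiPi3 M' q (jF M'), sumi_pi3_mem_f0Field A M' q _ (sumi_jF_mem A M'), ?_, ?_⟩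
    · show alW2 M' hq hqM (sumiPi3 M' q (jF M')) ∈ R.O
      rw [sumiPi3_apply, alW2_pi3]
      obtain ⟨hj, -⟩ := sumi_red_jF (M' := M') hR'
      exact (sumi_pi1_mem_red M' q hR' hR (vri_hfrac M' q hq A hA) hj).1
    · intro c hc hsum
      refine sumi_hF hq hqM hA hR' hR c (fun l => (hc l).2) ?_
      exact (sr_mem_comap_nonunits_iff R.O
        ((alW2 M' hq hqM : FF (M' * q * q) ≃ₐ[Kbar] FF (M' * q * q)) :
          FF (M' * q * q) →+* FF (M' * q * q)) _).mp hsum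

end Final

end Fermat.Agent.S36lib

end
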