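import Mathlib
import Fermat.Agent.S36lib.D1DedekindMain
import Fermat.Agent.S36lib.SumFinal
import Fermat.Agent.S36lib.IncCuspConc
import Fermat.Agent.S36lib.Apply2Final

/-!
# Item 83 (S36), piece D1-Q, final form (helper27): **D1-Q for `s36Final`, UNCONDITIONAL**

`SF = s36Final A M' q hq hqM hA hζq hζ hE R hR` (helper20's final setup = `nodeSetupM` with
`vMid = vmidSV`), `C = affRing ∞̄'` (level `M'`, over the residue field `k` of `A`).  From the
auxiliary-level hypothesis `haux : IsAuxLevel q M'` only: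

* `d1q_final_hmem_inf/mid/zero`   : RED-MEM, `red_v z ∈ C` for `z ∈ SF.B`;
* `d1q_final_hsurj_inf/mid/zero`  : every `c ∈ C` is `red_v z`, `z ∈ SF.B`;
* `d1q_final_range_inf/mid/zero`  : `red_v (SF.B) = C` as subrings of `κ'`;
* **`d1q_final_inf/mid/zero`**    : `red_v (SF.B)` is a Dedekind domain, `SF.B ⧸ p_v` is a Dedekind
  domain, `κ'` is the fraction field of `red_v (SF.B)`, `p_v` is not maximal.

Inputs: (P4) = helper2's `sumi_isIntegral`, the middle tables = helper23's `icc_mid_pi1/pi3`,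
the level-`M'` reduction `R'` = `liftInf_exists_red`.
-/

set_option autoImplicit false
set_option linter.style.haveILetI false
set_option linter.unusedSectionVars false
set_option linter.unusedVariables false
set_option synthInstance.maxHeartbeats 400000

noncomputable section

namespace Fermat.Agent.S36lib

open ModularCurve AlgebraicCurve HahnSeries
open Fermat.Agent.S24lib Fermat.Agent.S34lib Fermat.Agent.GoodRed Fermat.Agent.GM
open Fermat.Agent.RRlib Fermat.Agent.HeckeBar Fermat.Agent.S37lib Fermat.Agent.S35lib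

variable (A : ValuationSubring Kbar) (M' q : ℕ) [NeZero M'] [NeZero q]
variable (hq : q.Prime) (hqM : ¬ q ∣ M') (hA : A.LiesOverPrime q)
variable {ζ : Kbarˣ} {E : FF (M' * q * q) →+* LaurentSeries Kbar}
variable (hζq : ζ ^ q = 1) (hζ : IsPrimitiveRoot (ζ : Kbar) q) (hE : IsMidExp M' q ζ E)
variable (R : ConstRed A (IsLocalRing.residue A)
      (↥(modularFunctionFieldFullC (IsLocalRing.ResidueField A) M')) (FF (M' * q * q)))
    (hR : IsSeriesRed R)
variable (R' : ConstRed A (IsLocalRing.residue A) (Fk (IsLocalRing.ResidueField A) M') (FF M'))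

local notation "SF" => s36Final A M' q hq hqM hA hζq hζ hE R hR

/-- the middle table of `π₁` for `vmidSV` -/
theorem d1q_final_hT₂ (hR' : IsSeriesRed R') (g : FF M') (hg : g ∈ R'.O) :
    ∃ h : ecPi1 M' q g ∈ (vmidSV A hq ((A.mem_nonunits_iff).mp hA) hζq hE).O,
      (vmidSV A hq ((A.mem_nonunits_iff).mp hA) hζq hE).red ⟨ecPi1 M' q g, h⟩ =
        ((R'.red ⟨g, hg⟩ : Fk (IsLocalRing.ResidueField A) M') :
          LaurentSeries (IsLocalRing.ResidueField A)) :=
  icc_mid_pi1 A M' q R' hR' hq ((A.mem_nonunits_iff).mp hA) hζq hE hg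

/-- the middle table of `π₃` for `vmidSV` -/
theorem d1q_final_hT₂' (hR' : IsSeriesRed R') (g : FF M') (hg : g ∈ R'.O) :
    ecPi3 M' q g ∈ (vmidSV A hq ((A.mem_nonunits_iff).mp hA) hζq hE).O :=
  (icc_mid_pi3 A M' q R' hR' hq ((A.mem_nonunits_iff).mp hA) hζq hE hg).1

include hζ hR in
/-- (P4) for the final setup, in the shape of `d1a_nodeSetupM` -/
theorem d1q_final_hP4 (hR' : IsSeriesRed R') :
    ∀ b : FF (M' * q * q), b ∈ f0Field A (M' * q * q) → b ∈ R.O →
      b ∈ (vmidSV A hq ((A.mem_nonunits_iff).mp hA) hζq hE).O →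
      alW2 M' hq hqM b ∈ R.O →
      ∃ p : Polynomial (FF M'), p.Monic ∧ (∀ n, p.coeff n ∈ R'.O) ∧
        Polynomial.eval₂ (ecPi1 M' q) b p = 0 := by
  intro b hb h1 h2 h3
  obtain ⟨p, hp, hpc, hpb⟩ := sumi_isIntegral A M' q hq hqM hA R' R hR' hR
    ((A.mem_nonunits_iff).mp hA) hζq hζ hE
    (vmidSV A hq ((A.mem_nonunits_iff).mp hA) hζq hE) rfl b hb h1 h2 h3
  exact ⟨p, hp, fun n => (hpc n).1, hpb⟩

/-- **RED-MEM at `∞`** for the final setup -/
theorem d1q_final_hmem_inf (haux : IsAuxLevel q M') (z : (SF).B) :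
    (SF).redInf z ∈ affRing (infPlaceC (IsLocalRing.ResidueField A) M') := by
  haveI : Fact q.Prime := ⟨hq⟩
  obtain ⟨R', -, hR', -⟩ := liftInf_exists_red (M := M') (A := A) q haux hA
  exact d1q_hmem_inf A M' q hq hqM hA R' R hR _ _ _ haux hR'
    (fun g _ hg => (d1q_final_hT₂ A M' q hq hA hζq hE R' hR' g hg).1)
    (d1q_final_hP4 A M' q hq hqM hA hζq hζ hE R hR R' hR') z

/-- **RED-MEM at `mid`** for the final setup -/
theorem d1q_final_hmem_mid (haux : IsAuxLevel q M') (z : (SF).B) :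
    (SF).redMid z ∈ affRing (infPlaceC (IsLocalRing.ResidueField A) M') := by
  haveI : Fact q.Prime := ⟨hq⟩
  obtain ⟨R', -, hR', -⟩ := liftInf_exists_red (M := M') (A := A) q haux hA
  exact d1q_hmem_mid A M' q hq hqM hA R' R hR _ _ _ haux hR'
    (d1q_final_hT₂ A M' q hq hA hζq hE R' hR')
    (d1q_final_hP4 A M' q hq hqM hA hζq hζ hE R hR R' hR') z

/-- **RED-MEM at `0`** for the final setup -/
theorem d1q_final_hmem_zero (haux : IsAuxLevel q M') (z : (SF).B) :
    (SF).redZero z ∈ affRing (infPlaceC (IsLocalRing.ResidueField A) M') := by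
  haveI : Fact q.Prime := ⟨hq⟩
  obtain ⟨R', -, hR', -⟩ := liftInf_exists_red (M := M') (A := A) q haux hA
  exact d1q_hmem_zero A M' q hq hqM hA R' R hR _ _ _ haux hR'
    (fun g _ hg => (d1q_final_hT₂ A M' q hq hA hζq hE R' hR' g hg).1)
    (d1q_final_hP4 A M' q hq hqM hA hζq hζ hE R hR R' hR') z

/-- **SURJ at `∞`** for the final setup -/
theorem d1q_final_hsurj_inf (haux : IsAuxLevel q M')
    (c : Fk (IsLocalRing.ResidueField A) M')
    (hc : c ∈ affRing (infPlaceC (IsLocalRing.ResidueField A) M')) :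
    ∃ z : (SF).B, (SF).redInf z = c := by
  haveI : Fact q.Prime := ⟨hq⟩
  obtain ⟨R', -, hR', -⟩ := liftInf_exists_red (M := M') (A := A) q haux hA
  exact d1q_hsurj_inf A M' q hq hqM hA R' R hR _ _ _ haux hR'
    (fun g _ hg => (d1q_final_hT₂ A M' q hq hA hζq hE R' hR' g hg).1) c hc

/-- **SURJ at `mid`** for the final setup -/
theorem d1q_final_hsurj_mid (haux : IsAuxLevel q M')
    (c : Fk (IsLocalRing.ResidueField A) M')
    (hc : c ∈ affRing (infPlaceC (IsLocalRing.ResidueField A) M')) :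
    ∃ z : (SF).B, (SF).redMid z = c := by
  haveI : Fact q.Prime := ⟨hq⟩
  obtain ⟨R', -, hR', -⟩ := liftInf_exists_red (M := M') (A := A) q haux hA
  exact d1q_hsurj_mid A M' q hq hqM hA R' R hR _ _ _ haux hR'
    (d1q_final_hT₂ A M' q hq hA hζq hE R' hR') c hc

/-- **SURJ at `0`** for the final setup -/
theorem d1q_final_hsurj_zero (haux : IsAuxLevel q M')
    (c : Fk (IsLocalRing.ResidueField A) M')
    (hc : c ∈ affRing (infPlaceC (IsLocalRing.ResidueField A) M')) :
    ∃ z : (SF).B, (SF).redZero z = c := by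
  haveI : Fact q.Prime := ⟨hq⟩
  obtain ⟨R', -, hR', -⟩ := liftInf_exists_red (M := M') (A := A) q haux hA
  exact d1q_hsurj_zero A M' q hq hqM hA R' R hR _ _ _ haux hR'
    (fun g _ hg => d1q_final_hT₂' A M' q hq hA hζq hE R' hR' g hg) c hc

/-- `red_∞ (SF.B) = C` -/
theorem d1q_final_range_inf (haux : IsAuxLevel q M') :
    (SF).redInf.range = (affRing (infPlaceC (IsLocalRing.ResidueField A) M')).toSubring :=
  d1q_range_eq _ _ (d1q_final_hmem_inf A M' q hq hqM hA hζq hζ hE R hR haux)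
    (d1q_final_hsurj_inf A M' q hq hqM hA hζq hζ hE R hR haux)

/-- `red_mid (SF.B) = C` -/
theorem d1q_final_range_mid (haux : IsAuxLevel q M') :
    (SF).redMid.range = (affRing (infPlaceC (IsLocalRing.ResidueField A) M')).toSubring :=
  d1q_range_eq _ _ (d1q_final_hmem_mid A M' q hq hqM hA hζq hζ hE R hR haux)
    (d1q_final_hsurj_mid A M' q hq hqM hA hζq hζ hE R hR haux)

/-- `red_0 (SF.B) = C` -/
theorem d1q_final_range_zero (haux : IsAuxLevel q M') :
    (SF).redZero.range = (affRing (infPlaceC (IsLocalRing.ResidueField A) M')).toSubring :=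
  d1q_range_eq _ _ (d1q_final_hmem_zero A M' q hq hqM hA hζq hζ hE R hR haux)
    (d1q_final_hsurj_zero A M' q hq hqM hA hζq hζ hE R hR haux)

set_option maxHeartbeats 1600000 in
/-- **D1-Q at `∞`, UNCONDITIONAL** -/
theorem d1q_final_inf (haux : IsAuxLevel q M') :
    IsDedekindDomain (SF).redInf.range ∧ IsDedekindDomain ((SF).B ⧸ (SF).pInf) ∧
      (∀ w : Fk (IsLocalRing.ResidueField A) M',
        ∃ a b : (SF).B, (SF).redInf b ≠ 0 ∧ w * (SF).redInf b = (SF).redInf a) ∧
      ¬ (SF).pInf.IsMaximal := by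
  haveI : IsAlgClosed (IsLocalRing.ResidueField A) := isAlgClosed_residueField A
  haveI : RRHyp (IsLocalRing.ResidueField A) (Fk (IsLocalRing.ResidueField A) M') :=
    mr_rrHyp (IsLocalRing.ResidueField A) M'
  exact d1q_nodeSetup_inf (SF) (affRing (infPlaceC (IsLocalRing.ResidueField A) M'))
    (d1q_affRing_not_isField _) (d1q_affRing_frac _)
    (d1q_final_hmem_inf A M' q hq hqM hA hζq hζ hE R hR haux)
    (d1q_final_hsurj_inf A M' q hq hqM hA hζq hζ hE R hR haux)

set_option maxHeartbeats 1600000 in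
/-- **D1-Q at `mid`, UNCONDITIONAL** (= R6-g) -/
theorem d1q_final_mid (haux : IsAuxLevel q M') :
    IsDedekindDomain (SF).redMid.range ∧ IsDedekindDomain ((SF).B ⧸ (SF).pMid) ∧
      (∀ w : Fk (IsLocalRing.ResidueField A) M',
        ∃ a b : (SF).B, (SF).redMid b ≠ 0 ∧ w * (SF).redMid b = (SF).redMid a) ∧
      ¬ (SF).pMid.IsMaximal := by
  haveI : IsAlgClosed (IsLocalRing.ResidueField A) := isAlgClosed_residueField A
  haveI : RRHyp (IsLocalRing.ResidueField A) (Fk (IsLocalRing.ResidueField A) M') :=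
    mr_rrHyp (IsLocalRing.ResidueField A) M'
  exact d1q_nodeSetup_mid (SF) (affRing (infPlaceC (IsLocalRing.ResidueField A) M'))
    (d1q_affRing_not_isField _) (d1q_affRing_frac _)
    (d1q_final_hmem_mid A M' q hq hqM hA hζq hζ hE R hR haux)
    (d1q_final_hsurj_mid A M' q hq hqM hA hζq hζ hE R hR haux)

set_option maxHeartbeats 1600000 in
/-- **D1-Q at `0`, UNCONDITIONAL** -/
theorem d1q_final_zero (haux : IsAuxLevel q M') :
    IsDedekindDomain (SF).redZero.range ∧ IsDedekindDomain ((SF).B ⧸ (SF).pZero) ∧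
      (∀ w : Fk (IsLocalRing.ResidueField A) M',
        ∃ a b : (SF).B, (SF).redZero b ≠ 0 ∧ w * (SF).redZero b = (SF).redZero a) ∧
      ¬ (SF).pZero.IsMaximal := by
  haveI : IsAlgClosed (IsLocalRing.ResidueField A) := isAlgClosed_residueField A
  haveI : RRHyp (IsLocalRing.ResidueField A) (Fk (IsLocalRing.ResidueField A) M') :=
    mr_rrHyp (IsLocalRing.ResidueField A) M'
  exact d1q_nodeSetup_zero (SF) (affRing (infPlaceC (IsLocalRing.ResidueField A) M'))
    (d1q_affRing_not_isField _) (d1q_affRing_frac _)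
    (d1q_final_hmem_zero A M' q hq hqM hA hζq hζ hE R hR haux)
    (d1q_final_hsurj_zero A M' q hq hqM hA hζq hζ hE R hR haux)

end Fermat.Agent.S36lib

end
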