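import Mathlib
import Fermat.Agent.S36lib.NormCompFinal

/-!
# Item 83 (S36), block ABEL, series level, INTEGRAL forms (helper29)

`IsGaussInt A E c f r`: `c · E f = a / b` with `a`, `b` series over `A`, `b` PRIMITIVE, and
`r = ā / b̄` (`r = 0` allowed): "`c f` is integral for the Gauss valuation of the expansion `E`,
with reduction `r`".  (`IsGaussRed` of `NormVal.lean` is the case `r ≠ 0`.)

* API: `IsGaussRed.isGaussInt`, `IsGaussInt.isGaussRed`, `IsGaussInt.unique`, `zero`, `one`,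
  `mul`, `add`, `neg`, `sub`, `pow`, `isGaussInt_const`, `map_decomp`, `map_inertia`, `twq_root`;
* `IsGaussInt.exists_isRep`: **bridge** to `IsRep` (series IN the function field) at `∞`;
* the four norm reductions, `N = M' q`, `q ∤ M'`, `A ∣ q`:
  - `nv_beta_inf_int`  : `E_∞ (c f) ~ r ⇒ E_∞ (c^q N_β f) ~ Fr r`;
  - `nv_alpha_zero_int`: `E_0 (c f) ~ r ⇒ E_0 (c^q N_α f) ~ Fr r`;
  - `nv_alpha_inf_int` : `f`, `cm` inertia-fixed, `E_∞ (c₁ f) ~ r₁`, `E_mid (cm f) ~ rm`
    ⇒ `E_∞ (c₁ cm^(q-1) N_α f) ~ r₁ rm^(q-1)`;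
  - `nv_beta_zero_int` : the same for `N_β` at `0`.
-/

set_option autoImplicit false
set_option linter.style.haveILetI false
set_option linter.unusedSectionVars false

noncomputable section

open scoped MatrixGroups
open ModularCurve AlgebraicCurve HahnSeries
open Fermat.Agent.S24lib Fermat.Agent.HeckeBar Fermat.Agent.S37lib Fermat.Agent.S34lib
open Fermat.Agent.S35lib Fermat.Agent.GoodRed

namespace Fermat.Agent.S36lib

section GaussInt

variable {K : Type*} [Field K] (A : ValuationSubring K) {F : Type*} [Field F]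

/-- `c · E f` is integral for the Gauss valuation of the expansion `E`, with reduction `r`:
`c · E f = a / b` with `a`, `b` series over `A`, `b` primitive, and `r = ā / b̄`. -/
def IsGaussInt (E : F →+* LaurentSeries K) (c : K) (f : F)
    (r : LaurentSeries (IsLocalRing.ResidueField A)) : Prop :=
  ∃ a b : LaurentSeries A, coeffMap (IsLocalRing.residue A) b ≠ 0 ∧
    HahnSeries.C c * E f * coeffMap A.subtype b = coeffMap A.subtype a ∧
    coeffMap (IsLocalRing.residue A) a / coeffMap (IsLocalRing.residue A) b = r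

variable {A} {E : F →+* LaurentSeries K} {c c' : K} {f f' : F}
  {r r' : LaurentSeries (IsLocalRing.ResidueField A)}

theorem IsGaussRed.isGaussInt (h : IsGaussRed A E c f r) : IsGaussInt A E c f r := by
  obtain ⟨a, b, -, hb, h, hr⟩ := h
  exact ⟨a, b, hb, h, hr⟩

theorem IsGaussInt.isGaussRed (h : IsGaussInt A E c f r) (hr : r ≠ 0) : IsGaussRed A E c f r := by
  obtain ⟨a, b, hb, h, rfl⟩ := h
  refine ⟨a, b, ?_, hb, h, rfl⟩
  intro h0
  rw [h0, zero_div] at hr
  exact hr rfl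

/-- the reduction is unique -/
theorem IsGaussInt.unique (h : IsGaussInt A E c f r) (h' : IsGaussInt A E c f r') : r' = r := by
  obtain ⟨a, b, hb, h, rfl⟩ := h
  obtain ⟨a', b', hb', h', rfl⟩ := h'
  have key : a' * b = a * b' := by
    apply coeffMap_valSubtype_injective A
    rw [map_mul, map_mul, ← h, ← h']
    ring
  have key' := congrArg (coeffMap (IsLocalRing.residue A)) key
  rw [map_mul, map_mul] at key'
  rw [div_eq_div_iff hb' hb, key']

theorem IsGaussInt.zero : IsGaussInt A E c 0 0 := by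
  refine ⟨0, 1, ?_, ?_, ?_⟩
  · rw [map_one]; exact one_ne_zero
  · rw [map_zero, mul_zero, zero_mul, map_zero]
  · rw [map_zero, zero_div]

theorem IsGaussInt.one : IsGaussInt A E 1 1 1 := (IsGaussRed.one (A := A) (E := E)).isGaussInt

theorem IsGaussInt.mul (h : IsGaussInt A E c f r) (h' : IsGaussInt A E c' f' r') :
    IsGaussInt A E (c * c') (f * f') (r * r') := by
  obtain ⟨a, b, hb, h, rfl⟩ := h
  obtain ⟨a', b', hb', h', rfl⟩ := h'
  refine ⟨a * a', b * b', ?_, ?_, ?_⟩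
  · rw [map_mul]; exact mul_ne_zero hb hb'
  · rw [map_mul, map_mul, map_mul, map_mul, ← h, ← h']; ring
  · rw [map_mul, map_mul, mul_div_mul_comm]

theorem IsGaussInt.pow (h : IsGaussInt A E c f r) (n : ℕ) :
    IsGaussInt A E (c ^ n) (f ^ n) (r ^ n) := by
  induction n with
  | zero => simpa using (IsGaussInt.one : IsGaussInt A E 1 1 1)
  | succ n ih => rw [pow_succ, pow_succ, pow_succ]; exact ih.mul h

theorem IsGaussInt.add (h : IsGaussInt A E c f r) (h' : IsGaussInt A E c f' r') :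
    IsGaussInt A E c (f + f') (r + r') := by
  obtain ⟨a, b, hb, h, rfl⟩ := h
  obtain ⟨a', b', hb', h', rfl⟩ := h'
  refine ⟨a * b' + a' * b, b * b', ?_, ?_, ?_⟩
  · rw [map_mul]; exact mul_ne_zero hb hb'
  · rw [map_add, map_add, map_mul, map_mul, map_mul, ← h, ← h']; ring
  · rw [map_add, map_mul, map_mul, map_mul, div_add_div _ _ hb hb', mul_comm (coeffMap (IsLocalRing.residue A) b) (coeffMap (IsLocalRing.residue A) a')]

theorem IsGaussInt.neg (h : IsGaussInt A E c f r) : IsGaussInt A E c (-f) (-r) := by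
  obtain ⟨a, b, hb, h, rfl⟩ := h
  refine ⟨-a, b, hb, ?_, ?_⟩
  · rw [map_neg, map_neg, ← h]; ring
  · rw [map_neg]; exact neg_div _ _

theorem IsGaussInt.sub (h : IsGaussInt A E c f r) (h' : IsGaussInt A E c f' r') :
    IsGaussInt A E c (f - f') (r - r') := by
  rw [sub_eq_add_neg, sub_eq_add_neg]
  exact h.add h'.neg

/-- constants of `A` -/
theorem isGaussInt_const [Algebra K F] (hE : ∀ c : K, E (algebraMap K F c) = HahnSeries.C c)
    {c : K} (hc : c ∈ A) :
    IsGaussInt A E 1 (algebraMap K F c) (HahnSeries.C (IsLocalRing.residue A ⟨c, hc⟩)) := by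
  refine ⟨HahnSeries.C (⟨c, hc⟩ : A), 1, ?_, ?_, ?_⟩
  · rw [map_one]; exact one_ne_zero
  · rw [hE, map_one, map_one, one_mul, mul_one, coeffMap_C]
    rfl
  · rw [map_one, div_one, coeffMap_C]

end GaussInt

section Galois

variable {A : ValuationSubring Kbar}

local notation "kA" => IsLocalRing.ResidueField A

/-- transport along an element of the decomposition group -/
theorem IsGaussInt.map_decomp (g : A.decompositionSubgroup ℚ)
    {F F' : Type*} [Field F] [Field F'] {E : F →+* LaurentSeries Kbar}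
    {E' : F' →+* LaurentSeries Kbar} {c : Kbar} {f : F} {f' : F'} {r : LaurentSeries kA}
    (hτ : E' f' = coeffMap (((g : Kbar ≃ₐ[ℚ] Kbar) : Kbar ≃ₐ[ℚ] Kbar) : Kbar →+* Kbar) (E f))
    (h : IsGaussInt A E c f r) :
    IsGaussInt A E' ((g : Kbar ≃ₐ[ℚ] Kbar) c) f'
      (coeffMap ((decompResAut A g : kA ≃+* kA) : kA →+* kA) r) := by
  obtain ⟨a, b, hb, h, rfl⟩ := h
  refine ⟨coeffMap (decompHom A g) a, coeffMap (decompHom A g) b, ?_, ?_, ?_⟩
  · rw [coeffMap_residue_decompHom]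
    exact (map_ne_zero _).mpr hb
  · rw [coeffMap_subtype_decompHom, coeffMap_subtype_decompHom, ← h, hτ, map_mul, map_mul,
      coeffMap_C]
    rfl
  · rw [coeffMap_residue_decompHom, coeffMap_residue_decompHom, map_div₀]

/-- transport along an element of the inertia group: the reduction does not change -/
theorem IsGaussInt.map_inertia {σ : Kbar ≃ₐ[ℚ] Kbar} (hσ : σ ∈ A.inertiaSubgroupIn ℚ)
    {F F' : Type*} [Field F] [Field F'] {E : F →+* LaurentSeries Kbar}
    {E' : F' →+* LaurentSeries Kbar} {c : Kbar} {f : F} {f' : F'} {r : LaurentSeries kA}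
    (hτ : E' f' = coeffMap (σ : Kbar →+* Kbar) (E f))
    (h : IsGaussInt A E c f r) : IsGaussInt A E' (σ c) f' r := by
  obtain ⟨g, hg, rfl⟩ := hσ
  have h1 : decompResAut A g = 1 := hg
  have h2 := h.map_decomp g (E' := E') (f' := f') hτ
  rw [h1] at h2
  have h3 : coeffMap (((1 : kA ≃+* kA) : kA ≃+* kA) : kA →+* kA) r = r := coeffMap_id _
  rw [h3] at h2
  exact h2

/-- transport along the twist `X ↦ ζ X`, `ζ^q = 1` -/
theorem IsGaussInt.twq_root {q : ℕ} [NeZero q] (hq : q.Prime) (hA : A.LiesOverPrime q)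
    {ζ : Kbarˣ} (hζ : (ζ : Kbar) ^ q = 1)
    {F F' : Type*} [Field F] [Field F'] {E : F →+* LaurentSeries Kbar}
    {E' : F' →+* LaurentSeries Kbar} {c : Kbar} {f : F} {f' : F'} {r : LaurentSeries kA}
    (hE : E f = twq ζ (E' f')) (h : IsGaussInt A E' c f' r) : IsGaussInt A E c f r := by
  haveI := nv_expChar hq hA
  obtain ⟨ζA, hζA, hζres⟩ := nrq_exists_unit_root (A := A) q hq ζ hζ
  obtain ⟨a, b, hb, h, rfl⟩ := h
  have hbar : ∀ y : LaurentSeries A, coeffMap (IsLocalRing.residue A) (twq ζA y)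
      = coeffMap (IsLocalRing.residue A) y := by
    intro y
    rw [coeffMap_twq, hζres, twq_one]
  have hcoe : ∀ y : LaurentSeries A, coeffMap A.subtype (twq ζA y)
      = twq ζ (coeffMap A.subtype y) := by
    intro y
    rw [coeffMap_twq, hζA]
  refine ⟨twq ζA a, twq ζA b, ?_, ?_, ?_⟩
  · rw [hbar]; exact hb
  · rw [hcoe, hcoe, ← h, hE, map_mul, map_mul, nv_twq_C]
  · rw [hbar, hbar]

/-- **bridge to `IsRep`** at `∞`: the series may be taken in the function field -/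
theorem IsGaussInt.exists_isRep {L : ℕ} [NeZero L] (hA : A ≠ ⊤) {c : Kbar} {f : FF L}
    {r : LaurentSeries kA}
    (h : IsGaussInt A (algebraMap (FF L) (LaurentSeries Kbar)) c f r) :
    ∃ a b : LaurentSeries A, IsRep A (modularFunctionFieldBar L)
        (HahnSeries.C c * (f : LaurentSeries Kbar)) a b ∧
      coeffMap (IsLocalRing.residue A) a / coeffMap (IsLocalRing.residue A) b = r := by
  obtain ⟨a, b, hb, h, rfl⟩ := h
  have h' : HahnSeries.C c * (f : LaurentSeries Kbar) * coeffMap A.subtype b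
      = coeffMap A.subtype a := h
  have hgmem : HahnSeries.C c * (f : LaurentSeries Kbar) ∈ modularFunctionFieldBar L :=
    mul_mem (C_mem_intermediateField _ c) f.2
  by_cases hg0 : HahnSeries.C c * (f : LaurentSeries Kbar) = 0
  · have ha0 : a = 0 := by
      apply coeffMap_valSubtype_injective A
      rw [← h', hg0, zero_mul, map_zero]
    refine ⟨0, 1, ⟨?_, ?_, ?_, ?_⟩, ?_⟩
    · rw [map_zero]; exact zero_mem _
    · rw [map_one]; exact one_mem _
    · rw [map_one]; exact one_ne_zero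
    · rw [hg0, zero_mul, map_zero]
    · rw [ha0, map_zero, zero_div, zero_div]
  · obtain ⟨a₀, b₀, ha₀m, hb₀m, ha₀, hb₀, e, he, h₀⟩ :=
      exists_primitive_smul L A hA _ hgmem hg0
    have hbc : coeffMap A.subtype b ≠ 0 := nv_coe_ne_zero hb
    have key : HahnSeries.C e * coeffMap A.subtype (a₀ * b) = coeffMap A.subtype (a * b₀) := by
      rw [map_mul, map_mul, ← mul_assoc, ← h₀, ← h']
      ring
    obtain ⟨heA, hred⟩ := nrq_content_int A (by rw [map_mul]; exact mul_ne_zero ha₀ hb) key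
    rw [map_mul, map_mul] at hred
    refine ⟨HahnSeries.C (⟨e, heA⟩ : A) * a₀, b₀, ⟨?_, hb₀m, hb₀, ?_⟩, ?_⟩
    · rw [map_mul, coeffMap_C]
      exact mul_mem (C_mem_intermediateField _ _) ha₀m
    · rw [map_mul, coeffMap_C]
      exact h₀
    · rw [map_mul, coeffMap_C, div_eq_div_iff hb₀ hb]
      rw [← hred]
      ring

end Galois

section Formulas

variable (M' : ℕ) [NeZero M'] {q : ℕ} [NeZero q] [NeZero (M' * q)] [NeZero (M' * q * q)]
variable (hq : q.Prime) (hqM : ¬ q ∣ M')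
variable {A : ValuationSubring Kbar} (hA : A.LiesOverPrime q)

local notation "kA" => IsLocalRing.ResidueField A

section Frob

variable [ExpChar (IsLocalRing.ResidueField A) q]

include hq hA in
/-- **(i)** the norm along `β` at `∞`, integral form -/
theorem nv_beta_inf_int {f : FF (M' * q * q)} {c : Kbar} {r : LaurentSeries kA}
    (h : IsGaussInt A (algebraMap (FF (M' * q * q)) (LaurentSeries Kbar)) c f r) :
    IsGaussInt A (algebraMap (FF (M' * q)) (LaurentSeries Kbar)) (c ^ q)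
      (normAlong (heckeBetaBar Kbar (M' * q) q) f) (coeffMap (frobenius kA q) r) := by
  obtain ⟨a, b, hb, h, rfl⟩ := h
  obtain ⟨a', b', hrep, hred⟩ :=
    normRedQ2_beta_int (M' * q) q hq (A.mem_nonunits_iff.mp hA) (npi_hP_beta M' hq) f c a b hb h
  exact ⟨a', b', hrep.2.2.1, hrep.2.2.2, hred⟩

include hA in
/-- **(ii)** the norm along `α` at `0`, integral form -/
theorem nv_alpha_zero_int {f : FF (M' * q * q)} {c : Kbar} {r : LaurentSeries kA}
    (h : IsGaussInt A ((algebraMap (FF (M' * q * q)) (LaurentSeries Kbar)).comp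
      (alW2 M' hq hqM).toAlgHom.toRingHom) c f r) :
    IsGaussInt A ((algebraMap (FF (M' * q)) (LaurentSeries Kbar)).comp
      (alW1 M' hq hqM).toAlgHom.toRingHom) (c ^ q)
      (normAlong (heckeAlphaBar Kbar (M' * q) q) f) (coeffMap (frobenius kA q) r) := by
  obtain ⟨a, b, hb, h, rfl⟩ := h
  obtain ⟨a', b', hrep, hred⟩ :=
    normRedQ2_alpha_zero_int (M' * q) q hq (A.mem_nonunits_iff.mp hA) (npi_hP_beta M' hq)
      (alW1 M' hq hqM) (alW2 M' hq hqM) (npi_hw_alpha M' hq hqM) f c a b hb h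
  exact ⟨a', b', hrep.2.2.1, hrep.2.2.2, hred⟩

end Frob

include hq hqM hA in
/-- **(iii)**, general integral form: the constants at the `q - 1` middle expansions are the
conjugates `τ i cm` under inertia elements. -/
theorem nv_alpha_inf_aux_int (ζ : Kbarˣ) (hζ : IsPrimitiveRoot (ζ : Kbar) q)
    (E : FF (M' * q * q) →+* LaurentSeries Kbar)
    (hEα : ∀ Y : FF (M' * q), E (heckeAlphaBar Kbar (M' * q) q Y) = (Y : LaurentSeries Kbar))
    (hEβ : ∀ Y' : FF M', E (heckeBetaBar Kbar (M' * q) q (heckeBetaBar Kbar M' q Y'))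
      = twq ζ (Y' : LaurentSeries Kbar))
    {f : FF (M' * q * q)} (hf : IsIFixed (M' * q * q) A f)
    {c₁ cm : Kbar} {r₁ rm : LaurentSeries kA}
    (h₁ : IsGaussInt A (algebraMap (FF (M' * q * q)) (LaurentSeries Kbar)) c₁ f r₁)
    (hm : IsGaussInt A E cm f rm) :
    ∃ τ : Fin (q - 1) → (Kbar ≃ₐ[ℚ] Kbar), (∀ i, τ i ∈ A.inertiaSubgroupIn ℚ) ∧
      IsGaussInt A (algebraMap (FF (M' * q)) (LaurentSeries Kbar)) (c₁ * ∏ i, τ i cm)
        (normAlong (heckeAlphaBar Kbar (M' * q) q) f) (r₁ * rm ^ (q - 1)) := by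
  classical
  obtain ⟨Emid, -, hα, hβ, -, -, hPα, -⟩ := npi_midExp_family_prod M' hq hqM ζ hζ
  have hprim : ∀ i : Fin (q - 1), IsPrimitiveRoot ((ζ ^ ((i : ℕ) + 1) : Kbarˣ) : Kbar) q := by
    intro i
    rw [Units.val_pow_eq_pow_val]
    apply hζ.pow_of_coprime
    apply Nat.Coprime.symm
    rw [Nat.Prime.coprime_iff_not_dvd hq]
    intro hdvd
    have h1 := Nat.le_of_dvd (Nat.succ_pos _) hdvd
    have h2 := i.2
    omega
  have hex : ∀ i : Fin (q - 1), ∃ σ ∈ A.inertiaSubgroupIn ℚ,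
      σ (ζ : Kbar) = ((ζ ^ ((i : ℕ) + 1) : Kbarˣ) : Kbar) :=
    fun i => nv_exists_inertia_root A q hq hA _ _ hζ (hprim i)
  choose τ hτI hτζ using hex
  refine ⟨τ, hτI, ?_⟩
  have hmid : ∀ i, IsGaussInt A (Emid i) (τ i cm) f rm := by
    intro i
    refine hm.map_inertia (hτI i) ?_
    have h1 := midExp_gal M' q hq (τ i) ζ (ζ ^ ((i : ℕ) + 1)) (hτζ i).symm E (Emid i) hEα hEβ
      (hα i) (hβ i) f
    have h2 : arithmeticGalois (modularFunctionFieldFull (M' * q * q)) (τ i) • f = f :=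
      hf (τ i) (hτI i)
    rw [h2] at h1
    exact h1
  obtain ⟨a₁, b₁, hb₁, he₁, rfl⟩ := h₁
  choose am bm hbm hem hrm using hmid
  obtain ⟨a', b', hrep, hred⟩ := normRedQ2_alpha_int (M' * q) q hq (A.mem_nonunits_iff.mp hA)
    Emid (fun i => nv_mid_const M' hq (Emid i) (hα i))
    (fun i d _ hd => nv_mid_nfInt M' hq (ζ ^ ((i : ℕ) + 1)) ((hprim i).pow_eq_one)
      (Emid i) (hα i) (hβ i) d hd)
    hPα f c₁ (fun i => τ i cm) a₁ b₁ am bm hb₁ hbm he₁ hem
  refine ⟨a', b', hrep.2.2.1, hrep.2.2.2, ?_⟩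
  rw [hred, Finset.prod_congr rfl (fun i _ => hrm i), Finset.prod_const, Finset.card_univ,
    Fintype.card_fin]

include hq hqM hA in
/-- **(iii)** the norm along `α` at `∞`, integral form (`cm` inertia-fixed, e.g. `cm = 1`):
`red^N_∞ (c₁ cm^(q-1) N_α f) = red_∞ (c₁ f) · red_mid (cm f)^(q-1)`. -/
theorem nv_alpha_inf_int (ζ : Kbarˣ) (hζ : IsPrimitiveRoot (ζ : Kbar) q)
    (E : FF (M' * q * q) →+* LaurentSeries Kbar)
    (hEα : ∀ Y : FF (M' * q), E (heckeAlphaBar Kbar (M' * q) q Y) = (Y : LaurentSeries Kbar))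
    (hEβ : ∀ Y' : FF M', E (heckeBetaBar Kbar (M' * q) q (heckeBetaBar Kbar M' q Y'))
      = twq ζ (Y' : LaurentSeries Kbar))
    {f : FF (M' * q * q)} (hf : IsIFixed (M' * q * q) A f)
    {c₁ cm : Kbar} (hcm : ∀ σ ∈ A.inertiaSubgroupIn ℚ, σ cm = cm) {r₁ rm : LaurentSeries kA}
    (h₁ : IsGaussInt A (algebraMap (FF (M' * q * q)) (LaurentSeries Kbar)) c₁ f r₁)
    (hm : IsGaussInt A E cm f rm) :
    IsGaussInt A (algebraMap (FF (M' * q)) (LaurentSeries Kbar)) (c₁ * cm ^ (q - 1))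
      (normAlong (heckeAlphaBar Kbar (M' * q) q) f) (r₁ * rm ^ (q - 1)) := by
  obtain ⟨τ, hτ, h⟩ := nv_alpha_inf_aux_int M' hq hqM hA ζ hζ E hEα hEβ hf h₁ hm
  rw [Finset.prod_congr rfl (fun i _ => hcm (τ i) (hτ i)), Finset.prod_const, Finset.card_univ,
    Fintype.card_fin] at h
  exact h

include hA in
/-- the middle reduction is `w₂`-invariant on inertia-fixed functions, integral form -/
theorem nv_mid_w2_int (ζ : Kbarˣ) (hζ : IsPrimitiveRoot (ζ : Kbar) q)
    (E : FF (M' * q * q) →+* LaurentSeries Kbar)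
    (hEα : ∀ Y : FF (M' * q), E (heckeAlphaBar Kbar (M' * q) q Y) = (Y : LaurentSeries Kbar))
    (hEβ : ∀ Y' : FF M', E (heckeBetaBar Kbar (M' * q) q (heckeBetaBar Kbar M' q Y'))
      = twq ζ (Y' : LaurentSeries Kbar))
    {f : FF (M' * q * q)} (hf : IsIFixed (M' * q * q) A f)
    {cm : Kbar} {rm : LaurentSeries kA} (hm : IsGaussInt A E cm f rm) :
    ∃ σ ∈ A.inertiaSubgroupIn ℚ,
      IsGaussInt A (E.comp (alW2 M' hq hqM).toAlgHom.toRingHom) (σ cm) f rm := by
  have hζinv : IsPrimitiveRoot ((ζ⁻¹ : Kbarˣ) : Kbar) q := by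
    rw [Units.val_inv_eq_inv_val]
    exact hζ.inv
  obtain ⟨E', -, hE'α, hE'β⟩ := midExp_exists M' q hq hqM ζ⁻¹ hζinv
  obtain ⟨σ, hσ, hσζ⟩ := nv_exists_inertia_root A q hq hA _ _ hζ hζinv
  refine ⟨σ, hσ, ?_⟩
  have h1 := midExp_gal M' q hq σ ζ ζ⁻¹ hσζ.symm E E' hEα hEβ hE'α hE'β f
  have h2 : arithmeticGalois (modularFunctionFieldFull (M' * q * q)) σ • f = f := hf σ hσ
  rw [h2] at h1
  have h3 : IsGaussInt A E' (σ cm) f rm := hm.map_inertia hσ h1
  exact h3.twq_root hq hA hζ.pow_eq_one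
    (nv_midExp_w2 M' hq hqM ζ hζ.pow_eq_one E E' hEα hEβ hE'α hE'β f)

include hA in
/-- **(iv)** the norm along `β` at `0`, integral form (`cm` inertia-fixed, e.g. `cm = 1`):
`red^N_0 (c₁ cm^(q-1) N_β f) = red_0 (c₁ f) · red_mid (cm f)^(q-1)`. -/
theorem nv_beta_zero_int (ζ : Kbarˣ) (hζ : IsPrimitiveRoot (ζ : Kbar) q)
    (E : FF (M' * q * q) →+* LaurentSeries Kbar)
    (hEα : ∀ Y : FF (M' * q), E (heckeAlphaBar Kbar (M' * q) q Y) = (Y : LaurentSeries Kbar))
    (hEβ : ∀ Y' : FF M', E (heckeBetaBar Kbar (M' * q) q (heckeBetaBar Kbar M' q Y'))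
      = twq ζ (Y' : LaurentSeries Kbar))
    {f : FF (M' * q * q)} (hf : IsIFixed (M' * q * q) A f)
    {c₁ cm : Kbar} (hcm : ∀ σ ∈ A.inertiaSubgroupIn ℚ, σ cm = cm) {r₁ rm : LaurentSeries kA}
    (h₁ : IsGaussInt A ((algebraMap (FF (M' * q * q)) (LaurentSeries Kbar)).comp
      (alW2 M' hq hqM).toAlgHom.toRingHom) c₁ f r₁)
    (hm : IsGaussInt A E cm f rm) :
    IsGaussInt A ((algebraMap (FF (M' * q)) (LaurentSeries Kbar)).comp
        (alW1 M' hq hqM).toAlgHom.toRingHom) (c₁ * cm ^ (q - 1))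
        (normAlong (heckeBetaBar Kbar (M' * q) q) f) (r₁ * rm ^ (q - 1)) := by
  obtain ⟨σ, hσ, hm'⟩ := nv_mid_w2_int M' hq hqM hA ζ hζ E hEα hEβ hf hm
  rw [hcm σ hσ] at hm'
  have hm'' : IsGaussInt A E cm (alW2 M' hq hqM f) rm := hm'
  have h₁' : IsGaussInt A (algebraMap (FF (M' * q * q)) (LaurentSeries Kbar)) c₁
      (alW2 M' hq hqM f) r₁ := h₁
  have h := nv_alpha_inf_int M' hq hqM hA ζ hζ E hEα hEβ
    (nv_isIFixed_alW2 M' hq hqM hf) hcm h₁' hm''
  rw [← npi_hw_beta M' hq hqM f] at h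
  exact h

end Formulas

end Fermat.Agent.S36lib
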