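import Mathlib
import Fermat.Agent.S36lib.NormValInt
import Fermat.Agent.S36lib.SetupRed

/-!
# Item 83 (S36), block ABEL, concrete, part 1 (helper29): the NORM TABLE for `SeriesVal`s

* `SvBridge A L E v`: the `SeriesVal` `v` of `FF L` is the Gauss valuation of the expansion `E`,
  with the coefficientwise reduction: `E x · b̂ = â`, `b` primitive ⇒ `x ∈ v.O`, `red x = ā / b̄`
  (= helper18's `vmid_bridge` for `vmidSV`);
* `svBridge_ofConstRed` (an `IsSeriesRed` constant reduction, `E = algebraMap`),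
  `SvBridge.comap` (`v.comap w`, `E ∘ w`);
* `SvBridge.of_isGaussInt`, `SvBridge.isGaussInt` (field level ⇔ series level);
* `abel_table`: **the norm table (A1)**: for `z ∈ FF (M' q²)` inertia-fixed and integral for
  `v_∞, v_mid, v_0`:
  `red^N_∞ (N_α z) = red_∞ z · (red_mid z)^(q-1)`,  `red^N_0 (N_α z) = Fr (red_0 z)`,
  `red^N_∞ (N_β z) = Fr (red_∞ z)`,  `red^N_0 (N_β z) = red_0 z · (red_mid z)^(q-1)`
  (and the norms are integral for `v^N_∞`, `v^N_0`).  `z` is NOT assumed to be a unit.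
-/

set_option autoImplicit false
set_option linter.style.haveILetI false
set_option linter.unusedSectionVars false

noncomputable section

open scoped MatrixGroups
open ModularCurve AlgebraicCurve HahnSeries
open Fermat.Agent.S24lib Fermat.Agent.HeckeBar Fermat.Agent.S37lib Fermat.Agent.S34lib
open Fermat.Agent.S35lib Fermat.Agent.GoodRed

namespace Fermat.Agent.S36lib

section Bridge

variable (A : ValuationSubring Kbar) (L : ℕ) [NeZero L]

local notation "kA" => IsLocalRing.ResidueField A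

/-- the `SeriesVal` `v` is the Gauss valuation of the expansion `E`, with the coefficientwise
reduction -/
def SvBridge (E : FF L →+* LaurentSeries Kbar) (v : SeriesVal A L) : Prop :=
  ∀ (x : FF L) (a b : LaurentSeries A), coeffMap (IsLocalRing.residue A) b ≠ 0 →
    E x * coeffMap A.subtype b = coeffMap A.subtype a →
    ∃ hx : x ∈ v.O, v.red ⟨x, hx⟩
      = coeffMap (IsLocalRing.residue A) a / coeffMap (IsLocalRing.residue A) b

variable {A L} {E : FF L →+* LaurentSeries Kbar} {v : SeriesVal A L}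

/-- series level ⇒ field level -/
theorem SvBridge.of_isGaussInt (hv : SvBridge A L E v) {x : FF L} {r : LaurentSeries kA}
    (h : IsGaussInt A E 1 x r) : ∃ hx : x ∈ v.O, v.red ⟨x, hx⟩ = r := by
  obtain ⟨a, b, hb, h, rfl⟩ := h
  rw [map_one, one_mul] at h
  exact hv x a b hb h

/-- a constant of `v.O` lies in `A` -/
theorem nv_const_mem_of_mem (v : SeriesVal A L) {c : Kbar}
    (hc : algebraMap Kbar (FF L) c ∈ v.O) : c ∈ A := by
  by_contra hcA
  have hc0 : c ≠ 0 := fun h0 => hcA (h0 ▸ A.zero_mem)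
  have hinv : c⁻¹ ∈ A := (A.mem_or_inv_mem c).resolve_left hcA
  have hres : IsLocalRing.residue A ⟨c⁻¹, hinv⟩ = 0 := by
    rw [IsLocalRing.residue_eq_zero_iff, ValuationSubring.valuation_lt_one_iff]
    show A.valuation c⁻¹ < 1
    have h1 : ¬ A.valuation c ≤ 1 := fun hle => hcA ((A.valuation_le_one_iff c).mp hle)
    rw [not_le] at h1
    rw [map_inv₀]
    exact inv_lt_one_of_one_lt₀ h1
  have h1 := v.red_algebraMap ⟨c⁻¹, hinv⟩
  rw [hres, map_zero] at h1
  have h2 := (v.red_eq_zero_iff _).mp h1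
  have h3 : algebraMap Kbar (FF L) c⁻¹ ∈ v.O.nonunits := h2
  rw [ValuationSubring.mem_nonunits_iff] at h3
  have h4 : v.O.valuation (algebraMap Kbar (FF L) c) ≤ 1 := (v.O.valuation_le_one_iff _).mpr hc
  have h5 : v.O.valuation (algebraMap Kbar (FF L) c⁻¹ * algebraMap Kbar (FF L) c) < 1 := by
    rw [map_mul]
    calc v.O.valuation (algebraMap Kbar (FF L) c⁻¹) * v.O.valuation (algebraMap Kbar (FF L) c)
        ≤ v.O.valuation (algebraMap Kbar (FF L) c⁻¹) * 1 := mul_le_mul' le_rfl h4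
      _ = v.O.valuation (algebraMap Kbar (FF L) c⁻¹) := mul_one _
      _ < 1 := h3
  rw [← map_mul, inv_mul_cancel₀ hc0, map_one, map_one] at h5
  exact lt_irrefl _ h5

/-- field level ⇒ series level -/
theorem SvBridge.isGaussInt (hv : SvBridge A L E v) {ℓ : ℕ} (hℓ : ℓ.Prime)
    (hlt : A.valuation (ℓ : Kbar) < 1)
    (hconst : ∀ c : Kbar, E (algebraMap Kbar (FF L) c) = HahnSeries.C c)
    (hgen : ∀ (d : ℕ) [NeZero d] (hd : d ∣ L), NFInt A (E (jdF L d hd)))
    {x : FF L} (hx : x ∈ v.O) : IsGaussInt A E 1 x (v.red ⟨x, hx⟩) := by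
  by_cases hx0 : x = 0
  · subst hx0
    have h0 : v.red ⟨0, hx⟩ = 0 := map_zero v.red
    rw [h0]
    exact IsGaussInt.zero
  obtain ⟨c, hc0, r', hr'⟩ := vg_exists (A := A) L hℓ hlt E hconst hgen hx0
  -- `y = c x` is a unit of `v.O`
  have hy : IsGaussInt A E 1 (algebraMap Kbar (FF L) c * x) r' := by
    obtain ⟨a, b, ha, hb, h, hr⟩ := hr'
    refine ⟨a, b, hb, ?_, hr⟩
    rw [map_one, one_mul, map_mul, hconst]
    exact h
  obtain ⟨hyO, hyr⟩ := hv.of_isGaussInt hy
  have hr0 : r' ≠ 0 := hr'.red_ne_zero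
  have hyunit : ¬ (algebraMap Kbar (FF L) c * x) ∈ v.O.nonunits := by
    intro hnu
    have := (v.red_eq_zero_iff ⟨_, hyO⟩).mpr hnu
    rw [hyr] at this
    exact hr0 this
  have hyinv : (algebraMap Kbar (FF L) c * x)⁻¹ ∈ v.O := by
    rw [ValuationSubring.mem_nonunits_iff, not_lt] at hyunit
    rw [← v.O.valuation_le_one_iff, map_inv₀]
    exact inv_le_one_of_one_le₀ hyunit
  have hac : algebraMap Kbar (FF L) c ≠ 0 := (map_ne_zero _).mpr hc0
  have hcinv : algebraMap Kbar (FF L) c⁻¹ = x * (algebraMap Kbar (FF L) c * x)⁻¹ := by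
    rw [map_inv₀]
    field_simp
  have hcinvO : algebraMap Kbar (FF L) c⁻¹ ∈ v.O := by
    rw [hcinv]
    exact v.O.mul_mem _ _ hx hyinv
  have hcA : c⁻¹ ∈ A := nv_const_mem_of_mem v hcinvO
  have hx' : x = algebraMap Kbar (FF L) c⁻¹ * (algebraMap Kbar (FF L) c * x) := by
    rw [map_inv₀]
    field_simp
  have h1 := (isGaussInt_const (A := A) (E := E) hconst hcA).mul hy
  rw [one_mul, ← hx'] at h1
  have hred : v.red ⟨x, hx⟩
      = HahnSeries.C (IsLocalRing.residue A ⟨c⁻¹, hcA⟩) * r' := by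
    have e1 : (⟨x, hx⟩ : v.O) = ⟨algebraMap Kbar (FF L) c⁻¹, hcinvO⟩ * ⟨_, hyO⟩ :=
      Subtype.ext hx'
    rw [e1, map_mul, hyr]
    congr 1
    have h := v.red_algebraMap ⟨c⁻¹, hcA⟩
    rw [algebraMap_laurentSeries_eq_single, ← HahnSeries.C_apply] at h
    exact h
  rw [hred]
  exact h1

/-- an `IsSeriesRed` constant reduction is the Gauss valuation of the standard expansion -/
theorem svBridge_ofConstRed (hA : A ≠ ⊤)
    {κ : IntermediateField (IsLocalRing.ResidueField A)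
      (LaurentSeries (IsLocalRing.ResidueField A))}
    {R : ConstRed A (IsLocalRing.residue A) κ (FF L)} (hR : IsSeriesRed R) :
    SvBridge A L (algebraMap (FF L) (LaurentSeries Kbar)) (SeriesVal.ofConstRed R) := by
  intro x a b hb hab
  have h : IsGaussInt A (algebraMap (FF L) (LaurentSeries Kbar)) 1 x
      (coeffMap (IsLocalRing.residue A) a / coeffMap (IsLocalRing.residue A) b) :=
    ⟨a, b, hb, by rw [map_one, one_mul]; exact hab, rfl⟩
  obtain ⟨a', b', hrep, hred⟩ := h.exists_isRep hA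
  rw [map_one, one_mul] at hrep
  have hmem := hR.mem_of_isRep hrep
  refine ⟨hmem, ?_⟩
  show ((R.red ⟨x, hmem⟩ : κ) : LaurentSeries (IsLocalRing.ResidueField A)) = _
  rw [hR.red_of_isRep hrep hmem, hred]

/-- transport along an automorphism -/
theorem SvBridge.comap (hv : SvBridge A L E v) (w : FF L ≃ₐ[Kbar] FF L) :
    SvBridge A L (E.comp w.toAlgHom.toRingHom) (v.comap w) := by
  intro x a b hb hab
  obtain ⟨hx, hr⟩ := hv (w x) a b hb hab
  exact ⟨hx, hr⟩

end Bridge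

section Table

variable (M' : ℕ) [NeZero M'] {q : ℕ} [NeZero q] [NeZero (M' * q)] [NeZero (M' * q * q)]
variable (hq : q.Prime) (hqM : ¬ q ∣ M')
variable {A : ValuationSubring Kbar} (hA : A.LiesOverPrime q)

local notation "kA" => IsLocalRing.ResidueField A

include hq in
theorem nv_zero_const (c : Kbar) :
    ((algebraMap (FF (M' * q * q)) (LaurentSeries Kbar)).comp
      (alW2 M' hq hqM).toAlgHom.toRingHom) (algebraMap Kbar (FF (M' * q * q)) c)
      = HahnSeries.C c := by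
  show ((alW2 M' hq hqM (algebraMap Kbar (FF (M' * q * q)) c) : FF (M' * q * q)) :
    LaurentSeries Kbar) = HahnSeries.C c
  rw [AlgEquiv.commutes]
  exact coe_algebraMap_eq_C (F := modularFunctionFieldBar (M' * q * q)) c

include hq in
theorem nv_zero_nfInt (d : ℕ) [NeZero d] (hd : d ∣ M' * q * q) :
    NFInt A (((algebraMap (FF (M' * q * q)) (LaurentSeries Kbar)).comp
      (alW2 M' hq hqM).toAlgHom.toRingHom) (jdF (M' * q * q) d hd)) := by
  show NFInt A ((alW2 M' hq hqM (jdF (M' * q * q) d hd) : FF (M' * q * q)) :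
    LaurentSeries Kbar)
  have h1 : alW2 M' hq hqM (jdF (M' * q * q) d hd)
      = alQ (M' * q * q) (q * q) (alq_dvd_sq M' q) (alq_coprime_sq hq hqM)
        (jdF (M' * q * q) d hd) := rfl
  haveI : NeZero (alqSwap (q * q) d) :=
    ⟨alqSwap_ne_zero (NeZero.ne (M' * q * q)) (alq_dvd_sq M' q) (alq_coprime_sq hq hqM) hd⟩
  rw [h1, alQ_jdF]
  exact nrq_nfInt_jdF (M' * q * q) A _ _

include hA in
/-- **the norm table (A1)**, `SeriesVal` form. -/
theorem abel_table (ζ : Kbarˣ) (hζ : IsPrimitiveRoot (ζ : Kbar) q)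
    (E : FF (M' * q * q) →+* LaurentSeries Kbar)
    (hEα : ∀ Y : FF (M' * q), E (heckeAlphaBar Kbar (M' * q) q Y) = (Y : LaurentSeries Kbar))
    (hEβ : ∀ Y' : FF M', E (heckeBetaBar Kbar (M' * q) q (heckeBetaBar Kbar M' q Y'))
      = twq ζ (Y' : LaurentSeries Kbar))
    {vInfM vMidM vZeroM : SeriesVal A (M' * q * q)} {vInfN vZeroN : SeriesVal A (M' * q)}
    (bInfM : SvBridge A (M' * q * q) (algebraMap (FF (M' * q * q)) (LaurentSeries Kbar)) vInfM)
    (bMidM : SvBridge A (M' * q * q) E vMidM)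
    (bZeroM : SvBridge A (M' * q * q) ((algebraMap (FF (M' * q * q)) (LaurentSeries Kbar)).comp
      (alW2 M' hq hqM).toAlgHom.toRingHom) vZeroM)
    (bInfN : SvBridge A (M' * q) (algebraMap (FF (M' * q)) (LaurentSeries Kbar)) vInfN)
    (bZeroN : SvBridge A (M' * q) ((algebraMap (FF (M' * q)) (LaurentSeries Kbar)).comp
      (alW1 M' hq hqM).toAlgHom.toRingHom) vZeroN)
    {z : FF (M' * q * q)} (hz : IsIFixed (M' * q * q) A z)
    (h1 : z ∈ vInfM.O) (h2 : z ∈ vMidM.O) (h3 : z ∈ vZeroM.O) :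
    (∃ h : normAlong (heckeAlphaBar Kbar (M' * q) q) z ∈ vInfN.O,
      vInfN.red ⟨_, h⟩ = vInfM.red ⟨z, h1⟩ * vMidM.red ⟨z, h2⟩ ^ (q - 1)) ∧
    (∃ h : normAlong (heckeAlphaBar Kbar (M' * q) q) z ∈ vZeroN.O,
      vZeroN.red ⟨_, h⟩ = coeffMap (@frobenius kA _ q (nv_expChar hq hA)) (vZeroM.red ⟨z, h3⟩)) ∧
    (∃ h : normAlong (heckeBetaBar Kbar (M' * q) q) z ∈ vInfN.O,
      vInfN.red ⟨_, h⟩ = coeffMap (@frobenius kA _ q (nv_expChar hq hA)) (vInfM.red ⟨z, h1⟩)) ∧
    (∃ h : normAlong (heckeBetaBar Kbar (M' * q) q) z ∈ vZeroN.O,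
      vZeroN.red ⟨_, h⟩ = vZeroM.red ⟨z, h3⟩ * vMidM.red ⟨z, h2⟩ ^ (q - 1)) := by
  haveI := nv_expChar hq hA
  have hlt : A.valuation (q : Kbar) < 1 := A.mem_nonunits_iff.mp hA
  have s1 := bInfM.isGaussInt hq hlt
    (fun c => coe_algebraMap_eq_C (F := modularFunctionFieldBar (M' * q * q)) c)
    (fun d _ hd => nrq_nfInt_jdF (M' * q * q) A d hd) h1
  have s2 := bMidM.isGaussInt hq hlt (nv_mid_const M' hq E hEα)
    (fun d _ hd => nv_mid_nfInt M' hq ζ hζ.pow_eq_one E hEα hEβ d hd) h2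
  have s3 := bZeroM.isGaussInt hq hlt (nv_zero_const M' hq hqM)
    (fun d _ hd => nv_zero_nfInt M' hq hqM d hd) h3
  have hone : ∀ σ ∈ A.inertiaSubgroupIn ℚ, σ (1 : Kbar) = 1 := fun σ _ => map_one σ
  refine ⟨?_, ?_, ?_, ?_⟩
  · have h := nv_alpha_inf_int M' hq hqM hA ζ hζ E hEα hEβ hz hone s1 s2
    rw [one_pow, mul_one] at h
    exact bInfN.of_isGaussInt h
  · have h := nv_alpha_zero_int M' hq hqM hA s3
    rw [one_pow] at h
    exact bZeroN.of_isGaussInt h
  · have h := nv_beta_inf_int M' hq hA s1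
    rw [one_pow] at h
    exact bInfN.of_isGaussInt h
  · have h := nv_beta_zero_int M' hq hqM hA ζ hζ E hEα hEβ hz hone s3 s2
    rw [one_pow, mul_one] at h
    exact bZeroN.of_isGaussInt h

end Table

end Fermat.Agent.S36lib
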