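/-
Item 83 (S36), block TOR, piece T-3 (helper25): ABEL + TOR over `NodeSetup`.

`SN` the setup of level `N = M' q` (`vMid := vInf`), `SM` the setup of level `M = M' q²`, both over
the same `(A, π, κ)`; `R ⊆ κ` the affine ring of `C'`; `e, e' : ι → R →ₐ[k] k` the nodes (`S34`
`GlueData.e₁, e₂`); `Fr` the coefficient Frobenius of `κ`; `Nα, Nβ : B_M → B_N` the two norms.
Hypotheses (to be discharged by the concrete blocks):
* the NORM TABLE (A-2, helper29), for all `z : B_M`: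
  `red_∞ᴺ (Nα z) = red_∞ z · (red_mid z)^(q−1)`, `red_0ᴺ (Nα z) = Fr (red_0 z)`,
  `red_∞ᴺ (Nβ z) = Fr (red_∞ z)`, `red_0ᴺ (Nβ z) = (red_mid z)^(q−1) · red_0 z`;
* the GLUING of level `N`: `e i (red_∞ᴺ y) = e' i (red_0ᴺ y)` and (swap, by `w_q`)
  `e' i (red_∞ᴺ y) = e i (red_0ᴺ y)` for `y : B_N`;
* `e' i (Fr r) = (e i r)^q`.
Results:
* `tor_nodeSetup_inc` (T-1): the three reductions of `z : B_M` have the same value at every node;
  (`tor_nodeSetup_inc'`: the same w.r.t. `e'`, from `Nβ`);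
* `tor_nodeSetup_unit`: a unit at the nodes has nonzero values at the nodes;
* `tor_root_normalise`: `Nb = c · s^m` in `F_N` ⟹ `Nb = c' · y^m` with `c' ∈ A`, `π c' ≠ 0`,
  `y ∈ B_N`;
* `tor_nodeSetup` (ABEL + TOR): the conclusion of `abel_tor` for `r_v = red_v b`, in the form of
  the hypotheses `hI hM hZ hgl` of `s36_glue_tor` (`GlueSTor.lean`).
No sorry.
-/
import Mathlib
import Fermat.Agent.S36lib.Setup
import Fermat.Agent.S36lib.Tor

set_option autoImplicit false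

noncomputable section

namespace Fermat.Agent.S36lib

section TorConc

variable {K : Type*} [Field K] {k : Type*} [Field k]
  {A : ValuationSubring K} {π : A →+* k} {κ : Type*} [Field κ] [Algebra k κ]
  {FN FM : Type*} [Field FN] [Field FM] [Algebra K FN] [Algebra K FM]
  {SN : NodeSetup A π κ FN} {SM : NodeSetup A π κ FM} {ι : Type*}

/-- the reductions of `z − a`, `a ∈ A` a constant -/
theorem tor_red_sub_const (S : NodeSetup A π κ FM) (z : S.B) (a : A) :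
    S.redInf (z - S.constB a) = S.redInf z - algebraMap k κ (π a) ∧
    S.redMid (z - S.constB a) = S.redMid z - algebraMap k κ (π a) ∧
    S.redZero (z - S.constB a) = S.redZero z - algebraMap k κ (π a) := by
  refine ⟨?_, ?_, ?_⟩
  · rw [map_sub, S.redInf_constB]
  · rw [map_sub, S.redMid_constB]
  · rw [map_sub, S.redZero_constB]

/-- **(T-1) over `NodeSetup`**: the three reductions of `z ∈ B_M` have the same value at every
node `e i` (from the norm `Nα (z − λ)` and the gluing at level `N`). -/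
theorem tor_nodeSetup_inc (R : Subalgebra k κ) (q : ℕ) (hq : 2 ≤ q)
    (hπ : Function.Surjective π)
    (hNInf : ∀ z : SN.B, SN.redInf z ∈ R) (hNZero : ∀ z : SN.B, SN.redZero z ∈ R)
    (hMInf : ∀ z : SM.B, SM.redInf z ∈ R) (hMMid : ∀ z : SM.B, SM.redMid z ∈ R)
    (hMZero : ∀ z : SM.B, SM.redZero z ∈ R)
    (e e' : ι → R →ₐ[k] k) (Fr : κ ≃+* κ)
    (hFre : ∀ i (r : R) (h : Fr (r : κ) ∈ R), e' i ⟨Fr (r : κ), h⟩ = e i r ^ q)
    (hgl : ∀ (y : SN.B) (i : ι), e i ⟨SN.redInf y, hNInf y⟩ = e' i ⟨SN.redZero y, hNZero y⟩)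
    (Nα : SM.B → SN.B)
    (hαInf : ∀ z, SN.redInf (Nα z) = SM.redInf z * SM.redMid z ^ (q - 1))
    (hαZero : ∀ z, SN.redZero (Nα z) = Fr (SM.redZero z))
    (z : SM.B) (i : ι) :
    e i ⟨SM.redInf z, hMInf z⟩ = e i ⟨SM.redMid z, hMMid z⟩ ∧
      e i ⟨SM.redMid z, hMMid z⟩ = e i ⟨SM.redZero z, hMZero z⟩ := by
  refine tor_incidence q hq (e i) ⟨SM.redInf z, hMInf z⟩ ⟨SM.redMid z, hMMid z⟩
    ⟨SM.redZero z, hMZero z⟩ fun lam => ?_
  obtain ⟨a, rfl⟩ := hπ lam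
  obtain ⟨h1, h2, h3⟩ := tor_red_sub_const SM z a
  set z' : SM.B := z - SM.constB a with hz'
  have hg := hgl (Nα z') i
  -- the left hand side
  have hL : (⟨SN.redInf (Nα z'), hNInf (Nα z')⟩ : R)
      = (⟨SM.redInf z', hMInf z'⟩ : R) * (⟨SM.redMid z', hMMid z'⟩ : R) ^ (q - 1) :=
    Subtype.ext (by
      rw [Subalgebra.coe_mul, Subalgebra.coe_pow]
      exact hαInf z')
  have hR : e' i ⟨SN.redZero (Nα z'), hNZero (Nα z')⟩ = e i ⟨SM.redZero z', hMZero z'⟩ ^ q := by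
    have hmem : Fr ((⟨SM.redZero z', hMZero z'⟩ : R) : κ) ∈ R := by
      show Fr (SM.redZero z') ∈ R
      rw [← hαZero z']
      exact hNZero (Nα z')
    rw [← hFre i ⟨SM.redZero z', hMZero z'⟩ hmem]
    congr 1
    exact Subtype.ext (hαZero z')
  rw [hL, hR, map_mul, map_pow] at hg
  have e1 : (⟨SM.redInf z', hMInf z'⟩ : R)
      = (⟨SM.redInf z, hMInf z⟩ : R) - algebraMap k R (π a) := Subtype.ext h1
  have e2 : (⟨SM.redMid z', hMMid z'⟩ : R)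
      = (⟨SM.redMid z, hMMid z⟩ : R) - algebraMap k R (π a) := Subtype.ext h2
  have e3 : (⟨SM.redZero z', hMZero z'⟩ : R)
      = (⟨SM.redZero z, hMZero z⟩ : R) - algebraMap k R (π a) := Subtype.ext h3
  rw [e1, e2, e3, map_sub, map_sub, map_sub, AlgHom.commutes] at hg
  exact hg

/-- **(T-1) over `NodeSetup`, second family**: the same at the nodes `e' i`, from the norm
`Nβ (z − λ)`, the gluing at level `N` and `e i (Fr r) = (e' i r)^q`. -/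
theorem tor_nodeSetup_inc' (R : Subalgebra k κ) (q : ℕ) (hq : 2 ≤ q)
    (hπ : Function.Surjective π)
    (hNInf : ∀ z : SN.B, SN.redInf z ∈ R) (hNZero : ∀ z : SN.B, SN.redZero z ∈ R)
    (hMInf : ∀ z : SM.B, SM.redInf z ∈ R) (hMMid : ∀ z : SM.B, SM.redMid z ∈ R)
    (hMZero : ∀ z : SM.B, SM.redZero z ∈ R)
    (e e' : ι → R →ₐ[k] k) (Fr : κ ≃+* κ)
    (hFre' : ∀ i (r : R) (h : Fr (r : κ) ∈ R), e i ⟨Fr (r : κ), h⟩ = e' i r ^ q)
    (hgl : ∀ (y : SN.B) (i : ι), e i ⟨SN.redInf y, hNInf y⟩ = e' i ⟨SN.redZero y, hNZero y⟩)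
    (Nβ : SM.B → SN.B)
    (hβInf : ∀ z, SN.redInf (Nβ z) = Fr (SM.redInf z))
    (hβZero : ∀ z, SN.redZero (Nβ z) = SM.redMid z ^ (q - 1) * SM.redZero z)
    (z : SM.B) (i : ι) :
    e' i ⟨SM.redInf z, hMInf z⟩ = e' i ⟨SM.redMid z, hMMid z⟩ ∧
      e' i ⟨SM.redMid z, hMMid z⟩ = e' i ⟨SM.redZero z, hMZero z⟩ := by
  have key := tor_incidence q hq (e' i) ⟨SM.redZero z, hMZero z⟩ ⟨SM.redMid z, hMMid z⟩
    ⟨SM.redInf z, hMInf z⟩ fun lam => ?_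
  · exact ⟨key.2.symm, key.1.symm⟩
  obtain ⟨a, rfl⟩ := hπ lam
  obtain ⟨h1, h2, h3⟩ := tor_red_sub_const SM z a
  set z' : SM.B := z - SM.constB a with hz'
  have hg := hgl (Nβ z') i
  have hR : (⟨SN.redZero (Nβ z'), hNZero (Nβ z')⟩ : R)
      = (⟨SM.redZero z', hMZero z'⟩ : R) * (⟨SM.redMid z', hMMid z'⟩ : R) ^ (q - 1) :=
    Subtype.ext (by
      rw [Subalgebra.coe_mul, Subalgebra.coe_pow, mul_comm]
      exact hβZero z')
  have hL : e i ⟨SN.redInf (Nβ z'), hNInf (Nβ z')⟩ = e' i ⟨SM.redInf z', hMInf z'⟩ ^ q := by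
    have hmem : Fr ((⟨SM.redInf z', hMInf z'⟩ : R) : κ) ∈ R := by
      show Fr (SM.redInf z') ∈ R
      rw [← hβInf z']
      exact hNInf (Nβ z')
    rw [← hFre' i ⟨SM.redInf z', hMInf z'⟩ hmem]
    congr 1
    exact Subtype.ext (hβInf z')
  rw [hL, hR, map_mul, map_pow] at hg
  have e1 : (⟨SM.redInf z', hMInf z'⟩ : R)
      = (⟨SM.redInf z, hMInf z⟩ : R) - algebraMap k R (π a) := Subtype.ext h1
  have e2 : (⟨SM.redMid z', hMMid z'⟩ : R)
      = (⟨SM.redMid z, hMMid z⟩ : R) - algebraMap k R (π a) := Subtype.ext h2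
  have e3 : (⟨SM.redZero z', hMZero z'⟩ : R)
      = (⟨SM.redZero z, hMZero z⟩ : R) - algebraMap k R (π a) := Subtype.ext h3
  rw [e1, e2, e3, map_sub, map_sub, map_sub, AlgHom.commutes] at hg
  exact hg.symm

/-- a unit at the nodes has a nonzero value at every node (given incidence). -/
theorem tor_nodeSetup_unit (R : Subalgebra k κ)
    (hMInf : ∀ z : SM.B, SM.redInf z ∈ R) (hMZero : ∀ z : SM.B, SM.redZero z ∈ R)
    (e : ι → R →ₐ[k] k)
    (hinc : ∀ (z : SM.B) (i : ι), e i ⟨SM.redInf z, hMInf z⟩ = e i ⟨SM.redZero z, hMZero z⟩)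
    (b : SM.B) (hb : SM.IsUnitAtNodes b) (i : ι) : e i ⟨SM.redInf b, hMInf b⟩ ≠ 0 := by
  obtain ⟨b', x, y, hx, hy, h⟩ := hb
  have hx0 : SM.redInf x = 0 := hx
  have hy0 : SM.redZero y = 0 := hy
  have hyI : e i ⟨SM.redInf y, hMInf y⟩ = 0 := by
    rw [hinc y i]
    have : (⟨SM.redZero y, hMZero y⟩ : R) = 0 := Subtype.ext hy0
    rw [this, map_zero]
  have h1 : (⟨SM.redInf b, hMInf b⟩ : R) * ⟨SM.redInf b', hMInf b'⟩
      = 1 + ⟨SM.redInf y, hMInf y⟩ := Subtype.ext (by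
    rw [Subalgebra.coe_mul, Subalgebra.coe_add, Subalgebra.coe_one]
    show SM.redInf b * SM.redInf b' = 1 + SM.redInf y
    rw [← map_mul, h, map_add, map_add, map_one, hx0, add_zero])
  have h2 := congrArg (e i) h1
  rw [map_mul, map_add, map_one, hyI, add_zero] at h2
  intro h0
  rw [h0, zero_mul] at h2
  exact zero_ne_one h2

/-- **normalisation of the roots**: if `Nb ∈ B_N` has nonzero reduction at `v_∞`, and
`Nb = c · s^m` in `F_N` with a constant `c`, then `Nb = c' · y^m` with `c' ∈ A`, `π c' ≠ 0` and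
`y ∈ B_N`.  `hgauss`: every `s ≠ 0` becomes a unit of `O_∞` after multiplication by a nonzero
constant (`v_∞` is unramified over `A`); `hroot`: `B_N` is root-closed in `F_N`;
`hA`: `O_∞ ∩ K = A`. -/
theorem tor_root_normalise
    (hgauss : ∀ s : FN, s ≠ 0 → ∃ d : K, d ≠ 0 ∧
      algebraMap K FN d * s ∈ SN.vInf.O ∧ (algebraMap K FN d * s)⁻¹ ∈ SN.vInf.O)
    (hroot : ∀ (y : FN) (m : ℕ), 0 < m → y ^ m ∈ SN.B → y ∈ SN.B)
    (hA : ∀ c : K, algebraMap K FN c ∈ SN.vInf.O → c ∈ A)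
    (m : ℕ) (hm : 0 < m) (Nb : SN.B) (hNb : SN.redInf Nb ≠ 0)
    (c : K) (s : FN) (h : (Nb : FN) = algebraMap K FN c * s ^ m) :
    ∃ (c' : A) (y : SN.B), π c' ≠ 0 ∧ Nb = SN.constB c' * y ^ m := by
  have hNb0 : (Nb : FN) ≠ 0 := by
    intro h0
    apply hNb
    have : Nb = 0 := Subtype.ext h0
    rw [this, map_zero]
  have hs0 : s ≠ 0 := by
    rintro rfl
    rw [zero_pow hm.ne', mul_zero] at h
    exact hNb0 h
  obtain ⟨d, hd0, hy1, hy2⟩ := hgauss s hs0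
  have hdF : algebraMap K FN d ≠ 0 := by
    rwa [Ne, map_eq_zero]
  set y₀ : FN := algebraMap K FN d * s with hy₀
  have hy₀0 : y₀ ≠ 0 := mul_ne_zero hdF hs0
  set c₀ : K := c * (d ^ m)⁻¹ with hc₀
  have h' : (Nb : FN) = algebraMap K FN c₀ * y₀ ^ m := by
    rw [h, hc₀, hy₀, map_mul, map_inv₀, map_pow, mul_pow]
    field_simp
  -- `c₀ ∈ O_∞`, hence `c₀ ∈ A`
  have hNbO : (Nb : FN) ∈ SN.vInf.O := SN.B_le_inf Nb.2
  have hc₀O : algebraMap K FN c₀ ∈ SN.vInf.O := by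
    have e1 : algebraMap K FN c₀ = (Nb : FN) * (y₀⁻¹) ^ m := by
      rw [h', inv_pow, mul_assoc, mul_inv_cancel₀ (pow_ne_zero m hy₀0), mul_one]
    rw [e1]
    exact SN.vInf.O.mul_mem _ _ hNbO (SN.vInf.O.pow_mem hy2 m)
  have hc₀A : c₀ ∈ A := hA c₀ hc₀O
  -- the reduction
  have hred : SN.redInf Nb
      = algebraMap k κ (π ⟨c₀, hc₀A⟩) * SN.vInf.red ⟨y₀, hy1⟩ ^ m := by
    rw [← SN.vInf.red_algebraMap ⟨c₀, hc₀A⟩, ← map_pow, ← map_mul]
    show SN.vInf.red ⟨(Nb : FN), SN.B_le_inf Nb.2⟩ = _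
    congr 1
    exact Subtype.ext h'
  have hπc : π ⟨c₀, hc₀A⟩ ≠ 0 := by
    intro h0
    apply hNb
    rw [hred, h0, map_zero, zero_mul]
  -- `c₀` is a unit of `O_∞`
  have hc₀u : (algebraMap K FN c₀)⁻¹ ∈ SN.vInf.O := by
    have hnot : (algebraMap K FN c₀) ∉ SN.vInf.O.nonunits := by
      intro hmem
      have := (SN.vInf.red_eq_zero_iff ⟨algebraMap K FN c₀, hc₀O⟩).mpr hmem
      rw [SN.vInf.red_algebraMap ⟨c₀, hc₀A⟩] at this
      exact hπc ((map_eq_zero _).mp this)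
    rw [ValuationSubring.mem_nonunits_iff] at hnot
    have hv1 : SN.vInf.O.valuation (algebraMap K FN c₀) = 1 :=
      le_antisymm ((SN.vInf.O.valuation_le_one_iff _).mpr hc₀O) (not_lt.mp hnot)
    rw [← SN.vInf.O.valuation_le_one_iff, map_inv₀, hv1, inv_one]
  have hc₀iA : c₀⁻¹ ∈ A := hA c₀⁻¹ (by rw [map_inv₀]; exact hc₀u)
  have hc₀0 : algebraMap K FN c₀ ≠ 0 := by
    intro h0
    rw [h0, zero_mul] at h'
    exact hNb0 h'
  have hpow : y₀ ^ m ∈ SN.B := by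
    have e2 : y₀ ^ m = algebraMap K FN ((⟨c₀⁻¹, hc₀iA⟩ : A) : K) * (Nb : FN) := by
      show y₀ ^ m = algebraMap K FN c₀⁻¹ * (Nb : FN)
      rw [h', map_inv₀, ← mul_assoc, inv_mul_cancel₀ hc₀0, one_mul]
    rw [e2]
    exact SN.B.mul_mem (SN.algebraMap_mem_B ⟨c₀⁻¹, hc₀iA⟩) Nb.2
  refine ⟨⟨c₀, hc₀A⟩, ⟨y₀, hroot y₀ m hm hpow⟩, hπc, Subtype.ext ?_⟩
  exact h'

/-- **(ABEL + TOR) over `NodeSetup`.**  `b ∈ B_M` a unit at the nodes whose two norms are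
constants times `m`-th powers in `B_N` (`hyα`, `hyβ`: output of `tor_root_normalise`).  Then
`(red_v b)^((q−1)(q+1)) = c_v · s_v^m` with `s_v ∈ R`, `s_∞(e) = s_mid(e) = s_0(e) ≠ 0` at every
node: exactly the hypotheses `hI hM hZ hgl` of `s36_glue_tor`. -/
theorem tor_nodeSetup (R : Subalgebra k κ) (hcl : TorClosed k R) (m q : ℕ) (hm : 0 < m)
    (hq : 2 ≤ q) [Nonempty ι]
    (hπ : Function.Surjective π)
    (hNInf : ∀ z : SN.B, SN.redInf z ∈ R) (hNZero : ∀ z : SN.B, SN.redZero z ∈ R)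
    (hMInf : ∀ z : SM.B, SM.redInf z ∈ R) (hMMid : ∀ z : SM.B, SM.redMid z ∈ R)
    (hMZero : ∀ z : SM.B, SM.redZero z ∈ R)
    (e e' : ι → R →ₐ[k] k) (Fr : κ ≃+* κ)
    (hFrR : ∀ x : κ, Fr x ∈ R ↔ x ∈ R)
    (hFrk : ∀ c : k, ∃ c' : k, Fr (algebraMap k κ c') = algebraMap k κ c)
    (hFre : ∀ i (r : R) (h : Fr (r : κ) ∈ R), e' i ⟨Fr (r : κ), h⟩ = e i r ^ q)
    (hgl : ∀ (y : SN.B) (i : ι), e i ⟨SN.redInf y, hNInf y⟩ = e' i ⟨SN.redZero y, hNZero y⟩)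
    (hgl' : ∀ (y : SN.B) (i : ι), e' i ⟨SN.redInf y, hNInf y⟩ = e i ⟨SN.redZero y, hNZero y⟩)
    (Nα Nβ : SM.B → SN.B)
    (hαInf : ∀ z, SN.redInf (Nα z) = SM.redInf z * SM.redMid z ^ (q - 1))
    (hαZero : ∀ z, SN.redZero (Nα z) = Fr (SM.redZero z))
    (hβInf : ∀ z, SN.redInf (Nβ z) = Fr (SM.redInf z))
    (hβZero : ∀ z, SN.redZero (Nβ z) = SM.redMid z ^ (q - 1) * SM.redZero z)
    (b : SM.B) (hb : SM.IsUnitAtNodes b)
    (cα cβ : A) (hcα : π cα ≠ 0) (hcβ : π cβ ≠ 0) (yα yβ : SN.B)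
    (hyα : Nα b = SN.constB cα * yα ^ m) (hyβ : Nβ b = SN.constB cβ * yβ ^ m) :
    ∃ (cInf cMid cZero : k) (sInf sMid sZero : R), cInf ≠ 0 ∧ cMid ≠ 0 ∧ cZero ≠ 0 ∧
      SM.redInf b ^ ((q - 1) * (q + 1)) = cInf • (sInf : κ) ^ m ∧
      SM.redMid b ^ ((q - 1) * (q + 1)) = cMid • (sMid : κ) ^ m ∧
      SM.redZero b ^ ((q - 1) * (q + 1)) = cZero • (sZero : κ) ^ m ∧
      ∀ i, e i sInf ≠ 0 ∧ e i sInf = e i sMid ∧ e i sMid = e i sZero := by
  obtain ⟨i₀⟩ := ‹Nonempty ι›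
  have hinc := tor_nodeSetup_inc (SN := SN) (SM := SM) R q hq hπ hNInf hNZero hMInf hMMid hMZero
    e e' Fr hFre hgl Nα hαInf hαZero
  have hInf0 : ∀ i, e i ⟨SM.redInf b, hMInf b⟩ ≠ 0 :=
    tor_nodeSetup_unit R hMInf hMZero e (fun z i => (hinc z i).1.trans (hinc z i).2) b hb
  have hne : ∀ r : R, e i₀ r ≠ 0 → r ≠ 0 := by
    rintro r hr rfl
    exact hr (map_zero _)
  have hInfne : (⟨SM.redInf b, hMInf b⟩ : R) ≠ 0 := hne _ (hInf0 i₀)
  have hMidne : (⟨SM.redMid b, hMMid b⟩ : R) ≠ 0 :=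
    hne _ (by rw [← (hinc b i₀).1]; exact hInf0 i₀)
  have hZerone : (⟨SM.redZero b, hMZero b⟩ : R) ≠ 0 :=
    hne _ (by rw [← (hinc b i₀).2, ← (hinc b i₀).1]; exact hInf0 i₀)
  -- the reductions of the two norm relations
  have rα₁ : π cα • SN.redInf yα ^ m = SM.redInf b * SM.redMid b ^ (q - 1) := by
    rw [← hαInf b, hyα, map_mul, map_pow, SN.redInf_constB, Algebra.smul_def]
  have rα₂ : π cα • SN.redZero yα ^ m = Fr (SM.redZero b) := by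
    rw [← hαZero b, hyα, map_mul, map_pow, SN.redZero_constB, Algebra.smul_def]
  have rβ₁ : π cβ • SN.redInf yβ ^ m = Fr (SM.redInf b) := by
    rw [← hβInf b, hyβ, map_mul, map_pow, SN.redInf_constB, Algebra.smul_def]
  have rβ₂ : π cβ • SN.redZero yβ ^ m = SM.redMid b ^ (q - 1) * SM.redZero b := by
    rw [← hβZero b, hyβ, map_mul, map_pow, SN.redZero_constB, Algebra.smul_def]
  exact abel_tor hcl m q hm (by omega) e e' Fr hFrR hFrk hFre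
    ⟨SM.redInf b, hMInf b⟩ ⟨SM.redMid b, hMMid b⟩ ⟨SM.redZero b, hMZero b⟩
    hInfne hMidne hZerone hInf0
    ⟨SN.redInf yα, hNInf yα⟩ ⟨SN.redZero yα, hNZero yα⟩
    ⟨SN.redInf yβ, hNInf yβ⟩ ⟨SN.redZero yβ, hNZero yβ⟩
    (π cα) (π cβ) hcα hcβ rα₁ rα₂ rβ₁ rβ₂ (fun i => hgl yα i) (fun i => hgl' yβ i)

end TorConc

end Fermat.Agent.S36lib

end
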