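import Mathlib
import Fermat.Agent.S36lib.AbelConc
import Fermat.Agent.S36lib.SetupD1
import Fermat.Agent.S36lib.D1Set
import Fermat.Agent.S36lib.FixedF0
import Fermat.Agent.S36lib.KummerDescN
import Fermat.Agent.S36lib.TorConc
import Fermat.Agent.GoodRed.DescUni
import Fermat.Agent.S37lib.HeckeInputs

/-!
# Item 83 (S36), block ABEL, concrete, part 2 (helper29): the norms on the affine rings

* `abel_norm_mem`: the norm of a function regular over a place `v` is regular at `v`;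
* `abel_restrictAlong_eq`: `ord_w (φ f) = e · ord_v f` for all `f` ⟹ `w` lies over `v`;
* `abelDN`: the places `∞_N`, `0_N` of level `N = M' q` (the fibre over `∞'`),
  `abel_hD_alpha`, `abel_hD_beta`: the places of `D1` (level `M' q²`) lie over `abelDN`;
* `abel_alpha_offRegular`, `abel_beta_offRegular`: the norms along `α`, `β` map the functions
  regular off `D_M` to the functions regular off `D_N`.
-/

set_option autoImplicit false
set_option linter.style.haveILetI false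
set_option linter.unusedSectionVars false

noncomputable section

open scoped MatrixGroups
open ModularCurve AlgebraicCurve HahnSeries
open Fermat.Agent.S24lib Fermat.Agent.HeckeBar Fermat.Agent.S37lib Fermat.Agent.S34lib
open Fermat.Agent.S35lib Fermat.Agent.GoodRed Fermat.Agent.RRlib

namespace Fermat.Agent.S36lib

section Abs

variable {K F F' : Type*} [Field K] [Field F] [Field F'] [Algebra K F] [Algebra K F']

/-- the norm of a function regular over a place `v` is regular at `v` -/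
theorem abel_norm_mem [RRBase K F'] (φ : F →ₐ[K] F') (hφ : φ.toRingHom.IsIntegral)
    (hfin : FiniteAlong K φ) (hN : NormFormulaAlong K φ hfin) (y : F') (v : Place K F)
    (h : ∀ w : Place K F', w.restrictAlong φ hφ = v → y ∈ w.toValuationSubring) :
    normAlong φ y ∈ v.toValuationSubring := by
  letI := algebraAlong φ
  haveI := isScalarTower_along φ
  haveI := isIntegral_along φ hφ
  haveI : Module.Finite F F' := hfin
  by_cases hy : y = 0
  · subst hy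
    have h0 : normAlong φ (0 : F') = 0 := Algebra.norm_zero
    rw [h0]
    exact zero_mem _
  · rw [ffMem_iff_ord_nonneg]
    exact (du_ord_norm hN hy v (fun w hw => (ffMem_iff_ord_nonneg w).mp (h w hw))).1

/-- `ord_w (φ f) = e · ord_v f` for all `f` ⟹ `w` lies over `v` -/
theorem abel_restrictAlong_eq (φ : F →ₐ[K] F') (hφ : φ.toRingHom.IsIntegral)
    (w : Place K F') (v : Place K F) (e : ℕ) (he : 0 < e)
    (h : ∀ f : F, w.ord (φ f) = (e : ℤ) * v.ord f) : w.restrictAlong φ hφ = v := by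
  apply loc_place_eq_of_le
  intro f hf
  rw [mem_restrictAlong_iff, ffMem_iff_ord_nonneg, h] at hf
  rw [ffMem_iff_ord_nonneg]
  have he' : (0 : ℤ) < (e : ℤ) := by exact_mod_cast he
  exact nonneg_of_mul_nonneg_right hf he'

end Abs

section Mod

variable (M' q : ℕ) [NeZero M'] [NeZero q] (hq : q.Prime) (hqM : ¬ q ∣ M')

/-- the places `∞_N`, `0_N` of level `N = M' q` (the fibre of `π₁` over `∞'`) -/
def abelDN : Set (Place Kbar (FF (M' * q))) :=
  {P | P = infPlaceBar (M' * q) ∨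
    P = zeroPlaceBar (M' * q) q hq (dvd_mul_left q M') (inf_not_sq_dvd M' q hq hqM)}

/-- the places of `D1` lie, along `α`, over `∞_N` or `0_N` -/
theorem abel_hD_alpha (Q : Place Kbar (FF (M' * q * q))) (hQ : Q ∈ s36D1 M' q hq hqM) :
    Q.restrictAlong (heckeAlphaBar Kbar (M' * q) q) (hinp_isIntegral_alpha (M' * q) q)
      ∈ abelDN M' q hq hqM := by
  rcases hQ with rfl | rfl | ⟨ζ, hζ, rfl⟩
  · left
    exact abel_restrictAlong_eq _ _ _ _ 1 one_pos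
      (fun f => by rw [fbm_inf_ord_alpha, Nat.cast_one, one_mul])
  · right
    exact abel_restrictAlong_eq _ _ _ _ q hq.pos (fun f => fbmZero_ord_alpha M' q hq hqM f)
  · left
    exact abel_restrictAlong_eq _ _ _ _ 1 one_pos
      (fun f => by rw [midPlace_ord_alpha, Nat.cast_one, one_mul])

/-- the places of `D1` lie, along `β`, over `∞_N` or `0_N` -/
theorem abel_hD_beta (Q : Place Kbar (FF (M' * q * q))) (hQ : Q ∈ s36D1 M' q hq hqM) :
    Q.restrictAlong (heckeBetaBar Kbar (M' * q) q) (hinp_isIntegral_beta (M' * q) q)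
      ∈ abelDN M' q hq hqM := by
  rcases hQ with rfl | rfl | ⟨ζ, hζ, rfl⟩
  · left
    exact abel_restrictAlong_eq _ _ _ _ q hq.pos (fun f => fbm_inf_ord_beta M' q f)
  · right
    exact abel_restrictAlong_eq _ _ _ _ 1 one_pos
      (fun f => by rw [fbmZero_ord_beta, Nat.cast_one, one_mul])
  · right
    exact abel_restrictAlong_eq _ _ _ _ 1 one_pos
      (fun f => by rw [midPlace_ord_beta, Nat.cast_one, one_mul])

/-- the norm along `α` maps the functions regular off `D_M` to the functions regular off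
`D_N` -/
theorem abel_alpha_offRegular (DM : Set (Place Kbar (FF (M' * q * q))))
    (DN : Set (Place Kbar (FF (M' * q))))
    (hD : ∀ Q ∈ DM, Q.restrictAlong (heckeAlphaBar Kbar (M' * q) q)
      (hinp_isIntegral_alpha (M' * q) q) ∈ DN)
    {z : FF (M' * q * q)} (hz : z ∈ offRegular (M' * q * q) DM) :
    normAlong (heckeAlphaBar Kbar (M' * q) q) z ∈ offRegular (M' * q) DN := by
  haveI : RRBase Kbar (FF (M' * q * q)) := (mod_rrHyp (M' * q * q)).toRRBase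
  rw [mem_offRegular_iff] at hz ⊢
  intro P hP
  refine abel_norm_mem _ (hinp_isIntegral_alpha (M' * q) q) (hinp_finiteAlong_alpha _ _)
    (hinp_normFormula_alpha _ _) z P ?_
  intro w hw
  exact hz w (fun hwD => hP (hw ▸ hD w hwD))

/-- the norm along `β` maps the functions regular off `D_M` to the functions regular off
`D_N` -/
theorem abel_beta_offRegular (DM : Set (Place Kbar (FF (M' * q * q))))
    (DN : Set (Place Kbar (FF (M' * q))))
    (hD : ∀ Q ∈ DM, Q.restrictAlong (heckeBetaBar Kbar (M' * q) q)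
      (hinp_isIntegral_beta (M' * q) q) ∈ DN)
    {z : FF (M' * q * q)} (hz : z ∈ offRegular (M' * q * q) DM) :
    normAlong (heckeBetaBar Kbar (M' * q) q) z ∈ offRegular (M' * q) DN := by
  haveI : RRBase Kbar (FF (M' * q * q)) := (mod_rrHyp (M' * q * q)).toRRBase
  rw [mem_offRegular_iff] at hz ⊢
  intro P hP
  refine abel_norm_mem _ (hinp_isIntegral_beta (M' * q) q) (hinp_finiteAlong_beta _ _)
    (hinp_normFormula_beta _ _) z P ?_
  intro w hw
  exact hz w (fun hwD => hP (hw ▸ hD w hwD))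

end Mod

section Node

variable (M' q : ℕ) [NeZero M'] [NeZero q] (hq : q.Prime) (hqM : ¬ q ∣ M')
variable {A : ValuationSubring Kbar} (hA : A.LiesOverPrime q)

local notation "kA" => IsLocalRing.ResidueField A

/-- a valuation subring is root-closed -/
theorem abel_root_mem {F : Type*} [Field F] (O : ValuationSubring F) {y : F} {m : ℕ}
    (hm : 0 < m) (h : y ^ m ∈ O) : y ∈ O := by
  rw [← O.valuation_le_one_iff] at h ⊢
  rw [map_pow] at h
  exact (pow_le_one_iff hm.ne').mp h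

/-- a Gauss unit of the expansion `E` is a unit of the valuation ring -/
theorem SvBridge.of_isGaussRed {L : ℕ} [NeZero L] {E : FF L →+* LaurentSeries Kbar}
    {v : SeriesVal A L} (hv : SvBridge A L E v)
    (hconst : ∀ c : Kbar, E (algebraMap Kbar (FF L) c) = HahnSeries.C c)
    {c : Kbar} {f : FF L} {r : LaurentSeries kA} (h : IsGaussRed A E c f r) :
    ∃ hx : algebraMap Kbar (FF L) c * f ∈ v.O, v.red ⟨_, hx⟩ = r ∧
      (algebraMap Kbar (FF L) c * f)⁻¹ ∈ v.O := by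
  have h1 : IsGaussInt A E 1 (algebraMap Kbar (FF L) c * f) r := by
    obtain ⟨a, b, -, hb, h, hr⟩ := h
    refine ⟨a, b, hb, ?_, hr⟩
    rw [map_one, one_mul, map_mul, hconst]
    exact h
  have h2 : IsGaussInt A E 1 (algebraMap Kbar (FF L) c * f)⁻¹ r⁻¹ := by
    obtain ⟨a, b, -, hb, h, hr⟩ := h.inv
    refine ⟨a, b, hb, ?_, hr⟩
    rw [map_one, one_mul, mul_inv, ← map_inv₀ (algebraMap Kbar (FF L)) c, map_mul, hconst]
    exact h
  obtain ⟨hx, hr⟩ := hv.of_isGaussInt h1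
  obtain ⟨hx', -⟩ := hv.of_isGaussInt h2
  exact ⟨hx, hr, hx'⟩

include hA in
/-- **(A1), `NodeSetup` form**: the norms `N_α, N_β : B_M → B_N` and the norm table. -/
theorem abel_node
    (DM : Set (Place Kbar (FF (M' * q * q)))) (DN : Set (Place Kbar (FF (M' * q))))
    (vInfM vMidM vZeroM : SeriesVal A (M' * q * q))
    (vInfN vMidN vZeroN : SeriesVal A (M' * q))
    (κ : IntermediateField (IsLocalRing.ResidueField A)
      (LaurentSeries (IsLocalRing.ResidueField A)))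
    (hiInfM : ∀ (x : FF (M' * q * q)) (hx : x ∈ vInfM.O), x ∈ f0Field A (M' * q * q) →
      vInfM.red ⟨x, hx⟩ ∈ κ)
    (hoInfM : ∀ w ∈ κ, ∃ (x : FF (M' * q * q)) (hx : x ∈ vInfM.O),
      x ∈ f0Field A (M' * q * q) ∧ vInfM.red ⟨x, hx⟩ = w)
    (hiMidM : ∀ (x : FF (M' * q * q)) (hx : x ∈ vMidM.O), x ∈ f0Field A (M' * q * q) →
      vMidM.red ⟨x, hx⟩ ∈ κ)
    (hoMidM : ∀ w ∈ κ, ∃ (x : FF (M' * q * q)) (hx : x ∈ vMidM.O),
      x ∈ f0Field A (M' * q * q) ∧ vMidM.red ⟨x, hx⟩ = w)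
    (hiZeroM : ∀ (x : FF (M' * q * q)) (hx : x ∈ vZeroM.O), x ∈ f0Field A (M' * q * q) →
      vZeroM.red ⟨x, hx⟩ ∈ κ)
    (hoZeroM : ∀ w ∈ κ, ∃ (x : FF (M' * q * q)) (hx : x ∈ vZeroM.O),
      x ∈ f0Field A (M' * q * q) ∧ vZeroM.red ⟨x, hx⟩ = w)
    (hiInfN : ∀ (x : FF (M' * q)) (hx : x ∈ vInfN.O), x ∈ f0Field A (M' * q) →
      vInfN.red ⟨x, hx⟩ ∈ κ)
    (hoInfN : ∀ w ∈ κ, ∃ (x : FF (M' * q)) (hx : x ∈ vInfN.O),
      x ∈ f0Field A (M' * q) ∧ vInfN.red ⟨x, hx⟩ = w)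
    (hiMidN : ∀ (x : FF (M' * q)) (hx : x ∈ vMidN.O), x ∈ f0Field A (M' * q) →
      vMidN.red ⟨x, hx⟩ ∈ κ)
    (hoMidN : ∀ w ∈ κ, ∃ (x : FF (M' * q)) (hx : x ∈ vMidN.O),
      x ∈ f0Field A (M' * q) ∧ vMidN.red ⟨x, hx⟩ = w)
    (hiZeroN : ∀ (x : FF (M' * q)) (hx : x ∈ vZeroN.O), x ∈ f0Field A (M' * q) →
      vZeroN.red ⟨x, hx⟩ ∈ κ)
    (hoZeroN : ∀ w ∈ κ, ∃ (x : FF (M' * q)) (hx : x ∈ vZeroN.O),
      x ∈ f0Field A (M' * q) ∧ vZeroN.red ⟨x, hx⟩ = w)
    (ζ : Kbarˣ) (hζ : IsPrimitiveRoot (ζ : Kbar) q)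
    (E : FF (M' * q * q) →+* LaurentSeries Kbar)
    (hEα : ∀ Y : FF (M' * q), E (heckeAlphaBar Kbar (M' * q) q Y) = (Y : LaurentSeries Kbar))
    (hEβ : ∀ Y' : FF M', E (heckeBetaBar Kbar (M' * q) q (heckeBetaBar Kbar M' q Y'))
      = twq ζ (Y' : LaurentSeries Kbar))
    (bInfM : SvBridge A (M' * q * q) (algebraMap (FF (M' * q * q)) (LaurentSeries Kbar)) vInfM)
    (bMidM : SvBridge A (M' * q * q) E vMidM)
    (bZeroM : SvBridge A (M' * q * q) ((algebraMap (FF (M' * q * q)) (LaurentSeries Kbar)).comp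
      (alW2 M' hq hqM).toAlgHom.toRingHom) vZeroM)
    (bInfN : SvBridge A (M' * q) (algebraMap (FF (M' * q)) (LaurentSeries Kbar)) vInfN)
    (bZeroN : SvBridge A (M' * q) ((algebraMap (FF (M' * q)) (LaurentSeries Kbar)).comp
      (alW1 M' hq hqM).toAlgHom.toRingHom) vZeroN)
    (hmidN : ∀ x : FF (M' * q), x ∈ vInfN.O → x ∈ vMidN.O)
    (hDα : ∀ Q ∈ DM, Q.restrictAlong (heckeAlphaBar Kbar (M' * q) q)
      (hinp_isIntegral_alpha (M' * q) q) ∈ DN)
    (hDβ : ∀ Q ∈ DM, Q.restrictAlong (heckeBetaBar Kbar (M' * q) q)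
      (hinp_isIntegral_beta (M' * q) q) ∈ DN)
    (Fr : κ ≃+* κ)
    (hFr : ∀ x : κ, ((Fr x : κ) : LaurentSeries kA)
      = coeffMap (@frobenius kA _ q (nv_expChar hq hA)) (x : LaurentSeries kA)) :
    ∃ Nα Nβ : (nodeSetupSeriesD A DM vInfM vMidM vZeroM κ hiInfM hoInfM hiMidM
          hoMidM hiZeroM hoZeroM).B → (nodeSetupSeriesD A DN vInfN vMidN vZeroN κ hiInfN hoInfN hiMidN
          hoMidN hiZeroN hoZeroN).B,
      (∀ z : (nodeSetupSeriesD A DM vInfM vMidM vZeroM κ hiInfM hoInfM hiMidM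
          hoMidM hiZeroM hoZeroM).B, (((Nα z : (nodeSetupSeriesD A DN vInfN vMidN vZeroN κ hiInfN hoInfN hiMidN
          hoMidN hiZeroN hoZeroN).B) : f0Field A (M' * q)) : FF (M' * q))
        = normAlong (heckeAlphaBar Kbar (M' * q) q)
            (((z : (nodeSetupSeriesD A DM vInfM vMidM vZeroM κ hiInfM hoInfM hiMidM
          hoMidM hiZeroM hoZeroM).B) : f0Field A (M' * q * q)) : FF (M' * q * q))) ∧
      (∀ z : (nodeSetupSeriesD A DM vInfM vMidM vZeroM κ hiInfM hoInfM hiMidM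
          hoMidM hiZeroM hoZeroM).B, (((Nβ z : (nodeSetupSeriesD A DN vInfN vMidN vZeroN κ hiInfN hoInfN hiMidN
          hoMidN hiZeroN hoZeroN).B) : f0Field A (M' * q)) : FF (M' * q))
        = normAlong (heckeBetaBar Kbar (M' * q) q)
            (((z : (nodeSetupSeriesD A DM vInfM vMidM vZeroM κ hiInfM hoInfM hiMidM
          hoMidM hiZeroM hoZeroM).B) : f0Field A (M' * q * q)) : FF (M' * q * q))) ∧
      (∀ z, (nodeSetupSeriesD A DN vInfN vMidN vZeroN κ hiInfN hoInfN hiMidN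
          hoMidN hiZeroN hoZeroN).redInf (Nα z) = (nodeSetupSeriesD A DM vInfM vMidM vZeroM κ hiInfM hoInfM hiMidM
          hoMidM hiZeroM hoZeroM).redInf z * (nodeSetupSeriesD A DM vInfM vMidM vZeroM κ hiInfM hoInfM hiMidM
          hoMidM hiZeroM hoZeroM).redMid z ^ (q - 1)) ∧
      (∀ z, (nodeSetupSeriesD A DN vInfN vMidN vZeroN κ hiInfN hoInfN hiMidN
          hoMidN hiZeroN hoZeroN).redZero (Nα z) = Fr ((nodeSetupSeriesD A DM vInfM vMidM vZeroM κ hiInfM hoInfM hiMidM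
          hoMidM hiZeroM hoZeroM).redZero z)) ∧
      (∀ z, (nodeSetupSeriesD A DN vInfN vMidN vZeroN κ hiInfN hoInfN hiMidN
          hoMidN hiZeroN hoZeroN).redInf (Nβ z) = Fr ((nodeSetupSeriesD A DM vInfM vMidM vZeroM κ hiInfM hoInfM hiMidM
          hoMidM hiZeroM hoZeroM).redInf z)) ∧
      (∀ z, (nodeSetupSeriesD A DN vInfN vMidN vZeroN κ hiInfN hoInfN hiMidN
          hoMidN hiZeroN hoZeroN).redZero (Nβ z) = (nodeSetupSeriesD A DM vInfM vMidM vZeroM κ hiInfM hoInfM hiMidM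
          hoMidM hiZeroM hoZeroM).redMid z ^ (q - 1) * (nodeSetupSeriesD A DM vInfM vMidM vZeroM κ hiInfM hoInfM hiMidM
          hoMidM hiZeroM hoZeroM).redZero z) := by
  have hmemM : ∀ z : (nodeSetupSeriesD A DM vInfM vMidM vZeroM κ hiInfM hoInfM hiMidM
          hoMidM hiZeroM hoZeroM).B,
      (((z : (nodeSetupSeriesD A DM vInfM vMidM vZeroM κ hiInfM hoInfM hiMidM
          hoMidM hiZeroM hoZeroM).B) : f0Field A (M' * q * q)) : FF (M' * q * q)) ∈ offRegular (M' * q * q) DM ∧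
      (((z : (nodeSetupSeriesD A DM vInfM vMidM vZeroM κ hiInfM hoInfM hiMidM
          hoMidM hiZeroM hoZeroM).B) : f0Field A (M' * q * q)) : FF (M' * q * q)) ∈ vInfM.O ∧
      (((z : (nodeSetupSeriesD A DM vInfM vMidM vZeroM κ hiInfM hoInfM hiMidM
          hoMidM hiZeroM hoZeroM).B) : f0Field A (M' * q * q)) : FF (M' * q * q)) ∈ vMidM.O ∧
      (((z : (nodeSetupSeriesD A DM vInfM vMidM vZeroM κ hiInfM hoInfM hiMidM
          hoMidM hiZeroM hoZeroM).B) : f0Field A (M' * q * q)) : FF (M' * q * q)) ∈ vZeroM.O :=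
    fun z => (mem_f0AffD_iff A (M' * q * q) DM _ _ _ z.1).mp z.2
  have hfix : ∀ z : (nodeSetupSeriesD A DM vInfM vMidM vZeroM κ hiInfM hoInfM hiMidM
          hoMidM hiZeroM hoZeroM).B,
      IsIFixed (M' * q * q) A (((z : (nodeSetupSeriesD A DM vInfM vMidM vZeroM κ hiInfM hoInfM hiMidM
          hoMidM hiZeroM hoZeroM).B) : f0Field A (M' * q * q)) : FF (M' * q * q)) :=
    fun z => (mem_f0Field_iff_isIFixed A (M' * q * q) _).mp z.1.2
  have htab := fun z : (nodeSetupSeriesD A DM vInfM vMidM vZeroM κ hiInfM hoInfM hiMidM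
          hoMidM hiZeroM hoZeroM).B => abel_table M' hq hqM hA ζ hζ E hEα hEβ bInfM bMidM bZeroM
    bInfN bZeroN (hfix z) (hmemM z).2.1 (hmemM z).2.2.1 (hmemM z).2.2.2
  have hαF : ∀ z : (nodeSetupSeriesD A DM vInfM vMidM vZeroM κ hiInfM hoInfM hiMidM
          hoMidM hiZeroM hoZeroM).B, normAlong (heckeAlphaBar Kbar (M' * q) q)
      (((z : (nodeSetupSeriesD A DM vInfM vMidM vZeroM κ hiInfM hoInfM hiMidM
          hoMidM hiZeroM hoZeroM).B) : f0Field A (M' * q * q)) : FF (M' * q * q)) ∈ f0Field A (M' * q) :=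
    fun z => (mem_f0Field_iff_isIFixed A (M' * q) _).mpr
      (kdn_isIFixed_normAlong_alpha (M' * q) q A (hfix z))
  have hβF : ∀ z : (nodeSetupSeriesD A DM vInfM vMidM vZeroM κ hiInfM hoInfM hiMidM
          hoMidM hiZeroM hoZeroM).B, normAlong (heckeBetaBar Kbar (M' * q) q)
      (((z : (nodeSetupSeriesD A DM vInfM vMidM vZeroM κ hiInfM hoInfM hiMidM
          hoMidM hiZeroM hoZeroM).B) : f0Field A (M' * q * q)) : FF (M' * q * q)) ∈ f0Field A (M' * q) :=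
    fun z => (mem_f0Field_iff_isIFixed A (M' * q) _).mpr
      (kdn_isIFixed_normAlong_beta (M' * q) q A (hfix z))
  have hαB : ∀ z : (nodeSetupSeriesD A DM vInfM vMidM vZeroM κ hiInfM hoInfM hiMidM
          hoMidM hiZeroM hoZeroM).B, (⟨_, hαF z⟩ : f0Field A (M' * q)) ∈ (nodeSetupSeriesD A DN vInfN vMidN vZeroN κ hiInfN hoInfN hiMidN
          hoMidN hiZeroN hoZeroN).B := fun z =>
    (mem_f0AffD_iff A (M' * q) DN _ _ _ _).mpr
      ⟨abel_alpha_offRegular M' q DM DN hDα (hmemM z).1, (htab z).1.fst,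
        hmidN _ (htab z).1.fst, (htab z).2.1.fst⟩
  have hβB : ∀ z : (nodeSetupSeriesD A DM vInfM vMidM vZeroM κ hiInfM hoInfM hiMidM
          hoMidM hiZeroM hoZeroM).B, (⟨_, hβF z⟩ : f0Field A (M' * q)) ∈ (nodeSetupSeriesD A DN vInfN vMidN vZeroN κ hiInfN hoInfN hiMidN
          hoMidN hiZeroN hoZeroN).B := fun z =>
    (mem_f0AffD_iff A (M' * q) DN _ _ _ _).mpr
      ⟨abel_beta_offRegular M' q DM DN hDβ (hmemM z).1, (htab z).2.2.1.fst,
        hmidN _ (htab z).2.2.1.fst, (htab z).2.2.2.fst⟩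
  refine ⟨fun z => ⟨⟨_, hαF z⟩, hαB z⟩, fun z => ⟨⟨_, hβF z⟩, hβB z⟩, fun z => rfl,
    fun z => rfl, ?_, ?_, ?_, ?_⟩
  · intro z
    apply Subtype.ext
    exact (htab z).1.snd
  · intro z
    apply Subtype.ext
    rw [hFr]
    exact (htab z).2.1.snd
  · intro z
    apply Subtype.ext
    rw [hFr]
    exact (htab z).2.2.1.snd
  · intro z
    apply Subtype.ext
    exact ((htab z).2.2.2.snd).trans (mul_comm _ _)

include hq hA in
/-- **(A2), normalisation**: an element of `B_N` with nonzero reduction at `∞` which is a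
constant of `K0` times an `m`-th power of an inertia-fixed function is a constant of `A0ˣ`
times an `m`-th power in `B_N`. -/
theorem abel_node_root
    (DN : Set (Place Kbar (FF (M' * q))))
    (vInfN vMidN vZeroN : SeriesVal A (M' * q))
    (κ : IntermediateField (IsLocalRing.ResidueField A)
      (LaurentSeries (IsLocalRing.ResidueField A)))
    (hiInfN : ∀ (x : FF (M' * q)) (hx : x ∈ vInfN.O), x ∈ f0Field A (M' * q) →
      vInfN.red ⟨x, hx⟩ ∈ κ)
    (hoInfN : ∀ w ∈ κ, ∃ (x : FF (M' * q)) (hx : x ∈ vInfN.O),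
      x ∈ f0Field A (M' * q) ∧ vInfN.red ⟨x, hx⟩ = w)
    (hiMidN : ∀ (x : FF (M' * q)) (hx : x ∈ vMidN.O), x ∈ f0Field A (M' * q) →
      vMidN.red ⟨x, hx⟩ ∈ κ)
    (hoMidN : ∀ w ∈ κ, ∃ (x : FF (M' * q)) (hx : x ∈ vMidN.O),
      x ∈ f0Field A (M' * q) ∧ vMidN.red ⟨x, hx⟩ = w)
    (hiZeroN : ∀ (x : FF (M' * q)) (hx : x ∈ vZeroN.O), x ∈ f0Field A (M' * q) →
      vZeroN.red ⟨x, hx⟩ ∈ κ)
    (hoZeroN : ∀ w ∈ κ, ∃ (x : FF (M' * q)) (hx : x ∈ vZeroN.O),
      x ∈ f0Field A (M' * q) ∧ vZeroN.red ⟨x, hx⟩ = w)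
    (bInfN : SvBridge A (M' * q) (algebraMap (FF (M' * q)) (LaurentSeries Kbar)) vInfN)
    (m : ℕ) (hm : 0 < m)
    (Nb : (nodeSetupSeriesD A DN vInfN vMidN vZeroN κ hiInfN hoInfN hiMidN
          hoMidN hiZeroN hoZeroN).B)
    (hNb : (nodeSetupSeriesD A DN vInfN vMidN vZeroN κ hiInfN hoInfN hiMidN
          hoMidN hiZeroN hoZeroN).redInf Nb ≠ 0)
    (c : k0Field A) (s : FF (M' * q)) (hs : IsIFixed (M' * q) A s)
    (h : ((Nb : f0Field A (M' * q)) : FF (M' * q))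
      = algebraMap Kbar (FF (M' * q)) (c : Kbar) * s ^ m) :
    ∃ (c' : k0Val A) (y : (nodeSetupSeriesD A DN vInfN vMidN vZeroN κ hiInfN hoInfN hiMidN
          hoMidN hiZeroN hoZeroN).B),
      k0Res A c' ≠ 0 ∧ Nb = (nodeSetupSeriesD A DN vInfN vMidN vZeroN κ hiInfN hoInfN hiMidN
          hoMidN hiZeroN hoZeroN).constB c' * y ^ m := by
  refine tor_root_normalise ?_ ?_ ?_ m hm Nb hNb c
    ⟨s, (mem_f0Field_iff_isIFixed A (M' * q) s).mpr hs⟩ (Subtype.ext h)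
  · intro s hs0
    have hs0' : (s : FF (M' * q)) ≠ 0 := fun h0 => hs0 (Subtype.ext h0)
    obtain ⟨j, r, hr⟩ := vg_inf (A := A) (M' * q) hq hA hs0'
      ((mem_f0Field_iff_isIFixed A (M' * q) _).mp s.2)
    obtain ⟨hx, -, hx'⟩ := bInfN.of_isGaussRed
      (fun c => coe_algebraMap_eq_C (F := modularFunctionFieldBar (M' * q)) c) hr
    have hq0 : (q : k0Field A) ≠ 0 := by exact_mod_cast hq.ne_zero
    have hcoe : (((q : k0Field A) ^ j : k0Field A) : Kbar) = (q : Kbar) ^ j := by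
      push_cast
      rfl
    refine ⟨(q : k0Field A) ^ j, zpow_ne_zero _ hq0, ?_, ?_⟩
    · show algebraMap Kbar (FF (M' * q)) (((q : k0Field A) ^ j : k0Field A) : Kbar)
        * (s : FF (M' * q)) ∈ vInfN.O
      rw [hcoe]
      exact hx
    · show (algebraMap Kbar (FF (M' * q)) (((q : k0Field A) ^ j : k0Field A) : Kbar)
        * (s : FF (M' * q)))⁻¹ ∈ vInfN.O
      rw [hcoe]
      exact hx'
  · intro y m hm hy
    obtain ⟨h0, h1, h2, h3⟩ := (mem_f0AffD_iff A (M' * q) DN _ _ _ _).mp hy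
    refine (mem_f0AffD_iff A (M' * q) DN _ _ _ _).mpr
      ⟨?_, abel_root_mem _ hm h1, abel_root_mem _ hm h2, abel_root_mem _ hm h3⟩
    rw [mem_offRegular_iff] at h0 ⊢
    intro P hP
    exact abel_root_mem _ hm (h0 P hP)
  · intro c hc
    exact nv_const_mem_of_mem vInfN hc

include hq hA in
/-- **(A2)**: for a Kummer-new `b ∈ B_M` both norms are constants of `A0ˣ` times `m`-th powers
in `B_N` (as soon as their reductions at `∞` do not vanish). -/
theorem abel_node_roots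
    (DM : Set (Place Kbar (FF (M' * q * q)))) (DN : Set (Place Kbar (FF (M' * q))))
    (vInfM vMidM vZeroM : SeriesVal A (M' * q * q))
    (vInfN vMidN vZeroN : SeriesVal A (M' * q))
    (κ : IntermediateField (IsLocalRing.ResidueField A)
      (LaurentSeries (IsLocalRing.ResidueField A)))
    (hiInfM : ∀ (x : FF (M' * q * q)) (hx : x ∈ vInfM.O), x ∈ f0Field A (M' * q * q) →
      vInfM.red ⟨x, hx⟩ ∈ κ)
    (hoInfM : ∀ w ∈ κ, ∃ (x : FF (M' * q * q)) (hx : x ∈ vInfM.O),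
      x ∈ f0Field A (M' * q * q) ∧ vInfM.red ⟨x, hx⟩ = w)
    (hiMidM : ∀ (x : FF (M' * q * q)) (hx : x ∈ vMidM.O), x ∈ f0Field A (M' * q * q) →
      vMidM.red ⟨x, hx⟩ ∈ κ)
    (hoMidM : ∀ w ∈ κ, ∃ (x : FF (M' * q * q)) (hx : x ∈ vMidM.O),
      x ∈ f0Field A (M' * q * q) ∧ vMidM.red ⟨x, hx⟩ = w)
    (hiZeroM : ∀ (x : FF (M' * q * q)) (hx : x ∈ vZeroM.O), x ∈ f0Field A (M' * q * q) →
      vZeroM.red ⟨x, hx⟩ ∈ κ)
    (hoZeroM : ∀ w ∈ κ, ∃ (x : FF (M' * q * q)) (hx : x ∈ vZeroM.O),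
      x ∈ f0Field A (M' * q * q) ∧ vZeroM.red ⟨x, hx⟩ = w)
    (hiInfN : ∀ (x : FF (M' * q)) (hx : x ∈ vInfN.O), x ∈ f0Field A (M' * q) →
      vInfN.red ⟨x, hx⟩ ∈ κ)
    (hoInfN : ∀ w ∈ κ, ∃ (x : FF (M' * q)) (hx : x ∈ vInfN.O),
      x ∈ f0Field A (M' * q) ∧ vInfN.red ⟨x, hx⟩ = w)
    (hiMidN : ∀ (x : FF (M' * q)) (hx : x ∈ vMidN.O), x ∈ f0Field A (M' * q) →
      vMidN.red ⟨x, hx⟩ ∈ κ)
    (hoMidN : ∀ w ∈ κ, ∃ (x : FF (M' * q)) (hx : x ∈ vMidN.O),
      x ∈ f0Field A (M' * q) ∧ vMidN.red ⟨x, hx⟩ = w)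
    (hiZeroN : ∀ (x : FF (M' * q)) (hx : x ∈ vZeroN.O), x ∈ f0Field A (M' * q) →
      vZeroN.red ⟨x, hx⟩ ∈ κ)
    (hoZeroN : ∀ w ∈ κ, ∃ (x : FF (M' * q)) (hx : x ∈ vZeroN.O),
      x ∈ f0Field A (M' * q) ∧ vZeroN.red ⟨x, hx⟩ = w)
    (bInfN : SvBridge A (M' * q) (algebraMap (FF (M' * q)) (LaurentSeries Kbar)) vInfN)
    (Nα Nβ : (nodeSetupSeriesD A DM vInfM vMidM vZeroM κ hiInfM hoInfM hiMidM
          hoMidM hiZeroM hoZeroM).B → (nodeSetupSeriesD A DN vInfN vMidN vZeroN κ hiInfN hoInfN hiMidN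
          hoMidN hiZeroN hoZeroN).B)
    (hNα : ∀ z : (nodeSetupSeriesD A DM vInfM vMidM vZeroM κ hiInfM hoInfM hiMidM
          hoMidM hiZeroM hoZeroM).B, (((Nα z : (nodeSetupSeriesD A DN vInfN vMidN vZeroN κ hiInfN hoInfN hiMidN
          hoMidN hiZeroN hoZeroN).B) : f0Field A (M' * q)) : FF (M' * q))
        = normAlong (heckeAlphaBar Kbar (M' * q) q)
            (((z : (nodeSetupSeriesD A DM vInfM vMidM vZeroM κ hiInfM hoInfM hiMidM
          hoMidM hiZeroM hoZeroM).B) : f0Field A (M' * q * q)) : FF (M' * q * q)))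
    (hNβ : ∀ z : (nodeSetupSeriesD A DM vInfM vMidM vZeroM κ hiInfM hoInfM hiMidM
          hoMidM hiZeroM hoZeroM).B, (((Nβ z : (nodeSetupSeriesD A DN vInfN vMidN vZeroN κ hiInfN hoInfN hiMidN
          hoMidN hiZeroN hoZeroN).B) : f0Field A (M' * q)) : FF (M' * q))
        = normAlong (heckeBetaBar Kbar (M' * q) q)
            (((z : (nodeSetupSeriesD A DM vInfM vMidM vZeroM κ hiInfM hoInfM hiMidM
          hoMidM hiZeroM hoZeroM).B) : f0Field A (M' * q * q)) : FF (M' * q * q)))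
    (m : ℕ) (hm : 0 < m) (b : (nodeSetupSeriesD A DM vInfM vMidM vZeroM κ hiInfM hoInfM hiMidM
          hoMidM hiZeroM hoZeroM).B)
    (hnew : IsKummerNew2 M' q m (((b : (nodeSetupSeriesD A DM vInfM vMidM vZeroM κ hiInfM hoInfM hiMidM
          hoMidM hiZeroM hoZeroM).B) : f0Field A (M' * q * q)) : FF (M' * q * q)))
    (hαInf : (nodeSetupSeriesD A DN vInfN vMidN vZeroN κ hiInfN hoInfN hiMidN
          hoMidN hiZeroN hoZeroN).redInf (Nα b) ≠ 0) (hβInf : (nodeSetupSeriesD A DN vInfN vMidN vZeroN κ hiInfN hoInfN hiMidN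
          hoMidN hiZeroN hoZeroN).redInf (Nβ b) ≠ 0) :
    (∃ (cα : k0Val A) (yα : (nodeSetupSeriesD A DN vInfN vMidN vZeroN κ hiInfN hoInfN hiMidN
          hoMidN hiZeroN hoZeroN).B),
      k0Res A cα ≠ 0 ∧ Nα b = (nodeSetupSeriesD A DN vInfN vMidN vZeroN κ hiInfN hoInfN hiMidN
          hoMidN hiZeroN hoZeroN).constB cα * yα ^ m) ∧
    (∃ (cβ : k0Val A) (yβ : (nodeSetupSeriesD A DN vInfN vMidN vZeroN κ hiInfN hoInfN hiMidN
          hoMidN hiZeroN hoZeroN).B),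
      k0Res A cβ ≠ 0 ∧ Nβ b = (nodeSetupSeriesD A DN vInfN vMidN vZeroN κ hiInfN hoInfN hiMidN
          hoMidN hiZeroN hoZeroN).constB cβ * yβ ^ m) := by
  have hb0 : (((b : (nodeSetupSeriesD A DM vInfM vMidM vZeroM κ hiInfM hoInfM hiMidM
          hoMidM hiZeroM hoZeroM).B) : f0Field A (M' * q * q)) : FF (M' * q * q)) ≠ 0 := by
    intro h0
    apply hαInf
    have h1 : (((Nα b : (nodeSetupSeriesD A DN vInfN vMidN vZeroN κ hiInfN hoInfN hiMidN
          hoMidN hiZeroN hoZeroN).B) : f0Field A (M' * q)) : FF (M' * q)) = 0 := by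
      rw [hNα, h0]
      letI := algebraAlong (heckeAlphaBar Kbar (M' * q) q)
      haveI : Module.Finite (FF (M' * q)) (FF (M' * q * q)) :=
        hinp_finiteAlong_alpha (M' * q) q
      exact Algebra.norm_zero
    have h2 : Nα b = 0 := Subtype.ext (Subtype.ext h1)
    rw [h2, map_zero]
  have hfix : IsIFixed (M' * q * q) A
      (((b : (nodeSetupSeriesD A DM vInfM vMidM vZeroM κ hiInfM hoInfM hiMidM
          hoMidM hiZeroM hoZeroM).B) : f0Field A (M' * q * q)) : FF (M' * q * q)) :=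
    (mem_f0Field_iff_isIFixed A (M' * q * q) _).mp b.1.2
  obtain ⟨⟨c, s, -, -, hs, hN⟩, ⟨c', s', -, -, hs', hN'⟩⟩ := kdn_new2 M' q m A hb0 hfix hnew
  exact ⟨abel_node_root M' q hq hA DN vInfN vMidN vZeroN κ hiInfN hoInfN hiMidN hoMidN hiZeroN
      hoZeroN bInfN m hm (Nα b) hαInf c s hs ((hNα b).trans hN),
    abel_node_root M' q hq hA DN vInfN vMidN vZeroN κ hiInfN hoInfN hiMidN hoMidN hiZeroN
      hoZeroN bInfN m hm (Nβ b) hβInf c' s' hs' ((hNβ b).trans hN')⟩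

include hA in
/-- **ABEL, concrete**: the norms `N_α, N_β : B_M → B_N` with the norm table (A1) and the
normalised roots (A2) — the inputs `Nα Nβ hαInf hαZero hβInf hβZero cα cβ yα yβ hyα hyβ` of
`tor_nodeSetup`. -/
theorem abel_node_full
    (DM : Set (Place Kbar (FF (M' * q * q)))) (DN : Set (Place Kbar (FF (M' * q))))
    (vInfM vMidM vZeroM : SeriesVal A (M' * q * q))
    (vInfN vMidN vZeroN : SeriesVal A (M' * q))
    (κ : IntermediateField (IsLocalRing.ResidueField A)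
      (LaurentSeries (IsLocalRing.ResidueField A)))
    (hiInfM : ∀ (x : FF (M' * q * q)) (hx : x ∈ vInfM.O), x ∈ f0Field A (M' * q * q) →
      vInfM.red ⟨x, hx⟩ ∈ κ)
    (hoInfM : ∀ w ∈ κ, ∃ (x : FF (M' * q * q)) (hx : x ∈ vInfM.O),
      x ∈ f0Field A (M' * q * q) ∧ vInfM.red ⟨x, hx⟩ = w)
    (hiMidM : ∀ (x : FF (M' * q * q)) (hx : x ∈ vMidM.O), x ∈ f0Field A (M' * q * q) →
      vMidM.red ⟨x, hx⟩ ∈ κ)
    (hoMidM : ∀ w ∈ κ, ∃ (x : FF (M' * q * q)) (hx : x ∈ vMidM.O),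
      x ∈ f0Field A (M' * q * q) ∧ vMidM.red ⟨x, hx⟩ = w)
    (hiZeroM : ∀ (x : FF (M' * q * q)) (hx : x ∈ vZeroM.O), x ∈ f0Field A (M' * q * q) →
      vZeroM.red ⟨x, hx⟩ ∈ κ)
    (hoZeroM : ∀ w ∈ κ, ∃ (x : FF (M' * q * q)) (hx : x ∈ vZeroM.O),
      x ∈ f0Field A (M' * q * q) ∧ vZeroM.red ⟨x, hx⟩ = w)
    (hiInfN : ∀ (x : FF (M' * q)) (hx : x ∈ vInfN.O), x ∈ f0Field A (M' * q) →
      vInfN.red ⟨x, hx⟩ ∈ κ)
    (hoInfN : ∀ w ∈ κ, ∃ (x : FF (M' * q)) (hx : x ∈ vInfN.O),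
      x ∈ f0Field A (M' * q) ∧ vInfN.red ⟨x, hx⟩ = w)
    (hiMidN : ∀ (x : FF (M' * q)) (hx : x ∈ vMidN.O), x ∈ f0Field A (M' * q) →
      vMidN.red ⟨x, hx⟩ ∈ κ)
    (hoMidN : ∀ w ∈ κ, ∃ (x : FF (M' * q)) (hx : x ∈ vMidN.O),
      x ∈ f0Field A (M' * q) ∧ vMidN.red ⟨x, hx⟩ = w)
    (hiZeroN : ∀ (x : FF (M' * q)) (hx : x ∈ vZeroN.O), x ∈ f0Field A (M' * q) →
      vZeroN.red ⟨x, hx⟩ ∈ κ)
    (hoZeroN : ∀ w ∈ κ, ∃ (x : FF (M' * q)) (hx : x ∈ vZeroN.O),
      x ∈ f0Field A (M' * q) ∧ vZeroN.red ⟨x, hx⟩ = w)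
    (ζ : Kbarˣ) (hζ : IsPrimitiveRoot (ζ : Kbar) q)
    (E : FF (M' * q * q) →+* LaurentSeries Kbar)
    (hEα : ∀ Y : FF (M' * q), E (heckeAlphaBar Kbar (M' * q) q Y) = (Y : LaurentSeries Kbar))
    (hEβ : ∀ Y' : FF M', E (heckeBetaBar Kbar (M' * q) q (heckeBetaBar Kbar M' q Y'))
      = twq ζ (Y' : LaurentSeries Kbar))
    (bInfM : SvBridge A (M' * q * q) (algebraMap (FF (M' * q * q)) (LaurentSeries Kbar)) vInfM)
    (bMidM : SvBridge A (M' * q * q) E vMidM)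
    (bZeroM : SvBridge A (M' * q * q) ((algebraMap (FF (M' * q * q)) (LaurentSeries Kbar)).comp
      (alW2 M' hq hqM).toAlgHom.toRingHom) vZeroM)
    (bInfN : SvBridge A (M' * q) (algebraMap (FF (M' * q)) (LaurentSeries Kbar)) vInfN)
    (bZeroN : SvBridge A (M' * q) ((algebraMap (FF (M' * q)) (LaurentSeries Kbar)).comp
      (alW1 M' hq hqM).toAlgHom.toRingHom) vZeroN)
    (hmidN : ∀ x : FF (M' * q), x ∈ vInfN.O → x ∈ vMidN.O)
    (hDα : ∀ Q ∈ DM, Q.restrictAlong (heckeAlphaBar Kbar (M' * q) q)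
      (hinp_isIntegral_alpha (M' * q) q) ∈ DN)
    (hDβ : ∀ Q ∈ DM, Q.restrictAlong (heckeBetaBar Kbar (M' * q) q)
      (hinp_isIntegral_beta (M' * q) q) ∈ DN)
    (Fr : κ ≃+* κ)
    (hFr : ∀ x : κ, ((Fr x : κ) : LaurentSeries (IsLocalRing.ResidueField A))
      = coeffMap (@frobenius (IsLocalRing.ResidueField A) _ q (nv_expChar hq hA))
          (x : LaurentSeries (IsLocalRing.ResidueField A))) :
    ∃ Nα Nβ : (nodeSetupSeriesD A DM vInfM vMidM vZeroM κ hiInfM hoInfM hiMidM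
          hoMidM hiZeroM hoZeroM).B → (nodeSetupSeriesD A DN vInfN vMidN vZeroN κ hiInfN hoInfN hiMidN
          hoMidN hiZeroN hoZeroN).B,
      (∀ z, (nodeSetupSeriesD A DN vInfN vMidN vZeroN κ hiInfN hoInfN hiMidN
          hoMidN hiZeroN hoZeroN).redInf (Nα z) = (nodeSetupSeriesD A DM vInfM vMidM vZeroM κ hiInfM hoInfM hiMidM
          hoMidM hiZeroM hoZeroM).redInf z * (nodeSetupSeriesD A DM vInfM vMidM vZeroM κ hiInfM hoInfM hiMidM
          hoMidM hiZeroM hoZeroM).redMid z ^ (q - 1)) ∧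
      (∀ z, (nodeSetupSeriesD A DN vInfN vMidN vZeroN κ hiInfN hoInfN hiMidN
          hoMidN hiZeroN hoZeroN).redZero (Nα z) = Fr ((nodeSetupSeriesD A DM vInfM vMidM vZeroM κ hiInfM hoInfM hiMidM
          hoMidM hiZeroM hoZeroM).redZero z)) ∧
      (∀ z, (nodeSetupSeriesD A DN vInfN vMidN vZeroN κ hiInfN hoInfN hiMidN
          hoMidN hiZeroN hoZeroN).redInf (Nβ z) = Fr ((nodeSetupSeriesD A DM vInfM vMidM vZeroM κ hiInfM hoInfM hiMidM
          hoMidM hiZeroM hoZeroM).redInf z)) ∧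
      (∀ z, (nodeSetupSeriesD A DN vInfN vMidN vZeroN κ hiInfN hoInfN hiMidN
          hoMidN hiZeroN hoZeroN).redZero (Nβ z) = (nodeSetupSeriesD A DM vInfM vMidM vZeroM κ hiInfM hoInfM hiMidM
          hoMidM hiZeroM hoZeroM).redMid z ^ (q - 1) * (nodeSetupSeriesD A DM vInfM vMidM vZeroM κ hiInfM hoInfM hiMidM
          hoMidM hiZeroM hoZeroM).redZero z) ∧
      ∀ (m : ℕ), 0 < m → ∀ b : (nodeSetupSeriesD A DM vInfM vMidM vZeroM κ hiInfM hoInfM hiMidM
          hoMidM hiZeroM hoZeroM).B,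
        IsKummerNew2 M' q m (((b : (nodeSetupSeriesD A DM vInfM vMidM vZeroM κ hiInfM hoInfM hiMidM
          hoMidM hiZeroM hoZeroM).B) : f0Field A (M' * q * q)) : FF (M' * q * q)) →
        (nodeSetupSeriesD A DM vInfM vMidM vZeroM κ hiInfM hoInfM hiMidM
          hoMidM hiZeroM hoZeroM).redInf b ≠ 0 → (nodeSetupSeriesD A DM vInfM vMidM vZeroM κ hiInfM hoInfM hiMidM
          hoMidM hiZeroM hoZeroM).redMid b ≠ 0 →
        ∃ (cα cβ : k0Val A) (yα yβ : (nodeSetupSeriesD A DN vInfN vMidN vZeroN κ hiInfN hoInfN hiMidN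
          hoMidN hiZeroN hoZeroN).B), k0Res A cα ≠ 0 ∧ k0Res A cβ ≠ 0 ∧
          Nα b = (nodeSetupSeriesD A DN vInfN vMidN vZeroN κ hiInfN hoInfN hiMidN
          hoMidN hiZeroN hoZeroN).constB cα * yα ^ m ∧ Nβ b = (nodeSetupSeriesD A DN vInfN vMidN vZeroN κ hiInfN hoInfN hiMidN
          hoMidN hiZeroN hoZeroN).constB cβ * yβ ^ m := by
  obtain ⟨Nα, Nβ, hNα, hNβ, h1, h2, h3, h4⟩ := abel_node M' q hq hqM hA DM DN vInfM vMidM vZeroM
    vInfN vMidN vZeroN κ hiInfM hoInfM hiMidM hoMidM hiZeroM hoZeroM hiInfN hoInfN hiMidN hoMidN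
    hiZeroN hoZeroN ζ hζ E hEα hEβ bInfM bMidM bZeroM bInfN bZeroN hmidN hDα hDβ Fr hFr
  refine ⟨Nα, Nβ, h1, h2, h3, h4, ?_⟩
  intro m hm b hnew hbInf hbMid
  have hαInf : (nodeSetupSeriesD A DN vInfN vMidN vZeroN κ hiInfN hoInfN hiMidN
          hoMidN hiZeroN hoZeroN).redInf (Nα b) ≠ 0 := by
    rw [h1]
    exact mul_ne_zero hbInf (pow_ne_zero _ hbMid)
  have hβInf : (nodeSetupSeriesD A DN vInfN vMidN vZeroN κ hiInfN hoInfN hiMidN
          hoMidN hiZeroN hoZeroN).redInf (Nβ b) ≠ 0 := by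
    rw [h3]
    exact (map_ne_zero_iff Fr Fr.injective).mpr hbInf
  obtain ⟨⟨cα, yα, hcα, hyα⟩, ⟨cβ, yβ, hcβ, hyβ⟩⟩ := abel_node_roots M' q hq hA DM DN vInfM
    vMidM vZeroM vInfN vMidN vZeroN κ hiInfM hoInfM hiMidM hoMidM hiZeroM hoZeroM hiInfN hoInfN
    hiMidN hoMidN hiZeroN hoZeroN bInfN Nα Nβ hNα hNβ m hm b hnew hαInf hβInf
  exact ⟨cα, cβ, yα, yβ, hcα, hcβ, hyα, hyβ⟩

end Node

end Fermat.Agent.S36lib
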