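import Mathlib
import Fermat.Agent.S36lib.VDesc
import Fermat.Agent.S36lib.VDisc
import Fermat.Agent.S36lib.ALF0
import Fermat.Agent.S36lib.SetupD1
import Fermat.Agent.S36lib.TheSetup
import Fermat.Agent.S34lib.GlueMod

/-!
# Item 83 (S36), block V, piece V-J (helper21): the SANDWICH over `A0` at the level `N = M' q`

The gluing of S34 (`GlueData.glue`, over the valuation ring `A` of `ℚ̄`) descended to `A0`
(`vdesc_main`, `VDesc.lean`), in the form consumed by GLUE-s (`GlueSAdapt.lean`, helper3):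

* `vsand_desc2`: generic two-valuation descent (`O∞ = R.O`, `O0 = w⁻¹ R.O`): every
  `z ∈ L(D) ∩ O∞ ∩ O0`, `D` inertia-stable, has the same two reductions as some
  `z₀ ∈ L(D) ∩ F0(L) ∩ O∞ ∩ O0`.
* `vsand_glue_ff`: a glued pair `(r₁, r₂)` of the affine ring of S34 is the pair of reductions of
  some `z₀ ∈ F0(N) ∩ L(c (P∞ + P0))`.
* `vsand_mem_offRegular`: `L(a P₁ + b P₂)` is regular off every `D ∋ P₁, P₂`.
* `vsand_hglue`: the same for the concrete `NodeSetup` `nodeSetupND A M' q hq hqM hA D R hR`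
  (`TheSetup.lean`), every `D ∋ P∞, P0`: a glued pair `(r₁, r₂)` of `X.B` is
  `(redInf z, redZero z)` for some `z ∈ B_D` (`D = s36D1N`: `B_{D1}`, `D = cuspSet`: `B_j`).

No sorry.
-/

set_option autoImplicit false
set_option linter.style.haveILetI false
set_option linter.unusedSectionVars false
set_option synthInstance.maxHeartbeats 400000

noncomputable section

namespace Fermat.Agent.S36lib

open ModularCurve AlgebraicCurve HahnSeries
open Fermat.Agent.S24lib Fermat.Agent.S34lib Fermat.Agent.GoodRed Fermat.Agent.RRlib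

section Desc2

variable {A : ValuationSubring Kbar} {L : ℕ} [NeZero L]

/-- the family of the two valuations `O∞ = R.O` (`true`) and `O0 = w⁻¹ R.O` (`false`) -/
def vsandFam {Fk : IntermediateField (IsLocalRing.ResidueField A)
      (LaurentSeries (IsLocalRing.ResidueField A))}
    (R : ConstRed A (IsLocalRing.residue A) (↥Fk) (FF L)) (w : FF L ≃ₐ[Kbar] FF L) :
    Bool → ResVal A (IsLocalRing.residue A) (↥Fk) (FF L)
  | true => ResVal.ofConstRed R
  | false => ResVal.ofConstRed (inredComap R w)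

set_option maxHeartbeats 2000000 in
/-- **two-valuation descent**: `O∞ = R.O`, `O0 = w⁻¹ R.O`. -/
theorem vsand_desc2 [RRBase Kbar (FF L)] {q : ℕ} (hq : q.Prime) (hA : A.LiesOverPrime q)
    {Fk : IntermediateField (IsLocalRing.ResidueField A)
      (LaurentSeries (IsLocalRing.ResidueField A))}
    {R : ConstRed A (IsLocalRing.residue A) (↥Fk) (FF L)} (hR : IsSeriesRed R)
    (w : FF L ≃ₐ[Kbar] FF L) (hw : ∀ x ∈ f0Field A L, w x ∈ f0Field A L)
    (D : Divisor Kbar (FF L)) (hD : ∀ σ ∈ A.inertiaSubgroupIn ℚ, galFF L σ • D = D)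
    (z : FF L) (hz : z ∈ riemannRochSpace (K := Kbar) D) (h1 : z ∈ R.O) (h2 : w z ∈ R.O) :
    ∃ z₀ : FF L, z₀ ∈ riemannRochSpace (K := Kbar) D ∧ z₀ ∈ f0Field A L ∧
      ∃ (h1' : z₀ ∈ R.O) (h2' : w z₀ ∈ R.O),
        R.red ⟨z₀, h1'⟩ = R.red ⟨z, h1⟩ ∧ R.red ⟨w z₀, h2'⟩ = R.red ⟨w z, h2⟩ := by
  have hdisc : ∀ i, ∀ f ∈ f0Field A L, f ≠ 0 → ∃ n : ℤ,
      algebraMap Kbar (FF L) ((q : Kbar) ^ n) * f ∈ (vsandFam R w i).O ∧
        (algebraMap Kbar (FF L) ((q : Kbar) ^ n) * f)⁻¹ ∈ (vsandFam R w i).O := by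
    intro i f hf hf0
    cases i
    · exact vdisc_zero hq hA hR w hw hf hf0
    · exact vdisc_inf hq hA hR hf hf0
  have hzO : ∀ i, z ∈ (vsandFam R w i).O := by
    intro i
    cases i
    · exact h2
    · exact h1
  obtain ⟨z₀, hz₀, hz₀F, hz₀O, hred⟩ :=
    vdesc_main hq hA (vsandFam R w) R true rfl hdisc D hD z hz hzO
  exact ⟨z₀, hz₀, hz₀F, hz₀O true, hz₀O false, hred true, hred false⟩

end Desc2

section Glue

variable (M' : ℕ) [NeZero M'] (q : ℕ) [NeZero q] [NeZero (M' * q)] (hq : q.Prime)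
  (hqM : ¬ q ∣ M')
variable {A : ValuationSubring Kbar}

/-- **V-J over `A0`, FF-level form**: a glued pair of the affine ring of S34 is the pair of
reductions of some `z₀ ∈ F0(N) ∩ L(c (P∞ + P0))`. -/
theorem vsand_glue_ff [RRHyp Kbar (FF (M' * q))]
    [RRHyp (IsLocalRing.ResidueField A)
      (↥(modularFunctionFieldFullC (IsLocalRing.ResidueField A) M'))]
    (hA : A.LiesOverPrime q)
    {R : ConstRed A (IsLocalRing.residue A)
      (↥(modularFunctionFieldFullC (IsLocalRing.ResidueField A) M')) (FF (M' * q))}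
    (hR : IsSeriesRed R)
    (X : GlueData R (glmZero M' q hq hqM R) (infPlaceBar (M' * q))
      (cuspZero (M' * q) q hq (dvd_mul_left q M') (inf_not_sq_dvd M' q hq hqM))
      (infPlaceC (IsLocalRing.ResidueField A) M'))
    (r₁ r₂ : X.B) (h : ∀ i, X.e₁ i r₁ = X.e₂ i r₂) :
    ∃ (c : ℕ) (z₀ : FF (M' * q)),
      z₀ ∈ riemannRochSpace (K := Kbar) (f3dDiv (infPlaceBar (M' * q))
        (cuspZero (M' * q) q hq (dvd_mul_left q M') (inf_not_sq_dvd M' q hq hqM)) c c) ∧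
      z₀ ∈ f0Field A (M' * q) ∧
      ∃ (h₁ : z₀ ∈ R.O) (h₂ : alW1 M' hq hqM z₀ ∈ R.O),
        R.red ⟨z₀, h₁⟩ = (r₁ : ↥(modularFunctionFieldFullC (IsLocalRing.ResidueField A) M')) ∧
        R.red ⟨alW1 M' hq hqM z₀, h₂⟩ =
          (r₂ : ↥(modularFunctionFieldFullC (IsLocalRing.ResidueField A) M')) := by
  obtain ⟨c, hc⟩ := (X.glue r₁ r₂).mpr h
  obtain ⟨y, hyL, hyred⟩ := (mem_f3dM _ _ _ _).mp hc
  have hD : ∀ σ ∈ A.inertiaSubgroupIn ℚ, galFF (M' * q) σ • f3dDiv (infPlaceBar (M' * q))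
      (cuspZero (M' * q) q hq (dvd_mul_left q M') (inf_not_sq_dvd M' q hq hqM)) c c =
      f3dDiv (infPlaceBar (M' * q))
        (cuspZero (M' * q) q hq (dvd_mul_left q M') (inf_not_sq_dvd M' q hq hqM)) c c :=
    fun σ _ => galFF_smul_cuspDiv (M' * q) q hq (dvd_mul_left q M')
      (inf_not_sq_dvd M' q hq hqM) σ c c
  obtain ⟨z₀, hz₀L, hz₀F, h1', h2', e1, e2⟩ := vsand_desc2 hq hA hR (alW1 M' hq hqM)
    (fun x hx => alW1_mem_f0Field A M' hq hqM hx) _ hD (y : FF (M' * q)) hyL y.2.1 y.2.2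
  refine ⟨c, z₀, hz₀L, hz₀F, h1', h2', ?_, ?_⟩
  · rw [e1]
    exact congrArg Prod.fst hyred
  · rw [e2]
    exact congrArg Prod.snd hyred

/-- `L(a P₁ + b P₂)` is regular off every `D ∋ P₁, P₂` -/
theorem vsand_mem_offRegular {L : ℕ} [NeZero L] [RRHyp Kbar (FF L)]
    (D : Set (Place Kbar (FF L))) (P₁ P₂ : Place Kbar (FF L))
    (h₁ : P₁ ∈ D) (h₂ : P₂ ∈ D) (a b : ℕ) {z : FF L}
    (hz : z ∈ riemannRochSpace (K := Kbar) (f3dDiv P₁ P₂ a b)) : z ∈ offRegular L D := by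
  rw [mem_offRegular_iff]
  intro P hP
  rw [ffMem_iff_ord_nonneg]
  rcases (mem_riemannRochSpace_iff.mp hz) P with h0 | h
  · rw [h0, Place.ord_zero]
  · have hP1 : P₁ ≠ P := fun e => hP (e ▸ h₁)
    have hP2 : P₂ ≠ P := fun e => hP (e ▸ h₂)
    rw [f3dDiv, Finsupp.add_apply, Finsupp.single_eq_of_ne hP1.symm,
      Finsupp.single_eq_of_ne hP2.symm, add_zero, neg_zero] at h
    exact h

/-- **V-J over `A0`** (= `hglue` of `s36_glue_tor_adapt`): every glued pair of the affine ring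
`X.B` of S34 is the pair of reductions of an element of the affine ring `B_D` of the setup of
level `N = M' q`, for every `D ∋ P∞, P0` (`D = s36D1N`: `B_{D1}`; `D = cuspSet`: `B_j`). -/
theorem vsand_hglue [RRHyp Kbar (FF (M' * q))]
    [RRHyp (IsLocalRing.ResidueField A)
      (↥(modularFunctionFieldFullC (IsLocalRing.ResidueField A) M'))]
    (hA : A.LiesOverPrime q)
    {R : ConstRed A (IsLocalRing.residue A)
      (↥(modularFunctionFieldFullC (IsLocalRing.ResidueField A) M')) (FF (M' * q))}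
    (hR : IsSeriesRed R)
    (X : GlueData R (glmZero M' q hq hqM R) (infPlaceBar (M' * q))
      (cuspZero (M' * q) q hq (dvd_mul_left q M') (inf_not_sq_dvd M' q hq hqM))
      (infPlaceC (IsLocalRing.ResidueField A) M'))
    (D : Set (Place Kbar (FF (M' * q)))) (hDinf : infPlaceBar (M' * q) ∈ D)
    (hD0 : cuspZero (M' * q) q hq (dvd_mul_left q M') (inf_not_sq_dvd M' q hq hqM) ∈ D)
    (r₁ r₂ : X.B) (h : ∀ i, X.e₁ i r₁ = X.e₂ i r₂) :
    ∃ z : (nodeSetupND A M' q hq hqM hA D R hR).B,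
      (nodeSetupND A M' q hq hqM hA D R hR).redInf z =
        (r₁ : ↥(modularFunctionFieldFullC (IsLocalRing.ResidueField A) M')) ∧
      (nodeSetupND A M' q hq hqM hA D R hR).redZero z =
        (r₂ : ↥(modularFunctionFieldFullC (IsLocalRing.ResidueField A) M')) := by
  obtain ⟨c, z₀, hz₀L, hz₀F, h₁, h₂, e1, e2⟩ := vsand_glue_ff M' q hq hqM hA hR X r₁ r₂ h
  have hoff : z₀ ∈ offRegular (M' * q) D :=
    vsand_mem_offRegular D _ _ hDinf hD0 c c hz₀L
  have hB : (⟨z₀, hz₀F⟩ : f0Field A (M' * q)) ∈ (nodeSetupND A M' q hq hqM hA D R hR).B :=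
    (mem_nodeSetupConc_B A M' D q hq hA (dvd_mul_right M' q) R hR (alW1 M' hq hqM)
      (sconc_alW1_symm_mem A M' q hq hqM) (SeriesVal.ofConstRed R)
      (sconc_hinto A M' R) (sconc_honto A M' q hq hA (dvd_mul_right M' q) R hR)
      ⟨z₀, hz₀F⟩).2 ⟨hoff, h₁, h₁, h₂⟩
  refine ⟨⟨⟨z₀, hz₀F⟩, hB⟩, ?_, ?_⟩
  · apply Subtype.ext
    rw [← e1]
    rfl
  · apply Subtype.ext
    rw [← e2]
    rfl

end Glue

end Fermat.Agent.S36lib

end
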