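import Mathlib
import Fermat.Agent.S36lib.Apply2Final
import Fermat.Agent.S36lib.AbelNode
import Fermat.Agent.S36lib.TorInst
import Fermat.Agent.S36lib.VSand
import Fermat.Agent.S34lib.ApplyMain

/-!
# Item 83 (S36), piece W-6 / (R4) (helper18): a NODE EXISTS in the final setup

`s36Final_node_ex : ∃ t : Ideal S.B, S.IsNode t` for `S = s36Final …` (`Apply2Final.lean`),
for every auxiliary level `M'`, UNCONDITIONALLY.

Route.
* level `N = M' q`: the gluing package of S34 (`glueMod`) is a `GlueData X` on the affine ring of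
  the residue curve with `0 < X.n` gluing points; an element `b` of the affine ring
  `B_N` (regular off `∞_N, 0_N`) with `red_∞ b = 1`, `red_0 b = 0` would give
  `1 = e₁ i 1 = e₂ i 0 = 0`.  Hence `p_∞ + p_0 ≠ ⊤` at the level `N` (`ndc_levelN`).
* the norm `N_β : B_M → B_N` (`abel_node`, helper29) has `red_∞ (N_β z) = Fr (red_∞ z)` and
  `red_0 (N_β z) = red_mid z ^ (q - 1) * red_0 z`; so `p_∞ + p_0 = ⊤` at the level `M` would give
  `p_∞ + p_0 = ⊤` at the level `N` (`ndc_sup_ne_top_of_norm`).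
-/

set_option autoImplicit false
set_option linter.style.haveILetI false
set_option linter.unusedSectionVars false
set_option linter.unusedVariables false
set_option synthInstance.maxHeartbeats 400000

noncomputable section

namespace Fermat.Agent.S36lib

open ModularCurve HahnSeries AlgebraicCurve
open Fermat.Agent.GoodRed Fermat.Agent.S24lib Fermat.Agent.S34lib Fermat.Agent.S37lib
  Fermat.Agent.HeckeBar Fermat.Agent.S35lib Fermat.Agent.GM Fermat.Agent.RRlib

/-! ### Abstract part -/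

section Abstract

variable {K : Type*} [Field K] {k : Type*} [Field k]
  {A : ValuationSubring K} {π : A →+* k} {κ : Type*} [Field κ] [Algebra k κ]
  {F : Type*} [Field F] [Algebra K F]

/-- a node exists as soon as `p_∞ + p_0` is a proper ideal -/
theorem ndc_exists_node (S : NodeSetup A π κ F) (h : S.pInf ⊔ S.pZero ≠ ⊤) :
    ∃ t : Ideal S.B, S.IsNode t := by
  obtain ⟨t, ht, hle⟩ := Ideal.exists_le_maximal _ h
  exact ⟨t, ht, hle⟩

/-- if a node exists, `p_∞ + p_0` is a proper ideal -/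
theorem ndc_sup_ne_top_of_node (S : NodeSetup A π κ F) (h : ∃ t : Ideal S.B, S.IsNode t) :
    S.pInf ⊔ S.pZero ≠ ⊤ := by
  obtain ⟨t, ht, hle⟩ := h
  intro htop
  rw [htop] at hle
  exact ht.ne_top (top_le_iff.mp hle)

/-- `p_∞ + p_0 = ⊤` gives an element of `B` with reductions `1` at `∞` and `0` at `0` -/
theorem ndc_exists_of_sup_eq_top (S : NodeSetup A π κ F) (h : S.pInf ⊔ S.pZero = ⊤) :
    ∃ b : S.B, S.redInf b = 1 ∧ S.redZero b = 0 := by
  have h1 : (1 : S.B) ∈ S.pInf ⊔ S.pZero := by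
    rw [h]
    trivial
  obtain ⟨a, ha, b, hb, hab⟩ := Submodule.mem_sup.mp h1
  refine ⟨b, ?_, hb⟩
  have ha0 : S.redInf a = 0 := ha
  have h2 := congrArg S.redInf hab
  rw [map_add, ha0, zero_add, map_one] at h2
  exact h2

/-- an element of `B` with reductions `1` at `∞` and `0` at `0` gives `p_∞ + p_0 = ⊤` -/
theorem ndc_sup_eq_top_of_exists (S : NodeSetup A π κ F) (b : S.B) (h1 : S.redInf b = 1)
    (h0 : S.redZero b = 0) : S.pInf ⊔ S.pZero = ⊤ := by
  rw [Ideal.eq_top_iff_one]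
  have ha : (1 - b) ∈ S.pInf := by
    show S.redInf (1 - b) = 0
    rw [map_sub, map_one, h1, sub_self]
  have hb : b ∈ S.pZero := h0
  have : (1 : S.B) = (1 - b) + b := by ring
  rw [this]
  exact Submodule.add_mem_sup ha hb

variable {FN : Type*} [Field FN] [Algebra K FN]

/-- **the norm step**: a multiplicative-type map `N_β : B_M → B_N` with the reduction table of
the norm along `β` transports `p_∞ + p_0 ≠ ⊤` from the level `N` to the level `M`. -/
theorem ndc_sup_ne_top_of_norm (SN : NodeSetup A π κ FN) (SM : NodeSetup A π κ F)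
    (Fr : κ → κ) (hFr1 : Fr 1 = 1) (e : ℕ) (Nβ : SM.B → SN.B)
    (nβInf : ∀ z, SN.redInf (Nβ z) = Fr (SM.redInf z))
    (nβZero : ∀ z, SN.redZero (Nβ z) = SM.redMid z ^ e * SM.redZero z)
    (hN : SN.pInf ⊔ SN.pZero ≠ ⊤) : SM.pInf ⊔ SM.pZero ≠ ⊤ := by
  intro htop
  obtain ⟨b, hb1, hb0⟩ := ndc_exists_of_sup_eq_top SM htop
  refine hN (ndc_sup_eq_top_of_exists SN (Nβ b) ?_ ?_)
  · rw [nβInf, hb1, hFr1]
  · rw [nβZero, hb0, mul_zero]

end Abstract

/-! ### Functions regular off two places -/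

section RR

variable {L : ℕ} [NeZero L]

/-- a function regular off `{P₁, P₂}` lies in some `L(c P₁ + c P₂)` -/
theorem ndc_mem_rr_of_offRegular (P₁ P₂ : Place Kbar (FF L)) (D : Set (Place Kbar (FF L)))
    (hD : ∀ P ∈ D, P = P₁ ∨ P = P₂) {z : FF L} (hz : z ∈ offRegular L D) :
    ∃ c : ℕ, z ∈ riemannRochSpace (K := Kbar) (f3dDiv P₁ P₂ c c) := by
  classical
  refine ⟨(max (-P₁.ord z) (-P₂.ord z)).toNat, ?_⟩
  rw [mem_riemannRochSpace_iff]
  intro P
  by_cases hz0 : z = 0
  · exact Or.inl hz0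
  right
  have hc1 : -P₁.ord z ≤ ((max (-P₁.ord z) (-P₂.ord z)).toNat : ℤ) :=
    (le_max_left _ _).trans (Int.self_le_toNat _)
  have hc2 : -P₂.ord z ≤ ((max (-P₁.ord z) (-P₂.ord z)).toNat : ℤ) :=
    (le_max_right _ _).trans (Int.self_le_toNat _)
  have hc0 : (0 : ℤ) ≤ ((max (-P₁.ord z) (-P₂.ord z)).toNat : ℤ) := Int.natCast_nonneg _
  rw [f3dDiv, Finsupp.add_apply]
  by_cases hPD : P ∈ D
  · rcases hD P hPD with rfl | rfl
    · rw [Finsupp.single_eq_same]
      have : (0 : ℤ) ≤ (Finsupp.single P₂ ((max (-P.ord z) (-P₂.ord z)).toNat : ℤ)) P := by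
        by_cases h : P₂ = P
        · rw [h, Finsupp.single_eq_same]; exact Int.natCast_nonneg _
        · rw [Finsupp.single_eq_of_ne (Ne.symm h)]
      omega
    · rw [Finsupp.single_eq_same]
      have : (0 : ℤ) ≤ (Finsupp.single P₁ ((max (-P₁.ord z) (-P.ord z)).toNat : ℤ)) P := by
        by_cases h : P₁ = P
        · rw [h, Finsupp.single_eq_same]; exact Int.natCast_nonneg _
        · rw [Finsupp.single_eq_of_ne (Ne.symm h)]
      omega
  · have h1 : (0 : ℤ) ≤ P.ord z :=
      (ffMem_iff_ord_nonneg P).mp ((mem_offRegular_iff L D z).mp hz P hPD)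
    have h2 : (0 : ℤ) ≤ (Finsupp.single P₁ ((max (-P₁.ord z) (-P₂.ord z)).toNat : ℤ)) P := by
      by_cases h : P₁ = P
      · rw [h, Finsupp.single_eq_same]; exact Int.natCast_nonneg _
      · rw [Finsupp.single_eq_of_ne (Ne.symm h)]
    have h3 : (0 : ℤ) ≤ (Finsupp.single P₂ ((max (-P₁.ord z) (-P₂.ord z)).toNat : ℤ)) P := by
      by_cases h : P₂ = P
      · rw [h, Finsupp.single_eq_same]; exact Int.natCast_nonneg _
      · rw [Finsupp.single_eq_of_ne (Ne.symm h)]
    omega

end RR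

/-! ### Level `N = M' q` -/

section LevelN

variable (M' q : ℕ) [NeZero M'] [NeZero q] [NeZero (M' * q)] (hq : q.Prime) (hqM : ¬ q ∣ M')
variable {A : ValuationSubring Kbar}

/-- **level `N`: `p_∞ + p_0 ≠ ⊤`**, from the gluing package of S34 with at least one gluing
point, for every affine ring `B_D` with `D ⊆ {∞_N, 0_N}`. -/
theorem ndc_levelN [RRHyp Kbar (FF (M' * q))]
    [RRHyp (IsLocalRing.ResidueField A)
      (↥(modularFunctionFieldFullC (IsLocalRing.ResidueField A) M'))]
    (hA : A.LiesOverPrime q)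
    {R : ConstRed A (IsLocalRing.residue A)
      (↥(modularFunctionFieldFullC (IsLocalRing.ResidueField A) M')) (FF (M' * q))}
    (hR : IsSeriesRed R)
    (X : GlueData R (glmZero M' q hq hqM R) (infPlaceBar (M' * q))
      (cuspZero (M' * q) q hq (dvd_mul_left q M') (inf_not_sq_dvd M' q hq hqM))
      (infPlaceC (IsLocalRing.ResidueField A) M'))
    (hn : 0 < X.n)
    (D : Set (Place Kbar (FF (M' * q))))
    (hD : ∀ P ∈ D, P = infPlaceBar (M' * q) ∨
      P = cuspZero (M' * q) q hq (dvd_mul_left q M') (inf_not_sq_dvd M' q hq hqM)) :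
    (nodeSetupND A M' q hq hqM hA D R hR).pInf ⊔ (nodeSetupND A M' q hq hqM hA D R hR).pZero
      ≠ ⊤ := by
  intro htop
  obtain ⟨b, hb1, hb0⟩ := ndc_exists_of_sup_eq_top _ htop
  have hmem := (mem_nodeSetupConc_B A M' D q hq hA (dvd_mul_right M' q) R hR (alW1 M' hq hqM)
      (sconc_alW1_symm_mem A M' q hq hqM) (SeriesVal.ofConstRed R)
      (sconc_hinto A M' R) (sconc_honto A M' q hq hA (dvd_mul_right M' q) R hR) b.1).1 b.2
  obtain ⟨c, hc⟩ := ndc_mem_rr_of_offRegular (infPlaceBar (M' * q))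
    (cuspZero (M' * q) q hq (dvd_mul_left q M') (inf_not_sq_dvd M' q hq hqM)) D hD hmem.1
  have h1 : R.red ⟨((b : f0Field A (M' * q)) : FF (M' * q)), hmem.2.1⟩ = 1 := by
    rw [← hb1]
    rfl
  have h0 : R.red ⟨alW1 M' hq hqM ((b : f0Field A (M' * q)) : FF (M' * q)), hmem.2.2.2⟩ = 0 := by
    rw [← hb0]
    rfl
  have hpair : ((((1 : X.B) : ↥(modularFunctionFieldFullC (IsLocalRing.ResidueField A) M')),
      (((0 : X.B) : ↥(modularFunctionFieldFullC (IsLocalRing.ResidueField A) M')))) :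
        ↥(modularFunctionFieldFullC (IsLocalRing.ResidueField A) M') ×
          ↥(modularFunctionFieldFullC (IsLocalRing.ResidueField A) M')) ∈
      f3dM R (glmZero M' q hq hqM R) (f3dDiv (infPlaceBar (M' * q))
        (cuspZero (M' * q) q hq (dvd_mul_left q M') (inf_not_sq_dvd M' q hq hqM)) c c) := by
    rw [mem_f3dM]
    refine ⟨⟨((b : f0Field A (M' * q)) : FF (M' * q)), hmem.2.1, hmem.2.2.2⟩, hc, ?_⟩
    rw [ssRed_apply]
    refine Prod.ext ?_ ?_
    · exact h1
    · exact h0
  have hglue := (X.glue 1 0).mp ⟨c, hpair⟩ ⟨0, hn⟩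
  rw [map_one, map_zero] at hglue
  exact one_ne_zero hglue

end LevelN

/-! ### The gluing package at the level `N`, for a given constant reduction -/

section Glue

variable (M' q : ℕ) [NeZero M'] [NeZero q] (hq : q.Prime) (hqM : ¬ q ∣ M')
variable {A : ValuationSubring Kbar}

/-- the gluing data of S34 at the level `N = M' q`, with at least one gluing point, for every
`IsSeriesRed` constant reduction `RN` of level `N` -/
theorem ndc_exists_glueData [NeZero (M' * q)] (haux : IsAuxLevel q M') (hA : A.LiesOverPrime q)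
    {RN : ConstRed A (IsLocalRing.residue A)
      (↥(modularFunctionFieldFullC (IsLocalRing.ResidueField A) M')) (FF (M' * q))}
    (hRN : IsSeriesRed RN) :
    ∃ X : GlueData RN (glmZero M' q hq hqM RN) (infPlaceBar (M' * q))
        (cuspZero (M' * q) q hq (dvd_mul_left q M') (inf_not_sq_dvd M' q hq hqM))
        (infPlaceC (IsLocalRing.ResidueField A) M'),
      X.B = affRing (infPlaceC (IsLocalRing.ResidueField A) M') ∧ 0 < X.n := by
  haveI : Fact q.Prime := ⟨hq⟩
  haveI : CharP (IsLocalRing.ResidueField A) q := charP_residueField hA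
  haveI : IsAlgClosed (IsLocalRing.ResidueField A) := isAlgClosed_residueField A
  haveI : Infinite (IsLocalRing.ResidueField A) := IsAlgClosed.instInfinite
  haveI : RRHyp Kbar (FF M') := mod_rrHyp M'
  haveI : RRHyp Kbar (FF (M' * q)) := mod_rrHyp (M' * q)
  haveI : RRHyp (IsLocalRing.ResidueField A)
      (↥(modularFunctionFieldFullC (IsLocalRing.ResidueField A) M')) :=
    mr_rrHyp (IsLocalRing.ResidueField A) M'
  have hfrac' : HasPrimFrac A (modularFunctionFieldBar M') := vri_hfrac M' q hq A hA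
  obtain ⟨R', r, hR', -, -, hgen⟩ := liftInf_exists_red M' A q haux hA
  have Hex := am_exInput M' q hq hqM haux hA hR' hRN hfrac'
  have hO := vk_O_ne M' q hq hqM hRN hA
  have hlift : ∀ a : affRing (infPlaceC (IsLocalRing.ResidueField A) M'),
      ∃ (g : FF M') (hg : g ∈ R'.O),
        (∀ v' : Place Kbar (FF M'), v' ≠ infPlaceBar M' → 0 ≤ v'.ord g) ∧
          R'.red ⟨g, hg⟩ =
            (a : ↥(modularFunctionFieldFullC (IsLocalRing.ResidueField A) M')) := by
    intro a
    obtain ⟨c, hc⟩ := (glm_hB M' _).mp a.2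
    obtain ⟨x, hx, hred⟩ := liftInf_lift q haux hA hR' (c : ℤ) _ hc
    exact ⟨x, x.2, mem_affRing_iff.mp (affRing_of_mem_rr hx), hred⟩
  obtain ⟨X, a₀, a₁, hXB, -, -, -, hn, -⟩ := glueMod M' q hq hqM hA
    (φ := (affFrobFk (IsLocalRing.ResidueField A) q M').toRingHom) (fun x => rfl) Hex hO
    (affRing_residue_surjective _) hlift hgen.le Nat.one_pos
  exact ⟨X, hXB, hn⟩

end Glue

/-! ### The final setup -/

section Final

variable (A : ValuationSubring Kbar) (M' q : ℕ) [NeZero M'] [NeZero q]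
variable (hq : q.Prime) (hqM : ¬ q ∣ M') (hA : A.LiesOverPrime q)
variable {ζ : Kbarˣ} {E : FF (M' * q * q) →+* LaurentSeries Kbar}
variable (hζq : ζ ^ q = 1) (hζ : IsPrimitiveRoot (ζ : Kbar) q) (hE : IsMidExp M' q ζ E)
variable (R : ConstRed A (IsLocalRing.residue A)
      (↥(modularFunctionFieldFullC (IsLocalRing.ResidueField A) M')) (FF (M' * q * q)))
    (hR : IsSeriesRed R)

/-- the places of `abelDN` are `∞_N` and `0_N` (in the spelling of S34) -/
theorem ndc_abelDN (P : Place Kbar (FF (M' * q))) (hP : P ∈ abelDN M' q hq hqM) :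
    P = infPlaceBar (M' * q) ∨
      P = cuspZero (M' * q) q hq (dvd_mul_left q M') (inf_not_sq_dvd M' q hq hqM) := by
  rcases hP with h | h
  · exact Or.inl h
  · right
    rw [ac_cuspZero_eq]
    exact h

set_option maxHeartbeats 1600000 in
/-- **(R4) for the final setup, in the form `p_∞ + p_0 ≠ ⊤`.** -/
theorem s36Final_sup_ne_top (haux : IsAuxLevel q M') :
    (s36Final A M' q hq hqM hA hζq hζ hE R hR).pInf ⊔
      (s36Final A M' q hq hqM hA hζq hζ hE R hR).pZero ≠ ⊤ := by
  haveI : NeZero (M' * q) := ⟨Nat.mul_ne_zero (NeZero.ne M') (NeZero.ne q)⟩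
  haveI : Fact q.Prime := ⟨hq⟩
  haveI : CharP (IsLocalRing.ResidueField A) q := charP_residueField hA
  haveI : IsAlgClosed (IsLocalRing.ResidueField A) := isAlgClosed_residueField A
  haveI : RRHyp Kbar (FF (M' * q)) := mod_rrHyp (M' * q)
  haveI : RRHyp (IsLocalRing.ResidueField A)
      (↥(modularFunctionFieldFullC (IsLocalRing.ResidueField A) M')) :=
    mr_rrHyp (IsLocalRing.ResidueField A) M'
  have hlt : A.valuation (q : Kbar) < 1 := (A.mem_nonunits_iff).mp hA
  have hAtop : A ≠ ⊤ := cri_ne_top q A hA hq.ne_zero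
  obtain ⟨RN, hRN⟩ := sconc_exists_constRedInfN A M' q hq hqM hA
  obtain ⟨X, -, hn⟩ := ndc_exists_glueData M' q hq hqM haux hA hRN
  have hN := ndc_levelN M' q hq hqM hA hRN X hn (abelDN M' q hq hqM)
    (ndc_abelDN M' q hq hqM)
  obtain ⟨Nα, Nβ, -, -, -, -, hβI, hβZ⟩ := abel_node M' q hq hqM hA
    (s36D1 M' q hq hqM) (abelDN M' q hq hqM)
    (SeriesVal.ofConstRed R) (vmidSV A hq hlt hζq hE)
    ((SeriesVal.ofConstRed R).comap (alW2 M' hq hqM))
    (SeriesVal.ofConstRed RN) (SeriesVal.ofConstRed RN)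
    ((SeriesVal.ofConstRed RN).comap (alW1 M' hq hqM))
    (modularFunctionFieldFullC (IsLocalRing.ResidueField A) M')
    (sconc_hinto A M' R) (sconc_honto A M' q hq hA ⟨q * q, by ring⟩ R hR)
    (vmid_hinto A hq hqM hA hζq hζ hE) (vmid_honto A hq hA hζq hE)
    (sconc_hinto_comap A M' R (alW2 M' hq hqM))
    (sconc_honto_comap A M' q hq hA ⟨q * q, by ring⟩ R hR (alW2 M' hq hqM)
      (sconc_alW2_symm_mem A M' q hq hqM))
    (sconc_hinto A M' RN) (sconc_honto A M' q hq hA (dvd_mul_right M' q) RN hRN)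
    (sconc_hinto A M' RN) (sconc_honto A M' q hq hA (dvd_mul_right M' q) RN hRN)
    (sconc_hinto_comap A M' RN (alW1 M' hq hqM))
    (sconc_honto_comap A M' q hq hA (dvd_mul_right M' q) RN hRN (alW1 M' hq hqM)
      (sconc_alW1_symm_mem A M' q hq hqM))
    ζ hζ E hE.alpha hE.beta
    (svBridge_ofConstRed hAtop hR)
    (fun x a b hb hab => vmid_bridge A hq hlt hζq hE x a b hb hab)
    ((svBridge_ofConstRed hAtop hR).comap (alW2 M' hq hqM))
    (svBridge_ofConstRed hAtop hRN)
    ((svBridge_ofConstRed hAtop hRN).comap (alW1 M' hq hqM))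
    (fun _ h => h)
    (fun Q hQ => abel_hD_alpha M' q hq hqM Q hQ)
    (fun Q hQ => abel_hD_beta M' q hq hqM Q hQ)
    (torFr (IsLocalRing.ResidueField A) q M') (fun x => rfl)
  exact ndc_sup_ne_top_of_norm (nodeSetupND A M' q hq hqM hA (abelDN M' q hq hqM) RN hRN)
    (s36Final A M' q hq hqM hA hζq hζ hE R hR)
    (torFr (IsLocalRing.ResidueField A) q M') (map_one _) (q - 1) Nβ hβI hβZ hN

/-- **(R4): a node exists in the final setup.** -/
theorem s36Final_node_ex (haux : IsAuxLevel q M') :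
    ∃ t : Ideal (s36Final A M' q hq hqM hA hζq hζ hE R hR).B,
      (s36Final A M' q hq hqM hA hζq hζ hE R hR).IsNode t :=
  ndc_exists_node _ (s36Final_sup_ne_top A M' q hq hqM hA hζq hζ hE R hR haux)

end Final

end Fermat.Agent.S36lib

end
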