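/-
Item 83 (S36), block REG, FINAL (R1)+(R2) (helper12).

`s36Final_noeth_frac`: for the final setup `SF = s36Final …` (`Apply2Final.lean`, any `ζ`, any
middle expansion `E`, any series reduction `R` at level `M' q²`) and an auxiliary level `M'`,
the affine ring `SF.B = B_{D1}` is Noetherian and `F0(M' q²)` is its field of fractions
(`hnoeth` and `hfrac` of `s36Final_reg` / `a2contract_of_final`).

Wiring of helper28's `d1a_nodeSetupM` (`D1NoethM.lean`) with helper2's vertical integrality
`sumi_isIntegral` and tables `sumi_hT₁/₂/₃` (`SumFinal.lean`); the series reduction `R'` at level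
`M'` is the one of `liftInf_exists_red`.
Complete proofs.
-/
import Mathlib
import Fermat.Agent.S36lib.D1NoethM
import Fermat.Agent.S36lib.SumFinal
import Fermat.Agent.S36lib.Apply2Final
import Fermat.Agent.S34lib.LiftInf

set_option autoImplicit false
set_option linter.style.haveILetI false
set_option linter.unusedSectionVars false
set_option linter.unusedVariables false
set_option synthInstance.maxHeartbeats 400000

noncomputable section

namespace Fermat.Agent.S36lib

open ModularCurve HahnSeries AlgebraicCurve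
open Fermat.Agent.GoodRed Fermat.Agent.S24lib Fermat.Agent.S34lib Fermat.Agent.S37lib
  Fermat.Agent.HeckeBar Fermat.Agent.S35lib Fermat.Agent.GM

variable (A : ValuationSubring Kbar) (M' q : ℕ) [NeZero M'] [NeZero q]
variable (hq : q.Prime) (hqM : ¬ q ∣ M') (hA : A.LiesOverPrime q)
variable {ζ : Kbarˣ} {E : FF (M' * q * q) →+* LaurentSeries Kbar}
variable (hζq : ζ ^ q = 1) (hζ : IsPrimitiveRoot (ζ : Kbar) q) (hE : IsMidExp M' q ζ E)
variable (R : ConstRed A (IsLocalRing.residue A)
      (↥(modularFunctionFieldFullC (IsLocalRing.ResidueField A) M')) (FF (M' * q * q)))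
    (hR : IsSeriesRed R)

/-- **FINAL (R1)+(R2)**: the affine ring of the final setup is Noetherian, with field of
fractions `F0(M' q²)`. -/
theorem s36Final_noeth_frac (haux : IsAuxLevel q M') :
    IsNoetherianRing (s36Final A M' q hq hqM hA hζq hζ hE R hR).B ∧
      ∀ z : f0Field A (M' * q * q), ∃ a b : (s36Final A M' q hq hqM hA hζq hζ hE R hR).B,
        b ≠ 0 ∧ z * (b : f0Field A (M' * q * q)) = (a : f0Field A (M' * q * q)) := by
  haveI : Fact q.Prime := ⟨hq⟩
  obtain ⟨R', r', hR', -⟩ := liftInf_exists_red (M := M') (A := A) q haux hA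
  have hlt : A.valuation (q : Kbar) < 1 := (A.mem_nonunits_iff).mp hA
  refine d1a_nodeSetupM A M' q hq hqM R' hA R hR (vmidSV A hq hlt hζq hE)
    (vmid_hinto A hq hqM hA hζq hζ hE) (vmid_honto A hq hA hζq hE) haux hR' ?_ ?_ ?_ ?_
  · intro g _ hg
    exact sumi_hT₁ A M' q hq hA R' R hR' hR g hg
  · intro g _ hg
    exact sumi_hT₂ A M' q hq hA R' hR' hlt hζq hE g hg
  · intro g _ hg
    exact sumi_hT₃ A M' q hq hqM hA R' R hR' hR g hg
  · intro b hb h1 h2 h3
    obtain ⟨p, hp, hc, he⟩ := sumi_isIntegral A M' q hq hqM hA R' R hR' hR hlt hζq hζ hE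
      (vmidSV A hq hlt hζq hE) rfl b hb h1 h2 h3
    exact ⟨p, hp, fun n => (hc n).1, he⟩

/-- (R1): `SF.B` is Noetherian -/
theorem s36Final_noeth (haux : IsAuxLevel q M') :
    IsNoetherianRing (s36Final A M' q hq hqM hA hζq hζ hE R hR).B :=
  (s36Final_noeth_frac A M' q hq hqM hA hζq hζ hE R hR haux).1

/-- (R2): `F0(M' q²)` is the field of fractions of `SF.B` -/
theorem s36Final_frac (haux : IsAuxLevel q M') (z : f0Field A (M' * q * q)) :
    ∃ a b : (s36Final A M' q hq hqM hA hζq hζ hE R hR).B,
      b ≠ 0 ∧ z * (b : f0Field A (M' * q * q)) = (a : f0Field A (M' * q * q)) :=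
  (s36Final_noeth_frac A M' q hq hqM hA hζq hζ hE R hR haux).2 z

end Fermat.Agent.S36lib

end
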