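import Mathlib
import Fermat.Agent.S36lib.D1Noeth
import Fermat.Agent.S36lib.Apply2Final
import Fermat.Agent.S36lib.Reg2
import Fermat.Agent.S36lib.ZeroSide
import Fermat.Agent.S34lib.ExProd

/-!
# Item 83 (S36), piece `hαint` (helper20): `B_{D1}(M' q²)` is integral over `α (B_{D1}(M' q))`

`hαint : fα.toB.IsIntegral` of `s36_crux_head` / `s36_redMem_nodeSetup`, for ANY
`f : SetupMap (nodeSetupN …) (s36Final …)` inducing `α = heckeAlphaBar Kbar (M' q) q` on the
function fields.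

Proof: by helper28's `d1a_isIntegralElem` every `b ∈ B_{D1}(M' q²)` is integral over `A0[π₁ g]`
(`g` a good function of level `M'`), `π₁ = α ∘ α'`, and `α' g ∈ B_{D1}(M' q)`:
* `aint_alpha_mem_red`, `aint_beta_mem_red` : `g ∈ R'.O ⟹ α' g, β' g ∈ RN.O` (series reductions);
* `aint_alpha_mem_BN` : `g ∈ F0(M') ∩ R'.O` regular off `∞'` ⟹ `α' g ∈ (nodeSetupN …).B`;
* **`aint_isIntegral`** : `f.toB.IsIntegral`.
The only hypothesis is (P4) (the vertical integrality along `π₁`, helper2), in the shape of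
`d1a_nodeSetupM`.
-/

set_option autoImplicit false
set_option linter.style.haveILetI false
set_option linter.unusedSectionVars false
set_option linter.unusedVariables false
set_option synthInstance.maxHeartbeats 400000

noncomputable section

namespace Fermat.Agent.S36lib

open AlgebraicCurve ModularCurve IntermediateField HahnSeries Polynomial
open Fermat.Agent.S24lib Fermat.Agent.GoodRed Fermat.Agent.GM Fermat.Agent.S34lib
  Fermat.Agent.RRlib Fermat.Agent.HeckeBar Fermat.Agent.S35lib Fermat.Agent.S37lib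

/-! ### The tables of `α'`, `β'` at `∞` -/

section Tables

variable {A : ValuationSubring Kbar} (M' q : ℕ) [NeZero M'] [NeZero q]
variable {Fk' : IntermediateField (IsLocalRing.ResidueField A)
  (LaurentSeries (IsLocalRing.ResidueField A))}
variable {R' : ConstRed A (IsLocalRing.residue A) (↥Fk') (FF M')}
variable {RN : ConstRed A (IsLocalRing.residue A) (↥Fk') (FF (M' * q))}

/-- `g ∈ R'.O ⟹ α' g ∈ RN.O` -/
theorem aint_alpha_mem_red (hR' : IsSeriesRed R') (hRN : IsSeriesRed RN)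
    (hfrac : HasPrimFrac A (modularFunctionFieldBar M')) {x : FF M'} (hx : x ∈ R'.O) :
    heckeAlphaBar Kbar M' q x ∈ RN.O := by
  obtain ⟨a, b, hrep⟩ := hR'.exists_isRep hfrac hx
  have hrep' : IsRep A (modularFunctionFieldBar (M' * q))
      ((heckeAlphaBar Kbar M' q x : FF (M' * q)) : LaurentSeries Kbar) a b := by
    refine ⟨?_, ?_, hrep.2.2.1, ?_⟩
    · exact (heckeAlphaBar Kbar M' q ⟨_, hrep.1⟩).2
    · exact (heckeAlphaBar Kbar M' q ⟨_, hrep.2.1⟩).2
    · rw [coe_heckeAlphaBar]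
      exact hrep.2.2.2
  exact hRN.mem_of_isRep hrep'

/-- `g ∈ R'.O ⟹ β' g ∈ RN.O` -/
theorem aint_beta_mem_red (hR' : IsSeriesRed R') (hRN : IsSeriesRed RN)
    (hfrac : HasPrimFrac A (modularFunctionFieldBar M')) {x : FF M'} (hx : x ∈ R'.O) :
    heckeBetaBar Kbar M' q x ∈ RN.O := by
  obtain ⟨a, b, hrep⟩ := hR'.exists_isRep hfrac hx
  have hrep' : IsRep A (modularFunctionFieldBar (M' * q))
      ((heckeBetaBar Kbar M' q x : FF (M' * q)) : LaurentSeries Kbar)
      (qExpand A q a) (qExpand A q b) := by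
    refine ⟨?_, ?_, ?_, ?_⟩
    · rw [Fermat.Agent.Kron.coeffMap_qExpand]
      exact (heckeBetaBar Kbar M' q ⟨_, hrep.1⟩).2
    · rw [Fermat.Agent.Kron.coeffMap_qExpand]
      exact (heckeBetaBar Kbar M' q ⟨_, hrep.2.1⟩).2
    · rw [Fermat.Agent.Kron.coeffMap_qExpand]
      intro h0
      exact hrep.2.2.1 (qExpand_injective q (h0.trans (map_zero _).symm))
    · rw [coe_heckeBetaBar, Fermat.Agent.Kron.coeffMap_qExpand,
        Fermat.Agent.Kron.coeffMap_qExpand, ← map_mul, hrep.2.2.2]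
  exact hRN.mem_of_isRep hrep'

end Tables

variable (A : ValuationSubring Kbar) (M' q : ℕ) [NeZero M'] [NeZero q]
variable (hq : q.Prime) (hqM : ¬ q ∣ M') (hA : A.LiesOverPrime q)
variable {ζ : Kbarˣ} {E : FF (M' * q * q) →+* LaurentSeries Kbar}
variable (hζq : ζ ^ q = 1) (hζ : IsPrimitiveRoot (ζ : Kbar) q) (hE : IsMidExp M' q ζ E)
variable (R : ConstRed A (IsLocalRing.residue A)
      (↥(modularFunctionFieldFullC (IsLocalRing.ResidueField A) M')) (FF (M' * q * q)))
    (hR : IsSeriesRed R)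
variable (RN : ConstRed A (IsLocalRing.residue A)
      (↥(modularFunctionFieldFullC (IsLocalRing.ResidueField A) M')) (FF (M' * q)))
    (hRN : IsSeriesRed RN)
variable (R' : ConstRed A (IsLocalRing.residue A) (Fk (IsLocalRing.ResidueField A) M') (FF M'))

local notation "SNN" => nodeSetupN A M' q hq hqM hA RN hRN

local notation "SFF" => s36Final A M' q hq hqM hA hζq hζ hE R hR

/-- unfolding of `nodeSetupN`: membership in `B_N` -/
theorem aint_mem_BN (x : f0Field A (M' * q)) :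
    x ∈ (nodeSetupN A M' q hq hqM hA RN hRN).B ↔
      (x : FF (M' * q)) ∈ offRegular (M' * q) (s36D1N M' q hq hqM) ∧
        (x : FF (M' * q)) ∈ RN.O ∧ alW1 M' hq hqM (x : FF (M' * q)) ∈ RN.O := by
  have h := mem_nodeSetupConc_B A M' (s36D1N M' q hq hqM) q hq hA (dvd_mul_right M' q) RN hRN
    (alW1 M' hq hqM) (sconc_alW1_symm_mem A M' q hq hqM) (SeriesVal.ofConstRed RN)
    (sconc_hinto A M' RN) (sconc_honto A M' q hq hA (dvd_mul_right M' q) RN hRN) x
  constructor
  · intro hx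
    have h' := h.1 hx
    exact ⟨h'.1, h'.2.1, h'.2.2.2⟩
  · intro hx
    exact h.2 ⟨hx.1, hx.2.1, hx.2.1, hx.2.2⟩

/-- **`α' g ∈ B_{D1}(M' q)`** for `g ∈ F0(M') ∩ R'.O` regular off `∞'` -/
theorem aint_alpha_mem_BN (hR' : IsSeriesRed R') (g : f0Field A M') (hgO : (g : FF M') ∈ R'.O)
    (hgreg : (g : FF M') ∈ offRegular M' {infPlaceBar M'}) :
    (⟨heckeAlphaBar Kbar M' q (g : FF M'), f0_heckeAlphaBar_mem A q g.2⟩ :
      f0Field A (M' * q)) ∈ (nodeSetupN A M' q hq hqM hA RN hRN).B := by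
  have hfrac : HasPrimFrac A (modularFunctionFieldBar M') := vri_hfrac M' q hq A hA
  rw [aint_mem_BN]
  refine ⟨?_, ?_, ?_⟩
  · rw [mem_offRegular_iff]
    intro P hP
    rw [ffMem_iff_ord_nonneg]
    refine exp_reg_alpha M' q hq hqM (g : FF M') ?_ P (fun h => hP (Or.inl h))
      (fun h => hP (Or.inr h))
    intro v' hv'
    rw [← ffMem_iff_ord_nonneg]
    exact (mem_offRegular_iff M' _ _).1 hgreg v' (fun h => hv' h)
  · exact aint_alpha_mem_red M' q hR' hRN hfrac hgO
  · show alW1 M' hq hqM (heckeAlphaBar Kbar M' q (g : FF M')) ∈ RN.O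
    rw [alW1_alpha']
    exact aint_beta_mem_red M' q hR' hRN hfrac hgO

/-- the two ring homomorphisms `A0[X] → F0(M' q²)`: `α ∘ (X ↦ y)` and `X ↦ π₁ g` agree, for
`y ∈ B_N` with `y = α' g`. -/
theorem aint_comp (f : SetupMap (SNN) (SFF))
    (hf : ∀ x : f0Field A (M' * q), ((f.φ x : f0Field A (M' * q * q)) : FF (M' * q * q)) =
      heckeAlphaBar Kbar (M' * q) q (x : FF (M' * q)))
    (g : f0Field A M') (y : (SNN).B)
    (hy : (((y : (SNN).B) : f0Field A (M' * q)) : FF (M' * q)) =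
      heckeAlphaBar Kbar M' q (g : FF M')) :
    (((SFF).B.subtype.comp f.toB).comp (Polynomial.eval₂RingHom (SNN).constB y)) =
      (Polynomial.aeval (d1aPi1 A M' q g) :
        Polynomial (k0Val A) →ₐ[k0Val A] f0Field A (M' * q * q)).toRingHom := by
  apply Polynomial.ringHom_ext
  · intro a
    apply Subtype.ext
    have h1 : ((((SFF).B.subtype.comp f.toB).comp (Polynomial.eval₂RingHom (SNN).constB y))
        (Polynomial.C a) : f0Field A (M' * q * q)) = f.φ (((SNN).constB a : (SNN).B) :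
          f0Field A (M' * q)) := by
      simp only [RingHom.comp_apply, Polynomial.coe_eval₂RingHom, Polynomial.eval₂_C]
      rfl
    rw [h1, hf]
    have h2 : ((((SNN).constB a : (SNN).B) : f0Field A (M' * q)) : FF (M' * q)) =
        algebraMap Kbar (FF (M' * q)) (((a : k0Field A) : Kbar)) := rfl
    rw [h2, AlgHom.commutes]
    simp only [AlgHom.toRingHom_eq_coe, RingHom.coe_coe, Polynomial.aeval_C]
    rfl
  · apply Subtype.ext
    have h1 : ((((SFF).B.subtype.comp f.toB).comp (Polynomial.eval₂RingHom (SNN).constB y))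
        Polynomial.X : f0Field A (M' * q * q)) = f.φ ((y : (SNN).B) : f0Field A (M' * q)) := by
      simp only [RingHom.comp_apply, Polynomial.coe_eval₂RingHom, Polynomial.eval₂_X]
      rfl
    rw [h1, hf, hy]
    simp only [AlgHom.toRingHom_eq_coe, RingHom.coe_coe, Polynomial.aeval_X]
    rfl

/-- **`hαint`**: `B_{D1}(M' q²)` is integral over `B_{D1}(M' q)` along `α`. -/
theorem aint_isIntegral (hR' : IsSeriesRed R') (haux : IsAuxLevel q M')
    (hP4 : ∀ b : FF (M' * q * q), b ∈ f0Field A (M' * q * q) → b ∈ R.O →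
      b ∈ vmidO A hq ((A.mem_nonunits_iff).mp hA) hζq hE → alW2 M' hq hqM b ∈ R.O →
      ∃ p : Polynomial (FF M'), p.Monic ∧ (∀ n, p.coeff n ∈ R'.O) ∧
        Polynomial.eval₂ (ecPi1 M' q) b p = 0)
    (f : SetupMap (SNN) (SFF))
    (hf : ∀ x : f0Field A (M' * q), ((f.φ x : f0Field A (M' * q * q)) : FF (M' * q * q)) =
      heckeAlphaBar Kbar (M' * q) q (x : FF (M' * q))) :
    f.toB.IsIntegral := by
  classical
  haveI : Fact q.Prime := ⟨hq⟩
  intro b
  obtain ⟨n0, g, hn0, hgen, hg⟩ := d1l_exists_g (R := R') q haux hA hR'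
  have hint := d1a_isIntegralElem A M' q hq hqM R' haux hA hR' n0 hn0 hgen g hg R.O
    (vmidO A hq ((A.mem_nonunits_iff).mp hA) hζq hE)
    ((SeriesVal.ofConstRed R).comap (alW2 M' hq hqM)).O hP4 (b : f0Field A (M' * q * q)) b.2
  obtain ⟨P, hPm, hP0⟩ := hint
  -- the element `y = α' g` of `B_N`
  have hyB := aint_alpha_mem_BN A M' q hq hqM hA RN hRN R' hR' g hg.1.1 hg.1.2.1
  have hcomp := aint_comp A M' q hq hqM hA hζq hζ hE R hR RN hRN f hf g
    ⟨⟨heckeAlphaBar Kbar M' q (g : FF M'), f0_heckeAlphaBar_mem A q g.2⟩, hyB⟩ rfl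
  refine ⟨P.map (Polynomial.eval₂RingHom (SNN).constB
    ⟨⟨heckeAlphaBar Kbar M' q (g : FF M'), f0_heckeAlphaBar_mem A q g.2⟩, hyB⟩),
    hPm.map _, ?_⟩
  apply Subtype.ext
  have h1 := Polynomial.hom_eval₂ (P.map (Polynomial.eval₂RingHom (SNN).constB
    ⟨⟨heckeAlphaBar Kbar M' q (g : FF M'), f0_heckeAlphaBar_mem A q g.2⟩, hyB⟩)) f.toB
    (SFF).B.subtype b
  have h2 : Polynomial.eval₂ ((SFF).B.subtype.comp f.toB) ((SFF).B.subtype b)
      (P.map (Polynomial.eval₂RingHom (SNN).constB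
        ⟨⟨heckeAlphaBar Kbar M' q (g : FF M'), f0_heckeAlphaBar_mem A q g.2⟩, hyB⟩)) =
      Polynomial.eval₂ (((SFF).B.subtype.comp f.toB).comp (Polynomial.eval₂RingHom (SNN).constB
        ⟨⟨heckeAlphaBar Kbar M' q (g : FF M'), f0_heckeAlphaBar_mem A q g.2⟩, hyB⟩))
        ((SFF).B.subtype b) P := Polynomial.eval₂_map _ _ _
  rw [hcomp] at h2
  exact h1.trans (h2.trans hP0)

end Fermat.Agent.S36lib

end
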