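/-
Item 83 (S36), CRUX HEAD, final form (helper26).  No sorry in this file.

`s36Final_hhead_pow`: the hypothesis `hhead` of `s36Final_crux_of` / `s36Final_crux_of_ball`
(`CruxFinal3.lean`, `CruxFinal4.lean`) — for ALL exponents `m = p ^ n`, `q ∤ p`, with
`c2 = (q - 1) (q + 1) q` — from the inputs of `s36_hhead_final_of_tor` (`H1Conc.lean`):
the TOR output `htor` for every `n`, the trichotomy `htri`, one node containing `p_mid`
(`hnode`), the REG3 input `hmid`, the Dedekind quotients, `IsNoetherianRing`, `hfrac`.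
-/
import Mathlib
import Fermat.Agent.S36lib.H1Conc

set_option autoImplicit false
set_option linter.style.haveILetI false
set_option linter.unusedSectionVars false
set_option linter.unusedVariables false
set_option synthInstance.maxHeartbeats 400000

noncomputable section

namespace Fermat.Agent.S36lib

open ModularCurve HahnSeries AlgebraicCurve
open Fermat.Agent.GoodRed Fermat.Agent.S24lib Fermat.Agent.S34lib Fermat.Agent.S37lib
  Fermat.Agent.HeckeBar Fermat.Agent.S35lib Fermat.Agent.GM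

variable (A : ValuationSubring Kbar) (M' q : ℕ) [NeZero M'] [NeZero q]
variable (hq : q.Prime) (hqM : ¬ q ∣ M') (hA : A.LiesOverPrime q)
variable {ζ : Kbarˣ} {E : FF (M' * q * q) →+* LaurentSeries Kbar}
variable (hζq : ζ ^ q = 1) (hζ : IsPrimitiveRoot (ζ : Kbar) q) (hE : IsMidExp M' q ζ E)
variable (R : ConstRed A (IsLocalRing.residue A)
      (↥(modularFunctionFieldFullC (IsLocalRing.ResidueField A) M')) (FF (M' * q * q)))
    (hR : IsSeriesRed R)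

local notation "SF" => s36Final A M' q hq hqM hA hζq hζ hE R hR

/-- `(p ^ n : k) ≠ 0` for `q ∤ p` -/
theorem s36_pow_residue_ne_zero (hq : q.Prime) (hA : A.LiesOverPrime q) (p : ℕ)
    (hqp : ¬ q ∣ p) (n : ℕ) : ((p ^ n : ℕ) : IsLocalRing.ResidueField A) ≠ 0 := by
  intro h0
  have h1 : ((q : ℕ) : IsLocalRing.ResidueField A) = 0 := by
    have h := a2i_res_q A q hA
    rwa [map_natCast] at h
  have hcop : Nat.Coprime (p ^ n) q :=
    Nat.Coprime.pow_left n ((Nat.coprime_comm.1 ((Nat.Prime.coprime_iff_not_dvd hq).2 hqp)))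
  obtain ⟨u, v, huv⟩ : ∃ u v : ℤ, u * (p ^ n : ℕ) + v * q = 1 := by
    have := Nat.Coprime.isCoprime hcop
    obtain ⟨u, v, h⟩ := this
    exact ⟨u, v, by exact_mod_cast h⟩
  have h2 : ((u * ((p ^ n : ℕ) : ℤ) + v * (q : ℤ) : ℤ) : IsLocalRing.ResidueField A) = 1 := by
    rw [huv]; simp
  push_cast at h2
  have h0' : ((p : IsLocalRing.ResidueField A)) ^ n = 0 := by
    have := h0
    push_cast at this
    exact this
  rw [h0', h1, mul_zero, mul_zero, add_zero] at h2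
  exact zero_ne_one h2

set_option maxHeartbeats 2000000 in
/-- **the HEAD for the final setup, all exponents `p ^ n`.** -/
theorem s36Final_hhead_pow (hnoeth : IsNoetherianRing (SF).B)
    (hfrac : ∀ z : f0Field A (M' * q * q), ∃ a b : (SF).B,
      b ≠ 0 ∧ z * (b : f0Field A (M' * q * q)) = (a : f0Field A (M' * q * q)))
    (hDI : IsDedekindDomain ((SF).B ⧸ (SF).pInf))
    (hDM : IsDedekindDomain ((SF).B ⧸ (SF).pMid))
    (hDZ : IsDedekindDomain ((SF).B ⧸ (SF).pZero))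
    (hnmI : ¬ (SF).pInf.IsMaximal) (hnmM : ¬ (SF).pMid.IsMaximal)
    (hnmZ : ¬ (SF).pZero.IsMaximal)
    (hnode : ∃ t : Ideal (SF).B, (SF).IsNode t ∧ (SF).pMid ≤ t)
    (htri : ∀ 𝔪 : Ideal (SF).B, 𝔪.IsMaximal → (SF).constB (q : k0Val A) ∈ 𝔪 → (SF).IsNode 𝔪 ∨
      ((SF).pInf ≤ 𝔪 ∧ ¬ (SF).pMid ≤ 𝔪 ∧ ¬ (SF).pZero ≤ 𝔪) ∨
      (¬ (SF).pInf ≤ 𝔪 ∧ (SF).pMid ≤ 𝔪 ∧ ¬ (SF).pZero ≤ 𝔪) ∨
      (¬ (SF).pInf ≤ 𝔪 ∧ ¬ (SF).pMid ≤ 𝔪 ∧ (SF).pZero ≤ 𝔪))
    (hmid : ∀ 𝔪 : Ideal (SF).B, 𝔪.IsMaximal → (SF).constB (q : k0Val A) ∈ 𝔪 →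
      (SF).pMid ≤ 𝔪 → ¬ (SF).pInf ≤ 𝔪 → ¬ (SF).pZero ≤ 𝔪 →
      ∃ π₀ w₁ b : (SF).B, π₀ ∈ (SF).pMid ∧ w₁ ∉ 𝔪 ∧ b ∉ 𝔪 ∧
        w₁ * π₀ ^ (q - 1) = (SF).constB (q : k0Val A) * b)
    (p : ℕ) (hqp : ¬ q ∣ p) (hp0 : 0 < p)
    (htor : ∀ n : ℕ, ∀ b : (SF).B, (SF).IsUnitAtNodes b →
      IsKummerNew2 M' q (p ^ n) (((b : f0Field A (M' * q * q)) : FF (M' * q * q))) →
      (SF).redInf b ≠ 0 → (SF).redMid b ≠ 0 → (SF).redZero b ≠ 0 →
      ∃ s : (SF).B, (SF).IsUnitAtNodes s ∧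
        b ^ ((q - 1) * (q + 1)) - s ^ (p ^ n) ∈ (SF).pInf ⊓ (SF).pMid ⊓ (SF).pZero) :
    ∀ n : ℕ, ∀ b : (SF).B, (b : f0Field A (M' * q * q)) ≠ 0 → (SF).IsUnitAtNodes b →
      (∀ P : Place Kbar (FF (M' * q * q)),
        ((p ^ n : ℕ) : ℤ) ∣ P.ord (((b : f0Field A (M' * q * q)) : FF (M' * q * q)))) →
      IsKummerNew2 M' q (p ^ n) (((b : f0Field A (M' * q * q)) : FF (M' * q * q))) →
      ∃ h₀ : f0Field A (M' * q * q), h₀ ≠ 0 ∧
        (b : f0Field A (M' * q * q)) ^ ((q - 1) * (q + 1) * q) * h₀ ^ (p ^ n) ∈ (SF).B ∧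
        ∃ z : f0Field A (M' * q * q), z ∈ (SF).ball ∧
          (b : f0Field A (M' * q * q)) ^ ((q - 1) * (q + 1) * q) * h₀ ^ (p ^ n)
            = 1 + a2iQ A q (L := M' * q * q) * z :=
  fun n => s36_hhead_final_of_tor A M' q hq hqM hA hζq hζ hE R hR hnoeth hfrac hDI hDM hDZ
    hnmI hnmM hnmZ (p ^ n) (pow_pos hp0 n) (s36_pow_residue_ne_zero A q hq hA p hqp n)
    hnode htri hmid (htor n)

end Fermat.Agent.S36lib

end
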