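import Mathlib
import Fermat.Agent.S36lib.AbelNode
import Fermat.Agent.S36lib.TheSetup
import Fermat.Agent.S36lib.VMidSV
import Fermat.Agent.S36lib.VMidInto
import Fermat.Agent.S36lib.TorInst
import Fermat.Agent.S36lib.Apply2Final

/-!
# Item 83 (S36), block ABEL, concrete, part 3 (helper29): the instances

`abel_node_full` for THE concrete setups of helper24's `TheSetup.lean`:

* `abel_nodeSetupM`: `SM = nodeSetupM … vMid …` (any middle valuation with the bridge
  `SvBridge A _ E vMid`), `SN = nodeSetupN …`, `Fr = torFr`;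
* `abel_s36Final`: `SM = s36Final …` (the final setup of the chief architect).

These are the hypotheses `Nα Nβ hαInf hαZero hβInf hβZero` and `cα cβ yα yβ hyα hyβ` of
helper25's `tor_nodeSetup` / `tor_nodeSetup_inc`.
-/

set_option autoImplicit false
set_option linter.style.haveILetI false
set_option linter.unusedSectionVars false
set_option synthInstance.maxHeartbeats 400000

noncomputable section

open scoped MatrixGroups
open ModularCurve AlgebraicCurve HahnSeries
open Fermat.Agent.S24lib Fermat.Agent.HeckeBar Fermat.Agent.S37lib Fermat.Agent.S34lib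
open Fermat.Agent.S35lib Fermat.Agent.GoodRed Fermat.Agent.RRlib Fermat.Agent.GM

namespace Fermat.Agent.S36lib

variable (A : ValuationSubring Kbar) (M' q : ℕ) [NeZero M'] [NeZero q]
variable (hq : q.Prime) (hqM : ¬ q ∣ M') (hA : A.LiesOverPrime q)

theorem abel_s36D1N_eq : s36D1N M' q hq hqM = abelDN M' q hq hqM := rfl

/-- the bridge for the middle valuation of helper18 -/
theorem svBridge_vmidSV {ζ : Kbarˣ} {E : FF (M' * q * q) →+* LaurentSeries Kbar}
    (hlt : A.valuation (q : Kbar) < 1) (hζq : ζ ^ q = 1) (hE : IsMidExp M' q ζ E) :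
    SvBridge A (M' * q * q) E (vmidSV A hq hlt hζq hE) :=
  fun x a b hb hab => vmid_bridge A hq hlt hζq hE x a b hb hab

/-- **ABEL for `nodeSetupM` / `nodeSetupN`** -/
theorem abel_nodeSetupM [Fact q.Prime] [CharP (IsLocalRing.ResidueField A) q]
    [PerfectRing (IsLocalRing.ResidueField A) q]
    (RM : ConstRed A (IsLocalRing.residue A)
      (↥(modularFunctionFieldFullC (IsLocalRing.ResidueField A) M')) (FF (M' * q * q)))
    (hRM : IsSeriesRed RM) (vMid : SeriesVal A (M' * q * q))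
    (hiMid : ∀ (x : FF (M' * q * q)) (hx : x ∈ vMid.O), x ∈ f0Field A (M' * q * q) →
      vMid.red ⟨x, hx⟩ ∈ modularFunctionFieldFullC (IsLocalRing.ResidueField A) M')
    (hoMid : ∀ y ∈ modularFunctionFieldFullC (IsLocalRing.ResidueField A) M',
      ∃ (x : FF (M' * q * q)) (hx : x ∈ vMid.O), x ∈ f0Field A (M' * q * q) ∧
        vMid.red ⟨x, hx⟩ = y)
    (RN : ConstRed A (IsLocalRing.residue A)
      (↥(modularFunctionFieldFullC (IsLocalRing.ResidueField A) M')) (FF (M' * q)))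
    (hRN : IsSeriesRed RN)
    (ζ : Kbarˣ) (hζ : IsPrimitiveRoot (ζ : Kbar) q)
    (E : FF (M' * q * q) →+* LaurentSeries Kbar) (hE : IsMidExp M' q ζ E)
    (bMid : SvBridge A (M' * q * q) E vMid) :
    ∃ Nα Nβ : (nodeSetupM A M' q hq hqM hA RM hRM vMid hiMid hoMid).B →
        (nodeSetupN A M' q hq hqM hA RN hRN).B,
      (∀ z, (nodeSetupN A M' q hq hqM hA RN hRN).redInf (Nα z)
        = (nodeSetupM A M' q hq hqM hA RM hRM vMid hiMid hoMid).redInf z
          * (nodeSetupM A M' q hq hqM hA RM hRM vMid hiMid hoMid).redMid z ^ (q - 1)) ∧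
      (∀ z, (nodeSetupN A M' q hq hqM hA RN hRN).redZero (Nα z)
        = torFr (IsLocalRing.ResidueField A) q M'
          ((nodeSetupM A M' q hq hqM hA RM hRM vMid hiMid hoMid).redZero z)) ∧
      (∀ z, (nodeSetupN A M' q hq hqM hA RN hRN).redInf (Nβ z)
        = torFr (IsLocalRing.ResidueField A) q M'
          ((nodeSetupM A M' q hq hqM hA RM hRM vMid hiMid hoMid).redInf z)) ∧
      (∀ z, (nodeSetupN A M' q hq hqM hA RN hRN).redZero (Nβ z)
        = (nodeSetupM A M' q hq hqM hA RM hRM vMid hiMid hoMid).redMid z ^ (q - 1)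
          * (nodeSetupM A M' q hq hqM hA RM hRM vMid hiMid hoMid).redZero z) ∧
      ∀ (m : ℕ), 0 < m → ∀ b : (nodeSetupM A M' q hq hqM hA RM hRM vMid hiMid hoMid).B,
        IsKummerNew2 M' q m ((b : f0Field A (M' * q * q)) : FF (M' * q * q)) →
        (nodeSetupM A M' q hq hqM hA RM hRM vMid hiMid hoMid).redInf b ≠ 0 →
        (nodeSetupM A M' q hq hqM hA RM hRM vMid hiMid hoMid).redMid b ≠ 0 →
        ∃ (cα cβ : k0Val A) (yα yβ : (nodeSetupN A M' q hq hqM hA RN hRN).B),
          k0Res A cα ≠ 0 ∧ k0Res A cβ ≠ 0 ∧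
          Nα b = (nodeSetupN A M' q hq hqM hA RN hRN).constB cα * yα ^ m ∧
          Nβ b = (nodeSetupN A M' q hq hqM hA RN hRN).constB cβ * yβ ^ m := by
  have hlt : A.valuation (q : Kbar) < 1 := A.mem_nonunits_iff.mp hA
  have hAtop : A ≠ ⊤ := cri_ne_top q A hlt hq.ne_zero
  exact abel_node_full M' q hq hqM hA (s36D1 M' q hq hqM) (s36D1N M' q hq hqM)
    (SeriesVal.ofConstRed RM) vMid ((SeriesVal.ofConstRed RM).comap (alW2 M' hq hqM))
    (SeriesVal.ofConstRed RN) (SeriesVal.ofConstRed RN)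
    ((SeriesVal.ofConstRed RN).comap (alW1 M' hq hqM))
    (modularFunctionFieldFullC (IsLocalRing.ResidueField A) M')
    _ _ hiMid hoMid _ _ _ _ _ _ _ _
    ζ hζ E hE.alpha hE.beta
    (svBridge_ofConstRed hAtop hRM) bMid ((svBridge_ofConstRed hAtop hRM).comap _)
    (svBridge_ofConstRed hAtop hRN) ((svBridge_ofConstRed hAtop hRN).comap _)
    (fun _ h => h)
    (fun Q hQ => abel_hD_alpha M' q hq hqM Q hQ)
    (fun Q hQ => abel_hD_beta M' q hq hqM Q hQ)
    (torFr (IsLocalRing.ResidueField A) q M') (fun x => rfl)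

/-- **ABEL for THE FINAL SETUP** `s36Final` (level `M' q²`) and `nodeSetupN` (level `M' q`). -/
theorem abel_s36Final [Fact q.Prime] [CharP (IsLocalRing.ResidueField A) q]
    [PerfectRing (IsLocalRing.ResidueField A) q]
    {ζ : Kbarˣ} {E : FF (M' * q * q) →+* LaurentSeries Kbar}
    (hζq : ζ ^ q = 1) (hζ : IsPrimitiveRoot (ζ : Kbar) q) (hE : IsMidExp M' q ζ E)
    (R : ConstRed A (IsLocalRing.residue A)
      (↥(modularFunctionFieldFullC (IsLocalRing.ResidueField A) M')) (FF (M' * q * q)))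
    (hR : IsSeriesRed R)
    (RN : ConstRed A (IsLocalRing.residue A)
      (↥(modularFunctionFieldFullC (IsLocalRing.ResidueField A) M')) (FF (M' * q)))
    (hRN : IsSeriesRed RN) :
    ∃ Nα Nβ : (s36Final A M' q hq hqM hA hζq hζ hE R hR).B → (nodeSetupN A M' q hq hqM hA RN hRN).B,
      (∀ z, (nodeSetupN A M' q hq hqM hA RN hRN).redInf (Nα z) = (s36Final A M' q hq hqM hA hζq hζ hE R hR).redInf z * (s36Final A M' q hq hqM hA hζq hζ hE R hR).redMid z ^ (q - 1)) ∧
      (∀ z, (nodeSetupN A M' q hq hqM hA RN hRN).redZero (Nα z) = torFr (IsLocalRing.ResidueField A) q M' ((s36Final A M' q hq hqM hA hζq hζ hE R hR).redZero z)) ∧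
      (∀ z, (nodeSetupN A M' q hq hqM hA RN hRN).redInf (Nβ z) = torFr (IsLocalRing.ResidueField A) q M' ((s36Final A M' q hq hqM hA hζq hζ hE R hR).redInf z)) ∧
      (∀ z, (nodeSetupN A M' q hq hqM hA RN hRN).redZero (Nβ z) = (s36Final A M' q hq hqM hA hζq hζ hE R hR).redMid z ^ (q - 1) * (s36Final A M' q hq hqM hA hζq hζ hE R hR).redZero z) ∧
      ∀ (m : ℕ), 0 < m → ∀ b : (s36Final A M' q hq hqM hA hζq hζ hE R hR).B,
        IsKummerNew2 M' q m ((b : f0Field A (M' * q * q)) : FF (M' * q * q)) →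
        (s36Final A M' q hq hqM hA hζq hζ hE R hR).redInf b ≠ 0 → (s36Final A M' q hq hqM hA hζq hζ hE R hR).redMid b ≠ 0 →
        ∃ (cα cβ : k0Val A) (yα yβ : (nodeSetupN A M' q hq hqM hA RN hRN).B),
          k0Res A cα ≠ 0 ∧ k0Res A cβ ≠ 0 ∧
          Nα b = (nodeSetupN A M' q hq hqM hA RN hRN).constB cα * yα ^ m ∧ Nβ b = (nodeSetupN A M' q hq hqM hA RN hRN).constB cβ * yβ ^ m :=
  abel_nodeSetupM A M' q hq hqM hA R hR (vmidSV A hq ((A.mem_nonunits_iff).mp hA) hζq hE)
    (vmid_hinto A hq hqM hA hζq hζ hE) (vmid_honto A hq hA hζq hE) RN hRN ζ hζ E hE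
    (svBridge_vmidSV A M' q hq ((A.mem_nonunits_iff).mp hA) hζq hE)

end Fermat.Agent.S36lib
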