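import Mathlib
import Fermat.Agent.S36lib.Speed

/-!
# Item 83 (S36), piece C-2a (helper3): roots in subrings — the abstract algebra of `(h1)`

Everything here is Mathlib-only commutative algebra; NO characteristic hypothesis is needed, only
that `m` is invertible.

* `s36_root_unique`: in a commutative ring in which `m` is a unit, two `m`-th roots of the same
  element which differ by a nilpotent (one of them a unit) are equal.
* `s36_root_exists`: Newton: if `s` is a unit and `s ^ m - d` is nilpotent, then `d` has an `m`-th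
  root `r` with `s - r` nilpotent.  (So `1 + Nil` is uniquely `m`-divisible.)
* `s36_root_mem_subring`: **ROOT-IN-SUBRING**.  `R ≤ R'` a subring in which `m` is invertible,
  `y ∈ R'` with `y ^ m ∈ R`, `y ≡ s` modulo nilpotents for a unit `s` of `R`.  Then `y ∈ R`.
* `s36_root_mem_of_ideal`: the same with "modulo nilpotents" replaced by "modulo an ideal `c` of
  `R'` contained in `R`, up to a power" (conductor form: the non-seminormal gluing ring
  `S ⊂ S̃`, `c` the functions vanishing to high order at the nodes, `y` with `y ^ m ∈ S` and with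
  the same values at the nodes as some unit `s ∈ S`).
* `s36_root_mem_subalgebra`, `s36_root_mem_subalgebra_of_ideal`: the `k`-algebra forms
  (`(m : k) ≠ 0`).
* `s36_pow_eq_of_red`: unit-group form: if `d ≡ s ^ m` modulo nilpotents, `s` a unit, then
  `d = r ^ m` with `r ≡ s` modulo nilpotents.

Use in the crux at level `q²` (NOTES/S36_regular_helper24.md §4 (h1), blueprint C-2): the
reductions `s_v` of the `m`-th root of `u` have equal values at the nodes; then `(s_v)_v` lies in
the gluing ring, although this ring is neither seminormal nor reduced.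
-/

set_option autoImplicit false

namespace Fermat.Agent.S36lib

open Polynomial

section Newton

variable {R : Type*} [CommRing R]

/-- the polynomial `X ^ m - d` -/
theorem s36_aeval_root_poly (m : ℕ) (d x : R) :
    aeval x (X ^ m - C d : R[X]) = x ^ m - d := by
  simp

theorem s36_aeval_root_poly_deriv (m : ℕ) (d x : R) :
    aeval x (derivative (X ^ m - C d : R[X])) = (m : R) * x ^ (m - 1) := by
  rw [derivative_sub, derivative_X_pow, derivative_C, sub_zero, map_mul, map_pow, aeval_X,
    aeval_C]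
  simp

/-- **Uniqueness of `m`-th roots modulo nilpotents.** -/
theorem s36_root_unique (m : ℕ) (hm : IsUnit (m : R)) {y z : R} (hy : IsUnit y)
    (hpow : y ^ m = z ^ m) (hnil : IsNilpotent (y - z)) : y = z := by
  have h0 : IsNilpotent (aeval y (X ^ m - C (z ^ m) : R[X])) := by
    rw [s36_aeval_root_poly, hpow, sub_self]
    exact IsNilpotent.zero
  have h1 : IsUnit (aeval y (derivative (X ^ m - C (z ^ m) : R[X]))) := by
    rw [s36_aeval_root_poly_deriv]
    exact hm.mul (hy.pow _)
  obtain ⟨r, -, hr⟩ := existsUnique_nilpotent_sub_and_aeval_eq_zero h0 h1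
  have e1 : y = r := hr y ⟨by rw [sub_self]; exact IsNilpotent.zero, by
    rw [s36_aeval_root_poly, hpow, sub_self]⟩
  have e2 : z = r := hr z ⟨hnil, by rw [s36_aeval_root_poly, sub_self]⟩
  rw [e1, e2]

/-- **Newton.**  If `s` is a unit and `s ^ m - d` is nilpotent then `d` has an `m`-th root `r`
with `s - r` nilpotent. -/
theorem s36_root_exists (m : ℕ) (hm : IsUnit (m : R)) {d s : R} (hs : IsUnit s)
    (hnil : IsNilpotent (s ^ m - d)) : ∃ r, r ^ m = d ∧ IsNilpotent (s - r) := by
  have h0 : IsNilpotent (aeval s (X ^ m - C d : R[X])) := by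
    rw [s36_aeval_root_poly]
    exact hnil
  have h1 : IsUnit (aeval s (derivative (X ^ m - C d : R[X]))) := by
    rw [s36_aeval_root_poly_deriv]
    exact hm.mul (hs.pow _)
  obtain ⟨r, ⟨hr1, hr2⟩, -⟩ := existsUnique_nilpotent_sub_and_aeval_eq_zero h0 h1
  rw [s36_aeval_root_poly, sub_eq_zero] at hr2
  exact ⟨r, hr2, hr1⟩

/-- unit-group form of Newton: `d ≡ s ^ m` modulo nilpotents, `s` a unit ⟹ `d` is an `m`-th
power of a unit congruent to `s`. -/
theorem s36_pow_eq_of_red (m : ℕ) (hm : IsUnit (m : R)) {d s : R} (hs : IsUnit s)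
    (hnil : IsNilpotent (d - s ^ m)) : ∃ r, IsUnit r ∧ r ^ m = d ∧ IsNilpotent (r - s) := by
  have hnil' : IsNilpotent (s ^ m - d) := by
    rw [← neg_sub]
    exact hnil.neg
  obtain ⟨r, hr, hsr⟩ := s36_root_exists m hm hs hnil'
  have hrs : IsNilpotent (r - s) := by
    rw [← neg_sub]
    exact hsr.neg
  refine ⟨r, ?_, hr, hrs⟩
  have : r = s + (r - s) := by ring
  rw [this]
  exact IsNilpotent.isUnit_add_left_of_commute hrs hs (Commute.all _ _)

/-- `s ^ m - y ^ m` is nilpotent when `s - y` is -/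
theorem s36_isNilpotent_pow_sub_pow (m : ℕ) {y s : R} (hnil : IsNilpotent (y - s)) :
    IsNilpotent (s ^ m - y ^ m) := by
  have hnil' : IsNilpotent (s - y) := by
    rw [← neg_sub]
    exact hnil.neg
  obtain ⟨c, hc⟩ := sub_dvd_pow_sub_pow s y m
  rw [hc]
  exact (Commute.all _ _).isNilpotent_mul_right hnil'

end Newton

section Subring

variable {R' : Type*} [CommRing R']

/-- **ROOT-IN-SUBRING.**  `R ≤ R'` a subring in which `m` is invertible, `y ∈ R'` with
`y ^ m ∈ R`, and `y ≡ s` modulo nilpotents for some unit `s` of `R` (`s t = 1`, `s, t ∈ R`).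
Then `y ∈ R`. -/
theorem s36_root_mem_subring (R : Subring R') (m : ℕ) (hm : ∃ a ∈ R, (m : R') * a = 1)
    {y s t : R'} (hs : s ∈ R) (ht : t ∈ R) (hst : s * t = 1) (hyR : y ^ m ∈ R)
    (hnil : IsNilpotent (y - s)) : y ∈ R := by
  obtain ⟨a, ha, hma⟩ := hm
  -- units in the subring
  have hmR : IsUnit ((m : ℕ) : R) := by
    refine IsUnit.of_mul_eq_one (⟨a, ha⟩ : R) ?_
    apply Subtype.ext
    simpa using hma
  have hsR : IsUnit (⟨s, hs⟩ : R) := by
    refine IsUnit.of_mul_eq_one (⟨t, ht⟩ : R) ?_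
    apply Subtype.ext
    simpa using hst
  -- Newton in the subring
  have hnilR : IsNilpotent ((⟨s, hs⟩ : R) ^ m - ⟨y ^ m, hyR⟩) := by
    obtain ⟨N, hN⟩ := s36_isNilpotent_pow_sub_pow m hnil
    refine ⟨N, ?_⟩
    apply Subtype.ext
    simpa using hN
  obtain ⟨r, hr, hsr⟩ := s36_root_exists m hmR hsR hnilR
  -- back in the big ring
  have hr' : (r : R') ^ m = y ^ m := by
    have := congrArg (Subtype.val) hr
    simpa using this
  have hsr' : IsNilpotent (s - (r : R')) := by
    obtain ⟨N, hN⟩ := hsr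
    refine ⟨N, ?_⟩
    have := congrArg (Subtype.val) hN
    simpa using this
  have hmR' : IsUnit ((m : ℕ) : R') := IsUnit.of_mul_eq_one a hma
  have hsR' : IsUnit s := IsUnit.of_mul_eq_one t hst
  have hyu : IsUnit y := by
    have : y = s + (y - s) := by ring
    rw [this]
    exact IsNilpotent.isUnit_add_left_of_commute hnil hsR' (Commute.all _ _)
  have hyr : IsNilpotent (y - (r : R')) := by
    have : y - (r : R') = (y - s) + (s - r) := by ring
    rw [this]
    exact (Commute.all _ _).isNilpotent_add hnil hsr'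
  have := s36_root_unique m hmR' hyu hr'.symm hyr
  rw [this]
  exact r.2

/-- **ROOT-IN-SUBRING, conductor form.**  `c` an ideal of `R'` contained in the subring `R`;
`m` invertible in `R` modulo `c`; `y ^ m ∈ R`; `s ∈ R` invertible in `R` modulo `c`;
`(y - s) ^ N ∈ c`.  Then `y ∈ R`. -/
theorem s36_root_mem_of_ideal (R : Subring R') (c : Ideal R') (hc : ∀ x ∈ c, x ∈ R) (m : ℕ)
    (hm : ∃ a ∈ R, (m : R') * a - 1 ∈ c) {y s t : R'} (hs : s ∈ R) (ht : t ∈ R)
    (hst : s * t - 1 ∈ c) (hyR : y ^ m ∈ R) (hnil : ∃ N : ℕ, (y - s) ^ N ∈ c) : y ∈ R := by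
  obtain ⟨a, ha, hma⟩ := hm
  obtain ⟨N, hN⟩ := hnil
  set π := Ideal.Quotient.mk c with hπ
  have key : π y ∈ R.map π := by
    refine s36_root_mem_subring (R.map π) m ⟨π a, Subring.mem_map.mpr ⟨a, ha, rfl⟩, ?_⟩
      (s := π s) (t := π t) (Subring.mem_map.mpr ⟨s, hs, rfl⟩) (Subring.mem_map.mpr ⟨t, ht, rfl⟩) ?_ ?_ ?_
    · have h1 : π ((m : R') * a - 1) = 0 := Ideal.Quotient.eq_zero_iff_mem.mpr hma
      rw [map_sub, map_mul, map_one, map_natCast, sub_eq_zero] at h1
      exact h1
    · have h1 : π (s * t - 1) = 0 := Ideal.Quotient.eq_zero_iff_mem.mpr hst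
      rw [map_sub, map_mul, map_one, sub_eq_zero] at h1
      exact h1
    · rw [← map_pow]
      exact Subring.mem_map.mpr ⟨y ^ m, hyR, rfl⟩
    · refine ⟨N, ?_⟩
      rw [← map_sub, ← map_pow]
      exact Ideal.Quotient.eq_zero_iff_mem.mpr hN
  obtain ⟨r, hr, hry⟩ := Subring.mem_map.mp key
  have h1 : y - r ∈ c := by
    rw [← Ideal.Quotient.eq_zero_iff_mem, map_sub, ← hπ, hry, sub_self]
  have : y = (y - r) + r := by ring
  rw [this]
  exact R.add_mem (hc _ h1) hr

end Subring

section Subalgebra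

variable {k R' : Type*} [Field k] [CommRing R'] [Algebra k R']

/-- **ROOT-IN-SUBRING for `k`-algebras**: `S ≤ R'` a `k`-subalgebra, `(m : k) ≠ 0`, `y ^ m ∈ S`,
`y ≡ s` modulo nilpotents with `s` a unit of `S`.  Then `y ∈ S`. -/
theorem s36_root_mem_subalgebra (S : Subalgebra k R') (m : ℕ) (hm : (m : k) ≠ 0)
    {y s t : R'} (hs : s ∈ S) (ht : t ∈ S) (hst : s * t = 1) (hyS : y ^ m ∈ S)
    (hnil : IsNilpotent (y - s)) : y ∈ S := by
  have h := s36_root_mem_subring S.toSubring m
    ⟨algebraMap k R' ((m : k)⁻¹), S.algebraMap_mem _, by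
      rw [← map_natCast (algebraMap k R'), ← map_mul, mul_inv_cancel₀ hm, map_one]⟩
    (s := s) (t := t) (y := y) hs ht hst hyS hnil
  exact h

/-- **ROOT-IN-SUBRING for `k`-algebras, conductor form.** -/
theorem s36_root_mem_subalgebra_of_ideal (S : Subalgebra k R') (c : Ideal R')
    (hc : ∀ x ∈ c, x ∈ S) (m : ℕ) (hm : (m : k) ≠ 0)
    {y s t : R'} (hs : s ∈ S) (ht : t ∈ S) (hst : s * t - 1 ∈ c) (hyS : y ^ m ∈ S)
    (hnil : ∃ N : ℕ, (y - s) ^ N ∈ c) : y ∈ S := by
  have h := s36_root_mem_of_ideal S.toSubring c hc m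
    ⟨algebraMap k R' ((m : k)⁻¹), S.algebraMap_mem _, by
      rw [← map_natCast (algebraMap k R'), ← map_mul, mul_inv_cancel₀ hm, map_one, sub_self]
      exact c.zero_mem⟩
    (s := s) (t := t) (y := y) hs ht hst hyS hnil
  exact h

end Subalgebra

end Fermat.Agent.S36lib
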