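import Mathlib
import Fermat.Agent.S36lib.RootSub

/-!
# Item 83 (S36), block CRUX, piece C-2d (helper3): GLUE-s — lifting the glued `m`-th root

Abstract, Mathlib + `RootSub` only.

**Situation** (NOTES/S36_blueprint.md §2 (T) → (C)).  `B` the affine ring over `A₀`,
`ρ = (red_∞, red_mid, red_0) : B → T`, `T = R × R × R` (`R` the affine ring of `C'`).  The image
`S = ρ(B)` is the reduction ring; it is NOT seminormal.  TOR gives `y = (s_∞, s_mid, s_0) ∈ T` with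
`y^m = ρ(b^E / c)` and with the same values at the nodes on the three branches.  We need
`s̃ ∈ B` with `ρ s̃ = y`.

* `s36_glue_s`: `𝔠 ≤ 𝔯` ideals of `T` ("conductor" and "radical at the nodes"), `𝔠 ⊆ ρ(B)`,
  `x ∈ 𝔯 ⟹ x^N ∈ 𝔠`; `m` invertible in `B`; `y^m = ρ bE`; `bE` a unit at the nodes
  (`ρ (bE · bE') − 1 ∈ 𝔯`); `z ∈ B` with the same values as `y` at the nodes (`y − ρ z ∈ 𝔯`).
  Then `y ∈ ρ(B)`.
* `s36_conductor3`: the conductor from the level-`N` sandwich: if `α, β : B_N → B` have the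
  reduction table  `ρ(α z) = (r_∞ z, r_∞ z, Fr (r_0 z))`,  `ρ(β z) = (Fr (r_∞ z), r_0 z, r_0 z)`,
  and `(a, 0), (0, b) ∈ (r_∞, r_0)(B_N)` for `a ∈ I₁`, `b ∈ I₂`, and each `ρ_v` is onto `R`, then
  every triple in  `span{a·Fr a'} × span{a·b} × span{Fr b·b'}`  is in `ρ(B)`.
-/

set_option autoImplicit false

namespace Fermat.Agent.S36lib

section GlueS

variable {B T : Type*} [CommRing B] [CommRing T]

/-- geometric series: `(1 + n) · ∑_{j<N} (−n)^j = 1 − (−n)^N` -/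
theorem s36_one_add_mul_geom (n : T) (N : ℕ) :
    (1 + n) * ∑ j ∈ Finset.range N, (-n) ^ j = 1 - (-n) ^ N := by
  have h := mul_neg_geom_sum (-n) N
  rw [sub_neg_eq_add] at h
  exact h

/-- **GLUE-s.**  The glued `m`-th root `y` of `ρ bE` lies in the image of `ρ`. -/
theorem s36_glue_s (ρ : B →+* T) (𝔠 𝔯 : Ideal T)
    (hcond : ∀ w ∈ 𝔠, ∃ z : B, ρ z = w)
    (N : ℕ) (hN : ∀ x ∈ 𝔯, x ^ N ∈ 𝔠)
    (m : ℕ) (hm0 : 0 < m) (mi : B) (hmi : (m : B) * mi = 1)
    (y : T) (bE bE' : B) (hy : y ^ m = ρ bE) (hunit : ρ (bE * bE') - 1 ∈ 𝔯)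
    (z : B) (hz : y - ρ z ∈ 𝔯) :
    ∃ s : B, ρ s = y := by
  -- `ρ z ^ m ≡ y ^ m` modulo `𝔯`
  have h1 : y ^ m - ρ z ^ m ∈ 𝔯 := by
    obtain ⟨c, hc⟩ := sub_dvd_pow_sub_pow y (ρ z) m
    rw [hc]
    exact 𝔯.mul_mem_right _ hz
  -- `z · z''` is `1` modulo `𝔯`
  set z'' : B := z ^ (m - 1) * bE' with hz''
  have hzz'' : ρ (z * z'') - 1 ∈ 𝔯 := by
    have e1 : z * z'' = z ^ m * bE' := by
      rw [hz'', ← mul_assoc, ← pow_succ', Nat.sub_add_cancel hm0]
    have e2 : ρ (z * z'') - 1 = (ρ (bE * bE') - 1) - (y ^ m - ρ z ^ m) * ρ bE' := by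
      rw [e1, map_mul, map_mul, map_pow, hy]
      ring
    rw [e2]
    exact 𝔯.sub_mem hunit (𝔯.mul_mem_right _ h1)
  -- correct `z''` to an inverse modulo `𝔠`
  set n' : T := ρ (z * z'') - 1 with hn'
  set z' : B := z'' * ∑ j ∈ Finset.range N, (-(z * z'' - 1)) ^ j with hz'
  have hzz' : ρ z * ρ z' - 1 ∈ 𝔠 := by
    have e1 : ρ z * ρ z' = (1 + n') * ∑ j ∈ Finset.range N, (-n') ^ j := by
      rw [hz', hn', ← map_mul, ← mul_assoc, map_mul, map_sum]
      congr 1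
      · rw [add_sub_cancel]
      · refine Finset.sum_congr rfl fun j _ => ?_
        rw [map_pow, map_neg, map_sub, map_one]
    rw [e1, s36_one_add_mul_geom, sub_sub_cancel_left]
    exact 𝔠.neg_mem (hN _ (𝔯.neg_mem hzz''))
  have hnil : ∃ N' : ℕ, (y - ρ z) ^ N' ∈ 𝔠 := ⟨N, hN _ hz⟩
  have hmem := s36_root_mem_of_ideal ρ.range 𝔠
    (fun x hx => RingHom.mem_range.mpr (hcond x hx)) m
    ⟨ρ mi, RingHom.mem_range_self ρ mi, by
      have : (m : T) * ρ mi - 1 = 0 := by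
        rw [← map_natCast ρ, ← map_mul, hmi, map_one, sub_self]
      rw [this]
      exact 𝔠.zero_mem⟩
    (s := ρ z) (t := ρ z') (y := y) (RingHom.mem_range_self ρ z) (RingHom.mem_range_self ρ z')
    hzz' (by rw [hy]; exact RingHom.mem_range_self ρ bE) hnil
  exact RingHom.mem_range.mp hmem

end GlueS

section Conductor

variable {BN B R : Type*} [CommRing BN] [CommRing B] [CommRing R]

/-- **the conductor from the level-`N` sandwich.** -/
theorem s36_conductor3 (α β : BN →+* B) (rInf rZero : BN →+* R) (ρInf ρMid ρZero : B →+* R)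
    (Fr : R →+* R)
    (hαInf : ∀ z, ρInf (α z) = rInf z) (hαMid : ∀ z, ρMid (α z) = rInf z)
    (hαZero : ∀ z, ρZero (α z) = Fr (rZero z))
    (hβInf : ∀ z, ρInf (β z) = Fr (rInf z)) (hβMid : ∀ z, ρMid (β z) = rZero z)
    (hβZero : ∀ z, ρZero (β z) = rZero z)
    (I₁ I₂ : Ideal R)
    (hs₁ : ∀ a ∈ I₁, ∃ z : BN, rInf z = a ∧ rZero z = 0)
    (hs₂ : ∀ b ∈ I₂, ∃ z : BN, rInf z = 0 ∧ rZero z = b)
    (hsInf : Function.Surjective ρInf) (hsMid : Function.Surjective ρMid)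
    (hsZero : Function.Surjective ρZero)
    (wInf wMid wZero : R)
    (hwInf : wInf ∈ Ideal.span {x : R | ∃ a ∈ I₁, ∃ a' ∈ I₁, x = a * Fr a'})
    (hwMid : wMid ∈ Ideal.span {x : R | ∃ a ∈ I₁, ∃ b ∈ I₂, x = a * b})
    (hwZero : wZero ∈ Ideal.span {x : R | ∃ b ∈ I₂, ∃ b' ∈ I₂, x = Fr b * b'}) :
    ∃ z : B, ρInf z = wInf ∧ ρMid z = wMid ∧ ρZero z = wZero := by
  -- the three components separately
  have hI : ∃ z : B, ρInf z = wInf ∧ ρMid z = 0 ∧ ρZero z = 0 := by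
    induction hwInf using Submodule.span_induction with
    | mem x hx =>
      obtain ⟨a, ha, a', ha', rfl⟩ := hx
      obtain ⟨z₁, h1, h2⟩ := hs₁ a ha
      obtain ⟨z₁', h1', h2'⟩ := hs₁ a' ha'
      refine ⟨α z₁ * β z₁', ?_, ?_, ?_⟩
      · rw [map_mul, hαInf, hβInf, h1, h1']
      · rw [map_mul, hαMid, hβMid, h2', mul_zero]
      · rw [map_mul, hαZero, hβZero, h2', mul_zero]
    | zero => exact ⟨0, map_zero _, map_zero _, map_zero _⟩
    | add x y _ _ hx hy =>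
      obtain ⟨zx, h1, h2, h3⟩ := hx
      obtain ⟨zy, h1', h2', h3'⟩ := hy
      exact ⟨zx + zy, by rw [map_add, h1, h1'], by rw [map_add, h2, h2', add_zero],
        by rw [map_add, h3, h3', add_zero]⟩
    | smul c x _ hx =>
      obtain ⟨zx, h1, h2, h3⟩ := hx
      obtain ⟨zc, hc⟩ := hsInf c
      exact ⟨zc * zx, by rw [map_mul, hc, h1, smul_eq_mul], by rw [map_mul, h2, mul_zero],
        by rw [map_mul, h3, mul_zero]⟩
  have hM : ∃ z : B, ρInf z = 0 ∧ ρMid z = wMid ∧ ρZero z = 0 := by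
    induction hwMid using Submodule.span_induction with
    | mem x hx =>
      obtain ⟨a, ha, b, hb, rfl⟩ := hx
      obtain ⟨z₁, h1, h2⟩ := hs₁ a ha
      obtain ⟨z₂, h1', h2'⟩ := hs₂ b hb
      refine ⟨α z₁ * β z₂, ?_, ?_, ?_⟩
      · rw [map_mul, hαInf, hβInf, h1', map_zero, mul_zero]
      · rw [map_mul, hαMid, hβMid, h1, h2']
      · rw [map_mul, hαZero, hβZero, h2, map_zero, zero_mul]
    | zero => exact ⟨0, map_zero _, map_zero _, map_zero _⟩
    | add x y _ _ hx hy =>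
      obtain ⟨zx, h1, h2, h3⟩ := hx
      obtain ⟨zy, h1', h2', h3'⟩ := hy
      exact ⟨zx + zy, by rw [map_add, h1, h1', add_zero], by rw [map_add, h2, h2'],
        by rw [map_add, h3, h3', add_zero]⟩
    | smul c x _ hx =>
      obtain ⟨zx, h1, h2, h3⟩ := hx
      obtain ⟨zc, hc⟩ := hsMid c
      exact ⟨zc * zx, by rw [map_mul, h1, mul_zero], by rw [map_mul, hc, h2, smul_eq_mul],
        by rw [map_mul, h3, mul_zero]⟩
  have hZ : ∃ z : B, ρInf z = 0 ∧ ρMid z = 0 ∧ ρZero z = wZero := by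
    induction hwZero using Submodule.span_induction with
    | mem x hx =>
      obtain ⟨b, hb, b', hb', rfl⟩ := hx
      obtain ⟨z₂, h1, h2⟩ := hs₂ b hb
      obtain ⟨z₂', h1', h2'⟩ := hs₂ b' hb'
      refine ⟨α z₂ * β z₂', ?_, ?_, ?_⟩
      · rw [map_mul, hαInf, hβInf, h1, zero_mul]
      · rw [map_mul, hαMid, hβMid, h1, zero_mul]
      · rw [map_mul, hαZero, hβZero, h2, h2']
    | zero => exact ⟨0, map_zero _, map_zero _, map_zero _⟩
    | add x y _ _ hx hy =>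
      obtain ⟨zx, h1, h2, h3⟩ := hx
      obtain ⟨zy, h1', h2', h3'⟩ := hy
      exact ⟨zx + zy, by rw [map_add, h1, h1', add_zero], by rw [map_add, h2, h2', add_zero],
        by rw [map_add, h3, h3']⟩
    | smul c x _ hx =>
      obtain ⟨zx, h1, h2, h3⟩ := hx
      obtain ⟨zc, hc⟩ := hsZero c
      exact ⟨zc * zx, by rw [map_mul, h1, mul_zero], by rw [map_mul, h2, mul_zero],
        by rw [map_mul, hc, h3, smul_eq_mul]⟩
  obtain ⟨z₁, a1, a2, a3⟩ := hI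
  obtain ⟨z₂, b1, b2, b3⟩ := hM
  obtain ⟨z₃, c1, c2, c3⟩ := hZ
  refine ⟨z₁ + z₂ + z₃, ?_, ?_, ?_⟩
  · rw [map_add, map_add, a1, b1, c1, add_zero, add_zero]
  · rw [map_add, map_add, a2, b2, c2, zero_add, add_zero]
  · rw [map_add, map_add, a3, b3, c3, zero_add, zero_add]

end Conductor

end Fermat.Agent.S36lib
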