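import Mathlib
import Fermat.Agent.S36lib.GlueS
import Fermat.Agent.S36lib.Reg2

/-!
# Item 83 (S36), block CRUX, piece C-2d (helper3): GLUE-s, the forms to be instantiated

`S36lib/GlueS.lean` has the two abstract ingredients (`s36_glue_s`, `s36_conductor3`).  Here they
are combined, in three forms of increasing concreteness.  In all of them

* `α, β : B_N → B` are the two degeneracy maps, `rInf, rZero : B_N → R` the two reductions of level
  `N = M' q`, `ρInf, ρMid, ρZero : B → R` the three reductions of level `M = M' q²`, with the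
  reduction TABLE (`φ` = the `k`-linear Frobenius `x ↦ x(X^q)` of the affine ring `R` of `C'`)
  `ρ(α z) = (rInf z, rInf z, φ (rZero z))`,  `ρ(β z) = (φ (rInf z), rZero z, rZero z)`;
* the SANDWICH of level `N` (V-J): `(a, 0), (0, a) ∈ (rInf, rZero)(B_N)` for `a` vanishing at the
  nodes;
* INCIDENCE (T-1): the three reductions of every `z ∈ B` have the same values at the nodes;
* `hFr`: `x` vanishing at the nodes ⟹ `x ^ q = φ a` with `a` vanishing at the nodes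
  (`a =` coefficient Frobenius of `x`);
* the output of TOR: `sInf, sMid, sZero ∈ R` with the same values at the nodes and
  `s_v ^ m = ρ_v bE`, `bE ∈ B` a unit at the nodes, `m` invertible in `B`.

Conclusion: `∃ s ∈ B, ρInf s = sInf ∧ ρMid s = sMid ∧ ρZero s = sZero`.

* `s36_glue_s_table`   : rings, the nodes as ONE ideal `I` of `R`;
* `s36_glue_s_eval`    : rings, the nodes as a family of evaluations `e i : R → k`
                         (the shape of the conclusion of `abel_tor`);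
* `s36_glue_nodeSetup` : for two `NodeSetup`s and two `SetupMap`s, `R` a subalgebra of `κ`.
* `s36_nodes_le_of_inc`: remark: incidence + sandwich + table force the two ideals of nodes of
  level `N` (on the two components) to be comparable; so ONE ideal `I` is no restriction.
-/

set_option autoImplicit false
set_option linter.style.haveILetI false

namespace Fermat.Agent.S36lib

section Table

variable {BN B R : Type*} [CommRing BN] [CommRing B] [CommRing R]

/-- **GLUE-s, table form.**  The nodes are given by one ideal `I` of `R`. -/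
theorem s36_glue_s_table (α β : BN →+* B) (rInf rZero : BN →+* R) (ρInf ρMid ρZero : B →+* R)
    (φ : R →+* R)
    (hαInf : ∀ z, ρInf (α z) = rInf z) (hαMid : ∀ z, ρMid (α z) = rInf z)
    (hαZero : ∀ z, ρZero (α z) = φ (rZero z))
    (hβInf : ∀ z, ρInf (β z) = φ (rInf z)) (hβMid : ∀ z, ρMid (β z) = rZero z)
    (hβZero : ∀ z, ρZero (β z) = rZero z)
    (hrInf : Function.Surjective rInf) (hrZero : Function.Surjective rZero)
    (I : Ideal R)
    (hs₁ : ∀ a ∈ I, ∃ z : BN, rInf z = a ∧ rZero z = 0)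
    (hs₂ : ∀ b ∈ I, ∃ z : BN, rInf z = 0 ∧ rZero z = b)
    (q : ℕ) (hq : 0 < q) (hFr : ∀ x ∈ I, ∃ a ∈ I, φ a = x ^ q)
    (hinc : ∀ z : B, ρInf z - ρMid z ∈ I ∧ ρInf z - ρZero z ∈ I)
    (m : ℕ) (hm0 : 0 < m) (mi : B) (hmi : (m : B) * mi = 1)
    (sInf sMid sZero : R) (hIM : sInf - sMid ∈ I) (hIZ : sInf - sZero ∈ I)
    (bE bE' : B) (hInf : sInf ^ m = ρInf bE) (hMid : sMid ^ m = ρMid bE)
    (hZero : sZero ^ m = ρZero bE) (hunit : ρInf (bE * bE') - 1 ∈ I) :
    ∃ s : B, ρInf s = sInf ∧ ρMid s = sMid ∧ ρZero s = sZero := by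
  -- surjectivity of the three reductions
  have hsInf : Function.Surjective ρInf := fun r => by
    obtain ⟨w, hw⟩ := hrInf r
    exact ⟨α w, by rw [hαInf, hw]⟩
  have hsMid : Function.Surjective ρMid := fun r => by
    obtain ⟨w, hw⟩ := hrInf r
    exact ⟨α w, by rw [hαMid, hw]⟩
  have hsZero : Function.Surjective ρZero := fun r => by
    obtain ⟨w, hw⟩ := hrZero r
    exact ⟨β w, by rw [hβZero, hw]⟩
  -- the conductor and the radical
  set JInf : Ideal R := Ideal.span {x : R | ∃ a ∈ I, ∃ a' ∈ I, x = a * φ a'} with hJInf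
  set JMid : Ideal R := Ideal.span {x : R | ∃ a ∈ I, ∃ b ∈ I, x = a * b} with hJMid
  set JZero : Ideal R := Ideal.span {x : R | ∃ b ∈ I, ∃ b' ∈ I, x = φ b * b'} with hJZero
  set ρ : B →+* R × R × R := ρInf.prod (ρMid.prod ρZero) with hρ
  have hρa : ∀ z, ρ z = (ρInf z, ρMid z, ρZero z) := fun z => rfl
  set 𝔠 : Ideal (R × R × R) := Ideal.prod JInf (Ideal.prod JMid JZero) with h𝔠
  set 𝔯 : Ideal (R × R × R) := Ideal.prod I (Ideal.prod I I) with h𝔯
  have hmem𝔠 : ∀ w : R × R × R, w ∈ 𝔠 ↔ w.1 ∈ JInf ∧ w.2.1 ∈ JMid ∧ w.2.2 ∈ JZero := by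
    intro w
    rw [h𝔠, Ideal.mem_prod, Ideal.mem_prod]
  have hmem𝔯 : ∀ w : R × R × R, w ∈ 𝔯 ↔ w.1 ∈ I ∧ w.2.1 ∈ I ∧ w.2.2 ∈ I := by
    intro w
    rw [h𝔯, Ideal.mem_prod, Ideal.mem_prod]
  have hcond : ∀ w ∈ 𝔠, ∃ z : B, ρ z = w := by
    intro w hw
    obtain ⟨h1, h2, h3⟩ := (hmem𝔠 w).1 hw
    obtain ⟨z, e1, e2, e3⟩ := s36_conductor3 α β rInf rZero ρInf ρMid ρZero φ
      hαInf hαMid hαZero hβInf hβMid hβZero I I hs₁ hs₂ hsInf hsMid hsZero
      w.1 w.2.1 w.2.2 h1 h2 h3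
    refine ⟨z, ?_⟩
    rw [hρa, e1, e2, e3]
  have hpowI : ∀ x ∈ I, x ^ (q + 1) ∈ JInf ∧ x ^ (q + 1) ∈ JMid ∧ x ^ (q + 1) ∈ JZero := by
    intro x hx
    obtain ⟨a, ha, hax⟩ := hFr x hx
    refine ⟨?_, ?_, ?_⟩
    · refine Ideal.subset_span ⟨x, hx, a, ha, ?_⟩
      rw [hax, pow_succ']
    · have e : x ^ (q + 1) = x ^ (q - 1) * (x * x) := by
        rw [← pow_two, ← pow_add]
        congr 1
        omega
      rw [e]
      exact Ideal.mul_mem_left _ _ (Ideal.subset_span ⟨x, hx, x, hx, rfl⟩)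
    · refine Ideal.subset_span ⟨a, ha, x, hx, ?_⟩
      rw [hax, pow_succ]
  have hN : ∀ x ∈ 𝔯, x ^ (q + 1) ∈ 𝔠 := by
    intro x hx
    obtain ⟨h1, h2, h3⟩ := (hmem𝔯 x).1 hx
    rw [hmem𝔠]
    exact ⟨(hpowI _ h1).1, (hpowI _ h2).2.1, (hpowI _ h3).2.2⟩
  -- the data
  obtain ⟨z, hz⟩ := hsInf sInf
  have hy : ((sInf, sMid, sZero) : R × R × R) ^ m = ρ bE := by
    rw [hρa]
    refine Prod.ext ?_ (Prod.ext ?_ ?_)
    · exact hInf
    · exact hMid
    · exact hZero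
  have hun : ρ (bE * bE') - 1 ∈ 𝔯 := by
    rw [hmem𝔯, hρa]
    refine ⟨hunit, ?_, ?_⟩
    · have e : ρMid (bE * bE') - 1
          = (ρInf (bE * bE') - 1) - (ρInf (bE * bE') - ρMid (bE * bE')) := by ring
      show ρMid (bE * bE') - 1 ∈ I
      rw [e]
      exact I.sub_mem hunit (hinc _).1
    · have e : ρZero (bE * bE') - 1
          = (ρInf (bE * bE') - 1) - (ρInf (bE * bE') - ρZero (bE * bE')) := by ring
      show ρZero (bE * bE') - 1 ∈ I
      rw [e]
      exact I.sub_mem hunit (hinc _).2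
  have hzr : ((sInf, sMid, sZero) : R × R × R) - ρ z ∈ 𝔯 := by
    rw [hmem𝔯, hρa]
    refine ⟨?_, ?_, ?_⟩
    · show sInf - ρInf z ∈ I
      rw [hz, sub_self]
      exact I.zero_mem
    · show sMid - ρMid z ∈ I
      have e : sMid - ρMid z = (ρInf z - ρMid z) - (sInf - sMid) := by rw [hz]; ring
      rw [e]
      exact I.sub_mem (hinc z).1 hIM
    · show sZero - ρZero z ∈ I
      have e : sZero - ρZero z = (ρInf z - ρZero z) - (sInf - sZero) := by rw [hz]; ring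
      rw [e]
      exact I.sub_mem (hinc z).2 hIZ
  obtain ⟨s, hs⟩ := s36_glue_s ρ 𝔠 𝔯 hcond (q + 1) hN m hm0 mi hmi (sInf, sMid, sZero) bE bE'
    hy hun z hzr
  rw [hρa] at hs
  exact ⟨s, congrArg Prod.fst hs, congrArg (fun w => w.2.1) hs, congrArg (fun w => w.2.2) hs⟩

/-- Remark: incidence for the ideal `I₁`, the sandwich `(0, b)`, `b ∈ I₂`, and the table give
`I₂ ≤ I₁`. -/
theorem s36_nodes_le_of_inc (β : BN →+* B) (rInf rZero : BN →+* R) (ρInf ρMid : B →+* R)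
    (φ : R →+* R)
    (hβInf : ∀ z, ρInf (β z) = φ (rInf z)) (hβMid : ∀ z, ρMid (β z) = rZero z)
    (I₁ I₂ : Ideal R)
    (hs₂ : ∀ b ∈ I₂, ∃ z : BN, rInf z = 0 ∧ rZero z = b)
    (hinc : ∀ z : B, ρInf z - ρMid z ∈ I₁) : I₂ ≤ I₁ := by
  intro b hb
  obtain ⟨z, h1, h2⟩ := hs₂ b hb
  have h := hinc (β z)
  rw [hβInf, hβMid, h1, h2, map_zero, zero_sub] at h
  simpa using I₁.neg_mem h

/-- Remark: incidence for the ideal `I₂`, the sandwich `(a, 0)`, `a ∈ I₁`, and the table give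
`I₁ ≤ I₂`. -/
theorem s36_nodes_le_of_inc' (α : BN →+* B) (rInf rZero : BN →+* R) (ρInf ρZero : B →+* R)
    (φ : R →+* R)
    (hαInf : ∀ z, ρInf (α z) = rInf z) (hαZero : ∀ z, ρZero (α z) = φ (rZero z))
    (I₁ I₂ : Ideal R)
    (hs₁ : ∀ a ∈ I₁, ∃ z : BN, rInf z = a ∧ rZero z = 0)
    (hinc : ∀ z : B, ρInf z - ρZero z ∈ I₂) : I₁ ≤ I₂ := by
  intro a ha
  obtain ⟨z, h1, h2⟩ := hs₁ a ha
  have h := hinc (α z)
  rw [hαInf, hαZero, h1, h2, map_zero, sub_zero] at h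
  exact h

end Table

section Eval

variable {BN B R k : Type*} [CommRing BN] [CommRing B] [CommRing R] [CommRing k]
variable {ι : Type*}

/-- the ideal of the functions vanishing at all the points `e i` -/
def s36NodeIdeal (e : ι → R →+* k) : Ideal R where
  carrier := {r | ∀ i, e i r = 0}
  zero_mem' := fun i => map_zero _
  add_mem' := fun {a b} ha hb i => by rw [map_add, ha i, hb i, add_zero]
  smul_mem' := fun c {a} ha i => by rw [smul_eq_mul, map_mul, ha i, mul_zero]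

theorem mem_s36NodeIdeal (e : ι → R →+* k) (r : R) :
    r ∈ s36NodeIdeal e ↔ ∀ i, e i r = 0 := Iff.rfl

theorem sub_mem_s36NodeIdeal (e : ι → R →+* k) (r r' : R) :
    r - r' ∈ s36NodeIdeal e ↔ ∀ i, e i r = e i r' := by
  rw [mem_s36NodeIdeal]
  refine forall_congr' fun i => ?_
  rw [map_sub, sub_eq_zero]

/-- **GLUE-s, evaluation form** (the shape of the conclusion of `abel_tor`).  The nodes are the
evaluations `e i : R → k`; `bE` is a unit at the nodes in the sense of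
`NodeSetup.IsUnitAtNodes`. -/
theorem s36_glue_s_eval (α β : BN →+* B) (rInf rZero : BN →+* R) (ρInf ρMid ρZero : B →+* R)
    (φ : R →+* R)
    (hαInf : ∀ z, ρInf (α z) = rInf z) (hαMid : ∀ z, ρMid (α z) = rInf z)
    (hαZero : ∀ z, ρZero (α z) = φ (rZero z))
    (hβInf : ∀ z, ρInf (β z) = φ (rInf z)) (hβMid : ∀ z, ρMid (β z) = rZero z)
    (hβZero : ∀ z, ρZero (β z) = rZero z)
    (hrInf : Function.Surjective rInf) (hrZero : Function.Surjective rZero)
    (e : ι → R →+* k)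
    (hs₁ : ∀ a : R, (∀ i, e i a = 0) → ∃ z : BN, rInf z = a ∧ rZero z = 0)
    (hs₂ : ∀ b : R, (∀ i, e i b = 0) → ∃ z : BN, rInf z = 0 ∧ rZero z = b)
    (q : ℕ) (hq : 0 < q)
    (hFr : ∀ x : R, (∀ i, e i x = 0) → ∃ a : R, (∀ i, e i a = 0) ∧ φ a = x ^ q)
    (hinc : ∀ (z : B) (i : ι), e i (ρInf z) = e i (ρMid z) ∧ e i (ρMid z) = e i (ρZero z))
    (m : ℕ) (hm0 : 0 < m) (mi : B) (hmi : (m : B) * mi = 1)
    (sInf sMid sZero : R)
    (hgl : ∀ i, e i sInf = e i sMid ∧ e i sMid = e i sZero)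
    (bE : B) (hInf : sInf ^ m = ρInf bE) (hMid : sMid ^ m = ρMid bE)
    (hZero : sZero ^ m = ρZero bE)
    (hunit : ∃ bE' x y : B, ρInf x = 0 ∧ ρZero y = 0 ∧ bE * bE' = 1 + x + y) :
    ∃ s : B, ρInf s = sInf ∧ ρMid s = sMid ∧ ρZero s = sZero := by
  obtain ⟨bE', x, y, hx, hy, hxy⟩ := hunit
  refine s36_glue_s_table α β rInf rZero ρInf ρMid ρZero φ hαInf hαMid hαZero hβInf hβMid hβZero
    hrInf hrZero (s36NodeIdeal e) hs₁ hs₂ q hq hFr ?_ m hm0 mi hmi sInf sMid sZero ?_ ?_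
    bE bE' hInf hMid hZero ?_
  · intro z
    rw [sub_mem_s36NodeIdeal, sub_mem_s36NodeIdeal]
    exact ⟨fun i => (hinc z i).1, fun i => (hinc z i).1.trans (hinc z i).2⟩
  · rw [sub_mem_s36NodeIdeal]
    exact fun i => (hgl i).1
  · rw [sub_mem_s36NodeIdeal]
    exact fun i => (hgl i).1.trans (hgl i).2
  · have e1 : ρInf (bE * bE') - 1 = ρInf y := by
      rw [hxy, map_add, map_add, map_one, hx]
      ring
    rw [e1, mem_s36NodeIdeal]
    intro i
    rw [(hinc y i).1.trans (hinc y i).2, hy, map_zero]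

end Eval

section Node

variable {K : Type*} [Field K] {k : Type*} [Field k]
  {A : ValuationSubring K} {π : A →+* k} {κ : Type*} [Field κ] [Algebra k κ]
  {FN FM : Type*} [Field FN] [Field FM] [Algebra K FN] [Algebra K FM]
  {SN : NodeSetup A π κ FN} {SM : NodeSetup A π κ FM}
variable {ι : Type*}

/-- **GLUE-s for `NodeSetup`.**  `SN` the setup of level `N = M' q`, `SM` the setup of level
`M = M' q²`, `fα, fβ` the two degeneracy maps, `R ⊂ κ` the affine ring of `C'`, `φ` the `k`-linear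
Frobenius of `κ`, `e i : R → k` the nodes.  If `(sInf, sMid, sZero)` (the output of TOR) have the
same values at the nodes and are `m`-th roots of the three reductions of `bE ∈ B_M`, a unit at the
nodes, then they are the three reductions of ONE element `s ∈ B_M`. -/
theorem s36_glue_nodeSetup (fα fβ : SetupMap SN SM) (R : Subalgebra k κ) (φ : κ →+* κ)
    (hφR : ∀ x ∈ R, φ x ∈ R)
    (hNInf : ∀ z : SN.B, SN.redInf z ∈ R) (hNZero : ∀ z : SN.B, SN.redZero z ∈ R)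
    (hMInf : ∀ z : SM.B, SM.redInf z ∈ R) (hMMid : ∀ z : SM.B, SM.redMid z ∈ R)
    (hMZero : ∀ z : SM.B, SM.redZero z ∈ R)
    (hαInf : ∀ z, SM.redInf (fα.toB z) = SN.redInf z)
    (hαMid : ∀ z, SM.redMid (fα.toB z) = SN.redInf z)
    (hαZero : ∀ z, SM.redZero (fα.toB z) = φ (SN.redZero z))
    (hβInf : ∀ z, SM.redInf (fβ.toB z) = φ (SN.redInf z))
    (hβMid : ∀ z, SM.redMid (fβ.toB z) = SN.redZero z)
    (hβZero : ∀ z, SM.redZero (fβ.toB z) = SN.redZero z)
    (hrInf : ∀ r ∈ R, ∃ z : SN.B, SN.redInf z = r)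
    (hrZero : ∀ r ∈ R, ∃ z : SN.B, SN.redZero z = r)
    (e : ι → R →ₐ[k] k)
    (hs₁ : ∀ a : R, (∀ i, e i a = 0) → ∃ z : SN.B, SN.redInf z = a ∧ SN.redZero z = 0)
    (hs₂ : ∀ b : R, (∀ i, e i b = 0) → ∃ z : SN.B, SN.redInf z = 0 ∧ SN.redZero z = b)
    (q : ℕ) (hq : 0 < q)
    (hFr : ∀ x : R, (∀ i, e i x = 0) → ∃ a : R, (∀ i, e i a = 0) ∧ φ (a : κ) = (x : κ) ^ q)
    (hinc : ∀ (z : SM.B) (i : ι),
      e i ⟨SM.redInf z, hMInf z⟩ = e i ⟨SM.redMid z, hMMid z⟩ ∧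
      e i ⟨SM.redMid z, hMMid z⟩ = e i ⟨SM.redZero z, hMZero z⟩)
    (m : ℕ) (hm0 : 0 < m) (mi : SM.B) (hmi : (m : SM.B) * mi = 1)
    (sInf sMid sZero : R)
    (hgl : ∀ i, e i sInf = e i sMid ∧ e i sMid = e i sZero)
    (bE : SM.B) (hInf : (sInf : κ) ^ m = SM.redInf bE) (hMid : (sMid : κ) ^ m = SM.redMid bE)
    (hZero : (sZero : κ) ^ m = SM.redZero bE) (hunit : SM.IsUnitAtNodes bE) :
    ∃ s : SM.B, SM.redInf s = sInf ∧ SM.redMid s = sMid ∧ SM.redZero s = sZero := by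
  -- the maps with values in `R`
  let rI : SN.B →+* R := SN.redInf.codRestrict R hNInf
  let rZ : SN.B →+* R := SN.redZero.codRestrict R hNZero
  let ρI : SM.B →+* R := SM.redInf.codRestrict R hMInf
  let ρM : SM.B →+* R := SM.redMid.codRestrict R hMMid
  let ρZ : SM.B →+* R := SM.redZero.codRestrict R hMZero
  let φR : R →+* R := (φ.comp R.toSubring.subtype).codRestrict R fun x => hφR x x.2
  have hsub : ∀ a b : R, (a : κ) = (b : κ) → a = b := fun a b h => Subtype.ext h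
  obtain ⟨bE', x, y, hx, hy, hxy⟩ := hunit
  obtain ⟨s, h1, h2, h3⟩ := s36_glue_s_eval (k := k) fα.toB fβ.toB rI rZ ρI ρM ρZ φR
    (fun z => hsub _ _ (hαInf z)) (fun z => hsub _ _ (hαMid z)) (fun z => hsub _ _ (hαZero z))
    (fun z => hsub _ _ (hβInf z)) (fun z => hsub _ _ (hβMid z)) (fun z => hsub _ _ (hβZero z))
    (fun r => by
      obtain ⟨z, hz⟩ := hrInf r r.2
      exact ⟨z, hsub _ _ hz⟩)
    (fun r => by
      obtain ⟨z, hz⟩ := hrZero r r.2
      exact ⟨z, hsub _ _ hz⟩)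
    (fun i => (e i).toRingHom)
    (fun a ha => by
      obtain ⟨z, hz1, hz2⟩ := hs₁ a ha
      exact ⟨z, hsub _ _ hz1, hsub _ _ hz2⟩)
    (fun b hb => by
      obtain ⟨z, hz1, hz2⟩ := hs₂ b hb
      exact ⟨z, hsub _ _ hz1, hsub _ _ hz2⟩)
    q hq
    (fun x hx => by
      obtain ⟨a, ha, hax⟩ := hFr x hx
      exact ⟨a, ha, hsub _ _ hax⟩)
    (fun z i => hinc z i) m hm0 mi hmi sInf sMid sZero hgl bE
    (hsub _ _ hInf) (hsub _ _ hMid) (hsub _ _ hZero)
    ⟨bE', x, y, hsub _ _ hx, hsub _ _ hy, hxy⟩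
  exact ⟨s, congrArg Subtype.val h1, congrArg Subtype.val h2, congrArg Subtype.val h3⟩

end Node

end Fermat.Agent.S36lib
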