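import Mathlib
import Fermat.Agent.S36lib.GlueSNode

/-!
# Item 83 (S36), block CRUX, piece C-2d (helper3): GLUE-s applied to the conclusion of TOR

`abel_tor` (`S36lib/Tor.lean`) gives, for `b ∈ B_M` a unit at the nodes, constants
`cInf, cMid, cZero ∈ k` and `sInf, sMid, sZero ∈ R` with `red_v(b) ^ E = c_v • s_v ^ m` and
`e i sInf = e i sMid = e i sZero ≠ 0` at every node.  Here:

* `s36_tor_const_eq`        : the three constants are equal (one node is enough);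
* `gs_isUnitAtNodes_mul`, `_pow`, `_constB` : units at the nodes;
* `s36_glue_tor`            : `∃ c ∈ A, s ∈ B_M` with `red_v s = s_v`, `π c ≠ 0` and
                              `b ^ E − c · s ^ m ∈ p_∞ ∩ p_mid ∩ p_0` (`= rad (ϖ B_M)`);
* `s36_glue_tor_root`       : if the constants of `k` have `m`-th roots, the constant is absorbed:
                              `b ^ E − s ^ m ∈ p_∞ ∩ p_mid ∩ p_0`, `s` a unit at the nodes.
-/

set_option autoImplicit false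
set_option linter.style.haveILetI false

namespace Fermat.Agent.S36lib

section Units

variable {K : Type*} [Field K] {k : Type*} [Field k]
  {A : ValuationSubring K} {π : A →+* k} {κ : Type*} [Field κ] [Algebra k κ]
  {F : Type*} [Field F] [Algebra K F] (S : NodeSetup A π κ F)

theorem gs_isUnitAtNodes_mul {z w : S.B} (hz : S.IsUnitAtNodes z)
    (hw : S.IsUnitAtNodes w) : S.IsUnitAtNodes (z * w) := by
  refine S.isUnitAtNodes_of_notMem fun t ht hmem => ?_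
  rcases ht.1.isPrime.mem_or_mem hmem with h | h
  · exact hz.notMem S ht h
  · exact hw.notMem S ht h

theorem gs_isUnitAtNodes_one : S.IsUnitAtNodes (1 : S.B) :=
  ⟨1, 0, 0, S.pInf.zero_mem, S.pZero.zero_mem, by ring⟩

theorem gs_isUnitAtNodes_pow {z : S.B} (hz : S.IsUnitAtNodes z) (n : ℕ) :
    S.IsUnitAtNodes (z ^ n) := by
  induction n with
  | zero => rw [pow_zero]; exact gs_isUnitAtNodes_one S
  | succ n ih => rw [pow_succ]; exact gs_isUnitAtNodes_mul S ih hz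

/-- a constant with nonzero reduction, whose reduction has an inverse which lifts, is a unit at
the nodes -/
theorem gs_isUnitAtNodes_constB (c c' : A) (h : π c * π c' = 1) :
    S.IsUnitAtNodes (S.constB c) := by
  refine ⟨S.constB c', S.constB c * S.constB c' - 1, 0, ?_, S.pZero.zero_mem, by ring⟩
  show S.redInf (S.constB c * S.constB c' - 1) = 0
  rw [map_sub, map_mul, S.redInf_constB, S.redInf_constB, map_one, ← map_mul, h, map_one,
    sub_self]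

/-- an element with nonzero values of its (glued) reduction at the nodes: the three reductions
of a unit at the nodes do not vanish -/
theorem gs_redInf_ne_zero_of_isUnitAtNodes {z : S.B} (hz : S.IsUnitAtNodes z)
    (hne : ∃ t : Ideal S.B, S.IsNode t) : S.redInf z ≠ 0 := by
  obtain ⟨t, ht⟩ := hne
  intro h0
  exact hz.notMem S ht (ht.2 (Ideal.mem_sup_left h0))

end Units

section Const

variable {k κ : Type*} [Field k] [Field κ] [Algebra k κ] {R : Subalgebra k κ}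

/-- **the constants of TOR are equal.**  If `r₁ ^ E = c₁ • s₁ ^ m`, `r₂ ^ E = c₂ • s₂ ^ m` and at
one point `e`: `e r₁ = e r₂`, `e s₁ = e s₂ ≠ 0`, then `c₁ = c₂`. -/
theorem s36_tor_const_eq (e : R →ₐ[k] k) (E m : ℕ) (r₁ r₂ s₁ s₂ : R) (c₁ c₂ : k)
    (h₁ : (r₁ : κ) ^ E = c₁ • (s₁ : κ) ^ m) (h₂ : (r₂ : κ) ^ E = c₂ • (s₂ : κ) ^ m)
    (hr : e r₁ = e r₂) (hs : e s₁ = e s₂) (hs0 : e s₁ ≠ 0) : c₁ = c₂ := by
  have e₁ : r₁ ^ E = c₁ • s₁ ^ m := Subtype.ext (by simpa using h₁)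
  have e₂ : r₂ ^ E = c₂ • s₂ ^ m := Subtype.ext (by simpa using h₂)
  have a₁ := congrArg e e₁
  have a₂ := congrArg e e₂
  rw [map_pow, map_smul, map_pow, smul_eq_mul] at a₁ a₂
  rw [← hr, ← hs, a₁] at a₂
  exact mul_right_cancel₀ (pow_ne_zero m hs0) a₂

end Const

section Main

variable {K : Type*} [Field K] {k : Type*} [Field k]
  {A : ValuationSubring K} {π : A →+* k} {κ : Type*} [Field κ] [Algebra k κ]
  {FN FM : Type*} [Field FN] [Field FM] [Algebra K FN] [Algebra K FM]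
  {SN : NodeSetup A π κ FN} {SM : NodeSetup A π κ FM}
variable {ι : Type*}

/-- **GLUE-s after TOR.**  From the conclusion of `abel_tor` for `b ∈ B_M`, a unit at the
nodes: there are a constant `c ∈ A` with `π c ≠ 0` and `s ∈ B_M` with the three reductions
`sInf, sMid, sZero`, such that `b ^ E ≡ c · s ^ m` modulo `p_∞ ∩ p_mid ∩ p_0`. -/
theorem s36_glue_tor (fα fβ : SetupMap SN SM) (R : Subalgebra k κ) (φ : κ →+* κ)
    (hφR : ∀ x ∈ R, φ x ∈ R)
    (hNInf : ∀ z : SN.B, SN.redInf z ∈ R) (hNZero : ∀ z : SN.B, SN.redZero z ∈ R)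
    (hMInf : ∀ z : SM.B, SM.redInf z ∈ R) (hMMid : ∀ z : SM.B, SM.redMid z ∈ R)
    (hMZero : ∀ z : SM.B, SM.redZero z ∈ R)
    (hαInf : ∀ z, SM.redInf (fα.toB z) = SN.redInf z)
    (hαMid : ∀ z, SM.redMid (fα.toB z) = SN.redInf z)
    (hαZero : ∀ z, SM.redZero (fα.toB z) = φ (SN.redZero z))
    (hβInf : ∀ z, SM.redInf (fβ.toB z) = φ (SN.redInf z))
    (hβMid : ∀ z, SM.redMid (fβ.toB z) = SN.redZero z)
    (hβZero : ∀ z, SM.redZero (fβ.toB z) = SN.redZero z)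
    (hrInf : ∀ r ∈ R, ∃ z : SN.B, SN.redInf z = r)
    (hrZero : ∀ r ∈ R, ∃ z : SN.B, SN.redZero z = r)
    [Nonempty ι] (e : ι → R →ₐ[k] k)
    (hs₁ : ∀ a : R, (∀ i, e i a = 0) → ∃ z : SN.B, SN.redInf z = a ∧ SN.redZero z = 0)
    (hs₂ : ∀ b : R, (∀ i, e i b = 0) → ∃ z : SN.B, SN.redInf z = 0 ∧ SN.redZero z = b)
    (q : ℕ) (hq : 0 < q)
    (hFr : ∀ x : R, (∀ i, e i x = 0) → ∃ a : R, (∀ i, e i a = 0) ∧ φ (a : κ) = (x : κ) ^ q)
    (hinc : ∀ (z : SM.B) (i : ι),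
      e i ⟨SM.redInf z, hMInf z⟩ = e i ⟨SM.redMid z, hMMid z⟩ ∧
      e i ⟨SM.redMid z, hMMid z⟩ = e i ⟨SM.redZero z, hMZero z⟩)
    (hπ : Function.Surjective π)
    (m : ℕ) (hm0 : 0 < m) (mi : SM.B) (hmi : (m : SM.B) * mi = 1)
    (b : SM.B) (hb : SM.IsUnitAtNodes b) (E : ℕ)
    (cInf cMid cZero : k) (hcInf : cInf ≠ 0) (sInf sMid sZero : R)
    (hI : SM.redInf b ^ E = cInf • (sInf : κ) ^ m)
    (hM : SM.redMid b ^ E = cMid • (sMid : κ) ^ m)
    (hZ : SM.redZero b ^ E = cZero • (sZero : κ) ^ m)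
    (hgl : ∀ i, e i sInf ≠ 0 ∧ e i sInf = e i sMid ∧ e i sMid = e i sZero) :
    ∃ (c : A) (s : SM.B), π c = cInf ∧ SM.redInf s = sInf ∧ SM.redMid s = sMid ∧
      SM.redZero s = sZero ∧ b ^ E - SM.constB c * s ^ m ∈ SM.pInf ⊓ SM.pMid ⊓ SM.pZero := by
  obtain ⟨i₀⟩ := ‹Nonempty ι›
  -- the constants are equal
  have hcM : cInf = cMid :=
    s36_tor_const_eq (e i₀) E m ⟨SM.redInf b, hMInf b⟩ ⟨SM.redMid b, hMMid b⟩ sInf sMid cInf cMid
      hI hM (hinc b i₀).1 (hgl i₀).2.1 (hgl i₀).1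
  have hcZ : cInf = cZero :=
    s36_tor_const_eq (e i₀) E m ⟨SM.redInf b, hMInf b⟩ ⟨SM.redZero b, hMZero b⟩ sInf sZero cInf
      cZero hI hZ ((hinc b i₀).1.trans (hinc b i₀).2) ((hgl i₀).2.1.trans (hgl i₀).2.2) (hgl i₀).1
  rw [← hcM] at hM
  rw [← hcZ] at hZ
  -- lifts of the constant and of its inverse
  obtain ⟨c, hc⟩ := hπ cInf
  obtain ⟨c', hc'⟩ := hπ cInf⁻¹
  have hcc' : π c' * π c = 1 := by rw [hc, hc', inv_mul_cancel₀ hcInf]
  have hk : algebraMap k κ cInf⁻¹ * algebraMap k κ cInf = 1 := by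
    rw [← map_mul, inv_mul_cancel₀ hcInf, map_one]
  -- the element `bE`
  set bE : SM.B := b ^ E * SM.constB c' with hbE
  have hbEu : SM.IsUnitAtNodes bE :=
    gs_isUnitAtNodes_mul SM (gs_isUnitAtNodes_pow SM hb E) (gs_isUnitAtNodes_constB SM c' c hcc')
  have hE1 : (sInf : κ) ^ m = SM.redInf bE := by
    rw [hbE, map_mul, map_pow, hI, SM.redInf_constB, hc', Algebra.smul_def, mul_comm _ (_ ^ m),
      mul_assoc, mul_comm (algebraMap k κ cInf), hk, mul_one]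
  have hE2 : (sMid : κ) ^ m = SM.redMid bE := by
    rw [hbE, map_mul, map_pow, hM, SM.redMid_constB, hc', Algebra.smul_def, mul_comm _ (_ ^ m),
      mul_assoc, mul_comm (algebraMap k κ cInf), hk, mul_one]
  have hE3 : (sZero : κ) ^ m = SM.redZero bE := by
    rw [hbE, map_mul, map_pow, hZ, SM.redZero_constB, hc', Algebra.smul_def, mul_comm _ (_ ^ m),
      mul_assoc, mul_comm (algebraMap k κ cInf), hk, mul_one]
  obtain ⟨s, h1, h2, h3⟩ := s36_glue_nodeSetup fα fβ R φ hφR hNInf hNZero hMInf hMMid hMZero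
    hαInf hαMid hαZero hβInf hβMid hβZero hrInf hrZero e hs₁ hs₂ q hq hFr hinc m hm0 mi hmi
    sInf sMid sZero (fun i => (hgl i).2) bE hE1 hE2 hE3 hbEu
  refine ⟨c, s, hc, h1, h2, h3, ⟨⟨?_, ?_⟩, ?_⟩⟩
  · show SM.redInf (b ^ E - SM.constB c * s ^ m) = 0
    rw [map_sub, map_mul, map_pow, map_pow, hI, SM.redInf_constB, hc, h1, Algebra.smul_def,
      sub_self]
  · show SM.redMid (b ^ E - SM.constB c * s ^ m) = 0
    rw [map_sub, map_mul, map_pow, map_pow, hM, SM.redMid_constB, hc, h2, Algebra.smul_def,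
      sub_self]
  · show SM.redZero (b ^ E - SM.constB c * s ^ m) = 0
    rw [map_sub, map_mul, map_pow, map_pow, hZ, SM.redZero_constB, hc, h3, Algebra.smul_def,
      sub_self]

/-- **GLUE-s after TOR, constant absorbed.**  If the constants of `k` have `m`-th roots
(`k` algebraically closed): `∃ s ∈ B_M`, a unit at the nodes, with
`b ^ E ≡ s ^ m` modulo `p_∞ ∩ p_mid ∩ p_0`. -/
theorem s36_glue_tor_root (fα fβ : SetupMap SN SM) (R : Subalgebra k κ) (φ : κ →+* κ)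
    (hφR : ∀ x ∈ R, φ x ∈ R)
    (hNInf : ∀ z : SN.B, SN.redInf z ∈ R) (hNZero : ∀ z : SN.B, SN.redZero z ∈ R)
    (hMInf : ∀ z : SM.B, SM.redInf z ∈ R) (hMMid : ∀ z : SM.B, SM.redMid z ∈ R)
    (hMZero : ∀ z : SM.B, SM.redZero z ∈ R)
    (hαInf : ∀ z, SM.redInf (fα.toB z) = SN.redInf z)
    (hαMid : ∀ z, SM.redMid (fα.toB z) = SN.redInf z)
    (hαZero : ∀ z, SM.redZero (fα.toB z) = φ (SN.redZero z))
    (hβInf : ∀ z, SM.redInf (fβ.toB z) = φ (SN.redInf z))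
    (hβMid : ∀ z, SM.redMid (fβ.toB z) = SN.redZero z)
    (hβZero : ∀ z, SM.redZero (fβ.toB z) = SN.redZero z)
    (hrInf : ∀ r ∈ R, ∃ z : SN.B, SN.redInf z = r)
    (hrZero : ∀ r ∈ R, ∃ z : SN.B, SN.redZero z = r)
    [Nonempty ι] (e : ι → R →ₐ[k] k)
    (hs₁ : ∀ a : R, (∀ i, e i a = 0) → ∃ z : SN.B, SN.redInf z = a ∧ SN.redZero z = 0)
    (hs₂ : ∀ b : R, (∀ i, e i b = 0) → ∃ z : SN.B, SN.redInf z = 0 ∧ SN.redZero z = b)
    (q : ℕ) (hq : 0 < q)
    (hFr : ∀ x : R, (∀ i, e i x = 0) → ∃ a : R, (∀ i, e i a = 0) ∧ φ (a : κ) = (x : κ) ^ q)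
    (hinc : ∀ (z : SM.B) (i : ι),
      e i ⟨SM.redInf z, hMInf z⟩ = e i ⟨SM.redMid z, hMMid z⟩ ∧
      e i ⟨SM.redMid z, hMMid z⟩ = e i ⟨SM.redZero z, hMZero z⟩)
    (hπ : Function.Surjective π)
    (m : ℕ) (hm0 : 0 < m) (mi : SM.B) (hmi : (m : SM.B) * mi = 1)
    (hroot : ∀ c : k, ∃ d : k, d ^ m = c)
    (b : SM.B) (hb : SM.IsUnitAtNodes b) (E : ℕ)
    (cInf cMid cZero : k) (hcInf : cInf ≠ 0) (sInf sMid sZero : R)
    (hI : SM.redInf b ^ E = cInf • (sInf : κ) ^ m)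
    (hM : SM.redMid b ^ E = cMid • (sMid : κ) ^ m)
    (hZ : SM.redZero b ^ E = cZero • (sZero : κ) ^ m)
    (hgl : ∀ i, e i sInf ≠ 0 ∧ e i sInf = e i sMid ∧ e i sMid = e i sZero) :
    ∃ s : SM.B, SM.IsUnitAtNodes s ∧ b ^ E - s ^ m ∈ SM.pInf ⊓ SM.pMid ⊓ SM.pZero := by
  obtain ⟨c, s, hc, h1, h2, h3, hmem⟩ := s36_glue_tor fα fβ R φ hφR hNInf hNZero hMInf hMMid
    hMZero hαInf hαMid hαZero hβInf hβMid hβZero hrInf hrZero e hs₁ hs₂ q hq hFr hinc hπ m hm0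
    mi hmi b hb E cInf cMid cZero hcInf sInf sMid sZero hI hM hZ hgl
  obtain ⟨d, hd⟩ := hroot cInf
  have hd0 : d ≠ 0 := by
    rintro rfl
    rw [zero_pow hm0.ne'] at hd
    exact hcInf hd.symm
  obtain ⟨d₁, hd₁⟩ := hπ d
  obtain ⟨d₂, hd₂⟩ := hπ d⁻¹
  have hdd : π d₁ * π d₂ = 1 := by rw [hd₁, hd₂, mul_inv_cancel₀ hd0]
  -- `b ^ E` is a unit at the nodes, so `s` is
  have hsu : SM.IsUnitAtNodes s := by
    refine SM.isUnitAtNodes_of_notMem fun t ht hst => ?_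
    have h1' : b ^ E - SM.constB c * s ^ m ∈ t :=
      ht.2 (Ideal.mem_sup_left hmem.1.1)
    have h2' : SM.constB c * s ^ m ∈ t :=
      t.mul_mem_left _ (t.pow_mem_of_mem hst m hm0)
    have h3' : b ^ E ∈ t := by
      have := t.add_mem h1' h2'
      rwa [sub_add_cancel] at this
    exact (gs_isUnitAtNodes_pow SM hb E).notMem SM ht h3'
  refine ⟨SM.constB d₁ * s, gs_isUnitAtNodes_mul SM (gs_isUnitAtNodes_constB SM d₁ d₂ hdd) hsu, ?_⟩
  have hcd : SM.constB c - SM.constB d₁ ^ m ∈ SM.pInf ⊓ SM.pMid ⊓ SM.pZero := by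
    refine ⟨⟨?_, ?_⟩, ?_⟩
    · show SM.redInf (SM.constB c - SM.constB d₁ ^ m) = 0
      rw [map_sub, map_pow, SM.redInf_constB, SM.redInf_constB, hc, hd₁, ← map_pow, hd, sub_self]
    · show SM.redMid (SM.constB c - SM.constB d₁ ^ m) = 0
      rw [map_sub, map_pow, SM.redMid_constB, SM.redMid_constB, hc, hd₁, ← map_pow, hd, sub_self]
    · show SM.redZero (SM.constB c - SM.constB d₁ ^ m) = 0
      rw [map_sub, map_pow, SM.redZero_constB, SM.redZero_constB, hc, hd₁, ← map_pow, hd,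
        sub_self]
  have e1 : b ^ E - (SM.constB d₁ * s) ^ m
      = (b ^ E - SM.constB c * s ^ m) + (SM.constB c - SM.constB d₁ ^ m) * s ^ m := by ring
  rw [e1]
  exact Ideal.add_mem _ hmem (Ideal.mul_mem_right _ _ hcd)

end Main

end Fermat.Agent.S36lib
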