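import Mathlib
import Fermat.Agent.S36lib.GlueSTor

/-!
# Item 83 (S36), block CRUX, piece C-2d (helper3): GLUE-s, adapter for the level-`N` hypotheses

The hypotheses `hs₁, hs₂, hFr, hrInf, hrZero` of `s36_glue_nodeSetup` / `s36_glue_tor` follow from
the level-`N` facts in the form in which S34 / V-J / TorConc state them:

* `hglue` : every glued pair lifts: `(∀ i, e i r₁ = e' i r₂) → ∃ z ∈ B_N, red z = (r₁, r₂)`
            (`GlueData.glue`, `⇐`, over `A₀`);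
* `hgl'`  : the swapped gluing `e' i (redInf y) = e i (redZero y)` (from `w_q`);
* `he, he'` : `e i r = e' i (φ r)`, `e' i r = e i (φ r)` (`graphs_glueData_frobK`);
* `hφFr, hFre` : the coefficient Frobenius `Fr`: `φ (Fr x) = x ^ q`, `e' i (Fr r) = (e i r) ^ q`.

* `s36_glue_adapt`      : abstract form;
* `s36_glue_tor_adapt`  : `s36_glue_tor_root` with these hypotheses.
-/

set_option autoImplicit false
set_option linter.style.haveILetI false

namespace Fermat.Agent.S36lib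

section Abstract

variable {BN R k : Type*} [CommRing BN] [CommRing R] [CommRing k]
variable {ι : Type*}

/-- the level-`N` hypotheses of GLUE-s from the gluing at level `N` -/
theorem s36_glue_adapt (rInf rZero : BN →+* R) (e e' : ι → R →+* k)
    (hglue : ∀ r₁ r₂ : R, (∀ i, e i r₁ = e' i r₂) → ∃ z : BN, rInf z = r₁ ∧ rZero z = r₂)
    (hgl' : ∀ (y : BN) (i : ι), e' i (rInf y) = e i (rZero y))
    (φ Fr : R → R) (q : ℕ) (hq : 0 < q) (hφFr : ∀ x, φ (Fr x) = x ^ q)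
    (hFre : ∀ i r, e' i (Fr r) = e i r ^ q)
    (he : ∀ i r, e i r = e' i (φ r)) (he' : ∀ i r, e' i r = e i (φ r)) :
    (∀ a : R, (∀ i, e i a = 0) → ∃ z : BN, rInf z = a ∧ rZero z = 0) ∧
    (∀ b : R, (∀ i, e i b = 0) → ∃ z : BN, rInf z = 0 ∧ rZero z = b) ∧
    (∀ x : R, (∀ i, e i x = 0) → ∃ a : R, (∀ i, e i a = 0) ∧ φ a = x ^ q) ∧
    Function.Surjective rInf ∧ Function.Surjective rZero ∧
    (∀ a : R, (∀ i, e i a = 0) ↔ (∀ i, e' i a = 0)) := by
  have h12 : ∀ a : R, (∀ i, e i a = 0) → ∀ i, e' i a = 0 := by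
    intro a ha i
    obtain ⟨z, hz1, hz2⟩ := hglue a 0 fun i => by rw [ha i, map_zero]
    have := hgl' z i
    rwa [hz1, hz2, map_zero] at this
  have h21 : ∀ b : R, (∀ i, e' i b = 0) → ∀ i, e i b = 0 := by
    intro b hb i
    obtain ⟨z, hz1, hz2⟩ := hglue 0 b fun i => by rw [hb i, map_zero]
    have := hgl' z i
    rw [hz1, hz2, map_zero] at this
    exact this.symm
  refine ⟨?_, ?_, ?_, ?_, ?_, fun a => ⟨h12 a, h21 a⟩⟩
  · intro a ha
    exact hglue a 0 fun i => by rw [ha i, map_zero]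
  · intro b hb
    exact hglue 0 b fun i => by rw [h12 b hb i, map_zero]
  · intro x hx
    refine ⟨Fr x, h21 _ fun i => ?_, hφFr x⟩
    rw [hFre, hx i, zero_pow hq.ne']
  · intro r
    obtain ⟨z, hz, -⟩ := hglue r (φ r) fun i => he i r
    exact ⟨z, hz⟩
  · intro r
    obtain ⟨z, -, hz⟩ := hglue (φ r) r fun i => (he' i r).symm
    exact ⟨z, hz⟩

end Abstract

section Node

variable {K : Type*} [Field K] {k : Type*} [Field k]
  {A : ValuationSubring K} {π : A →+* k} {κ : Type*} [Field κ] [Algebra k κ]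
  {FN FM : Type*} [Field FN] [Field FM] [Algebra K FN] [Algebra K FM]
  {SN : NodeSetup A π κ FN} {SM : NodeSetup A π κ FM}
variable {ι : Type*}

/-- **GLUE-s after TOR, with the level-`N` hypotheses in the form of S34 / V-J.**
`φ` the `k`-linear Frobenius of `κ`, `Fr` the coefficient Frobenius, `e, e'` the nodes of level `N`
on the two components; `hglue` the sandwich (every glued pair lifts to `B_N`), `hgl'` the swapped
gluing.  Conclusion: `∃ s ∈ B_M`, a unit at the nodes, with `b ^ E ≡ s ^ m` modulo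
`p_∞ ∩ p_mid ∩ p_0`. -/
theorem s36_glue_tor_adapt (fα fβ : SetupMap SN SM) (R : Subalgebra k κ) (φ Fr : κ →+* κ)
    (hφR : ∀ x ∈ R, φ x ∈ R) (hFrR : ∀ x ∈ R, Fr x ∈ R)
    (hNInf : ∀ z : SN.B, SN.redInf z ∈ R) (hNZero : ∀ z : SN.B, SN.redZero z ∈ R)
    (hMInf : ∀ z : SM.B, SM.redInf z ∈ R) (hMMid : ∀ z : SM.B, SM.redMid z ∈ R)
    (hMZero : ∀ z : SM.B, SM.redZero z ∈ R)
    (hαInf : ∀ z, SM.redInf (fα.toB z) = SN.redInf z)
    (hαMid : ∀ z, SM.redMid (fα.toB z) = SN.redInf z)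
    (hαZero : ∀ z, SM.redZero (fα.toB z) = φ (SN.redZero z))
    (hβInf : ∀ z, SM.redInf (fβ.toB z) = φ (SN.redInf z))
    (hβMid : ∀ z, SM.redMid (fβ.toB z) = SN.redZero z)
    (hβZero : ∀ z, SM.redZero (fβ.toB z) = SN.redZero z)
    [Nonempty ι] (e e' : ι → R →ₐ[k] k)
    (hglue : ∀ r₁ r₂ : R, (∀ i, e i r₁ = e' i r₂) →
      ∃ z : SN.B, SN.redInf z = r₁ ∧ SN.redZero z = r₂)
    (hgl' : ∀ (y : SN.B) (i : ι), e' i ⟨SN.redInf y, hNInf y⟩ = e i ⟨SN.redZero y, hNZero y⟩)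
    (q : ℕ) (hq : 0 < q) (hφFr : ∀ x : κ, φ (Fr x) = x ^ q)
    (hFre : ∀ i (r : R), e' i ⟨Fr r, hFrR r r.2⟩ = e i r ^ q)
    (he : ∀ i (r : R), e i r = e' i ⟨φ r, hφR r r.2⟩)
    (he' : ∀ i (r : R), e' i r = e i ⟨φ r, hφR r r.2⟩)
    (hinc : ∀ (z : SM.B) (i : ι),
      e i ⟨SM.redInf z, hMInf z⟩ = e i ⟨SM.redMid z, hMMid z⟩ ∧
      e i ⟨SM.redMid z, hMMid z⟩ = e i ⟨SM.redZero z, hMZero z⟩)
    (hπ : Function.Surjective π)
    (m : ℕ) (hm0 : 0 < m) (mi : SM.B) (hmi : (m : SM.B) * mi = 1)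
    (hroot : ∀ c : k, ∃ d : k, d ^ m = c)
    (b : SM.B) (hb : SM.IsUnitAtNodes b) (E : ℕ)
    (cInf cMid cZero : k) (hcInf : cInf ≠ 0) (sInf sMid sZero : R)
    (hI : SM.redInf b ^ E = cInf • (sInf : κ) ^ m)
    (hM : SM.redMid b ^ E = cMid • (sMid : κ) ^ m)
    (hZ : SM.redZero b ^ E = cZero • (sZero : κ) ^ m)
    (hgl : ∀ i, e i sInf ≠ 0 ∧ e i sInf = e i sMid ∧ e i sMid = e i sZero) :
    ∃ s : SM.B, SM.IsUnitAtNodes s ∧ b ^ E - s ^ m ∈ SM.pInf ⊓ SM.pMid ⊓ SM.pZero := by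
  let rI : SN.B →+* R := SN.redInf.codRestrict R hNInf
  let rZ : SN.B →+* R := SN.redZero.codRestrict R hNZero
  have hsub : ∀ a b : R, (a : κ) = (b : κ) → a = b := fun a b h => Subtype.ext h
  obtain ⟨hs₁, hs₂, hFr, hrInf, hrZero, -⟩ := s36_glue_adapt rI rZ
    (fun i => (e i).toRingHom) (fun i => (e' i).toRingHom)
    (fun r₁ r₂ h => by
      obtain ⟨z, h1, h2⟩ := hglue r₁ r₂ h
      exact ⟨z, hsub _ _ h1, hsub _ _ h2⟩)
    (fun y i => hgl' y i)
    (fun r => ⟨φ r, hφR r r.2⟩) (fun r => ⟨Fr r, hFrR r r.2⟩) q hq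
    (fun x => hsub _ _ (hφFr x)) (fun i r => hFre i r) (fun i r => he i r) (fun i r => he' i r)
  exact s36_glue_tor_root fα fβ R φ hφR hNInf hNZero hMInf hMMid hMZero hαInf hαMid hαZero
    hβInf hβMid hβZero
    (fun r hr => by
      obtain ⟨z, hz⟩ := hrInf ⟨r, hr⟩
      exact ⟨z, congrArg Subtype.val hz⟩)
    (fun r hr => by
      obtain ⟨z, hz⟩ := hrZero ⟨r, hr⟩
      exact ⟨z, congrArg Subtype.val hz⟩)
    e
    (fun a ha => by
      obtain ⟨z, h1, h2⟩ := hs₁ a ha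
      exact ⟨z, congrArg Subtype.val h1, congrArg Subtype.val h2⟩)
    (fun b hb => by
      obtain ⟨z, h1, h2⟩ := hs₂ b hb
      exact ⟨z, congrArg Subtype.val h1, congrArg Subtype.val h2⟩)
    q hq
    (fun x hx => by
      obtain ⟨a, ha, hax⟩ := hFr x hx
      exact ⟨a, ha, congrArg Subtype.val hax⟩)
    hinc hπ m hm0 mi hmi hroot b hb E cInf cMid cZero hcInf sInf sMid sZero hI hM hZ hgl

end Node

end Fermat.Agent.S36lib
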