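import Mathlib
import Fermat.Agent.S36lib.GlueSAdapt
import Fermat.Agent.S36lib.TorConc
import Fermat.Agent.S36lib.RedMem

/-!
# Item 83 (S36), block CRUX (helper3): the HEAD of the crux = ABEL + TOR + GLUE-s in one theorem

`SN`, `SM` the setups of level `N = M' q`, `M = M' q²`; `fα, fβ : SetupMap SN SM`;
`Nα, Nβ : B_M → B_N` the two norms; `R ⊆ κ` the affine ring; `e, e'` the nodes of level `N`;
`φ` the `k`-linear Frobenius and `Fr` the coefficient Frobenius of `κ`.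

* `s36_he'_of_frob`  : `e' i r = e i (φ r)` from `e' i (Fr r) = (e i r)^q`, `φ ∘ Fr = (·)^q`;
* `s36_he_of_swap`   : `e i r = e' i (φ r)` from the sandwich and the swapped gluing;
* `s36_crux_head`    : for `b ∈ B_M`, a unit at the nodes, whose two norms are constants times
  `m`-th powers (`hyα`, `hyβ`: output of (A2) / `tor_root_normalise`):
  `∃ s ∈ B_M`, a unit at the nodes, with `b ^ ((q−1)(q+1)) − s ^ m ∈ p_∞ ∩ p_mid ∩ p_0`,
  i.e. `red_v (b ^ E) = (red_v s) ^ m` for the three `v` — the input `(x, s)` of `s36_h1_apply`.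
  The hypotheses `hMInf, hMMid, hMZero` are derived (RED-MEM) from `hNInf, hNZero`, the integrality
  of `fα` and `R` integrally closed.
-/

set_option autoImplicit false
set_option linter.style.haveILetI false

namespace Fermat.Agent.S36lib

section Frob

variable {k κ : Type*} [Field k] [Field κ] [Algebra k κ] {R : Subalgebra k κ} {ι : Type*}

/-- `e' i r = e i (φ r)` from the two Frobenius relations -/
theorem s36_he'_of_frob (e e' : ι → R →ₐ[k] k) (φ : κ →+* κ) (Fr : κ ≃+* κ)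
    (hφR : ∀ x ∈ R, φ x ∈ R) (hFrR : ∀ x : κ, Fr x ∈ R ↔ x ∈ R) (q : ℕ)
    (hφFr : ∀ x : κ, φ (Fr x) = x ^ q)
    (hFre : ∀ i (r : R) (h : Fr (r : κ) ∈ R), e' i ⟨Fr (r : κ), h⟩ = e i r ^ q)
    (i : ι) (r : R) : e' i r = e i ⟨φ r, hφR r r.2⟩ := by
  have hmem : Fr.symm (r : κ) ∈ R := (hFrR _).1 (by rw [Fr.apply_symm_apply]; exact r.2)
  have h1 := hFre i ⟨Fr.symm (r : κ), hmem⟩ (by
    show Fr (Fr.symm (r : κ)) ∈ R
    rw [Fr.apply_symm_apply]; exact r.2)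
  have e1 : (⟨Fr ((⟨Fr.symm (r : κ), hmem⟩ : R) : κ), by
      show Fr (Fr.symm (r : κ)) ∈ R
      rw [Fr.apply_symm_apply]; exact r.2⟩ : R) = r :=
    Subtype.ext (Fr.apply_symm_apply _)
  rw [e1] at h1
  rw [h1, ← map_pow]
  congr 1
  apply Subtype.ext
  show (Fr.symm (r : κ)) ^ q = φ (r : κ)
  rw [← hφFr, Fr.apply_symm_apply]

end Frob

section Main

variable {K : Type*} [Field K] {k : Type*} [Field k]
  {A : ValuationSubring K} {π : A →+* k} {κ : Type*} [Field κ] [Algebra k κ]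
  {FN FM : Type*} [Field FN] [Field FM] [Algebra K FN] [Algebra K FM]
  {SN : NodeSetup A π κ FN} {SM : NodeSetup A π κ FM}
variable {ι : Type*}

/-- `e i r = e' i (φ r)` from `e' i r = e i (φ r)`, the sandwich and the swapped gluing -/
theorem s36_he_of_swap (R : Subalgebra k κ) (φ : κ →+* κ) (hφR : ∀ x ∈ R, φ x ∈ R)
    (hNInf : ∀ z : SN.B, SN.redInf z ∈ R) (hNZero : ∀ z : SN.B, SN.redZero z ∈ R)
    (e e' : ι → R →ₐ[k] k)
    (hglue : ∀ r₁ r₂ : R, (∀ i, e i r₁ = e' i r₂) →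
      ∃ z : SN.B, SN.redInf z = r₁ ∧ SN.redZero z = r₂)
    (hgl' : ∀ (y : SN.B) (i : ι), e' i ⟨SN.redInf y, hNInf y⟩ = e i ⟨SN.redZero y, hNZero y⟩)
    (he' : ∀ i (r : R), e' i r = e i ⟨φ r, hφR r r.2⟩)
    (i : ι) (r : R) : e i r = e' i ⟨φ r, hφR r r.2⟩ := by
  obtain ⟨z, hz1, hz2⟩ := hglue ⟨φ r, hφR r r.2⟩ r fun j => (he' j r).symm
  have h := hgl' z i
  have e1 : (⟨SN.redInf z, hNInf z⟩ : R) = ⟨φ r, hφR r r.2⟩ := Subtype.ext hz1
  have e2 : (⟨SN.redZero z, hNZero z⟩ : R) = r := Subtype.ext hz2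
  rw [e1, e2] at h
  exact h.symm

/-- **the HEAD of the crux: ABEL + TOR + GLUE-s.** -/
theorem s36_crux_head (fα fβ : SetupMap SN SM) (hαint : fα.toB.IsIntegral)
    (R : Subalgebra k κ) (hRic : ∀ x : κ, IsIntegral R x → x ∈ R)
    (hcl : TorClosed k R) (m q : ℕ) (hm : 0 < m) (hq : 2 ≤ q) [Nonempty ι]
    (hπ : Function.Surjective π)
    (φ : κ →+* κ) (hφR : ∀ x ∈ R, φ x ∈ R)
    (hNInf : ∀ z : SN.B, SN.redInf z ∈ R) (hNZero : ∀ z : SN.B, SN.redZero z ∈ R)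
    -- the reduction table of `α`, `β`
    (tαInf : ∀ z, SM.redInf (fα.toB z) = SN.redInf z)
    (tαMid : ∀ z, SM.redMid (fα.toB z) = SN.redInf z)
    (tαZero : ∀ z, SM.redZero (fα.toB z) = φ (SN.redZero z))
    (tβInf : ∀ z, SM.redInf (fβ.toB z) = φ (SN.redInf z))
    (tβMid : ∀ z, SM.redMid (fβ.toB z) = SN.redZero z)
    (tβZero : ∀ z, SM.redZero (fβ.toB z) = SN.redZero z)
    -- the nodes of level `N` and the Frobenius
    (e e' : ι → R →ₐ[k] k) (Fr : κ ≃+* κ)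
    (hFrR : ∀ x : κ, Fr x ∈ R ↔ x ∈ R)
    (hFrk : ∀ c : k, ∃ c' : k, Fr (algebraMap k κ c') = algebraMap k κ c)
    (hFre : ∀ i (r : R) (h : Fr (r : κ) ∈ R), e' i ⟨Fr (r : κ), h⟩ = e i r ^ q)
    (hφFr : ∀ x : κ, φ (Fr x) = x ^ q)
    (hglue : ∀ r₁ r₂ : R, (∀ i, e i r₁ = e' i r₂) →
      ∃ z : SN.B, SN.redInf z = r₁ ∧ SN.redZero z = r₂)
    (hgl : ∀ (y : SN.B) (i : ι), e i ⟨SN.redInf y, hNInf y⟩ = e' i ⟨SN.redZero y, hNZero y⟩)
    (hgl' : ∀ (y : SN.B) (i : ι), e' i ⟨SN.redInf y, hNInf y⟩ = e i ⟨SN.redZero y, hNZero y⟩)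
    -- the norm table
    (Nα Nβ : SM.B → SN.B)
    (nαInf : ∀ z, SN.redInf (Nα z) = SM.redInf z * SM.redMid z ^ (q - 1))
    (nαZero : ∀ z, SN.redZero (Nα z) = Fr (SM.redZero z))
    (nβInf : ∀ z, SN.redInf (Nβ z) = Fr (SM.redInf z))
    (nβZero : ∀ z, SN.redZero (Nβ z) = SM.redMid z ^ (q - 1) * SM.redZero z)
    (mi : SM.B) (hmi : (m : SM.B) * mi = 1) (hroot : ∀ c : k, ∃ d : k, d ^ m = c)
    (b : SM.B) (hb : SM.IsUnitAtNodes b)
    (cα cβ : A) (hcα : π cα ≠ 0) (hcβ : π cβ ≠ 0) (yα yβ : SN.B)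
    (hyα : Nα b = SN.constB cα * yα ^ m) (hyβ : Nβ b = SN.constB cβ * yβ ^ m) :
    ∃ s : SM.B, SM.IsUnitAtNodes s ∧
      b ^ ((q - 1) * (q + 1)) - s ^ m ∈ SM.pInf ⊓ SM.pMid ⊓ SM.pZero := by
  obtain ⟨hMInf, hMMid, hMZero⟩ := s36_redMem_nodeSetup fα hαint R hRic φ hφR hNInf hNZero
    tαInf tαMid tαZero
  have hinc := tor_nodeSetup_inc (SN := SN) (SM := SM) R q hq hπ hNInf hNZero hMInf hMMid hMZero
    e e' Fr hFre hgl Nα nαInf nαZero
  obtain ⟨cInf, cMid, cZero, sInf, sMid, sZero, hcInf, -, -, hI, hM, hZ, hgls⟩ :=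
    tor_nodeSetup (SN := SN) (SM := SM) R hcl m q hm hq hπ hNInf hNZero hMInf hMMid hMZero e e'
      Fr hFrR hFrk hFre hgl hgl' Nα Nβ nαInf nαZero nβInf nβZero b hb cα cβ hcα hcβ yα yβ hyα hyβ
  have he' := s36_he'_of_frob e e' φ Fr hφR hFrR q hφFr hFre
  have he := s36_he_of_swap (SN := SN) R φ hφR hNInf hNZero e e' hglue hgl' he'
  exact s36_glue_tor_adapt fα fβ R φ Fr.toRingHom hφR (fun x hx => (hFrR x).2 hx)
    hNInf hNZero hMInf hMMid hMZero tαInf tαMid tαZero tβInf tβMid tβZero e e' hglue hgl' q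
    (by omega) hφFr (fun i r => hFre i r ((hFrR _).2 r.2)) he he' hinc hπ m hm mi hmi hroot b hb
    ((q - 1) * (q + 1)) cInf cMid cZero hcInf sInf sMid sZero hI hM hZ hgls

end Main

end Fermat.Agent.S36lib
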