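/-
Item 83 (S36), CRUX HEAD (helper26): **a node containing `p_mid`** (the hypothesis `hnode` of
`s36_hhead` / `s36_hhead_final_of_tor`, and the input "one node containing `p_mid`" of `hh0`)
from the TOR incidence alone.

If the three reductions of every `z ∈ B` have the same value at one evaluation `e : R →ₐ[k] k`
(`hinc`, = the conclusion of `tor_nodeSetup_inc` at one index), then `ker (e ∘ red_∞)` is a
maximal ideal of `B` containing `p_∞`, `p_mid` and `p_0`.  No INC, no transfer, no Dedekind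
hypothesis is needed.  No sorry.
-/
import Mathlib
import Fermat.Agent.S36lib.Setup
import Fermat.Agent.S36lib.TorConc

set_option autoImplicit false
set_option linter.style.haveILetI false
set_option linter.unusedSectionVars false

noncomputable section

namespace Fermat.Agent.S36lib

variable {K : Type*} [Field K] {k : Type*} [Field k]
  {A : ValuationSubring K} {π : A →+* k} {κ : Type*} [Field κ] [Algebra k κ]
  {F : Type*} [Field F] [Algebra K F]

/-- **the node of an evaluation**: the kernel of `e ∘ red_∞` is a node containing `p_mid`. -/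
theorem s36_hnode_of_inc (S : NodeSetup A π κ F) (hπ : Function.Surjective π)
    (R : Subalgebra k κ)
    (hMInf : ∀ z : S.B, S.redInf z ∈ R) (hMMid : ∀ z : S.B, S.redMid z ∈ R)
    (hMZero : ∀ z : S.B, S.redZero z ∈ R) (e : R →ₐ[k] k)
    (hinc : ∀ z : S.B, e ⟨S.redInf z, hMInf z⟩ = e ⟨S.redMid z, hMMid z⟩ ∧
      e ⟨S.redMid z, hMMid z⟩ = e ⟨S.redZero z, hMZero z⟩) :
    ∃ t : Ideal S.B, S.IsNode t ∧ S.pMid ≤ t ∧
      ∀ z : S.B, z ∈ t ↔ e ⟨S.redInf z, hMInf z⟩ = 0 := by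
  let ρ : S.B →+* R := S.redInf.codRestrict R.toSubring hMInf
  have hρ : ∀ z, ρ z = ⟨S.redInf z, hMInf z⟩ := fun z => rfl
  let f : S.B →+* k := (e : R →+* k).comp ρ
  have hf : ∀ z, f z = e ⟨S.redInf z, hMInf z⟩ := fun z => rfl
  have hsurj : Function.Surjective f := by
    intro c
    obtain ⟨a, rfl⟩ := hπ c
    refine ⟨S.constB a, ?_⟩
    rw [hf]
    have : (⟨S.redInf (S.constB a), hMInf (S.constB a)⟩ : R) = algebraMap k R (π a) :=
      Subtype.ext (S.redInf_constB a)
    rw [this, AlgHom.commutes]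
    rfl
  refine ⟨RingHom.ker f, ⟨RingHom.ker_isMaximal_of_surjective f hsurj, sup_le ?_ ?_⟩, ?_,
    fun z => by rw [RingHom.mem_ker, hf]⟩
  · intro z hz
    rw [RingHom.mem_ker, hf]
    have hz0 : S.redInf z = 0 := hz
    have : (⟨S.redInf z, hMInf z⟩ : R) = 0 := Subtype.ext hz0
    rw [this, map_zero]
  · intro z hz
    rw [RingHom.mem_ker, hf, (hinc z).1, (hinc z).2]
    have hz0 : S.redZero z = 0 := hz
    have : (⟨S.redZero z, hMZero z⟩ : R) = 0 := Subtype.ext hz0
    rw [this, map_zero]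
  · intro z hz
    rw [RingHom.mem_ker, hf, (hinc z).1]
    have hz0 : S.redMid z = 0 := hz
    have : (⟨S.redMid z, hMMid z⟩ : R) = 0 := Subtype.ext hz0
    rw [this, map_zero]

variable {FN : Type*} [Field FN] [Algebra K FN]
  {SN : NodeSetup A π κ FN} {SM : NodeSetup A π κ F} {ι : Type*}

/-- **`hnode` from the TOR data** (the hypotheses of `tor_nodeSetup_inc`): for every index `i`
the kernel of `e i ∘ red_∞` is a node of level `M` containing `p_mid`. -/
theorem s36_hnode_of_tor (R : Subalgebra k κ) (q : ℕ) (hq : 2 ≤ q)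
    (hπ : Function.Surjective π)
    (hNInf : ∀ z : SN.B, SN.redInf z ∈ R) (hNZero : ∀ z : SN.B, SN.redZero z ∈ R)
    (hMInf : ∀ z : SM.B, SM.redInf z ∈ R) (hMMid : ∀ z : SM.B, SM.redMid z ∈ R)
    (hMZero : ∀ z : SM.B, SM.redZero z ∈ R)
    (e e' : ι → R →ₐ[k] k) (Fr : κ ≃+* κ)
    (hFre : ∀ i (r : R) (h : Fr (r : κ) ∈ R), e' i ⟨Fr (r : κ), h⟩ = e i r ^ q)
    (hgl : ∀ (y : SN.B) (i : ι), e i ⟨SN.redInf y, hNInf y⟩ = e' i ⟨SN.redZero y, hNZero y⟩)
    (Nα : SM.B → SN.B)
    (hαInf : ∀ z, SN.redInf (Nα z) = SM.redInf z * SM.redMid z ^ (q - 1))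
    (hαZero : ∀ z, SN.redZero (Nα z) = Fr (SM.redZero z))
    (i : ι) :
    ∃ t : Ideal SM.B, SM.IsNode t ∧ SM.pMid ≤ t ∧
      ∀ z : SM.B, z ∈ t ↔ e i ⟨SM.redInf z, hMInf z⟩ = 0 :=
  s36_hnode_of_inc SM hπ R hMInf hMMid hMZero (e i)
    (fun z => tor_nodeSetup_inc (SN := SN) (SM := SM) R q hq hπ hNInf hNZero hMInf hMMid hMZero
      e e' Fr hFre hgl Nα hαInf hαZero z i)

end Fermat.Agent.S36lib

end
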