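import Mathlib
import Fermat.Agent.S36lib.Reg2
import Fermat.Agent.S36lib.SetupK0
import Fermat.Agent.HeckeBar.ModDeg
import Fermat.Agent.HeckeBar.BaseChange
import Fermat.Agent.S34lib.LiftInfCusp

/-!
# Item 83 (S36), piece R-3, concrete part 1 (helper9): `α`, `β` as maps of setups

For `φ : FF N →ₐ[ℚ̄] FF M` (`φ = inclBar` or `qpowBar`, in particular `α`, `β` at the level `q²`):

* `r2m_f0Field_map` / `r2m_inclBar_mem_f0Field`, `r2m_qpowBar_mem_f0Field` : `φ` maps the function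
  field `F0(N)` over `K0` into `F0(M)`;
* `r2m_cuspRegular_map` / `r2m_inclBar_mem_cuspRegular`, `r2m_qpowBar_mem_cuspRegular` : `φ` maps
  functions regular off the cusps to functions regular off the cusps;
* `r2mF0 : F0(N) →+* F0(M)`, the restriction;
* `r2mSetupMap` : the `SetupMap` between `nodeSetupK0` at level `N` (`vMid := vInf`) and
  `nodeSetupK0` at level `M`, from the table of the valuations (hypotheses `hvInf`, `hvZero`, `hvMid`).
-/

set_option autoImplicit false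
set_option linter.style.haveILetI false
set_option linter.unusedSectionVars false

noncomputable section

namespace Fermat.Agent.S36lib

open ModularCurve AlgebraicCurve
open Fermat.Agent.S24lib Fermat.Agent.S34lib Fermat.Agent.HeckeBar Fermat.Agent.GoodRed

variable (A : ValuationSubring Kbar)

section F0

variable {N M : ℕ} [NeZero N] [NeZero M]

/-- a `ℚ̄`-algebra homomorphism mapping the generators `j_d` into `F0(M)` maps `F0(N)` into
`F0(M)` -/
theorem r2m_f0Field_map (φ : FF N →ₐ[Kbar] FF M)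
    (hgen : ∀ x ∈ f0Gens N, φ x ∈ f0Field A M) :
    ∀ x ∈ f0Field A N, φ x ∈ f0Field A M := by
  have hle : f0Field A N ≤ (f0Field A M).comap (φ.restrictScalars (k0Field A)) := by
    unfold f0Field
    rw [IntermediateField.adjoin_le_iff]
    intro x hx
    exact hgen x hx
  intro x hx
  exact hle hx

theorem r2m_inclBar_mem_f0Field (h : N ∣ M) :
    ∀ x ∈ f0Field A N, inclBar N M h x ∈ f0Field A M := by
  apply r2m_f0Field_map
  rintro x ⟨d, hd, hne, rfl⟩
  rw [inclBar_jdF]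
  exact jdF_mem_f0Field A M d (hd.trans h)

theorem r2m_qpowBar_mem_f0Field (d : ℕ) [NeZero d] (h : N * d ∣ M) :
    ∀ x ∈ f0Field A N, qpowBar N M d h x ∈ f0Field A M := by
  apply r2m_f0Field_map
  rintro x ⟨e, he, hne, rfl⟩
  haveI : NeZero (d * e) := ⟨Nat.mul_ne_zero (NeZero.ne d) (NeZero.ne e)⟩
  rw [qpowBar_jdF]
  exact jdF_mem_f0Field A M (d * e) _

end F0

section Cusp

variable {N M : ℕ} [NeZero N] [NeZero M]

/-- a finite map under which `j` stays regular maps `cuspRegular` to `cuspRegular` -/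
theorem r2m_cuspRegular_map (φ : FF N →ₐ[Kbar] FF M) (hφ : φ.toRingHom.IsIntegral)
    (hj : ∀ P : Place Kbar (FF M), jF M ∈ P.toValuationSubring →
      φ (jF N) ∈ P.toValuationSubring) :
    ∀ x ∈ cuspRegular N, φ x ∈ cuspRegular M := by
  intro x hx
  rw [mem_cuspRegular_iff] at hx ⊢
  intro P hP
  have h1 : jF N ∈ (P.restrictAlong φ hφ).toValuationSubring :=
    (mem_restrictAlong_iff φ hφ P (jF N)).2 (hj P hP)
  exact (mem_restrictAlong_iff φ hφ P x).1 (hx (P.restrictAlong φ hφ) h1)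

theorem r2m_inclBar_mem_cuspRegular (h : N ∣ M) :
    ∀ x ∈ cuspRegular N, inclBar N M h x ∈ cuspRegular M := by
  apply r2m_cuspRegular_map _ (isIntegral_inclBar N M h)
  intro P hP
  rw [inclBar_jF]
  exact hP

theorem r2m_qpowBar_mem_cuspRegular (d : ℕ) [NeZero d] (h : N * d ∣ M) :
    ∀ x ∈ cuspRegular N, qpowBar N M d h x ∈ cuspRegular M := by
  apply r2m_cuspRegular_map _ (isIntegral_qpowBar N M d h)
  intro P hP
  rw [qpowBar_jF]
  exact ffMem_of_ord_nonneg P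
    (liftInf_ord_jdF_nonneg P (ffOrd_nonneg_of_mem P hP) d _)

end Cusp

section Maps

variable {N M : ℕ} [NeZero N] [NeZero M]

/-- the restriction `F0(N) → F0(M)` of a map `FF N → FF M` preserving `F0` -/
def r2mF0 (φ : FF N →ₐ[Kbar] FF M) (hφF : ∀ x ∈ f0Field A N, φ x ∈ f0Field A M) :
    f0Field A N →+* f0Field A M where
  toFun x := ⟨φ (x : FF N), hφF (x : FF N) x.2⟩
  map_one' := Subtype.ext (map_one φ)
  map_mul' x y := Subtype.ext (map_mul φ (x : FF N) (y : FF N))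
  map_zero' := Subtype.ext (map_zero φ)
  map_add' x y := Subtype.ext (map_add φ (x : FF N) (y : FF N))

@[simp] theorem coe_r2mF0 (φ : FF N →ₐ[Kbar] FF M)
    (hφF : ∀ x ∈ f0Field A N, φ x ∈ f0Field A M) (x : f0Field A N) :
    ((r2mF0 A φ hφF x : f0Field A M) : FF M) = φ (x : FF N) := rfl

variable {κ : Type*} [Field κ] [Algebra (IsLocalRing.ResidueField A) κ]

/-- **`α`, `β` as maps of setups.**  `φ : FF N → FF M` preserving `F0` and `cuspRegular`, with
`v_∞^M` over `v_∞^N`, `v_0^M` over `v_0^N`, and `φ (O_∞^N ∩ O_0^N) ⊆ O_mid^M`. -/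
def r2mSetupMap (φ : FF N →ₐ[Kbar] FF M)
    (hφF : ∀ x ∈ f0Field A N, φ x ∈ f0Field A M)
    (hφc : ∀ x ∈ cuspRegular N, φ x ∈ cuspRegular M)
    (vInfN vZeroN : ResVal A (IsLocalRing.residue A) κ (FF N))
    (vInfM vMidM vZeroM : ResVal A (IsLocalRing.residue A) κ (FF M))
    (hInfN : ∀ w : κ, ∃ (x : FF N) (hx : x ∈ vInfN.O), x ∈ f0Field A N ∧ vInfN.red ⟨x, hx⟩ = w)
    (hZeroN : ∀ w : κ, ∃ (x : FF N) (hx : x ∈ vZeroN.O),
      x ∈ f0Field A N ∧ vZeroN.red ⟨x, hx⟩ = w)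
    (hInfM : ∀ w : κ, ∃ (x : FF M) (hx : x ∈ vInfM.O), x ∈ f0Field A M ∧ vInfM.red ⟨x, hx⟩ = w)
    (hMidM : ∀ w : κ, ∃ (x : FF M) (hx : x ∈ vMidM.O), x ∈ f0Field A M ∧ vMidM.red ⟨x, hx⟩ = w)
    (hZeroM : ∀ w : κ, ∃ (x : FF M) (hx : x ∈ vZeroM.O),
      x ∈ f0Field A M ∧ vZeroM.red ⟨x, hx⟩ = w)
    (hvInf : ∀ x : FF N, φ x ∈ vInfM.O ↔ x ∈ vInfN.O)
    (hvZero : ∀ x : FF N, φ x ∈ vZeroM.O ↔ x ∈ vZeroN.O)
    (hvMid : ∀ x : FF N, x ∈ vInfN.O → x ∈ vZeroN.O → φ x ∈ vMidM.O) :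
    SetupMap (nodeSetupK0 A vInfN vInfN vZeroN hInfN hInfN hZeroN)
      (nodeSetupK0 A vInfM vMidM vZeroM hInfM hMidM hZeroM) where
  φ := r2mF0 A φ hφF
  map_B := by
    intro x hx
    have hx' := (mem_f0Aff_iff A N _ _ _ x).1 hx
    exact (mem_f0Aff_iff A M _ _ _ _).2
      ⟨hφc _ hx'.1, (hvInf _).2 hx'.2.1, hvMid _ hx'.2.1 hx'.2.2.2, (hvZero _).2 hx'.2.2.2⟩
  inf_iff := fun x => hvInf (x : FF N)
  zero_iff := fun x => hvZero (x : FF N)

end Maps

end Fermat.Agent.S36lib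

end
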