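import Mathlib
import Fermat.Agent.S36lib.Reg2
import Fermat.Agent.S36lib.Reg2Maps
import Fermat.Agent.S36lib.SetupD1
import Fermat.Agent.S36lib.InvertSetup
import Fermat.Agent.S36lib.VNoethK0
import Fermat.Agent.S36lib.NodesFinite

/-!
# Item 83 (S36), piece R-3, concrete part 2 (helper9): REG2 for the setups `nodeSetupSeriesD`

* `r2cSetupMap` : the `SetupMap` between two `nodeSetupSeriesD` (levels `N`, `M`, affine rings
  `B_{D_N}`, `B_{D_M}`) from a map `φ : FF N → FF M` preserving `F0`, with `φ (offRegular D_N) ⊆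
  offRegular D_M` and the table of the valuations; `r2c_offRegular_cusps` : the case of `B_j`
  (`D` = all cusps);
* `SetupMap.not_pInf_le_pZero`, `SetupMap.not_pZero_le_pInf` : `hne` at level `M` from level `N`;
* `r2c_isIntegrallyClosed` : a subring of a field which is closed under integral elements and has
  the field as fraction field is integrally closed; `r2c_f0AffD_closed`, the case of `B_D`;
* `r2c_isIntegral_toB` : `hmax` from integrality over a ring mapping to `B_N`;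
* `r2c_hdiv` : the hypothesis `hdiv` of `reg2_hufd_zero` for `nodeSetupSeriesD`, from valuations;
* `r2c_hufd_zero` : **REG2 ⇒ hufd** for `nodeSetupSeriesD`, all hypotheses explicit.
-/

set_option autoImplicit false
set_option linter.style.haveILetI false
set_option linter.unusedSectionVars false
set_option synthInstance.maxHeartbeats 400000

noncomputable section

namespace Fermat.Agent.S36lib

open ModularCurve AlgebraicCurve
open Fermat.Agent.S24lib Fermat.Agent.S34lib Fermat.Agent.HeckeBar Fermat.Agent.GoodRed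

section Abstract

variable {K : Type*} [Field K] {k : Type*} [Field k]
  {A : ValuationSubring K} {π : A →+* k} {κ : Type*} [Field κ] [Algebra k κ]
  {FN FM : Type*} [Field FN] [Field FM] [Algebra K FN] [Algebra K FM]
  {SN : NodeSetup A π κ FN} {SM : NodeSetup A π κ FM}

/-- `hne` at level `M` from level `N` -/
theorem SetupMap.not_pInf_le_pZero (f : SetupMap SN SM) (h : ¬ SN.pInf ≤ SN.pZero) :
    ¬ SM.pInf ≤ SM.pZero := by
  intro hle
  apply h
  rw [← f.comap_pInf, ← f.comap_pZero]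
  exact Ideal.comap_mono hle

/-- `hne` at level `M` from level `N` -/
theorem SetupMap.not_pZero_le_pInf (f : SetupMap SN SM) (h : ¬ SN.pZero ≤ SN.pInf) :
    ¬ SM.pZero ≤ SM.pInf := by
  intro hle
  apply h
  rw [← f.comap_pInf, ← f.comap_pZero]
  exact Ideal.comap_mono hle

/-- `hmax` from integrality over a ring `R` mapping to `B_N` -/
theorem r2c_isIntegral_toB (f : SetupMap SN SM) {R : Type*} [CommRing R] (g : R →+* SN.B)
    (hint : ∀ x : SM.B, (f.toB.comp g).IsIntegralElem x) : f.toB.IsIntegral := by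
  intro x
  obtain ⟨p, hp, hpx⟩ := hint x
  refine ⟨p.map g, hp.map g, ?_⟩
  rw [Polynomial.eval₂_map]
  exact hpx

/-- `hmax` from integrality over a ring `R` mapping to `B_N` -/
theorem r2c_hmax (f : SetupMap SN SM) {R : Type*} [CommRing R] (g : R →+* SN.B)
    (hint : ∀ x : SM.B, (f.toB.comp g).IsIntegralElem x)
    (t : Ideal SM.B) (ht : t.IsMaximal) : (t.comap f.toB).IsMaximal :=
  f.comap_isMaximal_of_isIntegral (r2c_isIntegral_toB f g hint) t ht

/-- **`hdiv` for `p_0` from valuations**, for a `NodeSetup` with `B = R₀ ∩ O_∞ ∩ O_mid ∩ O_0`: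
`p_0 ⊆ ϖ O_0`, `g ∈ B` nonzero with `g⁻¹ ∈ R₀, O_∞, O_mid` and `ϖ ^ e g⁻¹ ∈ O_0`.  Then
`p_0 ^ e ≤ (g)`. -/
theorem NodeSetup.r2c_hdiv_zero (S : NodeSetup A π κ FM) (R₀ : Subring FM)
    (hB : ∀ x : FM, x ∈ S.B ↔ x ∈ R₀ ∧ x ∈ S.vInf.O ∧ x ∈ S.vMid.O ∧ x ∈ S.vZero.O)
    (ϖ : FM) (hϖ : ϖ ≠ 0) (hp : ∀ z ∈ S.vZero.O.nonunits, z * ϖ⁻¹ ∈ S.vZero.O)
    (e : ℕ) (g : S.B) (hg0 : g ≠ 0) (hgR : (g : FM)⁻¹ ∈ R₀) (hgInf : (g : FM)⁻¹ ∈ S.vInf.O)
    (hgMid : (g : FM)⁻¹ ∈ S.vMid.O) (hg : ϖ ^ e * (g : FM)⁻¹ ∈ S.vZero.O) :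
    S.pZero ^ e ≤ Ideal.span {g} :=
  reg2_hdiv S.B R₀ S.vInf.O S.vMid.O S.vZero.O hB ϖ hϖ S.pZero
    (fun z hz => hp _ ((S.mem_pZero_iff z).1 hz)) e g hg0 hgR hgInf hgMid hg

/-- **`hdiv` for `p_∞` from valuations**. -/
theorem NodeSetup.r2c_hdiv_inf (S : NodeSetup A π κ FM) (R₀ : Subring FM)
    (hB : ∀ x : FM, x ∈ S.B ↔ x ∈ R₀ ∧ x ∈ S.vInf.O ∧ x ∈ S.vMid.O ∧ x ∈ S.vZero.O)
    (ϖ : FM) (hϖ : ϖ ≠ 0) (hp : ∀ z ∈ S.vInf.O.nonunits, z * ϖ⁻¹ ∈ S.vInf.O)
    (e : ℕ) (g : S.B) (hg0 : g ≠ 0) (hgR : (g : FM)⁻¹ ∈ R₀) (hgZero : (g : FM)⁻¹ ∈ S.vZero.O)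
    (hgMid : (g : FM)⁻¹ ∈ S.vMid.O) (hg : ϖ ^ e * (g : FM)⁻¹ ∈ S.vInf.O) :
    S.pInf ^ e ≤ Ideal.span {g} :=
  reg2_hdiv S.B R₀ S.vZero.O S.vMid.O S.vInf.O
    (fun x => by rw [hB x]; tauto) ϖ hϖ S.pInf
    (fun z hz => hp _ ((S.mem_pInf_iff z).1 hz)) e g hg0 hgR hgZero hgMid hg

/-- a prime of `B` containing `p_∞ + p_0` is maximal, if `B ⧸ p_∞` is a Dedekind domain and
`p_0 ⊄ p_∞` -/
theorem NodeSetup.r2c_isMaximal_of_sup_le (S : NodeSetup A π κ FM)
    [IsDedekindDomain (S.B ⧸ S.pInf)] (hne : ¬ S.pZero ≤ S.pInf)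
    (s : Ideal S.B) [hs : s.IsPrime] (hle : S.pInf ⊔ S.pZero ≤ s) : s.IsMaximal := by
  have hsurj : Function.Surjective (Ideal.Quotient.mk S.pInf) := Ideal.Quotient.mk_surjective
  have hker : RingHom.ker (Ideal.Quotient.mk S.pInf) ≤ s := by
    rw [Ideal.mk_ker]
    exact le_sup_left.trans hle
  have hQ : (s.map (Ideal.Quotient.mk S.pInf)).IsPrime :=
    Ideal.map_isPrime_of_surjective hsurj hker
  have hcomap : (s.map (Ideal.Quotient.mk S.pInf)).comap (Ideal.Quotient.mk S.pInf) = s := by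
    rw [Ideal.comap_map_of_surjective _ hsurj, ← RingHom.ker_eq_comap_bot]
    exact sup_eq_left.2 hker
  have hQ0 : s.map (Ideal.Quotient.mk S.pInf) ≠ ⊥ := by
    intro h0
    apply hne
    intro y hy
    have h1 : Ideal.Quotient.mk S.pInf y ∈ s.map (Ideal.Quotient.mk S.pInf) :=
      Ideal.mem_map_of_mem _ (hle (Ideal.mem_sup_right hy))
    rw [h0, Ideal.mem_bot, Ideal.Quotient.eq_zero_iff_mem] at h1
    exact h1
  have hQmax : (s.map (Ideal.Quotient.mk S.pInf)).IsMaximal := hQ.isMaximal hQ0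
  rw [← hcomap]
  exact Ideal.comap_isMaximal_of_surjective _ hsurj

/-- the nodes of level `M` lie over the nodes of level `N` (no integrality needed: `B_N ⧸ p_∞`
is a Dedekind domain) -/
theorem SetupMap.r2c_isNode_comap (f : SetupMap SN SM) [IsDedekindDomain (SN.B ⧸ SN.pInf)]
    (hne : ¬ SN.pZero ≤ SN.pInf) {t : Ideal SM.B} (ht : SM.IsNode t) :
    SN.IsNode (t.comap f.toB) := by
  haveI : t.IsPrime := ht.1.isPrime
  have hle : SN.pInf ⊔ SN.pZero ≤ t.comap f.toB := by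
    refine sup_le ?_ ?_
    · intro x hx
      rw [Ideal.mem_comap]
      exact ht.2 (Ideal.mem_sup_left ((f.mem_pInf_iff x).2 hx))
    · intro x hx
      rw [Ideal.mem_comap]
      exact ht.2 (Ideal.mem_sup_right ((f.mem_pZero_iff x).2 hx))
  exact ⟨SN.r2c_isMaximal_of_sup_le hne _ hle, hle⟩

/-- **`red_∞(B_M) = red_∞(B_N)`**: if `red_∞ ∘ f = red_∞` on `B_N`, `B_M` is integral over
`f(B_N)` and `red_∞(B_N)` is integrally closed in `κ`. -/
theorem SetupMap.r2c_redInf_range_eq (f : SetupMap SN SM)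
    (hred : ∀ x : SN.B, SM.redInf (f.toB x) = SN.redInf x) (hint : f.toB.IsIntegral)
    (hcl : ∀ c : κ, IsIntegral SN.redInf.range c → c ∈ SN.redInf.range) :
    SM.redInf.range = SN.redInf.range := by
  apply le_antisymm
  · rintro c ⟨y, rfl⟩
    apply hcl
    obtain ⟨p, hp, hpy⟩ := hint y
    refine ⟨p.map SN.redInf.rangeRestrict, hp.map _, ?_⟩
    rw [Polynomial.eval₂_map]
    have hcomp : (algebraMap SN.redInf.range κ).comp SN.redInf.rangeRestrict =
        SM.redInf.comp f.toB := by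
      ext x
      exact (hred x).symm
    rw [hcomp, ← Polynomial.hom_eval₂, hpy, map_zero]
  · rintro c ⟨x, rfl⟩
    exact ⟨f.toB x, hred x⟩

/-- the same for `red_0` -/
theorem SetupMap.r2c_redZero_range_eq (f : SetupMap SN SM)
    (hred : ∀ x : SN.B, SM.redZero (f.toB x) = SN.redZero x) (hint : f.toB.IsIntegral)
    (hcl : ∀ c : κ, IsIntegral SN.redZero.range c → c ∈ SN.redZero.range) :
    SM.redZero.range = SN.redZero.range := by
  apply le_antisymm
  · rintro c ⟨y, rfl⟩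
    apply hcl
    obtain ⟨p, hp, hpy⟩ := hint y
    refine ⟨p.map SN.redZero.rangeRestrict, hp.map _, ?_⟩
    rw [Polynomial.eval₂_map]
    have hcomp : (algebraMap SN.redZero.range κ).comp SN.redZero.rangeRestrict =
        SM.redZero.comp f.toB := by
      ext x
      exact (hred x).symm
    rw [hcomp, ← Polynomial.hom_eval₂, hpy, map_zero]
  · rintro c ⟨x, rfl⟩
    exact ⟨f.toB x, hred x⟩

/-- **`B_M ⧸ p_∞` is a Dedekind domain**, from level `N` -/
theorem SetupMap.r2c_isDedekindDomain_redInf (f : SetupMap SN SM)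
    (hred : ∀ x : SN.B, SM.redInf (f.toB x) = SN.redInf x) (hint : f.toB.IsIntegral)
    [hN : IsDedekindDomain SN.redInf.range]
    (hcl : ∀ c : κ, IsIntegral SN.redInf.range c → c ∈ SN.redInf.range) :
    IsDedekindDomain SM.redInf.range := by
  rw [f.r2c_redInf_range_eq hred hint hcl]
  exact hN

/-- **`B_M ⧸ p_0` is a Dedekind domain**, from level `N` -/
theorem SetupMap.r2c_isDedekindDomain_redZero (f : SetupMap SN SM)
    (hred : ∀ x : SN.B, SM.redZero (f.toB x) = SN.redZero x) (hint : f.toB.IsIntegral)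
    [hN : IsDedekindDomain SN.redZero.range]
    (hcl : ∀ c : κ, IsIntegral SN.redZero.range c → c ∈ SN.redZero.range) :
    IsDedekindDomain SM.redZero.range := by
  rw [f.r2c_redZero_range_eq hred hint hcl]
  exact hN

/-- **REG2 ⇒ hufd, route `p_∞`**: `fα`, `fβ : SetupMap SN SM` (`α` preserves `red_∞` and `B_M` is
integral over `α (B_N)`; `β` carries the generator of `p_∞`).  Inputs from level `N`:
`red_∞(B_N)` is a Dedekind domain, integrally closed in `κ`; `p_0 ⊄ p_∞`; REG1 for `p_∞`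
(`x ^ e = ε h'`).  Input at level `M`: `p_∞ ^ e ≤ (β h')` (see `NodeSetup.r2c_hdiv_inf`).
Then the local ring of `B_M` at every node is a UFD, and `B_M ⧸ p_∞` is a Dedekind domain. -/
theorem r2c_hufd_inf [IsNoetherianRing SM.B] [IsIntegrallyClosed SM.B]
    (fα fβ : SetupMap SN SM)
    (hredα : ∀ x : SN.B, SM.redInf (fα.toB x) = SN.redInf x) (hintα : fα.toB.IsIntegral)
    [IsDedekindDomain SN.redInf.range]
    (hcl : ∀ c : κ, IsIntegral SN.redInf.range c → c ∈ SN.redInf.range)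
    (hne : ¬ SN.pZero ≤ SN.pInf)
    (e : ℕ) (he : 0 < e) (h' : SN.B) (hh : h' ≠ 0)
    (hreg1 : ∀ s : Ideal SN.B, SN.IsNode s → ∃ x ε : SN.B, x ∈ SN.pInf ∧ x ^ e = ε * h' ∧ ε ∉ s)
    (hdiv : SM.pInf ^ e ≤ Ideal.span {fβ.toB h'})
    (t : Ideal SM.B) [t.IsMaximal] (ht : SM.IsNode t) :
    UniqueFactorizationMonoid (Localization.AtPrime t) := by
  haveI : IsDedekindDomain SM.redInf.range := fα.r2c_isDedekindDomain_redInf hredα hintα hcl
  haveI : IsDedekindDomain (SM.B ⧸ SM.pInf) := SM.isDedekindDomain_quot_pInf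
  haveI : IsDedekindDomain (SN.B ⧸ SN.pInf) := SN.isDedekindDomain_quot_pInf
  obtain ⟨y, ε, hy, hε, hεs⟩ := hreg1 _ (fβ.r2c_isNode_comap hne ht)
  obtain ⟨x, ε', -, -, -, hmap⟩ := reg2_generator_core fβ.toB SM.pInf t e he h' y ε hε
    ((fβ.mem_pInf_iff y).2 hy) (fun hmem => hεs (Ideal.mem_comap.2 hmem))
    (fun h0 => hh (fβ.toB_injective (h0.trans (map_zero fβ.toB).symm))) hdiv
  have hneM : ¬ SM.pZero ≤ SM.pInf := fβ.not_pZero_le_pInf hne
  have hlt : SM.pInf < t :=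
    lt_of_le_of_ne (le_trans le_sup_left ht.2)
      (fun heq => hneM (heq ▸ le_trans le_sup_right ht.2))
  exact s36_ufm_localization_of_dedekind SM.pInf t hlt ⟨⟨_, hmap⟩⟩

end Abstract

section Closed

variable {F : Type*} [Field F]

/-- a subring of a field `F`, closed under the elements of `F` integral over it, with fraction
field `F`, is integrally closed -/
theorem r2c_isIntegrallyClosed (B : Subring F)
    (hfrac : ∀ z : F, ∃ a b : B, b ≠ 0 ∧ z * (b : F) = (a : F))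
    (hcl : ∀ x : F, IsIntegral B x → x ∈ B) : IsIntegrallyClosed B := by
  haveI : IsFractionRing B F := s36_isFractionRing_of_hfrac B hfrac
  refine (isIntegrallyClosed_iff F).2 fun {x} hx => ?_
  exact ⟨⟨x, hcl x hx⟩, rfl⟩

set_option synthInstance.maxHeartbeats 400000 in
/-- `B_D` is closed under the elements of `F0(L)` integral over it -/
theorem r2c_f0AffD_closed (A : ValuationSubring Kbar) (L : ℕ) [NeZero L]
    (D : Set (Place Kbar (FF L))) (O₁ O₂ O₃ : ValuationSubring (FF L)) (x : f0Field A L)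
    (hx : IsIntegral (f0AffD A L D O₁ O₂ O₃) x) : x ∈ f0AffD A L D O₁ O₂ O₃ := by
  have key : ∀ V : ValuationSubring (FF L),
      (∀ b ∈ f0AffD A L D O₁ O₂ O₃, ((b : f0Field A L) : FF L) ∈ V) → (x : FF L) ∈ V :=
    fun V hV => vnk_mem_valuationSubring_of_isIntegral (algebraMap (f0Field A L) (FF L)) V _ hV x hx
  rw [mem_f0AffD_iff]
  refine ⟨?_, ?_, ?_, ?_⟩
  · rw [mem_offRegular_iff]
    intro P hP
    exact key P.toValuationSubring
      (fun b hb => (mem_offRegular_iff L D _).1 ((mem_f0AffD_iff A L D _ _ _ b).1 hb).1 P hP)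
  · exact key O₁ (fun b hb => ((mem_f0AffD_iff A L D _ _ _ b).1 hb).2.1)
  · exact key O₂ (fun b hb => ((mem_f0AffD_iff A L D _ _ _ b).1 hb).2.2.1)
  · exact key O₃ (fun b hb => ((mem_f0AffD_iff A L D _ _ _ b).1 hb).2.2.2)

end Closed

section Maps

variable (A : ValuationSubring Kbar) {N M : ℕ} [NeZero N] [NeZero M]

/-- a finite map pulls functions regular off `D_N` back to functions regular off `D_M`, if the
places outside `D_M` restrict to places outside `D_N` -/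
theorem r2c_offRegular_map (φ : FF N →ₐ[Kbar] FF M) (hφ : φ.toRingHom.IsIntegral)
    (DN : Set (Place Kbar (FF N))) (DM : Set (Place Kbar (FF M)))
    (hD : ∀ P : Place Kbar (FF M), P ∉ DM → P.restrictAlong φ hφ ∉ DN) :
    ∀ x ∈ offRegular N DN, φ x ∈ offRegular M DM := by
  intro x hx
  rw [mem_offRegular_iff] at hx ⊢
  intro P hP
  exact (mem_restrictAlong_iff φ hφ P x).1 (hx (P.restrictAlong φ hφ) (hD P hP))

/-- the case of `B_j`: `D` = all cusps -/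
theorem r2c_offRegular_cusps (φ : FF N →ₐ[Kbar] FF M)
    (hφc : ∀ x ∈ cuspRegular N, φ x ∈ cuspRegular M) :
    ∀ x ∈ offRegular N {P | jF N ∉ P.toValuationSubring},
      φ x ∈ offRegular M {P | jF M ∉ P.toValuationSubring} := by
  intro x hx
  rw [← cuspRegular_eq_offRegular] at hx ⊢
  exact hφc x hx

variable {κ : IntermediateField (IsLocalRing.ResidueField A)
      (LaurentSeries (IsLocalRing.ResidueField A))}

/-- **`α`, `β` as maps of the setups `nodeSetupSeriesD`.**  `φ : FF N → FF M` preserving `F0`,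
with `φ (offRegular D_N) ⊆ offRegular D_M`, `v_∞^M` over `v_∞^N`, `v_0^M` over `v_0^N`, and
`φ (O_∞^N ∩ O_mid^N ∩ O_0^N) ⊆ O_mid^M`. -/
def r2cSetupMap (φ : FF N →ₐ[Kbar] FF M)
    (hφF : ∀ x ∈ f0Field A N, φ x ∈ f0Field A M)
    (DN : Set (Place Kbar (FF N))) (DM : Set (Place Kbar (FF M)))
    (hφD : ∀ x ∈ offRegular N DN, φ x ∈ offRegular M DM)
    (vInfN vMidN vZeroN : SeriesVal A N) (vInfM vMidM vZeroM : SeriesVal A M)
    (hiInfN : ∀ (x : FF N) (hx : x ∈ vInfN.O), x ∈ f0Field A N → vInfN.red ⟨x, hx⟩ ∈ κ)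
    (hoInfN : ∀ w ∈ κ, ∃ (x : FF N) (hx : x ∈ vInfN.O), x ∈ f0Field A N ∧
      vInfN.red ⟨x, hx⟩ = w)
    (hiMidN : ∀ (x : FF N) (hx : x ∈ vMidN.O), x ∈ f0Field A N → vMidN.red ⟨x, hx⟩ ∈ κ)
    (hoMidN : ∀ w ∈ κ, ∃ (x : FF N) (hx : x ∈ vMidN.O), x ∈ f0Field A N ∧
      vMidN.red ⟨x, hx⟩ = w)
    (hiZeroN : ∀ (x : FF N) (hx : x ∈ vZeroN.O), x ∈ f0Field A N → vZeroN.red ⟨x, hx⟩ ∈ κ)
    (hoZeroN : ∀ w ∈ κ, ∃ (x : FF N) (hx : x ∈ vZeroN.O), x ∈ f0Field A N ∧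
      vZeroN.red ⟨x, hx⟩ = w)
    (hiInfM : ∀ (x : FF M) (hx : x ∈ vInfM.O), x ∈ f0Field A M → vInfM.red ⟨x, hx⟩ ∈ κ)
    (hoInfM : ∀ w ∈ κ, ∃ (x : FF M) (hx : x ∈ vInfM.O), x ∈ f0Field A M ∧
      vInfM.red ⟨x, hx⟩ = w)
    (hiMidM : ∀ (x : FF M) (hx : x ∈ vMidM.O), x ∈ f0Field A M → vMidM.red ⟨x, hx⟩ ∈ κ)
    (hoMidM : ∀ w ∈ κ, ∃ (x : FF M) (hx : x ∈ vMidM.O), x ∈ f0Field A M ∧
      vMidM.red ⟨x, hx⟩ = w)
    (hiZeroM : ∀ (x : FF M) (hx : x ∈ vZeroM.O), x ∈ f0Field A M → vZeroM.red ⟨x, hx⟩ ∈ κ)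
    (hoZeroM : ∀ w ∈ κ, ∃ (x : FF M) (hx : x ∈ vZeroM.O), x ∈ f0Field A M ∧
      vZeroM.red ⟨x, hx⟩ = w)
    (hvInf : ∀ x : FF N, φ x ∈ vInfM.O ↔ x ∈ vInfN.O)
    (hvZero : ∀ x : FF N, φ x ∈ vZeroM.O ↔ x ∈ vZeroN.O)
    (hvMid : ∀ x : FF N, x ∈ vInfN.O → x ∈ vMidN.O → x ∈ vZeroN.O → φ x ∈ vMidM.O) :
    SetupMap
      (nodeSetupSeriesD A DN vInfN vMidN vZeroN κ hiInfN hoInfN hiMidN hoMidN hiZeroN hoZeroN)
      (nodeSetupSeriesD A DM vInfM vMidM vZeroM κ hiInfM hoInfM hiMidM hoMidM hiZeroM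
        hoZeroM) where
  φ := r2mF0 A φ hφF
  map_B := by
    intro x hx
    have hx' := (mem_nodeSetupSeriesD_B A DN vInfN vMidN vZeroN κ hiInfN hoInfN hiMidN hoMidN
      hiZeroN hoZeroN x).1 hx
    exact (mem_nodeSetupSeriesD_B A DM vInfM vMidM vZeroM κ hiInfM hoInfM hiMidM hoMidM
      hiZeroM hoZeroM _).2
      ⟨hφD _ hx'.1, (hvInf _).2 hx'.2.1, hvMid _ hx'.2.1 hx'.2.2.1 hx'.2.2.2,
        (hvZero _).2 hx'.2.2.2⟩
  inf_iff := fun x => hvInf (x : FF N)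
  zero_iff := fun x => hvZero (x : FF N)

end Maps

end Fermat.Agent.S36lib

end
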