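/-
Item 83 (S36), piece TABLE (helper3): the entry `(mid, β)` of the reduction table.

`vmidRed_beta` (helper18, `VMid.lean`) computes the middle reduction of `β β' Y'`, `Y' ∈ F_{M'}`.
With `midExp_beta` (helper23, `MidExpW2.lean`: `E (β Y) = (w₁ Y)(ζ X)` for ALL `Y ∈ F_{M'q}`) the
same proof gives the whole column:

* `vmb_twq_mem`      : `twq ζ (F_{M'q}) ⊂ E(F_{M'q²})`;
* `vmb_beta_mem_iff` : `β Y ∈ O_mid ↔ w₁ Y ∈ O_∞^{M'q}` (`↔ Y ∈ O_0^{M'q}`), in the `IsRep` form;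
* `vmb_red_beta`     : `red_mid (β Y) = red_∞ (w₁ Y)` (`= red_0 Y`), in the `IsRep` form;
* `vmb_beta_mem_iff'`, `vmb_red_beta'` : the same for a series reduction `RN` of level `M' q`.
No sorry.
-/
import Mathlib
import Fermat.Agent.S36lib.VMid
import Fermat.Agent.S36lib.MidExpW2

set_option autoImplicit false
set_option linter.style.haveILetI false
set_option linter.unusedSectionVars false
set_option synthInstance.maxHeartbeats 400000

noncomputable section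

open ModularCurve AlgebraicCurve HahnSeries
open Fermat.Agent.S24lib Fermat.Agent.HeckeBar Fermat.Agent.S37lib Fermat.Agent.S35lib
  Fermat.Agent.GoodRed Fermat.Agent.S34lib

namespace Fermat.Agent.S36lib

variable {M' q : ℕ} [NeZero M'] [NeZero q] (A : ValuationSubring Kbar)
variable {ζ : Kbarˣ} {E : FF (M' * q * q) →+* LaurentSeries Kbar}

/-- `twq ζ (F_{M'q}) ⊂ E(F_{M'q²})` -/
theorem vmb_twq_mem (hq : q.Prime) (hqM : ¬ q ∣ M') (hζ : ζ ^ q = 1) (hE : IsMidExp M' q ζ E)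
    {x : LaurentSeries Kbar} (hx : x ∈ modularFunctionFieldBar (M' * q)) :
    twq ζ x ∈ vmidField hE := by
  refine ⟨heckeBetaBar Kbar (M' * q) q ((alW1 M' hq hqM).symm ⟨x, hx⟩), ?_⟩
  rw [midExp_beta M' hq hqM ζ hζ E hE.alpha hE.beta, AlgEquiv.apply_symm_apply]

/-- `β Y ∈ O_mid ↔ w₁ Y` is a fraction of integral series with primitive denominator -/
theorem vmb_beta_mem_iff (hq : q.Prime) (hqM : ¬ q ∣ M') (hlt : A.valuation (q : Kbar) < 1)
    (hζ : ζ ^ q = 1) (hE : IsMidExp M' q ζ E) (Y : FF (M' * q)) :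
    heckeBetaBar Kbar (M' * q) q Y ∈ vmidO A hq hlt hζ hE ↔
      ∃ a b, IsRep A (modularFunctionFieldBar (M' * q))
        ((alW1 M' hq hqM Y : FF (M' * q)) : LaurentSeries Kbar) a b := by
  rw [mem_vmidO_iff, midExp_beta M' hq hqM ζ hζ E hE.alpha hE.beta]
  constructor
  · rintro ⟨a, b, h⟩
    exact vmid_isRep_comap (F₂ := vmidField hE) (vmidSubst A hq hlt hζ)
      (vmid_hasPrimFrac_bar A (M' * q) hq hlt) (alW1 M' hq hqM Y).2 h
  · rintro ⟨a, b, h⟩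
    exact ⟨_, _, vmid_isRep_map (vmidSubst A hq hlt hζ)
      (fun x hx => vmb_twq_mem hq hqM hζ hE hx) h⟩

/-- `red_mid (β Y) = ā / b̄` if `w₁ Y = a / b` -/
theorem vmb_red_beta (hq : q.Prime) (hqM : ¬ q ∣ M') (hlt : A.valuation (q : Kbar) < 1)
    (hζ : ζ ^ q = 1) (hE : IsMidExp M' q ζ E) (Y : FF (M' * q))
    (hY : heckeBetaBar Kbar (M' * q) q Y ∈ vmidO A hq hlt hζ hE)
    {a b : LaurentSeries A}
    (h : IsRep A (modularFunctionFieldBar (M' * q))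
      ((alW1 M' hq hqM Y : FF (M' * q)) : LaurentSeries Kbar) a b) :
    vmidRed A hq hlt hζ hE ⟨_, hY⟩
      = coeffMap (IsLocalRing.residue A) a / coeffMap (IsLocalRing.residue A) b := by
  have h1 : IsRep A (vmidField hE) (E (heckeBetaBar Kbar (M' * q) q Y))
      ((vmidSubst A hq hlt hζ).φA a) ((vmidSubst A hq hlt hζ).φA b) := by
    rw [midExp_beta M' hq hqM ζ hζ E hE.alpha hE.beta]
    exact vmid_isRep_map (vmidSubst A hq hlt hζ) (fun x hx => vmb_twq_mem hq hqM hζ hE hx) h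
  rw [vmidRed_eq A hq hlt hζ hE ⟨_, hY⟩ h1, (vmidSubst A hq hlt hζ).comm_res,
    (vmidSubst A hq hlt hζ).comm_res]
  rfl

section SeriesRed

variable {Fk : IntermediateField (IsLocalRing.ResidueField A)
  (LaurentSeries (IsLocalRing.ResidueField A))}
variable (RN : ConstRed A (IsLocalRing.residue A) (↥Fk) (FF (M' * q)))

/-- `β Y ∈ O_mid ↔ w₁ Y ∈ O_∞^{M'q}` -/
theorem vmb_beta_mem_iff' (hq : q.Prime) (hqM : ¬ q ∣ M') (hlt : A.valuation (q : Kbar) < 1)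
    (hζ : ζ ^ q = 1) (hE : IsMidExp M' q ζ E) (hRN : IsSeriesRed RN) (Y : FF (M' * q)) :
    heckeBetaBar Kbar (M' * q) q Y ∈ vmidO A hq hlt hζ hE ↔ alW1 M' hq hqM Y ∈ RN.O := by
  rw [vmb_beta_mem_iff A hq hqM hlt hζ hE, hRN.mem_iff (vmid_hasPrimFrac_bar A (M' * q) hq hlt)]

/-- `red_mid (β Y) = red_∞^{M'q} (w₁ Y)` -/
theorem vmb_red_beta' (hq : q.Prime) (hqM : ¬ q ∣ M') (hlt : A.valuation (q : Kbar) < 1)
    (hζ : ζ ^ q = 1) (hE : IsMidExp M' q ζ E) (hRN : IsSeriesRed RN) (Y : FF (M' * q))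
    (hY : heckeBetaBar Kbar (M' * q) q Y ∈ vmidO A hq hlt hζ hE)
    (hY' : alW1 M' hq hqM Y ∈ RN.O) :
    vmidRed A hq hlt hζ hE ⟨_, hY⟩
      = ((RN.red ⟨alW1 M' hq hqM Y, hY'⟩ : ↥Fk) :
          LaurentSeries (IsLocalRing.ResidueField A)) := by
  obtain ⟨a, b, h⟩ := hRN.exists_isRep (vmid_hasPrimFrac_bar A (M' * q) hq hlt) hY'
  rw [vmb_red_beta A hq hqM hlt hζ hE Y hY h, hRN.red_of_isRep h hY']

end SeriesRed

end Fermat.Agent.S36lib
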