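/-
Item 83 (S36), piece TABLE (helper3): the REDUCTION TABLE of `α, β : F_{M'q} → F_{M'q²}` for THE
concrete setups of helper24 (`TheSetup.lean`): `SN = nodeSetupN …` (level `M' q`,
`vInf = ofConstRed RN`, `vMid = vInf`, `vZero = vInf ∘ w₁`) and `SM = nodeSetupM …` (level
`M' q²`, `vInf = ofConstRed R`, `vMid`, `vZero = vInf ∘ w₂`), in particular for
`SM = s36Final …` (`vMid = vmidSV`).

For a map of setups `f : SetupMap SN SM` whose field map is `α` (resp. `β`):

|        | `α`                  | `β`                  |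
| `∞`    | `red_∞`              | `φ ∘ red_∞`          |
| `mid`  | `red_∞`              | `red_0`              |
| `0`    | `φ ∘ red_0`          | `red_0`              |

(`φ x = x(X^q)`), i.e. EXACTLY the hypotheses `tαInf tαMid tαZero tβInf tβMid tβZero` of
`s36_crux_head` (CruxHead.lean).

* `tblc_mid_alpha_mem_iff`, `tblc_mid_alpha_red` : the entry `(mid, α)` for a series reduction;
* `tblc_alpha_inf`, `tblc_alpha_zero`, `tblc_beta_inf`, `tblc_beta_zero` : any `vMid`;
* `tblc_alpha_mid`, `tblc_beta_mid` : `vMid = vmidSV`;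
* `tblc_final_alpha`, `tblc_final_beta` : the two columns for `s36Final`.
(complete proofs, standard axioms only)
-/
import Mathlib
import Fermat.Agent.S36lib.VMidBeta
import Fermat.Agent.S36lib.VMidSV
import Fermat.Agent.S36lib.VZeroQ2
import Fermat.Agent.S36lib.Reg2Conc
import Fermat.Agent.S36lib.TheSetup
import Fermat.Agent.S36lib.Apply2Final

set_option autoImplicit false
set_option linter.style.haveILetI false
set_option linter.unusedSectionVars false
set_option linter.unusedVariables false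
set_option synthInstance.maxHeartbeats 400000

noncomputable section

open ModularCurve AlgebraicCurve HahnSeries
open Fermat.Agent.S24lib Fermat.Agent.HeckeBar Fermat.Agent.S37lib Fermat.Agent.S35lib
  Fermat.Agent.GoodRed Fermat.Agent.S34lib

namespace Fermat.Agent.S36lib

section MidAlpha

variable {M' q : ℕ} [NeZero M'] [NeZero q] (A : ValuationSubring Kbar)
variable {ζ : Kbarˣ} {E : FF (M' * q * q) →+* LaurentSeries Kbar}
variable {Fk : IntermediateField (IsLocalRing.ResidueField A)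
  (LaurentSeries (IsLocalRing.ResidueField A))}
variable (RN : ConstRed A (IsLocalRing.residue A) (↥Fk) (FF (M' * q)))

/-- `α Y ∈ O_mid ↔ Y ∈ O_∞^{M'q}` -/
theorem tblc_mid_alpha_mem_iff (hq : q.Prime) (hlt : A.valuation (q : Kbar) < 1)
    (hζ : ζ ^ q = 1) (hE : IsMidExp M' q ζ E) (hRN : IsSeriesRed RN) (Y : FF (M' * q)) :
    heckeAlphaBar Kbar (M' * q) q Y ∈ vmidO A hq hlt hζ hE ↔ Y ∈ RN.O := by
  rw [vmid_alpha_mem_iff A hq hlt hζ hE, hRN.mem_iff (vmid_hasPrimFrac_bar A (M' * q) hq hlt)]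

/-- `red_mid (α Y) = red_∞^{M'q} Y` -/
theorem tblc_mid_alpha_red (hq : q.Prime) (hlt : A.valuation (q : Kbar) < 1)
    (hζ : ζ ^ q = 1) (hE : IsMidExp M' q ζ E) (hRN : IsSeriesRed RN) (Y : FF (M' * q))
    (hY : heckeAlphaBar Kbar (M' * q) q Y ∈ vmidO A hq hlt hζ hE) (hY' : Y ∈ RN.O) :
    vmidRed A hq hlt hζ hE ⟨_, hY⟩
      = ((RN.red ⟨Y, hY'⟩ : ↥Fk) : LaurentSeries (IsLocalRing.ResidueField A)) := by
  obtain ⟨a, b, h⟩ := hRN.exists_isRep (vmid_hasPrimFrac_bar A (M' * q) hq hlt) hY'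
  rw [vmidRed_alpha A hq hlt hζ hE Y hY h, hRN.red_of_isRep h hY']

end MidAlpha

section Congr

variable (A : ValuationSubring Kbar)

/-- proof irrelevance for a constant reduction -/
theorem tblc_red_congr {Fk : Type*} [Field Fk] [Algebra (IsLocalRing.ResidueField A) Fk]
    {L : ℕ} [NeZero L]
    (R₀ : ConstRed A (IsLocalRing.residue A) Fk (FF L)) {x y : FF L}
    (h : x = y) (hx : x ∈ R₀.O) (hy : y ∈ R₀.O) : R₀.red ⟨x, hx⟩ = R₀.red ⟨y, hy⟩ := by
  subst h; rfl

/-- proof irrelevance for a series valuation -/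
theorem tblc_sv_congr {L : ℕ} [NeZero L] (v : SeriesVal A L) {x y : FF L}
    (h : x = y) (hx : x ∈ v.O) (hy : y ∈ v.O) : v.red ⟨x, hx⟩ = v.red ⟨y, hy⟩ := by
  subst h; rfl

end Congr

section Table

variable (A : ValuationSubring Kbar) (M' q : ℕ) [NeZero M'] [NeZero q]
variable (hq : q.Prime) (hqM : ¬ q ∣ M') (hA : A.LiesOverPrime q)
variable (RN : ConstRed A (IsLocalRing.residue A)
      (↥(modularFunctionFieldFullC (IsLocalRing.ResidueField A) M')) (FF (M' * q)))
    (hRN : IsSeriesRed RN)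
variable (R : ConstRed A (IsLocalRing.residue A)
      (↥(modularFunctionFieldFullC (IsLocalRing.ResidueField A) M')) (FF (M' * q * q)))
    (hR : IsSeriesRed R)
variable (φ : ↥(modularFunctionFieldFullC (IsLocalRing.ResidueField A) M') →+*
      ↥(modularFunctionFieldFullC (IsLocalRing.ResidueField A) M'))

section AnyMid

variable (vMid : SeriesVal A (M' * q * q))
    (hiMid : ∀ (x : FF (M' * q * q)) (hx : x ∈ vMid.O), x ∈ f0Field A (M' * q * q) →
      vMid.red ⟨x, hx⟩ ∈ modularFunctionFieldFullC (IsLocalRing.ResidueField A) M')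
    (hoMid : ∀ y ∈ modularFunctionFieldFullC (IsLocalRing.ResidueField A) M',
      ∃ (x : FF (M' * q * q)) (hx : x ∈ vMid.O), x ∈ f0Field A (M' * q * q) ∧
        vMid.red ⟨x, hx⟩ = y)

/-- entry `(∞, α)`: `red_∞ (α z) = red_∞ z` -/
theorem tblc_alpha_inf
    (f : SetupMap (nodeSetupN A M' q hq hqM hA RN hRN)
      (nodeSetupM A M' q hq hqM hA R hR vMid hiMid hoMid))
    (hf : ∀ x : f0Field A (M' * q), ((f.φ x : f0Field A (M' * q * q)) : FF (M' * q * q))
      = heckeAlphaBar Kbar (M' * q) q (x : FF (M' * q)))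
    (z : (nodeSetupN A M' q hq hqM hA RN hRN).B) :
    (nodeSetupM A M' q hq hqM hA R hR vMid hiMid hoMid).redInf (f.toB z)
      = (nodeSetupN A M' q hq hqM hA RN hRN).redInf z := by
  have hlt : A.valuation (q : Kbar) < 1 := (A.mem_nonunits_iff).mp hA
  have hfrac := vmid_hasPrimFrac_bar A (M' * q) hq hlt
  have hzI : ((z : f0Field A (M' * q)) : FF (M' * q)) ∈ RN.O :=
    (nodeSetupN A M' q hq hqM hA RN hRN).B_le_inf z.2
  have hfz : (((f.toB z : (nodeSetupM A M' q hq hqM hA R hR vMid hiMid hoMid).B) :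
      f0Field A (M' * q * q)) : FF (M' * q * q))
      = heckeAlphaBar Kbar (M' * q) q ((z : f0Field A (M' * q)) : FF (M' * q)) := hf z
  have hI : (((f.toB z : (nodeSetupM A M' q hq hqM hA R hR vMid hiMid hoMid).B) :
      f0Field A (M' * q * q)) : FF (M' * q * q)) ∈ R.O :=
    (nodeSetupM A M' q hq hqM hA R hR vMid hiMid hoMid).B_le_inf (f.toB z).2
  have hαI : heckeAlphaBar Kbar (M' * q) q ((z : f0Field A (M' * q)) : FF (M' * q)) ∈ R.O := by
    rw [← hfz]; exact hI
  have h1 : R.red ⟨_, hI⟩ = RN.red ⟨_, hzI⟩ :=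
    (tblc_red_congr A R hfz hI hαI).trans (vz2_alpha_red (M' * q) q hRN hR hfrac hzI hαI)
  exact h1

/-- entry `(∞, β)`: `red_∞ (β z) = φ (red_∞ z)` -/
theorem tblc_beta_inf
    (hφ : ∀ x : ↥(modularFunctionFieldFullC (IsLocalRing.ResidueField A) M'),
      ((φ x : ↥(modularFunctionFieldFullC (IsLocalRing.ResidueField A) M')) :
          LaurentSeries (IsLocalRing.ResidueField A))
        = qExpand (IsLocalRing.ResidueField A) q
            (x : LaurentSeries (IsLocalRing.ResidueField A)))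
    (f : SetupMap (nodeSetupN A M' q hq hqM hA RN hRN)
      (nodeSetupM A M' q hq hqM hA R hR vMid hiMid hoMid))
    (hf : ∀ x : f0Field A (M' * q), ((f.φ x : f0Field A (M' * q * q)) : FF (M' * q * q))
      = heckeBetaBar Kbar (M' * q) q (x : FF (M' * q)))
    (z : (nodeSetupN A M' q hq hqM hA RN hRN).B) :
    (nodeSetupM A M' q hq hqM hA R hR vMid hiMid hoMid).redInf (f.toB z)
      = φ ((nodeSetupN A M' q hq hqM hA RN hRN).redInf z) := by
  have hlt : A.valuation (q : Kbar) < 1 := (A.mem_nonunits_iff).mp hA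
  have hfrac := vmid_hasPrimFrac_bar A (M' * q) hq hlt
  have hzI : ((z : f0Field A (M' * q)) : FF (M' * q)) ∈ RN.O :=
    (nodeSetupN A M' q hq hqM hA RN hRN).B_le_inf z.2
  have hfz : (((f.toB z : (nodeSetupM A M' q hq hqM hA R hR vMid hiMid hoMid).B) :
      f0Field A (M' * q * q)) : FF (M' * q * q))
      = heckeBetaBar Kbar (M' * q) q ((z : f0Field A (M' * q)) : FF (M' * q)) := hf z
  have hI : (((f.toB z : (nodeSetupM A M' q hq hqM hA R hR vMid hiMid hoMid).B) :
      f0Field A (M' * q * q)) : FF (M' * q * q)) ∈ R.O :=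
    (nodeSetupM A M' q hq hqM hA R hR vMid hiMid hoMid).B_le_inf (f.toB z).2
  have hβI : heckeBetaBar Kbar (M' * q) q ((z : f0Field A (M' * q)) : FF (M' * q)) ∈ R.O := by
    rw [← hfz]; exact hI
  have h1 : ((R.red ⟨_, hI⟩ : ↥(modularFunctionFieldFullC (IsLocalRing.ResidueField A) M')) :
        LaurentSeries (IsLocalRing.ResidueField A))
      = qExpand (IsLocalRing.ResidueField A) q
          ((RN.red ⟨_, hzI⟩ : ↥(modularFunctionFieldFullC (IsLocalRing.ResidueField A) M')) :
            LaurentSeries (IsLocalRing.ResidueField A)) :=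
    (congrArg Subtype.val (tblc_red_congr A R hfz hI hβI)).trans
      (vz2_beta_red (M' * q) q hRN hR hfrac hzI hβI)
  apply Subtype.ext
  rw [hφ]
  exact h1

/-- entry `(0, α)`: `red_0 (α z) = φ (red_0 z)` -/
theorem tblc_alpha_zero
    (hφ : ∀ x : ↥(modularFunctionFieldFullC (IsLocalRing.ResidueField A) M'),
      ((φ x : ↥(modularFunctionFieldFullC (IsLocalRing.ResidueField A) M')) :
          LaurentSeries (IsLocalRing.ResidueField A))
        = qExpand (IsLocalRing.ResidueField A) q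
            (x : LaurentSeries (IsLocalRing.ResidueField A)))
    (f : SetupMap (nodeSetupN A M' q hq hqM hA RN hRN)
      (nodeSetupM A M' q hq hqM hA R hR vMid hiMid hoMid))
    (hf : ∀ x : f0Field A (M' * q), ((f.φ x : f0Field A (M' * q * q)) : FF (M' * q * q))
      = heckeAlphaBar Kbar (M' * q) q (x : FF (M' * q)))
    (z : (nodeSetupN A M' q hq hqM hA RN hRN).B) :
    (nodeSetupM A M' q hq hqM hA R hR vMid hiMid hoMid).redZero (f.toB z)
      = φ ((nodeSetupN A M' q hq hqM hA RN hRN).redZero z) := by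
  have hlt : A.valuation (q : Kbar) < 1 := (A.mem_nonunits_iff).mp hA
  have hfrac := vmid_hasPrimFrac_bar A (M' * q) hq hlt
  have hzZ : alW1 M' hq hqM ((z : f0Field A (M' * q)) : FF (M' * q)) ∈ RN.O :=
    (nodeSetupN A M' q hq hqM hA RN hRN).B_le_zero z.2
  have hfz : (((f.toB z : (nodeSetupM A M' q hq hqM hA R hR vMid hiMid hoMid).B) :
      f0Field A (M' * q * q)) : FF (M' * q * q))
      = heckeAlphaBar Kbar (M' * q) q ((z : f0Field A (M' * q)) : FF (M' * q)) := hf z
  have hZ : alW2 M' hq hqM (((f.toB z : (nodeSetupM A M' q hq hqM hA R hR vMid hiMid hoMid).B) :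
      f0Field A (M' * q * q)) : FF (M' * q * q)) ∈ R.O :=
    (nodeSetupM A M' q hq hqM hA R hR vMid hiMid hoMid).B_le_zero (f.toB z).2
  have hαZ : alW2 M' hq hqM
      (heckeAlphaBar Kbar (M' * q) q ((z : f0Field A (M' * q)) : FF (M' * q))) ∈ R.O := by
    rw [← hfz]; exact hZ
  have h0 := vz2Zero_alpha_red M' hq hqM hRN hR hfrac
    (x := ((z : f0Field A (M' * q)) : FF (M' * q))) hzZ hαZ
  have h1 : ((R.red ⟨_, hZ⟩ : ↥(modularFunctionFieldFullC (IsLocalRing.ResidueField A) M')) :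
        LaurentSeries (IsLocalRing.ResidueField A))
      = qExpand (IsLocalRing.ResidueField A) q
          ((RN.red ⟨_, hzZ⟩ : ↥(modularFunctionFieldFullC (IsLocalRing.ResidueField A) M')) :
            LaurentSeries (IsLocalRing.ResidueField A)) :=
    (congrArg Subtype.val
      (tblc_red_congr A R (congrArg (alW2 M' hq hqM) hfz) hZ hαZ)).trans h0
  apply Subtype.ext
  rw [hφ]
  exact h1

/-- entry `(0, β)`: `red_0 (β z) = red_0 z` -/
theorem tblc_beta_zero
    (f : SetupMap (nodeSetupN A M' q hq hqM hA RN hRN)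
      (nodeSetupM A M' q hq hqM hA R hR vMid hiMid hoMid))
    (hf : ∀ x : f0Field A (M' * q), ((f.φ x : f0Field A (M' * q * q)) : FF (M' * q * q))
      = heckeBetaBar Kbar (M' * q) q (x : FF (M' * q)))
    (z : (nodeSetupN A M' q hq hqM hA RN hRN).B) :
    (nodeSetupM A M' q hq hqM hA R hR vMid hiMid hoMid).redZero (f.toB z)
      = (nodeSetupN A M' q hq hqM hA RN hRN).redZero z := by
  have hlt : A.valuation (q : Kbar) < 1 := (A.mem_nonunits_iff).mp hA
  have hfrac := vmid_hasPrimFrac_bar A (M' * q) hq hlt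
  have hzZ : alW1 M' hq hqM ((z : f0Field A (M' * q)) : FF (M' * q)) ∈ RN.O :=
    (nodeSetupN A M' q hq hqM hA RN hRN).B_le_zero z.2
  have hfz : (((f.toB z : (nodeSetupM A M' q hq hqM hA R hR vMid hiMid hoMid).B) :
      f0Field A (M' * q * q)) : FF (M' * q * q))
      = heckeBetaBar Kbar (M' * q) q ((z : f0Field A (M' * q)) : FF (M' * q)) := hf z
  have hZ : alW2 M' hq hqM (((f.toB z : (nodeSetupM A M' q hq hqM hA R hR vMid hiMid hoMid).B) :
      f0Field A (M' * q * q)) : FF (M' * q * q)) ∈ R.O :=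
    (nodeSetupM A M' q hq hqM hA R hR vMid hiMid hoMid).B_le_zero (f.toB z).2
  have hβZ : alW2 M' hq hqM
      (heckeBetaBar Kbar (M' * q) q ((z : f0Field A (M' * q)) : FF (M' * q))) ∈ R.O := by
    rw [← hfz]; exact hZ
  have h0 := vz2Zero_beta_red M' hq hqM hRN hR hfrac
    (x := ((z : f0Field A (M' * q)) : FF (M' * q))) hzZ hβZ
  have h1 : R.red ⟨_, hZ⟩ = RN.red ⟨_, hzZ⟩ :=
    (tblc_red_congr A R (congrArg (alW2 M' hq hqM) hfz) hZ hβZ).trans h0
  exact h1

end AnyMid

section TheMid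

variable {ζ : Kbarˣ} {E : FF (M' * q * q) →+* LaurentSeries Kbar}
variable (hlt : A.valuation (q : Kbar) < 1) (hζq : ζ ^ q = 1) (hE : IsMidExp M' q ζ E)
variable
    (hiMid : ∀ (x : FF (M' * q * q)) (hx : x ∈ (vmidSV A hq hlt hζq hE).O),
      x ∈ f0Field A (M' * q * q) →
      (vmidSV A hq hlt hζq hE).red ⟨x, hx⟩ ∈
        modularFunctionFieldFullC (IsLocalRing.ResidueField A) M')
    (hoMid : ∀ y ∈ modularFunctionFieldFullC (IsLocalRing.ResidueField A) M',
      ∃ (x : FF (M' * q * q)) (hx : x ∈ (vmidSV A hq hlt hζq hE).O),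
        x ∈ f0Field A (M' * q * q) ∧ (vmidSV A hq hlt hζq hE).red ⟨x, hx⟩ = y)

/-- entry `(mid, α)`: `red_mid (α z) = red_∞ z` -/
theorem tblc_alpha_mid
    (f : SetupMap (nodeSetupN A M' q hq hqM hA RN hRN)
      (nodeSetupM A M' q hq hqM hA R hR (vmidSV A hq hlt hζq hE) hiMid hoMid))
    (hf : ∀ x : f0Field A (M' * q), ((f.φ x : f0Field A (M' * q * q)) : FF (M' * q * q))
      = heckeAlphaBar Kbar (M' * q) q (x : FF (M' * q)))
    (z : (nodeSetupN A M' q hq hqM hA RN hRN).B) :
    (nodeSetupM A M' q hq hqM hA R hR (vmidSV A hq hlt hζq hE) hiMid hoMid).redMid (f.toB z)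
      = (nodeSetupN A M' q hq hqM hA RN hRN).redInf z := by
  have hzI : ((z : f0Field A (M' * q)) : FF (M' * q)) ∈ RN.O :=
    (nodeSetupN A M' q hq hqM hA RN hRN).B_le_inf z.2
  have hfz : (((f.toB z : (nodeSetupM A M' q hq hqM hA R hR (vmidSV A hq hlt hζq hE)
      hiMid hoMid).B) : f0Field A (M' * q * q)) : FF (M' * q * q))
      = heckeAlphaBar Kbar (M' * q) q ((z : f0Field A (M' * q)) : FF (M' * q)) := hf z
  have hM : (((f.toB z : (nodeSetupM A M' q hq hqM hA R hR (vmidSV A hq hlt hζq hE)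
      hiMid hoMid).B) : f0Field A (M' * q * q)) : FF (M' * q * q))
      ∈ (vmidSV A hq hlt hζq hE).O :=
    (nodeSetupM A M' q hq hqM hA R hR (vmidSV A hq hlt hζq hE) hiMid hoMid).B_le_mid
      (f.toB z).2
  have hαM : heckeAlphaBar Kbar (M' * q) q ((z : f0Field A (M' * q)) : FF (M' * q))
      ∈ (vmidSV A hq hlt hζq hE).O := by
    rw [← hfz]; exact hM
  have h1 : (vmidSV A hq hlt hζq hE).red ⟨_, hM⟩
      = ((RN.red ⟨_, hzI⟩ : ↥(modularFunctionFieldFullC (IsLocalRing.ResidueField A) M')) :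
          LaurentSeries (IsLocalRing.ResidueField A)) :=
    (tblc_sv_congr A (vmidSV A hq hlt hζq hE) hfz hM hαM).trans
      (tblc_mid_alpha_red A RN hq hlt hζq hE hRN _ hαM hzI)
  apply Subtype.ext
  exact h1

/-- entry `(mid, β)`: `red_mid (β z) = red_0 z` -/
theorem tblc_beta_mid
    (f : SetupMap (nodeSetupN A M' q hq hqM hA RN hRN)
      (nodeSetupM A M' q hq hqM hA R hR (vmidSV A hq hlt hζq hE) hiMid hoMid))
    (hf : ∀ x : f0Field A (M' * q), ((f.φ x : f0Field A (M' * q * q)) : FF (M' * q * q))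
      = heckeBetaBar Kbar (M' * q) q (x : FF (M' * q)))
    (z : (nodeSetupN A M' q hq hqM hA RN hRN).B) :
    (nodeSetupM A M' q hq hqM hA R hR (vmidSV A hq hlt hζq hE) hiMid hoMid).redMid (f.toB z)
      = (nodeSetupN A M' q hq hqM hA RN hRN).redZero z := by
  have hzZ : alW1 M' hq hqM ((z : f0Field A (M' * q)) : FF (M' * q)) ∈ RN.O :=
    (nodeSetupN A M' q hq hqM hA RN hRN).B_le_zero z.2
  have hfz : (((f.toB z : (nodeSetupM A M' q hq hqM hA R hR (vmidSV A hq hlt hζq hE)
      hiMid hoMid).B) : f0Field A (M' * q * q)) : FF (M' * q * q))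
      = heckeBetaBar Kbar (M' * q) q ((z : f0Field A (M' * q)) : FF (M' * q)) := hf z
  have hM : (((f.toB z : (nodeSetupM A M' q hq hqM hA R hR (vmidSV A hq hlt hζq hE)
      hiMid hoMid).B) : f0Field A (M' * q * q)) : FF (M' * q * q))
      ∈ (vmidSV A hq hlt hζq hE).O :=
    (nodeSetupM A M' q hq hqM hA R hR (vmidSV A hq hlt hζq hE) hiMid hoMid).B_le_mid
      (f.toB z).2
  have hβM : heckeBetaBar Kbar (M' * q) q ((z : f0Field A (M' * q)) : FF (M' * q))
      ∈ (vmidSV A hq hlt hζq hE).O := by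
    rw [← hfz]; exact hM
  have h1 : (vmidSV A hq hlt hζq hE).red ⟨_, hM⟩
      = ((RN.red ⟨_, hzZ⟩ : ↥(modularFunctionFieldFullC (IsLocalRing.ResidueField A) M')) :
          LaurentSeries (IsLocalRing.ResidueField A)) :=
    (tblc_sv_congr A (vmidSV A hq hlt hζq hE) hfz hM hβM).trans
      (vmb_red_beta' A RN hq hqM hlt hζq hE hRN _ hβM hzZ)
  apply Subtype.ext
  exact h1

end TheMid

section Final

variable {ζ : Kbarˣ} {E : FF (M' * q * q) →+* LaurentSeries Kbar}
variable (hζq : ζ ^ q = 1) (hζ : IsPrimitiveRoot (ζ : Kbar) q) (hE : IsMidExp M' q ζ E)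

/-- **the `α`-column of the reduction table for `s36Final`.** -/
theorem tblc_final_alpha
    (hφ : ∀ x : ↥(modularFunctionFieldFullC (IsLocalRing.ResidueField A) M'),
      ((φ x : ↥(modularFunctionFieldFullC (IsLocalRing.ResidueField A) M')) :
          LaurentSeries (IsLocalRing.ResidueField A))
        = qExpand (IsLocalRing.ResidueField A) q
            (x : LaurentSeries (IsLocalRing.ResidueField A)))
    (f : SetupMap (nodeSetupN A M' q hq hqM hA RN hRN)
      (s36Final A M' q hq hqM hA hζq hζ hE R hR))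
    (hf : ∀ x : f0Field A (M' * q), ((f.φ x : f0Field A (M' * q * q)) : FF (M' * q * q))
      = heckeAlphaBar Kbar (M' * q) q (x : FF (M' * q))) :
    (∀ z, (s36Final A M' q hq hqM hA hζq hζ hE R hR).redInf (f.toB z)
        = (nodeSetupN A M' q hq hqM hA RN hRN).redInf z) ∧
    (∀ z, (s36Final A M' q hq hqM hA hζq hζ hE R hR).redMid (f.toB z)
        = (nodeSetupN A M' q hq hqM hA RN hRN).redInf z) ∧
    (∀ z, (s36Final A M' q hq hqM hA hζq hζ hE R hR).redZero (f.toB z)
        = φ ((nodeSetupN A M' q hq hqM hA RN hRN).redZero z)) :=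
  ⟨fun z => tblc_alpha_inf A M' q hq hqM hA RN hRN R hR
      (vmidSV A hq ((A.mem_nonunits_iff).mp hA) hζq hE) (vmid_hinto A hq hqM hA hζq hζ hE)
      (vmid_honto A hq hA hζq hE) f hf z,
   fun z => tblc_alpha_mid A M' q hq hqM hA RN hRN R hR ((A.mem_nonunits_iff).mp hA) hζq hE
      (vmid_hinto A hq hqM hA hζq hζ hE) (vmid_honto A hq hA hζq hE) f hf z,
   fun z => tblc_alpha_zero A M' q hq hqM hA RN hRN R hR φ
      (vmidSV A hq ((A.mem_nonunits_iff).mp hA) hζq hE) (vmid_hinto A hq hqM hA hζq hζ hE)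
      (vmid_honto A hq hA hζq hE) hφ f hf z⟩

/-- **the `β`-column of the reduction table for `s36Final`.** -/
theorem tblc_final_beta
    (hφ : ∀ x : ↥(modularFunctionFieldFullC (IsLocalRing.ResidueField A) M'),
      ((φ x : ↥(modularFunctionFieldFullC (IsLocalRing.ResidueField A) M')) :
          LaurentSeries (IsLocalRing.ResidueField A))
        = qExpand (IsLocalRing.ResidueField A) q
            (x : LaurentSeries (IsLocalRing.ResidueField A)))
    (f : SetupMap (nodeSetupN A M' q hq hqM hA RN hRN)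
      (s36Final A M' q hq hqM hA hζq hζ hE R hR))
    (hf : ∀ x : f0Field A (M' * q), ((f.φ x : f0Field A (M' * q * q)) : FF (M' * q * q))
      = heckeBetaBar Kbar (M' * q) q (x : FF (M' * q))) :
    (∀ z, (s36Final A M' q hq hqM hA hζq hζ hE R hR).redInf (f.toB z)
        = φ ((nodeSetupN A M' q hq hqM hA RN hRN).redInf z)) ∧
    (∀ z, (s36Final A M' q hq hqM hA hζq hζ hE R hR).redMid (f.toB z)
        = (nodeSetupN A M' q hq hqM hA RN hRN).redZero z) ∧
    (∀ z, (s36Final A M' q hq hqM hA hζq hζ hE R hR).redZero (f.toB z)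
        = (nodeSetupN A M' q hq hqM hA RN hRN).redZero z) :=
  ⟨fun z => tblc_beta_inf A M' q hq hqM hA RN hRN R hR φ
      (vmidSV A hq ((A.mem_nonunits_iff).mp hA) hζq hE) (vmid_hinto A hq hqM hA hζq hζ hE)
      (vmid_honto A hq hA hζq hE) hφ f hf z,
   fun z => tblc_beta_mid A M' q hq hqM hA RN hRN R hR ((A.mem_nonunits_iff).mp hA) hζq hE
      (vmid_hinto A hq hqM hA hζq hζ hE) (vmid_honto A hq hA hζq hE) f hf z,
   fun z => tblc_beta_zero A M' q hq hqM hA RN hRN R hR
      (vmidSV A hq ((A.mem_nonunits_iff).mp hA) hζq hE) (vmid_hinto A hq hqM hA hζq hζ hE)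
      (vmid_honto A hq hA hζq hE) f hf z⟩

end Final

end Table

end Fermat.Agent.S36lib
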