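/-
Item 83 (S36), block TOR, FINAL (helper25): **`htor` for the final setup `s36Final`.**

`s36_htor_final`: for `SF = s36Final …` (level `M' q²`) and `SN = nodeSetupN … RN hRN`
(level `M' q`), for every `b ∈ B` which is a unit at the nodes and Kummer-new:
`∃ s ∈ B`, a unit at the nodes, with `b ^ ((q-1)(q+1)) ≡ s ^ m` modulo `p_∞ ∩ p_mid ∩ p_0`.
This is the hypothesis `htor` of the head of the crux (helper26, `H1Conc.lean`).

Assembly of: `s36_crux_head` (helper3), `glueN_package`, `glueN_hN`, `glueN_hgl`, `glueN_hgl'`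
(`GlueNConc.lean`), `vsand_hglue` (helper21), `TorInst` (helper6), `abel_s36Final` (helper29),
`tblc_final_alpha/beta` (helper3).  Remaining hypotheses: the two degeneracy maps
`fα fβ : SetupMap SN SF` with their coe-equations, `hαint`, and `m` invertible in `B`.

`s36_hnode_final`: a node of `SF` containing `p_mid` (the hypothesis `hnode` of the head and of
`hh0`), from `s36_hnode_of_tor` (helper26) at the first gluing point.
No sorry.
-/
import Mathlib
import Fermat.Agent.S36lib.GlueNConc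
import Fermat.Agent.S36lib.VSand
import Fermat.Agent.S36lib.AbelInst
import Fermat.Agent.S36lib.CruxHead
import Fermat.Agent.S36lib.TableConc
import Fermat.Agent.S36lib.H1Node

set_option autoImplicit false
set_option linter.style.haveILetI false
set_option linter.unusedSectionVars false
set_option linter.unusedVariables false
set_option synthInstance.maxHeartbeats 400000

noncomputable section

namespace Fermat.Agent.S36lib

open AlgebraicCurve ModularCurve HahnSeries
open Fermat.Agent.S24lib Fermat.Agent.S34lib Fermat.Agent.GoodRed Fermat.Agent.GM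
  Fermat.Agent.RRlib Fermat.Agent.HeckeBar Fermat.Agent.S37lib Fermat.Agent.S35lib

variable (A : ValuationSubring Kbar) (M' q : ℕ) [NeZero M'] [NeZero q]
variable (hq : q.Prime) (hqM : ¬ q ∣ M') (hA : A.LiesOverPrime q)
variable {ζ : Kbarˣ} {E : FF (M' * q * q) →+* LaurentSeries Kbar}
variable (hζq : ζ ^ q = 1) (hζ : IsPrimitiveRoot (ζ : Kbar) q) (hE : IsMidExp M' q ζ E)
variable (R : ConstRed A (IsLocalRing.residue A)
    (↥(modularFunctionFieldFullC (IsLocalRing.ResidueField A) M')) (FF (M' * q * q)))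
  (hR : IsSeriesRed R)
  (RN : ConstRed A (IsLocalRing.residue A)
    (↥(modularFunctionFieldFullC (IsLocalRing.ResidueField A) M')) (FF (M' * q)))
  (hRN : IsSeriesRed RN)

set_option maxHeartbeats 2000000 in
/-- **`htor` for the final setup.** -/
theorem s36_htor_final [Fact q.Prime] [CharP (IsLocalRing.ResidueField A) q]
    [PerfectRing (IsLocalRing.ResidueField A) q]
    (haux : IsAuxLevel q M')
    (fα fβ : SetupMap (nodeSetupN A M' q hq hqM hA RN hRN)
      (s36Final A M' q hq hqM hA hζq hζ hE R hR))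
    (hfα : ∀ x : f0Field A (M' * q), ((fα.φ x : f0Field A (M' * q * q)) : FF (M' * q * q))
      = heckeAlphaBar Kbar (M' * q) q (x : FF (M' * q)))
    (hfβ : ∀ x : f0Field A (M' * q), ((fβ.φ x : f0Field A (M' * q * q)) : FF (M' * q * q))
      = heckeBetaBar Kbar (M' * q) q (x : FF (M' * q)))
    (hαint : fα.toB.IsIntegral)
    (m : ℕ) (hm : 0 < m)
    (mi : (s36Final A M' q hq hqM hA hζq hζ hE R hR).B)
    (hmi : (m : (s36Final A M' q hq hqM hA hζq hζ hE R hR).B) * mi = 1)
    (b : (s36Final A M' q hq hqM hA hζq hζ hE R hR).B)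
    (hb : (s36Final A M' q hq hqM hA hζq hζ hE R hR).IsUnitAtNodes b)
    (hnew : IsKummerNew2 M' q m ((b : f0Field A (M' * q * q)) : FF (M' * q * q)))
    (hbI : (s36Final A M' q hq hqM hA hζq hζ hE R hR).redInf b ≠ 0)
    (hbM : (s36Final A M' q hq hqM hA hζq hζ hE R hR).redMid b ≠ 0) :
    ∃ s : (s36Final A M' q hq hqM hA hζq hζ hE R hR).B,
      (s36Final A M' q hq hqM hA hζq hζ hE R hR).IsUnitAtNodes s ∧
      b ^ ((q - 1) * (q + 1)) - s ^ m ∈
        (s36Final A M' q hq hqM hA hζq hζ hE R hR).pInf ⊓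
          (s36Final A M' q hq hqM hA hζq hζ hE R hR).pMid ⊓
          (s36Final A M' q hq hqM hA hζq hζ hE R hR).pZero := by
  classical
  haveI : NeZero (M' * q) := ⟨Nat.mul_ne_zero (NeZero.ne M') hq.ne_zero⟩
  haveI : IsAlgClosed (IsLocalRing.ResidueField A) := isAlgClosed_residueField A
  haveI : Infinite (IsLocalRing.ResidueField A) := IsAlgClosed.instInfinite
  haveI : RRHyp Kbar (FF (M' * q)) := mod_rrHyp (M' * q)
  haveI : RRHyp (IsLocalRing.ResidueField A)
      (↥(modularFunctionFieldFullC (IsLocalRing.ResidueField A) M')) :=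
    mr_rrHyp (IsLocalRing.ResidueField A) M'
  -- the nodes of level `N`
  obtain ⟨X, a₀, hXB, H, hn, he, -⟩ := glueN_package M' q hq hqM haux hA RN hRN
  haveI : Nonempty (Fin X.n) := ⟨⟨0, hn⟩⟩
  -- the norm table and the roots
  obtain ⟨Nα, Nβ, nαInf, nαZero, nβInf, nβZero, hroots⟩ :=
    abel_s36Final A M' q hq hqM hA hζq hζ hE R hR RN hRN
  obtain ⟨cα, cβ, yα, yβ, hcα, hcβ, hyα, hyβ⟩ := hroots m hm b hnew hbI hbM
  -- the reduction tables
  obtain ⟨tαInf, tαMid, tαZero⟩ := tblc_final_alpha A M' q hq hqM hA RN hRN R hR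
    (φ := (affFrobFk (IsLocalRing.ResidueField A) q M').toRingHom) hζq hζ hE (fun x => rfl)
    fα hfα
  obtain ⟨tβInf, tβMid, tβZero⟩ := tblc_final_beta A M' q hq hqM hA RN hRN R hR
    (φ := (affFrobFk (IsLocalRing.ResidueField A) q M').toRingHom) hζq hζ hE (fun x => rfl)
    fβ hfβ
  -- the affine ring
  have hRic : ∀ x : ↥(modularFunctionFieldFullC (IsLocalRing.ResidueField A) M'),
      IsIntegral X.B x → x ∈ X.B := by
    have key : ∀ B : Subalgebra (IsLocalRing.ResidueField A)
        (↥(modularFunctionFieldFullC (IsLocalRing.ResidueField A) M')),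
        B = affRing (infPlaceC (IsLocalRing.ResidueField A) M') →
        ∀ x, IsIntegral B x → x ∈ B := by
      rintro B rfl x hx
      exact affRing_mem_of_isIntegral _ hx
    exact key X.B hXB
  exact s36_crux_head fα fβ hαint X.B hRic
    (torClosed_of_mem_iff (infPlaceC (IsLocalRing.ResidueField A) M') X.B X.mem_B)
    m q hm hq.two_le (vsurj_k0Res_surjective q hq hA)
    (affFrobFk (IsLocalRing.ResidueField A) q M').toRingHom
    (fun x hx => affFrobFk_mem (IsLocalRing.ResidueField A) q M' X.B X.mem_B hx)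
    (fun z => (glueN_hN A M' q hq hqM hA RN hRN X H z).1)
    (fun z => (glueN_hN A M' q hq hqM hA RN hRN X H z).2)
    tαInf tαMid tαZero tβInf tβMid tβZero
    X.e₁ X.e₂ (torFr (IsLocalRing.ResidueField A) q M')
    (torFr_hFrR_of_mem_iff (IsLocalRing.ResidueField A) q M' X.B X.mem_B)
    (torFr_hFrk (IsLocalRing.ResidueField A) q M')
    (torFr_hFre_of_glue (IsLocalRing.ResidueField A) q M' X.B X.e₁ X.e₂ he)
    (torFr_affFrobFk (IsLocalRing.ResidueField A) q M')
    (fun r₁ r₂ h => vsand_hglue M' q hq hqM hA hRN X (s36D1N M' q hq hqM) (Or.inl rfl)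
      (Or.inr (glueN_alW1_smul_inf M' q hq hqM).symm) r₁ r₂ h)
    (glueN_hgl A M' q hq hqM hA RN hRN X H)
    (glueN_hgl' A M' q hq hqM hA RN hRN X H)
    Nα Nβ nαInf nαZero nβInf nβZero mi hmi
    (fun c => IsAlgClosed.exists_pow_nat_eq c hm)
    b hb cα cβ hcα hcβ yα yβ hyα hyβ

set_option maxHeartbeats 2000000 in
/-- **`hnode` for the final setup**: a node containing `p_mid`. -/
theorem s36_hnode_final [Fact q.Prime] [CharP (IsLocalRing.ResidueField A) q]
    [PerfectRing (IsLocalRing.ResidueField A) q]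
    (haux : IsAuxLevel q M')
    (fα : SetupMap (nodeSetupN A M' q hq hqM hA RN hRN)
      (s36Final A M' q hq hqM hA hζq hζ hE R hR))
    (hfα : ∀ x : f0Field A (M' * q), ((fα.φ x : f0Field A (M' * q * q)) : FF (M' * q * q))
      = heckeAlphaBar Kbar (M' * q) q (x : FF (M' * q)))
    (hαint : fα.toB.IsIntegral) :
    ∃ t : Ideal (s36Final A M' q hq hqM hA hζq hζ hE R hR).B,
      (s36Final A M' q hq hqM hA hζq hζ hE R hR).IsNode t ∧
      (s36Final A M' q hq hqM hA hζq hζ hE R hR).pMid ≤ t := by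
  classical
  haveI : NeZero (M' * q) := ⟨Nat.mul_ne_zero (NeZero.ne M') hq.ne_zero⟩
  haveI : IsAlgClosed (IsLocalRing.ResidueField A) := isAlgClosed_residueField A
  haveI : Infinite (IsLocalRing.ResidueField A) := IsAlgClosed.instInfinite
  haveI : RRHyp Kbar (FF (M' * q)) := mod_rrHyp (M' * q)
  haveI : RRHyp (IsLocalRing.ResidueField A)
      (↥(modularFunctionFieldFullC (IsLocalRing.ResidueField A) M')) :=
    mr_rrHyp (IsLocalRing.ResidueField A) M'
  obtain ⟨X, a₀, hXB, H, hn, he, -⟩ := glueN_package M' q hq hqM haux hA RN hRN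
  obtain ⟨Nα, Nβ, nαInf, nαZero, -, -, -⟩ :=
    abel_s36Final A M' q hq hqM hA hζq hζ hE R hR RN hRN
  obtain ⟨tαInf, tαMid, tαZero⟩ := tblc_final_alpha A M' q hq hqM hA RN hRN R hR
    (φ := (affFrobFk (IsLocalRing.ResidueField A) q M').toRingHom) hζq hζ hE (fun x => rfl)
    fα hfα
  have hRic : ∀ x : ↥(modularFunctionFieldFullC (IsLocalRing.ResidueField A) M'),
      IsIntegral X.B x → x ∈ X.B := by
    have key : ∀ B : Subalgebra (IsLocalRing.ResidueField A)
        (↥(modularFunctionFieldFullC (IsLocalRing.ResidueField A) M')),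
        B = affRing (infPlaceC (IsLocalRing.ResidueField A) M') →
        ∀ x, IsIntegral B x → x ∈ B := by
      rintro B rfl x hx
      exact affRing_mem_of_isIntegral _ hx
    exact key X.B hXB
  obtain ⟨hMInf, hMMid, hMZero⟩ := s36_redMem_nodeSetup fα hαint X.B hRic
    (affFrobFk (IsLocalRing.ResidueField A) q M').toRingHom
    (fun x hx => affFrobFk_mem (IsLocalRing.ResidueField A) q M' X.B X.mem_B hx)
    (fun z => (glueN_hN A M' q hq hqM hA RN hRN X H z).1)
    (fun z => (glueN_hN A M' q hq hqM hA RN hRN X H z).2)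
    tαInf tαMid tαZero
  obtain ⟨t, ht, htM, -⟩ := s36_hnode_of_tor
    (SN := nodeSetupN A M' q hq hqM hA RN hRN)
    (SM := s36Final A M' q hq hqM hA hζq hζ hE R hR) X.B q hq.two_le
    (vsurj_k0Res_surjective q hq hA)
    (fun z => (glueN_hN A M' q hq hqM hA RN hRN X H z).1)
    (fun z => (glueN_hN A M' q hq hqM hA RN hRN X H z).2)
    hMInf hMMid hMZero X.e₁ X.e₂ (torFr (IsLocalRing.ResidueField A) q M')
    (torFr_hFre_of_glue (IsLocalRing.ResidueField A) q M' X.B X.e₁ X.e₂ he)
    (glueN_hgl A M' q hq hqM hA RN hRN X H)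
    Nα nαInf nαZero ⟨0, hn⟩
  exact ⟨t, ht, htM⟩

end Fermat.Agent.S36lib

end
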