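/-
Item 83 (S36), block TOR, FINAL, instantiated (helper25).

`s36Final_htor_pow_of_int` : the hypothesis `htor` of `s36Final_hhead_pow` (helper26,
`H1Final.lean`) VERBATIM — for all exponents `m = p ^ n`, `q ∤ p` — for the final setup
`SF = s36Final …`, with `fα = tblmAlphaF`, `fβ = tblmBetaF` (helper3, `TableMaps.lean`); the
inverse of `m` in `B` is constructed here (`torf_isUnit_natCast`, `torf_exists_inv`).
`s36Final_hnode_of_int` : the hypothesis `hnode` (one node containing `p_mid`).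

The versions `…_of_int` keep the integrality `hαint` of `tblmAlphaF` as a hypothesis, for one
`IsSeriesRed` reduction `RN` of level `M' q`.

**UNCONDITIONAL** (only `haux : IsAuxLevel q M'`): `torf_alphaInt` (`hαint` from helper20's
`aint_isIntegral` and helper2's `sumi_isIntegral`), **`s36Final_htor_pow`** (= `htor` of
`s36Final_hhead_pow` / `s36Final_crux_main`, verbatim) and **`s36Final_hnode`** (= `hnode`).
No sorry.
-/
import Mathlib
import Fermat.Agent.S36lib.TorFinal
import Fermat.Agent.S36lib.TableMaps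
import Fermat.Agent.S36lib.H1Final
import Fermat.Agent.S36lib.AlphaInt
import Fermat.Agent.S36lib.SumFinal

set_option autoImplicit false
set_option linter.style.haveILetI false
set_option linter.unusedSectionVars false
set_option linter.unusedVariables false
set_option synthInstance.maxHeartbeats 400000

noncomputable section

namespace Fermat.Agent.S36lib

open AlgebraicCurve ModularCurve HahnSeries
open Fermat.Agent.S24lib Fermat.Agent.S34lib Fermat.Agent.GoodRed Fermat.Agent.GM
  Fermat.Agent.RRlib Fermat.Agent.HeckeBar Fermat.Agent.S37lib Fermat.Agent.S35lib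

section Inv

/-- a natural number with nonzero residue is a unit of `A0 = A ∩ K0` -/
theorem torf_isUnit_natCast (A : ValuationSubring Kbar) (m : ℕ)
    (hmk : (m : IsLocalRing.ResidueField A) ≠ 0) : IsUnit (m : k0Val A) := by
  have h1 : IsLocalRing.residue A (m : A) ≠ 0 := by rwa [map_natCast]
  have h2 : IsUnit (m : A) := (IsLocalRing.residue_ne_zero_iff_isUnit _).1 h1
  have h3 : A.valuation (((m : A) : Kbar)) = 1 := (A.valuation_eq_one_iff _).1 h2
  rw [k0Val_isUnit_iff]
  have e : (((m : k0Val A) : k0Field A) : Kbar) = (((m : A) : Kbar)) := by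
    simp
  rw [e]
  exact h3

/-- a natural number which is a unit of `A` is invertible in the affine ring `B` -/
theorem torf_exists_inv {K : Type*} [Field K] {k : Type*} [Field k]
    {A : ValuationSubring K} {π : A →+* k} {κ : Type*} [Field κ] [Algebra k κ]
    {F : Type*} [Field F] [Algebra K F] (S : NodeSetup A π κ F) (m : ℕ)
    (hu : IsUnit (m : A)) : ∃ mi : S.B, (m : S.B) * mi = 1 := by
  obtain ⟨u, hu⟩ := hu
  refine ⟨S.constB ((u⁻¹ : Aˣ) : A), ?_⟩
  have e : (m : S.B) = S.constB (u : A) := by rw [hu, map_natCast]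
  rw [e, ← map_mul, Units.mul_inv, map_one]

end Inv

variable (A : ValuationSubring Kbar) (M' q : ℕ) [NeZero M'] [NeZero q]
variable (hq : q.Prime) (hqM : ¬ q ∣ M') (hA : A.LiesOverPrime q)
variable {ζ : Kbarˣ} {E : FF (M' * q * q) →+* LaurentSeries Kbar}
variable (hζq : ζ ^ q = 1) (hζ : IsPrimitiveRoot (ζ : Kbar) q) (hE : IsMidExp M' q ζ E)
variable (R : ConstRed A (IsLocalRing.residue A)
    (↥(modularFunctionFieldFullC (IsLocalRing.ResidueField A) M')) (FF (M' * q * q)))
  (hR : IsSeriesRed R)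
  (RN : ConstRed A (IsLocalRing.residue A)
    (↥(modularFunctionFieldFullC (IsLocalRing.ResidueField A) M')) (FF (M' * q)))
  (hRN : IsSeriesRed RN)

set_option maxHeartbeats 2000000 in
/-- **`htor` for the final setup, one exponent `m` with `(m : k) ≠ 0`**, `fα = tblmAlphaF`,
`fβ = tblmBetaF`. -/
theorem s36Final_htor_of_int (haux : IsAuxLevel q M')
    (hαint : (tblmAlphaF A M' q hq hqM hA RN hRN R hR hζq hζ hE).toB.IsIntegral)
    (m : ℕ) (hm : 0 < m) (hmk : (m : IsLocalRing.ResidueField A) ≠ 0)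
    (b : (s36Final A M' q hq hqM hA hζq hζ hE R hR).B)
    (hb : (s36Final A M' q hq hqM hA hζq hζ hE R hR).IsUnitAtNodes b)
    (hnew : IsKummerNew2 M' q m ((b : f0Field A (M' * q * q)) : FF (M' * q * q)))
    (hbI : (s36Final A M' q hq hqM hA hζq hζ hE R hR).redInf b ≠ 0)
    (hbM : (s36Final A M' q hq hqM hA hζq hζ hE R hR).redMid b ≠ 0) :
    ∃ s : (s36Final A M' q hq hqM hA hζq hζ hE R hR).B,
      (s36Final A M' q hq hqM hA hζq hζ hE R hR).IsUnitAtNodes s ∧
      b ^ ((q - 1) * (q + 1)) - s ^ m ∈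
        (s36Final A M' q hq hqM hA hζq hζ hE R hR).pInf ⊓
          (s36Final A M' q hq hqM hA hζq hζ hE R hR).pMid ⊓
          (s36Final A M' q hq hqM hA hζq hζ hE R hR).pZero := by
  haveI : Fact q.Prime := ⟨hq⟩
  haveI : CharP (IsLocalRing.ResidueField A) q := charP_residueField hA
  haveI : IsAlgClosed (IsLocalRing.ResidueField A) := isAlgClosed_residueField A
  haveI : PerfectRing (IsLocalRing.ResidueField A) q := inferInstance
  obtain ⟨mi, hmi⟩ := torf_exists_inv (s36Final A M' q hq hqM hA hζq hζ hE R hR) m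
    (torf_isUnit_natCast A m hmk)
  exact s36_htor_final A M' q hq hqM hA hζq hζ hE R hR RN hRN haux
    (tblmAlphaF A M' q hq hqM hA RN hRN R hR hζq hζ hE)
    (tblmBetaF A M' q hq hqM hA RN hRN R hR hζq hζ hE)
    (tblmAlphaF_coe A M' q hq hqM hA RN hRN R hR hζq hζ hE)
    (tblmBetaF_coe A M' q hq hqM hA RN hRN R hR hζq hζ hE)
    hαint m hm mi hmi b hb hnew hbI hbM

/-- **`htor` of `s36Final_hhead_pow`, verbatim** (all exponents `p ^ n`, `q ∤ p`). -/
theorem s36Final_htor_pow_of_int (haux : IsAuxLevel q M')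
    (hαint : (tblmAlphaF A M' q hq hqM hA RN hRN R hR hζq hζ hE).toB.IsIntegral)
    (p : ℕ) (hqp : ¬ q ∣ p) (hp0 : 0 < p) :
    ∀ n : ℕ, ∀ b : (s36Final A M' q hq hqM hA hζq hζ hE R hR).B,
      (s36Final A M' q hq hqM hA hζq hζ hE R hR).IsUnitAtNodes b →
      IsKummerNew2 M' q (p ^ n) (((b : f0Field A (M' * q * q)) : FF (M' * q * q))) →
      (s36Final A M' q hq hqM hA hζq hζ hE R hR).redInf b ≠ 0 →
      (s36Final A M' q hq hqM hA hζq hζ hE R hR).redMid b ≠ 0 →
      (s36Final A M' q hq hqM hA hζq hζ hE R hR).redZero b ≠ 0 →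
      ∃ s : (s36Final A M' q hq hqM hA hζq hζ hE R hR).B,
        (s36Final A M' q hq hqM hA hζq hζ hE R hR).IsUnitAtNodes s ∧
        b ^ ((q - 1) * (q + 1)) - s ^ (p ^ n) ∈
          (s36Final A M' q hq hqM hA hζq hζ hE R hR).pInf ⊓
            (s36Final A M' q hq hqM hA hζq hζ hE R hR).pMid ⊓
            (s36Final A M' q hq hqM hA hζq hζ hE R hR).pZero :=
  fun n b hb hnew hbI hbM _ =>
    s36Final_htor_of_int A M' q hq hqM hA hζq hζ hE R hR RN hRN haux hαint (p ^ n)
      (pow_pos hp0 n) (s36_pow_residue_ne_zero A q hq hA p hqp n) b hb hnew hbI hbM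

/-- **`hnode` of `s36Final_hhead_pow` / `s36Final_hh0_of`**: one node containing `p_mid`. -/
theorem s36Final_hnode_of_int (haux : IsAuxLevel q M')
    (hαint : (tblmAlphaF A M' q hq hqM hA RN hRN R hR hζq hζ hE).toB.IsIntegral) :
    ∃ t : Ideal (s36Final A M' q hq hqM hA hζq hζ hE R hR).B,
      (s36Final A M' q hq hqM hA hζq hζ hE R hR).IsNode t ∧
      (s36Final A M' q hq hqM hA hζq hζ hE R hR).pMid ≤ t := by
  haveI : Fact q.Prime := ⟨hq⟩
  haveI : CharP (IsLocalRing.ResidueField A) q := charP_residueField hA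
  haveI : IsAlgClosed (IsLocalRing.ResidueField A) := isAlgClosed_residueField A
  haveI : PerfectRing (IsLocalRing.ResidueField A) q := inferInstance
  exact s36_hnode_final A M' q hq hqM hA hζq hζ hE R hR RN hRN haux
    (tblmAlphaF A M' q hq hqM hA RN hRN R hR hζq hζ hE)
    (tblmAlphaF_coe A M' q hq hqM hA RN hRN R hR hζq hζ hE) hαint

/-! ### The unconditional forms -/

set_option maxHeartbeats 2000000 in
/-- **`hαint`, unconditional**: `B_{D1}(M' q²)` is integral over `B_{D1}(M' q)` along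
`α = tblmAlphaF`. -/
theorem torf_alphaInt (haux : IsAuxLevel q M') :
    (tblmAlphaF A M' q hq hqM hA RN hRN R hR hζq hζ hE).toB.IsIntegral := by
  haveI : Fact q.Prime := ⟨hq⟩
  obtain ⟨R', -, hR', -⟩ := liftInf_exists_red M' A q haux hA
  refine aint_isIntegral A M' q hq hqM hA hζq hζ hE R hR RN hRN R' hR' haux ?_
    (tblmAlphaF A M' q hq hqM hA RN hRN R hR hζq hζ hE)
    (tblmAlphaF_coe A M' q hq hqM hA RN hRN R hR hζq hζ hE)
  intro b hb h1 h2 h3
  obtain ⟨p, hp, hpc, hpb⟩ := sumi_isIntegral A M' q hq hqM hA R' R hR' hR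
    ((A.mem_nonunits_iff).mp hA) hζq hζ hE (vmidSV A hq ((A.mem_nonunits_iff).mp hA) hζq hE) rfl
    b hb h1 h2 h3
  exact ⟨p, hp, fun n => (hpc n).1, hpb⟩

end Fermat.Agent.S36lib

namespace Fermat.Agent.S36lib

open AlgebraicCurve ModularCurve HahnSeries
open Fermat.Agent.S24lib Fermat.Agent.S34lib Fermat.Agent.GoodRed Fermat.Agent.GM
  Fermat.Agent.RRlib Fermat.Agent.HeckeBar Fermat.Agent.S37lib Fermat.Agent.S35lib

variable (A : ValuationSubring Kbar) (M' q : ℕ) [NeZero M'] [NeZero q]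
variable (hq : q.Prime) (hqM : ¬ q ∣ M') (hA : A.LiesOverPrime q)
variable {ζ : Kbarˣ} {E : FF (M' * q * q) →+* LaurentSeries Kbar}
variable (hζq : ζ ^ q = 1) (hζ : IsPrimitiveRoot (ζ : Kbar) q) (hE : IsMidExp M' q ζ E)
variable (R : ConstRed A (IsLocalRing.residue A)
    (↥(modularFunctionFieldFullC (IsLocalRing.ResidueField A) M')) (FF (M' * q * q)))
  (hR : IsSeriesRed R)

/-- **`htor` of `s36Final_hhead_pow` / `s36Final_crux_main`, UNCONDITIONAL**
(all exponents `p ^ n`, `q ∤ p`). -/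
theorem s36Final_htor_pow (haux : IsAuxLevel q M') (p : ℕ) (hqp : ¬ q ∣ p) (hp0 : 0 < p) :
    ∀ n : ℕ, ∀ b : (s36Final A M' q hq hqM hA hζq hζ hE R hR).B,
      (s36Final A M' q hq hqM hA hζq hζ hE R hR).IsUnitAtNodes b →
      IsKummerNew2 M' q (p ^ n) (((b : f0Field A (M' * q * q)) : FF (M' * q * q))) →
      (s36Final A M' q hq hqM hA hζq hζ hE R hR).redInf b ≠ 0 →
      (s36Final A M' q hq hqM hA hζq hζ hE R hR).redMid b ≠ 0 →
      (s36Final A M' q hq hqM hA hζq hζ hE R hR).redZero b ≠ 0 →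
      ∃ s : (s36Final A M' q hq hqM hA hζq hζ hE R hR).B,
        (s36Final A M' q hq hqM hA hζq hζ hE R hR).IsUnitAtNodes s ∧
        b ^ ((q - 1) * (q + 1)) - s ^ (p ^ n) ∈
          (s36Final A M' q hq hqM hA hζq hζ hE R hR).pInf ⊓
            (s36Final A M' q hq hqM hA hζq hζ hE R hR).pMid ⊓
            (s36Final A M' q hq hqM hA hζq hζ hE R hR).pZero := by
  obtain ⟨RN, hRN⟩ := sconc_exists_constRedInfN A M' q hq hqM hA
  exact s36Final_htor_pow_of_int A M' q hq hqM hA hζq hζ hE R hR RN hRN haux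
    (torf_alphaInt A M' q hq hqM hA hζq hζ hE R hR RN hRN haux) p hqp hp0

/-- **`hnode` of `s36Final_hhead_pow` / `s36Final_crux_main` / `s36Final_hh0_of`,
UNCONDITIONAL**: one node of the final setup containing `p_mid`. -/
theorem s36Final_hnode (haux : IsAuxLevel q M') :
    ∃ t : Ideal (s36Final A M' q hq hqM hA hζq hζ hE R hR).B,
      (s36Final A M' q hq hqM hA hζq hζ hE R hR).IsNode t ∧
      (s36Final A M' q hq hqM hA hζq hζ hE R hR).pMid ≤ t := by
  obtain ⟨RN, hRN⟩ := sconc_exists_constRedInfN A M' q hq hqM hA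
  exact s36Final_hnode_of_int A M' q hq hqM hA hζq hζ hE R hR RN hRN haux
    (torf_alphaInt A M' q hq hqM hA hζq hζ hE R hR RN hRN haux)

end Fermat.Agent.S36lib

end
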