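/-
Item 83 (S36), FINAL ASSEMBLY of `A2Inputs` (helper16, for the chief architect helper20).
Complete proofs.

`a2asm_inputs : A2Inputs` from the three inputs that are NOT yet plugged, for the final setup
`SF = s36Final … (cfm_isMidExp …) …` (middle expansion `ecMid ζ`), for every admissible
`(q, M', A, ζ, R)`:
  (T)  `htri`  : the trichotomy at the maximal ideals containing `q`,
  (M)  `hmid`  : the middle components are regular in codimension one (REG3),
  (U)  `hufd`  : the local rings at the nodes are factorial (R5).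

Everything else is plugged:
(R1), (R2) = `s36Final_noeth_frac` (helper12), (R3) = `s36Final_nodes_fin'` (helper18),
(R4) = `s36Final_node_ex` (helper18), the Dedekind quotients = `d1q_final_inf/mid/zero`
(helper27), `hnode` = `s36Final_hnode`, `htor` = `s36Final_htor_pow` (helper25),
(C) = `s36Final_crux_main` (helper16).
-/
import Mathlib
import Fermat.Agent.S36lib.Apply2Main
import Fermat.Agent.S36lib.CruxFinal7
import Fermat.Agent.S36lib.R12Final
import Fermat.Agent.S36lib.NodesFin2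
import Fermat.Agent.S36lib.NodesConc
import Fermat.Agent.S36lib.TorFinal2
import Fermat.Agent.S36lib.D1DedekindFinal

set_option autoImplicit false
set_option linter.style.longLine false
set_option linter.unusedSectionVars false
set_option linter.unusedVariables false
set_option linter.style.haveILetI false
set_option synthInstance.maxHeartbeats 400000

noncomputable section

namespace Fermat.Agent.S36lib

open ModularCurve HahnSeries AlgebraicCurve
open Fermat.Agent.GoodRed Fermat.Agent.S24lib Fermat.Agent.S34lib Fermat.Agent.S37lib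
  Fermat.Agent.HeckeBar Fermat.Agent.S35lib Fermat.Agent.GM Fermat.Agent.RRlib

section At

variable (A : ValuationSubring Kbar) (M' q : ℕ) [NeZero M'] [NeZero q]
variable (hq : q.Prime) (hqM : ¬ q ∣ M') (hA : A.LiesOverPrime q)
variable {ζ : Kbarˣ} (hζq : ζ ^ q = 1) (hζ : IsPrimitiveRoot (ζ : Kbar) q)
variable (R : ConstRed A (IsLocalRing.residue A)
      (↥(modularFunctionFieldFullC (IsLocalRing.ResidueField A) M')) (FF (M' * q * q)))
    (hR : IsSeriesRed R)

local notation "SFa" =>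
  s36Final A M' q hq hqM hA hζq hζ (cfm_isMidExp M' q hq hqM ζ hζ) R hR

/-- (T) **the trichotomy** at the maximal ideals of the final setup containing `q` -/
def A2HypT : Prop :=
  ∀ 𝔪 : Ideal (SFa).B, 𝔪.IsMaximal → (SFa).constB (q : k0Val A) ∈ 𝔪 → (SFa).IsNode 𝔪 ∨
    ((SFa).pInf ≤ 𝔪 ∧ ¬ (SFa).pMid ≤ 𝔪 ∧ ¬ (SFa).pZero ≤ 𝔪) ∨
    (¬ (SFa).pInf ≤ 𝔪 ∧ (SFa).pMid ≤ 𝔪 ∧ ¬ (SFa).pZero ≤ 𝔪) ∨
    (¬ (SFa).pInf ≤ 𝔪 ∧ ¬ (SFa).pMid ≤ 𝔪 ∧ (SFa).pZero ≤ 𝔪)

/-- (M) **REG3**: the middle component of the final setup is regular in codimension one -/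
def A2HypM : Prop :=
  ∀ 𝔪 : Ideal (SFa).B, 𝔪.IsMaximal → (SFa).constB (q : k0Val A) ∈ 𝔪 →
    (SFa).pMid ≤ 𝔪 → ¬ (SFa).pInf ≤ 𝔪 → ¬ (SFa).pZero ≤ 𝔪 →
    ∃ π₀ w₁ b : (SFa).B, π₀ ∈ (SFa).pMid ∧ w₁ ∉ 𝔪 ∧ b ∉ 𝔪 ∧
      w₁ * π₀ ^ (q - 1) = (SFa).constB (q : k0Val A) * b

/-- (U) **(R5)**: the local rings of the final setup at the nodes are factorial -/
def A2HypU : Prop :=
  ∀ t : Ideal (SFa).B, (SFa).IsNode t → ∀ _ : t.IsMaximal,
    UniqueFactorizationMonoid (Localization.AtPrime t)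

set_option maxHeartbeats 4000000 in
/-- **the data of `A2Inputs` for the final setup**, from (T), (M), (U). -/
theorem a2asm_at (haux : IsAuxLevel q M') (p : ℕ) (hp : p.Prime) (hqp : q ≠ p)
    (hT : A2HypT A M' q hq hqM hA hζq hζ R hR) (hM : A2HypM A M' q hq hqM hA hζq hζ R hR)
    (hU : A2HypU A M' q hq hqM hA hζq hζ R hR) :
    IsNoetherianRing (SFa).B ∧
    (∀ z : f0Field A (M' * q * q), ∃ a b : (SFa).B,
      b ≠ 0 ∧ z * (b : f0Field A (M' * q * q)) = (a : f0Field A (M' * q * q))) ∧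
    {t : Ideal (SFa).B | (SFa).IsNode t}.Finite ∧
    (∃ t : Ideal (SFa).B, (SFa).IsNode t) ∧
    (∀ t : Ideal (SFa).B, (SFa).IsNode t → ∀ _ : t.IsMaximal,
      UniqueFactorizationMonoid (Localization.AtPrime t)) ∧
    ∃ c2 : ℕ, 0 < c2 ∧ ∀ n : ℕ, A2Crux M' q A (SFa) (p ^ n) c2 := by
  have hnf := s36Final_noeth_frac A M' q hq hqM hA hζq hζ (cfm_isMidExp M' q hq hqM ζ hζ)
    R hR haux
  have hI := d1q_final_inf A M' q hq hqM hA hζq hζ (cfm_isMidExp M' q hq hqM ζ hζ) R hR haux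
  have hMd := d1q_final_mid A M' q hq hqM hA hζq hζ (cfm_isMidExp M' q hq hqM ζ hζ) R hR haux
  have hZ := d1q_final_zero A M' q hq hqM hA hζq hζ (cfm_isMidExp M' q hq hqM ζ hζ) R hR haux
  have hqp' : ¬ q ∣ p := fun hd => hqp ((Nat.prime_dvd_prime_iff_eq hq hp).1 hd)
  refine ⟨hnf.1, hnf.2,
    s36Final_nodes_fin' A M' q hq hqM hA hζq hζ (cfm_isMidExp M' q hq hqM ζ hζ) R hR haux,
    s36Final_node_ex A M' q hq hqM hA hζq hζ (cfm_isMidExp M' q hq hqM ζ hζ) R hR haux,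
    hU, ?_⟩
  exact s36Final_crux_main A M' q hq hqM hA hζq hζ R hR haux p hp hqp hnf.1 hnf.2
    hI.2.1 hMd.2.1 hZ.2.1 hI.2.2.2 hMd.2.2.2 hZ.2.2.2
    (s36Final_hnode A M' q hq hqM hA hζq hζ (cfm_isMidExp M' q hq hqM ζ hζ) R hR haux)
    hT hM
    (s36Final_htor_pow A M' q hq hqM hA hζq hζ (cfm_isMidExp M' q hq hqM ζ hζ) R hR haux
      p hqp' hp.pos)

end At

set_option maxHeartbeats 4000000 in
/-- **FINAL ASSEMBLY**: `A2Inputs` from (T), (M), (U) for all admissible data. -/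
theorem a2asm_inputs
    (hT : ∀ (q M' : ℕ) [NeZero M'] [NeZero q] (hq : q.Prime) (haux : IsAuxLevel q M')
      (A : ValuationSubring Kbar) (hA : A.LiesOverPrime q)
      (ζ : Kbarˣ) (hζq : ζ ^ q = 1) (hζ : IsPrimitiveRoot (ζ : Kbar) q)
      (R : ConstRed A (IsLocalRing.residue A)
        (↥(modularFunctionFieldFullC (IsLocalRing.ResidueField A) M')) (FF (M' * q * q)))
      (hR : IsSeriesRed R), A2HypT A M' q hq haux.1 hA hζq hζ R hR)
    (hM : ∀ (q M' : ℕ) [NeZero M'] [NeZero q] (hq : q.Prime) (haux : IsAuxLevel q M')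
      (A : ValuationSubring Kbar) (hA : A.LiesOverPrime q)
      (ζ : Kbarˣ) (hζq : ζ ^ q = 1) (hζ : IsPrimitiveRoot (ζ : Kbar) q)
      (R : ConstRed A (IsLocalRing.residue A)
        (↥(modularFunctionFieldFullC (IsLocalRing.ResidueField A) M')) (FF (M' * q * q)))
      (hR : IsSeriesRed R), A2HypM A M' q hq haux.1 hA hζq hζ R hR)
    (hU : ∀ (q M' : ℕ) [NeZero M'] [NeZero q] (hq : q.Prime) (haux : IsAuxLevel q M')
      (A : ValuationSubring Kbar) (hA : A.LiesOverPrime q)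
      (ζ : Kbarˣ) (hζq : ζ ^ q = 1) (hζ : IsPrimitiveRoot (ζ : Kbar) q)
      (R : ConstRed A (IsLocalRing.residue A)
        (↥(modularFunctionFieldFullC (IsLocalRing.ResidueField A) M')) (FF (M' * q * q)))
      (hR : IsSeriesRed R), A2HypU A M' q hq haux.1 hA hζq hζ R hR) :
    A2Inputs := by
  intro q M' p _ _ hq hp hqp haux A hA
  obtain ⟨ζ, hζq, hζ⟩ := a2m_exists_zeta q
  obtain ⟨R, hR⟩ := a2m_exists_red q M' hq haux.1 A hA
  obtain ⟨h1, h2, h3, h4, h5, h6⟩ := a2asm_at A M' q hq haux.1 hA hζq hζ R hR haux p hp hqp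
    (hT q M' hq haux A hA ζ hζq hζ R hR) (hM q M' hq haux A hA ζ hζq hζ R hR)
    (hU q M' hq haux A hA ζ hζq hζ R hR)
  exact ⟨ζ, hζq, hζ, ecMid M' q hq haux.1 ζ hζ, cfm_isMidExp M' q hq haux.1 ζ hζ, R, hR,
    h1, h2, h3, h4, h5, h6⟩

end Fermat.Agent.S36lib

end
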