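/-
Item 83 (S36), CRUX piece C-2i (helper26): **the local data of the HEAD for `B_{D1}` by
TRANSFER** from `B_j` (helper22's `TransferD1`, `TransferSetup`).

`S1, S2 : NodeSetup` with the same three valuation rings and `S1.B ≤ S2.B` (`S1.B = B_{D1}`,
`S2.B = B_j`).  A maximal ideal `𝔪 ∋ q` of `S1.B` is either NON-CUSPIDAL (`t ∉ 𝔪` for some `t`
with `S2.B ⊆ S1.B[1/t]`) — then the trichotomy, the factoriality of the local ring and the REG3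
input `w₁ π₀ ^ e = q b` at `𝔪` follow from the same data for `S2` at `𝔪' = trfIdeal hc 𝔪` — or
CUSPIDAL, where the data for `S1` are hypotheses (REG3-CUSP, INC at the cusps).

* `s36_trf_input` : transfer of the REG3 input;
* `s36_trf_htri`, `s36_trf_hufd`, `s36_trf_hmid` : the three hypotheses `htri`, `hufd`, `hmid`
  of `s36_hhead` for `S1`.  No sorry.
-/
import Mathlib
import Fermat.Agent.S36lib.TransferSetup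

set_option autoImplicit false
set_option linter.style.haveILetI false
set_option linter.unusedSectionVars false

noncomputable section

namespace Fermat.Agent.S36lib

section Input

variable {B₁ B₂ : Type*} [CommRing B₁] [CommRing B₂] {ι : B₁ →+* B₂} {t : B₁}

/-- **transfer of the REG3 input** `w₁ π₀ ^ e = q b`, `w₁, b ∉ 𝔪'`, from `B₂` to `B₁`. -/
theorem s36_trf_input (hc : TrfCover ι t) (hι : Function.Injective ι) (𝔪 : Ideal B₁)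
    [h𝔪 : 𝔪.IsPrime] (ht : t ∉ 𝔪) (p₂ : Ideal B₂) (q : B₁) (e : ℕ)
    (h : ∃ π₀ w₁ b : B₂, π₀ ∈ p₂ ∧ w₁ ∉ trfIdeal hc 𝔪 ∧ b ∉ trfIdeal hc 𝔪 ∧
      w₁ * π₀ ^ e = ι q * b) :
    ∃ π₀ w₁ b : B₁, π₀ ∈ p₂.comap ι ∧ w₁ ∉ 𝔪 ∧ b ∉ 𝔪 ∧ w₁ * π₀ ^ e = q * b := by
  obtain ⟨π₀, w₁, b, hπ₀, hw₁, hb, hπ⟩ := h
  obtain ⟨n₁, a₁, ha₁⟩ := hc π₀
  obtain ⟨n₂, a₂, ha₂⟩ := hc w₁
  obtain ⟨n₃, a₃, ha₃⟩ := hc b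
  have ha₂𝔪 : a₂ ∉ 𝔪 := trf_notMem_of_notMem hc hw₁ ha₂
  have ha₃𝔪 : a₃ ∉ 𝔪 := trf_notMem_of_notMem hc hb ha₃
  have htn : ∀ n : ℕ, t ^ n ∉ 𝔪 := fun n h => ht (h𝔪.mem_of_pow_mem n h)
  refine ⟨a₁, a₂ * t ^ n₃, a₃ * t ^ (n₂ + e * n₁), ?_, ?_, ?_, ?_⟩
  · rw [Ideal.mem_comap, ha₁]
    exact p₂.mul_mem_left _ hπ₀
  · exact fun h => (h𝔪.mem_or_mem h).elim ha₂𝔪 (htn _)
  · exact fun h => (h𝔪.mem_or_mem h).elim ha₃𝔪 (htn _)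
  · apply hι
    simp only [map_mul, map_pow, ha₁, ha₂, ha₃]
    have e1 : ι t ^ n₂ * w₁ * ι t ^ n₃ * (ι t ^ n₁ * π₀) ^ e
        = ι t ^ (n₂ + n₃ + e * n₁) * (w₁ * π₀ ^ e) := by
      rw [mul_pow, ← pow_mul, pow_add, pow_add, mul_comm n₁ e]
      ring
    rw [e1, hπ, pow_add, pow_add, pow_add]
    ring

end Input

section Setup

variable {K : Type*} [Field K] {k : Type*} [Field k]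
  {A : ValuationSubring K} {π : A →+* k} {κ : Type*} [Field κ] [Algebra k κ]
  {F : Type*} [Field F] [Algebra K F]
  (S1 S2 : NodeSetup A π κ F) (hB : S1.B ≤ S2.B)
  (hInf : S1.vInf.O = S2.vInf.O) (hMid : S1.vMid.O = S2.vMid.O)
  (hZero : S1.vZero.O = S2.vZero.O)

include hInf hMid hZero in
/-- **the trichotomy for `S1`** from the trichotomy for `S2` (non-cuspidal points) and the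
incidence at the cuspidal points. -/
theorem s36_trf_htri (q : S1.B) (cusp : Ideal S1.B → Prop)
    (hcover : ∀ 𝔪 : Ideal S1.B, 𝔪.IsMaximal → q ∈ 𝔪 → ¬ cusp 𝔪 →
      ∃ t : S1.B, t ∉ 𝔪 ∧ TrfCover (Subring.inclusion hB) t)
    (htri2 : ∀ 𝔪' : Ideal S2.B, 𝔪'.IsMaximal → Subring.inclusion hB q ∈ 𝔪' → S2.IsNode 𝔪' ∨
      (S2.pInf ≤ 𝔪' ∧ ¬ S2.pMid ≤ 𝔪' ∧ ¬ S2.pZero ≤ 𝔪') ∨
      (¬ S2.pInf ≤ 𝔪' ∧ S2.pMid ≤ 𝔪' ∧ ¬ S2.pZero ≤ 𝔪') ∨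
      (¬ S2.pInf ≤ 𝔪' ∧ ¬ S2.pMid ≤ 𝔪' ∧ S2.pZero ≤ 𝔪'))
    (htriC : ∀ 𝔪 : Ideal S1.B, 𝔪.IsMaximal → q ∈ 𝔪 → cusp 𝔪 → S1.IsNode 𝔪 ∨
      (S1.pInf ≤ 𝔪 ∧ ¬ S1.pMid ≤ 𝔪 ∧ ¬ S1.pZero ≤ 𝔪) ∨
      (¬ S1.pInf ≤ 𝔪 ∧ S1.pMid ≤ 𝔪 ∧ ¬ S1.pZero ≤ 𝔪) ∨
      (¬ S1.pInf ≤ 𝔪 ∧ ¬ S1.pMid ≤ 𝔪 ∧ S1.pZero ≤ 𝔪)) :
    ∀ 𝔪 : Ideal S1.B, 𝔪.IsMaximal → q ∈ 𝔪 → S1.IsNode 𝔪 ∨
      (S1.pInf ≤ 𝔪 ∧ ¬ S1.pMid ≤ 𝔪 ∧ ¬ S1.pZero ≤ 𝔪) ∨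
      (¬ S1.pInf ≤ 𝔪 ∧ S1.pMid ≤ 𝔪 ∧ ¬ S1.pZero ≤ 𝔪) ∨
      (¬ S1.pInf ≤ 𝔪 ∧ ¬ S1.pMid ≤ 𝔪 ∧ S1.pZero ≤ 𝔪) := by
  intro 𝔪 h𝔪 hq𝔪
  by_cases hcu : cusp 𝔪
  · exact htriC 𝔪 h𝔪 hq𝔪 hcu
  obtain ⟨t, ht, hc⟩ := hcover 𝔪 h𝔪 hq𝔪 hcu
  haveI := h𝔪.isPrime
  have hι := Subring.inclusion_injective hB
  have h𝔪' := trfIdeal_isMaximal hc hι 𝔪 h𝔪 ht
  have hq' : Subring.inclusion hB q ∈ trfIdeal hc 𝔪 := map_mem_trfIdeal hc hq𝔪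
  have eI := trf_setup_le_iff_inf hc 𝔪 ht hInf
  have eM := trf_setup_le_iff_mid hc 𝔪 ht hMid
  have eZ := trf_setup_le_iff_zero hc 𝔪 ht hZero
  rcases htri2 _ h𝔪' hq' with h | h | h | h
  · exact Or.inl ((trf_setup_isNode_iff hc 𝔪 h𝔪 ht hInf hZero).1 h)
  · rw [eI, eM, eZ] at h
    exact Or.inr (Or.inl h)
  · rw [eI, eM, eZ] at h
    exact Or.inr (Or.inr (Or.inl h))
  · rw [eI, eM, eZ] at h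
    exact Or.inr (Or.inr (Or.inr h))

include hInf hZero in
/-- **factoriality of the local rings of `S1`** off the nodes, by transfer. -/
theorem s36_trf_hufd (q : S1.B) (cusp : Ideal S1.B → Prop)
    (hcover : ∀ 𝔪 : Ideal S1.B, 𝔪.IsMaximal → q ∈ 𝔪 → ¬ cusp 𝔪 →
      ∃ t : S1.B, t ∉ 𝔪 ∧ TrfCover (Subring.inclusion hB) t)
    (hufd2 : ∀ (𝔪' : Ideal S2.B) [𝔪'.IsMaximal], Subring.inclusion hB q ∈ 𝔪' →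
      ¬ S2.IsNode 𝔪' → UniqueFactorizationMonoid (Localization.AtPrime 𝔪'))
    (hufdC : ∀ (𝔪 : Ideal S1.B) [𝔪.IsMaximal], q ∈ 𝔪 → cusp 𝔪 → ¬ S1.IsNode 𝔪 →
      UniqueFactorizationMonoid (Localization.AtPrime 𝔪)) :
    ∀ (𝔪 : Ideal S1.B) [𝔪.IsMaximal], q ∈ 𝔪 → ¬ S1.IsNode 𝔪 →
      UniqueFactorizationMonoid (Localization.AtPrime 𝔪) := by
  intro 𝔪 h𝔪 hq𝔪 hnode
  by_cases hcu : cusp 𝔪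
  · exact hufdC 𝔪 hq𝔪 hcu hnode
  obtain ⟨t, ht, hc⟩ := hcover 𝔪 h𝔪 hq𝔪 hcu
  haveI := h𝔪.isPrime
  have hι := Subring.inclusion_injective hB
  haveI h𝔪' := trfIdeal_isMaximal hc hι 𝔪 h𝔪 ht
  have hq' : Subring.inclusion hB q ∈ trfIdeal hc 𝔪 := map_mem_trfIdeal hc hq𝔪
  have hnode' : ¬ S2.IsNode (trfIdeal hc 𝔪) := fun h =>
    hnode ((trf_setup_isNode_iff hc 𝔪 h𝔪 ht hInf hZero).1 h)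
  exact trf_ufm hc hι 𝔪 ht (hufd2 (trfIdeal hc 𝔪) hq' hnode')

include hInf hMid hZero in
/-- **the REG3 input for `S1`** on `C_mid`, by transfer. -/
theorem s36_trf_hmid (q : S1.B) (e : ℕ) (cusp : Ideal S1.B → Prop)
    (hcover : ∀ 𝔪 : Ideal S1.B, 𝔪.IsMaximal → q ∈ 𝔪 → ¬ cusp 𝔪 →
      ∃ t : S1.B, t ∉ 𝔪 ∧ TrfCover (Subring.inclusion hB) t)
    (hmid2 : ∀ 𝔪' : Ideal S2.B, 𝔪'.IsMaximal → Subring.inclusion hB q ∈ 𝔪' →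
      S2.pMid ≤ 𝔪' → ¬ S2.pInf ≤ 𝔪' → ¬ S2.pZero ≤ 𝔪' →
      ∃ π₀ w₁ b : S2.B, π₀ ∈ S2.pMid ∧ w₁ ∉ 𝔪' ∧ b ∉ 𝔪' ∧
        w₁ * π₀ ^ e = Subring.inclusion hB q * b)
    (hmidC : ∀ 𝔪 : Ideal S1.B, 𝔪.IsMaximal → q ∈ 𝔪 → cusp 𝔪 →
      S1.pMid ≤ 𝔪 → ¬ S1.pInf ≤ 𝔪 → ¬ S1.pZero ≤ 𝔪 →
      ∃ π₀ w₁ b : S1.B, π₀ ∈ S1.pMid ∧ w₁ ∉ 𝔪 ∧ b ∉ 𝔪 ∧ w₁ * π₀ ^ e = q * b) :
    ∀ 𝔪 : Ideal S1.B, 𝔪.IsMaximal → q ∈ 𝔪 →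
      S1.pMid ≤ 𝔪 → ¬ S1.pInf ≤ 𝔪 → ¬ S1.pZero ≤ 𝔪 →
      ∃ π₀ w₁ b : S1.B, π₀ ∈ S1.pMid ∧ w₁ ∉ 𝔪 ∧ b ∉ 𝔪 ∧ w₁ * π₀ ^ e = q * b := by
  intro 𝔪 h𝔪 hq𝔪 hM hI hZ
  by_cases hcu : cusp 𝔪
  · exact hmidC 𝔪 h𝔪 hq𝔪 hcu hM hI hZ
  obtain ⟨t, ht, hc⟩ := hcover 𝔪 h𝔪 hq𝔪 hcu
  haveI := h𝔪.isPrime
  have hι := Subring.inclusion_injective hB
  have h𝔪' := trfIdeal_isMaximal hc hι 𝔪 h𝔪 ht
  have hq' : Subring.inclusion hB q ∈ trfIdeal hc 𝔪 := map_mem_trfIdeal hc hq𝔪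
  have eI := trf_setup_le_iff_inf hc 𝔪 ht hInf
  have eM := trf_setup_le_iff_mid hc 𝔪 ht hMid
  have eZ := trf_setup_le_iff_zero hc 𝔪 ht hZero
  have h2 := hmid2 _ h𝔪' hq' (eM.2 hM) (fun h => hI (eI.1 h)) (fun h => hZ (eZ.1 h))
  have h1 := s36_trf_input hc hι 𝔪 ht S2.pMid q e h2
  rw [trf_setup_comap_pMid S1 S2 hB hMid] at h1
  exact h1

end Setup

end Fermat.Agent.S36lib

end
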