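import Mathlib
import Fermat.Agent.S36lib.SetupD1
import Fermat.Agent.S36lib.TransferSetup
import Fermat.Agent.S24lib.FFBasic
import Fermat.Agent.RRlib.Basic
import Fermat.Agent.RRlib.Modular

/-!
# Item 83 (S36), piece D1-B (concrete part 1): the cover `B_j ⊆ B_D[1/t]`

`B_D = f0AffD A L D O₁ O₂ O₃` (regular off `D`), `B_j = f0Aff A L O₁ O₂ O₃` (regular off ALL
cusps), `D` a set of cusps.  If `t ∈ B_D` and `t · j` is regular off `D`, then every `z ∈ B_j` has
`t ^ n z ∈ B_D` for `n ≫ 0`: at a cusp `P ∉ D` the function `t` vanishes, and `z` has finitely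
many poles.

* `trc_offRegular` : the statement in `FF L`;
* `trc_le` : `B_D ≤ B_j`;
* `trc_mem` : `t ^ n z ∈ B_D`;
* `trcCond` : the CONDUCTOR ideal `{t ∈ B_D | t · j regular off D}` of `B_D`;
* `trc_trfCover` : `TrfCover (B_D ≤ B_j) t` for `t` in the conductor;
* `TrcCuspidal 𝔪` : `𝔪 ⊇ trcCond` (the CUSPIDAL maximal ideals of `B_D`);
  `trc_exists_of_not_cuspidal` : a non-cuspidal `𝔪` has `t ∉ 𝔪` with `TrfCover`.
-/

set_option autoImplicit false

noncomputable section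

namespace Fermat.Agent.S36lib

open ModularCurve AlgebraicCurve
open Fermat.Agent.S24lib Fermat.Agent.S34lib Fermat.Agent.GoodRed Fermat.Agent.RRlib

variable (A : ValuationSubring Kbar) (L : ℕ) [NeZero L]

/-- `t`, `t · j` regular off `D`, `z` regular off the cusps: `t ^ m z` is regular off `D` for
`m ≫ 0`. -/
theorem trc_offRegular (D : Set (Place Kbar (FF L))) (t z : FF L)
    (ht : t ∈ offRegular L D) (htj : t * jF L ∈ offRegular L D) (hz : z ∈ cuspRegular L) :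
    ∃ n : ℕ, ∀ m : ℕ, n ≤ m → t ^ m * z ∈ offRegular L D := by
  classical
  haveI : RRBase Kbar (FF L) := (mod_rrHyp L).toRRBase
  have hfin := finite_poles_const (K := Kbar) z
  refine ⟨hfin.toFinset.sup (fun P => (-(P.ord z)).toNat), fun m hm => ?_⟩
  rw [mem_offRegular_iff]
  intro P hP
  have htP : t ∈ P.toValuationSubring := (mem_offRegular_iff L D t).1 ht P hP
  by_cases hzP : z ∈ P.toValuationSubring
  · exact mul_mem (pow_mem htP m) hzP
  -- `P` is a pole of `z`, hence a cusp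
  have hjP : jF L ∉ P.toValuationSubring := fun hj => hzP ((mem_cuspRegular_iff L z).1 hz P hj)
  have hzord : P.ord z < 0 := by
    by_contra h
    exact hzP ((ffMem_iff_ord_nonneg P).2 (not_lt.1 h))
  have hjord : P.ord (jF L) < 0 := by
    by_contra h
    exact hjP ((ffMem_iff_ord_nonneg P).2 (not_lt.1 h))
  have hPmem : P ∈ hfin.toFinset := by
    rw [Set.Finite.mem_toFinset]
    exact P.not_adicValuation_le_one_iff.2 hzord
  have hle : (-(P.ord z)).toNat ≤ m :=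
    le_trans (Finset.le_sup (f := fun P => (-(P.ord z)).toNat) hPmem) hm
  have hm' : -(P.ord z) ≤ (m : ℤ) := by
    have := Int.self_le_toNat (-(P.ord z))
    exact le_trans this (by exact_mod_cast hle)
  rcases eq_or_ne t 0 with rfl | ht0
  · have hm1 : m ≠ 0 := by
      rintro rfl
      simp only [Nat.cast_zero] at hm'
      omega
    rw [zero_pow hm1, zero_mul]
    exact zero_mem _
  have hz0 : z ≠ 0 := by
    rintro rfl
    exact hzP (zero_mem _)
  have hj0 : jF L ≠ 0 := by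
    intro h0
    exact hjP (h0 ▸ zero_mem _)
  have htjP : 0 ≤ P.ord (t * jF L) :=
    (ffMem_iff_ord_nonneg P).1 ((mem_offRegular_iff L D _).1 htj P hP)
  rw [P.ord_mul ht0 hj0] at htjP
  have htord : 1 ≤ P.ord t := by omega
  rw [ffMem_iff_ord_nonneg, P.ord_mul (pow_ne_zero m ht0) hz0]
  have hpow : P.ord (t ^ m) = m * P.ord t := by
    have := P.ord_zpow t (m : ℤ)
    rwa [zpow_natCast] at this
  rw [hpow]
  nlinarith

variable {L}

theorem trc_le {D : Set (Place Kbar (FF L))} (hD : D ⊆ {P | jF L ∉ P.toValuationSubring})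
    (O₁ O₂ O₃ : ValuationSubring (FF L)) :
    f0AffD A L D O₁ O₂ O₃ ≤ f0Aff A L O₁ O₂ O₃ := by
  rw [f0Aff_eq_f0AffD]
  exact f0AffD_mono A L hD O₁ O₂ O₃

/-- `t ^ m z ∈ B_D` for `z ∈ B_j`, `m ≫ 0` -/
theorem trc_mem (D : Set (Place Kbar (FF L))) (O₁ O₂ O₃ : ValuationSubring (FF L))
    (t : f0Field A L) (ht : t ∈ f0AffD A L D O₁ O₂ O₃)
    (htj : (t : FF L) * jF L ∈ offRegular L D)
    (z : f0Field A L) (hz : z ∈ f0Aff A L O₁ O₂ O₃) :
    ∃ n : ℕ, ∀ m : ℕ, n ≤ m → t ^ m * z ∈ f0AffD A L D O₁ O₂ O₃ := by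
  rw [mem_f0AffD_iff] at ht
  rw [mem_f0Aff_iff] at hz
  obtain ⟨n, hn⟩ := trc_offRegular L D (t : FF L) (z : FF L) ht.1 htj hz.1
  refine ⟨n, fun m hm => ?_⟩
  rw [mem_f0AffD_iff]
  have hcoe : ((t ^ m * z : f0Field A L) : FF L) = (t : FF L) ^ m * (z : FF L) := by
    push_cast
    rfl
  rw [hcoe]
  exact ⟨hn m hm, mul_mem (pow_mem ht.2.1 m) hz.2.1, mul_mem (pow_mem ht.2.2.1 m) hz.2.2.1,
    mul_mem (pow_mem ht.2.2.2 m) hz.2.2.2⟩

/-- the CONDUCTOR ideal of `j` in `B_D`: the `t ∈ B_D` with `t · j` regular off `D` -/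
def trcCond (D : Set (Place Kbar (FF L))) (O₁ O₂ O₃ : ValuationSubring (FF L)) :
    Ideal (f0AffD A L D O₁ O₂ O₃) where
  carrier := {t | ((t : f0Field A L) : FF L) * jF L ∈ offRegular L D}
  zero_mem' := by
    show (((0 : f0AffD A L D O₁ O₂ O₃) : f0Field A L) : FF L) * jF L ∈ offRegular L D
    simp
  add_mem' := by
    intro a b ha hb
    show (((a + b : f0AffD A L D O₁ O₂ O₃) : f0Field A L) : FF L) * jF L ∈ offRegular L D
    have : (((a + b : f0AffD A L D O₁ O₂ O₃) : f0Field A L) : FF L) * jF L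
        = ((a : f0Field A L) : FF L) * jF L + ((b : f0Field A L) : FF L) * jF L := by
      push_cast
      ring
    rw [this]
    exact add_mem ha hb
  smul_mem' := by
    intro c a ha
    show (((c • a : f0AffD A L D O₁ O₂ O₃) : f0Field A L) : FF L) * jF L ∈ offRegular L D
    have : (((c • a : f0AffD A L D O₁ O₂ O₃) : f0Field A L) : FF L) * jF L
        = ((c : f0Field A L) : FF L) * (((a : f0Field A L) : FF L) * jF L) := by
      rw [smul_eq_mul]
      push_cast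
      ring
    rw [this]
    exact mul_mem ((mem_f0AffD_iff A L D O₁ O₂ O₃ _).1 c.2).1 ha

theorem mem_trcCond (D : Set (Place Kbar (FF L))) (O₁ O₂ O₃ : ValuationSubring (FF L))
    (t : f0AffD A L D O₁ O₂ O₃) :
    t ∈ trcCond A D O₁ O₂ O₃ ↔ ((t : f0Field A L) : FF L) * jF L ∈ offRegular L D := Iff.rfl

/-- **the cover**: `B_j ⊆ B_D[1/t]` for `t` in the conductor -/
theorem trc_trfCover {D : Set (Place Kbar (FF L))}
    (hD : D ⊆ {P | jF L ∉ P.toValuationSubring}) (O₁ O₂ O₃ : ValuationSubring (FF L))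
    (t : f0AffD A L D O₁ O₂ O₃) (ht : t ∈ trcCond A D O₁ O₂ O₃) :
    TrfCover (Subring.inclusion (trc_le A hD O₁ O₂ O₃)) t := by
  refine trfCover_subring _ _ (trc_le A hD O₁ O₂ O₃) t (fun z hz => ?_)
  obtain ⟨n, hn⟩ := trc_mem A D O₁ O₂ O₃ (t : f0Field A L) t.2 ht z hz
  exact ⟨n, hn n le_rfl⟩

/-- the CUSPIDAL ideals of `B_D`: those containing the conductor of `j` -/
def TrcCuspidal (D : Set (Place Kbar (FF L))) (O₁ O₂ O₃ : ValuationSubring (FF L))
    (𝔪 : Ideal (f0AffD A L D O₁ O₂ O₃)) : Prop :=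
  trcCond A D O₁ O₂ O₃ ≤ 𝔪

/-- a non-cuspidal ideal of `B_D` has a cover element outside of it -/
theorem trc_exists_of_not_cuspidal {D : Set (Place Kbar (FF L))}
    (hD : D ⊆ {P | jF L ∉ P.toValuationSubring}) (O₁ O₂ O₃ : ValuationSubring (FF L))
    (𝔪 : Ideal (f0AffD A L D O₁ O₂ O₃)) (h : ¬ TrcCuspidal A D O₁ O₂ O₃ 𝔪) :
    ∃ t : f0AffD A L D O₁ O₂ O₃, t ∉ 𝔪 ∧ t ∈ trcCond A D O₁ O₂ O₃ ∧
      TrfCover (Subring.inclusion (trc_le A hD O₁ O₂ O₃)) t := by
  obtain ⟨t, ht, ht𝔪⟩ := SetLike.not_le_iff_exists.1 h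
  exact ⟨t, ht𝔪, ht, trc_trfCover A hD O₁ O₂ O₃ t ht⟩

end Fermat.Agent.S36lib

end
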