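/-
Item 83 (S36), CRUX HEAD (helper26): **the trichotomy `htri` for the final setup**.
No sorry in this file.

`SF = s36Final …` (ring `B_{D1}`, regular off the cusps over `∞'`), `SMj = s36FinalJ …`
(ring `B_j`, regular off ALL cusps, same three valuations).

* `h1t_s36D1_subset` : the places of `D1` are cusps (poles of `j`);
* `s36FinalJ` : the setup `nodeSetupMj` with the middle valuation of `s36Final`;
  `h1t_hB : SF.B ≤ SMj.B`;
* `h1tCond` : the conductor ideal `{t ∈ SF.B | t · j regular off D1}`, `h1t_hcov` : the cover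
  `B_j ⊆ B_{D1}[1/t]` for `t` in the conductor;
* `s36Final_htri_of` : **`htri` for `SF`** from `htri` for `SMj` (INC in the `B_j` world,
  helper9's INC-j) and the trichotomy at the cuspidal maximal ideals `htriC`
  (`s36_htriC` + helper17's `icm_hIncI/M/Z`), by `s36_trf_htri` (`H1LocD1.lean`).
-/
import Mathlib
import Fermat.Agent.S36lib.H1LocD1
import Fermat.Agent.S36lib.TransferCover
import Fermat.Agent.S36lib.Apply2Final
import Fermat.Agent.S36lib.FibreMid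
import Fermat.Agent.S36lib.Reg3Lq

set_option autoImplicit false
set_option linter.style.haveILetI false
set_option linter.unusedSectionVars false
set_option linter.unusedVariables false
set_option synthInstance.maxHeartbeats 400000

noncomputable section

namespace Fermat.Agent.S36lib

open ModularCurve HahnSeries AlgebraicCurve
open Fermat.Agent.GoodRed Fermat.Agent.S24lib Fermat.Agent.S34lib Fermat.Agent.S37lib
  Fermat.Agent.HeckeBar Fermat.Agent.S35lib Fermat.Agent.GM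

section Cusps

variable (M' q : ℕ) [NeZero M'] [NeZero q] (hq : q.Prime) (hqM : ¬ q ∣ M')

/-- **the places of `D1` are cusps**: `j` has a pole at `∞`, `0` and the middle places -/
theorem h1t_s36D1_subset : s36D1 M' q hq hqM ⊆ cuspSet (M' * q * q) := by
  have h2 : (2 : ℤ) ≤ q := by exact_mod_cast hq.two_le
  intro P hP
  show jF (M' * q * q) ∉ P.toValuationSubring
  rw [ffMem_iff_ord_nonneg, not_le, ← lq_pi1_jF (M' := M') (q := q)]
  rcases hP with rfl | rfl | ⟨ζ, hζ, rfl⟩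
  · rw [infPlaceBar_ord, ← ecInf_apply, ecInf_pi1, fbm_order_jF]
    norm_num
  · rw [fbmZero_ord, ecZero_pi1, inf_order_qExpand, inf_order_qExpand, fbm_order_jF]
    nlinarith
  · rw [midPlace_ord, ecMid_pi1, fbm_order_jF]
    norm_num

end Cusps

variable (A : ValuationSubring Kbar) (M' q : ℕ) [NeZero M'] [NeZero q]
variable (hq : q.Prime) (hqM : ¬ q ∣ M') (hA : A.LiesOverPrime q)
variable {ζ : Kbarˣ} {E : FF (M' * q * q) →+* LaurentSeries Kbar}
variable (hζq : ζ ^ q = 1) (hζ : IsPrimitiveRoot (ζ : Kbar) q) (hE : IsMidExp M' q ζ E)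
variable (R : ConstRed A (IsLocalRing.residue A)
      (↥(modularFunctionFieldFullC (IsLocalRing.ResidueField A) M')) (FF (M' * q * q)))
    (hR : IsSeriesRed R)

/-- **the final setup with the ring `B_j`** (regular off ALL cusps): `nodeSetupMj` with the
middle valuation of `s36Final`. -/
def s36FinalJ : NodeSetup (k0Val A) (k0Res A)
    (↥(modularFunctionFieldFullC (IsLocalRing.ResidueField A) M')) (f0Field A (M' * q * q)) :=
  nodeSetupMj A M' q hq hqM hA R hR (vmidSV A hq ((A.mem_nonunits_iff).mp hA) hζq hE)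
    (vmid_hinto A hq hqM hA hζq hζ hE) (vmid_honto A hq hA hζq hE)

local notation "SF" => s36Final A M' q hq hqM hA hζq hζ hE R hR
local notation "SJ" => s36FinalJ A M' q hq hqM hA hζq hζ hE R hR

theorem mem_s36FinalJ_B (x : f0Field A (M' * q * q)) :
    x ∈ (SJ).B ↔
      (x : FF (M' * q * q)) ∈ offRegular (M' * q * q) (cuspSet (M' * q * q)) ∧
        (x : FF (M' * q * q)) ∈ R.O ∧
        (x : FF (M' * q * q)) ∈ vmidO A hq ((A.mem_nonunits_iff).mp hA) hζq hE ∧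
          alW2 M' hq hqM (x : FF (M' * q * q)) ∈ R.O :=
  mem_f0AffD_iff A (M' * q * q) (cuspSet (M' * q * q)) _ _ _ x

/-- `B_{D1} ≤ B_j` -/
theorem h1t_hB : (SF).B ≤ (SJ).B := by
  intro x hx
  rw [mem_s36Final_B] at hx
  rw [mem_s36FinalJ_B]
  exact ⟨offRegular_mono (M' * q * q) (h1t_s36D1_subset M' q hq hqM) hx.1, hx.2⟩

theorem h1t_hInf : (SF).vInf.O = (SJ).vInf.O := rfl

theorem h1t_hMid : (SF).vMid.O = (SJ).vMid.O := rfl

theorem h1t_hZero : (SF).vZero.O = (SJ).vZero.O := rfl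

/-- **the conductor of `j` in `B_{D1}`**: the `t` with `t · j` regular off `D1` -/
def h1tCond : Ideal (SF).B where
  carrier := {t | ((t : f0Field A (M' * q * q)) : FF (M' * q * q)) * jF (M' * q * q)
    ∈ offRegular (M' * q * q) (s36D1 M' q hq hqM)}
  zero_mem' := by
    show ((((0 : (SF).B) : f0Field A (M' * q * q))) : FF (M' * q * q)) * jF (M' * q * q)
      ∈ offRegular (M' * q * q) (s36D1 M' q hq hqM)
    simp
  add_mem' := by
    intro a b ha hb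
    show ((((a + b : (SF).B) : f0Field A (M' * q * q))) : FF (M' * q * q)) * jF (M' * q * q)
      ∈ offRegular (M' * q * q) (s36D1 M' q hq hqM)
    have : ((((a + b : (SF).B) : f0Field A (M' * q * q))) : FF (M' * q * q))
        * jF (M' * q * q)
        = ((a : f0Field A (M' * q * q)) : FF (M' * q * q)) * jF (M' * q * q)
          + ((b : f0Field A (M' * q * q)) : FF (M' * q * q)) * jF (M' * q * q) := by
      push_cast
      ring
    rw [this]
    exact add_mem ha hb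
  smul_mem' := by
    intro c a ha
    show ((((c • a : (SF).B) : f0Field A (M' * q * q))) : FF (M' * q * q)) * jF (M' * q * q)
      ∈ offRegular (M' * q * q) (s36D1 M' q hq hqM)
    have : ((((c • a : (SF).B) : f0Field A (M' * q * q))) : FF (M' * q * q))
        * jF (M' * q * q)
        = ((c : f0Field A (M' * q * q)) : FF (M' * q * q))
          * (((a : f0Field A (M' * q * q)) : FF (M' * q * q)) * jF (M' * q * q)) := by
      rw [smul_eq_mul]
      push_cast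
      ring
    rw [this]
    exact mul_mem ((mem_s36Final_B A M' q hq hqM hA hζq hζ hE R hR _).1 c.2).1 ha

theorem mem_h1tCond (t : (SF).B) :
    t ∈ h1tCond A M' q hq hqM hA hζq hζ hE R hR ↔
      ((t : f0Field A (M' * q * q)) : FF (M' * q * q)) * jF (M' * q * q)
        ∈ offRegular (M' * q * q) (s36D1 M' q hq hqM) := Iff.rfl

/-- **the cover** `B_j ⊆ B_{D1}[1/t]` for `t` in the conductor -/
theorem h1t_hcov (t : (SF).B) (ht : t ∈ h1tCond A M' q hq hqM hA hζq hζ hE R hR) :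
    TrfCover (Subring.inclusion (h1t_hB A M' q hq hqM hA hζq hζ hE R hR)) t := by
  refine trfCover_subring _ _ (h1t_hB A M' q hq hqM hA hζq hζ hE R hR) t (fun z hz => ?_)
  have htB := (mem_s36Final_B A M' q hq hqM hA hζq hζ hE R hR _).1 t.2
  have hzB := (mem_s36FinalJ_B A M' q hq hqM hA hζq hζ hE R hR z).1 hz
  have hzc : (z : FF (M' * q * q)) ∈ cuspRegular (M' * q * q) := by
    rw [cuspRegular_eq_offRegular]
    exact hzB.1
  obtain ⟨n, hn⟩ := trc_offRegular (M' * q * q) (s36D1 M' q hq hqM)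
    ((t : f0Field A (M' * q * q)) : FF (M' * q * q)) (z : FF (M' * q * q)) htB.1 ht hzc
  refine ⟨n, ?_⟩
  rw [mem_s36Final_B]
  have hcoe : (((((t : f0Field A (M' * q * q))) ^ n * z : f0Field A (M' * q * q))) :
      FF (M' * q * q))
      = ((t : f0Field A (M' * q * q)) : FF (M' * q * q)) ^ n * (z : FF (M' * q * q)) := by
    push_cast
    rfl
  rw [hcoe, map_mul, map_pow]
  exact ⟨hn n le_rfl, mul_mem (pow_mem htB.2.1 n) hzB.2.1,
    mul_mem (pow_mem htB.2.2.1 n) hzB.2.2.1, mul_mem (pow_mem htB.2.2.2 n) hzB.2.2.2⟩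

/-- the cover hypothesis of `s36_trf_htri` for the final setup -/
theorem h1t_hcover (qB : (SF).B) : ∀ 𝔪 : Ideal (SF).B, 𝔪.IsMaximal → qB ∈ 𝔪 →
    ¬ (h1tCond A M' q hq hqM hA hζq hζ hE R hR ≤ 𝔪) →
    ∃ t : (SF).B, t ∉ 𝔪 ∧
      TrfCover (Subring.inclusion (h1t_hB A M' q hq hqM hA hζq hζ hE R hR)) t := by
  intro 𝔪 _ _ h
  obtain ⟨t, ht, ht𝔪⟩ := SetLike.not_le_iff_exists.1 h
  exact ⟨t, ht𝔪, h1t_hcov A M' q hq hqM hA hζq hζ hE R hR t ht⟩

set_option maxHeartbeats 2000000 in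
/-- **`htri` for the final setup** from INC in the `B_j` world and the trichotomy at the cuspidal
maximal ideals. -/
theorem s36Final_htri_of
    (htri2 : ∀ 𝔪' : Ideal (SJ).B, 𝔪'.IsMaximal → (SJ).constB (q : k0Val A) ∈ 𝔪' →
      (SJ).IsNode 𝔪' ∨
      ((SJ).pInf ≤ 𝔪' ∧ ¬ (SJ).pMid ≤ 𝔪' ∧ ¬ (SJ).pZero ≤ 𝔪') ∨
      (¬ (SJ).pInf ≤ 𝔪' ∧ (SJ).pMid ≤ 𝔪' ∧ ¬ (SJ).pZero ≤ 𝔪') ∨
      (¬ (SJ).pInf ≤ 𝔪' ∧ ¬ (SJ).pMid ≤ 𝔪' ∧ (SJ).pZero ≤ 𝔪'))
    (htriC : ∀ 𝔪 : Ideal (SF).B, 𝔪.IsMaximal → (SF).constB (q : k0Val A) ∈ 𝔪 →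
      h1tCond A M' q hq hqM hA hζq hζ hE R hR ≤ 𝔪 → (SF).IsNode 𝔪 ∨
      ((SF).pInf ≤ 𝔪 ∧ ¬ (SF).pMid ≤ 𝔪 ∧ ¬ (SF).pZero ≤ 𝔪) ∨
      (¬ (SF).pInf ≤ 𝔪 ∧ (SF).pMid ≤ 𝔪 ∧ ¬ (SF).pZero ≤ 𝔪) ∨
      (¬ (SF).pInf ≤ 𝔪 ∧ ¬ (SF).pMid ≤ 𝔪 ∧ (SF).pZero ≤ 𝔪)) :
    ∀ 𝔪 : Ideal (SF).B, 𝔪.IsMaximal → (SF).constB (q : k0Val A) ∈ 𝔪 → (SF).IsNode 𝔪 ∨
      ((SF).pInf ≤ 𝔪 ∧ ¬ (SF).pMid ≤ 𝔪 ∧ ¬ (SF).pZero ≤ 𝔪) ∨
      (¬ (SF).pInf ≤ 𝔪 ∧ (SF).pMid ≤ 𝔪 ∧ ¬ (SF).pZero ≤ 𝔪) ∨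
      (¬ (SF).pInf ≤ 𝔪 ∧ ¬ (SF).pMid ≤ 𝔪 ∧ (SF).pZero ≤ 𝔪) := by
  refine s36_trf_htri (SF) (SJ) (h1t_hB A M' q hq hqM hA hζq hζ hE R hR) rfl rfl rfl
    ((SF).constB (q : k0Val A))
    (fun 𝔪 => h1tCond A M' q hq hqM hA hζq hζ hE R hR ≤ 𝔪)
    (h1t_hcover A M' q hq hqM hA hζq hζ hE R hR _) ?_ htriC
  intro 𝔪' h𝔪' hq𝔪'
  refine htri2 𝔪' h𝔪' ?_
  have e : Subring.inclusion (h1t_hB A M' q hq hqM hA hζq hζ hE R hR)
      ((SF).constB (q : k0Val A)) = (SJ).constB (q : k0Val A) := by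
    apply Subtype.ext
    rfl
  rw [← e]
  exact hq𝔪'

end Fermat.Agent.S36lib

end
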