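import Mathlib
import Fermat.Prelude.Def_AlgebraicCurve_DivisorClassGroup
import Fermat.Agent.S24lib.FFBasic
import Fermat.Agent.S36lib.Setup

/-!
# Item 83 (S36), piece D1-B: the DICTIONARY maximal ideals of `B` on a component ↔ places of `κ`

`ρ : B → κ` a reduction map (`red_∞`, `red_mid`, `red_0`) with `B ⧸ ker ρ` a Dedekind domain
with fraction field `κ` (via `ρ`), `k ⊆ ρ(B)`.  Every maximal ideal `𝔪 ⊋ ker ρ` of `B` is the
point of a place `c` of `κ / k`: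

* `ρ(B) ⊆ O_c`;
* `z ∈ 𝔪 ↔ ρ z ∈ 𝔪_c` (`pdict_exists`), i.e. `z ∈ 𝔪 ↔ ρ z = 0 ∨ 0 < ord_c (ρ z)`
  (`pdict_exists_ord`);
* (hP₁) `ρ z ≠ 0 → ord_c (ρ z) = 0 → z ∉ 𝔪`, (hP₂) `z ∉ 𝔪 → ρ z ≠ 0 ∧ ord_c (ρ z) = 0`
  (`pdict_exists_P`): the input shape of `incCusp_not_le` (helper23) and `reg3ca_mid_unit`
  (helper10).

For a `NodeSetup`: `pdict_inf`, `pdict_mid`, `pdict_zero`.
-/

set_option autoImplicit false
set_option linter.style.haveILetI false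

noncomputable section

namespace Fermat.Agent.S36lib

open AlgebraicCurve IsDedekindDomain Fermat.Agent.S24lib

section Generic

variable {k κ : Type*} [Field k] [Field κ] [Algebra k κ] {B : Type*} [CommRing B]

/-- membership in the maximal ideal of a valuation ring, by the inverse -/
theorem pdict_mem_nonunits_iff_inv (O : ValuationSubring κ) (x : κ) :
    x ∈ O.nonunits ↔ x = 0 ∨ x⁻¹ ∉ O := by
  rw [ValuationSubring.mem_nonunits_iff]
  rcases eq_or_ne x 0 with rfl | hx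
  · simp
  · have hv : O.valuation x ≠ 0 := (Valuation.ne_zero_iff _).2 hx
    have hpos : 0 < O.valuation x := zero_lt_iff.2 hv
    rw [← ValuationSubring.valuation_le_one_iff, map_inv₀, inv_le_one₀ hpos]
    constructor
    · intro h
      exact Or.inr (not_le.2 h)
    · rintro (h | h)
      · exact absurd h hx
      · exact not_le.1 h

/-- membership in the maximal ideal of a place, in terms of `ord` -/
theorem pdict_mem_nonunits_iff (c : Place k κ) (x : κ) :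
    x ∈ c.toValuationSubring.nonunits ↔ x = 0 ∨ 0 < c.ord x := by
  rw [pdict_mem_nonunits_iff_inv, ffMem_iff_ord_nonneg, c.ord_inv]
  constructor
  · rintro (h | h)
    · exact Or.inl h
    · right; omega
  · rintro (h | h)
    · exact Or.inl h
    · right; omega

/-- **the dictionary**, valuation ring form -/
theorem pdict_exists_ker (ρ : B →+* κ) [IsDedekindDomain (B ⧸ RingHom.ker ρ)]
    (hk : ∀ a : k, ∃ b : B, ρ b = algebraMap k κ a)
    (hfrac : ∀ w : κ, ∃ a b : B, ρ b ≠ 0 ∧ w * ρ b = ρ a)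
    (𝔪 : Ideal B) (h𝔪 : 𝔪.IsMaximal) (hle : RingHom.ker ρ ≤ 𝔪) (hne : RingHom.ker ρ ≠ 𝔪) :
    ∃ c : Place k κ, (∀ z : B, ρ z ∈ c.toValuationSubring) ∧
      (∀ z : B, z ∈ 𝔪 ↔ ρ z ∈ c.toValuationSubring.nonunits) := by
  classical
  have hι : Function.Injective (RingHom.kerLift ρ) := RingHom.kerLift_injective ρ
  letI : Algebra (B ⧸ RingHom.ker ρ) κ := (RingHom.kerLift ρ).toAlgebra
  have halg : ∀ z : B, algebraMap (B ⧸ RingHom.ker ρ) κ (Ideal.Quotient.mk _ z) = ρ z :=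
    fun z => rfl
  haveI : FaithfulSMul (B ⧸ RingHom.ker ρ) κ :=
    (faithfulSMul_iff_algebraMap_injective _ κ).2 hι
  haveI : IsFractionRing (B ⧸ RingHom.ker ρ) κ := by
    refine IsFractionRing.of_field _ κ fun w => ?_
    obtain ⟨a, b, hb, h⟩ := hfrac w
    refine ⟨Ideal.Quotient.mk _ a, Ideal.Quotient.mk _ b, ?_⟩
    rw [halg, halg, ← h]
    field_simp
  -- the maximal ideal of the quotient
  have hmk : Function.Surjective (Ideal.Quotient.mk (RingHom.ker ρ)) :=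
    Ideal.Quotient.mk_surjective
  have hker : RingHom.ker (Ideal.Quotient.mk (RingHom.ker ρ)) ≤ 𝔪 := by
    rw [Ideal.mk_ker]; exact hle
  have hprime : (𝔪.map (Ideal.Quotient.mk (RingHom.ker ρ))).IsPrime :=
    Ideal.map_isPrime_of_surjective (H := h𝔪.isPrime) hmk hker
  have hmem : ∀ z : B, Ideal.Quotient.mk (RingHom.ker ρ) z ∈
      𝔪.map (Ideal.Quotient.mk (RingHom.ker ρ)) ↔ z ∈ 𝔪 :=
    fun z => Ideal.mem_quotient_iff_mem hle
  have hbot : 𝔪.map (Ideal.Quotient.mk (RingHom.ker ρ)) ≠ ⊥ := by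
    intro h0
    apply hne
    refine le_antisymm hle fun z hz => ?_
    have h1 : Ideal.Quotient.mk (RingHom.ker ρ) z ∈
        𝔪.map (Ideal.Quotient.mk (RingHom.ker ρ)) := (hmem z).2 hz
    rw [h0, Ideal.mem_bot] at h1
    exact Ideal.Quotient.eq_zero_iff_mem.1 h1
  let w : HeightOneSpectrum (B ⧸ RingHom.ker ρ) := ⟨_, hprime, hbot⟩
  let c : Place k κ :=
    { toValuationSubring := (w.valuation κ).valuationSubring
      algebraMap_mem' := fun a => by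
        obtain ⟨b, hb⟩ := hk a
        rw [Valuation.mem_valuationSubring_iff, ← hb, ← halg]
        exact w.valuation_le_one _
      ne_top' := by
        simp only [ne_eq, Valuation.valuationSubring_eq_top_iff, not_not]
        infer_instance
      isPrincipalIdealRing' := Place.isPrincipalIdealRing_valuationSubring w }
  refine ⟨c, fun z => ?_, fun z => ?_⟩
  · show ρ z ∈ (w.valuation κ).valuationSubring
    rw [Valuation.mem_valuationSubring_iff, ← halg]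
    exact w.valuation_le_one _
  · show z ∈ 𝔪 ↔ ρ z ∈ ((w.valuation κ).valuationSubring).nonunits
    rw [ValuationSubring.mem_nonunits_iff,
      ← (Valuation.isEquiv_iff_val_lt_one.1
        (Valuation.isEquiv_valuation_valuationSubring (w.valuation κ))),
      ← halg, HeightOneSpectrum.valuation_lt_one_iff_mem]
    exact (hmem z).symm

/-- **the dictionary**, valuation ring form, for `p = ker ρ` -/
theorem pdict_exists (ρ : B →+* κ) (p : Ideal B) (hp : RingHom.ker ρ = p)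
    [IsDedekindDomain (B ⧸ p)]
    (hk : ∀ a : k, ∃ b : B, ρ b = algebraMap k κ a)
    (hfrac : ∀ w : κ, ∃ a b : B, ρ b ≠ 0 ∧ w * ρ b = ρ a)
    (𝔪 : Ideal B) (h𝔪 : 𝔪.IsMaximal) (hle : p ≤ 𝔪) (hne : p ≠ 𝔪) :
    ∃ c : Place k κ, (∀ z : B, ρ z ∈ c.toValuationSubring) ∧
      (∀ z : B, z ∈ 𝔪 ↔ ρ z ∈ c.toValuationSubring.nonunits) := by
  subst hp
  exact pdict_exists_ker (k := k) ρ hk hfrac 𝔪 h𝔪 hle hne

/-- **the dictionary**, `ord` form -/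
theorem pdict_exists_ord (ρ : B →+* κ) (p : Ideal B) (hp : RingHom.ker ρ = p)
    [IsDedekindDomain (B ⧸ p)]
    (hk : ∀ a : k, ∃ b : B, ρ b = algebraMap k κ a)
    (hfrac : ∀ w : κ, ∃ a b : B, ρ b ≠ 0 ∧ w * ρ b = ρ a)
    (𝔪 : Ideal B) (h𝔪 : 𝔪.IsMaximal) (hle : p ≤ 𝔪) (hne : p ≠ 𝔪) :
    ∃ c : Place k κ, (∀ z : B, 0 ≤ c.ord (ρ z)) ∧
      (∀ z : B, z ∈ 𝔪 ↔ ρ z = 0 ∨ 0 < c.ord (ρ z)) := by
  obtain ⟨c, h1, h2⟩ := pdict_exists (k := k) ρ p hp hk hfrac 𝔪 h𝔪 hle hne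
  refine ⟨c, fun z => (ffMem_iff_ord_nonneg c).1 (h1 z), fun z => ?_⟩
  rw [h2 z, pdict_mem_nonunits_iff]

/-- **the dictionary**, in the shape (hP₁), (hP₂) of the consumers -/
theorem pdict_exists_P (ρ : B →+* κ) (p : Ideal B) (hp : RingHom.ker ρ = p)
    [IsDedekindDomain (B ⧸ p)]
    (hk : ∀ a : k, ∃ b : B, ρ b = algebraMap k κ a)
    (hfrac : ∀ w : κ, ∃ a b : B, ρ b ≠ 0 ∧ w * ρ b = ρ a)
    (𝔪 : Ideal B) (h𝔪 : 𝔪.IsMaximal) (hle : p ≤ 𝔪) (hne : p ≠ 𝔪) :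
    ∃ c : Place k κ, (∀ z : B, 0 ≤ c.ord (ρ z)) ∧
      (∀ z : B, ρ z ≠ 0 → c.ord (ρ z) = 0 → z ∉ 𝔪) ∧
      (∀ z : B, z ∉ 𝔪 → ρ z ≠ 0 ∧ c.ord (ρ z) = 0) ∧
      (∀ z : B, z ∈ 𝔪 ↔ ρ z = 0 ∨ 0 < c.ord (ρ z)) := by
  obtain ⟨c, h1, h2⟩ := pdict_exists_ord (k := k) ρ p hp hk hfrac 𝔪 h𝔪 hle hne
  refine ⟨c, h1, fun z hz0 hzc hz => ?_, fun z hz => ?_, h2⟩
  · rcases (h2 z).1 hz with h | h
    · exact hz0 h
    · omega
  · have h3 : ¬ (ρ z = 0 ∨ 0 < c.ord (ρ z)) := fun h => hz ((h2 z).2 h)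
    rw [not_or] at h3
    have := h1 z
    exact ⟨h3.1, by omega⟩

end Generic

section Setup

variable {K : Type*} [Field K] {k : Type*} [Field k]
  {A : ValuationSubring K} {π : A →+* k} {κ : Type*} [Field κ] [Algebra k κ]
  {F : Type*} [Field F] [Algebra K F] (S : NodeSetup A π κ F)

/-- the dictionary on the component `C_∞` -/
theorem pdict_inf [IsDedekindDomain (S.B ⧸ S.pInf)] (hπ : Function.Surjective π)
    (hfrac : ∀ w : κ, ∃ a b : S.B, S.redInf b ≠ 0 ∧ w * S.redInf b = S.redInf a)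
    (𝔪 : Ideal S.B) (h𝔪 : 𝔪.IsMaximal) (hle : S.pInf ≤ 𝔪) (hne : S.pInf ≠ 𝔪) :
    ∃ c : Place k κ, (∀ z : S.B, 0 ≤ c.ord (S.redInf z)) ∧
      (∀ z : S.B, S.redInf z ≠ 0 → c.ord (S.redInf z) = 0 → z ∉ 𝔪) ∧
      (∀ z : S.B, z ∉ 𝔪 → S.redInf z ≠ 0 ∧ c.ord (S.redInf z) = 0) ∧
      (∀ z : S.B, z ∈ 𝔪 ↔ S.redInf z = 0 ∨ 0 < c.ord (S.redInf z)) :=
  pdict_exists_P (k := k) (B := S.B) S.redInf S.pInf rfl
    (fun a => by
      obtain ⟨a', rfl⟩ := hπ a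
      exact ⟨S.constB a', S.redInf_constB a'⟩) hfrac 𝔪 h𝔪 hle hne

/-- the dictionary on the component `C_mid` -/
theorem pdict_mid [IsDedekindDomain (S.B ⧸ S.pMid)] (hπ : Function.Surjective π)
    (hfrac : ∀ w : κ, ∃ a b : S.B, S.redMid b ≠ 0 ∧ w * S.redMid b = S.redMid a)
    (𝔪 : Ideal S.B) (h𝔪 : 𝔪.IsMaximal) (hle : S.pMid ≤ 𝔪) (hne : S.pMid ≠ 𝔪) :
    ∃ c : Place k κ, (∀ z : S.B, 0 ≤ c.ord (S.redMid z)) ∧
      (∀ z : S.B, S.redMid z ≠ 0 → c.ord (S.redMid z) = 0 → z ∉ 𝔪) ∧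
      (∀ z : S.B, z ∉ 𝔪 → S.redMid z ≠ 0 ∧ c.ord (S.redMid z) = 0) ∧
      (∀ z : S.B, z ∈ 𝔪 ↔ S.redMid z = 0 ∨ 0 < c.ord (S.redMid z)) :=
  pdict_exists_P (k := k) (B := S.B) S.redMid S.pMid rfl
    (fun a => by
      obtain ⟨a', rfl⟩ := hπ a
      exact ⟨S.constB a', S.redMid_constB a'⟩) hfrac 𝔪 h𝔪 hle hne

/-- the dictionary on the component `C_0` -/
theorem pdict_zero [IsDedekindDomain (S.B ⧸ S.pZero)] (hπ : Function.Surjective π)
    (hfrac : ∀ w : κ, ∃ a b : S.B, S.redZero b ≠ 0 ∧ w * S.redZero b = S.redZero a)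
    (𝔪 : Ideal S.B) (h𝔪 : 𝔪.IsMaximal) (hle : S.pZero ≤ 𝔪) (hne : S.pZero ≠ 𝔪) :
    ∃ c : Place k κ, (∀ z : S.B, 0 ≤ c.ord (S.redZero z)) ∧
      (∀ z : S.B, S.redZero z ≠ 0 → c.ord (S.redZero z) = 0 → z ∉ 𝔪) ∧
      (∀ z : S.B, z ∉ 𝔪 → S.redZero z ≠ 0 ∧ c.ord (S.redZero z) = 0) ∧
      (∀ z : S.B, z ∈ 𝔪 ↔ S.redZero z = 0 ∨ 0 < c.ord (S.redZero z)) :=
  pdict_exists_P (k := k) (B := S.B) S.redZero S.pZero rfl
    (fun a => by
      obtain ⟨a', rfl⟩ := hπ a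
      exact ⟨S.constB a', S.redZero_constB a'⟩) hfrac 𝔪 h𝔪 hle hne

end Setup

end Fermat.Agent.S36lib

end
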