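/-
Item 83 (S36), CRUX piece C-2k (helper26): **the trichotomy at the CUSPIDAL maximal ideals**
(`htriC` of `s36_trf_htri`), abstract form.

`S` a `NodeSetup` with the three `B ⧸ p_v` Dedekind (not fields) with fraction field `κ`
(dictionary `pdict_inf / _mid / _zero` of helper22), `cond` an ideal of `B` (the conductor of
`j`: `trcCond`), and for every place `c` of `κ` at which all the reductions `red_v t`, `t ∈ cond`,
vanish (`c` is a cusp), elements of the two other vertical primes whose reduction at `v` is a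
unit at `c` (helper23's `incCusp_inf / _mid / _zero`).  Then every maximal ideal `𝔪 ⊇ cond`
containing `q` lies on EXACTLY ONE of the three components.  No sorry.
-/
import Mathlib
import Fermat.Agent.S36lib.PointDict

set_option autoImplicit false
set_option linter.style.haveILetI false
set_option linter.unusedSectionVars false

noncomputable section

namespace Fermat.Agent.S36lib

open AlgebraicCurve

variable {K : Type*} [Field K] {k : Type*} [Field k]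
  {A : ValuationSubring K} {π : A →+* k} {κ : Type*} [Field κ] [Algebra k κ]
  {F : Type*} [Field F] [Algebra K F]

/-- **the trichotomy at the cuspidal points.** -/
theorem s36_htriC (S : NodeSetup A π κ F)
    [IsDedekindDomain (S.B ⧸ S.pInf)] [IsDedekindDomain (S.B ⧸ S.pMid)]
    [IsDedekindDomain (S.B ⧸ S.pZero)] (hπ : Function.Surjective π)
    (hfracI : ∀ w : κ, ∃ a b : S.B, S.redInf b ≠ 0 ∧ w * S.redInf b = S.redInf a)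
    (hfracM : ∀ w : κ, ∃ a b : S.B, S.redMid b ≠ 0 ∧ w * S.redMid b = S.redMid a)
    (hfracZ : ∀ w : κ, ∃ a b : S.B, S.redZero b ≠ 0 ∧ w * S.redZero b = S.redZero a)
    (hnmI : ¬ S.pInf.IsMaximal) (hnmM : ¬ S.pMid.IsMaximal) (hnmZ : ¬ S.pZero.IsMaximal)
    (q : S.B)
    (Hrad : ∀ P : Ideal S.B, P.IsPrime → q ∈ P → S.pInf ≤ P ∨ S.pMid ≤ P ∨ S.pZero ≤ P)
    (cond : Ideal S.B)
    (hIncI : ∀ c : Place k κ, (∀ z : S.B, 0 ≤ c.ord (S.redInf z)) →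
      (∀ t ∈ cond, S.redInf t = 0 ∨ 0 < c.ord (S.redInf t)) →
      (∃ s : S.B, s ∈ S.pMid ∧ S.redInf s ≠ 0 ∧ c.ord (S.redInf s) = 0) ∧
      (∃ s : S.B, s ∈ S.pZero ∧ S.redInf s ≠ 0 ∧ c.ord (S.redInf s) = 0))
    (hIncM : ∀ c : Place k κ, (∀ z : S.B, 0 ≤ c.ord (S.redMid z)) →
      (∀ t ∈ cond, S.redMid t = 0 ∨ 0 < c.ord (S.redMid t)) →
      (∃ s : S.B, s ∈ S.pInf ∧ S.redMid s ≠ 0 ∧ c.ord (S.redMid s) = 0) ∧
      (∃ s : S.B, s ∈ S.pZero ∧ S.redMid s ≠ 0 ∧ c.ord (S.redMid s) = 0))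
    (hIncZ : ∀ c : Place k κ, (∀ z : S.B, 0 ≤ c.ord (S.redZero z)) →
      (∀ t ∈ cond, S.redZero t = 0 ∨ 0 < c.ord (S.redZero t)) →
      (∃ s : S.B, s ∈ S.pInf ∧ S.redZero s ≠ 0 ∧ c.ord (S.redZero s) = 0) ∧
      (∃ s : S.B, s ∈ S.pMid ∧ S.redZero s ≠ 0 ∧ c.ord (S.redZero s) = 0)) :
    ∀ 𝔪 : Ideal S.B, 𝔪.IsMaximal → q ∈ 𝔪 → cond ≤ 𝔪 → S.IsNode 𝔪 ∨
      (S.pInf ≤ 𝔪 ∧ ¬ S.pMid ≤ 𝔪 ∧ ¬ S.pZero ≤ 𝔪) ∨
      (¬ S.pInf ≤ 𝔪 ∧ S.pMid ≤ 𝔪 ∧ ¬ S.pZero ≤ 𝔪) ∨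
      (¬ S.pInf ≤ 𝔪 ∧ ¬ S.pMid ≤ 𝔪 ∧ S.pZero ≤ 𝔪) := by
  intro 𝔪 h𝔪 hq𝔪 hcond
  rcases Hrad 𝔪 h𝔪.isPrime hq𝔪 with h | h | h
  · obtain ⟨c, hreg, hP1, -, hiff⟩ := pdict_inf S hπ hfracI 𝔪 h𝔪 h (fun he => hnmI (he ▸ h𝔪))
    obtain ⟨⟨s, hs, hs0, hsc⟩, ⟨s', hs', hs'0, hs'c⟩⟩ :=
      hIncI c hreg (fun t ht => (hiff t).1 (hcond ht))
    exact Or.inr (Or.inl ⟨h, fun hle => hP1 s hs0 hsc (hle hs),
      fun hle => hP1 s' hs'0 hs'c (hle hs')⟩)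
  · obtain ⟨c, hreg, hP1, -, hiff⟩ := pdict_mid S hπ hfracM 𝔪 h𝔪 h (fun he => hnmM (he ▸ h𝔪))
    obtain ⟨⟨s, hs, hs0, hsc⟩, ⟨s', hs', hs'0, hs'c⟩⟩ :=
      hIncM c hreg (fun t ht => (hiff t).1 (hcond ht))
    exact Or.inr (Or.inr (Or.inl ⟨fun hle => hP1 s hs0 hsc (hle hs), h,
      fun hle => hP1 s' hs'0 hs'c (hle hs')⟩))
  · obtain ⟨c, hreg, hP1, -, hiff⟩ := pdict_zero S hπ hfracZ 𝔪 h𝔪 h (fun he => hnmZ (he ▸ h𝔪))
    obtain ⟨⟨s, hs, hs0, hsc⟩, ⟨s', hs', hs'0, hs'c⟩⟩ :=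
      hIncZ c hreg (fun t ht => (hiff t).1 (hcond ht))
    exact Or.inr (Or.inr (Or.inr ⟨fun hle => hP1 s hs0 hsc (hle hs),
      fun hle => hP1 s' hs'0 hs'c (hle hs'), h⟩))

end Fermat.Agent.S36lib

end
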