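import Mathlib
import Fermat.Agent.S36lib.IncCuspConc

/-!
# Item 83 (S36), piece R6-d, INC at the cusps, CONCRETE (helper23).  Complete proofs.

`S = nodeSetupM A M' q hq hqM hA R hR (vmidSV A hq hlt hζ hE) hiMid hoMid` (helper24's
`TheSetup.lean`, helper18's `vmidSV`; for helper20's `s36Final` take
`hlt := (A.mem_nonunits_iff).mp hA`, `hiMid := vmid_hinto …`, `hoMid := vmid_honto …`),
`R'` a series reduction of level `M'`, `j₂` as in (J2) (helper10's `reg3j2_cusp`):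
`j₂ ∈ R'.O ∩ F0(M')`, `j₂` and `j j₂` regular off `∞'`, `red'(j) red'(j₂)` a unit at the cusp `c`.

* `incCusp_mid_conc`: `∃ s : S.B, s ∈ S.pInf ∧ s ∈ S.pZero ∧ S.redMid s ≠ 0 ∧ c.ord (S.redMid s) = 0`
  (the field `s` of `Reg3CuspDataAt`, helper5);
* `incCusp_inf_conc`: `∃ s : S.B, s ∈ S.pMid ∧ s ∈ S.pZero ∧ S.redInf s ≠ 0 ∧ c.ord (S.redInf s) = 0`;
* `incCusp_zero_conc`: `∃ s : S.B, s ∈ S.pInf ∧ s ∈ S.pMid ∧ S.redZero s ≠ 0 ∧ c.ord (S.redZero s) = 0`.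

The full reduction table of `x_i = π_i j`, `G_i = π_i j₂` is `icc_tI*`, `icc_tM*`, `icc_tZ*`.
-/

set_option autoImplicit false
set_option linter.style.haveILetI false
set_option linter.unusedSectionVars false
set_option linter.unusedVariables false
set_option synthInstance.maxHeartbeats 400000

noncomputable section

namespace Fermat.Agent.S36lib

open AlgebraicCurve ModularCurve HahnSeries
open Fermat.Agent.S24lib Fermat.Agent.S34lib Fermat.Agent.S37lib Fermat.Agent.HeckeBar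
open Fermat.Agent.S35lib Fermat.Agent.GoodRed Fermat.Agent.GM

section Elements

variable (A : ValuationSubring Kbar) (M' q : ℕ) [NeZero M'] [NeZero q]

/-- `x₁ = π₁ j` in `F0(M' q²)` -/
def iccX1 : f0Field A (M' * q * q) :=
  ⟨ecPi1 M' q (jF M'), ecPi1_mem_f0Field (q := q) A (incCusp_jF_mem_f0Field A M')⟩

/-- `x₂ = π₂ j` in `F0(M' q²)` -/
def iccX2 : f0Field A (M' * q * q) :=
  ⟨ecPi2 M' q (jF M'), ecPi2_mem_f0Field (q := q) A (incCusp_jF_mem_f0Field A M')⟩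

/-- `x₃ = π₃ j` in `F0(M' q²)` -/
def iccX3 : f0Field A (M' * q * q) :=
  ⟨ecPi3 M' q (jF M'), ecPi3_mem_f0Field (q := q) A (incCusp_jF_mem_f0Field A M')⟩

/-- `G₁ = π₁ j₂` in `F0(M' q²)` -/
def iccG1 (j2 : FF M') (hj2F : j2 ∈ f0Field A M') : f0Field A (M' * q * q) :=
  ⟨ecPi1 M' q j2, ecPi1_mem_f0Field (q := q) A hj2F⟩

/-- `G₃ = π₃ j₂` in `F0(M' q²)` -/
def iccG3 (j2 : FF M') (hj2F : j2 ∈ f0Field A M') : f0Field A (M' * q * q) :=
  ⟨ecPi3 M' q j2, ecPi3_mem_f0Field (q := q) A hj2F⟩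

theorem icc_coe_X1 : ((iccX1 A M' q : f0Field A (M' * q * q)) : FF (M' * q * q))
    = ecPi1 M' q (jF M') := rfl

theorem icc_coe_X2 : ((iccX2 A M' q : f0Field A (M' * q * q)) : FF (M' * q * q))
    = ecPi2 M' q (jF M') := rfl

theorem icc_coe_X3 : ((iccX3 A M' q : f0Field A (M' * q * q)) : FF (M' * q * q))
    = ecPi3 M' q (jF M') := rfl

theorem icc_coe_G1 (j2 : FF M') (hj2F : j2 ∈ f0Field A M') :
    ((iccG1 A M' q j2 hj2F : f0Field A (M' * q * q)) : FF (M' * q * q)) = ecPi1 M' q j2 := rfl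

theorem icc_coe_G3 (j2 : FF M') (hj2F : j2 ∈ f0Field A M') :
    ((iccG3 A M' q j2 hj2F : f0Field A (M' * q * q)) : FF (M' * q * q)) = ecPi3 M' q j2 := rfl

/-- the coercion of `(a - b^m) g^n` -/
theorem icc_coe_expr (L : ℕ) [NeZero L] (a b g : f0Field A L) (m n : ℕ) :
    (((a - b ^ m) * g ^ n : f0Field A L) : FF L)
      = ((a : FF L) - (b : FF L) ^ m) * (g : FF L) ^ n := rfl

/-- transport of a reduction along an equality of elements -/
theorem icc_red_congr {L : ℕ} [NeZero L]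
    (R : ConstRed A (IsLocalRing.residue A)
      (↥(modularFunctionFieldFullC (IsLocalRing.ResidueField A) M')) (FF L))
    {x y : FF L} (e : x = y) (hx : x ∈ R.O) (hy : y ∈ R.O) :
    R.red ⟨x, hx⟩ = R.red ⟨y, hy⟩ := by
  subst e
  rfl

end Elements

section Main

variable (A : ValuationSubring Kbar) (M' q : ℕ) [NeZero M'] [NeZero q]
  (hq : q.Prime) (hqM : ¬ q ∣ M') (hA : A.LiesOverPrime q)
variable (R : ConstRed A (IsLocalRing.residue A)
  (↥(modularFunctionFieldFullC (IsLocalRing.ResidueField A) M')) (FF (M' * q * q)))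
  (hR : IsSeriesRed R)
variable (R' : ConstRed A (IsLocalRing.residue A)
  (↥(modularFunctionFieldFullC (IsLocalRing.ResidueField A) M')) (FF M'))
  (hR' : IsSeriesRed R')
variable {ζ : Kbarˣ} {E : FF (M' * q * q) →+* LaurentSeries Kbar}
  (hlt : A.valuation (q : Kbar) < 1) (hζ : ζ ^ q = 1) (hE : IsMidExp M' q ζ E)
variable
  (hiMid : ∀ (x : FF (M' * q * q)) (hx : x ∈ (vmidSV A hq hlt hζ hE).O),
    x ∈ f0Field A (M' * q * q) → (vmidSV A hq hlt hζ hE).red ⟨x, hx⟩ ∈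
      modularFunctionFieldFullC (IsLocalRing.ResidueField A) M')
  (hoMid : ∀ y ∈ modularFunctionFieldFullC (IsLocalRing.ResidueField A) M',
    ∃ (x : FF (M' * q * q)) (hx : x ∈ (vmidSV A hq hlt hζ hE).O),
      x ∈ f0Field A (M' * q * q) ∧ (vmidSV A hq hlt hζ hE).red ⟨x, hx⟩ = y)
variable (j2 : FF M') (h2 : j2 ∈ R'.O) (hj2F : j2 ∈ f0Field A M')

local notation "SM" => nodeSetupM A M' q hq hqM hA R hR (vmidSV A hq hlt hζ hE) hiMid hoMid
local notation "κA" => IsLocalRing.ResidueField A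

/-! ### The reductions of `π_i j` at `∞`, as elements of the residue field -/

include hR hq hlt in
theorem icc_rI1 : ∃ h : ecPi1 M' q (jF M') ∈ R.O,
    R.red ⟨ecPi1 M' q (jF M'), h⟩ = jk κA M' := by
  obtain ⟨hx, hred⟩ := sconc_red_jdF A M' R hR 1 (one_dvd (M' * q * q))
  have e : ecPi1 M' q (jF M') = jdF (M' * q * q) 1 (one_dvd _) := by
    rw [lq_pi1_jF, lq_jF_eq]
  have hx' : ecPi1 M' q (jF M') ∈ R.O := by rw [e]; exact hx
  refine ⟨hx', ?_⟩
  apply Subtype.ext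
  rw [coe_jk, ← qExpand_one_apply (jqModC κA), ← hred, icc_red_congr A M' R e hx' hx]
  rfl

include hR hq hlt in
theorem icc_rI2 : ∃ h : ecPi2 M' q (jF M') ∈ R.O,
    R.red ⟨ecPi2 M' q (jF M'), h⟩ = jk κA M' ^ q := by
  haveI : Fact q.Prime := ⟨hq⟩
  haveI : CharP κA q := vmid_charP A hq hlt
  obtain ⟨h, hr⟩ := icc_inf_x2 A M' q R hR
  refine ⟨h, ?_⟩
  apply Subtype.ext
  rw [hr, SubmonoidClass.coe_pow, coe_jk]
  exact icc_qExpand_jq κA q

include hR hq hlt in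
theorem icc_rI3 : ∃ h : ecPi3 M' q (jF M') ∈ R.O,
    R.red ⟨ecPi3 M' q (jF M'), h⟩ = jk κA M' ^ (q * q) := by
  haveI : Fact q.Prime := ⟨hq⟩
  haveI : CharP κA q := vmid_charP A hq hlt
  haveI : NeZero (q * q) := ⟨Nat.mul_ne_zero hq.ne_zero hq.ne_zero⟩
  obtain ⟨h, hr⟩ := icc_inf_x3 A M' q R hR
  refine ⟨h, ?_⟩
  apply Subtype.ext
  rw [hr, SubmonoidClass.coe_pow, coe_jk, pow_mul, ← icc_qExpand_jq κA q]
  exact icc_qExpand_qq_jq κA q

/-! ### The table at `∞` -/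

include hR in
theorem icc_tI1 : (SM).vInf.RedTo (iccX1 A M' q) (jk κA M') := by
  obtain ⟨h, hr⟩ := icc_rI1 A M' q hq R hR hlt
  exact icc_redTo_inf A M' q hq hqM hA R hR hlt hζ hE hiMid hoMid (iccX1 A M' q) _ h hr

include hR in
theorem icc_tI2 : (SM).vInf.RedTo (iccX2 A M' q) (jk κA M' ^ q) := by
  obtain ⟨h, hr⟩ := icc_rI2 A M' q hq R hR hlt
  exact icc_redTo_inf A M' q hq hqM hA R hR hlt hζ hE hiMid hoMid (iccX2 A M' q) _ h hr

include hR in
theorem icc_tI3 : (SM).vInf.RedTo (iccX3 A M' q) (jk κA M' ^ (q * q)) := by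
  obtain ⟨h, hr⟩ := icc_rI3 A M' q hq R hR hlt
  exact icc_redTo_inf A M' q hq hqM hA R hR hlt hζ hE hiMid hoMid (iccX3 A M' q) _ h hr

include hR hR' in
theorem icc_tIG1 : (SM).vInf.RedTo (iccG1 A M' q j2 hj2F) (R'.red ⟨j2, h2⟩) := by
  obtain ⟨h, hr⟩ := icc_inf_pi1 A M' q R hR R' hR' (vmid_hasPrimFrac_bar A M' hq hlt) h2
  exact icc_redTo_inf A M' q hq hqM hA R hR hlt hζ hE hiMid hoMid (iccG1 A M' q j2 hj2F) _ h hr

include hR hR' h2 in
theorem icc_tIG3 : iccG3 A M' q j2 hj2F ∈ (SM).vInf.O :=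
  icc_inf_pi3 A M' q R hR R' hR' (vmid_hasPrimFrac_bar A M' hq hlt) h2

/-! ### The table at `0` -/

include hR in
theorem icc_tZ1 : (SM).vZero.RedTo (iccX1 A M' q) (jk κA M' ^ (q * q)) := by
  obtain ⟨h, hr⟩ := icc_rI3 A M' q hq R hR hlt
  have e : alW2 M' hq hqM ((iccX1 A M' q : f0Field A (M' * q * q)) : FF (M' * q * q))
      = ecPi3 M' q (jF M') := by
    rw [icc_coe_X1]; exact alW2_pi1 M' hq hqM (jF M')
  have hmem : alW2 M' hq hqM ((iccX1 A M' q : f0Field A (M' * q * q)) : FF (M' * q * q))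
      ∈ R.O := by rw [e]; exact h
  refine icc_redTo_zero A M' q hq hqM hA R hR hlt hζ hE hiMid hoMid (iccX1 A M' q) _ hmem ?_
  rw [icc_red_congr A M' R e hmem h, hr]

include hR in
theorem icc_tZ2 : (SM).vZero.RedTo (iccX2 A M' q) (jk κA M' ^ q) := by
  obtain ⟨h, hr⟩ := icc_rI2 A M' q hq R hR hlt
  have e : alW2 M' hq hqM ((iccX2 A M' q : f0Field A (M' * q * q)) : FF (M' * q * q))
      = ecPi2 M' q (jF M') := by
    rw [icc_coe_X2]; exact alW2_pi2 M' hq hqM (jF M')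
  have hmem : alW2 M' hq hqM ((iccX2 A M' q : f0Field A (M' * q * q)) : FF (M' * q * q))
      ∈ R.O := by rw [e]; exact h
  refine icc_redTo_zero A M' q hq hqM hA R hR hlt hζ hE hiMid hoMid (iccX2 A M' q) _ hmem ?_
  rw [icc_red_congr A M' R e hmem h, hr]

include hR in
theorem icc_tZ3 : (SM).vZero.RedTo (iccX3 A M' q) (jk κA M') := by
  obtain ⟨h, hr⟩ := icc_rI1 A M' q hq R hR hlt
  have e : alW2 M' hq hqM ((iccX3 A M' q : f0Field A (M' * q * q)) : FF (M' * q * q))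
      = ecPi1 M' q (jF M') := by
    rw [icc_coe_X3]; exact alW2_pi3 M' hq hqM (jF M')
  have hmem : alW2 M' hq hqM ((iccX3 A M' q : f0Field A (M' * q * q)) : FF (M' * q * q))
      ∈ R.O := by rw [e]; exact h
  refine icc_redTo_zero A M' q hq hqM hA R hR hlt hζ hE hiMid hoMid (iccX3 A M' q) _ hmem ?_
  rw [icc_red_congr A M' R e hmem h, hr]

include hR hR' in
theorem icc_tZG3 : (SM).vZero.RedTo (iccG3 A M' q j2 hj2F) (R'.red ⟨j2, h2⟩) := by
  obtain ⟨h, hr⟩ := icc_inf_pi1 A M' q R hR R' hR' (vmid_hasPrimFrac_bar A M' hq hlt) h2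
  have e : alW2 M' hq hqM ((iccG3 A M' q j2 hj2F : f0Field A (M' * q * q)) : FF (M' * q * q))
      = ecPi1 M' q j2 := by
    rw [icc_coe_G3]; exact alW2_pi3 M' hq hqM j2
  have hmem : alW2 M' hq hqM ((iccG3 A M' q j2 hj2F : f0Field A (M' * q * q)) :
      FF (M' * q * q)) ∈ R.O := by rw [e]; exact h
  refine icc_redTo_zero A M' q hq hqM hA R hR hlt hζ hE hiMid hoMid (iccG3 A M' q j2 hj2F) _
    hmem ?_
  rw [icc_red_congr A M' R e hmem h, hr]

include hR hR' h2 in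
theorem icc_tZG1 : iccG1 A M' q j2 hj2F ∈ (SM).vZero.O := by
  have h := icc_inf_pi3 A M' q R hR R' hR' (vmid_hasPrimFrac_bar A M' hq hlt) h2
  have e : alW2 M' hq hqM ((iccG1 A M' q j2 hj2F : f0Field A (M' * q * q)) : FF (M' * q * q))
      = ecPi3 M' q j2 := by
    rw [icc_coe_G1]; exact alW2_pi1 M' hq hqM j2
  have hmem : alW2 M' hq hqM ((iccG1 A M' q j2 hj2F : f0Field A (M' * q * q)) :
      FF (M' * q * q)) ∈ R.O := by rw [e]; exact h
  exact hmem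

/-! ### The table at `mid` -/

include hR' in
theorem icc_tM1 : (SM).vMid.RedTo (iccX1 A M' q) (jk κA M') := by
  obtain ⟨hjO, hjred⟩ := icc_red_jF A M' R' hR'
  obtain ⟨h, hr⟩ := icc_mid_pi1 A M' q R' hR' hq hlt hζ hE hjO
  rw [hjred] at hr
  exact icc_redTo_mid A M' q hq hqM hA R hR hlt hζ hE hiMid hoMid (iccX1 A M' q) _ h hr

include hR' in
theorem icc_tM3 : (SM).vMid.RedTo (iccX3 A M' q) (jk κA M') := by
  obtain ⟨hjO, hjred⟩ := icc_red_jF A M' R' hR'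
  obtain ⟨h, hr⟩ := icc_mid_pi3 A M' q R' hR' hq hlt hζ hE hjO
  rw [hjred] at hr
  exact icc_redTo_mid A M' q hq hqM hA R hR hlt hζ hE hiMid hoMid (iccX3 A M' q) _ h hr

theorem icc_tM2 : (SM).vMid.RedTo (iccX2 A M' q) (jk κA M' ^ q) := by
  haveI : Fact q.Prime := ⟨hq⟩
  haveI : CharP κA q := vmid_charP A hq hlt
  obtain ⟨h, hr⟩ := icc_mid_x2 A M' q hq hlt hζ hE
  have hr' : vmidRed A hq hlt hζ hE ⟨ecPi2 M' q (jF M'), h⟩
      = ((jk κA M' ^ q : ↥(modularFunctionFieldFullC κA M')) : LaurentSeries κA) := by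
    rw [hr, SubmonoidClass.coe_pow, coe_jk]
    exact icc_qExpand_jq κA q
  exact icc_redTo_mid A M' q hq hqM hA R hR hlt hζ hE hiMid hoMid (iccX2 A M' q) _ h hr'

include hR' in
theorem icc_tMG1 : (SM).vMid.RedTo (iccG1 A M' q j2 hj2F) (R'.red ⟨j2, h2⟩) := by
  obtain ⟨h, hr⟩ := icc_mid_pi1 A M' q R' hR' hq hlt hζ hE h2
  exact icc_redTo_mid A M' q hq hqM hA R hR hlt hζ hE hiMid hoMid (iccG1 A M' q j2 hj2F) _ h hr

include hR' in
theorem icc_tMG3 : (SM).vMid.RedTo (iccG3 A M' q j2 hj2F) (R'.red ⟨j2, h2⟩) := by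
  obtain ⟨h, hr⟩ := icc_mid_pi3 A M' q R' hR' hq hlt hζ hE h2
  exact icc_redTo_mid A M' q hq hqM hA R hR hlt hζ hE hiMid hoMid (iccG3 A M' q j2 hj2F) _ h hr

end Main

end Fermat.Agent.S36lib

end
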