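import Mathlib
import Fermat.Agent.S36lib.IncCuspConcM

/-!
# Item 83 (S36), piece R6-d, INC at the cusps, CONCRETE, final statements (helper23).
Complete proofs.

`S = nodeSetupM A M' q hq hqM hA R hR (vmidSV A hq hlt hζ hE) hiMid hoMid` (for helper20's
`s36Final` / helper5's `reg3S` take `hlt := (A.mem_nonunits_iff).mp hA`, `hiMid := vmid_hinto …`,
`hoMid := vmid_honto …`), `R'` a series reduction of level `M'`, `j₂` as in (J2) (helper10's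
`reg3j2_cusp`).

* `icc_mem_B`: the unfolding of `S.B`;
* `icc_sa_B`, `icc_sb_B`, `icc_sInf_B`, `icc_sZero_B`: the four elements lie in `S.B`;
* `incCusp_mid_conc`: `∃ s : S.B, s ∈ S.pInf ∧ s ∈ S.pZero ∧ S.redMid s ≠ 0 ∧ c.ord (S.redMid s) = 0`;
* `incCusp_inf_conc`: `∃ s : S.B, s ∈ S.pMid ∧ s ∈ S.pZero ∧ S.redInf s ≠ 0 ∧ c.ord (S.redInf s) = 0`;
* `incCusp_zero_conc`: `∃ s : S.B, s ∈ S.pInf ∧ s ∈ S.pMid ∧ S.redZero s ≠ 0 ∧ c.ord (S.redZero s) = 0`.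
-/

set_option autoImplicit false
set_option linter.style.haveILetI false
set_option linter.unusedSectionVars false
set_option linter.unusedVariables false
set_option synthInstance.maxHeartbeats 400000

noncomputable section

namespace Fermat.Agent.S36lib

open AlgebraicCurve ModularCurve HahnSeries
open Fermat.Agent.S24lib Fermat.Agent.S34lib Fermat.Agent.S37lib Fermat.Agent.HeckeBar
open Fermat.Agent.S35lib Fermat.Agent.GoodRed Fermat.Agent.GM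

section Main

variable (A : ValuationSubring Kbar) (M' q : ℕ) [NeZero M'] [NeZero q]
  (hq : q.Prime) (hqM : ¬ q ∣ M') (hA : A.LiesOverPrime q)
variable (R : ConstRed A (IsLocalRing.residue A)
  (↥(modularFunctionFieldFullC (IsLocalRing.ResidueField A) M')) (FF (M' * q * q)))
  (hR : IsSeriesRed R)
variable (R' : ConstRed A (IsLocalRing.residue A)
  (↥(modularFunctionFieldFullC (IsLocalRing.ResidueField A) M')) (FF M'))
  (hR' : IsSeriesRed R')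
variable {ζ : Kbarˣ} {E : FF (M' * q * q) →+* LaurentSeries Kbar}
  (hlt : A.valuation (q : Kbar) < 1) (hζ : ζ ^ q = 1) (hE : IsMidExp M' q ζ E)
variable
  (hiMid : ∀ (x : FF (M' * q * q)) (hx : x ∈ (vmidSV A hq hlt hζ hE).O),
    x ∈ f0Field A (M' * q * q) → (vmidSV A hq hlt hζ hE).red ⟨x, hx⟩ ∈
      modularFunctionFieldFullC (IsLocalRing.ResidueField A) M')
  (hoMid : ∀ y ∈ modularFunctionFieldFullC (IsLocalRing.ResidueField A) M',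
    ∃ (x : FF (M' * q * q)) (hx : x ∈ (vmidSV A hq hlt hζ hE).O),
      x ∈ f0Field A (M' * q * q) ∧ (vmidSV A hq hlt hζ hE).red ⟨x, hx⟩ = y)
variable (j2 : FF M') (h2 : j2 ∈ R'.O) (hj2F : j2 ∈ f0Field A M')
  (hj2 : ∀ v' : Place Kbar (FF M'), v' ≠ infPlaceBar M' → 0 ≤ v'.ord j2)
  (hjj2 : ∀ v' : Place Kbar (FF M'), v' ≠ infPlaceBar M' → 0 ≤ v'.ord (jF M' * j2))

local notation "SM" => nodeSetupM A M' q hq hqM hA R hR (vmidSV A hq hlt hζ hE) hiMid hoMid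
local notation "κA" => IsLocalRing.ResidueField A

/-- the unfolding of `S.B` -/
theorem icc_mem_B (x : f0Field A (M' * q * q)) :
    x ∈ (SM).B ↔
      (x : FF (M' * q * q)) ∈ offRegular (M' * q * q) (s36D1 M' q hq hqM) ∧
        x ∈ (SM).vInf.O ∧ x ∈ (SM).vMid.O ∧ x ∈ (SM).vZero.O :=
  mem_f0AffD_iff A (M' * q * q) (s36D1 M' q hq hqM) _ _ _ x

include hR hR' h2 hj2 hjj2 in
/-- `s_a = (x₃ - x₂^q) G₃^(q²) ∈ B` -/
theorem icc_sa_B :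
    (iccX3 A M' q - iccX2 A M' q ^ q) * iccG3 A M' q j2 hj2F ^ (q * q) ∈ (SM).B := by
  refine (icc_mem_B A M' q hq hqM hA R hR hlt hζ hE hiMid hoMid _).2 ⟨?_, ?_, ?_, ?_⟩
  · rw [icc_coe_expr, icc_coe_X3, icc_coe_X2, icc_coe_G3]
    exact incCusp_sa_reg M' q hq hqM j2 hj2 hjj2
  · exact mul_mem (sub_mem (icc_tI3 A M' q hq hqM hA R hR hlt hζ hE hiMid hoMid).mem
      (pow_mem (icc_tI2 A M' q hq hqM hA R hR hlt hζ hE hiMid hoMid).mem q))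
      (pow_mem (icc_tIG3 A M' q hq hqM hA R hR R' hR' hlt hζ hE hiMid hoMid j2 h2 hj2F) _)
  · exact mul_mem (sub_mem (icc_tM3 A M' q hq hqM hA R hR R' hR' hlt hζ hE hiMid hoMid).mem
      (pow_mem (icc_tM2 A M' q hq hqM hA R hR hlt hζ hE hiMid hoMid).mem q))
      (pow_mem (icc_tMG3 A M' q hq hqM hA R hR R' hR' hlt hζ hE hiMid hoMid j2 h2 hj2F).mem _)
  · exact mul_mem (sub_mem (icc_tZ3 A M' q hq hqM hA R hR hlt hζ hE hiMid hoMid).mem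
      (pow_mem (icc_tZ2 A M' q hq hqM hA R hR hlt hζ hE hiMid hoMid).mem q))
      (pow_mem (icc_tZG3 A M' q hq hqM hA R hR R' hR' hlt hζ hE hiMid hoMid j2 h2 hj2F).mem _)

include hR hR' h2 hj2 hjj2 in
/-- `s_b = (x₁ - x₂^q) G₁^(q²) ∈ B` -/
theorem icc_sb_B :
    (iccX1 A M' q - iccX2 A M' q ^ q) * iccG1 A M' q j2 hj2F ^ (q * q) ∈ (SM).B := by
  refine (icc_mem_B A M' q hq hqM hA R hR hlt hζ hE hiMid hoMid _).2 ⟨?_, ?_, ?_, ?_⟩
  · rw [icc_coe_expr, icc_coe_X1, icc_coe_X2, icc_coe_G1]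
    exact incCusp_sb_reg M' q hq hqM j2 hj2 hjj2
  · exact mul_mem (sub_mem (icc_tI1 A M' q hq hqM hA R hR hlt hζ hE hiMid hoMid).mem
      (pow_mem (icc_tI2 A M' q hq hqM hA R hR hlt hζ hE hiMid hoMid).mem q))
      (pow_mem (icc_tIG1 A M' q hq hqM hA R hR R' hR' hlt hζ hE hiMid hoMid j2 h2 hj2F).mem _)
  · exact mul_mem (sub_mem (icc_tM1 A M' q hq hqM hA R hR R' hR' hlt hζ hE hiMid hoMid).mem
      (pow_mem (icc_tM2 A M' q hq hqM hA R hR hlt hζ hE hiMid hoMid).mem q))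
      (pow_mem (icc_tMG1 A M' q hq hqM hA R hR R' hR' hlt hζ hE hiMid hoMid j2 h2 hj2F).mem _)
  · exact mul_mem (sub_mem (icc_tZ1 A M' q hq hqM hA R hR hlt hζ hE hiMid hoMid).mem
      (pow_mem (icc_tZ2 A M' q hq hqM hA R hR hlt hζ hE hiMid hoMid).mem q))
      (pow_mem (icc_tZG1 A M' q hq hqM hA R hR R' hR' hlt hζ hE hiMid hoMid j2 h2 hj2F) _)

include hR hR' h2 hj2 hjj2 in
/-- `s_∞ = (x₂ - x₃^q) G₁^(q³) ∈ B` -/
theorem icc_sInf_B :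
    (iccX2 A M' q - iccX3 A M' q ^ q) * iccG1 A M' q j2 hj2F ^ (q * (q * q)) ∈ (SM).B := by
  refine (icc_mem_B A M' q hq hqM hA R hR hlt hζ hE hiMid hoMid _).2 ⟨?_, ?_, ?_, ?_⟩
  · rw [icc_coe_expr, icc_coe_X3, icc_coe_X2, icc_coe_G1]
    exact incCusp_sInf_reg M' q hq hqM j2 hj2 hjj2
  · exact mul_mem (sub_mem (icc_tI2 A M' q hq hqM hA R hR hlt hζ hE hiMid hoMid).mem
      (pow_mem (icc_tI3 A M' q hq hqM hA R hR hlt hζ hE hiMid hoMid).mem q))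
      (pow_mem (icc_tIG1 A M' q hq hqM hA R hR R' hR' hlt hζ hE hiMid hoMid j2 h2 hj2F).mem _)
  · exact mul_mem (sub_mem (icc_tM2 A M' q hq hqM hA R hR hlt hζ hE hiMid hoMid).mem
      (pow_mem (icc_tM3 A M' q hq hqM hA R hR R' hR' hlt hζ hE hiMid hoMid).mem q))
      (pow_mem (icc_tMG1 A M' q hq hqM hA R hR R' hR' hlt hζ hE hiMid hoMid j2 h2 hj2F).mem _)
  · exact mul_mem (sub_mem (icc_tZ2 A M' q hq hqM hA R hR hlt hζ hE hiMid hoMid).mem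
      (pow_mem (icc_tZ3 A M' q hq hqM hA R hR hlt hζ hE hiMid hoMid).mem q))
      (pow_mem (icc_tZG1 A M' q hq hqM hA R hR R' hR' hlt hζ hE hiMid hoMid j2 h2 hj2F) _)

include hR hR' h2 hj2 hjj2 in
/-- `s_0 = (x₂ - x₁^q) G₃^(q³) ∈ B` -/
theorem icc_sZero_B :
    (iccX2 A M' q - iccX1 A M' q ^ q) * iccG3 A M' q j2 hj2F ^ (q * (q * q)) ∈ (SM).B := by
  refine (icc_mem_B A M' q hq hqM hA R hR hlt hζ hE hiMid hoMid _).2 ⟨?_, ?_, ?_, ?_⟩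
  · rw [icc_coe_expr, icc_coe_X1, icc_coe_X2, icc_coe_G3]
    exact incCusp_sZero_reg M' q hq hqM j2 hj2 hjj2
  · exact mul_mem (sub_mem (icc_tI2 A M' q hq hqM hA R hR hlt hζ hE hiMid hoMid).mem
      (pow_mem (icc_tI1 A M' q hq hqM hA R hR hlt hζ hE hiMid hoMid).mem q))
      (pow_mem (icc_tIG3 A M' q hq hqM hA R hR R' hR' hlt hζ hE hiMid hoMid j2 h2 hj2F) _)
  · exact mul_mem (sub_mem (icc_tM2 A M' q hq hqM hA R hR hlt hζ hE hiMid hoMid).mem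
      (pow_mem (icc_tM1 A M' q hq hqM hA R hR R' hR' hlt hζ hE hiMid hoMid).mem q))
      (pow_mem (icc_tMG3 A M' q hq hqM hA R hR R' hR' hlt hζ hE hiMid hoMid j2 h2 hj2F).mem _)
  · exact mul_mem (sub_mem (icc_tZ2 A M' q hq hqM hA R hR hlt hζ hE hiMid hoMid).mem
      (pow_mem (icc_tZ1 A M' q hq hqM hA R hR hlt hζ hE hiMid hoMid).mem q))
      (pow_mem (icc_tZG3 A M' q hq hqM hA R hR R' hR' hlt hζ hE hiMid hoMid j2 h2 hj2F).mem _)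

variable (c : Place (IsLocalRing.ResidueField A)
      (↥(modularFunctionFieldFullC (IsLocalRing.ResidueField A) M')))
    (hc : c.ord (jk (IsLocalRing.ResidueField A) M') < 0)
    (hjg0 : jk (IsLocalRing.ResidueField A) M' * R'.red ⟨j2, h2⟩ ≠ 0)
    (hjg : c.ord (jk (IsLocalRing.ResidueField A) M' * R'.red ⟨j2, h2⟩) = 0)

include hR hR' hj2F hj2 hjj2 hc hjg0 hjg in
/-- **INC at the cusps of `C_mid`, concrete**: the field `s` of `Reg3CuspDataAt` at the setup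
`nodeSetupM` with `vMid = vmidSV`. -/
theorem incCusp_mid_conc :
    ∃ s : (SM).B, s ∈ (SM).pInf ∧ s ∈ (SM).pZero ∧ (SM).redMid s ≠ 0 ∧
      c.ord ((SM).redMid s) = 0 :=
  incCusp_mid (SM) q hq.one_lt (iccX1 A M' q) (iccX2 A M' q) (iccX3 A M' q)
    (iccG1 A M' q j2 hj2F) (iccG3 A M' q j2 hj2F) (jk κA M') (R'.red ⟨j2, h2⟩)
    (jk κA M' ^ q) (jk κA M' ^ q)
    (icc_tI2 A M' q hq hqM hA R hR hlt hζ hE hiMid hoMid)
    ((icc_tI3 A M' q hq hqM hA R hR hlt hζ hE hiMid hoMid).congr (pow_mul _ _ _))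
    (icc_tIG3 A M' q hq hqM hA R hR R' hR' hlt hζ hE hiMid hoMid j2 h2 hj2F)
    (icc_tZ2 A M' q hq hqM hA R hR hlt hζ hE hiMid hoMid)
    ((icc_tZ1 A M' q hq hqM hA R hR hlt hζ hE hiMid hoMid).congr (pow_mul _ _ _))
    (icc_tZG1 A M' q hq hqM hA R hR R' hR' hlt hζ hE hiMid hoMid j2 h2 hj2F)
    (icc_tM1 A M' q hq hqM hA R hR R' hR' hlt hζ hE hiMid hoMid)
    (icc_tM2 A M' q hq hqM hA R hR hlt hζ hE hiMid hoMid)
    (icc_tM3 A M' q hq hqM hA R hR R' hR' hlt hζ hE hiMid hoMid)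
    (icc_tMG1 A M' q hq hqM hA R hR R' hR' hlt hζ hE hiMid hoMid j2 h2 hj2F)
    (icc_tMG3 A M' q hq hqM hA R hR R' hR' hlt hζ hE hiMid hoMid j2 h2 hj2F)
    (icc_sa_B A M' q hq hqM hA R hR R' hR' hlt hζ hE hiMid hoMid j2 h2 hj2F hj2 hjj2)
    (icc_sb_B A M' q hq hqM hA R hR R' hR' hlt hζ hE hiMid hoMid j2 h2 hj2F hj2 hjj2)
    c hc hjg0 hjg

include hR hR' hj2F hj2 hjj2 hc hjg0 hjg in
/-- **INC at the cusps of `C_∞`, concrete** -/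
theorem incCusp_inf_conc :
    ∃ s : (SM).B, s ∈ (SM).pMid ∧ s ∈ (SM).pZero ∧ (SM).redInf s ≠ 0 ∧
      c.ord ((SM).redInf s) = 0 :=
  incCusp_inf (SM) q hq.one_lt (iccX2 A M' q) (iccX3 A M' q)
    (iccG1 A M' q j2 hj2F) (jk κA M') (R'.red ⟨j2, h2⟩) (jk κA M') (jk κA M')
    (icc_tM2 A M' q hq hqM hA R hR hlt hζ hE hiMid hoMid)
    (icc_tM3 A M' q hq hqM hA R hR R' hR' hlt hζ hE hiMid hoMid)
    (icc_tMG1 A M' q hq hqM hA R hR R' hR' hlt hζ hE hiMid hoMid j2 h2 hj2F).mem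
    (icc_tZ2 A M' q hq hqM hA R hR hlt hζ hE hiMid hoMid)
    (icc_tZ3 A M' q hq hqM hA R hR hlt hζ hE hiMid hoMid)
    (icc_tZG1 A M' q hq hqM hA R hR R' hR' hlt hζ hE hiMid hoMid j2 h2 hj2F)
    (icc_tI2 A M' q hq hqM hA R hR hlt hζ hE hiMid hoMid)
    (icc_tI3 A M' q hq hqM hA R hR hlt hζ hE hiMid hoMid)
    (icc_tIG1 A M' q hq hqM hA R hR R' hR' hlt hζ hE hiMid hoMid j2 h2 hj2F)
    (icc_sInf_B A M' q hq hqM hA R hR R' hR' hlt hζ hE hiMid hoMid j2 h2 hj2F hj2 hjj2)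
    c hc hjg0 hjg

include hR hR' hj2F hj2 hjj2 hc hjg0 hjg in
/-- **INC at the cusps of `C_0`, concrete** -/
theorem incCusp_zero_conc :
    ∃ s : (SM).B, s ∈ (SM).pInf ∧ s ∈ (SM).pMid ∧ (SM).redZero s ≠ 0 ∧
      c.ord ((SM).redZero s) = 0 :=
  incCusp_zero (SM) q hq.one_lt (iccX1 A M' q) (iccX2 A M' q)
    (iccG3 A M' q j2 hj2F) (jk κA M') (R'.red ⟨j2, h2⟩) (jk κA M') (jk κA M')
    (icc_tI2 A M' q hq hqM hA R hR hlt hζ hE hiMid hoMid)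
    (icc_tI1 A M' q hq hqM hA R hR hlt hζ hE hiMid hoMid)
    (icc_tIG3 A M' q hq hqM hA R hR R' hR' hlt hζ hE hiMid hoMid j2 h2 hj2F)
    (icc_tM2 A M' q hq hqM hA R hR hlt hζ hE hiMid hoMid)
    (icc_tM1 A M' q hq hqM hA R hR R' hR' hlt hζ hE hiMid hoMid)
    (icc_tMG3 A M' q hq hqM hA R hR R' hR' hlt hζ hE hiMid hoMid j2 h2 hj2F).mem
    (icc_tZ2 A M' q hq hqM hA R hR hlt hζ hE hiMid hoMid)
    (icc_tZ1 A M' q hq hqM hA R hR hlt hζ hE hiMid hoMid)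
    (icc_tZG3 A M' q hq hqM hA R hR R' hR' hlt hζ hE hiMid hoMid j2 h2 hj2F)
    (icc_sZero_B A M' q hq hqM hA R hR R' hR' hlt hζ hE hiMid hoMid j2 h2 hj2F hj2 hjj2)
    c hc hjg0 hjg

end Main

end Fermat.Agent.S36lib

end
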