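/-
Item 83 (S36), block R-5 / D1-C, piece (J2) (helper10), part 1: level `M` (the auxiliary level
`M'`), over `ℚ̄`.

`R` an `IsSeriesRed` constant reduction of `FF M` with a place reduction `r`, (F3) and
`r ∞ = ∞̄`.  For every cusp `c̄ ≠ ∞̄` of `F_{M,k}` there is `j2 ∈ O` such that

* `j2` is regular off `∞` and vanishes at every cusp `P ≠ ∞` to order `≥ -ord_P j`
  (`j2 ∈ L(n ∞ - (j)_∞^{≠∞})`), so `j2` and `j · j2` are regular off `∞`;
* `red (j · j2) = j̄ · red j2` is nonzero, of order `0` at `c̄`.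

Proof: `r_* (j)_∞ = (j̄)_∞` (`IsPlaceRed.mapDomain_poles`), (F3) and Riemann–Roch in `F_{M,k}`.
Declarations are prefixed `reg3j2_`.  No sorry.
-/
import Mathlib
import Fermat.Agent.S34lib.LiftInfMain
import Fermat.Agent.GoodRed.DescZeros
import Fermat.Agent.GoodRed.DescDeg
import Fermat.Agent.GoodRed.Polar
import Fermat.Agent.S34lib.GalRR
import Fermat.Agent.S36lib.VDesc
import Fermat.Agent.S36lib.VDisc

set_option autoImplicit false
set_option linter.style.haveILetI false
set_option linter.unusedSectionVars false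
set_option synthInstance.maxHeartbeats 400000

noncomputable section

namespace Fermat.Agent.S36lib

open AlgebraicCurve ModularCurve IntermediateField CongruenceSubgroup
open Fermat.Agent.S24lib Fermat.Agent.FFlib Fermat.Agent.RRlib Fermat.Agent.GoodRed
  Fermat.Agent.GM Fermat.Agent.S34lib
open scoped MatrixGroups

section Generic

variable {K F : Type*} [Field K] [Field F] [Algebra K F]

/-- the pole divisor of a function -/
def reg3j2Poles [RRBase K F] (x : F) : Divisor K F := (-divOf (K := K) x) ⊔ 0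

theorem reg3j2Poles_apply [RRBase K F] (x : F) (v : Place K F) :
    reg3j2Poles (K := K) x v = max 0 (-(v.ord x)) := by
  rw [reg3j2Poles, Finsupp.sup_apply, Finsupp.neg_apply, divOf_apply', Finsupp.coe_zero,
    Pi.zero_apply, max_comm]

theorem reg3j2Poles_nonneg [RRBase K F] (x : F) (v : Place K F) :
    0 ≤ reg3j2Poles (K := K) x v := by
  rw [reg3j2Poles_apply]
  exact le_max_left _ _

end Generic

section Level

variable {M : ℕ} [NeZero M] {A : ValuationSubring Kbar}
variable [IsAlgClosed (IsLocalRing.ResidueField A)]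
variable [RRHyp Kbar (FF M)] [RRHyp (IsLocalRing.ResidueField A) (Fk (IsLocalRing.ResidueField A) M)]
variable {R : ConstRed A (IsLocalRing.residue A) (Fk (IsLocalRing.ResidueField A) M) (FF M)}
variable {r : Place Kbar (FF M) →
    Place (IsLocalRing.ResidueField A) (Fk (IsLocalRing.ResidueField A) M)}

/-- the divisor `n ∞ - (j)_∞` of level `M` -/
def reg3j2Div (M : ℕ) [NeZero M] [RRBase Kbar (FF M)] (n : ℤ) : Divisor Kbar (FF M) :=
  Finsupp.single (infPlaceBar M) n - reg3j2Poles (K := Kbar) (jF M)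

/-- `r_* (j)_∞ = (j̄)_∞` -/
theorem reg3j2_mapDomain_poles (hR : IsSeriesRed R) (hr : R.IsPlaceRed r)
    (hD : Nonempty (FiberData (IsLocalRing.ResidueField A) (Fk (IsLocalRing.ResidueField A) M)
      (IsLocalRing.ResidueField A) ((jk (IsLocalRing.ResidueField A) M)⁻¹)
      (SL(2, ℤ) ⧸ Gamma0 M) ModularGroup.T)) :
    Finsupp.mapDomain r (reg3j2Poles (K := Kbar) (jF M)) =
      reg3j2Poles (K := IsLocalRing.ResidueField A) (jk (IsLocalRing.ResidueField A) M) := by
  have hred := dw_red_jF (N := M) hR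
  refine hr.mapDomain_poles ⟨jF M, dw_jF_mem hR⟩ ?_ (fun v => reg3j2Poles_apply _ v)
    (fun w => ?_) ?_
  · rw [hred]
    exact dd_jk_nonconst M
  · rw [hred]
    exact reg3j2Poles_apply _ w
  · rw [dd_degree_poles_jF M _ (fun v => reg3j2Poles_apply _ v),
      dd_degree_poles_jk M hD _ (fun w => reg3j2Poles_apply _ w)]

/-- **(J2) over `ℚ̄`**. -/
theorem reg3j2_kbar (hR : IsSeriesRed R) (hr : R.IsPlaceRed r)
    (hW : ∀ D : Divisor Kbar (FF M), 2 * (genusFF Kbar (FF M) : ℤ) - 2 < Divisor.degree D →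
        R.W D = riemannRochSpace (K := IsLocalRing.ResidueField A) (Finsupp.mapDomain r D))
    (hrInf : r (infPlaceBar M) = infPlaceC (IsLocalRing.ResidueField A) M)
    (hgeq : genusFF (IsLocalRing.ResidueField A) (Fk (IsLocalRing.ResidueField A) M)
        = genusFF Kbar (FF M))
    (hD : Nonempty (FiberData (IsLocalRing.ResidueField A) (Fk (IsLocalRing.ResidueField A) M)
      (IsLocalRing.ResidueField A) ((jk (IsLocalRing.ResidueField A) M)⁻¹)
      (SL(2, ℤ) ⧸ Gamma0 M) ModularGroup.T))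
    (c : Place (IsLocalRing.ResidueField A) (Fk (IsLocalRing.ResidueField A) M))
    (hc : c ≠ infPlaceC (IsLocalRing.ResidueField A) M) :
    ∃ (n : ℤ) (x : R.O),
      ((x : R.O) : FF M) ∈ riemannRochSpace (K := Kbar) (reg3j2Div M n) ∧
      R.red x ≠ 0 ∧
      c.ord (R.red x) = max 0 (-(c.ord (jk (IsLocalRing.ResidueField A) M))) := by
  classical
  set k := IsLocalRing.ResidueField A with hk
  set g : ℤ := (genusFF Kbar (FF M) : ℤ) with hg
  set n : ℤ := 2 * g + (dedekindPsi M : ℤ) with hn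
  have hdegP : Divisor.degree (reg3j2Poles (K := Kbar) (jF M)) = (dedekindPsi M : ℤ) :=
    dd_degree_poles_jF M _ (fun v => reg3j2Poles_apply _ v)
  have hdeg : Divisor.degree (reg3j2Div M n) = 2 * g := by
    rw [reg3j2Div, map_sub, Divisor.degree_single, deg_eq_one, hdegP, hn]
    push_cast
    ring
  have hmap : Finsupp.mapDomain r (reg3j2Div M n)
      = Finsupp.single (infPlaceC k M) n - reg3j2Poles (K := k) (jk k M) := by
    rw [reg3j2Div]
    have h := (Finsupp.mapDomain.addMonoidHom r).map_sub (Finsupp.single (infPlaceBar M) n)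
      (reg3j2Poles (K := Kbar) (jF M))
    simp only [Finsupp.mapDomain.addMonoidHom_apply] at h
    rw [h, Finsupp.mapDomain_single, hrInf, reg3j2_mapDomain_poles hR hr hD]
  have hdeg' : 2 * (genusFF k (Fk k M) : ℤ) ≤ Divisor.degree (Finsupp.mapDomain r (reg3j2Div M n)) := by
    rw [dz_degree_mapDomain, hdeg, hgeq]
  obtain ⟨w, hw, hw0, hwc⟩ := exists_ord_eq_neg k (Fk k M) hdeg' c
  have hWD := hW (reg3j2Div M n) (by rw [hdeg]; omega)
  rw [← hWD] at hw
  obtain ⟨x, hx, hred⟩ := (R.mem_W_iff _ w).mp hw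
  refine ⟨n, x, hx, by rw [hred]; exact hw0, ?_⟩
  rw [hred, hwc, hmap, Finsupp.sub_apply, Finsupp.single_apply, if_neg (Ne.symm hc),
    reg3j2Poles_apply]
  ring

/-- the pole divisor of `j` is stable under inertia -/
theorem reg3j2_smul_div (n : ℤ) (σ : Kbar ≃ₐ[ℚ] Kbar)
    (hσ : σ ∈ A.inertiaSubgroupIn ℚ) :
    galFF M σ • reg3j2Div M n = reg3j2Div M n := by
  ext w
  have hj : galFF M σ • jF M = jF M := by
    have h := (mem_f0Field_iff_isIFixed A M (jF M)).mp ?_ σ hσ
    · exact h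
    · have h1 := jdF_mem_f0Field A M 1 (one_dvd M)
      have e : jdF M 1 (one_dvd M) = jF M := by
        apply Subtype.ext
        rw [coe_jdF, coe_jF, qExpand_one_apply]
      rwa [e] at h1
  have hinf : (galFF M σ)⁻¹ • w = infPlaceBar M ↔ w = infPlaceBar M := by
    constructor
    · intro h
      have h2 := congrArg (fun v => galFF M σ • v) h
      simp only [smul_inv_smul] at h2
      rw [h2, galFF_smul_infPlaceBar]
    · intro h
      rw [h, inv_smul_eq_iff, galFF_smul_infPlaceBar]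
  have hord : ((galFF M σ)⁻¹ • w).ord (jF M) = w.ord (jF M) := by
    have h := SemilinearAut.ord_smul (galFF M σ) ((galFF M σ)⁻¹ • w) (jF M)
    rw [smul_inv_smul, hj] at h
    exact h.symm
  have e : (Finsupp.single (infPlaceBar M) n : Divisor Kbar (FF M)) ((galFF M σ)⁻¹ • w)
      = (Finsupp.single (infPlaceBar M) n : Divisor Kbar (FF M)) w := by
    classical
    rw [Finsupp.single_apply, Finsupp.single_apply]
    by_cases hw : w = infPlaceBar M
    · rw [if_pos (hinf.mpr hw).symm, if_pos hw.symm]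
    · rw [if_neg (fun h => hw (hinf.mp h.symm)), if_neg (fun h => hw h.symm)]
  rw [SemilinearAut.divisor_smul_apply, reg3j2Div, Finsupp.sub_apply, Finsupp.sub_apply,
    reg3j2Poles_apply, reg3j2Poles_apply, hord, e]

/-- elements of `L(n ∞ - (j)_∞)`: regularity -/
theorem reg3j2_reg {n : ℤ} {x : FF M} (hx : x ∈ riemannRochSpace (K := Kbar) (reg3j2Div M n))
    (P : Place Kbar (FF M)) (hP : P ≠ infPlaceBar M) :
    0 ≤ P.ord x ∧ 0 ≤ P.ord (jF M * x) := by
  classical
  rcases eq_or_ne x 0 with rfl | hx0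
  · simp
  rw [mem_riemannRochSpace_iff] at hx
  have h := (hx P).resolve_left hx0
  rw [reg3j2Div, Finsupp.sub_apply, Finsupp.single_apply, if_neg (Ne.symm hP),
    reg3j2Poles_apply] at h
  have hj0 : jF M ≠ 0 := by
    intro h0
    have h1 := infPlaceBar_ord M (jF M)
    rw [coe_jF, inf_order_coeffEmb_jq, h0, Place.ord_zero] at h1
    omega
  have h1 : (0 : ℤ) ≤ max 0 (-(P.ord (jF M))) := le_max_left _ _
  have h2 : -(P.ord (jF M)) ≤ max 0 (-(P.ord (jF M))) := le_max_right _ _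
  refine ⟨by omega, ?_⟩
  rw [P.ord_mul hj0 hx0]
  omega

end Level

section Final

variable {M : ℕ} [NeZero M] {A : ValuationSubring Kbar}
variable {R : ConstRed A (IsLocalRing.residue A) (Fk (IsLocalRing.ResidueField A) M) (FF M)}

/-- **(J2), uniform form**: at an auxiliary level `M` (the level `M'` of item 83), for every
place `c ≠ ∞` of `F_{M,k}` there is `j2 ∈ F0(M) ∩ O`, regular off `∞`, with `j · j2` regular off
`∞`, whose reduction is nonzero, of order exactly `max 0 (-ord_c j̄)` at `c`. -/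
theorem reg3j2_main (q : ℕ) [Fact q.Prime] (haux : IsAuxLevel q M)
    (hA : A.LiesOverPrime q) (hR : IsSeriesRed R)
    (c : Place (IsLocalRing.ResidueField A) (Fk (IsLocalRing.ResidueField A) M))
    (hc : c ≠ infPlaceC (IsLocalRing.ResidueField A) M) :
    ∃ (j2 : FF M) (h2 : j2 ∈ R.O),
      j2 ∈ f0Field A M ∧
      (∀ P : Place Kbar (FF M), P ≠ infPlaceBar M → 0 ≤ P.ord j2) ∧
      (∀ P : Place Kbar (FF M), P ≠ infPlaceBar M → 0 ≤ P.ord (jF M * j2)) ∧
      R.red ⟨j2, h2⟩ ≠ 0 ∧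
      c.ord (R.red ⟨j2, h2⟩) = max 0 (-(c.ord (jk (IsLocalRing.ResidueField A) M))) := by
  haveI : IsAlgClosed (IsLocalRing.ResidueField A) := isAlgClosed_residueField A
  haveI : RRHyp Kbar (FF M) := mod_rrHyp M
  haveI : RRHyp (IsLocalRing.ResidueField A) (Fk (IsLocalRing.ResidueField A) M) :=
    mr_rrHyp (IsLocalRing.ResidueField A) M
  have hq : q.Prime := Fact.out
  obtain ⟨r, hr, hW, hgeq, hrInf⟩ := liftInf_exists_r q haux hA hR
  obtain ⟨n, x, hx, hx0, hxc⟩ := reg3j2_kbar hR hr hW hrInf hgeq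
    (exists_fiberData_modL' M haux.1 A hA) c hc
  obtain ⟨z₀, hz₀L, hz₀F, hz₀O, hred⟩ := vdesc_main (κ := Fk (IsLocalRing.ResidueField A) M)
    hq hA (fun _ : Unit => ResVal.ofConstRed R) R () rfl
    (fun _ f hf hf0 => vdisc_inf hq hA hR hf hf0) (reg3j2Div M n)
    (fun σ hσ => reg3j2_smul_div n σ hσ) (x : FF M) hx (fun _ => x.2)
  have hred' : R.red ⟨z₀, hz₀O ()⟩ = R.red x := hred ()
  exact ⟨z₀, hz₀O (), hz₀F, fun P hP => (reg3j2_reg hz₀L P hP).1,
    fun P hP => (reg3j2_reg hz₀L P hP).2, by rw [hred']; exact hx0, by rw [hred', hxc]⟩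

/-- **(J2)** at a cusp `c ≠ ∞` of `F_{M,k}`: `red (j · j2) = j̄ · red j2` is nonzero of order `0`
at `c`. -/
theorem reg3j2_cusp (q : ℕ) [Fact q.Prime] (haux : IsAuxLevel q M)
    (hA : A.LiesOverPrime q) (hR : IsSeriesRed R)
    (c : Place (IsLocalRing.ResidueField A) (Fk (IsLocalRing.ResidueField A) M))
    (hc : c ≠ infPlaceC (IsLocalRing.ResidueField A) M)
    (hcusp : c.ord (jk (IsLocalRing.ResidueField A) M) < 0) :
    ∃ (j2 : FF M) (h2 : j2 ∈ R.O) (h12 : jF M * j2 ∈ R.O),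
      j2 ∈ f0Field A M ∧
      (∀ P : Place Kbar (FF M), P ≠ infPlaceBar M → 0 ≤ P.ord j2) ∧
      (∀ P : Place Kbar (FF M), P ≠ infPlaceBar M → 0 ≤ P.ord (jF M * j2)) ∧
      R.red ⟨jF M * j2, h12⟩ = jk (IsLocalRing.ResidueField A) M * R.red ⟨j2, h2⟩ ∧
      R.red ⟨jF M * j2, h12⟩ ≠ 0 ∧ c.ord (R.red ⟨jF M * j2, h12⟩) = 0 := by
  obtain ⟨j2, h2, hF, hreg, hreg', h0, hord⟩ := reg3j2_main q haux hA hR c hc
  have hjk0 : jk (IsLocalRing.ResidueField A) M ≠ 0 := by
    intro h
    rw [h, Place.ord_zero] at hcusp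
    exact lt_irrefl _ hcusp
  have h12 : jF M * j2 ∈ R.O := R.O.mul_mem _ _ (dw_jF_mem hR) h2
  have hmul : R.red ⟨jF M * j2, h12⟩ = jk (IsLocalRing.ResidueField A) M * R.red ⟨j2, h2⟩ := by
    rw [← dw_red_jF hR, ← map_mul]
    rfl
  refine ⟨j2, h2, h12, hF, hreg, hreg', hmul, ?_, ?_⟩
  · rw [hmul]
    exact mul_ne_zero hjk0 h0
  · rw [hmul, c.ord_mul hjk0 h0, hord, max_eq_right (by omega)]
    ring

/-- **(J2')** at a non-cuspidal place `c` of `F_{M,k}`: `red j2` is nonzero of order `0` at `c`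
(and `j2`, `j · j2` are regular off `∞`). -/
theorem reg3j2_noncusp (q : ℕ) [Fact q.Prime] (haux : IsAuxLevel q M)
    (hA : A.LiesOverPrime q) (hR : IsSeriesRed R)
    (c : Place (IsLocalRing.ResidueField A) (Fk (IsLocalRing.ResidueField A) M))
    (hnc : 0 ≤ c.ord (jk (IsLocalRing.ResidueField A) M)) :
    ∃ (j2 : FF M) (h2 : j2 ∈ R.O),
      j2 ∈ f0Field A M ∧
      (∀ P : Place Kbar (FF M), P ≠ infPlaceBar M → 0 ≤ P.ord j2) ∧
      (∀ P : Place Kbar (FF M), P ≠ infPlaceBar M → 0 ≤ P.ord (jF M * j2)) ∧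
      R.red ⟨j2, h2⟩ ≠ 0 ∧ c.ord (R.red ⟨j2, h2⟩) = 0 := by
  have hc : c ≠ infPlaceC (IsLocalRing.ResidueField A) M := by
    intro h
    rw [h, infPlaceC_ord, coe_jk, inf_order_jqModC] at hnc
    omega
  obtain ⟨j2, h2, hF, hreg, hreg', h0, hord⟩ := reg3j2_main q haux hA hR c hc
  refine ⟨j2, h2, hF, hreg, hreg', h0, ?_⟩
  rw [hord, max_eq_left (by omega)]

end Final

end Fermat.Agent.S36lib

end
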