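/-
Item 83 (S36), CRUX HEAD input (helper17): the hypotheses `hIncI`, `hIncM`, `hIncZ` of
`s36_htriC` (`H1TriCusp.lean`, helper26) and of `trn_node_not_cuspidal` (`TransferNodes.lean`,
helper22), CONCRETE, for `S = nodeSetupM …` (helper24's `TheSetup.lean`).  Complete proofs.

For a place `c` of `κ' = F_{M',k}` such that all reductions `red_v z`, `z ∈ B = B_{D1}`, are
regular at `c` and all `red_v t`, `t` in the conductor of `j`, vanish at `c`:

1. `c ≠ ∞̄'`: the reduction of `π₁ g` (resp. `π₃ g`), `g = g_n` of `GnA0.lean`, has a pole at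
   `∞̄'` (`icm_ne_inf`);
2. `c` is a cusp (a pole of `j̄`): else (J2) (`reg3j2_noncusp`, helper10) gives `j₂` with
   `red' j₂` a unit at `c`, and `π₁ j₂` (resp. `(π₃ j₂)^(q²)`) lies in the conductor;
3. at a cusp `c ≠ ∞̄'`: the separating elements of helper23 (`incCusp_*_conc`,
   `IncCuspConcF.lean`) from (J2) at the cusps (`reg3j2_cusp`, helper10).

The conductor enters only through `hcond`: every `t ∈ B` with `t · j` regular off `D1` lies in
`cond` (true by definition for `trcCond`).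

Main statements: `icm_hIncI`, `icm_hIncM`, `icm_hIncZ`.  Helper lemmas are prefixed `icm_`.
-/
import Mathlib
import Fermat.Agent.S36lib.IncCuspConcF
import Fermat.Agent.S36lib.Reg3J2
import Fermat.Agent.S36lib.GnA0
import Fermat.Agent.S36lib.TransferCover

set_option autoImplicit false
set_option linter.style.haveILetI false
set_option linter.unusedSectionVars false
set_option linter.unusedVariables false
set_option synthInstance.maxHeartbeats 400000

noncomputable section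

namespace Fermat.Agent.S36lib

open AlgebraicCurve ModularCurve HahnSeries
open Fermat.Agent.S24lib Fermat.Agent.S34lib Fermat.Agent.S37lib Fermat.Agent.HeckeBar
open Fermat.Agent.S35lib Fermat.Agent.GoodRed Fermat.Agent.GM

/-- regular off `∞'` from membership in `L(n ∞')` -/
theorem icm_reg_of_mem_L {M' : ℕ} [NeZero M'] {n : ℕ} {g : FF M'}
    (hg : g ∈ riemannRochSpace (K := Kbar) (Finsupp.single (infPlaceBar M') (n : ℤ)))
    (v : Place Kbar (FF M')) (hv : v ≠ infPlaceBar M') : 0 ≤ v.ord g := by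
  rw [mem_riemannRochSpace_iff] at hg
  rcases hg v with rfl | h
  · rw [Place.ord_zero]
  · rwa [Finsupp.single_eq_of_ne hv, neg_zero] at h

section Main

variable (A : ValuationSubring Kbar) (M' q : ℕ) [NeZero M'] [NeZero q]
  (hq : q.Prime) (hqM : ¬ q ∣ M') (hA : A.LiesOverPrime q)
variable (R : ConstRed A (IsLocalRing.residue A)
  (↥(modularFunctionFieldFullC (IsLocalRing.ResidueField A) M')) (FF (M' * q * q)))
  (hR : IsSeriesRed R)
variable (R' : ConstRed A (IsLocalRing.residue A)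
  (↥(modularFunctionFieldFullC (IsLocalRing.ResidueField A) M')) (FF M'))
  (hR' : IsSeriesRed R')
variable {ζ : Kbarˣ} {E : FF (M' * q * q) →+* LaurentSeries Kbar}
  (hlt : A.valuation (q : Kbar) < 1) (hζ : ζ ^ q = 1) (hE : IsMidExp M' q ζ E)
variable
  (hiMid : ∀ (x : FF (M' * q * q)) (hx : x ∈ (vmidSV A hq hlt hζ hE).O),
    x ∈ f0Field A (M' * q * q) → (vmidSV A hq hlt hζ hE).red ⟨x, hx⟩ ∈
      modularFunctionFieldFullC (IsLocalRing.ResidueField A) M')
  (hoMid : ∀ y ∈ modularFunctionFieldFullC (IsLocalRing.ResidueField A) M',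
    ∃ (x : FF (M' * q * q)) (hx : x ∈ (vmidSV A hq hlt hζ hE).O),
      x ∈ f0Field A (M' * q * q) ∧ (vmidSV A hq hlt hζ hE).red ⟨x, hx⟩ = y)

local notation "SM" =>
  nodeSetupM A M' q hq hqM hA R hR (vmidSV A hq hlt hζ hE) hiMid hoMid

/-- membership in `B` of `nodeSetupM` -/
theorem icm_mem_B (x : f0Field A (M' * q * q))
    (h0 : (x : FF (M' * q * q)) ∈ offRegular (M' * q * q) (s36D1 M' q hq hqM))
    (h1 : (x : FF (M' * q * q)) ∈ R.O) (h2 : (x : FF (M' * q * q)) ∈ vmidO A hq hlt hζ hE)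
    (h3 : alW2 M' hq hqM (x : FF (M' * q * q)) ∈ R.O) : x ∈ (SM).B :=
  (mem_nodeSetupConc_B A M' (s36D1 M' q hq hqM) q hq hA ⟨q * q, by ring⟩ R hR
    (alW2 M' hq hqM) (sconc_alW2_symm_mem A M' q hq hqM) (vmidSV A hq hlt hζ hE)
    hiMid hoMid x).mpr ⟨h0, h1, h2, h3⟩

include hR' in
/-- **transport by `π₁`**: for `g ∈ R'.O ∩ F0(M')` regular off `∞'`, `π₁ g ∈ B` and
`red_∞ (π₁ g) = red_mid (π₁ g) = red' g`. -/
theorem icm_pi1 {g : FF M'} (hgO : g ∈ R'.O) (hgF : g ∈ f0Field A M')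
    (hreg : ∀ v' : Place Kbar (FF M'), v' ≠ infPlaceBar M' → 0 ≤ v'.ord g) :
    ∃ t : (SM).B, ((t : f0Field A (M' * q * q)) : FF (M' * q * q)) = ecPi1 M' q g ∧
      (SM).redInf t = R'.red ⟨g, hgO⟩ ∧ (SM).redMid t = R'.red ⟨g, hgO⟩ := by
  have hfrac := vmid_hasPrimFrac_bar A M' hq hlt
  obtain ⟨hI, hIr⟩ := icc_inf_pi1 A M' q R hR R' hR' hfrac hgO
  obtain ⟨hM, hMr⟩ := icc_mid_pi1 A M' q R' hR' hq hlt hζ hE hgO
  have hZ : alW2 M' hq hqM (ecPi1 M' q g) ∈ R.O := by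
    rw [icc_alW2_pi1]
    exact icc_inf_pi3 A M' q R hR R' hR' hfrac hgO
  let x : f0Field A (M' * q * q) := ⟨ecPi1 M' q g, ecPi1_mem_f0Field A hgF⟩
  have hxB : x ∈ (SM).B :=
    icm_mem_B A M' q hq hqM hA R hR hlt hζ hE hiMid hoMid x
      (s36D1_pi1 M' q hq hqM g hreg) hI hM hZ
  refine ⟨⟨x, hxB⟩, rfl, ?_, ?_⟩
  · exact (SM).redInf_eq_of_redTo
      (icc_redTo_inf A M' q hq hqM hA R hR hlt hζ hE hiMid hoMid x _ hI hIr)
  · exact (SM).redMid_eq_of_redTo
      (icc_redTo_mid A M' q hq hqM hA R hR hlt hζ hE hiMid hoMid x _ hM hMr)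

include hR' in
/-- **transport by `π₃`**: for `g ∈ R'.O ∩ F0(M')` regular off `∞'`, `π₃ g ∈ B` and
`red_0 (π₃ g) = red_mid (π₃ g) = red' g`. -/
theorem icm_pi3 {g : FF M'} (hgO : g ∈ R'.O) (hgF : g ∈ f0Field A M')
    (hreg : ∀ v' : Place Kbar (FF M'), v' ≠ infPlaceBar M' → 0 ≤ v'.ord g) :
    ∃ t : (SM).B, ((t : f0Field A (M' * q * q)) : FF (M' * q * q)) = ecPi3 M' q g ∧
      (SM).redZero t = R'.red ⟨g, hgO⟩ ∧ (SM).redMid t = R'.red ⟨g, hgO⟩ := by
  have hfrac := vmid_hasPrimFrac_bar A M' hq hlt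
  obtain ⟨hI, hIr⟩ := icc_inf_pi1 A M' q R hR R' hR' hfrac hgO
  obtain ⟨hM, hMr⟩ := icc_mid_pi3 A M' q R' hR' hq hlt hζ hE hgO
  have hI3 : ecPi3 M' q g ∈ R.O := icc_inf_pi3 A M' q R hR R' hR' hfrac hgO
  have e : alW2 M' hq hqM (ecPi3 M' q g) = ecPi1 M' q g := icc_alW2_pi3 M' q hq hqM g
  have hZ : alW2 M' hq hqM (ecPi3 M' q g) ∈ R.O := by
    rw [e]
    exact hI
  have hZr : R.red ⟨alW2 M' hq hqM (ecPi3 M' q g), hZ⟩ = R'.red ⟨g, hgO⟩ := by
    rw [← hIr]
    congr 1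
    exact Subtype.ext e
  let x : f0Field A (M' * q * q) := ⟨ecPi3 M' q g, ecPi3_mem_f0Field A hgF⟩
  have hxB : x ∈ (SM).B :=
    icm_mem_B A M' q hq hqM hA R hR hlt hζ hE hiMid hoMid x
      (s36D1_pi3 M' q hq hqM g hreg) hI3 hM hZ
  refine ⟨⟨x, hxB⟩, rfl, ?_, ?_⟩
  · exact (SM).redZero_eq_of_redTo
      (icc_redTo_zero A M' q hq hqM hA R hR hlt hζ hE hiMid hoMid x _ hZ hZr)
  · exact (SM).redMid_eq_of_redTo
      (icc_redTo_mid A M' q hq hqM hA R hR hlt hζ hE hiMid hoMid x _ hM hMr)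

/-! ### Poles at `∞̄'` -/

include hR' in
/-- an element `g` of level `M'` with an integral expansion with a pole of order `n ≥ 1` and
unit leading coefficient gives elements of `B` whose reductions have a pole at `∞̄'` -/
theorem icm_exists_pole_of (g : FF M') (y : LaurentSeries A) (n : ℕ) (hn1 : 1 ≤ n)
    (hfix : ∀ σ : Kbar ≃ₐ[ℚ] Kbar, galFF M' σ • g = g)
    (hgy : ((g : FF M') : LaurentSeries Kbar) = coeffMap A.subtype y)
    (hgL : g ∈ riemannRochSpace (K := Kbar) (Finsupp.single (infPlaceBar M') (n : ℤ)))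
    (hu : IsUnit (y.coeff (-(n : ℤ)))) :
    ∃ tI tZ : (SM).B,
      (infPlaceC (IsLocalRing.ResidueField A) M').ord ((SM).redInf tI) < 0 ∧
      (infPlaceC (IsLocalRing.ResidueField A) M').ord ((SM).redMid tI) < 0 ∧
      (infPlaceC (IsLocalRing.ResidueField A) M').ord ((SM).redZero tZ) < 0 := by
  have hmem : coeffMap A.subtype y ∈ modularFunctionFieldBar M' := by
    rw [← hgy]
    exact g.2
  have e : (⟨coeffMap A.subtype y, hmem⟩ : FF M') = g := Subtype.ext hgy.symm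
  have hgO : g ∈ R'.O := by
    have := hR'.mem y hmem
    rwa [e] at this
  have hred : ((R'.red ⟨g, hgO⟩ : ↥(modularFunctionFieldFullC (IsLocalRing.ResidueField A) M')) :
      LaurentSeries (IsLocalRing.ResidueField A)) = coeffMap (IsLocalRing.residue A) y := by
    rw [← hR'.red y hmem]
    congr 2
    exact Subtype.ext e.symm
  have hgF : g ∈ f0Field A M' :=
    (mem_f0Field_iff_isIFixed A M' g).mpr (fun σ _ => hfix σ)
  have hreg : ∀ v' : Place Kbar (FF M'), v' ≠ infPlaceBar M' → 0 ≤ v'.ord g :=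
    fun v' hv' => icm_reg_of_mem_L hgL v' hv'
  have hord : (infPlaceC (IsLocalRing.ResidueField A) M').ord (R'.red ⟨g, hgO⟩) < 0 := by
    rw [infPlaceC_ord, hred]
    have hc : (coeffMap (IsLocalRing.residue A) y).coeff (-(n : ℤ)) ≠ 0 := by
      rw [coeffMap_coeff]
      exact (hu.map (IsLocalRing.residue A)).ne_zero
    have h1 := HahnSeries.order_le_of_coeff_ne_zero hc
    have h2 : (1 : ℤ) ≤ (n : ℤ) := by exact_mod_cast hn1
    omega
  obtain ⟨tI, -, hI, hM⟩ :=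
    icm_pi1 A M' q hq hqM hA R hR R' hR' hlt hζ hE hiMid hoMid hgO hgF hreg
  obtain ⟨tZ, -, hZ, -⟩ :=
    icm_pi3 A M' q hq hqM hA R hR R' hR' hlt hζ hE hiMid hoMid hgO hgF hreg
  exact ⟨tI, tZ, by rw [hI]; exact hord, by rw [hM]; exact hord, by rw [hZ]; exact hord⟩

include hR' in
/-- elements of `B` whose reductions have a pole at `∞̄'` -/
theorem icm_exists_pole [Fact q.Prime] (haux : IsAuxLevel q M') :
    ∃ tI tZ : (SM).B,
      (infPlaceC (IsLocalRing.ResidueField A) M').ord ((SM).redInf tI) < 0 ∧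
      (infPlaceC (IsLocalRing.ResidueField A) M').ord ((SM).redMid tI) < 0 ∧
      (infPlaceC (IsLocalRing.ResidueField A) M').ord ((SM).redZero tZ) < 0 := by
  obtain ⟨g, y, hfix, hgy, hgL, hu, -⟩ :=
    gnA0_exists_gal (M := M') (R := R') q haux hA hR' (max 1 (2 * genusFF Kbar (FF M')))
      (le_max_right _ _)
  exact icm_exists_pole_of A M' q hq hqM hA R hR R' hR' hlt hζ hE hiMid hoMid g y _
    (le_max_left _ _) hfix hgy hgL hu

/-! ### The conductor -/

/-- `π₁ j₂` is in the conductor of `j` -/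
theorem icm_cond_pi1 (j2 : FF M')
    (hjj2 : ∀ v' : Place Kbar (FF M'), v' ≠ infPlaceBar M' → 0 ≤ v'.ord (jF M' * j2)) :
    ecPi1 M' q j2 * jF (M' * q * q) ∈ offRegular (M' * q * q) (s36D1 M' q hq hqM) := by
  rw [← lq_pi1_jF, ← map_mul, mul_comm j2 (jF M')]
  exact s36D1_pi1 M' q hq hqM _ hjj2

/-- `(π₃ j₂)^(q²)` is in the conductor of `j` -/
theorem icm_cond_pi3 (j2 : FF M')
    (hj2 : ∀ v' : Place Kbar (FF M'), v' ≠ infPlaceBar M' → 0 ≤ v'.ord j2)
    (hjj2 : ∀ v' : Place Kbar (FF M'), v' ≠ infPlaceBar M' → 0 ≤ v'.ord (jF M' * j2)) :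
    ecPi3 M' q j2 ^ (q * q) * jF (M' * q * q) ∈
      offRegular (M' * q * q) (s36D1 M' q hq hqM) := by
  rw [mem_offRegular_iff]
  intro P hP
  rw [ffMem_iff_ord_nonneg]
  have H := incLq_pi M' q
  have H2 := incLq2_pi M' q
  have hg := incCusp_pi3_ord M' q hq hqM j2 hj2 P hP
  have hxg : 0 ≤ P.ord (ecPi3 M' q (jF M') * ecPi3 M' q j2) := by
    rw [← map_mul]
    exact incCusp_pi3_ord M' q hq hqM _ hjj2 P hP
  have key := incCusp_place_reg P (ecPi1 M' q (jF M')) 0 (ecPi3 M' q (jF M')) (ecPi3 M' q j2)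
    (q * q) hg hxg (fun h => H.reg₁_of₃ P h) (fun _ => by rw [Place.ord_zero])
    (fun h => H2.delta P (H.pole₁_of₃ P h))
    (fun h => by
      rw [Place.ord_zero]
      have h1 : (0 : ℤ) ≤ ((q * q : ℕ) : ℤ) := Int.natCast_nonneg _
      nlinarith)
  rw [sub_zero, lq_pi1_jF, mul_comm (jF (M' * q * q)) _] at key
  exact key

end Main

end Fermat.Agent.S36lib

end
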