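/-
Item 83 (S36), CRUX HEAD input (helper17): the hypotheses `hIncI`, `hIncM`, `hIncZ` of
`s36_htriC` (`H1TriCusp.lean`, helper26) and of `trn_node_not_cuspidal` (`TransferNodes.lean`,
helper22), CONCRETE, for `S = nodeSetupM …` (helper24's `TheSetup.lean`).  Complete proofs.

Main statements: `icm_hIncI`, `icm_hIncM`, `icm_hIncZ` (see `IncConcM.lean` for the plan).
The conductor enters only through `hcond`: every `t ∈ B` with `t · j` regular off `D1` lies in
`cond` (true by definition for `trcCond`).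
-/
import Mathlib
import Fermat.Agent.S36lib.IncConcM
import Fermat.Agent.S36lib.IncCuspConcF

set_option autoImplicit false
set_option linter.style.haveILetI false
set_option linter.unusedSectionVars false
set_option linter.unusedVariables false
set_option synthInstance.maxHeartbeats 400000

noncomputable section

namespace Fermat.Agent.S36lib

open AlgebraicCurve ModularCurve HahnSeries
open Fermat.Agent.S24lib Fermat.Agent.S34lib Fermat.Agent.S37lib Fermat.Agent.HeckeBar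
open Fermat.Agent.S35lib Fermat.Agent.GoodRed Fermat.Agent.GM

section Gen

variable {K : Type*} [Field K] {k : Type*} [Field k]
  {A : ValuationSubring K} {π : A →+* k} {κ : Type*} [Field κ] [Algebra k κ]
  {F : Type*} [Field F] [Algebra K F]

/-- a power of an element of `B` with unit reduction at `c` has unit reduction at `c` -/
theorem icm_redZero_pow (S : NodeSetup A π κ F) (c : Place k κ) (t : S.B) (n : ℕ)
    (h0 : S.redZero t ≠ 0) (hord : c.ord (S.redZero t) = 0) :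
    S.redZero (t ^ n) ≠ 0 ∧ c.ord (S.redZero (t ^ n)) = 0 := by
  rw [map_pow]
  exact ⟨pow_ne_zero _ h0, by rw [incCusp_ord_pow, hord, mul_zero]⟩

/-- the conclusion of `hIncI` from the two alternatives -/
theorem icm_concl {B : Type*} [CommRing B] (red : B →+* κ) (c : Place k κ) (cond pA pB : Ideal B)
    (hvan : ∀ t ∈ cond, red t = 0 ∨ 0 < c.ord (red t))
    (h : (∃ s : B, s ∈ pA ∧ s ∈ pB ∧ red s ≠ 0 ∧ c.ord (red s) = 0) ∨
      ∃ t ∈ cond, red t ≠ 0 ∧ c.ord (red t) = 0) :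
    (∃ s : B, s ∈ pA ∧ red s ≠ 0 ∧ c.ord (red s) = 0) ∧
      (∃ s : B, s ∈ pB ∧ red s ≠ 0 ∧ c.ord (red s) = 0) := by
  rcases h with ⟨s, hs1, hs2, hs0, hsc⟩ | ⟨t, ht, h0, hord⟩
  · exact ⟨⟨s, hs1, hs0, hsc⟩, ⟨s, hs2, hs0, hsc⟩⟩
  · exfalso
    rcases hvan t ht with h | h
    · exact h0 h
    · rw [hord] at h
      exact lt_irrefl _ h

end Gen

section Main

variable (A : ValuationSubring Kbar) (M' q : ℕ) [NeZero M'] [NeZero q]
  (hq : q.Prime) (hqM : ¬ q ∣ M') (hA : A.LiesOverPrime q)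
variable (R : ConstRed A (IsLocalRing.residue A)
  (↥(modularFunctionFieldFullC (IsLocalRing.ResidueField A) M')) (FF (M' * q * q)))
  (hR : IsSeriesRed R)
variable (R' : ConstRed A (IsLocalRing.residue A)
  (↥(modularFunctionFieldFullC (IsLocalRing.ResidueField A) M')) (FF M'))
  (hR' : IsSeriesRed R')
variable {ζ : Kbarˣ} {E : FF (M' * q * q) →+* LaurentSeries Kbar}
  (hlt : A.valuation (q : Kbar) < 1) (hζ : ζ ^ q = 1) (hE : IsMidExp M' q ζ E)
variable
  (hiMid : ∀ (x : FF (M' * q * q)) (hx : x ∈ (vmidSV A hq hlt hζ hE).O),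
    x ∈ f0Field A (M' * q * q) → (vmidSV A hq hlt hζ hE).red ⟨x, hx⟩ ∈
      modularFunctionFieldFullC (IsLocalRing.ResidueField A) M')
  (hoMid : ∀ y ∈ modularFunctionFieldFullC (IsLocalRing.ResidueField A) M',
    ∃ (x : FF (M' * q * q)) (hx : x ∈ (vmidSV A hq hlt hζ hE).O),
      x ∈ f0Field A (M' * q * q) ∧ (vmidSV A hq hlt hζ hE).red ⟨x, hx⟩ = y)

local notation "SM" =>
  nodeSetupM A M' q hq hqM hA R hR (vmidSV A hq hlt hζ hE) hiMid hoMid


local notation "κA" => IsLocalRing.ResidueField A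

/-! ### `c ≠ ∞̄'` -/

include hR' in
/-- a place at which all `redInf z`, `z ∈ B`, are regular is not `∞̄'` -/
theorem icm_ne_inf_I [Fact q.Prime] (haux : IsAuxLevel q M')
    (c : Place κA ↥(modularFunctionFieldFullC κA M'))
    (hreg : ∀ z : (SM).B, 0 ≤ c.ord ((SM).redInf z)) : c ≠ infPlaceC κA M' := by
  rintro rfl
  obtain ⟨tI, tZ, h1, h2, h3⟩ :=
    icm_exists_pole A M' q hq hqM hA R hR R' hR' hlt hζ hE hiMid hoMid haux
  exact absurd (hreg tI) (not_le.mpr h1)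

include hR' in
/-- a place at which all `redMid z`, `z ∈ B`, are regular is not `∞̄'` -/
theorem icm_ne_inf_M [Fact q.Prime] (haux : IsAuxLevel q M')
    (c : Place κA ↥(modularFunctionFieldFullC κA M'))
    (hreg : ∀ z : (SM).B, 0 ≤ c.ord ((SM).redMid z)) : c ≠ infPlaceC κA M' := by
  rintro rfl
  obtain ⟨tI, tZ, h1, h2, h3⟩ :=
    icm_exists_pole A M' q hq hqM hA R hR R' hR' hlt hζ hE hiMid hoMid haux
  exact absurd (hreg tI) (not_le.mpr h2)

include hR' in
/-- a place at which all `redZero z`, `z ∈ B`, are regular is not `∞̄'` -/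
theorem icm_ne_inf_Z [Fact q.Prime] (haux : IsAuxLevel q M')
    (c : Place κA ↥(modularFunctionFieldFullC κA M'))
    (hreg : ∀ z : (SM).B, 0 ≤ c.ord ((SM).redZero z)) : c ≠ infPlaceC κA M' := by
  rintro rfl
  obtain ⟨tI, tZ, h1, h2, h3⟩ :=
    icm_exists_pole A M' q hq hqM hA R hR R' hR' hlt hζ hE hiMid hoMid haux
  exact absurd (hreg tZ) (not_le.mpr h3)

/-! ### The cusps -/

include hR' in
/-- at a cusp `c ≠ ∞̄'`: the separating element for `redInf` (helper23's `incCusp_inf_conc` fed with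
helper10's `reg3j2_cusp`) -/
theorem icm_cusp_I [Fact q.Prime] (haux : IsAuxLevel q M')
    (c : Place κA ↥(modularFunctionFieldFullC κA M'))
    (hcne : c ≠ infPlaceC κA M') (hcusp : c.ord (jk κA M') < 0) :
    ∃ s : (SM).B, s ∈ (SM).pMid ∧ s ∈ (SM).pZero ∧ (SM).redInf s ≠ 0 ∧
      c.ord ((SM).redInf s) = 0 := by
  obtain ⟨j2, h2, h12, hF, hj2, hjj2, hmul, h0, hord⟩ :=
    reg3j2_cusp q haux hA hR' c hcne hcusp
  rw [hmul] at h0 hord
  exact incCusp_inf_conc A M' q hq hqM hA R hR R' hR' hlt hζ hE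
    hiMid hoMid j2 h2 hF hj2 hjj2 c hcusp h0 hord

include hR' in
/-- at a cusp `c ≠ ∞̄'`: the separating element for `redMid` (helper23's `incCusp_mid_conc` fed with
helper10's `reg3j2_cusp`) -/
theorem icm_cusp_M [Fact q.Prime] (haux : IsAuxLevel q M')
    (c : Place κA ↥(modularFunctionFieldFullC κA M'))
    (hcne : c ≠ infPlaceC κA M') (hcusp : c.ord (jk κA M') < 0) :
    ∃ s : (SM).B, s ∈ (SM).pInf ∧ s ∈ (SM).pZero ∧ (SM).redMid s ≠ 0 ∧
      c.ord ((SM).redMid s) = 0 := by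
  obtain ⟨j2, h2, h12, hF, hj2, hjj2, hmul, h0, hord⟩ :=
    reg3j2_cusp q haux hA hR' c hcne hcusp
  rw [hmul] at h0 hord
  exact incCusp_mid_conc A M' q hq hqM hA R hR R' hR' hlt hζ hE
    hiMid hoMid j2 h2 hF hj2 hjj2 c hcusp h0 hord

include hR' in
/-- at a cusp `c ≠ ∞̄'`: the separating element for `redZero` (helper23's `incCusp_zero_conc` fed with
helper10's `reg3j2_cusp`) -/
theorem icm_cusp_Z [Fact q.Prime] (haux : IsAuxLevel q M')
    (c : Place κA ↥(modularFunctionFieldFullC κA M'))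
    (hcne : c ≠ infPlaceC κA M') (hcusp : c.ord (jk κA M') < 0) :
    ∃ s : (SM).B, s ∈ (SM).pInf ∧ s ∈ (SM).pMid ∧ (SM).redZero s ≠ 0 ∧
      c.ord ((SM).redZero s) = 0 := by
  obtain ⟨j2, h2, h12, hF, hj2, hjj2, hmul, h0, hord⟩ :=
    reg3j2_cusp q haux hA hR' c hcne hcusp
  rw [hmul] at h0 hord
  exact incCusp_zero_conc A M' q hq hqM hA R hR R' hR' hlt hζ hE
    hiMid hoMid j2 h2 hF hj2 hjj2 c hcusp h0 hord

/-! ### The non-cuspidal places -/

include hR' in
/-- at a non-cuspidal place some `redInf t`, `t` in the conductor, is a unit -/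
theorem icm_noncusp_I [Fact q.Prime] (haux : IsAuxLevel q M') (cond : Ideal (SM).B)
    (hcond : ∀ t : (SM).B, ((t : f0Field A (M' * q * q)) : FF (M' * q * q)) *
      jF (M' * q * q) ∈ offRegular (M' * q * q) (s36D1 M' q hq hqM) → t ∈ cond)
    (c : Place κA ↥(modularFunctionFieldFullC κA M'))
    (hnc : 0 ≤ c.ord (jk κA M')) :
    ∃ t ∈ cond, (SM).redInf t ≠ 0 ∧ c.ord ((SM).redInf t) = 0 := by
  obtain ⟨j2, h2, hF, hj2, hjj2, h0, hord⟩ := reg3j2_noncusp q haux hA hR' c hnc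
  obtain ⟨t, ht, hI, hM⟩ :=
    icm_pi1 A M' q hq hqM hA R hR R' hR' hlt hζ hE hiMid hoMid h2 hF hj2
  refine ⟨t, hcond t ?_, ?_, ?_⟩
  · rw [ht]
    exact icm_cond_pi1 M' q hq hqM j2 hjj2
  · rw [hI]
    exact h0
  · rw [hI]
    exact hord

include hR' in
/-- at a non-cuspidal place some `redMid t`, `t` in the conductor, is a unit -/
theorem icm_noncusp_M [Fact q.Prime] (haux : IsAuxLevel q M') (cond : Ideal (SM).B)
    (hcond : ∀ t : (SM).B, ((t : f0Field A (M' * q * q)) : FF (M' * q * q)) *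
      jF (M' * q * q) ∈ offRegular (M' * q * q) (s36D1 M' q hq hqM) → t ∈ cond)
    (c : Place κA ↥(modularFunctionFieldFullC κA M'))
    (hnc : 0 ≤ c.ord (jk κA M')) :
    ∃ t ∈ cond, (SM).redMid t ≠ 0 ∧ c.ord ((SM).redMid t) = 0 := by
  obtain ⟨j2, h2, hF, hj2, hjj2, h0, hord⟩ := reg3j2_noncusp q haux hA hR' c hnc
  obtain ⟨t, ht, hI, hM⟩ :=
    icm_pi1 A M' q hq hqM hA R hR R' hR' hlt hζ hE hiMid hoMid h2 hF hj2
  refine ⟨t, hcond t ?_, ?_, ?_⟩
  · rw [ht]
    exact icm_cond_pi1 M' q hq hqM j2 hjj2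
  · rw [hM]
    exact h0
  · rw [hM]
    exact hord

include hR' in
/-- at a non-cuspidal place some `red_0 t`, `t` in the conductor, is a unit -/
theorem icm_noncusp_Z [Fact q.Prime] (haux : IsAuxLevel q M') (cond : Ideal (SM).B)
    (hcond : ∀ t : (SM).B, ((t : f0Field A (M' * q * q)) : FF (M' * q * q)) *
      jF (M' * q * q) ∈ offRegular (M' * q * q) (s36D1 M' q hq hqM) → t ∈ cond)
    (c : Place κA ↥(modularFunctionFieldFullC κA M'))
    (hnc : 0 ≤ c.ord (jk κA M')) :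
    ∃ t ∈ cond, (SM).redZero t ≠ 0 ∧ c.ord ((SM).redZero t) = 0 := by
  obtain ⟨j2, h2, hF, hj2, hjj2, h0, hord⟩ := reg3j2_noncusp q haux hA hR' c hnc
  obtain ⟨t, ht, hZ, hM⟩ :=
    icm_pi3 A M' q hq hqM hA R hR R' hR' hlt hζ hE hiMid hoMid h2 hF hj2
  have h0' : (SM).redZero t ≠ 0 := by
    rw [hZ]
    exact h0
  have hord' : c.ord ((SM).redZero t) = 0 := by
    rw [hZ]
    exact hord
  have hmem : (((t ^ (q * q) : (SM).B) : f0Field A (M' * q * q)) : FF (M' * q * q)) *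
      jF (M' * q * q) ∈ offRegular (M' * q * q) (s36D1 M' q hq hqM) := by
    have e : (((t ^ (q * q) : (SM).B) : f0Field A (M' * q * q)) : FF (M' * q * q)) =
        ecPi3 M' q j2 ^ (q * q) := by
      rw [← ht]
      rfl
    rw [e]
    exact icm_cond_pi3 M' q hq hqM j2 hj2 hjj2
  exact ⟨t ^ (q * q), hcond _ hmem, icm_redZero_pow (SM) c t (q * q) h0' hord'⟩

/-! ### The incidence statements -/

include hR' in
/-- **`hIncI` of `s36_htriC`, concrete.** -/
theorem icm_hIncI [Fact q.Prime] (haux : IsAuxLevel q M') (cond : Ideal (SM).B)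
    (hcond : ∀ t : (SM).B, ((t : f0Field A (M' * q * q)) : FF (M' * q * q)) *
      jF (M' * q * q) ∈ offRegular (M' * q * q) (s36D1 M' q hq hqM) → t ∈ cond) :
    ∀ c : Place κA ↥(modularFunctionFieldFullC κA M'),
      (∀ z : (SM).B, 0 ≤ c.ord ((SM).redInf z)) →
      (∀ t ∈ cond, (SM).redInf t = 0 ∨ 0 < c.ord ((SM).redInf t)) →
      (∃ s : (SM).B, s ∈ (SM).pMid ∧ (SM).redInf s ≠ 0 ∧ c.ord ((SM).redInf s) = 0) ∧
      (∃ s : (SM).B, s ∈ (SM).pZero ∧ (SM).redInf s ≠ 0 ∧ c.ord ((SM).redInf s) = 0) := by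
  intro c hreg hvan
  refine icm_concl (SM).redInf c cond (SM).pMid (SM).pZero hvan ?_
  by_cases hcusp : c.ord (jk κA M') < 0
  · exact Or.inl (icm_cusp_I A M' q hq hqM hA R hR R' hR' hlt hζ hE hiMid hoMid haux c
      (icm_ne_inf_I A M' q hq hqM hA R hR R' hR' hlt hζ hE hiMid hoMid haux c hreg) hcusp)
  · exact Or.inr (icm_noncusp_I A M' q hq hqM hA R hR R' hR' hlt hζ hE hiMid hoMid haux
      cond hcond c (not_lt.mp hcusp))

include hR' in
/-- **`hIncM` of `s36_htriC`, concrete.** -/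
theorem icm_hIncM [Fact q.Prime] (haux : IsAuxLevel q M') (cond : Ideal (SM).B)
    (hcond : ∀ t : (SM).B, ((t : f0Field A (M' * q * q)) : FF (M' * q * q)) *
      jF (M' * q * q) ∈ offRegular (M' * q * q) (s36D1 M' q hq hqM) → t ∈ cond) :
    ∀ c : Place κA ↥(modularFunctionFieldFullC κA M'),
      (∀ z : (SM).B, 0 ≤ c.ord ((SM).redMid z)) →
      (∀ t ∈ cond, (SM).redMid t = 0 ∨ 0 < c.ord ((SM).redMid t)) →
      (∃ s : (SM).B, s ∈ (SM).pInf ∧ (SM).redMid s ≠ 0 ∧ c.ord ((SM).redMid s) = 0) ∧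
      (∃ s : (SM).B, s ∈ (SM).pZero ∧ (SM).redMid s ≠ 0 ∧ c.ord ((SM).redMid s) = 0) := by
  intro c hreg hvan
  refine icm_concl (SM).redMid c cond (SM).pInf (SM).pZero hvan ?_
  by_cases hcusp : c.ord (jk κA M') < 0
  · exact Or.inl (icm_cusp_M A M' q hq hqM hA R hR R' hR' hlt hζ hE hiMid hoMid haux c
      (icm_ne_inf_M A M' q hq hqM hA R hR R' hR' hlt hζ hE hiMid hoMid haux c hreg) hcusp)
  · exact Or.inr (icm_noncusp_M A M' q hq hqM hA R hR R' hR' hlt hζ hE hiMid hoMid haux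
      cond hcond c (not_lt.mp hcusp))

include hR' in
/-- **`hIncZ` of `s36_htriC`, concrete.** -/
theorem icm_hIncZ [Fact q.Prime] (haux : IsAuxLevel q M') (cond : Ideal (SM).B)
    (hcond : ∀ t : (SM).B, ((t : f0Field A (M' * q * q)) : FF (M' * q * q)) *
      jF (M' * q * q) ∈ offRegular (M' * q * q) (s36D1 M' q hq hqM) → t ∈ cond) :
    ∀ c : Place κA ↥(modularFunctionFieldFullC κA M'),
      (∀ z : (SM).B, 0 ≤ c.ord ((SM).redZero z)) →
      (∀ t ∈ cond, (SM).redZero t = 0 ∨ 0 < c.ord ((SM).redZero t)) →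
      (∃ s : (SM).B, s ∈ (SM).pInf ∧ (SM).redZero s ≠ 0 ∧ c.ord ((SM).redZero s) = 0) ∧
      (∃ s : (SM).B, s ∈ (SM).pMid ∧ (SM).redZero s ≠ 0 ∧ c.ord ((SM).redZero s) = 0) := by
  intro c hreg hvan
  refine icm_concl (SM).redZero c cond (SM).pInf (SM).pMid hvan ?_
  by_cases hcusp : c.ord (jk κA M') < 0
  · exact Or.inl (icm_cusp_Z A M' q hq hqM hA R hR R' hR' hlt hζ hE hiMid hoMid haux c
      (icm_ne_inf_Z A M' q hq hqM hA R hR R' hR' hlt hζ hE hiMid hoMid haux c hreg) hcusp)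
  · exact Or.inr (icm_noncusp_Z A M' q hq hqM hA R hR R' hR' hlt hζ hE hiMid hoMid haux
      cond hcond c (not_lt.mp hcusp))

end Main

end Fermat.Agent.S36lib

end
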