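import Mathlib
import Fermat.Agent.S36lib.TransferSetup
import Fermat.Agent.S36lib.PointDict

/-!
# Item 83 (S36), piece D1-B / W-5 (helper22): TRANSFER at the NODES

`S1, S2 : NodeSetup` with the same three valuation rings and `S1.B ≤ S2.B` (`S1.B = B_{D1}`,
`S2.B = B_j`), `cond` an ideal of `S1.B` of cover elements (the conductor `trcCond` of `j`).

* `trn_node_not_cuspidal` : a node of `S1` does not contain `cond` (the nodes are not cusps),
  from the dictionary on `C_∞` and the separating elements at the cusps of `C_∞` (INC at the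
  cusps, the second half of `hIncI` of `s36_htriC`);
* `trn_hufd_node` : the local rings of `S1.B` at the nodes are factorial, if those of `S2.B` are
  (`r2c_hufd_inf`);
* `trn_isMaximal_of_sup_le`, `trn_node_comap`, `trn_hnode` : the contraction of a node of `S2` is
  a node of `S1`; the hypothesis `hnode` of `s36_hhead` for `S1` from the same for `S2`;
* `trn_node_extend` : a node of `S1` is the contraction of a node of `S2`.
-/

set_option autoImplicit false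
set_option linter.style.haveILetI false
set_option linter.unusedSectionVars false

noncomputable section

namespace Fermat.Agent.S36lib

open AlgebraicCurve

variable {K : Type*} [Field K] {k : Type*} [Field k]
  {A : ValuationSubring K} {π : A →+* k} {κ : Type*} [Field κ] [Algebra k κ]
  {F : Type*} [Field F] [Algebra K F]

section Cusp

/-- **the nodes are not cusps.**  `cond` an ideal of `B`; if at every place `c` of `κ` at which
all the `red_∞ t`, `t ∈ cond`, vanish there is an element of `p_0` whose reduction at `∞` is a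
unit at `c`, no node contains `cond`. -/
theorem trn_node_not_cuspidal (S : NodeSetup A π κ F)
    [IsDedekindDomain (S.B ⧸ S.pInf)] (hπ : Function.Surjective π)
    (hfracI : ∀ w : κ, ∃ a b : S.B, S.redInf b ≠ 0 ∧ w * S.redInf b = S.redInf a)
    (hnmI : ¬ S.pInf.IsMaximal) (cond : Ideal S.B)
    (hIncI : ∀ c : Place k κ, (∀ z : S.B, 0 ≤ c.ord (S.redInf z)) →
      (∀ t ∈ cond, S.redInf t = 0 ∨ 0 < c.ord (S.redInf t)) →
      ∃ s : S.B, s ∈ S.pZero ∧ S.redInf s ≠ 0 ∧ c.ord (S.redInf s) = 0)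
    (𝔪 : Ideal S.B) (h𝔪 : S.IsNode 𝔪) : ¬ cond ≤ 𝔪 := by
  intro hcond
  have hI : S.pInf ≤ 𝔪 := le_sup_left.trans h𝔪.2
  have hZ : S.pZero ≤ 𝔪 := le_sup_right.trans h𝔪.2
  obtain ⟨c, hreg, hP1, -, hiff⟩ :=
    pdict_inf S hπ hfracI 𝔪 h𝔪.1 hI (fun he => hnmI (he ▸ h𝔪.1))
  obtain ⟨s, hs, hs0, hsc⟩ := hIncI c hreg (fun t ht => (hiff t).1 (hcond ht))
  exact hP1 s hs0 hsc (hZ hs)

/-- the same on the component `C_0` -/
theorem trn_node_not_cuspidal_zero (S : NodeSetup A π κ F)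
    [IsDedekindDomain (S.B ⧸ S.pZero)] (hπ : Function.Surjective π)
    (hfracZ : ∀ w : κ, ∃ a b : S.B, S.redZero b ≠ 0 ∧ w * S.redZero b = S.redZero a)
    (hnmZ : ¬ S.pZero.IsMaximal) (cond : Ideal S.B)
    (hIncZ : ∀ c : Place k κ, (∀ z : S.B, 0 ≤ c.ord (S.redZero z)) →
      (∀ t ∈ cond, S.redZero t = 0 ∨ 0 < c.ord (S.redZero t)) →
      ∃ s : S.B, s ∈ S.pInf ∧ S.redZero s ≠ 0 ∧ c.ord (S.redZero s) = 0)
    (𝔪 : Ideal S.B) (h𝔪 : S.IsNode 𝔪) : ¬ cond ≤ 𝔪 := by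
  intro hcond
  have hI : S.pInf ≤ 𝔪 := le_sup_left.trans h𝔪.2
  have hZ : S.pZero ≤ 𝔪 := le_sup_right.trans h𝔪.2
  obtain ⟨c, hreg, hP1, -, hiff⟩ :=
    pdict_zero S hπ hfracZ 𝔪 h𝔪.1 hZ (fun he => hnmZ (he ▸ h𝔪.1))
  obtain ⟨s, hs, hs0, hsc⟩ := hIncZ c hreg (fun t ht => (hiff t).1 (hcond ht))
  exact hP1 s hs0 hsc (hI hs)

/-- a prime of `B` containing `p_∞ + p_0` is maximal, if `B ⧸ p_∞` is a Dedekind domain and
`p_0 ⊄ p_∞` -/
theorem trn_isMaximal_of_sup_le (S : NodeSetup A π κ F)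
    [IsDedekindDomain (S.B ⧸ S.pInf)] (hne : ¬ S.pZero ≤ S.pInf)
    (s : Ideal S.B) [hs : s.IsPrime] (hle : S.pInf ⊔ S.pZero ≤ s) : s.IsMaximal := by
  have hsurj : Function.Surjective (Ideal.Quotient.mk S.pInf) := Ideal.Quotient.mk_surjective
  have hker : RingHom.ker (Ideal.Quotient.mk S.pInf) ≤ s := by
    rw [Ideal.mk_ker]
    exact le_sup_left.trans hle
  have hQ : (s.map (Ideal.Quotient.mk S.pInf)).IsPrime :=
    Ideal.map_isPrime_of_surjective hsurj hker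
  have hcomap : (s.map (Ideal.Quotient.mk S.pInf)).comap (Ideal.Quotient.mk S.pInf) = s := by
    rw [Ideal.comap_map_of_surjective _ hsurj, ← RingHom.ker_eq_comap_bot]
    exact sup_eq_left.2 hker
  have hQ0 : s.map (Ideal.Quotient.mk S.pInf) ≠ ⊥ := by
    intro h0
    apply hne
    intro y hy
    have h1 : Ideal.Quotient.mk S.pInf y ∈ s.map (Ideal.Quotient.mk S.pInf) :=
      Ideal.mem_map_of_mem _ (hle (Ideal.mem_sup_right hy))
    rw [h0, Ideal.mem_bot, Ideal.Quotient.eq_zero_iff_mem] at h1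
    exact h1
  have hQmax : (s.map (Ideal.Quotient.mk S.pInf)).IsMaximal := hQ.isMaximal hQ0
  rw [← hcomap]
  exact Ideal.comap_isMaximal_of_surjective _ hsurj

end Cusp

section Transfer

variable (S1 S2 : NodeSetup A π κ F) (hB : S1.B ≤ S2.B)
  (hInf : S1.vInf.O = S2.vInf.O) (hMid : S1.vMid.O = S2.vMid.O)
  (hZero : S1.vZero.O = S2.vZero.O)

include hInf hZero in
/-- **factoriality of the local rings of `S1` at the nodes**, by transfer from `S2`. -/
theorem trn_hufd_node (cond : Ideal S1.B)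
    (hcov : ∀ t ∈ cond, TrfCover (Subring.inclusion hB) t)
    (hnc : ∀ 𝔪 : Ideal S1.B, S1.IsNode 𝔪 → ¬ cond ≤ 𝔪)
    (hufd2 : ∀ (𝔪' : Ideal S2.B) [𝔪'.IsMaximal], S2.IsNode 𝔪' →
      UniqueFactorizationMonoid (Localization.AtPrime 𝔪')) :
    ∀ (𝔪 : Ideal S1.B) [𝔪.IsMaximal], S1.IsNode 𝔪 →
      UniqueFactorizationMonoid (Localization.AtPrime 𝔪) := by
  intro 𝔪 h𝔪 hnode
  obtain ⟨t, ht, ht𝔪⟩ := SetLike.not_le_iff_exists.1 (hnc 𝔪 hnode)
  have hc := hcov t ht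
  haveI := h𝔪.isPrime
  have hι := Subring.inclusion_injective hB
  haveI h𝔪' := trfIdeal_isMaximal hc hι 𝔪 h𝔪 ht𝔪
  have hnode' : S2.IsNode (trfIdeal hc 𝔪) :=
    (trf_setup_isNode_iff hc 𝔪 h𝔪 ht𝔪 hInf hZero).2 hnode
  exact trf_ufm hc hι 𝔪 ht𝔪 (hufd2 (trfIdeal hc 𝔪) hnode')

include hInf hZero in
/-- **a node of `S1` is the contraction of a node of `S2`** -/
theorem trn_node_extend (cond : Ideal S1.B)
    (hcov : ∀ t ∈ cond, TrfCover (Subring.inclusion hB) t)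
    (hnc : ∀ 𝔪 : Ideal S1.B, S1.IsNode 𝔪 → ¬ cond ≤ 𝔪)
    (𝔪 : Ideal S1.B) (hnode : S1.IsNode 𝔪) :
    ∃ 𝔪' : Ideal S2.B, S2.IsNode 𝔪' ∧ 𝔪'.comap (Subring.inclusion hB) = 𝔪 := by
  obtain ⟨t, ht, ht𝔪⟩ := SetLike.not_le_iff_exists.1 (hnc 𝔪 hnode)
  have hc := hcov t ht
  haveI := hnode.1.isPrime
  exact ⟨trfIdeal hc 𝔪, (trf_setup_isNode_iff hc 𝔪 hnode.1 ht𝔪 hInf hZero).2 hnode,
    trfIdeal_comap hc (Subring.inclusion_injective hB) 𝔪 ht𝔪⟩

include hInf hZero in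
/-- **the contraction of a node of `S2` is a node of `S1`** -/
theorem trn_node_comap [IsDedekindDomain (S1.B ⧸ S1.pInf)] (hne : ¬ S1.pZero ≤ S1.pInf)
    (𝔪' : Ideal S2.B) (hnode : S2.IsNode 𝔪') :
    S1.IsNode (𝔪'.comap (Subring.inclusion hB)) := by
  haveI := hnode.1.isPrime
  have hle : S1.pInf ⊔ S1.pZero ≤ 𝔪'.comap (Subring.inclusion hB) := by
    refine sup_le ?_ ?_
    · rw [← trf_setup_comap_pInf S1 S2 hB hInf]
      exact Ideal.comap_mono (le_sup_left.trans hnode.2)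
    · rw [← trf_setup_comap_pZero S1 S2 hB hZero]
      exact Ideal.comap_mono (le_sup_right.trans hnode.2)
  exact ⟨trn_isMaximal_of_sup_le S1 hne _ hle, hle⟩

include hB hInf hMid hZero in
/-- **the hypothesis `hnode` of `s36_hhead` for `S1`** from the same for `S2`. -/
theorem trn_hnode [IsDedekindDomain (S1.B ⧸ S1.pInf)] (hne : ¬ S1.pZero ≤ S1.pInf)
    (h2 : ∃ t : Ideal S2.B, S2.IsNode t ∧ S2.pMid ≤ t) :
    ∃ t : Ideal S1.B, S1.IsNode t ∧ S1.pMid ≤ t := by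
  obtain ⟨t, ht, hM⟩ := h2
  refine ⟨t.comap (Subring.inclusion hB), trn_node_comap S1 S2 hB hInf hZero hne t ht, ?_⟩
  rw [← trf_setup_comap_pMid S1 S2 hB hMid]
  exact Ideal.comap_mono hM

end Transfer

end Fermat.Agent.S36lib

end
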