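/-
Item 83 (S36), CRUX HEAD input (helper17): the incidence at the cuspidal points for THE FINAL
SETUP `SF = s36Final A M' q hq hqM hA hζq hζ hE R hR` (`Apply2Final.lean`).  Complete proofs.

* `icm_final_hIncI / _hIncM / _hIncZ`: `hIncI`, `hIncM`, `hIncZ` of `s36_htriC` for `SF`
  (= `icm_hIncI/M/Z` of `IncConcMF.lean` at the arguments of `s36Final`);
* `icm_final_htriC`: the trichotomy at the maximal ideals `𝔪 ⊇ cond` of `SF.B` containing `q`
  (= `htriC` of `s36_trf_htri` / `trfc_htri`), from the Dedekind quotients, `hfrac`, `¬ IsMaximal`;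
* `icm_final_hnc`, `icm_final_hnc_zero`: no node of `SF` contains `cond` (= `hnc` of
  `trfc_hufd_node`).

`cond` is any ideal of `SF.B` containing the conductor `{t | t · j ∈ offRegular D1}` (`hcond`);
for `trcCond`/`trfcCond` the hypothesis `hcond` is `fun t h => h`.
-/
import Mathlib
import Fermat.Agent.S36lib.IncConcMF
import Fermat.Agent.S36lib.H1TriCusp
import Fermat.Agent.S36lib.H1Conc
import Fermat.Agent.S36lib.TransferNodes

set_option autoImplicit false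
set_option linter.style.haveILetI false
set_option linter.unusedSectionVars false
set_option linter.unusedVariables false
set_option synthInstance.maxHeartbeats 400000
set_option maxHeartbeats 1600000

noncomputable section

namespace Fermat.Agent.S36lib

open AlgebraicCurve ModularCurve HahnSeries
open Fermat.Agent.S24lib Fermat.Agent.S34lib Fermat.Agent.S37lib Fermat.Agent.HeckeBar
open Fermat.Agent.S35lib Fermat.Agent.GoodRed Fermat.Agent.GM

variable (A : ValuationSubring Kbar) (M' q : ℕ) [NeZero M'] [NeZero q]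
variable (hq : q.Prime) (hqM : ¬ q ∣ M') (hA : A.LiesOverPrime q)
variable {ζ : Kbarˣ} {E : FF (M' * q * q) →+* LaurentSeries Kbar}
variable (hζq : ζ ^ q = 1) (hζ : IsPrimitiveRoot (ζ : Kbar) q) (hE : IsMidExp M' q ζ E)
variable (R : ConstRed A (IsLocalRing.residue A)
      (↥(modularFunctionFieldFullC (IsLocalRing.ResidueField A) M')) (FF (M' * q * q)))
    (hR : IsSeriesRed R)
variable (R' : ConstRed A (IsLocalRing.residue A)
      (↥(modularFunctionFieldFullC (IsLocalRing.ResidueField A) M')) (FF M'))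
    (hR' : IsSeriesRed R')

local notation "SF" => s36Final A M' q hq hqM hA hζq hζ hE R hR
local notation "κA" => IsLocalRing.ResidueField A

include hR' in
/-- **`hIncI` of `s36_htriC` for the final setup.** -/
theorem icm_final_hIncI [Fact q.Prime] (haux : IsAuxLevel q M') (cond : Ideal (SF).B)
    (hcond : ∀ t : (SF).B, ((t : f0Field A (M' * q * q)) : FF (M' * q * q)) *
      jF (M' * q * q) ∈ offRegular (M' * q * q) (s36D1 M' q hq hqM) → t ∈ cond) :
    ∀ c : Place κA ↥(modularFunctionFieldFullC κA M'),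
      (∀ z : (SF).B, 0 ≤ c.ord ((SF).redInf z)) →
      (∀ t ∈ cond, (SF).redInf t = 0 ∨ 0 < c.ord ((SF).redInf t)) →
      (∃ s : (SF).B, s ∈ (SF).pMid ∧ (SF).redInf s ≠ 0 ∧ c.ord ((SF).redInf s) = 0) ∧
      (∃ s : (SF).B, s ∈ (SF).pZero ∧ (SF).redInf s ≠ 0 ∧ c.ord ((SF).redInf s) = 0) :=
  icm_hIncI A M' q hq hqM hA R hR R' hR' ((A.mem_nonunits_iff).mp hA) hζq hE
    (vmid_hinto A hq hqM hA hζq hζ hE) (vmid_honto A hq hA hζq hE) haux cond hcond

include hR' in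
/-- **`hIncM` of `s36_htriC` for the final setup.** -/
theorem icm_final_hIncM [Fact q.Prime] (haux : IsAuxLevel q M') (cond : Ideal (SF).B)
    (hcond : ∀ t : (SF).B, ((t : f0Field A (M' * q * q)) : FF (M' * q * q)) *
      jF (M' * q * q) ∈ offRegular (M' * q * q) (s36D1 M' q hq hqM) → t ∈ cond) :
    ∀ c : Place κA ↥(modularFunctionFieldFullC κA M'),
      (∀ z : (SF).B, 0 ≤ c.ord ((SF).redMid z)) →
      (∀ t ∈ cond, (SF).redMid t = 0 ∨ 0 < c.ord ((SF).redMid t)) →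
      (∃ s : (SF).B, s ∈ (SF).pInf ∧ (SF).redMid s ≠ 0 ∧ c.ord ((SF).redMid s) = 0) ∧
      (∃ s : (SF).B, s ∈ (SF).pZero ∧ (SF).redMid s ≠ 0 ∧ c.ord ((SF).redMid s) = 0) :=
  icm_hIncM A M' q hq hqM hA R hR R' hR' ((A.mem_nonunits_iff).mp hA) hζq hE
    (vmid_hinto A hq hqM hA hζq hζ hE) (vmid_honto A hq hA hζq hE) haux cond hcond

include hR' in
/-- **`hIncZ` of `s36_htriC` for the final setup.** -/
theorem icm_final_hIncZ [Fact q.Prime] (haux : IsAuxLevel q M') (cond : Ideal (SF).B)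
    (hcond : ∀ t : (SF).B, ((t : f0Field A (M' * q * q)) : FF (M' * q * q)) *
      jF (M' * q * q) ∈ offRegular (M' * q * q) (s36D1 M' q hq hqM) → t ∈ cond) :
    ∀ c : Place κA ↥(modularFunctionFieldFullC κA M'),
      (∀ z : (SF).B, 0 ≤ c.ord ((SF).redZero z)) →
      (∀ t ∈ cond, (SF).redZero t = 0 ∨ 0 < c.ord ((SF).redZero t)) →
      (∃ s : (SF).B, s ∈ (SF).pInf ∧ (SF).redZero s ≠ 0 ∧ c.ord ((SF).redZero s) = 0) ∧
      (∃ s : (SF).B, s ∈ (SF).pMid ∧ (SF).redZero s ≠ 0 ∧ c.ord ((SF).redZero s) = 0) :=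
  icm_hIncZ A M' q hq hqM hA R hR R' hR' ((A.mem_nonunits_iff).mp hA) hζq hE
    (vmid_hinto A hq hqM hA hζq hζ hE) (vmid_honto A hq hA hζq hE) haux cond hcond

include hR' in
/-- **the trichotomy at the cuspidal maximal ideals of the final setup** (`htriC` of
`s36_trf_htri`, with `cusp 𝔪 := cond ≤ 𝔪`). -/
theorem icm_final_htriC [Fact q.Prime] (haux : IsAuxLevel q M')
    (hDI : IsDedekindDomain ((SF).B ⧸ (SF).pInf))
    (hDM : IsDedekindDomain ((SF).B ⧸ (SF).pMid))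
    (hDZ : IsDedekindDomain ((SF).B ⧸ (SF).pZero))
    (hfracI : ∀ w : ↥(modularFunctionFieldFullC κA M'), ∃ a b : (SF).B,
      (SF).redInf b ≠ 0 ∧ w * (SF).redInf b = (SF).redInf a)
    (hfracM : ∀ w : ↥(modularFunctionFieldFullC κA M'), ∃ a b : (SF).B,
      (SF).redMid b ≠ 0 ∧ w * (SF).redMid b = (SF).redMid a)
    (hfracZ : ∀ w : ↥(modularFunctionFieldFullC κA M'), ∃ a b : (SF).B,
      (SF).redZero b ≠ 0 ∧ w * (SF).redZero b = (SF).redZero a)
    (hnmI : ¬ (SF).pInf.IsMaximal) (hnmM : ¬ (SF).pMid.IsMaximal)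
    (hnmZ : ¬ (SF).pZero.IsMaximal) (cond : Ideal (SF).B)
    (hcond : ∀ t : (SF).B, ((t : f0Field A (M' * q * q)) : FF (M' * q * q)) *
      jF (M' * q * q) ∈ offRegular (M' * q * q) (s36D1 M' q hq hqM) → t ∈ cond) :
    ∀ 𝔪 : Ideal (SF).B, 𝔪.IsMaximal → (SF).constB (q : k0Val A) ∈ 𝔪 → cond ≤ 𝔪 →
      (SF).IsNode 𝔪 ∨
      ((SF).pInf ≤ 𝔪 ∧ ¬ (SF).pMid ≤ 𝔪 ∧ ¬ (SF).pZero ≤ 𝔪) ∨
      (¬ (SF).pInf ≤ 𝔪 ∧ (SF).pMid ≤ 𝔪 ∧ ¬ (SF).pZero ≤ 𝔪) ∨
      (¬ (SF).pInf ≤ 𝔪 ∧ ¬ (SF).pMid ≤ 𝔪 ∧ (SF).pZero ≤ 𝔪) :=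
  s36_htriC (SF) (k0_residue_comp_surjective A q hq hA) hfracI hfracM hfracZ hnmI hnmM hnmZ
    ((SF).constB (q : k0Val A)) (s36Final_Hrad A M' q hq hqM hA hζq hζ hE R hR) cond
    (icm_final_hIncI A M' q hq hqM hA hζq hζ hE R hR R' hR' haux cond hcond)
    (icm_final_hIncM A M' q hq hqM hA hζq hζ hE R hR R' hR' haux cond hcond)
    (icm_final_hIncZ A M' q hq hqM hA hζq hζ hE R hR R' hR' haux cond hcond)

include hR' in
/-- **the nodes of the final setup are not cuspidal** (`hnc` of `trfc_hufd_node`), via `C_∞` -/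
theorem icm_final_hnc [Fact q.Prime] (haux : IsAuxLevel q M')
    (hDI : IsDedekindDomain ((SF).B ⧸ (SF).pInf))
    (hfracI : ∀ w : ↥(modularFunctionFieldFullC κA M'), ∃ a b : (SF).B,
      (SF).redInf b ≠ 0 ∧ w * (SF).redInf b = (SF).redInf a)
    (hnmI : ¬ (SF).pInf.IsMaximal) (cond : Ideal (SF).B)
    (hcond : ∀ t : (SF).B, ((t : f0Field A (M' * q * q)) : FF (M' * q * q)) *
      jF (M' * q * q) ∈ offRegular (M' * q * q) (s36D1 M' q hq hqM) → t ∈ cond) :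
    ∀ 𝔪 : Ideal (SF).B, (SF).IsNode 𝔪 → ¬ cond ≤ 𝔪 :=
  fun 𝔪 h𝔪 => trn_node_not_cuspidal (SF) (k0_residue_comp_surjective A q hq hA) hfracI hnmI cond
    (fun c h1 h2 =>
      (icm_final_hIncI A M' q hq hqM hA hζq hζ hE R hR R' hR' haux cond hcond c h1 h2).2) 𝔪 h𝔪

end Fermat.Agent.S36lib

end
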