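/-
Item 83 (S36), CRUX HEAD (helper26): **the trichotomy `htri` for the final setup, final form**.
No sorry in this file.

`SF = s36Final …` (ring `B_{D1}`), `SJ = s36FinalJ …` (= `nodeSetupMj` with `vmidSV`, ring `B_j`).

* `h1tf_htriC` : the trichotomy at the cuspidal maximal ideals of `SF` (`htriC` of
  `s36Final_htri_of`), UNCONDITIONAL at an auxiliary level
  (= helper17's `icm_final_htriC` + helper27's `d1q_final_inf/mid/zero` + `liftInf_exists_red`);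
* `h1tf_hnc` : no node of `SF` contains the conductor `h1tCond`;
* `s36Final_htri_main` : **`htri` for `SF`** from ONLY `htri` for `SJ` (= INC-j, helper9's
  `incj_htri`) at an auxiliary level.
-/
import Mathlib
import Fermat.Agent.S36lib.H1Tri
import Fermat.Agent.S36lib.IncConcFinal
import Fermat.Agent.S36lib.D1DedekindFinal

set_option autoImplicit false
set_option linter.style.haveILetI false
set_option linter.unusedSectionVars false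
set_option linter.unusedVariables false
set_option synthInstance.maxHeartbeats 400000

noncomputable section

namespace Fermat.Agent.S36lib

open ModularCurve HahnSeries AlgebraicCurve
open Fermat.Agent.GoodRed Fermat.Agent.S24lib Fermat.Agent.S34lib Fermat.Agent.S37lib
  Fermat.Agent.HeckeBar Fermat.Agent.S35lib Fermat.Agent.GM

variable (A : ValuationSubring Kbar) (M' q : ℕ) [NeZero M'] [NeZero q]
variable (hq : q.Prime) (hqM : ¬ q ∣ M') (hA : A.LiesOverPrime q)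
variable {ζ : Kbarˣ} {E : FF (M' * q * q) →+* LaurentSeries Kbar}
variable (hζq : ζ ^ q = 1) (hζ : IsPrimitiveRoot (ζ : Kbar) q) (hE : IsMidExp M' q ζ E)
variable (R : ConstRed A (IsLocalRing.residue A)
      (↥(modularFunctionFieldFullC (IsLocalRing.ResidueField A) M')) (FF (M' * q * q)))
    (hR : IsSeriesRed R)

local notation "SF" => s36Final A M' q hq hqM hA hζq hζ hE R hR
local notation "SJ" => s36FinalJ A M' q hq hqM hA hζq hζ hE R hR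

set_option maxHeartbeats 2000000 in
/-- **the trichotomy at the cuspidal maximal ideals of the final setup**, unconditional at an
auxiliary level, for any ideal `cond` containing the conductor of `j`. -/
theorem h1tf_htriC_cond (haux : IsAuxLevel q M') (cond : Ideal (SF).B)
    (hcond : ∀ t : (SF).B, ((t : f0Field A (M' * q * q)) : FF (M' * q * q)) *
      jF (M' * q * q) ∈ offRegular (M' * q * q) (s36D1 M' q hq hqM) → t ∈ cond) :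
    ∀ 𝔪 : Ideal (SF).B, 𝔪.IsMaximal → (SF).constB (q : k0Val A) ∈ 𝔪 → cond ≤ 𝔪 →
      (SF).IsNode 𝔪 ∨
      ((SF).pInf ≤ 𝔪 ∧ ¬ (SF).pMid ≤ 𝔪 ∧ ¬ (SF).pZero ≤ 𝔪) ∨
      (¬ (SF).pInf ≤ 𝔪 ∧ (SF).pMid ≤ 𝔪 ∧ ¬ (SF).pZero ≤ 𝔪) ∨
      (¬ (SF).pInf ≤ 𝔪 ∧ ¬ (SF).pMid ≤ 𝔪 ∧ (SF).pZero ≤ 𝔪) := by
  haveI : Fact q.Prime := ⟨hq⟩
  obtain ⟨R', -, hR', -⟩ := liftInf_exists_red (M := M') (A := A) q haux hA
  obtain ⟨-, hDI, hfracI, hnmI⟩ := d1q_final_inf A M' q hq hqM hA hζq hζ hE R hR haux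
  obtain ⟨-, hDM, hfracM, hnmM⟩ := d1q_final_mid A M' q hq hqM hA hζq hζ hE R hR haux
  obtain ⟨-, hDZ, hfracZ, hnmZ⟩ := d1q_final_zero A M' q hq hqM hA hζq hζ hE R hR haux
  exact icm_final_htriC A M' q hq hqM hA hζq hζ hE R hR R' hR' haux hDI hDM hDZ
    hfracI hfracM hfracZ hnmI hnmM hnmZ cond hcond

set_option maxHeartbeats 2000000 in
/-- **no node of the final setup contains an ideal containing the conductor of `j`**,
unconditional at an auxiliary level. -/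
theorem h1tf_hnc_cond (haux : IsAuxLevel q M') (cond : Ideal (SF).B)
    (hcond : ∀ t : (SF).B, ((t : f0Field A (M' * q * q)) : FF (M' * q * q)) *
      jF (M' * q * q) ∈ offRegular (M' * q * q) (s36D1 M' q hq hqM) → t ∈ cond) :
    ∀ 𝔪 : Ideal (SF).B, (SF).IsNode 𝔪 → ¬ cond ≤ 𝔪 := by
  haveI : Fact q.Prime := ⟨hq⟩
  obtain ⟨R', -, hR', -⟩ := liftInf_exists_red (M := M') (A := A) q haux hA
  obtain ⟨-, hDI, hfracI, hnmI⟩ := d1q_final_inf A M' q hq hqM hA hζq hζ hE R hR haux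
  exact icm_final_hnc A M' q hq hqM hA hζq hζ hE R hR R' hR' haux hDI hfracI hnmI cond hcond

/-- `htriC` of `s36Final_htri_of` (at `h1tCond`), unconditional at an auxiliary level -/
theorem h1tf_htriC (haux : IsAuxLevel q M') :
    ∀ 𝔪 : Ideal (SF).B, 𝔪.IsMaximal → (SF).constB (q : k0Val A) ∈ 𝔪 →
      h1tCond A M' q hq hqM hA hζq hζ hE R hR ≤ 𝔪 → (SF).IsNode 𝔪 ∨
      ((SF).pInf ≤ 𝔪 ∧ ¬ (SF).pMid ≤ 𝔪 ∧ ¬ (SF).pZero ≤ 𝔪) ∨
      (¬ (SF).pInf ≤ 𝔪 ∧ (SF).pMid ≤ 𝔪 ∧ ¬ (SF).pZero ≤ 𝔪) ∨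
      (¬ (SF).pInf ≤ 𝔪 ∧ ¬ (SF).pMid ≤ 𝔪 ∧ (SF).pZero ≤ 𝔪) :=
  h1tf_htriC_cond A M' q hq hqM hA hζq hζ hE R hR haux
    (h1tCond A M' q hq hqM hA hζq hζ hE R hR) (fun _ h => h)

/-- no node of the final setup contains the conductor `h1tCond` -/
theorem h1tf_hnc (haux : IsAuxLevel q M') :
    ∀ 𝔪 : Ideal (SF).B, (SF).IsNode 𝔪 → ¬ h1tCond A M' q hq hqM hA hζq hζ hE R hR ≤ 𝔪 :=
  h1tf_hnc_cond A M' q hq hqM hA hζq hζ hE R hR haux
    (h1tCond A M' q hq hqM hA hζq hζ hE R hR) (fun _ h => h)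

set_option maxHeartbeats 2000000 in
/-- **`htri` for the final setup** from ONLY the trichotomy in the `B_j` world (INC-j) at an
auxiliary level. -/
theorem s36Final_htri_main (haux : IsAuxLevel q M')
    (htri2 : ∀ 𝔪' : Ideal (SJ).B, 𝔪'.IsMaximal → (SJ).constB (q : k0Val A) ∈ 𝔪' →
      (SJ).IsNode 𝔪' ∨
      ((SJ).pInf ≤ 𝔪' ∧ ¬ (SJ).pMid ≤ 𝔪' ∧ ¬ (SJ).pZero ≤ 𝔪') ∨
      (¬ (SJ).pInf ≤ 𝔪' ∧ (SJ).pMid ≤ 𝔪' ∧ ¬ (SJ).pZero ≤ 𝔪') ∨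
      (¬ (SJ).pInf ≤ 𝔪' ∧ ¬ (SJ).pMid ≤ 𝔪' ∧ (SJ).pZero ≤ 𝔪')) :
    ∀ 𝔪 : Ideal (SF).B, 𝔪.IsMaximal → (SF).constB (q : k0Val A) ∈ 𝔪 → (SF).IsNode 𝔪 ∨
      ((SF).pInf ≤ 𝔪 ∧ ¬ (SF).pMid ≤ 𝔪 ∧ ¬ (SF).pZero ≤ 𝔪) ∨
      (¬ (SF).pInf ≤ 𝔪 ∧ (SF).pMid ≤ 𝔪 ∧ ¬ (SF).pZero ≤ 𝔪) ∨
      (¬ (SF).pInf ≤ 𝔪 ∧ ¬ (SF).pMid ≤ 𝔪 ∧ (SF).pZero ≤ 𝔪) :=
  s36Final_htri_of A M' q hq hqM hA hζq hζ hE R hR htri2
    (h1tf_htriC A M' q hq hqM hA hζq hζ hE R hR haux)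

end Fermat.Agent.S36lib

end
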