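/-
Item 83 (S36), piece R-2a (REG1-COUNT, helper11), part 2: the COUNT in the finrank form.

`C_j := fsS k j̄` (FFlib) is the integral closure of `k[j̄]` in `F_{M',k}`: the ring of the functions
of level `M'` over `k` which are regular off the cusps (a Dedekind domain, `FFSep.instDedekindS`).

* `reg1c_finrank_quot` (generic): `dim_K S/(P(x)) = deg P · [F : K(x)]` for the integral closure
  `S` of `K[x]` in `F` (`F/K(x)` finite separable);
* `reg1c_exists_poly` (generic): an element of `K(x)` which is integral over `K[x]` is `P(x)`;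
* `reg1c_orderTop_aeval`: the order of `P(x)` for a Laurent series `x` with a simple pole;
* `reg1c_ffSep_jk`, `reg1c_finrank_jk`: `F_{M',k}/k(j̄)` is finite separable of degree `ψ(M')`;
* `reg1c_exists_poly_jk`: `h̄ ∈ F_{M',k}` integral over `k[j̄]`, of level `1`, of order `-d` at `∞`
  is `P(j̄)` with `deg P = d`;
* `reg1c_finrank_hbar`, `reg1c_finrank_hbar_modL`: for such an `h̄`:
  `dim_k C/(h̄) = d · ψ(M')` for every `k`-algebra `C ≃ₐ[k] C_j` (with `d = q - 1` and the node
  number `reg1c_node_count` this is `12 · n = dim_k C/(h̄)`).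
NOTE for consumers: `↥(fsS k (jk k M')) ⧸ Ideal.span {c}` does NOT elaborate directly on the concrete
ring (instance paths through `IntermediateField.toField`); use the generic statements
(`reg1c_finrank_quot`) instantiated, or the `C`-forms.
No sorry in this file.
-/
import Mathlib
import Fermat.Agent.FFlib.FSPrimes
import Fermat.Agent.GoodRed.HredMain
import Fermat.Agent.S36lib.Speed

set_option autoImplicit false
set_option linter.style.haveILetI false
set_option linter.unusedSectionVars false
set_option synthInstance.maxHeartbeats 400000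
set_option maxHeartbeats 1000000

noncomputable section

namespace Fermat.Agent.S36lib

open Fermat.Agent.FFlib Fermat.Agent.S24lib Fermat.Agent.GM Fermat.Agent.GoodRed
open AlgebraicCurve IntermediateField Polynomial ModularCurve
open scoped IntermediateField.algebraAdjoinAdjoin

section Generic

variable {K F : Type*} [Field K] [Field F] [Algebra K F] {x : F}

/-- the coordinate of `P(x) ∈ S` in `F` -/
theorem reg1c_coe_aeval (P : K[X]) :
    ((Polynomial.aeval (fsxS K x) P : fsS K x) : F) = Polynomial.aeval x P := by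
  have h : (algebraMap (fsS K x) F) (Polynomial.aeval (fsxS K x) P) =
      Polynomial.aeval (algebraMap (fsS K x) F (fsxS K x)) P :=
    (Polynomial.aeval_algebraMap_apply F (fsxS K x) P).symm
  exact h

/-- **the count, algebraic form**: `dim_K S/(P(x)) = deg P · [F : K(x)]` for the integral closure
`S` of `K[x]` in `F`. -/
theorem reg1c_finrank_quot [FFSep K x] (P : K[X]) (hP : P ≠ 0) :
    Module.finrank K (fsS K x ⧸ Ideal.span {Polynomial.aeval (fsxS K x) P}) =
      P.natDegree * Module.finrank K⟮x⟯ F := by
  classical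
  have hx : Transcendental K x := FFSep.trans
  let e : K[X] ≃ₐ[K] fsA K x := Polynomial.algEquivOfTranscendental K x hx
  letI algX : Algebra K[X] (fsS K x) :=
    ((algebraMap (fsA K x) (fsS K x)).comp (e : K[X] →+* fsA K x)).toAlgebra
  have halg : ∀ p : K[X], algebraMap K[X] (fsS K x) p = algebraMap (fsA K x) (fsS K x) (e p) :=
    fun p => rfl
  haveI : IsScalarTower K K[X] (fsS K x) := by
    refine IsScalarTower.of_algebraMap_eq fun c => ?_
    rw [halg, Polynomial.algebraMap_apply, Algebra.algebraMap_self_apply]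
    have : e (Polynomial.C c) = algebraMap K (fsA K x) c := by
      rw [← Polynomial.algebraMap_eq, AlgEquiv.commutes]
    rw [this, ← IsScalarTower.algebraMap_apply]
  haveI : Module.Free (fsA K x) (fsS K x) :=
    IsIntegralClosure.module_free (fsA K x) K⟮x⟯ F (fsS K x)
  have hrank : Module.finrank (fsA K x) (fsS K x) = Module.finrank K⟮x⟯ F :=
    IsIntegralClosure.rank (fsA K x) K⟮x⟯ F (fsS K x)
  let b := Module.Free.chooseBasis (fsA K x) (fsS K x)
  let b' : Module.Basis (Module.Free.ChooseBasisIndex (fsA K x) (fsS K x)) K[X] (fsS K x) :=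
    b.mapCoeffs e.symm.toRingEquiv (fun c s => by
      show algebraMap K[X] (fsS K x) (e.symm c) * s = c • s
      rw [halg, AlgEquiv.apply_symm_apply, Algebra.smul_def])
  have hel : Polynomial.aeval (fsxS K x) P = algebraMap K[X] (fsS K x) P := by
    apply Subtype.ext
    rw [reg1c_coe_aeval, halg]
    show _ = ((e P : fsA K x) : F)
    have h1 : e P = Polynomial.aeval (fsxA K x) P := rfl
    rw [h1]
    exact (Polynomial.aeval_algebraMap_apply F (fsxA K x) P)
  have hne : algebraMap K[X] (fsS K x) P ≠ 0 := by
    rw [halg]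
    intro h0
    have h1 : e P = 0 := by
      apply Subtype.ext
      exact congrArg (fun s : fsS K x => (s : F)) h0
    exact hP (e.injective (by rw [h1, map_zero]))
  rw [hel, finrank_quotient_span_eq_natDegree_norm (F := K) b' hne,
    Algebra.norm_algebraMap_of_basis b',
    Polynomial.natDegree_pow, ← Module.finrank_eq_card_chooseBasisIndex, hrank, mul_comm]

/-- the same for any `K`-algebra `C` isomorphic to `S` (so that the consumer may choose its own
instances on `C`). -/
theorem reg1c_finrank_of_equiv [FFSep K x] {C : Type*} [CommRing C] [Algebra K C]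
    (φ : C ≃ₐ[K] fsS K x) (c : C) (P : K[X]) (hP : P ≠ 0)
    (hc : ((φ c : fsS K x) : F) = Polynomial.aeval x P) :
    Module.finrank K (C ⧸ Ideal.span {c}) = P.natDegree * Module.finrank K⟮x⟯ F := by
  have h1 : φ c = Polynomial.aeval (fsxS K x) P := by
    apply Subtype.ext
    rw [hc, reg1c_coe_aeval]
  have hmap : Ideal.span {Polynomial.aeval (fsxS K x) P} =
      Ideal.map (φ : C →+* fsS K x) (Ideal.span {c}) := by
    rw [Ideal.map_span, Set.image_singleton, ← h1]
    rfl
  rw [← reg1c_finrank_quot P hP]
  exact (Ideal.quotientEquivAlg (Ideal.span {c})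
    (Ideal.span {Polynomial.aeval (fsxS K x) P}) φ hmap).toLinearEquiv.finrank_eq

/-- `K[x]` is integrally closed in `K(x)`: an element of `K(x)` which is integral over `K[x]`
is a polynomial in `x`. -/
theorem reg1c_exists_poly (hx : Transcendental K x) {c : F} (hc : c ∈ K⟮x⟯)
    (hint : IsIntegral (fsA K x) c) : ∃ P : K[X], Polynomial.aeval x P = c := by
  haveI : IsPrincipalIdealRing (fsA K x) := fsA_isPrincipalIdealRing hx
  have hint' : IsIntegral (fsA K x) (⟨c, hc⟩ : K⟮x⟯) := by
    have hinj : Function.Injective (algebraMap K⟮x⟯ F) := (algebraMap K⟮x⟯ F).injective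
    exact (isIntegral_algebraMap_iff hinj).mp hint
  obtain ⟨a, ha⟩ := IsIntegrallyClosed.algebraMap_eq_of_integral hint'
  obtain ⟨P, hP⟩ := Algebra.adjoin_mem_exists_aeval K x a.2
  refine ⟨P, ?_⟩
  rw [hP]
  exact congrArg (fun y : K⟮x⟯ => (y : F)) ha

end Generic

section Series

variable {k : Type*} [Field k]

/-- the order of `P(x)` for a Laurent series `x` with a simple pole: `-deg P`. -/
theorem reg1c_orderTop_aeval {x : LaurentSeries k} (hx : x.order = -1) :
    ∀ (n : ℕ) (P : k[X]), P.natDegree = n → P ≠ 0 →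
      (Polynomial.aeval x P).orderTop = ((-(n : ℤ) : ℤ) : WithTop ℤ) := by
  have hx0 : x ≠ 0 := by
    rintro rfl
    rw [HahnSeries.order_zero] at hx
    omega
  have hmono : ∀ (d : ℕ) (a : k), a ≠ 0 →
      (Polynomial.aeval x (Polynomial.monomial d a)).orderTop = ((-(d : ℤ) : ℤ) : WithTop ℤ) := by
    intro d a ha
    have hne : Polynomial.aeval x (Polynomial.monomial d a) ≠ 0 := by
      rw [Polynomial.aeval_monomial]
      refine mul_ne_zero ?_ (pow_ne_zero d hx0)
      rw [Ne, map_eq_zero_iff _ (algebraMap k (LaurentSeries k)).injective]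
      exact ha
    rw [← HahnSeries.order_eq_orderTop_of_ne_zero hne, Polynomial.aeval_monomial]
    have hC : algebraMap k (LaurentSeries k) a ≠ 0 := by
      rw [Ne, map_eq_zero_iff _ (algebraMap k (LaurentSeries k)).injective]
      exact ha
    rw [HahnSeries.order_mul hC (pow_ne_zero d hx0), HahnSeries.order_pow, hx]
    have h0 : (algebraMap k (LaurentSeries k) a).order = 0 := by
      have h1 : algebraMap k (PowerSeries k) a = PowerSeries.C a := by simp
      rw [HahnSeries.algebraMap_apply', h1, HahnSeries.ofPowerSeries_C]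
      exact HahnSeries.order_C
    rw [h0]
    simp
  intro n
  induction n using Nat.strong_induction_on with
  | _ n ih =>
    intro P hPn hP0
    have hsplit := Polynomial.eraseLead_add_monomial_natDegree_leadingCoeff P
    have hlc : P.leadingCoeff ≠ 0 := Polynomial.leadingCoeff_ne_zero.mpr hP0
    have hm := hmono P.natDegree P.leadingCoeff hlc
    rw [hPn] at hm
    by_cases he : P.eraseLead = 0
    · rw [← hsplit, he, zero_add, hPn]
      exact hm
    · have hlt : P.eraseLead.natDegree < n := by
        rcases Polynomial.eraseLead_natDegree_lt_or_eraseLead_eq_zero P with h | h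
        · rwa [hPn] at h
        · exact absurd h he
      have h1 := ih P.eraseLead.natDegree hlt P.eraseLead rfl he
      have hlt' : (Polynomial.aeval x (Polynomial.monomial n P.leadingCoeff)).orderTop <
          (Polynomial.aeval x P.eraseLead).orderTop := by
        rw [hm, h1]
        exact_mod_cast (by omega : -(n : ℤ) < -(P.eraseLead.natDegree : ℤ))
      have h2 := HahnSeries.orderTop_add_eq_right hlt'
      rw [← hsplit, hPn, map_add, h2, hm]

/-- the order of `P(x)`, in the `order` form -/
theorem reg1c_natDegree_of_order {x : LaurentSeries k} (hx : x.order = -1) (P : k[X])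
    (hP : Polynomial.aeval x P ≠ 0) (d : ℕ) (hd : (Polynomial.aeval x P).order = -(d : ℤ)) :
    P.natDegree = d := by
  have hP0 : P ≠ 0 := by
    rintro rfl
    exact hP (map_zero _)
  have h1 := reg1c_orderTop_aeval hx P.natDegree P rfl hP0
  rw [← HahnSeries.order_eq_orderTop_of_ne_zero hP, hd] at h1
  have h2 : (-(d : ℤ) : ℤ) = -(P.natDegree : ℤ) := by exact_mod_cast h1
  omega

end Series

section Concrete

variable (k : Type) [Field k] (M' : ℕ) [NeZero M']

/-- the function field of level `1` over `k` is `k(j̄)` -/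
theorem reg1c_fullC_one : modularFunctionFieldFullC k 1 = k⟮jqModC k⟯ := by
  rw [modularFunctionFieldFullC]
  congr 1
  ext y
  constructor
  · rintro ⟨d, hd, hd1, rfl⟩
    have h1 : d = 1 := Nat.dvd_one.mp hd1
    subst h1
    rw [Set.mem_singleton_iff, qExpand_one_apply]
  · intro hy
    rw [Set.mem_singleton_iff] at hy
    exact ⟨1, inferInstance, dvd_refl 1, by rw [hy, qExpand_one_apply]⟩

/-- an element of `F_{M',k}` whose series is of level `1` lies in `k(j̄)` -/
theorem reg1c_mem_adjoin_jk {c : Fk k M'}
    (h : (c : LaurentSeries k) ∈ modularFunctionFieldFullC k 1) : c ∈ k⟮jk k M'⟯ := by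
  rw [reg1c_fullC_one] at h
  have hmap : (k⟮jk k M'⟯).map (modularFunctionFieldFullC k M').val = k⟮jqModC k⟯ := by
    rw [IntermediateField.adjoin_map, Set.image_singleton]
    rfl
  rw [← hmap] at h
  obtain ⟨y, hy, hyc⟩ := h
  have : y = c := Subtype.ext hyc
  rwa [this] at hy

/-- `j̄` is transcendental over `k` -/
theorem reg1c_transcendental_jk : Transcendental k (jk k M') := by
  intro halg
  obtain ⟨P, hP0, hP⟩ := halg
  apply hP0
  have h1 : Polynomial.aeval (jqModC k) P = 0 := by
    rw [show jqModC k = algebraMap (Fk k M') (LaurentSeries k) (jk k M') from rfl,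
      Polynomial.aeval_algebraMap_apply, hP, map_zero]
  by_contra hne
  have h3 := reg1c_orderTop_aeval (x := jqModC k) ?_ P.natDegree P rfl hne
  · rw [h1, HahnSeries.orderTop_zero] at h3
    exact WithTop.top_ne_coe h3
  · exact rg_order_jqModC k

/-- **`h̄ = P(j̄)`**: an element of `C_j` of level `1` and of order `-d` at `∞` is `P(j̄)` with
`deg P = d`. -/
theorem reg1c_exists_poly_jk (c : fsS k (jk k M'))
    (hmem : ((c : Fk k M') : LaurentSeries k) ∈ modularFunctionFieldFullC k 1) (hne : c ≠ 0)
    (d : ℕ) (hord : ((c : Fk k M') : LaurentSeries k).order = -(d : ℤ)) :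
    ∃ P : k[X], P.natDegree = d ∧ P ≠ 0 ∧ Polynomial.aeval (fsxS k (jk k M')) P = c := by
  obtain ⟨P, hP⟩ := reg1c_exists_poly (reg1c_transcendental_jk k M')
    (reg1c_mem_adjoin_jk k M' hmem) c.2
  have hser : Polynomial.aeval (jqModC k) P = ((c : Fk k M') : LaurentSeries k) := by
    rw [← hP]
    exact (Polynomial.aeval_algebraMap_apply (LaurentSeries k) (jk k M') P)
  have hc0 : ((c : Fk k M') : LaurentSeries k) ≠ 0 := by
    intro h0
    apply hne
    apply Subtype.ext
    apply Subtype.ext
    exact h0
  have hP0 : P ≠ 0 := by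
    rintro rfl
    rw [map_zero] at hser
    exact hc0 hser.symm
  refine ⟨P, ?_, hP0, ?_⟩
  · refine reg1c_natDegree_of_order (rg_order_jqModC k) P ?_ d ?_
    · rw [hser]; exact hc0
    · rw [hser]; exact hord
  · apply Subtype.ext
    rw [reg1c_coe_aeval, hP]

/-- **the count, finrank form**: for `h̄ ∈ C_j` of level `1` and of order `-d` at `∞`:
`dim_k C/(h̄) = d · [F_{M',k} : k(j̄)]`, for any `k`-algebra `C` isomorphic to `C_j`. -/
theorem reg1c_finrank_hbar [FFSep k (jk k M')] {C : Type*} [CommRing C] [Algebra k C]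
    (φ : C ≃ₐ[k] fsS k (jk k M')) (c : C)
    (hmem : (((φ c : fsS k (jk k M')) : Fk k M') : LaurentSeries k) ∈
      modularFunctionFieldFullC k 1) (hne : c ≠ 0)
    (d : ℕ) (hord : (((φ c : fsS k (jk k M')) : Fk k M') : LaurentSeries k).order = -(d : ℤ)) :
    Module.finrank k (C ⧸ Ideal.span {c}) = d * Module.finrank k⟮jk k M'⟯ (Fk k M') := by
  have hne' : φ c ≠ 0 := fun h0 => hne (φ.injective (by rw [h0, map_zero]))
  obtain ⟨P, hPd, hP0, hP⟩ := reg1c_exists_poly_jk k M' (φ c) hmem hne' d hord
  have hc : ((φ c : fsS k (jk k M')) : Fk k M') = Polynomial.aeval (jk k M') P := by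
    rw [← hP, reg1c_coe_aeval]
  rw [reg1c_finrank_of_equiv φ c P hP0 hc, hPd]

end Concrete

section ModQ

variable (M' : ℕ) [NeZero M'] {q : ℕ} [Fact q.Prime] (hqM : ¬ q ∣ M')
  (A : ValuationSubring (AlgebraicClosure ℚ)) (hA : A.LiesOverPrime q)

include hqM hA

/-- `F_{M',k}/k(j̄)` is finite separable (`k` the residue field of `A`). -/
theorem reg1c_ffSep_jk :
    FFSep (IsLocalRing.ResidueField A) (jk (IsLocalRing.ResidueField A) M') :=
  haveI := ffSep_jk_inv_modL M' hqM A hA
  FFSep.of_adjoin_eq (x := (jk (IsLocalRing.ResidueField A) M')⁻¹)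
    (fsAdjoin_inv (jk (IsLocalRing.ResidueField A) M')).symm

/-- `[F_{M',k} : k(j̄)] = ψ(M')` -/
theorem reg1c_finrank_jk :
    Module.finrank (IsLocalRing.ResidueField A)⟮jk (IsLocalRing.ResidueField A) M'⟯
      (Fk (IsLocalRing.ResidueField A) M') = dedekindPsi M' := by
  rw [← finrank_Fk_modL M' hqM A hA]
  exact fsFinrank_of_adjoin_eq (fsAdjoin_inv (jk (IsLocalRing.ResidueField A) M')).symm

/-- **the count at the level `M'`** (R-2a, form (D)): for `h̄ ∈ C_j` of level `1` and of order
`-d` at `∞`: `dim_k C/(h̄) = d · ψ(M')`, for any `k`-algebra `C` isomorphic to `C_j = fsS k j̄`. -/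
theorem reg1c_finrank_hbar_modL {C : Type*} [CommRing C] [Algebra (IsLocalRing.ResidueField A) C]
    (φ : C ≃ₐ[IsLocalRing.ResidueField A]
      fsS (IsLocalRing.ResidueField A) (jk (IsLocalRing.ResidueField A) M')) (c : C)
    (hmem : (((φ c : fsS (IsLocalRing.ResidueField A) (jk (IsLocalRing.ResidueField A) M')) :
      Fk (IsLocalRing.ResidueField A) M') : LaurentSeries (IsLocalRing.ResidueField A)) ∈
        modularFunctionFieldFullC (IsLocalRing.ResidueField A) 1) (hne : c ≠ 0)
    (d : ℕ) (hord : (((φ c : fsS (IsLocalRing.ResidueField A)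
      (jk (IsLocalRing.ResidueField A) M')) : Fk (IsLocalRing.ResidueField A) M') :
        LaurentSeries (IsLocalRing.ResidueField A)).order = -(d : ℤ)) :
    Module.finrank (IsLocalRing.ResidueField A) (C ⧸ Ideal.span {c}) = d * dedekindPsi M' := by
  haveI := reg1c_ffSep_jk M' hqM A hA
  rw [reg1c_finrank_hbar (IsLocalRing.ResidueField A) M' φ c hmem hne d hord,
    reg1c_finrank_jk M' hqM A hA]

end ModQ

end Fermat.Agent.S36lib

end
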