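/-
Item 83 (S36), block V, piece V-E at `∞` and `0` (helper4): the hypotheses `hinto` / `honto` of
`SeriesVal.restrictK0`, `nodeSetupSeries`, `nodeSetupSeriesD` for the valuations `v_∞` and
`v₀ = v_∞ ∘ w`.

`R : ConstRed A (residue A) κ' (FF L)`, `κ' = modularFunctionFieldFullC k M'`, `M' ∣ L`,
`IsSeriesRed R` (e.g. `exists_constRedInf_aux` at level `M' q`, helper7's
`hq2_exists_constRedInf` at level `M' q²`):
* `vsi_red_jdF` : `j_d ∈ O ∩ F0(L)` and `red j_d = j̄(X^d)` for `d ∣ L`;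
* `vsi_hiInf`, `vsi_hoInf` : `red (O_∞ ∩ F0(L)) = κ'`;
* `vsi_hiZero`, `vsi_hoZero` : the same for `(SeriesVal.ofConstRed R).comap w`, `w` an
  automorphism of `FF L` with `w⁻¹ F0(L) ⊆ F0(L)`;
* `vsi_hoZero_alW2`, `vsi_hoZero_alW1` : the instances `w = w_{q²}` (level `M' q²`) and `w = w_q`
  (level `M' q`).
-/
import Mathlib
import Fermat.Agent.S36lib.VSurj
import Fermat.Agent.S36lib.ALF0
import Fermat.Agent.S34lib.VRedInto
import Fermat.Agent.GoodRed.DescTower

set_option autoImplicit false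
set_option linter.style.haveILetI false
set_option synthInstance.maxHeartbeats 400000
set_option linter.unusedSectionVars false

noncomputable section

namespace Fermat.Agent.S36lib

open ModularCurve AlgebraicCurve
open Fermat.Agent.S24lib Fermat.Agent.S34lib Fermat.Agent.GoodRed Fermat.Agent.S35lib

section Inf

variable {A : ValuationSubring Kbar} {L : ℕ} [NeZero L] (M' : ℕ) [NeZero M']
variable {R : ConstRed A (IsLocalRing.residue A)
  (↥(modularFunctionFieldFullC (IsLocalRing.ResidueField A) M')) (FF L)}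

/-- `j_d` lies in the unit ball and reduces to `j̄(X^d)` -/
theorem vsi_red_jdF (hR : IsSeriesRed R) (d : ℕ) [NeZero d] (hd : d ∣ L) :
    ∃ h : jdF L d hd ∈ R.O,
      ((R.red ⟨jdF L d hd, h⟩ : ↥(modularFunctionFieldFullC (IsLocalRing.ResidueField A) M')) :
          LaurentSeries (IsLocalRing.ResidueField A))
        = qExpand (IsLocalRing.ResidueField A) d (jqModC (IsLocalRing.ResidueField A)) := by
  have e := vri_jdF_eq L A d hd
  have h := hR.mem (qExpand A d (jqModC A)) (vri_mem_Jd L A d hd)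
  have hr := hR.red (qExpand A d (jqModC A)) (vri_mem_Jd L A d hd)
  have hr2 : coeffMap (IsLocalRing.residue A) (qExpand A d (jqModC A))
      = qExpand (IsLocalRing.ResidueField A) d (jqModC (IsLocalRing.ResidueField A)) :=
    hr_coeffMap_gen _ d
  have h' : jdF L d hd ∈ R.O := by
    rw [e]
    exact h
  refine ⟨h', ?_⟩
  have e2 : (⟨jdF L d hd, h'⟩ : R.O)
      = ⟨⟨coeffMap A.subtype (qExpand A d (jqModC A)), vri_mem_Jd L A d hd⟩, h⟩ :=
    Subtype.ext e
  rw [e2]
  exact hr.trans hr2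

/-- `hinto` at `∞` -/
theorem vsi_hiInf (R : ConstRed A (IsLocalRing.residue A)
    (↥(modularFunctionFieldFullC (IsLocalRing.ResidueField A) M')) (FF L)) :
    ∀ (x : FF L) (hx : x ∈ (SeriesVal.ofConstRed R).O), x ∈ f0Field A L →
      (SeriesVal.ofConstRed R).red ⟨x, hx⟩ ∈
        modularFunctionFieldFullC (IsLocalRing.ResidueField A) M' :=
  fun x hx _ => (R.red ⟨x, hx⟩).2

/-- `honto` at `∞`: the reductions of the elements of `O_∞ ∩ F0(L)` fill `κ'` -/
theorem vsi_hoInf (hR : IsSeriesRed R) (hM' : M' ∣ L) (q : ℕ) (hq : q.Prime)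
    (hA : A.LiesOverPrime q) :
    ∀ w ∈ modularFunctionFieldFullC (IsLocalRing.ResidueField A) M',
      ∃ (x : FF L) (hx : x ∈ (SeriesVal.ofConstRed R).O), x ∈ f0Field A L ∧
        (SeriesVal.ofConstRed R).red ⟨x, hx⟩ = w := by
  refine SeriesVal.vsurj_honto (SeriesVal.ofConstRed R) (vsurj_k0Res_surjective q hq hA)
    (divisorExpansionsC (IsLocalRing.ResidueField A) M') ?_
  rintro s ⟨d, hd0, hd, rfl⟩
  haveI := hd0
  obtain ⟨h, hr⟩ := vsi_red_jdF M' hR d (hd.trans hM')
  exact ⟨jdF L d (hd.trans hM'), h, jdF_mem_f0Field A L d (hd.trans hM'), hr⟩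

/-- `hinto` at `0` -/
theorem vsi_hiZero (R : ConstRed A (IsLocalRing.residue A)
    (↥(modularFunctionFieldFullC (IsLocalRing.ResidueField A) M')) (FF L))
    (w : FF L ≃ₐ[Kbar] FF L) :
    ∀ (x : FF L) (hx : x ∈ ((SeriesVal.ofConstRed R).comap w).O), x ∈ f0Field A L →
      ((SeriesVal.ofConstRed R).comap w).red ⟨x, hx⟩ ∈
        modularFunctionFieldFullC (IsLocalRing.ResidueField A) M' :=
  fun x hx _ => (R.red ⟨w x, hx⟩).2

/-- `honto` at `0`, for an automorphism `w` whose inverse preserves `F0(L)` -/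
theorem vsi_hoZero (hR : IsSeriesRed R) (hM' : M' ∣ L) (q : ℕ) (hq : q.Prime)
    (hA : A.LiesOverPrime q) (w : FF L ≃ₐ[Kbar] FF L)
    (hw : ∀ x : FF L, x ∈ f0Field A L → w.symm x ∈ f0Field A L) :
    ∀ y ∈ modularFunctionFieldFullC (IsLocalRing.ResidueField A) M',
      ∃ (x : FF L) (hx : x ∈ ((SeriesVal.ofConstRed R).comap w).O), x ∈ f0Field A L ∧
        ((SeriesVal.ofConstRed R).comap w).red ⟨x, hx⟩ = y := by
  intro y hy
  obtain ⟨x, hx, hx0, hxy⟩ := vsi_hoInf M' hR hM' q hq hA y hy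
  have hmem : w (w.symm x) ∈ (SeriesVal.ofConstRed R).O := by
    rw [AlgEquiv.apply_symm_apply]
    exact hx
  refine ⟨w.symm x, hmem, hw x hx0, ?_⟩
  rw [← hxy]
  show (SeriesVal.ofConstRed R).red ⟨w (w.symm x), hmem⟩ = (SeriesVal.ofConstRed R).red ⟨x, hx⟩
  congr 1
  exact Subtype.ext (AlgEquiv.apply_symm_apply w x)

end Inf

section Levels

variable {A : ValuationSubring Kbar} (M' : ℕ) [NeZero M'] {q : ℕ} [NeZero q]
  [NeZero (M' * q)] [NeZero (M' * q * q)] (hq : q.Prime) (hqM : ¬ q ∣ M')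

/-- `honto` at `0`, level `M' q²`, `w = w_{q²}` -/
theorem vsi_hoZero_alW2
    {R : ConstRed A (IsLocalRing.residue A)
      (↥(modularFunctionFieldFullC (IsLocalRing.ResidueField A) M')) (FF (M' * q * q))}
    (hR : IsSeriesRed R) (hA : A.LiesOverPrime q) :
    ∀ y ∈ modularFunctionFieldFullC (IsLocalRing.ResidueField A) M',
      ∃ (x : FF (M' * q * q)) (hx : x ∈ ((SeriesVal.ofConstRed R).comap (alW2 M' hq hqM)).O),
        x ∈ f0Field A (M' * q * q) ∧
        ((SeriesVal.ofConstRed R).comap (alW2 M' hq hqM)).red ⟨x, hx⟩ = y := by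
  refine vsi_hoZero M' hR ((dvd_mul_right M' q).mul_right q) q hq hA (alW2 M' hq hqM) ?_
  intro x hx
  rw [alW2_symm]
  exact alW2_mem_f0Field A M' hq hqM hx

/-- `honto` at `0`, level `M' q`, `w = w_q` -/
theorem vsi_hoZero_alW1
    {R : ConstRed A (IsLocalRing.residue A)
      (↥(modularFunctionFieldFullC (IsLocalRing.ResidueField A) M')) (FF (M' * q))}
    (hR : IsSeriesRed R) (hA : A.LiesOverPrime q) :
    ∀ y ∈ modularFunctionFieldFullC (IsLocalRing.ResidueField A) M',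
      ∃ (x : FF (M' * q)) (hx : x ∈ ((SeriesVal.ofConstRed R).comap (alW1 M' hq hqM)).O),
        x ∈ f0Field A (M' * q) ∧
        ((SeriesVal.ofConstRed R).comap (alW1 M' hq hqM)).red ⟨x, hx⟩ = y := by
  refine vsi_hoZero M' hR (dvd_mul_right M' q) q hq hA (alW1 M' hq hqM) ?_
  intro x hx
  have h1 : (alW1 M' hq hqM).symm x = alW1 M' hq hqM x := by
    apply (alW1 M' hq hqM).injective
    rw [AlgEquiv.apply_symm_apply, alW1_involutive]
  rw [h1]
  exact alW1_mem_f0Field A M' hq hqM hx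

end Levels

end Fermat.Agent.S36lib

end
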