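/-
Item 83 (S36), block REG, piece W-3a RANGE-N, part 2 (helper4): the ranges of the reductions
of `B_j(N)`, `N = M' q`, for `SN = nodeSetupNj A M' q hq hqM hA R hR`
(`S36lib/TheSetup.lean`), `C = fsS k j̄` the integral closure of `k[j̄]` in `κ' = F_{M',k}`.

* `rgn_mem_B`      : unfolding of `x ∈ SN.B`;
* `rgn_surjInf`, `rgn_surjZero` : every `c ∈ C` is `SN.redInf x`, resp. `SN.redZero x`,
  `x ∈ SN.B` (lifting at level `M'`, `rgn_lift`, then `α`, resp. `β`);
* `RgnSum` : the hypothesis (SUM) at level `N` in the shape of `vnkd_main_j`;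
  `rgn_memInf`, `rgn_memZero` : under (SUM), `SN.redInf x ∈ C`, `SN.redZero x ∈ C`;
* `rgn_hiInf`, `rgn_hiZero`, `rgn_hoInf`, `rgn_hoZero` : the four hypotheses of helper15's
  `r1c_hreg1_core`;
* `rgnC` (`= C` as a `k`-subalgebra), `rgnC_closed`, `rgnC_isDedekindDomain`, `rgn_range_inf`,
  `rgn_range_zero`, `rgn_isDedekindDomain_inf/_zero`, `rgn_hcl_inf/_zero` : the hypotheses
  `IsDedekindDomain SN.redInf.range`, `hcl` of helper9's `r2c_hufd_inf`.
-/
import Mathlib
import Fermat.Agent.S36lib.RangeLift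
import Fermat.Agent.S36lib.TheSetup
import Fermat.Agent.S36lib.VZeroQ2
import Fermat.Agent.S36lib.ZeroSide
import Fermat.Agent.S36lib.Reg2Maps
import Fermat.Agent.S36lib.VNoethK0
import Fermat.Agent.S36lib.VNoeth
import Fermat.Agent.S36lib.VSurjInf
import Fermat.Agent.S36lib.Reg1Finrank
import Fermat.Agent.S28lib.IntAlg
import Fermat.Agent.S36lib.D1DedekindAbs

set_option autoImplicit false
set_option linter.style.haveILetI false
set_option linter.unusedSectionVars false
set_option synthInstance.maxHeartbeats 400000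

noncomputable section

namespace Fermat.Agent.S36lib

open AlgebraicCurve ModularCurve IntermediateField
open Fermat.Agent.S24lib Fermat.Agent.FFlib Fermat.Agent.RRlib Fermat.Agent.GoodRed
  Fermat.Agent.GM Fermat.Agent.S34lib Fermat.Agent.S16lib Fermat.Agent.HeckeBar

section Surj

variable (A : ValuationSubring Kbar) (M' q : ℕ) [NeZero M'] [NeZero q] (hq : q.Prime)
  (hqM : ¬ q ∣ M') (hA : A.LiesOverPrime q)
variable (R : ConstRed A (IsLocalRing.residue A)
  (↥(modularFunctionFieldFullC (IsLocalRing.ResidueField A) M')) (FF (M' * q)))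
  (hR : IsSeriesRed R)

/-- unfolding of `B_j(N)` -/
theorem rgn_mem_B (x : f0Field A (M' * q)) :
    x ∈ (nodeSetupNj A M' q hq hqM hA R hR).B ↔
      (x : FF (M' * q)) ∈ cuspRegular (M' * q) ∧ (x : FF (M' * q)) ∈ R.O ∧
        alW1 M' hq hqM (x : FF (M' * q)) ∈ R.O := by
  have h := mem_nodeSetupConc_B A M' (cuspSet (M' * q)) q hq hA (dvd_mul_right M' q) R hR
    (alW1 M' hq hqM) (sconc_alW1_symm_mem A M' q hq hqM) (SeriesVal.ofConstRed R)
    (sconc_hinto A M' R) (sconc_honto A M' q hq hA (dvd_mul_right M' q) R hR) x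
  rw [offRegular_cuspSet] at h
  constructor
  · intro hx
    obtain ⟨h1, h2, -, h4⟩ := h.mp hx
    exact ⟨h1, h2, h4⟩
  · rintro ⟨h1, h2, h4⟩
    exact h.mpr ⟨h1, h2, h2, h4⟩

/-- **surjectivity of `red_∞` onto `C`** -/
theorem rgn_surjInf (haux : IsAuxLevel q M') (c : Fk (IsLocalRing.ResidueField A) M')
    (hc : IsIntegral (Algebra.adjoin (IsLocalRing.ResidueField A)
      ({jk (IsLocalRing.ResidueField A) M'} : Set (Fk (IsLocalRing.ResidueField A) M'))) c) :
    ∃ x : (nodeSetupNj A M' q hq hqM hA R hR).B,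
      (nodeSetupNj A M' q hq hqM hA R hR).redInf x = c := by
  haveI : Fact q.Prime := ⟨hq⟩
  obtain ⟨R', r, hR', -, -, -⟩ := liftInf_exists_red M' A q haux hA
  obtain ⟨y, hyO, hyF, hyC, hyc⟩ := rgn_lift q haux hA hR' c hc
  have hfrac' : HasPrimFrac A (modularFunctionFieldBar M') := vri_hfrac M' q hq A hA
  obtain ⟨h1, h1r⟩ := vz2_alpha_mem_red M' q hR' hR hfrac' hyO
  obtain ⟨h2, -⟩ := vz2_beta_mem_red M' q hR' hR hfrac' hyO
  have hxF : heckeAlphaBar Kbar M' q y ∈ f0Field A (M' * q) := f0_heckeAlphaBar_mem A q hyF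
  have hxC : heckeAlphaBar Kbar M' q y ∈ cuspRegular (M' * q) :=
    r2m_inclBar_mem_cuspRegular (dvd_mul_right M' q) y hyC
  have hxw : alW1 M' hq hqM (heckeAlphaBar Kbar M' q y) ∈ R.O := by
    rw [alW1_alpha']
    exact h2
  refine ⟨⟨⟨heckeAlphaBar Kbar M' q y, hxF⟩,
    (rgn_mem_B A M' q hq hqM hA R hR _).mpr ⟨hxC, h1, hxw⟩⟩, ?_⟩
  rw [← hyc]
  exact h1r

/-- **surjectivity of `red_0` onto `C`** -/
theorem rgn_surjZero (haux : IsAuxLevel q M') (c : Fk (IsLocalRing.ResidueField A) M')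
    (hc : IsIntegral (Algebra.adjoin (IsLocalRing.ResidueField A)
      ({jk (IsLocalRing.ResidueField A) M'} : Set (Fk (IsLocalRing.ResidueField A) M'))) c) :
    ∃ x : (nodeSetupNj A M' q hq hqM hA R hR).B,
      (nodeSetupNj A M' q hq hqM hA R hR).redZero x = c := by
  haveI : Fact q.Prime := ⟨hq⟩
  obtain ⟨R', r, hR', -, -, -⟩ := liftInf_exists_red M' A q haux hA
  obtain ⟨y, hyO, hyF, hyC, hyc⟩ := rgn_lift q haux hA hR' c hc
  have hfrac' : HasPrimFrac A (modularFunctionFieldBar M') := vri_hfrac M' q hq A hA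
  obtain ⟨h1, h1r⟩ := vz2_alpha_mem_red M' q hR' hR hfrac' hyO
  obtain ⟨h2, -⟩ := vz2_beta_mem_red M' q hR' hR hfrac' hyO
  have hxF : heckeBetaBar Kbar M' q y ∈ f0Field A (M' * q) := f0_heckeBetaBar_mem A q hyF
  have hxC : heckeBetaBar Kbar M' q y ∈ cuspRegular (M' * q) :=
    r2m_qpowBar_mem_cuspRegular q (dvd_refl (M' * q)) y hyC
  have e : alW1 M' hq hqM (heckeBetaBar Kbar M' q y) = heckeAlphaBar Kbar M' q y :=
    alW1_beta' M' hq hqM y
  have hxw : alW1 M' hq hqM (heckeBetaBar Kbar M' q y) ∈ R.O := by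
    rw [e]
    exact h1
  refine ⟨⟨⟨heckeBetaBar Kbar M' q y, hxF⟩,
    (rgn_mem_B A M' q hq hqM hA R hR _).mpr ⟨hxC, h2, hxw⟩⟩, ?_⟩
  rw [← hyc, ← h1r]
  show R.red ⟨alW1 M' hq hqM (heckeBetaBar Kbar M' q y), hxw⟩ = _
  congr 1
  exact Subtype.ext e

end Surj

section Into

variable (A : ValuationSubring Kbar) (M' q : ℕ) [NeZero M'] [NeZero q] (hq : q.Prime)
  (hqM : ¬ q ∣ M') (hA : A.LiesOverPrime q)
variable (R : ConstRed A (IsLocalRing.residue A)
  (↥(modularFunctionFieldFullC (IsLocalRing.ResidueField A) M')) (FF (M' * q)))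
  (hR : IsSeriesRed R)

include hR in
/-- `j ∈ O_∞` at level `N`, with reduction `j̄` -/
theorem rgn_red_jF :
    ∃ h : jF (M' * q) ∈ R.O, R.red ⟨jF (M' * q), h⟩ = jk (IsLocalRing.ResidueField A) M' := by
  have e := vri_jF_eq (M' * q) A
  have h := hR.mem (jqModC A) (vri_mem_J (M' * q) A)
  have hr := hR.red (jqModC A) (vri_mem_J (M' * q) A)
  have h' : jF (M' * q) ∈ R.O := by
    rw [e]
    exact h
  refine ⟨h', Subtype.ext ?_⟩
  have e2 : (⟨jF (M' * q), h'⟩ : R.O)
      = ⟨⟨coeffMap A.subtype (jqModC A), vri_mem_J (M' * q) A⟩, h⟩ := Subtype.ext e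
  rw [e2, hr, coeffMap_jqModC, coe_jk]

/-- `w_q j = j_q` -/
theorem rgn_alW1_jF :
    alW1 M' hq hqM (jF (M' * q)) = jdF (M' * q) q (dvd_mul_left q M') := by
  have h1 : jF (M' * q) = heckeAlphaBar Kbar M' q (jF M') := by
    rw [heckeAlphaBar_eq_inclBar, inclBar_jF]
  rw [h1, alW1_alpha', heckeBetaBar_eq_qpowBar, qpowBar_jF]

/-- `w_q` preserves the functions regular off the cusps -/
theorem rgn_alW1_mem_cuspRegular {x : FF (M' * q)} (hx : x ∈ cuspRegular (M' * q)) :
    alW1 M' hq hqM x ∈ cuspRegular (M' * q) := by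
  refine r2m_cuspRegular_map ((alW1 M' hq hqM : FF (M' * q) ≃ₐ[Kbar] FF (M' * q)) :
    FF (M' * q) →ₐ[Kbar] FF (M' * q)) ?_ ?_ x hx
  · exact RingHom.isIntegral_of_surjective _ (alW1 M' hq hqM).surjective
  · intro P hP
    show alW1 M' hq hqM (jF (M' * q)) ∈ P.toValuationSubring
    rw [rgn_alW1_jF]
    exact ffMem_of_ord_nonneg P
      (liftInf_ord_jdF_nonneg P (ffOrd_nonneg_of_mem P hP) q _)

/-- `w_q` is an involution -/
theorem rgn_alW1_alW1 (x : FF (M' * q)) : alW1 M' hq hqM (alW1 M' hq hqM x) = x := by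
  have h1 : (alW1 M' hq hqM).symm x = alW1 M' hq hqM x := by
    rw [AlgEquiv.symm_apply_eq, alW1_eq_alQ]
    exact (alQ_involutive _ _ _ _ x).symm
  rw [← h1, AlgEquiv.apply_symm_apply]

/-- `w_q` maps `B_j(N)` into itself -/
theorem rgn_alW1_mem_B {x : f0Field A (M' * q)}
    (hx : x ∈ (nodeSetupNj A M' q hq hqM hA R hR).B) :
    (⟨alW1 M' hq hqM (x : FF (M' * q)), by
        rw [alW1_eq_alQ]
        exact f0_alQ_mem (A := A) (L := M' * q) q _ _ x.2⟩ : f0Field A (M' * q)) ∈
      (nodeSetupNj A M' q hq hqM hA R hR).B := by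
  obtain ⟨h1, h2, h3⟩ := (rgn_mem_B A M' q hq hqM hA R hR x).mp hx
  refine (rgn_mem_B A M' q hq hqM hA R hR _).mpr
    ⟨rgn_alW1_mem_cuspRegular M' q hq hqM h1, h3, ?_⟩
  show alW1 M' hq hqM (alW1 M' hq hqM (x : FF (M' * q))) ∈ R.O
  rw [rgn_alW1_alW1 M' q hq hqM]
  exact h2

/-- the hypothesis **(SUM)** at level `N = M' q`, in the shape of `vnkd_main_j`: an element of
`F0(N)` in the two valuation rings `O_∞`, `O_0` is integral over the Gauss valuation ring of
`K0(j)` -/
def RgnSum : Prop :=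
  ∀ z : f0Field A (M' * q), (z : FF (M' * q)) ∈ R.O →
    alW1 M' hq hqM (z : FF (M' * q)) ∈ R.O →
    IsIntegral ((R.O.comap (algebraMap (f0Field A (M' * q)) (FF (M' * q)))).comap
      (algebraMap (k0Field A)⟮vnk_j A (M' * q)⟯ (f0Field A (M' * q)))) z

variable {A M' q hq hqM R}

include hR in
/-- under (SUM), the elements of `B_j(N)` are integral over `A0[j]` -/
theorem rgn_isIntegralElem (hSUM : RgnSum A M' q hq hqM R) (x : f0Field A (M' * q))
    (hx : x ∈ (nodeSetupNj A M' q hq hqM hA R hR).B) :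
    ((Polynomial.aeval (vnk_j A (M' * q)) :
      Polynomial (k0Val A) →ₐ[k0Val A] f0Field A (M' * q)) :
        Polynomial (k0Val A) →+* f0Field A (M' * q)).IsIntegralElem x := by
  obtain ⟨h1, h2, h3⟩ := (rgn_mem_B A M' q hq hqM hA R hR x).mp hx
  obtain ⟨hj, hjr⟩ := rgn_red_jF A M' q R hR
  have hjbar : Transcendental (IsLocalRing.ResidueField A)
      ((ResVal.ofConstRed R).red ⟨jF (M' * q), hj⟩) := by
    show Transcendental (IsLocalRing.ResidueField A) (R.red ⟨jF (M' * q), hj⟩)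
    rw [hjr]
    exact reg1c_transcendental_jk (IsLocalRing.ResidueField A) M'
  exact vnoeth_isIntegralElem (k0Val A) (vnk_O A (M' * q) (ResVal.ofConstRed R))
    (vnk_hdom A (M' * q) (ResVal.ofConstRed R)) (vnk_j A (M' * q))
    (vnk_j_transcendental A (M' * q))
    (vnk_hunit A (M' * q) (ResVal.ofConstRed R) hj hjbar) x
    (vnk_hB₁ A (M' * q) x h1) (hSUM x h2 h3)

omit [NeZero q] in
/-- abstract step: an element of `B` integral over `A0[j]` has a reduction integral over
`k[j̄]` -/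
theorem rgn_isIntegral_red {L : ℕ} [NeZero L]
    (S : NodeSetup (k0Val A) (k0Res A)
      (↥(modularFunctionFieldFullC (IsLocalRing.ResidueField A) M')) (f0Field A L))
    (hjB : vnk_j A L ∈ S.B)
    (hjr : S.redInf ⟨vnk_j A L, hjB⟩ = jk (IsLocalRing.ResidueField A) M')
    (x : S.B)
    (hx : ((Polynomial.aeval (vnk_j A L) :
      Polynomial (k0Val A) →ₐ[k0Val A] f0Field A L) :
        Polynomial (k0Val A) →+* f0Field A L).IsIntegralElem (x : f0Field A L)) :
    IsIntegral (Algebra.adjoin (IsLocalRing.ResidueField A)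
      ({jk (IsLocalRing.ResidueField A) M'} : Set (Fk (IsLocalRing.ResidueField A) M')))
      (S.redInf x) := by
  obtain ⟨p, hpm, hp0⟩ := hx
  let ψ₀ : Polynomial (k0Val A) →+* S.B := Polynomial.eval₂RingHom S.constB ⟨vnk_j A L, hjB⟩
  have h1 : (S.B.subtype).comp ψ₀ =
      ((Polynomial.aeval (vnk_j A L) :
        Polynomial (k0Val A) →ₐ[k0Val A] f0Field A L) :
          Polynomial (k0Val A) →+* f0Field A L) := by
    refine Polynomial.ringHom_ext (fun a => ?_) ?_
    · simp only [RingHom.comp_apply, ψ₀, Polynomial.coe_eval₂RingHom, Polynomial.eval₂_C,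
        AlgHom.coe_toRingHom, Polynomial.aeval_C]
      rfl
    · simp only [RingHom.comp_apply, ψ₀, Polynomial.coe_eval₂RingHom, Polynomial.eval₂_X,
        AlgHom.coe_toRingHom, Polynomial.aeval_X]
      rfl
  have h2 : S.redInf.comp ψ₀ =
      ((Polynomial.aeval (R := IsLocalRing.ResidueField A)
        (jk (IsLocalRing.ResidueField A) M')).toRingHom).comp
        (Polynomial.mapRingHom (k0Res A)) := by
    refine Polynomial.ringHom_ext (fun a => ?_) ?_
    · simp only [RingHom.comp_apply, ψ₀, Polynomial.coe_eval₂RingHom, Polynomial.eval₂_C,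
        Polynomial.coe_mapRingHom, Polynomial.map_C, AlgHom.toRingHom_eq_coe,
        AlgHom.coe_toRingHom, Polynomial.aeval_C]
      exact S.redInf_constB a
    · simp only [RingHom.comp_apply, ψ₀, Polynomial.coe_eval₂RingHom, Polynomial.eval₂_X,
        Polynomial.coe_mapRingHom, Polynomial.map_X, AlgHom.toRingHom_eq_coe,
        AlgHom.coe_toRingHom, Polynomial.aeval_X]
      exact hjr
  have h3 : Polynomial.eval₂ ψ₀ x p = 0 := by
    apply Subtype.ext
    have h := Polynomial.hom_eval₂ p ψ₀ S.B.subtype x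
    rw [h1] at h
    show S.B.subtype (Polynomial.eval₂ ψ₀ x p) = _
    rw [h]
    exact hp0
  have h4 : Polynomial.eval₂ (S.redInf.comp ψ₀) (S.redInf x) p = 0 := by
    rw [← Polynomial.hom_eval₂, h3, map_zero]
  rw [Fermat.Agent.S28lib.isIntegral_adjoin_singleton_iff]
  refine ⟨p.map (Polynomial.mapRingHom (k0Res A)), hpm.map _, ?_⟩
  rw [Polynomial.eval₂_map, ← h2]
  exact h4

include hR in
/-- **`red_∞ (B_j(N)) ⊆ C`** under (SUM) -/
theorem rgn_memInf (hSUM : RgnSum A M' q hq hqM R)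
    (x : (nodeSetupNj A M' q hq hqM hA R hR).B) :
    (nodeSetupNj A M' q hq hqM hA R hR).redInf x ∈
      fsS (IsLocalRing.ResidueField A) (jk (IsLocalRing.ResidueField A) M') := by
  obtain ⟨hj, hjr⟩ := rgn_red_jF A M' q R hR
  have hjB : vnk_j A (M' * q) ∈ (nodeSetupNj A M' q hq hqM hA R hR).B := by
    refine (rgn_mem_B A M' q hq hqM hA R hR _).mpr ⟨jF_mem_cuspRegular _, hj, ?_⟩
    rw [vnk_coe_j, rgn_alW1_jF]
    exact (vsi_red_jdF M' hR q _).1
  exact rgn_isIntegral_red (nodeSetupNj A M' q hq hqM hA R hR) hjB hjr x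
    (rgn_isIntegralElem hA hR hSUM x.1 x.2)

include hR in
/-- **`red_0 (B_j(N)) ⊆ C`** under (SUM) -/
theorem rgn_memZero (hSUM : RgnSum A M' q hq hqM R)
    (x : (nodeSetupNj A M' q hq hqM hA R hR).B) :
    (nodeSetupNj A M' q hq hqM hA R hR).redZero x ∈
      fsS (IsLocalRing.ResidueField A) (jk (IsLocalRing.ResidueField A) M') :=
  rgn_memInf hA hR hSUM ⟨_, rgn_alW1_mem_B A M' q hq hqM hA R hR x.2⟩

end Into

section Final

variable (A : ValuationSubring Kbar) (M' q : ℕ) [NeZero M'] [NeZero q] (hq : q.Prime)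
  (hqM : ¬ q ∣ M') (hA : A.LiesOverPrime q)
variable (R : ConstRed A (IsLocalRing.residue A)
  (↥(modularFunctionFieldFullC (IsLocalRing.ResidueField A) M')) (FF (M' * q)))
  (hR : IsSeriesRed R)

/-- `hoInf` of `r1c_hreg1_core` -/
theorem rgn_hoInf (haux : IsAuxLevel q M') :
    ∀ c ∈ fsS (IsLocalRing.ResidueField A) (jk (IsLocalRing.ResidueField A) M'),
      ∃ z : (nodeSetupNj A M' q hq hqM hA R hR).B,
        (nodeSetupNj A M' q hq hqM hA R hR).redInf z = c :=
  fun c hc => rgn_surjInf A M' q hq hqM hA R hR haux c hc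

/-- `hoZero` of `r1c_hreg1_core` -/
theorem rgn_hoZero (haux : IsAuxLevel q M') :
    ∀ c ∈ fsS (IsLocalRing.ResidueField A) (jk (IsLocalRing.ResidueField A) M'),
      ∃ z : (nodeSetupNj A M' q hq hqM hA R hR).B,
        (nodeSetupNj A M' q hq hqM hA R hR).redZero z = c :=
  fun c hc => rgn_surjZero A M' q hq hqM hA R hR haux c hc

/-- `hiInf` of `r1c_hreg1_core`, under (SUM) -/
theorem rgn_hiInf (hSUM : RgnSum A M' q hq hqM R) :
    ∀ z : (nodeSetupNj A M' q hq hqM hA R hR).B,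
      (nodeSetupNj A M' q hq hqM hA R hR).redInf z ∈
        fsS (IsLocalRing.ResidueField A) (jk (IsLocalRing.ResidueField A) M') :=
  rgn_memInf hA hR hSUM

/-- `hiZero` of `r1c_hreg1_core`, under (SUM) -/
theorem rgn_hiZero (hSUM : RgnSum A M' q hq hqM R) :
    ∀ z : (nodeSetupNj A M' q hq hqM hA R hR).B,
      (nodeSetupNj A M' q hq hqM hA R hR).redZero z ∈
        fsS (IsLocalRing.ResidueField A) (jk (IsLocalRing.ResidueField A) M') :=
  rgn_memZero hA hR hSUM

/-- the ring `C = fsS k j̄` as a `k`-subalgebra of `κ'` -/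
def rgnC : Subalgebra (IsLocalRing.ResidueField A) (Fk (IsLocalRing.ResidueField A) M') :=
  (fsS (IsLocalRing.ResidueField A) (jk (IsLocalRing.ResidueField A) M')).restrictScalars
    (IsLocalRing.ResidueField A)

theorem mem_rgnC_iff (c : Fk (IsLocalRing.ResidueField A) M') :
    c ∈ rgnC A M' ↔
      c ∈ fsS (IsLocalRing.ResidueField A) (jk (IsLocalRing.ResidueField A) M') := Iff.rfl

/-- `C` is integrally closed in `κ'` -/
theorem rgnC_closed (c : Fk (IsLocalRing.ResidueField A) M') (hc : IsIntegral (rgnC A M') c) :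
    c ∈ rgnC A M' := by
  have h1 : IsIntegral
      (fsS (IsLocalRing.ResidueField A) (jk (IsLocalRing.ResidueField A) M')) c := hc
  exact isIntegral_trans (R := fsA (IsLocalRing.ResidueField A)
    (jk (IsLocalRing.ResidueField A) M')) c h1

/-- `C` is a Dedekind domain -/
theorem rgnC_isDedekindDomain : IsDedekindDomain (rgnC A M') := by
  haveI : IsAlgClosed (IsLocalRing.ResidueField A) := isAlgClosed_residueField A
  haveI := gmw_ffSep (IsLocalRing.ResidueField A) M'
  exact (inferInstance : IsDedekindDomain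
    (fsS (IsLocalRing.ResidueField A) (jk (IsLocalRing.ResidueField A) M')))

/-- **the range of `red_∞` is `C`** -/
theorem rgn_range_inf (haux : IsAuxLevel q M') (hSUM : RgnSum A M' q hq hqM R) :
    (nodeSetupNj A M' q hq hqM hA R hR).redInf.range = (rgnC A M').toSubring :=
  d1q_range_eq _ (rgnC A M') (rgn_hiInf A M' q hq hqM hA R hR hSUM)
    (rgn_hoInf A M' q hq hqM hA R hR haux)

/-- **the range of `red_0` is `C`** -/
theorem rgn_range_zero (haux : IsAuxLevel q M') (hSUM : RgnSum A M' q hq hqM R) :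
    (nodeSetupNj A M' q hq hqM hA R hR).redZero.range = (rgnC A M').toSubring :=
  d1q_range_eq _ (rgnC A M') (rgn_hiZero A M' q hq hqM hA R hR hSUM)
    (rgn_hoZero A M' q hq hqM hA R hR haux)

/-- **`red_∞ (B_j(N))` is a Dedekind domain** (instance hypothesis of `r2c_hufd_inf`) -/
theorem rgn_isDedekindDomain_inf (haux : IsAuxLevel q M') (hSUM : RgnSum A M' q hq hqM R) :
    IsDedekindDomain (nodeSetupNj A M' q hq hqM hA R hR).redInf.range := by
  haveI := rgnC_isDedekindDomain A M'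
  exact d1q_isDedekindDomain_of_eq _ (rgnC A M')
    (rgn_range_inf A M' q hq hqM hA R hR haux hSUM)

/-- **`red_0 (B_j(N))` is a Dedekind domain** -/
theorem rgn_isDedekindDomain_zero (haux : IsAuxLevel q M') (hSUM : RgnSum A M' q hq hqM R) :
    IsDedekindDomain (nodeSetupNj A M' q hq hqM hA R hR).redZero.range := by
  haveI := rgnC_isDedekindDomain A M'
  exact d1q_isDedekindDomain_of_eq _ (rgnC A M')
    (rgn_range_zero A M' q hq hqM hA R hR haux hSUM)

/-- **`hcl` of `r2c_hufd_inf`**: `red_∞ (B_j(N))` is integrally closed in `κ'` -/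
theorem rgn_hcl_inf (haux : IsAuxLevel q M') (hSUM : RgnSum A M' q hq hqM R)
    (c : Fk (IsLocalRing.ResidueField A) M')
    (hc : IsIntegral (nodeSetupNj A M' q hq hqM hA R hR).redInf.range c) :
    c ∈ (nodeSetupNj A M' q hq hqM hA R hR).redInf.range := by
  have h := rgn_range_inf A M' q hq hqM hA R hR haux hSUM
  rw [h] at hc ⊢
  exact rgnC_closed A M' c hc

/-- `red_0 (B_j(N))` is integrally closed in `κ'` -/
theorem rgn_hcl_zero (haux : IsAuxLevel q M') (hSUM : RgnSum A M' q hq hqM R)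
    (c : Fk (IsLocalRing.ResidueField A) M')
    (hc : IsIntegral (nodeSetupNj A M' q hq hqM hA R hR).redZero.range c) :
    c ∈ (nodeSetupNj A M' q hq hqM hA R hR).redZero.range := by
  have h := rgn_range_zero A M' q hq hqM hA R hR haux hSUM
  rw [h] at hc ⊢
  exact rgnC_closed A M' c hc

end Final

end Fermat.Agent.S36lib

end
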