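/-
Item 83 (S36), INC-j provider (helper14, for helper9's `IncJ.lean` and helper4's RANGE-N):
the concrete range algebra

  `rgrR k M' = (integralClosure k[j̄] F_{M',k})` as a `k`-subalgebra of `Fk k M'`,

with
* `mem_rgrR`   : `x ∈ rgrR k M' ↔ IsIntegral (Algebra.adjoin k {jk k M'}) x` (the hypothesis of
  `rgn_lift`);
* `rgr_hRic`   : `∀ x, IsIntegral (rgrR k M') x → x ∈ rgrR k M'` (`hRic` of `s36_crux_head`);
* `rgr_hFrR`   : `∀ x, torFr k q M' x ∈ rgrR k M' ↔ x ∈ rgrR k M'` (`hFrR` of `incc_nodeSetup_*`);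
* `rgr_jk_mem`, `rgr_torFr_jk`, `rgr_pow_mem` (`x ∈ R → x ^ n ∈ R`).
-/
import Mathlib
import Fermat.Agent.GM.Defs
import Fermat.Agent.S36lib.TorInst

set_option autoImplicit false
set_option linter.unusedSectionVars false

noncomputable section

namespace Fermat.Agent.S36lib

open AlgebraicCurve ModularCurve Fermat.Agent.S37lib Fermat.Agent.GM

/-- the integral closure is integrally closed (element form) -/
theorem rgr_closed_aux {R B : Type*} [CommRing R] [CommRing B] [Algebra R B] (x : B)
    (hx : IsIntegral (integralClosure R B) x) : x ∈ integralClosure R B := by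
  have h : x ∈ integralClosure (integralClosure R B) B := hx
  rw [integralClosure_idem] at h
  obtain ⟨y, rfl⟩ := Algebra.mem_bot.mp h
  exact y.2

/-- integrality is transported by a ring automorphism which preserves the base subalgebra -/
theorem rgr_map_aux {k B : Type*} [Field k] [CommRing B] [Algebra k B] (S : Subalgebra k B)
    (e : B ≃+* B) (he : ∀ s ∈ S, e s ∈ S) (x : B) (hx : IsIntegral S x) : IsIntegral S (e x) := by
  obtain ⟨p, hp, hpx⟩ := hx
  let f : S →+* S :=
    { toFun := fun s => ⟨e s, he s s.2⟩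
      map_one' := Subtype.ext (map_one e)
      map_mul' := fun a b => Subtype.ext (map_mul e _ _)
      map_zero' := Subtype.ext (map_zero e)
      map_add' := fun a b => Subtype.ext (map_add e _ _) }
  refine ⟨p.map f, hp.map f, ?_⟩
  have hcomp : (algebraMap S B).comp f = (e : B →+* B).comp (algebraMap S B) :=
    RingHom.ext fun s => rfl
  rw [Polynomial.eval₂_map, hcomp]
  have := Polynomial.hom_eval₂ p (algebraMap S B) (e : B →+* B) x
  rw [hpx, map_zero] at this
  exact this.symm

section Def

variable (k : Type) [Field k] (M' : ℕ) [NeZero M']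

/-- the range algebra: the integral closure of `k[j̄]` in `F_{M',k}`, as a `k`-subalgebra -/
def rgrR : Subalgebra k (Fk k M') :=
  (integralClosure (Algebra.adjoin k ({jk k M'} : Set (Fk k M'))) (Fk k M')).restrictScalars k

theorem mem_rgrR {x : Fk k M'} :
    x ∈ rgrR k M' ↔ IsIntegral (Algebra.adjoin k ({jk k M'} : Set (Fk k M'))) x :=
  Iff.rfl

theorem rgr_adjoin_le : Algebra.adjoin k ({jk k M'} : Set (Fk k M')) ≤ rgrR k M' := by
  intro x hx
  rw [mem_rgrR]
  exact (isIntegral_algebraMap (R := Algebra.adjoin k ({jk k M'} : Set (Fk k M')))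
    (A := Fk k M') (x := ⟨x, hx⟩))

theorem rgr_jk_mem : jk k M' ∈ rgrR k M' :=
  rgr_adjoin_le k M' (Algebra.subset_adjoin (Set.mem_singleton _))

/-- **`hRic`**: `rgrR` is integrally closed in `F_{M',k}` -/
theorem rgr_hRic : ∀ x : Fk k M', IsIntegral (rgrR k M') x → x ∈ rgrR k M' := by
  intro x hx
  exact rgr_closed_aux x hx

end Def

section Frob

variable (k : Type) [Field k] (q : ℕ) [Fact q.Prime] [CharP k q] [PerfectRing k q] [NeZero q]
  (M' : ℕ) [NeZero M']

/-- the coefficientwise Frobenius fixes `j̄` -/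
theorem rgr_torFr_jk : torFr k q M' (jk k M') = jk k M' :=
  Subtype.ext (coeffMap_jqModC (frobeniusEquiv k q : k →+* k))

theorem rgr_torFr_symm_jk : (torFr k q M').symm (jk k M') = jk k M' := by
  apply (torFr k q M').injective
  rw [RingEquiv.apply_symm_apply, rgr_torFr_jk]

/-- the coefficientwise Frobenius preserves `k[j̄]` -/
theorem rgr_torFr_adjoin (s : Fk k M')
    (hs : s ∈ Algebra.adjoin k ({jk k M'} : Set (Fk k M'))) :
    torFr k q M' s ∈ Algebra.adjoin k ({jk k M'} : Set (Fk k M')) := by
  induction hs using Algebra.adjoin_induction with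
  | mem x hx =>
    rw [Set.mem_singleton_iff.mp hx, rgr_torFr_jk]
    exact Algebra.subset_adjoin (Set.mem_singleton _)
  | algebraMap c =>
    rw [torFr_algebraMap]
    exact Subalgebra.algebraMap_mem _ _
  | add x y _ _ hx hy => rw [map_add]; exact add_mem hx hy
  | mul x y _ _ hx hy => rw [map_mul]; exact mul_mem hx hy

/-- the inverse of the coefficientwise Frobenius preserves `k[j̄]` -/
theorem rgr_torFr_symm_adjoin (s : Fk k M')
    (hs : s ∈ Algebra.adjoin k ({jk k M'} : Set (Fk k M'))) :
    (torFr k q M').symm s ∈ Algebra.adjoin k ({jk k M'} : Set (Fk k M')) := by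
  induction hs using Algebra.adjoin_induction with
  | mem x hx =>
    rw [Set.mem_singleton_iff.mp hx, rgr_torFr_symm_jk]
    exact Algebra.subset_adjoin (Set.mem_singleton _)
  | algebraMap c =>
    obtain ⟨c', hc'⟩ := torFr_hFrk k q M' c
    rw [← hc', RingEquiv.symm_apply_apply]
    exact Subalgebra.algebraMap_mem _ _
  | add x y _ _ hx hy => rw [map_add]; exact add_mem hx hy
  | mul x y _ _ hx hy => rw [map_mul]; exact mul_mem hx hy

/-- **`hFrR`** for the range algebra -/
theorem rgr_hFrR : ∀ x : Fk k M', torFr k q M' x ∈ rgrR k M' ↔ x ∈ rgrR k M' := by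
  intro x
  constructor
  · intro h
    have := rgr_map_aux (Algebra.adjoin k ({jk k M'} : Set (Fk k M'))) (torFr k q M').symm
      (rgr_torFr_symm_adjoin k q M') _ ((mem_rgrR k M').mp h)
    rw [RingEquiv.symm_apply_apply] at this
    exact (mem_rgrR k M').mpr this
  · intro h
    exact (mem_rgrR k M').mpr (rgr_map_aux (Algebra.adjoin k ({jk k M'} : Set (Fk k M')))
      (torFr k q M') (rgr_torFr_adjoin k q M') _ ((mem_rgrR k M').mp h))

end Frob

end Fermat.Agent.S36lib

end
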