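/-
Item 83 (S36), RANGE at the level `M = M' q²` for the rings `B_j` (helper21).

`rmj_range`: the three reductions of `SM = nodeSetupMj` (level `M' q²`, ring `B_j`) take their
values in `R`, for every `k`-subalgebra `R` of `κ'` which is integrally closed in `κ'`, stable
under `φ = r2iPhi` (`x(X) ↦ x(X^q)`) and contains the two reductions of `SN = nodeSetupNj`
(RANGE-N).  These are the hypotheses `hMInf`, `hMMid`, `hMZero` of `incc_nodeSetup_htri`,
`incc_nodeSetup_hnode`, `r6e_concrete`.  Proof: `s36_redMem_nodeSetup` (helper3) for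
`α = r2iAlpha` with the table `r2i_tαInf/tαMid/tαZero` (helper9) and `hintα = aij_hintα`.

* `rmj_hφ`: the range algebra `C = rgrR k M' = rgnC A M'` (integral closure of `k[j̄]`) is stable
  under `r2iPhi`;
* `rmj_range_rgnC`: RANGE at the level `M' q²` for `C = rgnC A M'`, from RANGE-N (`hNInf`,
  `hNZero` = `rgn_hiInf`, `rgn_hiZero` of helper4);
* `rmj_range_of_sum`: the same from (SUM) at the level `N` (`RgnSum`).

All proofs complete.
-/
import Mathlib
import Fermat.Agent.S36lib.AlphaIntJ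
import Fermat.Agent.S36lib.RedMem
import Fermat.Agent.S36lib.RangeN
import Fermat.Agent.S36lib.RangeR

set_option autoImplicit false
set_option linter.style.haveILetI false
set_option linter.unusedSectionVars false
set_option linter.unusedVariables false
set_option synthInstance.maxHeartbeats 400000
set_option maxHeartbeats 1000000

noncomputable section

namespace Fermat.Agent.S36lib

open AlgebraicCurve ModularCurve IntermediateField HahnSeries Polynomial IsDedekindDomain
open Fermat.Agent.S24lib Fermat.Agent.GoodRed Fermat.Agent.GM Fermat.Agent.S34lib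
  Fermat.Agent.RRlib Fermat.Agent.HeckeBar Fermat.Agent.S35lib Fermat.Agent.S37lib

section Main

variable (A : ValuationSubring Kbar) (M' q : ℕ) [NeZero M'] [NeZero q] (hq : q.Prime)
  (hqM : ¬ q ∣ M') (hA : A.LiesOverPrime q)
  (RN : ConstRed A (IsLocalRing.residue A)
    (↥(modularFunctionFieldFullC (IsLocalRing.ResidueField A) M')) (FF (M' * q)))
  (hRN : IsSeriesRed RN)
  (R : ConstRed A (IsLocalRing.residue A)
    (↥(modularFunctionFieldFullC (IsLocalRing.ResidueField A) M')) (FF (M' * q * q)))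
  (hR : IsSeriesRed R)
  {ζ : Kbarˣ} {E : FF (M' * q * q) →+* LaurentSeries Kbar} (hζq : ζ ^ q = 1)
  (hE : IsMidExp M' q ζ E)
  (hiMid : ∀ (x : FF (M' * q * q))
    (hx : x ∈ (vmidSV A hq ((A.mem_nonunits_iff).mp hA) hζq hE).O),
    x ∈ f0Field A (M' * q * q) →
      (vmidSV A hq ((A.mem_nonunits_iff).mp hA) hζq hE).red ⟨x, hx⟩ ∈
        modularFunctionFieldFullC (IsLocalRing.ResidueField A) M')
  (hoMid : ∀ y ∈ modularFunctionFieldFullC (IsLocalRing.ResidueField A) M',
    ∃ (x : FF (M' * q * q)) (hx : x ∈ (vmidSV A hq ((A.mem_nonunits_iff).mp hA) hζq hE).O),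
      x ∈ f0Field A (M' * q * q) ∧
        (vmidSV A hq ((A.mem_nonunits_iff).mp hA) hζq hE).red ⟨x, hx⟩ = y)

/-- **RANGE at the level `M' q²`, rings `B_j`** (`hMInf`, `hMMid`, `hMZero`), for an
integrally closed, `φ`-stable `k`-subalgebra `C` of `κ'` containing the reductions of level
`N`. -/
theorem rmj_range (haux : IsAuxLevel q M') (hζ : IsPrimitiveRoot (ζ : Kbar) q)
    (C : Subalgebra (IsLocalRing.ResidueField A)
      (↥(modularFunctionFieldFullC (IsLocalRing.ResidueField A) M')))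
    (hCic : ∀ x : ↥(modularFunctionFieldFullC (IsLocalRing.ResidueField A) M'),
      IsIntegral C x → x ∈ C)
    (hφC : ∀ x ∈ C, r2iPhi A M' q hq hA x ∈ C)
    (hNInf : ∀ z : (nodeSetupNj A M' q hq hqM hA RN hRN).B,
      (nodeSetupNj A M' q hq hqM hA RN hRN).redInf z ∈ C)
    (hNZero : ∀ z : (nodeSetupNj A M' q hq hqM hA RN hRN).B,
      (nodeSetupNj A M' q hq hqM hA RN hRN).redZero z ∈ C) :
    (∀ z : (nodeSetupMj A M' q hq hqM hA R hR
        (vmidSV A hq ((A.mem_nonunits_iff).mp hA) hζq hE) hiMid hoMid).B,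
      (nodeSetupMj A M' q hq hqM hA R hR
        (vmidSV A hq ((A.mem_nonunits_iff).mp hA) hζq hE) hiMid hoMid).redInf z ∈ C) ∧
    (∀ z : (nodeSetupMj A M' q hq hqM hA R hR
        (vmidSV A hq ((A.mem_nonunits_iff).mp hA) hζq hE) hiMid hoMid).B,
      (nodeSetupMj A M' q hq hqM hA R hR
        (vmidSV A hq ((A.mem_nonunits_iff).mp hA) hζq hE) hiMid hoMid).redMid z ∈ C) ∧
    (∀ z : (nodeSetupMj A M' q hq hqM hA R hR
        (vmidSV A hq ((A.mem_nonunits_iff).mp hA) hζq hE) hiMid hoMid).B,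
      (nodeSetupMj A M' q hq hqM hA R hR
        (vmidSV A hq ((A.mem_nonunits_iff).mp hA) hζq hE) hiMid hoMid).redZero z ∈ C) :=
  s36_redMem_nodeSetup (r2iAlpha A M' q hq hqM hA RN hRN R hR hζq hE hiMid hoMid)
    (aij_hintα A M' q hq hqM hA RN hRN R hR hζq hE hiMid hoMid haux hζ)
    C hCic (r2iPhi A M' q hq hA) hφC hNInf hNZero
    (r2i_tαInf A M' q hq hqM hA RN hRN R hR hζq hE hiMid hoMid)
    (r2i_tαMid A M' q hq hqM hA RN hRN R hR hζq hE hiMid hoMid)
    (r2i_tαZero A M' q hq hqM hA RN hRN R hR hζq hE hiMid hoMid)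

/-- the two names of the range algebra agree -/
theorem rmj_rgnC_eq : rgnC A M' = rgrR (IsLocalRing.ResidueField A) M' := rfl

include hA in
/-- **the range algebra is stable under `φ = r2iPhi`** (`x(X) ↦ x(X^q)`) -/
theorem rmj_hφ (x : ↥(modularFunctionFieldFullC (IsLocalRing.ResidueField A) M'))
    (hx : x ∈ rgrR (IsLocalRing.ResidueField A) M') :
    r2iPhi A M' q hq hA x ∈ rgrR (IsLocalRing.ResidueField A) M' := by
  haveI : Fact q.Prime := ⟨hq⟩
  haveI : IsAlgClosed (IsLocalRing.ResidueField A) := isAlgClosed_residueField A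
  haveI : CharP (IsLocalRing.ResidueField A) q := Fermat.Agent.GM.charP_residueField hA
  haveI : PerfectRing (IsLocalRing.ResidueField A) q := inferInstance
  have h1 : torFr (IsLocalRing.ResidueField A) q M' (r2iPhi A M' q hq hA x) = x ^ q := by
    apply Subtype.ext
    show coeffMap (frobenius (IsLocalRing.ResidueField A) q)
      (qExpand (IsLocalRing.ResidueField A) q
        (x : LaurentSeries (IsLocalRing.ResidueField A))) = _
    rw [coeffMap_frobenius_qExpand]
    rfl
  rw [← rgr_hFrR (IsLocalRing.ResidueField A) q M', h1]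
  exact pow_mem hx q

/-- **RANGE at the level `M' q²`, rings `B_j`, for `C = rgnC A M'`** (`= fsS k j̄`), from
RANGE-N. -/
theorem rmj_range_rgnC (haux : IsAuxLevel q M') (hζ : IsPrimitiveRoot (ζ : Kbar) q)
    (hNInf : ∀ z : (nodeSetupNj A M' q hq hqM hA RN hRN).B,
      (nodeSetupNj A M' q hq hqM hA RN hRN).redInf z ∈ rgnC A M')
    (hNZero : ∀ z : (nodeSetupNj A M' q hq hqM hA RN hRN).B,
      (nodeSetupNj A M' q hq hqM hA RN hRN).redZero z ∈ rgnC A M') :
    (∀ z : (nodeSetupMj A M' q hq hqM hA R hR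
        (vmidSV A hq ((A.mem_nonunits_iff).mp hA) hζq hE) hiMid hoMid).B,
      (nodeSetupMj A M' q hq hqM hA R hR
        (vmidSV A hq ((A.mem_nonunits_iff).mp hA) hζq hE) hiMid hoMid).redInf z ∈
          rgnC A M') ∧
    (∀ z : (nodeSetupMj A M' q hq hqM hA R hR
        (vmidSV A hq ((A.mem_nonunits_iff).mp hA) hζq hE) hiMid hoMid).B,
      (nodeSetupMj A M' q hq hqM hA R hR
        (vmidSV A hq ((A.mem_nonunits_iff).mp hA) hζq hE) hiMid hoMid).redMid z ∈
          rgnC A M') ∧
    (∀ z : (nodeSetupMj A M' q hq hqM hA R hR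
        (vmidSV A hq ((A.mem_nonunits_iff).mp hA) hζq hE) hiMid hoMid).B,
      (nodeSetupMj A M' q hq hqM hA R hR
        (vmidSV A hq ((A.mem_nonunits_iff).mp hA) hζq hE) hiMid hoMid).redZero z ∈
          rgnC A M') :=
  rmj_range A M' q hq hqM hA RN hRN R hR hζq hE hiMid hoMid haux hζ (rgnC A M')
    (fun x hx => rgnC_closed A M' x hx)
    (fun x hx => rmj_hφ A M' q hq hA x hx) hNInf hNZero

include hRN in
/-- **RANGE at the level `M' q²`, rings `B_j`**, from (SUM) at the level `N`. -/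
theorem rmj_range_of_sum (haux : IsAuxLevel q M') (hζ : IsPrimitiveRoot (ζ : Kbar) q)
    (hSUM : RgnSum A M' q hq hqM RN) :
    (∀ z : (nodeSetupMj A M' q hq hqM hA R hR
        (vmidSV A hq ((A.mem_nonunits_iff).mp hA) hζq hE) hiMid hoMid).B,
      (nodeSetupMj A M' q hq hqM hA R hR
        (vmidSV A hq ((A.mem_nonunits_iff).mp hA) hζq hE) hiMid hoMid).redInf z ∈
          rgnC A M') ∧
    (∀ z : (nodeSetupMj A M' q hq hqM hA R hR
        (vmidSV A hq ((A.mem_nonunits_iff).mp hA) hζq hE) hiMid hoMid).B,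
      (nodeSetupMj A M' q hq hqM hA R hR
        (vmidSV A hq ((A.mem_nonunits_iff).mp hA) hζq hE) hiMid hoMid).redMid z ∈
          rgnC A M') ∧
    (∀ z : (nodeSetupMj A M' q hq hqM hA R hR
        (vmidSV A hq ((A.mem_nonunits_iff).mp hA) hζq hE) hiMid hoMid).B,
      (nodeSetupMj A M' q hq hqM hA R hR
        (vmidSV A hq ((A.mem_nonunits_iff).mp hA) hζq hE) hiMid hoMid).redZero z ∈
          rgnC A M') :=
  rmj_range_rgnC A M' q hq hqM hA RN hRN R hR hζq hE hiMid hoMid haux hζ
    (rgn_hiInf A M' q hq hqM hA RN hRN hSUM) (rgn_hiZero A M' q hq hqM hA RN hRN hSUM)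

end Main

end Fermat.Agent.S36lib

end
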