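/-
Item 83 (S36), piece R-2a (REG1-COUNT, helper11): the NODE NUMBER at the level `M' q`.

For a `GlueData X` (S34lib) of the two constant reductions of `F_{M'q}` with `(F3)`, at a level
`M'` without elliptic points (a prime `r ≡ 11 mod 12` divides `M'`) and with genus equality
`g(F_{M',k}) = g(F_{M'})`:

  `12 * X.n = (q - 1) * ψ(M')`.

(`X.n_eq` of helper19 + the genus formula numerics `nn_genusFF_mul_prime_of_aux` of helper12.)
No sorry in this file.
-/
import Mathlib
import Fermat.Agent.S34lib.GlueInstNE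
import Fermat.Agent.S34lib.NodeNumFF
import Fermat.Agent.S36lib.Speed

set_option autoImplicit false

noncomputable section

namespace Fermat.Agent.S36lib

open AlgebraicCurve ModularCurve Fermat.Agent.GoodRed Fermat.Agent.S24lib Fermat.Agent.RRlib
  Fermat.Agent.S34lib Fermat.Agent.S20lib

section NodeCount

variable {k Fk : Type*} [Field k] [Field Fk] [Algebra k Fk]
variable {A : ValuationSubring Kbar} {π : A →+* k}

/-- **the node number** at the level `M' q`, `M'` without elliptic points: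
`12 n = (q - 1) ψ(M')`. -/
theorem reg1c_node_count (M' q r : ℕ) [NeZero M'] [NeZero (M' * q)] (hq : q.Prime)
    (hqM : ¬ q ∣ M') [RRHyp Kbar (FF (M' * q))] [RRHyp k Fk] [Infinite k]
    {R₁ R₂ : ConstRed A π Fk (FF (M' * q))} {P₁ P₂ : Place Kbar (FF (M' * q))}
    {Q : Place k Fk} (X : GlueData R₁ R₂ P₁ P₂ Q) {a₀ : ℕ} (H : F3dEX R₁ R₂ P₁ P₂ Q Q a₀)
    (hgeq : genusFF k Fk = genusFF Kbar (FF M'))
    (hr : r.Prime) (hr12 : r % 12 = 11) (hrM : r ∣ M') :
    12 * X.n = (q - 1) * dedekindPsi M' := by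
  have h1 := X.n_eq H
  have h2 := nn_genusFF_mul_prime_of_aux (q := q) (M := M') hq hqM hr hr12 hrM
  rw [hgeq] at h1
  have h1' : (X.n : ℚ) + 2 * (genusFF Kbar (FF M') : ℚ) = (genusFF Kbar (FF (M' * q)) : ℚ) + 1 := by
    exact_mod_cast h1
  have h3 : (12 : ℚ) * X.n = ((q : ℚ) - 1) * dedekindPsi M' := by
    linarith
  have hq1 : 1 ≤ q := hq.one_lt.le
  have h4 : ((12 * X.n : ℕ) : ℚ) = (((q - 1) * dedekindPsi M' : ℕ) : ℚ) := by
    push_cast [Nat.cast_sub hq1]
    exact h3
  exact_mod_cast h4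

end NodeCount

end Fermat.Agent.S36lib

end
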