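/-
Item 83 (S36), piece R-2a (REG1-COUNT, helper11), part 3: the SERIES of `h̄`.

`h = Δ(z)/Δ(qz)` has the `q`-expansion `(ueuU q)⁻¹` (`ueuU R q = Δ(X^q)/Δ(X)` over `R`, S16lib).
Over the residue field `k` of `A | q`:

* `reg1c_ueuU_mem`, `reg1c_ueuU_inv_mem`: `(ueuU k q)^{±1}` is of level `1`
  (`∈ modularFunctionFieldFullC k 1 = k(j̄)`), by `hred_semistable` at the level `q`;
* `reg1c_order_ueuU`, `reg1c_order_ueuU_inv`: the order at `∞` is `±(q - 1)`;
* `reg1c_hcount_modL`: for every `k`-algebra `C ≃ₐ[k] C_j` and `c ∈ C` with series `(ueuU k q)⁻¹`: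
  `dim_k C/(c) = (q - 1) · ψ(M')`;
* `reg1c_hcount`: with the node number of a `GlueData` (`reg1c_node_count`):
  `12 · n = dim_k C/(c)`.
No sorry in this file.
-/
import Mathlib
import Fermat.Agent.S36lib.Reg1Finrank
import Fermat.Agent.S36lib.Reg1Count
import Fermat.Agent.S16lib.UEUnitRed
import Fermat.Agent.S34lib.VRedIntoMain

set_option autoImplicit false
set_option linter.style.haveILetI false
set_option linter.unusedSectionVars false
set_option synthInstance.maxHeartbeats 400000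
set_option maxHeartbeats 1000000

noncomputable section

namespace Fermat.Agent.S36lib

open Fermat.Agent.FFlib Fermat.Agent.S24lib Fermat.Agent.GM Fermat.Agent.GoodRed
  Fermat.Agent.S16lib Fermat.Agent.S34lib Fermat.Agent.RRlib
open AlgebraicCurve IntermediateField Polynomial ModularCurve

section Order

variable (k : Type*) [Field k]

/-- a power series has nonnegative order as a Laurent series -/
theorem reg1c_order_ofPowerSeries_nonneg (φ : PowerSeries k) :
    0 ≤ (HahnSeries.ofPowerSeries ℤ k φ).order := by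
  by_contra hlt
  push Not at hlt
  have hne : HahnSeries.ofPowerSeries ℤ k φ ≠ 0 := by
    intro h
    rw [h, HahnSeries.order_zero] at hlt
    exact lt_irrefl _ hlt
  have h1 : (HahnSeries.ofPowerSeries ℤ k φ).coeff (HahnSeries.ofPowerSeries ℤ k φ).order ≠ 0 :=
    fun h => hne (HahnSeries.coeff_order_eq_zero.1 h)
  obtain ⟨m, hm⟩ : ∃ m : ℤ, m = (HahnSeries.ofPowerSeries ℤ k φ).order := ⟨_, rfl⟩
  rw [← hm] at h1 hlt
  apply h1
  rw [HahnSeries.ofPowerSeries_apply, HahnSeries.embDomain_of_notMem_range]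
  rintro ⟨n, hn⟩
  simp at hn
  omega

/-- the order of the inverse -/
theorem reg1c_order_inv (x : LaurentSeries k) (hx : x ≠ 0) : (x⁻¹).order = -x.order := by
  have h := HahnSeries.order_mul hx (inv_ne_zero hx)
  rw [mul_inv_cancel₀ hx, HahnSeries.order_one] at h
  omega

theorem reg1c_ueuDelta_ne_zero : ueuDelta k ≠ 0 := by
  intro h
  have h1 := ueuDelta_mul_inv k
  rw [h, zero_mul] at h1
  exact zero_ne_one h1

/-- `Δ̄` has a simple zero at `∞` -/
theorem reg1c_order_ueuDelta : (ueuDelta k).order = 1 := by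
  set u : LaurentSeries k :=
    HahnSeries.ofPowerSeries ℤ k (dedekindEtaUnit.map (Int.castRingHom k)) with hu
  set u' : LaurentSeries k :=
    HahnSeries.ofPowerSeries ℤ k (dedekindEtaUnitInv.map (Int.castRingHom k)) with hu'
  have huu : u * u' = 1 := by
    rw [hu, hu', ← map_mul, ← map_mul, dedekindEtaUnit_mul_inv, map_one, map_one]
  have hu0 : u ≠ 0 := fun h => zero_ne_one (by rw [← huu, h, zero_mul])
  have hu'0 : u' ≠ 0 := fun h => zero_ne_one (by rw [← huu, h, mul_zero])
  have h1 := HahnSeries.order_mul hu0 hu'0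
  rw [huu, HahnSeries.order_one] at h1
  have h2 : 0 ≤ u.order := reg1c_order_ofPowerSeries_nonneg k _
  have h3 : 0 ≤ u'.order := reg1c_order_ofPowerSeries_nonneg k _
  have h4 : u.order = 0 := by omega
  have hs : (HahnSeries.single (1 : ℤ) (1 : k) : LaurentSeries k) ≠ 0 :=
    HahnSeries.single_ne_zero one_ne_zero
  show (HahnSeries.single (1 : ℤ) (1 : k) * u).order = 1
  rw [HahnSeries.order_mul hs hu0, HahnSeries.order_single one_ne_zero, h4, add_zero]

variable (q : ℕ) [NeZero q]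

theorem reg1c_ueuU_ne_zero : ueuU k q ≠ 0 := by
  intro h
  have h1 := ueuU_mul_delta k q
  rw [h, zero_mul] at h1
  have h2 : ueuDelta k = 0 := qExpand_injective (R := k) q (by rw [← h1, map_zero])
  exact reg1c_ueuDelta_ne_zero k h2

/-- the order of `Δ̄(X^q)/Δ̄(X)` at `∞` is `q - 1` -/
theorem reg1c_order_ueuU : (ueuU k q).order = (q : ℤ) - 1 := by
  have h1 := ueuU_mul_delta k q
  have h2 := HahnSeries.order_mul (reg1c_ueuU_ne_zero k q) (reg1c_ueuDelta_ne_zero k)
  rw [h1, rg_order_qExpand, reg1c_order_ueuDelta] at h2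
  omega

/-- the order of `h̄ = Δ̄(X)/Δ̄(X^q)` at `∞` is `-(q - 1)` -/
theorem reg1c_order_ueuU_inv : ((ueuU k q)⁻¹).order = -(((q - 1 : ℕ) : ℤ)) := by
  rw [reg1c_order_inv k _ (reg1c_ueuU_ne_zero k q), reg1c_order_ueuU]
  have hq : 1 ≤ q := Nat.one_le_iff_ne_zero.mpr (NeZero.ne q)
  push_cast [Nat.cast_sub hq]
  ring

end Order

section Level

variable {q : ℕ} [NeZero q] (hq : q.Prime)
  (A : ValuationSubring (AlgebraicClosure ℚ)) (hA : A.LiesOverPrime q)

include hq hA

/-- **`ū` is of level `1`**: `Δ̄(X^q)/Δ̄(X) ∈ k(j̄)`. -/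
theorem reg1c_ueuU_mem :
    ueuU (IsLocalRing.ResidueField A) q ∈
      modularFunctionFieldFullC (IsLocalRing.ResidueField A) 1 := by
  have hq2 : ¬ q ^ 2 ∣ q := by
    intro h
    have h1 := Nat.le_of_dvd hq.pos h
    have h2 := hq.two_le
    nlinarith
  have h := hred_semistable q q hq (dvd_refl q) hq2 A hA (ueuU A q)
    (ueu_series_mem (M := q) q (dvd_refl q))
  rw [coeffMap_ueuU, Nat.div_self hq.pos] at h
  exact h

/-- **`h̄` is of level `1`**: `Δ̄(X)/Δ̄(X^q) ∈ k(j̄)`. -/
theorem reg1c_ueuU_inv_mem :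
    (ueuU (IsLocalRing.ResidueField A) q)⁻¹ ∈
      modularFunctionFieldFullC (IsLocalRing.ResidueField A) 1 :=
  inv_mem (reg1c_ueuU_mem hq A hA)

end Level

section Count

variable (M' : ℕ) [NeZero M'] {q : ℕ} [NeZero q] (hq : q.Prime) (hqM : ¬ q ∣ M')
  (A : ValuationSubring (AlgebraicClosure ℚ)) (hA : A.LiesOverPrime q)

include hq hqM hA

/-- **the count** (R-2a): for every `k`-algebra `C ≃ₐ[k] C_j = fsS k j̄` and `c ∈ C` with the
series `Δ̄(X)/Δ̄(X^q)`:  `dim_k C/(c) = (q - 1) ψ(M')`. -/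
theorem reg1c_hcount_modL {C : Type*} [CommRing C] [Algebra (IsLocalRing.ResidueField A) C]
    (φ : C ≃ₐ[IsLocalRing.ResidueField A]
      fsS (IsLocalRing.ResidueField A) (jk (IsLocalRing.ResidueField A) M')) (c : C)
    (hc : (((φ c : fsS (IsLocalRing.ResidueField A) (jk (IsLocalRing.ResidueField A) M')) :
      Fk (IsLocalRing.ResidueField A) M') : LaurentSeries (IsLocalRing.ResidueField A)) =
        (ueuU (IsLocalRing.ResidueField A) q)⁻¹) :
    Module.finrank (IsLocalRing.ResidueField A) (C ⧸ Ideal.span {c}) =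
      (q - 1) * dedekindPsi M' := by
  haveI : Fact q.Prime := ⟨hq⟩
  have hne : c ≠ 0 := by
    rintro rfl
    rw [map_zero] at hc
    exact inv_ne_zero (reg1c_ueuU_ne_zero (IsLocalRing.ResidueField A) q) hc.symm
  refine reg1c_finrank_hbar_modL M' hqM A hA φ c ?_ hne (q - 1) ?_
  · rw [hc]
    exact reg1c_ueuU_inv_mem hq A hA
  · rw [hc]
    exact reg1c_order_ueuU_inv (IsLocalRing.ResidueField A) q

/-- **the count with the node number** (R-2a, the form `hcount` of `reg1_generator` with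
`e = 12`): `12 · n = dim_k C/(c)` for the node number `n` of a `GlueData` at the level `M' q`,
`M'` without elliptic points. -/
theorem reg1c_hcount (r : ℕ) [NeZero (M' * q)]
    [RRHyp Kbar (FF (M' * q))]
    [RRHyp (IsLocalRing.ResidueField A) (Fk (IsLocalRing.ResidueField A) M')]
    [Infinite (IsLocalRing.ResidueField A)]
    {R₁ R₂ : ConstRed A (IsLocalRing.residue A) (Fk (IsLocalRing.ResidueField A) M')
      (FF (M' * q))}
    {P₁ P₂ : Place Kbar (FF (M' * q))}
    {Q : Place (IsLocalRing.ResidueField A) (Fk (IsLocalRing.ResidueField A) M')}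
    (X : GlueData R₁ R₂ P₁ P₂ Q) {a₀ : ℕ} (H : F3dEX R₁ R₂ P₁ P₂ Q Q a₀)
    (hgeq : genusFF (IsLocalRing.ResidueField A) (Fk (IsLocalRing.ResidueField A) M') =
      genusFF Kbar (FF M'))
    (hr : r.Prime) (hr12 : r % 12 = 11) (hrM : r ∣ M')
    {C : Type*} [CommRing C] [Algebra (IsLocalRing.ResidueField A) C]
    (φ : C ≃ₐ[IsLocalRing.ResidueField A]
      fsS (IsLocalRing.ResidueField A) (jk (IsLocalRing.ResidueField A) M')) (c : C)
    (hc : (((φ c : fsS (IsLocalRing.ResidueField A) (jk (IsLocalRing.ResidueField A) M')) :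
      Fk (IsLocalRing.ResidueField A) M') : LaurentSeries (IsLocalRing.ResidueField A)) =
        (ueuU (IsLocalRing.ResidueField A) q)⁻¹) :
    12 * X.n = Module.finrank (IsLocalRing.ResidueField A) (C ⧸ Ideal.span {c}) := by
  rw [reg1c_hcount_modL M' hq hqM A hA φ c hc]
  exact reg1c_node_count M' q r hq hqM X H hgeq hr hr12 hrM

end Count

end Fermat.Agent.S36lib

end
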