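/-
Item 83 (S36), piece R-2a (REG1-COUNT, helper11), part 4 (asked by helper24): the count at an
AUXILIARY level `M'` (`IsAuxLevel q M'`: `q ∤ M'` and `4 ∣ M'`, resp. `9 ∣ M'` for `q = 2`), without
the prime `r ≡ 11 mod 12`:

* `reg1c_genus_eq_aux`: `g(F_{M',k}) = g(F_{M'})` (from `liftInf_exists_red`);
* `reg1c_node_count_aux`: `12 n = (q - 1) ψ(M')` for a `GlueData` at the level `M' q` with (F3);
* `reg1c_hcount_aux`: `12 n = dim_k C/(c)` for `C ≃ₐ[k] C_j`, `c` with the series `Δ̄(X)/Δ̄(X^q)`.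
No sorry in this file.
-/
import Mathlib
import Fermat.Agent.S36lib.Reg1Hbar
import Fermat.Agent.S34lib.LiftInf
import Fermat.Agent.GM.Numerics

set_option autoImplicit false
set_option linter.style.haveILetI false
set_option linter.unusedSectionVars false
set_option synthInstance.maxHeartbeats 400000
set_option maxHeartbeats 1000000

noncomputable section

namespace Fermat.Agent.S36lib

open Fermat.Agent.FFlib Fermat.Agent.S24lib Fermat.Agent.GM Fermat.Agent.GoodRed
  Fermat.Agent.S16lib Fermat.Agent.S34lib Fermat.Agent.RRlib Fermat.Agent.S20lib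
open AlgebraicCurve IntermediateField Polynomial ModularCurve

variable (M' : ℕ) [NeZero M'] {q : ℕ} [NeZero q] (hq : q.Prime) (haux : IsAuxLevel q M')
  (A : ValuationSubring (AlgebraicClosure ℚ)) (hA : A.LiesOverPrime q)

include hq haux hA

/-- **genus equality at an auxiliary level** -/
theorem reg1c_genus_eq_aux :
    genusFF (IsLocalRing.ResidueField A) (Fk (IsLocalRing.ResidueField A) M') =
      genusFF Kbar (FF M') := by
  haveI : Fact q.Prime := ⟨hq⟩
  obtain ⟨R, r, _, _, _, hg⟩ := liftInf_exists_red M' A q haux hA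
  exact hg

/-- **the node number at an auxiliary level**: `12 n = (q - 1) ψ(M')`. -/
theorem reg1c_node_count_aux [NeZero (M' * q)]
    [RRHyp Kbar (FF (M' * q))]
    [RRHyp (IsLocalRing.ResidueField A) (Fk (IsLocalRing.ResidueField A) M')]
    [Infinite (IsLocalRing.ResidueField A)]
    {R₁ R₂ : ConstRed A (IsLocalRing.residue A) (Fk (IsLocalRing.ResidueField A) M')
      (FF (M' * q))}
    {P₁ P₂ : Place Kbar (FF (M' * q))}
    {Q : Place (IsLocalRing.ResidueField A) (Fk (IsLocalRing.ResidueField A) M')}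
    (X : GlueData R₁ R₂ P₁ P₂ Q) {a₀ : ℕ} (H : F3dEX R₁ R₂ P₁ P₂ Q Q a₀) :
    12 * X.n = (q - 1) * dedekindPsi M' := by
  have h49 : 4 ∣ M' ∨ 9 ∣ M' := by
    rcases haux.2 with ⟨_, h⟩ | ⟨_, h⟩
    · exact Or.inl h
    · exact Or.inr h
  have h1 := X.n_eq H
  have h2 := nn_genusFF_mul_prime (q := q) (M := M') hq haux.1
  rw [nuTwo_eq_zero_of_aux h49, nuThree_eq_zero_of_aux h49] at h2
  rw [reg1c_genus_eq_aux M' hq haux A hA] at h1
  have h1' : (X.n : ℚ) + 2 * (genusFF Kbar (FF M') : ℚ) =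
      (genusFF Kbar (FF (M' * q)) : ℚ) + 1 := by
    exact_mod_cast h1
  have h3 : (12 : ℚ) * X.n = ((q : ℚ) - 1) * dedekindPsi M' := by
    simp only [Nat.cast_zero, zero_mul, zero_div, add_zero] at h2
    linarith
  have hq1 : 1 ≤ q := hq.one_lt.le
  have h4 : ((12 * X.n : ℕ) : ℚ) = (((q - 1) * dedekindPsi M' : ℕ) : ℚ) := by
    push_cast [Nat.cast_sub hq1]
    exact h3
  exact_mod_cast h4

/-- **the count at an auxiliary level** (the hypothesis `hcount` of `reg1_generator`, `e = 12`):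
`12 · n = dim_k C/(c)` for every `k`-algebra `C ≃ₐ[k] C_j = fsS k j̄` and `c ∈ C` with the series
`Δ̄(X)/Δ̄(X^q)` (the reduction of `h = Δ(z)/Δ(qz)`). -/
theorem reg1c_hcount_aux [NeZero (M' * q)]
    [RRHyp Kbar (FF (M' * q))]
    [RRHyp (IsLocalRing.ResidueField A) (Fk (IsLocalRing.ResidueField A) M')]
    [Infinite (IsLocalRing.ResidueField A)]
    {R₁ R₂ : ConstRed A (IsLocalRing.residue A) (Fk (IsLocalRing.ResidueField A) M')
      (FF (M' * q))}
    {P₁ P₂ : Place Kbar (FF (M' * q))}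
    {Q : Place (IsLocalRing.ResidueField A) (Fk (IsLocalRing.ResidueField A) M')}
    (X : GlueData R₁ R₂ P₁ P₂ Q) {a₀ : ℕ} (H : F3dEX R₁ R₂ P₁ P₂ Q Q a₀)
    {C : Type*} [CommRing C] [Algebra (IsLocalRing.ResidueField A) C]
    (φ : C ≃ₐ[IsLocalRing.ResidueField A]
      fsS (IsLocalRing.ResidueField A) (jk (IsLocalRing.ResidueField A) M')) (c : C)
    (hc : (((φ c : fsS (IsLocalRing.ResidueField A) (jk (IsLocalRing.ResidueField A) M')) :
      Fk (IsLocalRing.ResidueField A) M') : LaurentSeries (IsLocalRing.ResidueField A)) =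
        (ueuU (IsLocalRing.ResidueField A) q)⁻¹) :
    12 * X.n = Module.finrank (IsLocalRing.ResidueField A) (C ⧸ Ideal.span {c}) := by
  rw [reg1c_hcount_modL M' hq haux.1 A hA φ c hc]
  exact reg1c_node_count_aux M' hq haux A hA X H

/-- the dimension alone, at an auxiliary level -/
theorem reg1c_finrank_aux
    {C : Type*} [CommRing C] [Algebra (IsLocalRing.ResidueField A) C]
    (φ : C ≃ₐ[IsLocalRing.ResidueField A]
      fsS (IsLocalRing.ResidueField A) (jk (IsLocalRing.ResidueField A) M')) (c : C)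
    (hc : (((φ c : fsS (IsLocalRing.ResidueField A) (jk (IsLocalRing.ResidueField A) M')) :
      Fk (IsLocalRing.ResidueField A) M') : LaurentSeries (IsLocalRing.ResidueField A)) =
        (ueuU (IsLocalRing.ResidueField A) q)⁻¹) :
    Module.finrank (IsLocalRing.ResidueField A) (C ⧸ Ideal.span {c}) =
      (q - 1) * dedekindPsi M' :=
  reg1c_hcount_modL M' hq haux.1 A hA φ c hc

end Fermat.Agent.S36lib

end
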