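import Mathlib
import Fermat.Agent.S36lib.Setup
import Fermat.Agent.S36lib.Reg1Gen

/-!
# Item 83 (S36), piece R-2c (helper21): REG1 for a `NodeSetup`

The abstract generator theorem `reg1_generator'` (`Reg1Gen.lean`) in the vocabulary of
`Setup.lean`, in the form consumed by R-3 (`Reg2.lean`, helper9):

* `reg1_node_mem`: a node `s` of `B` maps ONTO one of the given maximal ideals of the Dedekind
  ring `C` (the coordinate ring of the component), if the reduction `r₁ : B → C` is onto, has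
  kernel `p₁ ≤ s`, and the elements of the ideal of the nodes lift into `p₂ ≤ s`.
* `reg1_node_gen`: abstract form for a pair of primes `p₁ = ker r₁`, `p₂ = ker r₂` of `B`:
  at every maximal ideal `s ⊇ p₁ + p₂` there are `y ∈ p₂`, `ε ∉ s` with `y ^ e = ε * h` and
  `y ∣ ε * z` for all `z ∈ p₂`.
* `reg1_node_zero`, `reg1_node_inf`: the two instances for a `NodeSetup` (`p₂ = p_0`, resp.
  `p₂ = p_∞`), `reg1_node`: both, in the shape of the hypotheses `hreg1_0`, `hreg1_∞` of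
  `reg2_principal`.

Mathlib + `Setup.lean` + `Reg1Gen.lean` only.  No sorry.
-/

set_option autoImplicit false
set_option linter.style.haveILetI false

noncomputable section

namespace Fermat.Agent.S36lib

section Abstract

variable {k B C : Type*} [Field k] [CommRing B] [CommRing C] [Algebra k C]

/-- a maximal ideal `s ⊇ ker r₁` of `B` containing lifts of the whole ideal `∏ T` maps onto a
member of `T`. -/
theorem reg1_node_mem (r₁ : B →+* C) (hsurj : Function.Surjective r₁)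
    (T : Finset (Ideal C)) (hmax : ∀ t ∈ T, t.IsMaximal)
    (s : Ideal B) (hs : s.IsMaximal) (hker : RingHom.ker r₁ ≤ s)
    (hlift : ∀ a ∈ ∏ t ∈ T, t, ∃ z ∈ s, r₁ z = a) :
    s.map r₁ ∈ T ∧ (s.map r₁).comap r₁ = s := by
  have hcomap : (s.map r₁).comap r₁ = s := by
    rw [Ideal.comap_map_of_surjective r₁ hsurj, ← RingHom.ker_eq_comap_bot]
    exact sup_eq_left.2 hker
  have hne : s.map r₁ ≠ ⊤ := by
    intro htop
    have h1 : (1 : B) ∈ (s.map r₁).comap r₁ := by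
      rw [htop]; trivial
    rw [hcomap] at h1
    exact hs.ne_top ((Ideal.eq_top_iff_one s).2 h1)
  have hmaxt : (s.map r₁).IsMaximal :=
    (Ideal.map_eq_top_or_isMaximal_of_surjective r₁ hsurj hs).resolve_left hne
  have hle : ∏ t ∈ T, t ≤ s.map r₁ := by
    intro a ha
    obtain ⟨z, hz, rfl⟩ := hlift a ha
    exact Ideal.mem_map_of_mem r₁ hz
  obtain ⟨t, ht, htle⟩ := (Ideal.IsPrime.prod_le hmaxt.isPrime).1 hle
  have : t = s.map r₁ := (hmax t ht).eq_of_le hne htle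
  exact ⟨this ▸ ht, hcomap⟩

variable [IsDomain B] [IsIntegrallyClosed B] [IsDedekindDomain C]

/-- **REG1 at the nodes**, abstract form: `r₁ : B → C` onto the Dedekind ring `C`, `r₂` the
reduction along the other component, `T` the nodes on the first component.  At every maximal
ideal `s ⊇ ker r₁ + ker r₂` of `B` the prime `ker r₂` is generated by one element `y`, up to a
unit `ε` at `s`, and `y ^ e = ε * h`. -/
theorem reg1_node_gen (r₁ r₂ : B →+* C) (hsurj : Function.Surjective r₁)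
    (T : Finset (Ideal C)) (hmax : ∀ t ∈ T, t.IsMaximal) (hbot : ∀ t ∈ T, t ≠ ⊥)
    (hres : ∀ t ∈ T, Function.Surjective (algebraMap k (C ⧸ t)))
    (hsand : ∀ a ∈ ∏ t ∈ T, t, ∃ z : B, r₁ z = a ∧ r₂ z = 0)
    (e : ℕ) (he : 0 < e) (h : B)
    (hdiv : RingHom.ker r₂ ^ e ≤ Ideal.span {h})
    (hcount : e * T.card ≤ Module.finrank k (C ⧸ Ideal.span {r₁ h}))
    (s : Ideal B) (hs : s.IsMaximal) (hk₁ : RingHom.ker r₁ ≤ s) (hk₂ : RingHom.ker r₂ ≤ s) :
    ∃ y ε : B, r₂ y = 0 ∧ y ^ e = ε * h ∧ ε ∉ s ∧ (∀ z : B, r₂ z = 0 → y ∣ ε * z) ∧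
      r₁ y ∈ s.map r₁ ∧ r₁ y ∉ (s.map r₁) ^ 2 ∧ s.map r₁ ∈ T ∧
      Ideal.span {r₁ h} = (∏ t ∈ T, t) ^ e := by
  have hlift : ∀ a ∈ ∏ t ∈ T, t, ∃ z ∈ s, r₁ z = a := by
    intro a ha
    obtain ⟨z, hz1, hz2⟩ := hsand a ha
    exact ⟨z, hk₂ ((RingHom.mem_ker).2 hz2), hz1⟩
  obtain ⟨htT, hcomap⟩ := reg1_node_mem r₁ hsurj T hmax s hs hk₁ hlift
  obtain ⟨y, ε, hy2, hy1, hy1', hpow, hε, hspan, hdvd⟩ :=
    reg1_generator' (k := k) r₁ r₂ T hmax hbot hres hsand e he h hdiv hcount (s.map r₁) htT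
  refine ⟨y, ε, hy2, hpow, ?_, hdvd, hy1, hy1', htT, hspan⟩
  intro hεs
  exact hε (Ideal.mem_map_of_mem r₁ hεs)

end Abstract

section Node

variable {K : Type*} [Field K] {k : Type*} [Field k]
variable {A : ValuationSubring K} {π : A →+* k} {κ : Type*} [Field κ] [Algebra k κ]
  {F : Type*} [Field F] [Algebra K F]
variable (S : NodeSetup A π κ F) [IsIntegrallyClosed S.B]
variable {C : Type*} [CommRing C] [IsDedekindDomain C] [Algebra k C]

/-- **REG1, the side of `p_0`**: at every node `s` of `B` there are `y ∈ p_0` and `ε ∉ s` with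
`y ^ e = ε * h` (and `y ∣ ε * z` for every `z ∈ p_0`).  Here `r∞, r0 : B → C` are the two
reductions with values in the Dedekind ring `C` (kernels `p_∞`, `p_0`), `T` the nodes as
maximal ideals of `C` seen from the component `∞`. -/
theorem reg1_node_zero (rInf rZero : S.B →+* C)
    (hkInf : RingHom.ker rInf = S.pInf) (hkZero : RingHom.ker rZero = S.pZero)
    (hsurj : Function.Surjective rInf)
    (T : Finset (Ideal C)) (hmax : ∀ t ∈ T, t.IsMaximal) (hbot : ∀ t ∈ T, t ≠ ⊥)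
    (hres : ∀ t ∈ T, Function.Surjective (algebraMap k (C ⧸ t)))
    (hsand : ∀ a ∈ ∏ t ∈ T, t, ∃ z : S.B, rInf z = a ∧ rZero z = 0)
    (e : ℕ) (he : 0 < e) (h : S.B)
    (hdiv : S.pZero ^ e ≤ Ideal.span {h})
    (hcount : e * T.card ≤ Module.finrank k (C ⧸ Ideal.span {rInf h}))
    (s : Ideal S.B) (hs : S.IsNode s) :
    ∃ y ε : S.B, y ∈ S.pZero ∧ y ^ e = ε * h ∧ ε ∉ s ∧ (∀ z ∈ S.pZero, y ∣ ε * z) ∧
      rInf y ∈ s.map rInf ∧ rInf y ∉ (s.map rInf) ^ 2 ∧ s.map rInf ∈ T := by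
  have hk₁ : RingHom.ker rInf ≤ s := hkInf ▸ le_sup_left.trans hs.2
  have hk₂ : RingHom.ker rZero ≤ s := hkZero ▸ le_sup_right.trans hs.2
  obtain ⟨y, ε, hy, hpow, hε, hdvd, h1, h2, h3, -⟩ :=
    reg1_node_gen (k := k) rInf rZero hsurj T hmax hbot hres hsand e he h
      (hkZero ▸ hdiv) hcount s hs.1 hk₁ hk₂
  refine ⟨y, ε, ?_, hpow, hε, ?_, h1, h2, h3⟩
  · rw [← hkZero]; exact (RingHom.mem_ker).2 hy
  · intro z hz
    rw [← hkZero] at hz
    exact hdvd z ((RingHom.mem_ker).1 hz)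

/-- **REG1, the side of `p_∞`** (the roles of the two components exchanged). -/
theorem reg1_node_inf (rInf rZero : S.B →+* C)
    (hkInf : RingHom.ker rInf = S.pInf) (hkZero : RingHom.ker rZero = S.pZero)
    (hsurj : Function.Surjective rZero)
    (T : Finset (Ideal C)) (hmax : ∀ t ∈ T, t.IsMaximal) (hbot : ∀ t ∈ T, t ≠ ⊥)
    (hres : ∀ t ∈ T, Function.Surjective (algebraMap k (C ⧸ t)))
    (hsand : ∀ a ∈ ∏ t ∈ T, t, ∃ z : S.B, rZero z = a ∧ rInf z = 0)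
    (e : ℕ) (he : 0 < e) (h' : S.B)
    (hdiv : S.pInf ^ e ≤ Ideal.span {h'})
    (hcount : e * T.card ≤ Module.finrank k (C ⧸ Ideal.span {rZero h'}))
    (s : Ideal S.B) (hs : S.IsNode s) :
    ∃ x ε : S.B, x ∈ S.pInf ∧ x ^ e = ε * h' ∧ ε ∉ s ∧ (∀ z ∈ S.pInf, x ∣ ε * z) ∧
      rZero x ∈ s.map rZero ∧ rZero x ∉ (s.map rZero) ^ 2 ∧ s.map rZero ∈ T := by
  have hk₁ : RingHom.ker rInf ≤ s := hkInf ▸ le_sup_left.trans hs.2
  have hk₂ : RingHom.ker rZero ≤ s := hkZero ▸ le_sup_right.trans hs.2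
  obtain ⟨y, ε, hy, hpow, hε, hdvd, h1, h2, h3, -⟩ :=
    reg1_node_gen (k := k) rZero rInf hsurj T hmax hbot hres hsand e he h'
      (hkInf ▸ hdiv) hcount s hs.1 hk₂ hk₁
  refine ⟨y, ε, ?_, hpow, hε, ?_, h1, h2, h3⟩
  · rw [← hkInf]; exact (RingHom.mem_ker).2 hy
  · intro z hz
    rw [← hkInf] at hz
    exact hdvd z ((RingHom.mem_ker).1 hz)

/-- **REG1 for a `NodeSetup`**, both sides, in the shape of the hypotheses `hreg1_0`, `hreg1_∞`
of R-3. -/
theorem reg1_node (rInf rZero : S.B →+* C)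
    (hkInf : RingHom.ker rInf = S.pInf) (hkZero : RingHom.ker rZero = S.pZero)
    (hsurjInf : Function.Surjective rInf) (hsurjZero : Function.Surjective rZero)
    (TInf TZero : Finset (Ideal C))
    (hmaxInf : ∀ t ∈ TInf, t.IsMaximal) (hbotInf : ∀ t ∈ TInf, t ≠ ⊥)
    (hresInf : ∀ t ∈ TInf, Function.Surjective (algebraMap k (C ⧸ t)))
    (hmaxZero : ∀ t ∈ TZero, t.IsMaximal) (hbotZero : ∀ t ∈ TZero, t ≠ ⊥)
    (hresZero : ∀ t ∈ TZero, Function.Surjective (algebraMap k (C ⧸ t)))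
    (hsandInf : ∀ a ∈ ∏ t ∈ TInf, t, ∃ z : S.B, rInf z = a ∧ rZero z = 0)
    (hsandZero : ∀ a ∈ ∏ t ∈ TZero, t, ∃ z : S.B, rZero z = a ∧ rInf z = 0)
    (e : ℕ) (he : 0 < e) (h h' : S.B)
    (hdiv0 : S.pZero ^ e ≤ Ideal.span {h}) (hdivInf : S.pInf ^ e ≤ Ideal.span {h'})
    (hcount0 : e * TInf.card ≤ Module.finrank k (C ⧸ Ideal.span {rInf h}))
    (hcountInf : e * TZero.card ≤ Module.finrank k (C ⧸ Ideal.span {rZero h'})) :
    (∀ s, S.IsNode s → ∃ y ε : S.B, y ∈ S.pZero ∧ y ^ e = ε * h ∧ ε ∉ s) ∧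
    (∀ s, S.IsNode s → ∃ x ε : S.B, x ∈ S.pInf ∧ x ^ e = ε * h' ∧ ε ∉ s) := by
  constructor
  · intro s hs
    obtain ⟨y, ε, h1, h2, h3, -⟩ := reg1_node_zero (k := k) S rInf rZero hkInf hkZero hsurjInf
      TInf hmaxInf hbotInf hresInf hsandInf e he h hdiv0 hcount0 s hs
    exact ⟨y, ε, h1, h2, h3⟩
  · intro s hs
    obtain ⟨x, ε, h1, h2, h3, -⟩ := reg1_node_inf (k := k) S rInf rZero hkInf hkZero hsurjZero
      TZero hmaxZero hbotZero hresZero hsandZero e he h' hdivInf hcountInf s hs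
    exact ⟨x, ε, h1, h2, h3⟩

end Node

end Fermat.Agent.S36lib

end
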