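import Mathlib
import Fermat.Agent.S36lib.Setup
import Fermat.Agent.S36lib.Reg1Gen
import Fermat.Agent.S36lib.Reg1Node

/-!
# Item 83 (S36), piece R-2c / W-3f (helper21): REG1 with the nodes given on a SUBRING

The sandwich of S34 (V-J, `VSand.lean`) lifts only the functions of the affine ring
`A₀ = affRing(∞')` (regular off `∞'`), while the reductions of `B_j` fill the larger Dedekind ring
`C = C_j` (regular off ALL cusps).  Here REG1 is proved in this situation:

* `ι : A₀ → C`, the nodes as a family `m : Fin n → Ideal A₀` whose extensions `m i · C` are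
  `⊤` or maximal (BRIDGE), pairwise different unless `⊤`;
* the sandwich only for `a ∈ ⋂ m_i`;
* `hdiv : (ker r₂)^e ≤ (h)`, `hcount : e * n ≤ dim C/(r₁ h)`.

Then ALL the `m i · C` are maximal (the nodes are not cusps: this follows from the count), and at
every maximal ideal `s ⊇ ker r₁ + ker r₂` of `B` there are `y ∈ ker r₂`, `ε ∉ s` with
`y ^ e = ε h` (= `hreg1` of `Reg2.lean` / `Reg2Conc.lean`).

* `reg1x_card`, `reg1x_core`: abstract forms;
* `reg1x_node_zero`, `reg1x_node_inf`: for a `NodeSetup`.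

Mathlib + `Setup.lean` + `Reg1Gen.lean` + `Reg1Node.lean` only.  No sorry.
-/

set_option autoImplicit false
set_option linter.style.haveILetI false
set_option linter.unusedSectionVars false
set_option linter.deprecated false

noncomputable section

namespace Fermat.Agent.S36lib

section Abstract

variable {k B C A₀ : Type*} [Field k] [CommRing B] [IsDomain B] [IsIntegrallyClosed B]
  [CommRing C] [IsDedekindDomain C] [Algebra k C] [CommRing A₀]

open Classical in
/-- the finite set of the non-trivial extended ideals -/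
def reg1xT (ι : A₀ →+* C) {n : ℕ} (m : Fin n → Ideal A₀) : Finset (Ideal C) :=
  (Finset.univ.filter fun i => (m i).map ι ≠ ⊤).image fun i => (m i).map ι

theorem mem_reg1xT (ι : A₀ →+* C) {n : ℕ} (m : Fin n → Ideal A₀) (t : Ideal C) :
    t ∈ reg1xT ι m ↔ ∃ i, (m i).map ι ≠ ⊤ ∧ (m i).map ι = t := by
  classical
  simp [reg1xT]

theorem reg1xT_card_le (ι : A₀ →+* C) {n : ℕ} (m : Fin n → Ideal A₀) :
    (reg1xT ι m).card ≤ n := by
  classical
  refine Finset.card_image_le.trans ?_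
  refine (Finset.card_filter_le _ _).trans ?_
  simp

/-- the product of the non-trivial extended ideals is the extension of the product -/
theorem reg1xT_prod (ι : A₀ →+* C) {n : ℕ} (m : Fin n → Ideal A₀)
    (hdist : ∀ i j, (m i).map ι = (m j).map ι → (m i).map ι = ⊤ ∨ i = j) :
    ∏ t ∈ reg1xT ι m, t = (∏ i, m i).map ι := by
  classical
  rw [reg1xT, Finset.prod_image]
  · have h1 : ∏ i ∈ Finset.univ.filter (fun i => (m i).map ι ≠ ⊤), (m i).map ι =
        ∏ i, (m i).map ι := by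
      have := Finset.prod_filter_ne_one (s := (Finset.univ : Finset (Fin n)))
        (f := fun i => (m i).map ι)
      simp only [Ideal.one_eq_top] at this
      exact this
    rw [h1]
    exact (map_prod (Ideal.mapHom ι) m Finset.univ).symm
  · intro i hi j hj hij
    simp only [Finset.coe_filter, Finset.mem_univ, true_and, Set.mem_setOf_eq] at hi hj
    rcases hdist i j hij with h | h
    · exact absurd h hi
    · exact h

/-- **the count**: the number of non-trivial extended ideals is `n`. -/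
theorem reg1x_card (r₁ r₂ : B →+* C)
    (ι : A₀ →+* C) {n : ℕ} (m : Fin n → Ideal A₀)
    (hbridge : ∀ i, (m i).map ι = ⊤ ∨ ((m i).map ι).IsMaximal)
    (hdist : ∀ i j, (m i).map ι = (m j).map ι → (m i).map ι = ⊤ ∨ i = j)
    (hbot : ∀ i, (m i).map ι ≠ ⊥)
    (hres : ∀ t : Ideal C, t.IsMaximal → Function.Surjective (algebraMap k (C ⧸ t)))
    (hsand : ∀ a ∈ ⨅ i, m i, ∃ z : B, r₁ z = ι a ∧ r₂ z = 0)
    (e : ℕ) (he : 0 < e) (h : B)
    (hdiv : RingHom.ker r₂ ^ e ≤ Ideal.span {h})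
    (hcount : e * n ≤ Module.finrank k (C ⧸ Ideal.span {r₁ h})) :
    (reg1xT ι m).card = n := by
  classical
  set T := reg1xT ι m with hT
  have hmaxT : ∀ t ∈ T, t.IsMaximal := by
    intro t ht
    obtain ⟨i, hi, rfl⟩ := (mem_reg1xT ι m t).1 ht
    exact (hbridge i).resolve_left hi
  have hbotT : ∀ t ∈ T, t ≠ ⊥ := by
    intro t ht
    obtain ⟨i, -, rfl⟩ := (mem_reg1xT ι m t).1 ht
    exact hbot i
  have hresT : ∀ t ∈ T, Function.Surjective (algebraMap k (C ⧸ t)) :=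
    fun t ht => hres t (hmaxT t ht)
  set J : Ideal C := ∏ t ∈ T, t with hJ
  have hJeq : J = (∏ i, m i).map ι := reg1xT_prod ι m hdist
  have hJmap : J ≤ (RingHom.ker r₂).map r₁ := by
    rw [hJeq, Ideal.map_le_iff_le_comap]
    intro a ha
    have ha' : a ∈ ⨅ i, m i := (Ideal.mem_iInf).2 fun i =>
      (Finset.inf_le (Finset.mem_univ i) : Finset.univ.inf m ≤ m i) (Ideal.prod_le_inf ha)
    obtain ⟨z, hz1, hz2⟩ := hsand a ha'
    rw [Ideal.mem_comap, ← hz1]
    exact Ideal.mem_map_of_mem r₁ ((RingHom.mem_ker).2 hz2)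
  have hstep1 : J ^ e ≤ Ideal.span {r₁ h} := by
    calc J ^ e ≤ ((RingHom.ker r₂).map r₁) ^ e := Ideal.pow_right_mono hJmap e
      _ = ((RingHom.ker r₂) ^ e).map r₁ := (Ideal.map_pow r₁ _ e).symm
      _ ≤ (Ideal.span {h}).map r₁ := Ideal.map_mono hdiv
      _ = Ideal.span {r₁ h} := by rw [Ideal.map_span, Set.image_singleton]
  obtain ⟨hfin, hdim⟩ := reg1_finrank_le (k := k) (J ^ e) (e * T.card)
    (reg1_spanMod_pow T hmaxT hbotT hresT e)
  set f : (C ⧸ J ^ e) →ₗ[k] (C ⧸ Ideal.span {r₁ h}) :=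
    (Ideal.Quotient.factorₐ k hstep1).toLinearMap with hf
  have hfs : Function.Surjective f := by
    intro x
    obtain ⟨c, rfl⟩ := Ideal.Quotient.mk_surjective x
    exact ⟨Ideal.Quotient.mk _ c, rfl⟩
  haveI : Module.Finite k (C ⧸ J ^ e) := hfin
  haveI : Module.Finite k (C ⧸ Ideal.span {r₁ h}) := Module.Finite.of_surjective f hfs
  have h1 : Module.finrank k (C ⧸ Ideal.span {r₁ h}) ≤ Module.finrank k (C ⧸ J ^ e) :=
    LinearMap.finrank_le_finrank_of_surjective hfs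
  have h2 : e * n ≤ e * T.card := hcount.trans (h1.trans hdim)
  have h3 : n ≤ T.card := Nat.le_of_mul_le_mul_left h2 he
  exact le_antisymm (reg1xT_card_le ι m) h3

/-- **REG1 with the nodes on a subring**: all the extended ideals are maximal, and at every
maximal ideal `s ⊇ ker r₁ + ker r₂` of `B` there is a generator `y` of `ker r₂` with
`y ^ e = ε h`, `ε ∉ s`. -/
theorem reg1x_core (r₁ r₂ : B →+* C) (hsurj : Function.Surjective r₁)
    (ι : A₀ →+* C) {n : ℕ} (m : Fin n → Ideal A₀)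
    (hbridge : ∀ i, (m i).map ι = ⊤ ∨ ((m i).map ι).IsMaximal)
    (hdist : ∀ i j, (m i).map ι = (m j).map ι → (m i).map ι = ⊤ ∨ i = j)
    (hbot : ∀ i, (m i).map ι ≠ ⊥)
    (hres : ∀ t : Ideal C, t.IsMaximal → Function.Surjective (algebraMap k (C ⧸ t)))
    (hsand : ∀ a ∈ ⨅ i, m i, ∃ z : B, r₁ z = ι a ∧ r₂ z = 0)
    (e : ℕ) (he : 0 < e) (h : B)
    (hdiv : RingHom.ker r₂ ^ e ≤ Ideal.span {h})
    (hcount : e * n ≤ Module.finrank k (C ⧸ Ideal.span {r₁ h})) :
    (∀ i, ((m i).map ι).IsMaximal) ∧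
    ∀ s : Ideal B, s.IsMaximal → RingHom.ker r₁ ≤ s → RingHom.ker r₂ ≤ s →
      ∃ y ε : B, r₂ y = 0 ∧ y ^ e = ε * h ∧ ε ∉ s ∧ (∀ z : B, r₂ z = 0 → y ∣ ε * z) ∧
        r₁ y ∈ s.map r₁ ∧ r₁ y ∉ (s.map r₁) ^ 2 ∧ ∃ i, s.map r₁ = (m i).map ι := by
  classical
  have hcard := reg1x_card (k := k) r₁ r₂ ι m hbridge hdist hbot hres hsand e he h hdiv hcount
  set T := reg1xT ι m with hT
  have hmaxT : ∀ t ∈ T, t.IsMaximal := by
    intro t ht
    obtain ⟨i, hi, rfl⟩ := (mem_reg1xT ι m t).1 ht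
    exact (hbridge i).resolve_left hi
  have hbotT : ∀ t ∈ T, t ≠ ⊥ := by
    intro t ht
    obtain ⟨i, -, rfl⟩ := (mem_reg1xT ι m t).1 ht
    exact hbot i
  have hresT : ∀ t ∈ T, Function.Surjective (algebraMap k (C ⧸ t)) :=
    fun t ht => hres t (hmaxT t ht)
  have hJeq : ∏ t ∈ T, t = (∏ i, m i).map ι := reg1xT_prod ι m hdist
  have hsandT : ∀ a ∈ ∏ t ∈ T, t, ∃ z : B, r₁ z = a ∧ r₂ z = 0 := by
    intro a ha
    have hle : (∏ i, m i).map ι ≤ (RingHom.ker r₂).map r₁ := by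
      rw [Ideal.map_le_iff_le_comap]
      intro a ha
      have ha' : a ∈ ⨅ i, m i := (Ideal.mem_iInf).2 fun i =>
      (Finset.inf_le (Finset.mem_univ i) : Finset.univ.inf m ≤ m i) (Ideal.prod_le_inf ha)
      obtain ⟨z, hz1, hz2⟩ := hsand a ha'
      rw [Ideal.mem_comap, ← hz1]
      exact Ideal.mem_map_of_mem r₁ ((RingHom.mem_ker).2 hz2)
    rw [hJeq] at ha
    obtain ⟨z, hz, hza⟩ := (Ideal.mem_map_iff_of_surjective r₁ hsurj).1 (hle ha)
    exact ⟨z, hza, (RingHom.mem_ker).1 hz⟩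
  have hcountT : e * T.card ≤ Module.finrank k (C ⧸ Ideal.span {r₁ h}) := by
    rw [hcard]
    exact hcount
  constructor
  · -- all extended ideals are maximal
    intro i
    rcases hbridge i with htop | hmax
    · exfalso
      -- the filter is a proper subset
      have h1 : (Finset.univ.filter fun i => (m i).map ι ≠ ⊤).card < n := by
        have h2 : (Finset.univ.filter fun i => (m i).map ι ≠ ⊤) ⊂ (Finset.univ : Finset (Fin n)) := by
          rw [Finset.ssubset_iff_of_subset (Finset.filter_subset _ _)]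
          exact ⟨i, Finset.mem_univ i, fun hi => (Finset.mem_filter.1 hi).2 htop⟩
        have := Finset.card_lt_card h2
        simpa using this
      have h3 : T.card ≤ (Finset.univ.filter fun i => (m i).map ι ≠ ⊤).card :=
        Finset.card_image_le
      omega
    · exact hmax
  · intro s hs hk₁ hk₂
    obtain ⟨y, ε, hy, hpow, hε, hdvd, h1, h2, h3, -⟩ :=
      reg1_node_gen (k := k) r₁ r₂ hsurj T hmaxT hbotT hresT hsandT e he h hdiv hcountT
        s hs hk₁ hk₂
    obtain ⟨i, -, hi⟩ := (mem_reg1xT ι m _).1 h3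
    exact ⟨y, ε, hy, hpow, hε, hdvd, h1, h2, i, hi.symm⟩

end Abstract

section Node

variable {K : Type*} [Field K] {k : Type*} [Field k]
variable {A : ValuationSubring K} {π : A →+* k} {κ : Type*} [Field κ] [Algebra k κ]
  {F : Type*} [Field F] [Algebra K F]
variable (S : NodeSetup A π κ F) [IsIntegrallyClosed S.B]
variable {C : Type*} [CommRing C] [IsDedekindDomain C] [Algebra k C]
variable {A₀ : Type*} [CommRing A₀]

/-- **REG1 over a subring of nodes, the side of `p_0`**: `rInf` onto `C`, the sandwich for the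
elements of `⋂ m_i ⊆ A₀` on the component `∞`. -/
theorem reg1x_node_zero (rInf rZero : S.B →+* C)
    (hkInf : RingHom.ker rInf = S.pInf) (hkZero : RingHom.ker rZero = S.pZero)
    (hsurj : Function.Surjective rInf)
    (ι : A₀ →+* C) {n : ℕ} (m : Fin n → Ideal A₀)
    (hbridge : ∀ i, (m i).map ι = ⊤ ∨ ((m i).map ι).IsMaximal)
    (hdist : ∀ i j, (m i).map ι = (m j).map ι → (m i).map ι = ⊤ ∨ i = j)
    (hbot : ∀ i, (m i).map ι ≠ ⊥)
    (hres : ∀ t : Ideal C, t.IsMaximal → Function.Surjective (algebraMap k (C ⧸ t)))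
    (hsand : ∀ a ∈ ⨅ i, m i, ∃ z : S.B, rInf z = ι a ∧ rZero z = 0)
    (e : ℕ) (he : 0 < e) (h : S.B)
    (hdiv : S.pZero ^ e ≤ Ideal.span {h})
    (hcount : e * n ≤ Module.finrank k (C ⧸ Ideal.span {rInf h})) :
    (∀ i, ((m i).map ι).IsMaximal) ∧
    ∀ s : Ideal S.B, S.IsNode s →
      ∃ y ε : S.B, y ∈ S.pZero ∧ y ^ e = ε * h ∧ ε ∉ s ∧ (∀ z ∈ S.pZero, y ∣ ε * z) ∧
        rInf y ∈ s.map rInf ∧ rInf y ∉ (s.map rInf) ^ 2 ∧ ∃ i, s.map rInf = (m i).map ι := by
  obtain ⟨h1, h2⟩ := reg1x_core (k := k) rInf rZero hsurj ι m hbridge hdist hbot hres hsand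
    e he h (hkZero ▸ hdiv) hcount
  refine ⟨h1, fun s hs => ?_⟩
  have hk₁ : RingHom.ker rInf ≤ s := hkInf ▸ le_sup_left.trans hs.2
  have hk₂ : RingHom.ker rZero ≤ s := hkZero ▸ le_sup_right.trans hs.2
  obtain ⟨y, ε, hy, hpow, hε, hdvd, h3, h4, h5⟩ := h2 s hs.1 hk₁ hk₂
  refine ⟨y, ε, ?_, hpow, hε, ?_, h3, h4, h5⟩
  · rw [← hkZero]; exact (RingHom.mem_ker).2 hy
  · intro z hz
    rw [← hkZero] at hz
    exact hdvd z ((RingHom.mem_ker).1 hz)

/-- **REG1 over a subring of nodes, the side of `p_∞`**: `rZero` onto `C`, the sandwich for the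
elements of `⋂ m_i ⊆ A₀` on the component `0`. -/
theorem reg1x_node_inf (rInf rZero : S.B →+* C)
    (hkInf : RingHom.ker rInf = S.pInf) (hkZero : RingHom.ker rZero = S.pZero)
    (hsurj : Function.Surjective rZero)
    (ι : A₀ →+* C) {n : ℕ} (m : Fin n → Ideal A₀)
    (hbridge : ∀ i, (m i).map ι = ⊤ ∨ ((m i).map ι).IsMaximal)
    (hdist : ∀ i j, (m i).map ι = (m j).map ι → (m i).map ι = ⊤ ∨ i = j)
    (hbot : ∀ i, (m i).map ι ≠ ⊥)
    (hres : ∀ t : Ideal C, t.IsMaximal → Function.Surjective (algebraMap k (C ⧸ t)))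
    (hsand : ∀ a ∈ ⨅ i, m i, ∃ z : S.B, rZero z = ι a ∧ rInf z = 0)
    (e : ℕ) (he : 0 < e) (h' : S.B)
    (hdiv : S.pInf ^ e ≤ Ideal.span {h'})
    (hcount : e * n ≤ Module.finrank k (C ⧸ Ideal.span {rZero h'})) :
    (∀ i, ((m i).map ι).IsMaximal) ∧
    ∀ s : Ideal S.B, S.IsNode s →
      ∃ x ε : S.B, x ∈ S.pInf ∧ x ^ e = ε * h' ∧ ε ∉ s ∧ (∀ z ∈ S.pInf, x ∣ ε * z) ∧
        rZero x ∈ s.map rZero ∧ rZero x ∉ (s.map rZero) ^ 2 ∧
          ∃ i, s.map rZero = (m i).map ι := by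
  obtain ⟨h1, h2⟩ := reg1x_core (k := k) rZero rInf hsurj ι m hbridge hdist hbot hres hsand
    e he h' (hkInf ▸ hdiv) hcount
  refine ⟨h1, fun s hs => ?_⟩
  have hk₁ : RingHom.ker rInf ≤ s := hkInf ▸ le_sup_left.trans hs.2
  have hk₂ : RingHom.ker rZero ≤ s := hkZero ▸ le_sup_right.trans hs.2
  obtain ⟨y, ε, hy, hpow, hε, hdvd, h3, h4, h5⟩ := h2 s hs.1 hk₂ hk₁
  refine ⟨y, ε, ?_, hpow, hε, ?_, h3, h4, h5⟩
  · rw [← hkInf]; exact (RingHom.mem_ker).2 hy
  · intro z hz
    rw [← hkInf] at hz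
    exact hdvd z ((RingHom.mem_ker).1 hz)

end Node

end Fermat.Agent.S36lib

end
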