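/-
Item 83 (S36), block REG1 at the level `N = M' q`, pieces T1 + T2 of helper21's plan (helper15).

* T2 `reg1b_bridge` (pure Mathlib): for a Dedekind domain `A`, a domain `C ⊇ A` inside the
  fraction field of `A` and a maximal ideal `m ≠ ⊥` of `A`: the extension `m C` is `⊤` or a
  maximal ideal of `C` with `m C ∩ A = m`.
* T1 `reg1b_affRing_frac` (RRlib): every function `c` is a fraction of two functions regular
  outside `Q`: `s ≠ 0`, `s, s c ∈ affRing Q`.
-/
import Mathlib
import Fermat.Agent.S34lib.AffRing
import Fermat.Agent.S34lib.F3Dim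
import Fermat.Agent.S36lib.Speed

set_option autoImplicit false
set_option linter.style.haveILetI false

noncomputable section

namespace Fermat.Agent.S36lib

open AlgebraicCurve Fermat.Agent.RRlib Fermat.Agent.S34lib

section Bridge

variable {A C : Type*} [CommRing A] [IsDedekindDomain A] [CommRing C] [IsDomain C] [Algebra A C]

/-- the DVR dichotomy at a maximal ideal `m ≠ ⊥` of a Dedekind domain, without denominators:
for `a, s ∈ A` there are `t ∉ m` and `b` with `t a = b s` or `t s = b a`. -/
theorem reg1b_dvd_total (m : Ideal A) [m.IsMaximal] (hm : m ≠ ⊥) (a s : A) :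
    ∃ t b : A, t ∉ m ∧ (t * a = b * s ∨ t * s = b * a) := by
  haveI : IsDiscreteValuationRing (Localization.AtPrime m) :=
    IsLocalization.AtPrime.isDiscreteValuationRing_of_dedekind_domain A hm _
  have hinj : Function.Injective (algebraMap A (Localization.AtPrime m)) :=
    IsLocalization.injective (Localization.AtPrime m) m.primeCompl_le_nonZeroDivisors
  have key : ∀ x y : A, algebraMap A (Localization.AtPrime m) x ∣
      algebraMap A (Localization.AtPrime m) y → ∃ t b : A, t ∉ m ∧ t * y = b * x := by
    intro x y hxy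
    obtain ⟨c, hc⟩ := hxy
    obtain ⟨⟨b, t⟩, hbt⟩ := IsLocalization.surj m.primeCompl c
    refine ⟨t, b, t.2, hinj ?_⟩
    rw [map_mul, map_mul, hc, ← hbt]
    ring
  rcases ValuationRing.dvd_total (algebraMap A (Localization.AtPrime m) s)
    (algebraMap A (Localization.AtPrime m) a) with h | h
  · obtain ⟨t, b, ht, e⟩ := key s a h
    exact ⟨t, b, ht, Or.inl e⟩
  · obtain ⟨t, b, ht, e⟩ := key a s h
    exact ⟨t, b, ht, Or.inr e⟩

/-- the dichotomy for the elements of `C ⊆ Frac A`: `t x ∈ A` or `t = b x`, with `t ∉ m`. -/
theorem reg1b_frac_total (hinj : Function.Injective (algebraMap A C))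
    (hfrac : ∀ c : C, ∃ a s : A, s ≠ 0 ∧ algebraMap A C s * c = algebraMap A C a)
    (m : Ideal A) [m.IsMaximal] (hm : m ≠ ⊥) (x : C) :
    ∃ t b : A, t ∉ m ∧ (algebraMap A C t * x = algebraMap A C b ∨
      algebraMap A C t = algebraMap A C b * x) := by
  obtain ⟨a, s, hs, hsx⟩ := hfrac x
  have hs' : algebraMap A C s ≠ 0 := fun h => hs (hinj (h.trans (map_zero _).symm))
  obtain ⟨t, b, ht, h | h⟩ := reg1b_dvd_total m hm a s
  · refine ⟨t, b, ht, Or.inl (mul_left_cancel₀ hs' ?_)⟩
    have h' := congrArg (algebraMap A C) h
    rw [map_mul, map_mul] at h'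
    calc algebraMap A C s * (algebraMap A C t * x)
        = algebraMap A C t * (algebraMap A C s * x) := by ring
      _ = algebraMap A C t * algebraMap A C a := by rw [hsx]
      _ = algebraMap A C b * algebraMap A C s := h'
      _ = algebraMap A C s * algebraMap A C b := by ring
  · refine ⟨t, b, ht, Or.inr (mul_left_cancel₀ hs' ?_)⟩
    have h' := congrArg (algebraMap A C) h
    rw [map_mul, map_mul] at h'
    calc algebraMap A C s * algebraMap A C t
        = algebraMap A C t * algebraMap A C s := by ring
      _ = algebraMap A C b * algebraMap A C a := h'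
      _ = algebraMap A C b * (algebraMap A C s * x) := by rw [hsx]
      _ = algebraMap A C s * (algebraMap A C b * x) := by ring

/-- **the BRIDGE** (T2): a maximal ideal `m ≠ ⊥` of the Dedekind domain `A` extends to `⊤` or to
a maximal ideal of `C ⊆ Frac A`, lying over `m`. -/
theorem reg1b_bridge (hinj : Function.Injective (algebraMap A C))
    (hfrac : ∀ c : C, ∃ a s : A, s ≠ 0 ∧ algebraMap A C s * c = algebraMap A C a)
    (m : Ideal A) [m.IsMaximal] (hm : m ≠ ⊥) :
    m.map (algebraMap A C) = ⊤ ∨
      ((m.map (algebraMap A C)).IsMaximal ∧ (m.map (algebraMap A C)).comap (algebraMap A C) = m) := by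
  by_cases htop : m.map (algebraMap A C) = ⊤
  · exact Or.inl htop
  right
  obtain ⟨n, hn, hmn⟩ := Ideal.exists_le_maximal _ htop
  have hcomap : n.comap (algebraMap A C) = m := by
    have h1 : m ≤ n.comap (algebraMap A C) := Ideal.map_le_iff_le_comap.mp hmn
    have h2 : n.comap (algebraMap A C) ≠ ⊤ := Ideal.comap_ne_top _ hn.ne_top
    exact ((‹m.IsMaximal›).eq_of_le h2 h1).symm
  have hle : n ≤ m.map (algebraMap A C) := by
    intro x hx
    obtain ⟨t, b, ht, h | h⟩ := reg1b_frac_total hinj hfrac m hm x
    · have hb : b ∈ m := by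
        rw [← hcomap, Ideal.mem_comap, ← h]
        exact n.mul_mem_left _ hx
      obtain ⟨u, i, hi, hui⟩ := (‹m.IsMaximal›).exists_inv ht
      have hx' : x = algebraMap A C u * algebraMap A C b + algebraMap A C i * x := by
        have h1 : algebraMap A C (u * t + i) = 1 := by rw [hui, map_one]
        rw [map_add, map_mul] at h1
        calc x = (algebraMap A C u * algebraMap A C t + algebraMap A C i) * x := by
              rw [h1, one_mul]
          _ = algebraMap A C u * (algebraMap A C t * x) + algebraMap A C i * x := by ring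
          _ = algebraMap A C u * algebraMap A C b + algebraMap A C i * x := by rw [h]
      rw [hx']
      exact Ideal.add_mem _ (Ideal.mul_mem_left _ _ (Ideal.mem_map_of_mem _ hb))
        (Ideal.mul_mem_right _ _ (Ideal.mem_map_of_mem _ hi))
    · exfalso
      apply ht
      rw [← hcomap, Ideal.mem_comap, h]
      exact n.mul_mem_left _ hx
  have heq : m.map (algebraMap A C) = n := le_antisymm hmn hle
  rw [heq]
  exact ⟨hn, hcomap⟩

end Bridge

section AffFrac

variable {K F : Type*} [Field K] [Field F] [Algebra K F]

/-- **AFF-FRAC** (T1): every function is a fraction of two functions regular outside `Q`. -/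
theorem reg1b_affRing_frac [RRHyp K F] (Q : Place K F) (c : F) :
    ∃ s ∈ affRing Q, s ≠ 0 ∧ s * c ∈ affRing Q := by
  classical
  rcases eq_or_ne c 0 with rfl | hc
  · exact ⟨1, (affRing Q).one_mem, one_ne_zero, by rw [mul_zero]; exact (affRing Q).zero_mem⟩
  set E : Divisor K F := f3dPol (k := K) c with hE
  set n : ℤ := (genusFF K F : ℤ) + Divisor.degree E with hn
  set D : Divisor K F := Finsupp.single Q n - E with hD
  have hdeg : Divisor.degree D = genusFF K F := by
    have h1 : Divisor.degree (Finsupp.single Q n : Divisor K F) = n := by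
      have : (Finsupp.single Q n : Divisor K F) = n • Finsupp.single Q 1 := by
        rw [Finsupp.smul_single, smul_eq_mul, mul_one]
      rw [this, map_zsmul, degree_single_one, smul_eq_mul, mul_one]
    rw [hD, map_sub, h1, hn]
    ring
  have hell : 0 < ell D := by
    have := riemann_inequality (K := K) D
    have : (0 : ℤ) < ell D := by linarith
    exact_mod_cast this
  have hne : riemannRochSpace D ≠ ⊥ := by
    intro hbot
    rw [ell, hbot, finrank_bot] at hell
    exact lt_irrefl _ hell
  obtain ⟨s, hs, hs0⟩ := Submodule.exists_mem_ne_zero_of_ne_bot hne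
  have hord : ∀ v : Place K F, v ≠ Q → max 0 (-(v.ord c)) ≤ v.ord s := by
    intro v hv
    rcases (mem_riemannRochSpace_iff.mp hs) v with h | h
    · exact absurd h hs0
    · rw [hD, Finsupp.sub_apply, Finsupp.single_eq_of_ne hv, zero_sub, neg_neg, hE,
        f3dPol_apply] at h
      exact h
  refine ⟨s, fun v hv => le_trans (le_max_left _ _) (hord v hv), hs0, fun v hv => ?_⟩
  rw [v.ord_mul hs0 hc]
  have := le_trans (le_max_right _ _) (hord v hv)
  linarith

end AffFrac

end Fermat.Agent.S36lib

end
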