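import Mathlib
import Fermat.Agent.S36lib.Reg1Bridge
import Fermat.Agent.RRlib.H1Finite
import Fermat.Agent.RRlib.LFinite

/-!
# Item 83 (S36), piece R-2c (helper21): the BRIDGE hypotheses of `reg1x_core` for the nodes

`A = affRing Q` (the affine ring of S34, functions regular off `Q = ∞'`), `C` any domain between
`A` and the function field `F` (`ι : A → C`, `j : C → F` injective, `j ∘ ι` the inclusion),
`e i : A →ₐ[K] K` an injective family of `K`-points (the nodes, `GlueData.e₁`, `GlueData.e₂`).

* `reg1h_exists_nonconst`: `affRing Q` contains a nonconstant function (Riemann's inequality);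
* `reg1h_ker_ne_bot`: the kernel of a `K`-point of `affRing Q` is not `⊥`;
* `reg1h_ker_isMaximal`, `reg1h_eq_of_ker_eq`;
* `reg1h_hyps`: `hbridge`, `hdist`, `hbot` of `reg1x_core` / `reg1x_node_inf` / `reg1x_node_zero`
  (`Reg1Ext.lean`) for `m i := RingHom.ker (e i)`.

Uses `reg1b_bridge`, `reg1b_affRing_frac` (helper15, `Reg1Bridge.lean`).  No sorry.
-/

set_option autoImplicit false
set_option linter.style.haveILetI false
set_option linter.unusedSectionVars false

noncomputable section

namespace Fermat.Agent.S36lib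

open AlgebraicCurve Fermat.Agent.RRlib Fermat.Agent.S34lib

section Points

variable {k A : Type*} [Field k] [CommRing A] [Algebra k A]

/-- the kernel of a `k`-point is a maximal ideal -/
theorem reg1h_ker_isMaximal (e : A →ₐ[k] k) : (RingHom.ker (e : A →+* k)).IsMaximal :=
  RingHom.ker_isMaximal_of_surjective (e : A →+* k) fun c =>
    ⟨algebraMap k A c, by simp⟩

/-- a `k`-point is determined by its kernel -/
theorem reg1h_eq_of_ker_eq (e e' : A →ₐ[k] k)
    (h : RingHom.ker (e : A →+* k) = RingHom.ker (e' : A →+* k)) : e = e' := by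
  ext a
  have h1 : a - algebraMap k A (e a) ∈ RingHom.ker (e : A →+* k) := by
    rw [RingHom.mem_ker]
    simp
  rw [h, RingHom.mem_ker] at h1
  have h2 : e' a - e a = 0 := by simpa using h1
  exact (sub_eq_zero.1 h2).symm

end Points

section Aff

variable {K F : Type*} [Field K] [Field F] [Algebra K F]

/-- `affRing Q` contains a nonconstant function -/
theorem reg1h_exists_nonconst [RRHyp K F] (Q : Place K F) :
    ∃ a : affRing Q, ∀ c : K, a ≠ algebraMap K (affRing Q) c := by
  classical
  set n : ℤ := (genusFF K F : ℤ) + 1 with hn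
  set D : Divisor K F := Finsupp.single Q n with hD
  have hdeg : Divisor.degree D = n := by
    have : (Finsupp.single Q n : Divisor K F) = n • Finsupp.single Q 1 := by
      rw [Finsupp.smul_single, smul_eq_mul, mul_one]
    rw [hD, this, map_zsmul, degree_single_one, smul_eq_mul, mul_one]
  have hell : 2 ≤ ell D := by
    have := riemann_inequality (K := K) D
    have : (2 : ℤ) ≤ ell D := by rw [hdeg, hn] at this; linarith
    exact_mod_cast this
  haveI := finite_riemannRochSpace (K := K) D
  by_contra hcon
  push Not at hcon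
  have hle : riemannRochSpace D ≤ Submodule.span K {(1 : F)} := by
    intro s hs
    obtain ⟨c, hc⟩ := hcon ⟨s, affRing_of_mem_rr hs⟩
    have hc' : s = algebraMap K F c := congrArg Subtype.val hc
    rw [Submodule.mem_span_singleton]
    exact ⟨c, by rw [hc', Algebra.smul_def, mul_one]⟩
  have h1 : Module.finrank K (riemannRochSpace D) ≤
      Module.finrank K (Submodule.span K {(1 : F)}) := Submodule.finrank_mono hle
  have h2 : Module.finrank K (Submodule.span K {(1 : F)}) ≤ 1 := by
    have := finrank_span_le_card (R := K) ({(1 : F)} : Set F)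
    simpa using this
  rw [ell] at hell
  omega

/-- the kernel of a `K`-point of `affRing Q` is not `⊥` -/
theorem reg1h_ker_ne_bot [RRHyp K F] (Q : Place K F) (e : affRing Q →ₐ[K] K) :
    RingHom.ker (e : affRing Q →+* K) ≠ ⊥ := by
  obtain ⟨a, ha⟩ := reg1h_exists_nonconst (K := K) Q
  intro h0
  have h1 : a - algebraMap K (affRing Q) (e a) ∈ RingHom.ker (e : affRing Q →+* K) := by
    rw [RingHom.mem_ker]
    simp
  rw [h0, Ideal.mem_bot, sub_eq_zero] at h1
  exact ha _ h1

/-- **the BRIDGE hypotheses** of `reg1x_core` for the kernels of an injective family of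
`K`-points of `affRing Q`, and an overring `C` of `affRing Q` inside `F`. -/
theorem reg1h_hyps [RRHyp K F] (Q : Place K F) {C : Type*} [CommRing C] [IsDomain C]
    (ι : affRing Q →+* C) (j : C →+* F) (hj : Function.Injective j)
    (hcomp : ∀ a : affRing Q, j (ι a) = (a : F))
    {n : ℕ} (e : Fin n → affRing Q →ₐ[K] K) (hinj : Function.Injective e) :
    (∀ i, (RingHom.ker (e i : affRing Q →+* K)).map ι = ⊤ ∨
      ((RingHom.ker (e i : affRing Q →+* K)).map ι).IsMaximal) ∧
    (∀ i i', (RingHom.ker (e i : affRing Q →+* K)).map ι =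
        (RingHom.ker (e i' : affRing Q →+* K)).map ι →
      (RingHom.ker (e i : affRing Q →+* K)).map ι = ⊤ ∨ i = i') ∧
    (∀ i, (RingHom.ker (e i : affRing Q →+* K)).map ι ≠ ⊥) := by
  letI : Algebra (affRing Q) C := ι.toAlgebra
  have hιinj : Function.Injective (algebraMap (affRing Q) C) := by
    intro a b hab
    apply Subtype.ext
    rw [← hcomp, ← hcomp]
    exact congrArg j hab
  have hfrac : ∀ c : C, ∃ a s : affRing Q, s ≠ 0 ∧
      algebraMap (affRing Q) C s * c = algebraMap (affRing Q) C a := by
    intro c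
    obtain ⟨s, hs, hs0, hsc⟩ := reg1b_affRing_frac (K := K) Q (j c)
    refine ⟨⟨s * j c, hsc⟩, ⟨s, hs⟩, fun h => hs0 (congrArg Subtype.val h), hj ?_⟩
    rw [map_mul]
    show j (ι ⟨s, hs⟩) * j c = j (ι ⟨s * j c, hsc⟩)
    rw [hcomp, hcomp]
  have hB : ∀ i, (RingHom.ker (e i : affRing Q →+* K)).map (algebraMap (affRing Q) C) = ⊤ ∨
      (((RingHom.ker (e i : affRing Q →+* K)).map (algebraMap (affRing Q) C)).IsMaximal ∧
        ((RingHom.ker (e i : affRing Q →+* K)).map (algebraMap (affRing Q) C)).comap
          (algebraMap (affRing Q) C) = RingHom.ker (e i : affRing Q →+* K)) := by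
    intro i
    haveI := reg1h_ker_isMaximal (e i)
    exact reg1b_bridge hιinj hfrac _ (reg1h_ker_ne_bot Q (e i))
  refine ⟨fun i => ?_, fun i i' h => ?_, fun i => ?_⟩
  · rcases hB i with h | ⟨h, -⟩
    · exact Or.inl h
    · exact Or.inr h
  · rcases hB i with h1 | ⟨-, h1⟩
    · exact Or.inl h1
    rcases hB i' with h2 | ⟨-, h2⟩
    · exact Or.inl (h.trans h2)
    · right
      apply hinj
      apply reg1h_eq_of_ker_eq
      rw [← h1, ← h2]
      exact congrArg (fun I => Ideal.comap (algebraMap (affRing Q) C) I) h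
  · intro h0
    obtain ⟨a, ha, ha0⟩ := Submodule.exists_mem_ne_zero_of_ne_bot (reg1h_ker_ne_bot Q (e i))
    have h1 : ι a ∈ (RingHom.ker (e i : affRing Q →+* K)).map ι := Ideal.mem_map_of_mem ι ha
    rw [h0, Ideal.mem_bot] at h1
    exact ha0 (hιinj (h1.trans (map_zero _).symm))

end Aff

end Fermat.Agent.S36lib

end
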