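/-
Item 83 (S36), block REG1 at the level `N = M' q`, pieces W-3b + W-3f (helper15): the ASSEMBLY of
REG1 for the concrete setup `SN = nodeSetupNj A M' q hq hqM hA R hR` (`TheSetup.lean`).

* `r1c_fsS_not_isField`, `r1c_hres_fsS`: the maximal ideals of `C = fsS K x` are `K`-rational
  (`K` algebraically closed);
* `r1c_exists_glue`: the gluing data `X` of S34 at an auxiliary level, for a GIVEN series
  reduction `R` (`glueMod`), with `X.B = affRing ∞'` and (F3);
* `r1c_side`: one side of REG1, abstract in the affine ring `B` (`reg1x_core` + `reg1h_hyps`);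
* `r1c_inf_mem_cuspSet`, `r1c_zero_mem_cuspSet`;
* `r1c_hreg1_core`: REG1 for `SN`, with the RANGE (W-3a), the inclusion `affRing ∞' ⊆ fsS`, the
  units `h`, `h'` (W-3d) as hypotheses.
-/
import Mathlib
import Fermat.Agent.S36lib.Reg1Hyps
import Fermat.Agent.S36lib.Reg1Ext
import Fermat.Agent.S36lib.Reg1CountAux
import Fermat.Agent.S36lib.VSand
import Fermat.Agent.S34lib.ApplyMain
import Fermat.Agent.FFlib.FSPrimes

set_option autoImplicit false
set_option linter.style.haveILetI false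
set_option linter.unusedSectionVars false
set_option synthInstance.maxHeartbeats 400000
set_option maxHeartbeats 1000000

noncomputable section

namespace Fermat.Agent.S36lib

open Fermat.Agent.FFlib Fermat.Agent.S24lib Fermat.Agent.GM Fermat.Agent.GoodRed
  Fermat.Agent.S34lib Fermat.Agent.RRlib Fermat.Agent.S16lib
open AlgebraicCurve IsLocalRing IntermediateField IsDedekindDomain ModularCurve

section Res

variable {K F : Type*} [Field K] [Field F] [Algebra K F] {x : F}

/-- `C = fsS K x` is not a field -/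
theorem r1c_fsS_not_isField [IsAlgClosed K] [h : FFSep K x] : ¬ IsField (fsS K x) := by
  classical
  obtain ⟨s, hs, hsum⟩ := fsExists_zeros (K := K) (x := x) 0
  have hpos : 0 < Module.finrank K⟮x⟯ F := Module.finrank_pos
  have hne : s.Nonempty := by
    rw [Finset.nonempty_iff_ne_empty]
    rintro rfl
    rw [Finset.sum_empty] at hsum
    have : (0 : ℤ) < (Module.finrank K⟮x⟯ F : ℤ) := by exact_mod_cast hpos
    omega
  obtain ⟨v, hv⟩ := hne
  have hv' : 0 < v.ord x := by
    have := (hs v).1 hv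
    rwa [map_zero, sub_zero] at this
  rw [Ring.not_isField_iff_exists_prime]
  exact ⟨(fsPrimeOfPlace v hv'.le).asIdeal, (fsPrimeOfPlace v hv'.le).ne_bot,
    (fsPrimeOfPlace v hv'.le).isPrime⟩

/-- the maximal ideals of `C = fsS K x` are `K`-rational (`K` algebraically closed) -/
theorem r1c_hres_fsS [IsAlgClosed K] [h : FFSep K x] (t : Ideal (fsS K x)) (ht : t.IsMaximal) :
    Function.Surjective (algebraMap K (fsS K x ⧸ t)) := by
  have hne : t ≠ ⊥ := Ring.ne_bot_of_isMaximal_of_not_isField ht r1c_fsS_not_isField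
  let P : HeightOneSpectrum (fsS K x) := ⟨t, ht.isPrime, hne⟩
  intro w
  obtain ⟨s, rfl⟩ := Ideal.Quotient.mk_surjective w
  have hxv : 0 ≤ (fsPlaceOfPrime P).ord x := fsOrd_x_placeOfPrime_nonneg P
  obtain ⟨b, hb⟩ := ffResidue_surjective (fsPlaceOfPrime P) h.trans
    (ffRes (fsPlaceOfPrime P) (fsIncl (fsPlaceOfPrime P) hxv s))
  have hsb : s - ⟨algebraMap K F b, fsConst_mem_S b⟩ ∈ P.asIdeal := by
    have h1 : fsIncl (fsPlaceOfPrime P) hxv s -
        algebraMap K (fsPlaceOfPrime P).toValuationSubring b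
        ∈ maximalIdeal (fsPlaceOfPrime P).toValuationSubring := by
      rw [← ffRes_eq_zero_iff, ffRes, map_sub, sub_eq_zero]
      exact hb.symm
    have h2 : fsIncl (fsPlaceOfPrime P) hxv (s - ⟨algebraMap K F b, fsConst_mem_S b⟩)
        = fsIncl (fsPlaceOfPrime P) hxv s -
          algebraMap K (fsPlaceOfPrime P).toValuationSubring b := by
      rw [map_sub]; rfl
    have h3 : s - ⟨algebraMap K F b, fsConst_mem_S b⟩
        ∈ (fsPrimeOfPlace (fsPlaceOfPrime P) hxv).asIdeal := by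
      show _ ∈ Ideal.comap (fsIncl (fsPlaceOfPrime P) hxv) _
      rw [Ideal.mem_comap, h2]; exact h1
    have h4 : fsPrimeOfPlace (fsPlaceOfPrime P) hxv = P := fsPrimeOfPlace_placeOfPrime P
    rwa [h4] at h3
  refine ⟨b, ?_⟩
  have e1 : algebraMap K (fsS K x ⧸ t) b =
      Ideal.Quotient.mk t (⟨algebraMap K F b, fsConst_mem_S b⟩ : fsS K x) := rfl
  rw [e1]
  symm
  rw [← sub_eq_zero, ← map_sub, Ideal.Quotient.eq_zero_iff_mem]
  exact hsb

end Res

section Side

variable {K F : Type*} [Field K] [Field F] [Algebra K F] {x : F}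
variable {B : Type*} [CommRing B] [IsDomain B] [IsIntegrallyClosed B]

/-- **one side of REG1 at the level `N = M' q`**, abstract in the affine ring `B`: `r₁` onto
`C = fsS K x`, the nodes `e i` as `K`-points of `affRing Q`, the sandwich on the component of
`r₁` for the functions of `affRing Q` vanishing at the nodes. -/
theorem r1c_side [IsAlgClosed K] [RRHyp K F] [FFSep K x] (Q : Place K F)
    (r₁ r₂ : B →+* F)
    (hi₁ : ∀ z, r₁ z ∈ fsS K x) (hi₂ : ∀ z, r₂ z ∈ fsS K x)
    (ho₁ : ∀ c ∈ fsS K x, ∃ z, r₁ z = c)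
    (hle : ∀ a ∈ affRing Q, a ∈ fsS K x)
    {n : ℕ} (e : Fin n → affRing Q →ₐ[K] K) (he : Function.Injective e)
    (hsand : ∀ a : affRing Q, (∀ i, e i a = 0) → ∃ z : B, r₁ z = (a : F) ∧ r₂ z = 0)
    (h : B) (hdiv : RingHom.ker r₂ ^ 12 ≤ Ideal.span {h})
    (hcount : ∀ c : fsS K x, (c : F) = r₁ h →
      12 * n ≤ Module.finrank K (fsS K x ⧸ Ideal.span {c}))
    (s : Ideal B) (hs : s.IsMaximal) (hk₁ : RingHom.ker r₁ ≤ s) (hk₂ : RingHom.ker r₂ ≤ s) :
    ∃ y ε : B, r₂ y = 0 ∧ y ^ 12 = ε * h ∧ ε ∉ s ∧ (∀ z : B, r₂ z = 0 → y ∣ ε * z) := by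
  classical
  let ρ₁ : B →+* fsS K x := r₁.codRestrict (fsS K x) hi₁
  let ρ₂ : B →+* fsS K x := r₂.codRestrict (fsS K x) hi₂
  have hρ₁ : ∀ z, ((ρ₁ z : fsS K x) : F) = r₁ z := fun _ => rfl
  have hρ₂ : ∀ z, ((ρ₂ z : fsS K x) : F) = r₂ z := fun _ => rfl
  have hker₁ : RingHom.ker ρ₁ = RingHom.ker r₁ := by
    ext z
    rw [RingHom.mem_ker, RingHom.mem_ker]
    constructor
    · intro hz
      rw [← hρ₁, hz]; rfl
    · intro hz
      apply Subtype.ext
      rw [hρ₁, hz]; rfl
  have hker₂ : RingHom.ker ρ₂ = RingHom.ker r₂ := by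
    ext z
    rw [RingHom.mem_ker, RingHom.mem_ker]
    constructor
    · intro hz
      rw [← hρ₂, hz]; rfl
    · intro hz
      apply Subtype.ext
      rw [hρ₂, hz]; rfl
  have hsurj : Function.Surjective ρ₁ := by
    intro c
    obtain ⟨z, hz⟩ := ho₁ c c.2
    exact ⟨z, Subtype.ext hz⟩
  let ι : affRing Q →+* fsS K x :=
    ((affRing Q).val : affRing Q →+* F).codRestrict (fsS K x) (fun a => hle a a.2)
  let j : fsS K x →+* F := algebraMap (fsS K x) F
  have hj : Function.Injective j := Subtype.val_injective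
  have hcomp : ∀ a : affRing Q, j (ι a) = (a : F) := fun _ => rfl
  obtain ⟨hbridge, hdist, hbot⟩ := reg1h_hyps (K := K) Q ι j hj hcomp e he
  have hsand' : ∀ a ∈ ⨅ i, RingHom.ker (e i : affRing Q →+* K),
      ∃ z : B, ρ₁ z = ι a ∧ ρ₂ z = 0 := by
    intro a ha
    rw [Ideal.mem_iInf] at ha
    obtain ⟨z, h1, h2⟩ := hsand a (fun i => (RingHom.mem_ker).1 (ha i))
    refine ⟨z, Subtype.ext ?_, Subtype.ext ?_⟩
    · rw [hρ₁, h1]; rfl
    · rw [hρ₂, h2]; rfl
  obtain ⟨-, hmain⟩ := reg1x_core (k := K) ρ₁ ρ₂ hsurj ι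
    (fun i => RingHom.ker (e i : affRing Q →+* K)) hbridge hdist hbot
    (fun t ht => r1c_hres_fsS t ht) hsand' 12 (by norm_num) h (hker₂ ▸ hdiv)
    (hcount (ρ₁ h) rfl)
  obtain ⟨y, ε, hy, hpow, hε, hdvd, -⟩ := hmain s hs (hker₁ ▸ hk₁) (hker₂ ▸ hk₂)
  refine ⟨y, ε, ?_, hpow, hε, fun z hz => hdvd z ?_⟩
  · have := congrArg Subtype.val hy
    rw [hρ₂] at this
    exact this
  · apply Subtype.ext
    rw [hρ₂, hz]; rfl

end Side

section Glue

variable (M' q : ℕ) [NeZero M'] [NeZero q] [NeZero (M' * q)] (hq : q.Prime) (hqM : ¬ q ∣ M')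
variable {A : ValuationSubring Kbar}

set_option maxHeartbeats 2000000 in
/-- **the gluing data at the auxiliary level `M' q`**, for a GIVEN series reduction `R`:
`X.B = affRing ∞'`, (F3) and `0 < X.n`. -/
theorem r1c_exists_glue (haux : IsAuxLevel q M') (hA : A.LiesOverPrime q)
    [RRHyp Kbar (FF (M' * q))]
    [RRHyp (IsLocalRing.ResidueField A)
      (↥(modularFunctionFieldFullC (IsLocalRing.ResidueField A) M'))]
    {R : ConstRed A (IsLocalRing.residue A)
      (↥(modularFunctionFieldFullC (IsLocalRing.ResidueField A) M')) (FF (M' * q))}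
    (hR : IsSeriesRed R) :
    ∃ (X : GlueData R (glmZero M' q hq hqM R) (infPlaceBar (M' * q))
        (cuspZero (M' * q) q hq (dvd_mul_left q M') (inf_not_sq_dvd M' q hq hqM))
        (infPlaceC (IsLocalRing.ResidueField A) M')) (a₀ : ℕ),
      X.B = affRing (infPlaceC (IsLocalRing.ResidueField A) M') ∧
      F3dEX R (glmZero M' q hq hqM R) (infPlaceBar (M' * q))
        (cuspZero (M' * q) q hq (dvd_mul_left q M') (inf_not_sq_dvd M' q hq hqM))
        (infPlaceC (IsLocalRing.ResidueField A) M')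
        (infPlaceC (IsLocalRing.ResidueField A) M') a₀ ∧ 0 < X.n := by
  haveI : Fact q.Prime := ⟨hq⟩
  haveI : CharP (IsLocalRing.ResidueField A) q := charP_residueField hA
  haveI : IsAlgClosed (IsLocalRing.ResidueField A) := isAlgClosed_residueField A
  haveI : Infinite (IsLocalRing.ResidueField A) := IsAlgClosed.instInfinite
  haveI : RRHyp Kbar (FF M') := mod_rrHyp M'
  have hfrac' : HasPrimFrac A (modularFunctionFieldBar M') := vri_hfrac M' q hq A hA
  obtain ⟨R', r, hR', -, -, hgen⟩ := liftInf_exists_red M' A q haux hA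
  have Hex := am_exInput M' q hq hqM haux hA hR' hR hfrac'
  have hO := vk_O_ne M' q hq hqM hR hA
  have hlift : ∀ a : affRing (infPlaceC (IsLocalRing.ResidueField A) M'),
      ∃ (g : FF M') (hg : g ∈ R'.O),
        (∀ v' : Place Kbar (FF M'), v' ≠ infPlaceBar M' → 0 ≤ v'.ord g) ∧
          R'.red ⟨g, hg⟩ =
            (a : ↥(modularFunctionFieldFullC (IsLocalRing.ResidueField A) M')) := by
    intro a
    obtain ⟨c, hc⟩ := (glm_hB M' _).mp a.2
    obtain ⟨x, hx, hred⟩ := liftInf_lift q haux hA hR' (c : ℤ) _ hc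
    exact ⟨x, x.2, mem_affRing_iff.mp (affRing_of_mem_rr hx), hred⟩
  obtain ⟨X, a₀, a₁, hXB, H, -, -, hn, -⟩ := glueMod M' q hq hqM hA
    (φ := (affFrobFk (IsLocalRing.ResidueField A) q M').toRingHom) (fun x => rfl) Hex hO
    (affRing_residue_surjective _) hlift hgen.le (m := 1) Nat.one_pos
  exact ⟨X, a₀, hXB, H, hn⟩

end Glue

section Conc

variable (A : ValuationSubring Kbar) (M' q : ℕ) [NeZero M'] [NeZero q] (hq : q.Prime)
  (hqM : ¬ q ∣ M') (hA : A.LiesOverPrime q)
  (R : ConstRed A (IsLocalRing.residue A)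
      (↥(modularFunctionFieldFullC (IsLocalRing.ResidueField A) M')) (FF (M' * q)))
  (hR : IsSeriesRed R)

/-- `∞` is a cusp -/
theorem r1c_inf_mem_cuspSet : infPlaceBar (M' * q) ∈ cuspSet (M' * q) := by
  show jF (M' * q) ∉ (infPlaceBar (M' * q)).toValuationSubring
  rw [ffMem_iff_ord_nonneg, infPlaceBar_ord_jF]
  norm_num

/-- `0` is a cusp -/
theorem r1c_zero_mem_cuspSet :
    cuspZero (M' * q) q hq (dvd_mul_left q M') (inf_not_sq_dvd M' q hq hqM) ∈
      cuspSet (M' * q) := by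
  show jF (M' * q) ∉
    (cuspZero (M' * q) q hq (dvd_mul_left q M') (inf_not_sq_dvd M' q hq hqM)).toValuationSubring
  rw [ffMem_iff_ord_nonneg, ac_cuspZero_eq, zeroPlaceBar_ord_jF]
  have : (0 : ℤ) < q := by exact_mod_cast hq.pos
  omega

set_option maxHeartbeats 4000000 in
/-- **REG1 at the level `N = M' q`** for the setup `SN = nodeSetupNj` (`B = B_j`), `e = 12`:
from the RANGE (`hiInf … hoZero`, W-3a), `affRing ∞' ⊆ fsS k j̄` (`hle`), the divisibilities
`hdiv0`, `hdivInf` and the series of the reductions of `h`, `h'` (W-3d). -/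
theorem r1c_hreg1_core (haux : IsAuxLevel q M')
    [IsIntegrallyClosed (nodeSetupNj A M' q hq hqM hA R hR).B]
    (hiInf : ∀ z : (nodeSetupNj A M' q hq hqM hA R hR).B,
      (nodeSetupNj A M' q hq hqM hA R hR).redInf z ∈
        fsS (IsLocalRing.ResidueField A) (jk (IsLocalRing.ResidueField A) M'))
    (hiZero : ∀ z : (nodeSetupNj A M' q hq hqM hA R hR).B,
      (nodeSetupNj A M' q hq hqM hA R hR).redZero z ∈
        fsS (IsLocalRing.ResidueField A) (jk (IsLocalRing.ResidueField A) M'))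
    (hoInf : ∀ c ∈ fsS (IsLocalRing.ResidueField A) (jk (IsLocalRing.ResidueField A) M'),
      ∃ z : (nodeSetupNj A M' q hq hqM hA R hR).B,
        (nodeSetupNj A M' q hq hqM hA R hR).redInf z = c)
    (hoZero : ∀ c ∈ fsS (IsLocalRing.ResidueField A) (jk (IsLocalRing.ResidueField A) M'),
      ∃ z : (nodeSetupNj A M' q hq hqM hA R hR).B,
        (nodeSetupNj A M' q hq hqM hA R hR).redZero z = c)
    (hle : ∀ a ∈ affRing (infPlaceC (IsLocalRing.ResidueField A) M'),
      a ∈ fsS (IsLocalRing.ResidueField A) (jk (IsLocalRing.ResidueField A) M'))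
    (h h' : (nodeSetupNj A M' q hq hqM hA R hR).B)
    (hdiv0 : (nodeSetupNj A M' q hq hqM hA R hR).pZero ^ 12 ≤ Ideal.span {h})
    (hdivInf : (nodeSetupNj A M' q hq hqM hA R hR).pInf ^ 12 ≤ Ideal.span {h'})
    (hser : (((nodeSetupNj A M' q hq hqM hA R hR).redInf h :
        Fk (IsLocalRing.ResidueField A) M') : LaurentSeries (IsLocalRing.ResidueField A)) =
      (ueuU (IsLocalRing.ResidueField A) q)⁻¹)
    (hser' : (((nodeSetupNj A M' q hq hqM hA R hR).redZero h' :
        Fk (IsLocalRing.ResidueField A) M') : LaurentSeries (IsLocalRing.ResidueField A)) =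
      (ueuU (IsLocalRing.ResidueField A) q)⁻¹) :
    (∀ s, (nodeSetupNj A M' q hq hqM hA R hR).IsNode s →
      ∃ y ε : (nodeSetupNj A M' q hq hqM hA R hR).B,
        y ∈ (nodeSetupNj A M' q hq hqM hA R hR).pZero ∧ y ^ 12 = ε * h ∧ ε ∉ s ∧
          ∀ z ∈ (nodeSetupNj A M' q hq hqM hA R hR).pZero, y ∣ ε * z) ∧
    (∀ s, (nodeSetupNj A M' q hq hqM hA R hR).IsNode s →
      ∃ x ε : (nodeSetupNj A M' q hq hqM hA R hR).B,
        x ∈ (nodeSetupNj A M' q hq hqM hA R hR).pInf ∧ x ^ 12 = ε * h' ∧ ε ∉ s ∧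
          ∀ z ∈ (nodeSetupNj A M' q hq hqM hA R hR).pInf, x ∣ ε * z) := by
  classical
  haveI : Fact q.Prime := ⟨hq⟩
  haveI : CharP (IsLocalRing.ResidueField A) q := charP_residueField hA
  haveI : IsAlgClosed (IsLocalRing.ResidueField A) := isAlgClosed_residueField A
  haveI : Infinite (IsLocalRing.ResidueField A) := IsAlgClosed.instInfinite
  haveI : RRHyp Kbar (FF (M' * q)) := mod_rrHyp (M' * q)
  haveI : RRHyp (IsLocalRing.ResidueField A)
      (↥(modularFunctionFieldFullC (IsLocalRing.ResidueField A) M')) :=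
    mr_rrHyp (IsLocalRing.ResidueField A) M'
  haveI : FFSep (IsLocalRing.ResidueField A) (jk (IsLocalRing.ResidueField A) M') :=
    reg1c_ffSep_jk M' hqM A hA
  obtain ⟨X, a₀, hXB, H, -⟩ := r1c_exists_glue M' q hq hqM haux hA hR
  -- the nodes as points of `affRing ∞'`
  let inc : affRing (infPlaceC (IsLocalRing.ResidueField A) M') →ₐ[IsLocalRing.ResidueField A]
      X.B := Subalgebra.inclusion hXB.ge
  have hinc_surj : Function.Surjective inc := by
    intro b
    exact ⟨⟨(b : Fk (IsLocalRing.ResidueField A) M'), hXB ▸ b.2⟩, Subtype.ext rfl⟩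
  have hinj : ∀ (e : Fin X.n → X.B →ₐ[IsLocalRing.ResidueField A] IsLocalRing.ResidueField A),
      Function.Injective e → Function.Injective fun i => (e i).comp inc := by
    intro e he i i' hii'
    apply he
    ext b
    obtain ⟨a, rfl⟩ := hinc_surj b
    exact DFunLike.congr_fun hii' a
  -- the sandwich
  have hglue := vsand_hglue M' q hq hqM hA hR X (cuspSet (M' * q))
    (r1c_inf_mem_cuspSet M' q) (r1c_zero_mem_cuspSet M' q hq hqM)
  constructor
  · intro s hs
    obtain ⟨y, ε, hy, hpow, hε, hdvd⟩ := r1c_side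
      (infPlaceC (IsLocalRing.ResidueField A) M')
      (nodeSetupNj A M' q hq hqM hA R hR).redInf (nodeSetupNj A M' q hq hqM hA R hR).redZero
      hiInf hiZero hoInf hle (fun i => (X.e₁ i).comp inc) (hinj X.e₁ X.inj₁)
      (fun a ha => by
        obtain ⟨z, h1, h2⟩ := hglue (inc a) 0 (fun i => by rw [map_zero]; exact ha i)
        exact ⟨z, h1, h2⟩)
      h hdiv0
      (fun c hc => (reg1c_hcount_aux M' hq haux A hA X H AlgEquiv.refl c (by
        have h1 : ((c : Fk (IsLocalRing.ResidueField A) M') :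
            LaurentSeries (IsLocalRing.ResidueField A)) =
            (ueuU (IsLocalRing.ResidueField A) q)⁻¹ := by rw [hc]; exact hser
        exact h1)).le)
      s hs.1 (le_sup_left.trans hs.2) (le_sup_right.trans hs.2)
    exact ⟨y, ε, (RingHom.mem_ker).2 hy, hpow, hε, fun z hz => hdvd z ((RingHom.mem_ker).1 hz)⟩
  · intro s hs
    obtain ⟨y, ε, hy, hpow, hε, hdvd⟩ := r1c_side
      (infPlaceC (IsLocalRing.ResidueField A) M')
      (nodeSetupNj A M' q hq hqM hA R hR).redZero (nodeSetupNj A M' q hq hqM hA R hR).redInf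
      hiZero hiInf hoZero hle (fun i => (X.e₂ i).comp inc) (hinj X.e₂ X.inj₂)
      (fun a ha => by
        obtain ⟨z, h1, h2⟩ := hglue 0 (inc a) (fun i => by rw [map_zero]; exact (ha i).symm)
        exact ⟨z, h2, h1⟩)
      h' hdivInf
      (fun c hc => (reg1c_hcount_aux M' hq haux A hA X H AlgEquiv.refl c (by
        have h1 : ((c : Fk (IsLocalRing.ResidueField A) M') :
            LaurentSeries (IsLocalRing.ResidueField A)) =
            (ueuU (IsLocalRing.ResidueField A) q)⁻¹ := by rw [hc]; exact hser'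
        exact h1)).le)
      s hs.1 (le_sup_right.trans hs.2) (le_sup_left.trans hs.2)
    exact ⟨y, ε, (RingHom.mem_ker).2 hy, hpow, hε, fun z hz => hdvd z ((RingHom.mem_ker).1 hz)⟩

end Conc

end Fermat.Agent.S36lib

end
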