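import Mathlib
import Fermat.Agent.S34lib.AffRing
import Fermat.Agent.S34lib.InfPlace
import Fermat.Agent.FFlib.FSPrimes
import Fermat.Agent.GoodRed.ModRR
import Fermat.Agent.GM.Defs
import Fermat.Agent.S36lib.Reg1Hyps
import Fermat.Agent.S36lib.Reg1Ext

/-!
# Item 83 (S36), piece R-2c (helper21): the affine ring of S34 inside `C_j = fsS k j̄`

* `reg1i_mem_fsS`: a function regular at every place where `x` is regular lies in the integral
  closure `fsS K x` of `K[x]` (place dictionary of `FFlib`);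
* `reg1i_affRing_le`: `affRing Q ⊆ fsS K x` if `x` has a pole at `Q`;
* `reg1i_affRing_le_fsS`: `affRing (infPlaceC k M') ⊆ fsS k (jk k M')`;
* `reg1iIncl`: the inclusion `ι : affRing (infPlaceC k M') →+* fsS k (jk k M')`, `reg1iVal`
  the coercion `j : fsS k (jk k M') →+* Fk k M'`, `reg1iVal_injective`, `reg1iVal_incl`
  (`j ∘ ι` is the inclusion into `Fk`), i.e. the hypotheses `ι, j, hj, hcomp` of `reg1h_hyps`
  (`Reg1Hyps.lean`) for `C = fsS k (jk k M')`;
* `reg1iIncl'`, `reg1iVal_incl'`, `reg1h_hyps'`: the same for a subalgebra `B₀` with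
  `hB : B₀ = affRing Q` (`X.B` of a `GlueData`).

USAGE (the statement must NOT be retyped by hand: the unifier is slow on the instances of
`fsS`; use `have h := …` without type ascription and feed `h.1, h.2.1, h.2.2` to `reg1x_node_inf`):
  `have h := reg1h_hyps' (K := k) (F := Fk k M') (infPlaceC k M') X.B hXB (reg1iIncl' k M' X.B hXB)
     (reg1iVal k M') (reg1iVal_injective k M') (reg1iVal_incl' k M' X.B hXB) X.e₂ X.inj₂`

All proofs complete.
-/

set_option autoImplicit false
set_option linter.style.haveILetI false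
set_option linter.unusedSectionVars false
set_option synthInstance.maxHeartbeats 400000

noncomputable section

namespace Fermat.Agent.S36lib

open AlgebraicCurve IsDedekindDomain Fermat.Agent.RRlib
open Fermat.Agent.S24lib Fermat.Agent.S34lib Fermat.Agent.FFlib Fermat.Agent.GoodRed
  Fermat.Agent.GM

section Generic

variable {K F : Type*} [Field K] [Field F] [Algebra K F] {x : F} [FFSep K x]

/-- a function regular at every place where `x` is regular lies in the integral closure of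
`K[x]`. -/
theorem reg1i_mem_fsS (a : F)
    (h : ∀ v : Place K F, x ∈ v.toValuationSubring → a ∈ v.toValuationSubring) :
    a ∈ fsS K x := by
  have hval : ∀ P : HeightOneSpectrum (fsS K x), P.valuation F a ≤ 1 := by
    intro P
    have hx : x ∈ (fsPlaceOfPrime P).toValuationSubring := by
      rw [fsPlaceOfPrime_toValuationSubring, Valuation.mem_valuationSubring_iff]
      exact P.valuation_le_one (K := F) (⟨x, fsx_mem_S⟩ : fsS K x)
    have ha := h (fsPlaceOfPrime P) hx
    rwa [fsPlaceOfPrime_toValuationSubring, Valuation.mem_valuationSubring_iff] at ha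
  obtain ⟨s, hs⟩ := HeightOneSpectrum.mem_integers_of_valuation_le_one F a hval
  rw [← hs]
  exact s.2

/-- the affine ring of a pole `Q` of `x` lies in the integral closure of `K[x]` -/
theorem reg1i_affRing_le (Q : Place K F) (hQ : x ∉ Q.toValuationSubring) (a : F)
    (ha : a ∈ affRing Q) : a ∈ fsS K x := by
  refine reg1i_mem_fsS a fun v hv => ?_
  have hvQ : v ≠ Q := fun e => hQ (e ▸ hv)
  rw [ffMem_iff_ord_nonneg]
  exact (mem_affRing_iff.1 ha) v hvQ

end Generic

section Modular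

variable (k : Type) [Field k] [IsAlgClosed k] (M' : ℕ) [NeZero M']

/-- `j̄` has a pole at `∞'` -/
theorem reg1i_jk_notMem : jk k M' ∉ (infPlaceC k M').toValuationSubring := by
  rw [infPlaceC_mem_iff]
  have h : ((jk k M' : Fk k M') : LaurentSeries k).order = -1 := inf_order_jqModC k
  rw [h]
  norm_num

/-- **`affRing(∞') ⊆ C_j`**: the functions regular off `∞'` are integral over `k[j̄]`. -/
theorem reg1i_affRing_le_fsS (a : Fk k M') (ha : a ∈ affRing (infPlaceC k M')) :
    a ∈ fsS k (jk k M') := by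
  haveI : FFSep k (jk k M') := mr_ffSep k M'
  exact reg1i_affRing_le (infPlaceC k M') (reg1i_jk_notMem k M') a ha

/-- the inclusion `affRing(∞') → C_j` -/
def reg1iIncl : affRing (infPlaceC k M') →+* fsS k (jk k M') where
  toFun a := ⟨(a : Fk k M'), reg1i_affRing_le_fsS k M' a a.2⟩
  map_one' := rfl
  map_mul' _ _ := rfl
  map_zero' := rfl
  map_add' _ _ := rfl

@[simp] theorem reg1iIncl_coe (a : affRing (infPlaceC k M')) :
    ((reg1iIncl k M' a : fsS k (jk k M')) : Fk k M') = (a : Fk k M') := rfl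

/-- the coercion `C_j → Fk` as a ring homomorphism -/
def reg1iVal : fsS k (jk k M') →+* Fk k M' where
  toFun c := (c : Fk k M')
  map_one' := rfl
  map_mul' _ _ := rfl
  map_zero' := rfl
  map_add' _ _ := rfl

@[simp] theorem reg1iVal_apply (c : fsS k (jk k M')) : reg1iVal k M' c = (c : Fk k M') := rfl

theorem reg1iVal_injective : Function.Injective (reg1iVal k M') :=
  fun _ _ h => Subtype.ext h

theorem reg1iVal_incl (a : affRing (infPlaceC k M')) :
    reg1iVal k M' (reg1iIncl k M' a) = (a : Fk k M') := rfl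

/-- the inclusion `B₀ → C_j` for a subalgebra `B₀ = affRing(∞')` (e.g. `X.B` of a `GlueData`) -/
def reg1iIncl' (B₀ : Subalgebra k (Fk k M')) (hB : B₀ = affRing (infPlaceC k M')) :
    B₀ →+* fsS k (jk k M') where
  toFun a := ⟨(a : Fk k M'), reg1i_affRing_le_fsS k M' a (hB ▸ a.2)⟩
  map_one' := rfl
  map_mul' _ _ := rfl
  map_zero' := rfl
  map_add' _ _ := rfl

@[simp] theorem reg1iIncl'_coe (B₀ : Subalgebra k (Fk k M'))
    (hB : B₀ = affRing (infPlaceC k M')) (a : B₀) :
    ((reg1iIncl' k M' B₀ hB a : fsS k (jk k M')) : Fk k M') = (a : Fk k M') := rfl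

theorem reg1iVal_incl' (B₀ : Subalgebra k (Fk k M'))
    (hB : B₀ = affRing (infPlaceC k M')) (a : B₀) :
    reg1iVal k M' (reg1iIncl' k M' B₀ hB a) = (a : Fk k M') := rfl

end Modular

section Transport

variable {K F : Type*} [Field K] [Field F] [Algebra K F]

/-- `reg1h_hyps` for a subalgebra `B₀ = affRing Q` (e.g. `X.B` of a `GlueData`, `hXB`). -/
theorem reg1h_hyps' [RRHyp K F] (Q : Place K F) (B₀ : Subalgebra K F) (hB : B₀ = affRing Q)
    {C : Type*} [CommRing C] [IsDomain C]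
    (ι : B₀ →+* C) (j : C →+* F) (hj : Function.Injective j)
    (hcomp : ∀ a : B₀, j (ι a) = (a : F))
    {n : ℕ} (e : Fin n → B₀ →ₐ[K] K) (hinj : Function.Injective e) :
    (∀ i, (RingHom.ker (e i : B₀ →+* K)).map ι = ⊤ ∨
      ((RingHom.ker (e i : B₀ →+* K)).map ι).IsMaximal) ∧
    (∀ i i', (RingHom.ker (e i : B₀ →+* K)).map ι = (RingHom.ker (e i' : B₀ →+* K)).map ι →
      (RingHom.ker (e i : B₀ →+* K)).map ι = ⊤ ∨ i = i') ∧
    (∀ i, (RingHom.ker (e i : B₀ →+* K)).map ι ≠ ⊥) := by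
  subst hB
  exact reg1h_hyps Q ι j hj hcomp e hinj

end Transport

section Pack

variable (k : Type) [Field k] [IsAlgClosed k] (M' : ℕ) [NeZero M']
variable {K : Type*} [Field K] {A : ValuationSubring K} {π : A →+* k}
  {F : Type*} [Field F] [Algebra K F]

/-- **REG1 at the level `N`, packaged, the side of `p_∞`** (`hreg1` of `r2c_hufd_inf`):
`S` a `NodeSetup` with residue field `Fk k M'`, `C ≃ C_j = fsS k (jk k M')` an abstract copy of
the coordinate ring with the two reductions `rInf, rZero : B → C`; the nodes as an injective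
family `e` of `k`-points of `B₀ = affRing(∞')` (`X.B`, `X.e₂` of the `GlueData` of S34);
`hsurj` = W-3a, `hsand` = `vsand_hglue 0 a`, `hdiv` = W-3d, `hcount` = `reg1c_hcount_aux`. -/
theorem reg1i_node_inf [RRHyp k (Fk k M')]
    (S : NodeSetup A π (Fk k M') F) [IsIntegrallyClosed S.B]
    (B₀ : Subalgebra k (Fk k M')) (hB : B₀ = affRing (infPlaceC k M'))
    {n : ℕ} (e : Fin n → B₀ →ₐ[k] k) (hinj : Function.Injective e)
    {C : Type*} [CommRing C] [IsDedekindDomain C] [Algebra k C]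
    (φ : C ≃+* fsS k (jk k M'))
    (rInf rZero : S.B →+* C)
    (hrInf : ∀ z, ((φ (rInf z) : fsS k (jk k M')) : Fk k M') = S.redInf z)
    (hrZero : ∀ z, ((φ (rZero z) : fsS k (jk k M')) : Fk k M') = S.redZero z)
    (hsurj : ∀ c : fsS k (jk k M'), ∃ z : S.B, S.redZero z = (c : Fk k M'))
    (hres : ∀ t : Ideal C, t.IsMaximal → Function.Surjective (algebraMap k (C ⧸ t)))
    (hsand : ∀ a : B₀, (∀ i, e i a = 0) →
      ∃ z : S.B, S.redZero z = (a : Fk k M') ∧ S.redInf z = 0)
    (e₀ : ℕ) (he₀ : 0 < e₀) (h' : S.B) (hdiv : S.pInf ^ e₀ ≤ Ideal.span {h'})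
    (hcount : e₀ * n ≤ Module.finrank k (C ⧸ Ideal.span {rZero h'})) :
    ∀ s : Ideal S.B, S.IsNode s →
      ∃ x ε : S.B, x ∈ S.pInf ∧ x ^ e₀ = ε * h' ∧ ε ∉ s ∧ ∀ z ∈ S.pInf, x ∣ ε * z := by
  have hφ0 : ∀ c : C, c = 0 ↔ ((φ c : fsS k (jk k M')) : Fk k M') = 0 := by
    intro c
    constructor
    · rintro rfl
      rw [map_zero]
      rfl
    · intro h
      have h1 : φ c = 0 := Subtype.ext h
      exact φ.injective (h1.trans (map_zero φ).symm)
  have hkInf : RingHom.ker rInf = S.pInf := by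
    ext z
    rw [RingHom.mem_ker, hφ0, hrInf]
    exact (RingHom.mem_ker (f := S.redInf)).symm
  have hkZero : RingHom.ker rZero = S.pZero := by
    ext z
    rw [RingHom.mem_ker, hφ0, hrZero]
    exact (RingHom.mem_ker (f := S.redZero)).symm
  have hsurj' : Function.Surjective rZero := by
    intro c
    obtain ⟨z, hz⟩ := hsurj (φ c)
    refine ⟨z, φ.injective (Subtype.ext ?_)⟩
    rw [hrZero, hz]
  have h := reg1h_hyps' (K := k) (F := Fk k M') (infPlaceC k M') B₀ hB
     ((φ.symm : fsS k (jk k M') →+* C).comp (reg1iIncl' k M' B₀ hB))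
     ((reg1iVal k M').comp (φ : C →+* fsS k (jk k M')))
     (fun a b hab => φ.injective (reg1iVal_injective k M' hab))
     (fun a => by
       show reg1iVal k M' (φ (φ.symm (reg1iIncl' k M' B₀ hB a))) = _
       rw [RingEquiv.apply_symm_apply]
       rfl) e hinj
  have hsand' : ∀ a ∈ ⨅ i, RingHom.ker (e i : B₀ →+* k),
      ∃ z : S.B, rZero z = ((φ.symm : fsS k (jk k M') →+* C).comp (reg1iIncl' k M' B₀ hB)) a ∧
        rInf z = 0 := by
    intro a ha
    have ha' : ∀ i, e i a = 0 := fun i => (RingHom.mem_ker).1 ((Ideal.mem_iInf).1 ha i)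
    obtain ⟨z, hz1, hz2⟩ := hsand a ha'
    refine ⟨z, φ.injective (Subtype.ext ?_), (hφ0 _).2 ?_⟩
    · rw [hrZero, hz1]
      show (a : Fk k M') = ((φ (φ.symm (reg1iIncl' k M' B₀ hB a)) : fsS k (jk k M')) : Fk k M')
      rw [RingEquiv.apply_symm_apply]
      rfl
    · rw [hrInf, hz2]
  obtain ⟨-, h2⟩ := reg1x_node_inf (k := k) S rInf rZero hkInf hkZero hsurj'
    ((φ.symm : fsS k (jk k M') →+* C).comp (reg1iIncl' k M' B₀ hB))
    (fun i => RingHom.ker (e i : B₀ →+* k)) h.1 h.2.1 h.2.2 hres hsand'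
    e₀ he₀ h' hdiv hcount
  intro s hs
  obtain ⟨x, ε, h1, h2, h3, h4, -⟩ := h2 s hs
  exact ⟨x, ε, h1, h2, h3, h4⟩

/-- **REG1 at the level `N`, packaged, the side of `p_0`** (`hreg1` of `r2c_hufd_zero` /
`reg2_hufd_zero`): the same with the roles of `∞` and `0` exchanged (`e = X.e₁`). -/
theorem reg1i_node_zero [RRHyp k (Fk k M')]
    (S : NodeSetup A π (Fk k M') F) [IsIntegrallyClosed S.B]
    (B₀ : Subalgebra k (Fk k M')) (hB : B₀ = affRing (infPlaceC k M'))
    {n : ℕ} (e : Fin n → B₀ →ₐ[k] k) (hinj : Function.Injective e)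
    {C : Type*} [CommRing C] [IsDedekindDomain C] [Algebra k C]
    (φ : C ≃+* fsS k (jk k M'))
    (rInf rZero : S.B →+* C)
    (hrInf : ∀ z, ((φ (rInf z) : fsS k (jk k M')) : Fk k M') = S.redInf z)
    (hrZero : ∀ z, ((φ (rZero z) : fsS k (jk k M')) : Fk k M') = S.redZero z)
    (hsurj : ∀ c : fsS k (jk k M'), ∃ z : S.B, S.redInf z = (c : Fk k M'))
    (hres : ∀ t : Ideal C, t.IsMaximal → Function.Surjective (algebraMap k (C ⧸ t)))
    (hsand : ∀ a : B₀, (∀ i, e i a = 0) →
      ∃ z : S.B, S.redInf z = (a : Fk k M') ∧ S.redZero z = 0)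
    (e₀ : ℕ) (he₀ : 0 < e₀) (h : S.B) (hdiv : S.pZero ^ e₀ ≤ Ideal.span {h})
    (hcount : e₀ * n ≤ Module.finrank k (C ⧸ Ideal.span {rInf h})) :
    ∀ s : Ideal S.B, S.IsNode s →
      ∃ y ε : S.B, y ∈ S.pZero ∧ y ^ e₀ = ε * h ∧ ε ∉ s ∧ ∀ z ∈ S.pZero, y ∣ ε * z := by
  have hφ0 : ∀ c : C, c = 0 ↔ ((φ c : fsS k (jk k M')) : Fk k M') = 0 := by
    intro c
    constructor
    · rintro rfl
      rw [map_zero]
      rfl
    · intro h
      have h1 : φ c = 0 := Subtype.ext h
      exact φ.injective (h1.trans (map_zero φ).symm)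
  have hkInf : RingHom.ker rInf = S.pInf := by
    ext z
    rw [RingHom.mem_ker, hφ0, hrInf]
    exact (RingHom.mem_ker (f := S.redInf)).symm
  have hkZero : RingHom.ker rZero = S.pZero := by
    ext z
    rw [RingHom.mem_ker, hφ0, hrZero]
    exact (RingHom.mem_ker (f := S.redZero)).symm
  have hsurj' : Function.Surjective rInf := by
    intro c
    obtain ⟨z, hz⟩ := hsurj (φ c)
    refine ⟨z, φ.injective (Subtype.ext ?_)⟩
    rw [hrInf, hz]
  have hh := reg1h_hyps' (K := k) (F := Fk k M') (infPlaceC k M') B₀ hB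
     ((φ.symm : fsS k (jk k M') →+* C).comp (reg1iIncl' k M' B₀ hB))
     ((reg1iVal k M').comp (φ : C →+* fsS k (jk k M')))
     (fun a b hab => φ.injective (reg1iVal_injective k M' hab))
     (fun a => by
       show reg1iVal k M' (φ (φ.symm (reg1iIncl' k M' B₀ hB a))) = _
       rw [RingEquiv.apply_symm_apply]
       rfl) e hinj
  have hsand' : ∀ a ∈ ⨅ i, RingHom.ker (e i : B₀ →+* k),
      ∃ z : S.B, rInf z = ((φ.symm : fsS k (jk k M') →+* C).comp (reg1iIncl' k M' B₀ hB)) a ∧
        rZero z = 0 := by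
    intro a ha
    have ha' : ∀ i, e i a = 0 := fun i => (RingHom.mem_ker).1 ((Ideal.mem_iInf).1 ha i)
    obtain ⟨z, hz1, hz2⟩ := hsand a ha'
    refine ⟨z, φ.injective (Subtype.ext ?_), (hφ0 _).2 ?_⟩
    · rw [hrInf, hz1]
      show (a : Fk k M') = ((φ (φ.symm (reg1iIncl' k M' B₀ hB a)) : fsS k (jk k M')) : Fk k M')
      rw [RingEquiv.apply_symm_apply]
      rfl
    · rw [hrZero, hz2]
  obtain ⟨-, h2⟩ := reg1x_node_zero (k := k) S rInf rZero hkInf hkZero hsurj'
    ((φ.symm : fsS k (jk k M') →+* C).comp (reg1iIncl' k M' B₀ hB))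
    (fun i => RingHom.ker (e i : B₀ →+* k)) hh.1 hh.2.1 hh.2.2 hres hsand'
    e₀ he₀ h hdiv hcount
  intro s hs
  obtain ⟨x, ε, h1, h2, h3, h4, -⟩ := h2 s hs
  exact ⟨x, ε, h1, h2, h3, h4⟩

end Pack

end Fermat.Agent.S36lib


end
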