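/-
Item 83 (S36), block REG, piece R-1 part 1 (helper24): the Atkin–Lehner map on the upper half
plane WITH its action on the modular unit `u_q = Δ(qz)/Δ(z)`:
`u_q (W z) = q⁻¹² · (u_q z)⁻¹`.  Helper lemmas are prefixed `unitQ_`.
-/
import Mathlib
import Fermat.Agent.S34lib.VAtkinLehnerH
import Fermat.Agent.S28lib.UnitWH
import Fermat.Agent.S36lib.Speed

set_option autoImplicit false

open UpperHalfPlane ModularForm CongruenceSubgroup
open scoped MatrixGroups

namespace Fermat.Agent.S36lib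

open Fermat.Agent.S24lib Fermat.Agent.S20lib Fermat.Agent.S34lib Fermat.Agent.S28lib

/-- **the Atkin–Lehner map on `ℍ`, with the transformation of the modular unit** -/
theorem unitQ_exists_alH (N q : ℕ) [NeZero N] (hq : q.Prime) (hqN : q ∣ N) (hq2 : ¬ q ^ 2 ∣ N) :
    ∃ W : ℍ → ℍ, (∀ d : ℕ, d ∣ N → ∀ z : ℍ, jdH d (W z) = jdH (alSwap q d) z) ∧
      ∀ z : ℍ, uH q (W z) = ((q : ℂ) ^ 12)⁻¹ * (uH q z)⁻¹ := by
  obtain ⟨N', rfl⟩ := hqN
  have hN'0 : N' ≠ 0 := fun h => NeZero.ne (q * N') (by rw [h, mul_zero])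
  haveI : NeZero N' := ⟨hN'0⟩
  haveI : NeZero q := ⟨hq.ne_zero⟩
  have hqN' : ¬ q ∣ N' := fun h => hq2 (by rw [pow_two]; exact mul_dvd_mul_left q h)
  have hcop : IsCoprime (q : ℤ) (N' : ℤ) :=
    Nat.isCoprime_iff_coprime.mpr ((Nat.Prime.coprime_iff_not_dvd hq).mpr hqN')
  obtain ⟨u, b, hub⟩ := hcop
  let g : SL(2, ℤ) := ⟨!![1, 1; -(N' * b), q * u], by
    rw [Matrix.det_fin_two_of]; linear_combination hub⟩
  let g' : SL(2, ℤ) := ⟨!![q, 1; -(N' * b), u], by
    rw [Matrix.det_fin_two_of]; linear_combination hub⟩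
  have hg : g ∈ Gamma0 N' := by
    rw [Gamma0_mem]
    show (((-(N' * b) : ℤ)) : ZMod N') = 0
    push_cast
    simp
  have hg' : g' ∈ Gamma0 N' := by
    rw [Gamma0_mem]
    show (((-(N' * b) : ℤ)) : ZMod N') = 0
    push_cast
    simp
  have h00 : g 0 0 = 1 := rfl
  have h01 : g 0 1 = 1 := rfl
  have h10 : g 1 0 = -(N' * b) := rfl
  have h11 : g 1 1 = q * u := rfl
  have h00' : g' 0 0 = q := rfl
  have h01' : g' 0 1 = 1 := rfl
  have h10' : g' 1 0 = -(N' * b) := rfl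
  have h11' : g' 1 1 = u := rfl
  have hq0 : (q : ℂ) ≠ 0 := Nat.cast_ne_zero.mpr hq.ne_zero
  have hden2 : ∀ z : ℍ, (((-(N' * b) : ℤ)) : ℂ) * (z : ℂ) + ((u : ℤ) : ℂ) ≠ 0 := fun z =>
    dist_lin_ne_zero _ _ (by
      by_contra hcon
      rw [not_or, not_not, not_not] at hcon
      have h1 : (N' : ℤ) * b = 0 := by linarith [hcon.1]
      rw [hcon.2] at hub
      have : b * (N' : ℤ) = 0 := by rw [mul_comm]; exact h1
      rw [this] at hub
      simp at hub) z
  have hden1 : ∀ z : ℍ,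
      (((-(N' * b) : ℤ)) : ℂ) * ((q : ℂ) * (z : ℂ)) + (((q * u : ℤ)) : ℂ) =
        (q : ℂ) * ((((-(N' * b) : ℤ)) : ℂ) * (z : ℂ) + ((u : ℤ) : ℂ)) := fun z => by
    push_cast; ring
  have hkey : ∀ z : ℍ, nmulH q (g • nmulH q z) = g' • z := by
    intro z
    apply UpperHalfPlane.ext
    rw [coe_nmulH, UpperHalfPlane.coe_specialLinearGroup_apply,
      UpperHalfPlane.coe_specialLinearGroup_apply, coe_nmulH]
    simp only [algebraMap_int_eq, eq_intCast, Complex.ofReal_intCast]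
    rw [h00, h01, h10, h11, h00', h01', h10', h11']
    have hd1 : (((-(N' * b) : ℤ)) : ℂ) * ((q : ℂ) * (z : ℂ)) + (((q * u : ℤ)) : ℂ) ≠ 0 := by
      rw [hden1 z]
      exact mul_ne_zero hq0 (hden2 z)
    rw [mul_div_assoc', div_eq_div_iff hd1 (hden2 z)]
    push_cast
    ring
  refine ⟨fun z => g • nmulH q z, fun d hd z => ?_, fun z => ?_⟩
  · have hd0 : d ≠ 0 := fun h => by rw [h, zero_dvd_iff] at hd; exact NeZero.ne _ hd
    haveI : NeZero d := ⟨hd0⟩
    haveI : NeZero (alSwap q d) := ⟨alSwap_ne_zero hq hd0⟩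
    rw [val_jdH_eq, val_jdH_eq]
    by_cases h : q ∣ d
    · obtain ⟨d', rfl⟩ := h
      have hd'0 : d' ≠ 0 := fun h => hd0 (by rw [h, mul_zero])
      haveI : NeZero d' := ⟨hd'0⟩
      have hd' : d' ∣ N' := (Nat.mul_dvd_mul_iff_left hq.pos).mp hd
      have e1 : alSwap q (q * d') = d' := by
        rw [alSwap_of_dvd (Dvd.intro d' rfl)]
        exact Nat.mul_div_cancel_left d' hq.pos
      have e2 : nmulH (q * d') (g • nmulH q z) = nmulH d' (g' • z) := by
        rw [← hkey z]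
        haveI : NeZero (d' * q) := ⟨mul_ne_zero hd'0 hq.ne_zero⟩
        rw [val_nmulH_nmulH d' q]
        apply UpperHalfPlane.ext
        rw [coe_nmulH, coe_nmulH]
        push_cast
        ring
      rw [e2, jd_raw_smul_Gamma0 hd' g' hg' z]
      congr 1
      apply UpperHalfPlane.ext
      rw [coe_nmulH, coe_nmulH, e1]
    · have hd' : d ∣ N' :=
        (Nat.Coprime.dvd_mul_left ((Nat.Prime.coprime_iff_not_dvd hq).mpr h).symm).mp hd
      have e1 : alSwap q d = d * q := alSwap_of_not_dvd h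
      rw [jd_raw_smul_Gamma0 hd' g hg (nmulH q z)]
      haveI : NeZero (d * q) := ⟨mul_ne_zero hd0 hq.ne_zero⟩
      rw [val_nmulH_nmulH d q]
      congr 1
      apply UpperHalfPlane.ext
      rw [coe_nmulH, coe_nmulH, e1]
  · -- the modular unit
    show uH q (g • nmulH q z) = ((q : ℂ) ^ 12)⁻¹ * (uH q z)⁻¹
    rw [uH_eq, uH_eq, hkey z, uw_discriminant_smul g' z, uw_discriminant_smul g (nmulH q z)]
    have hΔ1 : discriminant z ≠ 0 := discriminant_ne_zero z
    have hΔ2 : discriminant (nmulH q z) ≠ 0 := discriminant_ne_zero _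
    have e1 : denom g' z = (((-(N' * b) : ℤ)) : ℂ) * (z : ℂ) + ((u : ℤ) : ℂ) := by
      rw [ModularGroup.denom_apply, h10', h11']
    have e2 : denom g (nmulH q z) =
        (q : ℂ) * ((((-(N' * b) : ℤ)) : ℂ) * (z : ℂ) + ((u : ℤ) : ℂ)) := by
      rw [← hden1 z, ModularGroup.denom_apply, h10, h11, coe_nmulH]
    rw [e1, e2]
    have hd2 := hden2 z
    field_simp

end Fermat.Agent.S36lib
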