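/-
Item 83 (S36), block REG, piece R-1 (helper24): the modular unit `u_d = Δ(dz)/Δ(z)` in `FF N`.

* `unitQ N d hd : FF N`, with `q`-expansion `coeffEmb (udq d)`; `unitQ_ne_zero`;
* `unitQ_mem_f0Field`: it lies in `F0(N)` (as every element coming from the function field
  over `ℚ`: `unitQ_rat_mem_f0Field`);
* `ιF_unitQ`: on the upper half plane it is `uWH N d hd`;
* `unitQ_mem_cuspRegular`, `unitQ_inv_mem_cuspRegular`: `u_d` and `u_d⁻¹` are regular off the
  cusps (`unitQ_bc_mem_cuspRegular`: so is every element integral over `ℚ[j]`);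
* `atkinLehnerFF_unitQ`: for `q ‖ N`, `w_q (u_q) = q⁻¹² · u_q⁻¹`.
Helper lemmas are prefixed `unitQ_`.
-/
import Mathlib
import Fermat.Agent.S28lib.Unit
import Fermat.Agent.S34lib.VAtkinLehner
import Fermat.Agent.S36lib.UnitQH
import Fermat.Agent.S36lib.SetupK0

set_option autoImplicit false
set_option linter.unusedSectionVars false

open UpperHalfPlane CongruenceSubgroup
open scoped MatrixGroups

noncomputable section

namespace Fermat.Agent.S36lib

open ModularCurve ModularCurve.IgusaScheme AlgebraicCurve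
open Fermat.Agent.S24lib Fermat.Agent.S20lib Fermat.Agent.S34lib Fermat.Agent.S28lib

variable (N : ℕ) [NeZero N]

/-! ### the base change of rational functions -/

/-- the base change `F_{N,ℚ} → FF N` -/
def unitQ_bc : ↥(modularFunctionFieldFull N) →+* FF N where
  toFun z := ⟨coeffEmb Kbar (z : LaurentSeries ℚ), coeffEmb_mem_laurentBaseChange Kbar z.2⟩
  map_one' := Subtype.ext (map_one (coeffEmb Kbar))
  map_mul' x y := Subtype.ext (map_mul (coeffEmb Kbar) _ _)
  map_zero' := Subtype.ext (map_zero (coeffEmb Kbar))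
  map_add' x y := Subtype.ext (map_add (coeffEmb Kbar) _ _)

theorem coe_unitQ_bc (z : ↥(modularFunctionFieldFull N)) :
    ((unitQ_bc N z : FF N) : LaurentSeries Kbar) = coeffEmb Kbar (z : LaurentSeries ℚ) := rfl

theorem unitQ_bc_jFull : unitQ_bc N (jFull N) = jF N := rfl

theorem unitQ_bc_mk (z : LaurentSeries ℚ) (hz : z ∈ modularFunctionFieldFull N) :
    ((unitQ_bc N ⟨z, hz⟩ : FF N) : LaurentSeries Kbar) = coeffEmb Kbar z := rfl

theorem unitQ_bc_const (c : ℚ) (hz : algebraMap ℚ (LaurentSeries ℚ) c ∈ modularFunctionFieldFull N) :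
    unitQ_bc N ⟨algebraMap ℚ (LaurentSeries ℚ) c, hz⟩ =
      algebraMap Kbar (FF N) (algebraMap ℚ Kbar c) := by
  apply Subtype.ext
  rw [unitQ_bc_mk]
  show coeffEmb Kbar (algebraMap ℚ (LaurentSeries ℚ) c) =
    algebraMap Kbar (LaurentSeries Kbar) (algebraMap ℚ Kbar c)
  rw [algebraMap_apply_eq_single, algebraMap_laurentSeries_eq_single]
  unfold coeffEmb
  rw [coeffMap_single]

theorem unitQ_bc_algebraMap (c : ℚ) :
    unitQ_bc N (algebraMap ℚ ↥(modularFunctionFieldFull N) c) =
      algebraMap Kbar (FF N) (algebraMap ℚ Kbar c) :=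
  RingHom.congr_fun (Subsingleton.elim
    ((unitQ_bc N).comp (algebraMap ℚ ↥(modularFunctionFieldFull N)))
    ((algebraMap Kbar (FF N)).comp (algebraMap ℚ Kbar))) c

/-- elements integral over `ℚ[j]` are regular off the cusps -/
theorem unitQ_bc_mem_cuspRegular (x : ↥(modularFunctionFieldFull N))
    (hx : IsIntegral ↥(Algebra.adjoin ℚ {jFull N}) x) : unitQ_bc N x ∈ cuspRegular N := by
  rw [mem_cuspRegular_iff]
  intro P hj
  have hmem : ∀ y : ↥(Algebra.adjoin ℚ {jFull N}),
      unitQ_bc N (y : ↥(modularFunctionFieldFull N)) ∈ P.toValuationSubring := by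
    rintro ⟨y, hy⟩
    induction hy using Algebra.adjoin_induction with
    | mem z hz =>
      rw [Set.mem_singleton_iff] at hz
      subst hz
      exact hj
    | algebraMap r =>
      show unitQ_bc N (algebraMap ℚ ↥(modularFunctionFieldFull N) r) ∈ P.toValuationSubring
      rw [unitQ_bc_algebraMap]
      exact P.algebraMap_mem' _
    | add a b _ _ iha ihb =>
      show unitQ_bc N (a + b) ∈ P.toValuationSubring
      rw [map_add]
      exact add_mem iha ihb
    | mul a b _ _ iha ihb =>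
      show unitQ_bc N (a * b) ∈ P.toValuationSubring
      rw [map_mul]
      exact mul_mem iha ihb
  let ψ : ↥(Algebra.adjoin ℚ {jFull N}) →+* ↥P.toValuationSubring :=
    RingHom.codRestrict ((unitQ_bc N).comp (Algebra.adjoin ℚ {jFull N}).val.toRingHom)
      P.toValuationSubring hmem
  have hint : IsIntegral ↥P.toValuationSubring (unitQ_bc N x) :=
    IsIntegral.map_of_comp_eq ψ (unitQ_bc N) (RingHom.ext fun y => rfl) hx
  obtain ⟨y, hy⟩ := IsIntegrallyClosed.isIntegral_iff.mp hint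
  rw [← hy]
  exact y.2

/-! ### rational functions lie in `F0(N)` -/

/-- every element of `FF N` coming from the function field over `ℚ` lies in `F0(N)` -/
theorem unitQ_rat_mem_f0Field (A : ValuationSubring Kbar) (z : ↥(modularFunctionFieldFull N)) :
    unitQ_bc N z ∈ f0Field A N := by
  obtain ⟨z, hz⟩ := z
  have hz' : z ∈ Subfield.closure (Set.range (algebraMap ℚ (LaurentSeries ℚ)) ∪
      divisorExpansions N) := hz
  induction hz' using Subfield.closure_induction with
  | mem y hy =>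
    rcases hy with ⟨c, rfl⟩ | ⟨d, hd0, hd, rfl⟩
    · rw [unitQ_bc_const]
      exact const_mem_f0Field A N (algebraMap ℚ (k0Field A) c)
    · have := hd0
      exact jdF_mem_f0Field A N d hd
  | one =>
    have : unitQ_bc N ⟨1, hz⟩ = 1 := by
      apply Subtype.ext
      rw [unitQ_bc_mk, map_one]
      rfl
    rw [this]
    exact one_mem _
  | add x y hx hy ihx ihy =>
    have hx' : x ∈ modularFunctionFieldFull N := hx
    have hy' : y ∈ modularFunctionFieldFull N := hy
    have : unitQ_bc N ⟨x + y, hz⟩ = unitQ_bc N ⟨x, hx'⟩ + unitQ_bc N ⟨y, hy'⟩ := by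
      apply Subtype.ext
      rw [unitQ_bc_mk, map_add]
      rfl
    rw [this]
    exact add_mem (ihx hx') (ihy hy')
  | neg x hx ihx =>
    have hx' : x ∈ modularFunctionFieldFull N := hx
    have : unitQ_bc N ⟨-x, hz⟩ = -unitQ_bc N ⟨x, hx'⟩ := by
      apply Subtype.ext
      rw [unitQ_bc_mk, map_neg]
      rfl
    rw [this]
    exact neg_mem (ihx hx')
  | inv x hx ihx =>
    have hx' : x ∈ modularFunctionFieldFull N := hx
    have : unitQ_bc N ⟨x⁻¹, hz⟩ = (unitQ_bc N ⟨x, hx'⟩)⁻¹ := by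
      apply Subtype.ext
      rw [unitQ_bc_mk, map_inv₀]
      rfl
    rw [this]
    exact inv_mem (ihx hx')
  | mul x y hx hy ihx ihy =>
    have hx' : x ∈ modularFunctionFieldFull N := hx
    have hy' : y ∈ modularFunctionFieldFull N := hy
    have : unitQ_bc N ⟨x * y, hz⟩ = unitQ_bc N ⟨x, hx'⟩ * unitQ_bc N ⟨y, hy'⟩ := by
      apply Subtype.ext
      rw [unitQ_bc_mk, map_mul]
      rfl
    rw [this]
    exact mul_mem (ihx hx') (ihy hy')

/-! ### the modular unit -/

variable (d : ℕ) [NeZero d] (hd : d ∣ N)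

include hd in
theorem unitQ_udq_mem : udq d ∈ modularFunctionFieldFull N :=
  udq_mem_of N d (uWH N d hd) (fun γ hγ => smul_uWH hd γ hγ) (expInf_uWH N d hd)

/-- the modular unit over `ℚ` -/
def unitQ0 : ↥(modularFunctionFieldFull N) := ⟨udq d, unitQ_udq_mem N d hd⟩

/-- **the modular unit `u_d = Δ(dz)/Δ(z)`** in `FF N` -/
def unitQ : FF N := unitQ_bc N (unitQ0 N d hd)

theorem coe_unitQ : ((unitQ N d hd : FF N) : LaurentSeries Kbar) = coeffEmb Kbar (udq d) := rfl

theorem unitQ0_ne_zero : unitQ0 N d hd ≠ 0 := fun h =>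
  udq_ne_zero d (congrArg Subtype.val h)

theorem unitQ_ne_zero : unitQ N d hd ≠ 0 :=
  (map_ne_zero_iff (unitQ_bc N) (unitQ_bc N).injective).mpr (unitQ0_ne_zero N d hd)

theorem unitQ_mem_f0Field (A : ValuationSubring Kbar) : unitQ N d hd ∈ f0Field A N :=
  unitQ_rat_mem_f0Field N A _

theorem unitQ_inv_mem_f0Field (A : ValuationSubring Kbar) : (unitQ N d hd)⁻¹ ∈ f0Field A N :=
  inv_mem (unitQ_mem_f0Field N d hd A)

/-- on the upper half plane `u_d` is `uWH N d hd` -/
theorem ιF_unitQ : ιF N (unitQ N d hd) = algebraMap (WH N) (MF N) (uWH N d hd) := by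
  apply ιF_eq_algebraMap
  rw [expInf_uWH N d hd, coe_unitQ, inclL_coeffEmb]

theorem unitQ_mem_cuspRegular : unitQ N d hd ∈ cuspRegular N :=
  unitQ_bc_mem_cuspRegular N _
    (isIntegral_of_WH N (unitQ0 N d hd) (uWH N d hd) (uWH_mem_KRat N d hd)
      (fun γ hγ => smul_uWH hd γ hγ) (expInf_uWH N d hd))

theorem unitQ_inv_mem_cuspRegular : (unitQ N d hd)⁻¹ ∈ cuspRegular N := by
  have h := unitQ_bc_mem_cuspRegular N (unitQ0 N d hd)⁻¹
    (isIntegral_of_WH N (unitQ0 N d hd)⁻¹ (uWHinv N d hd) (uWHinv_mem_KRat N d hd)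
      (fun γ hγ => smul_uWHinv hd γ hγ) (expInf_uWHinv N d hd))
  rwa [map_inv₀] at h

/-! ### the Atkin–Lehner involution -/

theorem unitQ_wh_ext {a b : WH N} (h : ∀ z : ℍ, val_evz N z a = val_evz N z b) : a = b :=
  Subtype.ext (funext h)

/-- **`w_q (u_q) = q⁻¹² · u_q⁻¹`** for `q ‖ N` -/
theorem atkinLehnerFF_unitQ (q : ℕ) [NeZero q] (hq : q.Prime) (hqN : q ∣ N)
    (hq2 : ¬ q ^ 2 ∣ N) :
    atkinLehnerFF N q hq hqN hq2 (unitQ N q hqN) =
      algebraMap Kbar (FF N) (((q : Kbar) ^ 12)⁻¹) * (unitQ N q hqN)⁻¹ := by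
  obtain ⟨W, hW, hWu⟩ := unitQ_exists_alH N q hq hqN hq2
  obtain ⟨x, y, hy, hxy⟩ := val_surj N (unitQ N q hqN)
  obtain ⟨P, rfl⟩ := val_mk_surjective N x
  obtain ⟨Q, rfl⟩ := val_mk_surjective N y
  rw [val_incl_mk] at hy
  rw [val_incl_mk, val_incl_mk] at hxy
  set σ := val_σ N q hq hqN with hσ
  set c : Kbar := ((q : Kbar) ^ 12)⁻¹ with hc
  have hιc : ιC c = ((q : ℂ) ^ 12)⁻¹ := by
    rw [hc, map_inv₀, map_pow, map_natCast]
  have hu0 : unitQ N q hqN ≠ 0 := unitQ_ne_zero N q hqN
  -- the relation in `WH N`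
  have h1 : uWH N q hqN * val_ψ N Q = val_ψ N P := by
    apply IsFractionRing.injective (WH N) (MF N)
    rw [map_mul, ← ιF_unitQ, ← val_ιF_φ, ← val_ιF_φ, ← map_mul, hxy]
  have hren : ∀ (R : MvPolynomial (DivIdx N) Kbar) (z : ℍ),
      val_evz N z (val_ψ N (MvPolynomial.rename σ R)) = val_evz N (W z) (val_ψ N R) := by
    intro R z
    rw [val_evz_ψ, val_evz_ψ, MvPolynomial.eval₂_rename]
    have e : (fun d : DivIdx N => jdH d.1 z) ∘ σ = fun d : DivIdx N => jdH d.1 (W z) := by
      funext d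
      exact (hW d.1 d.2 z).symm
    rw [e]
  -- the transformed relation in `WH N`
  have h4 : whC N (ιC c) * val_ψ N (MvPolynomial.rename σ Q) =
      uWH N q hqN * val_ψ N (MvPolynomial.rename σ P) := by
    apply unitQ_wh_ext
    intro z
    rw [map_mul, map_mul, hren, hren]
    have h2 := congrArg (val_evz N (W z)) h1
    rw [map_mul] at h2
    rw [← h2]
    have e1 : val_evz N (W z) (uWH N q hqN) = uH q (W z) := by
      rw [val_evz_apply, coe_uWH]
    have e2 : val_evz N z (uWH N q hqN) = uH q z := by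
      rw [val_evz_apply, coe_uWH]
    have e3 : val_evz N z (whC N (ιC c)) = ιC c := by
      rw [val_evz_apply, whC_apply]
    rw [e1, e2, e3, hWu z, hιc]
    have hne : uH q z ≠ 0 := uH_ne_zero q z
    field_simp
  -- back in `FF N`
  have h5 : algebraMap Kbar (FF N) c * val_φ N (MvPolynomial.rename σ Q) =
      unitQ N q hqN * val_φ N (MvPolynomial.rename σ P) := by
    apply (ιF N).injective
    rw [map_mul, map_mul, ιF_const, ιF_unitQ, val_ιF_φ, val_ιF_φ, ← map_mul, ← map_mul, h4]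
  -- the Atkin–Lehner involution on polynomials
  have hw : ∀ R : MvPolynomial (DivIdx N) Kbar,
      atkinLehnerFF N q hq hqN hq2 (val_φ N R) = val_φ N (MvPolynomial.rename σ R) := by
    intro R
    rw [atkinLehnerFF_apply, ← val_incl_mk, val_w_incl, val_swapR_mk, val_incl_mk]
  have hQ0 : val_φ N (MvPolynomial.rename σ Q) ≠ 0 := by
    rw [← hw]
    exact (map_ne_zero_iff _ (atkinLehnerFF N q hq hqN hq2).injective).mpr hy
  have h6 : atkinLehnerFF N q hq hqN hq2 (unitQ N q hqN) *
      val_φ N (MvPolynomial.rename σ Q) = val_φ N (MvPolynomial.rename σ P) := by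
    rw [← hw, ← hw, ← map_mul, hxy]
  have h7 : unitQ N q hqN * atkinLehnerFF N q hq hqN hq2 (unitQ N q hqN) =
      algebraMap Kbar (FF N) c := by
    apply mul_right_cancel₀ hQ0
    rw [mul_assoc, h6, ← h5]
  rw [← h7]
  field_simp

end Fermat.Agent.S36lib

end
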