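/-
Item 83 (S36), block REG, piece R-1 follow-up = W-3d (helper24): **the modular unit in the
setup of level `N = M' q`**.

`u = unitQ N q = Δ(qz)/Δ(z)`, `N = M' q`, `q ∤ M'`; `R` a constant reduction of `FF N` with
`IsSeriesRed R`, `w = w_q = alW1`.

* `uqr_coe_unitQ`: the `q`-expansion of `u_d` is the `A`-integral series `ueuU A d`;
* `uqr_mem_O`, `uqr_red`, `uqr_inv_mem_O`, `uqr_inv_red`: `u_d` is a unit of `O∞` with reduction
  `ueuU k d` (for every level `N`, `d ∣ N`);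
* `uqrH = u⁻¹`, `uqrH' = q¹² u` (elements of `F0(N)`), `uqrH_mem_B`, `uqrH'_mem_B`: they lie in
  `B_j(N)` (`nodeSetupNj`);
* **`uqr_hdiv0 : p_0 ^ 12 ≤ (h)`**, **`uqr_hdivInf : p_∞ ^ 12 ≤ (h')`** in `B_j(N)`
  (the hypotheses `hdiv0`, `hdivInf` of `reg1_node`, `e = 12`);
* `uqr_redInf_h`, `uqr_redZero_h'`: `red_∞ h = red_0 h' = (ueuU k q)⁻¹` (the series of the count
  `reg1c_hcount`).
-/
import Mathlib
import Fermat.Agent.S36lib.UnitQ
import Fermat.Agent.S16lib.UEUnitF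
import Fermat.Agent.S36lib.TheSetup
import Fermat.Agent.S36lib.VArch
import Fermat.Agent.S36lib.ALF0
import Fermat.Agent.S36lib.Reg2

set_option autoImplicit false
set_option linter.style.haveILetI false
set_option linter.unusedSectionVars false
set_option linter.unusedVariables false
set_option synthInstance.maxHeartbeats 400000

noncomputable section

namespace Fermat.Agent.S36lib

open ModularCurve AlgebraicCurve
open Fermat.Agent.S24lib Fermat.Agent.S34lib Fermat.Agent.GoodRed Fermat.Agent.GM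
open Fermat.Agent.S28lib Fermat.Agent.S16lib

section Series

variable (N : ℕ) [NeZero N] (d : ℕ) [NeZero d] (A : ValuationSubring Kbar)

/-- the `q`-expansion of `u_d` is `A`-integral -/
theorem uqr_coe_unitQ (hd : d ∣ N) :
    ((unitQ N d hd : FF N) : LaurentSeries Kbar) = coeffMap A.subtype (ueuU A d) := by
  rw [coe_unitQ, ← ueuU_rat, coeffMap_ueuU]
  show coeffMap (algebraMap ℚ Kbar) (ueuU ℚ d) = _
  rw [coeffMap_ueuU]

theorem uqr_mem_bar (hd : d ∣ N) :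
    coeffMap A.subtype (ueuU A d) ∈ modularFunctionFieldBar N := by
  rw [← uqr_coe_unitQ N d A hd]
  exact (unitQ N d hd).2

theorem uqr_unitQ_eq (hd : d ∣ N) :
    unitQ N d hd = ⟨coeffMap A.subtype (ueuU A d), uqr_mem_bar N d A hd⟩ :=
  Subtype.ext (uqr_coe_unitQ N d A hd)

/-- `ueuU` is nonzero over a field -/
theorem uqr_ueuU_ne_zero (k : Type*) [Field k] (p : ℕ) [NeZero p] : ueuU k p ≠ 0 := by
  intro h
  have h1 := ueuU_mul_delta k p
  rw [h, zero_mul] at h1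
  have h2 : ueuDelta k = 0 := qExpand_injective (R := k) p (by rw [← h1, map_zero])
  have h3 := ueuDelta_mul_inv k
  rw [h2, zero_mul] at h3
  exact zero_ne_one h3

variable {N d A}
variable {Fk : IntermediateField (IsLocalRing.ResidueField A)
  (LaurentSeries (IsLocalRing.ResidueField A))}
  {R : ConstRed A (IsLocalRing.residue A) (↥Fk) (FF N)}

/-- `u_d ∈ O∞` -/
theorem uqr_mem_O (hd : d ∣ N) (hR : IsSeriesRed R) : unitQ N d hd ∈ R.O := by
  rw [uqr_unitQ_eq N d A hd]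
  exact hR.mem _ _

/-- the reduction of `u_d` is `ueuU k d` -/
theorem uqr_red (hd : d ∣ N) (hR : IsSeriesRed R) :
    ((R.red ⟨unitQ N d hd, uqr_mem_O hd hR⟩ : ↥Fk) :
      LaurentSeries (IsLocalRing.ResidueField A)) = ueuU (IsLocalRing.ResidueField A) d := by
  have h := (hR.red (ueuU A d) (uqr_mem_bar N d A hd)).trans
    (coeffMap_ueuU (IsLocalRing.residue A) d)
  rw [← h]
  congr 2
  exact Subtype.ext (uqr_unitQ_eq N d A hd)

/-- `u_d⁻¹ ∈ O∞` -/
theorem uqr_inv_mem_O (hd : d ∣ N) (hR : IsSeriesRed R) : (unitQ N d hd)⁻¹ ∈ R.O := by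
  rw [uqr_unitQ_eq N d A hd]
  refine hR.inv_mem _ _ ?_
  rw [coeffMap_ueuU]
  exact uqr_ueuU_ne_zero _ d

/-- the reduction of `u_d⁻¹` is `(ueuU k d)⁻¹` -/
theorem uqr_inv_red (hd : d ∣ N) (hR : IsSeriesRed R) :
    ((R.red ⟨(unitQ N d hd)⁻¹, uqr_inv_mem_O hd hR⟩ : ↥Fk) :
      LaurentSeries (IsLocalRing.ResidueField A)) =
        (ueuU (IsLocalRing.ResidueField A) d)⁻¹ := by
  have hu := uqr_red hd hR
  have h1 : R.red ⟨unitQ N d hd, uqr_mem_O hd hR⟩ *
      R.red ⟨(unitQ N d hd)⁻¹, uqr_inv_mem_O hd hR⟩ = 1 := by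
    rw [← map_mul]
    have : (⟨unitQ N d hd, uqr_mem_O hd hR⟩ : R.O) * ⟨(unitQ N d hd)⁻¹, uqr_inv_mem_O hd hR⟩
        = 1 := Subtype.ext (mul_inv_cancel₀ (unitQ_ne_zero N d hd))
    rw [this, map_one]
  have h2 := congrArg (fun x : ↥Fk => (x : LaurentSeries (IsLocalRing.ResidueField A))) h1
  simp only [MulMemClass.coe_mul, OneMemClass.coe_one] at h2
  rw [hu] at h2
  exact eq_inv_of_mul_eq_one_right h2

end Series

section LevelN

variable (A : ValuationSubring Kbar) (M' q : ℕ) [NeZero M'] [NeZero q] (hq : q.Prime)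
  (hqM : ¬ q ∣ M') (hA : A.LiesOverPrime q)
  (R : ConstRed A (IsLocalRing.residue A)
      (↥(modularFunctionFieldFullC (IsLocalRing.ResidueField A) M')) (FF (M' * q)))
  (hR : IsSeriesRed R)

/-- the modular unit `u = Δ(qz)/Δ(z)` of level `M' q` -/
def uqrU : FF (M' * q) := unitQ (M' * q) q (dvd_mul_left q M')

/-- `w_q u = q⁻¹² u⁻¹` -/
theorem uqr_alW1 :
    alW1 M' hq hqM (uqrU M' q) =
      algebraMap Kbar (FF (M' * q)) (((q : Kbar) ^ 12)⁻¹) * (uqrU M' q)⁻¹ :=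
  atkinLehnerFF_unitQ (M' * q) q hq (dvd_mul_left q M') _

/-- `h = u⁻¹ ∈ F0(N)` -/
def uqrH : f0Field A (M' * q) :=
  ⟨(uqrU M' q)⁻¹, unitQ_inv_mem_f0Field (M' * q) q (dvd_mul_left q M') A⟩

/-- `h' = q¹² u ∈ F0(N)` -/
def uqrH' : f0Field A (M' * q) :=
  ⟨algebraMap Kbar (FF (M' * q)) ((q : Kbar) ^ 12) * uqrU M' q,
    (f0Field A (M' * q)).mul_mem
      (by
        have e : algebraMap Kbar (FF (M' * q)) ((q : Kbar) ^ 12) =
            ((q ^ 12 : ℕ) : FF (M' * q)) := by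
          rw [Nat.cast_pow, map_pow, map_natCast]
        rw [e]
        exact natCast_mem (f0Field A (M' * q)) (q ^ 12))
      (unitQ_mem_f0Field (M' * q) q (dvd_mul_left q M') A)⟩

theorem coe_uqrH : ((uqrH A M' q : f0Field A (M' * q)) : FF (M' * q)) = (uqrU M' q)⁻¹ := rfl

theorem coe_uqrH' : ((uqrH' A M' q : f0Field A (M' * q)) : FF (M' * q)) =
    algebraMap Kbar (FF (M' * q)) ((q : Kbar) ^ 12) * uqrU M' q := rfl

include hq in
theorem uqr_q12_ne_zero : ((q : Kbar) ^ 12) ≠ 0 :=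
  pow_ne_zero _ (Nat.cast_ne_zero.2 hq.ne_zero)

/-- `w_q h = q¹² u` -/
theorem uqr_alW1_h :
    alW1 M' hq hqM ((uqrU M' q)⁻¹) =
      algebraMap Kbar (FF (M' * q)) ((q : Kbar) ^ 12) * uqrU M' q := by
  rw [map_inv₀, uqr_alW1, mul_inv, inv_inv, ← map_inv₀, inv_inv]

/-- `w_q h' = u⁻¹` -/
theorem uqr_alW1_h' :
    alW1 M' hq hqM (algebraMap Kbar (FF (M' * q)) ((q : Kbar) ^ 12) * uqrU M' q) =
      (uqrU M' q)⁻¹ := by
  rw [map_mul, AlgEquiv.commutes, uqr_alW1, ← mul_assoc, ← map_mul,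
    mul_inv_cancel₀ (uqr_q12_ne_zero q hq), map_one, one_mul]

include hA in
theorem uqr_const_mem (n : ℕ) : algebraMap Kbar (FF (M' * q)) ((q : Kbar) ^ n) ∈ R.O := by
  have hqA : (q : Kbar) ∈ A := A.nonunits_le hA
  have h := R.algebraMap_mem ⟨(q : Kbar) ^ n, A.pow_mem hqA n⟩
  exact h

/-- membership in `B_j(N)` -/
theorem uqr_mem_B_iff (x : f0Field A (M' * q)) :
    x ∈ (nodeSetupNj A M' q hq hqM hA R hR).B ↔
      (x : FF (M' * q)) ∈ offRegular (M' * q) (cuspSet (M' * q)) ∧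
        (x : FF (M' * q)) ∈ R.O ∧ (x : FF (M' * q)) ∈ R.O ∧
          alW1 M' hq hqM (x : FF (M' * q)) ∈ R.O :=
  mem_f0AffD_iff A (M' * q) (cuspSet (M' * q)) _ _ _ x

/-- `h ∈ B_j(N)` -/
theorem uqrH_mem_B : uqrH A M' q ∈ (nodeSetupNj A M' q hq hqM hA R hR).B := by
  refine (uqr_mem_B_iff A M' q hq hqM hA R hR _).2 ⟨?_, ?_, ?_, ?_⟩
  · rw [offRegular_cuspSet]
    exact unitQ_inv_mem_cuspRegular (M' * q) q (dvd_mul_left q M')
  · exact uqr_inv_mem_O (dvd_mul_left q M') hR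
  · exact uqr_inv_mem_O (dvd_mul_left q M') hR
  · rw [coe_uqrH, uqr_alW1_h]
    exact R.O.mul_mem _ _ (uqr_const_mem A M' q hA R 12) (uqr_mem_O (dvd_mul_left q M') hR)

/-- `h' ∈ B_j(N)` -/
theorem uqrH'_mem_B : uqrH' A M' q ∈ (nodeSetupNj A M' q hq hqM hA R hR).B := by
  refine (uqr_mem_B_iff A M' q hq hqM hA R hR _).2 ⟨?_, ?_, ?_, ?_⟩
  · rw [offRegular_cuspSet, coe_uqrH']
    exact (cuspRegular (M' * q)).mul_mem (const_mem_cuspRegular _ _)
      (unitQ_mem_cuspRegular (M' * q) q (dvd_mul_left q M'))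
  · rw [coe_uqrH']
    exact R.O.mul_mem _ _ (uqr_const_mem A M' q hA R 12) (uqr_mem_O (dvd_mul_left q M') hR)
  · rw [coe_uqrH']
    exact R.O.mul_mem _ _ (uqr_const_mem A M' q hA R 12) (uqr_mem_O (dvd_mul_left q M') hR)
  · rw [coe_uqrH', uqr_alW1_h']
    exact uqr_inv_mem_O (dvd_mul_left q M') hR

/-- `h` as an element of `B_j(N)` -/
def uqrHB : (nodeSetupNj A M' q hq hqM hA R hR).B :=
  ⟨uqrH A M' q, uqrH_mem_B A M' q hq hqM hA R hR⟩

/-- `h'` as an element of `B_j(N)` -/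
def uqrHB' : (nodeSetupNj A M' q hq hqM hA R hR).B :=
  ⟨uqrH' A M' q, uqrH'_mem_B A M' q hq hqM hA R hR⟩

theorem uqrHB_ne_zero : uqrHB A M' q hq hqM hA R hR ≠ 0 := by
  intro h0
  have h1 := congrArg (fun x : (nodeSetupNj A M' q hq hqM hA R hR).B =>
    ((x : f0Field A (M' * q)) : FF (M' * q))) h0
  exact inv_ne_zero (unitQ_ne_zero (M' * q) q (dvd_mul_left q M')) h1

theorem uqrHB'_ne_zero : uqrHB' A M' q hq hqM hA R hR ≠ 0 := by
  intro h0
  have h1 := congrArg (fun x : (nodeSetupNj A M' q hq hqM hA R hR).B =>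
    ((x : f0Field A (M' * q)) : FF (M' * q))) h0
  exact mul_ne_zero ((map_ne_zero _).2 (uqr_q12_ne_zero q hq))
    (unitQ_ne_zero (M' * q) q (dvd_mul_left q M')) h1

/-- the description of `B_j(N)` as an intersection, in the shape of `reg2_hdiv` -/
theorem uqr_hB (x : f0Field A (M' * q)) :
    x ∈ (nodeSetupNj A M' q hq hqM hA R hR).B ↔
      x ∈ (offRegular (M' * q) (cuspSet (M' * q))).comap
          (algebraMap (f0Field A (M' * q)) (FF (M' * q))) ∧
        x ∈ (nodeSetupNj A M' q hq hqM hA R hR).vInf.O ∧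
        x ∈ (nodeSetupNj A M' q hq hqM hA R hR).vMid.O ∧
        x ∈ (nodeSetupNj A M' q hq hqM hA R hR).vZero.O :=
  uqr_mem_B_iff A M' q hq hqM hA R hR x

/-- the uniformiser `q` in `F0(N)` -/
def uqrQ : f0Field A (M' * q) := ((q : ℕ) : f0Field A (M' * q))

theorem coe_uqrQ : ((uqrQ A M' q : f0Field A (M' * q)) : FF (M' * q)) =
    algebraMap Kbar (FF (M' * q)) (q : Kbar) := by
  rw [map_natCast]
  rfl

include hq in
theorem uqrQ_ne_zero : uqrQ A M' q ≠ 0 := by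
  unfold uqrQ
  exact Nat.cast_ne_zero.2 hq.ne_zero

theorem coe_uqrHB : ((uqrHB A M' q hq hqM hA R hR : (nodeSetupNj A M' q hq hqM hA R hR).B) :
    f0Field A (M' * q)) = uqrH A M' q := rfl

theorem coe_uqrHB' : ((uqrHB' A M' q hq hqM hA R hR : (nodeSetupNj A M' q hq hqM hA R hR).B) :
    f0Field A (M' * q)) = uqrH' A M' q := rfl

theorem uqr_mem_vInf (x : f0Field A (M' * q)) :
    x ∈ (nodeSetupNj A M' q hq hqM hA R hR).vInf.O ↔ (x : FF (M' * q)) ∈ R.O := Iff.rfl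

theorem uqr_mem_vMid (x : f0Field A (M' * q)) :
    x ∈ (nodeSetupNj A M' q hq hqM hA R hR).vMid.O ↔ (x : FF (M' * q)) ∈ R.O := Iff.rfl

theorem uqr_mem_vZero (x : f0Field A (M' * q)) :
    x ∈ (nodeSetupNj A M' q hq hqM hA R hR).vZero.O ↔
      alW1 M' hq hqM (x : FF (M' * q)) ∈ R.O := Iff.rfl

theorem uqr_mem_R0 (x : f0Field A (M' * q)) :
    x ∈ (offRegular (M' * q) (cuspSet (M' * q))).comap
        (algebraMap (f0Field A (M' * q)) (FF (M' * q))) ↔
      (x : FF (M' * q)) ∈ cuspRegular (M' * q) := by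
  rw [Subring.mem_comap, offRegular_cuspSet]
  rfl

theorem uqr_coe_mul_inv (z y : f0Field A (M' * q)) :
    ((z * y⁻¹ : f0Field A (M' * q)) : FF (M' * q)) = (z : FF (M' * q)) * (y : FF (M' * q))⁻¹ := by
  push_cast
  rfl

theorem uqr_coe_inv (y : f0Field A (M' * q)) :
    ((y⁻¹ : f0Field A (M' * q)) : FF (M' * q)) = ((y : FF (M' * q)))⁻¹ := by
  push_cast
  rfl

theorem uqr_coe_pow_mul_inv (z y : f0Field A (M' * q)) (n : ℕ) :
    ((z ^ n * y⁻¹ : f0Field A (M' * q)) : FF (M' * q)) =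
      (z : FF (M' * q)) ^ n * (y : FF (M' * q))⁻¹ := by
  push_cast
  rfl

/-- a non-unit of `O∞ ∩ F0(N)` is divisible by `q` -/
theorem uqr_hp_inf (z : f0Field A (M' * q))
    (hz : z ∈ (nodeSetupNj A M' q hq hqM hA R hR).vInf.O.nonunits) :
    z * (uqrQ A M' q)⁻¹ ∈ (nodeSetupNj A M' q hq hqM hA R hR).vInf.O := by
  have hqA : (q : Kbar) ∈ A := A.nonunits_le hA
  have h := varch_of_unit A R.O hq (R.algebraMap_mem ⟨(q : Kbar), hqA⟩) 1 Nat.one_pos
    (fun f hf hf0 => by rw [pow_one]; exact vdisc_inf hq hA hR hf hf0) z.2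
    (varch_nonunits_comap A R.O z hz)
  rw [pow_one] at h
  rw [uqr_mem_vInf, uqr_coe_mul_inv, coe_uqrQ]
  exact h

/-- a non-unit of `O0 ∩ F0(N)` is divisible by `q` -/
theorem uqr_hp_zero (z : f0Field A (M' * q))
    (hz : z ∈ (nodeSetupNj A M' q hq hqM hA R hR).vZero.O.nonunits) :
    z * (uqrQ A M' q)⁻¹ ∈ (nodeSetupNj A M' q hq hqM hA R hR).vZero.O := by
  have hqA : (q : Kbar) ∈ A := A.nonunits_le hA
  have hqO : algebraMap Kbar (FF (M' * q)) (q : Kbar) ∈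
      ((SeriesVal.ofConstRed R).comap (alW1 M' hq hqM)).O := by
    rw [SeriesVal.mem_comap_iff, AlgEquiv.commutes]
    exact R.algebraMap_mem ⟨(q : Kbar), hqA⟩
  have h := varch_of_unit A ((SeriesVal.ofConstRed R).comap (alW1 M' hq hqM)).O hq hqO 1
    Nat.one_pos
    (fun f hf hf0 => by
      rw [pow_one]
      obtain ⟨n, h1, h2⟩ := vdisc_zero hq hA hR (alW1 M' hq hqM)
        (fun x hx => alW1_mem_f0Field A M' hq hqM hx) hf hf0
      exact ⟨n, (mem_inredComap_O R _ _).mp h1, (mem_inredComap_O R _ _).mp h2⟩) z.2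
    (varch_nonunits_comap A _ z hz)
  rw [pow_one] at h
  rw [uqr_mem_vZero, uqr_coe_mul_inv, coe_uqrQ]
  exact (SeriesVal.mem_comap_iff _ _ _).1 h

set_option maxHeartbeats 1600000 in
/-- **`hdiv0`**: `p_0 ^ 12 ≤ (h)` in `B_j(N)` -/
theorem uqr_hdiv0 :
    (nodeSetupNj A M' q hq hqM hA R hR).pZero ^ 12 ≤
      Ideal.span {uqrHB A M' q hq hqM hA R hR} := by
  have hp : ∀ z ∈ (nodeSetupNj A M' q hq hqM hA R hR).pZero,
      ((z : (nodeSetupNj A M' q hq hqM hA R hR).B) : f0Field A (M' * q)) * (uqrQ A M' q)⁻¹ ∈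
        (nodeSetupNj A M' q hq hqM hA R hR).vZero.O := fun z hz =>
    uqr_hp_zero A M' q hq hqM hA R hR _
      (((nodeSetupNj A M' q hq hqM hA R hR).mem_pZero_iff z).1 hz)
  have hu : (((uqrHB A M' q hq hqM hA R hR : (nodeSetupNj A M' q hq hqM hA R hR).B) :
      f0Field A (M' * q))⁻¹ : f0Field A (M' * q)) =
      ⟨uqrU M' q, unitQ_mem_f0Field (M' * q) q (dvd_mul_left q M') A⟩ := by
    apply Subtype.ext
    rw [uqr_coe_inv, coe_uqrHB, coe_uqrH, inv_inv]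
  have hgR : ((uqrHB A M' q hq hqM hA R hR : (nodeSetupNj A M' q hq hqM hA R hR).B) :
      f0Field A (M' * q))⁻¹ ∈ (offRegular (M' * q) (cuspSet (M' * q))).comap
        (algebraMap (f0Field A (M' * q)) (FF (M' * q))) := by
    rw [hu, uqr_mem_R0]
    exact unitQ_mem_cuspRegular (M' * q) q (dvd_mul_left q M')
  have hg₁ : ((uqrHB A M' q hq hqM hA R hR : (nodeSetupNj A M' q hq hqM hA R hR).B) :
      f0Field A (M' * q))⁻¹ ∈ (nodeSetupNj A M' q hq hqM hA R hR).vInf.O := by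
    rw [hu, uqr_mem_vInf]
    exact uqr_mem_O (dvd_mul_left q M') hR
  have hg₂ : ((uqrHB A M' q hq hqM hA R hR : (nodeSetupNj A M' q hq hqM hA R hR).B) :
      f0Field A (M' * q))⁻¹ ∈ (nodeSetupNj A M' q hq hqM hA R hR).vMid.O := by
    rw [hu, uqr_mem_vMid]
    exact uqr_mem_O (dvd_mul_left q M') hR
  have hg : uqrQ A M' q ^ 12 * ((uqrHB A M' q hq hqM hA R hR :
      (nodeSetupNj A M' q hq hqM hA R hR).B) : f0Field A (M' * q))⁻¹ ∈
        (nodeSetupNj A M' q hq hqM hA R hR).vZero.O := by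
    rw [uqr_mem_vZero, uqr_coe_pow_mul_inv, coe_uqrHB, coe_uqrH, inv_inv, coe_uqrQ, ← map_pow,
      uqr_alW1_h']
    exact uqr_inv_mem_O (dvd_mul_left q M') hR
  exact reg2_hdiv (nodeSetupNj A M' q hq hqM hA R hR).B
    ((offRegular (M' * q) (cuspSet (M' * q))).comap
      (algebraMap (f0Field A (M' * q)) (FF (M' * q))))
    (nodeSetupNj A M' q hq hqM hA R hR).vInf.O (nodeSetupNj A M' q hq hqM hA R hR).vMid.O
    (nodeSetupNj A M' q hq hqM hA R hR).vZero.O (uqr_hB A M' q hq hqM hA R hR)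
    (uqrQ A M' q) (uqrQ_ne_zero A M' q hq) (nodeSetupNj A M' q hq hqM hA R hR).pZero hp 12
    (uqrHB A M' q hq hqM hA R hR) (uqrHB_ne_zero A M' q hq hqM hA R hR) hgR hg₁ hg₂ hg

set_option maxHeartbeats 1600000 in
/-- **`hdivInf`**: `p_∞ ^ 12 ≤ (h')` in `B_j(N)` -/
theorem uqr_hdivInf :
    (nodeSetupNj A M' q hq hqM hA R hR).pInf ^ 12 ≤
      Ideal.span {uqrHB' A M' q hq hqM hA R hR} := by
  have hinv : ((uqrH' A M' q : f0Field A (M' * q)) : FF (M' * q))⁻¹ =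
      algebraMap Kbar (FF (M' * q)) (((q : Kbar) ^ 12)⁻¹) * (uqrU M' q)⁻¹ := by
    rw [coe_uqrH', mul_inv, map_inv₀]
  have hB : ∀ x : f0Field A (M' * q), x ∈ (nodeSetupNj A M' q hq hqM hA R hR).B ↔
      x ∈ (offRegular (M' * q) (cuspSet (M' * q))).comap
          (algebraMap (f0Field A (M' * q)) (FF (M' * q))) ∧
        x ∈ (nodeSetupNj A M' q hq hqM hA R hR).vZero.O ∧
        x ∈ (nodeSetupNj A M' q hq hqM hA R hR).vZero.O ∧
        x ∈ (nodeSetupNj A M' q hq hqM hA R hR).vInf.O := by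
    intro x
    rw [uqr_hB]
    constructor
    · rintro ⟨h1, h2, h3, h4⟩
      exact ⟨h1, h4, h4, h2⟩
    · rintro ⟨h1, h2, h3, h4⟩
      exact ⟨h1, h4, h4, h2⟩
  have hp : ∀ z ∈ (nodeSetupNj A M' q hq hqM hA R hR).pInf,
      ((z : (nodeSetupNj A M' q hq hqM hA R hR).B) : f0Field A (M' * q)) * (uqrQ A M' q)⁻¹ ∈
        (nodeSetupNj A M' q hq hqM hA R hR).vInf.O := fun z hz =>
    uqr_hp_inf A M' q hq hqM hA R hR _
      (((nodeSetupNj A M' q hq hqM hA R hR).mem_pInf_iff z).1 hz)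
  have hgR : ((uqrHB' A M' q hq hqM hA R hR : (nodeSetupNj A M' q hq hqM hA R hR).B) :
      f0Field A (M' * q))⁻¹ ∈ (offRegular (M' * q) (cuspSet (M' * q))).comap
        (algebraMap (f0Field A (M' * q)) (FF (M' * q))) := by
    rw [uqr_mem_R0, uqr_coe_inv, coe_uqrHB', hinv]
    exact (cuspRegular (M' * q)).mul_mem (const_mem_cuspRegular _ _)
      (unitQ_inv_mem_cuspRegular (M' * q) q (dvd_mul_left q M'))
  have hg₁ : ((uqrHB' A M' q hq hqM hA R hR : (nodeSetupNj A M' q hq hqM hA R hR).B) :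
      f0Field A (M' * q))⁻¹ ∈ (nodeSetupNj A M' q hq hqM hA R hR).vZero.O := by
    rw [uqr_mem_vZero, uqr_coe_inv, coe_uqrHB', coe_uqrH', map_inv₀, uqr_alW1_h', inv_inv]
    exact uqr_mem_O (dvd_mul_left q M') hR
  have hg : uqrQ A M' q ^ 12 * ((uqrHB' A M' q hq hqM hA R hR :
      (nodeSetupNj A M' q hq hqM hA R hR).B) : f0Field A (M' * q))⁻¹ ∈
        (nodeSetupNj A M' q hq hqM hA R hR).vInf.O := by
    rw [uqr_mem_vInf, uqr_coe_pow_mul_inv, coe_uqrHB', hinv, coe_uqrQ, ← map_pow, ← mul_assoc,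
      ← map_mul, mul_inv_cancel₀ (uqr_q12_ne_zero q hq), map_one, one_mul]
    exact uqr_inv_mem_O (dvd_mul_left q M') hR
  exact reg2_hdiv (nodeSetupNj A M' q hq hqM hA R hR).B
    ((offRegular (M' * q) (cuspSet (M' * q))).comap
      (algebraMap (f0Field A (M' * q)) (FF (M' * q))))
    (nodeSetupNj A M' q hq hqM hA R hR).vZero.O (nodeSetupNj A M' q hq hqM hA R hR).vZero.O
    (nodeSetupNj A M' q hq hqM hA R hR).vInf.O hB
    (uqrQ A M' q) (uqrQ_ne_zero A M' q hq) (nodeSetupNj A M' q hq hqM hA R hR).pInf hp 12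
    (uqrHB' A M' q hq hqM hA R hR) (uqrHB'_ne_zero A M' q hq hqM hA R hR) hgR hg₁ hg₁ hg

/-- the series of `red_∞ h` -/
theorem uqr_redInf_h :
    (((nodeSetupNj A M' q hq hqM hA R hR).redInf (uqrHB A M' q hq hqM hA R hR) :
        ↥(modularFunctionFieldFullC (IsLocalRing.ResidueField A) M')) :
      LaurentSeries (IsLocalRing.ResidueField A)) =
        (ueuU (IsLocalRing.ResidueField A) q)⁻¹ :=
  uqr_inv_red (dvd_mul_left q M') hR

/-- the series of `red_0 h'` -/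
theorem uqr_redZero_h' :
    (((nodeSetupNj A M' q hq hqM hA R hR).redZero (uqrHB' A M' q hq hqM hA R hR) :
        ↥(modularFunctionFieldFullC (IsLocalRing.ResidueField A) M')) :
      LaurentSeries (IsLocalRing.ResidueField A)) =
        (ueuU (IsLocalRing.ResidueField A) q)⁻¹ := by
  have h := uqr_inv_red (A := A) (R := R) (dvd_mul_left q M') hR
  rw [← h]
  show ((R.red ⟨alW1 M' hq hqM ((uqrH' A M' q : f0Field A (M' * q)) : FF (M' * q)), _⟩ :
    ↥(modularFunctionFieldFullC (IsLocalRing.ResidueField A) M')) :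
      LaurentSeries (IsLocalRing.ResidueField A)) = _
  congr 2
  exact Subtype.ext (uqr_alW1_h' M' q hq hqM)

end LevelN

end Fermat.Agent.S36lib

end
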