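/-
Item 83 (S36), block REG1 at the level `N = M' q`, piece W-3f (helper15): REG1 for
`SN = nodeSetupNj A M' q hq hqM hA R hR` with the modular unit of helper24 (`UnitQRed.lean`)
plugged in: `h = uqrHB = u⁻¹`, `h' = uqrHB' = q¹² u`, `e = 12`.

* `r1c_hreg1_range`: both sides, from the RANGE of `red_∞`, `red_0` on `B_j(N)` (W-3a) and
  `IsIntegrallyClosed B_j(N)` (W-2j); the inclusion `affRing ∞' ⊆ fsS k j̄` is helper21's
  `reg1i_affRing_le_fsS`;
* `r1c_hreg1_inf_range`, `r1c_hreg1_zero_range`: the two sides in the exact shape of `hreg1` of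
  `r2c_hufd_inf` (`Reg2Conc.lean`) / `reg1_node` (`Reg1Node.lean`).
-/
import Mathlib
import Fermat.Agent.S36lib.Reg1Conc
import Fermat.Agent.S36lib.UnitQRed
import Fermat.Agent.S36lib.Reg1Incl

set_option autoImplicit false
set_option linter.style.haveILetI false
set_option linter.unusedSectionVars false
set_option synthInstance.maxHeartbeats 400000
set_option maxHeartbeats 1000000

noncomputable section

namespace Fermat.Agent.S36lib

open Fermat.Agent.FFlib Fermat.Agent.S24lib Fermat.Agent.GM Fermat.Agent.GoodRed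
  Fermat.Agent.S34lib Fermat.Agent.RRlib Fermat.Agent.S16lib
open AlgebraicCurve IsLocalRing IntermediateField IsDedekindDomain ModularCurve

section Final

variable (A : ValuationSubring Kbar) (M' q : ℕ) [NeZero M'] [NeZero q] (hq : q.Prime)
  (hqM : ¬ q ∣ M') (hA : A.LiesOverPrime q)
  (R : ConstRed A (IsLocalRing.residue A)
      (↥(modularFunctionFieldFullC (IsLocalRing.ResidueField A) M')) (FF (M' * q)))
  (hR : IsSeriesRed R)

/-- **REG1 at the level `N = M' q`**, both sides, with `h = u⁻¹`, `h' = q¹² u`. -/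
theorem r1c_hreg1_range (haux : IsAuxLevel q M')
    [IsIntegrallyClosed (nodeSetupNj A M' q hq hqM hA R hR).B]
    (hiInf : ∀ z : (nodeSetupNj A M' q hq hqM hA R hR).B,
      (nodeSetupNj A M' q hq hqM hA R hR).redInf z ∈
        fsS (IsLocalRing.ResidueField A) (jk (IsLocalRing.ResidueField A) M'))
    (hiZero : ∀ z : (nodeSetupNj A M' q hq hqM hA R hR).B,
      (nodeSetupNj A M' q hq hqM hA R hR).redZero z ∈
        fsS (IsLocalRing.ResidueField A) (jk (IsLocalRing.ResidueField A) M'))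
    (hoInf : ∀ c ∈ fsS (IsLocalRing.ResidueField A) (jk (IsLocalRing.ResidueField A) M'),
      ∃ z : (nodeSetupNj A M' q hq hqM hA R hR).B,
        (nodeSetupNj A M' q hq hqM hA R hR).redInf z = c)
    (hoZero : ∀ c ∈ fsS (IsLocalRing.ResidueField A) (jk (IsLocalRing.ResidueField A) M'),
      ∃ z : (nodeSetupNj A M' q hq hqM hA R hR).B,
        (nodeSetupNj A M' q hq hqM hA R hR).redZero z = c) :
    (∀ s, (nodeSetupNj A M' q hq hqM hA R hR).IsNode s →
      ∃ y ε : (nodeSetupNj A M' q hq hqM hA R hR).B,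
        y ∈ (nodeSetupNj A M' q hq hqM hA R hR).pZero ∧
          y ^ 12 = ε * uqrHB A M' q hq hqM hA R hR ∧ ε ∉ s ∧
          ∀ z ∈ (nodeSetupNj A M' q hq hqM hA R hR).pZero, y ∣ ε * z) ∧
    (∀ s, (nodeSetupNj A M' q hq hqM hA R hR).IsNode s →
      ∃ x ε : (nodeSetupNj A M' q hq hqM hA R hR).B,
        x ∈ (nodeSetupNj A M' q hq hqM hA R hR).pInf ∧
          x ^ 12 = ε * uqrHB' A M' q hq hqM hA R hR ∧ ε ∉ s ∧
          ∀ z ∈ (nodeSetupNj A M' q hq hqM hA R hR).pInf, x ∣ ε * z) := by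
  haveI : IsAlgClosed (IsLocalRing.ResidueField A) := isAlgClosed_residueField A
  exact r1c_hreg1_core A M' q hq hqM hA R hR haux hiInf hiZero hoInf hoZero
    (reg1i_affRing_le_fsS (IsLocalRing.ResidueField A) M')
    (uqrHB A M' q hq hqM hA R hR) (uqrHB' A M' q hq hqM hA R hR)
    (uqr_hdiv0 A M' q hq hqM hA R hR) (uqr_hdivInf A M' q hq hqM hA R hR)
    (uqr_redInf_h A M' q hq hqM hA R hR) (uqr_redZero_h' A M' q hq hqM hA R hR)

/-- the side of `p_∞`, in the shape of `hreg1` of `r2c_hufd_inf` -/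
theorem r1c_hreg1_inf_range (haux : IsAuxLevel q M')
    [IsIntegrallyClosed (nodeSetupNj A M' q hq hqM hA R hR).B]
    (hiInf : ∀ z : (nodeSetupNj A M' q hq hqM hA R hR).B,
      (nodeSetupNj A M' q hq hqM hA R hR).redInf z ∈
        fsS (IsLocalRing.ResidueField A) (jk (IsLocalRing.ResidueField A) M'))
    (hiZero : ∀ z : (nodeSetupNj A M' q hq hqM hA R hR).B,
      (nodeSetupNj A M' q hq hqM hA R hR).redZero z ∈
        fsS (IsLocalRing.ResidueField A) (jk (IsLocalRing.ResidueField A) M'))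
    (hoInf : ∀ c ∈ fsS (IsLocalRing.ResidueField A) (jk (IsLocalRing.ResidueField A) M'),
      ∃ z : (nodeSetupNj A M' q hq hqM hA R hR).B,
        (nodeSetupNj A M' q hq hqM hA R hR).redInf z = c)
    (hoZero : ∀ c ∈ fsS (IsLocalRing.ResidueField A) (jk (IsLocalRing.ResidueField A) M'),
      ∃ z : (nodeSetupNj A M' q hq hqM hA R hR).B,
        (nodeSetupNj A M' q hq hqM hA R hR).redZero z = c) :
    ∀ s : Ideal (nodeSetupNj A M' q hq hqM hA R hR).B,
      (nodeSetupNj A M' q hq hqM hA R hR).IsNode s →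
      ∃ x ε : (nodeSetupNj A M' q hq hqM hA R hR).B,
        x ∈ (nodeSetupNj A M' q hq hqM hA R hR).pInf ∧
          x ^ 12 = ε * uqrHB' A M' q hq hqM hA R hR ∧ ε ∉ s := by
  intro s hs
  obtain ⟨x, ε, h1, h2, h3, -⟩ :=
    (r1c_hreg1_range A M' q hq hqM hA R hR haux hiInf hiZero hoInf hoZero).2 s hs
  exact ⟨x, ε, h1, h2, h3⟩

/-- the side of `p_0`, in the shape of `hreg1_0` of `reg1_node` -/
theorem r1c_hreg1_zero_range (haux : IsAuxLevel q M')
    [IsIntegrallyClosed (nodeSetupNj A M' q hq hqM hA R hR).B]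
    (hiInf : ∀ z : (nodeSetupNj A M' q hq hqM hA R hR).B,
      (nodeSetupNj A M' q hq hqM hA R hR).redInf z ∈
        fsS (IsLocalRing.ResidueField A) (jk (IsLocalRing.ResidueField A) M'))
    (hiZero : ∀ z : (nodeSetupNj A M' q hq hqM hA R hR).B,
      (nodeSetupNj A M' q hq hqM hA R hR).redZero z ∈
        fsS (IsLocalRing.ResidueField A) (jk (IsLocalRing.ResidueField A) M'))
    (hoInf : ∀ c ∈ fsS (IsLocalRing.ResidueField A) (jk (IsLocalRing.ResidueField A) M'),
      ∃ z : (nodeSetupNj A M' q hq hqM hA R hR).B,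
        (nodeSetupNj A M' q hq hqM hA R hR).redInf z = c)
    (hoZero : ∀ c ∈ fsS (IsLocalRing.ResidueField A) (jk (IsLocalRing.ResidueField A) M'),
      ∃ z : (nodeSetupNj A M' q hq hqM hA R hR).B,
        (nodeSetupNj A M' q hq hqM hA R hR).redZero z = c) :
    ∀ s : Ideal (nodeSetupNj A M' q hq hqM hA R hR).B,
      (nodeSetupNj A M' q hq hqM hA R hR).IsNode s →
      ∃ y ε : (nodeSetupNj A M' q hq hqM hA R hR).B,
        y ∈ (nodeSetupNj A M' q hq hqM hA R hR).pZero ∧
          y ^ 12 = ε * uqrHB A M' q hq hqM hA R hR ∧ ε ∉ s := by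
  intro s hs
  obtain ⟨y, ε, h1, h2, h3, -⟩ :=
    (r1c_hreg1_range A M' q hq hqM hA R hR haux hiInf hiZero hoInf hoZero).1 s hs
  exact ⟨y, ε, h1, h2, h3⟩

end Final

end Fermat.Agent.S36lib

end
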