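import Mathlib
import Fermat.Agent.S36lib.Reg2Conc
import Fermat.Agent.S36lib.VZeroQ2
import Fermat.Agent.S36lib.VMid
import Fermat.Agent.S36lib.VMidBeta
import Fermat.Agent.S36lib.VMidSV
import Fermat.Agent.S36lib.TheSetup

/-!
# Item 83 (S36), piece R-3, concrete part 3 (helper9): `α`, `β` as maps of the CONCRETE setups

Levels `N = M' q`, `M = M' q²`.  The setups are in the shape of helper8's `vhrad_levelN`,
`vhrad_levelM` (helper24's `nodeSetupConc` is definitionally of this shape):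

* level `N`: `nodeSetupSeriesD A DN (ofConstRed RN) (ofConstRed RN) ((ofConstRed RN).comap w₁) κ' …`;
* level `M`: `nodeSetupSeriesD A DM (ofConstRed R) vMid ((ofConstRed R).comap w₂) κ' …`, with
  `vMid.O = vmidO …`.

Results:
* `r2i_alpha`, `r2i_beta` : the two `SetupMap`s (tables of helper4 `VZeroQ2`, helper18 `VMid`,
  helper3 `VMidBeta`);
* `r2i_red_alpha` : `red_∞ (α x) = red_∞ x`; `r2i_red_beta_zero` : `red_0 (β x) = red_0 x`;
* `r2i_hp` : a non-unit of a discrete valuation ring is divisible by the uniformiser.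
-/

set_option autoImplicit false
set_option linter.style.haveILetI false
set_option linter.unusedSectionVars false
set_option synthInstance.maxHeartbeats 400000

noncomputable section

namespace Fermat.Agent.S36lib

open ModularCurve AlgebraicCurve HahnSeries
open Fermat.Agent.S24lib Fermat.Agent.S34lib Fermat.Agent.HeckeBar Fermat.Agent.GoodRed
open Fermat.Agent.S37lib Fermat.Agent.S35lib

section Disc

variable {F : Type*} [Field F]

/-- a non-unit of a valuation ring `O` is divisible by `ϖ`, if some `ϖ ^ n · z` is a unit -/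
theorem r2i_hp (O : ValuationSubring F) (ϖ : F) (hϖO : ϖ ∈ O) (z : F) (hz : z ∈ O.nonunits)
    (hdisc : z ≠ 0 → ∃ n : ℤ, ϖ ^ n * z ∈ O ∧ (ϖ ^ n * z)⁻¹ ∈ O) : z * ϖ⁻¹ ∈ O := by
  rcases eq_or_ne z 0 with rfl | hz0
  · rw [zero_mul]; exact O.zero_mem
  obtain ⟨n, hn1, hn2⟩ := hdisc hz0
  have hzinv : z⁻¹ ∉ O := by
    rcases (reg2_mem_nonunits_iff_inv O z).1 hz with h | h
    · exact absurd h hz0
    · exact h
  rcases eq_or_ne ϖ 0 with rfl | hϖ0
  · rw [inv_zero, mul_zero]; exact O.zero_mem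
  by_cases hn : 0 ≤ n
  · exfalso
    apply hzinv
    obtain ⟨m, rfl⟩ := Int.eq_ofNat_of_zero_le hn
    have h1 : z⁻¹ = (ϖ ^ (m : ℤ) * z)⁻¹ * ϖ ^ m := by
      rw [zpow_natCast]
      field_simp
    rw [h1]
    exact O.mul_mem _ _ hn2 (pow_mem hϖO m)
  · push Not at hn
    obtain ⟨m, hm⟩ : ∃ m : ℕ, n = -((m : ℤ) + 1) := ⟨(-n - 1).toNat, by omega⟩
    have h1 : z * ϖ⁻¹ = (ϖ ^ n * z) * ϖ ^ m := by
      rw [hm, zpow_neg, zpow_add_one₀ hϖ0, zpow_natCast]
      field_simp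
    rw [h1]
    exact O.mul_mem _ _ hn1 (pow_mem hϖO m)

end Disc

section Inst

variable (A : ValuationSubring Kbar) (M' q : ℕ) [NeZero M'] [NeZero q] (hq : q.Prime)
  (hqM : ¬ q ∣ M') (hA : A.LiesOverPrime q)
  (RN : ConstRed A (IsLocalRing.residue A)
    (↥(modularFunctionFieldFullC (IsLocalRing.ResidueField A) M')) (FF (M' * q)))
  (hRN : IsSeriesRed RN)
  (R : ConstRed A (IsLocalRing.residue A)
    (↥(modularFunctionFieldFullC (IsLocalRing.ResidueField A) M')) (FF (M' * q * q)))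
  (hR : IsSeriesRed R)
  {ζ : Kbarˣ} {E : FF (M' * q * q) →+* LaurentSeries Kbar} (hζq : ζ ^ q = 1)
  (hE : IsMidExp M' q ζ E)
  (hiMid : ∀ (x : FF (M' * q * q))
    (hx : x ∈ (vmidSV A hq ((A.mem_nonunits_iff).mp hA) hζq hE).O),
    x ∈ f0Field A (M' * q * q) →
      (vmidSV A hq ((A.mem_nonunits_iff).mp hA) hζq hE).red ⟨x, hx⟩ ∈
        modularFunctionFieldFullC (IsLocalRing.ResidueField A) M')
  (hoMid : ∀ y ∈ modularFunctionFieldFullC (IsLocalRing.ResidueField A) M',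
    ∃ (x : FF (M' * q * q)) (hx : x ∈ (vmidSV A hq ((A.mem_nonunits_iff).mp hA) hζq hE).O),
      x ∈ f0Field A (M' * q * q) ∧
        (vmidSV A hq ((A.mem_nonunits_iff).mp hA) hζq hE).red ⟨x, hx⟩ = y)

/-- **`α` as a map of the concrete setups** `nodeSetupNj → nodeSetupMj` (`B_j`) -/
def r2iAlpha :
    SetupMap (nodeSetupNj A M' q hq hqM hA RN hRN)
      (nodeSetupMj A M' q hq hqM hA R hR (vmidSV A hq ((A.mem_nonunits_iff).mp hA) hζq hE)
        hiMid hoMid) :=
  r2cSetupMap A (heckeAlphaBar Kbar (M' * q) q)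
    (fun x hx => r2m_inclBar_mem_f0Field A (dvd_mul_right (M' * q) q) x hx)
    (cuspSet (M' * q)) (cuspSet (M' * q * q))
    (r2c_offRegular_cusps (heckeAlphaBar Kbar (M' * q) q)
      (fun x hx => r2m_inclBar_mem_cuspRegular (dvd_mul_right (M' * q) q) x hx))
    (SeriesVal.ofConstRed RN) (SeriesVal.ofConstRed RN)
    ((SeriesVal.ofConstRed RN).comap (alW1 M' hq hqM))
    (SeriesVal.ofConstRed R) (vmidSV A hq ((A.mem_nonunits_iff).mp hA) hζq hE)
    ((SeriesVal.ofConstRed R).comap (alW2 M' hq hqM))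
    _ _ _ _ _ _ _ _ _ _ _ _
    (fun x => vz2_alpha_mem_iff (M' * q) q hRN hR
      (vmid_hasPrimFrac_bar A (M' * q) hq ((A.mem_nonunits_iff).mp hA)) x)
    (fun x => vz2Zero_alpha_mem_iff M' hq hqM hRN hR
      (vmid_hasPrimFrac_bar A (M' * q) hq ((A.mem_nonunits_iff).mp hA)) x)
    (fun x hx _ _ => (vmid_alpha_mem_iff A hq ((A.mem_nonunits_iff).mp hA) hζq hE x).2
      (hRN.exists_isRep (vmid_hasPrimFrac_bar A (M' * q) hq ((A.mem_nonunits_iff).mp hA)) hx))

/-- **`β` as a map of the concrete setups** `nodeSetupNj → nodeSetupMj` (`B_j`) -/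
def r2iBeta :
    SetupMap (nodeSetupNj A M' q hq hqM hA RN hRN)
      (nodeSetupMj A M' q hq hqM hA R hR (vmidSV A hq ((A.mem_nonunits_iff).mp hA) hζq hE)
        hiMid hoMid) :=
  r2cSetupMap A (heckeBetaBar Kbar (M' * q) q)
    (fun x hx => by
      rw [heckeBetaBar_eq_qpowBar]
      exact r2m_qpowBar_mem_f0Field A q dvd_rfl x hx)
    (cuspSet (M' * q)) (cuspSet (M' * q * q))
    (r2c_offRegular_cusps (heckeBetaBar Kbar (M' * q) q)
      (fun x hx => by
        rw [heckeBetaBar_eq_qpowBar]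
        exact r2m_qpowBar_mem_cuspRegular q dvd_rfl x hx))
    (SeriesVal.ofConstRed RN) (SeriesVal.ofConstRed RN)
    ((SeriesVal.ofConstRed RN).comap (alW1 M' hq hqM))
    (SeriesVal.ofConstRed R) (vmidSV A hq ((A.mem_nonunits_iff).mp hA) hζq hE)
    ((SeriesVal.ofConstRed R).comap (alW2 M' hq hqM))
    _ _ _ _ _ _ _ _ _ _ _ _
    (fun x => vz2_beta_mem_iff (M' * q) q hRN hR
      (vmid_hasPrimFrac_bar A (M' * q) hq ((A.mem_nonunits_iff).mp hA)) x)
    (fun x => vz2Zero_beta_mem_iff M' hq hqM hRN hR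
      (vmid_hasPrimFrac_bar A (M' * q) hq ((A.mem_nonunits_iff).mp hA)) x)
    (fun x _ _ hx => (vmb_beta_mem_iff' A RN hq hqM ((A.mem_nonunits_iff).mp hA) hζq hE hRN x).2 hx)

/-! ### unfolding -/

theorem r2i_mem_Nj (x : f0Field A (M' * q)) :
    x ∈ (nodeSetupNj A M' q hq hqM hA RN hRN).B ↔
      (x : FF (M' * q)) ∈ cuspRegular (M' * q) ∧ (x : FF (M' * q)) ∈ RN.O ∧
        alW1 M' hq hqM (x : FF (M' * q)) ∈ RN.O := by
  have h := mem_f0AffD_iff A (M' * q) (cuspSet (M' * q)) (SeriesVal.ofConstRed RN).O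
    (SeriesVal.ofConstRed RN).O ((SeriesVal.ofConstRed RN).comap (alW1 M' hq hqM)).O x
  rw [offRegular_cuspSet] at h
  constructor
  · intro hx
    have := h.1 hx
    exact ⟨this.1, this.2.1, this.2.2.2⟩
  · intro hx
    exact h.2 ⟨hx.1, hx.2.1, hx.2.1, hx.2.2⟩

theorem r2i_mem_Mj (x : f0Field A (M' * q * q)) :
    x ∈ (nodeSetupMj A M' q hq hqM hA R hR (vmidSV A hq ((A.mem_nonunits_iff).mp hA) hζq hE)
        hiMid hoMid).B ↔
      (x : FF (M' * q * q)) ∈ cuspRegular (M' * q * q) ∧ (x : FF (M' * q * q)) ∈ R.O ∧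
        (x : FF (M' * q * q)) ∈ vmidO A hq ((A.mem_nonunits_iff).mp hA) hζq hE ∧
        alW2 M' hq hqM (x : FF (M' * q * q)) ∈ R.O := by
  have h := mem_f0AffD_iff A (M' * q * q) (cuspSet (M' * q * q)) (SeriesVal.ofConstRed R).O
    (vmidSV A hq ((A.mem_nonunits_iff).mp hA) hζq hE).O
    ((SeriesVal.ofConstRed R).comap (alW2 M' hq hqM)).O x
  rw [offRegular_cuspSet] at h
  exact h

theorem r2i_coe_alpha (z : (nodeSetupNj A M' q hq hqM hA RN hRN).B) :
    ((((r2iAlpha A M' q hq hqM hA RN hRN R hR hζq hE hiMid hoMid).toB z :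
      (nodeSetupMj A M' q hq hqM hA R hR (vmidSV A hq ((A.mem_nonunits_iff).mp hA) hζq hE)
        hiMid hoMid).B) : f0Field A (M' * q * q)) : FF (M' * q * q)) =
      heckeAlphaBar Kbar (M' * q) q ((z : f0Field A (M' * q)) : FF (M' * q)) := rfl

theorem r2i_coe_beta (z : (nodeSetupNj A M' q hq hqM hA RN hRN).B) :
    ((((r2iBeta A M' q hq hqM hA RN hRN R hR hζq hE hiMid hoMid).toB z :
      (nodeSetupMj A M' q hq hqM hA R hR (vmidSV A hq ((A.mem_nonunits_iff).mp hA) hζq hE)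
        hiMid hoMid).B) : f0Field A (M' * q * q)) : FF (M' * q * q)) =
      heckeBetaBar Kbar (M' * q) q ((z : f0Field A (M' * q)) : FF (M' * q)) := rfl

/-! ### the reduction table -/

/-- `red_∞ (α z) = red_∞ z` -/
theorem r2i_tαInf (z : (nodeSetupNj A M' q hq hqM hA RN hRN).B) :
    (nodeSetupMj A M' q hq hqM hA R hR (vmidSV A hq ((A.mem_nonunits_iff).mp hA) hζq hE)
        hiMid hoMid).redInf ((r2iAlpha A M' q hq hqM hA RN hRN R hR hζq hE hiMid hoMid).toB z) =
      (nodeSetupNj A M' q hq hqM hA RN hRN).redInf z := by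
  have hz : ((z : f0Field A (M' * q)) : FF (M' * q)) ∈ RN.O :=
    ((r2i_mem_Nj A M' q hq hqM hA RN hRN z.1).1 z.2).2.1
  have hαz : heckeAlphaBar Kbar (M' * q) q ((z : f0Field A (M' * q)) : FF (M' * q)) ∈ R.O :=
    (vz2_alpha_mem_iff (M' * q) q hRN hR
      (vmid_hasPrimFrac_bar A (M' * q) hq ((A.mem_nonunits_iff).mp hA)) _).2 hz
  exact vz2_alpha_red (M' * q) q hRN hR
    (vmid_hasPrimFrac_bar A (M' * q) hq ((A.mem_nonunits_iff).mp hA)) hz hαz

/-- **the twist `φ : κ' → κ'`, `x(X) ↦ x(X^q)`** -/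
def r2iPhi : ↥(modularFunctionFieldFullC (IsLocalRing.ResidueField A) M') →+*
    ↥(modularFunctionFieldFullC (IsLocalRing.ResidueField A) M') :=
  ((qExpand (IsLocalRing.ResidueField A) q).comp
    (modularFunctionFieldFullC (IsLocalRing.ResidueField A) M').val.toRingHom).codRestrict
    (modularFunctionFieldFullC (IsLocalRing.ResidueField A) M').toSubfield
    (fun x => by
      haveI : Fact q.Prime := ⟨hq⟩
      haveI : IsAlgClosed (IsLocalRing.ResidueField A) := isAlgClosed_residueField A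
      haveI : CharP (IsLocalRing.ResidueField A) q := Fermat.Agent.GM.charP_residueField hA
      haveI : PerfectRing (IsLocalRing.ResidueField A) q := inferInstance
      exact Fermat.Agent.S37lib.qExpand_mem_fullC (IsLocalRing.ResidueField A) q M' x.2)

theorem coe_r2iPhi (x : ↥(modularFunctionFieldFullC (IsLocalRing.ResidueField A) M')) :
    ((r2iPhi A M' q hq hA x : ↥(modularFunctionFieldFullC (IsLocalRing.ResidueField A) M')) :
      LaurentSeries (IsLocalRing.ResidueField A)) =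
      qExpand (IsLocalRing.ResidueField A) q (x : LaurentSeries (IsLocalRing.ResidueField A)) :=
  rfl

/-- `red_mid (α z) = red_∞ z` -/
theorem r2i_tαMid (z : (nodeSetupNj A M' q hq hqM hA RN hRN).B) :
    (nodeSetupMj A M' q hq hqM hA R hR (vmidSV A hq ((A.mem_nonunits_iff).mp hA) hζq hE)
        hiMid hoMid).redMid ((r2iAlpha A M' q hq hqM hA RN hRN R hR hζq hE hiMid hoMid).toB z) =
      (nodeSetupNj A M' q hq hqM hA RN hRN).redInf z := by
  have hz : ((z : f0Field A (M' * q)) : FF (M' * q)) ∈ RN.O :=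
    ((r2i_mem_Nj A M' q hq hqM hA RN hRN z.1).1 z.2).2.1
  obtain ⟨a, b, hrep⟩ := hRN.exists_isRep
    (vmid_hasPrimFrac_bar A (M' * q) hq ((A.mem_nonunits_iff).mp hA)) hz
  have hαz : heckeAlphaBar Kbar (M' * q) q ((z : f0Field A (M' * q)) : FF (M' * q)) ∈
      vmidO A hq ((A.mem_nonunits_iff).mp hA) hζq hE :=
    (vmid_alpha_mem_iff A hq ((A.mem_nonunits_iff).mp hA) hζq hE _).2 ⟨a, b, hrep⟩
  apply Subtype.ext
  show vmidRed A hq ((A.mem_nonunits_iff).mp hA) hζq hE ⟨_, hαz⟩ =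
    ((RN.red ⟨_, hz⟩ : ↥(modularFunctionFieldFullC (IsLocalRing.ResidueField A) M')) :
      LaurentSeries (IsLocalRing.ResidueField A))
  rw [vmidRed_alpha A hq ((A.mem_nonunits_iff).mp hA) hζq hE _ hαz hrep,
    hRN.red_of_isRep hrep hz]

/-- `red_0 (α z) = φ (red_0 z)` -/
theorem r2i_tαZero (z : (nodeSetupNj A M' q hq hqM hA RN hRN).B) :
    (nodeSetupMj A M' q hq hqM hA R hR (vmidSV A hq ((A.mem_nonunits_iff).mp hA) hζq hE)
        hiMid hoMid).redZero ((r2iAlpha A M' q hq hqM hA RN hRN R hR hζq hE hiMid hoMid).toB z) =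
      r2iPhi A M' q hq hA ((nodeSetupNj A M' q hq hqM hA RN hRN).redZero z) := by
  have hz : ((z : f0Field A (M' * q)) : FF (M' * q)) ∈
      (inredComap RN (alW1 M' hq hqM)).O :=
    ((r2i_mem_Nj A M' q hq hqM hA RN hRN z.1).1 z.2).2.2
  have hαz : heckeAlphaBar Kbar (M' * q) q ((z : f0Field A (M' * q)) : FF (M' * q)) ∈
      (inredZero2 M' hq hqM R).O :=
    (vz2Zero_alpha_mem_iff M' hq hqM hRN hR
      (vmid_hasPrimFrac_bar A (M' * q) hq ((A.mem_nonunits_iff).mp hA)) _).2 hz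
  apply Subtype.ext
  exact vz2Zero_alpha_red M' hq hqM hRN hR
    (vmid_hasPrimFrac_bar A (M' * q) hq ((A.mem_nonunits_iff).mp hA)) hz hαz

/-- `red_∞ (β z) = φ (red_∞ z)` -/
theorem r2i_tβInf (z : (nodeSetupNj A M' q hq hqM hA RN hRN).B) :
    (nodeSetupMj A M' q hq hqM hA R hR (vmidSV A hq ((A.mem_nonunits_iff).mp hA) hζq hE)
        hiMid hoMid).redInf ((r2iBeta A M' q hq hqM hA RN hRN R hR hζq hE hiMid hoMid).toB z) =
      r2iPhi A M' q hq hA ((nodeSetupNj A M' q hq hqM hA RN hRN).redInf z) := by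
  have hz : ((z : f0Field A (M' * q)) : FF (M' * q)) ∈ RN.O :=
    ((r2i_mem_Nj A M' q hq hqM hA RN hRN z.1).1 z.2).2.1
  have hβz : heckeBetaBar Kbar (M' * q) q ((z : f0Field A (M' * q)) : FF (M' * q)) ∈ R.O :=
    (vz2_beta_mem_iff (M' * q) q hRN hR
      (vmid_hasPrimFrac_bar A (M' * q) hq ((A.mem_nonunits_iff).mp hA)) _).2 hz
  apply Subtype.ext
  exact vz2_beta_red (M' * q) q hRN hR
    (vmid_hasPrimFrac_bar A (M' * q) hq ((A.mem_nonunits_iff).mp hA)) hz hβz

/-- `red_mid (β z) = red_0 z` -/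
theorem r2i_tβMid (z : (nodeSetupNj A M' q hq hqM hA RN hRN).B) :
    (nodeSetupMj A M' q hq hqM hA R hR (vmidSV A hq ((A.mem_nonunits_iff).mp hA) hζq hE)
        hiMid hoMid).redMid ((r2iBeta A M' q hq hqM hA RN hRN R hR hζq hE hiMid hoMid).toB z) =
      (nodeSetupNj A M' q hq hqM hA RN hRN).redZero z := by
  have hz : alW1 M' hq hqM ((z : f0Field A (M' * q)) : FF (M' * q)) ∈ RN.O :=
    ((r2i_mem_Nj A M' q hq hqM hA RN hRN z.1).1 z.2).2.2
  have hβz : heckeBetaBar Kbar (M' * q) q ((z : f0Field A (M' * q)) : FF (M' * q)) ∈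
      vmidO A hq ((A.mem_nonunits_iff).mp hA) hζq hE :=
    (vmb_beta_mem_iff' A RN hq hqM ((A.mem_nonunits_iff).mp hA) hζq hE hRN _).2 hz
  apply Subtype.ext
  exact vmb_red_beta' A RN hq hqM ((A.mem_nonunits_iff).mp hA) hζq hE hRN _ hβz hz

/-- `red_0 (β z) = red_0 z` -/
theorem r2i_tβZero (z : (nodeSetupNj A M' q hq hqM hA RN hRN).B) :
    (nodeSetupMj A M' q hq hqM hA R hR (vmidSV A hq ((A.mem_nonunits_iff).mp hA) hζq hE)
        hiMid hoMid).redZero ((r2iBeta A M' q hq hqM hA RN hRN R hR hζq hE hiMid hoMid).toB z) =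
      (nodeSetupNj A M' q hq hqM hA RN hRN).redZero z := by
  have hz : ((z : f0Field A (M' * q)) : FF (M' * q)) ∈
      (inredComap RN (alW1 M' hq hqM)).O :=
    ((r2i_mem_Nj A M' q hq hqM hA RN hRN z.1).1 z.2).2.2
  have hβz : heckeBetaBar Kbar (M' * q) q ((z : f0Field A (M' * q)) : FF (M' * q)) ∈
      (inredZero2 M' hq hqM R).O :=
    (vz2Zero_beta_mem_iff M' hq hqM hRN hR
      (vmid_hasPrimFrac_bar A (M' * q) hq ((A.mem_nonunits_iff).mp hA)) _).2 hz
  exact vz2Zero_beta_red M' hq hqM hRN hR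
    (vmid_hasPrimFrac_bar A (M' * q) hq ((A.mem_nonunits_iff).mp hA)) hz hβz

/-- `α` is `A0`-linear -/
theorem r2i_alpha_const (a : k0Val A) :
    (r2iAlpha A M' q hq hqM hA RN hRN R hR hζq hE hiMid hoMid).toB
        ((nodeSetupNj A M' q hq hqM hA RN hRN).constB a) =
      (nodeSetupMj A M' q hq hqM hA R hR (vmidSV A hq ((A.mem_nonunits_iff).mp hA) hζq hE)
        hiMid hoMid).constB a := by
  apply Subtype.ext
  apply Subtype.ext
  show heckeAlphaBar Kbar (M' * q) q (algebraMap Kbar (FF (M' * q)) _) = algebraMap Kbar _ _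
  exact AlgHom.commutes _ _

/-- `β` is `A0`-linear -/
theorem r2i_beta_const (a : k0Val A) :
    (r2iBeta A M' q hq hqM hA RN hRN R hR hζq hE hiMid hoMid).toB
        ((nodeSetupNj A M' q hq hqM hA RN hRN).constB a) =
      (nodeSetupMj A M' q hq hqM hA R hR (vmidSV A hq ((A.mem_nonunits_iff).mp hA) hζq hE)
        hiMid hoMid).constB a := by
  apply Subtype.ext
  apply Subtype.ext
  show heckeBetaBar Kbar (M' * q) q (algebraMap Kbar (FF (M' * q)) _) = algebraMap Kbar _ _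
  exact AlgHom.commutes _ _

/-! ### W-4: hufd at the nodes of `nodeSetupMj` -/

/-- **`B_M ⧸ p_∞` is a Dedekind domain** (`M = M' q²`, `B_j`), from level `N = M' q`. -/
theorem r2i_isDedekindDomain_redInf
    (hintα : (r2iAlpha A M' q hq hqM hA RN hRN R hR hζq hE hiMid hoMid).toB.IsIntegral)
    [IsDedekindDomain (nodeSetupNj A M' q hq hqM hA RN hRN).redInf.range]
    (hcl : ∀ c : ↥(modularFunctionFieldFullC (IsLocalRing.ResidueField A) M'),
      IsIntegral (nodeSetupNj A M' q hq hqM hA RN hRN).redInf.range c →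
        c ∈ (nodeSetupNj A M' q hq hqM hA RN hRN).redInf.range) :
    IsDedekindDomain (nodeSetupMj A M' q hq hqM hA R hR
      (vmidSV A hq ((A.mem_nonunits_iff).mp hA) hζq hE) hiMid hoMid).redInf.range :=
  (r2iAlpha A M' q hq hqM hA RN hRN R hR hζq hE hiMid hoMid).r2c_isDedekindDomain_redInf
    (r2i_tαInf A M' q hq hqM hA RN hRN R hR hζq hE hiMid hoMid) hintα hcl

/-- **W-4: the local rings of `B_j(M' q²)` at the nodes are UFDs.**  Inputs: Noetherian +
integrally closed (W-2j), `B_M` integral over `α (B_N)` (W-2j), `red_∞(B_N)` Dedekind and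
integrally closed in `κ'` (W-3a), `hne`, REG1 for `p_∞` at level `N` (W-3f), `hdiv` for `β h'`
at level `M` (W-3d). -/
theorem r2i_hufd
    [IsNoetherianRing (nodeSetupMj A M' q hq hqM hA R hR
      (vmidSV A hq ((A.mem_nonunits_iff).mp hA) hζq hE) hiMid hoMid).B]
    [IsIntegrallyClosed (nodeSetupMj A M' q hq hqM hA R hR
      (vmidSV A hq ((A.mem_nonunits_iff).mp hA) hζq hE) hiMid hoMid).B]
    (hintα : (r2iAlpha A M' q hq hqM hA RN hRN R hR hζq hE hiMid hoMid).toB.IsIntegral)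
    [IsDedekindDomain (nodeSetupNj A M' q hq hqM hA RN hRN).redInf.range]
    (hcl : ∀ c : ↥(modularFunctionFieldFullC (IsLocalRing.ResidueField A) M'),
      IsIntegral (nodeSetupNj A M' q hq hqM hA RN hRN).redInf.range c →
        c ∈ (nodeSetupNj A M' q hq hqM hA RN hRN).redInf.range)
    (hne : ¬ (nodeSetupNj A M' q hq hqM hA RN hRN).pZero ≤
      (nodeSetupNj A M' q hq hqM hA RN hRN).pInf)
    (e : ℕ) (he : 0 < e) (h' : (nodeSetupNj A M' q hq hqM hA RN hRN).B) (hh : h' ≠ 0)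
    (hreg1 : ∀ s : Ideal (nodeSetupNj A M' q hq hqM hA RN hRN).B,
      (nodeSetupNj A M' q hq hqM hA RN hRN).IsNode s →
        ∃ x ε : (nodeSetupNj A M' q hq hqM hA RN hRN).B,
          x ∈ (nodeSetupNj A M' q hq hqM hA RN hRN).pInf ∧ x ^ e = ε * h' ∧ ε ∉ s)
    (hdiv : (nodeSetupMj A M' q hq hqM hA R hR
        (vmidSV A hq ((A.mem_nonunits_iff).mp hA) hζq hE) hiMid hoMid).pInf ^ e ≤
      Ideal.span {(r2iBeta A M' q hq hqM hA RN hRN R hR hζq hE hiMid hoMid).toB h'})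
    (t : Ideal (nodeSetupMj A M' q hq hqM hA R hR
      (vmidSV A hq ((A.mem_nonunits_iff).mp hA) hζq hE) hiMid hoMid).B) [t.IsMaximal]
    (ht : (nodeSetupMj A M' q hq hqM hA R hR
      (vmidSV A hq ((A.mem_nonunits_iff).mp hA) hζq hE) hiMid hoMid).IsNode t) :
    UniqueFactorizationMonoid (Localization.AtPrime t) :=
  r2c_hufd_inf (r2iAlpha A M' q hq hqM hA RN hRN R hR hζq hE hiMid hoMid)
    (r2iBeta A M' q hq hqM hA RN hRN R hR hζq hE hiMid hoMid)
    (r2i_tαInf A M' q hq hqM hA RN hRN R hR hζq hE hiMid hoMid) hintα hcl hne e he h' hh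
    hreg1 hdiv t ht

end Inst

end Fermat.Agent.S36lib

end
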