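import Mathlib
import Fermat.Agent.S36lib.Reg2Inst
import Fermat.Agent.S36lib.IncConc
import Fermat.Agent.S36lib.RedMem
import Fermat.Agent.S36lib.TorInst
import Fermat.Agent.S36lib.VHrad
import Fermat.Agent.S36lib.ALF0
import Fermat.Agent.S36lib.UnitQRed
import Fermat.Agent.S36lib.RangeN
import Fermat.Agent.S36lib.RangeR
import Fermat.Agent.S36lib.Reg1Final
import Fermat.Agent.S36lib.RangeMj

/-!
# Item 83 (S36), piece INC-j (helper9): INC for the pair `(nodeSetupNj, nodeSetupMj)`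

helper22's `incc_nodeSetup`, `incc_nodeSetup_htri`, `incc_nodeSetup_over`, `incc_nodeSetup_hnode`
(`IncConc.lean`) instantiated at `SN := nodeSetupNj`, `SM := nodeSetupMj` (`B_j`, levels `M' q`,
`M' q²`), with `fα = r2iAlpha`, `fβ = r2iBeta`, the six tables of `Reg2Inst.lean`,
`φ = r2iPhi = affFrobFk`, `Fr = torFr`, `ϖ = q`, `Hrad = vhrad_levelM`.

`R = rgnC A M'` (helper4, RANGE-N; `hFrR` = helper14's `rgr_hFrR`), `hnle`, `hnle'` from helper24's
modular unit (`UnitQRed`), REG1 at level `N` from helper15's `r1c_hreg1_range`.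

`hMInf, hMMid, hMZero` are helper21's `rmj_range_of_sum` (with helper21's `aij_hintα` inside).

Open inputs (hypotheses of `incj_pkg`, `incj_inc`, `incj_htri`, `incj_over`, `incj_hnode`):
`B_j(M)` Noetherian, `B_j(N)` integrally closed, `IsAuxLevel q M'`, (SUM) at level `N`
(`RgnSum`).
-/

set_option autoImplicit false
set_option linter.style.haveILetI false
set_option linter.unusedSectionVars false
set_option synthInstance.maxHeartbeats 400000
set_option maxHeartbeats 1600000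

noncomputable section

namespace Fermat.Agent.S36lib

open ModularCurve AlgebraicCurve HahnSeries
open Fermat.Agent.S24lib Fermat.Agent.S34lib Fermat.Agent.HeckeBar Fermat.Agent.GoodRed
open Fermat.Agent.S37lib Fermat.Agent.S35lib Fermat.Agent.GM Fermat.Agent.FFlib

section IncJ

variable (A : ValuationSubring Kbar) (M' q : ℕ) [NeZero M'] [NeZero q] (hq : q.Prime)
  (hqM : ¬ q ∣ M') (hA : A.LiesOverPrime q)
  [Fact q.Prime] [CharP (IsLocalRing.ResidueField A) q]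
  [PerfectRing (IsLocalRing.ResidueField A) q]
  (RN : ConstRed A (IsLocalRing.residue A)
    (↥(modularFunctionFieldFullC (IsLocalRing.ResidueField A) M')) (FF (M' * q)))
  (hRN : IsSeriesRed RN)
  (R : ConstRed A (IsLocalRing.residue A)
    (↥(modularFunctionFieldFullC (IsLocalRing.ResidueField A) M')) (FF (M' * q * q)))
  (hR : IsSeriesRed R)
  {ζ : Kbarˣ} {E : FF (M' * q * q) →+* LaurentSeries Kbar} (hζq : ζ ^ q = 1)
  (hζ : IsPrimitiveRoot (ζ : Kbar) q)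
  (hE : IsMidExp M' q ζ E)
  (hiMid : ∀ (x : FF (M' * q * q))
    (hx : x ∈ (vmidSV A hq ((A.mem_nonunits_iff).mp hA) hζq hE).O),
    x ∈ f0Field A (M' * q * q) →
      (vmidSV A hq ((A.mem_nonunits_iff).mp hA) hζq hE).red ⟨x, hx⟩ ∈
        modularFunctionFieldFullC (IsLocalRing.ResidueField A) M')
  (hoMid : ∀ y ∈ modularFunctionFieldFullC (IsLocalRing.ResidueField A) M',
    ∃ (x : FF (M' * q * q)) (hx : x ∈ (vmidSV A hq ((A.mem_nonunits_iff).mp hA) hζq hE).O),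
      x ∈ f0Field A (M' * q * q) ∧
        (vmidSV A hq ((A.mem_nonunits_iff).mp hA) hζq hE).red ⟨x, hx⟩ = y)

/-- `r2iPhi` is the `k`-linear Frobenius `affFrobFk` -/
theorem r2iPhi_eq_affFrobFk
    (x : ↥(modularFunctionFieldFullC (IsLocalRing.ResidueField A) M')) :
    r2iPhi A M' q hq hA x = affFrobFk (IsLocalRing.ResidueField A) q M' x :=
  Subtype.ext rfl

/-- `φ (Fr x) = x ^ q` for `φ = r2iPhi`, `Fr = torFr` -/
theorem r2iPhi_torFr (x : ↥(modularFunctionFieldFullC (IsLocalRing.ResidueField A) M')) :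
    r2iPhi A M' q hq hA (torFr (IsLocalRing.ResidueField A) q M' x) = x ^ q := by
  rw [r2iPhi_eq_affFrobFk, torFr_affFrobFk]

include hA in
/-- the residue class of `q` is `0` -/
theorem incj_res_q : k0Res A (q : k0Val A) = 0 := by
  apply (k0_residue_comp_eq_zero_iff A (q : k0Val A)).2
  rw [← ValuationSubring.coe_mem_nonunits_iff]
  exact k0Val_q_mem_nonunits A q hA

include hζ in
/-- `Hrad` for `nodeSetupMj` -/
theorem incj_hrad
    (P : Ideal (nodeSetupMj A M' q hq hqM hA R hR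
      (vmidSV A hq ((A.mem_nonunits_iff).mp hA) hζq hE) hiMid hoMid).B) (hP : P.IsPrime)
    (hqP : (nodeSetupMj A M' q hq hqM hA R hR
      (vmidSV A hq ((A.mem_nonunits_iff).mp hA) hζq hE) hiMid hoMid).constB (q : k0Val A) ∈ P) :
    (nodeSetupMj A M' q hq hqM hA R hR
      (vmidSV A hq ((A.mem_nonunits_iff).mp hA) hζq hE) hiMid hoMid).pInf ≤ P ∨
    (nodeSetupMj A M' q hq hqM hA R hR
      (vmidSV A hq ((A.mem_nonunits_iff).mp hA) hζq hE) hiMid hoMid).pMid ≤ P ∨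
    (nodeSetupMj A M' q hq hqM hA R hR
      (vmidSV A hq ((A.mem_nonunits_iff).mp hA) hζq hE) hiMid hoMid).pZero ≤ P :=
  vhrad_levelM A (cuspSet (M' * q * q)) R (alW2 M' hq hqM)
    (modularFunctionFieldFullC (IsLocalRing.ResidueField A) M') hq hA hR
    (fun x hx => alW2_mem_f0Field A M' hq hqM hx) hζ hE ((A.mem_nonunits_iff).mp hA) hζq
    (vmidSV A hq ((A.mem_nonunits_iff).mp hA) hζq hE) rfl _ _ _ _ _ _ P hP hqP

/-! ### `hnle`, `hnle'` from the modular unit `u = Δ(qz)/Δ(z)` (helper24's `UnitQRed`) -/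

/-- `h · h' = q ^ 12` in `B_j(N)` -/
theorem incj_h_mul_h' :
    uqrHB A M' q hq hqM hA RN hRN * uqrHB' A M' q hq hqM hA RN hRN =
      (nodeSetupNj A M' q hq hqM hA RN hRN).constB (q : k0Val A) ^ 12 := by
  apply Subtype.ext
  apply Subtype.ext
  show (uqrU M' q)⁻¹ * (algebraMap Kbar (FF (M' * q)) ((q : Kbar) ^ 12) * uqrU M' q) =
    (algebraMap Kbar (FF (M' * q)) (((q : k0Val A) : k0Field A) : Kbar)) ^ 12
  rw [k0Val_coe_natCast, map_pow]
  have hu : uqrU M' q ≠ 0 := unitQ_ne_zero (M' * q) q (dvd_mul_left q M')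
  field_simp

/-- `red_∞ h ≠ 0` -/
theorem incj_redInf_h_ne :
    (nodeSetupNj A M' q hq hqM hA RN hRN).redInf (uqrHB A M' q hq hqM hA RN hRN) ≠ 0 := by
  intro h0
  have h1 := uqr_redInf_h A M' q hq hqM hA RN hRN
  rw [h0] at h1
  exact inv_ne_zero (uqr_ueuU_ne_zero (IsLocalRing.ResidueField A) q) h1.symm

/-- `red_0 h' ≠ 0` -/
theorem incj_redZero_h'_ne :
    (nodeSetupNj A M' q hq hqM hA RN hRN).redZero (uqrHB' A M' q hq hqM hA RN hRN) ≠ 0 := by
  intro h0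
  have h1 := uqr_redZero_h' A M' q hq hqM hA RN hRN
  rw [h0] at h1
  exact inv_ne_zero (uqr_ueuU_ne_zero (IsLocalRing.ResidueField A) q) h1.symm

/-- `h' ∈ p_∞` -/
theorem incj_h'_mem_pInf :
    uqrHB' A M' q hq hqM hA RN hRN ∈ (nodeSetupNj A M' q hq hqM hA RN hRN).pInf := by
  have h1 : uqrHB A M' q hq hqM hA RN hRN * uqrHB' A M' q hq hqM hA RN hRN ∈
      (nodeSetupNj A M' q hq hqM hA RN hRN).pInf := by
    rw [incj_h_mul_h']
    exact Ideal.pow_mem_of_mem _ (inc_setup_const_mem_pInf _ _ (incj_res_q A q hA)) 12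
      (by norm_num)
  rcases (nodeSetupNj A M' q hq hqM hA RN hRN).pInf_isPrime.mem_or_mem h1 with h | h
  · exact absurd h (incj_redInf_h_ne A M' q hq hqM hA RN hRN)
  · exact h

/-- `h ∈ p_0` -/
theorem incj_h_mem_pZero :
    uqrHB A M' q hq hqM hA RN hRN ∈ (nodeSetupNj A M' q hq hqM hA RN hRN).pZero := by
  have h1 : uqrHB A M' q hq hqM hA RN hRN * uqrHB' A M' q hq hqM hA RN hRN ∈
      (nodeSetupNj A M' q hq hqM hA RN hRN).pZero := by
    rw [incj_h_mul_h']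
    exact Ideal.pow_mem_of_mem _ (inc_setup_const_mem_pZero _ _ (incj_res_q A q hA)) 12
      (by norm_num)
  rcases (nodeSetupNj A M' q hq hqM hA RN hRN).pZero_isPrime.mem_or_mem h1 with h | h
  · exact h
  · exact absurd h (incj_redZero_h'_ne A M' q hq hqM hA RN hRN)

/-- **`hnle`**: `p_∞ ≰ p_0` in `B_j(N)` -/
theorem incj_hnle :
    ¬ (nodeSetupNj A M' q hq hqM hA RN hRN).pInf ≤
      (nodeSetupNj A M' q hq hqM hA RN hRN).pZero :=
  incc_setup_hnle (uqrHB' A M' q hq hqM hA RN hRN) (incj_h'_mem_pInf A M' q hq hqM hA RN hRN)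
    (incj_redZero_h'_ne A M' q hq hqM hA RN hRN)

/-- **`hnle'`**: `p_0 ≰ p_∞` in `B_j(N)` -/
theorem incj_hnle' :
    ¬ (nodeSetupNj A M' q hq hqM hA RN hRN).pZero ≤
      (nodeSetupNj A M' q hq hqM hA RN hRN).pInf :=
  incc_setup_hnle' (uqrHB A M' q hq hqM hA RN hRN) (incj_h_mem_pZero A M' q hq hqM hA RN hRN)
    (incj_redInf_h_ne A M' q hq hqM hA RN hRN)


/-! ### INC-j -/

/-- `hFrR` for `C = rgnC A M'` (helper14's `rgr_hFrR`) -/
theorem incj_hFrR (x : ↥(modularFunctionFieldFullC (IsLocalRing.ResidueField A) M')) :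
    torFr (IsLocalRing.ResidueField A) q M' x ∈ rgnC A M' ↔ x ∈ rgnC A M' := by
  have h := rgr_hFrR (IsLocalRing.ResidueField A) q M' x
  rw [mem_rgrR, mem_rgrR] at h
  rw [mem_rgnC_iff, mem_rgnC_iff]
  exact h

/-- `C = rgnC A M'` is stable under `φ = r2iPhi` -/
theorem incj_hφR (x : ↥(modularFunctionFieldFullC (IsLocalRing.ResidueField A) M'))
    (hx : x ∈ rgnC A M') : r2iPhi A M' q hq hA x ∈ rgnC A M' := by
  have h1 : (torFr (IsLocalRing.ResidueField A) q M').symm x ∈ rgnC A M' :=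
    (incj_hFrR A M' q _).1 (by rw [RingEquiv.apply_symm_apply]; exact hx)
  have h2 := r2iPhi_torFr A M' q hq hA ((torFr (IsLocalRing.ResidueField A) q M').symm x)
  rw [RingEquiv.apply_symm_apply] at h2
  rw [h2]
  exact pow_mem h1 q

/-- REG1 at level `N` in the form of `incc_nodeSetup` (helper15's `r1c_hreg1_range`) -/
theorem incj_hreg1
    [IsIntegrallyClosed (nodeSetupNj A M' q hq hqM hA RN hRN).B]
    (haux : IsAuxLevel q M') (hSUM : RgnSum A M' q hq hqM RN) :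
    (∀ s : Ideal (nodeSetupNj A M' q hq hqM hA RN hRN).B, (nodeSetupNj A M' q hq hqM hA RN hRN).IsNode s →
      ∃ y ε : (nodeSetupNj A M' q hq hqM hA RN hRN).B, y ∈ (nodeSetupNj A M' q hq hqM hA RN hRN).pInf ∧ ε ∉ s ∧ ∀ z ∈ (nodeSetupNj A M' q hq hqM hA RN hRN).pInf, y ∣ ε * z) ∧
    (∀ s : Ideal (nodeSetupNj A M' q hq hqM hA RN hRN).B, (nodeSetupNj A M' q hq hqM hA RN hRN).IsNode s →
      ∃ y ε : (nodeSetupNj A M' q hq hqM hA RN hRN).B, y ∈ (nodeSetupNj A M' q hq hqM hA RN hRN).pZero ∧ ε ∉ s ∧ ∀ z ∈ (nodeSetupNj A M' q hq hqM hA RN hRN).pZero, y ∣ ε * z) := by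
  have hreg := r1c_hreg1_range A M' q hq hqM hA RN hRN haux
    (rgn_hiInf A M' q hq hqM hA RN hRN hSUM) (rgn_hiZero A M' q hq hqM hA RN hRN hSUM)
    (rgn_hoInf A M' q hq hqM hA RN hRN haux) (rgn_hoZero A M' q hq hqM hA RN hRN haux)
  refine ⟨fun s hs => ?_, fun s hs => ?_⟩
  · obtain ⟨y, ε, h1, -, h3, h4⟩ := hreg.2 s hs
    exact ⟨y, ε, h1, h3, h4⟩
  · obtain ⟨y, ε, h1, -, h3, h4⟩ := hreg.1 s hs
    exact ⟨y, ε, h1, h3, h4⟩

/-- RANGE-N onto `C = rgnC A M'` (helper4) -/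
theorem incj_hs (haux : IsAuxLevel q M') :
    (∀ r ∈ rgnC A M', ∃ w : (nodeSetupNj A M' q hq hqM hA RN hRN).B, (nodeSetupNj A M' q hq hqM hA RN hRN).redInf w = r) ∧
    (∀ r ∈ rgnC A M', ∃ w : (nodeSetupNj A M' q hq hqM hA RN hRN).B, (nodeSetupNj A M' q hq hqM hA RN hRN).redZero w = r) :=
  ⟨fun r hr => rgn_hoInf A M' q hq hqM hA RN hRN haux r ((mem_rgnC_iff A M' r).1 hr),
    fun r hr => rgn_hoZero A M' q hq hqM hA RN hRN haux r ((mem_rgnC_iff A M' r).1 hr)⟩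

include hζ in
/-- **INC-j**: a maximal ideal of `B_j(M' q²)` containing two of the three primes is a node, and
contains `p_mid`.  Open inputs: `B_j(M)` Noetherian, `B_j(N)` integrally closed,
`IsAuxLevel q M'`, (SUM) at level `N` (`RgnSum`). -/
theorem incj_inc
    [IsNoetherianRing (nodeSetupMj A M' q hq hqM hA R hR
      (vmidSV A hq ((A.mem_nonunits_iff).mp hA) hζq hE) hiMid hoMid).B]
    [IsIntegrallyClosed (nodeSetupNj A M' q hq hqM hA RN hRN).B]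
    (haux : IsAuxLevel q M') (hSUM : RgnSum A M' q hq hqM RN) :
    ∀ 𝔪 : Ideal (nodeSetupMj A M' q hq hqM hA R hR
      (vmidSV A hq ((A.mem_nonunits_iff).mp hA) hζq hE) hiMid hoMid).B, 𝔪.IsMaximal →
      (((nodeSetupMj A M' q hq hqM hA R hR
      (vmidSV A hq ((A.mem_nonunits_iff).mp hA) hζq hE) hiMid hoMid).pInf ≤ 𝔪 ∧ (nodeSetupMj A M' q hq hqM hA R hR
      (vmidSV A hq ((A.mem_nonunits_iff).mp hA) hζq hE) hiMid hoMid).pMid ≤ 𝔪) ∨
        ((nodeSetupMj A M' q hq hqM hA R hR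
      (vmidSV A hq ((A.mem_nonunits_iff).mp hA) hζq hE) hiMid hoMid).pInf ≤ 𝔪 ∧ (nodeSetupMj A M' q hq hqM hA R hR
      (vmidSV A hq ((A.mem_nonunits_iff).mp hA) hζq hE) hiMid hoMid).pZero ≤ 𝔪) ∨
        ((nodeSetupMj A M' q hq hqM hA R hR
      (vmidSV A hq ((A.mem_nonunits_iff).mp hA) hζq hE) hiMid hoMid).pMid ≤ 𝔪 ∧ (nodeSetupMj A M' q hq hqM hA R hR
      (vmidSV A hq ((A.mem_nonunits_iff).mp hA) hζq hE) hiMid hoMid).pZero ≤ 𝔪)) →
      (nodeSetupMj A M' q hq hqM hA R hR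
      (vmidSV A hq ((A.mem_nonunits_iff).mp hA) hζq hE) hiMid hoMid).IsNode 𝔪 ∧ (nodeSetupMj A M' q hq hqM hA R hR
      (vmidSV A hq ((A.mem_nonunits_iff).mp hA) hζq hE) hiMid hoMid).pMid ≤ 𝔪 := by
  obtain ⟨hsInf, hsZero⟩ := incj_hs A M' q hq hqM hA RN hRN haux
  have hM := rmj_range_of_sum A M' q hq hqM hA RN hRN R hR hζq hE hiMid hoMid haux hζ hSUM
  obtain ⟨hreg1Inf, hreg1Zero⟩ := incj_hreg1 A M' q hq hqM hA RN hRN haux hSUM
  have hrad := incj_hrad A M' q hq hqM hA R hR hζq hζ hE hiMid hoMid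
  have tαInf := r2i_tαInf A M' q hq hqM hA RN hRN R hR hζq hE hiMid hoMid
  have tαMid := r2i_tαMid A M' q hq hqM hA RN hRN R hR hζq hE hiMid hoMid
  have tαZero := r2i_tαZero A M' q hq hqM hA RN hRN R hR hζq hE hiMid hoMid
  have tβInf := r2i_tβInf A M' q hq hqM hA RN hRN R hR hζq hE hiMid hoMid
  have tβMid := r2i_tβMid A M' q hq hqM hA RN hRN R hR hζq hE hiMid hoMid
  have tβZero := r2i_tβZero A M' q hq hqM hA RN hRN R hR hζq hE hiMid hoMid
  have hαc := r2i_alpha_const A M' q hq hqM hA RN hRN R hR hζq hE hiMid hoMid (q : k0Val A)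
  have hβc := r2i_beta_const A M' q hq hqM hA RN hRN R hR hζq hE hiMid hoMid (q : k0Val A)
  have hnle := incj_hnle A M' q hq hqM hA RN hRN
  have hnle' := incj_hnle' A M' q hq hqM hA RN hRN
  exact incc_nodeSetup _ _ (rgnC A M') hsInf hsZero hM.1 hM.2.1 hM.2.2
      _ tαInf tαMid tαZero tβInf tβMid tβZero
      (torFr (IsLocalRing.ResidueField A) q M') (incj_hFrR A M' q) q hq.pos
      (r2iPhi_torFr A M' q hq hA) hnle hnle'
      (q : k0Val A) (vhrad_q_ne_zero A hq) (incj_res_q A q hA) hαc hβc hrad hreg1Inf hreg1Zero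

include hζ in
/-- **INC-j, nodes over nodes**: over every node `s` of `B_j(N)` there is a node `t` of `B_j(M)`
with `β⁻¹ t = s` and `p_mid ≤ t`. -/
theorem incj_over
    [IsNoetherianRing (nodeSetupMj A M' q hq hqM hA R hR
      (vmidSV A hq ((A.mem_nonunits_iff).mp hA) hζq hE) hiMid hoMid).B]
    [IsIntegrallyClosed (nodeSetupNj A M' q hq hqM hA RN hRN).B]
    (haux : IsAuxLevel q M') (hSUM : RgnSum A M' q hq hqM RN) :
    ∀ s : Ideal (nodeSetupNj A M' q hq hqM hA RN hRN).B, (nodeSetupNj A M' q hq hqM hA RN hRN).IsNode s →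
      ∃ t : Ideal (nodeSetupMj A M' q hq hqM hA R hR
      (vmidSV A hq ((A.mem_nonunits_iff).mp hA) hζq hE) hiMid hoMid).B, (nodeSetupMj A M' q hq hqM hA R hR
      (vmidSV A hq ((A.mem_nonunits_iff).mp hA) hζq hE) hiMid hoMid).IsNode t ∧ (nodeSetupMj A M' q hq hqM hA R hR
      (vmidSV A hq ((A.mem_nonunits_iff).mp hA) hζq hE) hiMid hoMid).pMid ≤ t ∧
        t.comap (r2iBeta A M' q hq hqM hA RN hRN R hR hζq hE hiMid hoMid).toB = s := by
  obtain ⟨hsInf, hsZero⟩ := incj_hs A M' q hq hqM hA RN hRN haux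
  have hM := rmj_range_of_sum A M' q hq hqM hA RN hRN R hR hζq hE hiMid hoMid haux hζ hSUM
  obtain ⟨hreg1Inf, hreg1Zero⟩ := incj_hreg1 A M' q hq hqM hA RN hRN haux hSUM
  have hrad := incj_hrad A M' q hq hqM hA R hR hζq hζ hE hiMid hoMid
  have tαInf := r2i_tαInf A M' q hq hqM hA RN hRN R hR hζq hE hiMid hoMid
  have tαMid := r2i_tαMid A M' q hq hqM hA RN hRN R hR hζq hE hiMid hoMid
  have tαZero := r2i_tαZero A M' q hq hqM hA RN hRN R hR hζq hE hiMid hoMid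
  have tβInf := r2i_tβInf A M' q hq hqM hA RN hRN R hR hζq hE hiMid hoMid
  have tβMid := r2i_tβMid A M' q hq hqM hA RN hRN R hR hζq hE hiMid hoMid
  have tβZero := r2i_tβZero A M' q hq hqM hA RN hRN R hR hζq hE hiMid hoMid
  have hαc := r2i_alpha_const A M' q hq hqM hA RN hRN R hR hζq hE hiMid hoMid (q : k0Val A)
  have hβc := r2i_beta_const A M' q hq hqM hA RN hRN R hR hζq hE hiMid hoMid (q : k0Val A)
  have hnle := incj_hnle A M' q hq hqM hA RN hRN
  have hnle' := incj_hnle' A M' q hq hqM hA RN hRN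
  exact incc_nodeSetup_over _ _ (rgnC A M') hsInf hsZero hM.1 hM.2.1 hM.2.2
      _ tαInf tαMid tαZero tβInf tβMid tβZero
      (torFr (IsLocalRing.ResidueField A) q M') (incj_hFrR A M' q) q hq.pos
      (r2iPhi_torFr A M' q hq hA) hnle hnle'
      (q : k0Val A) (vhrad_q_ne_zero A hq) (incj_res_q A q hA) hαc hβc hrad hreg1Inf hreg1Zero

include hζ in
/-- **INC-j, `htri`** for `nodeSetupMj` (`q_B = constB q`): a maximal ideal of `B_j(M' q²)`
containing `q` is a node or contains exactly one of the three primes. -/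
theorem incj_htri
    [IsNoetherianRing (nodeSetupMj A M' q hq hqM hA R hR
      (vmidSV A hq ((A.mem_nonunits_iff).mp hA) hζq hE) hiMid hoMid).B]
    [IsIntegrallyClosed (nodeSetupNj A M' q hq hqM hA RN hRN).B]
    (haux : IsAuxLevel q M') (hSUM : RgnSum A M' q hq hqM RN) :
    ∀ 𝔪 : Ideal (nodeSetupMj A M' q hq hqM hA R hR
      (vmidSV A hq ((A.mem_nonunits_iff).mp hA) hζq hE) hiMid hoMid).B, 𝔪.IsMaximal →
      (nodeSetupMj A M' q hq hqM hA R hR
      (vmidSV A hq ((A.mem_nonunits_iff).mp hA) hζq hE) hiMid hoMid).constB (q : k0Val A) ∈ 𝔪 →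
      (nodeSetupMj A M' q hq hqM hA R hR
      (vmidSV A hq ((A.mem_nonunits_iff).mp hA) hζq hE) hiMid hoMid).IsNode 𝔪 ∨
      ((nodeSetupMj A M' q hq hqM hA R hR
      (vmidSV A hq ((A.mem_nonunits_iff).mp hA) hζq hE) hiMid hoMid).pInf ≤ 𝔪 ∧ ¬ (nodeSetupMj A M' q hq hqM hA R hR
      (vmidSV A hq ((A.mem_nonunits_iff).mp hA) hζq hE) hiMid hoMid).pMid ≤ 𝔪 ∧ ¬ (nodeSetupMj A M' q hq hqM hA R hR
      (vmidSV A hq ((A.mem_nonunits_iff).mp hA) hζq hE) hiMid hoMid).pZero ≤ 𝔪) ∨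
      (¬ (nodeSetupMj A M' q hq hqM hA R hR
      (vmidSV A hq ((A.mem_nonunits_iff).mp hA) hζq hE) hiMid hoMid).pInf ≤ 𝔪 ∧ (nodeSetupMj A M' q hq hqM hA R hR
      (vmidSV A hq ((A.mem_nonunits_iff).mp hA) hζq hE) hiMid hoMid).pMid ≤ 𝔪 ∧ ¬ (nodeSetupMj A M' q hq hqM hA R hR
      (vmidSV A hq ((A.mem_nonunits_iff).mp hA) hζq hE) hiMid hoMid).pZero ≤ 𝔪) ∨
      (¬ (nodeSetupMj A M' q hq hqM hA R hR
      (vmidSV A hq ((A.mem_nonunits_iff).mp hA) hζq hE) hiMid hoMid).pInf ≤ 𝔪 ∧ ¬ (nodeSetupMj A M' q hq hqM hA R hR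
      (vmidSV A hq ((A.mem_nonunits_iff).mp hA) hζq hE) hiMid hoMid).pMid ≤ 𝔪 ∧ (nodeSetupMj A M' q hq hqM hA R hR
      (vmidSV A hq ((A.mem_nonunits_iff).mp hA) hζq hE) hiMid hoMid).pZero ≤ 𝔪) := by
  intro 𝔪 h𝔪 hϖ𝔪
  have node := incj_inc A M' q hq hqM hA RN hRN R hR hζq hζ hE hiMid hoMid haux hSUM 𝔪 h𝔪
  by_cases hI : (nodeSetupMj A M' q hq hqM hA R hR
      (vmidSV A hq ((A.mem_nonunits_iff).mp hA) hζq hE) hiMid hoMid).pInf ≤ 𝔪 <;>
  by_cases hMd : (nodeSetupMj A M' q hq hqM hA R hR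
      (vmidSV A hq ((A.mem_nonunits_iff).mp hA) hζq hE) hiMid hoMid).pMid ≤ 𝔪 <;>
  by_cases hZ : (nodeSetupMj A M' q hq hqM hA R hR
      (vmidSV A hq ((A.mem_nonunits_iff).mp hA) hζq hE) hiMid hoMid).pZero ≤ 𝔪
  · exact Or.inl (node (Or.inl ⟨hI, hMd⟩)).1
  · exact Or.inl (node (Or.inl ⟨hI, hMd⟩)).1
  · exact Or.inl (node (Or.inr (Or.inl ⟨hI, hZ⟩))).1
  · exact Or.inr (Or.inl ⟨hI, hMd, hZ⟩)
  · exact Or.inl (node (Or.inr (Or.inr ⟨hMd, hZ⟩))).1
  · exact Or.inr (Or.inr (Or.inl ⟨hI, hMd, hZ⟩))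
  · exact Or.inr (Or.inr (Or.inr ⟨hI, hMd, hZ⟩))
  · exfalso
    rcases incj_hrad A M' q hq hqM hA R hR hζq hζ hE hiMid hoMid 𝔪 h𝔪.isPrime hϖ𝔪 with h | h | h
    · exact hI h
    · exact hMd h
    · exact hZ h

include hζ in
/-- **INC-j, `hnode`** for `nodeSetupMj`, from a node of level `N`. -/
theorem incj_hnode
    [IsNoetherianRing (nodeSetupMj A M' q hq hqM hA R hR
      (vmidSV A hq ((A.mem_nonunits_iff).mp hA) hζq hE) hiMid hoMid).B]
    [IsIntegrallyClosed (nodeSetupNj A M' q hq hqM hA RN hRN).B]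
    (haux : IsAuxLevel q M') (hSUM : RgnSum A M' q hq hqM RN)
    (hN : ∃ s : Ideal (nodeSetupNj A M' q hq hqM hA RN hRN).B, (nodeSetupNj A M' q hq hqM hA RN hRN).IsNode s) :
    ∃ t : Ideal (nodeSetupMj A M' q hq hqM hA R hR
      (vmidSV A hq ((A.mem_nonunits_iff).mp hA) hζq hE) hiMid hoMid).B, (nodeSetupMj A M' q hq hqM hA R hR
      (vmidSV A hq ((A.mem_nonunits_iff).mp hA) hζq hE) hiMid hoMid).IsNode t ∧ (nodeSetupMj A M' q hq hqM hA R hR
      (vmidSV A hq ((A.mem_nonunits_iff).mp hA) hζq hE) hiMid hoMid).pMid ≤ t := by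
  obtain ⟨s, hs⟩ := hN
  obtain ⟨t, h1, h2, -⟩ :=
    incj_over A M' q hq hqM hA RN hRN R hR hζq hζ hE hiMid hoMid haux hSUM s hs
  exact ⟨t, h1, h2⟩

include hζ in
/-- **INC-j, every node of `B_j(M' q²)` contains `p_mid`.** -/
theorem incj_pMid_le_node
    [IsNoetherianRing (nodeSetupMj A M' q hq hqM hA R hR
      (vmidSV A hq ((A.mem_nonunits_iff).mp hA) hζq hE) hiMid hoMid).B]
    [IsIntegrallyClosed (nodeSetupNj A M' q hq hqM hA RN hRN).B]
    (haux : IsAuxLevel q M') (hSUM : RgnSum A M' q hq hqM RN)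
    (t : Ideal (nodeSetupMj A M' q hq hqM hA R hR
      (vmidSV A hq ((A.mem_nonunits_iff).mp hA) hζq hE) hiMid hoMid).B) (ht : (nodeSetupMj A M' q hq hqM hA R hR
      (vmidSV A hq ((A.mem_nonunits_iff).mp hA) hζq hE) hiMid hoMid).IsNode t) :
    (nodeSetupMj A M' q hq hqM hA R hR
      (vmidSV A hq ((A.mem_nonunits_iff).mp hA) hζq hE) hiMid hoMid).pMid ≤ t :=
  (incj_inc A M' q hq hqM hA RN hRN R hR hζq hζ hE hiMid hoMid haux hSUM t ht.1
    (Or.inr (Or.inl ⟨le_sup_left.trans ht.2, le_sup_right.trans ht.2⟩))).2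

end IncJ

end Fermat.Agent.S36lib

end
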