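import Mathlib
import Fermat.Agent.S36lib.SumConc
import Fermat.Agent.S36lib.TheSetup
import Fermat.Agent.S36lib.VZeroQ2
import Fermat.Agent.S36lib.VDisc
import Fermat.Agent.S36lib.MidExpGal
import Fermat.Agent.S34lib.ExProd
import Fermat.Agent.S36lib.HredQ2

/-!
# Item 83 (S36), block V, piece P4 at level `N = M' q` (helper28, recipe of helper2)

The two-valuation analogue of `SumConc.lean`: `φ : FF M' → FF N` (for item 83: `α'`,
`N = M' q`) commuting with the inertia action, of degree `≤ q + 1`; `v'` a `SeriesVal` of level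
`M'`, discrete on `F0(M')` with uniformiser `q`; `vInf`, `vZero` two `SeriesVal`s of level `N`
over `v'` along `φ`, with the witnesses `(e, f) = (1, 1), (1, q)`.  Then every
`b ∈ F0(N) ∩ O_∞ ∩ O_0` is a root of a monic polynomial over `F0(M') ∩ O'`
(`sumn_isIntegral_abs`).

Concrete instance (`R'`, `RN` series reductions at `∞` of levels `M'`, `M' q`, `φ = α'`,
`O_0 = O_∞ ∘ w_q`): the tables `sumn_hTInf`, `sumn_hTZero`, the residue witnesses `sumn_hres`
(`f_∞ = 1`), `sumn_hF` (`f_0 = q`, `t = β' j`), and **`sumn_isIntegral`**; `sumn_distinct`: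
the two valuations are distinct on `F0(N)`.
-/

set_option autoImplicit false
set_option linter.style.haveILetI false
set_option linter.unusedSectionVars false
set_option synthInstance.maxHeartbeats 400000

noncomputable section

namespace Fermat.Agent.S36lib

open ModularCurve AlgebraicCurve Polynomial HahnSeries
open Fermat.Agent.HeckeBar Fermat.Agent.S24lib Fermat.Agent.S34lib Fermat.Agent.GoodRed
  Fermat.Agent.S37lib Fermat.Agent.S35lib Fermat.Agent.GM

section Main

variable (A : ValuationSubring Kbar) {M' M : ℕ} [NeZero M'] [NeZero M] {q : ℕ}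

set_option maxHeartbeats 3200000 in
/-- the hypotheses of `sumRel_isIntegral` for two `SeriesVal`s over one -/
theorem sumn_hyps (hq : q.Prime) (hqA : A.valuation (q : Kbar) < 1)
    (φ : FF M' →ₐ[Kbar] FF M)
    (hφG : ∀ σ ∈ A.inertiaSubgroupIn ℚ, ∀ x : FF M', galFF M σ • φ x = φ (galFF M' σ • x))
    (v' : SeriesVal A M') (vInf vZero : SeriesVal A M)
    (hdisc : ∀ f ∈ f0Field A M', f ≠ 0 →
      ∃ n : ℤ, algebraMap Kbar (FF M') ((q : Kbar) ^ n) * f ∈ v'.O ∧
        (algebraMap Kbar (FF M') ((q : Kbar) ^ n) * f)⁻¹ ∈ v'.O)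
    (hTInf : ∀ g ∈ f0Field A M', g ∈ v'.O → φ g ∈ vInf.O)
    (hTZero : ∀ g ∈ f0Field A M', g ∈ v'.O → φ g ∈ vZero.O)
    (hF : ∃ t ∈ f0Field A M, t ∈ vZero.O ∧ ∀ c : Fin q → FF M',
      (∀ l, c l ∈ f0Field A M' ∧ c l ∈ v'.O) →
        (∑ l, φ (c l) * t ^ (l : ℕ)) ∈ vZero.O.nonunits → ∀ l, c l ∈ v'.O.nonunits)
    (hres : ∀ x ∈ f0Field A M, x ∈ vInf.O →
      ∃ c ∈ f0Field A M', c ∈ v'.O ∧ x - φ c ∈ vInf.O.nonunits) :
    let φ₀ := sumcHom A φ (sumc_mem_f0Field A φ hφG)
    let V := v'.O.comap (algebraMap (f0Field A M') (FF M'))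
    let W : Fin 2 → ValuationSubring (f0Field A M) :=
      ![vInf.O.comap (algebraMap (f0Field A M) (FF M)),
        vZero.O.comap (algebraMap (f0Field A M) (FF M))]
    ((q : f0Field A M') ∈ V.nonunits ∧ (q : f0Field A M') ≠ 0 ∧
      (∀ x ∈ V, x ≠ 0 → ∃ (n : ℕ) (u : f0Field A M'), u ∈ V ∧ u⁻¹ ∈ V ∧
        x = (q : f0Field A M') ^ n * u)) ∧
    (∀ i, ∀ x ∈ V, φ₀ x ∈ W i) ∧ (∀ i, φ₀ (q : f0Field A M') ∈ (W i).nonunits) ∧
    Function.Injective W ∧
    (∀ i, ∃ z ∈ (W i).nonunits, ∃ y ∈ W i,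
      φ₀ (q : f0Field A M') = z ^ (![1, 1] : Fin 2 → ℕ) i * y) ∧
    (∀ i, ∃ b : Fin ((![1, q] : Fin 2 → ℕ) i) → f0Field A M,
      (∀ l, b l ∈ W i) ∧ ∀ c : Fin ((![1, q] : Fin 2 → ℕ) i) → f0Field A M',
        (∀ l, c l ∈ V) → (∑ l, φ₀ (c l) * b l) ∈ (W i).nonunits → ∀ l, c l ∈ V.nonunits) := by
  intro φ₀ V W
  have hq0 : (q : Kbar) ≠ 0 := Nat.cast_ne_zero.mpr hq.ne_zero
  have hcast' : ((q : f0Field A M') : FF M') = algebraMap Kbar (FF M') (q : Kbar) := by
    rw [map_natCast]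
    rfl
  have hcast : ((q : f0Field A M) : FF M) = algebraMap Kbar (FF M) (q : Kbar) := by
    rw [map_natCast]
    rfl
  have hφq : φ₀ (q : f0Field A M') = (q : f0Field A M) := map_natCast φ₀ q
  have hqV : (q : f0Field A M') ∈ V.nonunits := by
    rw [sumc_mem_nonunits_comap, hcast']
    exact sumc_const_nonunit A v' hqA
  have hqne : (q : f0Field A M') ≠ 0 := by
    intro h
    have h2 : ((q : f0Field A M') : FF M') = 0 := by rw [h]; rfl
    rw [hcast', map_eq_zero_iff _ (algebraMap Kbar (FF M')).injective] at h2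
    exact hq0 h2
  have hVW : ∀ i, ∀ x ∈ V, φ₀ x ∈ W i := by
    intro i x hx
    fin_cases i
    · exact hTInf _ x.2 hx
    · exact hTZero _ x.2 hx
  have hqW : ∀ i, φ₀ (q : f0Field A M') ∈ (W i).nonunits := by
    intro i
    rw [hφq]
    fin_cases i
    · show (q : f0Field A M) ∈ (vInf.O.comap _).nonunits
      rw [sumc_mem_nonunits_comap, hcast]
      exact sumc_const_nonunit A vInf hqA
    · show (q : f0Field A M) ∈ (vZero.O.comap _).nonunits
      rw [sumc_mem_nonunits_comap, hcast]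
      exact sumc_const_nonunit A vZero hqA
  have hunit : ∀ i, ∀ c ∈ V, φ₀ c ∈ (W i).nonunits → c ∈ V.nonunits := by
    intro i c hc hnu
    rw [ValuationSubring.mem_nonunits_iff_or] at hnu ⊢
    rcases hnu with h | h
    · left
      exact (map_eq_zero_iff φ₀ φ₀.injective).mp h
    · right
      intro hinv
      apply h
      rw [← map_inv₀]
      exact hVW i _ hinv
  refine ⟨⟨hqV, hqne, ?_⟩, hVW, hqW, ?_, ?_, ?_⟩
  · -- discreteness
    intro x hx hx0
    have hx0' : (x : FF M') ≠ 0 := fun h => hx0 (Subtype.ext h)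
    obtain ⟨n, h1, h2⟩ := hdisc (x : FF M') x.2 hx0'
    have hc0 : algebraMap Kbar (FF M') ((q : Kbar) ^ n) ≠ 0 := by
      rw [Ne, map_eq_zero_iff _ (algebraMap Kbar (FF M')).injective]
      exact zpow_ne_zero _ hq0
    have hval := sumc_val_eq_one v'.O (mul_ne_zero hc0 hx0') h1 h2
    have hvq : v'.O.valuation (algebraMap Kbar (FF M') (q : Kbar)) < 1 :=
      (ValuationSubring.mem_nonunits_iff _).mp (sumc_const_nonunit A v' hqA)
    have hvx : v'.O.valuation (x : FF M') ≤ 1 := (v'.O.valuation_le_one_iff _).mpr hx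
    rw [map_mul, map_zpow₀, map_zpow₀] at hval
    have hn : n ≤ 0 := by
      by_contra hpos
      rw [not_le] at hpos
      obtain ⟨m, rfl⟩ : ∃ m : ℕ, n = (m : ℤ) + 1 := ⟨(n - 1).toNat, by omega⟩
      have h3 : v'.O.valuation (algebraMap Kbar (FF M') (q : Kbar)) ^ ((m : ℤ) + 1) < 1 := by
        rw [show ((m : ℤ) + 1) = ((m + 1 : ℕ) : ℤ) by push_cast; rfl, zpow_natCast]
        exact pow_lt_one₀ zero_le hvq (Nat.succ_ne_zero m)
      have h4 : v'.O.valuation (algebraMap Kbar (FF M') (q : Kbar)) ^ ((m : ℤ) + 1) *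
          v'.O.valuation (x : FF M') < 1 :=
        lt_of_le_of_lt (mul_le_of_le_one_right zero_le hvx) h3
      rw [hval] at h4
      exact lt_irrefl _ h4
    obtain ⟨m, rfl⟩ : ∃ m : ℕ, n = -(m : ℤ) := ⟨(-n).toNat, by omega⟩
    have hu : (((q : f0Field A M') ^ (-(m : ℤ)) * x : f0Field A M') : FF M')
        = algebraMap Kbar (FF M') ((q : Kbar) ^ (-(m : ℤ))) * (x : FF M') := by
      have : (((q : f0Field A M') ^ (-(m : ℤ)) : f0Field A M') : FF M')
          = algebraMap Kbar (FF M') ((q : Kbar) ^ (-(m : ℤ))) := by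
        rw [map_zpow₀, ← hcast']
        rfl
      rw [← this]
      rfl
    refine ⟨m, (q : f0Field A M') ^ (-(m : ℤ)) * x, ?_, ?_, ?_⟩
    · have hmem : (((q : f0Field A M') ^ (-(m : ℤ)) * x : f0Field A M') : FF M') ∈ v'.O := by
        rw [hu]
        exact h1
      exact hmem
    · have hmem : ((((q : f0Field A M') ^ (-(m : ℤ)) * x)⁻¹ : f0Field A M') : FF M')
          ∈ v'.O := by
        have : ((((q : f0Field A M') ^ (-(m : ℤ)) * x)⁻¹ : f0Field A M') : FF M')
            = (algebraMap Kbar (FF M') ((q : Kbar) ^ (-(m : ℤ))) * (x : FF M'))⁻¹ := by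
          rw [← hu]
          rfl
        rw [this]
        exact h2
      exact hmem
    · rw [zpow_neg, zpow_natCast, ← mul_assoc, mul_inv_cancel₀ (pow_ne_zero _ hqne), one_mul]
  · -- distinctness
    obtain ⟨t, htF, htO, ht⟩ := hF
    have h02 : vInf.O.comap (algebraMap (f0Field A M) (FF M)) ≠
        vZero.O.comap (algebraMap (f0Field A M) (FF M)) := by
      intro heq
      have htInf : t ∈ vInf.O := by
        have h1 : (⟨t, htF⟩ : f0Field A M) ∈
            vZero.O.comap (algebraMap (f0Field A M) (FF M)) := htO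
        rw [← heq] at h1
        exact h1
      obtain ⟨c', hc'F, hc'O, hc'⟩ := hres t htF htInf
      have hF' := sumc_mem_f0Field A φ hφG c' hc'F
      have h2 : (⟨t - φ c', sub_mem htF hF'⟩ : f0Field A M) ∈
          (vInf.O.comap (algebraMap (f0Field A M) (FF M))).nonunits := by
        rw [sumc_mem_nonunits_comap]
        exact hc'
      rw [heq, sumc_mem_nonunits_comap] at h2
      have hlt : 1 < q := hq.one_lt
      set i0 : Fin q := ⟨0, by omega⟩ with hi0
      set i1 : Fin q := ⟨1, hlt⟩ with hi1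
      have hne : i0 ≠ i1 := by
        intro h
        have := congrArg Fin.val h
        simp [hi0, hi1] at this
      let c : Fin q → FF M' := fun l => if l = i0 then -c' else if l = i1 then 1 else 0
      have hc0 : c i0 = -c' := if_pos rfl
      have hc1 : c i1 = 1 := by
        show (if i1 = i0 then -c' else if i1 = i1 then 1 else 0) = 1
        rw [if_neg (Ne.symm hne), if_pos rfl]
      have hcmem : ∀ l, c l ∈ f0Field A M' ∧ c l ∈ v'.O := by
        intro l
        show (if l = i0 then -c' else if l = i1 then 1 else 0) ∈ f0Field A M' ∧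
          (if l = i0 then -c' else if l = i1 then 1 else 0) ∈ v'.O
        split_ifs
        · exact ⟨neg_mem hc'F, neg_mem hc'O⟩
        · exact ⟨one_mem _, one_mem _⟩
        · exact ⟨zero_mem _, zero_mem _⟩
      have hsum : ∑ l, φ (c l) * t ^ (l : ℕ) = t - φ c' := by
        rw [Finset.sum_eq_add i0 i1 hne]
        · rw [hc0, hc1, map_neg, map_one]
          simp only [hi0, hi1, pow_zero, pow_one]
          ring
        · intro l _ hl
          show φ (if l = i0 then -c' else if l = i1 then 1 else 0) * t ^ (l : ℕ) = 0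
          rw [if_neg hl.1, if_neg hl.2, map_zero, zero_mul]
        · intro h
          exact absurd (Finset.mem_univ _) h
        · intro h
          exact absurd (Finset.mem_univ _) h
      have h3 := ht c hcmem (hsum ▸ h2) i1
      rw [hc1, ValuationSubring.mem_nonunits_iff, map_one] at h3
      exact lt_irrefl _ h3
    intro i j hij
    fin_cases i <;> fin_cases j
    · rfl
    · exact absurd hij h02
    · exact absurd hij.symm h02
    · rfl
  · -- the ramification witnesses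
    have hone : ∀ i, ∃ z ∈ (W i).nonunits, ∃ y ∈ W i,
        φ₀ (q : f0Field A M') = z ^ 1 * y := fun i =>
      ⟨φ₀ (q : f0Field A M'), hqW i, 1, (W i).one_mem, by rw [pow_one, mul_one]⟩
    intro i
    fin_cases i
    · exact hone 0
    · exact hone 1
  · -- the residue witnesses
    have hone : ∀ i, ∃ b : Fin 1 → f0Field A M,
        (∀ l, b l ∈ W i) ∧ ∀ c : Fin 1 → f0Field A M',
          (∀ l, c l ∈ V) → (∑ l, φ₀ (c l) * b l) ∈ (W i).nonunits → ∀ l, c l ∈ V.nonunits := by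
      intro i
      refine ⟨fun _ => 1, fun _ => (W i).one_mem, fun c hc hsum l => ?_⟩
      rw [Fin.sum_univ_one, mul_one] at hsum
      have hl : l = 0 := Subsingleton.elim _ _
      rw [hl]
      exact hunit i _ (hc 0) hsum
    intro i
    fin_cases i
    · exact hone 0
    · obtain ⟨t, htF, htO, ht⟩ := hF
      refine ⟨fun l => (⟨t, htF⟩ : f0Field A M) ^ (l : ℕ), fun l => ?_, fun c hc hsum l => ?_⟩
      · exact (vZero.O.comap (algebraMap (f0Field A M) (FF M))).pow_mem htO _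
      · have hsum' : ((∑ l, φ₀ (c l) * (⟨t, htF⟩ : f0Field A M) ^ (l : ℕ) : f0Field A M) : FF M)
            ∈ vZero.O.nonunits := (sumc_mem_nonunits_comap A vZero.O _).mp hsum
        have hcoe : ((∑ l, φ₀ (c l) * (⟨t, htF⟩ : f0Field A M) ^ (l : ℕ) : f0Field A M) : FF M)
            = ∑ l, φ ((c l : f0Field A M') : FF M') * t ^ (l : ℕ) := by
          push_cast
          rfl
        rw [hcoe] at hsum'
        have h := ht (fun l => ((c l : f0Field A M') : FF M')) (fun l => ⟨(c l).2, hc l⟩) hsum' l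
        exact (sumc_mem_nonunits_comap A v'.O _).mpr h

theorem sumn_sum_ef (q : ℕ) :
    q + 1 ≤ ∑ i : Fin 2, (![1, 1] : Fin 2 → ℕ) i * (![1, q] : Fin 2 → ℕ) i := by
  rw [Fin.sum_univ_two]
  simp only [Matrix.cons_val_zero, Matrix.cons_val_one]
  omega

/-- **P4 at level `N` (vertical integrality along `φ`, two valuations)**: every
`b ∈ F0(N) ∩ O_∞ ∩ O_0` is a root of a monic polynomial with coefficients in `F0(M') ∩ O'`. -/
theorem sumn_isIntegral_abs (hq : q.Prime) (hqA : A.valuation (q : Kbar) < 1)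
    (φ : FF M' →ₐ[Kbar] FF M)
    (hφG : ∀ σ ∈ A.inertiaSubgroupIn ℚ, ∀ x : FF M', galFF M σ • φ x = φ (galFF M' σ • x))
    (hdeg0 : 0 < finrankAlong Kbar φ) (hdeg : finrankAlong Kbar φ ≤ q + 1)
    (v' : SeriesVal A M') (vInf vZero : SeriesVal A M)
    (hdisc : ∀ f ∈ f0Field A M', f ≠ 0 →
      ∃ n : ℤ, algebraMap Kbar (FF M') ((q : Kbar) ^ n) * f ∈ v'.O ∧
        (algebraMap Kbar (FF M') ((q : Kbar) ^ n) * f)⁻¹ ∈ v'.O)
    (hTInf : ∀ g ∈ f0Field A M', g ∈ v'.O → φ g ∈ vInf.O)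
    (hTZero : ∀ g ∈ f0Field A M', g ∈ v'.O → φ g ∈ vZero.O)
    (hF : ∃ t ∈ f0Field A M, t ∈ vZero.O ∧ ∀ c : Fin q → FF M',
      (∀ l, c l ∈ f0Field A M' ∧ c l ∈ v'.O) →
        (∑ l, φ (c l) * t ^ (l : ℕ)) ∈ vZero.O.nonunits → ∀ l, c l ∈ v'.O.nonunits)
    (hres : ∀ x ∈ f0Field A M, x ∈ vInf.O →
      ∃ c ∈ f0Field A M', c ∈ v'.O ∧ x - φ c ∈ vInf.O.nonunits)
    (b : FF M) (hb : b ∈ f0Field A M) (h1 : b ∈ vInf.O) (h3 : b ∈ vZero.O) :
    ∃ p : Polynomial (FF M'), p.Monic ∧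
      (∀ n, p.coeff n ∈ v'.O ∧ p.coeff n ∈ f0Field A M') ∧
      Polynomial.eval₂ (φ : FF M' →+* FF M) b p = 0 := by
  obtain ⟨⟨hqV, hqne, hV⟩, hVW, hqW, hinj, he, hf⟩ := sumn_hyps A hq hqA φ hφG v' vInf vZero
    hdisc hTInf hTZero hF hres
  have hx : ∀ i, (⟨b, hb⟩ : f0Field A M) ∈ (![vInf.O.comap (algebraMap (f0Field A M) (FF M)),
        vZero.O.comap (algebraMap (f0Field A M) (FF M))] :
          Fin 2 → ValuationSubring (f0Field A M)) i := by
    intro i
    fin_cases i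
    · exact h1
    · exact h3
  obtain ⟨p, hp, hpc, hpb⟩ := sumRel_isIntegral (sumcHom A φ (sumc_mem_f0Field A φ hφG))
    (v'.O.comap (algebraMap (f0Field A M') (FF M'))) (q : f0Field A M') hqV hqne hV _ hVW hqW
    hinj _ _ he hf (q + 1) (sumc_dep A φ hφG _ hdeg0 hdeg) (sumn_sum_ef q) ⟨b, hb⟩ hx
  refine ⟨p.map (algebraMap (f0Field A M') (FF M')), hp.map _, fun n => ?_, ?_⟩
  · rw [Polynomial.coeff_map]
    exact ⟨hpc n, (p.coeff n).2⟩
  · rw [Polynomial.eval₂_map]
    have hcomp : ((φ : FF M' →+* FF M).comp (algebraMap (f0Field A M') (FF M')))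
        = (algebraMap (f0Field A M) (FF M)).comp
          (sumcHom A φ (sumc_mem_f0Field A φ hφG)) := rfl
    rw [hcomp]
    have h4 := Polynomial.hom_eval₂ p (sumcHom A φ (sumc_mem_f0Field A φ hφG))
      (algebraMap (f0Field A M) (FF M)) (⟨b, hb⟩ : f0Field A M)
    have h5 : algebraMap (f0Field A M) (FF M) (⟨b, hb⟩ : f0Field A M) = b := rfl
    rw [h5] at h4
    rw [← h4, hpb, map_zero]

end Main

section Series

variable {k : Type*} [Field k]

/-- if `∑_{l < q} r_l(X^q) J^l = 0` with `J` of order `-1` then all `r_l` vanish -/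
theorem sumn_series_indep (q : ℕ) [NeZero q] {J : LaurentSeries k} (hJ : J.order = -1)
    (r : Fin q → LaurentSeries k) (hsum : ∑ l, qExpand k q (r l) * J ^ (l : ℕ) = 0) :
    ∀ l, r l = 0 := by
  set L₁ : Subfield (LaurentSeries k) := (qExpand k q).fieldRange with hL₁
  have hL₁ord : ∀ c ∈ L₁, (q : ℤ) ∣ c.order := by
    rintro c ⟨y, rfl⟩
    exact ⟨y.order, rg_order_qExpand q y⟩
  have hli := hq2_li_pow q L₁ hL₁ord hJ
  have h0 := Fintype.linearIndependent_iff.mp hli
    (fun l => (⟨qExpand k q (r l), ⟨r l, rfl⟩⟩ : L₁)) (by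
      rw [← hsum]
      refine Finset.sum_congr rfl fun l _ => ?_
      rfl)
  intro l
  have h1 := congrArg Subtype.val (h0 l)
  exact qExpand_injective q (h1.trans (map_zero _).symm)

end Series

section Concrete

variable (A : ValuationSubring Kbar) (M' q : ℕ) [NeZero M'] [NeZero q]
variable {R' : ConstRed A (IsLocalRing.residue A)
    (↥(modularFunctionFieldFullC (IsLocalRing.ResidueField A) M')) (FF M')}
  {RN : ConstRed A (IsLocalRing.residue A)
    (↥(modularFunctionFieldFullC (IsLocalRing.ResidueField A) M')) (FF (M' * q))}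

/-- `α'` commutes with the inertia action -/
theorem sumn_gal_alpha (σ : Kbar ≃ₐ[ℚ] Kbar) (x : FF M') :
    galFF (M' * q) σ • heckeAlphaBar Kbar M' q x = heckeAlphaBar Kbar M' q (galFF M' σ • x) :=
  mx_gal_alpha M' q σ x

/-- `β'` commutes with the inertia action -/
theorem sumn_gal_beta (σ : Kbar ≃ₐ[ℚ] Kbar) (x : FF M') :
    galFF (M' * q) σ • heckeBetaBar Kbar M' q x = heckeBetaBar Kbar M' q (galFF M' σ • x) :=
  mx_gal_beta M' q σ x

/-- the table at `∞`: `α'` maps `O'` into `O_∞` -/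
theorem sumn_hTInf (hq : q.Prime) (hA : A.LiesOverPrime q) (hR' : IsSeriesRed R')
    (hRN : IsSeriesRed RN) (g : FF M') (hg : g ∈ R'.O) :
    heckeAlphaBar Kbar M' q g ∈ RN.O :=
  (vz2_alpha_mem_red M' q hR' hRN (vri_hfrac M' q hq A hA) hg).1

/-- the table at `0`: `w₁ ∘ α' = β'` maps `O'` into `O_∞` -/
theorem sumn_hTZero (hq : q.Prime) (hqM : ¬ q ∣ M') (hA : A.LiesOverPrime q)
    (hR' : IsSeriesRed R') (hRN : IsSeriesRed RN) (g : FF M') (hg : g ∈ R'.O) :
    alW1 M' hq hqM (heckeAlphaBar Kbar M' q g) ∈ RN.O := by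
  rw [alW1_alpha']
  exact (vz2_beta_mem_red M' q hR' hRN (vri_hfrac M' q hq A hA) hg).1

set_option maxHeartbeats 1600000 in
/-- `hres` at `∞` (`f_∞ = 1`): every element of `F0(N) ∩ O_∞` is congruent to `α' c`,
`c ∈ F0(M') ∩ O'` -/
theorem sumn_hres (hq : q.Prime) (hA : A.LiesOverPrime q) (hR' : IsSeriesRed R')
    (hRN : IsSeriesRed RN) (x : FF (M' * q)) (hx : x ∈ RN.O) :
    ∃ c ∈ f0Field A M', c ∈ R'.O ∧ x - heckeAlphaBar Kbar M' q c ∈ RN.O.nonunits := by
  obtain ⟨c, hc, hcF, hcw⟩ := sconc_honto A M' q hq hA dvd_rfl R' hR'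
    ((RN.red ⟨x, hx⟩ : ↥(modularFunctionFieldFullC (IsLocalRing.ResidueField A) M')) :
      LaurentSeries (IsLocalRing.ResidueField A)) (RN.red ⟨x, hx⟩).2
  have hc' : c ∈ R'.O := hc
  obtain ⟨hα, hαred⟩ := vz2_alpha_mem_red M' q hR' hRN (vri_hfrac M' q hq A hA) hc'
  refine ⟨c, hcF, hc', ?_⟩
  have hmem : x - heckeAlphaBar Kbar M' q c ∈ RN.O := sub_mem hx hα
  rw [← RN.red_eq_zero_iff ⟨_, hmem⟩]
  have e : (⟨x - heckeAlphaBar Kbar M' q c, hmem⟩ : RN.O) =
      ⟨x, hx⟩ - ⟨heckeAlphaBar Kbar M' q c, hα⟩ := rfl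
  rw [e, map_sub, hαred, sub_eq_zero]
  apply Subtype.ext
  exact hcw.symm

set_option maxHeartbeats 3200000 in
/-- `hF` at `0` (`f_0 = q`): the powers `1, t, …, t^{q-1}` of `t = β' j` are independent modulo
the maximal ideal over `α' (F0(M') ∩ O')` -/
theorem sumn_hF (hq : q.Prime) (hqM : ¬ q ∣ M') (hA : A.LiesOverPrime q) (hR' : IsSeriesRed R')
    (hRN : IsSeriesRed RN) :
    ∃ t ∈ f0Field A (M' * q), t ∈ ((SeriesVal.ofConstRed RN).comap (alW1 M' hq hqM)).O ∧
      ∀ c : Fin q → FF M', (∀ l, c l ∈ f0Field A M' ∧ c l ∈ (SeriesVal.ofConstRed R').O) →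
        (∑ l, (heckeAlphaBar Kbar M' q : FF M' →ₐ[Kbar] FF (M' * q)) (c l) * t ^ (l : ℕ)) ∈
          ((SeriesVal.ofConstRed RN).comap (alW1 M' hq hqM)).O.nonunits →
        ∀ l, c l ∈ (SeriesVal.ofConstRed R').O.nonunits := by
  classical
  have hfrac : HasPrimFrac A (modularFunctionFieldBar M') := vri_hfrac M' q hq A hA
  have hjF : jdF M' 1 (one_dvd M') ∈ f0Field A M' := jdF_mem_f0Field A M' 1 (one_dvd M')
  obtain ⟨hjO, hjred⟩ := sconc_red_jdF A M' R' hR' 1 (one_dvd M')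
  have hjO' : jdF M' 1 (one_dvd M') ∈ R'.O := hjO
  obtain ⟨hαj, hαjred⟩ := vz2_alpha_mem_red M' q hR' hRN hfrac hjO'
  have hJ : ((R'.red ⟨jdF M' 1 (one_dvd M'), hjO'⟩ :
      ↥(modularFunctionFieldFullC (IsLocalRing.ResidueField A) M')) :
        LaurentSeries (IsLocalRing.ResidueField A)) = jqModC (IsLocalRing.ResidueField A) := by
    have h := hjred
    rw [qExpand_one_apply] at h
    exact h
  have htF : heckeBetaBar Kbar M' q (jdF M' 1 (one_dvd M')) ∈ f0Field A (M' * q) :=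
    sumc_mem_f0Field A (heckeBetaBar Kbar M' q) (fun σ _ x => sumn_gal_beta M' q σ x) _ hjF
  have htw : alW1 M' hq hqM (heckeBetaBar Kbar M' q (jdF M' 1 (one_dvd M'))) =
      heckeAlphaBar Kbar M' q (jdF M' 1 (one_dvd M')) := alW1_beta' M' hq hqM _
  refine ⟨heckeBetaBar Kbar M' q (jdF M' 1 (one_dvd M')), htF, ?_, ?_⟩
  · rw [SeriesVal.mem_comap_iff, htw]
    exact hαj
  intro c hc hS
  have hcO : ∀ l, c l ∈ R'.O := fun l => (hc l).2
  have hS' : alW1 M' hq hqM
      (∑ l, (heckeAlphaBar Kbar M' q : FF M' →ₐ[Kbar] FF (M' * q)) (c l) *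
        heckeBetaBar Kbar M' q (jdF M' 1 (one_dvd M')) ^ (l : ℕ)) ∈ RN.O.nonunits :=
    (sr_mem_comap_nonunits_iff RN.O ((alW1 M' hq hqM : FF (M' * q) ≃ₐ[Kbar] FF (M' * q)) :
      FF (M' * q) →+* FF (M' * q)) _).mp hS
  have hβ : ∀ l, ∃ h : heckeBetaBar Kbar M' q (c l) ∈ RN.O,
      ((RN.red ⟨heckeBetaBar Kbar M' q (c l), h⟩ :
        ↥(modularFunctionFieldFullC (IsLocalRing.ResidueField A) M')) :
          LaurentSeries (IsLocalRing.ResidueField A))
        = qExpand (IsLocalRing.ResidueField A) q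
            ((R'.red ⟨c l, hcO l⟩ :
              ↥(modularFunctionFieldFullC (IsLocalRing.ResidueField A) M')) :
                LaurentSeries (IsLocalRing.ResidueField A)) :=
    fun l => vz2_beta_mem_red M' q hR' hRN hfrac (hcO l)
  choose hβm hβred using hβ
  -- the sum as an element of `O_∞`
  set Y : RN.O := ∑ l, (⟨heckeBetaBar Kbar M' q (c l), hβm l⟩ : RN.O) *
    (⟨heckeAlphaBar Kbar M' q (jdF M' 1 (one_dvd M')), hαj⟩ : RN.O) ^ (l : ℕ) with hY
  have hYcoe : (Y : FF (M' * q)) = alW1 M' hq hqM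
      (∑ l, (heckeAlphaBar Kbar M' q : FF M' →ₐ[Kbar] FF (M' * q)) (c l) *
        heckeBetaBar Kbar M' q (jdF M' 1 (one_dvd M')) ^ (l : ℕ)) := by
    rw [hY, map_sum]
    push_cast
    refine Finset.sum_congr rfl fun l _ => ?_
    rw [map_mul, map_pow, htw, alW1_alpha']
  have hYnu : (Y : FF (M' * q)) ∈ RN.O.nonunits := by
    rw [hYcoe]
    exact hS'
  have hYred : RN.red Y = 0 := (RN.red_eq_zero_iff Y).mpr hYnu
  have hsum : ∑ l, qExpand (IsLocalRing.ResidueField A) q
      ((R'.red ⟨c l, hcO l⟩ :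
        ↥(modularFunctionFieldFullC (IsLocalRing.ResidueField A) M')) :
          LaurentSeries (IsLocalRing.ResidueField A)) *
        (jqModC (IsLocalRing.ResidueField A)) ^ (l : ℕ) = 0 := by
    have h1 := congrArg (fun w : ↥(modularFunctionFieldFullC (IsLocalRing.ResidueField A) M') =>
      (w : LaurentSeries (IsLocalRing.ResidueField A))) hYred
    simp only [hY, map_sum, map_mul, map_pow] at h1
    have h2 : (((0 : ↥(modularFunctionFieldFullC (IsLocalRing.ResidueField A) M')) :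
        ↥(modularFunctionFieldFullC (IsLocalRing.ResidueField A) M')) :
          LaurentSeries (IsLocalRing.ResidueField A)) = 0 := rfl
    rw [h2] at h1
    rw [← hJ, ← hαjred, ← h1]
    push_cast
    refine Finset.sum_congr rfl fun l _ => ?_
    rw [hβred l]
  have hr := sumn_series_indep q (rg_order_jqModC (k := IsLocalRing.ResidueField A)) _ hsum
  intro l
  have hl : R'.red ⟨c l, hcO l⟩ = 0 := Subtype.ext (hr l)
  exact (R'.red_eq_zero_iff _).mp hl

set_option maxHeartbeats 1600000 in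
/-- **P4 at level `N = M' q`**: every `b ∈ F0(N) ∩ O_∞ ∩ O_0` (`O_0 = O_∞ ∘ w_q`) is a root of a
monic polynomial over `F_{M'}` along `α'` with coefficients in `F0(M') ∩ O'`. -/
theorem sumn_isIntegral (hq : q.Prime) (hqM : ¬ q ∣ M') (hA : A.LiesOverPrime q)
    (hR' : IsSeriesRed R') (hRN : IsSeriesRed RN)
    (b : FF (M' * q)) (hb : b ∈ f0Field A (M' * q)) (h1 : b ∈ RN.O)
    (h3 : alW1 M' hq hqM b ∈ RN.O) :
    ∃ p : Polynomial (FF M'), p.Monic ∧ (∀ n, p.coeff n ∈ R'.O ∧ p.coeff n ∈ f0Field A M') ∧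
      Polynomial.eval₂ ((heckeAlphaBar Kbar M' q : FF M' →ₐ[Kbar] FF (M' * q)) :
        FF M' →+* FF (M' * q)) b p = 0 :=
  sumn_isIntegral_abs A hq ((A.mem_nonunits_iff).mp hA) (heckeAlphaBar Kbar M' q)
    (fun σ _ x => sumn_gal_alpha M' q σ x)
    (by rw [exp_finrankAlong_alpha M' q hq hqM]; omega) (exp_finrankAlong_alpha M' q hq hqM).le
    (SeriesVal.ofConstRed R') (SeriesVal.ofConstRed RN)
    ((SeriesVal.ofConstRed RN).comap (alW1 M' hq hqM))
    (fun f hf hf0 => vdisc_inf hq hA hR' hf hf0)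
    (fun g _ hg => sumn_hTInf A M' q hq hA hR' hRN g hg)
    (fun g _ hg => sumn_hTZero A M' q hq hqM hA hR' hRN g hg)
    (sumn_hF A M' q hq hqM hA hR' hRN)
    (fun x _ hx => sumn_hres A M' q hq hA hR' hRN x hx)
    b hb h1 h3

/-- **completeness at level `N`** is `sumRel_complete` with the same hypotheses (`sumn_hyps`). -/
theorem sumn_distinct (hq : q.Prime) (hqM : ¬ q ∣ M') (hA : A.LiesOverPrime q)
    (hR' : IsSeriesRed R') (hRN : IsSeriesRed RN) :
    RN.O.comap (algebraMap (f0Field A (M' * q)) (FF (M' * q))) ≠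
      ((SeriesVal.ofConstRed RN).comap (alW1 M' hq hqM)).O.comap
        (algebraMap (f0Field A (M' * q)) (FF (M' * q))) := by
  obtain ⟨-, -, -, hinj, -, -⟩ := sumn_hyps A hq ((A.mem_nonunits_iff).mp hA)
    (heckeAlphaBar Kbar M' q) (fun σ _ x => sumn_gal_alpha M' q σ x)
    (SeriesVal.ofConstRed R') (SeriesVal.ofConstRed RN)
    ((SeriesVal.ofConstRed RN).comap (alW1 M' hq hqM))
    (fun f hf hf0 => vdisc_inf hq hA hR' hf hf0)
    (fun g _ hg => sumn_hTInf A M' q hq hA hR' hRN g hg)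
    (fun g _ hg => sumn_hTZero A M' q hq hqM hA hR' hRN g hg)
    (sumn_hF A M' q hq hqM hA hR' hRN)
    (fun x _ hx => sumn_hres A M' q hq hA hR' hRN x hx)
  intro h
  have h01 := hinj (a₁ := (0 : Fin 2)) (a₂ := (1 : Fin 2)) h
  exact absurd h01 (by decide)

end Concrete

end Fermat.Agent.S36lib

end
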