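import Mathlib
import Fermat.Agent.S36lib.VNoethK0D
import Fermat.Agent.S36lib.TheSetup
import Fermat.Agent.S36lib.VDeg
import Fermat.Agent.S36lib.Reg2Conc
import Fermat.Agent.S36lib.SumRes

/-!
# Item 83 (S36), A2Reg wiring, piece W-2j (helper1): `B_j` is Noetherian, has fraction field
`F0(L)` and is integrally closed, for the concrete setups `nodeSetupConc … (cuspSet L) …`

`w2j_main`: for `S := nodeSetupConc A M' (cuspSet L) q hq hA hML R hR w hw vMid hiMid hoMid`,
from `j ∈ O_mid`, `w j ∈ O_∞` and (SUM) over the Gauss ring of `K0(j)`: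
`IsNoetherianRing S.B ∧ hfrac ∧ IsIntegrallyClosed S.B`.
-/

set_option autoImplicit false
set_option linter.style.haveILetI false
set_option linter.unusedSectionVars false
set_option linter.unusedVariables false
set_option synthInstance.maxHeartbeats 400000

noncomputable section

namespace Fermat.Agent.S36lib

open ModularCurve AlgebraicCurve Polynomial IntermediateField
open Fermat.Agent.S24lib Fermat.Agent.S34lib Fermat.Agent.GoodRed Fermat.Agent.GM

section General

variable (A : ValuationSubring Kbar) {L : ℕ} [NeZero L] (M' : ℕ) [NeZero M']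

/-- `j ∈ O_∞` and its reduction is `j̄` -/
theorem w2j_red_jF
    (R : ConstRed A (IsLocalRing.residue A)
      (↥(modularFunctionFieldFullC (IsLocalRing.ResidueField A) M')) (FF L))
    (hR : IsSeriesRed R) :
    ∃ hx : jF L ∈ (SeriesVal.ofConstRed R).O,
      (SeriesVal.ofConstRed R).red ⟨jF L, hx⟩ = jqModC (IsLocalRing.ResidueField A) := by
  have h1 : jF L = jdF L 1 (one_dvd L) := by
    apply Subtype.ext
    rw [coe_jF, coe_jdF, qExpand_one_apply]
  obtain ⟨hx, hred⟩ := sconc_red_jdF A M' R hR 1 (one_dvd L)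
  have hx' : jF L ∈ (SeriesVal.ofConstRed R).O := h1 ▸ hx
  refine ⟨hx', ?_⟩
  rw [qExpand_one_apply] at hred
  rw [← hred]
  congr 1
  exact Subtype.ext h1

set_option maxHeartbeats 1000000 in
/-- **W-2j, generic form**: `B_j` of a concrete setup is Noetherian, with fraction field `F0(L)`,
and integrally closed. -/
theorem w2j_main (q : ℕ) (hq : q.Prime) (hA : A.LiesOverPrime q) (hML : M' ∣ L)
    (R : ConstRed A (IsLocalRing.residue A)
      (↥(modularFunctionFieldFullC (IsLocalRing.ResidueField A) M')) (FF L))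
    (hR : IsSeriesRed R) (w : FF L ≃ₐ[Kbar] FF L)
    (hw : ∀ x ∈ f0Field A L, w.symm x ∈ f0Field A L)
    (vMid : SeriesVal A L)
    (hiMid : ∀ (x : FF L) (hx : x ∈ vMid.O), x ∈ f0Field A L → vMid.red ⟨x, hx⟩ ∈
      modularFunctionFieldFullC (IsLocalRing.ResidueField A) M')
    (hoMid : ∀ y ∈ modularFunctionFieldFullC (IsLocalRing.ResidueField A) M',
      ∃ (x : FF L) (hx : x ∈ vMid.O), x ∈ f0Field A L ∧ vMid.red ⟨x, hx⟩ = y)
    (hjMid : jF L ∈ vMid.O) (hjw : w (jF L) ∈ R.O)
    (hSUM : ∀ z : f0Field A L, (z : FF L) ∈ R.O → (z : FF L) ∈ vMid.O → w (z : FF L) ∈ R.O →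
      IsIntegral ((R.O.comap (algebraMap (f0Field A L) (FF L))).comap
        (algebraMap (k0Field A)⟮vnk_j A L⟯ (f0Field A L))) z) :
    IsNoetherianRing
        (nodeSetupConc A M' (cuspSet L) q hq hA hML R hR w hw vMid hiMid hoMid).B ∧
      (∀ z : f0Field A L, ∃ a b :
          (nodeSetupConc A M' (cuspSet L) q hq hA hML R hR w hw vMid hiMid hoMid).B,
        b ≠ 0 ∧ z * (b : f0Field A L) = (a : f0Field A L)) ∧
      IsIntegrallyClosed
        (nodeSetupConc A M' (cuspSet L) q hq hA hML R hR w hw vMid hiMid hoMid).B := by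
  haveI : IsDiscreteValuationRing (k0Val A) := k0Val_isDiscreteValuationRing A q hq hA
  haveI : FiniteDimensional (k0Field A)⟮vnk_j A L⟯ (f0Field A L) := vdeg_finite A L
  obtain ⟨hj₁, hred⟩ := w2j_red_jF A M' R hR
  have hjbar : Transcendental (IsLocalRing.ResidueField A)
      ((SeriesVal.ofConstRed R).red ⟨jF L, hj₁⟩) := by
    rw [hred]
    exact mr_transcendental_jqModC (IsLocalRing.ResidueField A)
  have hmain := vnkd_main_seriesVal A L (SeriesVal.ofConstRed R) vMid.O
    ((SeriesVal.ofConstRed R).comap w).O vMid.algebraMap_mem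
    ((SeriesVal.ofConstRed R).comap w).algebraMap_mem (vnk_j A L) (cuspSet L)
    (fun _ => Iff.rfl) hj₁ hjMid hjw hjbar hSUM
  refine ⟨hmain.1, hmain.2, ?_⟩
  exact r2c_isIntegrallyClosed _ hmain.2
    (fun x hx => vnkd_f0AffD_closed A L (cuspSet L) _ _ _ x hx)

end General

/-! ### (a) SUM at level `M'` (one valuation) -/

section LevelM'

variable (A : ValuationSubring Kbar) (M' : ℕ) [NeZero M'] (q : ℕ) [hqF : Fact q.Prime]
  (hqM : ¬ q ∣ M') (hA : A.LiesOverPrime q)
  (R' : ConstRed A (IsLocalRing.residue A)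
      (↥(modularFunctionFieldFullC (IsLocalRing.ResidueField A) M')) (FF M'))
  (hR' : IsSeriesRed R')

/-- the `ResVal` over `A0` of level `M'` -/
def w2jResVal : ResVal (k0Val A) (k0Res A)
    (↥(modularFunctionFieldFullC (IsLocalRing.ResidueField A) M')) (f0Field A M') :=
  (SeriesVal.ofConstRed R').restrictK0
    (modularFunctionFieldFullC (IsLocalRing.ResidueField A) M')
    (sconc_hinto A M' R') (sconc_honto A M' q hqF.out hA dvd_rfl R' hR')

theorem w2j_mem_resVal (x : f0Field A M') :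
    x ∈ (w2jResVal A M' q hA R' hR').O ↔ (x : FF M') ∈ R'.O := Iff.rfl

include hA hR' in
theorem w2j_resVal_red_j :
    ∃ hj : vnk_j A M' ∈ (w2jResVal A M' q hA R' hR').O,
      (w2jResVal A M' q hA R' hR').red ⟨vnk_j A M', hj⟩ =
        jk (IsLocalRing.ResidueField A) M' := by
  obtain ⟨hx, hred⟩ := w2j_red_jF A M' R' hR'
  refine ⟨hx, ?_⟩
  apply Subtype.ext
  rw [coe_jk, ← hred]
  rfl

set_option maxHeartbeats 1000000 in
include hqM hA hR' in
/-- **(SUM) at level `M'`**: every element of `F0(M') ∩ O'` is integral over the Gauss ring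
`O' ∩ K0(j)`. -/
theorem w2j_sum_level (c : f0Field A M') (hc : (c : FF M') ∈ R'.O) :
    IsIntegral ((R'.O.comap (algebraMap (f0Field A M') (FF M'))).comap
      (algebraMap (k0Field A)⟮vnk_j A M'⟯ (f0Field A M'))) c := by
  have hq : q.Prime := hqF.out
  haveI : FiniteDimensional (k0Field A)⟮vnk_j A M'⟯ (f0Field A M') := vdeg_finite A M'
  haveI : Algebra.IsSeparable (k0Field A)⟮vnk_j A M'⟯ (f0Field A M') := vdeg_isSeparable A M'
  obtain ⟨hj, hredj⟩ := w2j_resVal_red_j A M' q hA R' hR'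
  have htr : Transcendental (IsLocalRing.ResidueField A)
      ((w2jResVal A M' q hA R' hR').red ⟨vnk_j A M', hj⟩) := by
    rw [hredj]
    exact mr_transcendental_jbarC (IsLocalRing.ResidueField A) M'
  have hϖ : ((q : k0Val A) : k0Field A) ∈ (k0Val A).nonunits := k0Val_q_mem_nonunits A q hA
  have hϖ0 : ((q : k0Val A) : k0Field A) ≠ 0 := by
    intro h
    have h1 : (q : k0Val A) = 0 := Subtype.ext h
    exact (k0Val_irreducible_q A q hq hA).ne_zero h1
  have hAfac : ∀ x ∈ k0Val A, x ≠ 0 → ∃ (n : ℕ) (w : k0Field A), w ∈ k0Val A ∧ w⁻¹ ∈ k0Val A ∧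
      x = ((q : k0Val A) : k0Field A) ^ n * w := by
    intro x hx hx0
    obtain ⟨n, u, hu⟩ := k0Val_associated_pow A q hq hA ⟨x, hx⟩ (fun h => hx0 (congrArg Subtype.val h))
    refine ⟨n, ((u : k0Val A) : k0Field A), (u : k0Val A).2, ?_, ?_⟩
    · have h1 : (((u⁻¹ : (k0Val A)ˣ) : k0Val A) : k0Field A) = ((u : k0Val A) : k0Field A)⁻¹ := by
        have h2 : ((u : k0Val A) : k0Field A) * (((u⁻¹ : (k0Val A)ˣ) : k0Val A) : k0Field A) = 1 := by
          rw [← (k0Val A).coe_mul, Units.mul_inv]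
          rfl
        exact eq_inv_of_mul_eq_one_right h2
      rw [← h1]
      exact ((u⁻¹ : (k0Val A)ˣ) : k0Val A).2
    · have := congrArg Subtype.val hu
      simpa using this.symm
  have hmain := sumRes_isIntegral (fun _ : Unit => w2jResVal A M' q hA R' hR')
    (vsurj_k0Res_surjective q hq hA) (vnk_j A M') (fun _ => hj) (fun _ => htr)
    ((q : k0Val A) : k0Field A) hϖ hϖ0 hAfac
    (fun a b _ => Subsingleton.elim a b) (fun _ => 1) (fun _ => dedekindPsi M')
    ?_ ?_ ?_ () c (fun _ => hc)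
  · exact hmain
  · intro _
    refine ⟨algebraMap (k0Field A) (f0Field A M') ((q : k0Val A) : k0Field A), ?_, 1,
      (w2jResVal A M' q hA R' hR').O.one_mem, by rw [pow_one, mul_one]⟩
    exact (sr_const_mem_nonunits_iff (w2jResVal A M' q hA R' hR')
      (vsurj_k0Res_surjective q hq hA) _).2 hϖ
  · intro _
    rw [hredj]
    have h := vdeg_finrank_kappa M' hqM A hA 0
    rw [pow_zero, pow_one, one_mul] at h
    exact h.ge
  · rw [Finset.univ_unique, Finset.sum_singleton, one_mul]
    exact (vdeg_finrank A M').le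

end LevelM'

end Fermat.Agent.S36lib

end
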