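import Mathlib
import Fermat.Agent.S36lib.VNoethK0
import Fermat.Agent.S36lib.SumConc

/-!
# Item 83 (S36), A2Reg wiring, piece W-2j (helper1): transitivity of integrality

`w2j_hSUM_of_rel`: relative integrality along `φ : FF M' → FF L` over `F0(M') ∩ O'`
(helper2's `sumi_isIntegral`, helper28's `sumn_isIntegral`) and (SUM) at level `M'` give (SUM)
over the Gauss ring of `K0(j)` at level `L`.
-/

set_option autoImplicit false
set_option linter.style.haveILetI false
set_option linter.unusedSectionVars false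
set_option linter.unusedVariables false
set_option synthInstance.maxHeartbeats 400000

noncomputable section

namespace Fermat.Agent.S36lib

open ModularCurve AlgebraicCurve Polynomial IntermediateField
open Fermat.Agent.S24lib Fermat.Agent.S34lib

section Abs

/-- a root of a monic polynomial whose coefficients are integral over `R` is integral over
`R`. -/
theorem w2j_isIntegral_of_monic {R F : Type*} [CommRing R] [CommRing F] [Nontrivial F]
    [Algebra R F]
    (p : F[X]) (hp : p.Monic) (hc : ∀ n, IsIntegral R (p.coeff n)) (b : F)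
    (hb : p.eval b = 0) : IsIntegral R b := by
  have hl : p ∈ Polynomial.lifts (algebraMap (integralClosure R F) F) := by
    rw [Polynomial.lifts_iff_coeff_lifts]
    intro n
    exact ⟨⟨p.coeff n, hc n⟩, rfl⟩
  obtain ⟨r, hr, -, hrm⟩ := Polynomial.lifts_and_degree_eq_and_monic hl hp
  have hint : IsIntegral (integralClosure R F) b := by
    refine ⟨r, hrm, ?_⟩
    rw [← Polynomial.eval_map, hr, hb]
  exact isIntegral_trans b hint

/-- a root (along `θ`) of a monic polynomial whose coefficients have integral images is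
integral. -/
theorem w2j_isIntegral_of_monic_map {R F' F : Type*} [CommRing R] [CommRing F'] [CommRing F]
    [Nontrivial F] [Algebra R F] (θ : F' →+* F)
    (p : F'[X]) (hp : p.Monic) (hc : ∀ n, IsIntegral R (θ (p.coeff n))) (b : F)
    (hb : p.eval₂ θ b = 0) : IsIntegral R b := by
  refine w2j_isIntegral_of_monic (p.map θ) (hp.map θ) (fun n => ?_) b ?_
  · rw [Polynomial.coeff_map]
    exact hc n
  · rw [Polynomial.eval_map]
    exact hb

/-- integrality over a valuation ring `G' ⊆ K'` is transported to integrality over `G ⊆ K`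
along a ring homomorphism `θ : F' → F` mapping `G'` into `G`. -/
theorem w2j_map_isIntegral_abs {K' F' K F : Type*} [Field K'] [Field F'] [Algebra K' F']
    [Field K] [Field F] [Algebra K F]
    (G' : ValuationSubring K') (G : ValuationSubring K) (θ : F' →+* F)
    (h : ∀ a : K', a ∈ G' → ∃ a' : K, a' ∈ G ∧ θ (algebraMap K' F' a) = algebraMap K F a')
    (c : F') (hc : IsIntegral G' c) : IsIntegral G (θ c) := by
  obtain ⟨P, hP, hPc⟩ := hc
  refine w2j_isIntegral_of_monic_map (θ.comp (algebraMap G' F')) P hP (fun n => ?_) (θ c) ?_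
  · obtain ⟨a', ha', heq⟩ := h (P.coeff n : K') (P.coeff n).2
    have h1 : (θ.comp (algebraMap G' F')) (P.coeff n) = algebraMap G F ⟨a', ha'⟩ := heq
    rw [h1]
    exact isIntegral_algebraMap
  · rw [← Polynomial.hom_eval₂, hPc, map_zero]


end Abs

section Trans

variable (A : ValuationSubring Kbar) {M' L : ℕ} [NeZero M'] [NeZero L]

/-- `φ` maps `K0(j)` into `K0(j)` -/
theorem w2j_map_mem_adjoin (φ : FF M' →ₐ[Kbar] FF L)
    (hφ0 : ∀ g ∈ f0Field A M', φ g ∈ f0Field A L) (hφj : φ (jF M') = jF L)
    (x : f0Field A M') (hx : x ∈ (k0Field A)⟮vnk_j A M'⟯) :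
    sumcHom A φ hφ0 x ∈ (k0Field A)⟮vnk_j A L⟯ := by
  induction hx using IntermediateField.adjoin_induction with
  | mem x hx =>
    rw [Set.mem_singleton_iff] at hx
    subst hx
    have h1 : sumcHom A φ hφ0 (vnk_j A M') = vnk_j A L := by
      apply Subtype.ext
      rw [coe_sumcHom]
      exact hφj
    rw [h1]
    exact IntermediateField.mem_adjoin_simple_self _ _
  | algebraMap c =>
    have h1 : sumcHom A φ hφ0 (algebraMap (k0Field A) (f0Field A M') c) =
        algebraMap (k0Field A) (f0Field A L) c := by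
      apply Subtype.ext
      rw [coe_sumcHom]
      exact φ.commutes (c : Kbar)
    rw [h1]
    exact IntermediateField.algebraMap_mem _ _
  | add x y _ _ hx hy =>
    rw [map_add]
    exact add_mem hx hy
  | inv x _ hx =>
    rw [map_inv₀]
    exact inv_mem hx
  | mul x y _ _ hx hy =>
    rw [map_mul]
    exact mul_mem hx hy


/-- **(b)**: relative integrality along `φ` over `F0(M') ∩ O'` and (SUM) at level `M'` give
(SUM) over the Gauss ring of `K0(j)` at level `L`. -/
theorem w2j_hSUM_of_rel (φ : FF M' →ₐ[Kbar] FF L)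
    (hφ0 : ∀ g ∈ f0Field A M', φ g ∈ f0Field A L) (hφj : φ (jF M') = jF L)
    (O' : ValuationSubring (FF M')) (O : ValuationSubring (FF L))
    (hT : ∀ g ∈ f0Field A M', g ∈ O' → φ g ∈ O)
    (hlevel : ∀ c : f0Field A M', (c : FF M') ∈ O' →
      IsIntegral ((O'.comap (algebraMap (f0Field A M') (FF M'))).comap
        (algebraMap (k0Field A)⟮vnk_j A M'⟯ (f0Field A M'))) c)
    (b : f0Field A L)
    (hrel : ∃ p : Polynomial (FF M'), p.Monic ∧
      (∀ n, p.coeff n ∈ O' ∧ p.coeff n ∈ f0Field A M') ∧
      Polynomial.eval₂ (φ : FF M' →+* FF L) (b : FF L) p = 0) :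
    IsIntegral ((O.comap (algebraMap (f0Field A L) (FF L))).comap
      (algebraMap (k0Field A)⟮vnk_j A L⟯ (f0Field A L))) b := by
  obtain ⟨p, hp, hpc, hpb⟩ := hrel
  -- descend `p` to `F0(M')`
  have hl : p ∈ Polynomial.lifts (algebraMap (f0Field A M') (FF M')) := by
    rw [Polynomial.lifts_iff_coeff_lifts]
    intro n
    exact ⟨⟨p.coeff n, (hpc n).2⟩, rfl⟩
  obtain ⟨p₀, hp₀, -, hp₀m⟩ := Polynomial.lifts_and_degree_eq_and_monic hl hp
  have hcoeff : ∀ n, ((p₀.coeff n : f0Field A M') : FF M') = p.coeff n := by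
    intro n
    rw [← hp₀, Polynomial.coeff_map]
    rfl
  have hmap : ∀ a : (k0Field A)⟮vnk_j A M'⟯,
      a ∈ (O'.comap (algebraMap (f0Field A M') (FF M'))).comap
        (algebraMap (k0Field A)⟮vnk_j A M'⟯ (f0Field A M')) →
      ∃ a' : (k0Field A)⟮vnk_j A L⟯,
        a' ∈ (O.comap (algebraMap (f0Field A L) (FF L))).comap
          (algebraMap (k0Field A)⟮vnk_j A L⟯ (f0Field A L)) ∧
        sumcHom A φ hφ0 (algebraMap (k0Field A)⟮vnk_j A M'⟯ (f0Field A M') a) =
          algebraMap (k0Field A)⟮vnk_j A L⟯ (f0Field A L) a' := by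
    intro a ha
    refine ⟨⟨sumcHom A φ hφ0 (a : f0Field A M'),
      w2j_map_mem_adjoin A φ hφ0 hφj _ a.2⟩, ?_, rfl⟩
    show ((sumcHom A φ hφ0 (a : f0Field A M') : f0Field A L) : FF L) ∈ O
    rw [coe_sumcHom]
    exact hT _ (a : f0Field A M').2 ha
  refine w2j_isIntegral_of_monic_map (sumcHom A φ hφ0) p₀ hp₀m (fun n => ?_) b ?_
  · refine w2j_map_isIntegral_abs _ _ (sumcHom A φ hφ0) hmap _ (hlevel _ ?_)
    rw [hcoeff]
    exact (hpc n).1
  · apply (algebraMap (f0Field A L) (FF L)).injective
    rw [map_zero, Polynomial.hom_eval₂, ← hpb, ← hp₀, Polynomial.eval₂_map]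
    rfl

end Trans

end Fermat.Agent.S36lib

end
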