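import Mathlib
import Fermat.Agent.S36lib.W2j
import Fermat.Agent.S36lib.W2jTrans
import Fermat.Agent.S36lib.SumFinal
import Fermat.Agent.S36lib.SumConcN

/-!
# Item 83 (S36), A2Reg wiring, piece W-2j (helper1): the final statements

For the two `B_j`-setups of helper24's `TheSetup.lean`,

* `SM := nodeSetupMj A M' q hq hqM hA R hR vMid hiMid hoMid` (level `M' q²`, `vMid` with
  `vMid.O = vmidO …`, e.g. `vmidSV …`), and
* `SN := nodeSetupNj A M' q hq hqM hA RN hRN` (level `M' q`),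

`w2j_levelM_gen` / `w2j_levelN` (and `w2j_levelM` for `vmidSV …` in `W2jFinal.lean`):
`IsNoetherianRing S.B ∧ hfrac ∧ IsIntegrallyClosed S.B`.

Also the (SUM) statements over the Gauss ring of `K0(j)`:
`w2j_sumM` (level `M' q²`), `w2j_rgnSum` (level `M' q`, `= RgnSum` of helper4's `RangeN.lean`),
and `w2j_exists_constRed` (a series reduction of level `M'`).
-/

set_option autoImplicit false
set_option linter.style.haveILetI false
set_option linter.unusedSectionVars false
set_option linter.unusedVariables false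
set_option synthInstance.maxHeartbeats 400000

noncomputable section

namespace Fermat.Agent.S36lib

open ModularCurve AlgebraicCurve Polynomial IntermediateField HahnSeries
open Fermat.Agent.HeckeBar Fermat.Agent.S24lib Fermat.Agent.S34lib Fermat.Agent.GoodRed
  Fermat.Agent.S37lib Fermat.Agent.S35lib Fermat.Agent.GM

section Conc

variable (A : ValuationSubring Kbar) (M' q : ℕ) [NeZero M'] [NeZero q]
variable (hq : q.Prime) (hqM : ¬ q ∣ M') (hA : A.LiesOverPrime q)

include hq hqM hA in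
/-- a series reduction at `∞` of level `M'` (good reduction, `q ∤ M'`) -/
theorem w2j_exists_constRed :
    ∃ R' : ConstRed A (IsLocalRing.residue A)
        (↥(modularFunctionFieldFullC (IsLocalRing.ResidueField A) M')) (FF M'),
      IsSeriesRed R' := by
  haveI : Fact q.Prime := ⟨hq⟩
  exact exists_constRedInf M' M' dvd_rfl A (cri_ne_top q A hA hq.ne_zero)
    (Fermat.Agent.GM.hred_modL M' hqM A hA)

/-! ### level `N = M' q` -/

section LevelN

variable (RN : ConstRed A (IsLocalRing.residue A)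
    (↥(modularFunctionFieldFullC (IsLocalRing.ResidueField A) M')) (FF (M' * q)))
  (hRN : IsSeriesRed RN)

include hA hRN in
/-- **(SUM) at level `N = M' q`** over the Gauss ring of `K0(j)` (`= RgnSum`). -/
theorem w2j_rgnSum (z : f0Field A (M' * q)) (h1 : (z : FF (M' * q)) ∈ RN.O)
    (h3 : alW1 M' hq hqM (z : FF (M' * q)) ∈ RN.O) :
    IsIntegral ((RN.O.comap (algebraMap (f0Field A (M' * q)) (FF (M' * q)))).comap
      (algebraMap (k0Field A)⟮vnk_j A (M' * q)⟯ (f0Field A (M' * q)))) z := by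
  haveI : Fact q.Prime := ⟨hq⟩
  obtain ⟨R', hR'⟩ := w2j_exists_constRed A M' q hq hqM hA
  exact w2j_hSUM_of_rel A (heckeAlphaBar Kbar M' q)
    (sumc_mem_f0Field A _ (fun σ _ x => sumn_gal_alpha M' q σ x))
    (sumi_alpha_jF M' q) R'.O RN.O
    (fun g _ hg => sumn_hTInf A M' q hq hA hR' hRN g hg)
    (fun c hc => w2j_sum_level A M' q hqM hA R' hR' c hc) z
    (sumn_isIntegral A M' q hq hqM hA hR' hRN (z : FF (M' * q)) z.2 h1 h3)

include hA hRN in
/-- **W-2j at level `N = M' q`**. -/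
theorem w2j_levelN :
    IsNoetherianRing (nodeSetupNj A M' q hq hqM hA RN hRN).B ∧
      (∀ z : f0Field A (M' * q), ∃ a b : (nodeSetupNj A M' q hq hqM hA RN hRN).B,
        b ≠ 0 ∧ z * (b : f0Field A (M' * q)) = (a : f0Field A (M' * q))) ∧
      IsIntegrallyClosed (nodeSetupNj A M' q hq hqM hA RN hRN).B := by
  haveI : Fact q.Prime := ⟨hq⟩
  obtain ⟨R', hR'⟩ := w2j_exists_constRed A M' q hq hqM hA
  obtain ⟨hj', -⟩ := w2j_red_jF A M' R' hR'
  have hjF : jF (M' * q) = heckeAlphaBar Kbar M' q (jF M') := (sumi_alpha_jF M' q).symm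
  have hjMid : jF (M' * q) ∈ (SeriesVal.ofConstRed RN).O :=
    (w2j_red_jF A M' RN hRN).1
  have hjw : alW1 M' hq hqM (jF (M' * q)) ∈ RN.O := by
    rw [hjF]
    exact sumn_hTZero A M' q hq hqM hA hR' hRN (jF M') hj'
  exact w2j_main A M' q hq hA (dvd_mul_right M' q) RN hRN (alW1 M' hq hqM)
    (sconc_alW1_symm_mem A M' q hq hqM) (SeriesVal.ofConstRed RN)
    (sconc_hinto A M' RN) (sconc_honto A M' q hq hA (dvd_mul_right M' q) RN hRN)
    hjMid hjw (fun z h1 _ h3 => w2j_rgnSum A M' q hq hqM hA RN hRN z h1 h3)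

end LevelN

/-! ### level `M = M' q²` -/

section LevelM

variable (R : ConstRed A (IsLocalRing.residue A)
    (↥(modularFunctionFieldFullC (IsLocalRing.ResidueField A) M')) (FF (M' * q * q)))
  (hR : IsSeriesRed R)
variable {ζ : Kbarˣ} {E : FF (M' * q * q) →+* LaurentSeries Kbar}
variable (hζq : ζ ^ q = 1) (hζ : IsPrimitiveRoot (ζ : Kbar) q) (hE : IsMidExp M' q ζ E)

theorem w2j_pi1_jF : sumiPi1 M' q (jF M') = jF (M' * q * q) := by
  rw [sumiPi1_apply, sumi_alpha_jF, sumi_alpha_jF]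

include hA hR hζ in
/-- **(SUM) at level `M = M' q²`** over the Gauss ring of `K0(j)`. -/
theorem w2j_sumM (vMid : SeriesVal A (M' * q * q))
    (hvMid : vMid.O = vmidO A hq ((A.mem_nonunits_iff).mp hA) hζq hE)
    (z : f0Field A (M' * q * q)) (h1 : (z : FF (M' * q * q)) ∈ R.O)
    (h2 : (z : FF (M' * q * q)) ∈ vMid.O)
    (h3 : alW2 M' hq hqM (z : FF (M' * q * q)) ∈ R.O) :
    IsIntegral ((R.O.comap (algebraMap (f0Field A (M' * q * q)) (FF (M' * q * q)))).comap
      (algebraMap (k0Field A)⟮vnk_j A (M' * q * q)⟯ (f0Field A (M' * q * q)))) z := by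
  haveI : Fact q.Prime := ⟨hq⟩
  obtain ⟨R', hR'⟩ := w2j_exists_constRed A M' q hq hqM hA
  exact w2j_hSUM_of_rel A (sumiPi1 M' q)
    (sumc_mem_f0Field A _ (fun σ _ x => sumi_gal M' q σ x))
    (w2j_pi1_jF M' q) R'.O R.O
    (fun g _ hg => sumi_hT₁ A M' q hq hA R' R hR' hR g hg)
    (fun c hc => w2j_sum_level A M' q hqM hA R' hR' c hc) z
    (sumi_isIntegral A M' q hq hqM hA R' R hR' hR ((A.mem_nonunits_iff).mp hA) hζq hζ hE
      vMid hvMid (z : FF (M' * q * q)) z.2 h1 h2 h3)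

include hA hR hζ in
/-- **W-2j at level `M = M' q²`**, any `vMid` with `vMid.O = vmidO …`. -/
theorem w2j_levelM_gen (vMid : SeriesVal A (M' * q * q))
    (hvMid : vMid.O = vmidO A hq ((A.mem_nonunits_iff).mp hA) hζq hE)
    (hiMid : ∀ (x : FF (M' * q * q)) (hx : x ∈ vMid.O), x ∈ f0Field A (M' * q * q) →
      vMid.red ⟨x, hx⟩ ∈ modularFunctionFieldFullC (IsLocalRing.ResidueField A) M')
    (hoMid : ∀ y ∈ modularFunctionFieldFullC (IsLocalRing.ResidueField A) M',
      ∃ (x : FF (M' * q * q)) (hx : x ∈ vMid.O), x ∈ f0Field A (M' * q * q) ∧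
        vMid.red ⟨x, hx⟩ = y) :
    IsNoetherianRing (nodeSetupMj A M' q hq hqM hA R hR vMid hiMid hoMid).B ∧
      (∀ z : f0Field A (M' * q * q),
        ∃ a b : (nodeSetupMj A M' q hq hqM hA R hR vMid hiMid hoMid).B,
          b ≠ 0 ∧ z * (b : f0Field A (M' * q * q)) = (a : f0Field A (M' * q * q))) ∧
      IsIntegrallyClosed (nodeSetupMj A M' q hq hqM hA R hR vMid hiMid hoMid).B := by
  haveI : Fact q.Prime := ⟨hq⟩
  obtain ⟨R', hR'⟩ := w2j_exists_constRed A M' q hq hqM hA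
  obtain ⟨hj', -⟩ := w2j_red_jF A M' R' hR'
  have hjF : jF (M' * q * q) = ecPi1 M' q (jF M') := (w2j_pi1_jF M' q).symm
  have hjMid : jF (M' * q * q) ∈ vMid.O := by
    rw [hvMid, hjF]
    exact sumi_hT₂ A M' q hq hA R' hR' ((A.mem_nonunits_iff).mp hA) hζq hE (jF M') hj'
  have hjw : alW2 M' hq hqM (jF (M' * q * q)) ∈ R.O := by
    rw [hjF]
    exact sumi_hT₃ A M' q hq hqM hA R' R hR' hR (jF M') hj'
  exact w2j_main A M' q hq hA ⟨q * q, by ring⟩ R hR (alW2 M' hq hqM)
    (sconc_alW2_symm_mem A M' q hq hqM) vMid hiMid hoMid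
    hjMid hjw
    (fun z h1 h2 h3 => w2j_sumM A M' q hq hqM hA R hR hζq hζ hE vMid hvMid z h1 h2 h3)

end LevelM

end Conc

end Fermat.Agent.S36lib

end
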