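import Mathlib
import Fermat.Agent.S36lib.W2jConc
import Fermat.Agent.S36lib.VMidInto

/-!
# Item 83 (S36), A2Reg wiring, piece W-2j (helper1): level `M' q²` with `vMid := vmidSV …`

`w2j_levelM`: for `SM := nodeSetupMj A M' q hq hqM hA R hR (vmidSV …) (vmid_hinto …)
(vmid_honto …)` (the `B_j`-twin of `s36Final`):
`IsNoetherianRing SM.B ∧ hfrac ∧ IsIntegrallyClosed SM.B`.
-/

set_option autoImplicit false
set_option linter.style.haveILetI false
set_option linter.unusedSectionVars false
set_option linter.unusedVariables false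
set_option synthInstance.maxHeartbeats 400000

noncomputable section

namespace Fermat.Agent.S36lib

open ModularCurve AlgebraicCurve Polynomial IntermediateField HahnSeries
open Fermat.Agent.HeckeBar Fermat.Agent.S24lib Fermat.Agent.S34lib Fermat.Agent.GoodRed
  Fermat.Agent.S37lib Fermat.Agent.S35lib Fermat.Agent.GM

section Final

variable (A : ValuationSubring Kbar) (M' q : ℕ) [NeZero M'] [NeZero q]
variable (hq : q.Prime) (hqM : ¬ q ∣ M') (hA : A.LiesOverPrime q)
variable (R : ConstRed A (IsLocalRing.residue A)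
    (↥(modularFunctionFieldFullC (IsLocalRing.ResidueField A) M')) (FF (M' * q * q)))
  (hR : IsSeriesRed R)
variable {ζ : Kbarˣ} {E : FF (M' * q * q) →+* LaurentSeries Kbar}
variable (hζq : ζ ^ q = 1) (hζ : IsPrimitiveRoot (ζ : Kbar) q) (hE : IsMidExp M' q ζ E)

include hA hR hζ in
/-- **W-2j at level `M = M' q²`** for the `B_j`-twin of `s36Final` (`vMid := vmidSV …`). -/
theorem w2j_levelM :
    IsNoetherianRing (nodeSetupMj A M' q hq hqM hA R hR
        (vmidSV A hq ((A.mem_nonunits_iff).mp hA) hζq hE)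
        (vmid_hinto A hq hqM hA hζq hζ hE) (vmid_honto A hq hA hζq hE)).B ∧
      (∀ z : f0Field A (M' * q * q),
        ∃ a b : (nodeSetupMj A M' q hq hqM hA R hR
            (vmidSV A hq ((A.mem_nonunits_iff).mp hA) hζq hE)
            (vmid_hinto A hq hqM hA hζq hζ hE) (vmid_honto A hq hA hζq hE)).B,
          b ≠ 0 ∧ z * (b : f0Field A (M' * q * q)) = (a : f0Field A (M' * q * q))) ∧
      IsIntegrallyClosed (nodeSetupMj A M' q hq hqM hA R hR
        (vmidSV A hq ((A.mem_nonunits_iff).mp hA) hζq hE)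
        (vmid_hinto A hq hqM hA hζq hζ hE) (vmid_honto A hq hA hζq hE)).B :=
  w2j_levelM_gen A M' q hq hqM hA R hR hζq hζ hE
    (vmidSV A hq ((A.mem_nonunits_iff).mp hA) hζq hE) rfl
    (vmid_hinto A hq hqM hA hζq hζ hE) (vmid_honto A hq hA hζq hE)

end Final

end Fermat.Agent.S36lib

end
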