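/-
Item 83 (S36), CRUX HEAD (helper26): **the trichotomy `htri` for the final setup, UNCONDITIONAL**
(only `IsAuxLevel q M'`).  No sorry in this file.

`s36Final_htri` = input (T) of helper16's `a2asm_inputs` = the hypothesis `htri` of
`s36Final_crux_main`, `s36_hhead_final_of_tor`, `s36Final_hhead_pow`, `r6e_s36Final`:
a maximal ideal of `SF.B` containing `q` is a node or contains exactly one of `p_∞, p_mid, p_0`.

Proof: `s36Final_htri_main` (`H1TriFinal.lean`: transfer `B_j → B_{D1}` + the cuspidal points)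
applied to helper9's INC-j (`incj_htri`, `IncJ.lean`) with helper1's W-2j
(`w2j_rgnSum`, `w2j_levelN`, `w2j_levelM`).
-/
import Mathlib
import Fermat.Agent.S36lib.H1TriFinal
import Fermat.Agent.S36lib.IncJ
import Fermat.Agent.S36lib.W2jFinal

set_option autoImplicit false
set_option linter.style.haveILetI false
set_option linter.unusedSectionVars false
set_option linter.unusedVariables false
set_option synthInstance.maxHeartbeats 400000

noncomputable section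

namespace Fermat.Agent.S36lib

open ModularCurve HahnSeries AlgebraicCurve
open Fermat.Agent.GoodRed Fermat.Agent.S24lib Fermat.Agent.S34lib Fermat.Agent.S37lib
  Fermat.Agent.HeckeBar Fermat.Agent.S35lib Fermat.Agent.GM

variable (A : ValuationSubring Kbar) (M' q : ℕ) [NeZero M'] [NeZero q]
variable (hq : q.Prime) (hqM : ¬ q ∣ M') (hA : A.LiesOverPrime q)
variable {ζ : Kbarˣ} {E : FF (M' * q * q) →+* LaurentSeries Kbar}
variable (hζq : ζ ^ q = 1) (hζ : IsPrimitiveRoot (ζ : Kbar) q) (hE : IsMidExp M' q ζ E)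
variable (R : ConstRed A (IsLocalRing.residue A)
      (↥(modularFunctionFieldFullC (IsLocalRing.ResidueField A) M')) (FF (M' * q * q)))
    (hR : IsSeriesRed R)

local notation "SF" => s36Final A M' q hq hqM hA hζq hζ hE R hR
local notation "SJ" => s36FinalJ A M' q hq hqM hA hζq hζ hE R hR

set_option maxHeartbeats 2000000 in
/-- **INC-j for the `B_j`-twin of the final setup, unconditional**: `htri` for `s36FinalJ`. -/
theorem s36FinalJ_htri (haux : IsAuxLevel q M') :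
    ∀ 𝔪' : Ideal (SJ).B, 𝔪'.IsMaximal → (SJ).constB (q : k0Val A) ∈ 𝔪' →
      (SJ).IsNode 𝔪' ∨
      ((SJ).pInf ≤ 𝔪' ∧ ¬ (SJ).pMid ≤ 𝔪' ∧ ¬ (SJ).pZero ≤ 𝔪') ∨
      (¬ (SJ).pInf ≤ 𝔪' ∧ (SJ).pMid ≤ 𝔪' ∧ ¬ (SJ).pZero ≤ 𝔪') ∨
      (¬ (SJ).pInf ≤ 𝔪' ∧ ¬ (SJ).pMid ≤ 𝔪' ∧ (SJ).pZero ≤ 𝔪') := by
  haveI : Fact q.Prime := ⟨hq⟩
  haveI : CharP (IsLocalRing.ResidueField A) q := charP_residueField hA
  haveI : IsAlgClosed (IsLocalRing.ResidueField A) := isAlgClosed_residueField A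
  haveI : PerfectRing (IsLocalRing.ResidueField A) q := inferInstance
  obtain ⟨RN, hRN⟩ := sconc_exists_constRedInfN A M' q hq hqM hA
  have hSUM : RgnSum A M' q hq hqM RN :=
    fun z h1 h3 => w2j_rgnSum A M' q hq hqM hA RN hRN z h1 h3
  obtain ⟨-, -, hICN⟩ := w2j_levelN A M' q hq hqM hA RN hRN
  obtain ⟨hNoeM, -, -⟩ := w2j_levelM A M' q hq hqM hA R hR hζq hζ hE
  haveI := hICN
  haveI := hNoeM
  exact incj_htri A M' q hq hqM hA RN hRN R hR hζq hζ hE
    (vmid_hinto A hq hqM hA hζq hζ hE) (vmid_honto A hq hA hζq hE) haux hSUM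

/-- **`htri` for the final setup, UNCONDITIONAL** (only `IsAuxLevel q M'`): a maximal ideal of
`SF.B` containing `q` is a node or contains exactly one of the three primes. -/
theorem s36Final_htri (haux : IsAuxLevel q M') :
    ∀ 𝔪 : Ideal (SF).B, 𝔪.IsMaximal → (SF).constB (q : k0Val A) ∈ 𝔪 → (SF).IsNode 𝔪 ∨
      ((SF).pInf ≤ 𝔪 ∧ ¬ (SF).pMid ≤ 𝔪 ∧ ¬ (SF).pZero ≤ 𝔪) ∨
      (¬ (SF).pInf ≤ 𝔪 ∧ (SF).pMid ≤ 𝔪 ∧ ¬ (SF).pZero ≤ 𝔪) ∨
      (¬ (SF).pInf ≤ 𝔪 ∧ ¬ (SF).pMid ≤ 𝔪 ∧ (SF).pZero ≤ 𝔪) :=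
  s36Final_htri_main A M' q hq hqM hA hζq hζ hE R hR haux
    (s36FinalJ_htri A M' q hq hqM hA hζq hζ hE R hR haux)

end Fermat.Agent.S36lib

end
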