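/-
Item 83 (S36), block REG2 / W-4, piece `hintα` for the rings `B_j` (helper21).

`aij_hintα`: for the concrete setups `SN = nodeSetupNj` (level `N = M' q`) and
`SM = nodeSetupMj` (level `M = M' q²`), rings `B_j` (regular off ALL cusps), the map
`α = r2iAlpha : B_j(N) → B_j(M)` is INTEGRAL (the hypothesis `hintα` of `r2i_hufd`,
`r2i_isDedekindDomain_redInf`, and `hα` of `s36_redMem_nodeSetup`).

Route: for `b ∈ B_j(M)` the minimal polynomial `m` of `b` over `F_{M'}` (along `π₁ = α ∘ α'`)
has its coefficients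
* in `F0(M')` (`d1h_coeff_fixed`),
* regular off the cusps of level `M'` (`aij_coeff_reg`, the analogue of `d1h_coeff_reg`),
* in `R'.O` ((P4) = `sumi_isIntegral` of helper2 + `d1a_coeff_mem_O` of helper28);
hence `α' (m.coeff n) ∈ B_j(N)` (tables `sumn_hTInf`, `sumn_hTZero`) and `b` is a root of the
monic polynomial `α (α' m)` over `α (B_j(N))`.

* `aij_isIntegralElem_abs`: the abstract step (rings);
* `aij_pi1_jF`, `aij_isIntegral`, `aij_coeff_reg`: regularity off the cusps;
* `aij_hintα_of`: `hintα` from a series reduction `R'` of level `M'`;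
* `aij_hintα`: `hintα` for an auxiliary level.

All proofs complete.
-/
import Mathlib
import Fermat.Agent.S36lib.Reg2Inst
import Fermat.Agent.S36lib.SumFinal
import Fermat.Agent.S36lib.SumConcN
import Fermat.Agent.S36lib.D1Noeth
import Fermat.Agent.S34lib.LiftInf

set_option autoImplicit false
set_option linter.style.haveILetI false
set_option linter.unusedSectionVars false
set_option linter.unusedVariables false
set_option synthInstance.maxHeartbeats 400000
set_option maxHeartbeats 1000000

noncomputable section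

namespace Fermat.Agent.S36lib

open AlgebraicCurve ModularCurve IntermediateField HahnSeries Polynomial IsDedekindDomain
open Fermat.Agent.S24lib Fermat.Agent.GoodRed Fermat.Agent.GM Fermat.Agent.S34lib
  Fermat.Agent.RRlib Fermat.Agent.HeckeBar Fermat.Agent.S35lib Fermat.Agent.S37lib

section Abs

variable {BN BM F' FM : Type*} [CommRing BN] [CommRing BM] [CommRing F'] [CommRing FM]

/-- **the abstract step**: if `b ∈ B_M` is a root (in `F_M ⊇ B_M`) of a monic polynomial `m`
over `F'` (along `π`) whose coefficients come from `B_N` (along `α`), then `b` is integral over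
`α (B_N)`. -/
theorem aij_isIntegralElem_abs (α : BN →+* BM) (c : BM →+* FM) (hc : Function.Injective c)
    (π : F' →+* FM) (b : BM) (m : Polynomial F') (hm : m.Monic)
    (hroot : Polynomial.eval₂ π (c b) m = 0)
    (hcoeff : ∀ n, ∃ z : BN, c (α z) = π (m.coeff n)) :
    α.IsIntegralElem b := by
  have hlift : m.map π ∈ Polynomial.lifts (c.comp α) := by
    rw [Polynomial.lifts_iff_coeff_lifts]
    intro n
    obtain ⟨z, hz⟩ := hcoeff n
    exact ⟨z, by rw [Polynomial.coeff_map, ← hz]; rfl⟩
  obtain ⟨p0, hp0, -, hp0m⟩ := Polynomial.lifts_and_natDegree_eq_and_monic hlift (hm.map π)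
  refine ⟨p0, hp0m, hc ?_⟩
  rw [map_zero, Polynomial.hom_eval₂, ← Polynomial.eval_map, hp0, Polynomial.eval_map]
  exact hroot

end Abs

section Hor

variable (M' q : ℕ) [NeZero M'] [NeZero q]

/-- `π₁ j = j` -/
theorem aij_pi1_jF : ecPi1 M' q (jF M') = jF (M' * q * q) := by
  show heckeAlphaBar Kbar (M' * q) q (heckeAlphaBar Kbar M' q (jF M')) = jF (M' * q * q)
  rw [sumi_alpha_jF, sumi_alpha_jF]

/-- `b` regular off the cusps is integral over the valuation ring of every place `P'` of
level `M'` which is not a cusp -/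
theorem aij_isIntegral (b : FF (M' * q * q)) (hb : b ∈ cuspRegular (M' * q * q))
    (P' : Place Kbar (FF M')) (hP' : jF M' ∈ P'.toValuationSubring) :
    letI := (ecPi1 M' q).toAlgebra
    IsIntegral P'.toValuationSubring b := by
  letI := (ecPi1 M' q).toAlgebra
  haveI := d1h_isScalarTower M' q
  haveI : Module.Finite (FF M') (FF (M' * q * q)) := d1h_finite M' q
  haveI : CharZero (FF M') := d1h_charZero M'
  haveI := d1h_algIsIntegral M' q
  haveI : Algebra.IsSeparable (FF M') (FF (M' * q * q)) :=
    Algebra.IsSeparable.of_integral (FF M') (FF (M' * q * q))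
  have hmem : b ∈ (algebraMap (locB P' (FF (M' * q * q))) (FF (M' * q * q))).range := by
    apply HeightOneSpectrum.mem_integers_of_valuation_le_one
    intro Q
    have hj : jF (M' * q * q) ∈ (locPlace P' Q).toValuationSubring := by
      have h1 : jF M' ∈ ((locPlace P' Q).restrict (FF M')).toValuationSubring := by
        rw [locPlace_restrict]
        exact hP'
      rw [Place.restrict_toValuationSubring, ValuationSubring.mem_comap] at h1
      rw [← aij_pi1_jF]
      exact h1
    have h2 := (mem_cuspRegular_iff _ _).1 hb _ hj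
    rw [locPlace_toValuationSubring, Valuation.mem_valuationSubring_iff] at h2
    exact h2
  obtain ⟨r, hr⟩ := hmem
  rw [← hr]
  exact r.2

/-- the coefficients of the minimal polynomial over `F_{M'}` of a function regular off the cusps
are regular off the cusps -/
theorem aij_coeff_reg (b : FF (M' * q * q)) (hb : b ∈ cuspRegular (M' * q * q))
    (P' : Place Kbar (FF M')) (hP' : jF M' ∈ P'.toValuationSubring) (n : ℕ) :
    letI := (ecPi1 M' q).toAlgebra
    (minpoly (FF M') b).coeff n ∈ P'.toValuationSubring := by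
  letI := (ecPi1 M' q).toAlgebra
  have hint := aij_isIntegral M' q b hb P' hP'
  haveI : IsIntegrallyClosed P'.toValuationSubring := inferInstance
  rw [minpoly.isIntegrallyClosed_eq_field_fractions' (FF M') hint, Polynomial.coeff_map]
  exact ((minpoly P'.toValuationSubring b).coeff n).2

end Hor

section Main

variable (A : ValuationSubring Kbar) (M' q : ℕ) [NeZero M'] [NeZero q] (hq : q.Prime)
  (hqM : ¬ q ∣ M') (hA : A.LiesOverPrime q)
  (RN : ConstRed A (IsLocalRing.residue A)
    (↥(modularFunctionFieldFullC (IsLocalRing.ResidueField A) M')) (FF (M' * q)))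
  (hRN : IsSeriesRed RN)
  (R : ConstRed A (IsLocalRing.residue A)
    (↥(modularFunctionFieldFullC (IsLocalRing.ResidueField A) M')) (FF (M' * q * q)))
  (hR : IsSeriesRed R)
  {ζ : Kbarˣ} {E : FF (M' * q * q) →+* LaurentSeries Kbar} (hζq : ζ ^ q = 1)
  (hE : IsMidExp M' q ζ E)
  (hiMid : ∀ (x : FF (M' * q * q))
    (hx : x ∈ (vmidSV A hq ((A.mem_nonunits_iff).mp hA) hζq hE).O),
    x ∈ f0Field A (M' * q * q) →
      (vmidSV A hq ((A.mem_nonunits_iff).mp hA) hζq hE).red ⟨x, hx⟩ ∈
        modularFunctionFieldFullC (IsLocalRing.ResidueField A) M')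
  (hoMid : ∀ y ∈ modularFunctionFieldFullC (IsLocalRing.ResidueField A) M',
    ∃ (x : FF (M' * q * q)) (hx : x ∈ (vmidSV A hq ((A.mem_nonunits_iff).mp hA) hζq hE).O),
      x ∈ f0Field A (M' * q * q) ∧
        (vmidSV A hq ((A.mem_nonunits_iff).mp hA) hζq hE).red ⟨x, hx⟩ = y)

set_option maxHeartbeats 4000000 in
/-- **`hintα` for `B_j`**, from a series reduction `R'` of level `M'`: every element of
`B_j(M' q²)` is integral over `α (B_j(M' q))`. -/
theorem aij_hintα_of
    (R' : ConstRed A (IsLocalRing.residue A) (Fk (IsLocalRing.ResidueField A) M') (FF M'))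
    (hR' : IsSeriesRed R') (hζ : IsPrimitiveRoot (ζ : Kbar) q) :
    (r2iAlpha A M' q hq hqM hA RN hRN R hR hζq hE hiMid hoMid).toB.IsIntegral := by
  classical
  intro b
  letI algFF := (ecPi1 M' q).toAlgebra
  haveI := d1h_algIsIntegral M' q
  obtain ⟨h0, h1, h2, h3⟩ :=
    (r2i_mem_Mj A M' q hq hqM hA R hR hζq hE hiMid hoMid b.1).1 b.2
  have hbint : IsIntegral (FF M') ((b : f0Field A (M' * q * q)) : FF (M' * q * q)) :=
    Algebra.IsIntegral.isIntegral _
  have hmm : (minpoly (FF M') ((b : f0Field A (M' * q * q)) : FF (M' * q * q))).Monic :=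
    minpoly.monic hbint
  obtain ⟨p, hp, hpc, hpb⟩ := sumi_isIntegral A M' q hq hqM hA R' R hR' hR
    ((A.mem_nonunits_iff).mp hA) hζq hζ hE (vmidSV A hq ((A.mem_nonunits_iff).mp hA) hζq hE) rfl
    ((b : f0Field A (M' * q * q)) : FF (M' * q * q)) (b : f0Field A (M' * q * q)).2 h1 h2 h3
  refine aij_isIntegralElem_abs
    (r2iAlpha A M' q hq hqM hA RN hRN R hR hζq hE hiMid hoMid).toB
    ((algebraMap (f0Field A (M' * q * q)) (FF (M' * q * q))).comp
      (Subring.subtype (nodeSetupMj A M' q hq hqM hA R hR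
        (vmidSV A hq ((A.mem_nonunits_iff).mp hA) hζq hE) hiMid hoMid).B))
    (fun x y hxy => Subtype.ext (Subtype.ext hxy))
    (ecPi1 M' q) b (minpoly (FF M') ((b : f0Field A (M' * q * q)) : FF (M' * q * q))) hmm
    (minpoly.aeval (FF M') ((b : f0Field A (M' * q * q)) : FF (M' * q * q))) ?_
  intro n
  have hfix : (minpoly (FF M') ((b : f0Field A (M' * q * q)) : FF (M' * q * q))).coeff n ∈
      f0Field A M' :=
    (mem_f0Field_iff_isIFixed A M' _).2
      (d1h_coeff_fixed M' q A ((b : f0Field A (M' * q * q)) : FF (M' * q * q))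
        ((mem_f0Field_iff_isIFixed A (M' * q * q) _).1 (b : f0Field A (M' * q * q)).2) n)
  have hreg : (minpoly (FF M') ((b : f0Field A (M' * q * q)) : FF (M' * q * q))).coeff n ∈
      cuspRegular M' :=
    (mem_cuspRegular_iff _ _).2 fun P hP =>
      aij_coeff_reg M' q ((b : f0Field A (M' * q * q)) : FF (M' * q * q)) h0 P hP n
  have hO : (minpoly (FF M') ((b : f0Field A (M' * q * q)) : FF (M' * q * q))).coeff n ∈
      R'.O :=
    d1a_coeff_mem_O M' q R'.O ((b : f0Field A (M' * q * q)) : FF (M' * q * q))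
      ⟨p, hp, fun n => (hpc n).1, hpb⟩ n
  have hN : (⟨heckeAlphaBar Kbar M' q
      ((minpoly (FF M') ((b : f0Field A (M' * q * q)) : FF (M' * q * q))).coeff n),
      r2m_inclBar_mem_f0Field A (dvd_mul_right M' q) _ hfix⟩ : f0Field A (M' * q)) ∈
      (nodeSetupNj A M' q hq hqM hA RN hRN).B :=
    (r2i_mem_Nj A M' q hq hqM hA RN hRN _).2
      ⟨r2m_inclBar_mem_cuspRegular (dvd_mul_right M' q) _ hreg,
        sumn_hTInf A M' q hq hA hR' hRN _ hO, sumn_hTZero A M' q hq hqM hA hR' hRN _ hO⟩
  exact ⟨⟨_, hN⟩, rfl⟩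

/-- **`hintα` for `B_j`** at an auxiliary level: every element of `B_j(M' q²)` is integral over
`α (B_j(M' q))`. -/
theorem aij_hintα (haux : IsAuxLevel q M') (hζ : IsPrimitiveRoot (ζ : Kbar) q) :
    (r2iAlpha A M' q hq hqM hA RN hRN R hR hζq hE hiMid hoMid).toB.IsIntegral := by
  haveI : Fact q.Prime := ⟨hq⟩
  obtain ⟨R', -, hR', -⟩ := liftInf_exists_red M' A q haux hA
  exact aij_hintα_of A M' q hq hqM hA RN hRN R hR hζq hE hiMid hoMid R' hR' hζ

end Main

end Fermat.Agent.S36lib

end
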