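/-
Item 83 (S36), provider of (R5) (helper24): **`hdiv` at level `M = M' q²`**.

`r5d_hdiv : (nodeSetupMj …).pInf ^ 12 ≤ Ideal.span {r2iBeta.toB (uqrHB' …)}`,
i.e. the hypothesis `hdiv` of `r2i_hufd` (helper9, `Reg2Inst.lean`) for `e = 12` and
`h' = uqrHB' = q¹² u` (`u = Δ(qz)/Δ(z)`, `UnitQRed.lean`).

Proof: `B_j(M) = R₀ ∩ O_0 ∩ O_mid ∩ O_∞`, `q` is a uniformiser of `O_∞ ∩ F0(M)`, and
`g = β h'` satisfies `g⁻¹ = β (h'⁻¹)` with `h'⁻¹ = q⁻¹² u⁻¹`:
* `g⁻¹` is regular off the cusps (`β` preserves `cuspRegular`);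
* `g⁻¹ ∈ O_0(M)` and `g⁻¹ ∈ O_mid(M)`, because `w_q (h'⁻¹) = u ∈ O_∞(N)` (tables of `β`);
* `q¹² g⁻¹ = β (u⁻¹) ∈ O_∞(M)`.
-/
import Mathlib
import Fermat.Agent.S36lib.Reg2Inst
import Fermat.Agent.S36lib.UnitQRed

set_option autoImplicit false
set_option linter.style.haveILetI false
set_option linter.unusedSectionVars false
set_option linter.unusedVariables false
set_option synthInstance.maxHeartbeats 400000

noncomputable section

namespace Fermat.Agent.S36lib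

open ModularCurve AlgebraicCurve HahnSeries
open Fermat.Agent.S24lib Fermat.Agent.S34lib Fermat.Agent.HeckeBar Fermat.Agent.GoodRed
open Fermat.Agent.S37lib Fermat.Agent.S35lib Fermat.Agent.GM
open Fermat.Agent.S28lib Fermat.Agent.S16lib

section LevelM

variable (A : ValuationSubring Kbar) (M' q : ℕ) [NeZero M'] [NeZero q] (hq : q.Prime)
  (hqM : ¬ q ∣ M') (hA : A.LiesOverPrime q)
  (RN : ConstRed A (IsLocalRing.residue A)
    (↥(modularFunctionFieldFullC (IsLocalRing.ResidueField A) M')) (FF (M' * q)))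
  (hRN : IsSeriesRed RN)
  (R : ConstRed A (IsLocalRing.residue A)
    (↥(modularFunctionFieldFullC (IsLocalRing.ResidueField A) M')) (FF (M' * q * q)))
  (hR : IsSeriesRed R)
  {ζ : Kbarˣ} {E : FF (M' * q * q) →+* LaurentSeries Kbar} (hζq : ζ ^ q = 1)
  (hE : IsMidExp M' q ζ E)
  (hiMid : ∀ (x : FF (M' * q * q))
    (hx : x ∈ (vmidSV A hq ((A.mem_nonunits_iff).mp hA) hζq hE).O),
    x ∈ f0Field A (M' * q * q) →
      (vmidSV A hq ((A.mem_nonunits_iff).mp hA) hζq hE).red ⟨x, hx⟩ ∈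
        modularFunctionFieldFullC (IsLocalRing.ResidueField A) M')
  (hoMid : ∀ y ∈ modularFunctionFieldFullC (IsLocalRing.ResidueField A) M',
    ∃ (x : FF (M' * q * q)) (hx : x ∈ (vmidSV A hq ((A.mem_nonunits_iff).mp hA) hζq hE).O),
      x ∈ f0Field A (M' * q * q) ∧
        (vmidSV A hq ((A.mem_nonunits_iff).mp hA) hζq hE).red ⟨x, hx⟩ = y)

/-! ### bridges (all by unfolding) -/

theorem r5d_mem_vInf (x : f0Field A (M' * q * q)) :
    x ∈ (nodeSetupMj A M' q hq hqM hA R hR (vmidSV A hq ((A.mem_nonunits_iff).mp hA) hζq hE)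
      hiMid hoMid).vInf.O ↔ (x : FF (M' * q * q)) ∈ R.O := Iff.rfl

theorem r5d_mem_vMid (x : f0Field A (M' * q * q)) :
    x ∈ (nodeSetupMj A M' q hq hqM hA R hR (vmidSV A hq ((A.mem_nonunits_iff).mp hA) hζq hE)
      hiMid hoMid).vMid.O ↔
        (x : FF (M' * q * q)) ∈ vmidO A hq ((A.mem_nonunits_iff).mp hA) hζq hE := Iff.rfl

theorem r5d_mem_vZero (x : f0Field A (M' * q * q)) :
    x ∈ (nodeSetupMj A M' q hq hqM hA R hR (vmidSV A hq ((A.mem_nonunits_iff).mp hA) hζq hE)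
      hiMid hoMid).vZero.O ↔ alW2 M' hq hqM (x : FF (M' * q * q)) ∈ R.O := Iff.rfl

theorem r5d_mem_R0 (x : f0Field A (M' * q * q)) :
    x ∈ (offRegular (M' * q * q) (cuspSet (M' * q * q))).comap
        (algebraMap (f0Field A (M' * q * q)) (FF (M' * q * q))) ↔
      (x : FF (M' * q * q)) ∈ cuspRegular (M' * q * q) := by
  rw [Subring.mem_comap, offRegular_cuspSet]
  rfl

/-- the description of `B_j(M)` as an intersection, in the shape of `reg2_hdiv` for `p_∞` -/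
theorem r5d_hB (x : f0Field A (M' * q * q)) :
    x ∈ (nodeSetupMj A M' q hq hqM hA R hR (vmidSV A hq ((A.mem_nonunits_iff).mp hA) hζq hE)
      hiMid hoMid).B ↔
      x ∈ (offRegular (M' * q * q) (cuspSet (M' * q * q))).comap
          (algebraMap (f0Field A (M' * q * q)) (FF (M' * q * q))) ∧
        x ∈ (nodeSetupMj A M' q hq hqM hA R hR (vmidSV A hq ((A.mem_nonunits_iff).mp hA) hζq hE)
          hiMid hoMid).vZero.O ∧
        x ∈ (nodeSetupMj A M' q hq hqM hA R hR (vmidSV A hq ((A.mem_nonunits_iff).mp hA) hζq hE)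
          hiMid hoMid).vMid.O ∧
        x ∈ (nodeSetupMj A M' q hq hqM hA R hR (vmidSV A hq ((A.mem_nonunits_iff).mp hA) hζq hE)
          hiMid hoMid).vInf.O := by
  have h := mem_f0AffD_iff A (M' * q * q) (cuspSet (M' * q * q)) (SeriesVal.ofConstRed R).O
    (vmidSV A hq ((A.mem_nonunits_iff).mp hA) hζq hE).O
    ((SeriesVal.ofConstRed R).comap (alW2 M' hq hqM)).O x
  constructor
  · intro hx
    obtain ⟨h1, h2, h3, h4⟩ := h.1 hx
    exact ⟨h1, h4, h3, h2⟩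
  · rintro ⟨h1, h4, h3, h2⟩
    exact h.2 ⟨h1, h2, h3, h4⟩

/-- the uniformiser `q` in `F0(M)` -/
def r5dQ : f0Field A (M' * q * q) := ((q : ℕ) : f0Field A (M' * q * q))

theorem coe_r5dQ : ((r5dQ A M' q : f0Field A (M' * q * q)) : FF (M' * q * q)) =
    algebraMap Kbar (FF (M' * q * q)) (q : Kbar) := by
  rw [map_natCast]
  rfl

include hq in
theorem r5dQ_ne_zero : r5dQ A M' q ≠ 0 := by
  unfold r5dQ
  exact Nat.cast_ne_zero.2 hq.ne_zero

theorem r5d_coe_mul_inv (z y : f0Field A (M' * q * q)) :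
    ((z * y⁻¹ : f0Field A (M' * q * q)) : FF (M' * q * q)) =
      (z : FF (M' * q * q)) * (y : FF (M' * q * q))⁻¹ := by
  push_cast
  rfl

theorem r5d_coe_inv (y : f0Field A (M' * q * q)) :
    ((y⁻¹ : f0Field A (M' * q * q)) : FF (M' * q * q)) = ((y : FF (M' * q * q)))⁻¹ := by
  push_cast
  rfl

theorem r5d_coe_pow_mul_inv (z y : f0Field A (M' * q * q)) (n : ℕ) :
    ((z ^ n * y⁻¹ : f0Field A (M' * q * q)) : FF (M' * q * q)) =
      (z : FF (M' * q * q)) ^ n * (y : FF (M' * q * q))⁻¹ := by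
  push_cast
  rfl

/-- a non-unit of `O∞ ∩ F0(M)` is divisible by `q` -/
theorem r5d_hp_inf (z : f0Field A (M' * q * q))
    (hz : z ∈ (nodeSetupMj A M' q hq hqM hA R hR
      (vmidSV A hq ((A.mem_nonunits_iff).mp hA) hζq hE) hiMid hoMid).vInf.O.nonunits) :
    z * (r5dQ A M' q)⁻¹ ∈ (nodeSetupMj A M' q hq hqM hA R hR
      (vmidSV A hq ((A.mem_nonunits_iff).mp hA) hζq hE) hiMid hoMid).vInf.O := by
  have hqA : (q : Kbar) ∈ A := A.nonunits_le hA
  have h := varch_of_unit A R.O hq (R.algebraMap_mem ⟨(q : Kbar), hqA⟩) 1 Nat.one_pos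
    (fun f hf hf0 => by rw [pow_one]; exact vdisc_inf hq hA hR hf hf0) z.2
    (varch_nonunits_comap A R.O z hz)
  rw [pow_one] at h
  rw [r5d_mem_vInf, r5d_coe_mul_inv, coe_r5dQ]
  exact h

/-! ### the element `g = β h'` -/

/-- `h'⁻¹ = q⁻¹² u⁻¹` at level `N` -/
def r5dY : FF (M' * q) :=
  (algebraMap Kbar (FF (M' * q)) ((q : Kbar) ^ 12) * uqrU M' q)⁻¹

theorem r5d_alW1_Y : alW1 M' hq hqM (r5dY M' q) = uqrU M' q := by
  unfold r5dY
  rw [map_inv₀, uqr_alW1_h', inv_inv]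

theorem r5d_Y_mem_cuspRegular : r5dY M' q ∈ cuspRegular (M' * q) := by
  unfold r5dY
  rw [mul_inv, ← map_inv₀]
  exact (cuspRegular (M' * q)).mul_mem (const_mem_cuspRegular _ _)
    (unitQ_inv_mem_cuspRegular (M' * q) q (dvd_mul_left q M'))

include hq in
theorem r5d_q12_mul_Y :
    algebraMap Kbar (FF (M' * q)) ((q : Kbar) ^ 12) * r5dY M' q = (uqrU M' q)⁻¹ := by
  unfold r5dY
  rw [mul_inv, ← mul_assoc, mul_inv_cancel₀ ((map_ne_zero _).2 (uqr_q12_ne_zero q hq)), one_mul]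

/-- the coercion of `g⁻¹` -/
theorem r5d_coe_g_inv :
    ((((r2iBeta A M' q hq hqM hA RN hRN R hR hζq hE hiMid hoMid).toB
        (uqrHB' A M' q hq hqM hA RN hRN) :
      (nodeSetupMj A M' q hq hqM hA R hR (vmidSV A hq ((A.mem_nonunits_iff).mp hA) hζq hE)
        hiMid hoMid).B) : f0Field A (M' * q * q)) : FF (M' * q * q))⁻¹ =
      heckeBetaBar Kbar (M' * q) q (r5dY M' q) := by
  rw [r2i_coe_beta, coe_uqrHB', coe_uqrH', ← map_inv₀]
  rfl

theorem r5d_g_ne_zero :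
    (r2iBeta A M' q hq hqM hA RN hRN R hR hζq hE hiMid hoMid).toB
      (uqrHB' A M' q hq hqM hA RN hRN) ≠ 0 := by
  intro h0
  have h1 := congrArg (fun x : (nodeSetupMj A M' q hq hqM hA R hR
    (vmidSV A hq ((A.mem_nonunits_iff).mp hA) hζq hE) hiMid hoMid).B =>
    ((x : f0Field A (M' * q * q)) : FF (M' * q * q))) h0
  have h2 : heckeBetaBar Kbar (M' * q) q
      (algebraMap Kbar (FF (M' * q)) ((q : Kbar) ^ 12) * uqrU M' q) = 0 := h1
  rw [map_eq_zero] at h2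
  exact mul_ne_zero ((map_ne_zero _).2 (uqr_q12_ne_zero q hq))
    (unitQ_ne_zero (M' * q) q (dvd_mul_left q M')) h2

set_option maxHeartbeats 1600000 in
/-- **`hdiv` at level `M = M' q²`**: `p_∞ ^ 12 ≤ (β h')` in `B_j(M)`; this is the hypothesis
`hdiv` of `r2i_hufd` for `e = 12`, `h' = uqrHB'`. -/
theorem r5d_hdiv :
    (nodeSetupMj A M' q hq hqM hA R hR (vmidSV A hq ((A.mem_nonunits_iff).mp hA) hζq hE)
      hiMid hoMid).pInf ^ 12 ≤
      Ideal.span {(r2iBeta A M' q hq hqM hA RN hRN R hR hζq hE hiMid hoMid).toB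
        (uqrHB' A M' q hq hqM hA RN hRN)} := by
  have hprim := vmid_hasPrimFrac_bar A (M' * q) hq ((A.mem_nonunits_iff).mp hA)
  have hp : ∀ z ∈ (nodeSetupMj A M' q hq hqM hA R hR
      (vmidSV A hq ((A.mem_nonunits_iff).mp hA) hζq hE) hiMid hoMid).pInf,
      ((z : (nodeSetupMj A M' q hq hqM hA R hR
        (vmidSV A hq ((A.mem_nonunits_iff).mp hA) hζq hE) hiMid hoMid).B) :
          f0Field A (M' * q * q)) * (r5dQ A M' q)⁻¹ ∈
        (nodeSetupMj A M' q hq hqM hA R hR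
          (vmidSV A hq ((A.mem_nonunits_iff).mp hA) hζq hE) hiMid hoMid).vInf.O := fun z hz =>
    r5d_hp_inf A M' q hq hqM hA R hR hζq hE hiMid hoMid _
      (((nodeSetupMj A M' q hq hqM hA R hR
        (vmidSV A hq ((A.mem_nonunits_iff).mp hA) hζq hE) hiMid hoMid).mem_pInf_iff z).1 hz)
  have hgR : (((r2iBeta A M' q hq hqM hA RN hRN R hR hζq hE hiMid hoMid).toB
      (uqrHB' A M' q hq hqM hA RN hRN) : (nodeSetupMj A M' q hq hqM hA R hR
        (vmidSV A hq ((A.mem_nonunits_iff).mp hA) hζq hE) hiMid hoMid).B) :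
      f0Field A (M' * q * q))⁻¹ ∈ (offRegular (M' * q * q) (cuspSet (M' * q * q))).comap
        (algebraMap (f0Field A (M' * q * q)) (FF (M' * q * q))) := by
    rw [r5d_mem_R0, r5d_coe_inv, r5d_coe_g_inv, heckeBetaBar_eq_qpowBar]
    exact r2m_qpowBar_mem_cuspRegular q dvd_rfl _ (r5d_Y_mem_cuspRegular M' q)
  have hg₁ : (((r2iBeta A M' q hq hqM hA RN hRN R hR hζq hE hiMid hoMid).toB
      (uqrHB' A M' q hq hqM hA RN hRN) : (nodeSetupMj A M' q hq hqM hA R hR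
        (vmidSV A hq ((A.mem_nonunits_iff).mp hA) hζq hE) hiMid hoMid).B) :
      f0Field A (M' * q * q))⁻¹ ∈ (nodeSetupMj A M' q hq hqM hA R hR
        (vmidSV A hq ((A.mem_nonunits_iff).mp hA) hζq hE) hiMid hoMid).vZero.O := by
    rw [r5d_mem_vZero, r5d_coe_inv, r5d_coe_g_inv]
    have h := (vz2Zero_beta_mem_iff M' hq hqM hRN hR hprim (r5dY M' q)).2
      ((mem_inredComap_O RN _ _).2 (by
        rw [r5d_alW1_Y]
        exact uqr_mem_O (dvd_mul_left q M') hRN))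
    exact (mem_inredZero2_O hq hqM R _).1 h
  have hg₂ : (((r2iBeta A M' q hq hqM hA RN hRN R hR hζq hE hiMid hoMid).toB
      (uqrHB' A M' q hq hqM hA RN hRN) : (nodeSetupMj A M' q hq hqM hA R hR
        (vmidSV A hq ((A.mem_nonunits_iff).mp hA) hζq hE) hiMid hoMid).B) :
      f0Field A (M' * q * q))⁻¹ ∈ (nodeSetupMj A M' q hq hqM hA R hR
        (vmidSV A hq ((A.mem_nonunits_iff).mp hA) hζq hE) hiMid hoMid).vMid.O := by
    rw [r5d_mem_vMid, r5d_coe_inv, r5d_coe_g_inv]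
    refine (vmb_beta_mem_iff' A RN hq hqM ((A.mem_nonunits_iff).mp hA) hζq hE hRN _).2 ?_
    rw [r5d_alW1_Y]
    exact uqr_mem_O (dvd_mul_left q M') hRN
  have hg : r5dQ A M' q ^ 12 * (((r2iBeta A M' q hq hqM hA RN hRN R hR hζq hE hiMid hoMid).toB
      (uqrHB' A M' q hq hqM hA RN hRN) : (nodeSetupMj A M' q hq hqM hA R hR
        (vmidSV A hq ((A.mem_nonunits_iff).mp hA) hζq hE) hiMid hoMid).B) :
      f0Field A (M' * q * q))⁻¹ ∈ (nodeSetupMj A M' q hq hqM hA R hR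
        (vmidSV A hq ((A.mem_nonunits_iff).mp hA) hζq hE) hiMid hoMid).vInf.O := by
    rw [r5d_mem_vInf, r5d_coe_pow_mul_inv, r5d_coe_g_inv, coe_r5dQ, ← map_pow]
    have e1 : algebraMap Kbar (FF (M' * q * q)) ((q : Kbar) ^ 12) *
        heckeBetaBar Kbar (M' * q) q (r5dY M' q) =
        heckeBetaBar Kbar (M' * q) q ((uqrU M' q)⁻¹) := by
      rw [← r5d_q12_mul_Y M' q hq, map_mul, AlgHom.commutes]
    rw [e1]
    exact (vz2_beta_mem_iff (M' * q) q hRN hR hprim _).2 (uqr_inv_mem_O (dvd_mul_left q M') hRN)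
  exact reg2_hdiv (nodeSetupMj A M' q hq hqM hA R hR
      (vmidSV A hq ((A.mem_nonunits_iff).mp hA) hζq hE) hiMid hoMid).B
    ((offRegular (M' * q * q) (cuspSet (M' * q * q))).comap
      (algebraMap (f0Field A (M' * q * q)) (FF (M' * q * q))))
    (nodeSetupMj A M' q hq hqM hA R hR
      (vmidSV A hq ((A.mem_nonunits_iff).mp hA) hζq hE) hiMid hoMid).vZero.O
    (nodeSetupMj A M' q hq hqM hA R hR
      (vmidSV A hq ((A.mem_nonunits_iff).mp hA) hζq hE) hiMid hoMid).vMid.O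
    (nodeSetupMj A M' q hq hqM hA R hR
      (vmidSV A hq ((A.mem_nonunits_iff).mp hA) hζq hE) hiMid hoMid).vInf.O
    (r5d_hB A M' q hq hqM hA R hR hζq hE hiMid hoMid)
    (r5dQ A M' q) (r5dQ_ne_zero A M' q hq)
    (nodeSetupMj A M' q hq hqM hA R hR
      (vmidSV A hq ((A.mem_nonunits_iff).mp hA) hζq hE) hiMid hoMid).pInf hp 12
    ((r2iBeta A M' q hq hqM hA RN hRN R hR hζq hE hiMid hoMid).toB
      (uqrHB' A M' q hq hqM hA RN hRN))
    (r5d_g_ne_zero A M' q hq hqM hA RN hRN R hR hζq hE hiMid hoMid) hgR hg₁ hg₂ hg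

end LevelM

end Fermat.Agent.S36lib

end
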