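import Mathlib
import Fermat.Agent.S36lib.Reg2Inst
import Fermat.Agent.S36lib.Reg1Final
import Fermat.Agent.S36lib.UnitQRed
import Fermat.Agent.S36lib.TransferNodes
import Fermat.Agent.S36lib.Apply2Final

/-!
# Item 83 (S36), the FINAL (R5) (helper29): the local rings of `s36Final` at the nodes are UFDs

`(R5)` of `A2Inputs` (helper20, `Apply2Main.lean`):
`∀ t, SF.IsNode t → ∀ _ : t.IsMaximal, UniqueFactorizationMonoid (Localization.AtPrime t)`
for `SF = s36Final …`, by the chain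
`trn_hufd_node` (W-5, helper22) ∘ `r2i_hufd` (W-4, helper9) ∘ `r1c_hreg1_inf_range` (W-3f,
helper15)
with `h = uqrHB`, `h' = uqrHB'`, `e = 12` (W-3d, helper24).

* `r5f_redZero_h`, `r5f_hne`, `r5f_hne'`: `p_0 ≰ p_∞`, `p_∞ ≰ p_0` at level `N` (`B_j`);
* `r5f_hufd_Mj`: UFD at the nodes of `nodeSetupMj`;
* `s36Final_r5`: **(R5)** for `s36Final`.
-/

set_option autoImplicit false
set_option linter.style.haveILetI false
set_option linter.unusedSectionVars false
set_option linter.unusedVariables false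
set_option synthInstance.maxHeartbeats 400000

noncomputable section

namespace Fermat.Agent.S36lib

open ModularCurve HahnSeries AlgebraicCurve
open Fermat.Agent.GoodRed Fermat.Agent.S24lib Fermat.Agent.S34lib Fermat.Agent.S37lib
  Fermat.Agent.HeckeBar Fermat.Agent.S35lib Fermat.Agent.GM Fermat.Agent.FFlib

variable (A : ValuationSubring Kbar) (M' q : ℕ) [NeZero M'] [NeZero q]
variable (hq : q.Prime) (hqM : ¬ q ∣ M') (hA : A.LiesOverPrime q)
variable (RN : ConstRed A (IsLocalRing.residue A)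
    (↥(modularFunctionFieldFullC (IsLocalRing.ResidueField A) M')) (FF (M' * q)))
  (hRN : IsSeriesRed RN)

/-- `red_0 h = 0` for `h = u⁻¹` (`w_q h = q¹² u`) -/
theorem r5f_redZero_h :
    (nodeSetupNj A M' q hq hqM hA RN hRN).redZero (uqrHB A M' q hq hqM hA RN hRN) = 0 := by
  have hqA : (q : Kbar) ∈ A := A.nonunits_le hA
  have hmem1 : algebraMap Kbar (FF (M' * q)) ((q : Kbar) ^ 12) ∈ RN.O :=
    uqr_const_mem A M' q hA RN 12
  have hmem2 : uqrU M' q ∈ RN.O := uqr_mem_O (dvd_mul_left q M') hRN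
  have hmem : alW1 M' hq hqM ((uqrH A M' q : f0Field A (M' * q)) : FF (M' * q)) ∈ RN.O := by
    rw [coe_uqrH, uqr_alW1_h]
    exact RN.O.mul_mem _ _ hmem1 hmem2
  have key : RN.red ⟨alW1 M' hq hqM ((uqrH A M' q : f0Field A (M' * q)) : FF (M' * q)), hmem⟩
      = 0 := by
    have e : (⟨alW1 M' hq hqM ((uqrH A M' q : f0Field A (M' * q)) : FF (M' * q)), hmem⟩ : RN.O)
        = ⟨algebraMap Kbar (FF (M' * q)) ((q : Kbar) ^ 12), hmem1⟩ * ⟨uqrU M' q, hmem2⟩ :=
      Subtype.ext (by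
        show alW1 M' hq hqM ((uqrH A M' q : f0Field A (M' * q)) : FF (M' * q)) =
          algebraMap Kbar (FF (M' * q)) ((q : Kbar) ^ 12) * uqrU M' q
        rw [coe_uqrH]; exact uqr_alW1_h M' q hq hqM)
    rw [e, map_mul]
    have h0 : RN.red ⟨algebraMap Kbar (FF (M' * q)) ((q : Kbar) ^ 12), hmem1⟩ = 0 := by
      have h1 := RN.red_algebraMap ⟨(q : Kbar) ^ 12, A.pow_mem hqA 12⟩
      have h2 : IsLocalRing.residue A ⟨(q : Kbar) ^ 12, A.pow_mem hqA 12⟩ = 0 := by
        have e2 : (⟨(q : Kbar) ^ 12, A.pow_mem hqA 12⟩ : A) = (⟨(q : Kbar), hqA⟩ : A) ^ 12 := rfl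
        rw [e2, map_pow]
        have h3 : IsLocalRing.residue A ⟨(q : Kbar), hqA⟩ = 0 := by
          rw [IsLocalRing.residue_eq_zero_iff]
          exact (ValuationSubring.coe_mem_nonunits_iff (A := A)).mp hA
        rw [h3, zero_pow (by norm_num)]
      rw [h2, map_zero] at h1
      exact h1
    rw [h0, zero_mul]
  apply Subtype.ext
  exact congrArg Subtype.val key

/-- `p_0 ≰ p_∞` at the level `N` -/
theorem r5f_hne :
    ¬ (nodeSetupNj A M' q hq hqM hA RN hRN).pZero ≤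
      (nodeSetupNj A M' q hq hqM hA RN hRN).pInf := by
  intro hle
  have h1 : uqrHB A M' q hq hqM hA RN hRN ∈ (nodeSetupNj A M' q hq hqM hA RN hRN).pZero :=
    r5f_redZero_h A M' q hq hqM hA RN hRN
  have h2 : (nodeSetupNj A M' q hq hqM hA RN hRN).redInf (uqrHB A M' q hq hqM hA RN hRN) = 0 :=
    hle h1
  have h3 := uqr_redInf_h A M' q hq hqM hA RN hRN
  rw [h2] at h3
  exact inv_ne_zero (uqr_ueuU_ne_zero (IsLocalRing.ResidueField A) q) h3.symm

/-- `p_∞ ≰ p_0` at the level `N` -/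
theorem r5f_hne' :
    ¬ (nodeSetupNj A M' q hq hqM hA RN hRN).pInf ≤ (nodeSetupNj A M' q hq hqM hA RN hRN).pZero := by
  intro hle
  have hqA : (q : Kbar) ∈ A := A.nonunits_le hA
  -- `h' = q¹² u ∈ p_∞`
  have hmem1 : algebraMap Kbar (FF (M' * q)) ((q : Kbar) ^ 12) ∈ RN.O :=
    uqr_const_mem A M' q hA RN 12
  have hmem2 : uqrU M' q ∈ RN.O := uqr_mem_O (dvd_mul_left q M') hRN
  have hmem : ((uqrH' A M' q : f0Field A (M' * q)) : FF (M' * q)) ∈ RN.O := by
    rw [coe_uqrH']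
    exact RN.O.mul_mem _ _ hmem1 hmem2
  have key : RN.red ⟨((uqrH' A M' q : f0Field A (M' * q)) : FF (M' * q)), hmem⟩ = 0 := by
    have e : (⟨((uqrH' A M' q : f0Field A (M' * q)) : FF (M' * q)), hmem⟩ : RN.O)
        = ⟨algebraMap Kbar (FF (M' * q)) ((q : Kbar) ^ 12), hmem1⟩ * ⟨uqrU M' q, hmem2⟩ :=
      Subtype.ext (coe_uqrH' A M' q)
    rw [e, map_mul]
    have h0 : RN.red ⟨algebraMap Kbar (FF (M' * q)) ((q : Kbar) ^ 12), hmem1⟩ = 0 := by
      have h1 := RN.red_algebraMap ⟨(q : Kbar) ^ 12, A.pow_mem hqA 12⟩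
      have h2 : IsLocalRing.residue A ⟨(q : Kbar) ^ 12, A.pow_mem hqA 12⟩ = 0 := by
        have e2 : (⟨(q : Kbar) ^ 12, A.pow_mem hqA 12⟩ : A) = (⟨(q : Kbar), hqA⟩ : A) ^ 12 := rfl
        rw [e2, map_pow]
        have h3 : IsLocalRing.residue A ⟨(q : Kbar), hqA⟩ = 0 := by
          rw [IsLocalRing.residue_eq_zero_iff]
          exact (ValuationSubring.coe_mem_nonunits_iff (A := A)).mp hA
        rw [h3, zero_pow (by norm_num)]
      rw [h2, map_zero] at h1
      exact h1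
    rw [h0, zero_mul]
  have h1 : uqrHB' A M' q hq hqM hA RN hRN ∈ (nodeSetupNj A M' q hq hqM hA RN hRN).pInf := by
    show (nodeSetupNj A M' q hq hqM hA RN hRN).redInf (uqrHB' A M' q hq hqM hA RN hRN) = 0
    apply Subtype.ext
    exact congrArg Subtype.val key
  have h2 : (nodeSetupNj A M' q hq hqM hA RN hRN).redZero (uqrHB' A M' q hq hqM hA RN hRN) = 0 := hle h1
  have h3 := uqr_redZero_h' A M' q hq hqM hA RN hRN
  rw [h2] at h3
  exact inv_ne_zero (uqr_ueuU_ne_zero (IsLocalRing.ResidueField A) q) h3.symm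

variable (R : ConstRed A (IsLocalRing.residue A)
    (↥(modularFunctionFieldFullC (IsLocalRing.ResidueField A) M')) (FF (M' * q * q)))
  (hR : IsSeriesRed R)
variable {ζ : Kbarˣ} {E : FF (M' * q * q) →+* LaurentSeries Kbar}
variable (hζq : ζ ^ q = 1) (hζ : IsPrimitiveRoot (ζ : Kbar) q) (hE : IsMidExp M' q ζ E)

/-- **W-4 with REG1 plugged in**: the local rings of `B_j(M' q²)` at the nodes are UFDs.
Open inputs: W-2j (`IsNoetherianRing`, `IsIntegrallyClosed`, `hintα`), W-3a (RANGE at level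
`N`: `hiInf … hoZero`, Dedekind + `hcl`), `hdiv` at level `M` (W-3d). -/
theorem r5f_hufd_Mj (haux : IsAuxLevel q M')
    [IsNoetherianRing (nodeSetupMj A M' q hq hqM hA R hR
      (vmidSV A hq ((A.mem_nonunits_iff).mp hA) hζq hE) (vmid_hinto A hq hqM hA hζq hζ hE)
      (vmid_honto A hq hA hζq hE)).B]
    [IsIntegrallyClosed (nodeSetupMj A M' q hq hqM hA R hR
      (vmidSV A hq ((A.mem_nonunits_iff).mp hA) hζq hE) (vmid_hinto A hq hqM hA hζq hζ hE)
      (vmid_honto A hq hA hζq hE)).B]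
    [IsIntegrallyClosed (nodeSetupNj A M' q hq hqM hA RN hRN).B]
    (hintα : (r2iAlpha A M' q hq hqM hA RN hRN R hR hζq hE (vmid_hinto A hq hqM hA hζq hζ hE)
      (vmid_honto A hq hA hζq hE)).toB.IsIntegral)
    (hiInf : ∀ z : (nodeSetupNj A M' q hq hqM hA RN hRN).B, (nodeSetupNj A M' q hq hqM hA RN hRN).redInf z ∈ fsS (IsLocalRing.ResidueField A) (jk (IsLocalRing.ResidueField A) M'))
    (hiZero : ∀ z : (nodeSetupNj A M' q hq hqM hA RN hRN).B, (nodeSetupNj A M' q hq hqM hA RN hRN).redZero z ∈ fsS (IsLocalRing.ResidueField A) (jk (IsLocalRing.ResidueField A) M'))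
    (hoInf : ∀ c ∈ fsS (IsLocalRing.ResidueField A) (jk (IsLocalRing.ResidueField A) M'), ∃ z : (nodeSetupNj A M' q hq hqM hA RN hRN).B, (nodeSetupNj A M' q hq hqM hA RN hRN).redInf z = c)
    (hoZero : ∀ c ∈ fsS (IsLocalRing.ResidueField A) (jk (IsLocalRing.ResidueField A) M'), ∃ z : (nodeSetupNj A M' q hq hqM hA RN hRN).B, (nodeSetupNj A M' q hq hqM hA RN hRN).redZero z = c)
    [IsDedekindDomain (nodeSetupNj A M' q hq hqM hA RN hRN).redInf.range]
    (hcl : ∀ c : ↥(modularFunctionFieldFullC (IsLocalRing.ResidueField A) M'),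
      IsIntegral (nodeSetupNj A M' q hq hqM hA RN hRN).redInf.range c → c ∈ (nodeSetupNj A M' q hq hqM hA RN hRN).redInf.range)
    (hdiv : (nodeSetupMj A M' q hq hqM hA R hR
      (vmidSV A hq ((A.mem_nonunits_iff).mp hA) hζq hE) (vmid_hinto A hq hqM hA hζq hζ hE)
      (vmid_honto A hq hA hζq hE)).pInf ^ 12 ≤
      Ideal.span {(r2iBeta A M' q hq hqM hA RN hRN R hR hζq hE
        (vmid_hinto A hq hqM hA hζq hζ hE) (vmid_honto A hq hA hζq hE)).toB
          (uqrHB' A M' q hq hqM hA RN hRN)})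
    (t : Ideal (nodeSetupMj A M' q hq hqM hA R hR
      (vmidSV A hq ((A.mem_nonunits_iff).mp hA) hζq hE) (vmid_hinto A hq hqM hA hζq hζ hE)
      (vmid_honto A hq hA hζq hE)).B) [t.IsMaximal] (ht : (nodeSetupMj A M' q hq hqM hA R hR
      (vmidSV A hq ((A.mem_nonunits_iff).mp hA) hζq hE) (vmid_hinto A hq hqM hA hζq hζ hE)
      (vmid_honto A hq hA hζq hE)).IsNode t) :
    UniqueFactorizationMonoid (Localization.AtPrime t) :=
  r2i_hufd A M' q hq hqM hA RN hRN R hR hζq hE (vmid_hinto A hq hqM hA hζq hζ hE)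
    (vmid_honto A hq hA hζq hE) hintα hcl (r5f_hne A M' q hq hqM hA RN hRN) 12 (by norm_num)
    (uqrHB' A M' q hq hqM hA RN hRN) (uqrHB'_ne_zero A M' q hq hqM hA RN hRN)
    (r1c_hreg1_inf_range A M' q hq hqM hA RN hRN haux hiInf hiZero hoInf hoZero)
    hdiv t ht

/-- **(R5) for `s36Final`**: the local rings of `B_{D1}` at the nodes are UFDs.
Open inputs: W-2j, W-3a, `hdiv` at level `M` (as in `r5f_hufd_Mj`) and `hnc` (the nodes are not
cuspidal: `trn_node_not_cuspidal`). -/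
theorem s36Final_r5 (haux : IsAuxLevel q M')
    [IsNoetherianRing (nodeSetupMj A M' q hq hqM hA R hR
      (vmidSV A hq ((A.mem_nonunits_iff).mp hA) hζq hE) (vmid_hinto A hq hqM hA hζq hζ hE)
      (vmid_honto A hq hA hζq hE)).B]
    [IsIntegrallyClosed (nodeSetupMj A M' q hq hqM hA R hR
      (vmidSV A hq ((A.mem_nonunits_iff).mp hA) hζq hE) (vmid_hinto A hq hqM hA hζq hζ hE)
      (vmid_honto A hq hA hζq hE)).B]
    [IsIntegrallyClosed (nodeSetupNj A M' q hq hqM hA RN hRN).B]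
    (hintα : (r2iAlpha A M' q hq hqM hA RN hRN R hR hζq hE (vmid_hinto A hq hqM hA hζq hζ hE)
      (vmid_honto A hq hA hζq hE)).toB.IsIntegral)
    (hiInf : ∀ z : (nodeSetupNj A M' q hq hqM hA RN hRN).B, (nodeSetupNj A M' q hq hqM hA RN hRN).redInf z ∈ fsS (IsLocalRing.ResidueField A) (jk (IsLocalRing.ResidueField A) M'))
    (hiZero : ∀ z : (nodeSetupNj A M' q hq hqM hA RN hRN).B, (nodeSetupNj A M' q hq hqM hA RN hRN).redZero z ∈ fsS (IsLocalRing.ResidueField A) (jk (IsLocalRing.ResidueField A) M'))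
    (hoInf : ∀ c ∈ fsS (IsLocalRing.ResidueField A) (jk (IsLocalRing.ResidueField A) M'), ∃ z : (nodeSetupNj A M' q hq hqM hA RN hRN).B, (nodeSetupNj A M' q hq hqM hA RN hRN).redInf z = c)
    (hoZero : ∀ c ∈ fsS (IsLocalRing.ResidueField A) (jk (IsLocalRing.ResidueField A) M'), ∃ z : (nodeSetupNj A M' q hq hqM hA RN hRN).B, (nodeSetupNj A M' q hq hqM hA RN hRN).redZero z = c)
    [IsDedekindDomain (nodeSetupNj A M' q hq hqM hA RN hRN).redInf.range]
    (hcl : ∀ c : ↥(modularFunctionFieldFullC (IsLocalRing.ResidueField A) M'),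
      IsIntegral (nodeSetupNj A M' q hq hqM hA RN hRN).redInf.range c → c ∈ (nodeSetupNj A M' q hq hqM hA RN hRN).redInf.range)
    (hdiv : (nodeSetupMj A M' q hq hqM hA R hR
      (vmidSV A hq ((A.mem_nonunits_iff).mp hA) hζq hE) (vmid_hinto A hq hqM hA hζq hζ hE)
      (vmid_honto A hq hA hζq hE)).pInf ^ 12 ≤
      Ideal.span {(r2iBeta A M' q hq hqM hA RN hRN R hR hζq hE
        (vmid_hinto A hq hqM hA hζq hζ hE) (vmid_honto A hq hA hζq hE)).toB
          (uqrHB' A M' q hq hqM hA RN hRN)})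
    (hB : (s36Final A M' q hq hqM hA hζq hζ hE R hR).B ≤ (nodeSetupMj A M' q hq hqM hA R hR
      (vmidSV A hq ((A.mem_nonunits_iff).mp hA) hζq hE) (vmid_hinto A hq hqM hA hζq hζ hE)
      (vmid_honto A hq hA hζq hE)).B)
    (cond : Ideal (s36Final A M' q hq hqM hA hζq hζ hE R hR).B)
    (hcov : ∀ t ∈ cond, TrfCover (Subring.inclusion hB) t)
    (hnc : ∀ 𝔪 : Ideal (s36Final A M' q hq hqM hA hζq hζ hE R hR).B, (s36Final A M' q hq hqM hA hζq hζ hE R hR).IsNode 𝔪 → ¬ cond ≤ 𝔪) :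
    ∀ t : Ideal (s36Final A M' q hq hqM hA hζq hζ hE R hR).B, (s36Final A M' q hq hqM hA hζq hζ hE R hR).IsNode t → ∀ _ : t.IsMaximal,
      UniqueFactorizationMonoid (Localization.AtPrime t) := by
  intro t ht htmax
  exact trn_hufd_node (s36Final A M' q hq hqM hA hζq hζ hE R hR) (nodeSetupMj A M' q hq hqM hA R hR
      (vmidSV A hq ((A.mem_nonunits_iff).mp hA) hζq hE) (vmid_hinto A hq hqM hA hζq hζ hE)
      (vmid_honto A hq hA hζq hE)) hB rfl rfl cond hcov hnc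
    (fun 𝔪' _ hn => r5f_hufd_Mj A M' q hq hqM hA RN hRN R hR hζq hζ hE haux hintα hiInf hiZero
      hoInf hoZero hcl hdiv 𝔪' hn) t ht

end Fermat.Agent.S36lib
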