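/-
Item 83 (S36), piece R6-d, part 1 (helper10): THE TABLE for the three degeneracy maps
`π₁, π₂, π₃ : F_{M'} → F_{M'q²}` and the three valuations of level `M' q²`.

`R'` an `IsSeriesRed` constant reduction of level `M'`, `R` one of level `M' q²`, `O_mid = vmidO`
(helper18).  For `g ∈ R'.O`, written `g = a / b` with integral series `a, b` of `F_{M'}`,
`b` primitive (`pit_exists_rep`):

* `π_i g ∈ R.O` and `red_∞ (π₁ g) = red' g`, `red_∞ (π₂ g) = (red' g)(X^q)`,
  `red_∞ (π₃ g) = (red' g)(X^{q²})`;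
* `π_i g ∈ O_mid` and `red_mid (π₁ g) = red' g = red_mid (π₃ g)`, `red_mid (π₂ g) = (red' g)(X^q)`;
* `w_{q²} (π_i g) ∈ R.O`   (`w₂ π₁ = π₃`, `w₂ π₂ = π₂`, `w₂ π₃ = π₁`).
Declarations are prefixed `pit_`.  No sorry.
-/
import Mathlib
import Fermat.Agent.S36lib.VMidSV
import Fermat.Agent.S36lib.ZeroSide
import Fermat.Agent.S36lib.ExpCalc

set_option autoImplicit false
set_option linter.style.haveILetI false
set_option linter.unusedSectionVars false
set_option linter.unusedVariables false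
set_option synthInstance.maxHeartbeats 400000

noncomputable section

namespace Fermat.Agent.S36lib

open ModularCurve HahnSeries AlgebraicCurve
open Fermat.Agent.GoodRed Fermat.Agent.S24lib Fermat.Agent.S34lib Fermat.Agent.S37lib
  Fermat.Agent.HeckeBar Fermat.Agent.S35lib

section Subst

variable {K : Type*} [Field K]

/-- the substitution `X ↦ X^n` -/
def pitSubst (A : ValuationSubring K) (n : ℕ) [NeZero n] : SeriesSubst A where
  φ := qExpand K n
  φA := qExpand A n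
  φk := qExpand (IsLocalRing.ResidueField A) n
  comm_sub := fun y => Fermat.Agent.Kron.coeffMap_qExpand A.subtype n y
  comm_res := fun y => Fermat.Agent.Kron.coeffMap_qExpand (IsLocalRing.residue A) n y
  map_C := fun c => qExpand_C n c

end Subst

variable (A : ValuationSubring Kbar) (M' q : ℕ) [NeZero M'] [NeZero q]

section Rep

variable {A M' q}
variable {g : FF M'} {a b : LaurentSeries A}

theorem pit_coe_pi1 (g : FF M') :
    ((ecPi1 M' q g : FF (M' * q * q)) : LaurentSeries Kbar) = (g : LaurentSeries Kbar) :=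
  ecInf_pi1 M' q g

theorem pit_coe_pi2 (g : FF M') :
    ((ecPi2 M' q g : FF (M' * q * q)) : LaurentSeries Kbar)
      = qExpand Kbar q (g : LaurentSeries Kbar) :=
  ecInf_pi2 M' q g

theorem pit_coe_pi3 (g : FF M') :
    ((ecPi3 M' q g : FF (M' * q * q)) : LaurentSeries Kbar)
      = qExpand Kbar q (qExpand Kbar q (g : LaurentSeries Kbar)) :=
  ecInf_pi3 M' q g

/-- `π₁ g = a / b` -/
theorem pit_isRep_pi1
    (h : IsRep A (modularFunctionFieldBar M') (g : LaurentSeries Kbar) a b) :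
    IsRep A (modularFunctionFieldBar (M' * q * q))
      ((ecPi1 M' q g : FF (M' * q * q)) : LaurentSeries Kbar) a b := by
  have hF : ∀ x ∈ modularFunctionFieldBar M',
      (SeriesSubst.id A).φ x ∈ modularFunctionFieldBar (M' * q * q) := by
    intro x hx
    have h1 := (ecPi1 M' q (⟨x, hx⟩ : FF M')).2
    rw [pit_coe_pi1] at h1
    exact h1
  have h2 := vmid_isRep_map (SeriesSubst.id A) hF h
  rw [pit_coe_pi1]
  exact h2

/-- `π₂ g = a(X^q) / b(X^q)` -/
theorem pit_isRep_pi2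
    (h : IsRep A (modularFunctionFieldBar M') (g : LaurentSeries Kbar) a b) :
    IsRep A (modularFunctionFieldBar (M' * q * q))
      ((ecPi2 M' q g : FF (M' * q * q)) : LaurentSeries Kbar)
      (qExpand A q a) (qExpand A q b) := by
  have hF : ∀ x ∈ modularFunctionFieldBar M',
      (pitSubst A q).φ x ∈ modularFunctionFieldBar (M' * q * q) := by
    intro x hx
    have h1 := (ecPi2 M' q (⟨x, hx⟩ : FF M')).2
    rw [pit_coe_pi2] at h1
    exact h1
  have h2 := vmid_isRep_map (pitSubst A q) hF h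
  rw [pit_coe_pi2]
  exact h2

/-- `π₃ g = a(X^{q²}) / b(X^{q²})` -/
theorem pit_isRep_pi3
    (h : IsRep A (modularFunctionFieldBar M') (g : LaurentSeries Kbar) a b) :
    IsRep A (modularFunctionFieldBar (M' * q * q))
      ((ecPi3 M' q g : FF (M' * q * q)) : LaurentSeries Kbar)
      (qExpand A q (qExpand A q a)) (qExpand A q (qExpand A q b)) := by
  have hF : ∀ x ∈ modularFunctionFieldBar M',
      (pitSubst A q).φ ((pitSubst A q).φ x) ∈ modularFunctionFieldBar (M' * q * q) := by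
    intro x hx
    have h1 := (ecPi3 M' q (⟨x, hx⟩ : FF M')).2
    rw [pit_coe_pi3] at h1
    exact h1
  obtain ⟨ha, hb, hpb, hab⟩ := h
  refine ⟨?_, ?_, ?_, ?_⟩
  · rw [Fermat.Agent.Kron.coeffMap_qExpand, Fermat.Agent.Kron.coeffMap_qExpand]
    exact hF _ ha
  · rw [Fermat.Agent.Kron.coeffMap_qExpand, Fermat.Agent.Kron.coeffMap_qExpand]
    exact hF _ hb
  · rw [Fermat.Agent.Kron.coeffMap_qExpand, Fermat.Agent.Kron.coeffMap_qExpand]
    exact (map_ne_zero_iff _ (qExpand_injective q)).mpr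
      ((map_ne_zero_iff _ (qExpand_injective q)).mpr hpb)
  · rw [pit_coe_pi3, Fermat.Agent.Kron.coeffMap_qExpand, Fermat.Agent.Kron.coeffMap_qExpand,
      Fermat.Agent.Kron.coeffMap_qExpand, Fermat.Agent.Kron.coeffMap_qExpand, ← map_mul,
      ← map_mul, hab]

end Rep

section Inf

variable {A M' q}
variable {Fk' Fk : IntermediateField (IsLocalRing.ResidueField A)
  (LaurentSeries (IsLocalRing.ResidueField A))}
variable {R' : ConstRed A (IsLocalRing.residue A) (↥Fk') (FF M')}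
variable {R : ConstRed A (IsLocalRing.residue A) (↥Fk) (FF (M' * q * q))}

/-- an element of `R'.O` is a fraction of integral series with primitive denominator, and its
reduction is the fraction of the reductions -/
theorem pit_exists_rep (hq : q.Prime) (hlt : A.valuation (q : Kbar) < 1) (hR' : IsSeriesRed R')
    (g : FF M') (hg : g ∈ R'.O) :
    ∃ a b : LaurentSeries A,
      IsRep A (modularFunctionFieldBar M') (g : LaurentSeries Kbar) a b ∧
      ((R'.red ⟨g, hg⟩ : ↥Fk') : LaurentSeries (IsLocalRing.ResidueField A))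
        = coeffMap (IsLocalRing.residue A) a / coeffMap (IsLocalRing.residue A) b := by
  obtain ⟨a, b, h⟩ := hR'.exists_isRep (vmid_hasPrimFrac_bar A M' hq hlt) hg
  exact ⟨a, b, h, hR'.red_of_isRep h hg⟩

variable (hq : q.Prime) (hlt : A.valuation (q : Kbar) < 1)
  (hR' : IsSeriesRed R') (hR : IsSeriesRed R)

include hq hlt hR' hR in
/-- **`π₁` at `∞`** -/
theorem pit_pi1_inf (g : FF M') (hg : g ∈ R'.O) :
    ∃ hx : ecPi1 M' q g ∈ R.O,
      ((R.red ⟨ecPi1 M' q g, hx⟩ : ↥Fk) : LaurentSeries (IsLocalRing.ResidueField A))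
        = ((R'.red ⟨g, hg⟩ : ↥Fk') : LaurentSeries (IsLocalRing.ResidueField A)) := by
  obtain ⟨a, b, h, hred⟩ := pit_exists_rep hq hlt hR' g hg
  have h1 := pit_isRep_pi1 (q := q) h
  exact ⟨hR.mem_of_isRep h1, by rw [hR.red_of_isRep h1, hred]⟩

include hq hlt hR' hR in
/-- **`π₂` at `∞`** -/
theorem pit_pi2_inf (g : FF M') (hg : g ∈ R'.O) :
    ∃ hx : ecPi2 M' q g ∈ R.O,
      ((R.red ⟨ecPi2 M' q g, hx⟩ : ↥Fk) : LaurentSeries (IsLocalRing.ResidueField A))
        = qExpand (IsLocalRing.ResidueField A) q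
          ((R'.red ⟨g, hg⟩ : ↥Fk') : LaurentSeries (IsLocalRing.ResidueField A)) := by
  obtain ⟨a, b, h, hred⟩ := pit_exists_rep hq hlt hR' g hg
  have h1 := pit_isRep_pi2 (q := q) h
  refine ⟨hR.mem_of_isRep h1, ?_⟩
  rw [hR.red_of_isRep h1, hred, Fermat.Agent.Kron.coeffMap_qExpand,
    Fermat.Agent.Kron.coeffMap_qExpand, map_div₀]

include hq hlt hR' hR in
/-- **`π₃` at `∞`** -/
theorem pit_pi3_inf (g : FF M') (hg : g ∈ R'.O) :
    ∃ hx : ecPi3 M' q g ∈ R.O,
      ((R.red ⟨ecPi3 M' q g, hx⟩ : ↥Fk) : LaurentSeries (IsLocalRing.ResidueField A))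
        = qExpand (IsLocalRing.ResidueField A) q (qExpand (IsLocalRing.ResidueField A) q
          ((R'.red ⟨g, hg⟩ : ↥Fk') : LaurentSeries (IsLocalRing.ResidueField A))) := by
  obtain ⟨a, b, h, hred⟩ := pit_exists_rep hq hlt hR' g hg
  have h1 := pit_isRep_pi3 (q := q) h
  refine ⟨hR.mem_of_isRep h1, ?_⟩
  rw [hR.red_of_isRep h1, hred, Fermat.Agent.Kron.coeffMap_qExpand,
    Fermat.Agent.Kron.coeffMap_qExpand, Fermat.Agent.Kron.coeffMap_qExpand,
    Fermat.Agent.Kron.coeffMap_qExpand, map_div₀, map_div₀]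

variable (hqM : ¬ q ∣ M')

include hq hlt hR' hR hqM in
/-- **the three maps at `0`**: `w_{q²} (π_i g) ∈ R.O` -/
theorem pit_pi_zero (g : FF M') (hg : g ∈ R'.O) :
    alW2 M' hq hqM (ecPi1 M' q g) ∈ R.O ∧ alW2 M' hq hqM (ecPi2 M' q g) ∈ R.O ∧
      alW2 M' hq hqM (ecPi3 M' q g) ∈ R.O := by
  haveI : NeZero (M' * q) := ⟨Nat.mul_ne_zero (NeZero.ne M') (NeZero.ne q)⟩
  haveI : NeZero (M' * q * q) := ⟨Nat.mul_ne_zero (NeZero.ne (M' * q)) (NeZero.ne q)⟩
  obtain ⟨h1, -⟩ := pit_pi1_inf hq hlt hR' hR g hg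
  obtain ⟨h2, -⟩ := pit_pi2_inf hq hlt hR' hR g hg
  obtain ⟨h3, -⟩ := pit_pi3_inf hq hlt hR' hR g hg
  refine ⟨?_, ?_, ?_⟩
  · rw [ecPi1_apply, alW2_pi1, ← ecPi3_apply]
    exact h3
  · rw [ecPi2_apply, alW2_pi2, ← ecPi2_apply]
    exact h2
  · rw [ecPi3_apply, alW2_pi3, ← ecPi1_apply]
    exact h1

end Inf

section Mid

variable {A M' q}
variable {ζ : Kbarˣ} {E : FF (M' * q * q) →+* LaurentSeries Kbar}
variable {Fk' : IntermediateField (IsLocalRing.ResidueField A)
  (LaurentSeries (IsLocalRing.ResidueField A))}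
variable {R' : ConstRed A (IsLocalRing.residue A) (↥Fk') (FF M')}
variable (hq : q.Prime) (hlt : A.valuation (q : Kbar) < 1) (hζ : ζ ^ q = 1)
  (hE : IsMidExp M' q ζ E) (hR' : IsSeriesRed R')

include hR' in
/-- **`π₁` at the middle valuation** -/
theorem pit_pi1_mid (g : FF M') (hg : g ∈ R'.O) :
    ∃ hx : ecPi1 M' q g ∈ vmidO A hq hlt hζ hE,
      vmidRed A hq hlt hζ hE ⟨ecPi1 M' q g, hx⟩
        = ((R'.red ⟨g, hg⟩ : ↥Fk') : LaurentSeries (IsLocalRing.ResidueField A)) := by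
  obtain ⟨a, b, h, hred⟩ := pit_exists_rep hq hlt hR' g hg
  obtain ⟨hx, hr⟩ := vmid_bridge A hq hlt hζ hE (ecPi1 M' q g) a b h.2.2.1 (by
    rw [ecPi1_apply, hE.alpha, coe_heckeAlphaBar]
    exact h.2.2.2)
  exact ⟨hx, by rw [hr, hred]⟩

include hR' in
/-- **`π₂` at the middle valuation** -/
theorem pit_pi2_mid (g : FF M') (hg : g ∈ R'.O) :
    ∃ hx : ecPi2 M' q g ∈ vmidO A hq hlt hζ hE,
      vmidRed A hq hlt hζ hE ⟨ecPi2 M' q g, hx⟩
        = qExpand (IsLocalRing.ResidueField A) q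
          ((R'.red ⟨g, hg⟩ : ↥Fk') : LaurentSeries (IsLocalRing.ResidueField A)) := by
  obtain ⟨a, b, h, hred⟩ := pit_exists_rep hq hlt hR' g hg
  obtain ⟨hx, hr⟩ := vmid_bridge A hq hlt hζ hE (ecPi2 M' q g) (qExpand A q a) (qExpand A q b)
    (by
      rw [Fermat.Agent.Kron.coeffMap_qExpand]
      exact (map_ne_zero_iff _ (qExpand_injective q)).mpr h.2.2.1)
    (by
      rw [ecPi2_apply, hE.alpha, coe_heckeBetaBar, Fermat.Agent.Kron.coeffMap_qExpand,
        Fermat.Agent.Kron.coeffMap_qExpand, ← map_mul, h.2.2.2])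
  refine ⟨hx, ?_⟩
  rw [hr, hred, Fermat.Agent.Kron.coeffMap_qExpand, Fermat.Agent.Kron.coeffMap_qExpand,
    map_div₀]

include hR' in
/-- **`π₃` at the middle valuation** -/
theorem pit_pi3_mid (g : FF M') (hg : g ∈ R'.O) :
    ∃ hx : ecPi3 M' q g ∈ vmidO A hq hlt hζ hE,
      vmidRed A hq hlt hζ hE ⟨ecPi3 M' q g, hx⟩
        = ((R'.red ⟨g, hg⟩ : ↥Fk') : LaurentSeries (IsLocalRing.ResidueField A)) := by
  obtain ⟨a, b, h, hred⟩ := pit_exists_rep hq hlt hR' g hg
  have hx : ecPi3 M' q g ∈ vmidO A hq hlt hζ hE :=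
    (vmid_beta_mem_iff A hq hlt hζ hE g).mpr ⟨a, b, h⟩
  exact ⟨hx, by rw [hred]; exact vmidRed_beta A hq hlt hζ hE g hx h⟩

end Mid

end Fermat.Agent.S36lib

end
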