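import Mathlib
import Fermat.Agent.S36lib.D1NoethM
import Fermat.Agent.S36lib.Apply2Final
import Fermat.Agent.S36lib.PiTable
import Fermat.Agent.S36lib.InvertSetup
import Fermat.Agent.S36lib.SumFinal
import Fermat.Agent.S34lib.LiftInf

/-!
# Item 83 (S36), piece D1-A = W-2 (helper28): Noetherian + `hfrac` for THE FINAL SETUP

`SF = s36Final A M' q hq hqM hA hζq hζ hE R hR` (helper20's `Apply2Final.lean`), `B = SF.B = B_{D1}`.

* `d1a_s36Final`: `IsNoetherianRing SF.B ∧ hfrac`, from the auxiliary level `M'`, a series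
  reduction `R'` of level `M'` and (P4) (vertical integrality along `π₁`); the tables `hT_i` are
  helper10's `pit_pi1_inf`, `pit_pi1_mid`, `pit_pi_zero`;
* **`d1a_s36Final_main`**: the same UNCONDITIONALLY (only `IsAuxLevel q M'`): (P4) is helper2's
  `sumi_isIntegral`, `R'` comes from `liftInf_exists_red`;
* `d1a_isIntegrallyClosed`: `f0AffD A L D O₁ O₂ O₃` is an integrally closed domain as soon as
  `F0(L)` is its fraction field (`hfrac`);
* `d1a_s36Final_closed`: `IsIntegrallyClosed SF.B`.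
-/

set_option autoImplicit false
set_option linter.style.haveILetI false
set_option linter.unusedSectionVars false
set_option linter.unusedVariables false
set_option synthInstance.maxHeartbeats 400000

noncomputable section

namespace Fermat.Agent.S36lib

open AlgebraicCurve ModularCurve IntermediateField HahnSeries Polynomial
open Fermat.Agent.S24lib Fermat.Agent.GoodRed Fermat.Agent.GM Fermat.Agent.S34lib
  Fermat.Agent.RRlib Fermat.Agent.HeckeBar Fermat.Agent.S35lib Fermat.Agent.S37lib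

set_option maxHeartbeats 1600000 in
/-- `f0AffD` is integrally closed (as a ring) if `F0(L)` is its fraction field -/
theorem d1a_isIntegrallyClosed (A : ValuationSubring Kbar) (L : ℕ) [NeZero L]
    (D : Set (Place Kbar (FF L))) (O₁ O₂ O₃ : ValuationSubring (FF L))
    (hfrac : ∀ z : f0Field A L, ∃ a b : f0AffD A L D O₁ O₂ O₃,
      b ≠ 0 ∧ z * (b : f0Field A L) = (a : f0Field A L)) :
    IsIntegrallyClosed (f0AffD A L D O₁ O₂ O₃) := by
  haveI : IsFractionRing (f0AffD A L D O₁ O₂ O₃) (f0Field A L) :=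
    s36_isFractionRing_of_hfrac _ hfrac
  refine (isIntegrallyClosed_iff (f0Field A L)).2 fun {x} hx => ?_
  exact ⟨⟨x, vnkd_f0AffD_closed A L D O₁ O₂ O₃ x hx⟩, rfl⟩

variable (A : ValuationSubring Kbar) (M' q : ℕ) [NeZero M'] [NeZero q]
variable (hq : q.Prime) (hqM : ¬ q ∣ M') (hA : A.LiesOverPrime q)
variable {ζ : Kbarˣ} {E : FF (M' * q * q) →+* LaurentSeries Kbar}
variable (hζq : ζ ^ q = 1) (hζ : IsPrimitiveRoot (ζ : Kbar) q) (hE : IsMidExp M' q ζ E)
variable (R : ConstRed A (IsLocalRing.residue A)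
      (↥(modularFunctionFieldFullC (IsLocalRing.ResidueField A) M')) (FF (M' * q * q)))
    (hR : IsSeriesRed R)

/-- **W-2 for the final setup**: `SF.B` is Noetherian and `F0(M' q²) = Frac SF.B`. -/
theorem d1a_s36Final (haux : IsAuxLevel q M')
    (R' : ConstRed A (IsLocalRing.residue A) (Fk (IsLocalRing.ResidueField A) M') (FF M'))
    (hR' : IsSeriesRed R')
    (hP4 : ∀ b : FF (M' * q * q), b ∈ f0Field A (M' * q * q) → b ∈ R.O →
      b ∈ vmidO A hq ((A.mem_nonunits_iff).mp hA) hζq hE → alW2 M' hq hqM b ∈ R.O →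
      ∃ p : Polynomial (FF M'), p.Monic ∧ (∀ n, p.coeff n ∈ R'.O) ∧
        Polynomial.eval₂ (ecPi1 M' q) b p = 0) :
    IsNoetherianRing (s36Final A M' q hq hqM hA hζq hζ hE R hR).B ∧
      ∀ z : f0Field A (M' * q * q),
        ∃ a b : (s36Final A M' q hq hqM hA hζq hζ hE R hR).B,
          b ≠ 0 ∧ z * (b : f0Field A (M' * q * q)) = (a : f0Field A (M' * q * q)) :=
  d1a_nodeSetupM A M' q hq hqM R' hA R hR (vmidSV A hq ((A.mem_nonunits_iff).mp hA) hζq hE)
    (vmid_hinto A hq hqM hA hζq hζ hE) (vmid_honto A hq hA hζq hE) haux hR'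
    (fun g _ hg => (pit_pi1_inf hq ((A.mem_nonunits_iff).mp hA) hR' hR g hg).1)
    (fun g _ hg => (pit_pi1_mid hq ((A.mem_nonunits_iff).mp hA) hζq hE hR' g hg).1)
    (fun g _ hg => (pit_pi_zero hq ((A.mem_nonunits_iff).mp hA) hR' hR hqM g hg).1)
    hP4

/-- **W-2, unconditional**: for an auxiliary level `M'` (`4 ∣ M'`, resp. `9 ∣ M'` if `q = 2`),
`SF.B` is Noetherian and `F0(M' q²) = Frac SF.B`. -/
theorem d1a_s36Final_main (haux : IsAuxLevel q M') :
    IsNoetherianRing (s36Final A M' q hq hqM hA hζq hζ hE R hR).B ∧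
      ∀ z : f0Field A (M' * q * q),
        ∃ a b : (s36Final A M' q hq hqM hA hζq hζ hE R hR).B,
          b ≠ 0 ∧ z * (b : f0Field A (M' * q * q)) = (a : f0Field A (M' * q * q)) := by
  haveI : Fact q.Prime := ⟨hq⟩
  obtain ⟨R', -, hR', -⟩ := liftInf_exists_red M' A q haux hA
  refine d1a_s36Final A M' q hq hqM hA hζq hζ hE R hR haux R' hR' ?_
  intro b hb h1 h2 h3
  obtain ⟨p, hp, hpc, hpb⟩ := sumi_isIntegral A M' q hq hqM hA R' R hR' hR
    ((A.mem_nonunits_iff).mp hA) hζq hζ hE (vmidSV A hq ((A.mem_nonunits_iff).mp hA) hζq hE) rfl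
    b hb h1 h2 h3
  exact ⟨p, hp, fun n => (hpc n).1, hpb⟩

/-- `SF.B` is integrally closed, for an auxiliary level. -/
theorem d1a_s36Final_closed_main (haux : IsAuxLevel q M') :
    IsIntegrallyClosed (s36Final A M' q hq hqM hA hζq hζ hE R hR).B :=
  d1a_isIntegrallyClosed A (M' * q * q) (s36D1 M' q hq hqM) _ _ _
    (d1a_s36Final_main A M' q hq hqM hA hζq hζ hE R hR haux).2

/-- `SF.B` is integrally closed, given `hfrac`. -/
theorem d1a_s36Final_closed
    (hfrac : ∀ z : f0Field A (M' * q * q),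
      ∃ a b : (s36Final A M' q hq hqM hA hζq hζ hE R hR).B,
        b ≠ 0 ∧ z * (b : f0Field A (M' * q * q)) = (a : f0Field A (M' * q * q))) :
    IsIntegrallyClosed (s36Final A M' q hq hqM hA hζq hζ hE R hR).B :=
  d1a_isIntegrallyClosed A (M' * q * q) (s36D1 M' q hq hqM) _ _ _ hfrac

end Fermat.Agent.S36lib

end
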