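/-
Item 83 (S36), block REG1 at the level `N = M' q`, pieces W-2j (level `N`) + W-3f (helper15):
everything for `SN = nodeSetupNj A M' q hq hqM hA R hR` (`B = B_j(N)`) from the ONE hypothesis
`RgnSum A M' q hq hqM R` (helper4, `RangeN.lean`: (SUM) at level `N`, the `hSUM` of `vnkd_main_j`).

* `r1c_noeth_frac`: `B_j(N)` is Noetherian with fraction field `F0(N)` (`vnkd_main_resVal`);
* `r1c_isIntegrallyClosed`: `B_j(N)` is integrally closed;
* `r1c_hreg1`: REG1 at the nodes of `B_j(N)`, both sides, `h = uqrHB`, `h' = uqrHB'`, `e = 12`;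
* `r1c_hreg1_inf`, `r1c_hreg1_zero`: the two sides in the shape of `hreg1` of `r2c_hufd_inf`.
-/
import Mathlib
import Fermat.Agent.S36lib.Reg1Final
import Fermat.Agent.S36lib.RangeN
import Fermat.Agent.S36lib.D1NoethF
import Fermat.Agent.S36lib.VNoethK0D

set_option autoImplicit false
set_option linter.style.haveILetI false
set_option linter.unusedSectionVars false
set_option synthInstance.maxHeartbeats 400000
set_option maxHeartbeats 1000000

noncomputable section

namespace Fermat.Agent.S36lib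

open Fermat.Agent.FFlib Fermat.Agent.S24lib Fermat.Agent.GM Fermat.Agent.GoodRed
  Fermat.Agent.S34lib Fermat.Agent.RRlib Fermat.Agent.S16lib
open AlgebraicCurve IsLocalRing IntermediateField IsDedekindDomain ModularCurve

section Done

variable (A : ValuationSubring Kbar) (M' q : ℕ) [NeZero M'] [NeZero q] (hq : q.Prime)
  (hqM : ¬ q ∣ M') (hA : A.LiesOverPrime q)
  (R : ConstRed A (IsLocalRing.residue A)
      (↥(modularFunctionFieldFullC (IsLocalRing.ResidueField A) M')) (FF (M' * q)))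
  (hR : IsSeriesRed R)

set_option maxHeartbeats 2000000 in
/-- **W-2j at the level `N`**: under (SUM), `B_j(N)` is Noetherian and `F0(N)` is its fraction
field. -/
theorem r1c_noeth_frac (hSUM : RgnSum A M' q hq hqM R) :
    IsNoetherianRing (nodeSetupNj A M' q hq hqM hA R hR).B ∧
      ∀ z : f0Field A (M' * q), ∃ a b : (nodeSetupNj A M' q hq hqM hA R hR).B,
        b ≠ 0 ∧ z * (b : f0Field A (M' * q)) = (a : f0Field A (M' * q)) := by
  haveI : IsDiscreteValuationRing (k0Val A) := k0Val_isDiscreteValuationRing A q hq hA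
  haveI := vdeg_finite A (M' * q)
  haveI : FiniteDimensional (k0Field A)⟮vnk_j A (M' * q)⟯ (f0Field A (M' * q)) :=
    ffFiniteDimensional_of_transcendental (x := vdegJ A (M' * q))
      (vnk_j_transcendental A (M' * q))
  obtain ⟨hj, hjr⟩ := rgn_red_jF A M' q R hR
  have hj3 : jF (M' * q) ∈ ((SeriesVal.ofConstRed R).comap (alW1 M' hq hqM)).O := by
    rw [SeriesVal.mem_comap_iff, rgn_alW1_jF]
    exact (vsi_red_jdF M' hR q _).1
  have hjbar : Transcendental (IsLocalRing.ResidueField A)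
      ((ResVal.ofConstRed R).red ⟨jF (M' * q), hj⟩) := by
    show Transcendental (IsLocalRing.ResidueField A) (R.red ⟨jF (M' * q), hj⟩)
    rw [hjr]
    exact reg1c_transcendental_jk (IsLocalRing.ResidueField A) M'
  exact vnkd_main_resVal A (M' * q) (ResVal.ofConstRed R) (SeriesVal.ofConstRed R).O
    ((SeriesVal.ofConstRed R).comap (alW1 M' hq hqM)).O
    (SeriesVal.ofConstRed R).algebraMap_mem
    ((SeriesVal.ofConstRed R).comap (alW1 M' hq hqM)).algebraMap_mem
    (vnk_j A (M' * q)) (cuspSet (M' * q)) (fun _ => Iff.rfl) hj hj hj3 hjbar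
    (fun z h1 _ h3 => hSUM z h1 h3)

/-- under (SUM), `B_j(N)` is integrally closed -/
theorem r1c_isIntegrallyClosed (hSUM : RgnSum A M' q hq hqM R) :
    IsIntegrallyClosed (nodeSetupNj A M' q hq hqM hA R hR).B :=
  d1a_isIntegrallyClosed A (M' * q) (cuspSet (M' * q)) _ _ _
    (r1c_noeth_frac A M' q hq hqM hA R hR hSUM).2

/-- **REG1 at the level `N = M' q`** (`B = B_j(N)`, `e = 12`, `h = u⁻¹`, `h' = q¹² u`), both
sides, under (SUM). -/
theorem r1c_hreg1 (haux : IsAuxLevel q M') (hSUM : RgnSum A M' q hq hqM R) :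
    (∀ s, (nodeSetupNj A M' q hq hqM hA R hR).IsNode s →
      ∃ y ε : (nodeSetupNj A M' q hq hqM hA R hR).B,
        y ∈ (nodeSetupNj A M' q hq hqM hA R hR).pZero ∧
          y ^ 12 = ε * uqrHB A M' q hq hqM hA R hR ∧ ε ∉ s ∧
          ∀ z ∈ (nodeSetupNj A M' q hq hqM hA R hR).pZero, y ∣ ε * z) ∧
    (∀ s, (nodeSetupNj A M' q hq hqM hA R hR).IsNode s →
      ∃ x ε : (nodeSetupNj A M' q hq hqM hA R hR).B,
        x ∈ (nodeSetupNj A M' q hq hqM hA R hR).pInf ∧
          x ^ 12 = ε * uqrHB' A M' q hq hqM hA R hR ∧ ε ∉ s ∧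
          ∀ z ∈ (nodeSetupNj A M' q hq hqM hA R hR).pInf, x ∣ ε * z) := by
  haveI : IsIntegrallyClosed (nodeSetupNj A M' q hq hqM hA R hR).B :=
    r1c_isIntegrallyClosed A M' q hq hqM hA R hR hSUM
  exact r1c_hreg1_range A M' q hq hqM hA R hR haux
    (rgn_hiInf A M' q hq hqM hA R hR hSUM) (rgn_hiZero A M' q hq hqM hA R hR hSUM)
    (rgn_hoInf A M' q hq hqM hA R hR haux) (rgn_hoZero A M' q hq hqM hA R hR haux)

/-- the side of `p_∞`, in the shape of `hreg1` of `r2c_hufd_inf` -/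
theorem r1c_hreg1_inf (haux : IsAuxLevel q M') (hSUM : RgnSum A M' q hq hqM R) :
    ∀ s : Ideal (nodeSetupNj A M' q hq hqM hA R hR).B,
      (nodeSetupNj A M' q hq hqM hA R hR).IsNode s →
      ∃ x ε : (nodeSetupNj A M' q hq hqM hA R hR).B,
        x ∈ (nodeSetupNj A M' q hq hqM hA R hR).pInf ∧
          x ^ 12 = ε * uqrHB' A M' q hq hqM hA R hR ∧ ε ∉ s := by
  intro s hs
  obtain ⟨x, ε, h1, h2, h3, -⟩ := (r1c_hreg1 A M' q hq hqM hA R hR haux hSUM).2 s hs
  exact ⟨x, ε, h1, h2, h3⟩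

/-- the side of `p_0`, in the shape of `hreg1_0` of `reg1_node` -/
theorem r1c_hreg1_zero (haux : IsAuxLevel q M') (hSUM : RgnSum A M' q hq hqM R) :
    ∀ s : Ideal (nodeSetupNj A M' q hq hqM hA R hR).B,
      (nodeSetupNj A M' q hq hqM hA R hR).IsNode s →
      ∃ y ε : (nodeSetupNj A M' q hq hqM hA R hR).B,
        y ∈ (nodeSetupNj A M' q hq hqM hA R hR).pZero ∧
          y ^ 12 = ε * uqrHB A M' q hq hqM hA R hR ∧ ε ∉ s := by
  intro s hs
  obtain ⟨y, ε, h1, h2, h3, -⟩ := (r1c_hreg1 A M' q hq hqM hA R hR haux hSUM).1 s hs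
  exact ⟨y, ε, h1, h2, h3⟩

end Done

end Fermat.Agent.S36lib

end
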