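import Mathlib
import Fermat.Prelude.Def_AlgebraicCurve_DivisorClassGroup
import Fermat.Agent.S24lib.FFBasic
import Fermat.Agent.S36lib.PointDict

/-!
# Item 83 (S36), the DICTIONARY, part 3 (helper22): places ↔ centres, uniqueness and orders

`R` a Dedekind domain with fraction field `κ`, `w` a nonzero prime of `R`.  A place `c` of
`κ / k` is CENTRED at `w` if `R ⊆ O_c` and `r ∈ w ↔ r ∈ 𝔪_c`.

* `pdict_atPrime_eq` : the valuation ring of a place centred at `w` is the localization `R_w`;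
* `pdict_unique_dedekind` : a prime is the centre of at most one place;
* `pdict_ord_le_dedekind` : `r ∉ w ^ (n + 1) ⇒ ord_c r ≤ n`.

For a reduction map `ρ : B → κ` with `B ⧸ ker ρ` a Dedekind domain with fraction field `κ` and
a maximal ideal `𝔪 ⊋ ker ρ` of `B`:

* `pdict_unique`, `pdict_unique_ord` : uniqueness of the place centred at `𝔪`;
* `pdict_ord_le_of_notMem` : `a ∉ 𝔪 ^ (n + 1) + ker ρ ⇒ ord_c (ρ a) ≤ n`; `pdict_ord_eq_one`;
* `pdictCentre`, `mem_pdictCentre`, `pdict_centre_isMaximal` : the centre of a place `c` with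
  `ρ (B) ⊆ O_c` at which some nonzero `ρ z` vanishes is a maximal ideal `⊋ ker ρ`.
-/

set_option autoImplicit false
set_option linter.style.haveILetI false
set_option linter.unusedSectionVars false

noncomputable section

namespace Fermat.Agent.S36lib

open AlgebraicCurve IsDedekindDomain Fermat.Agent.S24lib

section Dedekind

variable {k κ : Type*} [Field k] [Field κ] [Algebra k κ]
  {R : Type*} [CommRing R] [IsDedekindDomain R] [Algebra R κ] [IsFractionRing R κ]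

/-- an element of `R` outside the centre is a unit of `O_c` -/
theorem pdict_inv_mem (w : HeightOneSpectrum R) (c : Place k κ)
    (h2 : ∀ r : R, r ∈ w.asIdeal ↔ algebraMap R κ r ∈ c.toValuationSubring.nonunits)
    (s : R) (hs : s ∉ w.asIdeal) :
    algebraMap R κ s ≠ 0 ∧ (algebraMap R κ s)⁻¹ ∈ c.toValuationSubring := by
  have hdu : algebraMap R κ s ∉ c.toValuationSubring.nonunits := fun h => hs ((h2 s).2 h)
  refine ⟨?_, ?_⟩
  · intro h0
    apply hdu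
    rw [h0]
    exact c.toValuationSubring.nonunits.zero_mem
  · by_contra hcon
    exact hdu ((ValuationSubring.mem_nonunits_iff_or _).2 (Or.inr hcon))

/-- **the valuation ring of a place centred at `w`** is the localization of `R` at `w`. -/
theorem pdict_atPrime_eq (w : HeightOneSpectrum R) (c : Place k κ)
    (h1 : ∀ r : R, algebraMap R κ r ∈ c.toValuationSubring)
    (h2 : ∀ r : R, r ∈ w.asIdeal ↔ algebraMap R κ r ∈ c.toValuationSubring.nonunits) :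
    HeightOneSpectrum.valuationSubringAtPrime κ w = c.toValuationSubring := by
  have hle' : HeightOneSpectrum.valuationSubringAtPrime κ w ≤ c.toValuationSubring := by
    rintro x ⟨a, s, hs, rfl⟩
    exact mul_mem (h1 a) (pdict_inv_mem w c h2 s hs).2
  exact ValuationSubring.eq_of_le_of_ne_top _ hle' c.ne_top'

/-- membership in the localization -/
theorem pdict_exists_of_mem (w : HeightOneSpectrum R) (c : Place k κ)
    (h1 : ∀ r : R, algebraMap R κ r ∈ c.toValuationSubring)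
    (h2 : ∀ r : R, r ∈ w.asIdeal ↔ algebraMap R κ r ∈ c.toValuationSubring.nonunits)
    (x : κ) (hx : x ∈ c.toValuationSubring) :
    ∃ a s : R, s ∉ w.asIdeal ∧ x * algebraMap R κ s = algebraMap R κ a := by
  rw [← pdict_atPrime_eq w c h1 h2] at hx
  obtain ⟨a, s, hs, rfl⟩ := hx
  refine ⟨a, s, hs, ?_⟩
  have hs0 := (pdict_inv_mem w c h2 s hs).1
  field_simp

/-- **uniqueness of the place with a given centre** -/
theorem pdict_unique_dedekind (w : HeightOneSpectrum R) (c c' : Place k κ)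
    (h1 : ∀ r : R, algebraMap R κ r ∈ c.toValuationSubring)
    (h2 : ∀ r : R, r ∈ w.asIdeal ↔ algebraMap R κ r ∈ c.toValuationSubring.nonunits)
    (h1' : ∀ r : R, algebraMap R κ r ∈ c'.toValuationSubring)
    (h2' : ∀ r : R, r ∈ w.asIdeal ↔ algebraMap R κ r ∈ c'.toValuationSubring.nonunits) :
    c = c' := by
  apply Place.ext
  rw [← pdict_atPrime_eq w c h1 h2, ← pdict_atPrime_eq w c' h1' h2']

/-- the order at `c` of an element of `R` outside the centre is `0` -/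
theorem pdict_ord_eq_zero (w : HeightOneSpectrum R) (c : Place k κ)
    (h1 : ∀ r : R, algebraMap R κ r ∈ c.toValuationSubring)
    (h2 : ∀ r : R, r ∈ w.asIdeal ↔ algebraMap R κ r ∈ c.toValuationSubring.nonunits)
    (s : R) (hs : s ∉ w.asIdeal) : c.ord (algebraMap R κ s) = 0 := by
  obtain ⟨-, hinv⟩ := pdict_inv_mem w c h2 s hs
  have h3 : 0 ≤ c.ord (algebraMap R κ s) := (ffMem_iff_ord_nonneg c).1 (h1 s)
  have h4 : 0 ≤ c.ord (algebraMap R κ s)⁻¹ := (ffMem_iff_ord_nonneg c).1 hinv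
  rw [c.ord_inv] at h4
  omega

/-- **orders from the powers of the centre**: `r ∉ w ^ (n + 1) ⇒ ord_c r ≤ n`. -/
theorem pdict_ord_le_dedekind (w : HeightOneSpectrum R) (c : Place k κ)
    (h1 : ∀ r : R, algebraMap R κ r ∈ c.toValuationSubring)
    (h2 : ∀ r : R, r ∈ w.asIdeal ↔ algebraMap R κ r ∈ c.toValuationSubring.nonunits)
    (n : ℕ) (r : R) (hr : r ∉ w.asIdeal ^ (n + 1)) : c.ord (algebraMap R κ r) ≤ n := by
  by_contra hcon
  have hm : (n : ℤ) + 1 ≤ c.ord (algebraMap R κ r) := by omega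
  have hinj : Function.Injective (algebraMap R κ) := IsFractionRing.injective R κ
  have hr0 : algebraMap R κ r ≠ 0 := by
    intro h0
    rw [h0, c.ord_zero] at hm
    omega
  -- a uniformiser of `O_c` in `R`
  obtain ⟨π₀, hπ₀⟩ := ffExistsIrreducible c
  have hπord : c.ord (π₀ : κ) = 1 := c.ord_coe_irreducible hπ₀
  have hπ0 : (π₀ : κ) ≠ 0 := fun h => hπ₀.ne_zero (Subtype.ext h)
  obtain ⟨a, s, hs, has⟩ := pdict_exists_of_mem w c h1 h2 (π₀ : κ) π₀.2
  have hs0 : algebraMap R κ s ≠ 0 := (pdict_inv_mem w c h2 s hs).1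
  have haord : c.ord (algebraMap R κ a) = 1 := by
    rw [← has, c.ord_mul hπ0 hs0, hπord, pdict_ord_eq_zero w c h1 h2 s hs, add_zero]
  have ha0 : algebraMap R κ a ≠ 0 := by
    intro h0
    rw [h0, c.ord_zero] at haord
    omega
  have haw : a ∈ w.asIdeal := by
    rw [h2 a, pdict_mem_nonunits_iff]
    right
    rw [haord]
    exact one_pos
  -- `x = r / a ^ (n + 1) ∈ O_c`
  have hx : algebraMap R κ r * (algebraMap R κ a ^ (n + 1))⁻¹ ∈ c.toValuationSubring := by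
    rw [ffMem_iff_ord_nonneg, c.ord_mul hr0 (inv_ne_zero (pow_ne_zero _ ha0)), c.ord_inv,
      ← zpow_natCast, c.ord_zpow, haord]
    push_cast
    omega
  obtain ⟨u, t, ht, hut⟩ := pdict_exists_of_mem w c h1 h2 _ hx
  have heq : t * r = a ^ (n + 1) * u := by
    apply hinj
    rw [map_mul, map_mul, map_pow, ← hut]
    field_simp
  have hmem : t * r ∈ w.asIdeal ^ (n + 1) := by
    rw [heq]
    exact Ideal.mul_mem_right _ _ (Ideal.pow_mem_pow haw _)
  haveI := w.isPrime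
  rcases Ideal.IsPrime.mul_mem_pow w.asIdeal hmem with h | h
  · exact ht h
  · exact hr h

end Dedekind

section Generic

variable {k κ : Type*} [Field k] [Field κ] [Algebra k κ] {B : Type*} [CommRing B]

/-- the height one prime of `B ⧸ ker ρ` of a prime ideal `𝔪 ⊋ ker ρ` -/
theorem pdict_exists_heightOne (ρ : B →+* κ) [IsDedekindDomain (B ⧸ RingHom.ker ρ)]
    (𝔪 : Ideal B) (h𝔪 : 𝔪.IsPrime) (hle : RingHom.ker ρ ≤ 𝔪) (hne : RingHom.ker ρ ≠ 𝔪) :
    ∃ w : HeightOneSpectrum (B ⧸ RingHom.ker ρ),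
      w.asIdeal = 𝔪.map (Ideal.Quotient.mk (RingHom.ker ρ)) := by
  have hmk : Function.Surjective (Ideal.Quotient.mk (RingHom.ker ρ)) :=
    Ideal.Quotient.mk_surjective
  have hker : RingHom.ker (Ideal.Quotient.mk (RingHom.ker ρ)) ≤ 𝔪 := by
    rw [Ideal.mk_ker]; exact hle
  have hprime : (𝔪.map (Ideal.Quotient.mk (RingHom.ker ρ))).IsPrime :=
    Ideal.map_isPrime_of_surjective (H := h𝔪) hmk hker
  have hbot : 𝔪.map (Ideal.Quotient.mk (RingHom.ker ρ)) ≠ ⊥ := by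
    intro h0
    apply hne
    refine le_antisymm hle fun z hz => ?_
    have h1 : Ideal.Quotient.mk (RingHom.ker ρ) z ∈
        𝔪.map (Ideal.Quotient.mk (RingHom.ker ρ)) := (Ideal.mem_quotient_iff_mem hle).2 hz
    rw [h0, Ideal.mem_bot] at h1
    exact Ideal.Quotient.eq_zero_iff_mem.1 h1
  exact ⟨⟨_, hprime, hbot⟩, rfl⟩

/-- **uniqueness of the place with a given centre**, valuation ring form -/
theorem pdict_unique (ρ : B →+* κ) (p : Ideal B) (hp : RingHom.ker ρ = p)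
    [IsDedekindDomain (B ⧸ p)]
    (hfrac : ∀ w : κ, ∃ a b : B, ρ b ≠ 0 ∧ w * ρ b = ρ a)
    (𝔪 : Ideal B) (h𝔪 : 𝔪.IsPrime) (hle : p ≤ 𝔪) (hne : p ≠ 𝔪)
    (c c' : Place k κ) (h1 : ∀ z : B, ρ z ∈ c.toValuationSubring)
    (h2 : ∀ z : B, z ∈ 𝔪 ↔ ρ z ∈ c.toValuationSubring.nonunits)
    (h1' : ∀ z : B, ρ z ∈ c'.toValuationSubring)
    (h2' : ∀ z : B, z ∈ 𝔪 ↔ ρ z ∈ c'.toValuationSubring.nonunits) : c = c' := by
  classical
  subst hp
  obtain ⟨w, hw⟩ := pdict_exists_heightOne ρ 𝔪 h𝔪 hle hne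
  letI : Algebra (B ⧸ RingHom.ker ρ) κ := (RingHom.kerLift ρ).toAlgebra
  have hι : Function.Injective (RingHom.kerLift ρ) := RingHom.kerLift_injective ρ
  have halg : ∀ z : B, algebraMap (B ⧸ RingHom.ker ρ) κ (Ideal.Quotient.mk _ z) = ρ z :=
    fun z => rfl
  haveI : FaithfulSMul (B ⧸ RingHom.ker ρ) κ :=
    (faithfulSMul_iff_algebraMap_injective _ κ).2 hι
  haveI : IsFractionRing (B ⧸ RingHom.ker ρ) κ := by
    refine IsFractionRing.of_field _ κ fun w => ?_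
    obtain ⟨a, b, hb, h⟩ := hfrac w
    refine ⟨Ideal.Quotient.mk _ a, Ideal.Quotient.mk _ b, ?_⟩
    rw [halg, halg, ← h]
    field_simp
  have hmem : ∀ z : B, Ideal.Quotient.mk (RingHom.ker ρ) z ∈ w.asIdeal ↔ z ∈ 𝔪 := by
    intro z
    rw [hw]
    exact Ideal.mem_quotient_iff_mem hle
  refine pdict_unique_dedekind w c c' ?_ ?_ ?_ ?_
  · intro r
    obtain ⟨z, rfl⟩ := Ideal.Quotient.mk_surjective r
    exact h1 z
  · intro r
    obtain ⟨z, rfl⟩ := Ideal.Quotient.mk_surjective r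
    rw [hmem, halg]
    exact h2 z
  · intro r
    obtain ⟨z, rfl⟩ := Ideal.Quotient.mk_surjective r
    exact h1' z
  · intro r
    obtain ⟨z, rfl⟩ := Ideal.Quotient.mk_surjective r
    rw [hmem, halg]
    exact h2' z

/-- **uniqueness of the place with a given centre**, `ord` form -/
theorem pdict_unique_ord (ρ : B →+* κ) (p : Ideal B) (hp : RingHom.ker ρ = p)
    [IsDedekindDomain (B ⧸ p)]
    (hfrac : ∀ w : κ, ∃ a b : B, ρ b ≠ 0 ∧ w * ρ b = ρ a)
    (𝔪 : Ideal B) (h𝔪 : 𝔪.IsPrime) (hle : p ≤ 𝔪) (hne : p ≠ 𝔪)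
    (c c' : Place k κ) (h1 : ∀ z : B, 0 ≤ c.ord (ρ z))
    (h2 : ∀ z : B, z ∈ 𝔪 ↔ ρ z = 0 ∨ 0 < c.ord (ρ z))
    (h1' : ∀ z : B, 0 ≤ c'.ord (ρ z))
    (h2' : ∀ z : B, z ∈ 𝔪 ↔ ρ z = 0 ∨ 0 < c'.ord (ρ z)) : c = c' :=
  pdict_unique (k := k) ρ p hp hfrac 𝔪 h𝔪 hle hne c c'
    (fun z => (ffMem_iff_ord_nonneg c).2 (h1 z))
    (fun z => by rw [h2 z, pdict_mem_nonunits_iff])
    (fun z => (ffMem_iff_ord_nonneg c').2 (h1' z))
    (fun z => by rw [h2' z, pdict_mem_nonunits_iff])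

/-- **orders from the powers of the centre**: `a ∉ 𝔪 ^ (n + 1) + ker ρ ⇒ ord_c (ρ a) ≤ n`. -/
theorem pdict_ord_le_of_notMem (ρ : B →+* κ) (p : Ideal B) (hp : RingHom.ker ρ = p)
    [IsDedekindDomain (B ⧸ p)]
    (hfrac : ∀ w : κ, ∃ a b : B, ρ b ≠ 0 ∧ w * ρ b = ρ a)
    (𝔪 : Ideal B) (h𝔪 : 𝔪.IsPrime) (hle : p ≤ 𝔪) (hne : p ≠ 𝔪)
    (c : Place k κ) (h1 : ∀ z : B, 0 ≤ c.ord (ρ z))
    (h2 : ∀ z : B, z ∈ 𝔪 ↔ ρ z = 0 ∨ 0 < c.ord (ρ z))
    (n : ℕ) (a : B) (ha : a ∉ 𝔪 ^ (n + 1) ⊔ p) : c.ord (ρ a) ≤ n := by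
  classical
  subst hp
  obtain ⟨w, hw⟩ := pdict_exists_heightOne ρ 𝔪 h𝔪 hle hne
  letI : Algebra (B ⧸ RingHom.ker ρ) κ := (RingHom.kerLift ρ).toAlgebra
  have halg : ∀ z : B, algebraMap (B ⧸ RingHom.ker ρ) κ (Ideal.Quotient.mk _ z) = ρ z :=
    fun z => rfl
  have hι : Function.Injective (RingHom.kerLift ρ) := RingHom.kerLift_injective ρ
  haveI : FaithfulSMul (B ⧸ RingHom.ker ρ) κ :=
    (faithfulSMul_iff_algebraMap_injective _ κ).2 hι
  haveI : IsFractionRing (B ⧸ RingHom.ker ρ) κ := by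
    refine IsFractionRing.of_field _ κ fun w => ?_
    obtain ⟨a, b, hb, h⟩ := hfrac w
    refine ⟨Ideal.Quotient.mk _ a, Ideal.Quotient.mk _ b, ?_⟩
    rw [halg, halg, ← h]
    field_simp
  have hmem : ∀ z : B, Ideal.Quotient.mk (RingHom.ker ρ) z ∈ w.asIdeal ↔ z ∈ 𝔪 := by
    intro z
    rw [hw]
    exact Ideal.mem_quotient_iff_mem hle
  have hmk : Function.Surjective (Ideal.Quotient.mk (RingHom.ker ρ)) :=
    Ideal.Quotient.mk_surjective
  have ha' : Ideal.Quotient.mk (RingHom.ker ρ) a ∉ w.asIdeal ^ (n + 1) := by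
    intro h
    apply ha
    rw [hw, ← Ideal.map_pow] at h
    have h3 : a ∈ ((𝔪 ^ (n + 1)).map (Ideal.Quotient.mk (RingHom.ker ρ))).comap
        (Ideal.Quotient.mk (RingHom.ker ρ)) := h
    rw [Ideal.comap_map_of_surjective _ hmk, ← RingHom.ker_eq_comap_bot, Ideal.mk_ker] at h3
    exact h3
  have key := pdict_ord_le_dedekind (k := k) (κ := κ) w c
    (fun r => by
      obtain ⟨z, rfl⟩ := Ideal.Quotient.mk_surjective r
      exact (ffMem_iff_ord_nonneg c).2 (h1 z))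
    (fun r => by
      obtain ⟨z, rfl⟩ := Ideal.Quotient.mk_surjective r
      rw [hmem, halg, h2 z, pdict_mem_nonunits_iff])
    n (Ideal.Quotient.mk (RingHom.ker ρ) a) ha'
  exact key

/-- a uniformiser at the centre: `a ∈ 𝔪`, `a ∉ 𝔪² + ker ρ ⇒ ord_c (ρ a) = 1` -/
theorem pdict_ord_eq_one (ρ : B →+* κ) (p : Ideal B) (hp : RingHom.ker ρ = p)
    [IsDedekindDomain (B ⧸ p)]
    (hfrac : ∀ w : κ, ∃ a b : B, ρ b ≠ 0 ∧ w * ρ b = ρ a)
    (𝔪 : Ideal B) (h𝔪 : 𝔪.IsPrime) (hle : p ≤ 𝔪) (hne : p ≠ 𝔪)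
    (c : Place k κ) (h1 : ∀ z : B, 0 ≤ c.ord (ρ z))
    (h2 : ∀ z : B, z ∈ 𝔪 ↔ ρ z = 0 ∨ 0 < c.ord (ρ z))
    (a : B) (ha𝔪 : a ∈ 𝔪) (ha : a ∉ 𝔪 ^ 2 ⊔ p) : ρ a ≠ 0 ∧ c.ord (ρ a) = 1 := by
  have h3 := pdict_ord_le_of_notMem (k := k) ρ p hp hfrac 𝔪 h𝔪 hle hne c h1 h2 1 a ha
  have h0 : ρ a ≠ 0 := by
    intro h0
    apply ha
    apply Ideal.mem_sup_right
    rw [← hp]
    exact h0
  rcases (h2 a).1 ha𝔪 with h | h
  · exact absurd h h0
  · refine ⟨h0, ?_⟩
    push_cast at h3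
    omega

/-- **the centre of a place** `c` on `B` (via `ρ`, for `ρ (B) ⊆ O_c`) -/
def pdictCentre (ρ : B →+* κ) (c : Place k κ) (h1 : ∀ z : B, 0 ≤ c.ord (ρ z)) : Ideal B :=
  (IsLocalRing.maximalIdeal c.toValuationSubring).comap
    (ρ.codRestrict c.toValuationSubring.toSubring fun z => (ffMem_iff_ord_nonneg c).2 (h1 z))

theorem mem_pdictCentre (ρ : B →+* κ) (c : Place k κ) (h1 : ∀ z : B, 0 ≤ c.ord (ρ z))
    (z : B) : z ∈ pdictCentre ρ c h1 ↔ ρ z = 0 ∨ 0 < c.ord (ρ z) := by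
  rw [← pdict_mem_nonunits_iff]
  unfold pdictCentre
  rw [Ideal.mem_comap, ← ValuationSubring.coe_mem_nonunits_iff]
  rfl

instance pdictCentre_isPrime (ρ : B →+* κ) (c : Place k κ)
    (h1 : ∀ z : B, 0 ≤ c.ord (ρ z)) : (pdictCentre ρ c h1).IsPrime := by
  unfold pdictCentre
  exact Ideal.comap_isPrime _ _

theorem ker_le_pdictCentre (ρ : B →+* κ) (c : Place k κ) (h1 : ∀ z : B, 0 ≤ c.ord (ρ z)) :
    RingHom.ker ρ ≤ pdictCentre ρ c h1 := fun z hz =>
  (mem_pdictCentre ρ c h1 z).2 (Or.inl hz)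

/-- **the centre is a maximal ideal** `⊋ ker ρ`, if some nonzero `ρ z` vanishes at `c` -/
theorem pdict_centre_isMaximal (ρ : B →+* κ) (p : Ideal B) (hp : RingHom.ker ρ = p)
    [IsDedekindDomain (B ⧸ p)] (c : Place k κ) (h1 : ∀ z : B, 0 ≤ c.ord (ρ z))
    (hpos : ∃ z : B, ρ z ≠ 0 ∧ 0 < c.ord (ρ z)) :
    (pdictCentre ρ c h1).IsMaximal ∧ p ≤ pdictCentre ρ c h1 ∧ p ≠ pdictCentre ρ c h1 := by
  subst hp
  have hle := ker_le_pdictCentre (k := k) ρ c h1
  have hne : RingHom.ker ρ ≠ pdictCentre ρ c h1 := by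
    intro h
    obtain ⟨z, hz0, hz⟩ := hpos
    have : z ∈ pdictCentre ρ c h1 := (mem_pdictCentre ρ c h1 z).2 (Or.inr hz)
    rw [← h] at this
    exact hz0 this
  refine ⟨?_, hle, hne⟩
  obtain ⟨w, hw⟩ := pdict_exists_heightOne ρ (pdictCentre ρ c h1) inferInstance hle hne
  have hmax : w.asIdeal.IsMaximal := w.isMaximal
  have hmk : Function.Surjective (Ideal.Quotient.mk (RingHom.ker ρ)) :=
    Ideal.Quotient.mk_surjective
  have hcm : w.asIdeal.comap (Ideal.Quotient.mk (RingHom.ker ρ)) = pdictCentre ρ c h1 := by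
    rw [hw, Ideal.comap_map_of_surjective _ hmk, ← RingHom.ker_eq_comap_bot, Ideal.mk_ker]
    exact sup_eq_left.2 hle
  rw [← hcm]
  exact Ideal.comap_isMaximal_of_surjective _ hmk

end Generic

end Fermat.Agent.S36lib

end
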