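import Mathlib
import Fermat.Agent.S36lib.PointDict
import Fermat.Agent.S36lib.PointDictUniq

/-!
# Item 83 (S36), piece R6-e (helper22): the NODES in place form

`S : NodeSetup` with `B ⧸ p_mid` a Dedekind domain with fraction field `κ`.  A place `c` of `κ`
is CENTRED at the ideal `t` of `B` (on `C_mid`) if `red_mid (B) ⊆ O_c` and
`z ∈ t ↔ red_mid z = 0 ∨ 0 < ord_c (red_mid z)`.  The NODE PLACES are the places centred at a
node of `B`.

* `R6eCentred`, `r6eNodeSet`, `r6e_finite`, `r6eNodes` : the finite set of the node places;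
* `r6e_disj` (e5), `r6e_hnode` (e1), `r6e_nonnode` (e2), `r6e_node` (e3), `r6e_card_le` (e4):
  the fields `disj`, `nonnode`, `node` of `Reg3CountHyp`, the hypothesis `hnode` of `reg3_hmid`,
  and `nodes.card ≤ #{nodes of B}`;
* `r6e_main` : all of them at once;
* `r6e_node_of_trans` : (e3) from the transversality in ideal form
  (`∃ a ∈ p_∞, a ∉ 𝔪² + p_mid`, `∃ b ∈ p_0, b ∉ 𝔪² + p_mid`).
-/

set_option autoImplicit false
set_option linter.style.haveILetI false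
set_option linter.unusedSectionVars false

noncomputable section

namespace Fermat.Agent.S36lib

open AlgebraicCurve Fermat.Agent.S24lib

variable {K : Type*} [Field K] {k : Type*} [Field k]
  {A : ValuationSubring K} {π : A →+* k} {κ : Type*} [Field κ] [Algebra k κ]
  {F : Type*} [Field F] [Algebra K F]

/-- the place `c` of `κ` is centred at the ideal `t` of `B`, on the component `C_mid` -/
def R6eCentred (S : NodeSetup A π κ F) (c : Place k κ) (t : Ideal S.B) : Prop :=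
  (∀ z : S.B, 0 ≤ c.ord (S.redMid z)) ∧
    ∀ z : S.B, z ∈ t ↔ S.redMid z = 0 ∨ 0 < c.ord (S.redMid z)

/-- the node places: the places of `κ` centred at a node of `B` -/
def r6eNodeSet (S : NodeSetup A π κ F) : Set (Place k κ) :=
  {c | ∃ t : Ideal S.B, S.IsNode t ∧ R6eCentred S c t}

section Basic

variable (S : NodeSetup A π κ F)

theorem R6eCentred.pMid_le {c : Place k κ} {t : Ideal S.B} (h : R6eCentred S c t) :
    S.pMid ≤ t := fun z hz => (h.2 z).2 (Or.inl hz)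

theorem R6eCentred.ideal_eq {c : Place k κ} {t t' : Ideal S.B} (h : R6eCentred S c t)
    (h' : R6eCentred S c t') : t = t' := by
  ext z
  rw [h.2 z, h'.2 z]

/-- a place is centred at its centre -/
theorem r6e_centred_centre (c : Place k κ) (h1 : ∀ z : S.B, 0 ≤ c.ord (S.redMid z)) :
    R6eCentred S c (pdictCentre S.redMid c h1) :=
  ⟨h1, fun z => mem_pdictCentre S.redMid c h1 z⟩

variable [IsDedekindDomain (S.B ⧸ S.pMid)]
  (hfrac : ∀ w : κ, ∃ a b : S.B, S.redMid b ≠ 0 ∧ w * S.redMid b = S.redMid a)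
  (hnm : ¬ S.pMid.IsMaximal)

include hfrac hnm in
/-- **a maximal ideal is the centre of at most one place** -/
theorem R6eCentred.place_eq {c c' : Place k κ} {t : Ideal S.B} (ht : t.IsMaximal)
    (h : R6eCentred S c t) (h' : R6eCentred S c' t) : c = c' :=
  pdict_unique_ord (k := k) S.redMid S.pMid rfl hfrac t ht.isPrime h.pMid_le
    (fun he => hnm (he ▸ ht)) c c' h.1 h.2 h'.1 h'.2

include hfrac hnm in
/-- **finitely many node places** -/
theorem r6e_finite (hfin : {t : Ideal S.B | S.IsNode t}.Finite) : (r6eNodeSet (k := k) S).Finite := by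
  have hsub : r6eNodeSet (k := k) S ⊆ ⋃ t ∈ {t : Ideal S.B | S.IsNode t},
      {c : Place k κ | R6eCentred S c t} := by
    rintro c ⟨t, ht, hc⟩
    exact Set.mem_biUnion ht hc
  refine (hfin.biUnion fun t ht => ?_).subset hsub
  refine Set.Subsingleton.finite ?_
  intro c hc c' hc'
  exact R6eCentred.place_eq S hfrac hnm ht.1 hc hc'

/-- the finite set of the node places -/
def r6eNodes (hfin : (r6eNodeSet (k := k) S).Finite) : Finset (Place k κ) := hfin.toFinset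

theorem mem_r6eNodes (hfin : (r6eNodeSet (k := k) S).Finite) (c : Place k κ) :
    c ∈ r6eNodes S hfin ↔ ∃ t : Ideal S.B, S.IsNode t ∧ R6eCentred S c t := by
  unfold r6eNodes
  rw [Set.Finite.mem_toFinset]
  rfl

/-- **(e1)**: at a node place every element of `p_∞` vanishes -/
theorem r6e_hnode (hfin : (r6eNodeSet (k := k) S).Finite) :
    ∀ c ∈ r6eNodes S hfin, ∀ s ∈ S.pInf, S.redMid s ≠ 0 → 0 < c.ord (S.redMid s) := by
  intro c hc s hs hs0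
  obtain ⟨t, ht, hct⟩ := (mem_r6eNodes S hfin c).1 hc
  have hst : s ∈ t := ht.2 (Ideal.mem_sup_left hs)
  rcases (hct.2 s).1 hst with h | h
  · exact absurd h hs0
  · exact h

/-- **(e1')**: at a node place every element of `p_0` vanishes -/
theorem r6e_hnode_zero (hfin : (r6eNodeSet (k := k) S).Finite) :
    ∀ c ∈ r6eNodes S hfin, ∀ s ∈ S.pZero, S.redMid s ≠ 0 → 0 < c.ord (S.redMid s) := by
  intro c hc s hs hs0
  obtain ⟨t, ht, hct⟩ := (mem_r6eNodes S hfin c).1 hc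
  have hst : s ∈ t := ht.2 (Ideal.mem_sup_right hs)
  rcases (hct.2 s).1 hst with h | h
  · exact absurd h hs0
  · exact h

/-- **(e5)**: the node places are not cusps, if at every cusp `c` with `red_mid (B) ⊆ O_c` some
element of `p_∞` has a reduction which is a unit at `c` -/
theorem r6e_disj (hfin : (r6eNodeSet (k := k) S).Finite) (cusps : Finset (Place k κ))
    (hcusp : ∀ c ∈ cusps, (∀ z : S.B, 0 ≤ c.ord (S.redMid z)) →
      ∃ s : S.B, s ∈ S.pInf ∧ S.redMid s ≠ 0 ∧ c.ord (S.redMid s) = 0) :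
    Disjoint (r6eNodes S hfin) cusps := by
  rw [Finset.disjoint_left]
  intro c hc hcc
  obtain ⟨t, -, hct⟩ := (mem_r6eNodes S hfin c).1 hc
  obtain ⟨s, hs, hs0, hsc⟩ := hcusp c hcc hct.1
  have := r6e_hnode S hfin c hc s hs hs0
  omega

/-- **(e2)**: off the cusps and the node places the component `C_mid` does not meet
`C_∞ ∪ C_0` -/
theorem r6e_nonnode (hfin : (r6eNodeSet (k := k) S).Finite) (q : S.B) (hq : q ∈ S.pMid)
    (htri : ∀ 𝔪 : Ideal S.B, 𝔪.IsMaximal → q ∈ 𝔪 → S.IsNode 𝔪 ∨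
      (S.pInf ≤ 𝔪 ∧ ¬ S.pMid ≤ 𝔪 ∧ ¬ S.pZero ≤ 𝔪) ∨
      (¬ S.pInf ≤ 𝔪 ∧ S.pMid ≤ 𝔪 ∧ ¬ S.pZero ≤ 𝔪) ∨
      (¬ S.pInf ≤ 𝔪 ∧ ¬ S.pMid ≤ 𝔪 ∧ S.pZero ≤ 𝔪))
    (cusps : Finset (Place k κ))
    (aff : ∀ w : Place k κ, w ∉ cusps → ∀ z : S.B, 0 ≤ w.ord (S.redMid z))
    (hpos : ∀ w : Place k κ, w ∉ cusps → ∃ z : S.B, S.redMid z ≠ 0 ∧ 0 < w.ord (S.redMid z)) :
    ∀ w : Place k κ, w ∉ cusps → w ∉ r6eNodes S hfin →
      ∃ s : S.B, s ∈ S.pInf ∧ s ∈ S.pZero ∧ S.redMid s ≠ 0 ∧ w.ord (S.redMid s) = 0 := by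
  intro w hwc hwn
  have h1 := aff w hwc
  obtain ⟨hmax, hle, -⟩ := pdict_centre_isMaximal (k := k) S.redMid S.pMid rfl w h1 (hpos w hwc)
  have hcen := r6e_centred_centre S w h1
  have hnn : ¬ S.IsNode (pdictCentre S.redMid w h1) := fun h =>
    hwn ((mem_r6eNodes S hfin w).2 ⟨_, h, hcen⟩)
  have hprime : (pdictCentre S.redMid w h1).IsPrime := hmax.isPrime
  rcases htri _ hmax (hle hq) with h | h | h | h
  · exact absurd h hnn
  · exact absurd hle h.2.1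
  · obtain ⟨s₁, hs₁, hs₁t⟩ := SetLike.not_le_iff_exists.1 h.1
    obtain ⟨s₂, hs₂, hs₂t⟩ := SetLike.not_le_iff_exists.1 h.2.2
    have hst : s₁ * s₂ ∉ pdictCentre S.redMid w h1 := fun hmem =>
      (hprime.mem_or_mem hmem).elim hs₁t hs₂t
    rw [mem_pdictCentre, not_or] at hst
    refine ⟨s₁ * s₂, Ideal.mul_mem_right _ _ hs₁, Ideal.mul_mem_left _ _ hs₂, hst.1, ?_⟩
    have := h1 (s₁ * s₂)
    omega
  · exact absurd hle h.2.1

include hfrac hnm in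
/-- **(e4)**: there are at most as many node places as nodes -/
theorem r6e_card_le (hfin : (r6eNodeSet (k := k) S).Finite)
    (hfin' : {t : Ideal S.B | S.IsNode t}.Finite) :
    (r6eNodes S hfin).card ≤ hfin'.toFinset.card := by
  classical
  refine Finset.card_le_card_of_injOn
    (fun c => if h : ∃ t : Ideal S.B, S.IsNode t ∧ R6eCentred S c t then h.choose else ⊥)
    ?_ ?_
  · intro c hc
    have h := (mem_r6eNodes S hfin c).1 (Finset.mem_coe.1 hc)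
    simp only [dif_pos h]
    rw [Finset.mem_coe, Set.Finite.mem_toFinset]
    exact h.choose_spec.1
  · intro c hc c' hc' heq
    have h := (mem_r6eNodes S hfin c).1 (Finset.mem_coe.1 hc)
    have h' := (mem_r6eNodes S hfin c').1 (Finset.mem_coe.1 hc')
    simp only [dif_pos h, dif_pos h'] at heq
    have h2 := h'.choose_spec.2
    rw [← heq] at h2
    exact R6eCentred.place_eq S hfrac hnm h.choose_spec.1.1 h.choose_spec.2 h2

include hfrac hnm in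
/-- **(e3) from the transversality in ideal form**: at a node `𝔪` with `a ∈ p_∞`, `b ∈ p_0`,
`a, b ∉ 𝔪² + p_mid`, the element `s = a b ∈ p_∞ ∩ p_0` has `ord_c (red_mid s) = 2` at the place
`c` centred at `𝔪`. -/
theorem r6e_node_of_trans (c : Place k κ) (𝔪 : Ideal S.B) (h𝔪 : S.IsNode 𝔪)
    (hc : R6eCentred S c 𝔪) (a b : S.B) (ha : a ∈ S.pInf) (hb : b ∈ S.pZero)
    (ha2 : a ∉ 𝔪 ^ 2 ⊔ S.pMid) (hb2 : b ∉ 𝔪 ^ 2 ⊔ S.pMid) :
    ∃ s : S.B, s ∈ S.pInf ∧ s ∈ S.pZero ∧ S.redMid s ≠ 0 ∧ c.ord (S.redMid s) ≤ 2 := by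
  have hne : S.pMid ≠ 𝔪 := fun he => hnm (he ▸ h𝔪.1)
  obtain ⟨ha0, hao⟩ := pdict_ord_eq_one (k := k) S.redMid S.pMid rfl hfrac 𝔪 h𝔪.1.isPrime
    hc.pMid_le hne c hc.1 hc.2 a (h𝔪.2 (Ideal.mem_sup_left ha)) ha2
  obtain ⟨hb0, hbo⟩ := pdict_ord_eq_one (k := k) S.redMid S.pMid rfl hfrac 𝔪 h𝔪.1.isPrime
    hc.pMid_le hne c hc.1 hc.2 b (h𝔪.2 (Ideal.mem_sup_right hb)) hb2
  refine ⟨a * b, Ideal.mul_mem_right _ _ ha, Ideal.mul_mem_left _ _ hb, ?_, ?_⟩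
  · rw [map_mul]
    exact mul_ne_zero ha0 hb0
  · rw [map_mul, c.ord_mul ha0 hb0, hao, hbo]
    norm_num

include hfrac hnm in
/-- **R6-e**: the node places, with (e1)–(e5). -/
theorem r6e_main (hfin' : {t : Ideal S.B | S.IsNode t}.Finite) (q : S.B) (hq : q ∈ S.pMid)
    (htri : ∀ 𝔪 : Ideal S.B, 𝔪.IsMaximal → q ∈ 𝔪 → S.IsNode 𝔪 ∨
      (S.pInf ≤ 𝔪 ∧ ¬ S.pMid ≤ 𝔪 ∧ ¬ S.pZero ≤ 𝔪) ∨
      (¬ S.pInf ≤ 𝔪 ∧ S.pMid ≤ 𝔪 ∧ ¬ S.pZero ≤ 𝔪) ∨
      (¬ S.pInf ≤ 𝔪 ∧ ¬ S.pMid ≤ 𝔪 ∧ S.pZero ≤ 𝔪))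
    (cusps : Finset (Place k κ))
    (aff : ∀ w : Place k κ, w ∉ cusps → ∀ z : S.B, 0 ≤ w.ord (S.redMid z))
    (hpos : ∀ w : Place k κ, w ∉ cusps → ∃ z : S.B, S.redMid z ≠ 0 ∧ 0 < w.ord (S.redMid z))
    (hcusp : ∀ c ∈ cusps, (∀ z : S.B, 0 ≤ c.ord (S.redMid z)) →
      ∃ s : S.B, s ∈ S.pInf ∧ S.redMid s ≠ 0 ∧ c.ord (S.redMid s) = 0)
    (hnode3 : ∀ (c : Place k κ) (𝔪 : Ideal S.B), S.IsNode 𝔪 → R6eCentred S c 𝔪 →
      ∃ s : S.B, s ∈ S.pInf ∧ s ∈ S.pZero ∧ S.redMid s ≠ 0 ∧ c.ord (S.redMid s) ≤ 2) :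
    ∃ nodes : Finset (Place k κ), Disjoint nodes cusps ∧
      (∀ c ∈ nodes, ∀ s ∈ S.pInf, S.redMid s ≠ 0 → 0 < c.ord (S.redMid s)) ∧
      (∀ w : Place k κ, w ∉ cusps → w ∉ nodes →
        ∃ s : S.B, s ∈ S.pInf ∧ s ∈ S.pZero ∧ S.redMid s ≠ 0 ∧ w.ord (S.redMid s) = 0) ∧
      (∀ t ∈ nodes,
        ∃ s : S.B, s ∈ S.pInf ∧ s ∈ S.pZero ∧ S.redMid s ≠ 0 ∧ t.ord (S.redMid s) ≤ 2) ∧
      nodes.card ≤ hfin'.toFinset.card := by
  have hfin := r6e_finite (k := k) S hfrac hnm hfin'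
  refine ⟨r6eNodes S hfin, r6e_disj S hfin cusps hcusp, r6e_hnode S hfin,
    r6e_nonnode S hfin q hq htri cusps aff hpos, ?_, r6e_card_le S hfrac hnm hfin hfin'⟩
  intro t ht
  obtain ⟨𝔪, h𝔪, hc⟩ := (mem_r6eNodes S hfin t).1 ht
  exact hnode3 t 𝔪 h𝔪 hc

end Basic

end Fermat.Agent.S36lib

end
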