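import Mathlib
import Fermat.Agent.S36lib.Setup
import Fermat.Agent.S36lib.Reg2
import Fermat.Agent.S36lib.IncConc
import Fermat.Agent.S36lib.TransferSetup
import Fermat.Agent.S36lib.TransferNodes
import Fermat.Agent.S36lib.Reg3Nodes

/-!
# Item 83 (S36), piece R6-e, part 2 (helper22): the nodes of `B_D1` from REG1 at level `N`

`SN` = the setup of level `N = M' q` (ring `B_j`), `SM` = the setup of level `M' q²` with the
ring `B_j`, `S1` = the setup of level `M' q²` with the ring `B_D1 ⊆ B_j`.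

* ring level: `r6e_notMem_of_map` (`r y ∉ (s.map r)² ⇒ y ∉ s² + ker r`), `r6e_comap_sq`
  (`φ x ∈ 𝔪² + Q ⇒ x ∈ (φ⁻¹ 𝔪)² + φ⁻¹ Q` if `B₁ → B ⧸ Q` is onto), `r6e_cancel_unit`,
  `r6e_trans_transfer` (transversality goes down along a cover `B₂ ⊆ B₁[1/t]`);
* `r6e_trans_of_reg1` : the transversality `a ∈ p_∞`, `b ∈ p_0`, `a, b ∉ 𝔪² + p_mid` at the
  nodes of `SM`, from REG1 at level `N` and the middle column of the reduction table;
* `r6e_hnode3` : the intersection numbers `≤ 2` at the node places of `S1` (`= hnode3` of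
  `r6e_main`);
* `r6e_node_comap_α`, `r6e_node_comap_α_inj`, `r6e_count_N`, `r6e_count_M`, `r6e_count_D1` :
  the count of the nodes, `#nodes(S1) ≤ #nodes(SM) ≤ #nodes(SN) ≤ n`;
* `r6e_hpos_of_lift`, `r6e_hcusp_of_inc` : adapters;
* `r6e_concrete` : `r6e_main` with `hnode3` and the count discharged.

All proofs complete.
-/

set_option autoImplicit false
set_option linter.style.haveILetI false
set_option linter.unusedSectionVars false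

noncomputable section

namespace Fermat.Agent.S36lib

open AlgebraicCurve Fermat.Agent.S24lib

section Rings

variable {B₁ B : Type*} [CommRing B₁] [CommRing B]

/-- `r y ∉ (s.map r)²` gives `y ∉ s² + ker r` -/
theorem r6e_notMem_of_map {C : Type*} [CommRing C] (r : B →+* C) (s : Ideal B) (y : B)
    (h : r y ∉ (s.map r) ^ 2) : y ∉ s ^ 2 ⊔ RingHom.ker r := by
  intro hy
  obtain ⟨a, ha, b, hb, rfl⟩ := Submodule.mem_sup.1 hy
  apply h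
  rw [map_add, (RingHom.mem_ker).1 hb, add_zero, ← Ideal.map_pow]
  exact Ideal.mem_map_of_mem r ha

/-- **contraction of the square**: if `B₁ → B ⧸ Q` is onto, `φ⁻¹ Q = Q'` and `Q ≤ 𝔪`, then
`φ x ∈ 𝔪² + Q` implies `x ∈ (φ⁻¹ 𝔪)² + Q'`. -/
theorem r6e_comap_sq (φ : B₁ →+* B) (Q : Ideal B) (Q' : Ideal B₁) (hQ : Q.comap φ = Q')
    (hS : ∀ z : B, ∃ w : B₁, z - φ w ∈ Q) (𝔪 : Ideal B) (hQ𝔪 : Q ≤ 𝔪) (x : B₁)
    (hx : φ x ∈ 𝔪 ^ 2 ⊔ Q) : x ∈ (𝔪.comap φ) ^ 2 ⊔ Q' := by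
  set ψ : B₁ →+* B ⧸ Q := (Ideal.Quotient.mk Q).comp φ with hψ
  have hsurj : Function.Surjective ψ := by
    intro y
    obtain ⟨z, rfl⟩ := Ideal.Quotient.mk_surjective y
    obtain ⟨w, hw⟩ := hS z
    refine ⟨w, ?_⟩
    rw [hψ, RingHom.comp_apply]
    exact ((Ideal.Quotient.mk_eq_mk_iff_sub_mem z (φ w)).2 hw).symm
  have hker : RingHom.ker ψ = Q' := by
    rw [← hQ]
    ext y
    rw [RingHom.mem_ker, hψ, RingHom.comp_apply, Ideal.Quotient.eq_zero_iff_mem,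
      Ideal.mem_comap]
  have hmap : 𝔪.map (Ideal.Quotient.mk Q) ≤ (𝔪.comap φ).map ψ := by
    rw [Ideal.map_le_iff_le_comap]
    intro z hz
    obtain ⟨w, hw⟩ := hS z
    have hw𝔪 : φ w ∈ 𝔪 := by
      have h1 := 𝔪.sub_mem hz (hQ𝔪 hw)
      have h2 : z - (z - φ w) = φ w := by ring
      rwa [h2] at h1
    rw [Ideal.mem_comap]
    have h3 : Ideal.Quotient.mk Q z = ψ w :=
      (Ideal.Quotient.mk_eq_mk_iff_sub_mem z (φ w)).2 hw
    rw [h3]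
    exact Ideal.mem_map_of_mem ψ (Ideal.mem_comap.2 hw𝔪)
  have h1 : Ideal.Quotient.mk Q (φ x) ∈ (𝔪.map (Ideal.Quotient.mk Q)) ^ 2 := by
    obtain ⟨a, ha, b, hb, hab⟩ := Submodule.mem_sup.1 hx
    rw [← hab, map_add, Ideal.Quotient.eq_zero_iff_mem.2 hb, add_zero, ← Ideal.map_pow]
    exact Ideal.mem_map_of_mem _ ha
  have h2 : ψ x ∈ ((𝔪.comap φ) ^ 2).map ψ := by
    rw [Ideal.map_pow]
    exact Ideal.pow_right_mono hmap 2 h1
  have h3 : x ∈ (((𝔪.comap φ) ^ 2).map ψ).comap ψ := Ideal.mem_comap.2 h2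
  rw [Ideal.comap_map_of_surjective ψ hsurj, ← RingHom.ker_eq_comap_bot, hker] at h3
  exact h3

/-- a unit modulo the maximal ideal `𝔪` can be cancelled modulo `𝔪² + Q` -/
theorem r6e_cancel_unit (𝔪 Q : Ideal B) (h𝔪 : 𝔪.IsMaximal) (u a : B) (hu : u ∉ 𝔪)
    (h : u * a ∈ 𝔪 ^ 2 ⊔ Q) : a ∈ 𝔪 ^ 2 ⊔ Q := by
  obtain ⟨v, i, hi, hvi⟩ := h𝔪.exists_inv hu
  have h1 : (v * u + i) ^ 2 = 1 := by rw [hvi]; ring
  have h2 : a = (v * (v * u + 2 * i)) * (u * a) + i ^ 2 * a := by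
    calc a = (v * u + i) ^ 2 * a := by rw [h1, one_mul]
      _ = (v * (v * u + 2 * i)) * (u * a) + i ^ 2 * a := by ring
  rw [h2]
  exact Ideal.add_mem _ (Ideal.mul_mem_left _ _ h)
    (Ideal.mem_sup_left (Ideal.mul_mem_right _ _ (Ideal.pow_mem_pow hi 2)))

/-- **the transversality goes down along a cover** `B₂ ⊆ B₁[1/t]`, `t ∉ 𝔪`. -/
theorem r6e_trans_transfer {B₂ : Type*} [CommRing B₂] {ι : B₁ →+* B₂} {t : B₁}
    (hc : TrfCover ι t) (hι : Function.Injective ι) (𝔪 : Ideal B₁) (h𝔪 : 𝔪.IsMaximal)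
    (ht : t ∉ 𝔪) (P1 Q1 : Ideal B₁) (P2 Q2 : Ideal B₂) (hP : P2.comap ι = P1)
    (hQ : Q2.comap ι = Q1) (a' : B₂) (ha' : a' ∈ P2)
    (ha2 : a' ∉ (trfIdeal hc 𝔪) ^ 2 ⊔ Q2) :
    ∃ a : B₁, a ∈ P1 ∧ a ∉ 𝔪 ^ 2 ⊔ Q1 := by
  haveI := h𝔪.isPrime
  obtain ⟨n, a, ha⟩ := hc a'
  have h𝔪' := trfIdeal_isMaximal hc hι 𝔪 h𝔪 ht
  refine ⟨a, ?_, fun hmem => ha2 ?_⟩
  · rw [← hP, Ideal.mem_comap, ha]
    exact P2.mul_mem_left _ ha'
  · have h1 : (𝔪 ^ 2 ⊔ Q1).map ι ≤ (trfIdeal hc 𝔪) ^ 2 ⊔ Q2 := by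
      rw [Ideal.map_sup, Ideal.map_pow]
      refine sup_le_sup (Ideal.pow_right_mono ?_ 2) ?_
      · rw [Ideal.map_le_iff_le_comap]
        intro w hw
        exact Ideal.mem_comap.2 (map_mem_trfIdeal hc hw)
      · rw [← hQ]
        exact Ideal.map_comap_le
    have h2 : ι t ^ n * a' ∈ (trfIdeal hc 𝔪) ^ 2 ⊔ Q2 := by
      rw [← ha]
      exact h1 (Ideal.mem_map_of_mem ι hmem)
    have h3 : ι t ^ n ∉ trfIdeal hc 𝔪 := fun h =>
      map_notMem_trfIdeal hc hι 𝔪 ht ht (h𝔪'.isPrime.mem_of_pow_mem n h)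
    exact r6e_cancel_unit _ _ h𝔪' _ _ h3 h2

/-- a set covered by the image of a finite set is finite, with the bound for the cards -/
theorem r6e_finite_of_image {α β : Type*} (T' : Set β) (hfin' : T'.Finite) (G : β → α)
    (T : Set α) (hsub : ∀ s ∈ T, ∃ s' ∈ T', G s' = s) :
    ∃ hfin : T.Finite, hfin.toFinset.card ≤ hfin'.toFinset.card := by
  classical
  have hT : T ⊆ G '' T' := by
    intro s hs
    obtain ⟨s', hs', h⟩ := hsub s hs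
    exact ⟨s', hs', h⟩
  have hfin : T.Finite := (hfin'.image G).subset hT
  refine ⟨hfin, ?_⟩
  have h1 : hfin.toFinset ⊆ hfin'.toFinset.image G := by
    intro s hs
    obtain ⟨s', hs', h⟩ := hsub s ((Set.Finite.mem_toFinset hfin).1 hs)
    exact Finset.mem_image.2 ⟨s', (Set.Finite.mem_toFinset hfin').2 hs', h⟩
  exact (Finset.card_le_card h1).trans Finset.card_image_le

/-- a set mapped injectively into a finite set is finite, with the bound for the cards -/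
theorem r6e_finite_of_injOn {α β : Type*} (T : Set α) (T' : Set β) (hfin' : T'.Finite)
    (Φ : α → β) (hmaps : ∀ s ∈ T, Φ s ∈ T') (hinj : ∀ s ∈ T, ∀ s' ∈ T, Φ s = Φ s' → s = s') :
    ∃ hfin : T.Finite, hfin.toFinset.card ≤ hfin'.toFinset.card := by
  classical
  have hfin : T.Finite := Set.Finite.of_injOn (f := Φ) (fun s hs => hmaps s hs)
    (fun s hs s' hs' h => hinj s hs s' hs' h) hfin'
  refine ⟨hfin, ?_⟩
  refine Finset.card_le_card_of_injOn Φ ?_ ?_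
  · intro s hs
    rw [Finset.mem_coe, Set.Finite.mem_toFinset] at hs ⊢
    exact hmaps s hs
  · intro s hs s' hs' h
    rw [Finset.mem_coe, Set.Finite.mem_toFinset] at hs hs'
    exact hinj s hs s' hs' h

/-- a set whose elements are classified by `Fin n` (up to an injective invariant) is finite of
card at most `n` -/
theorem r6e_finite_of_cover {α β : Type*} (T : Set α) (Φ : α → β)
    (hinj : ∀ s ∈ T, ∀ s' ∈ T, Φ s = Φ s' → s = s') {n : ℕ} (g : Fin n → β)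
    (hcov : ∀ s ∈ T, ∃ i, Φ s = g i) : ∃ hfin : T.Finite, hfin.toFinset.card ≤ n := by
  classical
  have hfin' : (Set.range g).Finite := Set.finite_range g
  obtain ⟨hfin, hle⟩ := r6e_finite_of_injOn T (Set.range g) hfin' Φ
    (fun s hs => by obtain ⟨i, hi⟩ := hcov s hs; exact ⟨i, hi.symm⟩) hinj
  refine ⟨hfin, hle.trans ?_⟩
  have h1 : hfin'.toFinset ⊆ Finset.univ.image g := by
    intro b hb
    obtain ⟨i, rfl⟩ := (Set.Finite.mem_toFinset hfin').1 hb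
    exact Finset.mem_image.2 ⟨i, Finset.mem_univ _, rfl⟩
  refine (Finset.card_le_card h1).trans (Finset.card_image_le.trans ?_)
  simp

end Rings

section Setup

variable {K : Type*} [Field K] {k : Type*} [Field k]
  {A : ValuationSubring K} {π : A →+* k} {κ : Type*} [Field κ] [Algebra k κ]
  {FN FM : Type*} [Field FN] [Field FM] [Algebra K FN] [Algebra K FM]
  {SN : NodeSetup A π κ FN} {SM : NodeSetup A π κ FM}

/-- **REG1 in the ideal form, side of `p_0`**, from the form of `reg1_node_zero` /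
`reg1x_node_zero` (`rInf y ∉ (s.map rInf)²`, `ker rInf = p_∞`). -/
theorem r6e_reg1_zero_of_map {C : Type*} [CommRing C] (rInf : SN.B →+* C)
    (hkInf : RingHom.ker rInf = SN.pInf)
    (h : ∀ s : Ideal SN.B, SN.IsNode s →
      ∃ y : SN.B, y ∈ SN.pZero ∧ rInf y ∉ (s.map rInf) ^ 2) :
    ∀ s : Ideal SN.B, SN.IsNode s → ∃ y : SN.B, y ∈ SN.pZero ∧ y ∉ s ^ 2 ⊔ SN.pInf := by
  intro s hs
  obtain ⟨y, hy, hy2⟩ := h s hs
  refine ⟨y, hy, ?_⟩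
  rw [← hkInf]
  exact r6e_notMem_of_map rInf s y hy2

/-- **REG1 in the ideal form, side of `p_∞`**, from the form of `reg1_node_inf` /
`reg1x_node_inf` (`rZero x ∉ (s.map rZero)²`, `ker rZero = p_0`). -/
theorem r6e_reg1_inf_of_map {C : Type*} [CommRing C] (rZero : SN.B →+* C)
    (hkZero : RingHom.ker rZero = SN.pZero)
    (h : ∀ s : Ideal SN.B, SN.IsNode s →
      ∃ x : SN.B, x ∈ SN.pInf ∧ rZero x ∉ (s.map rZero) ^ 2) :
    ∀ s : Ideal SN.B, SN.IsNode s → ∃ x : SN.B, x ∈ SN.pInf ∧ x ∉ s ^ 2 ⊔ SN.pZero := by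
  intro s hs
  obtain ⟨x, hx, hx2⟩ := h s hs
  refine ⟨x, hx, ?_⟩
  rw [← hkZero]
  exact r6e_notMem_of_map rZero s x hx2

/-- the contraction along `β` of a node of `SM` containing `p_mid` is a node of `SN` -/
theorem r6e_node_comap_β (fβ : SetupMap SN SM) (R : Set κ)
    (hsZero : ∀ r ∈ R, ∃ w : SN.B, SN.redZero w = r) (hMMid : ∀ z : SM.B, SM.redMid z ∈ R)
    (tβMid : ∀ z, SM.redMid (fβ.toB z) = SN.redZero z)
    (𝔪 : Ideal SM.B) (h𝔪 : SM.IsNode 𝔪) (hmid : SM.pMid ≤ 𝔪) :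
    SN.IsNode (𝔪.comap fβ.toB) := by
  refine ⟨incc_comap_isMaximal fβ.toB SM.pMid
    (incc_setup_hS fβ.toB SN.redZero SM.redMid R hMMid hsZero tβMid) 𝔪 h𝔪.1 hmid,
    sup_le ?_ ?_⟩
  · intro x hx
    exact Ideal.mem_comap.2 (h𝔪.2 (Ideal.mem_sup_left ((fβ.mem_pInf_iff x).2 hx)))
  · intro x hx
    exact Ideal.mem_comap.2 (h𝔪.2 (Ideal.mem_sup_right ((fβ.mem_pZero_iff x).2 hx)))

/-- the contraction along `α` of a node of `SM` is a node of `SN` (column `∞` of `α`) -/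
theorem r6e_node_comap_α (fα : SetupMap SN SM) (R : Set κ)
    (hsInf : ∀ r ∈ R, ∃ w : SN.B, SN.redInf w = r) (hMInf : ∀ z : SM.B, SM.redInf z ∈ R)
    (tαInf : ∀ z, SM.redInf (fα.toB z) = SN.redInf z)
    (𝔪 : Ideal SM.B) (h𝔪 : SM.IsNode 𝔪) :
    SN.IsNode (𝔪.comap fα.toB) := by
  refine ⟨incc_comap_isMaximal fα.toB SM.pInf
    (incc_setup_hS fα.toB SN.redInf SM.redInf R hMInf hsInf tαInf) 𝔪 h𝔪.1
    (le_sup_left.trans h𝔪.2), sup_le ?_ ?_⟩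
  · intro x hx
    exact Ideal.mem_comap.2 (h𝔪.2 (Ideal.mem_sup_left ((fα.mem_pInf_iff x).2 hx)))
  · intro x hx
    exact Ideal.mem_comap.2 (h𝔪.2 (Ideal.mem_sup_right ((fα.mem_pZero_iff x).2 hx)))

/-- a node of `SM` is determined by its contraction along `α` -/
theorem r6e_node_comap_α_inj (fα : SetupMap SN SM) (R : Set κ)
    (hsInf : ∀ r ∈ R, ∃ w : SN.B, SN.redInf w = r) (hMInf : ∀ z : SM.B, SM.redInf z ∈ R)
    (tαInf : ∀ z, SM.redInf (fα.toB z) = SN.redInf z)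
    (𝔪₁ 𝔪₂ : Ideal SM.B) (h₁ : SM.IsNode 𝔪₁) (h₂ : SM.IsNode 𝔪₂)
    (h : 𝔪₁.comap fα.toB = 𝔪₂.comap fα.toB) : 𝔪₁ = 𝔪₂ := by
  have hS := incc_setup_hS fα.toB SN.redInf SM.redInf R hMInf hsInf tαInf
  have key : ∀ 𝔞 𝔟 : Ideal SM.B, SM.IsNode 𝔞 → SM.IsNode 𝔟 →
      𝔞.comap fα.toB = 𝔟.comap fα.toB → 𝔞 ≤ 𝔟 := by
    intro 𝔞 𝔟 ha hb hab z hz
    obtain ⟨w, hw⟩ := hS z
    have hwI : z - fα.toB w ∈ SM.pInf := hw
    have h1 : fα.toB w ∈ 𝔞 := by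
      have h2 := 𝔞.sub_mem hz (ha.2 (Ideal.mem_sup_left hwI))
      have h3 : z - (z - fα.toB w) = fα.toB w := by ring
      rwa [h3] at h2
    have h4 : fα.toB w ∈ 𝔟 := by
      have h5 : w ∈ 𝔞.comap fα.toB := Ideal.mem_comap.2 h1
      rw [hab] at h5
      exact Ideal.mem_comap.1 h5
    have h6 := 𝔟.add_mem (hb.2 (Ideal.mem_sup_left hwI)) h4
    have h7 : z - fα.toB w + fα.toB w = z := by ring
    rwa [h7] at h6
  exact le_antisymm (key 𝔪₁ 𝔪₂ h₁ h₂ h) (key 𝔪₂ 𝔪₁ h₂ h₁ h.symm)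

/-- **the transversality at the nodes of `SM`**, from REG1 at level `N` and the middle column
of the reduction table: `a = β x ∈ p_∞`, `b = α y ∈ p_0`, `a, b ∉ 𝔪² + p_mid`. -/
theorem r6e_trans_of_reg1 (fα fβ : SetupMap SN SM) (R : Set κ)
    (hsInf : ∀ r ∈ R, ∃ w : SN.B, SN.redInf w = r)
    (hsZero : ∀ r ∈ R, ∃ w : SN.B, SN.redZero w = r)
    (hMMid : ∀ z : SM.B, SM.redMid z ∈ R)
    (tαMid : ∀ z, SM.redMid (fα.toB z) = SN.redInf z)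
    (tβMid : ∀ z, SM.redMid (fβ.toB z) = SN.redZero z)
    (hreg1Inf : ∀ s : Ideal SN.B, SN.IsNode s →
      ∃ x : SN.B, x ∈ SN.pInf ∧ x ∉ s ^ 2 ⊔ SN.pZero)
    (hreg1Zero : ∀ s : Ideal SN.B, SN.IsNode s →
      ∃ y : SN.B, y ∈ SN.pZero ∧ y ∉ s ^ 2 ⊔ SN.pInf)
    (𝔪 : Ideal SM.B) (h𝔪 : SM.IsNode 𝔪) (hmid : SM.pMid ≤ 𝔪) :
    (∃ a : SM.B, a ∈ SM.pInf ∧ a ∉ 𝔪 ^ 2 ⊔ SM.pMid) ∧
    (∃ b : SM.B, b ∈ SM.pZero ∧ b ∉ 𝔪 ^ 2 ⊔ SM.pMid) := by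
  have hSβ := incc_setup_hS fβ.toB SN.redZero SM.redMid R hMMid hsZero tβMid
  have hSα := incc_setup_hS fα.toB SN.redInf SM.redMid R hMMid hsInf tαMid
  have hnβ : SN.IsNode (𝔪.comap fβ.toB) :=
    r6e_node_comap_β fβ R hsZero hMMid tβMid 𝔪 h𝔪 hmid
  have hnα : SN.IsNode (𝔪.comap fα.toB) := by
    refine ⟨incc_comap_isMaximal fα.toB SM.pMid hSα 𝔪 h𝔪.1 hmid, sup_le ?_ ?_⟩
    · intro x hx
      exact Ideal.mem_comap.2 (h𝔪.2 (Ideal.mem_sup_left ((fα.mem_pInf_iff x).2 hx)))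
    · intro x hx
      exact Ideal.mem_comap.2 (h𝔪.2 (Ideal.mem_sup_right ((fα.mem_pZero_iff x).2 hx)))
  constructor
  · obtain ⟨x, hx, hx2⟩ := hreg1Inf _ hnβ
    refine ⟨fβ.toB x, (fβ.mem_pInf_iff x).2 hx, fun ha => hx2 ?_⟩
    exact r6e_comap_sq fβ.toB SM.pMid SN.pZero (incc_setup_comap_pMid_β fβ tβMid) hSβ 𝔪 hmid
      x ha
  · obtain ⟨y, hy, hy2⟩ := hreg1Zero _ hnα
    refine ⟨fα.toB y, (fα.mem_pZero_iff y).2 hy, fun hb => hy2 ?_⟩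
    exact r6e_comap_sq fα.toB SM.pMid SN.pInf (incc_setup_comap_pMid_α fα tαMid) hSα 𝔪 hmid
      y hb

/-- **the count at level `N`**: the nodes of `SN` are classified by `Fin n`. -/
theorem r6e_count_N {C : Type*} [CommRing C] (rInf : SN.B →+* C)
    (hkInf : RingHom.ker rInf = SN.pInf) (hsurj : Function.Surjective rInf)
    {n : ℕ} (g : Fin n → Ideal C)
    (hclass : ∀ s : Ideal SN.B, SN.IsNode s → ∃ i, s.map rInf = g i) :
    ∃ hfin : {s : Ideal SN.B | SN.IsNode s}.Finite, hfin.toFinset.card ≤ n := by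
  refine r6e_finite_of_cover {s : Ideal SN.B | SN.IsNode s} (fun s => s.map rInf) ?_ g
    (fun s hs => hclass s hs)
  intro s hs s' hs' h
  have hk : ∀ t : Ideal SN.B, SN.IsNode t → (t.map rInf).comap rInf = t := by
    intro t ht
    rw [Ideal.comap_map_of_surjective rInf hsurj, ← RingHom.ker_eq_comap_bot, hkInf]
    exact sup_eq_left.2 (le_sup_left.trans ht.2)
  have h' : s.map rInf = s'.map rInf := h
  rw [← hk s hs, ← hk s' hs', h']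

/-- **the count at level `M' q²`, ring `B_j`**: at most as many nodes as at level `N`. -/
theorem r6e_count_M (fα : SetupMap SN SM) (R : Set κ)
    (hsInf : ∀ r ∈ R, ∃ w : SN.B, SN.redInf w = r) (hMInf : ∀ z : SM.B, SM.redInf z ∈ R)
    (tαInf : ∀ z, SM.redInf (fα.toB z) = SN.redInf z)
    (hfinN : {s : Ideal SN.B | SN.IsNode s}.Finite) :
    ∃ hfin : {t : Ideal SM.B | SM.IsNode t}.Finite,
      hfin.toFinset.card ≤ hfinN.toFinset.card :=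
  r6e_finite_of_injOn {t : Ideal SM.B | SM.IsNode t} {s : Ideal SN.B | SN.IsNode s} hfinN
    (fun t => t.comap fα.toB)
    (fun t ht => r6e_node_comap_α fα R hsInf hMInf tαInf t ht)
    (fun t ht t' ht' h => r6e_node_comap_α_inj fα R hsInf hMInf tαInf t t' ht ht' h)

end Setup

section D1

variable {K : Type*} [Field K] {k : Type*} [Field k]
  {A : ValuationSubring K} {π : A →+* k} {κ : Type*} [Field κ] [Algebra k κ]
  {F : Type*} [Field F] [Algebra K F]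

variable (S1 S2 : NodeSetup A π κ F) (hB : S1.B ≤ S2.B)
  (hInf : S1.vInf.O = S2.vInf.O) (hMid : S1.vMid.O = S2.vMid.O)
  (hZero : S1.vZero.O = S2.vZero.O)

include hInf hZero in
/-- **the count for `B_D1`**: at most as many nodes as for `B_j`. -/
theorem r6e_count_D1 (cond : Ideal S1.B)
    (hcov : ∀ t ∈ cond, TrfCover (Subring.inclusion hB) t)
    (hnc : ∀ 𝔪 : Ideal S1.B, S1.IsNode 𝔪 → ¬ cond ≤ 𝔪)
    (hfin2 : {t : Ideal S2.B | S2.IsNode t}.Finite) :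
    ∃ hfin : {t : Ideal S1.B | S1.IsNode t}.Finite,
      hfin.toFinset.card ≤ hfin2.toFinset.card :=
  r6e_finite_of_image {t : Ideal S2.B | S2.IsNode t} hfin2
    (fun t => t.comap (Subring.inclusion hB)) {t : Ideal S1.B | S1.IsNode t}
    (fun 𝔪 h𝔪 => trn_node_extend S1 S2 hB hInf hZero cond hcov hnc 𝔪 h𝔪)

include hInf hMid hZero in
/-- **the transversality at the nodes of `B_D1`** from the same for `B_j`. -/
theorem r6e_trans_D1 (cond : Ideal S1.B)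
    (hcov : ∀ t ∈ cond, TrfCover (Subring.inclusion hB) t)
    (hnc : ∀ 𝔪 : Ideal S1.B, S1.IsNode 𝔪 → ¬ cond ≤ 𝔪)
    (h2 : ∀ 𝔪' : Ideal S2.B, S2.IsNode 𝔪' → S2.pMid ≤ 𝔪' →
      (∃ a : S2.B, a ∈ S2.pInf ∧ a ∉ 𝔪' ^ 2 ⊔ S2.pMid) ∧
      (∃ b : S2.B, b ∈ S2.pZero ∧ b ∉ 𝔪' ^ 2 ⊔ S2.pMid))
    (𝔪 : Ideal S1.B) (h𝔪 : S1.IsNode 𝔪) (hmid : S1.pMid ≤ 𝔪) :
    (∃ a : S1.B, a ∈ S1.pInf ∧ a ∉ 𝔪 ^ 2 ⊔ S1.pMid) ∧
    (∃ b : S1.B, b ∈ S1.pZero ∧ b ∉ 𝔪 ^ 2 ⊔ S1.pMid) := by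
  obtain ⟨t, ht, ht𝔪⟩ := SetLike.not_le_iff_exists.1 (hnc 𝔪 h𝔪)
  have hc := hcov t ht
  haveI := h𝔪.1.isPrime
  have hι := Subring.inclusion_injective hB
  have hnode' : S2.IsNode (trfIdeal hc 𝔪) :=
    (trf_setup_isNode_iff hc 𝔪 h𝔪.1 ht𝔪 hInf hZero).2 h𝔪
  have hmid' : S2.pMid ≤ trfIdeal hc 𝔪 := (trf_setup_le_iff_mid hc 𝔪 ht𝔪 hMid).2 hmid
  obtain ⟨⟨a', ha', ha2⟩, ⟨b', hb', hb2⟩⟩ := h2 _ hnode' hmid'
  exact ⟨r6e_trans_transfer hc hι 𝔪 h𝔪.1 ht𝔪 S1.pInf S1.pMid S2.pInf S2.pMid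
      (trf_setup_comap_pInf S1 S2 hB hInf) (trf_setup_comap_pMid S1 S2 hB hMid) a' ha' ha2,
    r6e_trans_transfer hc hι 𝔪 h𝔪.1 ht𝔪 S1.pZero S1.pMid S2.pZero S2.pMid
      (trf_setup_comap_pZero S1 S2 hB hZero) (trf_setup_comap_pMid S1 S2 hB hMid) b' hb' hb2⟩

end D1

section Final

variable {K : Type*} [Field K] {k : Type*} [Field k]
  {A : ValuationSubring K} {π : A →+* k} {κ : Type*} [Field κ] [Algebra k κ]
  {FN FM : Type*} [Field FN] [Field FM] [Algebra K FN] [Algebra K FM]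

/-- **adapter**: `hpos` of `r6e_main` from the field `lift` of `Reg3CountHyp` -/
theorem r6e_hpos_of_lift (S : NodeSetup A π κ FM) {R' : Type*} [CommRing R'] (red' : R' →+* κ)
    (φ₁ : R' →+* S.vMid.O) (red_φ₁ : ∀ y, S.vMid.red (φ₁ y) = red' y)
    (cusps : Finset (Place k κ))
    (lift : ∀ w : Place k κ, w ∉ cusps → ∃ x : R', w.ord (red' x) = 1 ∧
      ((φ₁ x : S.vMid.O) : FM) ∈ S.B) :
    ∀ w : Place k κ, w ∉ cusps → ∃ z : S.B, S.redMid z ≠ 0 ∧ 0 < w.ord (S.redMid z) := by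
  intro w hw
  obtain ⟨x, hx, h1⟩ := lift w hw
  have hred : S.redMid ⟨((φ₁ x : S.vMid.O) : FM), h1⟩ = red' x := by
    rw [← red_φ₁ x]
    rfl
  refine ⟨⟨_, h1⟩, ?_, ?_⟩
  · rw [hred]
    intro h0
    rw [h0, Place.ord_zero] at hx
    exact absurd hx (by norm_num)
  · rw [hred, hx]
    norm_num

/-- **adapter**: `hcusp` of `r6e_main` from the incidence at the cuspidal places (`hIncM` of
`s36_htriC`) and the conductor: for `t ∈ cond` the product `t · j` lies in `B`. -/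
theorem r6e_hcusp_of_inc (S : NodeSetup A π κ FM) (cond : Ideal S.B) (jbar : κ)
    (cusps : Finset (Place k κ)) (hjc : ∀ c ∈ cusps, c.ord jbar < 0)
    (hj : ∀ t ∈ cond, ∃ u : S.B, S.redMid u = S.redMid t * jbar)
    (hIncM : ∀ c : Place k κ, (∀ z : S.B, 0 ≤ c.ord (S.redMid z)) →
      (∀ t ∈ cond, S.redMid t = 0 ∨ 0 < c.ord (S.redMid t)) →
      ∃ s : S.B, s ∈ S.pInf ∧ S.redMid s ≠ 0 ∧ c.ord (S.redMid s) = 0) :
    ∀ c ∈ cusps, (∀ z : S.B, 0 ≤ c.ord (S.redMid z)) →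
      ∃ s : S.B, s ∈ S.pInf ∧ S.redMid s ≠ 0 ∧ c.ord (S.redMid s) = 0 := by
  intro c hc haff
  refine hIncM c haff (fun t ht => ?_)
  by_cases h0 : S.redMid t = 0
  · exact Or.inl h0
  right
  obtain ⟨u, hu⟩ := hj t ht
  have hjn := hjc c hc
  have hj0 : jbar ≠ 0 := by
    rintro rfl
    rw [Place.ord_zero] at hjn
    exact absurd hjn (lt_irrefl _)
  have h1 := haff u
  rw [hu, c.ord_mul h0 hj0] at h1
  omega

variable {SN : NodeSetup A π κ FN} {SM : NodeSetup A π κ FM} (S1 : NodeSetup A π κ FM)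
  (hB : S1.B ≤ SM.B)
  (hInf : S1.vInf.O = SM.vInf.O) (hMid : S1.vMid.O = SM.vMid.O)
  (hZero : S1.vZero.O = SM.vZero.O)
  [IsDedekindDomain (S1.B ⧸ S1.pMid)]
  (hfrac : ∀ w : κ, ∃ a b : S1.B, S1.redMid b ≠ 0 ∧ w * S1.redMid b = S1.redMid a)
  (hnm : ¬ S1.pMid.IsMaximal)
  (fα fβ : SetupMap SN SM) (R : Set κ)
  (hsInf : ∀ r ∈ R, ∃ w : SN.B, SN.redInf w = r)
  (hsZero : ∀ r ∈ R, ∃ w : SN.B, SN.redZero w = r)
  (hMInf : ∀ z : SM.B, SM.redInf z ∈ R)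
  (hMMid : ∀ z : SM.B, SM.redMid z ∈ R)
  (tαInf : ∀ z, SM.redInf (fα.toB z) = SN.redInf z)
  (tαMid : ∀ z, SM.redMid (fα.toB z) = SN.redInf z)
  (tβMid : ∀ z, SM.redMid (fβ.toB z) = SN.redZero z)
  (hreg1Inf : ∀ s : Ideal SN.B, SN.IsNode s →
    ∃ x : SN.B, x ∈ SN.pInf ∧ x ∉ s ^ 2 ⊔ SN.pZero)
  (hreg1Zero : ∀ s : Ideal SN.B, SN.IsNode s →
    ∃ y : SN.B, y ∈ SN.pZero ∧ y ∉ s ^ 2 ⊔ SN.pInf)
  (cond : Ideal S1.B)
  (hcov : ∀ t ∈ cond, TrfCover (Subring.inclusion hB) t)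
  (hnc : ∀ 𝔪 : Ideal S1.B, S1.IsNode 𝔪 → ¬ cond ≤ 𝔪)

include hInf hMid hZero hfrac hnm hsInf hsZero hMMid tαMid tβMid hreg1Inf hreg1Zero hcov hnc in
/-- **`hnode3` of `r6e_main` for `B_D1`**: at a node place `c` the intersection number of
`C_mid` with `C_∞ ∪ C_0` is at most `2`. -/
theorem r6e_hnode3 (c : Place k κ) (𝔪 : Ideal S1.B) (h𝔪 : S1.IsNode 𝔪)
    (hc : R6eCentred S1 c 𝔪) :
    ∃ s : S1.B, s ∈ S1.pInf ∧ s ∈ S1.pZero ∧ S1.redMid s ≠ 0 ∧ c.ord (S1.redMid s) ≤ 2 := by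
  obtain ⟨⟨a, ha, ha2⟩, ⟨b, hb, hb2⟩⟩ := r6e_trans_D1 S1 SM hB hInf hMid hZero cond hcov hnc
    (fun 𝔪' h1 h2 => r6e_trans_of_reg1 fα fβ R hsInf hsZero hMMid tαMid tβMid hreg1Inf
      hreg1Zero 𝔪' h1 h2) 𝔪 h𝔪 (R6eCentred.pMid_le S1 hc)
  exact r6e_node_of_trans S1 hfrac hnm c 𝔪 h𝔪 hc a b ha hb ha2 hb2

include hInf hZero hsInf hMInf tαInf hcov hnc in
/-- **the count of the nodes of `B_D1`**: at most as many as at level `N`. -/
theorem r6e_count (hfinN : {s : Ideal SN.B | SN.IsNode s}.Finite) :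
    ∃ hfin : {t : Ideal S1.B | S1.IsNode t}.Finite,
      hfin.toFinset.card ≤ hfinN.toFinset.card := by
  obtain ⟨hfinM, hM⟩ := r6e_count_M fα R hsInf hMInf tαInf hfinN
  obtain ⟨hfin1, h1⟩ := r6e_count_D1 S1 SM hB hInf hZero cond hcov hnc hfinM
  exact ⟨hfin1, h1.trans hM⟩

include hInf hMid hZero hfrac hnm hsInf hsZero hMInf hMMid tαInf tαMid tβMid hreg1Inf hreg1Zero
  hcov hnc in
/-- **R6-e for `B_D1`**: the node places with (e1)–(e5), `hnode3` and the count discharged by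
REG1 at level `N`. -/
theorem r6e_concrete {n : ℕ}
    (hcountN : ∃ hfin : {s : Ideal SN.B | SN.IsNode s}.Finite, hfin.toFinset.card ≤ n)
    (q : S1.B) (hq : q ∈ S1.pMid)
    (htri : ∀ 𝔪 : Ideal S1.B, 𝔪.IsMaximal → q ∈ 𝔪 → S1.IsNode 𝔪 ∨
      (S1.pInf ≤ 𝔪 ∧ ¬ S1.pMid ≤ 𝔪 ∧ ¬ S1.pZero ≤ 𝔪) ∨
      (¬ S1.pInf ≤ 𝔪 ∧ S1.pMid ≤ 𝔪 ∧ ¬ S1.pZero ≤ 𝔪) ∨
      (¬ S1.pInf ≤ 𝔪 ∧ ¬ S1.pMid ≤ 𝔪 ∧ S1.pZero ≤ 𝔪))
    (cusps : Finset (Place k κ))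
    (aff : ∀ w : Place k κ, w ∉ cusps → ∀ z : S1.B, 0 ≤ w.ord (S1.redMid z))
    (hpos : ∀ w : Place k κ, w ∉ cusps → ∃ z : S1.B, S1.redMid z ≠ 0 ∧ 0 < w.ord (S1.redMid z))
    (hcusp : ∀ c ∈ cusps, (∀ z : S1.B, 0 ≤ c.ord (S1.redMid z)) →
      ∃ s : S1.B, s ∈ S1.pInf ∧ S1.redMid s ≠ 0 ∧ c.ord (S1.redMid s) = 0) :
    ∃ nodes : Finset (Place k κ), Disjoint nodes cusps ∧
      (∀ c ∈ nodes, ∀ s ∈ S1.pInf, S1.redMid s ≠ 0 → 0 < c.ord (S1.redMid s)) ∧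
      (∀ w : Place k κ, w ∉ cusps → w ∉ nodes →
        ∃ s : S1.B, s ∈ S1.pInf ∧ s ∈ S1.pZero ∧ S1.redMid s ≠ 0 ∧ w.ord (S1.redMid s) = 0) ∧
      (∀ t ∈ nodes,
        ∃ s : S1.B, s ∈ S1.pInf ∧ s ∈ S1.pZero ∧ S1.redMid s ≠ 0 ∧ t.ord (S1.redMid s) ≤ 2) ∧
      nodes.card ≤ n := by
  obtain ⟨hfinN, hN⟩ := hcountN
  obtain ⟨hfin1, h1⟩ := r6e_count S1 hB hInf hZero fα R hsInf hMInf tαInf cond hcov hnc hfinN
  obtain ⟨nodes, hd, hn, hnn, hnd, hcard⟩ := r6e_main S1 hfrac hnm hfin1 q hq htri cusps aff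
    hpos hcusp
    (r6e_hnode3 S1 hB hInf hMid hZero hfrac hnm fα fβ R hsInf hsZero hMMid tαMid tβMid
      hreg1Inf hreg1Zero cond hcov hnc)
  exact ⟨nodes, hd, hn, hnn, hnd, hcard.trans (h1.trans hN)⟩

end Final

end Fermat.Agent.S36lib

end
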