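import Mathlib
import Fermat.Agent.S36lib.Apply2Final
import Fermat.Agent.S36lib.Apply2Invert
import Fermat.Agent.S36lib.Reg2Inst
import Fermat.Agent.S36lib.Reg3Lq
import Fermat.Agent.S36lib.D1Hor
import Fermat.Agent.S36lib.TransferCover
import Fermat.Agent.S36lib.TransferNodes
import Fermat.Agent.S36lib.H1LocD1
import Fermat.Agent.S36lib.Reg3NodesTrans
import Fermat.Agent.S34lib.InfPlaceAL

/-!
# Item 83 (S36), piece D1-B, concrete (helper22): the transfer data for `s36Final`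

`SF = s36Final …` (ring `B_D1`), `SMj = nodeSetupMj …` (ring `B_j`), same three valuations.

* `trfc_s36D1_subset` : `D1 ⊆ cusps`;
* `trfc_hB : SF.B ≤ SMj.B`, `trfc_hInf`, `trfc_hMid`, `trfc_hZero` (`rfl`);
* `trfcCond : Ideal SF.B` : the conductor of `j` (`= trcCond`), `mem_trfcCond`;
* `trfc_hcov` : every `t` of the conductor is a cover element;
* `trfc_hcover` : the hypothesis `hcover` of `s36_trf_htri/_hufd/_hmid` with
  `cusp 𝔪 := trfcCond ≤ 𝔪`;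
* `trfc_hnode`, `trfc_hufd_node`, `trfc_htri` : `trn_hnode`, `trn_hufd_node`, `s36_trf_htri` for
  `SF`;
* `r6e_s36Final` : R6-e (`r6e_concrete`) for `SF`, over the pair `nodeSetupNj → nodeSetupMj`
  with the maps `r2iAlpha`, `r2iBeta` and their tables.

All proofs complete.
-/

set_option autoImplicit false
set_option linter.style.haveILetI false
set_option linter.unusedSectionVars false
set_option linter.unusedVariables false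
set_option synthInstance.maxHeartbeats 400000
set_option maxHeartbeats 4000000

noncomputable section

namespace Fermat.Agent.S36lib

open ModularCurve HahnSeries AlgebraicCurve
open Fermat.Agent.GoodRed Fermat.Agent.S24lib Fermat.Agent.S34lib Fermat.Agent.S37lib
  Fermat.Agent.HeckeBar Fermat.Agent.S35lib Fermat.Agent.GM

variable (A : ValuationSubring Kbar) (M' q : ℕ) [NeZero M'] [NeZero q]
variable (hq : q.Prime) (hqM : ¬ q ∣ M') (hA : A.LiesOverPrime q)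
variable {ζ : Kbarˣ} {E : FF (M' * q * q) →+* LaurentSeries Kbar}
variable (hζq : ζ ^ q = 1) (hζ : IsPrimitiveRoot (ζ : Kbar) q) (hE : IsMidExp M' q ζ E)
variable (R : ConstRed A (IsLocalRing.residue A)
      (↥(modularFunctionFieldFullC (IsLocalRing.ResidueField A) M')) (FF (M' * q * q)))
    (hR : IsSeriesRed R)

local notation "SF" => s36Final A M' q hq hqM hA hζq hζ hE R hR

/-- the setup of level `M' q²` with the ring `B_j` and the three valuations of `s36Final` -/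
abbrev trfcMj : NodeSetup (k0Val A) (k0Res A)
    (↥(modularFunctionFieldFullC (IsLocalRing.ResidueField A) M')) (f0Field A (M' * q * q)) :=
  nodeSetupMj A M' q hq hqM hA R hR (vmidSV A hq ((A.mem_nonunits_iff).mp hA) hζq hE)
    (vmid_hinto A hq hqM hA hζq hζ hE) (vmid_honto A hq hA hζq hE)

local notation "SMj" => trfcMj A M' q hq hqM hA hζq hζ hE R hR

local notation "κA" => Fk (IsLocalRing.ResidueField A) M'

/-- the cusps of `D1` are cusps -/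
theorem trfc_s36D1_subset : s36D1 M' q hq hqM ⊆ cuspSet (M' * q * q) := by
  intro w hw
  show jF (M' * q * q) ∉ w.toValuationSubring
  intro hj
  letI := (ecPi1 M' q).toAlgebra
  haveI := d1h_isScalarTower M' q
  haveI := d1h_algIsIntegral M' q
  have h1 := d1h_restrict_inf M' q hq hqM w hw
  have h2 : jF M' ∈ (w.restrict (FF M')).toValuationSubring := by
    rw [Place.restrict_toValuationSubring, ValuationSubring.mem_comap]
    show ecPi1 M' q (jF M') ∈ w.toValuationSubring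
    rw [lq_pi1_jF]
    exact hj
  rw [h1, ffMem_iff_ord_nonneg, infPlaceBar_ord_jF] at h2
  omega

/-- `B_D1 ≤ B_j` -/
theorem trfc_hB : (SF).B ≤ (SMj).B :=
  f0AffD_mono A (M' * q * q) (trfc_s36D1_subset M' q hq hqM) _ _ _

theorem trfc_hInf : (SF).vInf.O = (SMj).vInf.O := rfl

theorem trfc_hMid : (SF).vMid.O = (SMj).vMid.O := rfl

theorem trfc_hZero : (SF).vZero.O = (SMj).vZero.O := rfl

/-- **the conductor of `j` in `B_D1`**, as an ideal of `SF.B` -/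
def trfcCond : Ideal (SF).B :=
  trcCond A (s36D1 M' q hq hqM) (SeriesVal.ofConstRed R).O
    (vmidSV A hq ((A.mem_nonunits_iff).mp hA) hζq hE).O
    ((SeriesVal.ofConstRed R).comap (alW2 M' hq hqM)).O

theorem mem_trfcCond (t : (SF).B) :
    t ∈ trfcCond A M' q hq hqM hA hζq hζ hE R hR ↔
      ((t : f0Field A (M' * q * q)) : FF (M' * q * q)) * jF (M' * q * q) ∈
        offRegular (M' * q * q) (s36D1 M' q hq hqM) := Iff.rfl

/-- **the cover**: `B_j ⊆ B_D1[1/t]` for `t` in the conductor -/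
theorem trfc_hcov : ∀ t ∈ trfcCond A M' q hq hqM hA hζq hζ hE R hR,
    TrfCover (Subring.inclusion (trfc_hB A M' q hq hqM hA hζq hζ hE R hR)) t := by
  intro t ht
  refine trfCover_subring _ _ (trfc_hB A M' q hq hqM hA hζq hζ hE R hR) t (fun z hz => ?_)
  have hz' : z ∈ f0Aff A (M' * q * q) (SeriesVal.ofConstRed R).O
      (vmidSV A hq ((A.mem_nonunits_iff).mp hA) hζq hE).O
      ((SeriesVal.ofConstRed R).comap (alW2 M' hq hqM)).O := by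
    rw [f0Aff_eq_f0AffD]
    exact hz
  obtain ⟨n, hn⟩ := trc_mem A (s36D1 M' q hq hqM) _ _ _ (t : f0Field A (M' * q * q)) t.2 ht
    z hz'
  exact ⟨n, hn n le_rfl⟩

/-- **the hypothesis `hcover`** of `s36_trf_htri`, `s36_trf_hufd`, `s36_trf_hmid`, with
`cusp 𝔪 := trfcCond ≤ 𝔪` -/
theorem trfc_hcover (qB : (SF).B) : ∀ 𝔪 : Ideal (SF).B, 𝔪.IsMaximal → qB ∈ 𝔪 →
    ¬ (trfcCond A M' q hq hqM hA hζq hζ hE R hR ≤ 𝔪) →
    ∃ t : (SF).B, t ∉ 𝔪 ∧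
      TrfCover (Subring.inclusion (trfc_hB A M' q hq hqM hA hζq hζ hE R hR)) t := by
  intro 𝔪 _ _ hcu
  obtain ⟨t, ht, ht𝔪⟩ := SetLike.not_le_iff_exists.1 hcu
  exact ⟨t, ht𝔪, trfc_hcov A M' q hq hqM hA hζq hζ hE R hR t ht⟩

/-- **`hnode` for `SF`** from `hnode` for `B_j` -/
theorem trfc_hnode [IsDedekindDomain ((SF).B ⧸ (SF).pInf)] (hne : ¬ (SF).pZero ≤ (SF).pInf)
    (h2 : ∃ t : Ideal (SMj).B, (SMj).IsNode t ∧ (SMj).pMid ≤ t) :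
    ∃ t : Ideal (SF).B, (SF).IsNode t ∧ (SF).pMid ≤ t :=
  trn_hnode (SF) (SMj) (trfc_hB A M' q hq hqM hA hζq hζ hE R hR) rfl rfl rfl hne h2

/-- **(R5) for `SF`** from (R5) for `B_j` and "the nodes are not cuspidal" -/
theorem trfc_hufd_node
    (hnc : ∀ 𝔪 : Ideal (SF).B, (SF).IsNode 𝔪 →
      ¬ trfcCond A M' q hq hqM hA hζq hζ hE R hR ≤ 𝔪)
    (hufd2 : ∀ (𝔪' : Ideal (SMj).B) [𝔪'.IsMaximal], (SMj).IsNode 𝔪' →
      UniqueFactorizationMonoid (Localization.AtPrime 𝔪')) :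
    ∀ (𝔪 : Ideal (SF).B) [𝔪.IsMaximal], (SF).IsNode 𝔪 →
      UniqueFactorizationMonoid (Localization.AtPrime 𝔪) :=
  trn_hufd_node (SF) (SMj) (trfc_hB A M' q hq hqM hA hζq hζ hE R hR) rfl rfl
    (trfcCond A M' q hq hqM hA hζq hζ hE R hR)
    (trfc_hcov A M' q hq hqM hA hζq hζ hE R hR) hnc hufd2

/-- **`htri` for `SF`** from `htri` for `B_j` (INC-j) and the trichotomy at the cuspidal
maximal ideals (`s36_htriC`) -/
theorem trfc_htri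
    (htri2 : ∀ 𝔪' : Ideal (SMj).B, 𝔪'.IsMaximal → (SMj).constB (q : k0Val A) ∈ 𝔪' →
      (SMj).IsNode 𝔪' ∨
      ((SMj).pInf ≤ 𝔪' ∧ ¬ (SMj).pMid ≤ 𝔪' ∧ ¬ (SMj).pZero ≤ 𝔪') ∨
      (¬ (SMj).pInf ≤ 𝔪' ∧ (SMj).pMid ≤ 𝔪' ∧ ¬ (SMj).pZero ≤ 𝔪') ∨
      (¬ (SMj).pInf ≤ 𝔪' ∧ ¬ (SMj).pMid ≤ 𝔪' ∧ (SMj).pZero ≤ 𝔪'))
    (htriC : ∀ 𝔪 : Ideal (SF).B, 𝔪.IsMaximal → (SF).constB (q : k0Val A) ∈ 𝔪 →
      trfcCond A M' q hq hqM hA hζq hζ hE R hR ≤ 𝔪 → (SF).IsNode 𝔪 ∨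
      ((SF).pInf ≤ 𝔪 ∧ ¬ (SF).pMid ≤ 𝔪 ∧ ¬ (SF).pZero ≤ 𝔪) ∨
      (¬ (SF).pInf ≤ 𝔪 ∧ (SF).pMid ≤ 𝔪 ∧ ¬ (SF).pZero ≤ 𝔪) ∨
      (¬ (SF).pInf ≤ 𝔪 ∧ ¬ (SF).pMid ≤ 𝔪 ∧ (SF).pZero ≤ 𝔪)) :
    ∀ 𝔪 : Ideal (SF).B, 𝔪.IsMaximal → (SF).constB (q : k0Val A) ∈ 𝔪 → (SF).IsNode 𝔪 ∨
      ((SF).pInf ≤ 𝔪 ∧ ¬ (SF).pMid ≤ 𝔪 ∧ ¬ (SF).pZero ≤ 𝔪) ∨
      (¬ (SF).pInf ≤ 𝔪 ∧ (SF).pMid ≤ 𝔪 ∧ ¬ (SF).pZero ≤ 𝔪) ∨
      (¬ (SF).pInf ≤ 𝔪 ∧ ¬ (SF).pMid ≤ 𝔪 ∧ (SF).pZero ≤ 𝔪) :=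
  s36_trf_htri (SF) (SMj) (trfc_hB A M' q hq hqM hA hζq hζ hE R hR) rfl rfl rfl
    ((SF).constB (q : k0Val A))
    (fun 𝔪 => trfcCond A M' q hq hqM hA hζq hζ hE R hR ≤ 𝔪)
    (trfc_hcover A M' q hq hqM hA hζq hζ hE R hR _)
    (fun 𝔪' h1 h2 => htri2 𝔪' h1 h2) htriC

section R6e

variable (RN : ConstRed A (IsLocalRing.residue A)
    (↥(modularFunctionFieldFullC (IsLocalRing.ResidueField A) M')) (FF (M' * q)))
  (hRN : IsSeriesRed RN)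

local notation "SNj" => nodeSetupNj A M' q hq hqM hA RN hRN

/-- **R6-e for `s36Final`**: the node places of `C_mid`, with the fields `disj`, `nonnode`,
`node` of `Reg3CountHyp`, `hnode` of `reg3_hmid`, and the count `nodes.card ≤ n`. -/
theorem r6e_s36Final
    [IsDedekindDomain ((SF).B ⧸ (SF).pMid)]
    (hfrac : ∀ w : κA, ∃ a b : (SF).B, (SF).redMid b ≠ 0 ∧ w * (SF).redMid b = (SF).redMid a)
    (hnm : ¬ (SF).pMid.IsMaximal)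
    (Rset : Set κA)
    (hsInf : ∀ r ∈ Rset, ∃ w : (SNj).B, (SNj).redInf w = r)
    (hsZero : ∀ r ∈ Rset, ∃ w : (SNj).B, (SNj).redZero w = r)
    (hMInf : ∀ z : (SMj).B, (SMj).redInf z ∈ Rset)
    (hMMid : ∀ z : (SMj).B, (SMj).redMid z ∈ Rset)
    (hreg1Inf : ∀ s : Ideal (SNj).B, (SNj).IsNode s →
      ∃ x : (SNj).B, x ∈ (SNj).pInf ∧ x ∉ s ^ 2 ⊔ (SNj).pZero)
    (hreg1Zero : ∀ s : Ideal (SNj).B, (SNj).IsNode s →
      ∃ y : (SNj).B, y ∈ (SNj).pZero ∧ y ∉ s ^ 2 ⊔ (SNj).pInf)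
    (hnc : ∀ 𝔪 : Ideal (SF).B, (SF).IsNode 𝔪 →
      ¬ trfcCond A M' q hq hqM hA hζq hζ hE R hR ≤ 𝔪)
    {n : ℕ}
    (hcountN : ∃ hfin : {s : Ideal (SNj).B | (SNj).IsNode s}.Finite, hfin.toFinset.card ≤ n)
    (htri : ∀ 𝔪 : Ideal (SF).B, 𝔪.IsMaximal → (SF).constB (q : k0Val A) ∈ 𝔪 → (SF).IsNode 𝔪 ∨
      ((SF).pInf ≤ 𝔪 ∧ ¬ (SF).pMid ≤ 𝔪 ∧ ¬ (SF).pZero ≤ 𝔪) ∨
      (¬ (SF).pInf ≤ 𝔪 ∧ (SF).pMid ≤ 𝔪 ∧ ¬ (SF).pZero ≤ 𝔪) ∨
      (¬ (SF).pInf ≤ 𝔪 ∧ ¬ (SF).pMid ≤ 𝔪 ∧ (SF).pZero ≤ 𝔪))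
    (cusps : Finset (Place (IsLocalRing.ResidueField A) κA))
    (aff : ∀ w : Place (IsLocalRing.ResidueField A) κA, w ∉ cusps →
      ∀ z : (SF).B, 0 ≤ w.ord ((SF).redMid z))
    (hpos : ∀ w : Place (IsLocalRing.ResidueField A) κA, w ∉ cusps →
      ∃ z : (SF).B, (SF).redMid z ≠ 0 ∧ 0 < w.ord ((SF).redMid z))
    (hcusp : ∀ c ∈ cusps, (∀ z : (SF).B, 0 ≤ c.ord ((SF).redMid z)) →
      ∃ s : (SF).B, s ∈ (SF).pInf ∧ (SF).redMid s ≠ 0 ∧ c.ord ((SF).redMid s) = 0) :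
    ∃ nodes : Finset (Place (IsLocalRing.ResidueField A) κA), Disjoint nodes cusps ∧
      (∀ c ∈ nodes, ∀ s ∈ (SF).pInf, (SF).redMid s ≠ 0 → 0 < c.ord ((SF).redMid s)) ∧
      (∀ w : Place (IsLocalRing.ResidueField A) κA, w ∉ cusps → w ∉ nodes →
        ∃ s : (SF).B, s ∈ (SF).pInf ∧ s ∈ (SF).pZero ∧ (SF).redMid s ≠ 0 ∧
          w.ord ((SF).redMid s) = 0) ∧
      (∀ t ∈ nodes,
        ∃ s : (SF).B, s ∈ (SF).pInf ∧ s ∈ (SF).pZero ∧ (SF).redMid s ≠ 0 ∧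
          t.ord ((SF).redMid s) ≤ 2) ∧
      nodes.card ≤ n :=
  r6e_concrete (SN := SNj) (SM := SMj) (SF) (trfc_hB A M' q hq hqM hA hζq hζ hE R hR)
    rfl rfl rfl hfrac hnm
    (r2iAlpha A M' q hq hqM hA RN hRN R hR hζq hE (vmid_hinto A hq hqM hA hζq hζ hE)
      (vmid_honto A hq hA hζq hE))
    (r2iBeta A M' q hq hqM hA RN hRN R hR hζq hE (vmid_hinto A hq hqM hA hζq hζ hE)
      (vmid_honto A hq hA hζq hE))
    Rset hsInf hsZero hMInf hMMid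
    (r2i_tαInf A M' q hq hqM hA RN hRN R hR hζq hE _ _)
    (r2i_tαMid A M' q hq hqM hA RN hRN R hR hζq hE _ _)
    (r2i_tβMid A M' q hq hqM hA RN hRN R hR hζq hE _ _)
    hreg1Inf hreg1Zero (trfcCond A M' q hq hqM hA hζq hζ hE R hR)
    (trfc_hcov A M' q hq hqM hA hζq hζ hE R hR) hnc hcountN
    ((SF).constB (q : k0Val A))
    (inc_setup_const_mem_pMid (SF) (q : k0Val A) (a2i_res_q A q hA))
    htri cusps aff hpos hcusp

end R6e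

end Fermat.Agent.S36lib

end
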