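import Mathlib
import Fermat.Agent.S36lib.R5Final
import Fermat.Agent.S36lib.R5Div
import Fermat.Agent.S36lib.AlphaIntJ
import Fermat.Agent.S36lib.RangeN
import Fermat.Agent.S36lib.Reg1Done
import Fermat.Agent.S36lib.TransferConc
import Fermat.Agent.S36lib.IncConcFinal
import Fermat.Agent.S36lib.D1DedekindFinal
import Fermat.Agent.S36lib.W2jConc

/-!
# Item 83 (S36), the FINAL (R5), part 2 (helper29): the providers plugged in

`s36Final_r5_of_sum`: **(R5)** for `s36Final` from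
* `hSUM : RgnSum A M' q hq hqM RN` (SUM at the level `N = M' q`, W-2j),
* `IsNoetherianRing`, `IsIntegrallyClosed` for `B_j(M' q²)` (W-2j at the level `M`),
* the transfer data `hB`, `cond`, `hcov`, `hnc` (TransferConc / IncConcFinal).
Discharged here: `hintα` (`aij_hintα`), RANGE-N (`rgn_*`), `IsIntegrallyClosed B_j(N)`
(`r1c_isIntegrallyClosed`), `hdiv` (`r5d_hdiv`).
-/

set_option autoImplicit false
set_option linter.style.haveILetI false
set_option linter.unusedSectionVars false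
set_option linter.unusedVariables false
set_option synthInstance.maxHeartbeats 400000

noncomputable section

namespace Fermat.Agent.S36lib

open ModularCurve HahnSeries AlgebraicCurve
open Fermat.Agent.GoodRed Fermat.Agent.S24lib Fermat.Agent.S34lib Fermat.Agent.S37lib
  Fermat.Agent.HeckeBar Fermat.Agent.S35lib Fermat.Agent.GM Fermat.Agent.FFlib

variable (A : ValuationSubring Kbar) (M' q : ℕ) [NeZero M'] [NeZero q]
variable (hq : q.Prime) (hqM : ¬ q ∣ M') (hA : A.LiesOverPrime q)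
variable (RN : ConstRed A (IsLocalRing.residue A)
    (↥(modularFunctionFieldFullC (IsLocalRing.ResidueField A) M')) (FF (M' * q)))
  (hRN : IsSeriesRed RN)
variable (R : ConstRed A (IsLocalRing.residue A)
    (↥(modularFunctionFieldFullC (IsLocalRing.ResidueField A) M')) (FF (M' * q * q)))
  (hR : IsSeriesRed R)
variable {ζ : Kbarˣ} {E : FF (M' * q * q) →+* LaurentSeries Kbar}
variable (hζq : ζ ^ q = 1) (hζ : IsPrimitiveRoot (ζ : Kbar) q) (hE : IsMidExp M' q ζ E)

include hRN in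
/-- UFD at the nodes of `B_j(M' q²)`, from (SUM) at the level `N` and W-2j at the level `M`. -/
theorem r5f_hufd_Mj_of_sum (haux : IsAuxLevel q M') (hSUM : RgnSum A M' q hq hqM RN)
    [IsNoetherianRing (nodeSetupMj A M' q hq hqM hA R hR
      (vmidSV A hq ((A.mem_nonunits_iff).mp hA) hζq hE) (vmid_hinto A hq hqM hA hζq hζ hE)
      (vmid_honto A hq hA hζq hE)).B]
    [IsIntegrallyClosed (nodeSetupMj A M' q hq hqM hA R hR
      (vmidSV A hq ((A.mem_nonunits_iff).mp hA) hζq hE) (vmid_hinto A hq hqM hA hζq hζ hE)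
      (vmid_honto A hq hA hζq hE)).B]
    (t : Ideal (nodeSetupMj A M' q hq hqM hA R hR
      (vmidSV A hq ((A.mem_nonunits_iff).mp hA) hζq hE) (vmid_hinto A hq hqM hA hζq hζ hE)
      (vmid_honto A hq hA hζq hE)).B) [t.IsMaximal] (ht : (nodeSetupMj A M' q hq hqM hA R hR
      (vmidSV A hq ((A.mem_nonunits_iff).mp hA) hζq hE) (vmid_hinto A hq hqM hA hζq hζ hE)
      (vmid_honto A hq hA hζq hE)).IsNode t) :
    UniqueFactorizationMonoid (Localization.AtPrime t) := by
  haveI : IsIntegrallyClosed (nodeSetupNj A M' q hq hqM hA RN hRN).B :=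
    r1c_isIntegrallyClosed A M' q hq hqM hA RN hRN hSUM
  haveI : IsDedekindDomain (nodeSetupNj A M' q hq hqM hA RN hRN).redInf.range :=
    rgn_isDedekindDomain_inf A M' q hq hqM hA RN hRN haux hSUM
  exact r5f_hufd_Mj A M' q hq hqM hA RN hRN R hR hζq hζ hE haux
    (aij_hintα A M' q hq hqM hA RN hRN R hR hζq hE (vmid_hinto A hq hqM hA hζq hζ hE)
      (vmid_honto A hq hA hζq hE) haux hζ)
    (rgn_hiInf A M' q hq hqM hA RN hRN hSUM) (rgn_hiZero A M' q hq hqM hA RN hRN hSUM)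
    (rgn_hoInf A M' q hq hqM hA RN hRN haux) (rgn_hoZero A M' q hq hqM hA RN hRN haux)
    (rgn_hcl_inf A M' q hq hqM hA RN hRN haux hSUM)
    (r5d_hdiv A M' q hq hqM hA RN hRN R hR hζq hE (vmid_hinto A hq hqM hA hζq hζ hE)
      (vmid_honto A hq hA hζq hE)) t ht

include hRN in
/-- **(R5) for `s36Final`**, from (SUM) at the level `N`, W-2j at the level `M` and the transfer
data. -/
theorem s36Final_r5_of_sum (haux : IsAuxLevel q M') (hSUM : RgnSum A M' q hq hqM RN)
    [IsNoetherianRing (nodeSetupMj A M' q hq hqM hA R hR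
      (vmidSV A hq ((A.mem_nonunits_iff).mp hA) hζq hE) (vmid_hinto A hq hqM hA hζq hζ hE)
      (vmid_honto A hq hA hζq hE)).B]
    [IsIntegrallyClosed (nodeSetupMj A M' q hq hqM hA R hR
      (vmidSV A hq ((A.mem_nonunits_iff).mp hA) hζq hE) (vmid_hinto A hq hqM hA hζq hζ hE)
      (vmid_honto A hq hA hζq hE)).B]
    (hB : (s36Final A M' q hq hqM hA hζq hζ hE R hR).B ≤ (nodeSetupMj A M' q hq hqM hA R hR
      (vmidSV A hq ((A.mem_nonunits_iff).mp hA) hζq hE) (vmid_hinto A hq hqM hA hζq hζ hE)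
      (vmid_honto A hq hA hζq hE)).B)
    (cond : Ideal (s36Final A M' q hq hqM hA hζq hζ hE R hR).B)
    (hcov : ∀ t ∈ cond, TrfCover (Subring.inclusion hB) t)
    (hnc : ∀ 𝔪 : Ideal (s36Final A M' q hq hqM hA hζq hζ hE R hR).B,
      (s36Final A M' q hq hqM hA hζq hζ hE R hR).IsNode 𝔪 → ¬ cond ≤ 𝔪) :
    ∀ t : Ideal (s36Final A M' q hq hqM hA hζq hζ hE R hR).B,
      (s36Final A M' q hq hqM hA hζq hζ hE R hR).IsNode t → ∀ _ : t.IsMaximal,
      UniqueFactorizationMonoid (Localization.AtPrime t) := by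
  intro t ht htmax
  exact trn_hufd_node (s36Final A M' q hq hqM hA hζq hζ hE R hR)
    (nodeSetupMj A M' q hq hqM hA R hR
      (vmidSV A hq ((A.mem_nonunits_iff).mp hA) hζq hE) (vmid_hinto A hq hqM hA hζq hζ hE)
      (vmid_honto A hq hA hζq hE)) hB rfl rfl cond hcov hnc
    (fun 𝔪' _ hn => r5f_hufd_Mj_of_sum A M' q hq hqM hA RN hRN R hR hζq hζ hE haux hSUM 𝔪' hn)
    t ht

/-- **the nodes of `s36Final` are not cuspidal**, UNCONDITIONAL (`icm_final_hnc` with
`d1q_final_inf` and `liftInf_exists_red` plugged in) -/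
theorem s36Final_hnc (haux : IsAuxLevel q M') :
    ∀ 𝔪 : Ideal (s36Final A M' q hq hqM hA hζq hζ hE R hR).B,
      (s36Final A M' q hq hqM hA hζq hζ hE R hR).IsNode 𝔪 →
      ¬ trfcCond A M' q hq hqM hA hζq hζ hE R hR ≤ 𝔪 := by
  haveI : Fact q.Prime := ⟨hq⟩
  obtain ⟨R', -, hR', -⟩ := liftInf_exists_red M' A q haux hA
  obtain ⟨-, hDI, hfracI, hnmI⟩ := d1q_final_inf A M' q hq hqM hA hζq hζ hE R hR haux
  exact icm_final_hnc A M' q hq hqM hA hζq hζ hE R hR R' hR' haux hDI hfracI hnmI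
    (trfcCond A M' q hq hqM hA hζq hζ hE R hR) (fun t h => h)

include hRN in
/-- **(R5) for `s36Final`**, from W-2j ONLY: (SUM) at the level `N` and `IsNoetherianRing`,
`IsIntegrallyClosed` for `B_j(M' q²)`. -/
theorem s36Final_r5_of_w2j (haux : IsAuxLevel q M') (hSUM : RgnSum A M' q hq hqM RN)
    [IsNoetherianRing (nodeSetupMj A M' q hq hqM hA R hR
      (vmidSV A hq ((A.mem_nonunits_iff).mp hA) hζq hE) (vmid_hinto A hq hqM hA hζq hζ hE)
      (vmid_honto A hq hA hζq hE)).B]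
    [IsIntegrallyClosed (nodeSetupMj A M' q hq hqM hA R hR
      (vmidSV A hq ((A.mem_nonunits_iff).mp hA) hζq hE) (vmid_hinto A hq hqM hA hζq hζ hE)
      (vmid_honto A hq hA hζq hE)).B] :
    ∀ t : Ideal (s36Final A M' q hq hqM hA hζq hζ hE R hR).B,
      (s36Final A M' q hq hqM hA hζq hζ hE R hR).IsNode t → ∀ _ : t.IsMaximal,
      UniqueFactorizationMonoid (Localization.AtPrime t) :=
  s36Final_r5_of_sum A M' q hq hqM hA RN hRN R hR hζq hζ hE haux hSUM
    (trfc_hB A M' q hq hqM hA hζq hζ hE R hR) (trfcCond A M' q hq hqM hA hζq hζ hE R hR)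
    (trfc_hcov A M' q hq hqM hA hζq hζ hE R hR)
    (s36Final_hnc A M' q hq hqM hA R hR hζq hζ hE haux)

/-- **(R5) for `s36Final`, UNCONDITIONAL** (only `haux`): the local rings of `B_{D1}` at the
nodes are UFDs.  This is the field (R5) of `A2Inputs` for every admissible `(ζ, E, R)`. -/
theorem s36Final_r5_main (haux : IsAuxLevel q M') :
    ∀ t : Ideal (s36Final A M' q hq hqM hA hζq hζ hE R hR).B,
      (s36Final A M' q hq hqM hA hζq hζ hE R hR).IsNode t → ∀ _ : t.IsMaximal,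
      UniqueFactorizationMonoid (Localization.AtPrime t) := by
  obtain ⟨RN, hRN⟩ := exists_constRedInf_aux M' q hq hqM A hA
  obtain ⟨hN, -, hIC⟩ := w2j_levelM_gen A M' q hq hqM hA R hR hζq hζ hE
    (vmidSV A hq ((A.mem_nonunits_iff).mp hA) hζq hE) rfl (vmid_hinto A hq hqM hA hζq hζ hE)
    (vmid_honto A hq hA hζq hE)
  haveI := hN
  haveI := hIC
  exact s36Final_r5_of_w2j A M' q hq hqM hA RN hRN R hR hζq hζ hE haux
    (fun z h1 h3 => w2j_rgnSum A M' q hq hqM hA RN hRN z h1 h3)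

/-- **`A2Reg` for `s36Final`, UNCONDITIONAL** is then `s36Final_reg_of_ufd haux
(s36Final_r5_main …)` (helper18, `NodesFin2.lean`). -/
theorem s36Final_hufd_Mj_main (haux : IsAuxLevel q M')
    (t : Ideal (nodeSetupMj A M' q hq hqM hA R hR
      (vmidSV A hq ((A.mem_nonunits_iff).mp hA) hζq hE) (vmid_hinto A hq hqM hA hζq hζ hE)
      (vmid_honto A hq hA hζq hE)).B) [t.IsMaximal] (ht : (nodeSetupMj A M' q hq hqM hA R hR
      (vmidSV A hq ((A.mem_nonunits_iff).mp hA) hζq hE) (vmid_hinto A hq hqM hA hζq hζ hE)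
      (vmid_honto A hq hA hζq hE)).IsNode t) :
    UniqueFactorizationMonoid (Localization.AtPrime t) := by
  obtain ⟨RN, hRN⟩ := exists_constRedInf_aux M' q hq hqM A hA
  obtain ⟨hN, -, hIC⟩ := w2j_levelM_gen A M' q hq hqM hA R hR hζq hζ hE
    (vmidSV A hq ((A.mem_nonunits_iff).mp hA) hζq hE) rfl (vmid_hinto A hq hqM hA hζq hζ hE)
    (vmid_honto A hq hA hζq hE)
  haveI := hN
  haveI := hIC
  exact r5f_hufd_Mj_of_sum A M' q hq hqM hA RN hRN R hR hζq hζ hE haux
    (fun z h1 h3 => w2j_rgnSum A M' q hq hqM hA RN hRN z h1 h3) t ht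

end Fermat.Agent.S36lib
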