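import Mathlib
import Fermat.Agent.S36lib.Reg3Count

/-!
# Item 83 (S36), piece R-4/R-5 (helper5): REG3 AT THE CUSPIDAL POINTS of `C_mid`

With `B = B_D1` (functions regular off the cusps over `∞'`) the special fibre of `Spec B`
contains, on `C_mid`, the cuspidal points `P_c` over the cusps `c ≠ ∞'` of level `M'`.  There
`p_mid` is generated by `1 - π₃ j / π₁ j` (lead's note of 00:40Z, checked).  Abstract form:

* `reg3_exists_b`: for `a ∈ B` with `a = π₀ u` (`u ∈ O_mid`, `π₀ ^ e = q y₀`) and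
  `s ∈ p_∞ ∩ p_0`: `b := s a ^ e / q ∈ B`, `red_mid b = red_mid s · b₀ · (red u) ^ e`.
* `reg3_cusp_bound` **(T4)**: if the reductions of the elements of `B` are regular at the place
  `c` and `ord_c (dx₀) + ord_c (red u) ≤ -1`, `ord_c (red_mid s) = 0`, then
  `e · ord_c (dx₀) - ord_c (b₀) ≤ -e`:  the hypothesis `Reg3CountHyp.cusp` at `c`.
* `reg3_unit_quot`: the trick with explicit denominators: `J₁, J₂, J₃ ∈ F` (`= π₁ j, π₂ j, π₃ j`),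
  `b, w, b', w' ∈ B` with `b J₁ ^ n = J₂ w`, `b' J₃ ^ n = J₂ w'`, `B` closed under `n`-th roots
  (`T ^ n ∈ B ⟹ T ∈ B`); then `T := w b' J₃ / J₁ ∈ B`, and `a := w b' - T` is
  `(w b' / J₁) (J₁ - J₃)`.
* `Reg3CountHyp.exists_input_cusp`: after the count (`W(c) = -e`): `s a ^ e = q b₁` with
  `b₁` a unit at `c`.
* `reg3_cusp_dvd`, `reg3_cusp_ufm`: `p_mid B_P = a B_P` and `B_P` factorial at `P = P_c`.
-/

set_option autoImplicit false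
set_option linter.style.haveILetI false
set_option linter.unusedSectionVars false

noncomputable section

namespace Fermat.Agent.S36lib

open AlgebraicCurve KaehlerDifferential Fermat.Agent.RRlib Fermat.Agent.FFlib
  Fermat.Agent.S24lib

section Cusp

variable {K : Type*} [Field K] {k : Type*} [Field k] {A : ValuationSubring K} {π : A →+* k}
  {κ : Type*} [Field κ] [Algebra k κ] {F : Type*} [Field F] [Algebra K F]
  {S : NodeSetup A π κ F} {q : S.B} {e : ℕ}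

/-- the element `b = s a ^ e / q ∈ B` for `a = π₀ u ∈ B`, `π₀ ^ e = q y₀`, `s ∈ p_∞ ∩ p_0`,
and its reduction. -/
theorem reg3_exists_b (H : Reg3Hyp S q e) (π₀ y₀ u : S.vMid.O)
    (hpow : (π₀ : F) ^ e = (q : F) * (y₀ : F)) (a : S.B) (hau : (a : F) = (π₀ : F) * (u : F))
    (s : S.B) (hsInf : s ∈ S.pInf) (hsZero : s ∈ S.pZero) :
    ∃ b : S.B, s * a ^ e = q * b ∧
      S.redMid b = S.redMid s * S.vMid.red y₀ * S.vMid.red u ^ e := by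
  have hq : (q : F) ≠ 0 := fun h => H.q_ne (Subtype.ext h)
  set bF : F := (s : F) * (y₀ : F) * (u : F) ^ e with hbF
  have hqb : (q : F) * bF = (s : F) * (a : F) ^ e := by
    rw [hau, mul_pow, hpow, hbF]
    ring
  have hmid : bF ∈ S.vMid.O :=
    S.vMid.O.mul_mem _ _ (S.vMid.O.mul_mem _ _ (S.B_le_mid s.2) y₀.2) (S.vMid.O.pow_mem u.2 e)
  have hinf : bF ∈ S.vInf.O := by
    obtain ⟨s', hs', hss'⟩ := H.ramInf _ ((S.mem_pInf_iff s).1 hsInf)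
    have : bF = s' * (a : F) ^ e := by
      apply mul_left_cancel₀ hq
      rw [hqb, hss']
      ring
    rw [this]
    exact S.vInf.O.mul_mem _ _ hs' (S.vInf.O.pow_mem (S.B_le_inf a.2) e)
  have hzero : bF ∈ S.vZero.O := by
    obtain ⟨s', hs', hss'⟩ := H.ramZero _ ((S.mem_pZero_iff s).1 hsZero)
    have : bF = s' * (a : F) ^ e := by
      apply mul_left_cancel₀ hq
      rw [hqb, hss']
      ring
    rw [this]
    exact S.vZero.O.mul_mem _ _ hs' (S.vZero.O.pow_mem (S.B_le_zero a.2) e)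
  have hbB : bF ∈ S.B := by
    refine H.sat bF ⟨⟨hinf, hmid⟩, hzero⟩ ?_
    rw [hqb]
    exact S.B.mul_mem s.2 (S.B.pow_mem a.2 e)
  refine ⟨⟨bF, hbB⟩, Subtype.ext ?_, ?_⟩
  · push_cast
    rw [hqb]
  · show S.vMid.red ⟨bF, S.B_le_mid hbB⟩ = S.vMid.red ⟨(s : F), S.B_le_mid s.2⟩ * _ * _
    rw [← map_pow, ← map_mul, ← map_mul]
    congr 1

/-- **(T4) at a cusp `c` inside `Spec B`**: if the reductions of the elements of `B` are
regular at `c`, `a = π₀ u ∈ B`, `s ∈ p_∞ ∩ p_0` is a unit at `c` and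
`ord_c (dx₀) + ord_c (red u) ≤ -1`, then `e · ord_c (dx₀) - ord_c (b₀) ≤ -e`. -/
theorem reg3_cusp_bound (H : Reg3Hyp S q e) (π₀ y₀ u : S.vMid.O)
    (hpow : (π₀ : F) ^ e = (q : F) * (y₀ : F)) (hy₀ : S.vMid.red y₀ ≠ 0)
    (hu0 : S.vMid.red u ≠ 0) (a : S.B) (hau : (a : F) = (π₀ : F) * (u : F))
    (s : S.B) (hsInf : s ∈ S.pInf) (hsZero : s ∈ S.pZero) (hs0 : S.redMid s ≠ 0)
    (c : Place k κ) (haff : ∀ z : S.B, 0 ≤ c.ord (S.redMid z))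
    (hsc : c.ord (S.redMid s) = 0) (dx₀ : Ω[κ⁄k])
    (hdiff : c.ordDifferential dx₀ + c.ord (S.vMid.red u) ≤ -1) :
    (e : ℤ) * c.ordDifferential dx₀ - c.ord (S.vMid.red y₀) ≤ -(e : ℤ) := by
  obtain ⟨b, -, hredb⟩ := reg3_exists_b H π₀ y₀ u hpow a hau s hsInf hsZero
  have h0 := haff b
  rw [hredb, c.ord_mul (mul_ne_zero hs0 hy₀) (pow_ne_zero _ hu0), c.ord_mul hs0 hy₀,
    reg3_ord_pow, hsc] at h0
  have he : (0 : ℤ) ≤ e := Int.natCast_nonneg e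
  nlinarith [mul_le_mul_of_nonneg_left hdiff he]

/-- **the unit `π₃ j / π₁ j` with explicit denominators** (lead's trick).  `J₁, J₂, J₃ ∈ F`,
`b, w, b', w' ∈ B` with `b / w = J₂ / J₁ ^ n`, `b' / w' = J₂ / J₃ ^ n`, and `B` closed under
`n`-th roots.  Then `T := w b' J₃ / J₁ ∈ B` and `a := w b' - T = (w b' / J₁) (J₁ - J₃)`. -/
theorem reg3_unit_quot (B : Subring F) (n : ℕ) (hroot : ∀ T : F, T ^ n ∈ B → T ∈ B)
    (J₁ J₂ J₃ : F) (hJ₁ : J₁ ≠ 0) (hJ₂ : J₂ ≠ 0) (hJ₃ : J₃ ≠ 0) (b w b' w' : B)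
    (h : (b : F) * J₁ ^ n = J₂ * (w : F)) (h' : (b' : F) * J₃ ^ n = J₂ * (w' : F)) :
    ∃ T a : B, (T : F) * J₁ = (w : F) * (b' : F) * J₃ ∧
      (a : F) * J₁ = (w : F) * (b' : F) * (J₁ - J₃) ∧ a = w * b' - T := by
  set TF : F := (w : F) * (b' : F) * J₃ / J₁ with hTF
  have hTn : TF ^ n = ((w : F) * (b' : F)) ^ (n - 1) * ((b : F) * (w' : F)) ∨ n = 0 := by
    rcases Nat.eq_zero_or_pos n with hn | hn
    · exact Or.inr hn
    · left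
      have hn1 : n = (n - 1) + 1 := by omega
      have e1 : ((w : F) * (b' : F)) ^ n = ((w : F) * (b' : F)) ^ (n - 1) * ((w : F) * b') := by
        conv_lhs => rw [hn1, pow_succ]
      have hJ₁n : J₁ ^ n ≠ 0 := pow_ne_zero _ hJ₁
      have hcancel : J₂ * ((w : F) * (b' : F) * J₃ ^ n) = J₂ * ((b : F) * (w' : F) * J₁ ^ n) := by
        calc J₂ * ((w : F) * (b' : F) * J₃ ^ n) = ((b' : F) * J₃ ^ n) * (w : F) * J₂ := by ring
          _ = (J₂ * (w' : F)) * (w : F) * J₂ := by rw [h']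
          _ = (J₂ * (w : F)) * (w' : F) * J₂ := by ring
          _ = ((b : F) * J₁ ^ n) * (w' : F) * J₂ := by rw [h]
          _ = J₂ * ((b : F) * (w' : F) * J₁ ^ n) := by ring
      have key := mul_left_cancel₀ hJ₂ hcancel
      rw [hTF, div_pow, mul_pow, e1, div_eq_iff hJ₁n]
      calc ((w : F) * (b' : F)) ^ (n - 1) * ((w : F) * (b' : F)) * J₃ ^ n
          = ((w : F) * (b' : F)) ^ (n - 1) * ((w : F) * (b' : F) * J₃ ^ n) := by ring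
        _ = ((w : F) * (b' : F)) ^ (n - 1) * ((b : F) * (w' : F) * J₁ ^ n) := by rw [key]
        _ = ((w : F) * (b' : F)) ^ (n - 1) * ((b : F) * (w' : F)) * J₁ ^ n := by ring
  have hTB : TF ∈ B := by
    apply hroot
    rcases hTn with h1 | h0
    · rw [h1]
      exact B.mul_mem (B.pow_mem (B.mul_mem w.2 b'.2) _) (B.mul_mem b.2 w'.2)
    · rw [h0, pow_zero]
      exact B.one_mem
  refine ⟨⟨TF, hTB⟩, w * b' - ⟨TF, hTB⟩, ?_, ?_, rfl⟩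
  · show TF * J₁ = _
    rw [hTF]
    field_simp
  · show ((w : F) * (b' : F) - TF) * J₁ = _
    rw [hTF]
    field_simp

/-- a unit of a valuation ring (nonzero reduction) has its inverse in the ring -/
theorem reg3_inv_mem_of_red_ne_zero (v : ResVal A π κ F) (x : v.O) (hx : v.red x ≠ 0) :
    (x : F)⁻¹ ∈ v.O := by
  by_contra hni
  have hnu : (x : F) ∈ v.O.nonunits := by
    rw [ValuationSubring.mem_nonunits_iff]
    have hle : v.O.valuation (x : F) ≤ 1 := (v.O.valuation_le_one_iff _).2 x.2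
    rcases lt_or_eq_of_le hle with h | h
    · exact h
    · exfalso
      apply hni
      rw [← v.O.valuation_le_one_iff, map_inv₀, h, inv_one]
  exact hx ((v.red_eq_zero_iff x).2 hnu)

/-- **the data at a cuspidal point**: from `b / w = J₂ / J₁ ^ n`, `b' / w' = J₂ / J₃ ^ n`
(`J₁ = π₁ j`, `J₃ = π₃ j` units of `O_mid` with the same reduction `x̄₀`), `B` closed under
`n`-th roots: `a := w b' (1 - J₃ / J₁) ∈ B`, `a = (J₁ - J₃) u`, `red u = red (w b') / x̄₀`. -/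
theorem reg3_cusp_data (n : ℕ) (hroot : ∀ T : F, T ^ n ∈ S.B → T ∈ S.B)
    (J₁ J₃ : S.vMid.O) (x₀' : κ) (hJ₁red : S.vMid.red J₁ = x₀') (hx₀' : x₀' ≠ 0)
    (hJ₃ : (J₃ : F) ≠ 0) (J₂ : F) (hJ₂ : J₂ ≠ 0) (b w b' w' : S.B)
    (h : (b : F) * (J₁ : F) ^ n = J₂ * (w : F))
    (h' : (b' : F) * (J₃ : F) ^ n = J₂ * (w' : F)) :
    ∃ (a : S.B) (u : S.vMid.O), (a : F) = ((J₁ - J₃ : S.vMid.O) : F) * (u : F) ∧
      S.vMid.red u * x₀' = S.redMid w * S.redMid b' := by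
  have hJ₁0 : (J₁ : F) ≠ 0 := by
    intro h0
    apply hx₀'
    have : J₁ = 0 := Subtype.ext h0
    rw [← hJ₁red, this, map_zero]
  obtain ⟨T, a, -, ha, -⟩ := reg3_unit_quot S.B n hroot (J₁ : F) J₂ (J₃ : F) hJ₁0 hJ₂ hJ₃
    b w b' w' h h'
  have hinv : (J₁ : F)⁻¹ ∈ S.vMid.O :=
    reg3_inv_mem_of_red_ne_zero S.vMid J₁ (by rw [hJ₁red]; exact hx₀')
  have huO : (w : F) * (b' : F) * (J₁ : F)⁻¹ ∈ S.vMid.O :=
    S.vMid.O.mul_mem _ _ (S.vMid.O.mul_mem _ _ (S.B_le_mid w.2) (S.B_le_mid b'.2)) hinv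
  refine ⟨a, ⟨_, huO⟩, ?_, ?_⟩
  · have : (a : F) = (w : F) * (b' : F) * ((J₁ : F) - (J₃ : F)) / (J₁ : F) := by
      rw [eq_div_iff hJ₁0, ha]
    rw [this]
    push_cast
    field_simp
  · have e1 : (⟨(w : F) * (b' : F) * (J₁ : F)⁻¹, huO⟩ : S.vMid.O) * J₁ =
        ⟨(w : F), S.B_le_mid w.2⟩ * ⟨(b' : F), S.B_le_mid b'.2⟩ := by
      apply Subtype.ext
      push_cast
      field_simp
    rw [← hJ₁red, ← map_mul, e1, map_mul]
    rfl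

/-- **(T4) at a cusp `c` inside `Spec B`, from the explicit unit.** -/
theorem reg3_cusp_T4 (H : Reg3Hyp S q e) (n : ℕ) (hroot : ∀ T : F, T ^ n ∈ S.B → T ∈ S.B)
    (J₁ J₃ y₀ : S.vMid.O) (x₀' : κ) (hJ₁red : S.vMid.red J₁ = x₀') (hx₀' : x₀' ≠ 0)
    (hJ₃ : (J₃ : F) ≠ 0)
    (hpow : ((J₁ - J₃ : S.vMid.O) : F) ^ e = (q : F) * (y₀ : F)) (hy₀ : S.vMid.red y₀ ≠ 0)
    (J₂ : F) (hJ₂ : J₂ ≠ 0) (b w b' w' : S.B)
    (h : (b : F) * (J₁ : F) ^ n = J₂ * (w : F))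
    (h' : (b' : F) * (J₃ : F) ^ n = J₂ * (w' : F))
    (c : Place k κ) (haff : ∀ z : S.B, 0 ≤ c.ord (S.redMid z))
    (hw0 : S.redMid w ≠ 0) (hwc : c.ord (S.redMid w) = 0)
    (hb'0 : S.redMid b' ≠ 0) (hb'c : c.ord (S.redMid b') = 0)
    (s : S.B) (hsInf : s ∈ S.pInf) (hsZero : s ∈ S.pZero) (hs0 : S.redMid s ≠ 0)
    (hsc : c.ord (S.redMid s) = 0)
    (htame : c.ordDifferential (D k κ x₀') ≤ c.ord x₀' - 1) :
    (e : ℤ) * c.ordDifferential (D k κ x₀') - c.ord (S.vMid.red y₀) ≤ -(e : ℤ) := by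
  obtain ⟨a, u, hau, hu⟩ := reg3_cusp_data n hroot J₁ J₃ x₀' hJ₁red hx₀' hJ₃ J₂ hJ₂ b w b' w'
    h h'
  have hu0 : S.vMid.red u ≠ 0 := by
    intro h0
    rw [h0, zero_mul] at hu
    exact mul_ne_zero hw0 hb'0 hu.symm
  have hordu : c.ord (S.vMid.red u) + c.ord x₀' = 0 := by
    have := congrArg c.ord hu
    rw [c.ord_mul hu0 hx₀', c.ord_mul hw0 hb'0, hwc, hb'c] at this
    linarith
  exact reg3_cusp_bound H (J₁ - J₃) y₀ u hpow hy₀ hu0 a hau s hsInf hsZero hs0 c haff hsc _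
    (by linarith)

end Cusp

section AfterCount

variable {K : Type*} [Field K] {k : Type*} [Field k] {A : ValuationSubring K} {π : A →+* k}
  {κ : Type*} [Field κ] [Algebra k κ] {F : Type*} [Field F] [Algebra K F]
  {S : NodeSetup A π κ F} {q : S.B} {e : ℕ} {R' : Type*} [CommRing R']
  {red' : R' →+* κ} {φ₁ φ₂ : R' →+* S.vMid.O} {x₀ : R'} {y₀ : S.vMid.O}
  {cusps nodes : Finset (Place k κ)} [IsAlgClosed k] {xs : κ} [hsep : FFSep k xs]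

include hsep in
/-- **after the count**: at a cusp `c`, for `a = π₀ u ∈ B` with
`ord_c (dx₀) + ord_c (red u) = -1` and `s ∈ p_∞ ∩ p_0` a unit at `c`:
`s a ^ e = q b` with `b ∈ B` a unit at `c`. -/
theorem Reg3CountHyp.exists_unit_cusp (H : Reg3Hyp S q e)
    (C : Reg3CountHyp S q e R' red' φ₁ φ₂ x₀ y₀ cusps nodes) (c : Place k κ) (hc : c ∈ cusps)
    (u : S.vMid.O) (hu0 : S.vMid.red u ≠ 0) (a : S.B)
    (hau : (a : F) = ((φ₁ x₀ - φ₂ x₀ : S.vMid.O) : F) * (u : F))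
    (s : S.B) (hsInf : s ∈ S.pInf) (hsZero : s ∈ S.pZero) (hs0 : S.redMid s ≠ 0)
    (hsc : c.ord (S.redMid s) = 0)
    (hdiff : c.ordDifferential (D k κ (red' x₀)) + c.ord (S.vMid.red u) = -1) :
    ∃ b : S.B, a ∈ S.pMid ∧ s * a ^ e = q * b ∧ S.redMid b ≠ 0 ∧ c.ord (S.redMid b) = 0 := by
  classical
  obtain ⟨b, hsb, hredb⟩ := reg3_exists_b H (φ₁ x₀ - φ₂ x₀) y₀ u C.pow_eq a hau s hsInf hsZero
  have hcn : c ∉ nodes := fun h => (Finset.disjoint_left.1 C.disj h) hc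
  have hW := C.W_eq (xs := xs) H c
  rw [if_neg hcn, if_pos hc] at hW
  have hamid : a ∈ S.pMid := by
    show S.redMid a = 0
    show S.vMid.red ⟨(a : F), S.B_le_mid a.2⟩ = 0
    have : (⟨(a : F), S.B_le_mid a.2⟩ : S.vMid.O) = (φ₁ x₀ - φ₂ x₀) * u := Subtype.ext hau
    rw [this, map_mul, map_sub, C.red_φ₁, C.red_φ₂, sub_self, zero_mul]
  refine ⟨b, hamid, hsb, ?_, ?_⟩
  · rw [hredb]
    exact mul_ne_zero (mul_ne_zero hs0 C.red_y₀) (pow_ne_zero _ hu0)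
  · rw [hredb, c.ord_mul (mul_ne_zero hs0 C.red_y₀) (pow_ne_zero _ hu0),
      c.ord_mul hs0 C.red_y₀, reg3_ord_pow, hsc]
    have h1 : c.ord (S.vMid.red u) = -1 - c.ordDifferential (D k κ (red' x₀)) := by linarith
    rw [h1]
    linear_combination -hW

include hsep in
/-- **REG3 at a cuspidal point `P = P_c` of `C_mid`** (elementwise form): with the explicit
unit data `b / w = J₂ / (φ₁ x₀) ^ n`, `b' / w' = J₂ / (φ₂ x₀) ^ n` (`w, b'` units at `c`),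
tameness at `c`, and `s ∈ p_∞ ∩ p_0` a unit at `c`:  `p_mid B_P` is principal. -/
theorem reg3_cusp_input (H : Reg3Hyp S q e)
    (C : Reg3CountHyp S q e R' red' φ₁ φ₂ x₀ y₀ cusps nodes) (c : Place k κ) (hc : c ∈ cusps)
    (n : ℕ) (hroot : ∀ T : F, T ^ n ∈ S.B → T ∈ S.B)
    (hx₀ : red' x₀ ≠ 0) (hJ₃ : ((φ₂ x₀ : S.vMid.O) : F) ≠ 0)
    (J₂ : F) (hJ₂ : J₂ ≠ 0) (b w b' w' : S.B)
    (h : (b : F) * ((φ₁ x₀ : S.vMid.O) : F) ^ n = J₂ * (w : F))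
    (h' : (b' : F) * ((φ₂ x₀ : S.vMid.O) : F) ^ n = J₂ * (w' : F))
    (hw0 : S.redMid w ≠ 0) (hwc : c.ord (S.redMid w) = 0)
    (hb'0 : S.redMid b' ≠ 0) (hb'c : c.ord (S.redMid b') = 0)
    (s : S.B) (hsInf : s ∈ S.pInf) (hsZero : s ∈ S.pZero) (hs0 : S.redMid s ≠ 0)
    (hsc : c.ord (S.redMid s) = 0)
    (htame : c.ordDifferential (D k κ (red' x₀)) = c.ord (red' x₀) - 1)
    (P : Ideal S.B) (hP : ∀ z : S.B, S.redMid z ≠ 0 → c.ord (S.redMid z) = 0 → z ∉ P) :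
    ∃ π₀ w₁ b₁ : S.B, π₀ ∈ S.pMid ∧ w₁ ∉ P ∧ b₁ ∉ P ∧ w₁ * π₀ ^ e = q * b₁ := by
  obtain ⟨a, u, hau, hu⟩ := reg3_cusp_data n hroot (φ₁ x₀) (φ₂ x₀) (red' x₀) (C.red_φ₁ x₀) hx₀
    hJ₃ J₂ hJ₂ b w b' w' h h'
  have hu0 : S.vMid.red u ≠ 0 := by
    intro h0
    rw [h0, zero_mul] at hu
    exact mul_ne_zero hw0 hb'0 hu.symm
  have hordu : c.ord (S.vMid.red u) + c.ord (red' x₀) = 0 := by
    have := congrArg c.ord hu
    rw [c.ord_mul hu0 hx₀, c.ord_mul hw0 hb'0, hwc, hb'c] at this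
    linarith
  obtain ⟨b₁, hamid, hsb, hb0, hbc⟩ := C.exists_unit_cusp (xs := xs) H c hc u hu0 a hau s
    hsInf hsZero hs0 hsc (by linarith)
  exact ⟨a, s, b₁, hamid, hP s hs0 hsc, hP b₁ hb0 hbc, hsb⟩

include hsep in
/-- **REG3 at a cuspidal point of `C_mid`**: `p_mid B_P = π₀ B_P`. -/
theorem reg3_cusp_dvd (H : Reg3Hyp S q e)
    (C : Reg3CountHyp S q e R' red' φ₁ φ₂ x₀ y₀ cusps nodes) (c : Place k κ) (hc : c ∈ cusps)
    (n : ℕ) (hroot : ∀ T : F, T ^ n ∈ S.B → T ∈ S.B)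
    (hx₀ : red' x₀ ≠ 0) (hJ₃ : ((φ₂ x₀ : S.vMid.O) : F) ≠ 0)
    (J₂ : F) (hJ₂ : J₂ ≠ 0) (b w b' w' : S.B)
    (h : (b : F) * ((φ₁ x₀ : S.vMid.O) : F) ^ n = J₂ * (w : F))
    (h' : (b' : F) * ((φ₂ x₀ : S.vMid.O) : F) ^ n = J₂ * (w' : F))
    (hw0 : S.redMid w ≠ 0) (hwc : c.ord (S.redMid w) = 0)
    (hb'0 : S.redMid b' ≠ 0) (hb'c : c.ord (S.redMid b') = 0)
    (s : S.B) (hsInf : s ∈ S.pInf) (hsZero : s ∈ S.pZero) (hs0 : S.redMid s ≠ 0)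
    (hsc : c.ord (S.redMid s) = 0)
    (htame : c.ordDifferential (D k κ (red' x₀)) = c.ord (red' x₀) - 1)
    (P : Ideal S.B) [P.IsPrime] (hmid : S.pMid ≤ P) (hinf : ¬ S.pInf ≤ P)
    (hzero : ¬ S.pZero ≤ P)
    (hP : ∀ z : S.B, S.redMid z ≠ 0 → c.ord (S.redMid z) = 0 → z ∉ P) :
    ∃ π₀ : S.B, π₀ ∈ S.pMid ∧ ∀ z ∈ S.pMid, ∃ w' c : S.B, w' ∉ P ∧ w' * z = π₀ * c := by
  obtain ⟨π₀, w₁, b₁, hπ₀, -, hb₁, hπ⟩ := reg3_cusp_input (xs := xs) H C c hc n hroot hx₀ hJ₃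
    J₂ hJ₂ b w b' w' h h' hw0 hwc hb'0 hb'c s hsInf hsZero hs0 hsc htame P hP
  exact ⟨π₀, hπ₀, reg3_mid_dvd H P hmid hinf hzero π₀ w₁ b₁ hb₁ hπ⟩

include hsep in
/-- **REG3 at a cuspidal point of `C_mid`**: `B_P` is factorial. -/
theorem reg3_cusp_ufm [IsNoetherianRing S.B] [IsDedekindDomain (S.B ⧸ S.pMid)]
    (H : Reg3Hyp S q e)
    (C : Reg3CountHyp S q e R' red' φ₁ φ₂ x₀ y₀ cusps nodes) (c : Place k κ) (hc : c ∈ cusps)
    (n : ℕ) (hroot : ∀ T : F, T ^ n ∈ S.B → T ∈ S.B)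
    (hx₀ : red' x₀ ≠ 0) (hJ₃ : ((φ₂ x₀ : S.vMid.O) : F) ≠ 0)
    (J₂ : F) (hJ₂ : J₂ ≠ 0) (b w b' w' : S.B)
    (h : (b : F) * ((φ₁ x₀ : S.vMid.O) : F) ^ n = J₂ * (w : F))
    (h' : (b' : F) * ((φ₂ x₀ : S.vMid.O) : F) ^ n = J₂ * (w' : F))
    (hw0 : S.redMid w ≠ 0) (hwc : c.ord (S.redMid w) = 0)
    (hb'0 : S.redMid b' ≠ 0) (hb'c : c.ord (S.redMid b') = 0)
    (s : S.B) (hsInf : s ∈ S.pInf) (hsZero : s ∈ S.pZero) (hs0 : S.redMid s ≠ 0)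
    (hsc : c.ord (S.redMid s) = 0)
    (htame : c.ordDifferential (D k κ (red' x₀)) = c.ord (red' x₀) - 1)
    (P : Ideal S.B) [P.IsPrime] (hmid : S.pMid ≤ P) (hne : S.pMid ≠ P) (hinf : ¬ S.pInf ≤ P)
    (hzero : ¬ S.pZero ≤ P)
    (hP : ∀ z : S.B, S.redMid z ≠ 0 → c.ord (S.redMid z) = 0 → z ∉ P) :
    UniqueFactorizationMonoid (Localization.AtPrime P) := by
  obtain ⟨π₀, w₁, b₁, -, hw₁, hb₁, hπ⟩ := reg3_cusp_input (xs := xs) H C c hc n hroot hx₀ hJ₃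
    J₂ hJ₂ b w b' w' h h' hw0 hwc hb'0 hb'c s hsInf hsZero hs0 hsc htame P hP
  exact reg3_mid_ufm H P hmid hne hinf hzero π₀ w₁ b₁ hw₁ hb₁ hπ

end AfterCount

end Fermat.Agent.S36lib

end
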