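import Mathlib
import Fermat.Agent.S36lib.Reg3Cusp

/-!
# Item 83 (S36), piece R-6 (helper5): REG3, the final assembly (abstract)

`S : NodeSetup`, `H : Reg3Hyp S q e`, `C : Reg3CountHyp …` (the count, `Reg3Count.lean`).
A maximal ideal `𝔪 ⊇ p_mid` of `B` with a place `c` of `κ` as CENTER (`hP1`, `hP2`: helper22's
dictionary `PointDict.lean`), not containing `p_∞`:

* `c` is not a node (`hnode`: at the nodes every element of `p_∞` vanishes);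
* if `c` is a cusp: the cusp data `Reg3CuspDataAt` ((J2), (L-q), TAME, INC at cusps) and
  `reg3_cusp_input`;
* otherwise `Reg3CountHyp.exists_input`.

Output = the hypotheses `hmid`, `hufd` of `s36_h1_hloc` (helper26, `H1Loc.lean`):
`∃ π₀ w₁ b, π₀ ∈ p_mid ∧ w₁ ∉ 𝔪 ∧ b ∉ 𝔪 ∧ w₁ π₀ ^ e = q b`, and `B_𝔪` factorial.

* `Reg3CuspDataAt`: the data at a cusp;
* `reg3_aff_of_center`: the reductions of `B` are regular at a center;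
* `Reg3CountHyp.of_cuspData`: the count hypotheses, with the field `cusp` (T4) from the cusp
  data (at `c ≠ c_∞`) and from the bound at `c_∞`;
* `reg3_final_input`, `reg3_final_dvd`, `reg3_final_ufm`.
-/

set_option autoImplicit false
set_option linter.style.haveILetI false
set_option linter.unusedSectionVars false

noncomputable section

namespace Fermat.Agent.S36lib

open AlgebraicCurve KaehlerDifferential Fermat.Agent.RRlib Fermat.Agent.FFlib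
  Fermat.Agent.S24lib

section Final

variable {K : Type*} [Field K] {k : Type*} [Field k] {A : ValuationSubring K} {π : A →+* k}
  {κ : Type*} [Field κ] [Algebra k κ] {F : Type*} [Field F] [Algebra K F]
  {S : NodeSetup A π κ F} {q : S.B} {e : ℕ} {R' : Type*} [CommRing R']
  {red' : R' →+* κ} {φ₁ φ₂ : R' →+* S.vMid.O} {x₀ : R'} {y₀ : S.vMid.O}
  {cusps nodes : Finset (Place k κ)}

/-- **the data at a cusp `c`** of `C_mid` (not the cusp `∞'`): `b / w = J₂ / (φ₁ x₀) ^ n`,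
`b' / w' = J₂ / (φ₂ x₀) ^ n` with `b, w, b', w' ∈ B`, `w`, `b'` units at `c` ((J2) and (L-q)),
`B` closed under `n`-th roots, `s ∈ p_∞ ∩ p_0` a unit at `c` (INC at the cusps), and `x̄₀` tamely
ramified at `c`. -/
def Reg3CuspDataAt (S : NodeSetup A π κ F) (red' : R' →+* κ) (φ₁ φ₂ : R' →+* S.vMid.O) (x₀ : R')
    (c : Place k κ) : Prop :=
  ∃ (n : ℕ) (J₂ : F) (b w b' w' s : S.B), (∀ T : F, T ^ n ∈ S.B → T ∈ S.B) ∧ J₂ ≠ 0 ∧
    (b : F) * ((φ₁ x₀ : S.vMid.O) : F) ^ n = J₂ * (w : F) ∧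
    (b' : F) * ((φ₂ x₀ : S.vMid.O) : F) ^ n = J₂ * (w' : F) ∧
    S.redMid w ≠ 0 ∧ c.ord (S.redMid w) = 0 ∧ S.redMid b' ≠ 0 ∧ c.ord (S.redMid b') = 0 ∧
    s ∈ S.pInf ∧ s ∈ S.pZero ∧ S.redMid s ≠ 0 ∧ c.ord (S.redMid s) = 0 ∧
    c.ordDifferential (D k κ (red' x₀)) = c.ord (red' x₀) - 1

/-- the reductions of the elements of `B` are regular at the center of a proper ideal -/
theorem reg3_aff_of_center (c : Place k κ) (𝔪 : Ideal S.B) (h𝔪 : 𝔪 ≠ ⊤)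
    (hP2 : ∀ z : S.B, z ∉ 𝔪 → S.redMid z ≠ 0 ∧ c.ord (S.redMid z) = 0) (z : S.B) :
    0 ≤ c.ord (S.redMid z) := by
  by_cases hz : z ∈ 𝔪
  · have h1 : z + 1 ∉ 𝔪 := by
      intro h
      apply h𝔪
      rw [Ideal.eq_top_iff_one]
      have : (1 : S.B) = (z + 1) - z := by ring
      rw [this]
      exact 𝔪.sub_mem h hz
    obtain ⟨h0, hord⟩ := hP2 _ h1
    rw [map_add, map_one] at h0 hord
    by_contra hneg
    have hneg' : c.ord (S.redMid z) < 0 := not_le.mp hneg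
    have hz0 : S.redMid z ≠ 0 := by
      intro h
      rw [h, c.ord_zero] at hneg'
      exact lt_irrefl _ hneg'
    have hlt : c.ord (S.redMid z) < c.ord (1 : κ) := by
      rw [c.ord_one]
      exact hneg'
    have := hw_ord_add_eq_of_lt c hz0 one_ne_zero hlt
    rw [hord] at this
    omega
  · exact (hP2 z hz).2.ge

section RR

variable [IsAlgClosed k] {xs : κ} [hsep : FFSep k xs]

include hsep in
/-- **the count hypotheses from the cusp data**: all the fields of `Reg3CountHyp` but `cusp`,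
the bound (T4) at one cusp `c_∞` (`Reg3Inf.lean`), and at the other cusps the regularity of the
reductions of `B` and the cusp data. -/
theorem Reg3CountHyp.of_cuspData (H : Reg3Hyp S q e)
    (red'_surjective : Function.Surjective red')
    (red_φ₁ : ∀ y, S.vMid.red (φ₁ y) = red' y) (red_φ₂ : ∀ y, S.vMid.red (φ₂ y) = red' y)
    (pow_eq : ((φ₁ x₀ - φ₂ x₀ : S.vMid.O) : F) ^ e = (q : F) * (y₀ : F))
    (red_y₀ : S.vMid.red y₀ ≠ 0)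
    (unr : ∀ y : R', red' y = 0 →
      ∃ u : S.vMid.O, S.vMid.red u = 0 ∧ φ₁ y - φ₂ y = (φ₁ x₀ - φ₂ x₀) * u)
    (const : ∀ c : k, ∃ y : R', red' y = algebraMap k κ c ∧ φ₁ y = φ₂ y)
    (disj : Disjoint nodes cusps)
    (cInf : Place k κ)
    (aff : ∀ w : Place k κ, w ≠ cInf → ∀ z : S.B, 0 ≤ w.ord (S.redMid z))
    (hcInf : cInf ∈ cusps)
    (lift : ∀ w : Place k κ, w ∉ cusps → ∃ x : R', w.ord (red' x) = 1 ∧
      ((φ₁ x : S.vMid.O) : F) ∈ S.B ∧ ((φ₂ x : S.vMid.O) : F) ∈ S.B)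
    (nonnode : ∀ w : Place k κ, w ∉ cusps → w ∉ nodes →
      ∃ s : S.B, s ∈ S.pInf ∧ s ∈ S.pZero ∧ S.redMid s ≠ 0 ∧ w.ord (S.redMid s) = 0)
    (node : ∀ t ∈ nodes,
      ∃ s : S.B, s ∈ S.pInf ∧ s ∈ S.pZero ∧ S.redMid s ≠ 0 ∧ t.ord (S.redMid s) ≤ 2)
    (hx₀ : red' x₀ ≠ 0) (hJ₃ : ((φ₂ x₀ : S.vMid.O) : F) ≠ 0)
    (cuspInf : (e : ℤ) * cInf.ordDifferential (D k κ (red' x₀)) - cInf.ord (S.vMid.red y₀)
      ≤ -(e : ℤ))
    (cuspData : ∀ c ∈ cusps, c ≠ cInf → Reg3CuspDataAt S red' φ₁ φ₂ x₀ c)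
    (num : 2 * (nodes.card : ℤ) - e * cusps.card ≤ (e : ℤ) * (2 * (genusFF k κ : ℤ) - 2)) :
    Reg3CountHyp S q e R' red' φ₁ φ₂ x₀ y₀ cusps nodes where
  red'_surjective := red'_surjective
  red_φ₁ := red_φ₁
  red_φ₂ := red_φ₂
  pow_eq := pow_eq
  red_y₀ := red_y₀
  unr := unr
  const := const
  disj := disj
  aff := fun w hw z => aff w (fun h => hw (h ▸ hcInf)) z
  lift := lift
  nonnode := nonnode
  node := node
  cusp := by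
    intro c hc
    by_cases hcc : c = cInf
    · rw [hcc]
      exact cuspInf
    · obtain ⟨n, J₂, b, w, b', w', s, hroot, hJ₂, h, h', hw0, hwc, hb'0, hb'c, hsInf, hsZero,
        hs0, hsc, htame⟩ := cuspData c hc hcc
      exact reg3_cusp_T4 H n hroot (φ₁ x₀) (φ₂ x₀) y₀ (red' x₀) (red_φ₁ x₀) hx₀ hJ₃ pow_eq
        red_y₀ J₂ hJ₂ b w b' w' h h' c (aff c hcc) hw0 hwc hb'0 hb'c s hsInf hsZero hs0 hsc
        htame.le
  num := num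

include hsep in
/-- **REG3, final form (input of the local criterion).**  `𝔪` a proper ideal of `B` with center
the place `c` of `κ`, not containing `p_∞`: `w₁ π₀ ^ e = q b` with `π₀ ∈ p_mid`,
`w₁, b ∉ 𝔪`. -/
theorem reg3_final_input (H : Reg3Hyp S q e)
    (C : Reg3CountHyp S q e R' red' φ₁ φ₂ x₀ y₀ cusps nodes)
    (hx₀ : red' x₀ ≠ 0) (hJ₃ : ((φ₂ x₀ : S.vMid.O) : F) ≠ 0)
    (hnode : ∀ c ∈ nodes, ∀ s ∈ S.pInf, S.redMid s ≠ 0 → 0 < c.ord (S.redMid s))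
    (cuspData : ∀ c ∈ cusps, (∀ z : S.B, 0 ≤ c.ord (S.redMid z)) →
      Reg3CuspDataAt S red' φ₁ φ₂ x₀ c)
    (𝔪 : Ideal S.B) (h𝔪 : 𝔪 ≠ ⊤) (hinf : ¬ S.pInf ≤ 𝔪) (c : Place k κ)
    (hP1 : ∀ z : S.B, S.redMid z ≠ 0 → c.ord (S.redMid z) = 0 → z ∉ 𝔪)
    (hP2 : ∀ z : S.B, z ∉ 𝔪 → S.redMid z ≠ 0 ∧ c.ord (S.redMid z) = 0) :
    ∃ π₀ w₁ b : S.B, π₀ ∈ S.pMid ∧ w₁ ∉ 𝔪 ∧ b ∉ 𝔪 ∧ w₁ * π₀ ^ e = q * b := by
  have hcn : c ∉ nodes := by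
    intro hc
    apply hinf
    intro s hs
    by_contra hs𝔪
    obtain ⟨h0, hord⟩ := hP2 s hs𝔪
    have := hnode c hc s hs h0
    omega
  by_cases hcc : c ∈ cusps
  · obtain ⟨n, J₂, b, w, b', w', s, hroot, hJ₂, h, h', hw0, hwc, hb'0, hb'c, hsInf, hsZero,
      hs0, hsc, htame⟩ := cuspData c hcc (reg3_aff_of_center c 𝔪 h𝔪 hP2)
    exact reg3_cusp_input (xs := xs) H C c hcc n hroot hx₀ hJ₃ J₂ hJ₂ b w b' w' h h' hw0 hwc
      hb'0 hb'c s hsInf hsZero hs0 hsc htame 𝔪 hP1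
  · exact C.exists_input (xs := xs) H c hcc hcn 𝔪 hP1

include hsep in
/-- **REG3, final form**: `p_mid B_𝔪` is principal. -/
theorem reg3_final_dvd (H : Reg3Hyp S q e)
    (C : Reg3CountHyp S q e R' red' φ₁ φ₂ x₀ y₀ cusps nodes)
    (hx₀ : red' x₀ ≠ 0) (hJ₃ : ((φ₂ x₀ : S.vMid.O) : F) ≠ 0)
    (hnode : ∀ c ∈ nodes, ∀ s ∈ S.pInf, S.redMid s ≠ 0 → 0 < c.ord (S.redMid s))
    (cuspData : ∀ c ∈ cusps, (∀ z : S.B, 0 ≤ c.ord (S.redMid z)) →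
      Reg3CuspDataAt S red' φ₁ φ₂ x₀ c)
    (𝔪 : Ideal S.B) [𝔪.IsPrime] (hmid : S.pMid ≤ 𝔪) (hinf : ¬ S.pInf ≤ 𝔪)
    (hzero : ¬ S.pZero ≤ 𝔪) (c : Place k κ)
    (hP1 : ∀ z : S.B, S.redMid z ≠ 0 → c.ord (S.redMid z) = 0 → z ∉ 𝔪)
    (hP2 : ∀ z : S.B, z ∉ 𝔪 → S.redMid z ≠ 0 ∧ c.ord (S.redMid z) = 0) :
    ∃ π₀ : S.B, π₀ ∈ S.pMid ∧ ∀ z ∈ S.pMid, ∃ w' c : S.B, w' ∉ 𝔪 ∧ w' * z = π₀ * c := by
  obtain ⟨π₀, w₁, b, hπ₀, -, hb, hπ⟩ := reg3_final_input (xs := xs) H C hx₀ hJ₃ hnode cuspData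
    𝔪 (‹𝔪.IsPrime›).ne_top hinf c hP1 hP2
  exact ⟨π₀, hπ₀, reg3_mid_dvd H 𝔪 hmid hinf hzero π₀ w₁ b hb hπ⟩

include hsep in
/-- **REG3, final form**: `B_𝔪` is factorial. -/
theorem reg3_final_ufm [IsNoetherianRing S.B] [IsDedekindDomain (S.B ⧸ S.pMid)]
    (H : Reg3Hyp S q e)
    (C : Reg3CountHyp S q e R' red' φ₁ φ₂ x₀ y₀ cusps nodes)
    (hx₀ : red' x₀ ≠ 0) (hJ₃ : ((φ₂ x₀ : S.vMid.O) : F) ≠ 0)
    (hnode : ∀ c ∈ nodes, ∀ s ∈ S.pInf, S.redMid s ≠ 0 → 0 < c.ord (S.redMid s))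
    (cuspData : ∀ c ∈ cusps, (∀ z : S.B, 0 ≤ c.ord (S.redMid z)) →
      Reg3CuspDataAt S red' φ₁ φ₂ x₀ c)
    (𝔪 : Ideal S.B) [𝔪.IsPrime] (hmid : S.pMid ≤ 𝔪) (hne : S.pMid ≠ 𝔪)
    (hinf : ¬ S.pInf ≤ 𝔪) (hzero : ¬ S.pZero ≤ 𝔪) (c : Place k κ)
    (hP1 : ∀ z : S.B, S.redMid z ≠ 0 → c.ord (S.redMid z) = 0 → z ∉ 𝔪)
    (hP2 : ∀ z : S.B, z ∉ 𝔪 → S.redMid z ≠ 0 ∧ c.ord (S.redMid z) = 0) :
    UniqueFactorizationMonoid (Localization.AtPrime 𝔪) := by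
  obtain ⟨π₀, w₁, b, -, hw₁, hb, hπ⟩ := reg3_final_input (xs := xs) H C hx₀ hJ₃ hnode cuspData
    𝔪 (‹𝔪.IsPrime›).ne_top hinf c hP1 hP2
  exact reg3_mid_ufm H 𝔪 hmid hne hinf hzero π₀ w₁ b hw₁ hb hπ

end RR

end Final

end Fermat.Agent.S36lib

end
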