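import Mathlib
import Fermat.Agent.S36lib.TheSetup
import Fermat.Agent.S36lib.VMidInto
import Fermat.Agent.S36lib.ExpOrd
import Fermat.Agent.S36lib.Reg3Inf
import Fermat.Agent.S36lib.Reg3Final

/-!
# Item 83 (S36), piece R6-a (helper5): REG3, the CONCRETE data for `nodeSetupM`

`S = reg3S := nodeSetupM A M' q hq hqM hA R hR vmidSV vmid_hinto vmid_honto` (level `M' q²`,
`B = B_{D1}`), `κ' = F_{M',k}`, and a constant reduction `R₀` of level `M'` (`IsSeriesRed R₀`).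

* `reg3V'`: the valuation of level `M'` on `F0(M')` (`ResVal` over `A0`);
  `R' := (reg3V' …).O`, `red' := (reg3V' …).red`;
* `reg3_pi1_red`, `reg3_pi3_red`: `π₁ x, π₃ x ∈ O_mid` with `red_mid (π_i x) = red' x`;
* `reg3Phi1`, `reg3Phi3 : R' →+* S.vMid.O` (`φ₁ = π₁`, `φ₂ = π₃`), `reg3_red_phi1`,
  `reg3_red_phi3`;
* `reg3X0 : R'` (`= j`), `reg3_red_X0`; `reg3Y0 : S.vMid.O` (`= (π₁ j - π₃ j) ^ (q-1) / q`),
  `reg3_pow_eq`, `reg3_red_Y0_ne_zero`, `reg3_cuspInf` (T4 at `∞'`).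
-/

set_option autoImplicit false
set_option linter.style.haveILetI false
set_option linter.unusedSectionVars false
set_option linter.unusedVariables false
set_option synthInstance.maxHeartbeats 400000

noncomputable section

open ModularCurve AlgebraicCurve HahnSeries KaehlerDifferential
open Fermat.Agent.S24lib Fermat.Agent.HeckeBar Fermat.Agent.S37lib Fermat.Agent.S35lib
  Fermat.Agent.GoodRed Fermat.Agent.S34lib Fermat.Agent.RRlib Fermat.Agent.FFlib
  Fermat.Agent.GM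

namespace Fermat.Agent.S36lib

section Defs

variable (A : ValuationSubring Kbar) (M' q : ℕ) [NeZero M'] [NeZero q] (hq : q.Prime)
  (hqM : ¬ q ∣ M') (hA : A.LiesOverPrime q)
variable {ζ : Kbarˣ} {E : FF (M' * q * q) →+* LaurentSeries Kbar}
variable (hζq : ζ ^ q = 1) (hζ : IsPrimitiveRoot (ζ : Kbar) q) (hE : IsMidExp M' q ζ E)
variable (R : ConstRed A (IsLocalRing.residue A)
      (↥(modularFunctionFieldFullC (IsLocalRing.ResidueField A) M')) (FF (M' * q * q)))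
  (hR : IsSeriesRed R)
variable (R₀ : ConstRed A (IsLocalRing.residue A)
      (↥(modularFunctionFieldFullC (IsLocalRing.ResidueField A) M')) (FF M'))
  (hR₀ : IsSeriesRed R₀)

/-- **the setup of REG3**: level `M' q²`, `B = B_{D1}`, `v_mid = vmidSV`. -/
abbrev reg3S : NodeSetup (k0Val A) (k0Res A)
    (↥(modularFunctionFieldFullC (IsLocalRing.ResidueField A) M')) (f0Field A (M' * q * q)) :=
  nodeSetupM A M' q hq hqM hA R hR (vmidSV A hq ((A.mem_nonunits_iff).mp hA) hζq hE)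
    (vmid_hinto A hq hqM hA hζq hζ hE) (vmid_honto A hq hA hζq hE)

/-- the valuation of level `M'` on `F0(M')` -/
def reg3V' : ResVal (k0Val A) (k0Res A)
    (↥(modularFunctionFieldFullC (IsLocalRing.ResidueField A) M')) (f0Field A M') :=
  (SeriesVal.ofConstRed R₀).restrictK0
    (modularFunctionFieldFullC (IsLocalRing.ResidueField A) M') (sconc_hinto A M' R₀)
    (sconc_honto A M' q hq hA (dvd_refl M') R₀ hR₀)

theorem mem_reg3V'_iff (x : f0Field A M') :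
    x ∈ (reg3V' A M' q hq hA R₀ hR₀).O ↔ (x : FF M') ∈ R₀.O := Iff.rfl

theorem coe_reg3V'_red (x : (reg3V' A M' q hq hA R₀ hR₀).O) :
    (((reg3V' A M' q hq hA R₀ hR₀).red x :
        ↥(modularFunctionFieldFullC (IsLocalRing.ResidueField A) M')) :
      LaurentSeries (IsLocalRing.ResidueField A))
      = ((R₀.red ⟨((x : f0Field A M') : FF M'), x.2⟩ :
        ↥(modularFunctionFieldFullC (IsLocalRing.ResidueField A) M')) :
        LaurentSeries (IsLocalRing.ResidueField A)) := rfl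


/-! ### `π₁, π₃ : O' → O_mid` and `red_mid ∘ π_i = red'` -/

include hR₀ in
/-- `π₁ x ∈ O_mid` and `red_mid (π₁ x) = red' x` for `x ∈ O'` -/
theorem reg3_pi1_red (hlt : A.valuation (q : Kbar) < 1) {x : FF M'} (hx : x ∈ R₀.O) :
    ∃ h : ecPi1 M' q x ∈ vmidO A hq hlt hζq hE,
      vmidRed A hq hlt hζq hE ⟨_, h⟩
        = ((R₀.red ⟨x, hx⟩ : ↥(modularFunctionFieldFullC (IsLocalRing.ResidueField A) M')) :
            LaurentSeries (IsLocalRing.ResidueField A)) := by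
  obtain ⟨a, b, hab⟩ := hR₀.exists_isRep (vmid_hasPrimFrac_bar A M' hq hlt) hx
  have hY : IsRep A (modularFunctionFieldBar (M' * q))
      ((heckeAlphaBar Kbar M' q x : FF (M' * q)) : LaurentSeries Kbar) a b := by
    refine ⟨?_, ?_, hab.2.2.1, ?_⟩
    · have h1 := (heckeAlphaBar Kbar M' q ⟨_, hab.1⟩).2
      rw [coe_heckeAlphaBar] at h1
      exact h1
    · have h1 := (heckeAlphaBar Kbar M' q ⟨_, hab.2.1⟩).2
      rw [coe_heckeAlphaBar] at h1
      exact h1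
    · rw [coe_heckeAlphaBar]
      exact hab.2.2.2
  have hmem : ecPi1 M' q x ∈ vmidO A hq hlt hζq hE :=
    (vmid_alpha_mem_iff A hq hlt hζq hE _).mpr ⟨a, b, hY⟩
  refine ⟨hmem, ?_⟩
  rw [hR₀.red_of_isRep hab hx]
  exact vmidRed_alpha A hq hlt hζq hE _ hmem hY

include hR₀ in
/-- `π₃ x ∈ O_mid` and `red_mid (π₃ x) = red' x` for `x ∈ O'` -/
theorem reg3_pi3_red (hlt : A.valuation (q : Kbar) < 1) {x : FF M'} (hx : x ∈ R₀.O) :
    ∃ h : ecPi3 M' q x ∈ vmidO A hq hlt hζq hE,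
      vmidRed A hq hlt hζq hE ⟨_, h⟩
        = ((R₀.red ⟨x, hx⟩ : ↥(modularFunctionFieldFullC (IsLocalRing.ResidueField A) M')) :
            LaurentSeries (IsLocalRing.ResidueField A)) := by
  obtain ⟨a, b, hab⟩ := hR₀.exists_isRep (vmid_hasPrimFrac_bar A M' hq hlt) hx
  have hmem : ecPi3 M' q x ∈ vmidO A hq hlt hζq hE :=
    (vmid_beta_mem_iff A hq hlt hζq hE x).mpr ⟨a, b, hab⟩
  refine ⟨hmem, ?_⟩
  rw [hR₀.red_of_isRep hab hx]
  exact vmidRed_beta A hq hlt hζq hE x hmem hab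

/-- `φ₁ = π₁ : R' → O_mid` -/
def reg3Phi1 : (reg3V' A M' q hq hA R₀ hR₀).O →+*
    (reg3S A M' q hq hqM hA hζq hζ hE R hR).vMid.O where
  toFun x := ⟨⟨ecPi1 M' q ((x : f0Field A M') : FF M'), ecPi1_mem_f0Field A x.1.2⟩,
    (reg3_pi1_red A M' q hq hζq hE R₀ hR₀ ((A.mem_nonunits_iff).mp hA) x.2).1⟩
  map_one' := Subtype.ext (Subtype.ext (map_one _))
  map_mul' x y := Subtype.ext (Subtype.ext (map_mul _ _ _))
  map_zero' := Subtype.ext (Subtype.ext (map_zero _))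
  map_add' x y := Subtype.ext (Subtype.ext (map_add _ _ _))

/-- `φ₂ = π₃ : R' → O_mid` -/
def reg3Phi3 : (reg3V' A M' q hq hA R₀ hR₀).O →+*
    (reg3S A M' q hq hqM hA hζq hζ hE R hR).vMid.O where
  toFun x := ⟨⟨ecPi3 M' q ((x : f0Field A M') : FF M'), ecPi3_mem_f0Field A x.1.2⟩,
    (reg3_pi3_red A M' q hq hζq hE R₀ hR₀ ((A.mem_nonunits_iff).mp hA) x.2).1⟩
  map_one' := Subtype.ext (Subtype.ext (map_one _))
  map_mul' x y := Subtype.ext (Subtype.ext (map_mul _ _ _))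
  map_zero' := Subtype.ext (Subtype.ext (map_zero _))
  map_add' x y := Subtype.ext (Subtype.ext (map_add _ _ _))

@[simp] theorem coe_reg3Phi1 (x : (reg3V' A M' q hq hA R₀ hR₀).O) :
    (((reg3Phi1 A M' q hq hqM hA hζq hζ hE R hR R₀ hR₀ x :
        (reg3S A M' q hq hqM hA hζq hζ hE R hR).vMid.O) : f0Field A (M' * q * q)) :
      FF (M' * q * q)) = ecPi1 M' q ((x : f0Field A M') : FF M') := rfl

@[simp] theorem coe_reg3Phi3 (x : (reg3V' A M' q hq hA R₀ hR₀).O) :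
    (((reg3Phi3 A M' q hq hqM hA hζq hζ hE R hR R₀ hR₀ x :
        (reg3S A M' q hq hqM hA hζq hζ hE R hR).vMid.O) : f0Field A (M' * q * q)) :
      FF (M' * q * q)) = ecPi3 M' q ((x : f0Field A M') : FF M') := rfl

/-- the middle reduction of the setup, as a series -/
theorem coe_reg3S_vMid_red (x : (reg3S A M' q hq hqM hA hζq hζ hE R hR).vMid.O) :
    (((reg3S A M' q hq hqM hA hζq hζ hE R hR).vMid.red x :
        ↥(modularFunctionFieldFullC (IsLocalRing.ResidueField A) M')) :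
      LaurentSeries (IsLocalRing.ResidueField A))
      = vmidRed A hq ((A.mem_nonunits_iff).mp hA) hζq hE
          ⟨((x : f0Field A (M' * q * q)) : FF (M' * q * q)), x.2⟩ := rfl

/-- **`red_mid ∘ φ₁ = red'`** -/
theorem reg3_red_phi1 (x : (reg3V' A M' q hq hA R₀ hR₀).O) :
    (reg3S A M' q hq hqM hA hζq hζ hE R hR).vMid.red
        (reg3Phi1 A M' q hq hqM hA hζq hζ hE R hR R₀ hR₀ x)
      = (reg3V' A M' q hq hA R₀ hR₀).red x := by
  apply Subtype.ext
  rw [coe_reg3S_vMid_red, coe_reg3V'_red]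
  exact (reg3_pi1_red A M' q hq hζq hE R₀ hR₀ ((A.mem_nonunits_iff).mp hA) x.2).2

/-- **`red_mid ∘ φ₂ = red'`** -/
theorem reg3_red_phi3 (x : (reg3V' A M' q hq hA R₀ hR₀).O) :
    (reg3S A M' q hq hqM hA hζq hζ hE R hR).vMid.red
        (reg3Phi3 A M' q hq hqM hA hζq hζ hE R hR R₀ hR₀ x)
      = (reg3V' A M' q hq hA R₀ hR₀).red x := by
  apply Subtype.ext
  rw [coe_reg3S_vMid_red, coe_reg3V'_red]
  exact (reg3_pi3_red A M' q hq hζq hE R₀ hR₀ ((A.mem_nonunits_iff).mp hA) x.2).2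

/-! ### the elements `x₀ = j` and `y₀ = (π₁ j − π₃ j)^(q−1) / q` -/

include hR₀ in
theorem reg3_jF_mem : jF M' ∈ R₀.O := by
  have h1 : (⟨coeffMap A.subtype (jqModC A), by
      rw [← vmu_coe_jF A M']; exact (jF M').2⟩ : FF M') ∈ R₀.O :=
    hR₀.mem (jqModC A) _
  have e : (⟨coeffMap A.subtype (jqModC A), by
      rw [← vmu_coe_jF A M']; exact (jF M').2⟩ : FF M') = jF M' :=
    Subtype.ext (vmu_coe_jF A M').symm
  rwa [e] at h1

/-- `x₀ = j ∈ R'` -/
def reg3X0 : (reg3V' A M' q hq hA R₀ hR₀).O :=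
  ⟨⟨jF M', vmi_jF_mem A M'⟩, reg3_jF_mem A M' R₀ hR₀⟩

@[simp] theorem coe_reg3X0 :
    (((reg3X0 A M' q hq hA R₀ hR₀ : (reg3V' A M' q hq hA R₀ hR₀).O) : f0Field A M') : FF M')
      = jF M' := rfl

/-- `red' x₀ = j̄` -/
theorem reg3_red_X0 :
    (reg3V' A M' q hq hA R₀ hR₀).red (reg3X0 A M' q hq hA R₀ hR₀)
      = jk (IsLocalRing.ResidueField A) M' := by
  apply Subtype.ext
  rw [coe_reg3V'_red]
  have h := hR₀.red (jqModC A) (by rw [← vmu_coe_jF A M']; exact (jF M').2)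
  have e : (⟨⟨coeffMap A.subtype (jqModC A), by
      rw [← vmu_coe_jF A M']; exact (jF M').2⟩, hR₀.mem (jqModC A) _⟩ : R₀.O)
      = ⟨jF M', reg3_jF_mem A M' R₀ hR₀⟩ :=
    Subtype.ext (Subtype.ext (vmu_coe_jF A M').symm)
  rw [e] at h
  exact h.trans (coeffMap_jqModC _)

end Defs

end Fermat.Agent.S36lib

end
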