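/-
Item 83 (S36), REG3 contract, piece R6-c, core (helper8): **LIFTING at the auxiliary level `M`
over `A0`**.

`M` an auxiliary level (`IsAuxLevel q M`), `R` a constant reduction of `FF M` along `A ∣ q` with
`IsSeriesRed R`, `k` the residue field of `A`, `Q∞ = infPlaceC k M`, `B' = d1lRing A R`
(`= F0(M) ∩ R.O`, regular off `∞`; helper28).

* `r3l_surj`  : every `c ∈ affRing Q∞` (function of `F_{M,k}` regular off `Q∞`) is `red x` for some
  `x ∈ B'`  (`liftInf_lift` + descent of lattices `vdesc_main`);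
  = `hsurj` of D1-Q at level `M`;
* `r3l_exists_unif` : for every place `w ≠ Q∞` of `F_{M,k}` a function regular off `Q∞` with a
  simple zero at `w`;
* `r3l_lift`  : **the lift of R6-c**: for every place `w ≠ Q∞` there is `x ∈ B'` with
  `w.ord (red x) = 1`;
* `r3l_mem`   : the reduction of an element of `B'` is regular off `Q∞` (`aff` at level `M`).
-/
import Mathlib
import Fermat.Agent.S36lib.VDesc
import Fermat.Agent.S36lib.VDisc
import Fermat.Agent.S36lib.D1Level
import Fermat.Agent.S34lib.LiftInfMain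
import Fermat.Agent.S34lib.AffRing
import Fermat.Agent.S34lib.GalRR
import Fermat.Agent.GoodRed.Polar

set_option autoImplicit false
set_option linter.style.haveILetI false
set_option linter.unusedSectionVars false
set_option synthInstance.maxHeartbeats 400000

noncomputable section

namespace Fermat.Agent.S36lib

open AlgebraicCurve ModularCurve IntermediateField HahnSeries
open Fermat.Agent.S24lib Fermat.Agent.GoodRed Fermat.Agent.GM Fermat.Agent.S34lib
  Fermat.Agent.RRlib

variable {M : ℕ} [NeZero M] {A : ValuationSubring Kbar}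
  {R : ConstRed A (IsLocalRing.residue A) (Fk (IsLocalRing.ResidueField A) M) (FF M)}

/-- an element of `F0(M) ∩ R.O ∩ L(n ∞)` lies in `B'` -/
theorem r3l_mem_d1lRing {n : ℤ} {z : FF M} (hzF : z ∈ f0Field A M) (hzO : z ∈ R.O)
    (hz : z ∈ riemannRochSpace (K := Kbar) (Finsupp.single (infPlaceBar M) n)) :
    (⟨z, hzF⟩ : f0Field A M) ∈ d1lRing A R := by
  rw [mem_d1lRing_iff]
  refine ⟨?_, hzO⟩
  rw [mem_offRegular_iff]
  intro P hP
  rw [ffMem_iff_ord_nonneg]
  exact affRing_of_mem_rr hz P hP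

/-- **the lifting at the auxiliary level, over `A0`**: every function of `F_{M,k}` regular off
`Q∞` is the reduction of an element of `B' = F0(M) ∩ R.O`, regular off `∞`. -/
theorem r3l_surj (q : ℕ) [Fact q.Prime] (haux : IsAuxLevel q M) (hA : A.LiesOverPrime q)
    (hR : IsSeriesRed R) (c : Fk (IsLocalRing.ResidueField A) M)
    (hc : c ∈ affRing (infPlaceC (IsLocalRing.ResidueField A) M)) :
    ∃ (x : f0Field A M) (hx : (x : FF M) ∈ R.O), x ∈ d1lRing A R ∧ R.red ⟨x, hx⟩ = c := by
  haveI : RRHyp Kbar (FF M) := mod_rrHyp M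
  have hq : q.Prime := Fact.out
  obtain ⟨n, hn⟩ := mem_affRing_iff_rr.mp hc
  obtain ⟨t, htL, htred⟩ := liftInf_lift q haux hA hR (n : ℤ) c hn
  set D : Divisor Kbar (FF M) :=
    Finsupp.single (infPlaceBar M) (max (n : ℤ) (2 * (genusFF Kbar (FF M) : ℤ))) with hD
  have hDfix : ∀ σ ∈ A.inertiaSubgroupIn ℚ, galFF M σ • D = D := by
    intro σ _
    rw [hD, SemilinearAut.smul_single, galFF_smul_infPlaceBar]
  obtain ⟨z₀, hz₀L, hz₀F, hz₀O, hred⟩ :=
    vdesc_main (L := M) (κ := Fk (IsLocalRing.ResidueField A) M) hq hA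
      (fun _ : Unit => ResVal.ofConstRed R) R () rfl
      (fun _ f hf hf0 => vdisc_inf hq hA hR hf hf0) D hDfix (t : FF M) htL (fun _ => t.2)
  refine ⟨⟨z₀, hz₀F⟩, hz₀O (), r3l_mem_d1lRing hz₀F (hz₀O ()) hz₀L, ?_⟩
  have := hred ()
  rw [← htred]
  exact this

/-- for every place `w ≠ Q` of a function field there is a function regular off `Q` with a
simple zero at `w` -/
theorem r3l_exists_unif {K F : Type*} [Field K] [Field F] [Algebra K F] [RRHyp K F]
    (Q w : Place K F) (hw : w ≠ Q) (hQ : Q.deg = 1) (hwd : w.deg = 1) :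
    ∃ c : F, c ∈ affRing Q ∧ w.ord c = 1 := by
  classical
  set n : ℕ := 2 * genusFF K F + 1 with hn
  set X : Divisor K F := n • Finsupp.single Q (1 : ℤ) - Finsupp.single w (1 : ℤ) with hX
  have hdegX : Divisor.degree X = 2 * (genusFF K F : ℤ) := by
    rw [hX, map_sub, map_nsmul, Divisor.degree_single, Divisor.degree_single, hQ, hwd, hn]
    push_cast
    ring
  obtain ⟨c, hcX, hc0, hcw⟩ := exists_ord_eq_neg K F (X := X) (by rw [hdegX]) w
  have hXw : X w = -1 := by
    rw [hX, Finsupp.sub_apply, Finsupp.smul_apply, Finsupp.single_apply, if_neg (Ne.symm hw),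
      Finsupp.single_apply, if_pos rfl]
    simp
  refine ⟨c, ?_, by rw [hcw, hXw]; rfl⟩
  intro v hv
  have := (mem_riemannRochSpace_iff.mp hcX v).resolve_left hc0
  rw [hX, Finsupp.sub_apply, Finsupp.smul_apply, Finsupp.single_apply, if_neg (Ne.symm hv)]
    at this
  have h2 : (0 : ℤ) ≤ Finsupp.single w (1 : ℤ) v := by
    rw [Finsupp.single_apply]; split_ifs <;> simp
  simp only [smul_zero, zero_sub, neg_neg] at this
  omega

/-- **R6-c, the lift** (level `M`): for every place `w ≠ Q∞` of `F_{M,k}` there is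
`x ∈ B' = F0(M) ∩ R.O`, regular off `∞`, whose reduction is a uniformiser at `w`. -/
theorem r3l_lift (q : ℕ) [Fact q.Prime] (haux : IsAuxLevel q M) (hA : A.LiesOverPrime q)
    (hR : IsSeriesRed R)
    (w : Place (IsLocalRing.ResidueField A) (Fk (IsLocalRing.ResidueField A) M))
    (hw : w ≠ infPlaceC (IsLocalRing.ResidueField A) M) :
    ∃ (x : f0Field A M) (hx : (x : FF M) ∈ R.O), x ∈ d1lRing A R ∧
      w.ord (R.red ⟨x, hx⟩) = 1 := by
  haveI : IsAlgClosed (IsLocalRing.ResidueField A) := isAlgClosed_residueField A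
  haveI : RRHyp (IsLocalRing.ResidueField A) (Fk (IsLocalRing.ResidueField A) M) :=
    mr_rrHyp (IsLocalRing.ResidueField A) M
  obtain ⟨c, hc, hcw⟩ := r3l_exists_unif (infPlaceC (IsLocalRing.ResidueField A) M) w hw
    (deg_eq_one _) (deg_eq_one _)
  obtain ⟨x, hx, hxB, hxc⟩ := r3l_surj q haux hA hR c hc
  exact ⟨x, hx, hxB, by rw [hxc]; exact hcw⟩

end Fermat.Agent.S36lib

end
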