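import Mathlib
import Fermat.Agent.S36lib.Reg3Lift
import Fermat.Agent.S36lib.D1Noeth
import Fermat.Agent.S36lib.RedMem
import Fermat.Agent.S36lib.TheSetup
import Fermat.Agent.S36lib.Reg3Defs
import Fermat.Agent.S36lib.PiTable

/-!
# Item 83 (S36), REG3 contract, piece R6-c, FINAL forms (helper19): `lift` and `aff`

For the concrete names of `Reg3Defs.lean` (helper5): `S = reg3S …` (`= nodeSetupM`, `B = B_{D1}`),
`R' = (reg3V' …).O`, `red' = (reg3V' …).red`, `φ₁ = reg3Phi1`, `φ₂ = reg3Phi3`.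

* `r3c_red_mem_level`, `r3cRed`, `r3cRed_mem`: RED-MEM at the auxiliary level `M'`: the reduction
  of an element of `B' = d1lRing A R₀` is regular off the cusp `∞'` of `κ'`
  (`IsPlaceRed.W_le` + `liftInf_exists_r`);
* `r3cPi1 : B' →+* B_{D1}` (`π₁`), `r3cPi1_isIntegral`: **`B_{D1}` is integral over `π₁ B'`**
  (helper28's `d1a_coeff_mem`: D1-H + the vertical integrality (P4) as a hypothesis);
* `r3c_red_mem`: abstract RED-MEM for `B_{D1}` (any reduction `ρ` with `ρ ∘ π₁ = ψ ∘ red'`);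
* `r3c_pi1_mem_B`, `r3c_pi3_mem_B`: `π₁ x, π₃ x ∈ B` for `x ∈ B'` (helper10's `PiTable`);
* **`r3c_lift`** = the field `lift` of `Reg3CountHyp` (for every `w ≠ ∞'`; helper8's `r3l_lift`);
* **`r3c_redMid_mem`** = `hmem` of D1-Q (`d1q_nodeSetup_mid`), **`r3c_aff`** = the hypothesis
  `aff` of `Reg3CountHyp.of_cuspData`; hypothesis (P4) in the shape of `d1a_nodeSetupM`.
-/

set_option autoImplicit false
set_option linter.style.haveILetI false
set_option linter.unusedSectionVars false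
set_option linter.unusedVariables false
set_option synthInstance.maxHeartbeats 400000

noncomputable section

namespace Fermat.Agent.S36lib

open AlgebraicCurve ModularCurve IntermediateField HahnSeries Polynomial
open Fermat.Agent.S24lib Fermat.Agent.GoodRed Fermat.Agent.GM Fermat.Agent.S34lib
  Fermat.Agent.RRlib Fermat.Agent.HeckeBar Fermat.Agent.S35lib Fermat.Agent.S37lib

section Level

variable {M : ℕ} [NeZero M] {A : ValuationSubring Kbar}
variable {R : ConstRed A (IsLocalRing.residue A) (Fk (IsLocalRing.ResidueField A) M) (FF M)}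

/-- **RED-MEM at the auxiliary level**: the reduction of an integral function regular off `∞'`
is regular off the cusp `∞'` of the reduction. -/
theorem r3c_red_mem_level (q : ℕ) [Fact q.Prime] (haux : IsAuxLevel q M)
    (hA : A.LiesOverPrime q) (hR : IsSeriesRed R) (x : R.O)
    (hx : ∀ v : Place Kbar (FF M), v ≠ infPlaceBar M → 0 ≤ v.ord ((x : R.O) : FF M)) :
    R.red x ∈ affRing (infPlaceC (IsLocalRing.ResidueField A) M) := by
  haveI : IsAlgClosed (IsLocalRing.ResidueField A) := isAlgClosed_residueField A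
  haveI : RRHyp Kbar (FF M) := mod_rrHyp M
  haveI : RRHyp (IsLocalRing.ResidueField A) (Fk (IsLocalRing.ResidueField A) M) :=
    mr_rrHyp (IsLocalRing.ResidueField A) M
  obtain ⟨r, hr, -, -, hrInf⟩ := liftInf_exists_r q haux hA hR
  have hxa : ((x : R.O) : FF M) ∈ affRing (infPlaceBar M) := hx
  obtain ⟨n, hn⟩ := mem_affRing_iff_rr.1 hxa
  have h1 : R.red x ∈ R.W (Finsupp.single (infPlaceBar M) n) :=
    (R.mem_W_iff _ _).2 ⟨x, hn, rfl⟩
  have h2 := hr.W_le _ h1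
  rw [Finsupp.mapDomain_single, hrInf] at h2
  exact mem_affRing_iff_rr.2 ⟨n, h2⟩

variable (A R)

/-- the reduction on the affine ring `B'` of level `M` -/
def r3cRed : d1lRing A R →+* Fk (IsLocalRing.ResidueField A) M :=
  R.red.comp (((algebraMap (f0Field A M) (FF M)).comp (d1lRing A R).subtype).codRestrict R.O
    (fun c => ((mem_d1lRing_iff A R c.1).1 c.2).2))

theorem r3cRed_apply (c : d1lRing A R) :
    r3cRed A R c = R.red ⟨((c : f0Field A M) : FF M), ((mem_d1lRing_iff A R c.1).1 c.2).2⟩ :=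
  rfl

variable {A R}

theorem r3c_reg_of_mem (c : d1lRing A R) :
    ∀ v : Place Kbar (FF M), v ≠ infPlaceBar M → 0 ≤ v.ord ((c : f0Field A M) : FF M) := by
  intro v hv
  rw [← ffMem_iff_ord_nonneg]
  exact (mem_offRegular_iff M _ _).1 ((mem_d1lRing_iff A R c.1).1 c.2).1 v (fun h => hv h)

/-- the reductions of the elements of `B'` are regular off `∞'` -/
theorem r3cRed_mem (q : ℕ) [Fact q.Prime] (haux : IsAuxLevel q M)
    (hA : A.LiesOverPrime q) (hR : IsSeriesRed R) (c : d1lRing A R) :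
    r3cRed A R c ∈ affRing (infPlaceC (IsLocalRing.ResidueField A) M) :=
  r3c_red_mem_level q haux hA hR _ (r3c_reg_of_mem c)

end Level

section Pi1

variable (A : ValuationSubring Kbar) (M' q : ℕ) [NeZero M'] [NeZero q]
variable (hq : q.Prime) (hqM : ¬ q ∣ M')
variable (R' : ConstRed A (IsLocalRing.residue A) (Fk (IsLocalRing.ResidueField A) M') (FF M'))
variable (O₁ O₂ O₃ : ValuationSubring (FF (M' * q * q)))

/-- `π₁ : B' → B_{D1}` -/
def r3cPi1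
    (hT₁ : ∀ g ∈ f0Field A M', g ∈ R'.O → ecPi1 M' q g ∈ O₁)
    (hT₂ : ∀ g ∈ f0Field A M', g ∈ R'.O → ecPi1 M' q g ∈ O₂)
    (hT₃ : ∀ g ∈ f0Field A M', g ∈ R'.O → ecPi1 M' q g ∈ O₃) :
    d1lRing A R' →+* f0AffD A (M' * q * q) (s36D1 M' q hq hqM) O₁ O₂ O₃ :=
  ((d1aPi1 A M' q).comp (d1lRing A R').subtype).codRestrict _ (fun c => by
    rw [mem_f0AffD_iff]
    have hcO : ((c : f0Field A M') : FF M') ∈ R'.O := ((mem_d1lRing_iff A R' c.1).1 c.2).2
    exact ⟨s36D1_pi1 M' q hq hqM _ (r3c_reg_of_mem c), hT₁ _ c.1.2 hcO, hT₂ _ c.1.2 hcO,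
      hT₃ _ c.1.2 hcO⟩)

theorem coe_r3cPi1
    (hT₁ : ∀ g ∈ f0Field A M', g ∈ R'.O → ecPi1 M' q g ∈ O₁)
    (hT₂ : ∀ g ∈ f0Field A M', g ∈ R'.O → ecPi1 M' q g ∈ O₂)
    (hT₃ : ∀ g ∈ f0Field A M', g ∈ R'.O → ecPi1 M' q g ∈ O₃) (c : d1lRing A R') :
    (((r3cPi1 A M' q hq hqM R' O₁ O₂ O₃ hT₁ hT₂ hT₃ c :
        f0AffD A (M' * q * q) (s36D1 M' q hq hqM) O₁ O₂ O₃) : f0Field A (M' * q * q)) :
        FF (M' * q * q)) = ecPi1 M' q ((c : f0Field A M') : FF M') := rfl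

set_option maxHeartbeats 1600000 in
/-- **`B_{D1}` is integral over `π₁ B'`** (D1-H + the vertical integrality (P4)) -/
theorem r3cPi1_isIntegral
    (hT₁ : ∀ g ∈ f0Field A M', g ∈ R'.O → ecPi1 M' q g ∈ O₁)
    (hT₂ : ∀ g ∈ f0Field A M', g ∈ R'.O → ecPi1 M' q g ∈ O₂)
    (hT₃ : ∀ g ∈ f0Field A M', g ∈ R'.O → ecPi1 M' q g ∈ O₃)
    (hP4 : ∀ b : FF (M' * q * q), b ∈ f0Field A (M' * q * q) → b ∈ O₁ → b ∈ O₂ → b ∈ O₃ →
      ∃ p : Polynomial (FF M'), p.Monic ∧ (∀ n, p.coeff n ∈ R'.O) ∧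
        Polynomial.eval₂ (ecPi1 M' q) b p = 0) :
    (r3cPi1 A M' q hq hqM R' O₁ O₂ O₃ hT₁ hT₂ hT₃).IsIntegral := by
  classical
  intro z
  letI algFF := (ecPi1 M' q).toAlgebra
  set b : f0Field A (M' * q * q) := (z : f0Field A (M' * q * q)) with hbdef
  have hb : b ∈ f0AffD A (M' * q * q) (s36D1 M' q hq hqM) O₁ O₂ O₃ := z.2
  haveI := d1h_algIsIntegral M' q
  have hbint : IsIntegral (FF M') (b : FF (M' * q * q)) := Algebra.IsIntegral.isIntegral _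
  set m := minpoly (FF M') (b : FF (M' * q * q)) with hm
  have hmm : m.Monic := minpoly.monic hbint
  -- lift to `B'`
  set ι : d1lRing A R' →+* FF M' :=
    (algebraMap (f0Field A M') (FF M')).comp (d1lRing A R').subtype with hι
  have hlift : m ∈ Polynomial.lifts ι := by
    rw [Polynomial.lifts_iff_coeff_lifts]
    intro n
    obtain ⟨c, hc, hc'⟩ := d1a_coeff_mem A M' q hq hqM R' O₁ O₂ O₃ hP4 b hb n
    exact ⟨⟨c, hc⟩, hc'⟩
  obtain ⟨m1, hm1, -, hm1m⟩ := Polynomial.lifts_and_natDegree_eq_and_monic hlift hmm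
  refine ⟨m1, hm1m, ?_⟩
  apply Subtype.ext
  apply (algebraMap (f0Field A (M' * q * q)) (FF (M' * q * q))).injective
  have hcomp : ((algebraMap (f0Field A (M' * q * q)) (FF (M' * q * q))).comp
      (f0AffD A (M' * q * q) (s36D1 M' q hq hqM) O₁ O₂ O₃).subtype).comp
      (r3cPi1 A M' q hq hqM R' O₁ O₂ O₃ hT₁ hT₂ hT₃) = (ecPi1 M' q).comp ι := rfl
  have h1 : (algebraMap (f0Field A (M' * q * q)) (FF (M' * q * q)))
      (((Polynomial.eval₂ (r3cPi1 A M' q hq hqM R' O₁ O₂ O₃ hT₁ hT₂ hT₃) z m1 :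
        f0AffD A (M' * q * q) (s36D1 M' q hq hqM) O₁ O₂ O₃) : f0Field A (M' * q * q)))
      = Polynomial.eval₂ ((ecPi1 M' q).comp ι) (b : FF (M' * q * q)) m1 := by
    rw [← hcomp]
    exact Polynomial.hom_eval₂ m1 (r3cPi1 A M' q hq hqM R' O₁ O₂ O₃ hT₁ hT₂ hT₃)
      ((algebraMap (f0Field A (M' * q * q)) (FF (M' * q * q))).comp
        (f0AffD A (M' * q * q) (s36D1 M' q hq hqM) O₁ O₂ O₃).subtype) z
  rw [h1, ← Polynomial.eval₂_map, hm1]
  show _ = algebraMap _ _ (0 : f0Field A (M' * q * q))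
  rw [map_zero]
  exact minpoly.aeval (FF M') (b : FF (M' * q * q))

/-- **RED-MEM for `B_{D1}`**, abstract in the reduction map: a ring homomorphism
`ρ : B_{D1} → κ'` with `ρ (π₁ c) = ψ (red' c)` on `B'`, `ψ` preserving the affine ring, has its
values in the affine ring `affRing ∞'` of `κ'`. -/
theorem r3c_red_mem [Fact q.Prime] (haux : IsAuxLevel q M') (hA : A.LiesOverPrime q)
    (hR' : IsSeriesRed R')
    (hT₁ : ∀ g ∈ f0Field A M', g ∈ R'.O → ecPi1 M' q g ∈ O₁)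
    (hT₂ : ∀ g ∈ f0Field A M', g ∈ R'.O → ecPi1 M' q g ∈ O₂)
    (hT₃ : ∀ g ∈ f0Field A M', g ∈ R'.O → ecPi1 M' q g ∈ O₃)
    (hP4 : ∀ b : FF (M' * q * q), b ∈ f0Field A (M' * q * q) → b ∈ O₁ → b ∈ O₂ → b ∈ O₃ →
      ∃ p : Polynomial (FF M'), p.Monic ∧ (∀ n, p.coeff n ∈ R'.O) ∧
        Polynomial.eval₂ (ecPi1 M' q) b p = 0)
    (ρ : f0AffD A (M' * q * q) (s36D1 M' q hq hqM) O₁ O₂ O₃ →+*
      Fk (IsLocalRing.ResidueField A) M')
    (ψ : Fk (IsLocalRing.ResidueField A) M' →+* Fk (IsLocalRing.ResidueField A) M')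
    (hψ : ∀ x ∈ affRing (infPlaceC (IsLocalRing.ResidueField A) M'),
      ψ x ∈ affRing (infPlaceC (IsLocalRing.ResidueField A) M'))
    (htab : ∀ c : d1lRing A R',
      ρ (r3cPi1 A M' q hq hqM R' O₁ O₂ O₃ hT₁ hT₂ hT₃ c) = ψ (r3cRed A R' c))
    (z : f0AffD A (M' * q * q) (s36D1 M' q hq hqM) O₁ O₂ O₃) :
    ρ z ∈ affRing (infPlaceC (IsLocalRing.ResidueField A) M') :=
  s36_red_mem_of_integral (affRing (infPlaceC (IsLocalRing.ResidueField A) M'))
    (fun x hx => affRing_mem_of_isIntegral _ hx)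
    (r3cPi1 A M' q hq hqM R' O₁ O₂ O₃ hT₁ hT₂ hT₃)
    (r3cPi1_isIntegral A M' q hq hqM R' O₁ O₂ O₃ hT₁ hT₂ hT₃ hP4)
    (r3cRed A R') ρ ψ hψ htab (fun c => r3cRed_mem q haux hA hR' c) z

end Pi1

/-! ### the FINAL forms for the concrete names of `Reg3Defs.lean` -/

section Final

variable (A : ValuationSubring Kbar) (M' q : ℕ) [NeZero M'] [NeZero q] (hq : q.Prime)
  (hqM : ¬ q ∣ M') (hA : A.LiesOverPrime q)
variable {ζ : Kbarˣ} {E : FF (M' * q * q) →+* LaurentSeries Kbar}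
variable (hζq : ζ ^ q = 1) (hζ : IsPrimitiveRoot (ζ : Kbar) q) (hE : IsMidExp M' q ζ E)
variable (R : ConstRed A (IsLocalRing.residue A)
      (↥(modularFunctionFieldFullC (IsLocalRing.ResidueField A) M')) (FF (M' * q * q)))
  (hR : IsSeriesRed R)
variable (R₀ : ConstRed A (IsLocalRing.residue A)
      (↥(modularFunctionFieldFullC (IsLocalRing.ResidueField A) M')) (FF M'))
  (hR₀ : IsSeriesRed R₀)

include hR₀ in
/-- `π₁ x ∈ B_{D1}` for `x ∈ B'` -/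
theorem r3c_pi1_mem_B (c : d1lRing A R₀) :
    (⟨ecPi1 M' q ((c : f0Field A M') : FF M'), ecPi1_mem_f0Field A c.1.2⟩ :
        f0Field A (M' * q * q)) ∈ (reg3S A M' q hq hqM hA hζq hζ hE R hR).B := by
  have hlt : A.valuation (q : Kbar) < 1 := (A.mem_nonunits_iff).mp hA
  have hcO : ((c : f0Field A M') : FF M') ∈ R₀.O := ((mem_d1lRing_iff A R₀ c.1).1 c.2).2
  refine (mem_f0AffD_iff A (M' * q * q) (s36D1 M' q hq hqM) R.O
    (vmidSV A hq ((A.mem_nonunits_iff).mp hA) hζq hE).O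
    ((SeriesVal.ofConstRed R).comap (alW2 M' hq hqM)).O _).2 ?_
  exact ⟨s36D1_pi1 M' q hq hqM _ (r3c_reg_of_mem c),
    (pit_pi1_inf hq hlt hR₀ hR _ hcO).1,
    (pit_pi1_mid hq hlt hζq hE hR₀ _ hcO).1,
    (pit_pi_zero hq hlt hR₀ hR hqM _ hcO).1⟩

include hR₀ in
/-- `π₃ x ∈ B_{D1}` for `x ∈ B'` -/
theorem r3c_pi3_mem_B (c : d1lRing A R₀) :
    (⟨ecPi3 M' q ((c : f0Field A M') : FF M'), ecPi3_mem_f0Field A c.1.2⟩ :
        f0Field A (M' * q * q)) ∈ (reg3S A M' q hq hqM hA hζq hζ hE R hR).B := by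
  have hlt : A.valuation (q : Kbar) < 1 := (A.mem_nonunits_iff).mp hA
  have hcO : ((c : f0Field A M') : FF M') ∈ R₀.O := ((mem_d1lRing_iff A R₀ c.1).1 c.2).2
  refine (mem_f0AffD_iff A (M' * q * q) (s36D1 M' q hq hqM) R.O
    (vmidSV A hq ((A.mem_nonunits_iff).mp hA) hζq hE).O
    ((SeriesVal.ofConstRed R).comap (alW2 M' hq hqM)).O _).2 ?_
  exact ⟨s36D1_pi3 M' q hq hqM _ (r3c_reg_of_mem c),
    (pit_pi3_inf hq hlt hR₀ hR _ hcO).1,
    (pit_pi3_mid hq hlt hζq hE hR₀ _ hcO).1,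
    (pit_pi_zero hq hlt hR₀ hR hqM _ hcO).2.2⟩

/-- **R6-c, `lift` (FINAL)**: at every place `w ≠ ∞'` of `κ'` there is `x ∈ R'` whose reduction
is a uniformiser at `w`, with `φ₁ x, φ₂ x ∈ B`. -/
theorem r3c_lift (haux : IsAuxLevel q M')
    (w : Place (IsLocalRing.ResidueField A)
      (↥(modularFunctionFieldFullC (IsLocalRing.ResidueField A) M')))
    (hw : w ≠ infPlaceC (IsLocalRing.ResidueField A) M') :
    ∃ x : (reg3V' A M' q hq hA R₀ hR₀).O,
      w.ord ((reg3V' A M' q hq hA R₀ hR₀).red x) = 1 ∧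
      ((reg3Phi1 A M' q hq hqM hA hζq hζ hE R hR R₀ hR₀ x :
          (reg3S A M' q hq hqM hA hζq hζ hE R hR).vMid.O) : f0Field A (M' * q * q))
        ∈ (reg3S A M' q hq hqM hA hζq hζ hE R hR).B ∧
      ((reg3Phi3 A M' q hq hqM hA hζq hζ hE R hR R₀ hR₀ x :
          (reg3S A M' q hq hqM hA hζq hζ hE R hR).vMid.O) : f0Field A (M' * q * q))
        ∈ (reg3S A M' q hq hqM hA hζq hζ hE R hR).B := by
  haveI : Fact q.Prime := ⟨hq⟩
  obtain ⟨x₀, hx, hxB, hxw⟩ := r3l_lift q haux hA hR₀ w hw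
  refine ⟨⟨x₀, hx⟩, ?_, ?_, ?_⟩
  · have e : (reg3V' A M' q hq hA R₀ hR₀).red ⟨x₀, hx⟩ = R₀.red ⟨(x₀ : FF M'), hx⟩ :=
      Subtype.ext (coe_reg3V'_red A M' q hq hA R₀ hR₀ ⟨x₀, hx⟩)
    rw [e]
    exact hxw
  · exact r3c_pi1_mem_B A M' q hq hqM hA hζq hζ hE R hR R₀ hR₀ ⟨x₀, hxB⟩
  · exact r3c_pi3_mem_B A M' q hq hqM hA hζq hζ hE R hR R₀ hR₀ ⟨x₀, hxB⟩

include hR₀ in
/-- **RED-MEM at `mid`** for `nodeSetupM` (`= hmem` of D1-Q): the middle reductions of the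
elements of `B_{D1}` lie in the affine ring of `κ'` off `∞'`.  Hypothesis: (P4), the vertical
integrality along `π₁` (helper2, shape of `d1a_nodeSetupM`). -/
theorem r3c_redMid_mem (haux : IsAuxLevel q M')
    (hP4 : ∀ b : FF (M' * q * q), b ∈ f0Field A (M' * q * q) → b ∈ R.O →
      b ∈ (vmidSV A hq ((A.mem_nonunits_iff).mp hA) hζq hE).O →
      alW2 M' hq hqM b ∈ R.O →
      ∃ p : Polynomial (FF M'), p.Monic ∧ (∀ n, p.coeff n ∈ R₀.O) ∧
        Polynomial.eval₂ (ecPi1 M' q) b p = 0)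
    (z : (reg3S A M' q hq hqM hA hζq hζ hE R hR).B) :
    (reg3S A M' q hq hqM hA hζq hζ hE R hR).redMid z
      ∈ affRing (infPlaceC (IsLocalRing.ResidueField A) M') := by
  haveI : Fact q.Prime := ⟨hq⟩
  have hlt : A.valuation (q : Kbar) < 1 := (A.mem_nonunits_iff).mp hA
  have hT₁ : ∀ g ∈ f0Field A M', g ∈ R₀.O → ecPi1 M' q g ∈ R.O :=
    fun g _ hg => (pit_pi1_inf hq hlt hR₀ hR g hg).1
  have hT₂ : ∀ g ∈ f0Field A M', g ∈ R₀.O →
      ecPi1 M' q g ∈ (vmidSV A hq ((A.mem_nonunits_iff).mp hA) hζq hE).O :=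
    fun g _ hg => (pit_pi1_mid hq hlt hζq hE hR₀ g hg).1
  have hT₃ : ∀ g ∈ f0Field A M', g ∈ R₀.O →
      ecPi1 M' q g ∈ ((SeriesVal.ofConstRed R).comap (alW2 M' hq hqM)).O :=
    fun g _ hg => (pit_pi_zero hq hlt hR₀ hR hqM g hg).1
  refine r3c_red_mem A M' q hq hqM R₀ R.O
    (vmidSV A hq ((A.mem_nonunits_iff).mp hA) hζq hE).O
    ((SeriesVal.ofConstRed R).comap (alW2 M' hq hqM)).O haux hA hR₀ hT₁ hT₂ hT₃ hP4
    (reg3S A M' q hq hqM hA hζq hζ hE R hR).redMid (RingHom.id _) (fun x hx => hx) ?_ z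
  intro c
  have hcO : ((c : f0Field A M') : FF M') ∈ R₀.O := ((mem_d1lRing_iff A R₀ c.1).1 c.2).2
  apply Subtype.ext
  exact (pit_pi1_mid hq hlt hζq hE hR₀ _ hcO).2

include hR₀ in
/-- **R6-c, `aff` (FINAL)**: the middle reductions of the elements of `B` are regular at every
place `w ≠ ∞'` of `κ'`. -/
theorem r3c_aff (haux : IsAuxLevel q M')
    (hP4 : ∀ b : FF (M' * q * q), b ∈ f0Field A (M' * q * q) → b ∈ R.O →
      b ∈ (vmidSV A hq ((A.mem_nonunits_iff).mp hA) hζq hE).O →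
      alW2 M' hq hqM b ∈ R.O →
      ∃ p : Polynomial (FF M'), p.Monic ∧ (∀ n, p.coeff n ∈ R₀.O) ∧
        Polynomial.eval₂ (ecPi1 M' q) b p = 0)
    (w : Place (IsLocalRing.ResidueField A)
      (↥(modularFunctionFieldFullC (IsLocalRing.ResidueField A) M')))
    (hw : w ≠ infPlaceC (IsLocalRing.ResidueField A) M')
    (z : (reg3S A M' q hq hqM hA hζq hζ hE R hR).B) :
    0 ≤ w.ord ((reg3S A M' q hq hqM hA hζq hζ hE R hR).redMid z) :=
  r3c_redMid_mem A M' q hq hqM hA hζq hζ hE R hR R₀ hR₀ haux hP4 z w hw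

end Final

end Fermat.Agent.S36lib
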