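import Mathlib
import Fermat.Agent.S36lib.Reg3LiftConc
import Fermat.Agent.S36lib.SumFinal
import Fermat.Agent.S36lib.Apply2Final

/-!
# Item 83 (S36), REG3 contract, piece R6-c, UNCONDITIONAL forms (helper19): `aff` and RED-MEM

`S = reg3S … = s36Final …` (level `M' q²`, `B = B_{D1}`), `M'` an auxiliary level, `R₀` a series
reduction of level `M'`.  The vertical integrality (P4) is helper2's `sumi_isIntegral`.

* `r3c_hP4`: (P4) in the shape of `r3c_aff` / `d1a_nodeSetupM`;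
* **`r3c_aff_main`** = the hypothesis `aff` of `Reg3CountHyp.of_cuspData`, UNCONDITIONAL;
* **`r3c_redMid_mem_main`**, **`r3c_redInf_mem_main`**, **`r3c_redZero_mem_main`**: RED-MEM,
  the three reductions of `B_{D1}` have their values in `affRing (infPlaceC k M')`
  (`= hmem` of helper27's `d1q_nodeSetup_mid / _inf / _zero`);
* `r3c_s36Final_redMid_mem / _redInf_mem / _redZero_mem`: the same, stated for `s36Final`, with
  `R₀` from `liftInf_exists_red` (only `IsAuxLevel q M'`).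
-/

set_option autoImplicit false
set_option linter.style.haveILetI false
set_option linter.unusedSectionVars false
set_option linter.unusedVariables false
set_option synthInstance.maxHeartbeats 400000

noncomputable section

namespace Fermat.Agent.S36lib

open AlgebraicCurve ModularCurve IntermediateField HahnSeries Polynomial
open Fermat.Agent.S24lib Fermat.Agent.GoodRed Fermat.Agent.GM Fermat.Agent.S34lib
  Fermat.Agent.RRlib Fermat.Agent.HeckeBar Fermat.Agent.S35lib Fermat.Agent.S37lib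

section Main

variable (A : ValuationSubring Kbar) (M' q : ℕ) [NeZero M'] [NeZero q] (hq : q.Prime)
  (hqM : ¬ q ∣ M') (hA : A.LiesOverPrime q)
variable {ζ : Kbarˣ} {E : FF (M' * q * q) →+* LaurentSeries Kbar}
variable (hζq : ζ ^ q = 1) (hζ : IsPrimitiveRoot (ζ : Kbar) q) (hE : IsMidExp M' q ζ E)
variable (R : ConstRed A (IsLocalRing.residue A)
      (↥(modularFunctionFieldFullC (IsLocalRing.ResidueField A) M')) (FF (M' * q * q)))
  (hR : IsSeriesRed R)
variable (R₀ : ConstRed A (IsLocalRing.residue A)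
      (↥(modularFunctionFieldFullC (IsLocalRing.ResidueField A) M')) (FF M'))
  (hR₀ : IsSeriesRed R₀)

include hζ hR hR₀ in
/-- **(P4)** in the shape of `r3c_aff` (helper2's `sumi_isIntegral`) -/
theorem r3c_hP4 :
    ∀ b : FF (M' * q * q), b ∈ f0Field A (M' * q * q) → b ∈ R.O →
      b ∈ (vmidSV A hq ((A.mem_nonunits_iff).mp hA) hζq hE).O →
      alW2 M' hq hqM b ∈ R.O →
      ∃ p : Polynomial (FF M'), p.Monic ∧ (∀ n, p.coeff n ∈ R₀.O) ∧
        Polynomial.eval₂ (ecPi1 M' q) b p = 0 := by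
  intro b hb h1 h2 h3
  obtain ⟨p, hp, hpc, hpb⟩ := sumi_isIntegral A M' q hq hqM hA R₀ R hR₀ hR
    ((A.mem_nonunits_iff).mp hA) hζq hζ hE (vmidSV A hq ((A.mem_nonunits_iff).mp hA) hζq hE) rfl
    b hb h1 h2 h3
  exact ⟨p, hp, fun n => (hpc n).1, hpb⟩

include hR₀ in
/-- **RED-MEM at `mid`**, unconditional -/
theorem r3c_redMid_mem_main (haux : IsAuxLevel q M')
    (z : (reg3S A M' q hq hqM hA hζq hζ hE R hR).B) :
    (reg3S A M' q hq hqM hA hζq hζ hE R hR).redMid z
      ∈ affRing (infPlaceC (IsLocalRing.ResidueField A) M') :=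
  r3c_redMid_mem A M' q hq hqM hA hζq hζ hE R hR R₀ hR₀ haux
    (r3c_hP4 A M' q hq hqM hA hζq hζ hE R hR R₀ hR₀) z

include hR₀ in
/-- **R6-c, `aff`**, unconditional: the middle reductions of the elements of `B` are regular at
every place `w ≠ ∞'` of `κ'`. -/
theorem r3c_aff_main (haux : IsAuxLevel q M')
    (w : Place (IsLocalRing.ResidueField A)
      (↥(modularFunctionFieldFullC (IsLocalRing.ResidueField A) M')))
    (hw : w ≠ infPlaceC (IsLocalRing.ResidueField A) M')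
    (z : (reg3S A M' q hq hqM hA hζq hζ hE R hR).B) :
    0 ≤ w.ord ((reg3S A M' q hq hqM hA hζq hζ hE R hR).redMid z) :=
  r3c_redMid_mem_main A M' q hq hqM hA hζq hζ hE R hR R₀ hR₀ haux z w hw

include hR₀ in
/-- **RED-MEM at `∞`**, unconditional -/
theorem r3c_redInf_mem_main (haux : IsAuxLevel q M')
    (z : (reg3S A M' q hq hqM hA hζq hζ hE R hR).B) :
    (reg3S A M' q hq hqM hA hζq hζ hE R hR).redInf z
      ∈ affRing (infPlaceC (IsLocalRing.ResidueField A) M') := by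
  haveI : Fact q.Prime := ⟨hq⟩
  have hlt : A.valuation (q : Kbar) < 1 := (A.mem_nonunits_iff).mp hA
  have hT₁ : ∀ g ∈ f0Field A M', g ∈ R₀.O → ecPi1 M' q g ∈ R.O :=
    fun g _ hg => (pit_pi1_inf hq hlt hR₀ hR g hg).1
  have hT₂ : ∀ g ∈ f0Field A M', g ∈ R₀.O →
      ecPi1 M' q g ∈ (vmidSV A hq ((A.mem_nonunits_iff).mp hA) hζq hE).O :=
    fun g _ hg => (pit_pi1_mid hq hlt hζq hE hR₀ g hg).1
  have hT₃ : ∀ g ∈ f0Field A M', g ∈ R₀.O →
      ecPi1 M' q g ∈ ((SeriesVal.ofConstRed R).comap (alW2 M' hq hqM)).O :=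
    fun g _ hg => (pit_pi_zero hq hlt hR₀ hR hqM g hg).1
  refine r3c_red_mem A M' q hq hqM R₀ R.O
    (vmidSV A hq ((A.mem_nonunits_iff).mp hA) hζq hE).O
    ((SeriesVal.ofConstRed R).comap (alW2 M' hq hqM)).O haux hA hR₀ hT₁ hT₂ hT₃
    (r3c_hP4 A M' q hq hqM hA hζq hζ hE R hR R₀ hR₀)
    (reg3S A M' q hq hqM hA hζq hζ hE R hR).redInf (RingHom.id _) (fun x hx => hx) ?_ z
  intro c
  have hcO : ((c : f0Field A M') : FF M') ∈ R₀.O := ((mem_d1lRing_iff A R₀ c.1).1 c.2).2
  apply Subtype.ext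
  exact (pit_pi1_inf hq hlt hR₀ hR _ hcO).2

/-- `π₃ : B' → B_{D1}` -/
def r3cPi3 : d1lRing A R₀ →+* (reg3S A M' q hq hqM hA hζq hζ hE R hR).B where
  toFun c := ⟨⟨ecPi3 M' q ((c : f0Field A M') : FF M'), ecPi3_mem_f0Field A c.1.2⟩,
    r3c_pi3_mem_B A M' q hq hqM hA hζq hζ hE R hR R₀ hR₀ c⟩
  map_one' := Subtype.ext (Subtype.ext (map_one _))
  map_mul' x y := Subtype.ext (Subtype.ext (map_mul _ _ _))
  map_zero' := Subtype.ext (Subtype.ext (map_zero _))
  map_add' x y := Subtype.ext (Subtype.ext (map_add _ _ _))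

theorem coe_r3cPi3 (c : d1lRing A R₀) :
    (((r3cPi3 A M' q hq hqM hA hζq hζ hE R hR R₀ hR₀ c :
        (reg3S A M' q hq hqM hA hζq hζ hE R hR).B) : f0Field A (M' * q * q)) :
      FF (M' * q * q)) = ecPi3 M' q ((c : f0Field A M') : FF M') := rfl

include hR₀ in
/-- **RED-MEM at `0`**, unconditional -/
theorem r3c_redZero_mem_main (haux : IsAuxLevel q M')
    (z : (reg3S A M' q hq hqM hA hζq hζ hE R hR).B) :
    (reg3S A M' q hq hqM hA hζq hζ hE R hR).redZero z
      ∈ affRing (infPlaceC (IsLocalRing.ResidueField A) M') := by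
  haveI : Fact q.Prime := ⟨hq⟩
  have hlt : A.valuation (q : Kbar) < 1 := (A.mem_nonunits_iff).mp hA
  have hT₁ : ∀ g ∈ f0Field A M', g ∈ R₀.O → ecPi1 M' q g ∈ R.O :=
    fun g _ hg => (pit_pi1_inf hq hlt hR₀ hR g hg).1
  have hT₂ : ∀ g ∈ f0Field A M', g ∈ R₀.O →
      ecPi1 M' q g ∈ (vmidSV A hq ((A.mem_nonunits_iff).mp hA) hζq hE).O :=
    fun g _ hg => (pit_pi1_mid hq hlt hζq hE hR₀ g hg).1
  have hT₃ : ∀ g ∈ f0Field A M', g ∈ R₀.O →
      ecPi1 M' q g ∈ ((SeriesVal.ofConstRed R).comap (alW2 M' hq hqM)).O :=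
    fun g _ hg => (pit_pi_zero hq hlt hR₀ hR hqM g hg).1
  refine s36_red_mem_of_integral (affRing (infPlaceC (IsLocalRing.ResidueField A) M'))
    (fun x hx => affRing_mem_of_isIntegral _ hx)
    (r3cPi1 A M' q hq hqM R₀ R.O (vmidSV A hq ((A.mem_nonunits_iff).mp hA) hζq hE).O
      ((SeriesVal.ofConstRed R).comap (alW2 M' hq hqM)).O hT₁ hT₂ hT₃)
    (r3cPi1_isIntegral A M' q hq hqM R₀ R.O (vmidSV A hq ((A.mem_nonunits_iff).mp hA) hζq hE).O
      ((SeriesVal.ofConstRed R).comap (alW2 M' hq hqM)).O hT₁ hT₂ hT₃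
      (r3c_hP4 A M' q hq hqM hA hζq hζ hE R hR R₀ hR₀))
    ((reg3S A M' q hq hqM hA hζq hζ hE R hR).redInf.comp
      (r3cPi3 A M' q hq hqM hA hζq hζ hE R hR R₀ hR₀))
    (reg3S A M' q hq hqM hA hζq hζ hE R hR).redZero (RingHom.id _) (fun x hx => hx) ?_ ?_ z
  · intro c
    apply Subtype.ext
    show ((R.red ⟨alW2 M' hq hqM (ecPi1 M' q ((c : f0Field A M') : FF M')), _⟩ :
        ↥(modularFunctionFieldFullC (IsLocalRing.ResidueField A) M')) :
          LaurentSeries (IsLocalRing.ResidueField A))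
      = ((R.red ⟨ecPi3 M' q ((c : f0Field A M') : FF M'), _⟩ :
        ↥(modularFunctionFieldFullC (IsLocalRing.ResidueField A) M')) :
          LaurentSeries (IsLocalRing.ResidueField A))
    have e : alW2 M' hq hqM (ecPi1 M' q ((c : f0Field A M') : FF M'))
        = ecPi3 M' q ((c : f0Field A M') : FF M') := by
      rw [ecPi1_apply, alW2_pi1, ← ecPi3_apply]
    congr 2
    exact Subtype.ext e
  · intro c
    exact r3c_redInf_mem_main A M' q hq hqM hA hζq hζ hE R hR R₀ hR₀ haux _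

end Main

section Final

variable (A : ValuationSubring Kbar) (M' q : ℕ) [NeZero M'] [NeZero q] (hq : q.Prime)
  (hqM : ¬ q ∣ M') (hA : A.LiesOverPrime q)
variable {ζ : Kbarˣ} {E : FF (M' * q * q) →+* LaurentSeries Kbar}
variable (hζq : ζ ^ q = 1) (hζ : IsPrimitiveRoot (ζ : Kbar) q) (hE : IsMidExp M' q ζ E)
variable (R : ConstRed A (IsLocalRing.residue A)
      (↥(modularFunctionFieldFullC (IsLocalRing.ResidueField A) M')) (FF (M' * q * q)))
  (hR : IsSeriesRed R)

/-- RED-MEM at `mid` for the final setup (only `IsAuxLevel q M'`) -/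
theorem r3c_s36Final_redMid_mem (haux : IsAuxLevel q M')
    (z : (s36Final A M' q hq hqM hA hζq hζ hE R hR).B) :
    (s36Final A M' q hq hqM hA hζq hζ hE R hR).redMid z
      ∈ affRing (infPlaceC (IsLocalRing.ResidueField A) M') := by
  haveI : Fact q.Prime := ⟨hq⟩
  obtain ⟨R₀, -, hR₀, -⟩ := liftInf_exists_red M' A q haux hA
  exact r3c_redMid_mem_main A M' q hq hqM hA hζq hζ hE R hR R₀ hR₀ haux z

/-- RED-MEM at `∞` for the final setup (only `IsAuxLevel q M'`) -/
theorem r3c_s36Final_redInf_mem (haux : IsAuxLevel q M')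
    (z : (s36Final A M' q hq hqM hA hζq hζ hE R hR).B) :
    (s36Final A M' q hq hqM hA hζq hζ hE R hR).redInf z
      ∈ affRing (infPlaceC (IsLocalRing.ResidueField A) M') := by
  haveI : Fact q.Prime := ⟨hq⟩
  obtain ⟨R₀, -, hR₀, -⟩ := liftInf_exists_red M' A q haux hA
  exact r3c_redInf_mem_main A M' q hq hqM hA hζq hζ hE R hR R₀ hR₀ haux z

/-- RED-MEM at `0` for the final setup (only `IsAuxLevel q M'`) -/
theorem r3c_s36Final_redZero_mem (haux : IsAuxLevel q M')
    (z : (s36Final A M' q hq hqM hA hζq hζ hE R hR).B) :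
    (s36Final A M' q hq hqM hA hζq hζ hE R hR).redZero z
      ∈ affRing (infPlaceC (IsLocalRing.ResidueField A) M') := by
  haveI : Fact q.Prime := ⟨hq⟩
  obtain ⟨R₀, -, hR₀, -⟩ := liftInf_exists_red M' A q haux hA
  exact r3c_redZero_mem_main A M' q hq hqM hA hζq hζ hE R hR R₀ hR₀ haux z

/-- **`aff` for the final setup** (only `IsAuxLevel q M'`) -/
theorem r3c_s36Final_aff (haux : IsAuxLevel q M')
    (w : Place (IsLocalRing.ResidueField A)
      (↥(modularFunctionFieldFullC (IsLocalRing.ResidueField A) M')))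
    (hw : w ≠ infPlaceC (IsLocalRing.ResidueField A) M')
    (z : (s36Final A M' q hq hqM hA hζq hζ hE R hR).B) :
    0 ≤ w.ord ((s36Final A M' q hq hqM hA hζq hζ hE R hR).redMid z) :=
  r3c_s36Final_redMid_mem A M' q hq hqM hA hζq hζ hE R hR haux z w hw

end Final

end Fermat.Agent.S36lib

end
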