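/-
Item 83 (S36), REG3 contract, piece R6-b (helper8): **the level is unramified over `A0`**:
a non-unit `x ∈ F0(L)` of the valuation ring `O` (kernel of the reduction) is `q · x'` with
`x' ∈ F0(L) ∩ O`.  From the discreteness `VDisc.lean` (`K0` is discretely valued with
uniformiser `q`, and some `q ^ n · f` is a unit of `O` for every `f ∈ F0(L)`).

* `r3u_q_mem_f0Field` : the constant `q` lies in `F0(L)`;
* `r3u_unr_of_unit`   : generic (any `O` with the unit form of discreteness);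
* `r3u_unr_inf`       : for `O = R.O`, `R` an `IsSeriesRed` constant reduction (any level `L`);
* `r3u_unr_red`       : the same with the hypothesis `R.red x = 0`;
* `r3u_unr_zero`      : for `O = (inredComap R w).O`;
* `r3u_unr_sub`       : subtype form on `F0(L)` (elements of the comap of `R.O`).
-/
import Mathlib
import Fermat.Agent.S36lib.VArch

set_option autoImplicit false
set_option linter.unusedSectionVars false
set_option linter.style.haveILetI false

noncomputable section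

namespace Fermat.Agent.S36lib

open ModularCurve HahnSeries AlgebraicCurve
open Fermat.Agent.GoodRed Fermat.Agent.S24lib Fermat.Agent.S34lib Fermat.Agent.S37lib
  Fermat.Agent.HeckeBar

section Unr

variable (A : ValuationSubring Kbar) {q : ℕ} {L : ℕ} [NeZero L]

/-- the constant `q` lies in `F0(L)` -/
theorem r3u_q_mem_f0Field (q : ℕ) (L : ℕ) [NeZero L] :
    algebraMap Kbar (FF L) (q : Kbar) ∈ f0Field A L := by
  rw [map_natCast]
  exact natCast_mem _ q

/-- **R6-b, generic**: a non-unit `x ∈ F0(L)` of `O` is `q · x'`, `x' ∈ F0(L) ∩ O`. -/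
theorem r3u_unr_of_unit (O : ValuationSubring (FF L)) (hq : q.Prime)
    (hqO : algebraMap Kbar (FF L) (q : Kbar) ∈ O)
    (hunit : ∀ f ∈ f0Field A L, f ≠ 0 →
      ∃ n : ℤ, algebraMap Kbar (FF L) ((q : Kbar) ^ n) * f ∈ O ∧
        (algebraMap Kbar (FF L) ((q : Kbar) ^ n) * f)⁻¹ ∈ O)
    {x : FF L} (hxF : x ∈ f0Field A L) (hx : x ∈ O.nonunits) :
    ∃ x' : FF L, x' ∈ f0Field A L ∧ x' ∈ O ∧ x = algebraMap Kbar (FF L) (q : Kbar) * x' := by
  have hq0 : (q : Kbar) ≠ 0 := Nat.cast_ne_zero.mpr hq.ne_zero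
  have hQ0 : algebraMap Kbar (FF L) (q : Kbar) ≠ 0 := (map_ne_zero _).mpr hq0
  have h := varch_of_unit A O hq hqO 1 Nat.one_pos
    (fun f hf hf0 => by simpa only [pow_one] using hunit f hf hf0) hxF hx
  rw [pow_one] at h
  refine ⟨x * (algebraMap Kbar (FF L) (q : Kbar))⁻¹, ?_, h, ?_⟩
  · exact mul_mem hxF (inv_mem (r3u_q_mem_f0Field A q L))
  · rw [mul_comm x, ← mul_assoc, mul_inv_cancel₀ hQ0, one_mul]

variable {A}

/-- **R6-b at `∞`** (any level `L`): a non-unit `x ∈ F0(L)` of `R.O` is `q · x'`,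
`x' ∈ F0(L) ∩ R.O`. -/
theorem r3u_unr_inf (hq : q.Prime) (hA : A.LiesOverPrime q)
    {Fk : IntermediateField (IsLocalRing.ResidueField A)
      (LaurentSeries (IsLocalRing.ResidueField A))}
    {R : ConstRed A (IsLocalRing.residue A) (↥Fk) (FF L)} (hR : IsSeriesRed R)
    {x : FF L} (hxF : x ∈ f0Field A L) (hx : x ∈ R.O.nonunits) :
    ∃ x' : FF L, x' ∈ f0Field A L ∧ x' ∈ R.O ∧ x = algebraMap Kbar (FF L) (q : Kbar) * x' := by
  have hqA : (q : Kbar) ∈ A := A.nonunits_le hA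
  exact r3u_unr_of_unit A R.O hq (R.algebraMap_mem ⟨(q : Kbar), hqA⟩)
    (fun f hf hf0 => vdisc_inf hq hA hR hf hf0) hxF hx

/-- **R6-b at `∞`**, in terms of the reduction: `red x = 0 ⟹ x = q · x'`. -/
theorem r3u_unr_red (hq : q.Prime) (hA : A.LiesOverPrime q)
    {Fk : IntermediateField (IsLocalRing.ResidueField A)
      (LaurentSeries (IsLocalRing.ResidueField A))}
    {R : ConstRed A (IsLocalRing.residue A) (↥Fk) (FF L)} (hR : IsSeriesRed R)
    {x : FF L} (hxF : x ∈ f0Field A L) (hxO : x ∈ R.O) (hx : R.red ⟨x, hxO⟩ = 0) :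
    ∃ x' : R.O, (x' : FF L) ∈ f0Field A L ∧
      x = algebraMap Kbar (FF L) (q : Kbar) * (x' : FF L) := by
  have hnu : x ∈ R.O.nonunits :=
    ((ResVal.ofConstRed R).red_eq_zero_iff ⟨x, hxO⟩).mp hx
  obtain ⟨x', h1, h2, h3⟩ := r3u_unr_inf hq hA hR hxF hnu
  exact ⟨⟨x', h2⟩, h1, h3⟩

/-- **R6-b at `0`**: the same for `O0 = w⁻¹ O∞`. -/
theorem r3u_unr_zero (hq : q.Prime) (hA : A.LiesOverPrime q)
    {Fk : IntermediateField (IsLocalRing.ResidueField A)
      (LaurentSeries (IsLocalRing.ResidueField A))}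
    {R : ConstRed A (IsLocalRing.residue A) (↥Fk) (FF L)} (hR : IsSeriesRed R)
    {L' : ℕ} [NeZero L'] (w : FF L' ≃ₐ[Kbar] FF L) (hw : ∀ x ∈ f0Field A L', w x ∈ f0Field A L)
    {x : FF L'} (hxF : x ∈ f0Field A L') (hx : x ∈ (inredComap R w).O.nonunits) :
    ∃ x' : FF L', x' ∈ f0Field A L' ∧ x' ∈ (inredComap R w).O ∧
      x = algebraMap Kbar (FF L') (q : Kbar) * x' := by
  have hqA : (q : Kbar) ∈ A := A.nonunits_le hA
  refine r3u_unr_of_unit A (inredComap R w).O hq ?_
    (fun f hf hf0 => vdisc_zero hq hA hR w hw hf hf0) hxF hx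
  rw [mem_inredComap_O, AlgEquiv.commutes]
  exact R.algebraMap_mem ⟨(q : Kbar), hqA⟩

/-- **R6-b, subtype form**: for `x : F0(L)` a non-unit of the restriction of `R.O` to `F0(L)`,
`x = q · x'` with `x'` in the restriction. -/
theorem r3u_unr_sub (hq : q.Prime) (hA : A.LiesOverPrime q)
    {Fk : IntermediateField (IsLocalRing.ResidueField A)
      (LaurentSeries (IsLocalRing.ResidueField A))}
    {R : ConstRed A (IsLocalRing.residue A) (↥Fk) (FF L)} (hR : IsSeriesRed R)
    (x : f0Field A L) (hx : x ∈ (R.O.comap (algebraMap (f0Field A L) (FF L))).nonunits) :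
    ∃ x' : f0Field A L, x' ∈ R.O.comap (algebraMap (f0Field A L) (FF L)) ∧
      x = ((q : ℕ) : f0Field A L) * x' := by
  obtain ⟨x', h1, h2, h3⟩ := r3u_unr_inf hq hA hR x.2 (varch_nonunits_comap A R.O x hx)
  refine ⟨⟨x', h1⟩, h2, ?_⟩
  apply Subtype.ext
  show (x : FF L) = (((q : ℕ) : f0Field A L) : FF L) * x'
  rw [h3, map_natCast]
  push_cast
  rfl

end Unr

end Fermat.Agent.S36lib

end
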