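import Mathlib
import Fermat.Agent.S36lib.Reg3Defs
import Fermat.Agent.S36lib.Reg3Unr

/-!
# Item 83 (S36), piece R6-a (helper5): REG3 for `reg3S`, the easy fields of `Reg3CountHyp`

For `S = reg3S …` (level `M' q²`, `B = B_{D1}`), `R' = (reg3V' …).O`, `φ₁ = reg3Phi1`,
`φ₂ = reg3Phi3`, `x₀ = reg3X0` (`= j`), `q = S.constB q`, `e = q - 1`:

* `reg3Y0` (`y₀ = (π₁ j − π₃ j)^(q−1) / q ∈ O_mid`), `reg3_pow_eq`, `reg3_red_Y0_ne_zero`,
  `reg3_cuspInf` ((T4) at `∞'`);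
* `reg3_const`, `reg3_red'_surjective`, `reg3_red_X0_ne_zero`, `reg3_phi3_X0_ne_zero`;
* `reg3_unr_of_div` (abstract) and `reg3_unr` (level `M'` is unramified: helper8's
  `r3u_unr_red`).
-/

set_option autoImplicit false
set_option linter.style.haveILetI false
set_option linter.unusedSectionVars false
set_option linter.unusedVariables false
set_option synthInstance.maxHeartbeats 400000

noncomputable section

open ModularCurve AlgebraicCurve HahnSeries KaehlerDifferential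
open Fermat.Agent.S24lib Fermat.Agent.HeckeBar Fermat.Agent.S37lib Fermat.Agent.S35lib
  Fermat.Agent.GoodRed Fermat.Agent.S34lib Fermat.Agent.RRlib Fermat.Agent.FFlib
  Fermat.Agent.GM

namespace Fermat.Agent.S36lib

/-! ### `unr`, abstractly -/

section Abs

variable {K : Type*} [Field K] {k : Type*} [Field k] {A : ValuationSubring K} {π : A →+* k}
  {κ : Type*} [Field κ] [Algebra k κ] {F : Type*} [Field F] [Algebra K F]
  {S : NodeSetup A π κ F} {q : S.B} {e : ℕ} {R' : Type*} [CommRing R']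
  {red' : R' →+* κ} {φ₁ φ₂ : R' →+* S.vMid.O} {x₀ : R'} {y₀ : S.vMid.O}

/-- **`unr` from divisibility by `q`**: if every element of `ker red'` is divisible by `q` in
`R'`, then `φ₁ y - φ₂ y ∈ π₀ 𝔪_mid` for `y ∈ ker red'`. -/
theorem reg3_unr_of_div (he : 0 < e)
    (red_φ₁ : ∀ y, S.vMid.red (φ₁ y) = red' y) (red_φ₂ : ∀ y, S.vMid.red (φ₂ y) = red' y)
    (pow_eq : ((φ₁ x₀ - φ₂ x₀ : S.vMid.O) : F) ^ e = (q : F) * (y₀ : F))
    (red_y₀ : S.vMid.red y₀ ≠ 0)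
    (qR : R') (hq₁ : ((φ₁ qR : S.vMid.O) : F) = (q : F))
    (hq₂ : ((φ₂ qR : S.vMid.O) : F) = (q : F))
    (hdiv : ∀ y : R', red' y = 0 → ∃ y' : R', y = qR * y') (y : R') (hy : red' y = 0) :
    ∃ u : S.vMid.O, S.vMid.red u = 0 ∧ φ₁ y - φ₂ y = (φ₁ x₀ - φ₂ x₀) * u := by
  obtain ⟨y', rfl⟩ := hdiv y hy
  have hy₀ : (y₀ : F) ≠ 0 := by
    intro h
    apply red_y₀
    have : y₀ = 0 := Subtype.ext h
    rw [this, map_zero]
  -- `y₀` is a unit of `O_mid`
  have hy₀u : (y₀ : F)⁻¹ ∈ S.vMid.O := by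
    by_contra hni
    have hnu : (y₀ : F) ∈ S.vMid.O.nonunits := by
      rw [ValuationSubring.mem_nonunits_iff]
      have hle : S.vMid.O.valuation (y₀ : F) ≤ 1 := (S.vMid.O.valuation_le_one_iff _).2 y₀.2
      rcases lt_or_eq_of_le hle with h | h
      · exact h
      · exfalso
        apply hni
        rw [← S.vMid.O.valuation_le_one_iff, map_inv₀, h, inv_one]
    exact red_y₀ ((S.vMid.red_eq_zero_iff y₀).2 hnu)
  obtain ⟨n, rfl⟩ : ∃ n, e = n + 1 := ⟨e - 1, by omega⟩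
  set d : S.vMid.O := φ₁ y' - φ₂ y' with hd
  have hdred : S.vMid.red d = 0 := by rw [hd, map_sub, red_φ₁, red_φ₂, sub_self]
  refine ⟨(φ₁ x₀ - φ₂ x₀) ^ n * ⟨(y₀ : F)⁻¹, hy₀u⟩ * d, ?_, ?_⟩
  · rw [map_mul, hdred, mul_zero]
  · apply Subtype.ext
    have h1 : ((φ₁ (qR * y') - φ₂ (qR * y') : S.vMid.O) : F)
        = (q : F) * (d : F) := by
      rw [map_mul, map_mul, hd]
      push_cast
      rw [hq₁, hq₂]
      ring
    rw [h1]
    have h2 : (((φ₁ x₀ - φ₂ x₀) * ((φ₁ x₀ - φ₂ x₀) ^ n * ⟨(y₀ : F)⁻¹, hy₀u⟩ * d) : S.vMid.O) : F)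
        = ((φ₁ x₀ - φ₂ x₀ : S.vMid.O) : F) ^ (n + 1) * (y₀ : F)⁻¹ * (d : F) := by
      push_cast
      ring
    rw [h2, pow_eq]
    field_simp

end Abs

/-! ### the concrete fields -/

section Conc

variable (A : ValuationSubring Kbar) (M' q : ℕ) [NeZero M'] [NeZero q] (hq : q.Prime)
  (hqM : ¬ q ∣ M') (hA : A.LiesOverPrime q)
variable {ζ : Kbarˣ} {E : FF (M' * q * q) →+* LaurentSeries Kbar}
variable (hζq : ζ ^ q = 1) (hζ : IsPrimitiveRoot (ζ : Kbar) q) (hE : IsMidExp M' q ζ E)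
variable (R : ConstRed A (IsLocalRing.residue A)
      (↥(modularFunctionFieldFullC (IsLocalRing.ResidueField A) M')) (FF (M' * q * q)))
  (hR : IsSeriesRed R)
variable (R₀ : ConstRed A (IsLocalRing.residue A)
      (↥(modularFunctionFieldFullC (IsLocalRing.ResidueField A) M')) (FF M'))
  (hR₀ : IsSeriesRed R₀)

/-- `y₀ = (π₁ j − π₃ j)^(q−1) / q`, in `FF (M' q²)` -/
def reg3Y0F : FF (M' * q * q) :=
  (ecPi1 M' q (jF M') - ecPi3 M' q (jF M')) ^ (q - 1)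
    * (algebraMap Kbar (FF (M' * q * q)) (q : Kbar))⁻¹

theorem reg3Y0F_pow :
    (ecPi1 M' q (jF M') - ecPi3 M' q (jF M')) ^ (q - 1)
      = algebraMap Kbar (FF (M' * q * q)) (q : Kbar) * reg3Y0F M' q := by
  have hq0 : algebraMap Kbar (FF (M' * q * q)) (q : Kbar) ≠ 0 := by
    rw [Ne, map_eq_zero]
    exact Nat.cast_ne_zero.mpr (NeZero.ne q)
  rw [reg3Y0F, mul_comm _ (_⁻¹), ← mul_assoc, mul_inv_cancel₀ hq0, one_mul]

theorem reg3_natCast_mem_f0Field (L : ℕ) [NeZero L] (n : ℕ) :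
    algebraMap Kbar (FF L) (n : Kbar) ∈ f0Field A L := by
  have h := const_mem_f0Field A L ((n : ℕ) : k0Field A)
  have e : (((n : ℕ) : k0Field A) : Kbar) = (n : Kbar) := by simp
  rwa [e] at h

theorem reg3Y0F_mem_f0Field : reg3Y0F M' q ∈ f0Field A (M' * q * q) :=
  mul_mem (pow_mem (sub_mem (ecPi1_mem_f0Field A (vmi_jF_mem A M'))
    (ecPi3_mem_f0Field A (vmi_jF_mem A M'))) _)
    (inv_mem (reg3_natCast_mem_f0Field A (M' * q * q) q))

/-- `y₀ ∈ O_mid` -/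
def reg3Y0 : (reg3S A M' q hq hqM hA hζq hζ hE R hR).vMid.O :=
  ⟨⟨reg3Y0F M' q, reg3Y0F_mem_f0Field A M' q⟩,
    reg3inf_mem A hq ((A.mem_nonunits_iff).mp hA) hζq (hζ.ne_one hq.one_lt) hE _
      (reg3Y0F_pow M' q)⟩

@[simp] theorem coe_reg3Y0 :
    (((reg3Y0 A M' q hq hqM hA hζq hζ hE R hR :
        (reg3S A M' q hq hqM hA hζq hζ hE R hR).vMid.O) : f0Field A (M' * q * q)) :
      FF (M' * q * q)) = reg3Y0F M' q := rfl

/-- the constant `q` of `B` -/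
theorem coe_reg3_constB :
    ((((reg3S A M' q hq hqM hA hζq hζ hE R hR).constB ((q : ℕ) : k0Val A) :
        (reg3S A M' q hq hqM hA hζq hζ hE R hR).B) : f0Field A (M' * q * q)) :
      FF (M' * q * q)) = algebraMap Kbar (FF (M' * q * q)) (q : Kbar) := by
  rw [NodeSetup.coe_constB]
  have e1 : (((q : ℕ) : k0Val A) : k0Field A) = ((q : ℕ) : k0Field A) := by simp
  rw [e1, map_natCast, map_natCast]
  simp

/-- **`pow_eq`**: `π₀ ^ (q - 1) = q y₀` -/
theorem reg3_pow_eq :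
    ((reg3Phi1 A M' q hq hqM hA hζq hζ hE R hR R₀ hR₀ (reg3X0 A M' q hq hA R₀ hR₀)
        - reg3Phi3 A M' q hq hqM hA hζq hζ hE R hR R₀ hR₀ (reg3X0 A M' q hq hA R₀ hR₀) :
          (reg3S A M' q hq hqM hA hζq hζ hE R hR).vMid.O) : f0Field A (M' * q * q)) ^ (q - 1)
      = (((reg3S A M' q hq hqM hA hζq hζ hE R hR).constB ((q : ℕ) : k0Val A) :
          (reg3S A M' q hq hqM hA hζq hζ hE R hR).B) : f0Field A (M' * q * q))
        * ((reg3Y0 A M' q hq hqM hA hζq hζ hE R hR :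
          (reg3S A M' q hq hqM hA hζq hζ hE R hR).vMid.O) : f0Field A (M' * q * q)) := by
  apply Subtype.ext
  have h := reg3Y0F_pow M' q
  rw [← coe_reg3_constB A M' q hq hqM hA hζq hζ hE R hR] at h
  exact h

/-- **`red_y₀`** -/
theorem reg3_red_Y0_ne_zero :
    (reg3S A M' q hq hqM hA hζq hζ hE R hR).vMid.red
      (reg3Y0 A M' q hq hqM hA hζq hζ hE R hR) ≠ 0 := by
  intro h0
  have h1 := congrArg (fun z : ↥(modularFunctionFieldFullC (IsLocalRing.ResidueField A) M') =>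
    (z : LaurentSeries (IsLocalRing.ResidueField A))) h0
  simp only [coe_reg3S_vMid_red] at h1
  exact reg3inf_red_ne_zero A hq ((A.mem_nonunits_iff).mp hA) hζq (hζ.ne_one hq.one_lt) hE _
    (reg3Y0F_pow M' q) _ h1

/-- **(T4) at `∞'`** -/
theorem reg3_cuspInf :
    ((q - 1 : ℕ) : ℤ) * (infPlaceC (IsLocalRing.ResidueField A) M').ordDifferential
        (D (IsLocalRing.ResidueField A) (Fk (IsLocalRing.ResidueField A) M')
          ((reg3V' A M' q hq hA R₀ hR₀).red (reg3X0 A M' q hq hA R₀ hR₀)))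
      - (infPlaceC (IsLocalRing.ResidueField A) M').ord
          ((reg3S A M' q hq hqM hA hζq hζ hE R hR).vMid.red
            (reg3Y0 A M' q hq hqM hA hζq hζ hE R hR)) ≤ -((q - 1 : ℕ) : ℤ) := by
  rw [reg3_red_X0]
  exact reg3inf_T4_conc A hq ((A.mem_nonunits_iff).mp hA) hζq (hζ.ne_one hq.one_lt) hE _
    (reg3Y0F_pow M' q) _ _ (coe_reg3S_vMid_red A M' q hq hqM hA hζq hζ hE R hR _)

/-- `red' x₀ = j̄ ≠ 0` -/
theorem reg3_red_X0_ne_zero :
    (reg3V' A M' q hq hA R₀ hR₀).red (reg3X0 A M' q hq hA R₀ hR₀) ≠ 0 := by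
  rw [reg3_red_X0]
  intro h0
  have h1 := congrArg (fun z : ↥(modularFunctionFieldFullC (IsLocalRing.ResidueField A) M') =>
    (z : LaurentSeries (IsLocalRing.ResidueField A)).order) h0
  have h2 : ((jk (IsLocalRing.ResidueField A) M' : Fk (IsLocalRing.ResidueField A) M') :
      LaurentSeries (IsLocalRing.ResidueField A)).order = -1 :=
    inf_order_jqModC _
  rw [h2] at h1
  simp at h1

/-- `φ₂ x₀ = π₃ j ≠ 0` -/
theorem reg3_phi3_X0_ne_zero :
    ((reg3Phi3 A M' q hq hqM hA hζq hζ hE R hR R₀ hR₀ (reg3X0 A M' q hq hA R₀ hR₀) :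
        (reg3S A M' q hq hqM hA hζq hζ hE R hR).vMid.O) : f0Field A (M' * q * q)) ≠ 0 := by
  intro h0
  have h1 : (reg3S A M' q hq hqM hA hζq hζ hE R hR).vMid.red
      (reg3Phi3 A M' q hq hqM hA hζq hζ hE R hR R₀ hR₀ (reg3X0 A M' q hq hA R₀ hR₀)) = 0 := by
    have : reg3Phi3 A M' q hq hqM hA hζq hζ hE R hR R₀ hR₀ (reg3X0 A M' q hq hA R₀ hR₀) = 0 :=
      Subtype.ext h0
    rw [this, map_zero]
  rw [reg3_red_phi3] at h1
  exact reg3_red_X0_ne_zero A M' q hq hA R₀ hR₀ h1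

/-- **`const`** -/
theorem reg3_const (c : IsLocalRing.ResidueField A) :
    ∃ y : (reg3V' A M' q hq hA R₀ hR₀).O,
      (reg3V' A M' q hq hA R₀ hR₀).red y
        = algebraMap (IsLocalRing.ResidueField A)
            (↥(modularFunctionFieldFullC (IsLocalRing.ResidueField A) M')) c ∧
      reg3Phi1 A M' q hq hqM hA hζq hζ hE R hR R₀ hR₀ y
        = reg3Phi3 A M' q hq hqM hA hζq hζ hE R hR R₀ hR₀ y := by
  obtain ⟨a, rfl⟩ := vsurj_k0Res_surjective q hq hA c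
  refine ⟨⟨algebraMap (k0Field A) (f0Field A M') (a : k0Field A),
    (reg3V' A M' q hq hA R₀ hR₀).algebraMap_mem a⟩,
    (reg3V' A M' q hq hA R₀ hR₀).red_algebraMap a, ?_⟩
  apply Subtype.ext
  apply Subtype.ext
  show ecPi1 M' q (algebraMap Kbar (FF M') ((a : k0Field A) : Kbar))
    = ecPi3 M' q (algebraMap Kbar (FF M') ((a : k0Field A) : Kbar))
  rw [ecPi1_algebraMap, ecPi3_algebraMap]

/-- **`red'_surjective`** -/
theorem reg3_red'_surjective :
    Function.Surjective (reg3V' A M' q hq hA R₀ hR₀).red :=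
  (reg3V' A M' q hq hA R₀ hR₀).red_surjective

/-- the constant `q` of `R'` -/
theorem coe_reg3_natCast (n : ℕ) :
    ((((n : ℕ) : (reg3V' A M' q hq hA R₀ hR₀).O) : f0Field A M') : FF M')
      = algebraMap Kbar (FF M') (n : Kbar) := by
  simp

/-- **`unr`**: level `M'` is unramified over `A0` -/
theorem reg3_unr (y : (reg3V' A M' q hq hA R₀ hR₀).O)
    (hy : (reg3V' A M' q hq hA R₀ hR₀).red y = 0) :
    ∃ u : (reg3S A M' q hq hqM hA hζq hζ hE R hR).vMid.O,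
      (reg3S A M' q hq hqM hA hζq hζ hE R hR).vMid.red u = 0 ∧
      reg3Phi1 A M' q hq hqM hA hζq hζ hE R hR R₀ hR₀ y
          - reg3Phi3 A M' q hq hqM hA hζq hζ hE R hR R₀ hR₀ y
        = (reg3Phi1 A M' q hq hqM hA hζq hζ hE R hR R₀ hR₀ (reg3X0 A M' q hq hA R₀ hR₀)
          - reg3Phi3 A M' q hq hqM hA hζq hζ hE R hR R₀ hR₀ (reg3X0 A M' q hq hA R₀ hR₀))
          * u := by
  have h2 := hq.two_le
  refine reg3_unr_of_div (S := reg3S A M' q hq hqM hA hζq hζ hE R hR)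
    (q := (reg3S A M' q hq hqM hA hζq hζ hE R hR).constB ((q : ℕ) : k0Val A))
    (e := q - 1) (y₀ := reg3Y0 A M' q hq hqM hA hζq hζ hE R hR) (by omega)
    (reg3_red_phi1 A M' q hq hqM hA hζq hζ hE R hR R₀ hR₀)
    (reg3_red_phi3 A M' q hq hqM hA hζq hζ hE R hR R₀ hR₀)
    (reg3_pow_eq A M' q hq hqM hA hζq hζ hE R hR R₀ hR₀)
    (reg3_red_Y0_ne_zero A M' q hq hqM hA hζq hζ hE R hR)
    ((q : ℕ) : (reg3V' A M' q hq hA R₀ hR₀).O) ?_ ?_ ?_ y hy
  · apply Subtype.ext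
    rw [coe_reg3_constB, coe_reg3Phi1, coe_reg3_natCast, ecPi1_algebraMap]
  · apply Subtype.ext
    rw [coe_reg3_constB, coe_reg3Phi3, coe_reg3_natCast, ecPi3_algebraMap]
  · intro z hz
    have hz0 : R₀.red ⟨((z : f0Field A M') : FF M'), z.2⟩ = 0 := by
      apply Subtype.ext
      rw [← coe_reg3V'_red, hz]
    obtain ⟨x', hx'F, hx'⟩ := r3u_unr_red hq hA hR₀ z.1.2 z.2 hz0
    refine ⟨⟨⟨(x' : FF M'), hx'F⟩, x'.2⟩, ?_⟩
    apply Subtype.ext
    apply Subtype.ext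
    show ((z : f0Field A M') : FF M')
      = ((((q : ℕ) : (reg3V' A M' q hq hA R₀ hR₀).O) : f0Field A M') : FF M') * (x' : FF M')
    rw [coe_reg3_natCast]
    exact hx'

end Conc

end Fermat.Agent.S36lib

end
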