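import Mathlib
import Fermat.Agent.S36lib.Reg3Final
import Fermat.Agent.S36lib.PointDict

/-!
# Item 83 (S36), piece R-6 (helper5): REG3 in the shape of the consumers

`reg3_final_input` (`Reg3Final.lean`) + the dictionary `pdict_mid` (helper22, `PointDict.lean`):
for EVERY maximal ideal `𝔪 ⊇ p_mid` of `B` on the component `C_mid` only,

* `reg3_hmid`: `∃ π₀ w₁ b, π₀ ∈ p_mid ∧ w₁ ∉ 𝔪 ∧ b ∉ 𝔪 ∧ w₁ π₀ ^ e = q b`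
  (= the hypothesis `hmid` of `s36_h1_hloc`, helper26);
* `reg3_hgen`: `p_mid B_𝔪` is generated by `π₀`;
* `reg3_hufd_mid`: `B_𝔪` is factorial (= the hypothesis `hufd` of `s36_h1_hloc` on `C_mid`).
-/

set_option autoImplicit false
set_option linter.style.haveILetI false
set_option linter.unusedSectionVars false

noncomputable section

namespace Fermat.Agent.S36lib

open AlgebraicCurve KaehlerDifferential Fermat.Agent.RRlib Fermat.Agent.FFlib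
  Fermat.Agent.S24lib

section Wire

variable {K : Type*} [Field K] {k : Type*} [Field k] {A : ValuationSubring K} {π : A →+* k}
  {κ : Type*} [Field κ] [Algebra k κ] {F : Type*} [Field F] [Algebra K F]
  {S : NodeSetup A π κ F} {q : S.B} {e : ℕ} {R' : Type*} [CommRing R']
  {red' : R' →+* κ} {φ₁ φ₂ : R' →+* S.vMid.O} {x₀ : R'} {y₀ : S.vMid.O}
  {cusps nodes : Finset (Place k κ)} [IsAlgClosed k] {xs : κ} [hsep : FFSep k xs]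

include hsep in
/-- **REG3 = `hmid` of `s36_h1_hloc`.** -/
theorem reg3_hmid [IsDedekindDomain (S.B ⧸ S.pMid)] (H : Reg3Hyp S q e)
    (C : Reg3CountHyp S q e R' red' φ₁ φ₂ x₀ y₀ cusps nodes)
    (hx₀ : red' x₀ ≠ 0) (hJ₃ : ((φ₂ x₀ : S.vMid.O) : F) ≠ 0)
    (hnode : ∀ c ∈ nodes, ∀ s ∈ S.pInf, S.redMid s ≠ 0 → 0 < c.ord (S.redMid s))
    (cuspData : ∀ c ∈ cusps, (∀ z : S.B, 0 ≤ c.ord (S.redMid z)) →
      Reg3CuspDataAt S red' φ₁ φ₂ x₀ c)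
    (hπ : Function.Surjective π)
    (hfrac : ∀ w : κ, ∃ a b : S.B, S.redMid b ≠ 0 ∧ w * S.redMid b = S.redMid a)
    (hnm : ¬ S.pMid.IsMaximal)
    (𝔪 : Ideal S.B) (h𝔪 : 𝔪.IsMaximal) (hmid : S.pMid ≤ 𝔪) (hinf : ¬ S.pInf ≤ 𝔪) :
    ∃ π₀ w₁ b : S.B, π₀ ∈ S.pMid ∧ w₁ ∉ 𝔪 ∧ b ∉ 𝔪 ∧ w₁ * π₀ ^ e = q * b := by
  have hne : S.pMid ≠ 𝔪 := fun h => hnm (h ▸ h𝔪)
  obtain ⟨c, -, hP1, hP2, -⟩ := pdict_mid S hπ hfrac 𝔪 h𝔪 hmid hne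
  exact reg3_final_input (xs := xs) H C hx₀ hJ₃ hnode cuspData 𝔪 h𝔪.ne_top hinf c hP1 hP2

include hsep in
/-- **REG3: `p_mid B_𝔪` is principal** at every maximal ideal on `C_mid` only. -/
theorem reg3_hgen [IsDedekindDomain (S.B ⧸ S.pMid)] (H : Reg3Hyp S q e)
    (C : Reg3CountHyp S q e R' red' φ₁ φ₂ x₀ y₀ cusps nodes)
    (hx₀ : red' x₀ ≠ 0) (hJ₃ : ((φ₂ x₀ : S.vMid.O) : F) ≠ 0)
    (hnode : ∀ c ∈ nodes, ∀ s ∈ S.pInf, S.redMid s ≠ 0 → 0 < c.ord (S.redMid s))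
    (cuspData : ∀ c ∈ cusps, (∀ z : S.B, 0 ≤ c.ord (S.redMid z)) →
      Reg3CuspDataAt S red' φ₁ φ₂ x₀ c)
    (hπ : Function.Surjective π)
    (hfrac : ∀ w : κ, ∃ a b : S.B, S.redMid b ≠ 0 ∧ w * S.redMid b = S.redMid a)
    (hnm : ¬ S.pMid.IsMaximal)
    (𝔪 : Ideal S.B) (h𝔪 : 𝔪.IsMaximal) (hmid : S.pMid ≤ 𝔪) (hinf : ¬ S.pInf ≤ 𝔪)
    (hzero : ¬ S.pZero ≤ 𝔪) :
    ∃ π₀ : S.B, π₀ ∈ S.pMid ∧ ∀ z ∈ S.pMid, ∃ w' c : S.B, w' ∉ 𝔪 ∧ w' * z = π₀ * c := by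
  haveI := h𝔪.isPrime
  obtain ⟨π₀, w₁, b, hπ₀, -, hb, hπe⟩ := reg3_hmid (xs := xs) H C hx₀ hJ₃ hnode cuspData hπ
    hfrac hnm 𝔪 h𝔪 hmid hinf
  exact ⟨π₀, hπ₀, reg3_mid_dvd H 𝔪 hmid hinf hzero π₀ w₁ b hb hπe⟩

include hsep in
/-- **REG3 = `hufd` of `s36_h1_hloc` on `C_mid`**: `B_𝔪` is factorial. -/
theorem reg3_hufd_mid [IsNoetherianRing S.B] [IsDedekindDomain (S.B ⧸ S.pMid)]
    (H : Reg3Hyp S q e)
    (C : Reg3CountHyp S q e R' red' φ₁ φ₂ x₀ y₀ cusps nodes)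
    (hx₀ : red' x₀ ≠ 0) (hJ₃ : ((φ₂ x₀ : S.vMid.O) : F) ≠ 0)
    (hnode : ∀ c ∈ nodes, ∀ s ∈ S.pInf, S.redMid s ≠ 0 → 0 < c.ord (S.redMid s))
    (cuspData : ∀ c ∈ cusps, (∀ z : S.B, 0 ≤ c.ord (S.redMid z)) →
      Reg3CuspDataAt S red' φ₁ φ₂ x₀ c)
    (hπ : Function.Surjective π)
    (hfrac : ∀ w : κ, ∃ a b : S.B, S.redMid b ≠ 0 ∧ w * S.redMid b = S.redMid a)
    (hnm : ¬ S.pMid.IsMaximal)
    (𝔪 : Ideal S.B) [h𝔪 : 𝔪.IsMaximal] (hmid : S.pMid ≤ 𝔪) (hinf : ¬ S.pInf ≤ 𝔪)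
    (hzero : ¬ S.pZero ≤ 𝔪) :
    UniqueFactorizationMonoid (Localization.AtPrime 𝔪) := by
  have hne : S.pMid ≠ 𝔪 := fun h => hnm (h ▸ h𝔪)
  obtain ⟨π₀, w₁, b, -, hw₁, hb, hπe⟩ := reg3_hmid (xs := xs) H C hx₀ hJ₃ hnode cuspData hπ
    hfrac hnm 𝔪 h𝔪 hmid hinf
  exact reg3_mid_ufm H 𝔪 hmid hne hinf hzero π₀ w₁ b hw₁ hb hπe

end Wire

end Fermat.Agent.S36lib

end
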