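import Mathlib
import Fermat.Agent.S36lib.Reg3Conc
import Fermat.Agent.S36lib.Reg3Wire
import Fermat.Agent.S36lib.Reg3HypM
import Fermat.Agent.S36lib.Reg3Lift
import Fermat.Agent.S36lib.D1DedekindAbs
import Fermat.Agent.S36lib.PiTable
import Fermat.Agent.S36lib.D1Set
import Fermat.Agent.S36lib.Reg1CountAux
import Fermat.Agent.GM.Numerics
import Fermat.Agent.GM.Main
import Fermat.Agent.GM.RedMain
import Fermat.Agent.RRlib.Modular
import Fermat.Agent.RRlib.Cor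

/-!
# Item 83 (S36), piece R6 (helper5): REG3 for `reg3S = s36Final`, THE ASSEMBLY

`S = reg3S …` (`= s36Final`, level `M' q²`, `B = B_{D1}`), `κ' = F_{M',k}`,
`Q∞ = infPlaceC k M'`.

* `reg3_phi_mem_B` : `x ∈ B' = d1lRing A R₀` ⟹ `π₁ x, π₃ x ∈ B_{D1}` (tables of helper10,
  `s36D1_pi1/3`);
* `reg3_lift`      : the field `lift` of `Reg3CountHyp` (helper8's `r3l_lift`);
* `reg3_hsurj`     : `red_mid (B) ⊇ affRing Q∞` (helper8's `r3l_surj`);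
* `reg3_dedekind`  : from `aff`: `B ⧸ p_mid` Dedekind, `hfrac`, `p_mid` not maximal
  (helper27's `d1q_nodeSetup_mid`);
* `reg3_exists_pole`, `reg3_hpos`, `reg3_hcusp` : the inputs `hpos`, `hcusp` of helper22's
  `r6e_main` / `r6e_concrete`;
* `reg3_exists_cusps`, `reg3_num` : the cusps of `κ'` and the numerics;
* `reg3_conc_hmid` : **`hmid` of `s36_hhead_pkg`** for `reg3S` from `aff` (R6-c), the cusp data
  (R6-d) and the node package (R6-e).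
-/

set_option autoImplicit false
set_option linter.style.haveILetI false
set_option linter.unusedSectionVars false
set_option linter.unusedVariables false
set_option synthInstance.maxHeartbeats 400000

noncomputable section

open ModularCurve AlgebraicCurve HahnSeries KaehlerDifferential
open Fermat.Agent.S24lib Fermat.Agent.HeckeBar Fermat.Agent.S37lib Fermat.Agent.S35lib
  Fermat.Agent.GoodRed Fermat.Agent.S34lib Fermat.Agent.RRlib Fermat.Agent.FFlib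
  Fermat.Agent.GM

namespace Fermat.Agent.S36lib

section Asm

variable (A : ValuationSubring Kbar) (M' q : ℕ) [NeZero M'] [NeZero q] (hq : q.Prime)
  (hqM : ¬ q ∣ M') (hA : A.LiesOverPrime q)
variable {ζ : Kbarˣ} {E : FF (M' * q * q) →+* LaurentSeries Kbar}
variable (hζq : ζ ^ q = 1) (hζ : IsPrimitiveRoot (ζ : Kbar) q) (hE : IsMidExp M' q ζ E)
variable (R : ConstRed A (IsLocalRing.residue A)
      (↥(modularFunctionFieldFullC (IsLocalRing.ResidueField A) M')) (FF (M' * q * q)))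
  (hR : IsSeriesRed R)
variable (R₀ : ConstRed A (IsLocalRing.residue A)
      (↥(modularFunctionFieldFullC (IsLocalRing.ResidueField A) M')) (FF M'))
  (hR₀ : IsSeriesRed R₀)

local notation "kk" => IsLocalRing.ResidueField A
local notation "SS" => reg3S A M' q hq hqM hA hζq hζ hE R hR
local notation "VV" => reg3V' A M' q hq hA R₀ hR₀
local notation "Φ₁" => reg3Phi1 A M' q hq hqM hA hζq hζ hE R hR R₀ hR₀
local notation "Φ₃" => reg3Phi3 A M' q hq hqM hA hζq hζ hE R hR R₀ hR₀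
local notation "X₀" => reg3X0 A M' q hq hA R₀ hR₀
local notation "Y₀" => reg3Y0 A M' q hq hqM hA hζq hζ hE R hR
local notation "Q∞" => infPlaceC (IsLocalRing.ResidueField A) M'

include hq hqM hA hζq hζ hE hR hR₀

/-- the reduction of level `M'`, as an element of `κ'` -/
theorem reg3V'_red_eq (x : f0Field A M') (hx : (x : FF M') ∈ R₀.O) :
    (VV).red ⟨x, hx⟩ = R₀.red ⟨(x : FF M'), hx⟩ :=
  Subtype.ext (coe_reg3V'_red A M' q hq hA R₀ hR₀ ⟨x, hx⟩)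

/-- **`π₁ (B'), π₃ (B') ⊆ B_{D1}`** -/
theorem reg3_phi_mem_B (x : f0Field A M') (hxB : x ∈ d1lRing A R₀) (hx : (x : FF M') ∈ R₀.O) :
    ((Φ₁ ⟨x, hx⟩ : (SS).vMid.O) : f0Field A (M' * q * q)) ∈ (SS).B ∧
      ((Φ₃ ⟨x, hx⟩ : (SS).vMid.O) : f0Field A (M' * q * q)) ∈ (SS).B := by
  have hlt := (A.mem_nonunits_iff).mp hA
  obtain ⟨hreg, -⟩ := (mem_d1lRing_iff A R₀ x).1 hxB
  have hreg' : ∀ v' : Place Kbar (FF M'), v' ≠ infPlaceBar M' → 0 ≤ v'.ord (x : FF M') := by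
    intro v' hv'
    rw [mem_offRegular_iff] at hreg
    have h1 := hreg v' (by simpa using hv')
    rwa [ffMem_iff_ord_nonneg] at h1
  obtain ⟨h1i, -⟩ := pit_pi1_inf hq hlt hR₀ hR (x : FF M') hx
  obtain ⟨h3i, -⟩ := pit_pi3_inf hq hlt hR₀ hR (x : FF M') hx
  obtain ⟨h1z, -, h3z⟩ := pit_pi_zero hq hlt hR₀ hR hqM (x : FF M') hx
  constructor
  · exact (mem_f0AffD_iff A (M' * q * q) (s36D1 M' q hq hqM) _ _ _ _).2
      ⟨s36D1_pi1 M' q hq hqM _ hreg', h1i,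
        (reg3_pi1_red A M' q hq hζq hE R₀ hR₀ hlt hx).1, h1z⟩
  · exact (mem_f0AffD_iff A (M' * q * q) (s36D1 M' q hq hqM) _ _ _ _).2
      ⟨s36D1_pi3 M' q hq hqM _ hreg', h3i,
        (reg3_pi3_red A M' q hq hζq hE R₀ hR₀ hlt hx).1, h3z⟩

/-- `red_mid` on `B` is `v_mid.red` -/
theorem reg3_redMid_eq (z : f0Field A (M' * q * q)) (hz : z ∈ (SS).B)
    (hz' : z ∈ (SS).vMid.O) :
    (SS).redMid ⟨z, hz⟩ = (SS).vMid.red ⟨z, hz'⟩ := rfl

/-- **`lift`** -/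
theorem reg3_lift (haux : IsAuxLevel q M')
    (w : Place kk (Fk kk M')) (hw : w ≠ Q∞) :
    ∃ x : (VV).O, w.ord ((VV).red x) = 1 ∧
      ((Φ₁ x : (SS).vMid.O) : f0Field A (M' * q * q)) ∈ (SS).B ∧
      ((Φ₃ x : (SS).vMid.O) : f0Field A (M' * q * q)) ∈ (SS).B := by
  haveI : Fact q.Prime := ⟨hq⟩
  obtain ⟨x, hx, hxB, hord⟩ := r3l_lift q haux hA hR₀ w hw
  refine ⟨⟨x, hx⟩, ?_, reg3_phi_mem_B A M' q hq hqM hA hζq hζ hE R hR R₀ hR₀ x hxB hx⟩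
  rw [reg3V'_red_eq A M' q hq hqM hA hζq hζ hE R hR R₀ hR₀]
  exact hord

/-- **`red_mid (B) ⊇ affRing Q∞`** -/
theorem reg3_hsurj (haux : IsAuxLevel q M')
    (c : Fk kk M') (hc : c ∈ affRing Q∞) : ∃ z : (SS).B, (SS).redMid z = c := by
  haveI : Fact q.Prime := ⟨hq⟩
  obtain ⟨x, hx, hxB, hred⟩ := r3l_surj q haux hA hR₀ c hc
  obtain ⟨h1, -⟩ := reg3_phi_mem_B A M' q hq hqM hA hζq hζ hE R hR R₀ hR₀ x hxB hx
  refine ⟨⟨_, h1⟩, ?_⟩
  rw [reg3_redMid_eq A M' q hq hqM hA hζq hζ hE R hR R₀ hR₀ _ h1 (Φ₁ ⟨x, hx⟩).2]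
  have e : (⟨((Φ₁ ⟨x, hx⟩ : (SS).vMid.O) : f0Field A (M' * q * q)), (Φ₁ ⟨x, hx⟩).2⟩ :
      (SS).vMid.O) = Φ₁ ⟨x, hx⟩ := rfl
  rw [e, reg3_red_phi1, reg3V'_red_eq A M' q hq hqM hA hζq hζ hE R hR R₀ hR₀, hred]

/-- **D1-Q at `mid`** from `aff` -/
theorem reg3_dedekind (haux : IsAuxLevel q M')
    (aff : ∀ w : Place kk (Fk kk M'), w ≠ Q∞ → ∀ z : (SS).B, 0 ≤ w.ord ((SS).redMid z)) :
    IsDedekindDomain ((SS).B ⧸ (SS).pMid) ∧
      (∀ w : Fk kk M', ∃ a b : (SS).B, (SS).redMid b ≠ 0 ∧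
        w * (SS).redMid b = (SS).redMid a) ∧
      ¬ (SS).pMid.IsMaximal := by
  haveI : IsAlgClosed kk := isAlgClosed_residueField A
  haveI : RRHyp kk (Fk kk M') := mr_rrHyp kk M'
  obtain ⟨-, h2, h3, h4⟩ := d1q_nodeSetup_mid (SS) (affRing Q∞)
    (d1q_affRing_not_isField Q∞) (d1q_affRing_frac Q∞)
    (fun z => mem_affRing_iff.2 (fun v hv => aff v hv z))
    (reg3_hsurj A M' q hq hqM hA hζq hζ hE R hR R₀ hR₀ haux)
  exact ⟨h2, h3, h4⟩

/-- some element of `B` has a pole at `Q∞` along `C_mid` -/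
theorem reg3_exists_pole (haux : IsAuxLevel q M') :
    ∃ z : (SS).B, (Q∞).ord ((SS).redMid z) < 0 := by
  haveI : IsAlgClosed kk := isAlgClosed_residueField A
  haveI : RRHyp kk (Fk kk M') := mr_rrHyp kk M'
  obtain ⟨f, hfc, hreg, -⟩ := exists_pole_only_at (K := kk) Q∞
  have hfmem : f ∈ affRing Q∞ := hreg
  obtain ⟨z, hz⟩ := reg3_hsurj A M' q hq hqM hA hζq hζ hE R hR R₀ hR₀ haux f hfmem
  refine ⟨z, ?_⟩
  rw [hz]
  by_contra h
  exact hfc (affRing_const_of_ord_nonneg hfmem (not_lt.mp h))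

/-- **`hpos`** of `r6e_main` -/
theorem reg3_hpos (haux : IsAuxLevel q M')
    (w : Place kk (Fk kk M')) (hw : w ≠ Q∞) :
    ∃ z : (SS).B, (SS).redMid z ≠ 0 ∧ 0 < w.ord ((SS).redMid z) := by
  obtain ⟨x, hord, h1, -⟩ := reg3_lift A M' q hq hqM hA hζq hζ hE R hR R₀ hR₀ haux w hw
  refine ⟨⟨_, h1⟩, ?_⟩
  rw [reg3_redMid_eq A M' q hq hqM hA hζq hζ hE R hR R₀ hR₀ _ h1 (Φ₁ x).2]
  have e : (⟨((Φ₁ x : (SS).vMid.O) : f0Field A (M' * q * q)), (Φ₁ x).2⟩ :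
      (SS).vMid.O) = Φ₁ x := rfl
  rw [e, reg3_red_phi1]
  refine ⟨?_, by rw [hord]; exact one_pos⟩
  intro h0
  rw [h0, w.ord_zero] at hord
  exact absurd hord (by norm_num)

/-- the cusps of `κ'` -/
theorem reg3_exists_cusps (haux : IsAuxLevel q M') :
    ∃ T : Finset (Place kk (Fk kk M')),
      (∀ v, v ∈ T ↔ v.ord (jk kk M') < 0) ∧ T.card = cuspCount M' := by
  haveI : Fact q.Prime := ⟨hq⟩
  haveI : IsAlgClosed kk := isAlgClosed_residueField A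
  exact gmw_exists_cusps kk M' (exists_fiberData_modL' M' haux.1 A hA)

/-- `Q∞` is a cusp -/
theorem reg3_inf_ord_jk : (Q∞).ord (jk kk M') < 0 := by
  rw [infPlaceC_ord]
  have h := inf_order_jqModC kk
  rw [coe_jk, h]
  norm_num

/-- **the numerics** -/
theorem reg3_num (haux : IsAuxLevel q M')
    (cusps nodes : Finset (Place kk (Fk kk M')))
    (hcard : cusps.card = cuspCount M')
    (hn : 12 * nodes.card ≤ (q - 1) * dedekindPsi M') :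
    2 * (nodes.card : ℤ) - ((q - 1 : ℕ) : ℤ) * cusps.card
      ≤ ((q - 1 : ℕ) : ℤ) * (2 * (genusFF kk (Fk kk M') : ℤ) - 2) := by
  have h49 : 4 ∣ M' ∨ 9 ∣ M' := by
    rcases haux.2 with ⟨_, h⟩ | ⟨_, h⟩
    · exact Or.inl h
    · exact Or.inr h
  have hg := reg1c_genus_eq_aux M' hq haux A hA
  have hgq : (genusFF kk (Fk kk M') : ℚ) = genusFormula M' := by
    rw [hg]
    exact mod_genusFF M'
  have hform := genusFormula_of_aux (M := M') h49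
  have hnq : (12 : ℚ) * nodes.card ≤ ((q - 1 : ℕ) : ℚ) * dedekindPsi M' := by
    exact_mod_cast hn
  have hmain : (2 : ℚ) * (nodes.card : ℚ) - ((q - 1 : ℕ) : ℚ) * cusps.card
      ≤ ((q - 1 : ℕ) : ℚ) * (2 * (genusFF kk (Fk kk M') : ℚ) - 2) := by
    rw [hgq, hform, hcard]
    have : ((q - 1 : ℕ) : ℚ) * ((dedekindPsi M' : ℚ) / 6 - (cuspCount M' : ℚ))
        = ((q - 1 : ℕ) : ℚ) * dedekindPsi M' / 6 - ((q - 1 : ℕ) : ℚ) * cuspCount M' := by ring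
    rw [this]
    linarith
  exact_mod_cast hmain

/-- **`hcusp`** of `r6e_main`, from the cusp data -/
theorem reg3_hcusp (haux : IsAuxLevel q M')
    (cuspData : ∀ c : Place kk (Fk kk M'), c.ord (jk kk M') < 0 → c ≠ Q∞ →
      Reg3CuspDataAt (SS) (VV).red Φ₁ Φ₃ X₀ c)
    (c : Place kk (Fk kk M')) (hc : c.ord (jk kk M') < 0)
    (hreg : ∀ z : (SS).B, 0 ≤ c.ord ((SS).redMid z)) :
    ∃ s : (SS).B, s ∈ (SS).pInf ∧ (SS).redMid s ≠ 0 ∧ c.ord ((SS).redMid s) = 0 := by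
  by_cases hcc : c = Q∞
  · exfalso
    obtain ⟨z, hz⟩ := reg3_exists_pole A M' q hq hqM hA hζq hζ hE R hR R₀ hR₀ haux
    have h1 := hreg z
    rw [hcc] at h1
    exact absurd h1 (not_le.mpr hz)
  · obtain ⟨n, J₂, b, w, b', w', s, -, -, -, -, -, -, -, -, hsInf, -, hs0, hsc, -⟩ :=
      cuspData c hc hcc
    exact ⟨s, hsInf, hs0, hsc⟩

/-- **REG3 for `reg3S`: `hmid` of `s36_hhead_pkg`**, from `aff` (R6-c), the cusp data (R6-d) and
the node package (R6-e, `r6e_main` / `r6e_concrete`). -/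
theorem reg3_conc_hmid (haux : IsAuxLevel q M')
    (aff : ∀ w : Place kk (Fk kk M'), w ≠ Q∞ → ∀ z : (SS).B, 0 ≤ w.ord ((SS).redMid z))
    (cuspData : ∀ c : Place kk (Fk kk M'), c.ord (jk kk M') < 0 → c ≠ Q∞ →
      Reg3CuspDataAt (SS) (VV).red Φ₁ Φ₃ X₀ c)
    (hnodes : ∀ cusps : Finset (Place kk (Fk kk M')),
      (∀ v, v ∈ cusps ↔ v.ord (jk kk M') < 0) →
      ∃ nodes : Finset (Place kk (Fk kk M')), Disjoint nodes cusps ∧
        (∀ c ∈ nodes, ∀ s ∈ (SS).pInf, (SS).redMid s ≠ 0 → 0 < c.ord ((SS).redMid s)) ∧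
        (∀ w : Place kk (Fk kk M'), w ∉ cusps → w ∉ nodes →
          ∃ s : (SS).B, s ∈ (SS).pInf ∧ s ∈ (SS).pZero ∧ (SS).redMid s ≠ 0 ∧
            w.ord ((SS).redMid s) = 0) ∧
        (∀ t ∈ nodes,
          ∃ s : (SS).B, s ∈ (SS).pInf ∧ s ∈ (SS).pZero ∧ (SS).redMid s ≠ 0 ∧
            t.ord ((SS).redMid s) ≤ 2) ∧
        12 * nodes.card ≤ (q - 1) * dedekindPsi M')
    (𝔪 : Ideal (SS).B) (h𝔪 : 𝔪.IsMaximal) (hmid : (SS).pMid ≤ 𝔪) (hinf : ¬ (SS).pInf ≤ 𝔪) :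
    ∃ π₀ w₁ b : (SS).B, π₀ ∈ (SS).pMid ∧ w₁ ∉ 𝔪 ∧ b ∉ 𝔪 ∧
      w₁ * π₀ ^ (q - 1) = (SS).constB ((q : ℕ) : k0Val A) * b := by
  haveI : IsAlgClosed kk := isAlgClosed_residueField A
  haveI : FFSep kk (jk kk M') := mr_ffSep kk M'
  obtain ⟨hD, hfrac, hnm⟩ := reg3_dedekind A M' q hq hqM hA hζq hζ hE R hR R₀ hR₀ haux aff
  haveI := hD
  obtain ⟨cusps, hcusps, hcard⟩ :=
    reg3_exists_cusps A M' q hq hqM hA hζq hζ hE R hR R₀ hR₀ haux
  obtain ⟨nodes, hdisj, hnode, hnonnode, hnode2, hcount⟩ := hnodes cusps hcusps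
  have hcInf : Q∞ ∈ cusps := (hcusps _).2 (reg3_inf_ord_jk A M' q hq hqM hA hζq hζ hE R hR R₀ hR₀)
  have H := r3h_nodeSetupM A M' q hq hqM hA R hR hζq hζ hE
  have C : Reg3CountHyp (SS) ((SS).constB ((q : ℕ) : k0Val A)) (q - 1) (VV).O (VV).red
      Φ₁ Φ₃ X₀ Y₀ cusps nodes :=
    Reg3CountHyp.of_cuspData (xs := jk kk M') H
      (reg3_red'_surjective A M' q hq hA R₀ hR₀)
      (reg3_red_phi1 A M' q hq hqM hA hζq hζ hE R hR R₀ hR₀)
      (reg3_red_phi3 A M' q hq hqM hA hζq hζ hE R hR R₀ hR₀)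
      (reg3_pow_eq A M' q hq hqM hA hζq hζ hE R hR R₀ hR₀)
      (reg3_red_Y0_ne_zero A M' q hq hqM hA hζq hζ hE R hR)
      (reg3_unr A M' q hq hqM hA hζq hζ hE R hR R₀ hR₀)
      (reg3_const A M' q hq hqM hA hζq hζ hE R hR R₀ hR₀)
      hdisj Q∞ aff hcInf
      (fun w hw => reg3_lift A M' q hq hqM hA hζq hζ hE R hR R₀ hR₀ haux w
        (fun h => hw (h ▸ hcInf)))
      hnonnode hnode2
      (reg3_red_X0_ne_zero A M' q hq hA R₀ hR₀)
      (reg3_phi3_X0_ne_zero A M' q hq hqM hA hζq hζ hE R hR R₀ hR₀)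
      (reg3_cuspInf A M' q hq hqM hA hζq hζ hE R hR R₀ hR₀)
      (fun c hc hcc => cuspData c ((hcusps c).1 hc) hcc)
      (reg3_num A M' q hq hqM hA hζq hζ hE R hR R₀ hR₀ haux cusps nodes hcard hcount)
  refine reg3_hmid (xs := jk kk M') H C
    (reg3_red_X0_ne_zero A M' q hq hA R₀ hR₀)
    (reg3_phi3_X0_ne_zero A M' q hq hqM hA hζq hζ hE R hR R₀ hR₀)
    hnode ?_ (vsurj_k0Res_surjective q hq hA) hfrac hnm 𝔪 h𝔪 hmid hinf
  intro c hc hreg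
  by_cases hcc : c = Q∞
  · exfalso
    obtain ⟨z, hz⟩ := reg3_exists_pole A M' q hq hqM hA hζq hζ hE R hR R₀ hR₀ haux
    have h1 := hreg z
    rw [hcc] at h1
    exact absurd h1 (not_le.mpr hz)
  · exact cuspData c ((hcusps c).1 hc) hcc

end Asm

end Fermat.Agent.S36lib

end
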