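/-
Item 83 (S36), piece TAME (helper7), input of REG3-CUSP (helper5 / lead).

`k` algebraically closed of characteristic `q`, `q ∤ M`: the extension `F_{M,k} / k(j̄)` is
TAMELY ramified at the cusps:  for every pole `c` of `j̄`,  `ord_c (j̄) ∣ M`,  hence
`(ord_c j̄ : k) ≠ 0` and `ord_c (d j̄) = ord_c (j̄) - 1`.

Proof: the fibre data over `j̄ = ∞` (GM-R, `exists_fiberData_modL'`): every place over `u = j̄⁻¹ = 0`
is the place of an expansion `i ∈ SL₂(ℤ)/Γ₀(M)`, and `ord_c u` divides the length of the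
`T`-orbit of `i`, which divides `M` because `T^M ≡ 1 mod M`.  Helper lemmas are prefixed `r3t_`.
-/
import Mathlib
import Fermat.Agent.GM.RedMain
import Fermat.Agent.S24lib.AlgIndex
import Fermat.Agent.RRlib.Hurwitz
import Fermat.Agent.GoodRed.Echelon
import Fermat.Agent.S36lib.Speed

set_option autoImplicit false
set_option linter.style.haveILetI false
set_option linter.unusedSectionVars false
set_option synthInstance.maxHeartbeats 400000

noncomputable section

namespace Fermat.Agent.S36lib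

open AlgebraicCurve ModularCurve CongruenceSubgroup IntermediateField
open Fermat.Agent.S24lib Fermat.Agent.GM Fermat.Agent.RRlib
open scoped MatrixGroups

/-! ### the ramification index divides the orbit length -/

section Generic

variable {K F L : Type} [Field K] [Field F] [Algebra K F] [Field L] [Algebra K L]
variable {u : F} {G : Type} [Group G] {I : Type} [Fintype I] [MulAction G I] {g : G}

/-- every place over `u = 0` belongs to an index `i`, and `ord_v u` divides the length of the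
`g`-orbit of `i` -/
theorem r3t_ord_dvd_card_orbit [IsAlgClosed K] [Nonempty I] (D : FiberData K F L u I g)
    (v : Place K F) (hv : 0 < v.ord u) :
    ∃ i : I, v.ord u ∣ (Nat.card (MulAction.orbit (Subgroup.zpowers g) i) : ℤ) := by
  obtain ⟨i, m, hm, h⟩ := D.exists_index v hv
  refine ⟨i, ?_⟩
  have hm' : (0 : ℤ) < m := by exact_mod_cast hm
  obtain ⟨π, hπ⟩ := ffExistsIrreducible v
  have hπ0 : (π : F) ≠ 0 := by
    simpa [ne_eq, ZeroMemClass.coe_eq_zero] using hπ.ne_zero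
  have hπ1 : v.ord (π : F) = 1 := v.ord_coe_irreducible hπ
  have h1 := h u D.u_ne_zero
  rw [D.order_u] at h1
  have h2 := h π hπ0
  rw [hπ1, mul_one] at h2
  have h3 := D.dvd i π hπ0
  rw [h1, h2] at h3
  rw [mul_comm (m : ℤ)] at h3
  exact (mul_dvd_mul_iff_right hm'.ne').1 h3

end Generic

/-! ### the `T`-orbits on `SL₂(ℤ)/Γ₀(M)` -/

section Orbits

variable (M : ℕ)

/-- `g⁻¹ T^M g ∈ Γ₀(M)` -/
theorem r3t_conj_mem (g : SL(2, ℤ)) :
    g⁻¹ * (ModularGroup.T ^ M : SL(2, ℤ)) * g ∈ Gamma0 M := by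
  rw [Gamma0_mem]
  have hT : ((ModularGroup.T ^ M : SL(2, ℤ)) : Matrix (Fin 2) (Fin 2) ℤ) = !![1, (M : ℤ); 0, 1] := by
    have := ModularGroup.coe_T_zpow (M : ℤ)
    rwa [zpow_natCast] at this
  have hT00 : ((ModularGroup.T ^ M : SL(2, ℤ)) : Matrix (Fin 2) (Fin 2) ℤ) 0 0 = 1 := by
    rw [hT]; rfl
  have hT01 : ((ModularGroup.T ^ M : SL(2, ℤ)) : Matrix (Fin 2) (Fin 2) ℤ) 0 1 = M := by
    rw [hT]; rfl
  have hT10 : ((ModularGroup.T ^ M : SL(2, ℤ)) : Matrix (Fin 2) (Fin 2) ℤ) 1 0 = 0 := by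
    rw [hT]; rfl
  have hT11 : ((ModularGroup.T ^ M : SL(2, ℤ)) : Matrix (Fin 2) (Fin 2) ℤ) 1 1 = 1 := by
    rw [hT]; rfl
  have hi10 : ((g⁻¹ : SL(2, ℤ)) : Matrix (Fin 2) (Fin 2) ℤ) 1 0 = - g 1 0 := by
    rw [Matrix.SpecialLinearGroup.SL2_inv_expl]; rfl
  have hi11 : ((g⁻¹ : SL(2, ℤ)) : Matrix (Fin 2) (Fin 2) ℤ) 1 1 = g 0 0 := by
    rw [Matrix.SpecialLinearGroup.SL2_inv_expl]; rfl
  have e : ((g⁻¹ * (ModularGroup.T ^ M : SL(2, ℤ)) * g : SL(2, ℤ)) 1 0 : ℤ)
      = -((M : ℤ) * (g 1 0) ^ 2) := by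
    rw [Matrix.SpecialLinearGroup.coe_mul, Matrix.SpecialLinearGroup.coe_mul]
    simp only [Matrix.mul_apply, Fin.sum_univ_two, hT00, hT01, hT10, hT11, hi10, hi11]
    ring
  rw [e]
  push_cast
  rw [ZMod.natCast_self, zero_mul, neg_zero]

/-- `T^M` acts trivially on `SL₂(ℤ)/Γ₀(M)` -/
theorem r3t_T_pow_smul (i : SL(2, ℤ) ⧸ Gamma0 M) :
    (ModularGroup.T ^ M : SL(2, ℤ)) • i = i := by
  induction i using QuotientGroup.induction_on with
  | H g =>
    have h : (ModularGroup.T ^ M : SL(2, ℤ)) • (QuotientGroup.mk g : SL(2, ℤ) ⧸ Gamma0 M)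
        = QuotientGroup.mk ((ModularGroup.T ^ M : SL(2, ℤ)) * g) := rfl
    rw [h, eq_comm, QuotientGroup.eq, ← mul_assoc]
    exact r3t_conj_mem M g

/-- the length of every `T`-orbit divides `M` -/
theorem r3t_card_orbit_dvd [NeZero M] (i : SL(2, ℤ) ⧸ Gamma0 M) :
    Nat.card (MulAction.orbit (Subgroup.zpowers (ModularGroup.T : SL(2, ℤ))) i) ∣ M := by
  have h0 : Nat.card (MulAction.orbit (Subgroup.zpowers (ModularGroup.T : SL(2, ℤ))) i)
      = Function.minimalPeriod ((ModularGroup.T : SL(2, ℤ)) • ·) i :=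
    (Nat.card_congr (MulAction.orbitZPowersEquiv ModularGroup.T i)).trans (Nat.card_zmod _)
  rw [h0]
  exact MulAction.pow_smul_eq_iff_minimalPeriod_dvd.mp (r3t_T_pow_smul M i)

end Orbits

/-! ### tameness at the cusps -/

section Tame

variable {k : Type} [Field k] [IsAlgClosed k] (M : ℕ) [NeZero M]

/-- the pole orders of `j̄` divide the level -/
theorem r3t_ord_jk_dvd
    (hD : Nonempty (FiberData k (Fk k M) k ((jk k M)⁻¹) (SL(2, ℤ) ⧸ Gamma0 M) ModularGroup.T))
    (c : Place k (Fk k M)) (hc : c.ord (jk k M) < 0) : c.ord (jk k M) ∣ (M : ℤ) := by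
  obtain ⟨D⟩ := hD
  haveI : Nonempty (SL(2, ℤ) ⧸ Gamma0 M) := ⟨QuotientGroup.mk 1⟩
  have hv : 0 < c.ord ((jk k M)⁻¹) := by
    rw [c.ord_inv]
    omega
  obtain ⟨i, hi⟩ := r3t_ord_dvd_card_orbit D c hv
  have h2 : (Nat.card (MulAction.orbit (Subgroup.zpowers (ModularGroup.T : SL(2, ℤ))) i) : ℤ)
      ∣ (M : ℤ) := by exact_mod_cast r3t_card_orbit_dvd M i
  have h3 := hi.trans h2
  rw [c.ord_inv] at h3
  exact (neg_dvd).mp h3

/-- **TAME**, from the fibre data: `(ord_c j̄ : k) ≠ 0` at every pole `c` of `j̄` -/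
theorem r3t_tame_of_fiberData (q : ℕ) [CharP k q] (hqM : ¬ q ∣ M)
    (hD : Nonempty (FiberData k (Fk k M) k ((jk k M)⁻¹) (SL(2, ℤ) ⧸ Gamma0 M) ModularGroup.T))
    (c : Place k (Fk k M)) (hc : c.ord (jk k M) < 0) : ((c.ord (jk k M) : ℤ) : k) ≠ 0 := by
  intro h0
  have h1 : (q : ℤ) ∣ c.ord (jk k M) := (CharP.intCast_eq_zero_iff k q _).mp h0
  have h2 : (q : ℤ) ∣ (M : ℤ) := h1.trans (r3t_ord_jk_dvd M hD c hc)
  exact hqM (by exact_mod_cast h2)

end Tame

section Main

variable (M' q : ℕ) [NeZero M'] (hq : q.Prime) (hqM : ¬ q ∣ M')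
variable (A : ValuationSubring (AlgebraicClosure ℚ)) (hA : A.LiesOverPrime q)

include hq hqM hA in
/-- the pole orders of `j̄` in `F_{M',k}` divide `M'` -/
theorem r3t_ord_dvd (c : Place (IsLocalRing.ResidueField A) (Fk (IsLocalRing.ResidueField A) M'))
    (hc : c.ord (jk (IsLocalRing.ResidueField A) M') < 0) :
    c.ord (jk (IsLocalRing.ResidueField A) M') ∣ (M' : ℤ) := by
  haveI : Fact q.Prime := ⟨hq⟩
  haveI : IsAlgClosed (IsLocalRing.ResidueField A) :=
    Fermat.Agent.GoodRed.isAlgClosed_residueField A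
  exact r3t_ord_jk_dvd M' (exists_fiberData_modL' M' hqM A hA) c hc

include hq hqM hA in
/-- **TAME**: `F_{M',k} / k(j̄)` is tamely ramified at the cusps (`q ∤ M'`, `char k = q`) -/
theorem r3t_tame (c : Place (IsLocalRing.ResidueField A) (Fk (IsLocalRing.ResidueField A) M'))
    (hc : c.ord (jk (IsLocalRing.ResidueField A) M') < 0) :
    ((c.ord (jk (IsLocalRing.ResidueField A) M') : ℤ) : IsLocalRing.ResidueField A) ≠ 0 := by
  haveI : Fact q.Prime := ⟨hq⟩
  haveI : IsAlgClosed (IsLocalRing.ResidueField A) :=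
    Fermat.Agent.GoodRed.isAlgClosed_residueField A
  haveI : CharP (IsLocalRing.ResidueField A) q := charP_residueField hA
  exact r3t_tame_of_fiberData M' q hqM (exists_fiberData_modL' M' hqM A hA) c hc

set_option maxHeartbeats 1600000 in
include hq hqM hA in
/-- **TAME**, Hurwitz form: `ord_c (d j̄) = ord_c (j̄) - 1` at every cusp `c` -/
theorem r3t_ordDifferential
    [RRBase (IsLocalRing.ResidueField A) (Fk (IsLocalRing.ResidueField A) M')]
    [Nontrivial (Ω[Fk (IsLocalRing.ResidueField A) M'⁄IsLocalRing.ResidueField A])]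
    (c : Place (IsLocalRing.ResidueField A) (Fk (IsLocalRing.ResidueField A) M'))
    [c.DCoordGenerates]
    (hc : c.ord (jk (IsLocalRing.ResidueField A) M') < 0) :
    c.ordDifferential (KaehlerDifferential.D (IsLocalRing.ResidueField A)
        (Fk (IsLocalRing.ResidueField A) M') (jk (IsLocalRing.ResidueField A) M'))
      = c.ord (jk (IsLocalRing.ResidueField A) M') - 1 :=
  hw_ordDifferential_D_eq c (r3t_tame M' q hq hqM A hA c hc)

end Main

end Fermat.Agent.S36lib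

end
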