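/-
Item 83 (S36), REG3 contract, piece R6-d (helper10): THE CUSP DATA `Reg3CuspDataAt` for the
concrete setup `reg3S` (= `nodeSetupM`, level `M' q²`, `B = B_{D1}`), at a cusp `c ≠ ∞̄` of
`F_{M',k}`.

With `j2` of (J2) (`reg3j2_cusp`, `Reg3J2.lean`): `n := q`, `J₂ := π₂ j`,
`b := π₂(j) π₁(j2)^q`, `w := π₁(j j2)^q`, `b' := π₂(j) π₃(j2)^q`, `w' := π₃(j j2)^q`;
* `b, w, b', w' ∈ B` : (L-q) (helper27), the table `PiTable.lean`, `s36D1_pi1/3`;
* `red_mid w = red_mid b' = (red'(j j2))^q`, a unit at `c`;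
* `hroot` : `h1root_nodeSetupSeriesD` (helper26);  TAME : `r3t_ordDifferential` (helper7);
* the element `s ∈ p_∞ ∩ p_0` : `incCusp_mid_conc` (INC at the cusps, helper23);
* `reg3cc_cuspData_final` : the cusp data without hypotheses; `reg3cc_cusps` : for all cusps.
Declarations are prefixed `reg3cc_`.  No sorry.
-/
import Mathlib
import Fermat.Agent.S36lib.Reg3Defs
import Fermat.Agent.S36lib.PiTable
import Fermat.Agent.S36lib.Reg3J2
import Fermat.Agent.S36lib.Reg3Lq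
import Fermat.Agent.S36lib.Reg3Tame
import Fermat.Agent.S36lib.H1Root
import Fermat.Agent.S36lib.D1Set
import Fermat.Agent.S36lib.IncCuspFF
import Fermat.Agent.S36lib.IncCuspConcF

set_option autoImplicit false
set_option linter.style.haveILetI false
set_option linter.unusedSectionVars false
set_option linter.unusedVariables false
set_option synthInstance.maxHeartbeats 400000
set_option maxHeartbeats 1600000

noncomputable section

open ModularCurve AlgebraicCurve HahnSeries KaehlerDifferential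
open Fermat.Agent.S24lib Fermat.Agent.HeckeBar Fermat.Agent.S37lib Fermat.Agent.S35lib
  Fermat.Agent.GoodRed Fermat.Agent.S34lib Fermat.Agent.RRlib Fermat.Agent.FFlib
  Fermat.Agent.GM

namespace Fermat.Agent.S36lib

section Frob

/-- in characteristic `q`: `j̄(X^q) = j̄^q` -/
theorem reg3cc_qExpand_jq (k : Type) [Field k] (q : ℕ) [Fact q.Prime] [CharP k q] [NeZero q] :
    qExpand k q (jqModC k) = jqModC k ^ q := by
  rw [← coeffMap_frobenius_qExpand k q (jqModC k), Fermat.Agent.Kron.coeffMap_qExpand,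
    coeffMap_jqModC]

end Frob

section Conc

variable (A : ValuationSubring Kbar) (M' q : ℕ) [NeZero M'] [NeZero q] (hq : q.Prime)
  (hqM : ¬ q ∣ M') (hA : A.LiesOverPrime q)
variable {ζ : Kbarˣ} {E : FF (M' * q * q) →+* LaurentSeries Kbar}
variable (hζq : ζ ^ q = 1) (hζ : IsPrimitiveRoot (ζ : Kbar) q) (hE : IsMidExp M' q ζ E)
variable (R : ConstRed A (IsLocalRing.residue A)
      (↥(modularFunctionFieldFullC (IsLocalRing.ResidueField A) M')) (FF (M' * q * q)))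
  (hR : IsSeriesRed R)
variable (R₀ : ConstRed A (IsLocalRing.residue A)
      (↥(modularFunctionFieldFullC (IsLocalRing.ResidueField A) M')) (FF M'))
  (hR₀ : IsSeriesRed R₀)

/-- membership in the affine ring of `reg3S` -/
theorem reg3cc_mem_B (x : f0Field A (M' * q * q)) :
    x ∈ (reg3S A M' q hq hqM hA hζq hζ hE R hR).B ↔
      (x : FF (M' * q * q)) ∈ offRegular (M' * q * q) (s36D1 M' q hq hqM) ∧
        (x : FF (M' * q * q)) ∈ R.O ∧
        (x : FF (M' * q * q)) ∈ vmidO A hq ((A.mem_nonunits_iff).mp hA) hζq hE ∧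
          alW2 M' hq hqM (x : FF (M' * q * q)) ∈ R.O :=
  mem_f0AffD_iff A (M' * q * q) (s36D1 M' q hq hqM) _ _ _ x

/-- the middle reduction of an element of `B`, as a series -/
theorem reg3cc_coe_redMid (x : (reg3S A M' q hq hqM hA hζq hζ hE R hR).B) :
    (((reg3S A M' q hq hqM hA hζq hζ hE R hR).redMid x :
        ↥(modularFunctionFieldFullC (IsLocalRing.ResidueField A) M')) :
      LaurentSeries (IsLocalRing.ResidueField A))
      = vmidRed A hq ((A.mem_nonunits_iff).mp hA) hζq hE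
          ⟨((x : f0Field A (M' * q * q)) : FF (M' * q * q)),
            ((reg3cc_mem_B A M' q hq hqM hA hζq hζ hE R hR x.1).1 x.2).2.2.1⟩ := rfl

/-- the middle reduction of an element of `B` from its value as a series -/
theorem reg3cc_redMid_eq (x : (reg3S A M' q hq hqM hA hζq hζ hE R hR).B)
    (r : ↥(modularFunctionFieldFullC (IsLocalRing.ResidueField A) M'))
    (hx : ((x : f0Field A (M' * q * q)) : FF (M' * q * q))
      ∈ vmidO A hq ((A.mem_nonunits_iff).mp hA) hζq hE)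
    (h : vmidRed A hq ((A.mem_nonunits_iff).mp hA) hζq hE ⟨_, hx⟩
      = (r : LaurentSeries (IsLocalRing.ResidueField A))) :
    (reg3S A M' q hq hqM hA hζq hζ hE R hR).redMid x = r := by
  apply Subtype.ext
  rw [reg3cc_coe_redMid]
  exact h

include hR hR₀ in
/-- **the four elements `b, w, b', w'`** of the cusp data, with their middle reductions. -/
theorem reg3cc_bw (haux : IsAuxLevel q M')
    (c : Place (IsLocalRing.ResidueField A) (Fk (IsLocalRing.ResidueField A) M'))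
    (hc : c ≠ infPlaceC (IsLocalRing.ResidueField A) M')
    (hcusp : c.ord (jk (IsLocalRing.ResidueField A) M') < 0) :
    ∃ (b w b' w' : (reg3S A M' q hq hqM hA hζq hζ hE R hR).B),
      ((b : f0Field A (M' * q * q)) : FF (M' * q * q)) * ecPi1 M' q (jF M') ^ q
        = ecPi2 M' q (jF M') * ((w : f0Field A (M' * q * q)) : FF (M' * q * q)) ∧
      ((b' : f0Field A (M' * q * q)) : FF (M' * q * q)) * ecPi3 M' q (jF M') ^ q
        = ecPi2 M' q (jF M') * ((w' : f0Field A (M' * q * q)) : FF (M' * q * q)) ∧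
      (reg3S A M' q hq hqM hA hζq hζ hE R hR).redMid w ≠ 0 ∧
      c.ord ((reg3S A M' q hq hqM hA hζq hζ hE R hR).redMid w) = 0 ∧
      (reg3S A M' q hq hqM hA hζq hζ hE R hR).redMid b' ≠ 0 ∧
      c.ord ((reg3S A M' q hq hqM hA hζq hζ hE R hR).redMid b') = 0 := by
  haveI : Fact q.Prime := ⟨hq⟩
  haveI : CharP (IsLocalRing.ResidueField A) q := charP_residueField hA
  have hlt : A.valuation (q : Kbar) < 1 := (A.mem_nonunits_iff).mp hA
  obtain ⟨j2, h2, h12, hF, hreg, hreg', hmul, hne, hord⟩ :=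
    reg3j2_cusp q haux hA hR₀ c hc hcusp
  have hjO : jF M' ∈ R₀.O := dw_jF_mem hR₀
  have hjF : jF M' ∈ f0Field A M' := vmi_jF_mem A M'
  have hJF : jF M' * j2 ∈ f0Field A M' := mul_mem hjF hF
  -- the reduction `ρ = red'(j j2)`
  obtain ⟨ρ, hρ⟩ : ∃ ρ : Fk (IsLocalRing.ResidueField A) M', ρ = R₀.red ⟨jF M' * j2, h12⟩ :=
    ⟨_, rfl⟩
  rw [← hρ] at hmul hne hord
  have hρq0 : ρ ^ q ≠ 0 := pow_ne_zero q hne
  have hρqc : c.ord (ρ ^ q) = 0 := by
    rw [incCusp_ord_pow', hord, mul_zero]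
  -- the table
  obtain ⟨iJ1, -⟩ := pit_pi1_inf (R := R) hq hlt hR₀ hR (jF M' * j2) h12
  obtain ⟨iJ3, -⟩ := pit_pi3_inf (R := R) hq hlt hR₀ hR (jF M' * j2) h12
  obtain ⟨ij2, -⟩ := pit_pi2_inf (R := R) hq hlt hR₀ hR (jF M') hjO
  obtain ⟨i21, -⟩ := pit_pi1_inf (R := R) hq hlt hR₀ hR j2 h2
  obtain ⟨i23, -⟩ := pit_pi3_inf (R := R) hq hlt hR₀ hR j2 h2
  obtain ⟨zJ1, -, zJ3⟩ := pit_pi_zero (R := R) hq hlt hR₀ hR hqM (jF M' * j2) h12
  obtain ⟨-, zj2, -⟩ := pit_pi_zero (R := R) hq hlt hR₀ hR hqM (jF M') hjO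
  obtain ⟨z21, -, z23⟩ := pit_pi_zero (R := R) hq hlt hR₀ hR hqM j2 h2
  obtain ⟨mJ1, rJ1⟩ := pit_pi1_mid hq hlt hζq hE hR₀ (jF M' * j2) h12
  obtain ⟨mJ3, rJ3⟩ := pit_pi3_mid hq hlt hζq hE hR₀ (jF M' * j2) h12
  obtain ⟨mj2, rj2⟩ := pit_pi2_mid hq hlt hζq hE hR₀ (jF M') hjO
  obtain ⟨m23, r23⟩ := pit_pi3_mid hq hlt hζq hE hR₀ j2 h2
  obtain ⟨m21, r21⟩ := pit_pi1_mid hq hlt hζq hE hR₀ j2 h2
  -- the elements of `F0(M' q²)`
  have fJ1 : ecPi1 M' q (jF M' * j2) ^ q ∈ f0Field A (M' * q * q) :=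
    pow_mem (ecPi1_mem_f0Field A hJF) q
  have fJ3 : ecPi3 M' q (jF M' * j2) ^ q ∈ f0Field A (M' * q * q) :=
    pow_mem (ecPi3_mem_f0Field A hJF) q
  have fb : ecPi2 M' q (jF M') * ecPi1 M' q j2 ^ q ∈ f0Field A (M' * q * q) :=
    mul_mem (ecPi2_mem_f0Field A hjF) (pow_mem (ecPi1_mem_f0Field A hF) q)
  have fb' : ecPi2 M' q (jF M') * ecPi3 M' q j2 ^ q ∈ f0Field A (M' * q * q) :=
    mul_mem (ecPi2_mem_f0Field A hjF) (pow_mem (ecPi3_mem_f0Field A hF) q)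
  -- membership in `B`
  have Bw : (⟨_, fJ1⟩ : f0Field A (M' * q * q)) ∈ (reg3S A M' q hq hqM hA hζq hζ hE R hR).B := by
    rw [reg3cc_mem_B]
    refine ⟨pow_mem (s36D1_pi1 M' q hq hqM _ hreg') q, pow_mem iJ1 q, pow_mem mJ1 q, ?_⟩
    show alW2 M' hq hqM (ecPi1 M' q (jF M' * j2) ^ q) ∈ R.O
    rw [map_pow]
    exact pow_mem zJ1 q
  have Bw' : (⟨_, fJ3⟩ : f0Field A (M' * q * q)) ∈ (reg3S A M' q hq hqM hA hζq hζ hE R hR).B := by
    rw [reg3cc_mem_B]
    refine ⟨pow_mem (s36D1_pi3 M' q hq hqM _ hreg') q, pow_mem iJ3 q, pow_mem mJ3 q, ?_⟩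
    show alW2 M' hq hqM (ecPi3 M' q (jF M' * j2) ^ q) ∈ R.O
    rw [map_pow]
    exact pow_mem zJ3 q
  have Bb : (⟨_, fb⟩ : f0Field A (M' * q * q)) ∈ (reg3S A M' q hq hqM hA hζq hζ hE R hR).B := by
    rw [reg3cc_mem_B]
    refine ⟨?_, mul_mem ij2 (pow_mem i21 q), mul_mem mj2 (pow_mem m21 q), ?_⟩
    · exact mem_offRegular_s36D1 M' q hq hqM ζ hζ _
        (fun P h1 h2 h3 => lq_b_reg M' q hq hqM ζ hζ j2 hreg hreg' P h1 h2 h3)
    · show alW2 M' hq hqM (ecPi2 M' q (jF M') * ecPi1 M' q j2 ^ q) ∈ R.O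
      rw [map_mul, map_pow]
      exact mul_mem zj2 (pow_mem z21 q)
  have Bb' : (⟨_, fb'⟩ : f0Field A (M' * q * q)) ∈ (reg3S A M' q hq hqM hA hζq hζ hE R hR).B := by
    rw [reg3cc_mem_B]
    refine ⟨?_, mul_mem ij2 (pow_mem i23 q), mul_mem mj2 (pow_mem m23 q), ?_⟩
    · exact mem_offRegular_s36D1 M' q hq hqM ζ hζ _
        (fun P h1 h2 h3 => lq_b'_reg M' q hq hqM ζ hζ j2 hreg hreg' P h1 h2 h3)
    · show alW2 M' hq hqM (ecPi2 M' q (jF M') * ecPi3 M' q j2 ^ q) ∈ R.O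
      rw [map_mul, map_pow]
      exact mul_mem zj2 (pow_mem z23 q)
  -- the middle reductions
  have hredw : (reg3S A M' q hq hqM hA hζq hζ hE R hR).redMid ⟨⟨_, fJ1⟩, Bw⟩ = ρ ^ q := by
    refine reg3cc_redMid_eq A M' q hq hqM hA hζq hζ hE R hR _ (ρ ^ q) (pow_mem mJ1 q) ?_
    have e := map_pow (vmidRed A hq hlt hζq hE) ⟨ecPi1 M' q (jF M' * j2), mJ1⟩ q
    rw [rJ1, ← hρ] at e
    exact e
  have hjk : ((R₀.red ⟨jF M', hjO⟩ : Fk (IsLocalRing.ResidueField A) M') :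
      LaurentSeries (IsLocalRing.ResidueField A)) = jqModC (IsLocalRing.ResidueField A) := by
    rw [dw_red_jF hR₀, coe_jk]
  have hredb' : (reg3S A M' q hq hqM hA hζq hζ hE R hR).redMid ⟨⟨_, fb'⟩, Bb'⟩ = ρ ^ q := by
    refine reg3cc_redMid_eq A M' q hq hqM hA hζq hζ hE R hR _ (ρ ^ q)
      (mul_mem mj2 (pow_mem m23 q)) ?_
    have e1 := map_mul (vmidRed A hq hlt hζq hE) ⟨ecPi2 M' q (jF M'), mj2⟩
      (⟨ecPi3 M' q j2, m23⟩ ^ q)
    have e2 := map_pow (vmidRed A hq hlt hζq hE) ⟨ecPi3 M' q j2, m23⟩ q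
    rw [e2, rj2, r23, hjk, reg3cc_qExpand_jq] at e1
    have e3 : ((ρ ^ q : Fk (IsLocalRing.ResidueField A) M') :
        LaurentSeries (IsLocalRing.ResidueField A))
        = jqModC (IsLocalRing.ResidueField A) ^ q *
          ((R₀.red ⟨j2, h2⟩ : Fk (IsLocalRing.ResidueField A) M') :
            LaurentSeries (IsLocalRing.ResidueField A)) ^ q := by
      rw [hmul, mul_pow]
      rfl
    rw [e3]
    exact e1
  refine ⟨⟨⟨_, fb⟩, Bb⟩, ⟨⟨_, fJ1⟩, Bw⟩, ⟨⟨_, fb'⟩, Bb'⟩, ⟨⟨_, fJ3⟩, Bw'⟩, ?_, ?_, ?_, ?_, ?_, ?_⟩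
  · show ecPi2 M' q (jF M') * ecPi1 M' q j2 ^ q * ecPi1 M' q (jF M') ^ q
      = ecPi2 M' q (jF M') * ecPi1 M' q (jF M' * j2) ^ q
    rw [map_mul, mul_pow]
    ring
  · show ecPi2 M' q (jF M') * ecPi3 M' q j2 ^ q * ecPi3 M' q (jF M') ^ q
      = ecPi2 M' q (jF M') * ecPi3 M' q (jF M' * j2) ^ q
    rw [map_mul, mul_pow]
    ring
  · rw [hredw]; exact hρq0
  · rw [hredw]; exact hρqc
  · rw [hredb']; exact hρq0
  · rw [hredb']; exact hρqc

include hR hR₀ in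
/-- **R6-d, the cusp data** at a cusp `c ≠ ∞̄` of `F_{M',k}`, given the element `s` of INC at
the cusps (helper23). -/
theorem reg3cc_cuspData (haux : IsAuxLevel q M')
    (c : Place (IsLocalRing.ResidueField A) (Fk (IsLocalRing.ResidueField A) M'))
    (hc : c ≠ infPlaceC (IsLocalRing.ResidueField A) M')
    (hcusp : c.ord (jk (IsLocalRing.ResidueField A) M') < 0)
    (hs : ∃ s : (reg3S A M' q hq hqM hA hζq hζ hE R hR).B,
      s ∈ (reg3S A M' q hq hqM hA hζq hζ hE R hR).pInf ∧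
      s ∈ (reg3S A M' q hq hqM hA hζq hζ hE R hR).pZero ∧
      (reg3S A M' q hq hqM hA hζq hζ hE R hR).redMid s ≠ 0 ∧
      c.ord ((reg3S A M' q hq hqM hA hζq hζ hE R hR).redMid s) = 0) :
    Reg3CuspDataAt (reg3S A M' q hq hqM hA hζq hζ hE R hR)
      (reg3V' A M' q hq hA R₀ hR₀).red
      (reg3Phi1 A M' q hq hqM hA hζq hζ hE R hR R₀ hR₀)
      (reg3Phi3 A M' q hq hqM hA hζq hζ hE R hR R₀ hR₀)
      (reg3X0 A M' q hq hA R₀ hR₀) c := by
  haveI : IsAlgClosed (IsLocalRing.ResidueField A) := isAlgClosed_residueField A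
  haveI : FFSep (IsLocalRing.ResidueField A) (jk (IsLocalRing.ResidueField A) M') :=
    mr_ffSep (IsLocalRing.ResidueField A) M'
  haveI : RRBase (IsLocalRing.ResidueField A) (Fk (IsLocalRing.ResidueField A) M') :=
    rrBase_of_ffSep (K := IsLocalRing.ResidueField A) (jk (IsLocalRing.ResidueField A) M')
  haveI : Nontrivial Ω[Fk (IsLocalRing.ResidueField A) M'⁄IsLocalRing.ResidueField A] :=
    fsNontrivial_kaehler (K := IsLocalRing.ResidueField A)
      (x := jk (IsLocalRing.ResidueField A) M')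
  haveI : c.DCoordGenerates :=
    fsDCoordGenerates (K := IsLocalRing.ResidueField A)
      (x := jk (IsLocalRing.ResidueField A) M') c
  obtain ⟨b, w, b', w', hb, hb', hw0, hwc, hb'0, hb'c⟩ :=
    reg3cc_bw A M' q hq hqM hA hζq hζ hE R hR R₀ hR₀ haux c hc hcusp
  obtain ⟨s, hsI, hsZ, hs0, hsc⟩ := hs
  have hqpos : 0 < q := hq.pos
  have hJ2F : ecPi2 M' q (jF M') ∈ f0Field A (M' * q * q) :=
    ecPi2_mem_f0Field A (vmi_jF_mem A M')
  have hj0 : jF M' ≠ 0 := by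
    intro h0
    have h1 := dw_red_jF hR₀
    have h2 : jk (IsLocalRing.ResidueField A) M' = 0 := by
      rw [← h1]
      have : (⟨jF M', dw_jF_mem hR₀⟩ : R₀.O) = 0 := Subtype.ext h0
      rw [this, map_zero]
    rw [h2, Place.ord_zero] at hcusp
    exact lt_irrefl _ hcusp
  refine ⟨q, ⟨ecPi2 M' q (jF M'), hJ2F⟩, b, w, b', w', s, ?_, ?_, ?_, ?_, hw0, hwc, hb'0, hb'c,
    hsI, hsZ, hs0, hsc, ?_⟩
  · exact h1root_nodeSetupSeriesD A _ _ _ _ _ _ _ _ _ _ _ q hqpos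
  · intro h0
    have h1 : ecPi2 M' q (jF M') = 0 := congrArg Subtype.val h0
    exact hj0 ((map_eq_zero_iff _ (ecPi2 M' q).injective).mp h1)
  · apply Subtype.ext
    exact hb
  · apply Subtype.ext
    exact hb'
  · rw [reg3_red_X0]
    exact r3t_ordDifferential M' q hq hqM A hA c hcusp

include hR hR₀ in
/-- the element `s` of INC at the cusps (helper23's `incCusp_mid_conc`) for `reg3S`. -/
theorem reg3cc_s (haux : IsAuxLevel q M')
    (c : Place (IsLocalRing.ResidueField A) (Fk (IsLocalRing.ResidueField A) M'))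
    (hc : c ≠ infPlaceC (IsLocalRing.ResidueField A) M')
    (hcusp : c.ord (jk (IsLocalRing.ResidueField A) M') < 0) :
    ∃ s : (reg3S A M' q hq hqM hA hζq hζ hE R hR).B,
      s ∈ (reg3S A M' q hq hqM hA hζq hζ hE R hR).pInf ∧
      s ∈ (reg3S A M' q hq hqM hA hζq hζ hE R hR).pZero ∧
      (reg3S A M' q hq hqM hA hζq hζ hE R hR).redMid s ≠ 0 ∧
      c.ord ((reg3S A M' q hq hqM hA hζq hζ hE R hR).redMid s) = 0 := by
  haveI : Fact q.Prime := ⟨hq⟩
  obtain ⟨j2, h2, h12, hF, hreg, hreg', hmul, hne, hord⟩ :=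
    reg3j2_cusp q haux hA hR₀ c hc hcusp
  rw [hmul] at hne hord
  exact incCusp_mid_conc A M' q hq hqM hA R hR R₀ hR₀ ((A.mem_nonunits_iff).mp hA) hζq hE
    (vmid_hinto A hq hqM hA hζq hζ hE) (vmid_honto A hq hA hζq hE) j2 h2 hF hreg hreg'
    c hcusp hne hord

include hR hR₀ in
/-- **R6-d, final**: the cusp data at every cusp `c ≠ ∞̄` of `F_{M',k}`. -/
theorem reg3cc_cuspData_final (haux : IsAuxLevel q M')
    (c : Place (IsLocalRing.ResidueField A) (Fk (IsLocalRing.ResidueField A) M'))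
    (hc : c ≠ infPlaceC (IsLocalRing.ResidueField A) M')
    (hcusp : c.ord (jk (IsLocalRing.ResidueField A) M') < 0) :
    Reg3CuspDataAt (reg3S A M' q hq hqM hA hζq hζ hE R hR)
      (reg3V' A M' q hq hA R₀ hR₀).red
      (reg3Phi1 A M' q hq hqM hA hζq hζ hE R hR R₀ hR₀)
      (reg3Phi3 A M' q hq hqM hA hζq hζ hE R hR R₀ hR₀)
      (reg3X0 A M' q hq hA R₀ hR₀) c :=
  reg3cc_cuspData A M' q hq hqM hA hζq hζ hE R hR R₀ hR₀ haux c hc hcusp
    (reg3cc_s A M' q hq hqM hA hζq hζ hE R hR R₀ hR₀ haux c hc hcusp)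

end Conc

end Fermat.Agent.S36lib

end
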