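import Mathlib
import Fermat.Agent.S36lib.Reg3Asm
import Fermat.Agent.S36lib.Reg3AffMain
import Fermat.Agent.S36lib.Reg3CuspConc

/-!
# Item 83 (S36), piece R6 (helper5): REG3 for `s36Final`, THE MAIN THEOREM

`SF = s36Final A M' q hq hqM hA hζq hζ hE R hR` (`= reg3S`), `κ' = F_{M',k}`.

* `reg3_main_hmid` : **`hmid` of `s36_hhead_pkg`** for `SF`, with `e₀ = q - 1`, from the node
  package ALONE (`hnodes`, in the shape of the conclusion of helper22's `r6e_s36Final_count`;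
  its premises `aff`, `hpos`, `hcusp`, Dedekind, `hfrac`, `hnm` are `reg3_main_inputs`).
  `aff` = helper19's `r3c_s36Final_aff`, the cusp data = helper10's `reg3cc_cuspData_final`,
  `Reg3Hyp` = helper18's `r3h_nodeSetupM`.
* `reg3_main_inputs` : the premises of the node package, for `SF`.
-/

set_option autoImplicit false
set_option linter.style.haveILetI false
set_option linter.unusedSectionVars false
set_option linter.unusedVariables false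
set_option synthInstance.maxHeartbeats 400000

noncomputable section

open ModularCurve AlgebraicCurve HahnSeries KaehlerDifferential
open Fermat.Agent.S24lib Fermat.Agent.HeckeBar Fermat.Agent.S37lib Fermat.Agent.S35lib
  Fermat.Agent.GoodRed Fermat.Agent.S34lib Fermat.Agent.RRlib Fermat.Agent.FFlib
  Fermat.Agent.GM

namespace Fermat.Agent.S36lib

section Main

variable (A : ValuationSubring Kbar) (M' q : ℕ) [NeZero M'] [NeZero q] (hq : q.Prime)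
  (hqM : ¬ q ∣ M') (hA : A.LiesOverPrime q)
variable {ζ : Kbarˣ} {E : FF (M' * q * q) →+* LaurentSeries Kbar}
variable (hζq : ζ ^ q = 1) (hζ : IsPrimitiveRoot (ζ : Kbar) q) (hE : IsMidExp M' q ζ E)
variable (R : ConstRed A (IsLocalRing.residue A)
      (↥(modularFunctionFieldFullC (IsLocalRing.ResidueField A) M')) (FF (M' * q * q)))
  (hR : IsSeriesRed R)

local notation "kk" => IsLocalRing.ResidueField A
local notation "SF" => s36Final A M' q hq hqM hA hζq hζ hE R hR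
local notation "Q∞" => infPlaceC (IsLocalRing.ResidueField A) M'

include hq hqM hA in
/-- a series reduction of level `M'` -/
theorem reg3_exists_R₀ :
    ∃ R₀ : ConstRed A (IsLocalRing.residue A)
      (↥(modularFunctionFieldFullC (IsLocalRing.ResidueField A) M')) (FF M'),
      IsSeriesRed R₀ := by
  haveI : Fact q.Prime := ⟨hq⟩
  obtain ⟨R₀, hR₀⟩ := exists_modConstRed M' A (dw_ne_top hq hA) (Fermat.Agent.GoodRed.hred_modL M' hqM A hA)
  exact ⟨R₀, hR₀⟩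

/-- **the premises of the node package** (`r6e_main`), for `SF`: Dedekind, `hfrac`, `hnm`, `aff`,
`hpos`, `hcusp`, for every finset `cusps` containing exactly the poles of `j̄`. -/
theorem reg3_main_inputs (haux : IsAuxLevel q M')
    (cusps : Finset (Place kk (Fk kk M'))) (hcusps : ∀ v, v ∈ cusps ↔ v.ord (jk kk M') < 0) :
    IsDedekindDomain ((SF).B ⧸ (SF).pMid) ∧
      (∀ w : Fk kk M', ∃ a b : (SF).B, (SF).redMid b ≠ 0 ∧
        w * (SF).redMid b = (SF).redMid a) ∧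
      ¬ (SF).pMid.IsMaximal ∧
      (∀ w : Place kk (Fk kk M'), w ∉ cusps → ∀ z : (SF).B, 0 ≤ w.ord ((SF).redMid z)) ∧
      (∀ w : Place kk (Fk kk M'), w ∉ cusps →
        ∃ z : (SF).B, (SF).redMid z ≠ 0 ∧ 0 < w.ord ((SF).redMid z)) ∧
      (∀ c ∈ cusps, (∀ z : (SF).B, 0 ≤ c.ord ((SF).redMid z)) →
        ∃ s : (SF).B, s ∈ (SF).pInf ∧ (SF).redMid s ≠ 0 ∧ c.ord ((SF).redMid s) = 0) := by
  obtain ⟨R₀, hR₀⟩ := reg3_exists_R₀ A M' q hq hqM hA
  have aff := r3c_s36Final_aff A M' q hq hqM hA hζq hζ hE R hR haux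
  have hcInf : Q∞ ∈ cusps :=
    (hcusps _).2 (reg3_inf_ord_jk A M' q hq hqM hA hζq hζ hE R hR R₀ hR₀)
  obtain ⟨hD, hfrac, hnm⟩ :=
    reg3_dedekind A M' q hq hqM hA hζq hζ hE R hR R₀ hR₀ haux aff
  refine ⟨hD, hfrac, hnm, fun w hw z => aff w (fun h => hw (h ▸ hcInf)) z,
    fun w hw => reg3_hpos A M' q hq hqM hA hζq hζ hE R hR R₀ hR₀ haux w
      (fun h => hw (h ▸ hcInf)),
    fun c hc hreg => reg3_hcusp A M' q hq hqM hA hζq hζ hE R hR R₀ hR₀ haux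
      (fun c hc hcc => reg3cc_cuspData_final A M' q hq hqM hA hζq hζ hE R hR R₀ hR₀ haux c hcc hc)
      c ((hcusps c).1 hc) hreg⟩

/-- **REG3 for `s36Final`: `hmid` of `s36_hhead_pkg`** (`e₀ = q - 1`), from the node package. -/
theorem reg3_main_hmid (haux : IsAuxLevel q M')
    (hnodes : ∀ cusps : Finset (Place kk (Fk kk M')),
      (∀ v, v ∈ cusps ↔ v.ord (jk kk M') < 0) →
      ∃ nodes : Finset (Place kk (Fk kk M')), Disjoint nodes cusps ∧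
        (∀ c ∈ nodes, ∀ s ∈ (SF).pInf, (SF).redMid s ≠ 0 → 0 < c.ord ((SF).redMid s)) ∧
        (∀ w : Place kk (Fk kk M'), w ∉ cusps → w ∉ nodes →
          ∃ s : (SF).B, s ∈ (SF).pInf ∧ s ∈ (SF).pZero ∧ (SF).redMid s ≠ 0 ∧
            w.ord ((SF).redMid s) = 0) ∧
        (∀ t ∈ nodes,
          ∃ s : (SF).B, s ∈ (SF).pInf ∧ s ∈ (SF).pZero ∧ (SF).redMid s ≠ 0 ∧
            t.ord ((SF).redMid s) ≤ 2) ∧
        12 * nodes.card ≤ (q - 1) * dedekindPsi M')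
    (𝔪 : Ideal (SF).B) (h𝔪 : 𝔪.IsMaximal)
    (hq𝔪 : (SF).constB ((q : ℕ) : k0Val A) ∈ 𝔪)
    (hmid : (SF).pMid ≤ 𝔪) (hinf : ¬ (SF).pInf ≤ 𝔪) (hzero : ¬ (SF).pZero ≤ 𝔪) :
    ∃ π₀ w₁ b : (SF).B, π₀ ∈ (SF).pMid ∧ w₁ ∉ 𝔪 ∧ b ∉ 𝔪 ∧
      w₁ * π₀ ^ (q - 1) = (SF).constB ((q : ℕ) : k0Val A) * b := by
  obtain ⟨R₀, hR₀⟩ := reg3_exists_R₀ A M' q hq hqM hA
  refine reg3_conc_hmid A M' q hq hqM hA hζq hζ hE R hR R₀ hR₀ haux
    (r3c_s36Final_aff A M' q hq hqM hA hζq hζ hE R hR haux)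
    (fun c hc hcc => reg3cc_cuspData_final A M' q hq hqM hA hζq hζ hE R hR R₀ hR₀ haux c hcc hc)
    hnodes 𝔪 h𝔪 hmid hinf

/-- `reg3_main_hmid` with the count in the form `nodes.card ≤ n`, `12 n ≤ (q - 1) ψ(M')`. -/
theorem reg3_main_hmid' (haux : IsAuxLevel q M')
    (hpkg : ∃ n : ℕ, 12 * n ≤ (q - 1) * dedekindPsi M' ∧
      ∀ cusps : Finset (Place kk (Fk kk M')),
      (∀ v, v ∈ cusps ↔ v.ord (jk kk M') < 0) →
      ∃ nodes : Finset (Place kk (Fk kk M')), Disjoint nodes cusps ∧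
        (∀ c ∈ nodes, ∀ s ∈ (SF).pInf, (SF).redMid s ≠ 0 → 0 < c.ord ((SF).redMid s)) ∧
        (∀ w : Place kk (Fk kk M'), w ∉ cusps → w ∉ nodes →
          ∃ s : (SF).B, s ∈ (SF).pInf ∧ s ∈ (SF).pZero ∧ (SF).redMid s ≠ 0 ∧
            w.ord ((SF).redMid s) = 0) ∧
        (∀ t ∈ nodes,
          ∃ s : (SF).B, s ∈ (SF).pInf ∧ s ∈ (SF).pZero ∧ (SF).redMid s ≠ 0 ∧
            t.ord ((SF).redMid s) ≤ 2) ∧
        nodes.card ≤ n)
    (𝔪 : Ideal (SF).B) (h𝔪 : 𝔪.IsMaximal)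
    (hq𝔪 : (SF).constB ((q : ℕ) : k0Val A) ∈ 𝔪)
    (hmid : (SF).pMid ≤ 𝔪) (hinf : ¬ (SF).pInf ≤ 𝔪) (hzero : ¬ (SF).pZero ≤ 𝔪) :
    ∃ π₀ w₁ b : (SF).B, π₀ ∈ (SF).pMid ∧ w₁ ∉ 𝔪 ∧ b ∉ 𝔪 ∧
      w₁ * π₀ ^ (q - 1) = (SF).constB ((q : ℕ) : k0Val A) * b := by
  obtain ⟨n, hn, hnodes⟩ := hpkg
  refine reg3_main_hmid A M' q hq hqM hA hζq hζ hE R hR haux ?_ 𝔪 h𝔪 hq𝔪 hmid hinf hzero
  intro cusps hcusps
  obtain ⟨nodes, h1, h2, h3, h4, h5⟩ := hnodes cusps hcusps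
  exact ⟨nodes, h1, h2, h3, h4, (Nat.mul_le_mul_left 12 h5).trans hn⟩

end Main

end Fermat.Agent.S36lib

end
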