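import Mathlib
import Fermat.Agent.S36lib.Reg1Conc
import Fermat.Agent.S36lib.Reg3NodesTrans

/-!
# Item 83 (S36), piece R6-e, part 3 (helper22): REG1 at level `N` with the TRANSVERSALITY and
the COUNT of the nodes

helper15's `r1c_side` / `r1c_hreg1_core` (`Reg1Conc.lean`) keep of helper21's `reg1x_core` only
the generator `y` with `y ∣ ε z`.  For R6-e (the nodes of `C_mid`) the two other conclusions of
`reg1x_core` are needed:

* the transversality `r₁ y ∉ (s.map r₁)²`, here in the ideal form `y ∉ s² + ker r₁`;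
* the classification `s.map r₁ = (m i).map ι`, here as the count: at most `n` nodes.

* `r1cx_side` : one side, abstract in the affine ring `B` (same hypotheses as `r1c_side`);
* `r1cx_hreg1` : for `SN = nodeSetupNj …` (same hypotheses as `r1c_hreg1_core`):
  `∃ n, 12 n = (q - 1) ψ(M')`, at most `n` nodes, and the transversality on both sides
  (`= hcountN`, `hreg1Inf`, `hreg1Zero` of `r6e_concrete` / `r6e_s36Final`).

All proofs complete.
-/

set_option autoImplicit false
set_option linter.style.haveILetI false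
set_option linter.unusedSectionVars false
set_option synthInstance.maxHeartbeats 400000
set_option maxHeartbeats 1000000

noncomputable section

namespace Fermat.Agent.S36lib

open Fermat.Agent.FFlib Fermat.Agent.S24lib Fermat.Agent.GM Fermat.Agent.GoodRed
  Fermat.Agent.S34lib Fermat.Agent.RRlib Fermat.Agent.S16lib
open AlgebraicCurve IsLocalRing IntermediateField IsDedekindDomain ModularCurve

section Side

variable {K F : Type*} [Field K] [Field F] [Algebra K F] {x : F}
variable {B : Type*} [CommRing B] [IsDomain B] [IsIntegrallyClosed B]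

/-- **one side of REG1 at the level `N = M' q`, with the transversality and the count**
(hypotheses of `r1c_side`). -/
theorem r1cx_side [IsAlgClosed K] [RRHyp K F] [FFSep K x] (Q : Place K F)
    (r₁ r₂ : B →+* F)
    (hi₁ : ∀ z, r₁ z ∈ fsS K x) (hi₂ : ∀ z, r₂ z ∈ fsS K x)
    (ho₁ : ∀ c ∈ fsS K x, ∃ z, r₁ z = c)
    (hle : ∀ a ∈ affRing Q, a ∈ fsS K x)
    {n : ℕ} (e : Fin n → affRing Q →ₐ[K] K) (he : Function.Injective e)
    (hsand : ∀ a : affRing Q, (∀ i, e i a = 0) → ∃ z : B, r₁ z = (a : F) ∧ r₂ z = 0)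
    (h : B) (hdiv : RingHom.ker r₂ ^ 12 ≤ Ideal.span {h})
    (hcount : ∀ c : fsS K x, (c : F) = r₁ h →
      12 * n ≤ Module.finrank K (fsS K x ⧸ Ideal.span {c})) :
    (∀ T : Set (Ideal B),
      (∀ s ∈ T, s.IsMaximal ∧ RingHom.ker r₁ ≤ s ∧ RingHom.ker r₂ ≤ s) →
        ∃ hfin : T.Finite, hfin.toFinset.card ≤ n) ∧
    ∀ s : Ideal B, s.IsMaximal → RingHom.ker r₁ ≤ s → RingHom.ker r₂ ≤ s →
      ∃ y : B, r₂ y = 0 ∧ y ∉ s ^ 2 ⊔ RingHom.ker r₁ := by
  classical
  let ρ₁ : B →+* fsS K x := r₁.codRestrict (fsS K x) hi₁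
  let ρ₂ : B →+* fsS K x := r₂.codRestrict (fsS K x) hi₂
  have hρ₁ : ∀ z, ((ρ₁ z : fsS K x) : F) = r₁ z := fun _ => rfl
  have hρ₂ : ∀ z, ((ρ₂ z : fsS K x) : F) = r₂ z := fun _ => rfl
  have hker₁ : RingHom.ker ρ₁ = RingHom.ker r₁ := by
    ext z
    rw [RingHom.mem_ker, RingHom.mem_ker]
    constructor
    · intro hz
      rw [← hρ₁, hz]; rfl
    · intro hz
      apply Subtype.ext
      rw [hρ₁, hz]; rfl
  have hker₂ : RingHom.ker ρ₂ = RingHom.ker r₂ := by
    ext z
    rw [RingHom.mem_ker, RingHom.mem_ker]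
    constructor
    · intro hz
      rw [← hρ₂, hz]; rfl
    · intro hz
      apply Subtype.ext
      rw [hρ₂, hz]; rfl
  have hsurj : Function.Surjective ρ₁ := by
    intro c
    obtain ⟨z, hz⟩ := ho₁ c c.2
    exact ⟨z, Subtype.ext hz⟩
  let ι : affRing Q →+* fsS K x :=
    ((affRing Q).val : affRing Q →+* F).codRestrict (fsS K x) (fun a => hle a a.2)
  let j : fsS K x →+* F := algebraMap (fsS K x) F
  have hj : Function.Injective j := Subtype.val_injective
  have hcomp : ∀ a : affRing Q, j (ι a) = (a : F) := fun _ => rfl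
  obtain ⟨hbridge, hdist, hbot⟩ := reg1h_hyps (K := K) Q ι j hj hcomp e he
  have hsand' : ∀ a ∈ ⨅ i, RingHom.ker (e i : affRing Q →+* K),
      ∃ z : B, ρ₁ z = ι a ∧ ρ₂ z = 0 := by
    intro a ha
    rw [Ideal.mem_iInf] at ha
    obtain ⟨z, h1, h2⟩ := hsand a (fun i => (RingHom.mem_ker).1 (ha i))
    refine ⟨z, Subtype.ext ?_, Subtype.ext ?_⟩
    · rw [hρ₁, h1]; rfl
    · rw [hρ₂, h2]; rfl
  obtain ⟨-, hmain⟩ := reg1x_core (k := K) ρ₁ ρ₂ hsurj ι
    (fun i => RingHom.ker (e i : affRing Q →+* K)) hbridge hdist hbot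
    (fun t ht => r1c_hres_fsS t ht) hsand' 12 (by norm_num) h (hker₂ ▸ hdiv)
    (hcount (ρ₁ h) rfl)
  constructor
  · intro T hT
    refine r6e_finite_of_cover T (fun s => s.map ρ₁) ?_
      (fun i => (RingHom.ker (e i : affRing Q →+* K)).map ι) ?_
    · intro s hs s' hs' hss
      have hk : ∀ t : Ideal B, t ∈ T → (t.map ρ₁).comap ρ₁ = t := by
        intro t ht
        rw [Ideal.comap_map_of_surjective ρ₁ hsurj, ← RingHom.ker_eq_comap_bot, hker₁]
        exact sup_eq_left.2 (hT t ht).2.1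
      have hss' : s.map ρ₁ = s'.map ρ₁ := hss
      rw [← hk s hs, ← hk s' hs', hss']
    · intro s hs
      obtain ⟨y, ε, -, -, -, -, -, -, i, hi⟩ :=
        hmain s (hT s hs).1 (hker₁ ▸ (hT s hs).2.1) (hker₂ ▸ (hT s hs).2.2)
      exact ⟨i, hi⟩
  · intro s hs hk₁ hk₂
    obtain ⟨y, ε, hy, -, -, -, -, h2, -⟩ := hmain s hs (hker₁ ▸ hk₁) (hker₂ ▸ hk₂)
    refine ⟨y, ?_, ?_⟩
    · have := congrArg Subtype.val hy
      rw [hρ₂] at this
      exact this
    · rw [← hker₁]
      exact r6e_notMem_of_map ρ₁ s y h2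

end Side

section Conc

variable (A : ValuationSubring Kbar) (M' q : ℕ) [NeZero M'] [NeZero q] (hq : q.Prime)
  (hqM : ¬ q ∣ M') (hA : A.LiesOverPrime q)
  (R : ConstRed A (IsLocalRing.residue A)
      (↥(modularFunctionFieldFullC (IsLocalRing.ResidueField A) M')) (FF (M' * q)))
  (hR : IsSeriesRed R)

set_option maxHeartbeats 4000000 in
/-- **REG1 at the level `N = M' q` for `SN = nodeSetupNj`, with the transversality and the
count** (hypotheses of `r1c_hreg1_core`): there is `n` with `12 n = (q - 1) ψ(M')`, at most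
`n` nodes, and at every node `s` elements `x ∈ p_∞`, `x ∉ s² + p_0` and `y ∈ p_0`,
`y ∉ s² + p_∞`. -/
theorem r1cx_hreg1 (haux : IsAuxLevel q M')
    [IsIntegrallyClosed (nodeSetupNj A M' q hq hqM hA R hR).B]
    (hiInf : ∀ z : (nodeSetupNj A M' q hq hqM hA R hR).B,
      (nodeSetupNj A M' q hq hqM hA R hR).redInf z ∈
        fsS (IsLocalRing.ResidueField A) (jk (IsLocalRing.ResidueField A) M'))
    (hiZero : ∀ z : (nodeSetupNj A M' q hq hqM hA R hR).B,
      (nodeSetupNj A M' q hq hqM hA R hR).redZero z ∈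
        fsS (IsLocalRing.ResidueField A) (jk (IsLocalRing.ResidueField A) M'))
    (hoInf : ∀ c ∈ fsS (IsLocalRing.ResidueField A) (jk (IsLocalRing.ResidueField A) M'),
      ∃ z : (nodeSetupNj A M' q hq hqM hA R hR).B,
        (nodeSetupNj A M' q hq hqM hA R hR).redInf z = c)
    (hoZero : ∀ c ∈ fsS (IsLocalRing.ResidueField A) (jk (IsLocalRing.ResidueField A) M'),
      ∃ z : (nodeSetupNj A M' q hq hqM hA R hR).B,
        (nodeSetupNj A M' q hq hqM hA R hR).redZero z = c)
    (hle : ∀ a ∈ affRing (infPlaceC (IsLocalRing.ResidueField A) M'),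
      a ∈ fsS (IsLocalRing.ResidueField A) (jk (IsLocalRing.ResidueField A) M'))
    (h h' : (nodeSetupNj A M' q hq hqM hA R hR).B)
    (hdiv0 : (nodeSetupNj A M' q hq hqM hA R hR).pZero ^ 12 ≤ Ideal.span {h})
    (hdivInf : (nodeSetupNj A M' q hq hqM hA R hR).pInf ^ 12 ≤ Ideal.span {h'})
    (hser : (((nodeSetupNj A M' q hq hqM hA R hR).redInf h :
        Fk (IsLocalRing.ResidueField A) M') : LaurentSeries (IsLocalRing.ResidueField A)) =
      (ueuU (IsLocalRing.ResidueField A) q)⁻¹)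
    (hser' : (((nodeSetupNj A M' q hq hqM hA R hR).redZero h' :
        Fk (IsLocalRing.ResidueField A) M') : LaurentSeries (IsLocalRing.ResidueField A)) =
      (ueuU (IsLocalRing.ResidueField A) q)⁻¹) :
    ∃ n : ℕ, 12 * n = (q - 1) * dedekindPsi M' ∧
      (∃ hfin : {s : Ideal (nodeSetupNj A M' q hq hqM hA R hR).B |
          (nodeSetupNj A M' q hq hqM hA R hR).IsNode s}.Finite, hfin.toFinset.card ≤ n) ∧
      (∀ s : Ideal (nodeSetupNj A M' q hq hqM hA R hR).B,
        (nodeSetupNj A M' q hq hqM hA R hR).IsNode s →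
          ∃ x : (nodeSetupNj A M' q hq hqM hA R hR).B,
            x ∈ (nodeSetupNj A M' q hq hqM hA R hR).pInf ∧
              x ∉ s ^ 2 ⊔ (nodeSetupNj A M' q hq hqM hA R hR).pZero) ∧
      (∀ s : Ideal (nodeSetupNj A M' q hq hqM hA R hR).B,
        (nodeSetupNj A M' q hq hqM hA R hR).IsNode s →
          ∃ y : (nodeSetupNj A M' q hq hqM hA R hR).B,
            y ∈ (nodeSetupNj A M' q hq hqM hA R hR).pZero ∧
              y ∉ s ^ 2 ⊔ (nodeSetupNj A M' q hq hqM hA R hR).pInf) := by
  classical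
  haveI : Fact q.Prime := ⟨hq⟩
  haveI : CharP (IsLocalRing.ResidueField A) q := charP_residueField hA
  haveI : IsAlgClosed (IsLocalRing.ResidueField A) := isAlgClosed_residueField A
  haveI : Infinite (IsLocalRing.ResidueField A) := IsAlgClosed.instInfinite
  haveI : RRHyp Kbar (FF (M' * q)) := mod_rrHyp (M' * q)
  haveI : RRHyp (IsLocalRing.ResidueField A)
      (↥(modularFunctionFieldFullC (IsLocalRing.ResidueField A) M')) :=
    mr_rrHyp (IsLocalRing.ResidueField A) M'
  haveI : FFSep (IsLocalRing.ResidueField A) (jk (IsLocalRing.ResidueField A) M') :=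
    reg1c_ffSep_jk M' hqM A hA
  obtain ⟨X, a₀, hXB, H, -⟩ := r1c_exists_glue M' q hq hqM haux hA hR
  -- the nodes as points of `affRing ∞'`
  let inc : affRing (infPlaceC (IsLocalRing.ResidueField A) M') →ₐ[IsLocalRing.ResidueField A]
      X.B := Subalgebra.inclusion hXB.ge
  have hinc_surj : Function.Surjective inc := by
    intro b
    exact ⟨⟨(b : Fk (IsLocalRing.ResidueField A) M'), hXB ▸ b.2⟩, Subtype.ext rfl⟩
  have hinj : ∀ (e : Fin X.n → X.B →ₐ[IsLocalRing.ResidueField A] IsLocalRing.ResidueField A),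
      Function.Injective e → Function.Injective fun i => (e i).comp inc := by
    intro e he i i' hii'
    apply he
    ext b
    obtain ⟨a, rfl⟩ := hinc_surj b
    exact DFunLike.congr_fun hii' a
  -- the sandwich
  have hglue := vsand_hglue M' q hq hqM hA hR X (cuspSet (M' * q))
    (r1c_inf_mem_cuspSet M' q) (r1c_zero_mem_cuspSet M' q hq hqM)
  -- side of `p_0` (`r₁ = red_∞`)
  obtain ⟨hcnt, hZ⟩ := r1cx_side
      (infPlaceC (IsLocalRing.ResidueField A) M')
      (nodeSetupNj A M' q hq hqM hA R hR).redInf (nodeSetupNj A M' q hq hqM hA R hR).redZero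
      hiInf hiZero hoInf hle (fun i => (X.e₁ i).comp inc) (hinj X.e₁ X.inj₁)
      (fun a ha => by
        obtain ⟨z, h1, h2⟩ := hglue (inc a) 0 (fun i => by rw [map_zero]; exact ha i)
        exact ⟨z, h1, h2⟩)
      h hdiv0
      (fun c hc => (reg1c_hcount_aux M' hq haux A hA X H AlgEquiv.refl c (by
        have h1 : ((c : Fk (IsLocalRing.ResidueField A) M') :
            LaurentSeries (IsLocalRing.ResidueField A)) =
            (ueuU (IsLocalRing.ResidueField A) q)⁻¹ := by rw [hc]; exact hser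
        exact h1)).le)
  -- side of `p_∞` (`r₁ = red_0`)
  obtain ⟨-, hI⟩ := r1cx_side
      (infPlaceC (IsLocalRing.ResidueField A) M')
      (nodeSetupNj A M' q hq hqM hA R hR).redZero (nodeSetupNj A M' q hq hqM hA R hR).redInf
      hiZero hiInf hoZero hle (fun i => (X.e₂ i).comp inc) (hinj X.e₂ X.inj₂)
      (fun a ha => by
        obtain ⟨z, h1, h2⟩ := hglue 0 (inc a) (fun i => by rw [map_zero]; exact (ha i).symm)
        exact ⟨z, h2, h1⟩)
      h' hdivInf
      (fun c hc => (reg1c_hcount_aux M' hq haux A hA X H AlgEquiv.refl c (by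
        have h1 : ((c : Fk (IsLocalRing.ResidueField A) M') :
            LaurentSeries (IsLocalRing.ResidueField A)) =
            (ueuU (IsLocalRing.ResidueField A) q)⁻¹ := by rw [hc]; exact hser'
        exact h1)).le)
  refine ⟨X.n, reg1c_node_count_aux M' hq haux A hA X H, ?_, ?_, ?_⟩
  · exact hcnt _ (fun s hs => ⟨hs.1, le_sup_left.trans hs.2, le_sup_right.trans hs.2⟩)
  · intro s hs
    obtain ⟨x, hx, hx2⟩ := hI s hs.1 (le_sup_right.trans hs.2) (le_sup_left.trans hs.2)
    exact ⟨x, (RingHom.mem_ker).2 hx, hx2⟩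
  · intro s hs
    obtain ⟨y, hy, hy2⟩ := hZ s hs.1 (le_sup_left.trans hs.2) (le_sup_right.trans hs.2)
    exact ⟨y, (RingHom.mem_ker).2 hy, hy2⟩

end Conc

end Fermat.Agent.S36lib

end
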