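import Mathlib
import Fermat.Agent.S36lib.TransferConc
import Fermat.Agent.S36lib.Reg1ConcNodes

/-!
# Item 83 (S36), piece R6-e, FINAL form (helper22): the node places of `s36Final`

`r6e_s36Final_count` = `r6e_s36Final` (`TransferConc.lean`) with REG1 at level `N` discharged by
`r1cx_hreg1` (`Reg1ConcNodes.lean`): the conclusion has the count in the form
`12 * nodes.card ≤ (q - 1) * ψ(M')`.

Inputs: the hypotheses of helper15's `r1c_hreg1_core` (RANGE-N, `affRing ∞' ⊆ fsS`, the units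
`h`, `h'`), the ranges at level `M' q²` (`B_j`), R6-g for `s36Final`, "the nodes are not
cuspidal", `htri`, and the data at the places of `C_mid` (`aff`, `hpos`, `hcusp`).

All proofs complete.
-/

set_option autoImplicit false
set_option linter.style.haveILetI false
set_option linter.unusedSectionVars false
set_option linter.unusedVariables false
set_option synthInstance.maxHeartbeats 400000
set_option maxHeartbeats 4000000

noncomputable section

namespace Fermat.Agent.S36lib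

open ModularCurve HahnSeries AlgebraicCurve
open Fermat.Agent.GoodRed Fermat.Agent.S24lib Fermat.Agent.S34lib Fermat.Agent.S37lib
  Fermat.Agent.HeckeBar Fermat.Agent.S35lib Fermat.Agent.GM Fermat.Agent.FFlib
  Fermat.Agent.RRlib Fermat.Agent.S16lib

variable (A : ValuationSubring Kbar) (M' q : ℕ) [NeZero M'] [NeZero q]
variable (hq : q.Prime) (hqM : ¬ q ∣ M') (hA : A.LiesOverPrime q)
variable {ζ : Kbarˣ} {E : FF (M' * q * q) →+* LaurentSeries Kbar}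
variable (hζq : ζ ^ q = 1) (hζ : IsPrimitiveRoot (ζ : Kbar) q) (hE : IsMidExp M' q ζ E)
variable (R : ConstRed A (IsLocalRing.residue A)
      (↥(modularFunctionFieldFullC (IsLocalRing.ResidueField A) M')) (FF (M' * q * q)))
    (hR : IsSeriesRed R)
variable (RN : ConstRed A (IsLocalRing.residue A)
    (↥(modularFunctionFieldFullC (IsLocalRing.ResidueField A) M')) (FF (M' * q)))
  (hRN : IsSeriesRed RN)

local notation "SF" => s36Final A M' q hq hqM hA hζq hζ hE R hR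

local notation "SMj" => trfcMj A M' q hq hqM hA hζq hζ hE R hR

local notation "SNj" => nodeSetupNj A M' q hq hqM hA RN hRN

local notation "κA" => Fk (IsLocalRing.ResidueField A) M'

local notation "kA" => IsLocalRing.ResidueField A

/-- **R6-e for `s36Final`, final form**: the node places of `C_mid`, with the fields `disj`,
`nonnode`, `node` of `Reg3CountHyp`, `hnode` of `reg3_hmid`, and the count
`12 * nodes.card ≤ (q - 1) ψ(M')`. -/
theorem r6e_s36Final_count (haux : IsAuxLevel q M')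
    [IsIntegrallyClosed (SNj).B]
    (hiInf : ∀ z : (SNj).B, (SNj).redInf z ∈ fsS kA (jk kA M'))
    (hiZero : ∀ z : (SNj).B, (SNj).redZero z ∈ fsS kA (jk kA M'))
    (hoInf : ∀ c ∈ fsS kA (jk kA M'), ∃ z : (SNj).B, (SNj).redInf z = c)
    (hoZero : ∀ c ∈ fsS kA (jk kA M'), ∃ z : (SNj).B, (SNj).redZero z = c)
    (hle : ∀ a ∈ affRing (infPlaceC kA M'), a ∈ fsS kA (jk kA M'))
    (h h' : (SNj).B)
    (hdiv0 : (SNj).pZero ^ 12 ≤ Ideal.span {h})
    (hdivInf : (SNj).pInf ^ 12 ≤ Ideal.span {h'})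
    (hser : (((SNj).redInf h : Fk kA M') : LaurentSeries kA) = (ueuU kA q)⁻¹)
    (hser' : (((SNj).redZero h' : Fk kA M') : LaurentSeries kA) = (ueuU kA q)⁻¹)
    (hMInf : ∀ z : (SMj).B, (SMj).redInf z ∈ fsS kA (jk kA M'))
    (hMMid : ∀ z : (SMj).B, (SMj).redMid z ∈ fsS kA (jk kA M'))
    [IsDedekindDomain ((SF).B ⧸ (SF).pMid)]
    (hfrac : ∀ w : κA, ∃ a b : (SF).B, (SF).redMid b ≠ 0 ∧ w * (SF).redMid b = (SF).redMid a)
    (hnm : ¬ (SF).pMid.IsMaximal)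
    (hnc : ∀ 𝔪 : Ideal (SF).B, (SF).IsNode 𝔪 →
      ¬ trfcCond A M' q hq hqM hA hζq hζ hE R hR ≤ 𝔪)
    (htri : ∀ 𝔪 : Ideal (SF).B, 𝔪.IsMaximal → (SF).constB (q : k0Val A) ∈ 𝔪 → (SF).IsNode 𝔪 ∨
      ((SF).pInf ≤ 𝔪 ∧ ¬ (SF).pMid ≤ 𝔪 ∧ ¬ (SF).pZero ≤ 𝔪) ∨
      (¬ (SF).pInf ≤ 𝔪 ∧ (SF).pMid ≤ 𝔪 ∧ ¬ (SF).pZero ≤ 𝔪) ∨
      (¬ (SF).pInf ≤ 𝔪 ∧ ¬ (SF).pMid ≤ 𝔪 ∧ (SF).pZero ≤ 𝔪))
    (cusps : Finset (Place kA κA))
    (aff : ∀ w : Place kA κA, w ∉ cusps → ∀ z : (SF).B, 0 ≤ w.ord ((SF).redMid z))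
    (hpos : ∀ w : Place kA κA, w ∉ cusps →
      ∃ z : (SF).B, (SF).redMid z ≠ 0 ∧ 0 < w.ord ((SF).redMid z))
    (hcusp : ∀ c ∈ cusps, (∀ z : (SF).B, 0 ≤ c.ord ((SF).redMid z)) →
      ∃ s : (SF).B, s ∈ (SF).pInf ∧ (SF).redMid s ≠ 0 ∧ c.ord ((SF).redMid s) = 0) :
    ∃ nodes : Finset (Place kA κA), Disjoint nodes cusps ∧
      (∀ c ∈ nodes, ∀ s ∈ (SF).pInf, (SF).redMid s ≠ 0 → 0 < c.ord ((SF).redMid s)) ∧
      (∀ w : Place kA κA, w ∉ cusps → w ∉ nodes →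
        ∃ s : (SF).B, s ∈ (SF).pInf ∧ s ∈ (SF).pZero ∧ (SF).redMid s ≠ 0 ∧
          w.ord ((SF).redMid s) = 0) ∧
      (∀ t ∈ nodes,
        ∃ s : (SF).B, s ∈ (SF).pInf ∧ s ∈ (SF).pZero ∧ (SF).redMid s ≠ 0 ∧
          t.ord ((SF).redMid s) ≤ 2) ∧
      12 * nodes.card ≤ (q - 1) * dedekindPsi M' := by
  obtain ⟨n, hn, hcountN, hreg1Inf, hreg1Zero⟩ := r1cx_hreg1 A M' q hq hqM hA RN hRN haux
    hiInf hiZero hoInf hoZero hle h h' hdiv0 hdivInf hser hser'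
  obtain ⟨nodes, h1, h2, h3, h4, h5⟩ := r6e_s36Final A M' q hq hqM hA hζq hζ hE R hR RN hRN
    hfrac hnm (fsS kA (jk kA M') : Set κA) hoInf hoZero hMInf hMMid hreg1Inf hreg1Zero hnc
    hcountN htri cusps aff hpos hcusp
  refine ⟨nodes, h1, h2, h3, h4, ?_⟩
  calc 12 * nodes.card ≤ 12 * n := Nat.mul_le_mul_left 12 h5
    _ = (q - 1) * dedekindPsi M' := hn

end Fermat.Agent.S36lib

end
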