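import Mathlib
import Fermat.Agent.S36lib.Reg3NodesFinal
import Fermat.Agent.S36lib.D1DedekindFinal
import Fermat.Agent.S36lib.IncConcFinal
import Fermat.Agent.S36lib.IncCuspConcM
import Fermat.Agent.S36lib.RangeMj
import Fermat.Agent.S36lib.Reg1Done
import Fermat.Agent.S36lib.Reg3Lift

/-!
# Item 83 (S36), piece R6-e, wired (helper22): the node places of `s36Final` from (SUM) and
the trichotomy

All the inputs of `r6e_s36Final_count` which are landed are discharged here: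

* R6-g (`d1q_final_mid`, helper27), RANGE-N (`rgn_*`, helper4), RANGE-Mj
  (`rmj_range_of_sum`, helper21), `B_j(N)` integrally closed (`r1c_isIntegrallyClosed`,
  helper15), the units `h`, `h'` (`uqr_*`, helper24), `affRing ∞' ⊆ fsS`
  (`reg1i_affRing_le_fsS`, helper21), the incidence at the cusps (`icm_final_*`, helper17).

* `r6e_final_hj`    : `t · j ∈ B_D1` for `t` in the conductor, with `red_mid (t j) = red_mid t · j̄`;
* `r6e_final_aff`, `r6e_final_hpos`, `r6e_final_hcusp`, `r6e_final_hnc`, `r6e_final_htriC`;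
* `r6e_final_htri`  : `htri` for `s36Final` from `htri` for `B_j` (INC-j);
* `r6e_final`       : the node places, from `haux`, (SUM) at level `N`, `htri`, and a finite set
  `cusps ∋ ∞'` of poles of `j̄`.

All proofs complete.
-/

set_option autoImplicit false
set_option linter.style.haveILetI false
set_option linter.unusedSectionVars false
set_option linter.unusedVariables false
set_option synthInstance.maxHeartbeats 400000
set_option maxHeartbeats 4000000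

noncomputable section

namespace Fermat.Agent.S36lib

open ModularCurve HahnSeries AlgebraicCurve
open Fermat.Agent.GoodRed Fermat.Agent.S24lib Fermat.Agent.S34lib Fermat.Agent.S37lib
  Fermat.Agent.HeckeBar Fermat.Agent.S35lib Fermat.Agent.GM Fermat.Agent.FFlib
  Fermat.Agent.RRlib Fermat.Agent.S16lib

variable (A : ValuationSubring Kbar) (M' q : ℕ) [NeZero M'] [NeZero q]
variable (hq : q.Prime) (hqM : ¬ q ∣ M') (hA : A.LiesOverPrime q)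
variable {ζ : Kbarˣ} {E : FF (M' * q * q) →+* LaurentSeries Kbar}
variable (hζq : ζ ^ q = 1) (hζ : IsPrimitiveRoot (ζ : Kbar) q) (hE : IsMidExp M' q ζ E)
variable (R : ConstRed A (IsLocalRing.residue A)
      (↥(modularFunctionFieldFullC (IsLocalRing.ResidueField A) M')) (FF (M' * q * q)))
    (hR : IsSeriesRed R)
variable (RN : ConstRed A (IsLocalRing.residue A)
    (↥(modularFunctionFieldFullC (IsLocalRing.ResidueField A) M')) (FF (M' * q)))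
  (hRN : IsSeriesRed RN)

local notation "SF" => s36Final A M' q hq hqM hA hζq hζ hE R hR

local notation "SMj" => trfcMj A M' q hq hqM hA hζq hζ hE R hR

local notation "SNj" => nodeSetupNj A M' q hq hqM hA RN hRN

local notation "κA" => Fk (IsLocalRing.ResidueField A) M'

local notation "kA" => IsLocalRing.ResidueField A

/-- **`t · j ∈ B_D1` for `t` in the conductor**, and `red_mid (t j) = red_mid t · j̄` -/
theorem r6e_final_hj (haux : IsAuxLevel q M') :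
    ∀ t ∈ trfcCond A M' q hq hqM hA hζq hζ hE R hR,
      ∃ u : (SF).B, (SF).redMid u = (SF).redMid t * jk kA M' := by
  intro t ht
  haveI : Fact q.Prime := ⟨hq⟩
  obtain ⟨R', -, hR', -⟩ := liftInf_exists_red (M := M') (A := A) q haux hA
  have hlt := (A.mem_nonunits_iff).mp hA
  obtain ⟨hI, hIr⟩ := icc_tI1 A M' q hq hqM hA R hR hlt hζq hE
    (vmid_hinto A hq hqM hA hζq hζ hE) (vmid_honto A hq hA hζq hE)
  obtain ⟨hM, hMr⟩ := icc_tM1 A M' q hq hqM hA R hR R' hR' hlt hζq hE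
    (vmid_hinto A hq hqM hA hζq hζ hE) (vmid_honto A hq hA hζq hE)
  obtain ⟨hZ, hZr⟩ := icc_tZ1 A M' q hq hqM hA R hR hlt hζq hE
    (vmid_hinto A hq hqM hA hζq hζ hE) (vmid_honto A hq hA hζq hE)
  have htI : (t : f0Field A (M' * q * q)) ∈ (SF).vInf.O := (SF).B_le_inf t.2
  have htM : (t : f0Field A (M' * q * q)) ∈ (SF).vMid.O := (SF).B_le_mid t.2
  have htZ : (t : f0Field A (M' * q * q)) ∈ (SF).vZero.O := (SF).B_le_zero t.2
  have huB : (t : f0Field A (M' * q * q)) * iccX1 A M' q ∈ (SF).B := by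
    rw [mem_s36Final_B]
    have hc : (((t : f0Field A (M' * q * q)) * iccX1 A M' q : f0Field A (M' * q * q)) :
        FF (M' * q * q)) = ((t : f0Field A (M' * q * q)) : FF (M' * q * q)) *
          jF (M' * q * q) := by
      rw [← lq_pi1_jF]
      rfl
    refine ⟨?_, ?_, ?_, ?_⟩
    · rw [hc]
      exact ht
    · exact (mem_s36Final_vInf A M' q hq hqM hA hζq hζ hE R hR _).1 ((SF).vInf.O.mul_mem _ _ htI hI)
    · exact (mem_s36Final_vMid A M' q hq hqM hA hζq hζ hE R hR _).1 ((SF).vMid.O.mul_mem _ _ htM hM)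
    · exact (mem_s36Final_vZero A M' q hq hqM hA hζq hζ hE R hR _).1
        ((SF).vZero.O.mul_mem _ _ htZ hZ)
  refine ⟨⟨_, huB⟩, ?_⟩
  have h1 : (SF).redMid ⟨_, huB⟩ =
      (SF).vMid.red (⟨(t : f0Field A (M' * q * q)), htM⟩ * ⟨iccX1 A M' q, hM⟩) := rfl
  have hMr' : (SF).vMid.red ⟨iccX1 A M' q, hM⟩ = jk kA M' := hMr
  rw [h1, map_mul, hMr']
  rfl

/-- **`aff`**: the reductions on `C_mid` of the elements of `B_D1` are regular off `∞'` -/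
theorem r6e_final_aff (haux : IsAuxLevel q M') (cusps : Finset (Place kA κA))
    (hcInf : infPlaceC kA M' ∈ cusps) :
    ∀ w : Place kA κA, w ∉ cusps → ∀ z : (SF).B, 0 ≤ w.ord ((SF).redMid z) := by
  intro w hw z
  have h := d1q_final_hmem_mid A M' q hq hqM hA hζq hζ hE R hR haux z
  exact mem_affRing_iff.1 h w (fun he => hw (he ▸ hcInf))

/-- **`hpos`**: at every place off `∞'` some reduction of an element of `B_D1` vanishes -/
theorem r6e_final_hpos (haux : IsAuxLevel q M') (cusps : Finset (Place kA κA))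
    (hcInf : infPlaceC kA M' ∈ cusps) :
    ∀ w : Place kA κA, w ∉ cusps →
      ∃ z : (SF).B, (SF).redMid z ≠ 0 ∧ 0 < w.ord ((SF).redMid z) := by
  intro w hw
  haveI : IsAlgClosed kA := isAlgClosed_residueField A
  haveI : RRHyp kA κA := mr_rrHyp kA M'
  have hne : w ≠ infPlaceC kA M' := fun he => hw (he ▸ hcInf)
  obtain ⟨c, hc, hcw⟩ := r3l_exists_unif (infPlaceC kA M') w hne (deg_eq_one _) (deg_eq_one _)
  obtain ⟨z, hz⟩ := d1q_final_hsurj_mid A M' q hq hqM hA hζq hζ hE R hR haux c hc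
  refine ⟨z, ?_, ?_⟩
  · rw [hz]
    intro h0
    rw [h0, Place.ord_zero] at hcw
    exact absurd hcw (by norm_num)
  · rw [hz, hcw]
    norm_num

/-- **`hnc`**: the nodes of `s36Final` are not cuspidal -/
theorem r6e_final_hnc (haux : IsAuxLevel q M') :
    ∀ 𝔪 : Ideal (SF).B, (SF).IsNode 𝔪 →
      ¬ trfcCond A M' q hq hqM hA hζq hζ hE R hR ≤ 𝔪 := by
  haveI : Fact q.Prime := ⟨hq⟩
  obtain ⟨R', -, hR', -⟩ := liftInf_exists_red (M := M') (A := A) q haux hA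
  obtain ⟨-, hDI, hfracI, hnmI⟩ := d1q_final_inf A M' q hq hqM hA hζq hζ hE R hR haux
  exact icm_final_hnc A M' q hq hqM hA hζq hζ hE R hR R' hR' haux hDI hfracI hnmI
    (trfcCond A M' q hq hqM hA hζq hζ hE R hR) (fun t ht => ht)

/-- **`htriC`**: the trichotomy at the cuspidal maximal ideals of `s36Final` -/
theorem r6e_final_htriC (haux : IsAuxLevel q M') :
    ∀ 𝔪 : Ideal (SF).B, 𝔪.IsMaximal → (SF).constB (q : k0Val A) ∈ 𝔪 →
      trfcCond A M' q hq hqM hA hζq hζ hE R hR ≤ 𝔪 → (SF).IsNode 𝔪 ∨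
      ((SF).pInf ≤ 𝔪 ∧ ¬ (SF).pMid ≤ 𝔪 ∧ ¬ (SF).pZero ≤ 𝔪) ∨
      (¬ (SF).pInf ≤ 𝔪 ∧ (SF).pMid ≤ 𝔪 ∧ ¬ (SF).pZero ≤ 𝔪) ∨
      (¬ (SF).pInf ≤ 𝔪 ∧ ¬ (SF).pMid ≤ 𝔪 ∧ (SF).pZero ≤ 𝔪) := by
  haveI : Fact q.Prime := ⟨hq⟩
  obtain ⟨R', -, hR', -⟩ := liftInf_exists_red (M := M') (A := A) q haux hA
  obtain ⟨-, hDI, hfracI, hnmI⟩ := d1q_final_inf A M' q hq hqM hA hζq hζ hE R hR haux
  obtain ⟨-, hDM, hfracM, hnmM⟩ := d1q_final_mid A M' q hq hqM hA hζq hζ hE R hR haux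
  obtain ⟨-, hDZ, hfracZ, hnmZ⟩ := d1q_final_zero A M' q hq hqM hA hζq hζ hE R hR haux
  exact icm_final_htriC A M' q hq hqM hA hζq hζ hE R hR R' hR' haux hDI hDM hDZ hfracI hfracM
    hfracZ hnmI hnmM hnmZ (trfcCond A M' q hq hqM hA hζq hζ hE R hR) (fun t ht => ht)

/-- **`htri` for `s36Final`** from `htri` for `B_j` (INC-j) -/
theorem r6e_final_htri (haux : IsAuxLevel q M')
    (htri2 : ∀ 𝔪' : Ideal (SMj).B, 𝔪'.IsMaximal → (SMj).constB (q : k0Val A) ∈ 𝔪' →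
      (SMj).IsNode 𝔪' ∨
      ((SMj).pInf ≤ 𝔪' ∧ ¬ (SMj).pMid ≤ 𝔪' ∧ ¬ (SMj).pZero ≤ 𝔪') ∨
      (¬ (SMj).pInf ≤ 𝔪' ∧ (SMj).pMid ≤ 𝔪' ∧ ¬ (SMj).pZero ≤ 𝔪') ∨
      (¬ (SMj).pInf ≤ 𝔪' ∧ ¬ (SMj).pMid ≤ 𝔪' ∧ (SMj).pZero ≤ 𝔪')) :
    ∀ 𝔪 : Ideal (SF).B, 𝔪.IsMaximal → (SF).constB (q : k0Val A) ∈ 𝔪 → (SF).IsNode 𝔪 ∨
      ((SF).pInf ≤ 𝔪 ∧ ¬ (SF).pMid ≤ 𝔪 ∧ ¬ (SF).pZero ≤ 𝔪) ∨
      (¬ (SF).pInf ≤ 𝔪 ∧ (SF).pMid ≤ 𝔪 ∧ ¬ (SF).pZero ≤ 𝔪) ∨
      (¬ (SF).pInf ≤ 𝔪 ∧ ¬ (SF).pMid ≤ 𝔪 ∧ (SF).pZero ≤ 𝔪) :=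
  trfc_htri A M' q hq hqM hA hζq hζ hE R hR htri2
    (r6e_final_htriC A M' q hq hqM hA hζq hζ hE R hR haux)

/-- **`hcusp`**: at a pole `c` of `j̄` with `red_mid (B) ⊆ O_c` some element of `p_∞` has a
reduction which is a unit at `c` -/
theorem r6e_final_hcusp (haux : IsAuxLevel q M') (cusps : Finset (Place kA κA))
    (hjc : ∀ c ∈ cusps, c.ord (jk kA M') < 0) :
    ∀ c ∈ cusps, (∀ z : (SF).B, 0 ≤ c.ord ((SF).redMid z)) →
      ∃ s : (SF).B, s ∈ (SF).pInf ∧ (SF).redMid s ≠ 0 ∧ c.ord ((SF).redMid s) = 0 := by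
  haveI : Fact q.Prime := ⟨hq⟩
  obtain ⟨R', -, hR', -⟩ := liftInf_exists_red (M := M') (A := A) q haux hA
  exact r6e_hcusp_of_inc (SF) (trfcCond A M' q hq hqM hA hζq hζ hE R hR) (jk kA M') cusps hjc
    (r6e_final_hj A M' q hq hqM hA hζq hζ hE R hR haux)
    (fun c h1 h2 => (icm_final_hIncM A M' q hq hqM hA hζq hζ hE R hR R' hR' haux
      (trfcCond A M' q hq hqM hA hζq hζ hE R hR) (fun t ht => ht) c h1 h2).1)

include hRN in
/-- **R6-e for `s36Final`, wired**: the node places of `C_mid` from `haux`, (SUM) at level `N`,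
the trichotomy for `s36Final`, and a finite set `cusps ∋ ∞'` of poles of `j̄`. -/
theorem r6e_final (haux : IsAuxLevel q M') (hSUM : RgnSum A M' q hq hqM RN)
    (htri : ∀ 𝔪 : Ideal (SF).B, 𝔪.IsMaximal → (SF).constB (q : k0Val A) ∈ 𝔪 → (SF).IsNode 𝔪 ∨
      ((SF).pInf ≤ 𝔪 ∧ ¬ (SF).pMid ≤ 𝔪 ∧ ¬ (SF).pZero ≤ 𝔪) ∨
      (¬ (SF).pInf ≤ 𝔪 ∧ (SF).pMid ≤ 𝔪 ∧ ¬ (SF).pZero ≤ 𝔪) ∨
      (¬ (SF).pInf ≤ 𝔪 ∧ ¬ (SF).pMid ≤ 𝔪 ∧ (SF).pZero ≤ 𝔪))
    (cusps : Finset (Place kA κA)) (hcInf : infPlaceC kA M' ∈ cusps)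
    (hjc : ∀ c ∈ cusps, c.ord (jk kA M') < 0) :
    ∃ nodes : Finset (Place kA κA), Disjoint nodes cusps ∧
      (∀ c ∈ nodes, ∀ s ∈ (SF).pInf, (SF).redMid s ≠ 0 → 0 < c.ord ((SF).redMid s)) ∧
      (∀ w : Place kA κA, w ∉ cusps → w ∉ nodes →
        ∃ s : (SF).B, s ∈ (SF).pInf ∧ s ∈ (SF).pZero ∧ (SF).redMid s ≠ 0 ∧
          w.ord ((SF).redMid s) = 0) ∧
      (∀ t ∈ nodes,
        ∃ s : (SF).B, s ∈ (SF).pInf ∧ s ∈ (SF).pZero ∧ (SF).redMid s ≠ 0 ∧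
          t.ord ((SF).redMid s) ≤ 2) ∧
      12 * nodes.card ≤ (q - 1) * dedekindPsi M' := by
  haveI : IsAlgClosed kA := isAlgClosed_residueField A
  haveI : IsIntegrallyClosed (SNj).B := r1c_isIntegrallyClosed A M' q hq hqM hA RN hRN hSUM
  obtain ⟨-, hDM, hfracM, hnmM⟩ := d1q_final_mid A M' q hq hqM hA hζq hζ hE R hR haux
  haveI := hDM
  obtain ⟨hMInf, hMMid, -⟩ := rmj_range_of_sum A M' q hq hqM hA RN hRN R hR hζq hE
    (vmid_hinto A hq hqM hA hζq hζ hE) (vmid_honto A hq hA hζq hE) haux hζ hSUM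
  exact r6e_s36Final_count A M' q hq hqM hA hζq hζ hE R hR RN hRN haux
    (rgn_hiInf A M' q hq hqM hA RN hRN hSUM) (rgn_hiZero A M' q hq hqM hA RN hRN hSUM)
    (rgn_hoInf A M' q hq hqM hA RN hRN haux) (rgn_hoZero A M' q hq hqM hA RN hRN haux)
    (reg1i_affRing_le_fsS kA M')
    (uqrHB A M' q hq hqM hA RN hRN) (uqrHB' A M' q hq hqM hA RN hRN)
    (uqr_hdiv0 A M' q hq hqM hA RN hRN) (uqr_hdivInf A M' q hq hqM hA RN hRN)
    (uqr_redInf_h A M' q hq hqM hA RN hRN) (uqr_redZero_h' A M' q hq hqM hA RN hRN)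
    hMInf hMMid hfracM hnmM
    (r6e_final_hnc A M' q hq hqM hA hζq hζ hE R hR haux) htri cusps
    (r6e_final_aff A M' q hq hqM hA hζq hζ hE R hR haux cusps hcInf)
    (r6e_final_hpos A M' q hq hqM hA hζq hζ hE R hR haux cusps hcInf)
    (r6e_final_hcusp A M' q hq hqM hA hζq hζ hE R hR haux cusps hjc)

/-- `∞'` is a pole of `j̄` -/
theorem r6e_final_inf_pole : (infPlaceC kA M').ord (jk kA M') < 0 := by
  haveI : IsAlgClosed kA := isAlgClosed_residueField A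
  by_contra h
  exact reg1i_jk_notMem kA M' ((ffMem_iff_ord_nonneg _).2 (not_lt.1 h))

include hRN in
/-- **THE NODE PACKAGE for `s36Final`** (the open input of helper5's `reg3_main_hmid`): there is
`n` with `12 n ≤ (q - 1) ψ(M')` such that for the finite set `cusps` of the poles of `j̄` there
is a finite set `nodes` of places of `C_mid`, disjoint from `cusps`, of card at most `n`, with
`hnode`, `nonnode`, `node`.  Hypotheses: `haux`, (SUM) at level `N`, the trichotomy. -/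
theorem r6e_final_pkg (haux : IsAuxLevel q M') (hSUM : RgnSum A M' q hq hqM RN)
    (htri : ∀ 𝔪 : Ideal (SF).B, 𝔪.IsMaximal → (SF).constB (q : k0Val A) ∈ 𝔪 → (SF).IsNode 𝔪 ∨
      ((SF).pInf ≤ 𝔪 ∧ ¬ (SF).pMid ≤ 𝔪 ∧ ¬ (SF).pZero ≤ 𝔪) ∨
      (¬ (SF).pInf ≤ 𝔪 ∧ (SF).pMid ≤ 𝔪 ∧ ¬ (SF).pZero ≤ 𝔪) ∨
      (¬ (SF).pInf ≤ 𝔪 ∧ ¬ (SF).pMid ≤ 𝔪 ∧ (SF).pZero ≤ 𝔪)) :
    ∃ n : ℕ, 12 * n ≤ (q - 1) * dedekindPsi M' ∧
      ∀ cusps : Finset (Place kA κA), (∀ v, v ∈ cusps ↔ v.ord (jk kA M') < 0) →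
        ∃ nodes : Finset (Place kA κA), Disjoint nodes cusps ∧
          (∀ c ∈ nodes, ∀ s ∈ (SF).pInf, (SF).redMid s ≠ 0 → 0 < c.ord ((SF).redMid s)) ∧
          (∀ w : Place kA κA, w ∉ cusps → w ∉ nodes →
            ∃ s : (SF).B, s ∈ (SF).pInf ∧ s ∈ (SF).pZero ∧ (SF).redMid s ≠ 0 ∧
              w.ord ((SF).redMid s) = 0) ∧
          (∀ t ∈ nodes,
            ∃ s : (SF).B, s ∈ (SF).pInf ∧ s ∈ (SF).pZero ∧ (SF).redMid s ≠ 0 ∧
              t.ord ((SF).redMid s) ≤ 2) ∧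
          nodes.card ≤ n := by
  haveI : IsAlgClosed kA := isAlgClosed_residueField A
  haveI : IsIntegrallyClosed (SNj).B := r1c_isIntegrallyClosed A M' q hq hqM hA RN hRN hSUM
  obtain ⟨-, hDM, hfracM, hnmM⟩ := d1q_final_mid A M' q hq hqM hA hζq hζ hE R hR haux
  haveI := hDM
  obtain ⟨hMInf, hMMid, -⟩ := rmj_range_of_sum A M' q hq hqM hA RN hRN R hR hζq hE
    (vmid_hinto A hq hqM hA hζq hζ hE) (vmid_honto A hq hA hζq hE) haux hζ hSUM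
  obtain ⟨n, hn, hcountN, hreg1Inf, hreg1Zero⟩ := r1cx_hreg1 A M' q hq hqM hA RN hRN haux
    (rgn_hiInf A M' q hq hqM hA RN hRN hSUM) (rgn_hiZero A M' q hq hqM hA RN hRN hSUM)
    (rgn_hoInf A M' q hq hqM hA RN hRN haux) (rgn_hoZero A M' q hq hqM hA RN hRN haux)
    (reg1i_affRing_le_fsS kA M')
    (uqrHB A M' q hq hqM hA RN hRN) (uqrHB' A M' q hq hqM hA RN hRN)
    (uqr_hdiv0 A M' q hq hqM hA RN hRN) (uqr_hdivInf A M' q hq hqM hA RN hRN)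
    (uqr_redInf_h A M' q hq hqM hA RN hRN) (uqr_redZero_h' A M' q hq hqM hA RN hRN)
  refine ⟨n, hn.le, fun cusps hcusps => ?_⟩
  have hcInf : infPlaceC kA M' ∈ cusps := (hcusps _).2 (r6e_final_inf_pole A M')
  exact r6e_s36Final A M' q hq hqM hA hζq hζ hE R hR RN hRN hfracM hnmM
    (fsS kA (jk kA M') : Set κA)
    (rgn_hoInf A M' q hq hqM hA RN hRN haux) (rgn_hoZero A M' q hq hqM hA RN hRN haux)
    hMInf hMMid hreg1Inf hreg1Zero
    (r6e_final_hnc A M' q hq hqM hA hζq hζ hE R hR haux) hcountN htri cusps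
    (r6e_final_aff A M' q hq hqM hA hζq hζ hE R hR haux cusps hcInf)
    (r6e_final_hpos A M' q hq hqM hA hζq hζ hE R hR haux cusps hcInf)
    (r6e_final_hcusp A M' q hq hqM hA hζq hζ hE R hR haux cusps
      (fun c hc => (hcusps c).1 hc))

include hRN in
/-- the node package with the trichotomy of `B_j` (INC-j) as input -/
theorem r6e_final_pkg_of_htri2 (haux : IsAuxLevel q M') (hSUM : RgnSum A M' q hq hqM RN)
    (htri2 : ∀ 𝔪' : Ideal (SMj).B, 𝔪'.IsMaximal → (SMj).constB (q : k0Val A) ∈ 𝔪' →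
      (SMj).IsNode 𝔪' ∨
      ((SMj).pInf ≤ 𝔪' ∧ ¬ (SMj).pMid ≤ 𝔪' ∧ ¬ (SMj).pZero ≤ 𝔪') ∨
      (¬ (SMj).pInf ≤ 𝔪' ∧ (SMj).pMid ≤ 𝔪' ∧ ¬ (SMj).pZero ≤ 𝔪') ∨
      (¬ (SMj).pInf ≤ 𝔪' ∧ ¬ (SMj).pMid ≤ 𝔪' ∧ (SMj).pZero ≤ 𝔪')) :
    ∃ n : ℕ, 12 * n ≤ (q - 1) * dedekindPsi M' ∧
      ∀ cusps : Finset (Place kA κA), (∀ v, v ∈ cusps ↔ v.ord (jk kA M') < 0) →
        ∃ nodes : Finset (Place kA κA), Disjoint nodes cusps ∧
          (∀ c ∈ nodes, ∀ s ∈ (SF).pInf, (SF).redMid s ≠ 0 → 0 < c.ord ((SF).redMid s)) ∧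
          (∀ w : Place kA κA, w ∉ cusps → w ∉ nodes →
            ∃ s : (SF).B, s ∈ (SF).pInf ∧ s ∈ (SF).pZero ∧ (SF).redMid s ≠ 0 ∧
              w.ord ((SF).redMid s) = 0) ∧
          (∀ t ∈ nodes,
            ∃ s : (SF).B, s ∈ (SF).pInf ∧ s ∈ (SF).pZero ∧ (SF).redMid s ≠ 0 ∧
              t.ord ((SF).redMid s) ≤ 2) ∧
          nodes.card ≤ n :=
  r6e_final_pkg A M' q hq hqM hA hζq hζ hE R hR RN hRN haux hSUM
    (r6e_final_htri A M' q hq hqM hA hζq hζ hE R hR haux htri2)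

end Fermat.Agent.S36lib

end
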