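/-
Item 83 (S36), FINAL ASSEMBLY of `A2Inputs`, part 2 (helper16).  Complete proofs.

`a2asm_final : A2Inputs`, UNCONDITIONAL: the three inputs of `a2asm_inputs` (`A2Assembly.lean`)
plugged:
  (T)  `htri`  = helper26's `s36Final_htri` (`H1TriDone.lean`),
  (M)  `hmid`  = helper5's `reg3_main_hmid'` (`Reg3Main.lean`) at helper22's node package
                 `r6e_final_pkg` (`Reg3NodesUncond.lean`), (SUM) = helper1's `w2j_rgnSum`,
  (U)  `hufd`  = helper29's `s36Final_r5_main` (`R5Final2.lean`).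
-/
import Mathlib
import Fermat.Agent.S36lib.A2Assembly
import Fermat.Agent.S36lib.H1TriDone
import Fermat.Agent.S36lib.R5Final2
import Fermat.Agent.S36lib.Reg3Main
import Fermat.Agent.S36lib.Reg3NodesUncond
import Fermat.Agent.S36lib.W2jConc

set_option autoImplicit false
set_option linter.style.longLine false
set_option linter.unusedSectionVars false
set_option linter.unusedVariables false
set_option linter.style.haveILetI false
set_option synthInstance.maxHeartbeats 400000

noncomputable section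

namespace Fermat.Agent.S36lib

open ModularCurve HahnSeries AlgebraicCurve
open Fermat.Agent.GoodRed Fermat.Agent.S24lib Fermat.Agent.S34lib Fermat.Agent.S37lib
  Fermat.Agent.HeckeBar Fermat.Agent.S35lib Fermat.Agent.GM Fermat.Agent.RRlib

section At

variable (A : ValuationSubring Kbar) (M' q : ℕ) [NeZero M'] [NeZero q]
variable (hq : q.Prime) (hqM : ¬ q ∣ M') (hA : A.LiesOverPrime q)
variable {ζ : Kbarˣ} (hζq : ζ ^ q = 1) (hζ : IsPrimitiveRoot (ζ : Kbar) q)
variable (R : ConstRed A (IsLocalRing.residue A)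
      (↥(modularFunctionFieldFullC (IsLocalRing.ResidueField A) M')) (FF (M' * q * q)))
    (hR : IsSeriesRed R)

/-- (T) for the final setup, unconditional -/
theorem a2asm_hT (haux : IsAuxLevel q M') : A2HypT A M' q hq hqM hA hζq hζ R hR :=
  s36Final_htri A M' q hq hqM hA hζq hζ (cfm_isMidExp M' q hq hqM ζ hζ) R hR haux

set_option maxHeartbeats 2000000 in
/-- (M) for the final setup, unconditional -/
theorem a2asm_hM (haux : IsAuxLevel q M') : A2HypM A M' q hq hqM hA hζq hζ R hR := by
  intro 𝔪 h𝔪 hq𝔪 hmid hinf hzero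
  obtain ⟨RN, hRN⟩ := sconc_exists_constRedInfN A M' q hq hqM hA
  exact reg3_main_hmid' A M' q hq hqM hA hζq hζ (cfm_isMidExp M' q hq hqM ζ hζ) R hR haux
    (r6e_final_pkg A M' q hq hqM hA hζq hζ (cfm_isMidExp M' q hq hqM ζ hζ) R hR RN hRN haux
      (fun z h1 h3 => w2j_rgnSum A M' q hq hqM hA RN hRN z h1 h3)
      (a2asm_hT A M' q hq hqM hA hζq hζ R hR haux)) 𝔪 h𝔪 hq𝔪 hmid hinf hzero

/-- (U) for the final setup, unconditional -/
theorem a2asm_hU (haux : IsAuxLevel q M') : A2HypU A M' q hq hqM hA hζq hζ R hR :=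
  s36Final_r5_main A M' q hq hqM hA R hR hζq hζ (cfm_isMidExp M' q hq hqM ζ hζ) haux

end At

/-- **`A2Inputs`, UNCONDITIONAL.** -/
theorem a2asm_final : A2Inputs :=
  a2asm_inputs
    (fun q M' _ _ hq haux A hA ζ hζq hζ R hR => a2asm_hT A M' q hq haux.1 hA hζq hζ R hR haux)
    (fun q M' _ _ hq haux A hA ζ hζq hζ R hR => a2asm_hM A M' q hq haux.1 hA hζq hζ R hR haux)
    (fun q M' _ _ hq haux A hA ζ hζq hζ R hR => a2asm_hU A M' q hq haux.1 hA hζq hζ R hR haux)

end Fermat.Agent.S36lib

end
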