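/-
Item 83 (S36), piece AL-GEN part 1 (helper23): the general Atkin–Lehner map on the upper half
plane, for an EXACT divisor `Q` of `N` (`Q ∣ N`, `gcd(Q, N / Q) = 1`; `Q` need not be prime).

* `alqSwap Q d = (d / gcd(d, Q)) · (Q / gcd(d, Q))`, the Atkin–Lehner swap on divisors;
* `exists_alqH` : there is `W : ℍ → ℍ` with `j(d · W z) = j(σ_Q(d) · z)` for all `d ∣ N`.
Covers `w_q` (`q ‖ N`), `w_{q²}` (`q² ‖ N`) and the Fricke involution (`Q = N`).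
-/
import Mathlib
import Fermat.Agent.S24lib.Embed
import Fermat.Agent.S36lib.Speed

set_option autoImplicit false
set_option linter.style.haveILetI false

open UpperHalfPlane CongruenceSubgroup
open scoped MatrixGroups

namespace Fermat.Agent.S36lib

open Fermat.Agent.S24lib Fermat.Agent.S20lib

/-- the Atkin–Lehner swap on divisors for an exact divisor `Q`:
`d ↦ (d / gcd(d, Q)) · (Q / gcd(d, Q))` -/
def alqSwap (Q d : ℕ) : ℕ := (d / Nat.gcd d Q) * (Q / Nat.gcd d Q)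

theorem alqSwap_mul {Q a b : ℕ} (ha : a ∣ Q) (hb : Nat.Coprime b Q) (ha0 : a ≠ 0) :
    alqSwap Q (a * b) = b * (Q / a) := by
  have hg : Nat.gcd (a * b) Q = a := by
    rw [Nat.Coprime.gcd_mul_right_cancel a hb]
    exact Nat.gcd_eq_left ha
  unfold alqSwap
  rw [hg, Nat.mul_div_cancel_left b (Nat.pos_of_ne_zero ha0)]

/-- decomposition of a divisor of `N = Q · N'` -/
theorem alq_exists_decomp {N Q : ℕ} (hN0 : N ≠ 0) (hQ : Q ∣ N) (hcop : Nat.Coprime Q (N / Q))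
    {d : ℕ} (hd : d ∣ N) :
    ∃ a b : ℕ, d = a * b ∧ a ∣ Q ∧ b ∣ N / Q ∧ Nat.Coprime b Q ∧ a ≠ 0 ∧ b ≠ 0 := by
  have hNQ : N = Q * (N / Q) := (Nat.mul_div_cancel' hQ).symm
  have hd0 : d ≠ 0 := fun h => hN0 (by rw [h, zero_dvd_iff] at hd; exact hd)
  have h1 : Nat.gcd d (Q * (N / Q)) = Nat.gcd d Q * Nat.gcd d (N / Q) :=
    Nat.Coprime.gcd_mul d hcop
  have h2 : Nat.gcd d (Q * (N / Q)) = d := by
    rw [← hNQ]
    exact Nat.gcd_eq_left hd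
  refine ⟨Nat.gcd d Q, Nat.gcd d (N / Q), ?_, Nat.gcd_dvd_right _ _, Nat.gcd_dvd_right _ _, ?_,
    ?_, ?_⟩
  · rw [← h1, h2]
  · exact Nat.Coprime.coprime_dvd_left (Nat.gcd_dvd_right d (N / Q)) hcop.symm
  · exact fun h => hd0 ((Nat.gcd_eq_zero_iff.mp h).1)
  · exact fun h => hd0 ((Nat.gcd_eq_zero_iff.mp h).1)

theorem alqSwap_dvd {N Q : ℕ} (hN0 : N ≠ 0) (hQ : Q ∣ N) (hcop : Nat.Coprime Q (N / Q))
    {d : ℕ} (hd : d ∣ N) : alqSwap Q d ∣ N := by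
  obtain ⟨a, b, rfl, ha, hb, hbQ, ha0, hb0⟩ := alq_exists_decomp hN0 hQ hcop hd
  rw [alqSwap_mul ha hbQ ha0]
  have hNQ : N = (N / Q) * Q := (Nat.div_mul_cancel hQ).symm
  rw [hNQ]
  exact Nat.mul_dvd_mul hb (Nat.div_dvd_of_dvd ha)

theorem alqSwap_alqSwap {N Q : ℕ} (hN0 : N ≠ 0) (hQ : Q ∣ N) (hcop : Nat.Coprime Q (N / Q))
    {d : ℕ} (hd : d ∣ N) : alqSwap Q (alqSwap Q d) = d := by
  obtain ⟨a, b, rfl, ha, hb, hbQ, ha0, hb0⟩ := alq_exists_decomp hN0 hQ hcop hd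
  have hQ0 : Q ≠ 0 := fun h => hN0 (by rw [h, zero_dvd_iff] at hQ; exact hQ)
  rw [alqSwap_mul ha hbQ ha0, mul_comm b (Q / a),
    alqSwap_mul (Nat.div_dvd_of_dvd ha) hbQ
      (Nat.div_pos (Nat.le_of_dvd (Nat.pos_of_ne_zero hQ0) ha) (Nat.pos_of_ne_zero ha0)).ne',
    Nat.div_div_self ha hQ0, mul_comm]

theorem alqSwap_ne_zero {N Q : ℕ} (hN0 : N ≠ 0) (hQ : Q ∣ N) (hcop : Nat.Coprime Q (N / Q))
    {d : ℕ} (hd : d ∣ N) : alqSwap Q d ≠ 0 := fun h => by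
  have := alqSwap_dvd hN0 hQ hcop hd
  rw [h, zero_dvd_iff] at this
  exact hN0 this

/-- the swap is multiplicative in a factor prime to `Q` -/
theorem alqSwap_mul_coprime {Q ℓ d : ℕ} (hℓ : Nat.Coprime ℓ Q) :
    alqSwap Q (ℓ * d) = ℓ * alqSwap Q d := by
  have hg : Nat.gcd (ℓ * d) Q = Nat.gcd d Q := by
    rw [mul_comm]
    exact Nat.Coprime.gcd_mul_right_cancel d hℓ
  unfold alqSwap
  rw [hg, Nat.mul_div_assoc ℓ (Nat.gcd_dvd_left d Q), mul_assoc]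

theorem alq_jdH_eq (d : ℕ) [NeZero d] (z : ℍ) : jdH d z = jH (nmulH d z) :=
  jd_raw_eq d z

theorem alq_nmulH_nmulH (a b : ℕ) [NeZero a] [NeZero b] [NeZero (a * b)] (z : ℍ) :
    nmulH a (nmulH b z) = nmulH (a * b) z := by
  apply UpperHalfPlane.ext
  rw [coe_nmulH, coe_nmulH, coe_nmulH]
  push_cast
  ring

/-- **the Atkin–Lehner map on `ℍ`** for an exact divisor `Q` of `N` -/
theorem exists_alqH (N Q : ℕ) [NeZero N] (hQ : Q ∣ N) (hcop : Nat.Coprime Q (N / Q)) :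
    ∃ W : ℍ → ℍ, ∀ d : ℕ, d ∣ N → ∀ z : ℍ, jdH d (W z) = jdH (alqSwap Q d) z := by
  have hN0 : N ≠ 0 := NeZero.ne N
  have hQ0 : Q ≠ 0 := fun h => hN0 (by rw [h, zero_dvd_iff] at hQ; exact hQ)
  have hN'0 : N / Q ≠ 0 :=
    (Nat.div_pos (Nat.le_of_dvd (Nat.pos_of_ne_zero hN0) hQ) (Nat.pos_of_ne_zero hQ0)).ne'
  haveI : NeZero (N / Q) := ⟨hN'0⟩
  haveI : NeZero Q := ⟨hQ0⟩
  have hcopZ : IsCoprime (Q : ℤ) ((N / Q : ℕ) : ℤ) := Nat.isCoprime_iff_coprime.mpr hcop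
  obtain ⟨u, b, hub⟩ := hcopZ
  -- `u Q + b N' = 1`
  -- for every factorisation `Q = a e` the matrix `[[a, 1], [-(N' b), e u]]` is in `Γ₀(N')`
  have hmat : ∀ a e : ℕ, a * e = Q →
      Matrix.det !![(a : ℤ), 1; -(((N / Q : ℕ) : ℤ) * b), (e : ℤ) * u] = 1 := by
    intro a e hae
    rw [Matrix.det_fin_two_of]
    have : (Q : ℤ) = (a : ℤ) * (e : ℤ) := by rw [← hae]; push_cast; ring
    rw [this] at hub
    linear_combination hub
  let G : ∀ a e : ℕ, a * e = Q → SL(2, ℤ) := fun a e hae =>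
    ⟨!![(a : ℤ), 1; -(((N / Q : ℕ) : ℤ) * b), (e : ℤ) * u], hmat a e hae⟩
  have hG : ∀ a e (hae : a * e = Q), G a e hae ∈ Gamma0 (N / Q) := by
    intro a e hae
    rw [Gamma0_mem]
    show (((-(((N / Q : ℕ) : ℤ) * b) : ℤ)) : ZMod (N / Q)) = 0
    rw [Int.cast_neg, Int.cast_mul, Int.cast_natCast, ZMod.natCast_self, zero_mul, neg_zero]
  let g : SL(2, ℤ) := G 1 Q (one_mul Q)
  have hkey : ∀ (a e : ℕ) (hae : a * e = Q) [NeZero a] (w : ℍ),
      nmulH a (g • nmulH a w) = G a e hae • w := by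
    intro a e hae _ w
    have ha0 : (a : ℂ) ≠ 0 := Nat.cast_ne_zero.mpr (NeZero.ne a)
    apply UpperHalfPlane.ext
    rw [coe_nmulH, UpperHalfPlane.coe_specialLinearGroup_apply,
      UpperHalfPlane.coe_specialLinearGroup_apply, coe_nmulH]
    simp only [algebraMap_int_eq, eq_intCast, Complex.ofReal_intCast]
    have h00 : g 0 0 = 1 := by show ((1 : ℕ) : ℤ) = 1; simp
    have h01 : g 0 1 = 1 := rfl
    have h10 : g 1 0 = -(((N / Q : ℕ) : ℤ) * b) := rfl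
    have h11 : g 1 1 = (Q : ℤ) * u := rfl
    have h00' : G a e hae 0 0 = a := rfl
    have h01' : G a e hae 0 1 = 1 := rfl
    have h10' : G a e hae 1 0 = -(((N / Q : ℕ) : ℤ) * b) := rfl
    have h11' : G a e hae 1 1 = (e : ℤ) * u := rfl
    rw [h00, h01, h10, h11, h00', h01', h10', h11']
    have hQae : (Q : ℂ) = (a : ℂ) * (e : ℂ) := by rw [← hae]; push_cast; ring
    have hden2 : (((-(((N / Q : ℕ) : ℤ) * b) : ℤ)) : ℂ) * (w : ℂ) + (((e : ℤ) * u : ℤ) : ℂ) ≠ 0 :=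
      dist_lin_ne_zero _ _ (by
        by_contra hcon
        rw [not_or, not_not, not_not] at hcon
        have h1 : ((N / Q : ℕ) : ℤ) * b = 0 := by linarith [hcon.1]
        have h2 : (Q : ℤ) * u = 0 := by
          have : (Q : ℤ) = (a : ℤ) * (e : ℤ) := by rw [← hae]; push_cast; ring
          rw [this, mul_assoc, hcon.2, mul_zero]
        have : u * (Q : ℤ) + b * ((N / Q : ℕ) : ℤ) = 0 := by
          rw [mul_comm u, mul_comm b, h1, h2, add_zero]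
        rw [this] at hub
        exact zero_ne_one hub) w
    have hden1 : (((-(((N / Q : ℕ) : ℤ) * b) : ℤ)) : ℂ) * ((a : ℂ) * (w : ℂ)) +
        ((((Q : ℤ) * u : ℤ)) : ℂ) ≠ 0 := by
      have e' : (((-(((N / Q : ℕ) : ℤ) * b) : ℤ)) : ℂ) * ((a : ℂ) * (w : ℂ)) +
          ((((Q : ℤ) * u : ℤ)) : ℂ) =
          (a : ℂ) * ((((-(((N / Q : ℕ) : ℤ) * b) : ℤ)) : ℂ) * (w : ℂ) +
            (((e : ℤ) * u : ℤ) : ℂ)) := by
        push_cast
        rw [hQae]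
        ring
      rw [e']
      exact mul_ne_zero ha0 hden2
    rw [mul_div_assoc', div_eq_div_iff hden1 hden2]
    push_cast
    rw [hQae]
    ring
  refine ⟨fun z => g • nmulH Q z, fun d hd z => ?_⟩
  obtain ⟨a, c, rfl, ha, hc, hcQ, ha0, hc0⟩ := alq_exists_decomp hN0 hQ hcop hd
  obtain ⟨e, hae⟩ := ha
  have he0 : e ≠ 0 := fun h => hQ0 (by rw [hae, h, mul_zero])
  haveI : NeZero a := ⟨ha0⟩
  haveI : NeZero c := ⟨hc0⟩
  haveI : NeZero e := ⟨he0⟩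
  haveI : NeZero (a * c) := ⟨mul_ne_zero ha0 hc0⟩
  haveI : NeZero (c * a) := ⟨mul_ne_zero hc0 ha0⟩
  haveI : NeZero (a * e) := ⟨mul_ne_zero ha0 he0⟩
  haveI : NeZero (c * e) := ⟨mul_ne_zero hc0 he0⟩
  have e1 : alqSwap Q (a * c) = c * e := by
    rw [alqSwap_mul ⟨e, hae⟩ hcQ ha0, hae, Nat.mul_div_cancel_left e (Nat.pos_of_ne_zero ha0)]
  haveI : NeZero (alqSwap Q (a * c)) := ⟨by rw [e1]; exact mul_ne_zero hc0 he0⟩
  rw [alq_jdH_eq, alq_jdH_eq]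
  have e2 : nmulH (a * c) (g • nmulH Q z) = nmulH c (G a e hae.symm • nmulH e z) := by
    rw [← hkey a e hae.symm (nmulH e z), alq_nmulH_nmulH c a, alq_nmulH_nmulH a e]
    have hQ' : nmulH Q z = nmulH (a * e) z := by
      apply UpperHalfPlane.ext
      rw [coe_nmulH, coe_nmulH, hae]
    rw [hQ']
    apply UpperHalfPlane.ext
    rw [coe_nmulH, coe_nmulH]
    push_cast
    ring
  rw [e2, jd_raw_smul_Gamma0 hc (G a e hae.symm) (hG a e hae.symm) (nmulH e z),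
    alq_nmulH_nmulH c e]
  congr 1
  apply UpperHalfPlane.ext
  rw [coe_nmulH, coe_nmulH, e1]

end Fermat.Agent.S36lib
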