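/-
Item 83 (S36), piece TABLE-MAPS (helper3): THE maps of setups `fα, fβ : SN → SM` for the concrete
setups `SN = nodeSetupN …` (level `M' q`, `B_{D1N}`) and `SM = nodeSetupM … vmidSV …`
(level `M' q²`, `B_{D1}`), in particular `SM = s36Final …`:

* `tblm_offReg_alpha`, `tblm_offReg_beta` : `α, β` map functions regular off `{∞_N, 0_N}` to
  functions regular off `D1` (helper15's fibres `fbm_reg_alpha/beta`);
* `tblmAlpha`, `tblmBeta` : the `SetupMap`s (`vMid = vmidSV`), with `tblmAlpha_coe`,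
  `tblmBeta_coe` (`f.φ = α`, resp. `β`, by `rfl`);
* `tblmAlphaF`, `tblmBetaF` : the same for `s36Final`; `tblm_final_alpha`, `tblm_final_beta`,
  `tblm_final_table` : the complete reduction table (the six hypotheses `tα*`, `tβ*` of `s36_crux_head`) for them.
(complete proofs, standard axioms only)
-/
import Mathlib
import Fermat.Agent.S36lib.TableConc

set_option autoImplicit false
set_option linter.style.haveILetI false
set_option linter.unusedSectionVars false
set_option linter.unusedVariables false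
set_option synthInstance.maxHeartbeats 400000

noncomputable section

open ModularCurve AlgebraicCurve HahnSeries
open Fermat.Agent.S24lib Fermat.Agent.HeckeBar Fermat.Agent.S37lib Fermat.Agent.S35lib
  Fermat.Agent.GoodRed Fermat.Agent.S34lib

namespace Fermat.Agent.S36lib

section OffReg

variable (M' q : ℕ) [NeZero M'] [NeZero q] (hq : q.Prime) (hqM : ¬ q ∣ M')

/-- the hypothesis of `fbm_reg_alpha/beta` from regularity off `D1N` -/
theorem tblm_ord_nonneg_of_offReg (Y : FF (M' * q))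
    (hY : Y ∈ offRegular (M' * q) (s36D1N M' q hq hqM))
    (v : Place Kbar (FF (M' * q))) (h1 : v ≠ infPlaceBar (M' * q))
    (h2 : v ≠ zeroPlaceBar (M' * q) q hq (dvd_mul_left q M') (inf_not_sq_dvd M' q hq hqM)) :
    0 ≤ v.ord Y := by
  rw [mem_offRegular_iff] at hY
  rw [← ffMem_iff_ord_nonneg]
  refine hY v ?_
  rintro (h | h)
  · exact h1 h
  · exact h2 h

/-- `α` maps `offRegular D1N` into `offRegular D1` -/
theorem tblm_offReg_alpha (Y : FF (M' * q))
    (hY : Y ∈ offRegular (M' * q) (s36D1N M' q hq hqM)) :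
    heckeAlphaBar Kbar (M' * q) q Y ∈ offRegular (M' * q * q) (s36D1 M' q hq hqM) := by
  obtain ⟨ζ₀, hζ₀⟩ := s36_exists_zeta q
  refine mem_offRegular_s36D1 M' q hq hqM ζ₀ hζ₀ _ fun P h1 h2 h3 => ?_
  exact fbm_reg_alpha M' q hq hqM ζ₀ hζ₀ Y
    (tblm_ord_nonneg_of_offReg M' q hq hqM Y hY) P h1 h2 h3

/-- `β` maps `offRegular D1N` into `offRegular D1` -/
theorem tblm_offReg_beta (Y : FF (M' * q))
    (hY : Y ∈ offRegular (M' * q) (s36D1N M' q hq hqM)) :
    heckeBetaBar Kbar (M' * q) q Y ∈ offRegular (M' * q * q) (s36D1 M' q hq hqM) := by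
  obtain ⟨ζ₀, hζ₀⟩ := s36_exists_zeta q
  refine mem_offRegular_s36D1 M' q hq hqM ζ₀ hζ₀ _ fun P h1 h2 h3 => ?_
  exact fbm_reg_beta M' q hq hqM ζ₀ hζ₀ Y
    (tblm_ord_nonneg_of_offReg M' q hq hqM Y hY) P h1 h2 h3

end OffReg


section Maps

variable (A : ValuationSubring Kbar) (M' q : ℕ) [NeZero M'] [NeZero q]
variable (hq : q.Prime) (hqM : ¬ q ∣ M') (hA : A.LiesOverPrime q)
variable (RN : ConstRed A (IsLocalRing.residue A)
      (↥(modularFunctionFieldFullC (IsLocalRing.ResidueField A) M')) (FF (M' * q)))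
    (hRN : IsSeriesRed RN)
variable (R : ConstRed A (IsLocalRing.residue A)
      (↥(modularFunctionFieldFullC (IsLocalRing.ResidueField A) M')) (FF (M' * q * q)))
    (hR : IsSeriesRed R)
variable {ζ : Kbarˣ} {E : FF (M' * q * q) →+* LaurentSeries Kbar}
variable (hlt : A.valuation (q : Kbar) < 1) (hζq : ζ ^ q = 1) (hE : IsMidExp M' q ζ E)
variable
    (hiMid : ∀ (x : FF (M' * q * q)) (hx : x ∈ (vmidSV A hq hlt hζq hE).O),
      x ∈ f0Field A (M' * q * q) →
      (vmidSV A hq hlt hζq hE).red ⟨x, hx⟩ ∈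
        modularFunctionFieldFullC (IsLocalRing.ResidueField A) M')
    (hoMid : ∀ y ∈ modularFunctionFieldFullC (IsLocalRing.ResidueField A) M',
      ∃ (x : FF (M' * q * q)) (hx : x ∈ (vmidSV A hq hlt hζq hE).O),
        x ∈ f0Field A (M' * q * q) ∧ (vmidSV A hq hlt hζq hE).red ⟨x, hx⟩ = y)

/-- membership in `B_{D1N}` (level `M' q`) -/
theorem tblm_mem_BN (x : f0Field A (M' * q)) :
    x ∈ (nodeSetupN A M' q hq hqM hA RN hRN).B ↔
      (x : FF (M' * q)) ∈ offRegular (M' * q) (s36D1N M' q hq hqM) ∧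
        (x : FF (M' * q)) ∈ RN.O ∧ (x : FF (M' * q)) ∈ RN.O ∧
          alW1 M' hq hqM (x : FF (M' * q)) ∈ RN.O :=
  mem_f0AffD_iff A (M' * q) (s36D1N M' q hq hqM) _ _ _ x

/-- membership in `B_{D1}` (level `M' q²`, `vMid = vmidSV`) -/
theorem tblm_mem_BM (x : f0Field A (M' * q * q)) :
    x ∈ (nodeSetupM A M' q hq hqM hA R hR (vmidSV A hq hlt hζq hE) hiMid hoMid).B ↔
      (x : FF (M' * q * q)) ∈ offRegular (M' * q * q) (s36D1 M' q hq hqM) ∧
        (x : FF (M' * q * q)) ∈ R.O ∧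
        (x : FF (M' * q * q)) ∈ vmidO A hq hlt hζq hE ∧
          alW2 M' hq hqM (x : FF (M' * q * q)) ∈ R.O :=
  mem_f0AffD_iff A (M' * q * q) (s36D1 M' q hq hqM) _ _ _ x

/-- **`α` as a map of setups** `nodeSetupN → nodeSetupM` (`vMid = vmidSV`) -/
def tblmAlpha : SetupMap (nodeSetupN A M' q hq hqM hA RN hRN)
    (nodeSetupM A M' q hq hqM hA R hR (vmidSV A hq hlt hζq hE) hiMid hoMid) where
  φ := r2mF0 A (heckeAlphaBar Kbar (M' * q) q) (fun x hx => f0_heckeAlphaBar_mem A q hx)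
  map_B := by
    intro x hx
    obtain ⟨h1, h2, -, h4⟩ := (tblm_mem_BN A M' q hq hqM hA RN hRN x).1 hx
    refine (tblm_mem_BM A M' q hq hqM hA R hR hlt hζq hE hiMid hoMid _).2 ⟨?_, ?_, ?_, ?_⟩
    · exact tblm_offReg_alpha M' q hq hqM _ h1
    · exact (vz2_alpha_mem_iff (M' * q) q hRN hR (vmid_hasPrimFrac_bar A (M' * q) hq hlt) _).2 h2
    · exact (tblc_mid_alpha_mem_iff A RN hq hlt hζq hE hRN _).2 h2
    · exact (vz2Zero_alpha_mem_iff M' hq hqM hRN hR (vmid_hasPrimFrac_bar A (M' * q) hq hlt)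
        _).2 h4
  inf_iff := fun x =>
    vz2_alpha_mem_iff (M' * q) q hRN hR (vmid_hasPrimFrac_bar A (M' * q) hq hlt) _
  zero_iff := fun x =>
    vz2Zero_alpha_mem_iff M' hq hqM hRN hR (vmid_hasPrimFrac_bar A (M' * q) hq hlt) _

/-- **`β` as a map of setups** `nodeSetupN → nodeSetupM` (`vMid = vmidSV`) -/
def tblmBeta : SetupMap (nodeSetupN A M' q hq hqM hA RN hRN)
    (nodeSetupM A M' q hq hqM hA R hR (vmidSV A hq hlt hζq hE) hiMid hoMid) where
  φ := r2mF0 A (heckeBetaBar Kbar (M' * q) q) (fun x hx => f0_heckeBetaBar_mem A q hx)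
  map_B := by
    intro x hx
    obtain ⟨h1, h2, -, h4⟩ := (tblm_mem_BN A M' q hq hqM hA RN hRN x).1 hx
    refine (tblm_mem_BM A M' q hq hqM hA R hR hlt hζq hE hiMid hoMid _).2 ⟨?_, ?_, ?_, ?_⟩
    · exact tblm_offReg_beta M' q hq hqM _ h1
    · exact (vz2_beta_mem_iff (M' * q) q hRN hR (vmid_hasPrimFrac_bar A (M' * q) hq hlt) _).2 h2
    · exact (vmb_beta_mem_iff' A RN hq hqM hlt hζq hE hRN _).2 h4
    · exact (vz2Zero_beta_mem_iff M' hq hqM hRN hR (vmid_hasPrimFrac_bar A (M' * q) hq hlt)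
        _).2 h4
  inf_iff := fun x =>
    vz2_beta_mem_iff (M' * q) q hRN hR (vmid_hasPrimFrac_bar A (M' * q) hq hlt) _
  zero_iff := fun x =>
    vz2Zero_beta_mem_iff M' hq hqM hRN hR (vmid_hasPrimFrac_bar A (M' * q) hq hlt) _

theorem tblmAlpha_coe (x : f0Field A (M' * q)) :
    (((tblmAlpha A M' q hq hqM hA RN hRN R hR hlt hζq hE hiMid hoMid).φ x :
        f0Field A (M' * q * q)) : FF (M' * q * q))
      = heckeAlphaBar Kbar (M' * q) q (x : FF (M' * q)) := rfl

theorem tblmBeta_coe (x : f0Field A (M' * q)) :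
    (((tblmBeta A M' q hq hqM hA RN hRN R hR hlt hζq hE hiMid hoMid).φ x :
        f0Field A (M' * q * q)) : FF (M' * q * q))
      = heckeBetaBar Kbar (M' * q) q (x : FF (M' * q)) := rfl

end Maps

section Final

variable (A : ValuationSubring Kbar) (M' q : ℕ) [NeZero M'] [NeZero q]
variable (hq : q.Prime) (hqM : ¬ q ∣ M') (hA : A.LiesOverPrime q)
variable (RN : ConstRed A (IsLocalRing.residue A)
      (↥(modularFunctionFieldFullC (IsLocalRing.ResidueField A) M')) (FF (M' * q)))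
    (hRN : IsSeriesRed RN)
variable (R : ConstRed A (IsLocalRing.residue A)
      (↥(modularFunctionFieldFullC (IsLocalRing.ResidueField A) M')) (FF (M' * q * q)))
    (hR : IsSeriesRed R)
variable {ζ : Kbarˣ} {E : FF (M' * q * q) →+* LaurentSeries Kbar}
variable (hζq : ζ ^ q = 1) (hζ : IsPrimitiveRoot (ζ : Kbar) q) (hE : IsMidExp M' q ζ E)

/-- **`α : nodeSetupN → s36Final`** -/
def tblmAlphaF : SetupMap (nodeSetupN A M' q hq hqM hA RN hRN)
    (s36Final A M' q hq hqM hA hζq hζ hE R hR) :=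
  tblmAlpha A M' q hq hqM hA RN hRN R hR ((A.mem_nonunits_iff).mp hA) hζq hE
    (vmid_hinto A hq hqM hA hζq hζ hE) (vmid_honto A hq hA hζq hE)

/-- **`β : nodeSetupN → s36Final`** -/
def tblmBetaF : SetupMap (nodeSetupN A M' q hq hqM hA RN hRN)
    (s36Final A M' q hq hqM hA hζq hζ hE R hR) :=
  tblmBeta A M' q hq hqM hA RN hRN R hR ((A.mem_nonunits_iff).mp hA) hζq hE
    (vmid_hinto A hq hqM hA hζq hζ hE) (vmid_honto A hq hA hζq hE)

theorem tblmAlphaF_coe (x : f0Field A (M' * q)) :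
    (((tblmAlphaF A M' q hq hqM hA RN hRN R hR hζq hζ hE).φ x :
        f0Field A (M' * q * q)) : FF (M' * q * q))
      = heckeAlphaBar Kbar (M' * q) q (x : FF (M' * q)) := rfl

theorem tblmBetaF_coe (x : f0Field A (M' * q)) :
    (((tblmBetaF A M' q hq hqM hA RN hRN R hR hζq hζ hE).φ x :
        f0Field A (M' * q * q)) : FF (M' * q * q))
      = heckeBetaBar Kbar (M' * q) q (x : FF (M' * q)) := rfl

theorem tblmAlphaF_toB_coe (z : (nodeSetupN A M' q hq hqM hA RN hRN).B) :
    ((((tblmAlphaF A M' q hq hqM hA RN hRN R hR hζq hζ hE).toB z :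
        (s36Final A M' q hq hqM hA hζq hζ hE R hR).B) :
        f0Field A (M' * q * q)) : FF (M' * q * q))
      = heckeAlphaBar Kbar (M' * q) q ((z : f0Field A (M' * q)) : FF (M' * q)) := rfl

theorem tblmBetaF_toB_coe (z : (nodeSetupN A M' q hq hqM hA RN hRN).B) :
    ((((tblmBetaF A M' q hq hqM hA RN hRN R hR hζq hζ hE).toB z :
        (s36Final A M' q hq hqM hA hζq hζ hE R hR).B) :
        f0Field A (M' * q * q)) : FF (M' * q * q))
      = heckeBetaBar Kbar (M' * q) q ((z : f0Field A (M' * q)) : FF (M' * q)) := rfl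

/-- the `α`-column of the table for `tblmAlphaF` -/
theorem tblm_final_alpha
    (φ : ↥(modularFunctionFieldFullC (IsLocalRing.ResidueField A) M') →+*
      ↥(modularFunctionFieldFullC (IsLocalRing.ResidueField A) M'))
    (hφ : ∀ x : ↥(modularFunctionFieldFullC (IsLocalRing.ResidueField A) M'),
      ((φ x : ↥(modularFunctionFieldFullC (IsLocalRing.ResidueField A) M')) :
          LaurentSeries (IsLocalRing.ResidueField A))
        = qExpand (IsLocalRing.ResidueField A) q
            (x : LaurentSeries (IsLocalRing.ResidueField A))) :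
    (∀ z, (s36Final A M' q hq hqM hA hζq hζ hE R hR).redInf
        ((tblmAlphaF A M' q hq hqM hA RN hRN R hR hζq hζ hE).toB z)
        = (nodeSetupN A M' q hq hqM hA RN hRN).redInf z) ∧
    (∀ z, (s36Final A M' q hq hqM hA hζq hζ hE R hR).redMid
        ((tblmAlphaF A M' q hq hqM hA RN hRN R hR hζq hζ hE).toB z)
        = (nodeSetupN A M' q hq hqM hA RN hRN).redInf z) ∧
    (∀ z, (s36Final A M' q hq hqM hA hζq hζ hE R hR).redZero
        ((tblmAlphaF A M' q hq hqM hA RN hRN R hR hζq hζ hE).toB z)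
        = φ ((nodeSetupN A M' q hq hqM hA RN hRN).redZero z)) :=
  tblc_final_alpha A M' q hq hqM hA RN hRN R hR φ hζq hζ hE hφ
    (tblmAlphaF A M' q hq hqM hA RN hRN R hR hζq hζ hE)
    (fun x => rfl)


theorem tblm_final_beta
    (φ : ↥(modularFunctionFieldFullC (IsLocalRing.ResidueField A) M') →+*
      ↥(modularFunctionFieldFullC (IsLocalRing.ResidueField A) M'))
    (hφ : ∀ x : ↥(modularFunctionFieldFullC (IsLocalRing.ResidueField A) M'),
      ((φ x : ↥(modularFunctionFieldFullC (IsLocalRing.ResidueField A) M')) :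
          LaurentSeries (IsLocalRing.ResidueField A))
        = qExpand (IsLocalRing.ResidueField A) q
            (x : LaurentSeries (IsLocalRing.ResidueField A))) :
    (∀ z, (s36Final A M' q hq hqM hA hζq hζ hE R hR).redInf
        ((tblmBetaF A M' q hq hqM hA RN hRN R hR hζq hζ hE).toB z)
        = φ ((nodeSetupN A M' q hq hqM hA RN hRN).redInf z)) ∧
    (∀ z, (s36Final A M' q hq hqM hA hζq hζ hE R hR).redMid
        ((tblmBetaF A M' q hq hqM hA RN hRN R hR hζq hζ hE).toB z)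
        = (nodeSetupN A M' q hq hqM hA RN hRN).redZero z) ∧
    (∀ z, (s36Final A M' q hq hqM hA hζq hζ hE R hR).redZero
        ((tblmBetaF A M' q hq hqM hA RN hRN R hR hζq hζ hE).toB z)
        = (nodeSetupN A M' q hq hqM hA RN hRN).redZero z) :=
  tblc_final_beta A M' q hq hqM hA RN hRN R hR φ hζq hζ hE hφ
    (tblmBetaF A M' q hq hqM hA RN hRN R hR hζq hζ hE)
    (fun x => rfl)

/-- **THE REDUCTION TABLE** for `fα = tblmAlphaF`, `fβ = tblmBetaF`: the six hypotheses
`tαInf tαMid tαZero tβInf tβMid tβZero` of `s36_crux_head`, for any `φ` with `φ x = x(X^q)`. -/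
theorem tblm_final_table
    (φ : ↥(modularFunctionFieldFullC (IsLocalRing.ResidueField A) M') →+*
      ↥(modularFunctionFieldFullC (IsLocalRing.ResidueField A) M'))
    (hφ : ∀ x : ↥(modularFunctionFieldFullC (IsLocalRing.ResidueField A) M'),
      ((φ x : ↥(modularFunctionFieldFullC (IsLocalRing.ResidueField A) M')) :
          LaurentSeries (IsLocalRing.ResidueField A))
        = qExpand (IsLocalRing.ResidueField A) q
            (x : LaurentSeries (IsLocalRing.ResidueField A))) :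
    (∀ z, (s36Final A M' q hq hqM hA hζq hζ hE R hR).redInf
        ((tblmAlphaF A M' q hq hqM hA RN hRN R hR hζq hζ hE).toB z)
        = (nodeSetupN A M' q hq hqM hA RN hRN).redInf z) ∧
    (∀ z, (s36Final A M' q hq hqM hA hζq hζ hE R hR).redMid
        ((tblmAlphaF A M' q hq hqM hA RN hRN R hR hζq hζ hE).toB z)
        = (nodeSetupN A M' q hq hqM hA RN hRN).redInf z) ∧
    (∀ z, (s36Final A M' q hq hqM hA hζq hζ hE R hR).redZero
        ((tblmAlphaF A M' q hq hqM hA RN hRN R hR hζq hζ hE).toB z)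
        = φ ((nodeSetupN A M' q hq hqM hA RN hRN).redZero z)) ∧
    (∀ z, (s36Final A M' q hq hqM hA hζq hζ hE R hR).redInf
        ((tblmBetaF A M' q hq hqM hA RN hRN R hR hζq hζ hE).toB z)
        = φ ((nodeSetupN A M' q hq hqM hA RN hRN).redInf z)) ∧
    (∀ z, (s36Final A M' q hq hqM hA hζq hζ hE R hR).redMid
        ((tblmBetaF A M' q hq hqM hA RN hRN R hR hζq hζ hE).toB z)
        = (nodeSetupN A M' q hq hqM hA RN hRN).redZero z) ∧
    (∀ z, (s36Final A M' q hq hqM hA hζq hζ hE R hR).redZero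
        ((tblmBetaF A M' q hq hqM hA RN hRN R hR hζq hζ hE).toB z)
        = (nodeSetupN A M' q hq hqM hA RN hRN).redZero z) :=
  ⟨(tblm_final_alpha A M' q hq hqM hA RN hRN R hR hζq hζ hE φ hφ).1,
   (tblm_final_alpha A M' q hq hqM hA RN hRN R hR hζq hζ hE φ hφ).2.1,
   (tblm_final_alpha A M' q hq hqM hA RN hRN R hR hζq hζ hE φ hφ).2.2,
   (tblm_final_beta A M' q hq hqM hA RN hRN R hR hζq hζ hE φ hφ).1,
   (tblm_final_beta A M' q hq hqM hA RN hRN R hR hζq hζ hE φ hφ).2.1,
   (tblm_final_beta A M' q hq hqM hA RN hRN R hR hζq hζ hE φ hφ).2.2⟩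

end Final

end Fermat.Agent.S36lib
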