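import Mathlib
import Fermat.Agent.S36lib.AlphaInt
import Fermat.Agent.S36lib.SumFinal
import Fermat.Agent.S36lib.TableMaps
import Fermat.Agent.S34lib.LiftInf

/-!
# Item 83 (S36), piece `hαint` (helper20), FINAL unconditional form

* `aint_isIntegral_final` : `f.toB.IsIntegral` for ANY `f : SetupMap (nodeSetupN …) (s36Final …)`
  inducing `α`, at an auxiliary level (`R'` from `liftInf_exists_red`, (P4) from helper2's
  `sumi_isIntegral`);
* `aint_tblmAlphaF` : the same for helper3's `tblmAlphaF` (= `hαint` of `s36_htor_final`).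
-/

set_option autoImplicit false
set_option linter.style.haveILetI false
set_option linter.unusedSectionVars false
set_option linter.unusedVariables false
set_option synthInstance.maxHeartbeats 400000

noncomputable section

namespace Fermat.Agent.S36lib

open AlgebraicCurve ModularCurve IntermediateField HahnSeries Polynomial
open Fermat.Agent.S24lib Fermat.Agent.GoodRed Fermat.Agent.GM Fermat.Agent.S34lib
  Fermat.Agent.RRlib Fermat.Agent.HeckeBar Fermat.Agent.S35lib Fermat.Agent.S37lib

variable (A : ValuationSubring Kbar) (M' q : ℕ) [NeZero M'] [NeZero q]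
variable (hq : q.Prime) (hqM : ¬ q ∣ M') (hA : A.LiesOverPrime q)
variable {ζ : Kbarˣ} {E : FF (M' * q * q) →+* LaurentSeries Kbar}
variable (hζq : ζ ^ q = 1) (hζ : IsPrimitiveRoot (ζ : Kbar) q) (hE : IsMidExp M' q ζ E)
variable (R : ConstRed A (IsLocalRing.residue A)
      (↥(modularFunctionFieldFullC (IsLocalRing.ResidueField A) M')) (FF (M' * q * q)))
    (hR : IsSeriesRed R)
variable (RN : ConstRed A (IsLocalRing.residue A)
      (↥(modularFunctionFieldFullC (IsLocalRing.ResidueField A) M')) (FF (M' * q)))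
    (hRN : IsSeriesRed RN)

/-- **`hαint`, unconditional**: `B_{D1}(M' q²)` is integral over `B_{D1}(M' q)` along `α`, at an
auxiliary level. -/
theorem aint_isIntegral_final (haux : IsAuxLevel q M')
    (f : SetupMap (nodeSetupN A M' q hq hqM hA RN hRN)
      (s36Final A M' q hq hqM hA hζq hζ hE R hR))
    (hf : ∀ x : f0Field A (M' * q), ((f.φ x : f0Field A (M' * q * q)) : FF (M' * q * q)) =
      heckeAlphaBar Kbar (M' * q) q (x : FF (M' * q))) :
    f.toB.IsIntegral := by
  haveI : Fact q.Prime := ⟨hq⟩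
  obtain ⟨R', -, hR', -⟩ := liftInf_exists_red M' A q haux hA
  refine aint_isIntegral A M' q hq hqM hA hζq hζ hE R hR RN hRN R' hR' haux ?_ f hf
  intro b hb h1 h2 h3
  obtain ⟨p, hp, hpc, hpb⟩ := sumi_isIntegral A M' q hq hqM hA R' R hR' hR
    ((A.mem_nonunits_iff).mp hA) hζq hζ hE (vmidSV A hq ((A.mem_nonunits_iff).mp hA) hζq hE) rfl
    b hb h1 h2 h3
  exact ⟨p, hp, fun n => (hpc n).1, hpb⟩

/-- **`hαint` for helper3's `tblmAlphaF`** -/
theorem aint_tblmAlphaF (haux : IsAuxLevel q M') :
    (tblmAlphaF A M' q hq hqM hA RN hRN R hR hζq hζ hE).toB.IsIntegral :=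
  aint_isIntegral_final A M' q hq hqM hA hζq hζ hE R hR RN hRN haux _ (fun _ => rfl)

end Fermat.Agent.S36lib

end
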