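/-
Item 83 (S36), block APPLY2, adapter (helper4): from the output of INVERT to the input of the
CRUX block and back to `InvK`.

`f0 ∈ F_{M'q²}` nonzero, `I`-fixed, Kummer-new, `m ∣ ord f0`;  INVERT: `f0 ^ c1 = q ^ e · b · g ^ m`
with `g ≠ 0` `I`-fixed.  Then
* `a2w_ne_zero`, `a2w_ord`, `a2w_isKummerNew2`, `a2w_isIFixed` (`a2w_props`): `b ≠ 0`,
  `m ∣ ord_P b` for all `P`, `b` is Kummer-new and `I`-fixed;
* `a2w_conclude`: `b ^ E = c₀ · s ^ m` ⟹ `f0 ^ (c1 * E) = c · s' ^ m`;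
* `a2w_invK`: `InvK M' q m (c1 * E) A` from the two blocks `hinv` (INVERT) and `hcrux` (CRUX),
  `Good` an arbitrary predicate on `b` (`b ∈ B`, unit at the nodes);
* `IsCM.pow`, `IsCM.of_eq_mul` bookkeeping.
-/
import Mathlib
import Fermat.Agent.S36lib.InvRepNew
import Fermat.Agent.S36lib.Setup

set_option autoImplicit false
set_option linter.style.haveILetI false

noncomputable section

namespace Fermat.Agent.S36lib

open ModularCurve AlgebraicCurve HahnSeries Fermat.Agent.S24lib Fermat.Agent.S34lib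
  Fermat.Agent.RRlib Fermat.Agent.HeckeBar Fermat.Agent.S35lib

section CM

variable {K F : Type*} [Field K] [Field F] [Algebra K F]

theorem IsCM.pow {m : ℕ} {x : F} (hx : IsCM K m x) (n : ℕ) : IsCM K m (x ^ n) := by
  obtain ⟨c, g, rfl⟩ := hx
  exact ⟨c ^ n, g ^ n, by rw [mul_pow, map_pow, ← pow_mul, ← pow_mul, mul_comm m n]⟩

end CM

section Norm

variable {K F F' : Type*} [Field K] [Field F] [Field F'] [Algebra K F] [Algebra K F']

/-- `IsCM` of the norm passes from `x` to `b` when `x ^ c1 = C a · b · g ^ m` -/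
theorem a2w_isCM_norm (φ : F →ₐ[K] F') (hfin : FiniteAlong K φ) {m c1 : ℕ} {x b g : F'}
    {a : K} (ha : a ≠ 0) (hg : g ≠ 0)
    (heq : x ^ c1 = algebraMap K F' a * b * g ^ m)
    (h : IsCM K m (normAlong φ x)) : IsCM K m (normAlong φ b) := by
  obtain ⟨d, hd⟩ := invrep_normAlong_algebraMap φ a
  have had : algebraMap K F (a ^ d) ≠ 0 := (map_ne_zero _).mpr (pow_ne_zero _ ha)
  have hNg : normAlong φ g ≠ 0 := dgj_normAlong_ne_zero φ hfin hg
  have e : normAlong φ b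
      = (normAlong φ x) ^ c1 * ((algebraMap K F (a ^ d))⁻¹ * ((normAlong φ g) ^ m)⁻¹) := by
    rw [← map_pow, heq, map_mul, map_mul, map_pow, hd]
    field_simp
  rw [e]
  exact (h.pow c1).mul ((IsCM.const m (a ^ d)).inv.mul (IsCM.pow_self m _).inv)

end Norm

section Concrete

variable (M' q : ℕ) [NeZero M'] [NeZero q]

/-- the constant `q ^ e` -/
theorem a2w_const_zpow (L : ℕ) (e : ℤ) :
    (algebraMap Kbar (FF L) (q : Kbar)) ^ e = algebraMap Kbar (FF L) ((q : Kbar) ^ e) :=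
  (map_zpow₀ (algebraMap Kbar (FF L)) (q : Kbar) e).symm

theorem a2w_qe_ne_zero (e : ℤ) : ((q : Kbar) ^ e) ≠ 0 :=
  zpow_ne_zero _ (Nat.cast_ne_zero.mpr (NeZero.ne q))

variable {M' q}
variable {m c1 : ℕ} {e : ℤ} {f0 b g : FF (M' * q * q)}

/-- `b ≠ 0` -/
theorem a2w_ne_zero (hf0 : f0 ≠ 0)
    (heq : f0 ^ c1 = (algebraMap Kbar (FF (M' * q * q)) (q : Kbar)) ^ e * b * g ^ m) : b ≠ 0 := by
  rintro rfl
  rw [mul_zero, zero_mul] at heq
  exact pow_ne_zero c1 hf0 heq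

/-- `m ∣ ord_P b` -/
theorem a2w_ord (hf0 : f0 ≠ 0) (hg : g ≠ 0)
    (heq : f0 ^ c1 = (algebraMap Kbar (FF (M' * q * q)) (q : Kbar)) ^ e * b * g ^ m)
    (hdiv : ∀ P : Place Kbar (FF (M' * q * q)), (m : ℤ) ∣ P.ord f0)
    (P : Place Kbar (FF (M' * q * q))) : (m : ℤ) ∣ P.ord b := by
  have hb : b ≠ 0 := a2w_ne_zero hf0 heq
  have hq0 : (algebraMap Kbar (FF (M' * q * q)) (q : Kbar)) ^ e ≠ 0 := by
    rw [a2w_const_zpow]
    exact (map_ne_zero _).mpr (a2w_qe_ne_zero q e)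
  have h1 := congrArg P.ord heq
  rw [Fermat.Agent.S18lib.ord_pow_nat, P.ord_mul (mul_ne_zero hq0 hb) (pow_ne_zero _ hg),
    P.ord_mul hq0 hb, a2w_const_zpow, uk_ord_const, zero_add,
    Fermat.Agent.S18lib.ord_pow_nat] at h1
  obtain ⟨t, ht⟩ := hdiv P
  refine ⟨c1 * t - P.ord g, ?_⟩
  have h2 : P.ord b = (c1 : ℤ) * P.ord f0 - (m : ℤ) * P.ord g := by linarith
  rw [h2, ht]
  ring

/-- `b` is Kummer-new -/
theorem a2w_isKummerNew2 (hg : g ≠ 0)
    (heq : f0 ^ c1 = (algebraMap Kbar (FF (M' * q * q)) (q : Kbar)) ^ e * b * g ^ m)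
    (hnew : IsKummerNew2 M' q m f0) : IsKummerNew2 M' q m b := by
  rw [a2w_const_zpow] at heq
  exact ⟨a2w_isCM_norm (heckeAlphaBar Kbar (M' * q) q)
      (Fermat.Agent.S37lib.hinp_finiteAlong_alpha (M' * q) q) (a2w_qe_ne_zero q e) hg heq hnew.1,
    a2w_isCM_norm (heckeBetaBar Kbar (M' * q) q)
      (Fermat.Agent.S37lib.hinp_finiteAlong_beta (M' * q) q) (a2w_qe_ne_zero q e) hg heq hnew.2⟩

/-- `b` is fixed by the inertia group (by any set of Galois automorphisms fixing `f0`, `g`) -/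
theorem a2w_fixed (hg : g ≠ 0)
    (heq : f0 ^ c1 = (algebraMap Kbar (FF (M' * q * q)) (q : Kbar)) ^ e * b * g ^ m)
    (σ : Kbar ≃ₐ[ℚ] Kbar) (hf0 : galFF (M' * q * q) σ • f0 = f0)
    (hgσ : galFF (M' * q * q) σ • g = g) : galFF (M' * q * q) σ • b = b := by
  rw [a2w_const_zpow] at heq
  have h1 := congrArg (fun x => galFF (M' * q * q) σ • x) heq
  simp only [smul_mul', smul_pow', SemilinearAut.smul_algebraMap] at h1
  rw [hf0, hgσ] at h1
  have hσq : SemilinearAut.baseAut (galFF (M' * q * q) σ) ((q : Kbar) ^ e) = (q : Kbar) ^ e := by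
    show σ ((q : Kbar) ^ e) = (q : Kbar) ^ e
    rw [map_zpow₀, map_natCast]
  rw [hσq, heq] at h1
  have hc0 : algebraMap Kbar (FF (M' * q * q)) ((q : Kbar) ^ e) ≠ 0 :=
    (map_ne_zero _).mpr (a2w_qe_ne_zero q e)
  have h2 := mul_right_cancel₀ (pow_ne_zero m hg) h1
  exact (mul_left_cancel₀ hc0 h2).symm

theorem a2w_isIFixed {A : ValuationSubring Kbar} (hg : g ≠ 0)
    (heq : f0 ^ c1 = (algebraMap Kbar (FF (M' * q * q)) (q : Kbar)) ^ e * b * g ^ m)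
    (hfix : IsIFixed (M' * q * q) A f0) (hgfix : IsIFixed (M' * q * q) A g) :
    IsIFixed (M' * q * q) A b :=
  fun σ hσ => a2w_fixed hg heq σ (hfix σ hσ) (hgfix σ hσ)

/-- **INVERT → CRUX**: all the properties of `b` -/
theorem a2w_props {A : ValuationSubring Kbar} (hf0 : f0 ≠ 0) (hg : g ≠ 0)
    (heq : f0 ^ c1 = (algebraMap Kbar (FF (M' * q * q)) (q : Kbar)) ^ e * b * g ^ m)
    (hdiv : ∀ P : Place Kbar (FF (M' * q * q)), (m : ℤ) ∣ P.ord f0)
    (hnew : IsKummerNew2 M' q m f0)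
    (hfix : IsIFixed (M' * q * q) A f0) (hgfix : IsIFixed (M' * q * q) A g) :
    b ≠ 0 ∧ (∀ P : Place Kbar (FF (M' * q * q)), (m : ℤ) ∣ P.ord b) ∧
      IsKummerNew2 M' q m b ∧ IsIFixed (M' * q * q) A b :=
  ⟨a2w_ne_zero hf0 heq, a2w_ord hf0 hg heq hdiv, a2w_isKummerNew2 hg heq hnew,
    a2w_isIFixed hg heq hfix hgfix⟩

/-- **CRUX → InvK**: `b ^ E = c₀ · s ^ m` gives `f0 ^ (c1 * E) = c · s' ^ m` -/
theorem a2w_conclude {E : ℕ}
    (heq : f0 ^ c1 = (algebraMap Kbar (FF (M' * q * q)) (q : Kbar)) ^ e * b * g ^ m)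
    (h : ∃ (c₀ : Kbar) (s : FF (M' * q * q)),
      b ^ E = algebraMap Kbar (FF (M' * q * q)) c₀ * s ^ m) :
    ∃ (c : Kbar) (s : FF (M' * q * q)),
      f0 ^ (c1 * E) = algebraMap Kbar (FF (M' * q * q)) c * s ^ m := by
  obtain ⟨c₀, s, hs⟩ := h
  refine ⟨((q : Kbar) ^ e) ^ E * c₀, s * g ^ E, ?_⟩
  rw [pow_mul, heq, a2w_const_zpow, mul_pow, mul_pow, hs, map_mul, map_pow, mul_pow,
    ← pow_mul, ← pow_mul, mul_comm m E]
  ring

variable (M' q)

/-- **APPLY2, wiring**: `InvK` from the INVERT block and the CRUX block. -/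
theorem a2w_invK (m c1 E : ℕ) (hm : 0 < m) (A : ValuationSubring Kbar)
    (Good : FF (M' * q * q) → Prop)
    (hinv : ∀ f0 : FF (M' * q * q), f0 ≠ 0 → IsIFixed (M' * q * q) A f0 →
      (∀ P : Place Kbar (FF (M' * q * q)), (m : ℤ) ∣ P.ord f0) → IsKummerNew2 M' q m f0 →
      ∃ (e : ℤ) (b g : FF (M' * q * q)), g ≠ 0 ∧ IsIFixed (M' * q * q) A g ∧ Good b ∧
        f0 ^ c1 = (algebraMap Kbar (FF (M' * q * q)) (q : Kbar)) ^ e * b * g ^ m)
    (hcrux : ∀ b : FF (M' * q * q), b ≠ 0 → IsIFixed (M' * q * q) A b → Good b →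
      (∀ P : Place Kbar (FF (M' * q * q)), (m : ℤ) ∣ P.ord b) → IsKummerNew2 M' q m b →
      ∃ (c₀ : Kbar) (s : FF (M' * q * q)),
        b ^ E = algebraMap Kbar (FF (M' * q * q)) c₀ * s ^ m) :
    InvK M' q m (c1 * E) A := by
  refine invK_of_fixed M' q m (c1 * E) hm A ?_
  intro f0 hf0 hdiv hnew hfix
  obtain ⟨e, b, g, hg, hgfix, hgood, heq⟩ := hinv f0 hf0 hfix hdiv hnew
  obtain ⟨hb, hbdiv, hbnew, hbfix⟩ := a2w_props hf0 hg heq hdiv hnew hfix hgfix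
  exact a2w_conclude heq (hcrux b hb hbfix hgood hbdiv hbnew)

end Concrete

end Fermat.Agent.S36lib

end
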