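/-
Item 83 (S36), TUBE piece P6 (integrality), abstract core (helper17).  No sorry.  Mathlib only.

**Bounded denominators from (EX') and normality.**
`K` a field, `F` a commutative `K`-algebra, `V c` an increasing multiplicative filtration by
finite-dimensional subspaces (`V c = L(c D₁) ∩ F0`), `Bd` a `K`-subalgebra of `F` (the functions
whose expansions have bounded denominators) which is integrally closed in `F`.  If for `c > c₀`
every element of `V c` is the sum of an element of `Bd` and an element of `V (c - 1)`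
(consequence of (EX')), then `V c ⊆ Bd` for every `c`.

Proof: `V c ⊆ Bd + V c₀`; for `z ∈ V c` the powers `z, …, z^(δ+1)` (`δ = dim V c₀`) are linearly
dependent modulo `Bd`, so `z` is integral over `Bd`.
-/
import Mathlib
import Fermat.Agent.S36lib.Speed

set_option autoImplicit false

namespace Fermat.Agent.S36lib

open Polynomial

section

variable {K F : Type*} [Field K] [CommRing F] [Algebra K F]

/-- `V c ⊆ Bd + V c₀` -/
theorem bdd_step_down (V : ℕ → Submodule K F) (hmono : ∀ a b, a ≤ b → V a ≤ V b)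
    (Bd : Subalgebra K F) (c₀ : ℕ)
    (hstep : ∀ c, c₀ < c → ∀ z ∈ V c, ∃ x ∈ Bd, z - x ∈ V (c - 1)) :
    ∀ c, ∀ z ∈ V c, ∃ x ∈ Bd, z - x ∈ V c₀ := by
  intro c
  induction c with
  | zero =>
    intro z hz
    exact ⟨0, Bd.zero_mem, by rw [sub_zero]; exact hmono 0 c₀ (Nat.zero_le _) hz⟩
  | succ c ih =>
    intro z hz
    by_cases hc : c₀ < c + 1
    · obtain ⟨x, hx, hzx⟩ := hstep (c + 1) hc z hz
      rw [Nat.add_sub_cancel] at hzx
      obtain ⟨y, hy, hzy⟩ := ih (z - x) hzx
      refine ⟨x + y, Bd.add_mem hx hy, ?_⟩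
      rwa [← sub_sub]
    · exact ⟨0, Bd.zero_mem, by rw [sub_zero]; exact hmono _ _ (not_lt.mp hc) hz⟩

/-- a nonzero polynomial relation `q(z) ∈ Bd`, `q ∈ K[X]` without constant term, makes `z`
integral over `Bd` -/
theorem bdd_isIntegral_of_relation [Nontrivial F] (Bd : Subalgebra K F) (z : F) (q : K[X]) (hq : q ≠ 0)
    (hq0 : q.coeff 0 = 0) (hz : aeval z q ∈ Bd) : IsIntegral Bd z := by
  classical
  have hdeg : 0 < q.natDegree := by
    by_contra h
    have h0 : q.natDegree = 0 := by omega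
    have := eq_C_of_natDegree_eq_zero h0
    rw [hq0, map_zero] at this
    exact hq this
  set q' : K[X] := q * C (q.leadingCoeff)⁻¹ with hq'
  have hmon : q'.Monic := monic_mul_leadingCoeff_inv hq
  have hdeg' : q'.natDegree = q.natDegree := by
    rw [hq', natDegree_mul_C]
    exact inv_ne_zero (leadingCoeff_ne_zero.mpr hq)
  have hz' : aeval z q' ∈ Bd := by
    rw [hq', map_mul, aeval_C]
    exact Bd.mul_mem hz (Bd.algebraMap_mem _)
  set w : Bd := ⟨aeval z q', hz'⟩ with hw
  refine ⟨q'.map (algebraMap K Bd) - C w, ?_, ?_⟩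
  · have hnt : Nontrivial Bd := by
      refine ⟨⟨0, 1, fun h => ?_⟩⟩
      have h1 : (0 : F) = 1 := congrArg (fun x : Bd => (x : F)) h
      exact zero_ne_one h1
    refine (hmon.map _).sub_of_left (lt_of_le_of_lt degree_C_le ?_)
    rw [degree_eq_natDegree (hmon.map _).ne_zero, hmon.natDegree_map, hdeg']
    exact_mod_cast hdeg
  · rw [eval₂_sub, eval₂_C, eval₂_map]
    have h1 : (algebraMap Bd F).comp (algebraMap K Bd) = algebraMap K F := by
      ext a
      rfl
    rw [h1, ← aeval_def]
    show aeval z q' - (w : F) = 0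
    rw [hw]
    exact sub_self _

/-- **bounded denominators**: see the header. -/
theorem bdd_of_step [Nontrivial F] (V : ℕ → Submodule K F) (hmono : ∀ a b, a ≤ b → V a ≤ V b)
    (hmul : ∀ a b x y, x ∈ V a → y ∈ V b → x * y ∈ V (a + b))
    (Bd : Subalgebra K F) (hnorm : ∀ z : F, IsIntegral Bd z → z ∈ Bd) (c₀ : ℕ)
    (hfin : Module.Finite K (V c₀))
    (hstep : ∀ c, c₀ < c → ∀ z ∈ V c, ∃ x ∈ Bd, z - x ∈ V (c - 1)) :
    ∀ c, ∀ z ∈ V c, z ∈ Bd := by
  classical
  intro c z hz
  apply hnorm
  have hpow : ∀ n : ℕ, z ^ (n + 1) ∈ V ((n + 1) * c) := by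
    intro n
    induction n with
    | zero => simpa using hz
    | succ n ih =>
      have := hmul _ _ _ _ ih hz
      rw [← pow_succ] at this
      have e : (n + 1) * c + c = (n + 1 + 1) * c := by ring
      rwa [e] at this
  have hdown := bdd_step_down V hmono Bd c₀ hstep
  set δ : ℕ := Module.finrank K (V c₀) with hδ
  choose x hx hr using fun n : Fin (δ + 1) => hdown _ _ (hpow n)
  have hdep : ¬ LinearIndependent K
      (fun n : Fin (δ + 1) => (⟨z ^ ((n : ℕ) + 1) - x n, hr n⟩ : V c₀)) := by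
    intro hli
    have h1 := hli.fintype_card_le_finrank
    rw [Fintype.card_fin] at h1
    omega
  obtain ⟨g, hg, i, hi⟩ := Fintype.not_linearIndependent_iff.mp hdep
  have hg' : ∑ n : Fin (δ + 1), g n • (z ^ ((n : ℕ) + 1) - x n) = 0 := by
    have := congrArg (fun v : V c₀ => (v : F)) hg
    simpa using this
  refine bdd_isIntegral_of_relation Bd z (∑ n : Fin (δ + 1), C (g n) * X ^ ((n : ℕ) + 1)) ?_ ?_ ?_
  · intro h0
    have h1 := congrArg (fun p : K[X] => p.coeff ((i : ℕ) + 1)) h0
    simp only [finsetSum_coeff, coeff_C_mul, coeff_X_pow, coeff_zero] at h1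
    rw [Finset.sum_eq_single i] at h1
    · simp at h1
      exact hi h1
    · intro n _ hn
      have : ¬ ((i : ℕ) + 1 = (n : ℕ) + 1) := fun h => hn (Fin.ext (by omega))
      rw [if_neg this, mul_zero]
    · intro h
      exact absurd (Finset.mem_univ i) h
  · simp only [finsetSum_coeff, coeff_C_mul, coeff_X_pow]
    refine Finset.sum_eq_zero fun n _ => ?_
    simp
  · have h1 : aeval z (∑ n : Fin (δ + 1), C (g n) * X ^ ((n : ℕ) + 1))
        = ∑ n : Fin (δ + 1), g n • z ^ ((n : ℕ) + 1) := by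
      rw [map_sum]
      refine Finset.sum_congr rfl fun n _ => ?_
      rw [map_mul, aeval_C, map_pow, aeval_X, Algebra.smul_def]
    have h2 : ∑ n : Fin (δ + 1), g n • z ^ ((n : ℕ) + 1) = ∑ n : Fin (δ + 1), g n • x n := by
      rw [← sub_eq_zero, ← Finset.sum_sub_distrib]
      rw [← hg']
      refine Finset.sum_congr rfl fun n _ => ?_
      rw [smul_sub]
    rw [h1, h2]
    exact Bd.sum_mem fun n _ => Bd.smul_mem (hx n) _

end

end Fermat.Agent.S36lib
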