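/-
Item 83 (S36), block CRUX, piece C-5 (abstract part), helper13.  Complete proofs (std axioms only).

The crux application of `S34lib/Twist.lean` (`tw_principal_of_glued`, helper16) WITHOUT any
gluing data: the filtration is `T a := red (L(a D₁) ∩ O)` itself and `R` is an ARBITRARY
`k`-algebra.  In the application (NOTES/S36_blueprint.md, CRUX) `A` is the DVR `A₀ = A ∩ K₀`,
`R = O/qO` is the NON-REDUCED fibre, and `S : SSRed A₀ π (O/qO) F₀` comes from `SSRedDvr`.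

Setting: `S : SSRed A π R F`, `D₁` effective (the cusp divisor), `f` a unit of `O` with
`div f = D₂ − n₂ D₁` (`D₂ ≥ 0` disjoint from `D₁`).

* `cxaT S D₁ a = red (L(a D₁) ∩ O)`.
* `CxaData S m D₁ D₂ n₂ a₀ f finv`: the two geometric hypotheses, for `a, c ≥ a₀`:
  - `cst`: `r ∈ T a`, `r · f̄^c ∈ T (c n₂)` ⟹ `r` is a constant
           ("no pole at the cusps + regular elsewhere ⟹ constant": H⁰ of the fibre is `k`);
  - `pol`: `g₁ ∈ T (m a)`, `g₂ f̄^{m c} ∈ T (m c n₂)`, `(g₁ − g₂) f̄^c ∈ T (a + c n₂)`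
           ⟹ `g₁ ∈ T a` and `g₂ f̄^c ∈ T (c n₂)`   ((F3) by leading coefficients).
* `cxa_glue_of_le`: `red (L(a D₁ + E) ∩ O) ≤ T a` + Riemann–Roch ⟹ equality (dimension count).
* `cxa_principal_of_glued`: `deg E = 0`, `div u = m E`, `red u = 1`,
  `red (L(a D₁ + E) ∩ O) = T a` for `a ≥ a₁`  ⟹  `E` is principal.
* `cxa_kummer_of_glued`: the same in Kummer form: `u = c · s^m`.
-/
import Mathlib
import Fermat.Agent.S34lib.Twist
import Fermat.Agent.S36lib.Speed

set_option autoImplicit false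

noncomputable section

namespace Fermat.Agent.S36lib

open AlgebraicCurve Fermat.Agent.RRlib Fermat.Agent.S34lib

variable {K F k : Type*} [Field K] [Field F] [Algebra K F] [Field k]
variable {R : Type*} [CommRing R] [Algebra k R]
variable {A : ValuationSubring K} {π : A →+* k}

/-- the reduction of the base family: `T a = red (L(a D₁) ∩ O)` -/
def cxaT (S : SSRed A π R F) (D₁ : Divisor K F) (a : ℕ) : Submodule k R :=
  S.redSp (riemannRochSpace (a • D₁))

theorem cxaT_def (S : SSRed A π R F) (D₁ : Divisor K F) (a : ℕ) :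
    cxaT S D₁ a = S.redSp (riemannRochSpace (a • D₁)) := rfl

theorem cxa_red_mem_T (S : SSRed A π R F) (D₁ : Divisor K F) {a : ℕ} (x : S.O)
    (hx : (x : F) ∈ riemannRochSpace (a • D₁)) : S.red x ∈ cxaT S D₁ a :=
  S.red_mem_redSp x hx

/-- `T` is increasing (for an effective `D₁`) -/
theorem cxaT_mono (S : SSRed A π R F) {D₁ : Divisor K F} (hD : ∀ v, 0 ≤ D₁ v) {a b : ℕ}
    (hab : a ≤ b) : cxaT S D₁ a ≤ cxaT S D₁ b := by
  refine S.redSp_mono (riemannRochSpace_mono ?_)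
  intro v
  have h0 := hD v
  have hab' : (a : ℤ) ≤ b := by exact_mod_cast hab
  simp only [Finsupp.smul_apply, nsmul_eq_mul]
  exact mul_le_mul_of_nonneg_right hab' h0

/-- `T a · T b ⊂ T (a + b)` -/
theorem cxaT_mul (S : SSRed A π R F) (D₁ : Divisor K F) {a b : ℕ} {x y : R}
    (hx : x ∈ cxaT S D₁ a) (hy : y ∈ cxaT S D₁ b) : x * y ∈ cxaT S D₁ (a + b) := by
  obtain ⟨x', hx', rfl⟩ := hx
  obtain ⟨y', hy', rfl⟩ := hy
  refine ⟨x' * y', ?_, map_mul _ _ _⟩
  have h := tw_mul_mem_L hx' hy'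
  rw [← add_smul] at h
  exact h

/-- `1 ∈ T a` (for an effective `D₁`) -/
theorem cxa_one_mem_T (S : SSRed A π R F) {D₁ : Divisor K F} (hD : ∀ v, 0 ≤ D₁ v) (a : ℕ) :
    (1 : R) ∈ cxaT S D₁ a :=
  ⟨1, TwistCrux.one_mem_L hD a, map_one _⟩

/-- The data for the crux without gluing: `div f = D₂ − n₂ D₁`, `f` a unit of `O`, and the two
geometric hypotheses `cst`, `pol` on the filtration `T a = red (L(a D₁) ∩ O)`, for `a, c ≥ a₀`. -/
structure CxaData (S : SSRed A π R F) (m : ℕ) (D₁ D₂ : Divisor K F) (n₂ a₀ : ℕ)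
    (f finv : S.O) : Prop where
  m_pos : 0 < m
  n₂_pos : 0 < n₂
  mk_ne : (m : k) ≠ 0
  unit : f * finv = 1
  D₁_nonneg : ∀ v, 0 ≤ D₁ v
  D₂_nonneg : ∀ v, 0 ≤ D₂ v
  disj : ∀ v, D₁ v = 0 ∨ D₂ v = 0
  ord_f : ∀ v : Place K F, v.ord (f : F) = D₂ v - n₂ * D₁ v
  cst : ∀ (a c : ℕ) (r : R), a₀ ≤ a → a₀ ≤ c → 0 < c → r ∈ cxaT S D₁ a →
    r * S.red f ^ c ∈ cxaT S D₁ (c * n₂) → r ∈ Set.range (algebraMap k R)
  pol : ∀ (a c : ℕ) (g₁ g₂ : R), a₀ ≤ a → a₀ ≤ c → g₁ ∈ cxaT S D₁ (m * a) →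
    g₂ * S.red f ^ (m * c) ∈ cxaT S D₁ (m * c * n₂) →
    (g₁ - g₂) * S.red f ^ c ∈ cxaT S D₁ (a + c * n₂) →
    g₁ ∈ cxaT S D₁ a ∧ g₂ * S.red f ^ c ∈ cxaT S D₁ (c * n₂)

section Crux

variable {S : SSRed A π R F} {m : ℕ} {D₁ D₂ : Divisor K F} {n₂ a₀ : ℕ} {f finv : S.O}

namespace CxaData

theorem coe_unit (hc : CxaData S m D₁ D₂ n₂ a₀ f finv) : (f : F) * (finv : F) = 1 := by
  have h1 : ((f * finv : S.O) : F) = 1 := by rw [hc.unit]; rfl
  simpa using h1

theorem f_ne_zero (hc : CxaData S m D₁ D₂ n₂ a₀ f finv) : (f : F) ≠ 0 :=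
  left_ne_zero_of_mul_eq_one hc.coe_unit

theorem finv_ne_zero (hc : CxaData S m D₁ D₂ n₂ a₀ f finv) : (finv : F) ≠ 0 :=
  right_ne_zero_of_mul_eq_one hc.coe_unit

theorem ord_finv (hc : CxaData S m D₁ D₂ n₂ a₀ f finv) (v : Place K F) :
    v.ord (finv : F) = n₂ * D₁ v - D₂ v := by
  have h : (finv : F) = (f : F)⁻¹ := eq_inv_of_mul_eq_one_right hc.coe_unit
  rw [h, v.ord_inv, hc.ord_f]
  ring

theorem red_unit (hc : CxaData S m D₁ D₂ n₂ a₀ f finv) : S.red f * S.red finv = 1 := by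
  rw [← map_mul, hc.unit, map_one]

/-- `f^c L(c D₂ + E) ⊂ L(c n₂ D₁ + E)` -/
theorem mul_pow_mem (hc : CxaData S m D₁ D₂ n₂ a₀ f finv) {c : ℕ} {E : Divisor K F} {x : F}
    (hx : x ∈ riemannRochSpace (c • D₂ + E)) :
    (f : F) ^ c * x ∈ riemannRochSpace ((c * n₂) • D₁ + E) := by
  by_cases hx0 : x = 0
  · rw [hx0, mul_zero]; exact Submodule.zero_mem _
  rw [tw_mem_L_iff (mul_ne_zero (pow_ne_zero _ hc.f_ne_zero) hx0)]
  intro v
  have h1 := (tw_mem_L_iff hx0).mp hx v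
  rw [v.ord_mul (pow_ne_zero _ hc.f_ne_zero) hx0, tw_ord_pow, hc.ord_f]
  simp only [Finsupp.add_apply, Finsupp.smul_apply, nsmul_eq_mul, Nat.cast_mul] at h1 ⊢
  have e : (c : ℤ) * (D₂ v - n₂ * D₁ v) = c * D₂ v - c * n₂ * D₁ v := by ring
  rw [e]
  linarith

/-- `f^{-c} L(c n₂ D₁ + E) ⊂ L(c D₂ + E)` -/
theorem inv_pow_mul_mem (hc : CxaData S m D₁ D₂ n₂ a₀ f finv) {c : ℕ} {E : Divisor K F}
    {x : F} (hx : x ∈ riemannRochSpace ((c * n₂) • D₁ + E)) :
    (finv : F) ^ c * x ∈ riemannRochSpace (c • D₂ + E) := by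
  by_cases hx0 : x = 0
  · rw [hx0, mul_zero]; exact Submodule.zero_mem _
  rw [tw_mem_L_iff (mul_ne_zero (pow_ne_zero _ hc.finv_ne_zero) hx0)]
  intro v
  have h1 := (tw_mem_L_iff hx0).mp hx v
  rw [v.ord_mul (pow_ne_zero _ hc.finv_ne_zero) hx0, tw_ord_pow, hc.ord_finv]
  simp only [Finsupp.add_apply, Finsupp.smul_apply, nsmul_eq_mul, Nat.cast_mul] at h1 ⊢
  have e : (c : ℤ) * (n₂ * D₁ v - D₂ v) = c * n₂ * D₁ v - c * D₂ v := by ring
  rw [e]
  linarith

/-- `f^c ∈ L(c n₂ D₁)` -/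
theorem pow_mem (hc : CxaData S m D₁ D₂ n₂ a₀ f finv) (c : ℕ) :
    (f : F) ^ c ∈ riemannRochSpace ((c * n₂) • D₁) := by
  have h1 : (1 : F) ∈ riemannRochSpace (c • D₂ + 0) := by
    rw [add_zero]
    exact TwistCrux.one_mem_L hc.D₂_nonneg c
  have := hc.mul_pow_mem h1
  rwa [mul_one, add_zero] at this

/-- `red f ^ c ∈ T (c n₂)` -/
theorem red_pow_mem (hc : CxaData S m D₁ D₂ n₂ a₀ f finv) (c : ℕ) :
    S.red f ^ c ∈ cxaT S D₁ (c * n₂) := by
  have h := cxa_red_mem_T S D₁ (f ^ c) (hc.pow_mem c)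
  rwa [map_pow] at h

end CxaData

/-- the reduction of a finite-dimensional subspace is finite-dimensional -/
theorem cxa_finite_redSp (S : SSRed A π R F) (V : Submodule K F) [Module.Finite K V] :
    Module.Finite k (S.redSp V) := by
  classical
  obtain ⟨n, b, hb, hli⟩ := S.exists_orthonormal V inferInstance
  have hspan : S.redSp V = Submodule.span k (Set.range fun i => S.red (b i)) := by
    apply le_antisymm
    · rintro _ ⟨x, hx, rfl⟩
      exact S.red_mem_span b hli V hb x hx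
    · rw [Submodule.span_le]
      rintro _ ⟨i, rfl⟩
      refine ⟨b i, ?_, rfl⟩
      rw [← hb]
      exact Submodule.subset_span ⟨i, rfl⟩
  rw [hspan]
  exact FiniteDimensional.span_of_finite k (Set.finite_range _)

/-- **Dimension count.**  If `red (L(a D₁ + E) ∩ O) ≤ T a` and `ℓ(a D₁ + E) = ℓ(a D₁)`
(Riemann–Roch, `deg E = 0`, `a` large), then `red (L(a D₁ + E) ∩ O) = T a`. -/
theorem cxa_glue_of_le [RRBase K F] (S : SSRed A π R F) (D₁ E : Divisor K F) (a : ℕ)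
    (hle : S.redSp (riemannRochSpace (a • D₁ + E)) ≤ cxaT S D₁ a)
    (hdim : Module.finrank K (riemannRochSpace (a • D₁ + E)) =
      Module.finrank K (riemannRochSpace (a • D₁))) :
    S.redSp (riemannRochSpace (a • D₁ + E)) = cxaT S D₁ a := by
  have i1 : Module.Finite K (riemannRochSpace (a • D₁ + E)) := finite_riemannRochSpace _
  have i2 : Module.Finite K (riemannRochSpace (a • D₁)) := finite_riemannRochSpace _
  have h1 := S.finrank_redSp (riemannRochSpace (a • D₁ + E))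
  have h2 := S.finrank_redSp (riemannRochSpace (a • D₁))
  have hfin : Module.Finite k (cxaT S D₁ a) := cxa_finite_redSp S _
  exact Submodule.eq_of_le_of_finrank_eq hle (by rw [h1, hdim, cxaT_def, h2])

/-- **CRUX without gluing.**  A degree `0` divisor `E'` with a Kummer function `u`
(`div u = m E'`, `red u = 1`) whose reductions `red (L(a D₁ + E') ∩ O)` coincide with those of the
base family `red (L(a D₁) ∩ O)` is principal. -/
theorem cxa_principal_of_glued [RRBase K F] [Nontrivial R]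
    (hc : CxaData S m D₁ D₂ n₂ a₀ f finv) (E' : Divisor K F) (hE' : Divisor.degree E' = 0)
    (u : S.O) (hu0 : (u : F) ≠ 0) (hu : S.red u = 1)
    (hdiv : ∀ v : Place K F, v.ord (u : F) = m * E' v) (a₁ : ℕ)
    (hglue : ∀ a, a₁ ≤ a → S.redSp (riemannRochSpace (a • D₁ + E')) = cxaT S D₁ a) :
    E' ∈ Divisor.principal (K := K) (F := F) := by
  classical
  -- parameters
  obtain ⟨a, haa₀, haa₁, hapos⟩ : ∃ a : ℕ, a₀ ≤ a ∧ a₁ ≤ a ∧ 0 < a :=
    ⟨a₀ + a₁ + 1, by omega, by omega, by omega⟩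
  have hm := hc.m_pos
  have hn₂ := hc.n₂_pos
  have han : a ≤ a * n₂ := Nat.le_mul_of_pos_right a hn₂
  have hma : a ≤ m * a := Nat.le_mul_of_pos_left a hm
  have hman : m * a ≤ m * a * n₂ := Nat.le_mul_of_pos_right _ hn₂
  have hmapos : 0 < m * a := Nat.mul_pos hm hapos
  have : Module.Finite K (riemannRochSpace (a • D₁ + E')) := finite_riemannRochSpace _
  have : Module.Finite K (riemannRochSpace (a • D₂ + E')) := finite_riemannRochSpace _
  have : Module.Finite K (riemannRochSpace ((m * a) • D₁)) := finite_riemannRochSpace _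
  -- (H1)
  have h1 : (∃ s : S.O, (s : F) ∈ riemannRochSpace (a • D₁ + E') ∧ S.red s = 1) ∧
      ∃ s : S.O, (s : F) ∈ riemannRochSpace (a • D₂ + E') ∧ S.red s = 1 := by
    constructor
    · have h : (1 : R) ∈ S.redSp (riemannRochSpace (a • D₁ + E')) := by
        rw [hglue a haa₁]; exact cxa_one_mem_T S hc.D₁_nonneg a
      exact h
    · have h : S.red (f ^ a) ∈ cxaT S D₁ (a * n₂) :=
        cxa_red_mem_T S D₁ (f ^ a) (hc.pow_mem a)
      rw [← hglue _ (le_trans haa₁ han)] at h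
      obtain ⟨y, hy, hyr⟩ := h
      refine ⟨finv ^ a * y, hc.inv_pow_mul_mem hy, ?_⟩
      rw [map_mul, map_pow, hyr, map_pow, ← mul_pow, mul_comm, hc.red_unit, one_pow]
  -- (H2)
  have h2 : ∀ x₁ x₂ : S.O, (x₁ : F) ∈ riemannRochSpace (a • D₁ + E') →
      (x₂ : F) ∈ riemannRochSpace (a • D₂ + E') → S.red x₁ = S.red x₂ →
      S.red x₁ ∈ Set.range (algebraMap k R) := by
    intro x₁ x₂ hx₁ hx₂ hred
    have hr : S.red x₁ ∈ cxaT S D₁ a := by
      rw [← hglue a haa₁]; exact S.red_mem_redSp _ hx₁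
    have hx : ((f ^ a * x₂ : S.O) : F) ∈ riemannRochSpace ((a * n₂) • D₁ + E') :=
      hc.mul_pow_mem hx₂
    have h := S.red_mem_redSp _ hx
    rw [hglue _ (le_trans haa₁ han), map_mul, map_pow, ← hred, mul_comm (S.red f ^ a)] at h
    exact hc.cst a a _ haa₀ haa₀ hapos hr h
  -- (H3)
  have h3 : (∀ s ∈ riemannRochSpace (a • D₁ + E'),
        ((u : S.O) : F) * s ^ m ∈ riemannRochSpace ((m * a) • D₁)) ∧
      (∀ s ∈ riemannRochSpace (a • D₂ + E'),
        ((u : S.O) : F) * s ^ m ∈ riemannRochSpace ((m * a) • D₂)) ∧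
      (1 : F) ∈ riemannRochSpace ((m * a) • D₁) ∧ (1 : F) ∈ riemannRochSpace ((m * a) • D₂) :=
    ⟨fun s hs => tw_kummer_mul_pow_mem hu0 hdiv hs,
      fun s hs => tw_kummer_mul_pow_mem hu0 hdiv hs,
      TwistCrux.one_mem_L hc.D₁_nonneg _, TwistCrux.one_mem_L hc.D₂_nonneg _⟩
  -- (H4)
  have h4 : ∀ x₁ x₂ : S.O, (x₁ : F) ∈ riemannRochSpace ((m * a) • D₁) →
      (x₂ : F) ∈ riemannRochSpace ((m * a) • D₂) → S.red x₁ = S.red x₂ →
      S.red x₁ ∈ Set.range (algebraMap k R) := by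
    intro x₁ x₂ hx₁ hx₂ hred
    have hr : S.red x₁ ∈ cxaT S D₁ (m * a) := cxa_red_mem_T S D₁ _ hx₁
    have hx : ((f ^ (m * a) * x₂ : S.O) : F) ∈ riemannRochSpace ((m * a * n₂) • D₁) := by
      have hx₂' : (x₂ : F) ∈ riemannRochSpace ((m * a) • D₂ + 0) := by rwa [add_zero]
      have := hc.mul_pow_mem hx₂'
      rwa [add_zero] at this
    have h := cxa_red_mem_T S D₁ _ hx
    rw [map_mul, map_pow, ← hred, mul_comm (S.red f ^ (m * a))] at h
    exact hc.cst (m * a) (m * a) _ (le_trans haa₀ hma) (le_trans haa₀ hma) hmapos hr h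
  -- (H5)
  have h5 : ∀ h₁ h₂ τ : S.O, (h₁ : F) ∈ riemannRochSpace ((m * a) • D₁) →
      (h₂ : F) ∈ riemannRochSpace ((m * a) • D₂) →
      (τ : F) ∈ riemannRochSpace (a • D₁ + E') ⊔ riemannRochSpace (a • D₂ + E') →
      S.red h₁ - S.red h₂ = (m : R) * S.red τ →
      ∃ b₁ b₂ : S.O, (b₁ : F) ∈ riemannRochSpace (a • D₁ + E') ∧
        (b₂ : F) ∈ riemannRochSpace (a • D₂ + E') ∧ S.red τ = S.red b₁ - S.red b₂ := by
    intro h₁ h₂ τ hh₁ hh₂ hτ hrel
    have hmR : ∀ x : R, (m : R) * x = (m : k) • x := fun x => by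
      rw [Algebra.smul_def, map_natCast]
    have hg12 : (m : k)⁻¹ • S.red h₁ - (m : k)⁻¹ • S.red h₂ = S.red τ := by
      rw [← smul_sub, hrel, hmR, smul_smul, inv_mul_cancel₀ hc.mk_ne, one_smul]
    have hr₁ : S.red h₁ ∈ cxaT S D₁ (m * a) := cxa_red_mem_T S D₁ _ hh₁
    have hr₂ : S.red h₂ * S.red f ^ (m * a) ∈ cxaT S D₁ (m * a * n₂) := by
      have hx : ((f ^ (m * a) * h₂ : S.O) : F) ∈ riemannRochSpace ((m * a * n₂) • D₁) := by
        have hx₂' : (h₂ : F) ∈ riemannRochSpace ((m * a) • D₂ + 0) := by rwa [add_zero]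
        have := hc.mul_pow_mem hx₂'
        rwa [add_zero] at this
      have h := cxa_red_mem_T S D₁ _ hx
      rw [map_mul, map_pow, mul_comm (S.red f ^ (m * a))] at h
      exact h
    have hrτ : S.red τ * S.red f ^ a ∈ cxaT S D₁ (a + a * n₂) := by
      obtain ⟨v₁, hv₁, v₂, hv₂, hsum⟩ := Submodule.mem_sup.mp hτ
      have hx : ((f ^ a * τ : S.O) : F) ∈ riemannRochSpace ((a + a * n₂) • D₁ + E') := by
        show (f : F) ^ a * (τ : F) ∈ _
        rw [← hsum, mul_add]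
        refine Submodule.add_mem _ ?_ ?_
        · have h := tw_mul_mem_L (hc.pow_mem a) hv₁
          have e : (a * n₂) • D₁ + (a • D₁ + E') = (a + a * n₂) • D₁ + E' := by
            rw [add_smul]; abel
          rw [e] at h
          exact h
        · have h := hc.mul_pow_mem hv₂
          refine riemannRochSpace_mono ?_ h
          rw [add_smul]
          intro v
          have h0 := hc.D₁_nonneg v
          have ha0 : (0 : ℤ) ≤ a := Int.natCast_nonneg a
          have := mul_nonneg ha0 h0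
          simp only [Finsupp.add_apply, Finsupp.smul_apply, nsmul_eq_mul]
          linarith
      have h := S.red_mem_redSp _ hx
      rw [hglue _ (le_trans haa₁ (Nat.le_add_right _ _)), map_mul, map_pow,
        mul_comm (S.red f ^ a)] at h
      exact h
    have hg₁T : (m : k)⁻¹ • S.red h₁ ∈ cxaT S D₁ (m * a) := (cxaT S D₁ _).smul_mem _ hr₁
    have hg₂T : ((m : k)⁻¹ • S.red h₂) * S.red f ^ (m * a) ∈ cxaT S D₁ (m * a * n₂) := by
      rw [smul_mul_assoc]; exact (cxaT S D₁ _).smul_mem _ hr₂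
    have hdT : ((m : k)⁻¹ • S.red h₁ - (m : k)⁻¹ • S.red h₂) * S.red f ^ a ∈
        cxaT S D₁ (a + a * n₂) := by rw [hg12]; exact hrτ
    obtain ⟨hp₁, hp₂⟩ := hc.pol a a _ _ haa₀ haa₀ hg₁T hg₂T hdT
    rw [← hglue a haa₁] at hp₁
    rw [← hglue (a * n₂) (le_trans haa₁ han)] at hp₂
    obtain ⟨b₁, hb₁, hb₁r⟩ := hp₁
    obtain ⟨y, hy, hyr⟩ := hp₂
    refine ⟨b₁, finv ^ a * y, hb₁, hc.inv_pow_mul_mem hy, ?_⟩
    rw [hb₁r, map_mul, map_pow, hyr, ← hg12]
    have e : S.red finv ^ a * (((m : k)⁻¹ • S.red h₂) * S.red f ^ a) = (m : k)⁻¹ • S.red h₂ := by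
      rw [mul_comm _ (S.red f ^ a), ← mul_assoc, ← mul_pow, mul_comm (S.red finv), hc.red_unit,
        one_pow, one_mul]
    rw [e]
  -- the crux
  have key := S.crux (riemannRochSpace (a • D₁ + E')) (riemannRochSpace (a • D₂ + E'))
    (riemannRochSpace ((m * a) • D₁)) (riemannRochSpace ((m * a) • D₂)) u hu m h1 h2 h3 h4 h5
  obtain ⟨h, hh, hh0⟩ := (Submodule.ne_bot_iff _).mp key
  obtain ⟨hh1, hh2⟩ := Submodule.mem_inf.mp hh
  have hL : h ∈ riemannRochSpace E' := by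
    rw [tw_mem_L_iff hh0] at hh1 hh2 ⊢
    intro v
    have e1 := hh1 v
    have e2 := hh2 v
    simp only [Finsupp.add_apply, Finsupp.smul_apply, nsmul_eq_mul] at e1 e2
    rcases hc.disj v with h0 | h0
    · rw [h0] at e1; simpa using e1
    · rw [h0] at e2; simpa using e2
  have hnonneg : 0 ≤ E' + divOf (K := K) h := (mem_riemannRochSpace_iff_divOf hh0 E').mp hL
  have hzero : E' + divOf (K := K) h = 0 :=
    eq_zero_of_nonneg_of_degree_le hnonneg (by rw [map_add, hE', degree_divOf]; simp)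
  refine ⟨h⁻¹, inv_ne_zero hh0, fun v => ?_⟩
  have hv := DFunLike.congr_fun hzero v
  rw [Finsupp.add_apply, divOf_apply hh0, Finsupp.zero_apply] at hv
  rw [v.ord_inv]
  linarith

/-- **CRUX without gluing, Kummer form.**  If all orders of `u ∈ O` are divisible by `m`,
`red u = 1`, and the reductions of the twisted family `L(a D₁ + E)`, `E = div u / m`, coincide
with those of the base family, then `u` is a constant times an `m`-th power. -/
theorem cxa_kummer_of_glued [RRBase K F] [Nontrivial R]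
    (hc : CxaData S m D₁ D₂ n₂ a₀ f finv) (u : S.O) (hu0 : (u : F) ≠ 0) (hu : S.red u = 1)
    (hdvd : ∀ v : Place K F, (m : ℤ) ∣ v.ord (u : F)) (a₁ : ℕ)
    (hglue : ∀ E : Divisor K F, (∀ v : Place K F, v.ord (u : F) = m * E v) →
      ∀ a, a₁ ≤ a → S.redSp (riemannRochSpace (a • D₁ + E)) = cxaT S D₁ a) :
    ∃ (c : K) (s : F), s ≠ 0 ∧ (u : F) = algebraMap K F c * s ^ m := by
  have hm0 : (m : ℤ) ≠ 0 := by exact_mod_cast hc.m_pos.ne'
  -- the divisor `E = div u / m`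
  let E : Divisor K F := Finsupp.mapRange (fun z : ℤ => z / (m : ℤ)) (by simp)
    (divOf (K := K) (u : F))
  have hEv : ∀ v : Place K F, v.ord (u : F) = m * E v := by
    intro v
    show _ = (m : ℤ) * (Finsupp.mapRange _ _ _) v
    rw [Finsupp.mapRange_apply, divOf_apply hu0, Int.mul_ediv_cancel' (hdvd v)]
  have hmE : m • E = divOf (K := K) (u : F) := by
    ext v
    rw [Finsupp.smul_apply, divOf_apply hu0, hEv v, nsmul_eq_mul]
  have hE : Divisor.degree E = 0 := by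
    have h1 : Divisor.degree (m • E) = 0 := by rw [hmE, degree_divOf]
    rw [map_nsmul, nsmul_eq_mul] at h1
    rcases mul_eq_zero.mp h1 with h | h
    · exact absurd h hm0
    · exact h
  obtain ⟨s, hs0, hs⟩ := cxa_principal_of_glued hc E hE u hu0 hu hEv a₁ (hglue E hEv)
  -- the quotient has trivial divisor
  have hq0 : (u : F) * (s ^ m)⁻¹ ≠ 0 := mul_ne_zero hu0 (inv_ne_zero (pow_ne_zero _ hs0))
  have hord : ∀ v : Place K F, 0 ≤ v.ord ((u : F) * (s ^ m)⁻¹) := by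
    intro v
    rw [v.ord_mul hu0 (inv_ne_zero (pow_ne_zero _ hs0)), v.ord_inv, tw_ord_pow, hEv, ← hs v]
    apply le_of_eq
    ring
  obtain ⟨c, hcq⟩ := RRBase.const_of_forall_ord_nonneg (K := K) _ hord
  refine ⟨c, s, hs0, ?_⟩
  rw [hcq]
  field_simp

end Crux

end Fermat.Agent.S36lib

end
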