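import Mathlib
import Fermat.Agent.S36lib.Speed

/-!
# S36 (Carayol at `q² ∥ M`), abstract piece: gluing lemma for a NON-seminormal reduction ring

`s36_mem_of_pow_mem`: `k` an infinite field, `m` invertible in `k`, `A` a commutative `k`-algebra,
`S ⊆ A` a `k`-subspace, `R ⊆ A` a `k`-subspace with `1 ∈ R` and `r ^ m ∈ S` for all `r ∈ R`.
Then `R ≤ S`.  (Proof: `(1 + t r)^m ∈ S` for all `t : k`, Vandermonde, coefficient of `t`.)

Use (twisted gluing at level `q²`): `S` = the reduction ring localised at the singular points,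
`R = r₀⁻¹ · R(E)` for a class `E` with Kummer function of reduction `1` and `r₀ ∈ R(E)` a unit at
all branches; then `R(E) = r₀ · S` without any knowledge of the conductor of `S` (no sandwich).
-/

set_option autoImplicit false

namespace Fermat.Agent.S36lib

open Polynomial

/-- Vandermonde extraction: if `∑ i ∈ range (n+1), t^i • a i ∈ W` for every `t : k`
(`k` an infinite field), then every `a i` with `i ≤ n` lies in `W`. -/
theorem s36_coeff_mem_of_forall_eval {k V : Type*} [Field k] [Infinite k] [AddCommGroup V]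
    [Module k V] (W : Submodule k V) (n : ℕ) (a : ℕ → V)
    (h : ∀ t : k, ∑ i ∈ Finset.range (n + 1), t ^ i • a i ∈ W) :
    ∀ i ∈ Finset.range (n + 1), a i ∈ W := by
  classical
  intro i hi
  have hgoal : W.mkQ (a i) = 0 := by
    rw [← Module.forall_dual_apply_eq_zero_iff k]
    intro φ
    -- the polynomial with coefficients `φ (a i)`
    set p : k[X] := ∑ j ∈ Finset.range (n + 1), C (φ (W.mkQ (a j))) * X ^ j with hp
    have hev : ∀ t : k, p.eval t = 0 := by
      intro t
      have h1 : W.mkQ (∑ j ∈ Finset.range (n + 1), t ^ j • a j) = 0 :=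
        (Submodule.Quotient.mk_eq_zero W).2 (h t)
      have h2 := congrArg φ h1
      rw [map_zero, map_sum, map_sum] at h2
      rw [hp, Polynomial.eval_finsetSum, ← h2]
      refine Finset.sum_congr rfl fun j _ => ?_
      rw [Polynomial.eval_mul, Polynomial.eval_C, Polynomial.eval_pow, Polynomial.eval_X,
        map_smul, map_smul, smul_eq_mul, mul_comm]
    have hp0 : p = 0 := Polynomial.funext fun t => by rw [hev t, Polynomial.eval_zero]
    have hc : p.coeff i = φ (W.mkQ (a i)) := by
      rw [hp, Polynomial.finsetSum_coeff]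
      rw [Finset.sum_eq_single i]
      · rw [Polynomial.coeff_C_mul, Polynomial.coeff_X_pow, if_pos rfl, mul_one]
      · intro j _ hji
        rw [Polynomial.coeff_C_mul, Polynomial.coeff_X_pow, if_neg (Ne.symm hji), mul_zero]
      · intro hni
        exact absurd hi hni
    rw [← hc, hp0, Polynomial.coeff_zero]
  exact (Submodule.Quotient.mk_eq_zero W).1 hgoal

/-- **Gluing lemma**: a `k`-subspace `R ∋ 1` of a commutative `k`-algebra all of whose `m`-th
powers lie in the `k`-subspace `S` is contained in `S` (`k` infinite, `m ≠ 0` in `k`). -/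
theorem s36_mem_of_pow_mem {k A : Type*} [Field k] [Infinite k] [CommRing A] [Algebra k A]
    (S R : Submodule k A) (m : ℕ) (hm : (m : k) ≠ 0) (h1 : (1 : A) ∈ R)
    (hpow : ∀ r ∈ R, r ^ m ∈ S) : R ≤ S := by
  intro r hr
  have key : ∀ t : k, ∑ i ∈ Finset.range (m + 1), t ^ i • ((m.choose i : k) • r ^ i) ∈ S := by
    intro t
    have h2 : (1 : A) + t • r ∈ R := R.add_mem h1 (R.smul_mem t hr)
    have h3 := hpow _ h2
    rw [add_comm, add_pow] at h3
    have e : ∑ i ∈ Finset.range (m + 1), (t • r) ^ i * 1 ^ (m - i) * ((m.choose i : ℕ) : A)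
        = ∑ i ∈ Finset.range (m + 1), t ^ i • ((m.choose i : k) • r ^ i) := by
      refine Finset.sum_congr rfl fun i _ => ?_
      rw [one_pow, mul_one, _root_.smul_pow, Nat.cast_smul_eq_nsmul k, ← Nat.cast_smul_eq_nsmul A,
        smul_eq_mul, mul_comm ((m.choose i : ℕ) : A), smul_mul_assoc]
    rw [e] at h3
    exact h3
  have hm1 : (1 : ℕ) ∈ Finset.range (m + 1) := by
    rw [Finset.mem_range]
    have : m ≠ 0 := fun h => hm (by rw [h, Nat.cast_zero])
    omega
  have h4 := s36_coeff_mem_of_forall_eval S m (fun i => (m.choose i : k) • r ^ i) key 1 hm1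
  simp only [Nat.choose_one_right, pow_one] at h4
  have h5 := S.smul_mem ((m : k)⁻¹) h4
  rwa [smul_smul, inv_mul_cancel₀ hm, one_smul] at h5

/-- **Gluing lemma, module form**: if moreover `R` is stable under multiplication by `S`
(`S` a subalgebra), then `R = S`. -/
theorem s36_eq_of_pow_mem {k A : Type*} [Field k] [Infinite k] [CommRing A] [Algebra k A]
    (S : Subalgebra k A) (R : Submodule k A) (m : ℕ) (hm : (m : k) ≠ 0) (h1 : (1 : A) ∈ R)
    (hmul : ∀ s ∈ S, ∀ r ∈ R, s * r ∈ R)
    (hpow : ∀ r ∈ R, r ^ m ∈ S) : R = Subalgebra.toSubmodule S := by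
  refine le_antisymm (s36_mem_of_pow_mem (Subalgebra.toSubmodule S) R m hm h1 hpow) ?_
  intro s hs
  have := hmul s hs 1 h1
  rwa [mul_one] at this

end Fermat.Agent.S36lib
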