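/-
Item 83 (S36), piece C-5b CRUX-BRIDGE (helper16).  No sorry in this file.

The crux over the DVR `A0` with the NON-REDUCED reduction ring `R = O/qO` (helper12's
`SSRedDvr.lean`) is applied with the family `T a := red (L(a D₁) ∩ O)` itself (no gluing data).
Its hypotheses `cst`, `pol`, `hglue` (see `S34lib/Twist.lean`, `TwistCrux`, and helper13's
`S36lib/CruxAbs.lean`) are derived here from a POLE-ORDER FILTRATION `P a ⊂ R`
(`P a` = elements whose reduced expansions at the cusps of `D₁` have pole order `≤ a`, with the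
weights of `D₁`):

* `CnrFilt T P a₀`: `T a ≤ P a`, multiplicativity, the lifting property
  `(F3')  T c ⊓ P a ≤ T a` for `a₀ ≤ a ≤ c`, and `(H0)  T c ⊓ P 0 ⊂ k`.
* `CnrExact T P n₂ φ`: `φ ∈ T n₂` has EXACT pole order `n₂` (unit leading coefficients):
  `r φ^c ∈ P (b + c n₂) → r ∈ P b`.
* `cnr_cst`, `cnr_pol`: the hypotheses `cst`, `pol` of the crux.
* `cnr_le_of_pow_mem`: a subspace `R' ∋ 1`, `R' ≤ P a`, with `r^m ∈ T (m a)` for `r ∈ R'`, lies in
  `T a` (helper28's gluing lemma `s36_mem_of_pow_mem` + `(F3')`; NO root closure of `T` is used).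
* `cnr_hglue`: `red (L(a D₁ + E') ∩ O) = red (L(a D₁) ∩ O)` for a degree `0` divisor `E'` with a
  Kummer function `u`, `div u = m E'`, `red u = 1`, as soon as `1 ∈ red (L(a D₁ + E') ∩ O)`.
* `CnrPole.cxaData`: helper13's `CxaData` from the pole filtration.
* `cnr_kummer`: the final Kummer form `u = c · s^m` (via `cxa_kummer_of_glued`).
-/
import Mathlib
import Fermat.Agent.S34lib.Twist
import Fermat.Agent.S36lib.GlueLemma
import Fermat.Agent.S36lib.CruxAbs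

set_option autoImplicit false

noncomputable section

namespace Fermat.Agent.S36lib

open AlgebraicCurve Fermat.Agent.RRlib Fermat.Agent.S34lib

variable {K F k : Type*} [Field K] [Field F] [Algebra K F] [Field k]
variable {R : Type*} [CommRing R] [Algebra k R]
variable {A : ValuationSubring K} {π : A →+* k}

/-! ### The abstract filtration -/

/-- A multiplicative filtration `T` of a `k`-algebra inside a "pole order" filtration `P`, with
the lifting property `(F3')` from `a₀` on and `(H0)`: elements of `T` without poles are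
constants. -/
structure CnrFilt (T P : ℕ → Submodule k R) (a₀ : ℕ) : Prop where
  T_mono : ∀ {a b : ℕ}, a ≤ b → T a ≤ T b
  T_mul : ∀ {a b : ℕ} {x y : R}, x ∈ T a → y ∈ T b → x * y ∈ T (a + b)
  one_mem : (1 : R) ∈ T 0
  P_mono : ∀ {a b : ℕ}, a ≤ b → P a ≤ P b
  P_mul : ∀ {a b : ℕ} {x y : R}, x ∈ P a → y ∈ P b → x * y ∈ P (a + b)
  le_P : ∀ a, T a ≤ P a
  f3 : ∀ a c, a₀ ≤ a → a ≤ c → T c ⊓ P a ≤ T a
  h0 : ∀ (c : ℕ) (r : R), r ∈ T c → r ∈ P 0 → r ∈ Set.range (algebraMap k R)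

/-- `φ ∈ T n₂` has exact pole order `n₂` with respect to `P`. -/
structure CnrExact (T P : ℕ → Submodule k R) (n₂ : ℕ) (φ : R) : Prop where
  mem : φ ∈ T n₂
  shift : ∀ (b c : ℕ) (r : R), r * φ ^ c ∈ P (b + c * n₂) → r ∈ P b

section Abstract

variable {T P : ℕ → Submodule k R} {a₀ n₂ : ℕ} {φ : R}

theorem CnrFilt.algebraMap_mem (hF : CnrFilt T P a₀) (c : k) (a : ℕ) :
    algebraMap k R c ∈ T a := by
  have h : c • (1 : R) ∈ T 0 := (T 0).smul_mem c hF.one_mem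
  rw [Algebra.smul_def, mul_one] at h
  exact hF.T_mono (Nat.zero_le a) h

theorem CnrFilt.pow_mem (hF : CnrFilt T P a₀) {a : ℕ} {x : R} (hx : x ∈ T a) (j : ℕ) :
    x ^ j ∈ T (j * a) := by
  induction j with
  | zero => rw [pow_zero, Nat.zero_mul]; exact hF.one_mem
  | succ j ih =>
    rw [pow_succ, Nat.succ_mul]
    exact hF.T_mul ih hx

theorem CnrExact.pow_mem (hF : CnrFilt T P a₀) (hφ : CnrExact T P n₂ φ) (c : ℕ) :
    φ ^ c ∈ T (c * n₂) := hF.pow_mem hφ.mem c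

/-- `(cst)`: an element `r` of `T a` with `r φ^c ∈ T (c n₂)` is a constant. -/
theorem cnr_cst (hF : CnrFilt T P a₀) (hφ : CnrExact T P n₂ φ) (a c : ℕ) (r : R)
    (hr : r ∈ T a) (hrφ : r * φ ^ c ∈ T (c * n₂)) : r ∈ Set.range (algebraMap k R) := by
  have h1 : r * φ ^ c ∈ P (0 + c * n₂) := by
    rw [Nat.zero_add]; exact hF.le_P _ hrφ
  exact hF.h0 a r hr (hφ.shift 0 c r h1)

/-- `(pol)`: separation of the poles along `D₁` and along the zeros of `φ`. -/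
theorem cnr_pol (hF : CnrFilt T P a₀) (hφ : CnrExact T P n₂ φ) {m : ℕ} (hm : 0 < m)
    (a c : ℕ) (ha : a₀ ≤ a) (hc : a₀ ≤ c * n₂) (g₁ g₂ : R) (hg₁ : g₁ ∈ T (m * a))
    (hg₂ : g₂ * φ ^ (m * c) ∈ T (m * c * n₂))
    (hd : (g₁ - g₂) * φ ^ c ∈ T (a + c * n₂)) :
    g₁ ∈ T a ∧ g₂ * φ ^ c ∈ T (c * n₂) := by
  have hg₂P : g₂ ∈ P 0 := by
    refine hφ.shift 0 (m * c) g₂ ?_
    rw [Nat.zero_add]; exact hF.le_P _ hg₂
  have hdP : g₁ - g₂ ∈ P a := hφ.shift a c _ (hF.le_P _ hd)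
  have hg₁P : g₁ ∈ P a := by
    have := (P a).add_mem hdP (hF.P_mono (Nat.zero_le a) hg₂P)
    rwa [sub_add_cancel] at this
  have hg₁T : g₁ ∈ T a :=
    hF.f3 a (m * a) ha (Nat.le_mul_of_pos_left a hm) ⟨hg₁, hg₁P⟩
  refine ⟨hg₁T, ?_⟩
  have hφc : φ ^ c ∈ T (c * n₂) := hφ.pow_mem hF c
  have h1 : g₂ * φ ^ c ∈ T (a + c * n₂) := by
    have h2 : g₁ * φ ^ c - (g₁ - g₂) * φ ^ c ∈ T (a + c * n₂) :=
      (T _).sub_mem (hF.T_mul hg₁T hφc) hd
    have e : g₁ * φ ^ c - (g₁ - g₂) * φ ^ c = g₂ * φ ^ c := by ring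
    rwa [e] at h2
  have h3 : g₂ * φ ^ c ∈ P (c * n₂) := by
    have := hF.P_mul hg₂P (hF.le_P _ hφc)
    rwa [Nat.zero_add] at this
  exact hF.f3 (c * n₂) (a + c * n₂) hc (Nat.le_add_left _ _) ⟨h1, h3⟩

/-- **Gluing without root closure.**  A subspace `R' ∋ 1` of `P a` all of whose `m`-th powers
lie in `T (m a)` is contained in `T a`. -/
theorem cnr_le_of_pow_mem [Infinite k] (hF : CnrFilt T P a₀) {m : ℕ} (hm : 0 < m)
    (hmk : (m : k) ≠ 0) {a : ℕ} (ha : a₀ ≤ a) (R' : Submodule k R) (h1 : (1 : R) ∈ R')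
    (hP : R' ≤ P a) (hpow : ∀ r ∈ R', r ^ m ∈ T (m * a)) : R' ≤ T a := by
  have h := s36_mem_of_pow_mem (T (m * a)) R' m hmk h1 hpow
  intro r hr
  exact hF.f3 a (m * a) ha (Nat.le_mul_of_pos_left a hm) ⟨h hr, hP hr⟩

end Abstract

/-! ### The instance `T a = red (L(a D₁) ∩ O)` (`cxaT` of `CruxAbs.lean`) -/

section Instance

variable {S : SSRed A π R F} {D₁ D₂ : Divisor K F}

/-- the hypotheses on the pole filtration `P` in the instance `T a = red (L(a D₁) ∩ O)`: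
`le_P`: reductions of `L(a D₁) ∩ O` have pole order `≤ a`;
`f3`: `(F3')`, an element of `red (L(c D₁) ∩ O)` of pole order `≤ a` lifts to `L(a D₁) ∩ O`;
`h0`: `(H0)`, an element of `red (L(c D₁) ∩ O)` without poles is a constant. -/
structure CnrPole (S : SSRed A π R F) (D₁ : Divisor K F) (P : ℕ → Submodule k R) (a₀ : ℕ) :
    Prop where
  D₁_nonneg : ∀ v, 0 ≤ D₁ v
  P_mono : ∀ {a b : ℕ}, a ≤ b → P a ≤ P b
  P_mul : ∀ {a b : ℕ} {x y : R}, x ∈ P a → y ∈ P b → x * y ∈ P (a + b)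
  le_P : ∀ a, S.redSp (riemannRochSpace (a • D₁)) ≤ P a
  f3 : ∀ a c, a₀ ≤ a → a ≤ c →
    S.redSp (riemannRochSpace (c • D₁)) ⊓ P a ≤ S.redSp (riemannRochSpace (a • D₁))
  h0 : ∀ (c : ℕ) (r : R), r ∈ S.redSp (riemannRochSpace (c • D₁)) → r ∈ P 0 →
    r ∈ Set.range (algebraMap k R)

variable {P : ℕ → Submodule k R} {a₀ n₂ m : ℕ} {f finv : S.O}

theorem CnrPole.filt (hP : CnrPole S D₁ P a₀) : CnrFilt (cxaT S D₁) P a₀ where
  T_mono := cxaT_mono S hP.D₁_nonneg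
  T_mul := cxaT_mul S D₁
  one_mem := cxa_one_mem_T S hP.D₁_nonneg 0
  P_mono := hP.P_mono
  P_mul := hP.P_mul
  le_P := hP.le_P
  f3 := hP.f3
  h0 := hP.h0

/-- the divisor data of the auxiliary function `f` (`div f = D₂ − n₂ D₁`, `f` a unit of `O`) -/
structure CnrDiv (S : SSRed A π R F) (m : ℕ) (D₁ D₂ : Divisor K F) (n₂ : ℕ) (f finv : S.O) :
    Prop where
  m_pos : 0 < m
  n₂_pos : 0 < n₂
  mk_ne : (m : k) ≠ 0
  unit : f * finv = 1
  D₂_nonneg : ∀ v, 0 ≤ D₂ v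
  disj : ∀ v, D₁ v = 0 ∨ D₂ v = 0
  ord_f : ∀ v : Place K F, v.ord (f : F) = D₂ v - n₂ * D₁ v

/-- **the data of the crux without gluing** (helper13's `CxaData`) from the pole filtration. -/
theorem CnrPole.cxaData (hP : CnrPole S D₁ P a₀) (hf : CnrDiv S m D₁ D₂ n₂ f finv)
    (hshift : ∀ (b c : ℕ) (r : R), r * S.red f ^ c ∈ P (b + c * n₂) → r ∈ P b) :
    CxaData S m D₁ D₂ n₂ a₀ f finv := by
  have hfL : (f : F) ∈ riemannRochSpace (n₂ • D₁) := by
    have hf0 : (f : F) ≠ 0 := by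
      intro h0
      have h1 : ((f * finv : S.O) : F) = 1 := by rw [hf.unit]; rfl
      rw [Subring.coe_mul, h0, zero_mul] at h1
      exact zero_ne_one h1
    rw [tw_mem_L_iff hf0]
    intro v
    rw [hf.ord_f v]
    have := hf.D₂_nonneg v
    simp only [Finsupp.smul_apply, nsmul_eq_mul]
    linarith
  have hφ : CnrExact (cxaT S D₁) P n₂ (S.red f) :=
    ⟨cxa_red_mem_T S D₁ f hfL, hshift⟩
  exact
    { m_pos := hf.m_pos
      n₂_pos := hf.n₂_pos
      mk_ne := hf.mk_ne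
      unit := hf.unit
      D₁_nonneg := hP.D₁_nonneg
      D₂_nonneg := hf.D₂_nonneg
      disj := hf.disj
      ord_f := hf.ord_f
      cst := fun a c r _ _ _ hr hrφ => cnr_cst hP.filt hφ a c r hr hrφ
      pol := fun a c g₁ g₂ ha hc hg₁ hg₂ hd =>
        cnr_pol hP.filt hφ hf.m_pos a c ha
          (le_trans hc (Nat.le_mul_of_pos_right c hf.n₂_pos)) g₁ g₂ hg₁ hg₂ hd }

/-- **(hglue)**: for a divisor `E'` with Kummer function `u` (`div u = m E'`, `red u = 1`) and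
`ℓ(a D₁ + E') = ℓ(a D₁)`: if `1` lifts to `L(a D₁ + E') ∩ O` and the reductions of
`L(a D₁ + E') ∩ O` have pole order `≤ a`, then `red (L(a D₁ + E') ∩ O) = red (L(a D₁) ∩ O)`. -/
theorem cnr_hglue [RRBase K F] [Infinite k] (hP : CnrPole S D₁ P a₀) (hm : 0 < m)
    (hmk : (m : k) ≠ 0) (E' : Divisor K F) (u : S.O) (hu0 : (u : F) ≠ 0) (hu : S.red u = 1)
    (hdiv : ∀ v : Place K F, v.ord (u : F) = m * E' v) {a : ℕ} (ha : a₀ ≤ a)
    (hdim : Module.finrank K (riemannRochSpace (a • D₁ + E')) =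
      Module.finrank K (riemannRochSpace (a • D₁)))
    (h1 : (1 : R) ∈ S.redSp (riemannRochSpace (a • D₁ + E')))
    (hPE : S.redSp (riemannRochSpace (a • D₁ + E')) ≤ P a) :
    S.redSp (riemannRochSpace (a • D₁ + E')) = cxaT S D₁ a := by
  refine cxa_glue_of_le S D₁ E' a ?_ hdim
  refine cnr_le_of_pow_mem hP.filt hm hmk ha _ h1 hPE ?_
  rintro _ ⟨x, hx, rfl⟩
  refine ⟨u * x ^ m, tw_kummer_mul_pow_mem hu0 hdiv hx, ?_⟩
  rw [map_mul, map_pow, hu, one_mul]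

/-- monotonicity of `1 ∈ red (L(a D₁ + E) ∩ O)` in `a` -/
theorem cnr_one_mem_mono (hD : ∀ v, 0 ≤ D₁ v) (E : Divisor K F) {a b : ℕ} (hab : a ≤ b)
    (h1 : (1 : R) ∈ S.redSp (riemannRochSpace (a • D₁ + E))) :
    (1 : R) ∈ S.redSp (riemannRochSpace (b • D₁ + E)) := by
  refine S.redSp_mono (riemannRochSpace_mono ?_) h1
  intro v
  have h0 := hD v
  have hab' : (a : ℤ) ≤ b := by exact_mod_cast hab
  simp only [Finsupp.add_apply, Finsupp.smul_apply, nsmul_eq_mul]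
  have := mul_le_mul_of_nonneg_right hab' h0
  linarith

/-- **CRUX for a non-reduced fibre, Kummer form.**  `S : SSRed A π R F` (e.g. `R = O/qO` over a
DVR), `P` a pole-order filtration of `R` with `(F3')` and `(H0)`, `f` a unit of `O` with
`div f = D₂ − n₂ D₁` and exact reduced pole order (`hshift`), Riemann–Roch (`hdimE`).
If `u ∈ O` has `red u = 1`, `m ∣ div u`, the reductions of `L(a D₁ + E) ∩ O` (`E = div u / m`)
have pole order `≤ a` and `1` lifts to `L(a₁ D₁ + E) ∩ O`, then `u = c · s^m`. -/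
theorem cnr_kummer [RRBase K F] [Nontrivial R] [Infinite k] (hP : CnrPole S D₁ P a₀)
    (hf : CnrDiv S m D₁ D₂ n₂ f finv)
    (hshift : ∀ (b c : ℕ) (r : R), r * S.red f ^ c ∈ P (b + c * n₂) → r ∈ P b)
    (hdimE : ∀ a, a₀ ≤ a → ∀ E : Divisor K F, Divisor.degree E = 0 →
      Module.finrank K (riemannRochSpace (a • D₁ + E)) =
        Module.finrank K (riemannRochSpace (a • D₁)))
    (u : S.O) (hu0 : (u : F) ≠ 0) (hu : S.red u = 1)
    (hdvd : ∀ v : Place K F, (m : ℤ) ∣ v.ord (u : F)) (a₁ : ℕ)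
    (h1 : ∀ E : Divisor K F, (∀ v : Place K F, v.ord (u : F) = m * E v) →
      (1 : R) ∈ S.redSp (riemannRochSpace (a₁ • D₁ + E)))
    (hPE : ∀ E : Divisor K F, (∀ v : Place K F, v.ord (u : F) = m * E v) →
      ∀ a, S.redSp (riemannRochSpace (a • D₁ + E)) ≤ P a) :
    ∃ (c : K) (s : F), s ≠ 0 ∧ (u : F) = algebraMap K F c * s ^ m := by
  have hm0 : (m : ℤ) ≠ 0 := by exact_mod_cast hf.m_pos.ne'
  refine cxa_kummer_of_glued (hP.cxaData hf hshift) u hu0 hu hdvd (a₀ + a₁) ?_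
  intro E hEv a ha
  have hmE : m • E = divOf (K := K) (u : F) := by
    ext v
    rw [Finsupp.smul_apply, divOf_apply hu0, hEv v, nsmul_eq_mul]
  have hE : Divisor.degree E = 0 := by
    have h1 : Divisor.degree (m • E) = 0 := by rw [hmE, degree_divOf]
    rw [map_nsmul, nsmul_eq_mul] at h1
    rcases mul_eq_zero.mp h1 with h | h
    · exact absurd h hm0
    · exact h
  have haa₀ : a₀ ≤ a := le_trans (Nat.le_add_right _ _) ha
  have haa₁ : a₁ ≤ a := le_trans (Nat.le_add_left _ _) ha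
  exact cnr_hglue hP hf.m_pos hf.mk_ne E u hu0 hu hEv haa₀ (hdimE a haa₀ E hE)
    (cnr_one_mem_mono hP.D₁_nonneg E haa₁ (h1 E hEv)) (hPE E hEv a)

end Instance

end Fermat.Agent.S36lib

end
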