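/-
Item 83 (S36), piece C-5c CRUX-LAURENT (helper16).  No sorry in this file.

The pole-order filtration `P` of `S36lib/CruxNR.lean` from EXPANSIONS: a family of ring
homomorphisms `ε i : R → Λ i ((X))` (`R = O/qO`; in the application `i ∈ {∞, mid, 0}`,
`Λ ∞ = Λ 0 = k`, `Λ mid = A₁/qA₁` non-reduced) with weights `w i`:

  `P a = {r | ∀ i, the coefficients of ε i r vanish in degrees < -(a · w i)}`.

* `ClPole a x`: the Laurent series `x` has pole order `≤ a`; `clPole_mul`;
  `clPole_of_mul_exact`: if `y` has pole order exactly `n` with UNIT leading coefficient, then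
  `x y` of pole order `≤ b + n` forces `x` of pole order `≤ b` (no domain hypothesis on `Λ`).
* `ClExp k R Λ`: the family of expansions; `ClExp.P`, `ClExp.P_mono`, `ClExp.P_mul`,
  `ClExp.shift` (the hypothesis `hshift` of `CnrPole.cxaData` / `cnr_kummer`).
* `ClExp.cnrPole`: `CnrPole S D₁ E.P a₀` from `le_P`, `(F3')`, `(H0)`.
* `cl_kummer`: the crux `u = c · s^m` with all pole-order bookkeeping discharged.
-/
import Mathlib
import Fermat.Agent.S36lib.CruxNR

set_option autoImplicit false

noncomputable section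

namespace Fermat.Agent.S36lib

open AlgebraicCurve Fermat.Agent.RRlib Fermat.Agent.S34lib

/-! ### Pole orders of Laurent series over an arbitrary commutative ring -/

section Pole

variable {Λ : Type*} [CommRing Λ]

/-- the Laurent series `x` has pole order `≤ a`: its coefficients vanish in degrees `< -a` -/
def ClPole (a : ℕ) (x : LaurentSeries Λ) : Prop := ∀ n : ℤ, n < -(a : ℤ) → x.coeff n = 0

theorem clPole_zero (a : ℕ) : ClPole a (0 : LaurentSeries Λ) := fun _ _ => rfl

theorem clPole_mono {a b : ℕ} (h : a ≤ b) {x : LaurentSeries Λ} (hx : ClPole a x) :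
    ClPole b x := by
  intro n hn
  refine hx n (lt_of_lt_of_le hn ?_)
  have : (a : ℤ) ≤ b := by exact_mod_cast h
  linarith

theorem clPole_add {a : ℕ} {x y : LaurentSeries Λ} (hx : ClPole a x) (hy : ClPole a y) :
    ClPole a (x + y) := by
  intro n hn
  rw [HahnSeries.coeff_add, hx n hn, hy n hn, add_zero]

theorem clPole_neg {a : ℕ} {x : LaurentSeries Λ} (hx : ClPole a x) : ClPole a (-x) := by
  intro n hn
  rw [HahnSeries.coeff_neg, hx n hn, neg_zero]

/-- characterisation by the order -/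
theorem clPole_iff {a : ℕ} {x : LaurentSeries Λ} :
    ClPole a x ↔ x = 0 ∨ -(a : ℤ) ≤ x.order := by
  constructor
  · intro h
    by_cases hx : x = 0
    · exact Or.inl hx
    · right
      by_contra hlt
      have h1 := h x.order (not_le.mp hlt)
      exact hx (HahnSeries.coeff_order_eq_zero.mp h1)
  · rintro (rfl | h) n hn
    · rfl
    · exact HahnSeries.coeff_eq_zero_of_lt_order (lt_of_lt_of_le hn h)

theorem clPole_one : ClPole 0 (1 : LaurentSeries Λ) := by
  intro n hn
  have hn0 : n ≠ 0 := by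
    intro h
    rw [h] at hn
    simp at hn
  rw [HahnSeries.coeff_one, if_neg hn0]

/-- pole orders add under multiplication -/
theorem clPole_mul {a b : ℕ} {x y : LaurentSeries Λ} (hx : ClPole a x) (hy : ClPole b y) :
    ClPole (a + b) (x * y) := by
  intro n hn
  rw [HahnSeries.coeff_mul]
  refine Finset.sum_eq_zero fun ij hij => ?_
  rw [Finset.mem_antidiagonal] at hij
  obtain ⟨-, -, hsum⟩ := hij
  by_cases h1 : ij.1 < -(a : ℤ)
  · rw [hx _ h1, zero_mul]
  · have h2 : ij.2 < -(b : ℤ) := by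
      push_cast at hn
      have := not_lt.mp h1
      linarith
    rw [hy _ h2, mul_zero]

/-- **exact pole order with unit leading coefficient cancels**: no hypothesis on `Λ`. -/
theorem clPole_of_mul_exact {b n : ℕ} {x y : LaurentSeries Λ} (hy : ClPole n y)
    (hu : IsUnit (y.coeff (-(n : ℤ)))) (hxy : ClPole (b + n) (x * y)) : ClPole b x := by
  by_contra hx
  rw [clPole_iff, not_or] at hx
  obtain ⟨hx0, hxo⟩ := hx
  have hxo' : x.order < -(b : ℤ) := not_le.mp hxo
  have hlx : x.coeff x.order ≠ 0 := fun h => hx0 (HahnSeries.coeff_order_eq_zero.mp h)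
  have hyne : y.coeff (-(n : ℤ)) ≠ 0 := by
    intro h0
    rw [h0] at hu
    have h01 : (0 : Λ) = 1 := by
      obtain ⟨v, hv⟩ := hu.exists_left_inv
      rw [mul_zero] at hv
      exact hv
    have : x.coeff x.order = 0 := by
      rw [← mul_one (x.coeff x.order), ← h01, mul_zero]
    exact hlx this
  have hyo : y.order = -(n : ℤ) := by
    refine le_antisymm (HahnSeries.order_le_of_coeff_ne_zero hyne) ?_
    by_contra hlt
    have hy0 : y ≠ 0 := fun h => hyne (by rw [h]; rfl)
    exact (fun h => hy0 (HahnSeries.coeff_order_eq_zero.mp h)) (hy y.order (not_le.mp hlt))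
  have hc := HahnSeries.coeff_mul_order_add_order x y
  rw [HahnSeries.leadingCoeff_eq, HahnSeries.leadingCoeff_eq, hyo] at hc
  have hz : (x * y).coeff (x.order + -(n : ℤ)) = 0 := by
    refine hxy _ ?_
    push_cast
    linarith
  rw [hz] at hc
  exact hlx (hu.mul_left_eq_zero.mp hc.symm)

/-- the same for a power -/
theorem clPole_of_mul_pow_exact {n : ℕ} {y : LaurentSeries Λ} (hy : ClPole n y)
    (hu : IsUnit (y.coeff (-(n : ℤ)))) (c : ℕ) :
    ∀ (b : ℕ) (x : LaurentSeries Λ), ClPole (b + c * n) (x * y ^ c) → ClPole b x := by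
  induction c with
  | zero =>
    intro b x h
    rwa [pow_zero, mul_one, Nat.zero_mul, Nat.add_zero] at h
  | succ c ih =>
    intro b x h
    refine ih b x (clPole_of_mul_exact hy hu ?_)
    have e1 : x * y ^ (c + 1) = x * y ^ c * y := by rw [pow_succ, mul_assoc]
    have e2 : b + (c + 1) * n = b + c * n + n := by rw [Nat.succ_mul, Nat.add_assoc]
    rwa [e1, e2] at h

end Pole

/-! ### Families of expansions -/

variable {k R : Type*} [Field k] [CommRing R] [Algebra k R]

/-- A family of expansions of the `k`-algebra `R` (ring homomorphisms into Laurent series over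
commutative rings `Λ i`) with weights `w i`; constants have constant expansions. -/
structure ClExp (k R : Type*) [Field k] [CommRing R] [Algebra k R] {ι : Type*}
    (Λ : ι → Type*) [∀ i, CommRing (Λ i)] where
  /-- the expansions -/
  ε : ∀ i, R →+* LaurentSeries (Λ i)
  /-- the weights -/
  w : ι → ℕ
  const : ∀ (i : ι) (c : k) (n : ℤ), n ≠ 0 → (ε i (algebraMap k R c)).coeff n = 0

namespace ClExp

variable {ι : Type*} {Λ : ι → Type*} [∀ i, CommRing (Λ i)] (E : ClExp k R Λ)

theorem clPole_const (i : ι) (c : k) : ClPole 0 (E.ε i (algebraMap k R c)) := by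
  intro n hn
  refine E.const i c n ?_
  intro h
  rw [h] at hn
  simp at hn

/-- the pole-order filtration of `R` defined by the expansions -/
def P (a : ℕ) : Submodule k R where
  carrier := {r | ∀ i, ClPole (a * E.w i) (E.ε i r)}
  zero_mem' := fun i => by
    show ClPole _ (E.ε i 0)
    rw [map_zero]; exact clPole_zero _
  add_mem' := fun {x y} hx hy i => by
    show ClPole _ (E.ε i (x + y))
    rw [map_add]; exact clPole_add (hx i) (hy i)
  smul_mem' := fun c x hx i => by
    show ClPole _ (E.ε i (c • x))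
    rw [Algebra.smul_def, map_mul]
    have h := clPole_mul (E.clPole_const i c) (hx i)
    rwa [Nat.zero_add] at h

theorem mem_P {a : ℕ} {r : R} : r ∈ E.P a ↔ ∀ i, ClPole (a * E.w i) (E.ε i r) := Iff.rfl

theorem mem_P_iff {a : ℕ} {r : R} :
    r ∈ E.P a ↔ ∀ (i : ι) (n : ℤ), n < -((a * E.w i : ℕ) : ℤ) → (E.ε i r).coeff n = 0 := Iff.rfl

theorem P_mono {a b : ℕ} (h : a ≤ b) : E.P a ≤ E.P b := fun _ hr i =>
  clPole_mono (Nat.mul_le_mul_right _ h) (hr i)

theorem P_mul {a b : ℕ} {x y : R} (hx : x ∈ E.P a) (hy : y ∈ E.P b) : x * y ∈ E.P (a + b) := by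
  intro i
  have h := clPole_mul (hx i) (hy i)
  rw [← map_mul, ← Nat.add_mul] at h
  exact h

theorem algebraMap_mem_P (c : k) (a : ℕ) : algebraMap k R c ∈ E.P a := fun i =>
  clPole_mono (Nat.zero_le _) (E.clPole_const i c)

/-- **shift**: `φ` of exact pole order `n₂ · w i` with unit leading coefficient at every `i`. -/
theorem shift {n₂ : ℕ} {φ : R} (hφ : φ ∈ E.P n₂)
    (hu : ∀ i, IsUnit ((E.ε i φ).coeff (-((n₂ * E.w i : ℕ) : ℤ)))) (b c : ℕ) (r : R)
    (h : r * φ ^ c ∈ E.P (b + c * n₂)) : r ∈ E.P b := by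
  intro i
  have hi := h i
  rw [map_mul, map_pow] at hi
  have e : (b + c * n₂) * E.w i = b * E.w i + c * (n₂ * E.w i) := by ring
  rw [e] at hi
  exact clPole_of_mul_pow_exact (hφ i) (hu i) c _ _ hi

end ClExp

/-! ### The crux with expansions -/

section Crux

variable {K F : Type*} [Field K] [Field F] [Algebra K F]
variable {A : ValuationSubring K} {π : A →+* k}
variable {ι : Type*} {Λ : ι → Type*} [∀ i, CommRing (Λ i)]
variable {S : SSRed A π R F} {D₁ D₂ : Divisor K F} {a₀ n₂ m : ℕ} {f finv : S.O}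

/-- `f ∈ L(n₂ D₁)` -/
theorem cl_mem_L (hf : CnrDiv S m D₁ D₂ n₂ f finv) :
    (f : F) ∈ riemannRochSpace (n₂ • D₁) := by
  have hf0 : (f : F) ≠ 0 := by
    intro h0
    have h1 : ((f * finv : S.O) : F) = 1 := by rw [hf.unit]; rfl
    rw [Subring.coe_mul, h0, zero_mul] at h1
    exact zero_ne_one h1
  rw [tw_mem_L_iff hf0]
  intro v
  rw [hf.ord_f v]
  have := hf.D₂_nonneg v
  simp only [Finsupp.smul_apply, nsmul_eq_mul]
  linarith

/-- `CnrPole` for the filtration of a family of expansions: only `le_P`, `(F3')`, `(H0)` are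
left. -/
theorem ClExp.cnrPole (E : ClExp k R Λ) (hD : ∀ v, 0 ≤ D₁ v)
    (hle : ∀ a, S.redSp (riemannRochSpace (a • D₁)) ≤ E.P a)
    (hf3 : ∀ a c, a₀ ≤ a → a ≤ c →
      S.redSp (riemannRochSpace (c • D₁)) ⊓ E.P a ≤ S.redSp (riemannRochSpace (a • D₁)))
    (hh0 : ∀ (c : ℕ) (r : R), r ∈ S.redSp (riemannRochSpace (c • D₁)) → r ∈ E.P 0 →
      r ∈ Set.range (algebraMap k R)) : CnrPole S D₁ E.P a₀ where
  D₁_nonneg := hD
  P_mono := E.P_mono
  P_mul := E.P_mul
  le_P := hle
  f3 := hf3
  h0 := hh0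

/-- **CRUX for a non-reduced fibre with expansions, Kummer form.** -/
theorem cl_kummer [RRBase K F] [Nontrivial R] [Infinite k] (E : ClExp k R Λ)
    (hP : CnrPole S D₁ E.P a₀) (hf : CnrDiv S m D₁ D₂ n₂ f finv)
    (hfu : ∀ i, IsUnit ((E.ε i (S.red f)).coeff (-((n₂ * E.w i : ℕ) : ℤ))))
    (hdimE : ∀ a, a₀ ≤ a → ∀ E' : Divisor K F, Divisor.degree E' = 0 →
      Module.finrank K (riemannRochSpace (a • D₁ + E')) =
        Module.finrank K (riemannRochSpace (a • D₁)))
    (u : S.O) (hu0 : (u : F) ≠ 0) (hu : S.red u = 1)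
    (hdvd : ∀ v : Place K F, (m : ℤ) ∣ v.ord (u : F)) (a₁ : ℕ)
    (h1 : ∀ E' : Divisor K F, (∀ v : Place K F, v.ord (u : F) = m * E' v) →
      (1 : R) ∈ S.redSp (riemannRochSpace (a₁ • D₁ + E')))
    (hPE : ∀ E' : Divisor K F, (∀ v : Place K F, v.ord (u : F) = m * E' v) →
      ∀ a, S.redSp (riemannRochSpace (a • D₁ + E')) ≤ E.P a) :
    ∃ (c : K) (s : F), s ≠ 0 ∧ (u : F) = algebraMap K F c * s ^ m := by
  have hfP : S.red f ∈ E.P n₂ := hP.le_P n₂ (S.red_mem_redSp f (cl_mem_L hf))
  exact cnr_kummer hP hf (E.shift hfP hfu) hdimE u hu0 hu hdvd a₁ h1 hPE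

end Crux

end Fermat.Agent.S36lib

end
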