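/-
Item 83 (S36), piece C-5d CRUX-F (helper16).  No sorry in this file.

The auxiliary function `f` of the crux (`CnrDiv` of `S36lib/CruxNR.lean`): a unit `x` of the ball
`O` lying in `L(n₂ D₁)` with EXACT pole order `n₂ · D₁ v` at every place of `D₁` has divisor
`D₂ − n₂ D₁`, where `D₂ := (div x)⁺` is its divisor of zeros, effective and disjoint from `D₁`.

* `cfZeros x`: the divisor of zeros of `x`.
* `cf_cnrDiv`: `CnrDiv S m D₁ (cfZeros x) n₂ x xinv`.
* `cf_kummer`: `cl_kummer` with the function `f` given by its exactness properties only.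
-/
import Mathlib
import Fermat.Agent.S36lib.CruxLaurent

set_option autoImplicit false

noncomputable section

namespace Fermat.Agent.S36lib

open AlgebraicCurve Fermat.Agent.RRlib Fermat.Agent.S34lib

variable {K F k : Type*} [Field K] [Field F] [Algebra K F] [Field k]
variable {R : Type*} [CommRing R] [Algebra k R]
variable {A : ValuationSubring K} {π : A →+* k}

/-- the divisor of zeros of a function -/
def cfZeros [RRBase K F] (x : F) : Divisor K F :=
  Finsupp.mapRange (fun z : ℤ => max z 0) (by simp) (divOf (K := K) x)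

theorem cfZeros_apply [RRBase K F] {x : F} (hx : x ≠ 0) (v : Place K F) :
    cfZeros (K := K) x v = max (v.ord x) 0 := by
  show (Finsupp.mapRange _ _ _) v = _
  rw [Finsupp.mapRange_apply, divOf_apply hx]

theorem cfZeros_nonneg [RRBase K F] (x : F) (v : Place K F) : 0 ≤ cfZeros (K := K) x v := by
  show 0 ≤ (Finsupp.mapRange _ _ _) v
  rw [Finsupp.mapRange_apply]
  exact le_max_right _ _

variable {S : SSRed A π R F} {D₁ : Divisor K F} {n₂ m : ℕ}

/-- **the divisor data of an exact function** -/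
theorem cf_cnrDiv [RRBase K F] (hm : 0 < m) (hmk : (m : k) ≠ 0) (hn₂ : 0 < n₂)
    (hD : ∀ v, 0 ≤ D₁ v) (x xinv : S.O) (hunit : x * xinv = 1)
    (hL : (x : F) ∈ riemannRochSpace (n₂ • D₁))
    (hexact : ∀ v : Place K F, D₁ v ≠ 0 → v.ord (x : F) = -(n₂ * D₁ v)) :
    CnrDiv S m D₁ (cfZeros (K := K) (x : F)) n₂ x xinv := by
  have hx0 : (x : F) ≠ 0 := by
    intro h0
    have h1 : ((x * xinv : S.O) : F) = 1 := by rw [hunit]; rfl
    rw [Subring.coe_mul, h0, zero_mul] at h1
    exact zero_ne_one h1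
  have hn₂' : (0 : ℤ) < n₂ := by exact_mod_cast hn₂
  have hord : ∀ v : Place K F, D₁ v = 0 → 0 ≤ v.ord (x : F) := by
    intro v hv
    have h := (tw_mem_L_iff hx0).mp hL v
    simp only [Finsupp.smul_apply, nsmul_eq_mul, hv, mul_zero, neg_zero] at h
    exact h
  have hneg : ∀ v : Place K F, D₁ v ≠ 0 → v.ord (x : F) < 0 := by
    intro v hv
    rw [hexact v hv]
    have h1 : 0 < D₁ v := lt_of_le_of_ne (hD v) (Ne.symm hv)
    have := mul_pos hn₂' h1
    linarith
  refine
    { m_pos := hm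
      n₂_pos := hn₂
      mk_ne := hmk
      unit := hunit
      D₂_nonneg := cfZeros_nonneg _
      disj := fun v => ?_
      ord_f := fun v => ?_ }
  · by_cases hv : D₁ v = 0
    · exact Or.inl hv
    · right
      rw [cfZeros_apply hx0]
      exact max_eq_right (le_of_lt (hneg v hv))
  · rw [cfZeros_apply hx0]
    by_cases hv : D₁ v = 0
    · rw [hv, mul_zero, sub_zero, max_eq_left (hord v hv)]
    · rw [max_eq_right (le_of_lt (hneg v hv)), hexact v hv]
      ring

variable {ι : Type*} {Λ : ι → Type*} [∀ i, CommRing (Λ i)] {a₀ : ℕ}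

/-- **CRUX for a non-reduced fibre with expansions, Kummer form**, with the auxiliary function
given by its exactness properties. -/
theorem cf_kummer [RRBase K F] [Nontrivial R] [Infinite k] (E : ClExp k R Λ)
    (hP : CnrPole S D₁ E.P a₀) (hm : 0 < m) (hmk : (m : k) ≠ 0) (hn₂ : 0 < n₂)
    (x xinv : S.O) (hunit : x * xinv = 1)
    (hL : (x : F) ∈ riemannRochSpace (n₂ • D₁))
    (hexact : ∀ v : Place K F, D₁ v ≠ 0 → v.ord (x : F) = -(n₂ * D₁ v))
    (hxu : ∀ i, IsUnit ((E.ε i (S.red x)).coeff (-((n₂ * E.w i : ℕ) : ℤ))))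
    (hdimE : ∀ a, a₀ ≤ a → ∀ E' : Divisor K F, Divisor.degree E' = 0 →
      Module.finrank K (riemannRochSpace (a • D₁ + E')) =
        Module.finrank K (riemannRochSpace (a • D₁)))
    (u : S.O) (hu0 : (u : F) ≠ 0) (hu : S.red u = 1)
    (hdvd : ∀ v : Place K F, (m : ℤ) ∣ v.ord (u : F)) (a₁ : ℕ)
    (h1 : ∀ E' : Divisor K F, (∀ v : Place K F, v.ord (u : F) = m * E' v) →
      (1 : R) ∈ S.redSp (riemannRochSpace (a₁ • D₁ + E')))
    (hPE : ∀ E' : Divisor K F, (∀ v : Place K F, v.ord (u : F) = m * E' v) →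
      ∀ a, S.redSp (riemannRochSpace (a • D₁ + E')) ≤ E.P a) :
    ∃ (c : K) (s : F), s ≠ 0 ∧ (u : F) = algebraMap K F c * s ^ m :=
  cl_kummer E hP (cf_cnrDiv hm hmk hn₂ hP.D₁_nonneg x xinv hunit hL hexact) hxu hdimE u hu0 hu
    hdvd a₁ h1 hPE

end Fermat.Agent.S36lib

end
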