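/-
Item 83 (S36), piece C-6a CRUX-BC (helper16).  No sorry in this file.

The crux `cf_kummer` (`S36lib/CruxF.lean`) over the BASE CHANGE `BC.toSSRed` (helper3,
`S36lib/SSRedBC.lean`) of a semistable reduction datum `S₀` over `(K₀, A₀, F₀)` (in the
application the `DvrBall` over `A0 = A ∩ K0`, `R = O0/qO0`) to `(K, A, F) = (ℚ̄, A, FF M)`,
with ALL hypotheses stated at the `K₀`-level:

* `V₀ a ⊂ F₀`: a `K₀`-form of `L(a D₁)` (`L(a D₁) = K · V₀ a`), with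
  `hle`: `red₀ (V₀ a ∩ O₀) ≤ P a`, `hf3` = `(F3')`, `hh0` = `(H0)`;
* `x ∈ O₀` a unit with exact pole order `n₂ · D₁ v` along `D₁` and unit leading coefficients;
* `u ∈ O₀` with `red₀ u = 1`, `m ∣ div u`; `W₀ a ⊂ F₀` a `K₀`-form of `L(a D₁ + E')`,
  `E' = div u / m`, with `1 ∈ red₀ (W₀ a₁ ∩ O₀)` and `red₀ (W₀ a ∩ O₀) ≤ P a`.

Conclusion: `u = c · s^m` in `F`.
-/
import Mathlib
import Fermat.Agent.S36lib.CruxF
import Fermat.Agent.S36lib.SSRedBC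

set_option autoImplicit false

noncomputable section

namespace Fermat.Agent.S36lib

open AlgebraicCurve Fermat.Agent.RRlib Fermat.Agent.S34lib

variable {K₀ K F₀ F k : Type*} [Field K₀] [Field K] [Field F₀] [Field F] [Field k]
  [Algebra K₀ F₀] [Algebra K F]
variable {R : Type*} [CommRing R] [Algebra k R]
variable {A₀ : ValuationSubring K₀} {π₀ : A₀ →+* k}
variable {A : ValuationSubring K} {π : A →+* k} {S₀ : SSRed A₀ π₀ R F₀}

/-- the image in the base-changed ball of an element of `O₀` -/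
def BCData.up (BC : BCData S₀ A π F) (x : S₀.O) : BC.toSSRed.O :=
  ⟨BC.ιF ((x : S₀.O) : F₀), BC.ιF_mem_ball x⟩

theorem BCData.coe_up (BC : BCData S₀ A π F) (x : S₀.O) :
    ((BC.up x : BC.toSSRed.O) : F) = BC.ιF ((x : S₀.O) : F₀) := rfl

theorem BCData.red_up (BC : BCData S₀ A π F) (x : S₀.O) :
    BC.toSSRed.red (BC.up x) = S₀.red x := BC.red_ιF x

theorem BCData.up_mul (BC : BCData S₀ A π F) (x y : S₀.O) :
    BC.up (x * y) = BC.up x * BC.up y :=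
  Subtype.ext (map_mul BC.ιF _ _)

theorem BCData.up_one (BC : BCData S₀ A π F) : BC.up (1 : S₀.O) = 1 :=
  Subtype.ext (map_one BC.ιF)

variable {ι : Type*} {Λ : ι → Type*} [∀ i, CommRing (Λ i)]

/-- `CnrPole` over the base change from its `K₀`-form -/
theorem cbc_cnrPole (BC : BCData S₀ A π F) (E : ClExp k R Λ) (D₁ : Divisor K F)
    (hD : ∀ v, 0 ≤ D₁ v) (a₀ : ℕ) (V₀ : ℕ → Submodule K₀ F₀)
    (hV₀fin : ∀ a, Module.Finite K₀ (V₀ a))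
    (hV₀ : ∀ a, riemannRochSpace (a • D₁) = Submodule.span K (BC.ιF '' (V₀ a : Set F₀)))
    (hle : ∀ a, S₀.redSp (V₀ a) ≤ E.P a)
    (hf3 : ∀ a c, a₀ ≤ a → a ≤ c → S₀.redSp (V₀ c) ⊓ E.P a ≤ S₀.redSp (V₀ a))
    (hh0 : ∀ (c : ℕ) (r : R), r ∈ S₀.redSp (V₀ c) → r ∈ E.P 0 →
      r ∈ Set.range (algebraMap k R)) :
    CnrPole BC.toSSRed D₁ E.P a₀ := by
  have key : ∀ a, BC.toSSRed.redSp (riemannRochSpace (a • D₁)) = S₀.redSp (V₀ a) :=
    fun a => BC.redSp_span (V₀ a) (hV₀fin a) _ (hV₀ a)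
  refine E.cnrPole hD ?_ ?_ ?_
  · intro a
    rw [key]
    exact hle a
  · intro a c ha hac
    rw [key, key]
    exact hf3 a c ha hac
  · intro c r hr
    rw [key] at hr
    exact hh0 c r hr

/-- **CRUX over a base change, Kummer form**, all hypotheses at the `K₀`-level. -/
theorem cbc_kummer [RRBase K F] [Nontrivial R] [Infinite k] (BC : BCData S₀ A π F)
    (E : ClExp k R Λ) (D₁ : Divisor K F) (hD : ∀ v, 0 ≤ D₁ v) (a₀ : ℕ)
    (V₀ : ℕ → Submodule K₀ F₀) (hV₀fin : ∀ a, Module.Finite K₀ (V₀ a))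
    (hV₀ : ∀ a, riemannRochSpace (a • D₁) = Submodule.span K (BC.ιF '' (V₀ a : Set F₀)))
    (hle : ∀ a, S₀.redSp (V₀ a) ≤ E.P a)
    (hf3 : ∀ a c, a₀ ≤ a → a ≤ c → S₀.redSp (V₀ c) ⊓ E.P a ≤ S₀.redSp (V₀ a))
    (hh0 : ∀ (c : ℕ) (r : R), r ∈ S₀.redSp (V₀ c) → r ∈ E.P 0 →
      r ∈ Set.range (algebraMap k R))
    {m n₂ : ℕ} (hm : 0 < m) (hmk : (m : k) ≠ 0) (hn₂ : 0 < n₂)
    (x xinv : S₀.O) (hunit : x * xinv = 1)
    (hxL : BC.ιF ((x : S₀.O) : F₀) ∈ riemannRochSpace (n₂ • D₁))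
    (hexact : ∀ v : Place K F, D₁ v ≠ 0 → v.ord (BC.ιF ((x : S₀.O) : F₀)) = -(n₂ * D₁ v))
    (hxu : ∀ i, IsUnit ((E.ε i (S₀.red x)).coeff (-((n₂ * E.w i : ℕ) : ℤ))))
    (hdimE : ∀ a, a₀ ≤ a → ∀ E' : Divisor K F, Divisor.degree E' = 0 →
      Module.finrank K (riemannRochSpace (a • D₁ + E')) =
        Module.finrank K (riemannRochSpace (a • D₁)))
    (u : S₀.O) (hu0 : ((u : S₀.O) : F₀) ≠ 0) (hu : S₀.red u = 1)
    (hdvd : ∀ v : Place K F, (m : ℤ) ∣ v.ord (BC.ιF ((u : S₀.O) : F₀))) (a₁ : ℕ)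
    (W₀ : ℕ → Submodule K₀ F₀) (hW₀fin : ∀ a, Module.Finite K₀ (W₀ a))
    (hW₀ : ∀ E' : Divisor K F, (∀ v : Place K F, v.ord (BC.ιF ((u : S₀.O) : F₀)) = m * E' v) →
      ∀ a, riemannRochSpace (a • D₁ + E') = Submodule.span K (BC.ιF '' (W₀ a : Set F₀)))
    (h1 : (1 : R) ∈ S₀.redSp (W₀ a₁))
    (hPE : ∀ a, S₀.redSp (W₀ a) ≤ E.P a) :
    ∃ (c : K) (s : F), s ≠ 0 ∧ BC.ιF ((u : S₀.O) : F₀) = algebraMap K F c * s ^ m := by
  have hP := cbc_cnrPole BC E D₁ hD a₀ V₀ hV₀fin hV₀ hle hf3 hh0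
  have hunit' : BC.up x * BC.up xinv = 1 := by rw [← BC.up_mul, hunit, BC.up_one]
  have hxu' : ∀ i, IsUnit ((E.ε i (BC.toSSRed.red (BC.up x))).coeff
      (-((n₂ * E.w i : ℕ) : ℤ))) := fun i => by rw [BC.red_up]; exact hxu i
  have hu0' : ((BC.up u : BC.toSSRed.O) : F) ≠ 0 := by
    rw [BC.coe_up]
    exact (map_ne_zero BC.ιF).mpr hu0
  have hu' : BC.toSSRed.red (BC.up u) = 1 := by rw [BC.red_up, hu]
  have key : ∀ E' : Divisor K F,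
      (∀ v : Place K F, v.ord ((BC.up u : BC.toSSRed.O) : F) = m * E' v) → ∀ a,
      BC.toSSRed.redSp (riemannRochSpace (a • D₁ + E')) = S₀.redSp (W₀ a) :=
    fun E' hE' a => BC.redSp_span (W₀ a) (hW₀fin a) _ (hW₀ E' hE' a)
  exact cf_kummer E hP hm hmk hn₂ (BC.up x) (BC.up xinv) hunit' hxL hexact hxu' hdimE
    (BC.up u) hu0' hu' hdvd a₁
    (fun E' hE' => by rw [key E' hE']; exact h1)
    (fun E' hE' a => by rw [key E' hE']; exact hPE a)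

end Fermat.Agent.S36lib

end
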