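/-
Item 83 (S36), piece C-5e CRUX-EXP (helper16).  No sorry in this file.

Constructor of the family of REDUCED EXPANSIONS `E : ClExp k (O ⧸ ϖ O) Λ` (`CruxLaurent.lean`) on
the reduction ring of a `DvrBall` (`SSRedDvr.lean`) from

* ring homomorphisms ("expansions") `Ẽ i : F →+* LaurentSeries (L i)`, `L i` a field,
* valuation subrings `V i ⊂ L i` with `Ẽ i x` integral (coefficients in `V i`) for `x ∈ O`,
* coefficient reductions `ρ i : V i →+* Λ i` killing the expansion of `ϖ`
  (in the application `L i = ℚ̄`, `V i = A`, `ρ ∞ = ρ 0 = residue : A → k` and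
  `ρ mid : A → A ⧸ qA`, the NON-REDUCED coefficient ring of the middle cusps).

* `cxLift`: `O →+* LaurentSeries V`;  `cxRedO`: `O →+* LaurentSeries Λ`, coefficientwise;
* `cxRed`: `O ⧸ ϖ O →+* LaurentSeries Λ`;  `cxRed_red_coeff`;
* `clExpOfCoeff`: the family `E`;  `clExpOfCoeff_mem_P`: `red x ∈ E.P a` iff the coefficients of
  `Ẽ i x` in degrees `< -(a · w i)` are killed by `ρ i`.
-/
import Mathlib
import Fermat.Agent.S36lib.CruxLaurent
import Fermat.Agent.S36lib.SSRedDvr
import Fermat.Agent.GoodRed.Bounded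

set_option autoImplicit false
set_option linter.style.haveILetI false

noncomputable section

namespace Fermat.Agent.S36lib

open ModularCurve Fermat.Agent.GoodRed Fermat.Agent.S34lib

variable {K F : Type*} [Field K] [Field F] [Algebra K F] {A : ValuationSubring K}

section One

variable (D : DvrBall A F) {L : Type*} [Field L] (V : ValuationSubring L)
  {Λ : Type*} [CommRing Λ] (Ex : F →+* LaurentSeries L) (ρ : V →+* Λ)
  (hint : ∀ x : F, x ∈ D.O → ∀ n : ℤ, (Ex x).coeff n ∈ V)

/-- the expansion of the ball with coefficients in `V` -/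
def cxLift : D.O →+* LaurentSeries V where
  toFun x := liftSeries V (Ex x) (hint x x.2)
  map_zero' := by
    apply coeffMap_valSubtype_injective V
    rw [coeffMap_liftSeries, map_zero]
    exact map_zero Ex
  map_one' := by
    apply coeffMap_valSubtype_injective V
    rw [coeffMap_liftSeries, map_one]
    exact map_one Ex
  map_add' x y := by
    apply coeffMap_valSubtype_injective V
    rw [coeffMap_liftSeries, map_add, coeffMap_liftSeries, coeffMap_liftSeries]
    exact map_add Ex _ _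
  map_mul' x y := by
    apply coeffMap_valSubtype_injective V
    rw [coeffMap_liftSeries, map_mul, coeffMap_liftSeries, coeffMap_liftSeries]
    exact map_mul Ex _ _

theorem cxLift_coeff (x : D.O) (n : ℤ) :
    ((cxLift D V Ex hint x).coeff n : L) = (Ex x).coeff n := rfl

/-- the coefficientwise reduction of the expansion of the ball -/
def cxRedO : D.O →+* LaurentSeries Λ := (coeffMap ρ).comp (cxLift D V Ex hint)

theorem cxRedO_coeff (x : D.O) (n : ℤ) :
    (cxRedO D V Ex ρ hint x).coeff n = ρ ⟨(Ex x).coeff n, hint x x.2 n⟩ := rfl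

/-- the reduced expansion on `O ⧸ ϖ O` -/
def cxRed (hϖ : cxRedO D V Ex ρ hint D.ϖO = 0) : D.RedRing →+* LaurentSeries Λ :=
  Ideal.Quotient.lift _ (cxRedO D V Ex ρ hint) (by
    intro x hx
    rw [Ideal.mem_span_singleton'] at hx
    obtain ⟨z, rfl⟩ := hx
    rw [map_mul, hϖ, mul_zero])

theorem cxRed_red (hϖ : cxRedO D V Ex ρ hint D.ϖO = 0) (x : D.O) :
    cxRed D V Ex ρ hint hϖ (D.red x) = cxRedO D V Ex ρ hint x :=
  Ideal.Quotient.lift_mk _ _ _

theorem cxRed_red_coeff (hϖ : cxRedO D V Ex ρ hint D.ϖO = 0) (x : D.O) (n : ℤ) :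
    (cxRed D V Ex ρ hint hϖ (D.red x)).coeff n = ρ ⟨(Ex x).coeff n, hint x x.2 n⟩ := by
  rw [cxRed_red]
  rfl

/-- the expansion of `ϖ` is killed as soon as expansions of constants are constant and `ρ`
kills the constant coefficient -/
theorem cxRedO_ϖ (hconst : ∀ (a : A) (n : ℤ), n ≠ 0 → (Ex (algebraMap K F (a : K))).coeff n = 0)
    (hρ : ρ ⟨(Ex (algebraMap K F (D.ϖ : K))).coeff 0,
      hint _ (D.algebraMap_mem D.ϖ) 0⟩ = 0) :
    cxRedO D V Ex ρ hint D.ϖO = 0 := by
  ext n
  rw [cxRedO_coeff, HahnSeries.coeff_zero]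
  by_cases hn : n = 0
  · subst hn
    exact hρ
  · have h0 : (⟨(Ex ((D.ϖO : D.O) : F)).coeff n, hint _ (D.ϖO).2 n⟩ : V) = 0 :=
      Subtype.ext (hconst D.ϖ n hn)
    rw [h0, map_zero]

end One

/-! ### The family -/

section Family

variable (D : DvrBall A F) {k : Type*} [Field k] (π : A →+* k) (hπ : Function.Surjective π)
variable {ι : Type*} {L : ι → Type*} [∀ i, Field (L i)] (V : ∀ i, ValuationSubring (L i))
  {Λ : ι → Type*} [∀ i, CommRing (Λ i)] (Ex : ∀ i, F →+* LaurentSeries (L i))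
  (ρ : ∀ i, V i →+* Λ i) (w : ι → ℕ)
  (hint : ∀ (i : ι) (x : F), x ∈ D.O → ∀ n : ℤ, (Ex i x).coeff n ∈ V i)
  (hconst : ∀ (i : ι) (a : A) (n : ℤ), n ≠ 0 → (Ex i (algebraMap K F (a : K))).coeff n = 0)
  (hρ : ∀ i, ρ i ⟨(Ex i (algebraMap K F (D.ϖ : K))).coeff 0,
      hint i _ (D.algebraMap_mem D.ϖ) 0⟩ = 0)

/-- **the family of reduced expansions** of `O ⧸ ϖ O` -/
def clExpOfCoeff : (letI := D.algebraRed π hπ; ClExp k D.RedRing Λ) :=
  letI := D.algebraRed π hπ
  { ε := fun i => cxRed D (V i) (Ex i) (ρ i) (hint i)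
      (cxRedO_ϖ D (V i) (Ex i) (ρ i) (hint i) (hconst i) (hρ i))
    w := w
    const := fun i c n hn => by
      obtain ⟨a, rfl⟩ := hπ c
      have h1 : algebraMap k D.RedRing (π a) = D.red (D.incl a) := D.resHom_π π hπ a
      rw [h1, cxRed_red_coeff]
      have h0 : (⟨(Ex i ((D.incl a : D.O) : F)).coeff n, hint i _ (D.incl a).2 n⟩ : V i) = 0 :=
        Subtype.ext (hconst i a n hn)
      rw [h0, map_zero] }

theorem clExpOfCoeff_w :
    letI := D.algebraRed π hπ
    (clExpOfCoeff D π hπ V Ex ρ w hint hconst hρ).w = w := rfl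

theorem clExpOfCoeff_ε_red (i : ι) (x : D.O) (n : ℤ) :
    letI := D.algebraRed π hπ
    ((clExpOfCoeff D π hπ V Ex ρ w hint hconst hρ).ε i (D.red x)).coeff n =
      ρ i ⟨(Ex i x).coeff n, hint i x x.2 n⟩ :=
  cxRed_red_coeff D (V i) (Ex i) (ρ i) (hint i)
    (cxRedO_ϖ D (V i) (Ex i) (ρ i) (hint i) (hconst i) (hρ i)) x n

/-- membership in the pole filtration, in terms of the expansions -/
theorem clExpOfCoeff_mem_P (a : ℕ) (x : D.O) :
    letI := D.algebraRed π hπ
    D.red x ∈ (clExpOfCoeff D π hπ V Ex ρ w hint hconst hρ).P a ↔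
      ∀ (i : ι) (n : ℤ), n < -((a * w i : ℕ) : ℤ) →
        ρ i ⟨(Ex i x).coeff n, hint i x x.2 n⟩ = 0 := by
  letI := D.algebraRed π hπ
  rw [ClExp.mem_P_iff]
  refine forall_congr' fun i => forall_congr' fun n => ?_
  rw [clExpOfCoeff_ε_red]
  rfl

/-- unit leading coefficient, in terms of the expansions -/
theorem clExpOfCoeff_isUnit (i : ι) (x : D.O) (n : ℤ)
    (hu : IsUnit (ρ i ⟨(Ex i x).coeff n, hint i x x.2 n⟩)) :
    letI := D.algebraRed π hπ
    IsUnit (((clExpOfCoeff D π hπ V Ex ρ w hint hconst hρ).ε i (D.red x)).coeff n) := by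
  letI := D.algebraRed π hπ
  rw [clExpOfCoeff_ε_red]
  exact hu

/-- **`le_P` / `hPE` from the expansions**: if the expansions of the integral elements of a
subspace `W` have pole order `≤ a · w i`, then `red (W ∩ O) ≤ P a`. -/
theorem clExpOfCoeff_redSp_le [IsPrincipalIdealRing A] (a : ℕ) (W : Submodule K F)
    (hW : ∀ x ∈ W, x ∈ D.O → ∀ (i : ι) (n : ℤ), n < -((a * w i : ℕ) : ℤ) →
      (Ex i x).coeff n = 0) :
    letI := D.algebraRed π hπ
    (D.toSSRed π hπ).redSp W ≤ (clExpOfCoeff D π hπ V Ex ρ w hint hconst hρ).P a := by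
  letI := D.algebraRed π hπ
  rintro _ ⟨x, hx, rfl⟩
  have key : ∀ y : D.O, (y : F) ∈ W →
      D.red y ∈ (clExpOfCoeff D π hπ V Ex ρ w hint hconst hρ).P a := by
    intro y hy
    rw [clExpOfCoeff_mem_P]
    intro i n hn
    have h0 : (⟨(Ex i y).coeff n, hint i y y.2 n⟩ : V i) = 0 :=
      Subtype.ext (hW y hy y.2 i n hn)
    rw [h0, map_zero]
  exact key x hx

end Family

end Fermat.Agent.S36lib

end
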