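/-
Item 83 (S36), piece C-5f CRUX-EXPRED (helper16).  No sorry in this file.

FIX-1b form of `clExpOfCoeff` (`CruxExp.lean`): the family of reduced expansions
`E : ClExp k (O ⧸ ϖ O) Λ` on the reduction ring of a `DvrBall` from ARBITRARY ring homomorphisms
`ρ i : O →+* LaurentSeries (Λ i)` (in the application helper12's reduction by fractions
`tsBallRed`, `TubeSeries.lean`) which kill `ϖ` and send the constants of `A` to constants.

* `clExpOfRed`, `clExpOfRed_w`, `clExpOfRed_ε_red : E.ε i (red x) = ρ i x`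
  (= the hypothesis `hε` of `s36_tube_le_P`, `s36_tube_coeff`, `s36_tube_family`),
* `clExpOfRed_mem_P`.
-/
import Mathlib
import Fermat.Agent.S36lib.CruxLaurent
import Fermat.Agent.S36lib.SSRedDvr

set_option autoImplicit false
set_option linter.style.haveILetI false

noncomputable section

namespace Fermat.Agent.S36lib

open Fermat.Agent.S34lib

variable {K F : Type*} [Field K] [Field F] [Algebra K F] {A : ValuationSubring K}

section One

variable (D : DvrBall A F) {Λ : Type*} [CommRing Λ] (ρ : D.O →+* LaurentSeries Λ)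

/-- the reduced expansion on `O ⧸ ϖ O` induced by a ring hom `ρ` on `O` killing `ϖ` -/
def cxrRed (hϖ : ρ D.ϖO = 0) : D.RedRing →+* LaurentSeries Λ :=
  Ideal.Quotient.lift _ ρ (by
    intro x hx
    rw [Ideal.mem_span_singleton'] at hx
    obtain ⟨z, rfl⟩ := hx
    rw [map_mul, hϖ, mul_zero])

theorem cxrRed_red (hϖ : ρ D.ϖO = 0) (x : D.O) : cxrRed D ρ hϖ (D.red x) = ρ x :=
  Ideal.Quotient.lift_mk _ _ _

end One

section Family

variable (D : DvrBall A F) {k : Type*} [Field k] (π : A →+* k) (hπ : Function.Surjective π)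
variable {ι : Type*} {Λ : ι → Type*} [∀ i, CommRing (Λ i)]
  (ρ : ∀ i, D.O →+* LaurentSeries (Λ i)) (w : ι → ℕ)
  (hϖ : ∀ i, ρ i D.ϖO = 0)
  (hconst : ∀ (i : ι) (a : A) (n : ℤ), n ≠ 0 → (ρ i (D.incl a)).coeff n = 0)

/-- **the family of reduced expansions** of `O ⧸ ϖ O` from ring homs on `O` -/
def clExpOfRed : (letI := D.algebraRed π hπ; ClExp k D.RedRing Λ) :=
  letI := D.algebraRed π hπ
  { ε := fun i => cxrRed D (ρ i) (hϖ i)
    w := w
    const := fun i c n hn => by
      obtain ⟨a, rfl⟩ := hπ c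
      have h1 : algebraMap k D.RedRing (π a) = D.red (D.incl a) := D.resHom_π π hπ a
      rw [h1, cxrRed_red]
      exact hconst i a n hn }

theorem clExpOfRed_w :
    letI := D.algebraRed π hπ
    (clExpOfRed D π hπ ρ w hϖ hconst).w = w := rfl

theorem clExpOfRed_ε_red (i : ι) (x : D.O) :
    letI := D.algebraRed π hπ
    (clExpOfRed D π hπ ρ w hϖ hconst).ε i (D.red x) = ρ i x :=
  cxrRed_red D (ρ i) (hϖ i) x

/-- the same for the reduction map of `D.toSSRed` -/
theorem clExpOfRed_ε_toSSRed [IsPrincipalIdealRing A] (i : ι) (x : D.O) :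
    letI := D.algebraRed π hπ
    (clExpOfRed D π hπ ρ w hϖ hconst).ε i ((D.toSSRed π hπ).red x) = ρ i x :=
  cxrRed_red D (ρ i) (hϖ i) x

/-- membership in the pole filtration -/
theorem clExpOfRed_mem_P (a : ℕ) (x : D.O) :
    letI := D.algebraRed π hπ
    D.red x ∈ (clExpOfRed D π hπ ρ w hϖ hconst).P a ↔ ∀ i, ClPole (a * w i) (ρ i x) := by
  letI := D.algebraRed π hπ
  rw [ClExp.mem_P]
  refine forall_congr' fun i => ?_
  rw [clExpOfRed_ε_red]
  rfl

end Family

end Fermat.Agent.S36lib

end
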