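/-
Item 83 (S36), piece C-9 CRUX-FAM (helper16).  No sorry in this file.

**THE concrete family of expansions** at the cusps of level `M' q²` over `∞'`, for the tube
wiring of helper12 (`TubeWire.lean`: `clExpOfTube`, `tbw_hle`, `tbw_hxu`, `tbw_hPE_a2`):

* index type `CfmCusp = {inf, mid, zero}`;
* coefficient fields `cfmK1 i = K0, K0(ζ), K0`; coefficient rings `cfmA1 i = A ∩ cfmK1 i`
  (helper8's `vdiscRing`), discrete valuation rings with uniformisers `cfmVarpi i = q, ζ − 1, q`;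
* `cfmInc i = ta1Iota : (cfmA1 i)[[X]] →+* Kbar((X))` (helper15's `TubeA1.lean`);
* expansions `cfmEx i : F0(M' q²) →+* Kbar((X))`, the restrictions of `ecInf`, `ecMid ζ`, `ecZero`
  (helper17's `ExpCalc.lean`);
* reduced coefficient rings `cfmLam i = cfmA1 i ⧸ (q)` and `cfmPi i : cfmA1 i →+* cfmLam i`;
* `cfmPhi i : A0 →+* cfmA1 i`.

Proved here: `cfm_isDVR`, `cfmInc_injective`, `cfm_hfrac`, `cfm_hK`, `cfm_hEc`, `cfm_hφϖ`,
`cfm_irreducible`.
-/
import Mathlib
import Fermat.Agent.S36lib.TubeA1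
import Fermat.Agent.S36lib.SetupK0

set_option autoImplicit false
set_option linter.unusedSectionVars false
set_option linter.style.haveILetI false

noncomputable section

namespace Fermat.Agent.S36lib

open ModularCurve HahnSeries AlgebraicCurve
open Fermat.Agent.GoodRed Fermat.Agent.S24lib Fermat.Agent.S34lib Fermat.Agent.S37lib

/-- the three kinds of cusps of level `M' q²` over `∞'` -/
inductive CfmCusp : Type
  | inf
  | mid
  | zero
  deriving DecidableEq

instance : Fintype CfmCusp :=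
  ⟨{CfmCusp.inf, CfmCusp.mid, CfmCusp.zero}, fun x => by cases x <;> simp⟩

variable (A : ValuationSubring Kbar) (M' q : ℕ) [NeZero M'] [NeZero q] (hq : q.Prime)
  (hqM : ¬ q ∣ M') (ζ : Kbarˣ) (hζ : IsPrimitiveRoot (ζ : Kbar) q)

/-- the coefficient fields `K0`, `K0(ζ)`, `K0` -/
def cfmK1 : CfmCusp → Subfield Kbar
  | .inf => (k0Field A).toSubfield
  | .mid => vdiscK1 A (ζ : Kbar)
  | .zero => (k0Field A).toSubfield

/-- `K0 ⊂ cfmK1 i` -/
theorem cfm_k0_le (i : CfmCusp) (c : Kbar) (hc : c ∈ k0Field A) : c ∈ cfmK1 A ζ i := by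
  cases i
  · exact hc
  · exact k0_le_vdiscK1 A (ζ : Kbar) c hc
  · exact hc

/-- the coefficient rings `A ∩ K0`, `A ∩ K0(ζ)`, `A ∩ K0` -/
abbrev cfmA1 (i : CfmCusp) : Type := ↥(vdiscRing A (cfmK1 A ζ i))

/-- `(cfmA1 i)[[X]] →+* Kbar((X))` -/
def cfmInc (i : CfmCusp) : PowerSeries (cfmA1 A ζ i) →+* LaurentSeries Kbar :=
  ta1Iota A (cfmK1 A ζ i)

theorem cfmInc_injective (i : CfmCusp) : Function.Injective (cfmInc A ζ i) :=
  ta1Iota_injective A (cfmK1 A ζ i)

/-- the expansions of `FF (M' q²)` at `∞`, `mid_ζ`, `0` -/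
def cfmEc : CfmCusp → (FF (M' * q * q) →+* LaurentSeries Kbar)
  | .inf => ecInf M' q
  | .mid => ecMid M' q hq hqM ζ hζ
  | .zero => ecZero M' q hq hqM

/-- the expansions of `F0(M' q²)` -/
def cfmEx (i : CfmCusp) : f0Field A (M' * q * q) →+* LaurentSeries Kbar :=
  (cfmEc M' q hq hqM ζ hζ i).comp (algebraMap (f0Field A (M' * q * q)) (FF (M' * q * q)))

theorem cfmEx_apply (i : CfmCusp) (x : f0Field A (M' * q * q)) :
    cfmEx A M' q hq hqM ζ hζ i x = cfmEc M' q hq hqM ζ hζ i (x : FF (M' * q * q)) := rfl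

/-- the expansions of constants are constant -/
theorem cfmEc_C (i : CfmCusp) (c : Kbar) :
    cfmEc M' q hq hqM ζ hζ i (algebraMap Kbar (FF (M' * q * q)) c) = HahnSeries.C c := by
  cases i
  · exact ta1EInf_C (M' * q * q) c
  · exact ta1_ecMid_C M' q hq hqM ζ hζ c
  · show ecZero M' q hq hqM (algebraMap Kbar (FF (M' * q * q)) c) = _
    rw [ecZero_apply, AlgEquiv.commutes]
    exact ta1EInf_C (M' * q * q) c

/-- the reduced coefficient rings `cfmA1 i ⧸ (q)` -/
abbrev cfmLam (i : CfmCusp) : Type := cfmA1 A ζ i ⧸ Ideal.span {((q : ℕ) : cfmA1 A ζ i)}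

/-- the reduction of the coefficients -/
def cfmPi (i : CfmCusp) : cfmA1 A ζ i →+* cfmLam A q ζ i := Ideal.Quotient.mk _

theorem cfmPi_q (i : CfmCusp) : cfmPi A q ζ i ((q : ℕ) : cfmA1 A ζ i) = 0 :=
  Ideal.Quotient.eq_zero_iff_mem.mpr (Ideal.mem_span_singleton_self _)

/-- `A0 → cfmA1 i` -/
def cfmPhi (i : CfmCusp) : k0Val A →+* cfmA1 A ζ i where
  toFun x := ⟨((x : k0Field A) : Kbar), cfm_k0_le A ζ i _ (x : k0Field A).2, x.2⟩
  map_one' := rfl
  map_mul' _ _ := rfl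
  map_zero' := rfl
  map_add' _ _ := rfl

theorem cfmPhi_coe (i : CfmCusp) (x : k0Val A) :
    ((cfmPhi A ζ i x : cfmA1 A ζ i) : Kbar) = ((x : k0Field A) : Kbar) := rfl

theorem cfmPhi_q (i : CfmCusp) : cfmPhi A ζ i (q : k0Val A) = ((q : ℕ) : cfmA1 A ζ i) := by
  apply Subtype.ext
  rw [cfmPhi_coe, k0Val_coe_natCast]
  simp

/-- `hφϖ` of `clExpOfTube` -/
theorem cfm_hφϖ (i : CfmCusp) : cfmPi A q ζ i (cfmPhi A ζ i (q : k0Val A)) = 0 := by
  rw [cfmPhi_q, cfmPi_q]

/-- `hEc` of `clExpOfTube`: the expansions of the constants of `A0` -/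
theorem cfm_hEc (i : CfmCusp) (a : k0Val A) :
    cfmEx A M' q hq hqM ζ hζ i
        (algebraMap (k0Field A) (f0Field A (M' * q * q)) (a : k0Field A)) =
      cfmInc A ζ i (PowerSeries.C (cfmPhi A ζ i a)) := by
  have h1 : ((algebraMap (k0Field A) (f0Field A (M' * q * q)) (a : k0Field A) :
      f0Field A (M' * q * q)) : FF (M' * q * q)) =
      algebraMap Kbar (FF (M' * q * q)) ((a : k0Field A) : Kbar) := rfl
  rw [cfmEx_apply, h1, cfmEc_C, cfmInc, ta1Iota_C]
  rfl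

section DVR

variable (hA : A.LiesOverPrime q)

include hq hζ hA in
/-- the coefficient rings are discrete valuation rings -/
theorem cfm_isDVR (i : CfmCusp) : IsDiscreteValuationRing (cfmA1 A ζ i) := by
  cases i
  · exact ta1_isDVR_k0 A q hq hA
  · exact ta1_isDVR_zeta A q hq ζ hζ hA
  · exact ta1_isDVR_k0 A q hq hA

/-- the uniformisers `q`, `ζ − 1`, `q` -/
def cfmVarpi : ∀ i : CfmCusp, cfmA1 A ζ i
  | .inf => ta1Pi (vdisc_k0 A q hq hA)
  | .mid => ta1Pi (vdisc_k0_zeta A hq hA hζ)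
  | .zero => ta1Pi (vdisc_k0 A q hq hA)

theorem cfm_irreducible (i : CfmCusp) : Irreducible (cfmVarpi A q hq ζ hζ hA i) := by
  cases i
  · exact ta1_irreducible (vdisc_k0 A q hq hA)
  · exact ta1_irreducible (vdisc_k0_zeta A hq hA hζ)
  · exact ta1_irreducible (vdisc_k0 A q hq hA)

/-- **`hfrac`**: the expansions of `F0(M' q²)` are fractions of power series over `cfmA1 i` -/
theorem cfm_hfrac (i : CfmCusp) (g : f0Field A (M' * q * q)) :
    ∃ a b : PowerSeries (cfmA1 A ζ i), b ≠ 0 ∧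
      cfmEx A M' q hq hqM ζ hζ i g * cfmInc A ζ i b = cfmInc A ζ i a := by
  cases i
  · exact ta1_hfrac_inf A (M' * q * q) g.2
  · exact ta1_hfrac_mid A M' q hq hqM ζ hζ g.2
  · exact ta1_hfrac_zero A M' q hq hqM g.2

/-- **`hK`**: the constants of `K0` have denominators `ϖ ^ n` -/
theorem cfm_hK (i : CfmCusp) (c : k0Field A) :
    ∃ (a : PowerSeries (cfmA1 A ζ i)) (n : ℕ),
      cfmEx A M' q hq hqM ζ hζ i (algebraMap (k0Field A) (f0Field A (M' * q * q)) c) *
        cfmInc A ζ i (PowerSeries.C (cfmVarpi A q hq ζ hζ hA i) ^ n) = cfmInc A ζ i a := by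
  cases i
  · exact ta1_hK_inf A hq hA (M' * q * q) c.2
  · exact ta1_hK_mid A M' q hq hqM ζ hζ hA (k0_le_vdiscK1 A (ζ : Kbar) _ c.2)
  · exact ta1_hK_zero A M' q hq hqM hA c.2

end DVR

end Fermat.Agent.S36lib

end
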