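/-
Item 83 (S36), piece C-9b CRUX-FAM, residue maps (helper16).  Complete proofs.

For THE family of `CruxFam.lean`: the residue maps
`cfmTheta i : cfmLam i = cfmA1 i ⧸ (q) →+* k = A ⧸ m_A` with
`cfmTheta i (cfmPi i c) = residue A c` and `cfmTheta i (cfmPi i (cfmPhi i a)) = k0Res A a`
(the input `θ_i` of helper13's `H0Conc`), and `IsMidExp` for the middle expansion `ecMid`.
-/
import Mathlib
import Fermat.Agent.S36lib.CruxFam
import Fermat.Agent.S36lib.VMid

set_option autoImplicit false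
set_option linter.unusedSectionVars false
set_option linter.style.haveILetI false

noncomputable section

namespace Fermat.Agent.S36lib

open ModularCurve HahnSeries AlgebraicCurve
open Fermat.Agent.GoodRed Fermat.Agent.S24lib Fermat.Agent.S34lib Fermat.Agent.S37lib

variable (A : ValuationSubring Kbar) (M' q : ℕ) [NeZero M'] [NeZero q] (hq : q.Prime)
  (hqM : ¬ q ∣ M') (ζ : Kbarˣ) (hζ : IsPrimitiveRoot (ζ : Kbar) q)

/-- the inclusion `cfmA1 i = A ∩ cfmK1 i → A` -/
def cfmToA (i : CfmCusp) : cfmA1 A ζ i →+* A where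
  toFun x := ⟨(x : Kbar), x.2.2⟩
  map_one' := rfl
  map_mul' _ _ := rfl
  map_zero' := rfl
  map_add' _ _ := rfl

theorem cfmToA_coe (i : CfmCusp) (x : cfmA1 A ζ i) : ((cfmToA A ζ i x : A) : Kbar) = (x : Kbar) :=
  rfl

theorem cfmToA_injective (i : CfmCusp) : Function.Injective (cfmToA A ζ i) := by
  intro x y h
  apply Subtype.ext
  exact congrArg (fun t : A => (t : Kbar)) h

theorem cfmToA_phi (i : CfmCusp) (a : k0Val A) :
    cfmToA A ζ i (cfmPhi A ζ i a) = k0ValIncl A a := rfl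

section Theta

variable (hA : A.LiesOverPrime q)

include hA in
/-- **the residue map** `θ_i : Λ_i = cfmA1 i ⧸ (q) →+* k` -/
def cfmTheta (i : CfmCusp) : cfmLam A q ζ i →+* IsLocalRing.ResidueField A :=
  Ideal.Quotient.lift _ ((IsLocalRing.residue A).comp (cfmToA A ζ i)) (by
    intro x hx
    rw [Ideal.mem_span_singleton] at hx
    obtain ⟨d, rfl⟩ := hx
    rw [map_mul]
    have h0 : (IsLocalRing.residue A).comp (cfmToA A ζ i) ((q : ℕ) : cfmA1 A ζ i) = 0 := by
      rw [RingHom.comp_apply, IsLocalRing.residue_eq_zero_iff, map_natCast,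
        ← ValuationSubring.coe_mem_nonunits_iff]
      have e : (((q : ℕ) : A) : Kbar) = ((q : ℕ) : Kbar) := map_natCast A.subtype q
      rw [e]
      exact hA
    rw [h0, zero_mul])

theorem cfmTheta_pi (i : CfmCusp) (c : cfmA1 A ζ i) :
    cfmTheta A q ζ hA i (cfmPi A q ζ i c) = IsLocalRing.residue A (cfmToA A ζ i c) :=
  Ideal.Quotient.lift_mk _ _ _

theorem cfmTheta_comp_pi (i : CfmCusp) :
    (cfmTheta A q ζ hA i).comp (cfmPi A q ζ i) = (IsLocalRing.residue A).comp (cfmToA A ζ i) :=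
  RingHom.ext fun c => cfmTheta_pi A q ζ hA i c

theorem cfmTheta_pi_phi (i : CfmCusp) (a : k0Val A) :
    cfmTheta A q ζ hA i (cfmPi A q ζ i (cfmPhi A ζ i a)) = k0Res A a := by
  rw [cfmTheta_pi, cfmToA_phi, k0Res_apply]

/-- `θ_i (π_i c) = 0` iff `c` is a nonunit of `A` -/
theorem cfmTheta_pi_eq_zero_iff (i : CfmCusp) (c : cfmA1 A ζ i) :
    cfmTheta A q ζ hA i (cfmPi A q ζ i c) = 0 ↔ A.valuation (c : Kbar) < 1 := by
  rw [cfmTheta_pi, IsLocalRing.residue_eq_zero_iff, ← ValuationSubring.coe_mem_nonunits_iff,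
    cfmToA_coe, ValuationSubring.mem_nonunits_iff]

theorem cfmTheta_surjective_of (i : CfmCusp)
    (h : ∀ a : A, ∃ c : cfmA1 A ζ i, IsLocalRing.residue A (cfmToA A ζ i c) =
      IsLocalRing.residue A a) :
    Function.Surjective (cfmTheta A q ζ hA i) := by
  intro y
  obtain ⟨a, rfl⟩ := IsLocalRing.residue_surjective (R := A) y
  obtain ⟨c, hc⟩ := h a
  exact ⟨cfmPi A q ζ i c, by rw [cfmTheta_pi, hc]⟩

end Theta

/-- **`ecMid` is a middle expansion** -/
theorem cfm_isMidExp : IsMidExp M' q ζ (ecMid M' q hq hqM ζ hζ) :=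
  ⟨fun a => ecMid_algebraMap M' q hq hqM ζ hζ a, fun Y => ecMid_alpha M' q hq hqM ζ hζ Y,
    fun Y' => (Classical.choose_spec (midExp_exists M' q hq hqM ζ hζ)).2.2 Y'⟩

end Fermat.Agent.S36lib

end
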