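/-
Item 83 (S36), piece F3 of the CRUX family `CruxFam.lean` (helper15).
No incomplete proof in this file.

For the reduced coefficient rings `Λ i = cfmA1 i ⧸ (q)` of helper16's family:
* `cfp_nontrivial` : `Nontrivial (cfmLam A q ζ i)`;
* `cfp_hπ` : `IsNilpotent (cfmPi A q ζ i (cfmVarpi A q hq ζ hζ hA i))`
  (`ϖ = q`: `π ϖ = 0`; `ϖ = ζ - 1`: `ϖ ^ (q - 1) ∈ (q)`);
* `cfp_isUnit_natCast` : `IsUnit ((m : ℕ) : cfmLam A q ζ i)` for `q ∤ m`;
* `cfp_pi_eq_zero_iff` : `cfmPi i x = 0 ↔ q ∣ x`;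
  `cfp_pi_phi_eq_zero_iff` : `cfmPi i (cfmPhi i a) = 0 ↔ q ∣ a` in `A0` (the residue field
  `k = A0 / q` embeds into `Λ i`).
Generic versions over `VdDisc A K1 ϖ`: `cfp_gen_*`.
-/
import Mathlib
import Fermat.Agent.S36lib.CruxFam

set_option autoImplicit false
set_option linter.unusedSectionVars false
set_option linter.unusedVariables false
set_option linter.style.haveILetI false

noncomputable section

namespace Fermat.Agent.S36lib

open ModularCurve HahnSeries AlgebraicCurve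
open Fermat.Agent.GoodRed Fermat.Agent.S24lib Fermat.Agent.S34lib Fermat.Agent.S37lib

section Generic

variable {K : Type*} [Field K] {A : ValuationSubring K} {K1 : Subfield K} {ϖ : K}

theorem cfp_natCast_coe (n : ℕ) : (((n : ℕ) : vdiscRing A K1) : K) = (n : K) := by
  simp

/-- a natural number of value `< 1` is not a unit of `A₁`: the quotient is nontrivial -/
theorem cfp_gen_nontrivial (q : ℕ) (hv : A.valuation (q : K) < 1) :
    Nontrivial (vdiscRing A K1 ⧸ Ideal.span {((q : ℕ) : vdiscRing A K1)}) := by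
  rw [Ideal.Quotient.nontrivial_iff, Ne, Ideal.span_singleton_eq_top, ta1_isUnit_iff,
    cfp_natCast_coe]
  exact ne_of_lt hv

/-- divisibility in `A₁` by a nonzero element, in terms of the valuation -/
theorem cfp_gen_dvd_of_val_le {x y : vdiscRing A K1} (hx : (x : K) ≠ 0)
    (h : A.valuation (y : K) ≤ A.valuation (x : K)) : x ∣ y := by
  have hmem : (y : K) * (x : K)⁻¹ ∈ vdiscRing A K1 := by
    rw [mem_vdiscRing_iff]
    refine ⟨K1.mul_mem y.2.1 (K1.inv_mem x.2.1), ?_⟩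
    rw [← A.valuation_le_one_iff, map_mul, map_inv₀]
    have hv0 : A.valuation (x : K) ≠ 0 := by rwa [Ne, map_eq_zero]
    calc A.valuation (y : K) * (A.valuation (x : K))⁻¹
        ≤ A.valuation (x : K) * (A.valuation (x : K))⁻¹ := mul_le_mul_left h _
      _ = 1 := mul_inv_cancel₀ hv0
  refine ⟨⟨(y : K) * (x : K)⁻¹, hmem⟩, Subtype.ext ?_⟩
  show (y : K) = (x : K) * ((y : K) * (x : K)⁻¹)
  field_simp

/-- the image of `ϖ` in `A₁ ⧸ (q)` is nilpotent as soon as `v ϖ ^ e ≤ v q` -/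
theorem cfp_gen_isNilpotent (hd : VdDisc A K1 ϖ) (q : ℕ) (hq0 : (q : K) ≠ 0) (e : ℕ)
    (he : A.valuation ϖ ^ e ≤ A.valuation (q : K)) :
    IsNilpotent (Ideal.Quotient.mk (Ideal.span {((q : ℕ) : vdiscRing A K1)}) (ta1Pi hd)) := by
  refine ⟨e, ?_⟩
  rw [← map_pow, Ideal.Quotient.eq_zero_iff_mem, Ideal.mem_span_singleton]
  apply cfp_gen_dvd_of_val_le
  · rw [cfp_natCast_coe]
    exact hq0
  · rw [cfp_natCast_coe]
    show A.valuation (((ta1Pi hd : vdiscRing A K1) : K) ^ e) ≤ _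
    rw [ta1Pi_coe, map_pow]
    exact he

/-- a natural number of value `1` is a unit of `A₁ ⧸ I` -/
theorem cfp_gen_isUnit_natCast (I : Ideal (vdiscRing A K1)) (m : ℕ)
    (hm : A.valuation (m : K) = 1) : IsUnit ((m : ℕ) : vdiscRing A K1 ⧸ I) := by
  have h1 : IsUnit ((m : ℕ) : vdiscRing A K1) := by
    rw [ta1_isUnit_iff, cfp_natCast_coe]
    exact hm
  have h2 := h1.map (Ideal.Quotient.mk I)
  rwa [map_natCast] at h2

end Generic

section Family

variable (A : ValuationSubring Kbar) (q : ℕ) [NeZero q] (hq : q.Prime)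
  (ζ : Kbarˣ) (hζ : IsPrimitiveRoot (ζ : Kbar) q) (hA : A.LiesOverPrime q)

include hA in
/-- **`Λ i` is nontrivial** -/
theorem cfp_nontrivial (i : CfmCusp) : Nontrivial (cfmLam A q ζ i) :=
  cfp_gen_nontrivial q (k0_val_q_lt_one A q hA)

/-- **`hπ`**: the image of the uniformiser in `Λ i` is nilpotent -/
theorem cfp_hπ (i : CfmCusp) :
    IsNilpotent (cfmPi A q ζ i (cfmVarpi A q hq ζ hζ hA i)) := by
  have hq0 : ((q : ℕ) : Kbar) ≠ 0 := Nat.cast_ne_zero.mpr hq.ne_zero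
  cases i
  · exact cfp_gen_isNilpotent (vdisc_k0 A q hq hA) q hq0 1 (by rw [pow_one])
  · refine cfp_gen_isNilpotent (vdisc_k0_zeta A hq hA hζ) q hq0 (q - 1) ?_
    rw [zi_val_zeta_sub_one_pow A.valuation hq hζ]
  · exact cfp_gen_isNilpotent (vdisc_k0 A q hq hA) q hq0 1 (by rw [pow_one])

include hq hA in
/-- **`IsUnit m`** in `Λ i` for `q ∤ m` -/
theorem cfp_isUnit_natCast (i : CfmCusp) (m : ℕ) (hm : ¬ q ∣ m) :
    IsUnit ((m : ℕ) : cfmLam A q ζ i) := by
  apply cfp_gen_isUnit_natCast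
  have h := k0_val_int_eq_one A q hq hA (m : ℤ) (by exact_mod_cast hm)
  rwa [Int.cast_natCast] at h

/-- the kernel of `cfmPi i` is `(q)` -/
theorem cfp_pi_eq_zero_iff (i : CfmCusp) (x : cfmA1 A ζ i) :
    cfmPi A q ζ i x = 0 ↔ ((q : ℕ) : cfmA1 A ζ i) ∣ x := by
  rw [cfmPi, Ideal.Quotient.eq_zero_iff_mem, Ideal.mem_span_singleton]

include hq in
/-- `k = A0 / q` embeds into `Λ i` -/
theorem cfp_pi_phi_eq_zero_iff (i : CfmCusp) (a : k0Val A) :
    cfmPi A q ζ i (cfmPhi A ζ i a) = 0 ↔ (q : k0Val A) ∣ a := by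
  have hq0 : ((q : ℕ) : Kbar) ≠ 0 := Nat.cast_ne_zero.mpr hq.ne_zero
  rw [cfp_pi_eq_zero_iff]
  constructor
  · rintro ⟨d, hd⟩
    have hd' : ((a : k0Field A) : Kbar) = (q : Kbar) * (d : Kbar) := by
      have := congrArg (fun t : cfmA1 A ζ i => (t : Kbar)) hd
      simp only [Subring.coe_mul, cfp_natCast_coe] at this
      rw [cfmPhi_coe] at this
      exact this
    have hdK : (d : Kbar) ∈ k0Field A := by
      have h1 : (d : Kbar) = ((a : k0Field A) : Kbar) * ((q : ℕ) : Kbar)⁻¹ := by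
        rw [hd']
        field_simp
      rw [h1]
      exact mul_mem (a : k0Field A).2 (inv_mem (natCast_mem _ q))
    refine ⟨⟨⟨(d : Kbar), hdK⟩, d.2.2⟩, ?_⟩
    apply Subtype.ext
    apply Subtype.ext
    show ((a : k0Field A) : Kbar) = _
    rw [hd']
    simp
  · rintro ⟨d, rfl⟩
    refine ⟨cfmPhi A ζ i d, ?_⟩
    rw [map_mul, cfmPhi_q]

end Family

end Fermat.Agent.S36lib

end
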