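/-
Item 83 (S36), CRUX, TUBE lemma, piece P5 = `hOV` (helper8), and the discrete valuation ring
`A1 = K1 ∩ A` as a TYPE.

* `vdiscRing_isDVR` : for `K1` discretely valued by `A` with uniformiser `ϖ` (`VdDisc A K1 ϖ`,
  e.g. `K1 = K0`, `ϖ = q` or `K1 = K0(ζ)`, `ϖ = ζ - 1`), the ring `A1 := ↥(vdiscRing A K1)` is a
  discrete valuation ring with uniformiser `vdiscPi hd`;
* `tviIota A K1 : A1[[X]] →+* K((X))`, injective; `tvi_exists_powerSeries`, `tvi_exists_shift`;
* `tvi_hOV` : **`hOV`**: for `f ∈ F0(L)` in a valuation ring `O ⊇` Gauss unit ball of the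
  expansion `E`, in which `ϖ` is not a unit:  `E f = ι a / ι b` with `a, b ∈ A1[[X]]` and `b`
  PRIMITIVE (one of its coefficients is a unit of `A1`).
-/
import Mathlib
import Fermat.Agent.S36lib.VArch

set_option autoImplicit false
set_option linter.unusedSectionVars false
set_option linter.style.haveILetI false

noncomputable section

namespace Fermat.Agent.S36lib

open ModularCurve HahnSeries AlgebraicCurve
open Fermat.Agent.GoodRed Fermat.Agent.S24lib Fermat.Agent.S34lib Fermat.Agent.S37lib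
  Fermat.Agent.HeckeBar

section Dvr

variable {K : Type*} [Field K] {A : ValuationSubring K} {K1 : Subfield K} {ϖ : K}

theorem vdiscRing_coe_mem_A (x : ↥(vdiscRing A K1)) : (x : K) ∈ A := x.2.2

theorem vdiscRing_coe_mem_K1 (x : ↥(vdiscRing A K1)) : (x : K) ∈ K1 := x.2.1

/-- the units of `A1 = K1 ∩ A` are the elements of value `1` -/
theorem vdiscRing_isUnit_iff (x : ↥(vdiscRing A K1)) : IsUnit x ↔ A.valuation (x : K) = 1 := by
  constructor
  · intro hx
    obtain ⟨y, hy⟩ := isUnit_iff_exists_inv.mp hx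
    have h1 : (x : K) * (y : K) = 1 := by
      have := congrArg (fun t : ↥(vdiscRing A K1) => (t : K)) hy
      simpa using this
    have h2 : A.valuation (x : K) * A.valuation (y : K) = 1 := by
      rw [← map_mul, h1, map_one]
    have hx1 : A.valuation (x : K) ≤ 1 := (A.valuation_le_one_iff _).mpr x.2.2
    have hy1 : A.valuation (y : K) ≤ 1 := (A.valuation_le_one_iff _).mpr y.2.2
    rcases eq_or_lt_of_le hx1 with h | h
    · exact h
    · exfalso
      have hy0 : A.valuation (y : K) ≠ 0 := by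
        intro h0
        rw [h0, mul_zero] at h2
        exact zero_ne_one h2
      have : A.valuation (x : K) * A.valuation (y : K) < 1 * 1 :=
        mul_lt_mul_of_lt_of_le_of_pos_of_nonneg h hy1 (zero_lt_iff.mpr hy0) zero_le
      rw [h2, mul_one] at this
      exact lt_irrefl _ this
  · intro hx
    have hx0 : (x : K) ≠ 0 := by
      intro h0
      rw [h0, map_zero] at hx
      exact zero_ne_one hx
    have hinvA : (x : K)⁻¹ ∈ A := by
      rw [← A.valuation_le_one_iff, map_inv₀, hx, inv_one]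
    refine isUnit_iff_exists_inv.mpr ⟨⟨(x : K)⁻¹, K1.inv_mem x.2.1, hinvA⟩, ?_⟩
    apply Subtype.ext
    show (x : K) * (x : K)⁻¹ = 1
    exact mul_inv_cancel₀ hx0

/-- the uniformiser of `A1`, as an element of `A1` -/
def vdiscPi (hd : VdDisc A K1 ϖ) : ↥(vdiscRing A K1) :=
  ⟨ϖ, hd.1, (A.valuation_le_one_iff ϖ).mp (le_of_lt hd.2.2.1)⟩

@[simp] theorem coe_vdiscPi (hd : VdDisc A K1 ϖ) : ((vdiscPi hd : ↥(vdiscRing A K1)) : K) = ϖ :=
  rfl

theorem vdiscPi_ne_zero (hd : VdDisc A K1 ϖ) : vdiscPi hd ≠ 0 := fun h =>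
  hd.2.1 (congrArg (fun t : ↥(vdiscRing A K1) => (t : K)) h)

/-- every nonzero element of `A1` is a unit times a power of `ϖ` -/
theorem vdiscRing_associated_pow (hd : VdDisc A K1 ϖ) (x : ↥(vdiscRing A K1)) (hx : x ≠ 0) :
    ∃ n : ℕ, Associated (vdiscPi hd ^ n) x := by
  have hx0 : (x : K) ≠ 0 := fun h => hx (Subtype.ext h)
  obtain ⟨n, hn⟩ := hd.exists_pow x.2.1 x.2.2 hx0
  have hv0 : A.valuation ϖ ≠ 0 := (Valuation.ne_zero_iff _).mpr hd.2.1
  have hval : A.valuation ((x : K) * (ϖ ^ n)⁻¹) = 1 := by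
    rw [map_mul, map_inv₀, map_pow, hn, mul_inv_cancel₀ (pow_ne_zero _ hv0)]
  have huA : (x : K) * (ϖ ^ n)⁻¹ ∈ A := (A.valuation_le_one_iff _).mp (le_of_eq hval)
  have huK : (x : K) * (ϖ ^ n)⁻¹ ∈ K1 := K1.mul_mem x.2.1 (K1.inv_mem (K1.pow_mem hd.1 n))
  let u : ↥(vdiscRing A K1) := ⟨(x : K) * (ϖ ^ n)⁻¹, huK, huA⟩
  have hu : IsUnit u := (vdiscRing_isUnit_iff u).mpr hval
  refine ⟨n, hu.unit, ?_⟩
  apply Subtype.ext
  show ((vdiscPi hd ^ n : ↥(vdiscRing A K1)) : K) * ((x : K) * (ϖ ^ n)⁻¹) = x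
  have hpow : ((vdiscPi hd ^ n : ↥(vdiscRing A K1)) : K) = ϖ ^ n := by
    push_cast
    rfl
  rw [hpow]
  field_simp [pow_ne_zero n hd.2.1]

theorem vdiscRing_val_pow (hd : VdDisc A K1 ϖ) {x : ↥(vdiscRing A K1)} {n : ℕ}
    (h : Associated (vdiscPi hd ^ n) x) : A.valuation (x : K) = A.valuation ϖ ^ n := by
  obtain ⟨u, hu⟩ := h
  have h1 := (vdiscRing_isUnit_iff (u : ↥(vdiscRing A K1))).mp u.isUnit
  have h2 := congrArg (fun t : ↥(vdiscRing A K1) => A.valuation (t : K)) hu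
  beta_reduce at h2
  have hpow : ((vdiscPi hd ^ n * (u : ↥(vdiscRing A K1)) : ↥(vdiscRing A K1)) : K)
      = ϖ ^ n * ((u : ↥(vdiscRing A K1)) : K) := by
    push_cast
    rfl
  rw [hpow, map_mul, map_pow, h1, mul_one] at h2
  exact h2.symm

/-- `ϖ` is irreducible in `A1` -/
theorem vdiscRing_irreducible (hd : VdDisc A K1 ϖ) : Irreducible (vdiscPi hd) := by
  have hv0 : A.valuation ϖ ≠ 0 := (Valuation.ne_zero_iff _).mpr hd.2.1
  have hv1 : A.valuation ϖ < 1 := hd.2.2.1
  refine ⟨?_, ?_⟩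
  · rw [vdiscRing_isUnit_iff, coe_vdiscPi]
    exact ne_of_lt hv1
  · intro a b hab
    have ha0 : a ≠ 0 := fun h => vdiscPi_ne_zero hd (by rw [hab, h, zero_mul])
    have hb0 : b ≠ 0 := fun h => vdiscPi_ne_zero hd (by rw [hab, h, mul_zero])
    obtain ⟨i, hi⟩ := vdiscRing_associated_pow hd a ha0
    obtain ⟨j, hj⟩ := vdiscRing_associated_pow hd b hb0
    have hva := vdiscRing_val_pow hd hi
    have hvb := vdiscRing_val_pow hd hj
    have hprod : A.valuation ϖ ^ (i + j) = A.valuation ϖ ^ 1 := by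
      have := congrArg (fun t : ↥(vdiscRing A K1) => A.valuation (t : K)) hab
      beta_reduce at this
      have hmul : ((a * b : ↥(vdiscRing A K1)) : K) = (a : K) * (b : K) := rfl
      rw [coe_vdiscPi, hmul, map_mul, hva, hvb, ← _root_.pow_add] at this
      rw [pow_one]
      exact this.symm
    have hij : i + j = 1 := by
      rcases lt_trichotomy (i + j) 1 with h | h | h
      · exfalso
        have := pow_lt_pow_right_of_lt_one₀ (zero_lt_iff.mpr hv0) hv1 h
        rw [hprod] at this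
        exact lt_irrefl _ this
      · exact h
      · exfalso
        have := pow_lt_pow_right_of_lt_one₀ (zero_lt_iff.mpr hv0) hv1 h
        rw [hprod] at this
        exact lt_irrefl _ this
    rcases Nat.eq_zero_or_pos i with h0 | hpos
    · left
      rw [vdiscRing_isUnit_iff, hva, h0, pow_zero]
    · right
      have hj0 : j = 0 := by omega
      rw [vdiscRing_isUnit_iff, hvb, hj0, pow_zero]

/-- **`A1 = K1 ∩ A` is a discrete valuation ring** (uniformiser `ϖ`) -/
theorem vdiscRing_isDVR (hd : VdDisc A K1 ϖ) : IsDiscreteValuationRing ↥(vdiscRing A K1) :=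
  IsDiscreteValuationRing.ofHasUnitMulPowIrreducibleFactorization
    ⟨vdiscPi hd, vdiscRing_irreducible hd, fun {x} hx => vdiscRing_associated_pow hd x hx⟩

end Dvr

section Iota

variable {K : Type*} [Field K] (A : ValuationSubring K) (K1 : Subfield K)

/-- the inclusion `A1[[X]] → K((X))` -/
def tviIota : PowerSeries ↥(vdiscRing A K1) →+* LaurentSeries K :=
  (HahnSeries.ofPowerSeries ℤ K).comp (PowerSeries.map (vdiscRing A K1).subtype)

theorem tviIota_apply (a : PowerSeries ↥(vdiscRing A K1)) :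
    tviIota A K1 a = HahnSeries.ofPowerSeries ℤ K (PowerSeries.map (vdiscRing A K1).subtype a) :=
  rfl

theorem tviIota_coeff (a : PowerSeries ↥(vdiscRing A K1)) (i : ℤ) :
    (tviIota A K1 a).coeff i =
      if i < 0 then 0 else ((PowerSeries.coeff i.natAbs a : ↥(vdiscRing A K1)) : K) := by
  rw [tviIota_apply, PowerSeries.coeff_coe]
  split_ifs
  · rfl
  · rw [PowerSeries.coeff_map]
    rfl

theorem tviIota_coeff_natCast (a : PowerSeries ↥(vdiscRing A K1)) (n : ℕ) :
    (tviIota A K1 a).coeff (n : ℤ) = ((PowerSeries.coeff n a : ↥(vdiscRing A K1)) : K) := by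
  rw [tviIota_coeff, if_neg (by omega), Int.natAbs_natCast]

theorem tviIota_injective : Function.Injective (tviIota A K1) := by
  intro a b hab
  refine PowerSeries.ext fun n => Subtype.ext ?_
  rw [← tviIota_coeff_natCast, ← tviIota_coeff_natCast, hab]

theorem tviIota_C (c : ↥(vdiscRing A K1)) :
    tviIota A K1 (PowerSeries.C c) = HahnSeries.C (c : K) := by
  rw [tviIota_apply, PowerSeries.map_C, HahnSeries.ofPowerSeries_C]
  rfl

theorem tviIota_X : tviIota A K1 PowerSeries.X = HahnSeries.single (1 : ℤ) (1 : K) := by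
  rw [tviIota_apply, PowerSeries.map_X, HahnSeries.ofPowerSeries_X]

theorem tvi_vdInt_iota (a : PowerSeries ↥(vdiscRing A K1)) : VdInt A K1 (tviIota A K1 a) := by
  intro i
  rw [tviIota_coeff]
  split_ifs
  · exact (vdiscRing A K1).zero_mem
  · exact (PowerSeries.coeff i.natAbs a).2

variable {A K1}

/-- a series with coefficients in `A1` and without polar part is in the image of `ι` -/
theorem tvi_exists_powerSeries {g : LaurentSeries K} (hg : VdInt A K1 g)
    (h0 : ∀ i : ℤ, i < 0 → g.coeff i = 0) :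
    ∃ a : PowerSeries ↥(vdiscRing A K1), tviIota A K1 a = g := by
  refine ⟨PowerSeries.mk fun n => ⟨g.coeff (n : ℤ), hg n⟩, ?_⟩
  ext i
  rw [tviIota_coeff]
  split_ifs with hi
  · exact (h0 i hi).symm
  · rw [PowerSeries.coeff_mk]
    show g.coeff ((i.natAbs : ℕ) : ℤ) = g.coeff i
    rw [Int.natAbs_of_nonneg (by omega)]

/-- a series with coefficients in `A1`, shifted by a large power of `X`, is in the image of
`ι` -/
theorem tvi_exists_shift {g : LaurentSeries K} (hg : VdInt A K1 g) :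
    ∃ k₀ : ℕ, ∀ k : ℕ, k₀ ≤ k →
      ∃ a : PowerSeries ↥(vdiscRing A K1),
        tviIota A K1 a = HahnSeries.single (k : ℤ) (1 : K) * g := by
  refine ⟨(-g.order).toNat, fun k hk => ?_⟩
  apply tvi_exists_powerSeries
  · intro i
    rw [HahnSeries.coeff_single_mul, one_mul]
    exact hg _
  · intro i hi
    rw [HahnSeries.coeff_single_mul, one_mul]
    apply HahnSeries.coeff_eq_zero_of_lt_order
    have h1 : -g.order ≤ ((-g.order).toNat : ℤ) := Int.self_le_toNat _
    have h2 : (((-g.order).toNat : ℕ) : ℤ) ≤ (k : ℤ) := by exact_mod_cast hk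
    omega

end Iota

section OV

variable {A : ValuationSubring Kbar} {L : ℕ} [NeZero L] {E : FF L →+* LaurentSeries Kbar}
  {O : ValuationSubring (FF L)} {K1 : Subfield Kbar} {ϖ : Kbar}

/-- **`hOV`** (TUBE, piece P5): the expansion of an element `f ∈ F0(L)` of the valuation ring
`O` is a fraction `ι a / ι b`, `a, b ∈ A1[[X]]`, with `b` PRIMITIVE. -/
theorem tvi_hOV (hd : VdDisc A K1 ϖ)
    (hEC : ∀ c : Kbar, E (algebraMap Kbar (FF L) c) = HahnSeries.C c)
    (hK0 : ∀ c : Kbar, c ∈ k0Field A → c ∈ K1)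
    (hgen : ∀ (d : ℕ) [NeZero d] (hd : d ∣ L), VdInt A K1 (E (jdF L d hd)))
    (hO : VdGauss A L E O) (hϖO : algebraMap Kbar (FF L) ϖ ∈ O.nonunits)
    {f : FF L} (hf : f ∈ f0Field A L) (hfO : f ∈ O) :
    ∃ a b : PowerSeries ↥(vdiscRing A K1), (∃ i, IsUnit (PowerSeries.coeff i b)) ∧
      E f * tviIota A K1 b = tviIota A K1 a := by
  by_cases hf0 : f = 0
  · have h1 : IsUnit (PowerSeries.coeff 0 (1 : PowerSeries ↥(vdiscRing A K1))) := by
      rw [PowerSeries.coeff_zero_one]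
      exact isUnit_one
    have h2 : E f * tviIota A K1 1 = tviIota A K1 0 := by
      rw [hf0, map_zero, zero_mul, map_zero]
    exact ⟨0, 1, ⟨0, h1⟩, h2⟩
  obtain ⟨n, x₁, y₁, a', b', hy0, hxy, hEx, hEy, hpa, hpb, hia, hib⟩ :=
    vdisc_exists_primitive hd hEC hK0 hgen hf hf0
  obtain ⟨hx, hx'⟩ := hO x₁ a' hEx hpa
  obtain ⟨hy, hy'⟩ := hO y₁ b' hEy hpb
  have hϖ0 : ϖ ≠ 0 := hd.2.1
  have hP0 : algebraMap Kbar (FF L) ϖ ≠ 0 := (map_ne_zero _).mpr hϖ0
  have hPO : algebraMap Kbar (FF L) ϖ ∈ O := O.nonunits_le hϖO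
  have hPinv : (algebraMap Kbar (FF L) ϖ)⁻¹ ∉ O := by
    intro h
    have h1 : O.valuation (algebraMap Kbar (FF L) ϖ) < 1 := (O.mem_nonunits_iff).mp hϖO
    have h2 : O.valuation (algebraMap Kbar (FF L) ϖ)⁻¹ ≤ 1 := (O.valuation_le_one_iff _).mpr h
    rw [map_inv₀] at h2
    have h3 : O.valuation (algebraMap Kbar (FF L) ϖ) ≠ 0 := (Valuation.ne_zero_iff _).mpr hP0
    have h4 := (inv_le_one₀ (zero_lt_iff.mpr h3)).mp h2
    exact absurd h1 (not_lt.mpr h4)
  -- `n ≥ 0`
  have hn : 0 ≤ n := by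
    by_contra hcon
    push Not at hcon
    apply hPinv
    -- `ϖ⁻¹ = ϖ^(-n-1) · f · y₁ · x₁⁻¹`
    have hx0 : x₁ ≠ 0 := by
      intro h0
      rw [h0, mul_zero] at hxy
      exact (mul_ne_zero hf0 hy0) hxy
    have e : (algebraMap Kbar (FF L) ϖ)⁻¹ =
        (algebraMap Kbar (FF L) ϖ) ^ ((-n - 1).toNat) * (f * y₁ * x₁⁻¹) := by
      rw [hxy, mul_assoc, mul_inv_cancel₀ hx0, mul_one, map_zpow₀, ← zpow_natCast,
        Int.toNat_of_nonneg (by omega), ← zpow_add₀ hP0]
      have : -n - 1 + n = -1 := by ring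
      rw [this, zpow_neg_one]
    rw [e]
    exact O.mul_mem _ _ (pow_mem hPO _) (O.mul_mem _ _ (O.mul_mem _ _ hfO hy) hx')
  obtain ⟨N, rfl⟩ := Int.eq_ofNat_of_zero_le hn
  obtain ⟨ka, hka⟩ := tvi_exists_shift hia
  obtain ⟨kb, hkb⟩ := tvi_exists_shift hib
  obtain ⟨a₁, ha₁⟩ := hka (max ka kb) (le_max_left _ _)
  obtain ⟨b₁, hb₁⟩ := hkb (max ka kb) (le_max_right _ _)
  set k := max ka kb with hk
  refine ⟨PowerSeries.C (vdiscPi hd) ^ N * a₁, b₁, ?_, ?_⟩
  · -- primitivity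
    obtain ⟨i₀, hi₀⟩ := (coeffMap_residue_ne_zero_iff A b').mp hpb
    have hcoef : (tviIota A K1 b₁).coeff (i₀ + k) = ((b'.coeff i₀ : A) : Kbar) := by
      rw [hb₁, HahnSeries.coeff_single_mul, one_mul, add_sub_cancel_right, coeffMap_coeff]
      rfl
    have hnonneg : 0 ≤ i₀ + (k : ℤ) := by
      by_contra hcon
      push Not at hcon
      rw [tviIota_coeff, if_pos hcon] at hcoef
      rw [← hcoef, map_zero] at hi₀
      exact zero_ne_one hi₀
    refine ⟨(i₀ + (k : ℤ)).toNat, ?_⟩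
    rw [vdiscRing_isUnit_iff, ← tviIota_coeff_natCast, Int.toNat_of_nonneg hnonneg, hcoef]
    exact hi₀
  · have hEf : E f * E y₁ = HahnSeries.C (ϖ ^ N) * E x₁ := by
      rw [← map_mul, hxy, map_mul, hEC, zpow_natCast]
    rw [hb₁, map_mul, map_pow, tviIota_C, coe_vdiscPi, ha₁, ← hEy, ← hEx]
    calc E f * (HahnSeries.single (k : ℤ) (1 : Kbar) * E y₁)
        = HahnSeries.single (k : ℤ) (1 : Kbar) * (E f * E y₁) := by ring
      _ = HahnSeries.single (k : ℤ) (1 : Kbar) * (HahnSeries.C (ϖ ^ N) * E x₁) := by rw [hEf]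
      _ = HahnSeries.C ϖ ^ N * (HahnSeries.single (k : ℤ) (1 : Kbar) * E x₁) := by
          rw [map_pow]
          ring

end OV

end Fermat.Agent.S36lib

end
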