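/-
Item 83 (S36), piece TUBE (helper12): the abstract TUBE LEMMA = the hypothesis `hPE` of the crux
(`cf_kummer` / `cl_kummer` / `cnr_kummer`) at ONE cusp.

Setting: `𝒜` a UFD (in the application `A₁[[X]]`, `A₁` a DVR), `ι : 𝒜 → L` an injective ring
homomorphism into a field, `E : F → L` the formal expansion of the function field at the cusp,
`ρA : 𝒜 → Λ[[X]]` the reduction (`Λ = A₁/q`), `T ∈ 𝒜` the variable (`ρA T = X`), `O ⊂ F` the unit
ball with its reduction `ρ : O → Λ((X))`, compatible with fractions of elements of `𝒜`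
(`hcompat`).

`u ∈ O` is the Kummer function: `ρ u = 1`, `E u · T^(m d) = G ∈ 𝒜`, and every prime element `p`
of `𝒜` which is not nilpotent modulo `q` has multiplicity divisible by `m` in `G` (`hdict`: the
dictionary primes of `𝒜` ↔ places of `F`, piece TubeDict).
`x ∈ O` is an element of `L(a D₁ + E')`: all that is used is that `x^m u` has an integral
expansion with pole order `≤ m n` (it lies in `L(m a D₁) ∩ O`).
Conclusion: the reduction `ρ x` has pole order `≤ n`.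

The exact root closure in `Λ((X))` (piece ExactRoot) enters as the hypothesis `hroot`.
Complete proofs.  Mathlib + `S36lib/CruxLaurent` (for `ClPole`) only.
-/
import Mathlib
import Fermat.Agent.S36lib.CruxLaurent

set_option autoImplicit false

noncomputable section

namespace Fermat.Agent.S36lib

/-! ### `m`-th powers in a UFD -/

section Pow

variable {𝒜 : Type*} [CommRing 𝒜] [IsDomain 𝒜] [UniqueFactorizationMonoid 𝒜]

/-- in a UFD, an element all of whose prime multiplicities are divisible by `m` is a unit times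
an `m`-th power -/
theorem tube_exists_pow (m : ℕ) (G : 𝒜) (hG : G ≠ 0)
    (h : ∀ p : 𝒜, Prime p → m ∣ multiplicity p G) :
    ∃ (c : 𝒜ˣ) (G₀ : 𝒜), G = (c : 𝒜) * G₀ ^ m := by
  revert hG h
  refine UniqueFactorizationMonoid.induction_on_coprime
    (P := fun G : 𝒜 => G ≠ 0 → (∀ p : 𝒜, Prime p → m ∣ multiplicity p G) →
      ∃ (c : 𝒜ˣ) (G₀ : 𝒜), G = (c : 𝒜) * G₀ ^ m) G ?_ ?_ ?_ ?_
  · intro h0
    exact absurd rfl h0
  · intro x hx _ _
    exact ⟨hx.unit, 1, by rw [one_pow, mul_one]; rfl⟩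
  · intro p i hp _ h
    have h1 := h p hp
    rw [multiplicity_pow_self_of_prime hp] at h1
    obtain ⟨j, rfl⟩ := h1
    exact ⟨1, p ^ j, by rw [Units.val_one, one_mul, ← pow_mul, mul_comm]⟩
  · intro x y hxy hx hy hxy0 h
    have hx0 : x ≠ 0 := left_ne_zero_of_mul hxy0
    have hy0 : y ≠ 0 := right_ne_zero_of_mul hxy0
    have key : ∀ p : 𝒜, Prime p → m ∣ multiplicity p x ∧ m ∣ multiplicity p y := by
      intro p hp
      have h1 := h p hp
      rw [multiplicity_mul hp (FiniteMultiplicity.of_prime_left hp hxy0)] at h1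
      by_cases hpx : p ∣ x
      · have hpy : ¬ p ∣ y := fun hpy => hp.not_isUnit (hxy hpx hpy)
        have h0 : multiplicity p y = 0 := multiplicity_eq_zero.mpr hpy
        rw [h0, Nat.add_zero] at h1
        exact ⟨h1, by rw [h0]; exact dvd_zero m⟩
      · have h0 : multiplicity p x = 0 := multiplicity_eq_zero.mpr hpx
        rw [h0, Nat.zero_add] at h1
        exact ⟨by rw [h0]; exact dvd_zero m, h1⟩
    obtain ⟨c₁, g₁, h1⟩ := hx hx0 fun p hp => (key p hp).1
    obtain ⟨c₂, g₂, h2⟩ := hy hy0 fun p hp => (key p hp).2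
    refine ⟨c₁ * c₂, g₁ * g₂, ?_⟩
    rw [h1, h2, Units.val_mul, mul_pow]
    ring

end Pow

/-! ### Laurent series helpers -/

section Laurent

variable {Λ : Type*} [CommRing Λ]

/-- `X^n` as a Laurent series -/
theorem tube_ofPS_X_pow (n : ℕ) :
    HahnSeries.ofPowerSeries ℤ Λ (PowerSeries.X ^ n) = HahnSeries.single (n : ℤ) 1 :=
  HahnSeries.ofPowerSeries_X_pow n

theorem tube_single_mul_single (a b : ℤ) :
    (HahnSeries.single a (1 : Λ)) * HahnSeries.single b 1 = HahnSeries.single (a + b) 1 := by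
  rw [HahnSeries.single_mul_single, mul_one]

theorem tube_single_zero : (HahnSeries.single (0 : ℤ) (1 : Λ)) = 1 := rfl

/-- `X^n` is a unit of `Λ((X))` -/
theorem tube_isUnit_single (a : ℤ) : IsUnit (HahnSeries.single a (1 : Λ)) := by
  refine ⟨⟨HahnSeries.single a 1, HahnSeries.single (-a) 1, ?_, ?_⟩, rfl⟩
  · rw [tube_single_mul_single, add_neg_cancel, tube_single_zero]
  · rw [tube_single_mul_single, neg_add_cancel, tube_single_zero]

/-- a power series has no pole -/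
theorem tube_ofPS_coeff_neg (s : PowerSeries Λ) {k : ℤ} (hk : k < 0) :
    (HahnSeries.ofPowerSeries ℤ Λ s).coeff k = 0 := by
  rw [HahnSeries.ofPowerSeries_apply]
  refine HahnSeries.embDomain_of_notMem_range ?_
  rintro ⟨j, hj⟩
  have : ((j : ℕ) : ℤ) = k := hj
  omega

/-- `s · X^(-n)` has pole order `≤ n` -/
theorem tube_clPole_ofPS_mul_single (s : PowerSeries Λ) (n : ℕ) :
    ClPole n (HahnSeries.ofPowerSeries ℤ Λ s * HahnSeries.single (-(n : ℤ)) 1) := by
  intro k hk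
  have e : k = (k + n) + (-(n : ℤ)) := by ring
  rw [e, HahnSeries.coeff_mul_single_add, mul_one]
  exact tube_ofPS_coeff_neg s (by omega)

end Laurent

/-! ### The tube lemma -/

section Tube

variable {𝒜 L F Λ : Type*} [CommRing 𝒜] [IsDomain 𝒜] [UniqueFactorizationMonoid 𝒜]
  [Field L] [Field F] [CommRing Λ]

/-- **TUBE LEMMA.**  See the header. -/
theorem s36_tube [Nontrivial Λ]
    (ι : 𝒜 →+* L) (hι : Function.Injective ι) (E : F →+* L)
    (ρA : 𝒜 →+* PowerSeries Λ) (T : 𝒜) (hT : ρA T = PowerSeries.X)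
    (O : Subring F) (ρ : O →+* LaurentSeries Λ)
    (hcompat : ∀ (x : O) (a b : 𝒜), E (x : F) * ι b = ι a →
      IsUnit (HahnSeries.ofPowerSeries ℤ Λ (ρA b)) →
      ρ x * HahnSeries.ofPowerSeries ℤ Λ (ρA b) = HahnSeries.ofPowerSeries ℤ Λ (ρA a))
    (m : ℕ) (hm : IsUnit (m : Λ))
    (hroot : ∀ (r : LaurentSeries Λ) (v : PowerSeries Λ),
      IsUnit (PowerSeries.constantCoeff v) → r ^ m = HahnSeries.ofPowerSeries ℤ Λ v →
      ∃ w : PowerSeries Λ, IsUnit (PowerSeries.constantCoeff w) ∧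
        r = HahnSeries.ofPowerSeries ℤ Λ w)
    (u : O) (hu : ρ u = 1) (d : ℕ) (G : 𝒜) (hG : E (u : F) * ι (T ^ (m * d)) = ι G)
    (hdict : ∀ p : 𝒜, Prime p → ¬ IsNilpotent (ρA p) → m ∣ multiplicity p G)
    (x : O) (n : ℕ) (Z : 𝒜) (hZ : E ((x : F) ^ m * (u : F)) * ι (T ^ (m * n)) = ι Z)
    (hxfrac : ∃ a b : 𝒜, b ≠ 0 ∧ E (x : F) * ι b = ι a) :
    ClPole n (ρ x) := by
  classical
  have hm0 : m ≠ 0 := by
    rintro rfl
    rw [Nat.cast_zero] at hm
    exact not_isUnit_zero hm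
  -- notation
  set ofPS : PowerSeries Λ →+* LaurentSeries Λ := HahnSeries.ofPowerSeries ℤ Λ with hofPS
  have hofPS_inj : Function.Injective ofPS := HahnSeries.ofPowerSeries_injective
  have hXpow : ∀ k : ℕ, ofPS (ρA (T ^ k)) = HahnSeries.single (k : ℤ) 1 := by
    intro k
    rw [map_pow, hT]
    exact tube_ofPS_X_pow k
  -- Step 1: `ρA G = X^(m d)`
  have hρG : ρA G = PowerSeries.X ^ (m * d) := by
    have h1 := hcompat u G (T ^ (m * d)) hG (by rw [hXpow]; exact tube_isUnit_single _)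
    rw [hu, one_mul] at h1
    have h2 : ofPS (ρA (T ^ (m * d))) = ofPS (PowerSeries.X ^ (m * d)) := by
      rw [map_pow, hT]
    rw [h2] at h1
    exact (hofPS_inj h1).symm
  have hXne : ∀ k : ℕ, (PowerSeries.X ^ k : PowerSeries Λ) ≠ 0 := by
    intro k h0
    have := congrArg (PowerSeries.coeff k) h0
    rw [PowerSeries.coeff_X_pow_self, map_zero] at this
    exact one_ne_zero this
  have hG0 : G ≠ 0 := by
    rintro rfl
    rw [map_zero] at hρG
    exact hXne _ hρG.symm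
  -- Step 2: all multiplicities are divisible by `m`
  have hall : ∀ p : 𝒜, Prime p → m ∣ multiplicity p G := by
    intro p hp
    by_cases hnil : IsNilpotent (ρA p)
    · have hpG : ¬ p ∣ G := by
        rintro ⟨g, rfl⟩
        obtain ⟨k, hk⟩ := hnil
        have h1 : (PowerSeries.X ^ (m * d) : PowerSeries Λ) ^ k = 0 := by
          rw [← hρG, map_mul, mul_pow, hk, zero_mul]
        rw [← pow_mul] at h1
        exact hXne _ h1
      rw [multiplicity_eq_zero.mpr hpG]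
      exact dvd_zero m
    · exact hdict p hp hnil
  -- Step 3: `G = c G₀^m`
  obtain ⟨c, G₀, hGc⟩ := tube_exists_pow m G hG0 hall
  -- Step 4: `ρA G₀ = w X^d`, `w` a unit
  have hcu : IsUnit (ρA (c : 𝒜)) := c.isUnit.map ρA
  have hcinv : ρA ((c⁻¹ : 𝒜ˣ) : 𝒜) * ρA (c : 𝒜) = 1 := by
    rw [← map_mul, Units.inv_mul, map_one]
  obtain ⟨w, hwu, hw⟩ := hroot (ofPS (ρA G₀) * HahnSeries.single (-(d : ℤ)) 1)
    (ρA ((c⁻¹ : 𝒜ˣ) : 𝒜))
    (by
      have : IsUnit (ρA ((c⁻¹ : 𝒜ˣ) : 𝒜)) := (c⁻¹).isUnit.map ρA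
      exact this.map (PowerSeries.constantCoeff (R := Λ)))
    (by
      have h1 : ofPS (ρA (c : 𝒜)) * ofPS (ρA G₀) ^ m = HahnSeries.single ((m * d : ℕ) : ℤ) 1 := by
        rw [← map_pow, ← map_mul, ← map_pow, ← map_mul, ← hGc, hρG]
        exact tube_ofPS_X_pow _
      have h2 : (HahnSeries.single (-(d : ℤ)) (1 : Λ)) ^ m
          = HahnSeries.single (-((m * d : ℕ) : ℤ)) 1 := by
        rw [HahnSeries.single_pow, one_pow]
        congr 2
        push_cast
        rw [nsmul_eq_mul]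
        ring
      rw [mul_pow, h2]
      have h3 : ofPS (ρA G₀) ^ m = ofPS (ρA ((c⁻¹ : 𝒜ˣ) : 𝒜)) *
          HahnSeries.single ((m * d : ℕ) : ℤ) 1 := by
        rw [← h1, ← mul_assoc, ← map_mul, hcinv, map_one, one_mul]
      rw [h3, mul_assoc, tube_single_mul_single, add_neg_cancel, tube_single_zero, mul_one])
  have hwunit : IsUnit w := PowerSeries.isUnit_iff_constantCoeff.mpr hwu
  have hρG₀ : ofPS (ρA G₀) = ofPS w * HahnSeries.single (d : ℤ) 1 := by
    rw [← hw, mul_assoc, tube_single_mul_single, neg_add_cancel, tube_single_zero, mul_one]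
  -- Step 5: the integral element `y₁`
  obtain ⟨a₁, b₁, hb₁, hab⟩ := hxfrac
  set k₁ : ℕ := n - d with hk₁
  set k₂ : ℕ := d - n with hk₂
  have hk : n + k₂ = d + k₁ := by omega
  have hιb₁ : ι b₁ ≠ 0 := fun h => hb₁ (hι (by rw [h, map_zero]))
  have hιc : ι (c : 𝒜) ≠ 0 := fun h => c.ne_zero (hι (by rw [h, map_zero]))
  have hYpow : ι (c : 𝒜) * (E (x : F) * ι (G₀ * T ^ k₁)) ^ m = ι (Z * T ^ (m * k₂)) := by
    have e1 : ι (c : 𝒜) * (E (x : F) * ι (G₀ * T ^ k₁)) ^ m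
        = E (x : F) ^ m * ι G * ι T ^ (m * k₁) := by
      rw [hGc]
      simp only [map_mul, map_pow, mul_pow]
      rw [← pow_mul, mul_comm k₁ m]
      ring
    have e2 : E (x : F) ^ m * ι G * ι T ^ (m * k₁)
        = E (x : F) ^ m * E (u : F) * ι T ^ (m * d + m * k₁) := by
      rw [← hG, map_pow, pow_add]
      ring
    have e3 : m * d + m * k₁ = m * n + m * k₂ := by
      rw [← Nat.mul_add, ← Nat.mul_add, hk]
    rw [e1, e2, e3, map_mul, ← hZ, map_mul, map_pow, map_pow, map_pow, pow_add]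
    ring
  have hdvd : (T ^ k₂ * b₁) ^ m ∣ (a₁ * (G₀ * T ^ k₁)) ^ m := by
    have h1 : (c : 𝒜) * (a₁ * (G₀ * T ^ k₁)) ^ m = Z * (T ^ k₂ * b₁) ^ m := by
      apply hι
      have h2 : ι (a₁ * (G₀ * T ^ k₁)) = E (x : F) * ι (G₀ * T ^ k₁) * ι b₁ := by
        rw [map_mul ι a₁, ← hab]
        ring
      rw [map_mul, map_pow, h2, mul_pow, ← mul_assoc, hYpow]
      simp only [map_mul, map_pow]
      rw [pow_mul' (ι T) m k₂]
      ring
    refine ⟨((c⁻¹ : 𝒜ˣ) : 𝒜) * Z, ?_⟩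
    have h3 : (a₁ * (G₀ * T ^ k₁)) ^ m =
        ((c⁻¹ : 𝒜ˣ) : 𝒜) * ((c : 𝒜) * (a₁ * (G₀ * T ^ k₁)) ^ m) := by
      rw [(mul_assoc ((c⁻¹ : 𝒜ˣ) : 𝒜) (c : 𝒜) ((a₁ * (G₀ * T ^ k₁)) ^ m)).symm, Units.inv_mul,
        one_mul]
    rw [h3, h1]
    ring
  obtain ⟨y₁, hy₁⟩ := (IsIntegrallyClosed.pow_dvd_pow_iff hm0).mp hdvd
  have hY : E (x : F) * ι (G₀ * T ^ k₁) = ι (T ^ k₂ * y₁) := by
    have h2 : E (x : F) * ι (G₀ * T ^ k₁) * ι b₁ = ι (T ^ k₂ * y₁) * ι b₁ := by
      rw [← map_mul ι (T ^ k₂ * y₁) b₁]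
      have : T ^ k₂ * y₁ * b₁ = a₁ * (G₀ * T ^ k₁) := by rw [hy₁]; ring
      rw [this, map_mul ι a₁, ← hab]
      ring
    exact mul_right_cancel₀ hιb₁ h2
  -- Step 6: compatibility
  have hb : ofPS (ρA (G₀ * T ^ k₁)) = ofPS w * HahnSeries.single ((d + k₁ : ℕ) : ℤ) 1 := by
    rw [map_mul, map_mul, hρG₀, hXpow, mul_assoc, tube_single_mul_single]
    push_cast
    rfl
  have hbu : IsUnit (ofPS (ρA (G₀ * T ^ k₁))) := by
    rw [hb]
    exact (hwunit.map ofPS).mul (tube_isUnit_single _)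
  have h1 := hcompat x (T ^ k₂ * y₁) (G₀ * T ^ k₁) hY hbu
  rw [hb] at h1
  obtain ⟨winv, hwinv⟩ := hwunit.exists_right_inv
  have h2 : ρ x = ofPS (ρA y₁ * winv) * HahnSeries.single (-(n : ℤ)) 1 := by
    have h3 : ρ x = ρ x * (ofPS w * HahnSeries.single ((d + k₁ : ℕ) : ℤ) 1) *
        (ofPS winv * HahnSeries.single (-((d + k₁ : ℕ) : ℤ)) 1) := by
      have h4 : (ofPS w * HahnSeries.single ((d + k₁ : ℕ) : ℤ) 1) *
          (ofPS winv * HahnSeries.single (-((d + k₁ : ℕ) : ℤ)) 1) = 1 := by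
        have : ofPS w * ofPS winv = 1 := by rw [← map_mul, hwinv, map_one]
        calc (ofPS w * HahnSeries.single ((d + k₁ : ℕ) : ℤ) 1) *
            (ofPS winv * HahnSeries.single (-((d + k₁ : ℕ) : ℤ)) 1)
            = (ofPS w * ofPS winv) * (HahnSeries.single ((d + k₁ : ℕ) : ℤ) (1 : Λ) *
                HahnSeries.single (-((d + k₁ : ℕ) : ℤ)) 1) := by ring
          _ = 1 := by rw [this, tube_single_mul_single, add_neg_cancel, tube_single_zero, mul_one]
      rw [mul_assoc, h4, mul_one]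
    rw [h3, h1, map_mul, map_mul, hXpow]
    have h5 : HahnSeries.single (k₂ : ℤ) (1 : Λ) * HahnSeries.single (-((d + k₁ : ℕ) : ℤ)) 1
        = HahnSeries.single (-(n : ℤ)) 1 := by
      have e : (k₂ : ℤ) + -((d + k₁ : ℕ) : ℤ) = -(n : ℤ) := by
        have : ((n + k₂ : ℕ) : ℤ) = ((d + k₁ : ℕ) : ℤ) := by rw [hk]
        push_cast at this ⊢
        linarith
      rw [tube_single_mul_single, e]
    calc HahnSeries.single (k₂ : ℤ) 1 * ofPS (ρA y₁) *
        (ofPS winv * HahnSeries.single (-((d + k₁ : ℕ) : ℤ)) 1)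
        = ofPS (ρA y₁) * ofPS winv * (HahnSeries.single (k₂ : ℤ) (1 : Λ) *
            HahnSeries.single (-((d + k₁ : ℕ) : ℤ)) 1) := by ring
      _ = _ := by rw [h5, map_mul]
  rw [h2]
  exact tube_clPole_ofPS_mul_single _ n

end Tube

end Fermat.Agent.S36lib

end
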