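/-
Item 83 (S36), piece TUBE / FIX 1b (helper12): the REDUCTION OF A BALL BY FRACTIONS.

The unit ball `O` of the function field is an intersection of valuation rings; its elements are
FRACTIONS `a/b` of integral series with `b` a unit modulo `q` (NOT integral series: `1/(1+q j)`).
The reduced expansion `ρ : O → Λ((X))` is therefore defined on fractions.

Abstract setting: `𝒜` a commutative ring (`A₁[[X]]`), `ι : 𝒜 → L` injective into a field
(`K₁((X))` or `ℚ̄((X))`), `ρA : 𝒜 → Λ[[X]]` (coefficientwise reduction modulo `q`).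
* `tsDen ρA` : the denominators `b` with `ρA b` a unit of `Λ((X))`;
* `tsV ι ρA` : the subring `{a/b}` of `L`;  `tsRed : tsV → Λ((X))`,  `a/b ↦ ρA a · (ρA b)⁻¹`;
  `tsRed_spec` : `tsRed z · ρA b = ρA a` for EVERY representation `z · ι b = ι a`;
* `tsBallRed` : for a ball `O ⊂ F` and an expansion `E : F → L` with `E(O) ⊂ tsV`, the reduction
  `ρ = tsRed ∘ E : O → Λ((X))`;  `tsBallRed_compat` (= `hcompat` of `s36_tube`),
  `tsBallRed_integral` (on integral expansions it is the coefficientwise reduction);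
* `ts_isUnit_ofPS` : a power series with a unit coefficient and nilpotent coefficients below it
  is a unit of `Λ((X))`;  `ts_isUnit_of_not_dvd` : over a DVR `A₁` with `π ϖ` nilpotent, every
  `b ∈ A₁[[X]]` not divisible by `ϖ` is a denominator;
* `s36_tube_red` : the tube lemma `s36_tube` for `ρ = tsBallRed`.
Complete proofs.  Mathlib + `S36lib/TubeAbs`.
-/
import Mathlib
import Fermat.Agent.S36lib.TubeAbs

set_option autoImplicit false
set_option linter.unusedSectionVars false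
set_option linter.unusedVariables false

noncomputable section

namespace Fermat.Agent.S36lib

/-! ### Units of `Λ((X))` -/

section Units

variable {Λ : Type*} [CommRing Λ]

/-- a power series with a unit coefficient in degree `n₀` and nilpotent coefficients below is a
unit of `Λ((X))` -/
theorem ts_isUnit_ofPS (b : PowerSeries Λ) (n₀ : ℕ) (hu : IsUnit (PowerSeries.coeff n₀ b))
    (hn : ∀ j, j < n₀ → IsNilpotent (PowerSeries.coeff j b)) :
    IsUnit (HahnSeries.ofPowerSeries ℤ Λ b) := by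
  have hsplit := PowerSeries.eq_shift_mul_X_pow_add_trunc n₀ b
  set v : PowerSeries Λ := PowerSeries.mk fun i => PowerSeries.coeff (i + n₀) b with hv
  have hvu : IsUnit v := by
    rw [PowerSeries.isUnit_iff_constantCoeff]
    have : PowerSeries.constantCoeff v = PowerSeries.coeff n₀ b := by
      rw [← PowerSeries.coeff_zero_eq_constantCoeff_apply, hv, PowerSeries.coeff_mk, Nat.zero_add]
    rw [this]
    exact hu
  have hnil : IsNilpotent (PowerSeries.trunc n₀ b) := by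
    rw [Polynomial.isNilpotent_iff]
    intro i
    rw [PowerSeries.coeff_trunc]
    split_ifs with h
    · exact hn i h
    · exact IsNilpotent.zero
  have hnil' : IsNilpotent ((PowerSeries.trunc n₀ b : Polynomial Λ) : PowerSeries Λ) :=
    hnil.map (Polynomial.coeToPowerSeries.ringHom (R := Λ))
  have hnil'' : IsNilpotent (HahnSeries.ofPowerSeries ℤ Λ
      ((PowerSeries.trunc n₀ b : Polynomial Λ) : PowerSeries Λ)) :=
    hnil'.map (HahnSeries.ofPowerSeries ℤ Λ)
  have hunit : IsUnit (HahnSeries.ofPowerSeries ℤ Λ (v * PowerSeries.X ^ n₀)) := by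
    rw [map_mul, tube_ofPS_X_pow]
    exact (hvu.map (HahnSeries.ofPowerSeries ℤ Λ)).mul (tube_isUnit_single _)
  rw [hsplit, map_add]
  exact hnil''.isUnit_add_left_of_commute hunit (Commute.all _ _)

/-- over a discrete valuation ring `A₁` with uniformiser `ϖ` nilpotent in `Λ`: every power series
over `A₁` which is not divisible by `ϖ` becomes a unit of `Λ((X))` -/
theorem ts_isUnit_of_not_dvd {A₁ : Type*} [CommRing A₁] [IsDomain A₁]
    [IsDiscreteValuationRing A₁] (π : A₁ →+* Λ) (ϖ : A₁) (hϖ : Irreducible ϖ)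
    (hπ : IsNilpotent (π ϖ)) (b : PowerSeries A₁) (hb : ¬ PowerSeries.C ϖ ∣ b) :
    IsUnit (HahnSeries.ofPowerSeries ℤ Λ (PowerSeries.map π b)) := by
  classical
  have hex : ∃ n, ¬ ϖ ∣ PowerSeries.coeff n b := by
    by_contra hcon
    push Not at hcon
    apply hb
    choose c hc using hcon
    refine ⟨PowerSeries.mk c, ?_⟩
    ext n
    rw [PowerSeries.coeff_C_mul, PowerSeries.coeff_mk, hc n]
  set n₀ := Nat.find hex with hn₀
  have h1 : ¬ ϖ ∣ PowerSeries.coeff n₀ b := Nat.find_spec hex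
  have h2 : ∀ j, j < n₀ → ϖ ∣ PowerSeries.coeff j b := fun j hj => by
    by_contra h
    exact Nat.find_min hex hj h
  refine ts_isUnit_ofPS _ n₀ ?_ ?_
  · rw [PowerSeries.coeff_map]
    refine IsUnit.map π ?_
    rw [← IsLocalRing.notMem_maximalIdeal, hϖ.maximalIdeal_eq, Ideal.mem_span_singleton]
    exact h1
  · intro j hj
    rw [PowerSeries.coeff_map]
    obtain ⟨c, hc⟩ := h2 j hj
    rw [hc, map_mul]
    exact (Commute.all _ _).isNilpotent_mul_right hπ

end Units

/-! ### The reduction of fractions -/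

section Red

variable {𝒜 L Λ : Type*} [CommRing 𝒜] [Field L] [CommRing Λ]
variable (ι : 𝒜 →+* L) (ρA : 𝒜 →+* PowerSeries Λ)

/-- the denominators: elements of `𝒜` whose reduction is a unit of `Λ((X))` -/
def tsDen : Submonoid 𝒜 where
  carrier := {b | IsUnit (HahnSeries.ofPowerSeries ℤ Λ (ρA b))}
  one_mem' := by
    show IsUnit (HahnSeries.ofPowerSeries ℤ Λ (ρA 1))
    rw [map_one, map_one]
    exact isUnit_one
  mul_mem' := by
    intro a b ha hb
    show IsUnit (HahnSeries.ofPowerSeries ℤ Λ (ρA (a * b)))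
    rw [map_mul, map_mul]
    exact ha.mul hb

theorem mem_tsDen {b : 𝒜} : b ∈ tsDen ρA ↔ IsUnit (HahnSeries.ofPowerSeries ℤ Λ (ρA b)) :=
  Iff.rfl

/-- the ring of fractions `a/b`, `b` a denominator, inside `L` -/
def tsV : Subring L where
  carrier := {z | ∃ a b : 𝒜, b ∈ tsDen ρA ∧ z * ι b = ι a}
  mul_mem' := by
    rintro x y ⟨a, b, hb, hx⟩ ⟨c, d, hd, hy⟩
    refine ⟨a * c, b * d, (tsDen ρA).mul_mem hb hd, ?_⟩
    rw [map_mul, map_mul, ← hx, ← hy]; ring
  one_mem' := ⟨1, 1, (tsDen ρA).one_mem, by simp⟩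
  add_mem' := by
    rintro x y ⟨a, b, hb, hx⟩ ⟨c, d, hd, hy⟩
    refine ⟨a * d + c * b, b * d, (tsDen ρA).mul_mem hb hd, ?_⟩
    rw [map_add, map_mul, map_mul, map_mul, ← hx, ← hy]; ring
  zero_mem' := ⟨0, 1, (tsDen ρA).one_mem, by simp⟩
  neg_mem' := by
    rintro x ⟨a, b, hb, hx⟩
    exact ⟨-a, b, hb, by rw [map_neg, ← hx]; ring⟩

theorem mem_tsV {z : L} : z ∈ tsV ι ρA ↔ ∃ a b : 𝒜, b ∈ tsDen ρA ∧ z * ι b = ι a := Iff.rfl

theorem ι_mem_tsV (a : 𝒜) : ι a ∈ tsV ι ρA :=
  ⟨a, 1, (tsDen ρA).one_mem, by rw [map_one, mul_one]⟩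

variable [Nontrivial Λ] (hι : Function.Injective ι)

include hι in
theorem ts_den_ne_zero {b : 𝒜} (hb : b ∈ tsDen ρA) : ι b ≠ 0 := by
  intro h
  have hb0 : b = 0 := hι (by rw [h, map_zero])
  rw [mem_tsDen, hb0, map_zero, map_zero] at hb
  exact not_isUnit_zero hb

/-- the reduction of a fraction, as a function -/
def tsRedFun (z : tsV ι ρA) : LaurentSeries Λ :=
  HahnSeries.ofPowerSeries ℤ Λ (ρA z.2.choose) *
    ((mem_tsDen ρA).mp z.2.choose_spec.choose_spec.1).unit⁻¹

include hι in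
/-- **the defining property of the reduction**, for every representation -/
theorem tsRedFun_spec (z : tsV ι ρA) (a b : 𝒜) (hab : (z : L) * ι b = ι a)
    (hb : IsUnit (HahnSeries.ofPowerSeries ℤ Λ (ρA b))) :
    tsRedFun ι ρA z * HahnSeries.ofPowerSeries ℤ Λ (ρA b) =
      HahnSeries.ofPowerSeries ℤ Λ (ρA a) := by
  set a₀ := z.2.choose with ha₀
  set b₀ := z.2.choose_spec.choose with hb₀
  have hb₀m : b₀ ∈ tsDen ρA := z.2.choose_spec.choose_spec.1
  have h₀ : (z : L) * ι b₀ = ι a₀ := z.2.choose_spec.choose_spec.2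
  have hcross : a₀ * b = a * b₀ := by
    apply hι
    rw [map_mul, map_mul, ← h₀, ← hab]
    ring
  have hcross' : HahnSeries.ofPowerSeries ℤ Λ (ρA a₀) * HahnSeries.ofPowerSeries ℤ Λ (ρA b) =
      HahnSeries.ofPowerSeries ℤ Λ (ρA a) * HahnSeries.ofPowerSeries ℤ Λ (ρA b₀) := by
    rw [← map_mul, ← map_mul, ← map_mul, ← map_mul, hcross]
  have hu : (((mem_tsDen ρA).mp hb₀m).unit : LaurentSeries Λ) =
      HahnSeries.ofPowerSeries ℤ Λ (ρA b₀) := rfl
  show HahnSeries.ofPowerSeries ℤ Λ (ρA a₀) * (((mem_tsDen ρA).mp hb₀m).unit⁻¹ : (LaurentSeries Λ)ˣ)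
      * HahnSeries.ofPowerSeries ℤ Λ (ρA b) = _
  calc HahnSeries.ofPowerSeries ℤ Λ (ρA a₀) * (((mem_tsDen ρA).mp hb₀m).unit⁻¹ : (LaurentSeries Λ)ˣ)
        * HahnSeries.ofPowerSeries ℤ Λ (ρA b)
      = (HahnSeries.ofPowerSeries ℤ Λ (ρA a₀) * HahnSeries.ofPowerSeries ℤ Λ (ρA b)) *
          (((mem_tsDen ρA).mp hb₀m).unit⁻¹ : (LaurentSeries Λ)ˣ) := by ring
    _ = HahnSeries.ofPowerSeries ℤ Λ (ρA a) * ((((mem_tsDen ρA).mp hb₀m).unit : LaurentSeries Λ) *
          (((mem_tsDen ρA).mp hb₀m).unit⁻¹ : (LaurentSeries Λ)ˣ)) := by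
        rw [hcross', hu]; ring
    _ = _ := by rw [Units.mul_inv, mul_one]

include hι in
/-- uniqueness: the reduction is determined by any representation -/
theorem tsRedFun_eq (z : tsV ι ρA) (a b : 𝒜) (hab : (z : L) * ι b = ι a)
    (hb : IsUnit (HahnSeries.ofPowerSeries ℤ Λ (ρA b))) (r : LaurentSeries Λ)
    (hr : r * HahnSeries.ofPowerSeries ℤ Λ (ρA b) = HahnSeries.ofPowerSeries ℤ Λ (ρA a)) :
    tsRedFun ι ρA z = r := by
  have h := tsRedFun_spec ι ρA hι z a b hab hb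
  exact hb.mul_right_cancel (h.trans hr.symm)

/-- **the reduction of fractions** `tsV → Λ((X))` -/
def tsRed : tsV ι ρA →+* LaurentSeries Λ where
  toFun := tsRedFun ι ρA
  map_one' := by
    refine tsRedFun_eq ι ρA hι 1 1 1 (by simp) (by rw [map_one, map_one]; exact isUnit_one) 1 ?_
    rw [one_mul]
  map_zero' := by
    refine tsRedFun_eq ι ρA hι 0 0 1 (by simp) (by rw [map_one, map_one]; exact isUnit_one) 0 ?_
    rw [zero_mul, map_zero, map_zero]
  map_mul' := by
    rintro ⟨x, a, b, hb, hx⟩ ⟨y, c, d, hd, hy⟩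
    refine tsRedFun_eq ι ρA hι _ (a * c) (b * d)
      (by
        show x * y * ι (b * d) = ι (a * c)
        rw [map_mul, map_mul, ← hx, ← hy]; ring)
      ((tsDen ρA).mul_mem hb hd) _ ?_
    have h1 := tsRedFun_spec ι ρA hι ⟨x, a, b, hb, hx⟩ a b hx hb
    have h2 := tsRedFun_spec ι ρA hι ⟨y, c, d, hd, hy⟩ c d hy hd
    rw [map_mul ρA b d, map_mul ρA a c, map_mul, map_mul, ← h1, ← h2]
    ring
  map_add' := by
    rintro ⟨x, a, b, hb, hx⟩ ⟨y, c, d, hd, hy⟩
    refine tsRedFun_eq ι ρA hι _ (a * d + c * b) (b * d)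
      (by
        show (x + y) * ι (b * d) = ι (a * d + c * b)
        rw [map_add, map_mul, map_mul, map_mul, ← hx, ← hy]; ring)
      ((tsDen ρA).mul_mem hb hd) _ ?_
    have h1 := tsRedFun_spec ι ρA hι ⟨x, a, b, hb, hx⟩ a b hx hb
    have h2 := tsRedFun_spec ι ρA hι ⟨y, c, d, hd, hy⟩ c d hy hd
    rw [map_mul ρA b d, map_add ρA, map_mul ρA a d, map_mul ρA c b, map_mul, map_add, map_mul,
      map_mul, ← h1, ← h2]
    ring

theorem tsRed_spec (z : tsV ι ρA) (a b : 𝒜) (hab : (z : L) * ι b = ι a)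
    (hb : IsUnit (HahnSeries.ofPowerSeries ℤ Λ (ρA b))) :
    tsRed ι ρA hι z * HahnSeries.ofPowerSeries ℤ Λ (ρA b) =
      HahnSeries.ofPowerSeries ℤ Λ (ρA a) :=
  tsRedFun_spec ι ρA hι z a b hab hb

/-- on `𝒜` the reduction is `ρA` -/
theorem tsRed_ι (a : 𝒜) :
    tsRed ι ρA hι ⟨ι a, ι_mem_tsV ι ρA a⟩ = HahnSeries.ofPowerSeries ℤ Λ (ρA a) := by
  have h := tsRed_spec ι ρA hι ⟨ι a, ι_mem_tsV ι ρA a⟩ a 1 (by simp)
    (by rw [map_one, map_one]; exact isUnit_one)
  rwa [map_one, map_one, mul_one] at h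

/-! ### The reduction of a ball -/

variable {F : Type*} [Field F] (E : F →+* L) (O : Subring F)
  (hOV : ∀ x : F, x ∈ O → E x ∈ tsV ι ρA)

/-- **the reduction of the ball** `O → Λ((X))`, through the expansion `E` -/
def tsBallRed : O →+* LaurentSeries Λ :=
  (tsRed ι ρA hι).comp ((E.comp O.subtype).codRestrict (tsV ι ρA) fun x => hOV x x.2)

/-- **compatibility with fractions** (the hypothesis `hcompat` of `s36_tube`) -/
theorem tsBallRed_compat (x : O) (a b : 𝒜) (hab : E (x : F) * ι b = ι a)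
    (hb : IsUnit (HahnSeries.ofPowerSeries ℤ Λ (ρA b))) :
    tsBallRed ι ρA hι E O hOV x * HahnSeries.ofPowerSeries ℤ Λ (ρA b) =
      HahnSeries.ofPowerSeries ℤ Λ (ρA a) :=
  tsRed_spec ι ρA hι _ a b hab hb

/-- on elements with an integral expansion the reduction is `ρA` (coefficientwise reduction) -/
theorem tsBallRed_integral (x : O) (a : 𝒜) (hx : E (x : F) = ι a) :
    tsBallRed ι ρA hι E O hOV x = HahnSeries.ofPowerSeries ℤ Λ (ρA a) := by
  have h := tsBallRed_compat ι ρA hι E O hOV x a 1 (by rw [map_one, mul_one, hx])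
    (by rw [map_one, map_one]; exact isUnit_one)
  rwa [map_one, map_one, mul_one] at h

/-- elements with an integral expansion up to a pole of order `n` have reduction of pole order
`≤ n` (the content of `le_P`) -/
theorem tsBallRed_clPole (T : 𝒜) (hT : ρA T = PowerSeries.X) (x : O) (n : ℕ) (Z : 𝒜)
    (hx : E (x : F) * ι (T ^ n) = ι Z) : ClPole n (tsBallRed ι ρA hι E O hOV x) := by
  have hu : IsUnit (HahnSeries.ofPowerSeries ℤ Λ (ρA (T ^ n))) := by
    rw [map_pow, hT, tube_ofPS_X_pow]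
    exact tube_isUnit_single _
  have h := tsBallRed_compat ι ρA hι E O hOV x Z (T ^ n) hx hu
  rw [map_pow, hT, tube_ofPS_X_pow] at h
  have h2 : tsBallRed ι ρA hι E O hOV x =
      HahnSeries.ofPowerSeries ℤ Λ (ρA Z) * HahnSeries.single (-(n : ℤ)) 1 := by
    rw [← h, mul_assoc, tube_single_mul_single, add_neg_cancel, tube_single_zero, mul_one]
  rw [h2]
  exact tube_clPole_ofPS_mul_single _ n

/-- the exact coefficient in degree `-n` of the reduction of `Z / T^n` -/
theorem tsBallRed_coeff (T : 𝒜) (hT : ρA T = PowerSeries.X) (x : O) (n : ℕ) (Z : 𝒜)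
    (hx : E (x : F) * ι (T ^ n) = ι Z) (j : ℕ) :
    (tsBallRed ι ρA hι E O hOV x).coeff ((j : ℤ) - n) = PowerSeries.coeff j (ρA Z) := by
  have hu : IsUnit (HahnSeries.ofPowerSeries ℤ Λ (ρA (T ^ n))) := by
    rw [map_pow, hT, tube_ofPS_X_pow]
    exact tube_isUnit_single _
  have h := tsBallRed_compat ι ρA hι E O hOV x Z (T ^ n) hx hu
  rw [map_pow, hT, tube_ofPS_X_pow] at h
  have h2 : tsBallRed ι ρA hι E O hOV x =
      HahnSeries.ofPowerSeries ℤ Λ (ρA Z) * HahnSeries.single (-(n : ℤ)) 1 := by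
    rw [← h, mul_assoc, tube_single_mul_single, add_neg_cancel, tube_single_zero, mul_one]
  rw [h2, show ((j : ℤ) - n) = (j : ℤ) + (-(n : ℤ)) by ring, HahnSeries.coeff_mul_single_add,
    mul_one, HahnSeries.ofPowerSeries_apply_coeff]

end Red

/-! ### The tube lemma for the reduction by fractions -/

section Tube

variable {𝒜 L F Λ : Type*} [CommRing 𝒜] [IsDomain 𝒜] [UniqueFactorizationMonoid 𝒜]
  [Field L] [Field F] [CommRing Λ]

/-- **TUBE LEMMA for the reduction by fractions** (`hPE` at one cusp). -/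
theorem s36_tube_red [Nontrivial Λ]
    (ι : 𝒜 →+* L) (hι : Function.Injective ι) (E : F →+* L)
    (ρA : 𝒜 →+* PowerSeries Λ) (T : 𝒜) (hT : ρA T = PowerSeries.X)
    (O : Subring F) (hOV : ∀ x : F, x ∈ O → E x ∈ tsV ι ρA)
    (m : ℕ) (hm : IsUnit (m : Λ))
    (hroot : ∀ (r : LaurentSeries Λ) (v : PowerSeries Λ),
      IsUnit (PowerSeries.constantCoeff v) → r ^ m = HahnSeries.ofPowerSeries ℤ Λ v →
      ∃ w : PowerSeries Λ, IsUnit (PowerSeries.constantCoeff w) ∧
        r = HahnSeries.ofPowerSeries ℤ Λ w)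
    (u : O) (hu : tsBallRed ι ρA hι E O hOV u = 1) (d : ℕ) (G : 𝒜)
    (hG : E (u : F) * ι (T ^ (m * d)) = ι G)
    (hdict : ∀ p : 𝒜, Prime p → ¬ IsNilpotent (ρA p) → m ∣ multiplicity p G)
    (x : O) (n : ℕ) (Z : 𝒜) (hZ : E ((x : F) ^ m * (u : F)) * ι (T ^ (m * n)) = ι Z) :
    ClPole n (tsBallRed ι ρA hι E O hOV x) := by
  refine s36_tube ι hι E ρA T hT O (tsBallRed ι ρA hι E O hOV)
    (tsBallRed_compat ι ρA hι E O hOV) m hm hroot u hu d G hG hdict x n Z hZ ?_
  obtain ⟨a, b, hb, hab⟩ := hOV x x.2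
  exact ⟨a, b, fun h => ts_den_ne_zero ι ρA hι hb (by rw [h, map_zero]), hab⟩

end Tube

end Fermat.Agent.S36lib

end
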