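/-
Item 83 (S36), piece F1 of the crux family (helper12).

**`hOV`** for THE concrete family of expansions `CruxFam.lean` (helper16): for every cusp
`i ∈ {inf, mid, zero}` and every `x ∈ F0(M' q²)` in the unit ball of the final setup,
the expansion `cfmEx i x` is a fraction `a / b` of power series over `cfmA1 i = A ∩ cfmK1 i`
whose denominator `b` becomes a unit of `(cfmLam i)((X))`, i.e.
`cfmEx i x ∈ tsV (cfmInc i) (PowerSeries.map (cfmPi i))` (`TubeSeries.lean`).

* `cfo_mem_tsV`     : generic (any `K1`, any valuation ring containing the Gauss unit ball):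
                      from helper8's `tvi_hOV` (`TubeOVInf.lean`) and `ts_isUnit_of_not_dvd`;
* `cfo_const_nonunit`: constants of `A` of value `< 1` are non-units of the valuation ring of a
                      `SeriesVal`;
* `cfo_hOV_inf`, `cfo_hOV_mid`, `cfo_hOV_zero` : the three cusps;
* `cfo_hOV_cusp`    : the three cusps, uniformly in `i`;
* `cfo_hOV`         : for the ball of `s36Final` (`Apply2Final.lean`) = the hypothesis `hOV` of
                      `clExpOfTube`, `tbw_hle`, `tbw_hxu`, `tbw_hPE_a2` (`TubeWire.lean`).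
Complete proofs.
-/
import Mathlib
import Fermat.Agent.S36lib.CruxFam
import Fermat.Agent.S36lib.CruxFamPi
import Fermat.Agent.S36lib.TubeOVInf
import Fermat.Agent.S36lib.TubeSeries
import Fermat.Agent.S36lib.Apply2Final
import Fermat.Agent.S36lib.BallInst

set_option autoImplicit false
set_option linter.unusedSectionVars false
set_option linter.unusedVariables false
set_option linter.style.haveILetI false
set_option synthInstance.maxHeartbeats 400000

noncomputable section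

namespace Fermat.Agent.S36lib

open ModularCurve HahnSeries AlgebraicCurve
open Fermat.Agent.GoodRed Fermat.Agent.S24lib Fermat.Agent.S34lib Fermat.Agent.S37lib

/-! ### Generic part -/

section Generic

/-- a power series with a unit coefficient is not divisible by a non-unit constant -/
theorem cfo_not_C_dvd {A₁ : Type*} [CommRing A₁] (ϖ : A₁) (hϖ : ¬ IsUnit ϖ)
    (b : PowerSeries A₁) (hb : ∃ i, IsUnit (PowerSeries.coeff i b)) :
    ¬ PowerSeries.C ϖ ∣ b := by
  rintro ⟨c, rfl⟩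
  obtain ⟨i, hi⟩ := hb
  rw [PowerSeries.coeff_C_mul] at hi
  exact hϖ (isUnit_of_mul_isUnit_left hi)

variable {A : ValuationSubring Kbar} {L : ℕ} [NeZero L] {E : FF L →+* LaurentSeries Kbar}
  {O : ValuationSubring (FF L)} {K1 : Subfield Kbar} {ϖ : Kbar}

/-- **`hOV`, generic form**: the expansion of an element of `F0(L) ∩ O` lies in the ring of
fractions `tsV`. -/
theorem cfo_mem_tsV (hd : VdDisc A K1 ϖ)
    (hEC : ∀ c : Kbar, E (algebraMap Kbar (FF L) c) = HahnSeries.C c)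
    (hK0 : ∀ c : Kbar, c ∈ k0Field A → c ∈ K1)
    (hgen : ∀ (d : ℕ) [NeZero d] (hd : d ∣ L), VdInt A K1 (E (jdF L d hd)))
    (hO : VdGauss A L E O) (hϖO : algebraMap Kbar (FF L) ϖ ∈ O.nonunits)
    {Λ : Type*} [CommRing Λ] (π : ↥(vdiscRing A K1) →+* Λ) (hπ : IsNilpotent (π (ta1Pi hd)))
    {f : FF L} (hf : f ∈ f0Field A L) (hfO : f ∈ O) :
    E f ∈ tsV (ta1Iota A K1) (PowerSeries.map π) := by
  haveI := ta1_isDVR hd
  obtain ⟨a, b, hb, hab⟩ := tvi_hOV hd hEC hK0 hgen hO hϖO hf hfO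
  refine ⟨a, b, ?_, hab⟩
  rw [mem_tsDen]
  exact ts_isUnit_of_not_dvd π (ta1Pi hd) (ta1_irreducible hd) hπ b
    (cfo_not_C_dvd _ (ta1_irreducible hd).not_isUnit b hb)

/-- constants of `A` of value `< 1` are non-units of the valuation ring of a `SeriesVal` -/
theorem cfo_const_nonunit (v : SeriesVal A L) {c : Kbar} (hc : A.valuation c < 1) :
    algebraMap Kbar (FF L) c ∈ v.O.nonunits := by
  have hcA : c ∈ A := (A.valuation_le_one_iff c).mp hc.le
  have h1 := v.red_algebraMap ⟨c, hcA⟩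
  have h2 : IsLocalRing.residue A ⟨c, hcA⟩ = 0 := by
    rw [IsLocalRing.residue_eq_zero_iff, ValuationSubring.valuation_lt_one_iff]
    exact hc
  rw [h2, map_zero] at h1
  exact (v.red_eq_zero_iff _).mp h1

end Generic

/-! ### The three cusps -/

section Cusps

variable (A : ValuationSubring Kbar) (M' q : ℕ) [NeZero M'] [NeZero q] (hq : q.Prime)
  (hqM : ¬ q ∣ M') (ζ : Kbarˣ) (hζ : IsPrimitiveRoot (ζ : Kbar) q) (hA : A.LiesOverPrime q)

/-- the middle expansion `ecMid` is a middle expansion -/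
theorem cfo_isMidExp : IsMidExp M' q ζ (ecMid M' q hq hqM ζ hζ) :=
  ⟨ecMid_algebraMap M' q hq hqM ζ hζ, ecMid_alpha M' q hq hqM ζ hζ,
    fun Y' => ecMid_pi3 M' q hq hqM ζ hζ Y'⟩

variable {Fk : IntermediateField (IsLocalRing.ResidueField A)
      (LaurentSeries (IsLocalRing.ResidueField A))}
  (R : ConstRed A (IsLocalRing.residue A) (↥Fk) (FF (M' * q * q))) (hR : IsSeriesRed R)

include hR hA hq hζ in
/-- **`hOV` at `∞`** -/
theorem cfo_hOV_inf {f : FF (M' * q * q)} (hf : f ∈ f0Field A (M' * q * q)) (hfO : f ∈ R.O) :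
    ecInf M' q f ∈ tsV (cfmInc A ζ CfmCusp.inf) (PowerSeries.map (cfmPi A q ζ CfmCusp.inf)) :=
  cfo_mem_tsV (E := ecInf M' q) (O := R.O) (vdisc_k0 A q hq hA)
    (fun c => ta1EInf_C (M' * q * q) c) (fun _ hc => hc)
    (fun d _ hd => vdInt_jdF A (M' * q * q) _ d hd) (vdGauss_of_isSeriesRed hR)
    (cfo_const_nonunit (SeriesVal.ofConstRed R) (k0_val_q_lt_one A q hA))
    (cfmPi A q ζ CfmCusp.inf) (cfp_hπ A q hq ζ hζ hA CfmCusp.inf) hf hfO

include hR hA hq hζ in
/-- **`hOV` at `0`** -/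
theorem cfo_hOV_zero {f : FF (M' * q * q)} (hf : f ∈ f0Field A (M' * q * q))
    (hfO : alW2 M' hq hqM f ∈ R.O) :
    ecZero M' q hq hqM f ∈
      tsV (cfmInc A ζ CfmCusp.zero) (PowerSeries.map (cfmPi A q ζ CfmCusp.zero)) :=
  cfo_hOV_inf A M' q hq ζ hζ hA R hR (ta1_ecW_mem_f0Field A M' q hq hqM hf) hfO

include hA in
/-- **`hOV` at the middle cusp** -/
theorem cfo_hOV_mid (hlt : A.valuation (q : Kbar) < 1) (hζq : ζ ^ q = 1)
    (hE : IsMidExp M' q ζ (ecMid M' q hq hqM ζ hζ))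
    {f : FF (M' * q * q)} (hf : f ∈ f0Field A (M' * q * q))
    (hfO : f ∈ vmidO A hq hlt hζq hE) :
    ecMid M' q hq hqM ζ hζ f ∈
      tsV (cfmInc A ζ CfmCusp.mid) (PowerSeries.map (cfmPi A q ζ CfmCusp.mid)) :=
  cfo_mem_tsV (E := ecMid M' q hq hqM ζ hζ) (O := vmidO A hq hlt hζq hE)
    (vdisc_k0_zeta A hq hA hζ) (fun c => ta1_ecMid_C M' q hq hqM ζ hζ c)
    (fun c hc => k0_le_vdiscK1 A (ζ : Kbar) c hc)
    (fun d _ hd => ta1_vdInt_ecMid A M' q hq hqM ζ hζ d hd) (vdGauss_vmidO A hq hlt hζq hE)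
    (cfo_const_nonunit (vmidSV A hq hlt hζq hE) (vdisc_k0_zeta A hq hA hζ).2.2.1)
    (cfmPi A q ζ CfmCusp.mid) (cfp_hπ A q hq ζ hζ hA CfmCusp.mid) hf hfO

include hR hA in
/-- **`hOV` at the three cusps** -/
theorem cfo_hOV_cusp (hlt : A.valuation (q : Kbar) < 1) (hζq : ζ ^ q = 1)
    (hE : IsMidExp M' q ζ (ecMid M' q hq hqM ζ hζ)) (x : f0Field A (M' * q * q))
    (hInf : (x : FF (M' * q * q)) ∈ R.O)
    (hMid : (x : FF (M' * q * q)) ∈ vmidO A hq hlt hζq hE)
    (hZero : alW2 M' hq hqM (x : FF (M' * q * q)) ∈ R.O) (i : CfmCusp) :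
    cfmEx A M' q hq hqM ζ hζ i x ∈ tsV (cfmInc A ζ i) (PowerSeries.map (cfmPi A q ζ i)) := by
  cases i
  · exact cfo_hOV_inf A M' q hq ζ hζ hA R hR x.2 hInf
  · exact cfo_hOV_mid A M' q hq hqM ζ hζ hA hlt hζq hE x.2 hMid
  · exact cfo_hOV_zero A M' q hq hqM ζ hζ hA R hR x.2 hZero

end Cusps

/-! ### The ball of the final setup -/

section Final

variable (A : ValuationSubring Kbar) (M' q : ℕ) [NeZero M'] [NeZero q] (hq : q.Prime)
  (hqM : ¬ q ∣ M') (ζ : Kbarˣ) (hζ : IsPrimitiveRoot (ζ : Kbar) q) (hA : A.LiesOverPrime q)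
  (hζq : ζ ^ q = 1) (hE : IsMidExp M' q ζ (ecMid M' q hq hqM ζ hζ))
  (R : ConstRed A (IsLocalRing.residue A)
      (↥(modularFunctionFieldFullC (IsLocalRing.ResidueField A) M')) (FF (M' * q * q)))
  (hR : IsSeriesRed R)

/-- **F1 = `hOV`** for the family `cfm*` on the unit ball of the final setup `s36Final`. -/
theorem cfo_hOV (i : CfmCusp) (x : f0Field A (M' * q * q))
    (hx : x ∈ (s36Final A M' q hq hqM hA hζq hζ hE R hR).ball) :
    cfmEx A M' q hq hqM ζ hζ i x ∈ tsV (cfmInc A ζ i) (PowerSeries.map (cfmPi A q ζ i)) := by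
  obtain ⟨⟨h1, h2⟩, h3⟩ := hx
  exact cfo_hOV_cusp A M' q hq hqM ζ hζ hA R hR ((A.mem_nonunits_iff).mp hA) hζq hE x
    ((mem_s36Final_vInf A M' q hq hqM hA hζq hζ hE R hR x).mp h1)
    ((mem_s36Final_vMid A M' q hq hqM hA hζq hζ hE R hR x).mp h2)
    ((mem_s36Final_vZero A M' q hq hqM hA hζq hζ hE R hR x).mp h3) i

end Final

end Fermat.Agent.S36lib

end
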