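/-
Item 83 (S36), block CRUX, piece C-3 = (H0), abstract form (helper13).  No gaps in this file.

(H0): on the NON-REDUCED special fibre `R = O / q O` of the model of `X₀(M' q²)` over the discrete
valuation ring `A0`, a function without pole at the cusps is constant:

  `z ∈ B` (integral for the three valuations, regular off the cusps over `∞'`) whose expansions at
  `∞`, at the middle cusp and at `0` have polar coefficients divisible by `q`   ⟹   `z ∈ A0 + q O`.

Proof (helper24, NOTES/S36_regular_helper24.md §4 (h2),(h4)):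
* reduced part: the three reductions of `z` are functions on the level-`M'` curve over `k` without
  poles, hence constants; the three components meet (a node), so the three constants agree; after
  subtracting a constant of `A0` we have `v_∞ z > 0`, `v_mid z > 0`, `v_0 z > 0`;
* `e = 1` at `∞` and at `0`: `z / q` is integral there;
* nilpotent part (`e = q - 1` along the middle component): if `z / q` is not integral for `v_mid`,
  then `Y := z ^ e / q ^ j` (`0 < j < e`) is a `v_mid`-unit, `v_∞ Y > 0`, its middle reduction has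
  no pole (`h0_trick_laurent` below), so it is a constant, which vanishes at the node since
  `red_∞ Y = 0`: contradiction.

Main statements: `H0Data` (the hypotheses), `H0Data.h0`, and the expansion lemma
`h0_trick_laurent` (pure algebra of Laurent series over a domain `Λ` with `ϵ ^ e = u q`).
-/
import Mathlib
import Fermat.Agent.S36lib.Setup
import Fermat.Agent.S34lib.Twist

set_option autoImplicit false

noncomputable section

namespace Fermat.Agent.S36lib

open Fermat.Agent.S34lib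

section Abstract

variable {K : Type*} [Field K] {k : Type*} [Field k]
variable {A : ValuationSubring K} {π : A →+* k} {κ : Type*} [Field κ] [Algebra k κ]
  {F : Type*} [Field F] [Algebra K F]

/-- The hypotheses of (H0) for a `NodeSetup`.  `q` is the uniformiser of `A`, `e` the ramification
index of `v_mid` (`e = q - 1`), `P0 z` says that the polar coefficients of the three expansions of
`z` are divisible by `q`, `NPInf z`, `NPMid z`, `NPZero z` that the reduction of `z` at the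
valuation has no pole at the cusp `∞'` of level `M'`. -/
structure H0Data (S : NodeSetup A π κ F) (q : A) (e : ℕ)
    (P0 NPInf NPMid NPZero : S.B → Prop) : Prop where
  π_surjective : Function.Surjective π
  q_ne_zero : (q : K) ≠ 0
  π_q : π q = 0
  /-- `e(v_∞) = 1` -/
  eInf : ∀ z : F, z ∈ S.vInf.O.nonunits → (algebraMap K F (q : K))⁻¹ * z ∈ S.vInf.O
  /-- `e(v_0) = 1` -/
  eZero : ∀ z : F, z ∈ S.vZero.O.nonunits → (algebraMap K F (q : K))⁻¹ * z ∈ S.vZero.O
  /-- `e(v_mid) ∣ e`: the value group of `v_mid` lies in `(1/e) ℤ v(q)` -/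
  eMid : ∀ z : F, z ∈ S.vMid.O.nonunits → (algebraMap K F (q : K))⁻¹ * z ∈ S.vMid.O ∨
    ∃ j : ℕ, 0 < j ∧ j < e ∧ ((algebraMap K F (q : K))⁻¹) ^ j * z ^ e ∈ S.vMid.O ∧
      ((algebraMap K F (q : K))⁻¹) ^ j * z ^ e ∉ S.vMid.O.nonunits
  /-- `B` is the intersection of the ball with a `K`-subalgebra (the functions regular off the
  cusps over `∞'`) -/
  sat : ∀ z : F, z ∈ S.B → ∀ j : ℕ, ((algebraMap K F (q : K))⁻¹) ^ j * z ∈ S.ball →
    ((algebraMap K F (q : K))⁻¹) ^ j * z ∈ S.B
  /-- the three components have a common point (a node) -/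
  node : S.pInf ⊔ S.pMid ⊔ S.pZero ≠ ⊤
  P0_inf : ∀ z, P0 z → NPInf z
  P0_mid : ∀ z, P0 z → NPMid z
  P0_zero : ∀ z, P0 z → NPZero z
  P0_sub : ∀ (z : S.B) (a : A), P0 z → P0 (z - S.constB a)
  /-- a function on the component `C_∞` without pole is constant -/
  constInf : ∀ z, NPInf z → S.redInf z ∈ Set.range (algebraMap k κ)
  constMid : ∀ z, NPMid z → S.redMid z ∈ Set.range (algebraMap k κ)
  constZero : ∀ z, NPZero z → S.redZero z ∈ Set.range (algebraMap k κ)
  /-- the expansion computation: see `h0_trick_laurent` -/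
  trick : ∀ (z Y : S.B) (j : ℕ), 0 < j → j < e → P0 z → z ∈ S.pInf → z ∈ S.pMid →
    z ∈ S.pZero → (Y : F) = ((algebraMap K F (q : K))⁻¹) ^ j * (z : F) ^ e →
    Y ∈ S.pInf → Y ∈ S.pZero → Y ∉ S.pMid → NPMid Y

namespace H0Data

variable {S : NodeSetup A π κ F} {q : A} {e : ℕ} {P0 NPInf NPMid NPZero : S.B → Prop}

/-- a constant of `A` with nonzero residue is a unit of `B` -/
lemma constB_isUnit (h : H0Data S q e P0 NPInf NPMid NPZero) (a : A) (ha : π a ≠ 0) :
    IsUnit (S.constB a) := by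
  have hmem : ¬ ((a : K) ∈ A.nonunits) := fun hn =>
    ha ((ss_valSubring_map_eq_zero_iff A π h.π_surjective a).mpr hn)
  rw [ValuationSubring.coe_mem_nonunits_iff] at hmem
  have hu : IsUnit a := by
    by_contra hnu
    exact hmem ((IsLocalRing.mem_maximalIdeal a).mpr hnu)
  exact hu.map S.constB

/-- incidence: two constant reductions are the same constant -/
lemma const_eq_of_node (h : H0Data S q e P0 NPInf NPMid NPZero) {I J : Ideal S.B}
    (hI : I ≤ S.pInf ⊔ S.pMid ⊔ S.pZero) (hJ : J ≤ S.pInf ⊔ S.pMid ⊔ S.pZero)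
    (z : S.B) (a b : A) (ha : z - S.constB a ∈ I) (hb : z - S.constB b ∈ J) : π a = π b := by
  by_contra hne
  have hab : π (a - b) ≠ 0 := by rwa [map_sub, sub_ne_zero]
  have hu := h.constB_isUnit (a - b) hab
  have hmem : S.constB (a - b) ∈ S.pInf ⊔ S.pMid ⊔ S.pZero := by
    have : S.constB (a - b) = (z - S.constB b) - (z - S.constB a) := by
      rw [map_sub]; ring
    rw [this]
    exact Ideal.sub_mem _ (hJ hb) (hI ha)
  exact h.node (Ideal.eq_top_of_isUnit_mem _ hmem hu)

lemma pInf_le (S : NodeSetup A π κ F) : S.pInf ≤ S.pInf ⊔ S.pMid ⊔ S.pZero :=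
  le_sup_of_le_left le_sup_left

lemma pMid_le (S : NodeSetup A π κ F) : S.pMid ≤ S.pInf ⊔ S.pMid ⊔ S.pZero :=
  le_sup_of_le_left le_sup_right

lemma pZero_le (S : NodeSetup A π κ F) : S.pZero ≤ S.pInf ⊔ S.pMid ⊔ S.pZero :=
  le_sup_right

/-- `red_∞ z = c` means `z - c̃ ∈ p_∞` -/
lemma sub_mem_pInf (z : S.B) (a : A) (hz : S.redInf z = algebraMap k κ (π a)) :
    z - S.constB a ∈ S.pInf := by
  show S.redInf (z - S.constB a) = 0
  rw [map_sub, S.redInf_constB, hz, sub_self]

lemma sub_mem_pMid (z : S.B) (a : A) (hz : S.redMid z = algebraMap k κ (π a)) :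
    z - S.constB a ∈ S.pMid := by
  show S.redMid (z - S.constB a) = 0
  rw [map_sub, S.redMid_constB, hz, sub_self]

lemma sub_mem_pZero (z : S.B) (a : A) (hz : S.redZero z = algebraMap k κ (π a)) :
    z - S.constB a ∈ S.pZero := by
  show S.redZero (z - S.constB a) = 0
  rw [map_sub, S.redZero_constB, hz, sub_self]

/-- the reduced part of (H0): a function without poles is congruent to a constant modulo the three
primes `p_∞`, `p_mid`, `p_0` -/
theorem exists_const (h : H0Data S q e P0 NPInf NPMid NPZero) (z : S.B) (hI : NPInf z)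
    (hM : NPMid z) (hZ : NPZero z) :
    ∃ a : A, z - S.constB a ∈ S.pInf ∧ z - S.constB a ∈ S.pMid ∧ z - S.constB a ∈ S.pZero := by
  obtain ⟨c₁, hc₁⟩ := h.constInf z hI
  obtain ⟨c₂, hc₂⟩ := h.constMid z hM
  obtain ⟨c₃, hc₃⟩ := h.constZero z hZ
  obtain ⟨a₁, rfl⟩ := h.π_surjective c₁
  obtain ⟨a₂, rfl⟩ := h.π_surjective c₂
  obtain ⟨a₃, rfl⟩ := h.π_surjective c₃
  have h1 := sub_mem_pInf z a₁ hc₁.symm
  have h2 := sub_mem_pMid z a₂ hc₂.symm
  have h3 := sub_mem_pZero z a₃ hc₃.symm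
  have e12 : π a₁ = π a₂ := h.const_eq_of_node (pInf_le S) (pMid_le S) z a₁ a₂ h1 h2
  have e13 : π a₁ = π a₃ := h.const_eq_of_node (pInf_le S) (pZero_le S) z a₁ a₃ h1 h3
  refine ⟨a₁, h1, ?_, ?_⟩
  · exact sub_mem_pMid z a₁ (by rw [e12]; exact hc₂.symm)
  · exact sub_mem_pZero z a₁ (by rw [e13]; exact hc₃.symm)

/-- `q` is a nonunit of `O_∞` -/
lemma q_mem_nonunits_inf (h : H0Data S q e P0 NPInf NPMid NPZero) :
    algebraMap K F (q : K) ∈ S.vInf.O.nonunits := by
  have := (S.mem_pInf_iff (S.constB q)).mp (by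
    show S.redInf (S.constB q) = 0
    rw [S.redInf_constB, h.π_q, map_zero])
  simpa using this

lemma qF_ne_zero (h : H0Data S q e P0 NPInf NPMid NPZero) : algebraMap K F (q : K) ≠ 0 :=
  (map_ne_zero (algebraMap K F)).mpr h.q_ne_zero

/-- **(H0)**: an element of `B` whose expansions have polar coefficients divisible by `q` is
congruent to a constant modulo `q O`. -/
theorem h0 (h : H0Data S q e P0 NPInf NPMid NPZero) (z : S.B) (hz : P0 z) :
    ∃ (a : A) (w : F), w ∈ S.ball ∧
      (z : F) - algebraMap K F (a : K) = algebraMap K F (q : K) * w := by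
  obtain ⟨a, h1, h2, h3⟩ := h.exists_const z (h.P0_inf z hz) (h.P0_mid z hz) (h.P0_zero z hz)
  set z' : S.B := z - S.constB a with hz'
  have hP : P0 z' := h.P0_sub z a hz
  have hq0 := h.qF_ne_zero
  set Q : F := algebraMap K F (q : K) with hQ
  have hcoe : ((z' : S.B) : F) = (z : F) - algebraMap K F (a : K) := by
    rw [hz']
    rfl
  have n1 : (z' : F) ∈ S.vInf.O.nonunits := (S.mem_pInf_iff z').mp h1
  have n2 : (z' : F) ∈ S.vMid.O.nonunits := (S.mem_pMid_iff z').mp h2
  have n3 : (z' : F) ∈ S.vZero.O.nonunits := (S.mem_pZero_iff z').mp h3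
  have i1 : Q⁻¹ * (z' : F) ∈ S.vInf.O := h.eInf _ n1
  have i3 : Q⁻¹ * (z' : F) ∈ S.vZero.O := h.eZero _ n3
  have key : Q⁻¹ * (z' : F) ∈ S.vMid.O := by
    rcases h.eMid _ n2 with hmid | ⟨j, hj0, hje, hYmem, hYunit⟩
    · exact hmid
    · exfalso
      -- the element `Y = z' ^ e / q ^ j`
      have hYeq : Q⁻¹ ^ j * (z' : F) ^ e = (Q⁻¹ * (z' : F)) ^ e * Q ^ (e - j) := by
        have hsplit : Q ^ e = Q ^ j * Q ^ (e - j) := by
          rw [← pow_add, Nat.add_sub_cancel' hje.le]
        rw [mul_pow, inv_pow, inv_pow]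
        have : (Q ^ e)⁻¹ * (z' : F) ^ e * Q ^ (e - j) = (Q ^ j)⁻¹ * (z' : F) ^ e := by
          rw [hsplit]
          have hj' : Q ^ j ≠ 0 := pow_ne_zero _ hq0
          have hej' : Q ^ (e - j) ≠ 0 := pow_ne_zero _ hq0
          field_simp
        rw [this]
      have hQpow : ∀ (v : ValuationSubring F), Q ∈ v.nonunits → Q⁻¹ * (z' : F) ∈ v →
          Q⁻¹ ^ j * (z' : F) ^ e ∈ v.nonunits := by
        intro v hQv hzv
        rw [hYeq]
        have hpos : 0 < e - j := Nat.sub_pos_of_lt hje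
        have hQmem : Q ∈ v := v.nonunits_le hQv
        have hQn : Q ^ (e - j) ∈ v.nonunits := by
          rw [ValuationSubring.mem_nonunits_iff_exists_mem_maximalIdeal]
          refine ⟨v.pow_mem hQmem _, ?_⟩
          have hQm : (⟨Q, hQmem⟩ : v) ∈ IsLocalRing.maximalIdeal v :=
            (ValuationSubring.mem_nonunits_iff_exists_mem_maximalIdeal.mp hQv).choose_spec
          have := Ideal.pow_mem_of_mem (IsLocalRing.maximalIdeal v) hQm (e - j) hpos
          exact this
        rw [ValuationSubring.mem_nonunits_iff_exists_mem_maximalIdeal] at hQn ⊢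
        obtain ⟨hm, hmm⟩ := hQn
        refine ⟨v.mul_mem _ _ (v.pow_mem hzv e) hm, ?_⟩
        have := Ideal.mul_mem_left (IsLocalRing.maximalIdeal v)
          (⟨(Q⁻¹ * (z' : F)) ^ e, v.pow_mem hzv e⟩ : v) hmm
        exact this
      have hQI : Q ∈ S.vInf.O.nonunits := h.q_mem_nonunits_inf
      have hQZ : Q ∈ S.vZero.O.nonunits := by
        have := (S.mem_pZero_iff (S.constB q)).mp (by
          show S.redZero (S.constB q) = 0
          rw [S.redZero_constB, h.π_q, map_zero])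
        simpa using this
      have yI := hQpow S.vInf.O hQI i1
      have yZ := hQpow S.vZero.O hQZ i3
      have hball : Q⁻¹ ^ j * (z' : F) ^ e ∈ S.ball :=
        ⟨⟨S.vInf.O.nonunits_le yI, hYmem⟩, S.vZero.O.nonunits_le yZ⟩
      have hB : Q⁻¹ ^ j * (z' : F) ^ e ∈ S.B :=
        h.sat _ (S.B.pow_mem z'.2 e) j hball
      set Y : S.B := ⟨_, hB⟩ with hY
      have hYI : Y ∈ S.pInf := (S.mem_pInf_iff Y).mpr yI
      have hYZ : Y ∈ S.pZero := (S.mem_pZero_iff Y).mpr yZ
      have hYM0 : Y ∉ S.pMid := fun hm => hYunit ((S.mem_pMid_iff Y).mp hm)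
      have hNP : NPMid Y := h.trick z' Y j hj0 hje hP h1 h2 h3 rfl hYI hYZ hYM0
      obtain ⟨c, hc⟩ := h.constMid Y hNP
      obtain ⟨b, rfl⟩ := h.π_surjective c
      have hYM : Y - S.constB b ∈ S.pMid := sub_mem_pMid Y b hc.symm
      have hY0 : Y - S.constB 0 ∈ S.pInf := by simpa using hYI
      have hb0 : π 0 = π b := h.const_eq_of_node (pInf_le S) (pMid_le S) Y 0 b hY0 hYM
      have hYM' : Y ∈ S.pMid := by
        have : S.redMid Y = 0 := by rw [← hc, ← hb0, map_zero, map_zero]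
        exact this
      exact hYunit ((S.mem_pMid_iff Y).mp hYM')
  refine ⟨a, Q⁻¹ * (z' : F), ⟨⟨i1, key⟩, i3⟩, ?_⟩
  rw [← hcoe, mul_inv_cancel_left₀ hq0]

/-- **(H0) in the form of `CnrPole.h0`**: for a semistable reduction `S₀` (any reduction ring
`R`, e.g. `O / q O`) whose unit ball contains the ball of the `NodeSetup`, an element of
`red (V ∩ O)` (`V = L(c D₁)`, all of whose integral elements lie in `B`) satisfying the pole
condition `Pr` (`r ∈ P 0`) is a constant. -/
theorem h0_redSp (h : H0Data S q e P0 NPInf NPMid NPZero) {R : Type*} [CommRing R]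
    [Algebra k R] (S₀ : SSRed A π R F) (hO : ∀ x : F, x ∈ S.ball → x ∈ S₀.O)
    (V : Submodule K F) (hV : ∀ x : S₀.O, (x : F) ∈ V → (x : F) ∈ S.B) (Pr : R → Prop)
    (hP : ∀ (z : S.B) (hz : (z : F) ∈ S₀.O), Pr (S₀.red ⟨(z : F), hz⟩) → P0 z)
    (r : R) (hr : r ∈ S₀.redSp V) (hPr : Pr r) : r ∈ Set.range (algebraMap k R) := by
  obtain ⟨x, hxV, rfl⟩ := hr
  obtain ⟨a, w, hw, hzw⟩ := h.h0 ⟨(x : F), hV x hxV⟩ (hP ⟨(x : F), hV x hxV⟩ x.2 hPr)
  refine ⟨π a, ?_⟩
  have hx : x = S₀.C a + S₀.C q * ⟨w, hO w hw⟩ := by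
    apply Subtype.ext
    show (x : F) = algebraMap K F (a : K) + algebraMap K F (q : K) * w
    rw [← hzw]
    show (x : F) = algebraMap K F (a : K) + ((x : F) - algebraMap K F (a : K))
    ring
  rw [hx, map_add, map_mul, S₀.red_C, S₀.red_C, h.π_q, map_zero, zero_mul, add_zero]

end H0Data

end Abstract

/-! ### The expansion computation behind `H0Data.trick` -/

section Laurent

variable {Λ : Type*} [CommRing Λ]

/-- Laurent series all of whose coefficients are divisible by `x` and whose polar coefficients are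
divisible by `y`. -/
def H0Div (x y : Λ) (G : LaurentSeries Λ) : Prop :=
  (∀ n : ℤ, x ∣ G.coeff n) ∧ ∀ n : ℤ, n < 0 → y ∣ G.coeff n

theorem h0Div_one (y : Λ) : H0Div 1 y (1 : LaurentSeries Λ) := by
  refine ⟨fun n => one_dvd _, fun n hn => ?_⟩
  rw [HahnSeries.coeff_one, if_neg hn.ne]
  exact dvd_zero y

/-- the product rule: if the polar coefficients of `G` are divisible by `y` and those of `H` by
`y'`, then the polar coefficients of `G H` are divisible by every `w` dividing `y x'` and `x y'` -/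
theorem h0Div_mul {x y x' y' w : Λ} {G H : LaurentSeries Λ} (hG : H0Div x y G)
    (hH : H0Div x' y' H) (h1 : w ∣ y * x') (h2 : w ∣ x * y') : H0Div (x * x') w (G * H) := by
  constructor
  · intro n
    rw [HahnSeries.coeff_mul]
    exact Finset.dvd_sum fun ij _ => mul_dvd_mul (hG.1 _) (hH.1 _)
  · intro n hn
    rw [HahnSeries.coeff_mul]
    refine Finset.dvd_sum fun ij hij => ?_
    have hsum : ij.1 + ij.2 = n := (Finset.mem_antidiagonal.mp hij).2.2
    by_cases h : ij.1 < 0
    · exact h1.trans (mul_dvd_mul (hG.2 _ h) (hH.1 _))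
    · have h' : ij.2 < 0 := by omega
      exact h2.trans (mul_dvd_mul (hG.1 _) (hH.2 _ h'))

/-- powers: `G ∈ H0Div (ϵ^j) (ϵ^(j+d))` implies `G^i ∈ H0Div (ϵ^(i j)) (ϵ^(i j + d))`, `i ≥ 1` -/
theorem h0Div_pow (ϵ : Λ) (j d : ℕ) {G : LaurentSeries Λ} (hG : H0Div (ϵ ^ j) (ϵ ^ (j + d)) G)
    (i : ℕ) : H0Div (ϵ ^ ((i + 1) * j)) (ϵ ^ ((i + 1) * j + d)) (G ^ (i + 1)) := by
  induction i with
  | zero => simpa using hG
  | succ i ih =>
    have h := h0Div_mul (w := ϵ ^ ((i + 1 + 1) * j + d)) ih hG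
      (by rw [← pow_add]; exact pow_dvd_pow ϵ (by ring_nf; omega))
      (by rw [← pow_add]; exact pow_dvd_pow ϵ (by ring_nf; omega))
    rw [← pow_add] at h
    have e1 : (i + 1) * j + j = (i + 1 + 1) * j := by ring
    rw [e1] at h
    rw [pow_succ G (i + 1)]
    exact h

/-- **the trick, on expansions.**  `Λ` a domain with `ϵ ^ e = u q`, `u` a unit (`Λ = A0[ζ]`,
`ϵ = ζ - 1`, `e = q - 1`).  Let `G` (the middle expansion of `z`) have all coefficients divisible
by `ϵ ^ j` (`v_mid z ≥ j/e`) and polar coefficients divisible by `q`, `0 < j < e`.  Then the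
polar coefficients of `Y = G ^ e / q ^ j` are divisible by `ϵ`: the reduction of `Y` has no
pole. -/
theorem h0_trick_laurent [IsDomain Λ] (ϵ q u : Λ) (e j : ℕ) (hϵ : ϵ ^ e = u * q) (hu : IsUnit u)
    (hq : q ≠ 0) (hje : j < e) (G Y : LaurentSeries Λ)
    (hG : ∀ n : ℤ, ϵ ^ j ∣ G.coeff n) (hpol : ∀ n : ℤ, n < 0 → q ∣ G.coeff n)
    (hY : HahnSeries.C (q ^ j) * Y = G ^ e) : ∀ n : ℤ, n < 0 → ϵ ∣ Y.coeff n := by
  intro n hn
  obtain ⟨d, hd⟩ : ∃ d, e = j + (d + 1) := ⟨e - j - 1, by omega⟩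
  obtain ⟨u', hu'⟩ := hu.exists_right_inv
  have hqdvd : ϵ ^ e ∣ q := ⟨u', by rw [hϵ]; linear_combination (-q) * hu'⟩
  have hG' : H0Div (ϵ ^ j) (ϵ ^ (j + (d + 1))) G :=
    ⟨hG, fun n hn => (hd ▸ hqdvd).trans (hpol n hn)⟩
  obtain ⟨e', he'⟩ : ∃ e', e = e' + 1 := ⟨e - 1, by omega⟩
  have hpow := (h0Div_pow ϵ j (d + 1) hG' e').2 n hn
  rw [← he', ← hY, HahnSeries.C_mul_eq_smul, HahnSeries.coeff_smul, smul_eq_mul] at hpow
  -- `ϵ ^ (e j + d + 1) ∣ q ^ j * Y_n` and `ϵ ^ (e j) = u ^ j q ^ j`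
  have hej : ϵ ^ (e * j) = u ^ j * q ^ j := by rw [pow_mul, hϵ, mul_pow]
  obtain ⟨t, ht⟩ := hpow
  have hsplit : ϵ ^ (e * j + (d + 1)) = q ^ j * (u ^ j * ϵ ^ d * ϵ) := by
    rw [pow_add, hej, pow_succ]; ring
  rw [hsplit, mul_assoc] at ht
  have hqj : q ^ j ≠ 0 := pow_ne_zero _ hq
  have := mul_left_cancel₀ hqj ht
  rw [this]
  exact ⟨u ^ j * ϵ ^ d * t, by ring⟩

end Laurent

end Fermat.Agent.S36lib

end
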