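/-
Item 83 (S36), block CRUX, piece C-3e = (H0) ASSEMBLED (helper13).  No gaps in this file.

* `G3Data.bc`: the components `G3Data` pass to the base change `BC.toSSRed` (helper3) of a
  semistable reduction `S₀` over `(K₀, A₀, F₀)`; `g3bc_const`: the constants lemma `g3_const`
  with all elements at the `K₀`-level (Riemann–Roch is used over `K`).
* `H0G3`: the concrete hypotheses; `h0_of_g3`: the hypothesis `hh0` of `cbc_cnrPole` /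
  `cbc_kummer` (helper16, `CruxBC.lean`):
    `∀ c r, r ∈ S₀.redSp (V₀ c) → Pr r → r ∈ Set.range (algebraMap k R)`
  (`Pr r` = "`r ∈ E.P 0`": no pole in the three reduced expansions).
  Proof: `H0Data.h0` (C-3) with the constants from the growth lemma (C-3b, C-3c, C-3d).
-/
import Mathlib
import Fermat.Agent.S36lib.G3Inst
import Fermat.Agent.S36lib.H0Abs
import Fermat.Agent.S36lib.CruxBC

set_option autoImplicit false

noncomputable section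

namespace Fermat.Agent.S36lib

open AlgebraicCurve Fermat.Agent.RRlib Fermat.Agent.GoodRed Fermat.Agent.S34lib

variable {K₀ K F₀ F k : Type*} [Field K₀] [Field K] [Field F₀] [Field F] [Field k]
  [Algebra K₀ F₀] [Algebra K F]
variable {R : Type*} [CommRing R] [Algebra k R]
variable {A₀ : ValuationSubring K₀} {π₀ : A₀ →+* k}
variable {A : ValuationSubring K} {π : A →+* k} {S₀ : SSRed A₀ π₀ R F₀}
variable {κ : Type*} [Field κ] [Algebra k κ] {τ : Type*} {e : ℕ}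

/-- the components pass to the base change -/
def G3Data.bc (G : G3Data S₀ κ τ e) (BC : BCData S₀ A π F) : G3Data BC.toSSRed κ τ e where
  ρT := G.ρT
  ρM := G.ρM
  η := BC.up G.η
  η_T := fun t => by rw [BC.red_up]; exact G.η_T t
  liftT := fun t w => by
    obtain ⟨x, h1, h2, h3⟩ := G.liftT t w
    exact ⟨BC.up x, by rw [BC.red_up]; exact h1, fun t' ht' => by rw [BC.red_up]; exact h2 t' ht',
      by rw [BC.red_up]; exact h3⟩
  liftM := fun w => by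
    obtain ⟨x, h1, h2⟩ := G.liftM w
    exact ⟨BC.up x, by rw [BC.red_up]; exact h1, fun t => by rw [BC.red_up]; exact h2 t⟩
  indep := fun x hx hsum => G.indep x hx (by rw [BC.red_up] at hsum; exact hsum)

/-- **constants, `K₀`-level form**: `x, z ∈ O₀` with `ιF x, ιF z ∈ L(B)`, `x` exact. -/
theorem g3bc_const [RRHyp K F] [RRHyp k κ] [Fintype τ] (BC : BCData S₀ A π F)
    (G : G3Data S₀ κ τ e) (he : 0 < e) (Q : Place k κ) {B : Divisor K F} (hB : 0 ≤ B)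
    (NT : τ → ℤ) (NM : ℤ) (hNT : ∀ t, 1 ≤ NT t) (hNM : 1 ≤ NM)
    (hdeg : Divisor.degree B ≤ (∑ t, NT t) + (e : ℤ) * NM)
    (x : S₀.O) (hx : BC.ιF ((x : S₀.O) : F₀) ∈ riemannRochSpace (K := K) B)
    (hxT : ∀ t, Q.ord (G.ρT t (S₀.red x)) ≤ -NT t) (hxM : Q.ord (G.ρM (S₀.red x)) ≤ -NM)
    (z : S₀.O) (hz : BC.ιF ((z : S₀.O) : F₀) ∈ riemannRochSpace (K := K) B)
    (hzT : ∀ t, 0 ≤ Q.ord (G.ρT t (S₀.red z))) (hzM : 0 ≤ Q.ord (G.ρM (S₀.red z))) :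
    (∀ t, G.ρT t (S₀.red z) ∈ Set.range (algebraMap k κ)) ∧
      G.ρM (S₀.red z) ∈ Set.range (algebraMap k κ) := by
  have h := g3_const (G.bc BC) he Q hB NT NM hNT hNM hdeg (BC.up x) hx
    (fun t => by
      show Q.ord (G.ρT t (BC.toSSRed.red (BC.up x))) ≤ _
      rw [BC.red_up]; exact hxT t)
    (by
      show Q.ord (G.ρM (BC.toSSRed.red (BC.up x))) ≤ _
      rw [BC.red_up]; exact hxM)
    (BC.up z) hz
    (fun t => by
      show 0 ≤ Q.ord (G.ρT t (BC.toSSRed.red (BC.up z)))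
      rw [BC.red_up]; exact hzT t)
    (by
      show 0 ≤ Q.ord (G.ρM (BC.toSSRed.red (BC.up z)))
      rw [BC.red_up]; exact hzM)
  constructor
  · intro t
    have := h.1 t
    change G.ρT t (BC.toSSRed.red (BC.up z)) ∈ _ at this
    rwa [BC.red_up] at this
  · have := h.2
    change G.ρM (BC.toSSRed.red (BC.up z)) ∈ _ at this
    rwa [BC.red_up] at this

/-- The concrete hypotheses of (H0).  `S` the `NodeSetup` over `A₀`, `S₀` the semistable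
reduction on its ball (`R = O/qO`), `BC` the base change to `K`, `Q` the cusp `∞'` of `κ`,
`V₀ c` the `K₀`-form of `L(c D₁)`, `Pr r` the pole condition "`r ∈ P 0`". -/
structure H0G3 (S : NodeSetup A₀ π₀ κ F₀) (S₀ : SSRed A₀ π₀ R F₀) (q : A₀) (e : ℕ)
    (BC : BCData S₀ A π F) (Q : Place k κ) (V₀ : ℕ → Submodule K₀ F₀) (Pr : R → Prop) :
    Prop where
  hyp : G3Hyp S S₀ q e
  /-- `e(v_∞) = 1` -/
  eInf : ∀ z : F₀, z ∈ S.vInf.O.nonunits → (algebraMap K₀ F₀ (q : K₀))⁻¹ * z ∈ S.vInf.O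
  /-- `e(v_0) = 1` -/
  eZero : ∀ z : F₀, z ∈ S.vZero.O.nonunits → (algebraMap K₀ F₀ (q : K₀))⁻¹ * z ∈ S.vZero.O
  /-- the value group of `v_mid` lies in `(1/e) ℤ v(q)` -/
  eMid : ∀ z : F₀, z ∈ S.vMid.O.nonunits → (algebraMap K₀ F₀ (q : K₀))⁻¹ * z ∈ S.vMid.O ∨
    ∃ j : ℕ, 0 < j ∧ j < e ∧ ((algebraMap K₀ F₀ (q : K₀))⁻¹) ^ j * z ^ e ∈ S.vMid.O ∧
      ((algebraMap K₀ F₀ (q : K₀))⁻¹) ^ j * z ^ e ∉ S.vMid.O.nonunits
  sat : ∀ z : F₀, z ∈ S.B → ∀ j : ℕ, ((algebraMap K₀ F₀ (q : K₀))⁻¹) ^ j * z ∈ S.ball →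
    ((algebraMap K₀ F₀ (q : K₀))⁻¹) ^ j * z ∈ S.B
  /-- the three components have a common point -/
  node : S.pInf ⊔ S.pMid ⊔ S.pZero ≠ ⊤
  one_mem : ∀ c, (1 : F₀) ∈ V₀ c
  mul_mem : ∀ (a b : ℕ) (x y : F₀), x ∈ V₀ a → y ∈ V₀ b → x * y ∈ V₀ (a + b)
  mem_B : ∀ (c : ℕ) (x : F₀), x ∈ V₀ c → x ∈ S.ball → x ∈ S.B
  /-- the EXACT element: `x ∈ L(B₁) ∩ O₀` whose reductions have poles of order `N_v` at `Q`,
  `deg B₁ ≤ N_∞ + e N_mid + N_0`, and every `V₀ c` lies in some `L(j B₁)` -/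
  exact : ∃ (B₁ : Divisor K F) (x : S₀.O) (NI NM NZ : ℤ), 0 ≤ B₁ ∧ 1 ≤ NI ∧ 1 ≤ NM ∧ 1 ≤ NZ ∧
    Divisor.degree B₁ ≤ NI + (e : ℤ) * NM + NZ ∧
    BC.ιF ((x : S₀.O) : F₀) ∈ riemannRochSpace (K := K) B₁ ∧
    Q.ord (hyp.ρI (S₀.red x)) ≤ -NI ∧ Q.ord (hyp.ρM (S₀.red x)) ≤ -NM ∧
    Q.ord (hyp.ρZ (S₀.red x)) ≤ -NZ ∧
    ∀ (c : ℕ) (z : F₀), z ∈ V₀ c → ∃ j : ℕ, BC.ιF z ∈ riemannRochSpace (K := K) (j • B₁)
  /-- the order dictionary: no polar coefficient ⇒ no pole of the reductions at `Q` -/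
  dict : ∀ (c : ℕ) (z : S₀.O), ((z : S₀.O) : F₀) ∈ V₀ c → Pr (S₀.red z) →
    0 ≤ Q.ord (hyp.ρI (S₀.red z)) ∧ 0 ≤ Q.ord (hyp.ρM (S₀.red z)) ∧
      0 ≤ Q.ord (hyp.ρZ (S₀.red z))
  Pr_sub : ∀ (r : R) (c : k), Pr r → Pr (r - algebraMap k R c)
  /-- the expansion computation (`h0_trick_laurent`) -/
  trickOrd : ∀ (c : ℕ) (z Y : S₀.O) (j : ℕ), 0 < j → j < e → ((z : S₀.O) : F₀) ∈ V₀ c →
    Pr (S₀.red z) → hyp.ρI (S₀.red z) = 0 → hyp.ρM (S₀.red z) = 0 → hyp.ρZ (S₀.red z) = 0 →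
    ((Y : S₀.O) : F₀) = ((algebraMap K₀ F₀ (q : K₀))⁻¹) ^ j * ((z : S₀.O) : F₀) ^ e →
    hyp.ρM (S₀.red Y) ≠ 0 → 0 ≤ Q.ord (hyp.ρM (S₀.red Y))

namespace H0G3

variable {S : NodeSetup A₀ π₀ κ F₀} {q : A₀} {BC : BCData S₀ A π F} {Q : Place k κ}
  {V₀ : ℕ → Submodule K₀ F₀} {Pr : R → Prop}

/-- an element of `B`, as an element of the ball of `S₀` -/
def toO (h : H0G3 S S₀ q e BC Q V₀ Pr) (z : S.B) : S₀.O :=
  ⟨(z : F₀), h.hyp.le_O (S.B_le_ball z.2)⟩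

theorem ρI_toO (h : H0G3 S S₀ q e BC Q V₀ Pr) (z : S.B) :
    h.hyp.ρI (S₀.red (h.toO z)) = S.redInf z := h.hyp.ρI_red _

theorem ρM_toO (h : H0G3 S S₀ q e BC Q V₀ Pr) (z : S.B) :
    h.hyp.ρM (S₀.red (h.toO z)) = S.redMid z := h.hyp.ρM_red _

theorem ρZ_toO (h : H0G3 S S₀ q e BC Q V₀ Pr) (z : S.B) :
    h.hyp.ρZ (S₀.red (h.toO z)) = S.redZero z := h.hyp.ρZ_red _

/-- constants lie in every `V₀ c` -/
theorem const_mem (h : H0G3 S S₀ q e BC Q V₀ Pr) (c : ℕ) (a : K₀) :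
    algebraMap K₀ F₀ a ∈ V₀ c := by
  rw [Algebra.algebraMap_eq_smul_one]
  exact (V₀ c).smul_mem a (h.one_mem c)

theorem pow_mem (h : H0G3 S S₀ q e BC Q V₀ Pr) {c : ℕ} {z : F₀} (hz : z ∈ V₀ c) (n : ℕ) :
    z ^ n ∈ V₀ (n * c) := by
  induction n with
  | zero => rw [pow_zero]; exact h.one_mem _
  | succ n ih =>
    rw [pow_succ, Nat.succ_mul]
    exact h.mul_mem _ _ _ _ ih hz

/-- the pole condition on `B` -/
def P0 (h : H0G3 S S₀ q e BC Q V₀ Pr) (z : S.B) : Prop :=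
  (∃ c, ((z : S.B) : F₀) ∈ V₀ c) ∧ Pr (S₀.red (h.toO z))

/-- no pole of the three reductions at `Q` -/
def NP (_h : H0G3 S S₀ q e BC Q V₀ Pr) (z : S.B) : Prop :=
  (∃ c, ((z : S.B) : F₀) ∈ V₀ c) ∧ 0 ≤ Q.ord (S.redInf z) ∧ 0 ≤ Q.ord (S.redMid z) ∧
    0 ≤ Q.ord (S.redZero z)

theorem P0_NP (h : H0G3 S S₀ q e BC Q V₀ Pr) (z : S.B) (hz : h.P0 z) : h.NP z := by
  obtain ⟨⟨c, hc⟩, hPr⟩ := hz
  obtain ⟨h1, h2, h3⟩ := h.dict c (h.toO z) hc hPr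
  rw [h.ρI_toO] at h1
  rw [h.ρM_toO] at h2
  rw [h.ρZ_toO] at h3
  exact ⟨⟨c, hc⟩, h1, h2, h3⟩

/-- the three reductions of an element without pole at `Q` are constants -/
theorem const_of_NP [RRHyp K F] [RRHyp k κ] (h : H0G3 S S₀ q e BC Q V₀ Pr) (z : S.B)
    (hz : h.NP z) :
    S.redInf z ∈ Set.range (algebraMap k κ) ∧ S.redMid z ∈ Set.range (algebraMap k κ) ∧
      S.redZero z ∈ Set.range (algebraMap k κ) := by
  obtain ⟨⟨c, hc⟩, hI, hM, hZ⟩ := hz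
  obtain ⟨G, hGI, hGZ, hGM⟩ := h.hyp.g3_exists
  obtain ⟨B₁, x, NI, NM, NZ, hB₁, hNI, hNM, hNZ, hdeg, hxL, hxI, hxM, hxZ, hVL⟩ := h.exact
  obtain ⟨j, hj⟩ := hVL c _ hc
  have hjB : j • B₁ ≤ (j + 1) • B₁ := gr_nsmul_le hB₁ (Nat.le_succ j)
  have hzL : BC.ιF (((h.toO z : S₀.O)) : F₀) ∈ riemannRochSpace (K := K) ((j + 1) • B₁) :=
    riemannRochSpace_mono hjB hj
  have hxL' : BC.ιF (((x ^ (j + 1) : S₀.O) : S₀.O) : F₀) ∈
      riemannRochSpace (K := K) ((j + 1) • B₁) := by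
    have : BC.ιF (((x ^ (j + 1) : S₀.O) : S₀.O) : F₀) = (BC.ιF ((x : S₀.O) : F₀)) ^ (j + 1) := by
      rw [← map_pow]
      rfl
    rw [this]
    exact gr_pow_mem hxL _
  have hj1 : (1 : ℤ) ≤ ((j + 1 : ℕ) : ℤ) := by exact_mod_cast Nat.succ_pos j
  have hord : ∀ (ρ : R →ₐ[k] κ) (N : ℤ), 1 ≤ N → Q.ord (ρ (S₀.red x)) ≤ -N →
      Q.ord (ρ (S₀.red (x ^ (j + 1)))) ≤ -(((j + 1 : ℕ) : ℤ) * N) ∧
        1 ≤ ((j + 1 : ℕ) : ℤ) * N := by
    intro ρ N hN hx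
    rw [map_pow, map_pow, tw_ord_pow]
    constructor
    · nlinarith
    · nlinarith
  have hres := g3bc_const BC G h.hyp.e_pos Q (B := (j + 1) • B₁)
    (nsmul_nonneg hB₁ _)
    (fun t => ((j + 1 : ℕ) : ℤ) * (if t then NI else NZ)) (((j + 1 : ℕ) : ℤ) * NM)
    (fun t => by
      cases t
      · simpa using (hord h.hyp.ρZ NZ hNZ hxZ).2
      · simpa using (hord h.hyp.ρI NI hNI hxI).2)
    (hord h.hyp.ρM NM hNM hxM).2
    (by
      rw [map_nsmul, Fintype.sum_bool, nsmul_eq_mul]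
      simp only [if_true, if_false, Bool.false_eq_true]
      nlinarith)
    (x ^ (j + 1)) hxL'
    (fun t => by
      cases t
      · rw [hGZ]; simpa using (hord h.hyp.ρZ NZ hNZ hxZ).1
      · rw [hGI]; simpa using (hord h.hyp.ρI NI hNI hxI).1)
    (by rw [hGM]; exact (hord h.hyp.ρM NM hNM hxM).1)
    (h.toO z) hzL
    (fun t => by
      cases t
      · rw [hGZ, h.ρZ_toO]; exact hZ
      · rw [hGI, h.ρI_toO]; exact hI)
    (by rw [hGM, h.ρM_toO]; exact hM)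
  refine ⟨?_, ?_, ?_⟩
  · have := hres.1 true
    rwa [hGI, h.ρI_toO] at this
  · have := hres.2
    rwa [hGM, h.ρM_toO] at this
  · have := hres.1 false
    rwa [hGZ, h.ρZ_toO] at this

/-- the hypotheses of `H0Data.h0` -/
theorem h0Data [RRHyp K F] [RRHyp k κ] (h : H0G3 S S₀ q e BC Q V₀ Pr) :
    H0Data S q e h.P0 h.NP h.NP h.NP where
  π_surjective := S₀.π_surjective
  q_ne_zero := h.hyp.q_ne_zero
  π_q := h.hyp.π_q
  eInf := h.eInf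
  eZero := h.eZero
  eMid := h.eMid
  sat := h.sat
  node := h.node
  P0_inf := h.P0_NP
  P0_mid := h.P0_NP
  P0_zero := h.P0_NP
  P0_sub := by
    rintro z a ⟨⟨c, hc⟩, hPr⟩
    refine ⟨⟨c, ?_⟩, ?_⟩
    · show (z : F₀) - algebraMap K₀ F₀ (a : K₀) ∈ V₀ c
      exact (V₀ c).sub_mem hc (h.const_mem c _)
    · have : S₀.red (h.toO (z - S.constB a)) = S₀.red (h.toO z) - algebraMap k R (π₀ a) := by
        have h1 : h.toO (z - S.constB a) = h.toO z - S₀.C a := Subtype.ext rfl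
        rw [h1, map_sub, S₀.red_C]
      rw [this]
      exact h.Pr_sub _ _ hPr
  constInf := fun z hz => (h.const_of_NP z hz).1
  constMid := fun z hz => (h.const_of_NP z hz).2.1
  constZero := fun z hz => (h.const_of_NP z hz).2.2
  trick := by
    rintro z Y j hj0 hje ⟨⟨c, hc⟩, hPr⟩ hzI hzM hzZ hY hYI hYZ hYM
    have hYV : ((Y : S.B) : F₀) ∈ V₀ (e * c) := by
      rw [hY, ← map_inv₀, ← map_pow, ← Algebra.smul_def]
      exact (V₀ (e * c)).smul_mem _ (h.pow_mem hc e)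
    refine ⟨⟨e * c, hYV⟩, ?_, ?_, ?_⟩
    · have : S.redInf Y = 0 := hYI
      rw [this, Place.ord_zero]
    · have h1 := h.trickOrd c (h.toO z) (h.toO Y) j hj0 hje hc hPr
        (by rw [h.ρI_toO]; exact hzI) (by rw [h.ρM_toO]; exact hzM)
        (by rw [h.ρZ_toO]; exact hzZ) hY (by rw [h.ρM_toO]; exact hYM)
      rwa [h.ρM_toO] at h1
    · have : S.redZero Y = 0 := hYZ
      rw [this, Place.ord_zero]

/-- **(H0)**, the hypothesis `hh0` of `cbc_cnrPole` / `cbc_kummer`. -/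
theorem h0_of_g3 [RRHyp K F] [RRHyp k κ] (h : H0G3 S S₀ q e BC Q V₀ Pr) (c : ℕ) (r : R)
    (hr : r ∈ S₀.redSp (V₀ c)) (hPr : Pr r) : r ∈ Set.range (algebraMap k R) := by
  obtain ⟨x, hxV, rfl⟩ := hr
  have hxB : ((x : S₀.O) : F₀) ∈ S.B := h.mem_B c _ hxV (h.hyp.O_le x.2)
  obtain ⟨a, w, hw, hzw⟩ := h.h0Data.h0 ⟨(x : F₀), hxB⟩ ⟨⟨c, hxV⟩, hPr⟩
  refine ⟨π₀ a, ?_⟩
  have hx : x = S₀.C a + S₀.C q * ⟨w, h.hyp.le_O hw⟩ := by
    apply Subtype.ext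
    show (x : F₀) = algebraMap K₀ F₀ (a : K₀) + algebraMap K₀ F₀ (q : K₀) * w
    rw [← hzw]
    show (x : F₀) = algebraMap K₀ F₀ (a : K₀) + ((x : F₀) - algebraMap K₀ F₀ (a : K₀))
    ring
  rw [hx, map_add, map_mul, S₀.red_C, S₀.red_C, h.hyp.π_q, map_zero, zero_mul, add_zero]

end H0G3

end Fermat.Agent.S36lib

end
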