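/-
Item 83 (S36), block CRUX, piece C-3f = (H0) from the expansions (helper13).  No gaps in this file.

The hypotheses `dict`, `trickOrd`, `exact` of `H0G3` (`G3BC.lean`) are PROVED here from the data of
the family of expansions of `TubeFinal.lean` (helper12) at the three cusps `∞`, `mid`, `0`:

  `ι : A₁[[X]] → L` (injective), `Ex : F₀ → L` (the expansion), `π₁ : A₁ → Λ` (reduction mod `q`),
  the reduced expansion `ε : R → Λ((X))` with `ε (red x) · (π₁ b) = π₁ a` whenever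
  `Ex x · ι b = ι a`, `π₁ b` a unit of `Λ((X))`  (`= tsBallRed_compat`),

together with the residue map `θ : Λ → k` and the fact that the reduction of the valuation `v` at
the cusp is the reduction of fractions: `v.red x · (θ π₁ b) = θ π₁ a`  (`H0Cusp.rep`).

* `H0Cusp.rv_eq`   : `v.red x = θ (ε (red x))` (coefficientwise);
* `H0Cusp.dict`    : no polar coefficient of `ε (red x)`  ⟹  `0 ≤ order (v.red x)`;
* `H0Cusp.exact`   : a unit coefficient of `ε (red x)` in degree `-n`  ⟹  `order (v.red x) ≤ -n`;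
* `h0c_trick`      : the trick at the middle cusp (`ϖ ^ e = u q` in `A₁`): if `z` has an integral
  expansion whose polar coefficients vanish modulo `q` and `Y = z ^ e / q ^ j` lies in the ball,
  then `v.red Y` has no pole;
* `H0Conc` (structure of hypotheses) and `H0Conc.h0G3`, **`H0Conc.hh0`** : the hypothesis `hh0` of
  `ctl_kummer_FF` / `ctl_a2crux` (helper16) in its exact shape.
-/
import Mathlib
import Fermat.Agent.S36lib.G3BC
import Fermat.Agent.S36lib.TubeAbs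
import Fermat.Prelude.Def_ModularCurve_LaurentCoeff

set_option autoImplicit false
set_option linter.unusedSectionVars false

noncomputable section

namespace Fermat.Agent.S36lib

open AlgebraicCurve Fermat.Agent.RRlib Fermat.Agent.GoodRed Fermat.Agent.S34lib ModularCurve

/-! ### Series -/

section Series

variable {Λ k : Type*} [CommRing Λ] [CommRing k]

/-- coefficientwise maps commute with the inclusion of power series -/
theorem h0c_coeffMap_ofPS (θ : Λ →+* k) (p : PowerSeries Λ) :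
    coeffMap θ (HahnSeries.ofPowerSeries ℤ Λ p) =
      HahnSeries.ofPowerSeries ℤ k (PowerSeries.map θ p) := by
  ext n
  rw [coeffMap_coeff]
  rcases lt_or_ge n 0 with hn | hn
  · rw [tube_ofPS_coeff_neg p hn, tube_ofPS_coeff_neg _ hn, map_zero]
  · obtain ⟨m, rfl⟩ := Int.eq_ofNat_of_zero_le hn
    rw [HahnSeries.ofPowerSeries_apply_coeff, HahnSeries.ofPowerSeries_apply_coeff,
      PowerSeries.coeff_map]

/-- a unit of `Λ((X))` has nonzero image in `k((X))`, `k` nontrivial -/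
theorem h0c_map_unit_ne_zero [Nontrivial k] (θ : Λ →+* k) {b : LaurentSeries Λ} (hb : IsUnit b) :
    coeffMap θ b ≠ 0 :=
  (hb.map (coeffMap θ)).ne_zero

theorem h0c_ofPS_map_comp {A₁ : Type*} [CommRing A₁] (π₁ : A₁ →+* Λ) (θ : Λ →+* k)
    (a : PowerSeries A₁) :
    HahnSeries.ofPowerSeries ℤ k (PowerSeries.map (θ.comp π₁) a) =
      coeffMap θ (HahnSeries.ofPowerSeries ℤ Λ (PowerSeries.map π₁ a)) := by
  rw [h0c_coeffMap_ofPS]
  rfl

end Series

section Order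

variable {k : Type*} [Field k]

/-- no polar coefficient: order `≥ 0` -/
theorem h0c_order_nonneg (x : LaurentSeries k) (h : ∀ n : ℤ, n < 0 → x.coeff n = 0) :
    0 ≤ x.order := by
  by_cases hx : x = 0
  · rw [hx, HahnSeries.order_zero]
  · by_contra hlt
    exact hx (HahnSeries.coeff_order_eq_zero.mp (h _ (not_le.mp hlt)))

/-- a nonzero coefficient in degree `n`: order `≤ n` -/
theorem h0c_order_le (x : LaurentSeries k) (n : ℤ) (h : x.coeff n ≠ 0) : x.order ≤ n :=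
  HahnSeries.order_le_of_coeff_ne_zero h

end Order

/-! ### One cusp -/

section Cusp

variable {F₀ R Λ k A₁ Lf : Type*} [Field F₀] [CommRing R] [CommRing Λ] [Field k] [CommRing A₁]
  [Field Lf]

/-- The data at one cusp: the expansion `Ex`, fractions of power series over `A₁` with unit
denominator modulo `q`, the reduced expansion `ε` of the reduction ring and the reduction `rv` of
the valuation at this cusp (as a Laurent series over the residue field `k`). -/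
structure H0Cusp (O : Subring F₀) (red : O →+* R) (ε : R →+* LaurentSeries Λ)
    (rv : O → LaurentSeries k) (ι : PowerSeries A₁ →+* Lf) (Ex : F₀ →+* Lf)
    (π₁ : A₁ →+* Λ) (θ : Λ →+* k) : Prop where
  /-- (hOV): the expansion of an element of the ball is a fraction with unit denominator -/
  frac : ∀ x : O, ∃ a b : PowerSeries A₁,
    IsUnit (HahnSeries.ofPowerSeries ℤ Λ (PowerSeries.map π₁ b)) ∧ Ex (x : F₀) * ι b = ι a
  /-- `tsBallRed_compat` -/
  compat : ∀ (x : O) (a b : PowerSeries A₁), Ex (x : F₀) * ι b = ι a →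
    IsUnit (HahnSeries.ofPowerSeries ℤ Λ (PowerSeries.map π₁ b)) →
    ε (red x) * HahnSeries.ofPowerSeries ℤ Λ (PowerSeries.map π₁ b) =
      HahnSeries.ofPowerSeries ℤ Λ (PowerSeries.map π₁ a)
  /-- the reduction of the valuation is the reduction of fractions -/
  rep : ∀ (x : O) (a b : PowerSeries A₁), Ex (x : F₀) * ι b = ι a →
    IsUnit (HahnSeries.ofPowerSeries ℤ Λ (PowerSeries.map π₁ b)) →
    rv x * HahnSeries.ofPowerSeries ℤ k (PowerSeries.map (θ.comp π₁) b) =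
      HahnSeries.ofPowerSeries ℤ k (PowerSeries.map (θ.comp π₁) a)

namespace H0Cusp

variable {O : Subring F₀} {red : O →+* R} {ε : R →+* LaurentSeries Λ}
  {rv : O → LaurentSeries k} {ι : PowerSeries A₁ →+* Lf} {Ex : F₀ →+* Lf}
  {π₁ : A₁ →+* Λ} {θ : Λ →+* k}

/-- the denominators have nonzero reduction -/
theorem den_ne_zero (_h : H0Cusp O red ε rv ι Ex π₁ θ) {b : PowerSeries A₁}
    (hb : IsUnit (HahnSeries.ofPowerSeries ℤ Λ (PowerSeries.map π₁ b))) :
    HahnSeries.ofPowerSeries ℤ k (PowerSeries.map (θ.comp π₁) b) ≠ 0 := by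
  rw [h0c_ofPS_map_comp]
  exact h0c_map_unit_ne_zero θ hb

/-- **compatibility**: the reduction of the valuation is the residue of the reduced expansion -/
theorem rv_eq (h : H0Cusp O red ε rv ι Ex π₁ θ) (x : O) : rv x = coeffMap θ (ε (red x)) := by
  obtain ⟨a, b, hb, hab⟩ := h.frac x
  have h1 := h.rep x a b hab hb
  have h2 := congrArg (coeffMap θ) (h.compat x a b hab hb)
  rw [map_mul, ← h0c_ofPS_map_comp, ← h0c_ofPS_map_comp] at h2
  exact mul_right_cancel₀ (h.den_ne_zero hb) (h1.trans h2.symm)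

/-- **the dictionary**: no polar coefficient of the reduced expansion, no pole of the reduction -/
theorem dict (h : H0Cusp O red ε rv ι Ex π₁ θ) (x : O) (hx : ClPole 0 (ε (red x))) :
    0 ≤ (rv x).order := by
  refine h0c_order_nonneg _ fun n hn => ?_
  rw [h.rv_eq, coeffMap_coeff, hx n (by simpa using hn), map_zero]

/-- a unit coefficient of the reduced expansion gives a pole of the reduction -/
theorem exact (h : H0Cusp O red ε rv ι Ex π₁ θ) (x : O) (n : ℤ)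
    (hx : IsUnit ((ε (red x)).coeff n)) : (rv x).order ≤ n := by
  refine h0c_order_le _ n ?_
  rw [h.rv_eq, coeffMap_coeff]
  exact (hx.map θ).ne_zero

end H0Cusp

end Cusp

/-! ### The trick at the middle cusp -/

section Trick

variable {F₀ R Λ k A₁ Lf : Type*} [Field F₀] [CommRing R] [CommRing Λ] [Field k] [CommRing A₁]
  [IsDomain A₁] [Field Lf]
variable {O : Subring F₀} {red : O →+* R} {ε : R →+* LaurentSeries Λ}
  {rv : O → LaurentSeries k} {ι : PowerSeries A₁ →+* Lf} {Ex : F₀ →+* Lf}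
  {π₁ : A₁ →+* Λ} {θ : Λ →+* k}

omit [IsDomain A₁] in
/-- the polar coefficients of an integral expansion whose reduced expansion has no pole vanish
modulo `q` -/
theorem h0c_polar (h : H0Cusp O red ε rv ι Ex π₁ θ) (z : O) (n : ℕ) (Z : PowerSeries A₁)
    (hZ : Ex (z : F₀) * ι (PowerSeries.X ^ n) = ι Z) (hpol : ClPole 0 (ε (red z)))
    (i : ℕ) (hi : i < n) : π₁ (PowerSeries.coeff i Z) = 0 := by
  have hu : IsUnit (HahnSeries.ofPowerSeries ℤ Λ (PowerSeries.map π₁ (PowerSeries.X ^ n))) := by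
    rw [map_pow, PowerSeries.map_X, tube_ofPS_X_pow]
    exact tube_isUnit_single _
  have h1 := h.compat z Z (PowerSeries.X ^ n) hZ hu
  rw [map_pow, PowerSeries.map_X, tube_ofPS_X_pow] at h1
  have h2 := congrArg (fun s : LaurentSeries Λ => s.coeff (i : ℤ)) h1
  beta_reduce at h2
  rw [HahnSeries.ofPowerSeries_apply_coeff, PowerSeries.coeff_map] at h2
  rw [← h2]
  have e : (i : ℤ) = ((i : ℤ) - n) + n := by ring
  rw [e, HahnSeries.coeff_mul_single_add, mul_one]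
  exact hpol _ (by simp only [Nat.cast_zero, neg_zero]; omega)

omit [IsDomain A₁] in
/-- `C ϖ ∣ a` if `ϖ` divides all coefficients -/
theorem h0c_C_dvd (ϖ : A₁) (a : PowerSeries A₁) (h : ∀ n : ℕ, ϖ ∣ PowerSeries.coeff n a) :
    PowerSeries.C ϖ ∣ a := by
  choose c hc using h
  refine ⟨PowerSeries.mk c, ?_⟩
  ext n
  rw [PowerSeries.coeff_C_mul, PowerSeries.coeff_mk, hc n]

/-- **the trick, on expansions.**  `ϖ ^ e = u q` in the domain `A₁`, `θ π₁` the reduction modulo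
`ϖ`, `π₁` the reduction modulo `q`.  If `z ∈ O` has an integral expansion `Z / X ^ n` whose
reduction modulo `q` has no pole, and `Y = z ^ e / q ^ j ∈ O` with `j < e`, then the reduction
of `Y` at the valuation has no pole. -/
theorem h0c_trick (h : H0Cusp O red ε rv ι Ex π₁ θ) (hι : Function.Injective ι)
    (ϖ u qA : A₁) (e j : ℕ) (hϖe : ϖ ^ e = u * qA) (hu : IsUnit u) (hq0 : qA ≠ 0) (hje : j < e)
    (hθ : ∀ c : A₁, θ (π₁ c) = 0 ↔ ϖ ∣ c) (hπ : ∀ c : A₁, π₁ c = 0 → qA ∣ c)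
    (qF : F₀) (hqF : Ex qF = ι (PowerSeries.C qA))
    (z Y : O) (hY : qF ^ j * (Y : F₀) = (z : F₀) ^ e)
    (n : ℕ) (Z : PowerSeries A₁) (hZ : Ex (z : F₀) * ι (PowerSeries.X ^ n) = ι Z)
    (hpol : ClPole 0 (ε (red z))) :
    ∀ m : ℤ, m < 0 → (rv Y).coeff m = 0 := by
  classical
  obtain ⟨a₃, b₃, hb₃, hab₃⟩ := h.frac Y
  obtain ⟨u', hu'⟩ := hu.exists_right_inv
  have he0 : e ≠ 0 := by omega
  have hqA : qA = u' * ϖ ^ e := by rw [hϖe]; linear_combination (-qA) * hu'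
  have hϖ0 : ϖ ≠ 0 := by
    rintro rfl
    rw [zero_pow he0] at hϖe
    exact mul_ne_zero hu.ne_zero hq0 hϖe.symm
  have hθϖ : θ (π₁ ϖ) = 0 := (hθ ϖ).mpr dvd_rfl
  have hb₃' := h.den_ne_zero hb₃
  have hb₃'' : PowerSeries.map (θ.comp π₁) b₃ ≠ 0 := fun h0 => hb₃' (by rw [h0, map_zero])
  -- the key identity
  have hZ' : Ex (z : F₀) * ι PowerSeries.X ^ n = ι Z := by rw [← map_pow]; exact hZ
  have hY' : Ex qF ^ j * Ex (Y : F₀) = Ex (z : F₀) ^ e := by
    rw [← map_pow, ← map_mul, hY, map_pow]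
  have key : PowerSeries.C qA ^ j * a₃ * PowerSeries.X ^ (n * e) = Z ^ e * b₃ := by
    apply hι
    simp only [map_mul, map_pow]
    rw [← hqF, ← hab₃, ← hZ']
    linear_combination (ι b₃ * ι PowerSeries.X ^ (n * e)) * hY'
  -- `ϖ ^ j` divides `Z`
  have claim : ∀ i, i ≤ j → PowerSeries.C (ϖ ^ i) ∣ Z := by
    intro i
    induction i with
    | zero =>
      intro _
      rw [pow_zero, map_one]
      exact one_dvd _
    | succ i ih =>
      intro hi
      obtain ⟨Zi, hZi⟩ := ih (by omega)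
      have hsplit : PowerSeries.C qA ^ j =
          PowerSeries.C (ϖ ^ (i * e)) * PowerSeries.C (u' ^ j * ϖ ^ ((j - i) * e)) := by
        rw [← map_pow, ← map_mul]
        congr 1
        rw [hqA, mul_pow, ← pow_mul]
        have : e * j = i * e + (j - i) * e := by
          rw [← Nat.add_mul, Nat.add_sub_cancel' (by omega : i ≤ j), mul_comm]
        rw [this, pow_add]
        ring
      have k1 : PowerSeries.C (ϖ ^ (i * e)) *
          (PowerSeries.C (u' ^ j * ϖ ^ ((j - i) * e)) * a₃ * PowerSeries.X ^ (n * e)) =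
          PowerSeries.C (ϖ ^ (i * e)) * (Zi ^ e * b₃) := by
        calc _ = PowerSeries.C qA ^ j * a₃ * PowerSeries.X ^ (n * e) := by rw [hsplit]; ring
          _ = Z ^ e * b₃ := key
          _ = _ := by rw [hZi, mul_pow, ← map_pow, ← pow_mul]; ring
      have hC0 : (PowerSeries.C (ϖ ^ (i * e)) : PowerSeries A₁) ≠ 0 := by
        intro h0
        have := congrArg (PowerSeries.coeff 0) h0
        rw [PowerSeries.coeff_zero_C, map_zero] at this
        exact pow_ne_zero _ hϖ0 this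
      have k2 := mul_left_cancel₀ hC0 k1
      have k3 := congrArg (PowerSeries.map (θ.comp π₁)) k2
      have hpos : (j - i) * e ≠ 0 := Nat.mul_ne_zero (by omega) he0
      have hz0 : (θ.comp π₁) (u' ^ j * ϖ ^ ((j - i) * e)) = 0 := by
        rw [map_mul, map_pow (θ.comp π₁) ϖ, RingHom.comp_apply θ π₁ ϖ, hθϖ, zero_pow hpos,
          mul_zero]
      rw [map_mul, map_mul, PowerSeries.map_C, hz0, map_zero, zero_mul, zero_mul, map_mul,
        map_pow] at k3
      have k4 : PowerSeries.map (θ.comp π₁) Zi = 0 := by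
        rcases mul_eq_zero.mp k3.symm with h1 | h1
        · exact (pow_eq_zero_iff he0).mp h1
        · exact absurd h1 hb₃''
      have k5 : PowerSeries.C ϖ ∣ Zi := h0c_C_dvd ϖ Zi fun m => (hθ _).mp (by
        have := congrArg (PowerSeries.coeff m) k4
        rwa [PowerSeries.coeff_map, map_zero] at this)
      obtain ⟨Zi', hZi'⟩ := k5
      exact ⟨Zi', by rw [hZi, hZi', pow_succ, map_mul]; ring⟩
  obtain ⟨Zj, hZj⟩ := claim j le_rfl
  -- the polar coefficients of `Zj` are divisible by `ϖ`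
  have hpolar : ∀ i, i < n → PowerSeries.coeff i (PowerSeries.map (θ.comp π₁) Zj) = 0 := by
    intro i hi
    rw [PowerSeries.coeff_map, RingHom.comp_apply, hθ]
    obtain ⟨t, ht⟩ := hπ _ (h0c_polar h z n Z hZ hpol i hi)
    have h1 : PowerSeries.coeff i Z = ϖ ^ j * PowerSeries.coeff i Zj := by
      rw [hZj, PowerSeries.coeff_C_mul]
    have h2 : ϖ ^ j * PowerSeries.coeff i Zj = ϖ ^ j * (ϖ * (u' * ϖ ^ (e - j - 1) * t)) := by
      rw [← h1, ht, hqA]
      have : e = j + (e - j - 1) + 1 := by omega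
      conv_lhs => rw [this]
      ring
    exact ⟨_, mul_left_cancel₀ (pow_ne_zero _ hϖ0) h2⟩
  obtain ⟨P, hP⟩ := PowerSeries.X_pow_dvd_iff.mpr hpolar
  -- the expansion of `Y`
  have hCq0 : (PowerSeries.C (qA ^ j) : PowerSeries A₁) ≠ 0 := by
    intro h0
    have := congrArg (PowerSeries.coeff 0) h0
    rw [PowerSeries.coeff_zero_C, map_zero] at this
    exact pow_ne_zero _ hq0 this
  have k6 : PowerSeries.C (qA ^ j) * (a₃ * PowerSeries.X ^ (n * e)) =
      PowerSeries.C (qA ^ j) * (PowerSeries.C (u ^ j) * Zj ^ e * b₃) := by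
    calc _ = PowerSeries.C qA ^ j * a₃ * PowerSeries.X ^ (n * e) := by rw [map_pow]; ring
      _ = Z ^ e * b₃ := key
      _ = _ := by
        rw [hZj, mul_pow, ← map_pow, ← pow_mul, mul_comm j e, pow_mul, hϖe, mul_pow, map_mul]
        ring
  have k7 := mul_left_cancel₀ hCq0 k6
  have k8 := congrArg (PowerSeries.map (θ.comp π₁)) k7
  simp only [map_mul, map_pow, PowerSeries.map_X, PowerSeries.map_C] at k8
  rw [hP] at k8
  have k9 : PowerSeries.map (θ.comp π₁) a₃ =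
      PowerSeries.C ((θ.comp π₁) u) ^ j * P ^ e * PowerSeries.map (θ.comp π₁) b₃ := by
    have hX : (PowerSeries.X : PowerSeries k) ^ (n * e) ≠ 0 := pow_ne_zero _ PowerSeries.X_ne_zero
    refine mul_left_cancel₀ hX ?_
    rw [mul_comm, k8, mul_pow, ← pow_mul]
    ring
  have k10 := h.rep Y a₃ b₃ hab₃ hb₃
  rw [k9, map_mul] at k10
  have k11 : rv Y =
      HahnSeries.ofPowerSeries ℤ k (PowerSeries.C ((θ.comp π₁) u) ^ j * P ^ e) :=
    mul_right_cancel₀ hb₃' k10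
  intro m hm
  rw [k11]
  exact tube_ofPS_coeff_neg _ hm

end Trick

/-! ### The assembly -/

section Assembly

variable {K₀ K F₀ F k : Type*} [Field K₀] [Field K] [Field F₀] [Field F] [Field k]
  [Algebra K₀ F₀] [Algebra K F]
variable {R : Type*} [CommRing R] [Algebra k R]
variable {A₀ : ValuationSubring K₀} {π₀ : A₀ →+* k}
variable {A : ValuationSubring K} {π : A →+* k} {S₀ : SSRed A₀ π₀ R F₀}
variable {κ : IntermediateField k (LaurentSeries k)}
variable {ιc : Type*} {Λc : ιc → Type*} [∀ i, CommRing (Λc i)]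

/-- the `K₀`-form of `L(c D₁)` -/
def h0cV (BC : BCData S₀ A π F) (D₁ : Divisor K F) (c : ℕ) : Submodule K₀ F₀ where
  carrier := {x | BC.ιF x ∈ riemannRochSpace (K := K) (c • D₁)}
  zero_mem' := by
    show BC.ιF 0 ∈ riemannRochSpace (K := K) (c • D₁)
    rw [map_zero]
    exact Submodule.zero_mem _
  add_mem' := fun {x y} hx hy => by
    show BC.ιF (x + y) ∈ riemannRochSpace (K := K) (c • D₁)
    rw [map_add]
    exact Submodule.add_mem _ hx hy
  smul_mem' := fun a x hx => by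
    show BC.ιF (a • x) ∈ riemannRochSpace (K := K) (c • D₁)
    rw [BC.ιF_smul]
    exact Submodule.smul_mem _ _ hx

theorem mem_h0cV (BC : BCData S₀ A π F) (D₁ : Divisor K F) (c : ℕ) (x : F₀) :
    x ∈ h0cV BC D₁ c ↔ BC.ιF x ∈ riemannRochSpace (K := K) (c • D₁) := Iff.rfl

/-- the reduction at a valuation of the setup, as a Laurent series over `k` -/
def h0cRv (v : ResVal A₀ π₀ κ F₀) (hle : S₀.O ≤ v.O.toSubring) (x : S₀.O) : LaurentSeries k :=
  ((v.red ⟨(x : F₀), hle x.2⟩ : κ) : LaurentSeries k)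

variable {A₁I LI A₁M LM A₁Z LZ : Type*} [CommRing A₁I] [Field LI] [CommRing A₁M] [IsDomain A₁M]
  [Field LM] [CommRing A₁Z] [Field LZ]

/-- **The concrete hypotheses of (H0).**  `S` the setup, `S₀` the reduction of its ball, `E` the
family of reduced expansions with the three cusps `iI`, `iM`, `iZ`, `D₁` the divisor of the cusps
over `∞'`, `Q` the cusp `∞'` of `κ ⊂ k((X))`. -/
structure H0Conc (S : NodeSetup A₀ π₀ κ F₀) (S₀ : SSRed A₀ π₀ R F₀) (q : A₀) (e : ℕ)
    (BC : BCData S₀ A π F) (Q : Place k κ) (E : ClExp k R Λc) (D₁ : Divisor K F)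
    (hyp : G3Hyp S S₀ q e) (iI iM iZ : ιc)
    (ιI : PowerSeries A₁I →+* LI) (ExI : F₀ →+* LI) (πI : A₁I →+* Λc iI) (θI : Λc iI →+* k)
    (ιM : PowerSeries A₁M →+* LM) (ExM : F₀ →+* LM) (πM : A₁M →+* Λc iM) (θM : Λc iM →+* k)
    (ιZ : PowerSeries A₁Z →+* LZ) (ExZ : F₀ →+* LZ) (πZ : A₁Z →+* Λc iZ) (θZ : Λc iZ →+* k) :
    Prop where
  /-- `Q` is the restriction of the `X`-adic valuation -/
  hQ : ∀ f : κ, Q.ord f = (f : LaurentSeries k).order
  /-- `e(v_∞) = 1` -/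
  eInf : ∀ z : F₀, z ∈ S.vInf.O.nonunits → (algebraMap K₀ F₀ (q : K₀))⁻¹ * z ∈ S.vInf.O
  /-- `e(v_0) = 1` -/
  eZero : ∀ z : F₀, z ∈ S.vZero.O.nonunits → (algebraMap K₀ F₀ (q : K₀))⁻¹ * z ∈ S.vZero.O
  /-- the value group of `v_mid` lies in `(1/e) ℤ v(q)` -/
  eMid : ∀ z : F₀, z ∈ S.vMid.O.nonunits → (algebraMap K₀ F₀ (q : K₀))⁻¹ * z ∈ S.vMid.O ∨
    ∃ j : ℕ, 0 < j ∧ j < e ∧ ((algebraMap K₀ F₀ (q : K₀))⁻¹) ^ j * z ^ e ∈ S.vMid.O ∧
      ((algebraMap K₀ F₀ (q : K₀))⁻¹) ^ j * z ^ e ∉ S.vMid.O.nonunits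
  sat : ∀ z : F₀, z ∈ S.B → ∀ j : ℕ, ((algebraMap K₀ F₀ (q : K₀))⁻¹) ^ j * z ∈ S.ball →
    ((algebraMap K₀ F₀ (q : K₀))⁻¹) ^ j * z ∈ S.B
  /-- the three components have a common point -/
  node : S.pInf ⊔ S.pMid ⊔ S.pZero ≠ ⊤
  hD : ∀ v, 0 ≤ D₁ v
  /-- an element of `L(c D₁)` in the ball lies in `B` -/
  mem_B : ∀ (c : ℕ) (x : F₀), BC.ιF x ∈ riemannRochSpace (K := K) (c • D₁) → x ∈ S.ball →
    x ∈ S.B
  /-- the weights -/
  wI : 1 ≤ E.w iI
  wM : 1 ≤ E.w iM
  wZ : 1 ≤ E.w iZ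
  deg : Divisor.degree D₁ ≤ (E.w iI : ℤ) + (e : ℤ) * (E.w iM : ℤ) + (E.w iZ : ℤ)
  /-- the expansions at the three cusps -/
  cuspI : H0Cusp S₀.O S₀.red (E.ε iI) (h0cRv S.vInf hyp.le_inf) ιI ExI πI θI
  cuspM : H0Cusp S₀.O S₀.red (E.ε iM) (h0cRv S.vMid hyp.le_mid) ιM ExM πM θM
  cuspZ : H0Cusp S₀.O S₀.red (E.ε iZ) (h0cRv S.vZero hyp.le_zero) ιZ ExZ πZ θZ
  /-- the middle cusp: `ϖ ^ e = u q` in `A₁` -/
  ιM_injective : Function.Injective ιM
  unif : ∃ ϖ u qA : A₁M, ϖ ^ e = u * qA ∧ IsUnit u ∧ qA ≠ 0 ∧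
    (∀ c : A₁M, θM (πM c) = 0 ↔ ϖ ∣ c) ∧ (∀ c : A₁M, πM c = 0 → qA ∣ c) ∧
    ExM (algebraMap K₀ F₀ (q : K₀)) = ιM (PowerSeries.C qA)
  /-- integrality at the middle cusp (P6) -/
  int : ∀ (c : ℕ) (z : S₀.O), BC.ιF ((z : S₀.O) : F₀) ∈ riemannRochSpace (K := K) (c • D₁) →
    ∃ (n : ℕ) (Z : PowerSeries A₁M), ExM ((z : S₀.O) : F₀) * ιM (PowerSeries.X ^ n) = ιM Z
  /-- the exact element -/
  exact : ∃ (x : S₀.O) (n₂ : ℕ), 0 < n₂ ∧
    BC.ιF ((x : S₀.O) : F₀) ∈ riemannRochSpace (K := K) (n₂ • D₁) ∧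
    ∀ i, IsUnit ((E.ε i (S₀.red x)).coeff (-((n₂ * E.w i : ℕ) : ℤ)))

namespace H0Conc

variable {S : NodeSetup A₀ π₀ κ F₀} {q : A₀} {e : ℕ} {BC : BCData S₀ A π F} {Q : Place k κ}
  {E : ClExp k R Λc} {D₁ : Divisor K F} {hyp : G3Hyp S S₀ q e} {iI iM iZ : ιc}
  {ιI : PowerSeries A₁I →+* LI} {ExI : F₀ →+* LI} {πI : A₁I →+* Λc iI} {θI : Λc iI →+* k}
  {ιM : PowerSeries A₁M →+* LM} {ExM : F₀ →+* LM} {πM : A₁M →+* Λc iM} {θM : Λc iM →+* k}
  {ιZ : PowerSeries A₁Z →+* LZ} {ExZ : F₀ →+* LZ} {πZ : A₁Z →+* Λc iZ} {θZ : Λc iZ →+* k}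

theorem ordI (h : H0Conc S S₀ q e BC Q E D₁ hyp iI iM iZ ιI ExI πI θI ιM ExM πM θM ιZ ExZ πZ θZ)
    (x : S₀.O) : Q.ord (hyp.ρI (S₀.red x)) = (h0cRv S.vInf hyp.le_inf x).order := by
  rw [h.hQ, hyp.ρI_red]
  rfl

theorem ordM (h : H0Conc S S₀ q e BC Q E D₁ hyp iI iM iZ ιI ExI πI θI ιM ExM πM θM ιZ ExZ πZ θZ)
    (x : S₀.O) : Q.ord (hyp.ρM (S₀.red x)) = (h0cRv S.vMid hyp.le_mid x).order := by
  rw [h.hQ, hyp.ρM_red]
  rfl

theorem ordZ (h : H0Conc S S₀ q e BC Q E D₁ hyp iI iM iZ ιI ExI πI θI ιM ExM πM θM ιZ ExZ πZ θZ)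
    (x : S₀.O) : Q.ord (hyp.ρZ (S₀.red x)) = (h0cRv S.vZero hyp.le_zero x).order := by
  rw [h.hQ, hyp.ρZ_red]
  rfl

/-- **the hypotheses `H0G3`** -/
theorem h0G3 (h : H0Conc S S₀ q e BC Q E D₁ hyp iI iM iZ ιI ExI πI θI ιM ExM πM θM ιZ ExZ πZ θZ) :
    H0G3 S S₀ q e BC Q (h0cV BC D₁) (fun r => r ∈ E.P 0) where
  hyp := hyp
  eInf := h.eInf
  eZero := h.eZero
  eMid := h.eMid
  sat := h.sat
  node := h.node
  one_mem := fun c => by
    rw [mem_h0cV, map_one]
    have h1 : (1 : F) ∈ riemannRochSpace (K := K) (0 : Divisor K F) := gr_one_mem_zero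
    refine riemannRochSpace_mono ?_ h1
    intro v
    simp only [Finsupp.smul_apply, nsmul_eq_mul, Finsupp.coe_zero, Pi.zero_apply]
    exact mul_nonneg (Nat.cast_nonneg c) (h.hD v)
  mul_mem := fun a b x y hx hy => by
    rw [mem_h0cV] at hx hy ⊢
    rw [map_mul, add_smul]
    exact gr_mul_mem hx hy
  mem_B := fun c x hx hball => h.mem_B c x hx hball
  exact := by
    obtain ⟨x, n₂, hn₂, hxL, hxu⟩ := h.exact
    have hn₂' : (1 : ℤ) ≤ (n₂ : ℤ) := by exact_mod_cast hn₂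
    have hwI : (1 : ℤ) ≤ (E.w iI : ℤ) := by exact_mod_cast h.wI
    have hwM : (1 : ℤ) ≤ (E.w iM : ℤ) := by exact_mod_cast h.wM
    have hwZ : (1 : ℤ) ≤ (E.w iZ : ℤ) := by exact_mod_cast h.wZ
    have hD0 : (0 : Divisor K F) ≤ D₁ := fun v => h.hD v
    refine ⟨n₂ • D₁, x, (n₂ : ℤ) * E.w iI, (n₂ : ℤ) * E.w iM, (n₂ : ℤ) * E.w iZ,
      nsmul_nonneg hD0 _, by nlinarith, by nlinarith, by nlinarith, ?_, hxL, ?_, ?_, ?_, ?_⟩
    · rw [map_nsmul, nsmul_eq_mul]
      have := h.deg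
      nlinarith
    · rw [h.ordI]
      have := h.cuspI.exact x _ (hxu iI)
      rw [Nat.cast_mul] at this
      exact this
    · rw [h.ordM]
      have := h.cuspM.exact x _ (hxu iM)
      rw [Nat.cast_mul] at this
      exact this
    · rw [h.ordZ]
      have := h.cuspZ.exact x _ (hxu iZ)
      rw [Nat.cast_mul] at this
      exact this
    · intro c z hz
      refine ⟨c, ?_⟩
      rw [mem_h0cV] at hz
      refine riemannRochSpace_mono ?_ hz
      intro v
      simp only [Finsupp.smul_apply, nsmul_eq_mul]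
      have h0 := h.hD v
      have : (c : ℤ) * D₁ v ≤ (c : ℤ) * ((n₂ : ℤ) * D₁ v) := by
        apply mul_le_mul_of_nonneg_left _ (Nat.cast_nonneg c)
        nlinarith
      exact this
  dict := fun c z _ hPr => by
    have hP : ∀ i, ClPole 0 (E.ε i (S₀.red z)) := fun i => by
      have := (E.mem_P.mp hPr) i
      rwa [Nat.zero_mul] at this
    refine ⟨?_, ?_, ?_⟩
    · rw [h.ordI]
      exact h.cuspI.dict z (hP iI)
    · rw [h.ordM]
      exact h.cuspM.dict z (hP iM)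
    · rw [h.ordZ]
      exact h.cuspZ.dict z (hP iZ)
  Pr_sub := fun r c hr => (E.P 0).sub_mem hr (E.algebraMap_mem_P c 0)
  trickOrd := fun c z Y j _ hje hz hPr _ _ _ hY _ => by
    obtain ⟨ϖ, u, qA, hϖe, hu, hq0, hθ, hπ, hqF⟩ := h.unif
    obtain ⟨n, Z, hZ⟩ := h.int c z hz
    have hP : ClPole 0 (E.ε iM (S₀.red z)) := by
      have := (E.mem_P.mp hPr) iM
      rwa [Nat.zero_mul] at this
    have hqK : (q : K₀) ≠ 0 := hyp.q_ne_zero
    have hqF0 : algebraMap K₀ F₀ (q : K₀) ≠ 0 := (map_ne_zero _).mpr hqK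
    have hY' : algebraMap K₀ F₀ (q : K₀) ^ j * ((Y : S₀.O) : F₀) = ((z : S₀.O) : F₀) ^ e := by
      rw [hY, inv_pow, ← mul_assoc, mul_inv_cancel₀ (pow_ne_zero _ hqF0), one_mul]
    rw [h.ordM]
    exact h0c_order_nonneg _ (h0c_trick h.cuspM h.ιM_injective ϖ u qA e j hϖe hu hq0 hje hθ hπ
      _ hqF z Y hY' n Z hZ hP)

/-- **(H0)** in the exact shape of the hypothesis `hh0` of `ctl_kummer_FF` / `ctl_a2crux`. -/
theorem hh0 [RRHyp K F] [RRHyp k κ]
    (h : H0Conc S S₀ q e BC Q E D₁ hyp iI iM iZ ιI ExI πI θI ιM ExM πM θM ιZ ExZ πZ θZ)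
    (c : ℕ) (y : S₀.O)
    (hy : BC.ιF ((y : S₀.O) : F₀) ∈ riemannRochSpace (K := K) (c • D₁))
    (hP : S₀.red y ∈ E.P 0) : S₀.red y ∈ Set.range (algebraMap k R) :=
  h.h0G3.h0_of_g3 c (S₀.red y) ⟨y, hy, rfl⟩ hP

end H0Conc

end Assembly

end Fermat.Agent.S36lib

end
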