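/-
Item 83 (S36), TUBE piece P1 (helper15): **the concrete inputs of the TUBE lemma**
(`s36_tube`, `s36_tube_dvd`): the coefficient ring `A₁`, the embedding `ι : A₁[[X]] → ℚ̄((X))`,
`hfrac`, `hK`.  No incomplete proof in this file.

Generic over helper8's `VdDisc A K1 ϖ` (`S36lib/VDisc.lean`): `K1 ⊂ K` a subfield discretely
valued by `A`, with uniformiser `ϖ`; `A₁ := ↥(vdiscRing A K1) = K1 ∩ A`.

* `ta1Pi hd : A₁`, `ta1_isUnit_iff`, `ta1_associated_pow`, `ta1_irreducible`,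
  **`ta1_isDVR hd : IsDiscreteValuationRing ↥(vdiscRing A K1)`**, `ta1_maximalIdeal_eq`;
* `ta1Iota A K1 : PowerSeries A₁ →+* LaurentSeries K`, `ta1Iota_coeff`, `ta1Iota_injective`,
  `ta1Iota_X`, `ta1Iota_C`, **`mem_range_ta1Iota_iff`** (`VdInt` + no polar part),
  `ta1_exists_shift` (a `VdInt` series times `X ^ k` is in the range for `k ≥` its pole order);
* **`ta1_hfrac`** : `f ∈ F0(L)` ⟹ `∃ a b : A₁[[X]], b ≠ 0 ∧ E f * ι b = ι a`;
  **`ta1_hK`** : `c ∈ K1` ⟹ `∃ a n, E c * ι (C ϖ ^ n) = ι a`;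
* the instances: `ta1_hfrac_inf/_zero/_mid`, `ta1_hK_inf/_zero/_mid`
  (`∞`, `0`: `K1 = K0`, `ϖ = q`; mid: `K1 = K0(ζ)`, `ϖ = ζ - 1`).
-/
import Mathlib
import Fermat.Agent.S36lib.VDisc
import Fermat.Agent.S36lib.ALF0
import Fermat.Agent.S36lib.ExpCalc

set_option autoImplicit false
set_option linter.unusedSectionVars false
set_option linter.unusedVariables false
set_option linter.style.haveILetI false

noncomputable section

namespace Fermat.Agent.S36lib

open ModularCurve HahnSeries AlgebraicCurve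
open Fermat.Agent.GoodRed Fermat.Agent.S24lib Fermat.Agent.S34lib Fermat.Agent.S37lib
  Fermat.Agent.HeckeBar

/-! ### The discrete valuation ring `A₁ = K1 ∩ A` -/

section DVR

variable {K : Type*} [Field K] {A : ValuationSubring K} {K1 : Subfield K} {ϖ : K}

/-- the uniformiser, as an element of `A₁` -/
def ta1Pi (hd : VdDisc A K1 ϖ) : vdiscRing A K1 :=
  ⟨ϖ, (mem_vdiscRing_iff A K1 ϖ).mpr
    ⟨hd.1, (A.valuation_le_one_iff ϖ).mp (le_of_lt hd.2.2.1)⟩⟩

@[simp]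
theorem ta1Pi_coe (hd : VdDisc A K1 ϖ) : ((ta1Pi hd : vdiscRing A K1) : K) = ϖ := rfl

theorem ta1_isUnit_iff (x : vdiscRing A K1) : IsUnit x ↔ A.valuation (x : K) = 1 := by
  constructor
  · rintro ⟨u, rfl⟩
    have h1 : A.valuation ((u : vdiscRing A K1) : K) ≤ 1 :=
      (A.valuation_le_one_iff _).mpr (u : vdiscRing A K1).2.2
    have h2 : A.valuation (((u⁻¹ : (vdiscRing A K1)ˣ) : vdiscRing A K1) : K) ≤ 1 :=
      (A.valuation_le_one_iff _).mpr ((u⁻¹ : (vdiscRing A K1)ˣ) : vdiscRing A K1).2.2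
    have h3 : ((u : vdiscRing A K1) : K) * (((u⁻¹ : (vdiscRing A K1)ˣ) : vdiscRing A K1) : K)
        = 1 := by
      have h := congrArg (fun t : vdiscRing A K1 => (t : K)) u.mul_inv
      exact h
    have h4 : A.valuation ((u : vdiscRing A K1) : K)
        * A.valuation (((u⁻¹ : (vdiscRing A K1)ˣ) : vdiscRing A K1) : K) = 1 := by
      rw [← map_mul, h3, map_one]
    exact le_antisymm h1 (by
      by_contra hlt
      have hlt' := not_le.mp hlt
      have : A.valuation ((u : vdiscRing A K1) : K)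
          * A.valuation (((u⁻¹ : (vdiscRing A K1)ˣ) : vdiscRing A K1) : K) < 1 :=
        mul_lt_one_of_lt_of_le hlt' h2
      rw [h4] at this
      exact lt_irrefl _ this)
  · intro h
    have hx0 : (x : K) ≠ 0 := by
      intro h0
      rw [h0, map_zero] at h
      exact zero_ne_one h
    have hinv : (x : K)⁻¹ ∈ vdiscRing A K1 := by
      rw [mem_vdiscRing_iff]
      refine ⟨K1.inv_mem x.2.1, ?_⟩
      rw [← A.valuation_le_one_iff, map_inv₀, h, inv_one]
    exact ⟨⟨x, ⟨(x : K)⁻¹, hinv⟩, Subtype.ext (mul_inv_cancel₀ hx0),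
      Subtype.ext (inv_mul_cancel₀ hx0)⟩, rfl⟩

/-- every nonzero element of `A₁` is a unit times a power of `ϖ` -/
theorem ta1_associated_pow (hd : VdDisc A K1 ϖ) (x : vdiscRing A K1) (hx : x ≠ 0) :
    ∃ n : ℕ, Associated (ta1Pi hd ^ n) x := by
  have hx0 : (x : K) ≠ 0 := fun h => hx (Subtype.ext h)
  obtain ⟨n, hn⟩ := hd.exists_pow x.2.1 x.2.2 hx0
  have hϖ0 : ϖ ≠ 0 := hd.2.1
  have hv0 : A.valuation ϖ ≠ 0 := by rwa [Ne, map_eq_zero]
  have hval : A.valuation ((x : K) * (ϖ ^ n)⁻¹) = 1 := by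
    rw [map_mul, map_inv₀, map_pow, hn, mul_inv_cancel₀ (pow_ne_zero _ hv0)]
  have hu : (x : K) * (ϖ ^ n)⁻¹ ∈ vdiscRing A K1 := by
    rw [mem_vdiscRing_iff]
    refine ⟨K1.mul_mem x.2.1 (K1.inv_mem (pow_mem hd.1 n)), ?_⟩
    rw [← A.valuation_le_one_iff, hval]
  have hunit : IsUnit (⟨(x : K) * (ϖ ^ n)⁻¹, hu⟩ : vdiscRing A K1) :=
    (ta1_isUnit_iff _).mpr hval
  refine ⟨n, hunit.unit, Subtype.ext ?_⟩
  show ((ta1Pi hd : vdiscRing A K1) : K) ^ n * ((x : K) * (ϖ ^ n)⁻¹) = x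
  rw [ta1Pi_coe]
  field_simp

theorem ta1_val_pow_injective (hd : VdDisc A K1 ϖ) :
    Function.Injective fun n : ℕ => A.valuation ϖ ^ n := by
  have hv0 : A.valuation ϖ ≠ 0 := by rw [Ne, map_eq_zero]; exact hd.2.1
  exact (pow_right_strictAnti₀ (zero_lt_iff.mpr hv0) hd.2.2.1).injective

theorem ta1_val_of_associated (hd : VdDisc A K1 ϖ) {x : vdiscRing A K1} {n : ℕ}
    (h : Associated (ta1Pi hd ^ n) x) : A.valuation (x : K) = A.valuation ϖ ^ n := by
  obtain ⟨u, hu⟩ := h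
  have h1 := (ta1_isUnit_iff (u : vdiscRing A K1)).mp u.isUnit
  have h2 : (x : K) = ϖ ^ n * ((u : vdiscRing A K1) : K) := by
    rw [← hu]
    rfl
  rw [h2, map_mul, map_pow, h1, mul_one]

/-- `ϖ` is irreducible in `A₁` -/
theorem ta1_irreducible (hd : VdDisc A K1 ϖ) : Irreducible (ta1Pi hd) := by
  have hne : ta1Pi hd ≠ 0 := fun h => hd.2.1 (congrArg Subtype.val h)
  refine ⟨?_, ?_⟩
  · rw [ta1_isUnit_iff, ta1Pi_coe]
    exact ne_of_lt hd.2.2.1
  · intro a b hab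
    have ha0 : a ≠ 0 := fun h => hne (by rw [hab, h, zero_mul])
    have hb0 : b ≠ 0 := fun h => hne (by rw [hab, h, mul_zero])
    obtain ⟨i, hi⟩ := ta1_associated_pow hd a ha0
    obtain ⟨j, hj⟩ := ta1_associated_pow hd b hb0
    have hva := ta1_val_of_associated hd hi
    have hvb := ta1_val_of_associated hd hj
    have hprod : A.valuation ϖ ^ 1 = A.valuation ϖ ^ (i + j) := by
      have h1 : ϖ = (a : K) * (b : K) := congrArg (fun t : vdiscRing A K1 => (t : K)) hab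
      rw [pow_one, _root_.pow_add, ← hva, ← hvb, ← map_mul, ← h1]
    have hij : 1 = i + j := ta1_val_pow_injective hd hprod
    rcases Nat.eq_zero_or_pos i with h0 | hpos
    · left
      rw [ta1_isUnit_iff, hva, h0, pow_zero]
    · right
      have hj0 : j = 0 := by omega
      rw [ta1_isUnit_iff, hvb, hj0, pow_zero]

/-- **`A₁ = K1 ∩ A` is a discrete valuation ring** (uniformiser `ϖ`) -/
theorem ta1_isDVR (hd : VdDisc A K1 ϖ) : IsDiscreteValuationRing (vdiscRing A K1) :=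
  IsDiscreteValuationRing.ofHasUnitMulPowIrreducibleFactorization
    ⟨ta1Pi hd, ta1_irreducible hd, fun {x} hx => ta1_associated_pow hd x hx⟩

theorem ta1_maximalIdeal_eq (hd : VdDisc A K1 ϖ) :
    haveI := ta1_isDVR hd
    IsLocalRing.maximalIdeal (vdiscRing A K1) = Ideal.span {ta1Pi hd} := by
  haveI := ta1_isDVR hd
  exact (IsDiscreteValuationRing.irreducible_iff_uniformizer _).mp (ta1_irreducible hd)

end DVR

/-! ### The embedding `ι : A₁[[X]] → K((X))` -/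

section Iota

variable {K : Type*} [Field K] (A : ValuationSubring K) (K1 : Subfield K)

/-- `ι : A₁[[X]] → K((X))` -/
def ta1Iota : PowerSeries (vdiscRing A K1) →+* LaurentSeries K :=
  (HahnSeries.ofPowerSeries ℤ K).comp (PowerSeries.map (vdiscRing A K1).subtype)

theorem ta1Iota_apply (a : PowerSeries (vdiscRing A K1)) :
    ta1Iota A K1 a
      = HahnSeries.ofPowerSeries ℤ K (PowerSeries.map (vdiscRing A K1).subtype a) := rfl

theorem ta1Iota_coeff_nat (a : PowerSeries (vdiscRing A K1)) (n : ℕ) :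
    (ta1Iota A K1 a).coeff (n : ℤ) = ((PowerSeries.coeff n a : vdiscRing A K1) : K) := by
  rw [ta1Iota_apply, HahnSeries.ofPowerSeries_apply_coeff, PowerSeries.coeff_map]
  rfl

theorem ta1Iota_coeff_neg (a : PowerSeries (vdiscRing A K1)) {n : ℤ} (hn : n < 0) :
    (ta1Iota A K1 a).coeff n = 0 := by
  rw [ta1Iota_apply, HahnSeries.ofPowerSeries_apply]
  apply HahnSeries.embDomain_of_notMem_range
  rintro ⟨m, hm⟩
  have : (m : ℤ) = n := hm
  omega

theorem ta1Iota_injective : Function.Injective (ta1Iota A K1) := by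
  have h1 : Function.Injective (PowerSeries.map (vdiscRing A K1).subtype) :=
    PowerSeries.map_injective _ (Subring.subtype_injective _)
  have h2 : Function.Injective (HahnSeries.ofPowerSeries ℤ K) :=
    HahnSeries.ofPowerSeries_injective
  intro a b h
  rw [ta1Iota_apply, ta1Iota_apply] at h
  exact h1 (h2 h)

theorem ta1Iota_X : ta1Iota A K1 PowerSeries.X = HahnSeries.single 1 1 := by
  rw [ta1Iota_apply, PowerSeries.map_X, HahnSeries.ofPowerSeries_X]

theorem ta1Iota_X_pow (n : ℕ) :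
    ta1Iota A K1 (PowerSeries.X ^ n) = HahnSeries.single (n : ℤ) 1 := by
  rw [ta1Iota_apply, map_pow, PowerSeries.map_X, HahnSeries.ofPowerSeries_X_pow]

theorem ta1Iota_C (c : vdiscRing A K1) :
    ta1Iota A K1 (PowerSeries.C c) = HahnSeries.C (c : K) := by
  rw [ta1Iota_apply, PowerSeries.map_C, HahnSeries.ofPowerSeries_C]
  rfl

theorem ta1Iota_vdInt (a : PowerSeries (vdiscRing A K1)) : VdInt A K1 (ta1Iota A K1 a) := by
  intro n
  rcases lt_or_ge n 0 with h | h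
  · rw [ta1Iota_coeff_neg A K1 a h]
    exact (vdiscRing A K1).zero_mem
  · obtain ⟨m, rfl⟩ := Int.eq_ofNat_of_zero_le h
    rw [ta1Iota_coeff_nat]
    exact (PowerSeries.coeff m a).2

/-- the range of `ι`: the series with coefficients in `A₁` and no polar part -/
theorem mem_range_ta1Iota_iff (g : LaurentSeries K) :
    g ∈ Set.range (ta1Iota A K1) ↔ VdInt A K1 g ∧ ∀ n : ℤ, n < 0 → g.coeff n = 0 := by
  constructor
  · rintro ⟨a, rfl⟩
    exact ⟨ta1Iota_vdInt A K1 a, fun n hn => ta1Iota_coeff_neg A K1 a hn⟩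
  · rintro ⟨hg, hpol⟩
    refine ⟨PowerSeries.mk fun n => ⟨g.coeff (n : ℤ), hg n⟩, ?_⟩
    ext n
    rcases lt_or_ge n 0 with h | h
    · rw [ta1Iota_coeff_neg A K1 _ h, hpol n h]
    · obtain ⟨m, rfl⟩ := Int.eq_ofNat_of_zero_le h
      rw [ta1Iota_coeff_nat, PowerSeries.coeff_mk]

variable {A K1}

theorem ta1_coeff_mul_single (g : LaurentSeries K) (k : ℕ) (n : ℤ) :
    (g * HahnSeries.single (k : ℤ) (1 : K)).coeff n = g.coeff (n - k) := by
  have h := HahnSeries.coeff_mul_single_add (r := (1 : K)) (x := g) (a := n - k) (b := (k : ℤ))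
  rw [sub_add_cancel, mul_one] at h
  exact h

/-- a series with coefficients in `A₁` and pole order `≤ k`, times `X ^ k`, is in the range -/
theorem ta1_exists_shift {g : LaurentSeries K} (hg : VdInt A K1 g) (k : ℕ)
    (hk : ∀ n : ℤ, n < -(k : ℤ) → g.coeff n = 0) :
    ∃ a : PowerSeries (vdiscRing A K1), g * ta1Iota A K1 (PowerSeries.X ^ k) = ta1Iota A K1 a := by
  have h : g * ta1Iota A K1 (PowerSeries.X ^ k) ∈ Set.range (ta1Iota A K1) := by
    rw [mem_range_ta1Iota_iff, ta1Iota_X_pow]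
    refine ⟨fun n => ?_, fun n hn => ?_⟩
    · rw [ta1_coeff_mul_single]
      exact hg _
    · rw [ta1_coeff_mul_single]
      exact hk _ (by omega)
  obtain ⟨a, ha⟩ := h
  exact ⟨a, ha.symm⟩

/-- a bound for the pole order of a Laurent series -/
theorem ta1_exists_pole (g : LaurentSeries K) :
    ∃ k : ℕ, ∀ k' : ℕ, k ≤ k' → ∀ n : ℤ, n < -(k' : ℤ) → g.coeff n = 0 := by
  refine ⟨(-g.order).toNat, fun k' hk' n hn => ?_⟩
  apply HahnSeries.coeff_eq_zero_of_lt_order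
  have := Int.self_le_toNat (-g.order)
  omega

theorem ta1Iota_X_pow_ne_zero (k : ℕ) : ta1Iota A K1 (PowerSeries.X ^ k) ≠ 0 := by
  rw [Ne, ← map_zero (ta1Iota A K1)]
  intro h
  have h1 := ta1Iota_injective A K1 h
  exact pow_ne_zero k PowerSeries.X_ne_zero h1

end Iota

/-! ### `hfrac` and `hK` -/

section Frac

variable {A : ValuationSubring Kbar} {K1 : Subfield Kbar} {L : ℕ} [NeZero L]
  {E : FF L →+* LaurentSeries Kbar}

/-- **`hfrac`**: `E (F0(L)) ⊂ Frac (A₁[[X]])` -/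
theorem ta1_hfrac (hEC : ∀ c : Kbar, E (algebraMap Kbar (FF L) c) = HahnSeries.C c)
    (hK0 : ∀ c : Kbar, c ∈ k0Field A → c ∈ K1)
    (hgen : ∀ (d : ℕ) [NeZero d] (hd : d ∣ L), VdInt A K1 (E (jdF L d hd)))
    {f : FF L} (hf : f ∈ f0Field A L) :
    ∃ a b : PowerSeries (vdiscRing A K1), b ≠ 0 ∧ E f * ta1Iota A K1 b = ta1Iota A K1 a := by
  obtain ⟨x, y, -, -, hy0, hxy, hix, hiy⟩ := vdFrac_of_mem hEC hK0 hgen hf
  obtain ⟨k₁, hk₁⟩ := ta1_exists_pole (E x)
  obtain ⟨k₂, hk₂⟩ := ta1_exists_pole (E y)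
  set k := max k₁ k₂ with hk
  obtain ⟨a, ha⟩ := ta1_exists_shift hix k (hk₁ k (le_max_left _ _))
  obtain ⟨b, hb⟩ := ta1_exists_shift hiy k (hk₂ k (le_max_right _ _))
  refine ⟨a, b, ?_, ?_⟩
  · intro hb0
    rw [hb0, map_zero] at hb
    rcases mul_eq_zero.mp hb with h | h
    · exact hy0 ((map_eq_zero E).mp h)
    · exact ta1Iota_X_pow_ne_zero k h
  · rw [← hb, ← ha, ← hxy, map_mul, mul_assoc]

/-- **`hK`**: the constants of `K1` have denominators `ϖ ^ n` -/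
theorem ta1_hK {ϖ : Kbar} (hd : VdDisc A K1 ϖ)
    (hEC : ∀ c : Kbar, E (algebraMap Kbar (FF L) c) = HahnSeries.C c)
    {c : Kbar} (hc : c ∈ K1) :
    ∃ (a : PowerSeries (vdiscRing A K1)) (n : ℕ),
      E (algebraMap Kbar (FF L) c) * ta1Iota A K1 (PowerSeries.C (ta1Pi hd) ^ n)
        = ta1Iota A K1 a := by
  have hϖ0 : ϖ ≠ 0 := hd.2.1
  have hv0 : A.valuation ϖ ≠ 0 := by rwa [Ne, map_eq_zero]
  have hpos : 0 < A.valuation ϖ := zero_lt_iff.mpr hv0
  have key : ∃ n : ℕ, c * ϖ ^ n ∈ vdiscRing A K1 := by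
    by_cases hc0 : c = 0
    · exact ⟨0, by rw [hc0, zero_mul]; exact (vdiscRing A K1).zero_mem⟩
    obtain ⟨m, hm⟩ := hd.2.2.2 c hc hc0
    refine ⟨(-m).toNat, ?_⟩
    rw [mem_vdiscRing_iff]
    refine ⟨K1.mul_mem hc (pow_mem hd.1 _), ?_⟩
    rw [← A.valuation_le_one_iff, map_mul, map_pow, hm, ← zpow_natCast, ← zpow_add₀ hv0]
    have h1 : 0 ≤ m + ((-m).toNat : ℤ) := by
      have := Int.self_le_toNat (-m)
      omega
    obtain ⟨j, hj⟩ := Int.eq_ofNat_of_zero_le h1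
    rw [hj, zpow_natCast]
    exact pow_le_one₀ (le_of_lt hpos) (le_of_lt hd.2.2.1)
  obtain ⟨n, hn⟩ := key
  refine ⟨PowerSeries.C ⟨c * ϖ ^ n, hn⟩, n, ?_⟩
  rw [hEC, map_pow, ta1Iota_C, ta1Iota_C, ta1Pi_coe, ← map_pow, ← map_mul]

end Frac

/-! ### The three cusps -/

section Cusps

variable (A : ValuationSubring Kbar)

/-- the expansion at `∞`, any level -/
def ta1EInf (L : ℕ) [NeZero L] : FF L →+* LaurentSeries Kbar :=
  (modularFunctionFieldBar L).toSubfield.subtype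

theorem ta1EInf_apply (L : ℕ) [NeZero L] (f : FF L) :
    ta1EInf L f = (f : LaurentSeries Kbar) := rfl

theorem ta1EInf_C (L : ℕ) [NeZero L] (c : Kbar) :
    ta1EInf L (algebraMap Kbar (FF L) c) = HahnSeries.C c :=
  coe_algebraMap_eq_C (F := modularFunctionFieldBar L) c

/-- `hfrac` at `∞` (any level `L`): `K1 = K0`, `A₁ = A0` -/
theorem ta1_hfrac_inf (L : ℕ) [NeZero L] {f : FF L} (hf : f ∈ f0Field A L) :
    ∃ a b : PowerSeries (vdiscRing A (k0Field A).toSubfield), b ≠ 0 ∧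
      (f : LaurentSeries Kbar) * ta1Iota A (k0Field A).toSubfield b
        = ta1Iota A (k0Field A).toSubfield a :=
  ta1_hfrac (E := ta1EInf L) (ta1EInf_C L) (fun _ hc => hc)
    (fun d _ hd => vdInt_jdF A L _ d hd) hf

/-- `hK` at `∞` -/
theorem ta1_hK_inf {q : ℕ} (hq : q.Prime) (hA : A.LiesOverPrime q) (L : ℕ) [NeZero L]
    {c : Kbar} (hc : c ∈ k0Field A) :
    ∃ (a : PowerSeries (vdiscRing A (k0Field A).toSubfield)) (n : ℕ),
      ((algebraMap Kbar (FF L) c : FF L) : LaurentSeries Kbar)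
          * ta1Iota A (k0Field A).toSubfield (PowerSeries.C (ta1Pi (vdisc_k0 A q hq hA)) ^ n)
        = ta1Iota A (k0Field A).toSubfield a :=
  ta1_hK (E := ta1EInf L) (vdisc_k0 A q hq hA) (ta1EInf_C L) hc

variable (M' q : ℕ) [NeZero M'] [NeZero q] (hq : q.Prime) (hqM : ¬ q ∣ M')

theorem ta1_ecW_mem_f0Field {f : FF (M' * q * q)} (hf : f ∈ f0Field A (M' * q * q)) :
    ecW M' q hq hqM f ∈ f0Field A (M' * q * q) :=
  alQ_mem_f0Field A (M' * q * q) (q * q) _ _ hf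

/-- `hfrac` at the cusp `0` of level `M' q²` -/
theorem ta1_hfrac_zero {f : FF (M' * q * q)} (hf : f ∈ f0Field A (M' * q * q)) :
    ∃ a b : PowerSeries (vdiscRing A (k0Field A).toSubfield), b ≠ 0 ∧
      ecZero M' q hq hqM f * ta1Iota A (k0Field A).toSubfield b
        = ta1Iota A (k0Field A).toSubfield a := by
  rw [ecZero_apply]
  exact ta1_hfrac_inf A (M' * q * q) (ta1_ecW_mem_f0Field A M' q hq hqM hf)

/-- `hK` at the cusp `0` -/
theorem ta1_hK_zero (hA : A.LiesOverPrime q) {c : Kbar} (hc : c ∈ k0Field A) :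
    ∃ (a : PowerSeries (vdiscRing A (k0Field A).toSubfield)) (n : ℕ),
      ecZero M' q hq hqM (algebraMap Kbar (FF (M' * q * q)) c)
          * ta1Iota A (k0Field A).toSubfield (PowerSeries.C (ta1Pi (vdisc_k0 A q hq hA)) ^ n)
        = ta1Iota A (k0Field A).toSubfield a := by
  rw [ecZero_apply, AlgEquiv.commutes]
  exact ta1_hK_inf A hq hA (M' * q * q) hc

variable (ζ : Kbarˣ) (hζ : IsPrimitiveRoot (ζ : Kbar) q)

theorem ta1_ecMid_C (c : Kbar) :
    ecMid M' q hq hqM ζ hζ (algebraMap Kbar (FF (M' * q * q)) c) = HahnSeries.C c := by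
  rw [ecMid_algebraMap, algebraMap_laurentSeries_eq_single]
  rfl

theorem ta1_vdInt_ecMid (D : ℕ) [NeZero D] (hD : D ∣ M' * q * q) :
    VdInt A (vdiscK1 A (ζ : Kbar)) (ecMid M' q hq hqM ζ hζ (jdF (M' * q * q) D hD)) :=
  vdInt_mid hq ζ hζ _ (ecMid_alpha M' q hq hqM ζ hζ) (fun Y' => ecMid_pi3 M' q hq hqM ζ hζ Y')
    D hD

/-- **`hfrac` at the middle cusp**: `K1 = K0(ζ)`, `A₁ = A ∩ K0(ζ)` -/
theorem ta1_hfrac_mid {f : FF (M' * q * q)} (hf : f ∈ f0Field A (M' * q * q)) :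
    ∃ a b : PowerSeries (vdiscRing A (vdiscK1 A (ζ : Kbar))), b ≠ 0 ∧
      ecMid M' q hq hqM ζ hζ f * ta1Iota A (vdiscK1 A (ζ : Kbar)) b
        = ta1Iota A (vdiscK1 A (ζ : Kbar)) a :=
  ta1_hfrac (ta1_ecMid_C M' q hq hqM ζ hζ) (k0_le_vdiscK1 A (ζ : Kbar))
    (fun D _ hD => ta1_vdInt_ecMid A M' q hq hqM ζ hζ D hD) hf

/-- **`hK` at the middle cusp** (constants of `K0(ζ)`, in particular of `K0`) -/
theorem ta1_hK_mid (hA : A.LiesOverPrime q) {c : Kbar} (hc : c ∈ vdiscK1 A (ζ : Kbar)) :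
    ∃ (a : PowerSeries (vdiscRing A (vdiscK1 A (ζ : Kbar)))) (n : ℕ),
      ecMid M' q hq hqM ζ hζ (algebraMap Kbar (FF (M' * q * q)) c)
          * ta1Iota A (vdiscK1 A (ζ : Kbar))
              (PowerSeries.C (ta1Pi (vdisc_k0_zeta A hq hA hζ)) ^ n)
        = ta1Iota A (vdiscK1 A (ζ : Kbar)) a :=
  ta1_hK (vdisc_k0_zeta A hq hA hζ) (ta1_ecMid_C M' q hq hqM ζ hζ) hc

include hq in
/-- the two discrete valuation rings -/
theorem ta1_isDVR_k0 (hA : A.LiesOverPrime q) :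
    IsDiscreteValuationRing (vdiscRing A (k0Field A).toSubfield) :=
  ta1_isDVR (vdisc_k0 A q hq hA)

include hq hζ in
theorem ta1_isDVR_zeta (hA : A.LiesOverPrime q) :
    IsDiscreteValuationRing (vdiscRing A (vdiscK1 A (ζ : Kbar))) :=
  ta1_isDVR (vdisc_k0_zeta A hq hA hζ)

end Cusps

end Fermat.Agent.S36lib

end
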