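/-
Item 83 (S36), piece TUBE P5 = (hOV) (helper4): the elements of the valuation balls have
expansions which are fractions `a / b` of power series over the DVR `A₁` with PRIMITIVE
denominator (`C ϖ ∤ b`).

Abstract (Mathlib only):
* `tov_abs` : `𝒜` a UFD, `p` prime, `ι₀ : 𝒜 → S`, `j : S → L` injective, `r : S → κ` (a domain)
  with `r (ι₀ a) = 0 ↔ p ∣ a`.  If `z ∈ L` is a fraction of elements of `𝒜` (`hfrac`) and a
  fraction `a₂ / b₂` of elements of `S` with `r b₂ ≠ 0` (`hball`), then `z = a / b` with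
  `a, b ∈ 𝒜`, `p ∤ b`.
Power series over `A₁` (`φ : A₁ → A` with `res (φ c) = 0 ↔ ϖ ∣ c`):
* `tov_C_dvd_iff` : `C ϖ ∣ a ↔ ∀ n, ϖ ∣ coeff n a`;
* `tov_exists_unit_coeff` : `C ϖ ∤ b` ⟹ some coefficient of `b` is a unit and the coefficients
  below it are divisible by `ϖ` (so `b mod q` is a unit of `(A₁/q)((X))`);
* `tovIncl φ : A₁[[X]] → A((X))`, `tovIota φ : A₁[[X]] → K((X))`, `tov_hker`;
* `tov_hOV` : the statement (hOV) for `z ∈ K((X))`; `tov_mem_tsV`, `tov_hOV_ball` : the same in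
  the form of helper12's `TubeSeries` (`E x ∈ tsV ι ρA`, `ι = tovIota φ`, `ρA = map π`).
Concrete balls (`hball`):
* `tov_ball_inf` (`x ∈ R.O`, `R` a series reduction), `tov_ball_comap` (`x ∈ (inredComap R w).O`),
  `tov_ball_mid` (`x ∈ vmidO`).
-/
import Mathlib
import Fermat.Agent.S36lib.VMid
import Fermat.Agent.S36lib.TubeSeries
import Fermat.Agent.S34lib.InertiaRed
import Fermat.Agent.GoodRed.DescTower

set_option autoImplicit false
set_option linter.style.haveILetI false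
set_option linter.unusedSectionVars false

noncomputable section

namespace Fermat.Agent.S36lib

open ModularCurve AlgebraicCurve
open Fermat.Agent.S24lib Fermat.Agent.S34lib Fermat.Agent.GoodRed

section Abstract

variable {𝒜 S L κ : Type*} [CommRing 𝒜] [IsDomain 𝒜] [CommRing S] [Field L] [CommRing κ]
  [IsDomain κ]

/-- **(hOV), abstract form.** -/
theorem tov_abs (ι₀ : 𝒜 →+* S) (hι₀ : Function.Injective ι₀) (j : S →+* L)
    (hj : Function.Injective j) (r : S →+* κ) (p : 𝒜) (hp : Prime p)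
    (hker : ∀ a : 𝒜, r (ι₀ a) = 0 ↔ p ∣ a)
    (hfin : ∀ b : 𝒜, b ≠ 0 → ∃ (n : ℕ) (b' : 𝒜), ¬ p ∣ b' ∧ b = p ^ n * b')
    (z : L) (hfrac : ∃ a b : 𝒜, b ≠ 0 ∧ z * j (ι₀ b) = j (ι₀ a))
    (hball : ∃ a₂ b₂ : S, r b₂ ≠ 0 ∧ z * j b₂ = j a₂) :
    ∃ a b : 𝒜, ¬ p ∣ b ∧ z * j (ι₀ b) = j (ι₀ a) := by
  obtain ⟨a₂, b₂, hb₂, h₂⟩ := hball
  obtain ⟨a, b, hb, h⟩ := hfrac
  obtain ⟨n, b', hb', rfl⟩ := hfin b hb
  have hp0 : j (ι₀ p) ≠ 0 := by
    intro h0
    have h1 : ι₀ p = 0 := hj (by rw [h0, map_zero])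
    exact hp.ne_zero (hι₀ (by rw [h1, map_zero]))
  clear hb
  induction n generalizing a with
  | zero =>
    rw [pow_zero, one_mul] at h
    exact ⟨a, b', hb', h⟩
  | succ n ih =>
    -- `p ∣ a`
    have hpa : p ∣ a := by
      rw [← hker]
      have hrb : r (ι₀ (p ^ (n + 1) * b')) = 0 := by
        rw [hker]
        exact ⟨p ^ n * b', by rw [pow_succ]; ring⟩
      have e : j (ι₀ a * b₂) = j (ι₀ (p ^ (n + 1) * b') * a₂) := by
        rw [map_mul, map_mul, ← h, ← h₂]
        ring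
      have e' := congrArg r (hj e)
      rw [map_mul, map_mul, hrb, zero_mul] at e'
      exact (mul_eq_zero.mp e').resolve_right hb₂
    obtain ⟨a₁, rfl⟩ := hpa
    refine ih a₁ ?_
    have e : j (ι₀ p) * (z * j (ι₀ (p ^ n * b'))) = j (ι₀ p) * j (ι₀ a₁) := by
      rw [← map_mul, ← map_mul, ← h, pow_succ]
      simp only [map_mul]
      ring
    exact mul_left_cancel₀ hp0 e

end Abstract

section PowerSeries

variable {A1 : Type*} [CommRing A1] [IsDomain A1]

/-- `C ϖ ∣ a` iff `ϖ` divides all coefficients -/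
theorem tov_C_dvd_iff (ϖ : A1) (a : PowerSeries A1) :
    PowerSeries.C ϖ ∣ a ↔ ∀ n : ℕ, ϖ ∣ PowerSeries.coeff n a := by
  constructor
  · rintro ⟨c, rfl⟩ n
    rw [PowerSeries.coeff_C_mul]
    exact Dvd.intro _ rfl
  · intro h
    choose c hc using h
    refine ⟨PowerSeries.mk c, ?_⟩
    ext n
    rw [PowerSeries.coeff_C_mul, PowerSeries.coeff_mk, hc n]

/-- a power series over a DVR which is not divisible by `C ϖ` has a unit coefficient, the
coefficients below it being divisible by `ϖ` -/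
theorem tov_exists_unit_coeff [IsDiscreteValuationRing A1] {ϖ : A1} (hϖ : Irreducible ϖ)
    {b : PowerSeries A1} (hb : ¬ PowerSeries.C ϖ ∣ b) :
    ∃ n : ℕ, IsUnit (PowerSeries.coeff n b) ∧ ∀ i < n, ϖ ∣ PowerSeries.coeff i b := by
  classical
  rw [tov_C_dvd_iff] at hb
  push_neg at hb
  refine ⟨Nat.find hb, ?_, fun i hi => ?_⟩
  · have h := Nat.find_spec hb
    by_contra hu
    apply h
    have hm : PowerSeries.coeff (Nat.find hb) b ∈ IsLocalRing.maximalIdeal A1 :=
      (IsLocalRing.mem_maximalIdeal _).mpr hu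
    rw [hϖ.maximalIdeal_eq, Ideal.mem_span_singleton] at hm
    exact hm
  · by_contra h
    exact Nat.find_min hb hi h

variable {K : Type*} [Field K] {A : ValuationSubring K}

/-- the inclusion `A₁[[X]] → A((X))` -/
def tovIncl (φ : A1 →+* A) : PowerSeries A1 →+* LaurentSeries A :=
  (HahnSeries.ofPowerSeries ℤ A).comp (PowerSeries.map φ)

/-- the inclusion `A₁[[X]] → K((X))` -/
def tovIota (φ : A1 →+* A) : PowerSeries A1 →+* LaurentSeries K :=
  (coeffMap A.subtype).comp (tovIncl φ)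

theorem tovIota_apply (φ : A1 →+* A) (a : PowerSeries A1) :
    tovIota φ a = coeffMap A.subtype (tovIncl φ a) := rfl

theorem tovIncl_coeff (φ : A1 →+* A) (a : PowerSeries A1) (n : ℕ) :
    (tovIncl φ a).coeff (n : ℤ) = φ (PowerSeries.coeff n a) := by
  show (HahnSeries.ofPowerSeries ℤ A (PowerSeries.map φ a)).coeff (n : ℤ) = _
  rw [HahnSeries.ofPowerSeries_apply_coeff, PowerSeries.coeff_map]

theorem tovIncl_C (φ : A1 →+* A) (c : A1) :
    tovIncl φ (PowerSeries.C c) = HahnSeries.C (φ c) := by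
  show HahnSeries.ofPowerSeries ℤ A (PowerSeries.map φ (PowerSeries.C c)) = _
  rw [PowerSeries.map_C, HahnSeries.ofPowerSeries_C]

theorem tovIncl_injective (φ : A1 →+* A) (hφ : Function.Injective φ) :
    Function.Injective (tovIncl φ) := by
  intro a b h
  have h1 : PowerSeries.map φ a = PowerSeries.map φ b := HahnSeries.ofPowerSeries_injective h
  ext n
  apply hφ
  have := congrArg (PowerSeries.coeff n) h1
  rwa [PowerSeries.coeff_map, PowerSeries.coeff_map] at this

/-- the kernel of the reduction on `A₁[[X]]` is `(C ϖ)` -/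
theorem tov_hker (φ : A1 →+* A) (ϖ : A1)
    (hφ : ∀ c : A1, IsLocalRing.residue A (φ c) = 0 ↔ ϖ ∣ c) (a : PowerSeries A1) :
    coeffMap (IsLocalRing.residue A) (tovIncl φ a) = 0 ↔ PowerSeries.C ϖ ∣ a := by
  constructor
  · intro h
    rw [tov_C_dvd_iff]
    intro n
    rw [← hφ, ← tovIncl_coeff, ← coeffMap_coeff, h]
    rfl
  · rintro ⟨c, rfl⟩
    rw [map_mul, map_mul, tovIncl_C, coeffMap_C, (hφ ϖ).mpr dvd_rfl, map_zero, zero_mul]

/-- **(hOV)** for a Laurent series `z` over `K`: if `z` is a fraction of power series over `A₁`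
and a fraction of integral Laurent series with primitive denominator, then `z = a / b` with
`a, b ∈ A₁[[X]]`, `C ϖ ∤ b`. -/
theorem tov_hOV [IsDiscreteValuationRing A1] (φ : A1 →+* A) (hφi : Function.Injective φ)
    {ϖ : A1} (hϖ : Irreducible ϖ)
    (hφ : ∀ c : A1, IsLocalRing.residue A (φ c) = 0 ↔ ϖ ∣ c)
    (z : LaurentSeries K)
    (hfrac : ∃ a b : PowerSeries A1, b ≠ 0 ∧ z * tovIota φ b = tovIota φ a)
    (hball : ∃ a₂ b₂ : LaurentSeries A, coeffMap (IsLocalRing.residue A) b₂ ≠ 0 ∧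
      z * coeffMap A.subtype b₂ = coeffMap A.subtype a₂) :
    ∃ a b : PowerSeries A1, ¬ PowerSeries.C ϖ ∣ b ∧ z * tovIota φ b = tovIota φ a := by
  have hirr : Irreducible (PowerSeries.C ϖ : PowerSeries A1) := by
    constructor
    · intro h
      apply hϖ.not_isUnit
      have := h.map (PowerSeries.constantCoeff (R := A1))
      rwa [PowerSeries.constantCoeff_C] at this
    · intro f g hfg
      have h0 := congrArg (PowerSeries.constantCoeff (R := A1)) hfg
      rw [PowerSeries.constantCoeff_C, map_mul] at h0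
      rcases hϖ.isUnit_or_isUnit h0 with h | h
      · left
        exact PowerSeries.isUnit_iff_constantCoeff.mpr h
      · right
        exact PowerSeries.isUnit_iff_constantCoeff.mpr h
  have hp : Prime (PowerSeries.C ϖ : PowerSeries A1) := hirr.prime
  refine tov_abs (tovIncl φ) (tovIncl_injective φ hφi) (coeffMap A.subtype)
    (coeffMap_valSubtype_injective A) (coeffMap (IsLocalRing.residue A)) (PowerSeries.C ϖ) hp
    (tov_hker φ ϖ hφ) ?_ z hfrac hball
  intro b hb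
  have hfm : FiniteMultiplicity (PowerSeries.C ϖ : PowerSeries A1) b :=
    FiniteMultiplicity.of_prime_left hp hb
  obtain ⟨c, hc1, hc2⟩ := hfm.exists_eq_pow_mul_and_not_dvd
  exact ⟨_, c, hc2, hc1⟩

/-- **(hOV)** in the form of helper12's `TubeSeries`: `z ∈ tsV ι ρA` for `ι = tovIota φ`,
`ρA = PowerSeries.map π`, `π : A₁ → Λ` with `π ϖ` nilpotent. -/
theorem tov_mem_tsV [IsDiscreteValuationRing A1] (φ : A1 →+* A) (hφi : Function.Injective φ)
    {ϖ : A1} (hϖ : Irreducible ϖ)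
    (hφ : ∀ c : A1, IsLocalRing.residue A (φ c) = 0 ↔ ϖ ∣ c)
    {Λ : Type*} [CommRing Λ] (π : A1 →+* Λ) (hπ : IsNilpotent (π ϖ))
    (z : LaurentSeries K)
    (hfrac : ∃ a b : PowerSeries A1, b ≠ 0 ∧ z * tovIota φ b = tovIota φ a)
    (hball : ∃ a₂ b₂ : LaurentSeries A, coeffMap (IsLocalRing.residue A) b₂ ≠ 0 ∧
      z * coeffMap A.subtype b₂ = coeffMap A.subtype a₂) :
    z ∈ tsV (tovIota (K := K) φ) (PowerSeries.map π) := by
  obtain ⟨a, b, hb, h⟩ := tov_hOV φ hφi hϖ hφ z hfrac hball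
  exact ⟨a, b, ts_isUnit_of_not_dvd π ϖ hϖ hπ b hb, h⟩

/-- **(hOV)** for a ball `O` of a field `F` with an expansion `E : F → K((X))`. -/
theorem tov_hOV_ball [IsDiscreteValuationRing A1] (φ : A1 →+* A) (hφi : Function.Injective φ)
    {ϖ : A1} (hϖ : Irreducible ϖ)
    (hφ : ∀ c : A1, IsLocalRing.residue A (φ c) = 0 ↔ ϖ ∣ c)
    {Λ : Type*} [CommRing Λ] (π : A1 →+* Λ) (hπ : IsNilpotent (π ϖ))
    {F : Type*} [Field F] (E : F →+* LaurentSeries K) (O : Subring F)
    (hfrac : ∀ g : F, ∃ a b : PowerSeries A1, b ≠ 0 ∧ E g * tovIota φ b = tovIota φ a)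
    (hball : ∀ x : F, x ∈ O → ∃ a₂ b₂ : LaurentSeries A,
      coeffMap (IsLocalRing.residue A) b₂ ≠ 0 ∧
      E x * coeffMap A.subtype b₂ = coeffMap A.subtype a₂) :
    ∀ x : F, x ∈ O → E x ∈ tsV (tovIota (K := K) φ) (PowerSeries.map π) :=
  fun x hx => tov_mem_tsV φ hφi hϖ hφ π hπ (E x) (hfrac x) (hball x hx)

theorem tovIota_injective (φ : A1 →+* A) (hφ : Function.Injective φ) :
    Function.Injective (tovIota (K := K) φ) :=
  (coeffMap_valSubtype_injective A).comp (tovIncl_injective φ hφ)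

end PowerSeries

section Balls

variable {A : ValuationSubring Kbar}
variable {F₀ : IntermediateField ℚ (LaurentSeries ℚ)}
variable {Fk : IntermediateField (IsLocalRing.ResidueField A)
  (LaurentSeries (IsLocalRing.ResidueField A))}

/-- `hball` at `∞`: the `q`-expansion of an element of the unit ball of a series reduction -/
theorem tov_ball_inf
    {R : ConstRed A (IsLocalRing.residue A) (↥Fk) (↥(laurentBaseChange Kbar F₀))}
    (hR : IsSeriesRed R) (hfrac : HasPrimFrac A (laurentBaseChange Kbar F₀))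
    {x : laurentBaseChange Kbar F₀} (hx : x ∈ R.O) :
    ∃ a₂ b₂ : LaurentSeries A, coeffMap (IsLocalRing.residue A) b₂ ≠ 0 ∧
      (x : LaurentSeries Kbar) * coeffMap A.subtype b₂ = coeffMap A.subtype a₂ := by
  obtain ⟨a, b, hrep⟩ := hR.exists_isRep hfrac hx
  exact ⟨a, b, hrep.2.2.1, hrep.2.2.2⟩

/-- `hball` at `0`: the expansion `x ↦ (w x)(X)` on the unit ball of `inredComap R w` -/
theorem tov_ball_comap
    {R : ConstRed A (IsLocalRing.residue A) (↥Fk) (↥(laurentBaseChange Kbar F₀))}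
    (hR : IsSeriesRed R) (hfrac : HasPrimFrac A (laurentBaseChange Kbar F₀))
    (w : laurentBaseChange Kbar F₀ ≃ₐ[Kbar] laurentBaseChange Kbar F₀)
    {x : laurentBaseChange Kbar F₀} (hx : x ∈ (inredComap R w).O) :
    ∃ a₂ b₂ : LaurentSeries A, coeffMap (IsLocalRing.residue A) b₂ ≠ 0 ∧
      ((w x : laurentBaseChange Kbar F₀) : LaurentSeries Kbar) * coeffMap A.subtype b₂
        = coeffMap A.subtype a₂ :=
  tov_ball_inf hR hfrac ((mem_inredComap_O R w x).mp hx)

variable {M' q : ℕ} [NeZero M'] [NeZero q] {ζ : Kbarˣ}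
  {E : FF (M' * q * q) →+* LaurentSeries Kbar}

/-- `hball` at the middle cusp: the middle expansion on `vmidO` -/
theorem tov_ball_mid (hq : q.Prime) (hlt : A.valuation (q : Kbar) < 1) (hζ : ζ ^ q = 1)
    (hE : IsMidExp M' q ζ E) {x : FF (M' * q * q)} (hx : x ∈ vmidO A hq hlt hζ hE) :
    ∃ a₂ b₂ : LaurentSeries A, coeffMap (IsLocalRing.residue A) b₂ ≠ 0 ∧
      E x * coeffMap A.subtype b₂ = coeffMap A.subtype a₂ := by
  obtain ⟨a, b, hrep⟩ := (mem_vmidO_iff A hq hlt hζ hE x).mp hx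
  exact ⟨a, b, hrep.2.2.1, hrep.2.2.2⟩

end Balls

end Fermat.Agent.S36lib

end
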