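/-
Item 83 (S36), TUBE piece P1, bridges (helper15).  No incomplete proof in this file.

The three shapes of the embedding `A₁[[X]] → K((X))`, `A₁ = ↥(vdiscRing A K1)`:
* `ta1Iota A K1` (helper15, `TubeA1.lean`),
* `tviIota A K1` (helper8, `TubeOVInf.lean`) — definitionally the same: `ta1Iota_eq_tviIota`,
* `tovIota φ`, `φ := ta1Incl A K1 : A₁ →+* ↥A` (helper4, `TubeOV.lean`; consumed by helper6's
  `s36_tube_int_ps`): `ta1Iota_eq_tovIota`.
Moreover `ta1Incl_injective`, `ta1_hφ` (`residue (φ c) = 0 ↔ ϖ ∣ c`), `ta1Pi_eq_vdiscPi`, and the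
`tovIota`-forms of `hfrac`, `hK` at the three cusps.
-/
import Mathlib
import Fermat.Agent.S36lib.TubeA1
import Fermat.Agent.S36lib.TubeOV
import Fermat.Agent.S36lib.TubeOVInf

set_option autoImplicit false
set_option linter.unusedSectionVars false
set_option linter.unusedVariables false
set_option linter.style.haveILetI false

noncomputable section

namespace Fermat.Agent.S36lib

open ModularCurve HahnSeries AlgebraicCurve
open Fermat.Agent.GoodRed Fermat.Agent.S24lib Fermat.Agent.S34lib Fermat.Agent.S37lib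
  Fermat.Agent.HeckeBar

section Bridge

variable {K : Type*} [Field K] (A : ValuationSubring K) (K1 : Subfield K)

/-- the inclusion `φ : A₁ = K1 ∩ A → A` -/
def ta1Incl : vdiscRing A K1 →+* A where
  toFun x := ⟨(x : K), x.2.2⟩
  map_one' := rfl
  map_mul' _ _ := rfl
  map_zero' := rfl
  map_add' _ _ := rfl

@[simp]
theorem ta1Incl_coe (x : vdiscRing A K1) : ((ta1Incl A K1 x : A) : K) = (x : K) := rfl

theorem ta1Incl_injective : Function.Injective (ta1Incl A K1) := by
  intro x y h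
  apply Subtype.ext
  have := congrArg (fun t : A => (t : K)) h
  exact this

/-- `ta1Iota = tovIota (ta1Incl)` -/
theorem ta1Iota_eq_tovIota (a : PowerSeries (vdiscRing A K1)) :
    ta1Iota A K1 a = tovIota (ta1Incl A K1) a := by
  ext n
  rw [tovIota_apply, coeffMap_coeff]
  rcases lt_or_ge n 0 with h | h
  · rw [ta1Iota_coeff_neg A K1 a h]
    have h0 : (tovIncl (ta1Incl A K1) a).coeff n = 0 := by
      show (HahnSeries.ofPowerSeries ℤ A (PowerSeries.map (ta1Incl A K1) a)).coeff n = 0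
      rw [HahnSeries.ofPowerSeries_apply]
      apply HahnSeries.embDomain_of_notMem_range
      rintro ⟨m, hm⟩
      have : (m : ℤ) = n := hm
      omega
    rw [h0, map_zero]
  · obtain ⟨m, rfl⟩ := Int.eq_ofNat_of_zero_le h
    rw [ta1Iota_coeff_nat, tovIncl_coeff]
    rfl

theorem ta1Iota_eq_tovIota' : ta1Iota A K1 = tovIota (ta1Incl A K1) :=
  RingHom.ext (ta1Iota_eq_tovIota A K1)

/-- `ta1Iota = tviIota` (helper8) -/
theorem ta1Iota_eq_tviIota : ta1Iota A K1 = tviIota A K1 := rfl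

variable {A K1} {ϖ : K}

theorem ta1Pi_eq_vdiscPi (hd : VdDisc A K1 ϖ) : ta1Pi hd = vdiscPi hd := rfl

/-- **`hφ`**: `A₁ ∩ 𝔪_A = ϖ A₁` -/
theorem ta1_hφ (hd : VdDisc A K1 ϖ) (c : vdiscRing A K1) :
    IsLocalRing.residue A (ta1Incl A K1 c) = 0 ↔ ta1Pi hd ∣ c := by
  have hv0 : A.valuation ϖ ≠ 0 := by rw [Ne, map_eq_zero]; exact hd.2.1
  have hpos : 0 < A.valuation ϖ := zero_lt_iff.mpr hv0
  have key : IsLocalRing.residue A (ta1Incl A K1 c) = 0 ↔ A.valuation (c : K) < 1 := by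
    rw [IsLocalRing.residue_eq_zero_iff]
    exact A.valuation_lt_one_iff (ta1Incl A K1 c)
  rw [key]
  constructor
  · intro hlt
    by_cases hc : c = 0
    · rw [hc]
      exact dvd_zero _
    obtain ⟨n, hn⟩ := ta1_associated_pow hd c hc
    have hval := ta1_val_of_associated hd hn
    have hn0 : n ≠ 0 := by
      rintro rfl
      rw [hval, pow_zero] at hlt
      exact lt_irrefl _ hlt
    exact (dvd_pow_self _ hn0).trans hn.dvd
  · rintro ⟨d, rfl⟩
    show A.valuation (((ta1Pi hd : vdiscRing A K1) : K) * (d : K)) < 1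
    rw [ta1Pi_coe, map_mul]
    exact mul_lt_one_of_lt_of_le hd.2.2.1 ((A.valuation_le_one_iff _).mpr d.2.2)

end Bridge

/-! ### `hfrac`, `hK` in the `tovIota` form -/

section Cusps

variable (A : ValuationSubring Kbar)

theorem ta1_hfrac_inf_tov (L : ℕ) [NeZero L] {f : FF L} (hf : f ∈ f0Field A L) :
    ∃ a b : PowerSeries (vdiscRing A (k0Field A).toSubfield), b ≠ 0 ∧
      (f : LaurentSeries Kbar) * tovIota (ta1Incl A (k0Field A).toSubfield) b
        = tovIota (ta1Incl A (k0Field A).toSubfield) a := by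
  rw [← ta1Iota_eq_tovIota']
  exact ta1_hfrac_inf A L hf

theorem ta1_hK_inf_tov {q : ℕ} (hq : q.Prime) (hA : A.LiesOverPrime q) (L : ℕ) [NeZero L]
    {c : Kbar} (hc : c ∈ k0Field A) :
    ∃ (a : PowerSeries (vdiscRing A (k0Field A).toSubfield)) (n : ℕ),
      ((algebraMap Kbar (FF L) c : FF L) : LaurentSeries Kbar)
          * tovIota (ta1Incl A (k0Field A).toSubfield)
              (PowerSeries.C (ta1Pi (vdisc_k0 A q hq hA)) ^ n)
        = tovIota (ta1Incl A (k0Field A).toSubfield) a := by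
  rw [← ta1Iota_eq_tovIota']
  exact ta1_hK_inf A hq hA L hc

variable (M' q : ℕ) [NeZero M'] [NeZero q] (hq : q.Prime) (hqM : ¬ q ∣ M')

theorem ta1_hfrac_zero_tov {f : FF (M' * q * q)} (hf : f ∈ f0Field A (M' * q * q)) :
    ∃ a b : PowerSeries (vdiscRing A (k0Field A).toSubfield), b ≠ 0 ∧
      ecZero M' q hq hqM f * tovIota (ta1Incl A (k0Field A).toSubfield) b
        = tovIota (ta1Incl A (k0Field A).toSubfield) a := by
  rw [← ta1Iota_eq_tovIota']
  exact ta1_hfrac_zero A M' q hq hqM hf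

theorem ta1_hK_zero_tov (hA : A.LiesOverPrime q) {c : Kbar} (hc : c ∈ k0Field A) :
    ∃ (a : PowerSeries (vdiscRing A (k0Field A).toSubfield)) (n : ℕ),
      ecZero M' q hq hqM (algebraMap Kbar (FF (M' * q * q)) c)
          * tovIota (ta1Incl A (k0Field A).toSubfield)
              (PowerSeries.C (ta1Pi (vdisc_k0 A q hq hA)) ^ n)
        = tovIota (ta1Incl A (k0Field A).toSubfield) a := by
  rw [← ta1Iota_eq_tovIota']
  exact ta1_hK_zero A M' q hq hqM hA hc

variable (ζ : Kbarˣ) (hζ : IsPrimitiveRoot (ζ : Kbar) q)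

theorem ta1_hfrac_mid_tov {f : FF (M' * q * q)} (hf : f ∈ f0Field A (M' * q * q)) :
    ∃ a b : PowerSeries (vdiscRing A (vdiscK1 A (ζ : Kbar))), b ≠ 0 ∧
      ecMid M' q hq hqM ζ hζ f * tovIota (ta1Incl A (vdiscK1 A (ζ : Kbar))) b
        = tovIota (ta1Incl A (vdiscK1 A (ζ : Kbar))) a := by
  rw [← ta1Iota_eq_tovIota']
  exact ta1_hfrac_mid A M' q hq hqM ζ hζ hf

theorem ta1_hK_mid_tov (hA : A.LiesOverPrime q) {c : Kbar} (hc : c ∈ vdiscK1 A (ζ : Kbar)) :
    ∃ (a : PowerSeries (vdiscRing A (vdiscK1 A (ζ : Kbar)))) (n : ℕ),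
      ecMid M' q hq hqM ζ hζ (algebraMap Kbar (FF (M' * q * q)) c)
          * tovIota (ta1Incl A (vdiscK1 A (ζ : Kbar)))
              (PowerSeries.C (ta1Pi (vdisc_k0_zeta A hq hA hζ)) ^ n)
        = tovIota (ta1Incl A (vdiscK1 A (ζ : Kbar))) a := by
  rw [← ta1Iota_eq_tovIota']
  exact ta1_hK_mid A M' q hq hqM ζ hζ hA hc

end Cusps

end Fermat.Agent.S36lib

end
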