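/-
Item 83 (S36), block CRUX, the fields `cuspI`, `cuspM`, `cuspZ` of `H0Conc` (`H0Conc.lean`,
helper13) for THE concrete family `CruxFam.lean` (helper16) at the final setup `s36Final`
(helper12).

For each cusp `i ∈ {inf, mid, zero}` the structure `H0Cusp` asks for
* `frac`   : the expansion of an element of the ball is a fraction with unit denominator
             (= `hOV` = F1, `CruxFamOV.lean`);
* `compat` : the reduced expansion is the reduction of fractions (= `hε` + `tsBallRed_compat`);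
* `rep`    : the reduction of the VALUATION at the cusp (a series over the residue field `k`) is
             the reduction of fractions modulo the maximal ideal.

`rep` is proved here from the series form of the three valuations:
`IsSeriesRed.exists_isRep` / `IsSeriesRed.red_of_isRep` at `∞` and `0`, `vmid_bridge` at `mid`.

* `cfh_rep_core`  : two fractions of the same series have the same reduction;
* `CfhSeries`     : a `SeriesVal` is given by reduction of fractions along an expansion `E`;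
* `cfh_series_inf`, `cfh_series_zero`, `cfh_series_mid`;
* `cfh_rep`       : `rep`, generic;
* `cfh_cusp`      : `H0Cusp`, generic;
* `cfh_cuspI`, `cfh_cuspM`, `cfh_cuspZ` : the three fields for `s36Final`.
Complete proofs.
-/
import Mathlib
import Fermat.Agent.S36lib.CruxFamOV
import Fermat.Agent.S36lib.H0Conc
import Fermat.Agent.S36lib.TubeA1Bridge

set_option autoImplicit false
set_option linter.unusedSectionVars false
set_option linter.unusedVariables false
set_option linter.style.haveILetI false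
set_option synthInstance.maxHeartbeats 400000

noncomputable section

namespace Fermat.Agent.S36lib

open ModularCurve HahnSeries AlgebraicCurve
open Fermat.Agent.GoodRed Fermat.Agent.S24lib Fermat.Agent.S34lib Fermat.Agent.S37lib

/-! ### Fractions of series -/

section Core

variable {K : Type*} [Field K] {A : ValuationSubring K}

/-- two fractions of the same series have the same reduction -/
theorem cfh_rep_core {x : LaurentSeries K} {a b a' b' : LaurentSeries A}
    (hb' : coeffMap (IsLocalRing.residue A) b' ≠ 0)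
    (h' : x * coeffMap A.subtype b' = coeffMap A.subtype a')
    (h : x * coeffMap A.subtype b = coeffMap A.subtype a) :
    coeffMap (IsLocalRing.residue A) a' / coeffMap (IsLocalRing.residue A) b' *
        coeffMap (IsLocalRing.residue A) b = coeffMap (IsLocalRing.residue A) a := by
  have e : a * b' = a' * b := by
    apply coeffMap_valSubtype_injective A
    rw [map_mul, map_mul, ← h, ← h']
    ring
  have e' := congrArg (coeffMap (IsLocalRing.residue A)) e
  rw [map_mul, map_mul] at e'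
  rw [div_mul_eq_mul_div, ← e', mul_div_assoc, div_self hb', mul_one]

end Core

/-! ### Valuations given by reduction of fractions -/

section Series

variable {A : ValuationSubring Kbar} {L : ℕ} [NeZero L]

/-- the `SeriesVal` `v` is given on its valuation ring by the reduction of fractions of the
expansion `E` -/
def CfhSeries (v : SeriesVal A L) (E : FF L →+* LaurentSeries Kbar) : Prop :=
  ∀ (x : FF L) (hx : x ∈ v.O), ∃ a' b' : LaurentSeries A,
    coeffMap (IsLocalRing.residue A) b' ≠ 0 ∧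
    E x * coeffMap A.subtype b' = coeffMap A.subtype a' ∧
    v.red ⟨x, hx⟩ = coeffMap (IsLocalRing.residue A) a' / coeffMap (IsLocalRing.residue A) b'

/-- `∞`: a series reduction -/
theorem cfh_series_inf {q : ℕ} [NeZero q] (hq : q.Prime) (hlt : A.valuation (q : Kbar) < 1)
    {Fk : IntermediateField (IsLocalRing.ResidueField A)
      (LaurentSeries (IsLocalRing.ResidueField A))}
    {R : ConstRed A (IsLocalRing.residue A) (↥Fk) (FF L)} (hR : IsSeriesRed R) :
    CfhSeries (SeriesVal.ofConstRed R) (modularFunctionFieldBar L).toSubfield.subtype := by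
  intro x hx
  obtain ⟨a', b', hrep⟩ := hR.exists_isRep (vmid_hasPrimFrac_bar A L hq hlt) hx
  exact ⟨a', b', hrep.2.2.1, hrep.2.2.2, hR.red_of_isRep hrep hx⟩

/-- `0`: the transport of a series reduction by an automorphism -/
theorem cfh_series_comap {v : SeriesVal A L} {E : FF L →+* LaurentSeries Kbar}
    (h : CfhSeries v E) (w : FF L ≃ₐ[Kbar] FF L) :
    CfhSeries (v.comap w) (E.comp (w : FF L →+* FF L)) := by
  intro x hx
  obtain ⟨a', b', hb', hab', hred⟩ := h (w x) ((SeriesVal.mem_comap_iff v w x).mp hx)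
  refine ⟨a', b', hb', hab', ?_⟩
  rw [SeriesVal.comap_red]
  exact hred

end Series

section Mid

variable (A : ValuationSubring Kbar) {M' q : ℕ} [NeZero M'] [NeZero q]
variable {ζ : Kbarˣ} {E : FF (M' * q * q) →+* LaurentSeries Kbar}

/-- `mid`: helper18's middle valuation -/
theorem cfh_series_mid (hq : q.Prime) (hlt : A.valuation (q : Kbar) < 1) (hζ : ζ ^ q = 1)
    (hE : IsMidExp M' q ζ E) : CfhSeries (vmidSV A hq hlt hζ hE) E := by
  intro x hx
  obtain ⟨a', b', hrep⟩ := (mem_vmidO_iff A hq hlt hζ hE x).mp hx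
  obtain ⟨hx', hred⟩ := vmid_bridge A hq hlt hζ hE x a' b' hrep.2.2.1 hrep.2.2.2
  exact ⟨a', b', hrep.2.2.1, hrep.2.2.2, hred⟩

end Mid

/-! ### `rep` and `H0Cusp`, generic -/

section Rep

variable {A : ValuationSubring Kbar} {L : ℕ} [NeZero L]
variable {K1 : Subfield Kbar} {Λ : Type*} [CommRing Λ]

/-- the reduction modulo the maximal ideal of a power series over `A ∩ K1` -/
theorem cfh_coeffMap_incl (π : ↥(vdiscRing A K1) →+* Λ) (θ : Λ →+* IsLocalRing.ResidueField A)
    (hθ : ∀ c : ↥(vdiscRing A K1), θ (π c) = IsLocalRing.residue A (ta1Incl A K1 c))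
    (a : PowerSeries ↥(vdiscRing A K1)) :
    coeffMap (IsLocalRing.residue A) (tovIncl (ta1Incl A K1) a) =
      HahnSeries.ofPowerSeries ℤ (IsLocalRing.ResidueField A)
        (PowerSeries.map (θ.comp π) a) := by
  have e : θ.comp π = (IsLocalRing.residue A).comp (ta1Incl A K1) := RingHom.ext hθ
  rw [e]
  show coeffMap (IsLocalRing.residue A)
      (HahnSeries.ofPowerSeries ℤ A (PowerSeries.map (ta1Incl A K1) a)) = _
  rw [h0c_coeffMap_ofPS]
  rfl

/-- **`rep`**: the reduction of the valuation is the reduction of fractions -/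
theorem cfh_rep {v : SeriesVal A L} {E : FF L →+* LaurentSeries Kbar} (hv : CfhSeries v E)
    (π : ↥(vdiscRing A K1) →+* Λ) (θ : Λ →+* IsLocalRing.ResidueField A)
    (hθ : ∀ c : ↥(vdiscRing A K1), θ (π c) = IsLocalRing.residue A (ta1Incl A K1 c))
    (x : FF L) (hx : x ∈ v.O) (a b : PowerSeries ↥(vdiscRing A K1))
    (hab : E x * ta1Iota A K1 b = ta1Iota A K1 a) :
    v.red ⟨x, hx⟩ * HahnSeries.ofPowerSeries ℤ (IsLocalRing.ResidueField A)
        (PowerSeries.map (θ.comp π) b) =
      HahnSeries.ofPowerSeries ℤ (IsLocalRing.ResidueField A)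
        (PowerSeries.map (θ.comp π) a) := by
  obtain ⟨a', b', hb', hab', hred⟩ := hv x hx
  rw [ta1Iota_eq_tovIota, ta1Iota_eq_tovIota, tovIota_apply, tovIota_apply] at hab
  rw [hred, ← cfh_coeffMap_incl π θ hθ a, ← cfh_coeffMap_incl π θ hθ b]
  exact cfh_rep_core hb' hab' hab

variable {R : Type*} [CommRing R] [Nontrivial Λ]

/-- **`H0Cusp`**, generic: from `hOV`, `hε` and the series form of the valuation. -/
theorem cfh_cusp {v : SeriesVal A L} {E : FF L →+* LaurentSeries Kbar} (hv : CfhSeries v E)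
    (π : ↥(vdiscRing A K1) →+* Λ) (θ : Λ →+* IsLocalRing.ResidueField A)
    (hθ : ∀ c : ↥(vdiscRing A K1), θ (π c) = IsLocalRing.residue A (ta1Incl A K1 c))
    (O : Subring (f0Field A L)) (red : O →+* R) (ε : R →+* LaurentSeries Λ)
    (Ex : f0Field A L →+* LaurentSeries Kbar) (hEx : ∀ x : f0Field A L, Ex x = E (x : FF L))
    (hOV : ∀ x : f0Field A L, x ∈ O → Ex x ∈ tsV (ta1Iota A K1) (PowerSeries.map π))
    (hε : ∀ y : O, ε (red y) =
      tsBallRed (ta1Iota A K1) (PowerSeries.map π) (ta1Iota_injective A K1) Ex O hOV y)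
    (hle : ∀ x : f0Field A L, x ∈ O → (x : FF L) ∈ v.O) :
    H0Cusp O red ε (fun x => v.red ⟨((x : f0Field A L) : FF L), hle x x.2⟩)
      (ta1Iota A K1) Ex π θ where
  frac := fun x => by
    obtain ⟨a, b, hb, hab⟩ := hOV x x.2
    exact ⟨a, b, (mem_tsDen _).mp hb, hab⟩
  compat := fun x a b hab hb => by
    rw [hε x]
    exact tsBallRed_compat (ta1Iota A K1) (PowerSeries.map π) (ta1Iota_injective A K1) Ex O hOV
      x a b hab hb
  rep := fun x a b hab _ => by
    rw [hEx] at hab
    exact cfh_rep hv π θ hθ _ (hle x x.2) a b hab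

end Rep

/-! ### The three cusps of the final setup -/

section Final

variable (A : ValuationSubring Kbar) (M' q : ℕ) [NeZero M'] [NeZero q] (hq : q.Prime)
  (hqM : ¬ q ∣ M') (ζ : Kbarˣ) (hζ : IsPrimitiveRoot (ζ : Kbar) q) (hA : A.LiesOverPrime q)
  (hζq : ζ ^ q = 1) (hE : IsMidExp M' q ζ (ecMid M' q hq hqM ζ hζ))
  (R : ConstRed A (IsLocalRing.residue A)
      (↥(modularFunctionFieldFullC (IsLocalRing.ResidueField A) M')) (FF (M' * q * q)))
  (hR : IsSeriesRed R)
variable {Rr : Type*} [CommRing Rr] [Algebra (IsLocalRing.ResidueField A) Rr]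
  [∀ i, Nontrivial (cfmLam A q ζ i)]
  (S₀ : SSRed (k0Val A) (k0Res A) Rr (f0Field A (M' * q * q)))
  (Ecl : ClExp (IsLocalRing.ResidueField A) Rr (cfmLam A q ζ))
  (hOV : ∀ i, ∀ x : f0Field A (M' * q * q), x ∈ S₀.O →
    cfmEx A M' q hq hqM ζ hζ i x ∈ tsV (cfmInc A ζ i) (PowerSeries.map (cfmPi A q ζ i)))
  (hε : ∀ i (y : S₀.O), Ecl.ε i (S₀.red y) =
    tsBallRed (cfmInc A ζ i) (PowerSeries.map (cfmPi A q ζ i)) (cfmInc_injective A ζ i)
      (cfmEx A M' q hq hqM ζ hζ i) S₀.O (hOV i) y)
  (θ : ∀ i, cfmLam A q ζ i →+* IsLocalRing.ResidueField A)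
  (hθ : ∀ i (c : cfmA1 A ζ i),
    θ i (cfmPi A q ζ i c) = IsLocalRing.residue A (ta1Incl A (cfmK1 A ζ i) c))

include hε hθ in
/-- **`cuspI`** of `H0Conc` for the family `cfm*` at `s36Final` -/
theorem cfh_cuspI
    (hle : S₀.O ≤ (s36Final A M' q hq hqM hA hζq hζ hE R hR).vInf.O.toSubring) :
    H0Cusp S₀.O S₀.red (Ecl.ε CfmCusp.inf)
      (h0cRv (s36Final A M' q hq hqM hA hζq hζ hE R hR).vInf hle)
      (cfmInc A ζ CfmCusp.inf) (cfmEx A M' q hq hqM ζ hζ CfmCusp.inf)
      (cfmPi A q ζ CfmCusp.inf) (θ CfmCusp.inf) :=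
  cfh_cusp (v := SeriesVal.ofConstRed R) (E := ecInf M' q)
    (cfh_series_inf hq ((A.mem_nonunits_iff).mp hA) hR) (cfmPi A q ζ CfmCusp.inf)
    (θ CfmCusp.inf) (hθ CfmCusp.inf) S₀.O S₀.red (Ecl.ε CfmCusp.inf)
    (cfmEx A M' q hq hqM ζ hζ CfmCusp.inf) (fun _ => rfl) (hOV CfmCusp.inf) (hε CfmCusp.inf)
    (fun x hx => hle hx)

include hε hθ in
/-- **`cuspM`** of `H0Conc` for the family `cfm*` at `s36Final` -/
theorem cfh_cuspM
    (hle : S₀.O ≤ (s36Final A M' q hq hqM hA hζq hζ hE R hR).vMid.O.toSubring) :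
    H0Cusp S₀.O S₀.red (Ecl.ε CfmCusp.mid)
      (h0cRv (s36Final A M' q hq hqM hA hζq hζ hE R hR).vMid hle)
      (cfmInc A ζ CfmCusp.mid) (cfmEx A M' q hq hqM ζ hζ CfmCusp.mid)
      (cfmPi A q ζ CfmCusp.mid) (θ CfmCusp.mid) :=
  cfh_cusp (v := vmidSV A hq ((A.mem_nonunits_iff).mp hA) hζq hE)
    (E := ecMid M' q hq hqM ζ hζ)
    (cfh_series_mid A hq ((A.mem_nonunits_iff).mp hA) hζq hE) (cfmPi A q ζ CfmCusp.mid)
    (θ CfmCusp.mid) (hθ CfmCusp.mid) S₀.O S₀.red (Ecl.ε CfmCusp.mid)
    (cfmEx A M' q hq hqM ζ hζ CfmCusp.mid) (fun _ => rfl) (hOV CfmCusp.mid) (hε CfmCusp.mid)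
    (fun x hx => hle hx)

include hε hθ in
/-- **`cuspZ`** of `H0Conc` for the family `cfm*` at `s36Final` -/
theorem cfh_cuspZ
    (hle : S₀.O ≤ (s36Final A M' q hq hqM hA hζq hζ hE R hR).vZero.O.toSubring) :
    H0Cusp S₀.O S₀.red (Ecl.ε CfmCusp.zero)
      (h0cRv (s36Final A M' q hq hqM hA hζq hζ hE R hR).vZero hle)
      (cfmInc A ζ CfmCusp.zero) (cfmEx A M' q hq hqM ζ hζ CfmCusp.zero)
      (cfmPi A q ζ CfmCusp.zero) (θ CfmCusp.zero) :=
  cfh_cusp (v := (SeriesVal.ofConstRed R).comap (alW2 M' hq hqM))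
    (E := ecZero M' q hq hqM)
    (cfh_series_comap (cfh_series_inf hq ((A.mem_nonunits_iff).mp hA) hR) (alW2 M' hq hqM))
    (cfmPi A q ζ CfmCusp.zero)
    (θ CfmCusp.zero) (hθ CfmCusp.zero) S₀.O S₀.red (Ecl.ε CfmCusp.zero)
    (cfmEx A M' q hq hqM ζ hζ CfmCusp.zero) (fun _ => rfl) (hOV CfmCusp.zero)
    (hε CfmCusp.zero) (fun x hx => hle hx)

end Final

end Fermat.Agent.S36lib

end
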