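/-
Item 83 (S36), block C-4 (helper19): **(EX') at level `q²` by ELIMINATION** — pure algebra.
No sorry in this file.  Mathlib only.

Setting (abstract).  `A` a commutative ring (in the application the DVR `A₀ = A ∩ K₀`),
`M` an `A`-module (the integral `K₀`-rational functions of level `M' q²`), three families of
`A`-linear coefficient maps (`co n` = coefficient of `X ^ (-n)` of an expansion):
`coI`, `co0 : ℕ → M →ₗ[A] A` (the cusps `∞` and `0 = w_{q²} ∞`) and `coM : ℕ → M →ₗ[A] Λ`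
(the middle cusp, `Λ = A ∩ K₀(ζ_q)`).

Input: a family `P n₁ n₂ n₃` (`= π₁^*(g_{n₁}) · π₂^*(g_{n₂}) · π₃^*(g_{n₃})`, `g_n` of level `M'`
with a pole of exact order `n` at `∞'` and unit leading coefficient) with pole vector
`n₁ (1, 1, q²) + n₂ (q, q, q) + n₃ (q², 1, 1)` at `(∞, mid, 0)`, unit leading coefficients at `∞`
and `0`, and leading coefficient `unit • ω n₃` at the middle cusp (`ω n = ζ'^n`).

Output `elq_exists`: for `c ≥ c₀` the leading coefficient map at order `c` on the elements with all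
pole orders `≤ c` is ONTO `A × span (ω n, n₀ ≤ n < n₀ + q - 1) × A`.

Proof: `P n₁ n₂ j` with `n₁ + q n₂ + j = c` has the right leading coefficient at the middle cusp
but poles of order up to `c + q² (n₀ + q)` at `∞` and `0`; these are removed by subtracting
`A`-multiples of the `∞`-dominant elements `P m₁ m₂ m₃` (`m₁, m₂ < n₀ + q`, `m₃` large: pole `C` at
`∞`, poles `< c` at the middle cusp and at `0`) and of the `0`-dominant elements `P m₃ m₂ m₁`.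
-/
import Mathlib
import Fermat.Agent.S36lib.Speed

set_option autoImplicit false

namespace Fermat.Agent.S36lib

section Basic

variable {A M Λ : Type*} [CommRing A] [AddCommGroup M] [Module A M] [AddCommGroup Λ] [Module A Λ]

/-- pole order `≤ c` with respect to a family of coefficient maps (`co n` = coefficient of
`X ^ (-n)`) -/
def ElqPole (co : ℕ → M →ₗ[A] Λ) (c : ℕ) (x : M) : Prop := ∀ n, c < n → co n x = 0

/-- pole order `< c` -/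
def ElqLt (co : ℕ → M →ₗ[A] Λ) (c : ℕ) (x : M) : Prop := ∀ n, c ≤ n → co n x = 0

variable {co : ℕ → M →ₗ[A] Λ}

theorem ElqPole.mono {c c' : ℕ} {x : M} (h : ElqPole co c x) (hc : c ≤ c') : ElqPole co c' x :=
  fun n hn => h n (lt_of_le_of_lt hc hn)

theorem ElqLt.elqPole {c : ℕ} {x : M} (h : ElqLt co c x) : ElqPole co c x :=
  fun n hn => h n hn.le

theorem ElqLt.coeff_eq_zero {c : ℕ} {x : M} (h : ElqLt co c x) : co c x = 0 := h c le_rfl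

theorem ElqPole.elqLt {c c' : ℕ} {x : M} (h : ElqPole co c x) (hc : c < c') : ElqLt co c' x :=
  fun n hn => h n (lt_of_lt_of_le hc hn)

theorem ElqPole.sub {c : ℕ} {x y : M} (hx : ElqPole co c x) (hy : ElqPole co c y) :
    ElqPole co c (x - y) := fun n hn => by rw [map_sub, hx n hn, hy n hn, sub_zero]

theorem ElqPole.add {c : ℕ} {x y : M} (hx : ElqPole co c x) (hy : ElqPole co c y) :
    ElqPole co c (x + y) := fun n hn => by rw [map_add, hx n hn, hy n hn, add_zero]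

theorem ElqPole.smul {c : ℕ} {x : M} (hx : ElqPole co c x) (a : A) :
    ElqPole co c (a • x) := fun n hn => by rw [map_smul, hx n hn, smul_zero]

/-- the submodule of the elements of pole order `≤ c` -/
def elqPoleSub (co : ℕ → M →ₗ[A] Λ) (c : ℕ) : Submodule A M where
  carrier := {x | ElqPole co c x}
  zero_mem' := fun _ _ => map_zero _
  add_mem' := fun hx hy => ElqPole.add hx hy
  smul_mem' := fun a _ hx => ElqPole.smul hx a

/-- the submodule of the elements of pole order `< c` -/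
def elqLtSub (co : ℕ → M →ₗ[A] Λ) (c : ℕ) : Submodule A M where
  carrier := {x | ElqLt co c x}
  zero_mem' := fun _ _ => map_zero _
  add_mem' := fun {x y} hx hy n hn => by
    rw [map_add, hx n hn, hy n hn, add_zero]
  smul_mem' := fun a _ hx n hn => by
    rw [map_smul, hx n hn, smul_zero]

theorem mem_elqPoleSub {c : ℕ} {x : M} : x ∈ elqPoleSub co c ↔ ElqPole co c x := Iff.rfl

theorem mem_elqLtSub {c : ℕ} {x : M} : x ∈ elqLtSub co c ↔ ElqLt co c x := Iff.rfl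

end Basic

section One

variable {A M : Type*} [CommRing A] [AddCommGroup M] [Module A M]

/-- **one-cusp elimination**: if for every `n ∈ (c, C]` the submodule `W` contains an element of
pole order `n` with unit leading coefficient, every `x` of pole order `≤ C` can be corrected by an
element of `W` to pole order `≤ c`. -/
theorem elq_one (co : ℕ → M →ₗ[A] A) (W : Submodule A M) (c : ℕ) :
    ∀ C : ℕ, (∀ n, c < n → n ≤ C → ∃ Q ∈ W, ElqPole co n Q ∧ IsUnit (co n Q)) →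
      ∀ x : M, ElqPole co C x → ∃ y ∈ W, ElqPole co c (x - y) := by
  intro C
  induction C with
  | zero =>
    intro _ x hx
    exact ⟨0, W.zero_mem, by rw [sub_zero]; exact hx.mono (Nat.zero_le c)⟩
  | succ C ih =>
    intro hQ x hx
    by_cases hC : c < C + 1
    · obtain ⟨Q, hQW, hQp, hQu⟩ := hQ (C + 1) hC le_rfl
      obtain ⟨u, hu⟩ := hQu
      have h1 : ElqPole co C (x - ((↑u⁻¹ : A) * co (C + 1) x) • Q) := by
        intro n hn
        rcases Nat.lt_or_ge (C + 1) n with h | h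
        · rw [map_sub, map_smul, hx n h, hQp n h, smul_zero, sub_zero]
        · have hn' : n = C + 1 := le_antisymm h hn
          subst hn'
          have e : ((↑u⁻¹ : A) * co (C + 1) x) * (u : A) = co (C + 1) x := by
            rw [mul_assoc, mul_comm (co (C + 1) x), ← mul_assoc, Units.inv_mul, one_mul]
          rw [map_sub, map_smul, smul_eq_mul, ← hu, e, sub_self]
      obtain ⟨y, hyW, hy⟩ := ih (fun n hn hn' => hQ n hn (Nat.le_succ_of_le hn')) _ h1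
      refine ⟨((↑u⁻¹ : A) * co (C + 1) x) • Q + y, W.add_mem (W.smul_mem _ hQW) hyW, ?_⟩
      rwa [← sub_sub]
    · exact ⟨0, W.zero_mem, by rw [sub_zero]; exact hx.mono (by omega)⟩

end One

section Numerics

/-- every `C ≥ n₀ (1 + q + q²)` is `m₁ + q m₂ + q² m₃` with `n₀ ≤ m₁, m₂ < n₀ + q`, `n₀ ≤ m₃` -/
theorem elq_decomp (q n₀ C : ℕ) (hq : 0 < q) (hC : n₀ * (1 + q + q ^ 2) ≤ C) :
    ∃ m₁ m₂ m₃ : ℕ, n₀ ≤ m₁ ∧ m₁ < n₀ + q ∧ n₀ ≤ m₂ ∧ m₂ < n₀ + q ∧ n₀ ≤ m₃ ∧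
      C = m₁ + q * m₂ + q ^ 2 * m₃ := by
  obtain ⟨D, rfl⟩ : ∃ D, C = n₀ * (1 + q + q ^ 2) + D := ⟨C - n₀ * (1 + q + q ^ 2), by omega⟩
  have hq2 : 0 < q ^ 2 := by positivity
  have h1 := Nat.div_add_mod D (q ^ 2)
  have h2 := Nat.div_add_mod (D % q ^ 2) q
  have h3 : D % q ^ 2 < q ^ 2 := Nat.mod_lt _ hq2
  have h4 : D % q ^ 2 % q < q := Nat.mod_lt _ hq
  have h5 : D % q ^ 2 / q < q := by
    apply Nat.div_lt_of_lt_mul
    rw [← pow_two]; exact h3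
  refine ⟨n₀ + D % q ^ 2 % q, n₀ + D % q ^ 2 / q, n₀ + D / q ^ 2, Nat.le_add_right _ _,
    Nat.add_lt_add_left h4 _, Nat.le_add_right _ _, Nat.add_lt_add_left h5 _,
    Nat.le_add_right _ _, ?_⟩
  have e1 : q * (n₀ + D % q ^ 2 / q) = q * n₀ + q * (D % q ^ 2 / q) := by ring
  have e2 : q ^ 2 * (n₀ + D / q ^ 2) = q ^ 2 * n₀ + q ^ 2 * (D / q ^ 2) := by ring
  have e3 : n₀ * (1 + q + q ^ 2) = n₀ + q * n₀ + q ^ 2 * n₀ := by ring
  rw [e1, e2, e3]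
  generalize D % q ^ 2 = r at h1 h2
  generalize q * (r / q) = x at h2
  generalize r % q = y at h2
  generalize q ^ 2 * (D / q ^ 2) = z at h1
  omega

/-- every `c ≥ j + n₀ (1 + q)` is `n₁ + q n₂ + j` with `n₀ ≤ n₁ < n₀ + q`, `n₀ ≤ n₂` -/
theorem elq_decomp_mid (q n₀ c j : ℕ) (hq : 0 < q) (hc : j + n₀ * (1 + q) ≤ c) :
    ∃ n₁ n₂ : ℕ, n₀ ≤ n₁ ∧ n₁ < n₀ + q ∧ n₀ ≤ n₂ ∧ c = n₁ + q * n₂ + j := by
  obtain ⟨D, rfl⟩ : ∃ D, c = j + n₀ * (1 + q) + D := ⟨c - (j + n₀ * (1 + q)), by omega⟩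
  have h1 := Nat.div_add_mod D q
  have h2 : D % q < q := Nat.mod_lt _ hq
  refine ⟨n₀ + D % q, n₀ + D / q, Nat.le_add_right _ _, Nat.add_lt_add_left h2 _,
    Nat.le_add_right _ _, ?_⟩
  have e1 : q * (n₀ + D / q) = q * n₀ + q * (D / q) := by ring
  have e3 : n₀ * (1 + q) = n₀ + q * n₀ := by ring
  rw [e1, e3]
  generalize q * (D / q) = x at h1
  generalize D % q = y at h1
  omega

/-- the bound of the elimination: the dominated pole orders are `< c` -/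
theorem elq_bound (q n₀ c C m₁ m₂ m₃ : ℕ) (hq : 2 ≤ q) (hm₁ : m₁ < n₀ + q) (hm₂ : m₂ < n₀ + q)
    (hC : C = m₁ + q * m₂ + q ^ 2 * m₃) (hCc : C ≤ c + q ^ 2 * (n₀ + q))
    (hc : (5 * q ^ 2 + 4 * q) * (n₀ + q) ≤ c) :
    q ^ 2 * m₁ + q * m₂ + m₃ < c := by
  have ha : 4 ≤ q ^ 2 := by nlinarith
  have h1 : q ^ 2 * m₁ ≤ q ^ 2 * (n₀ + q) := Nat.mul_le_mul_left _ hm₁.le
  have h2 : q * m₂ ≤ q * (n₀ + q) := Nat.mul_le_mul_left _ hm₂.le
  have h3 : 4 * m₃ ≤ q ^ 2 * m₃ := Nat.mul_le_mul_right _ ha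
  have h4 : q ^ 2 * m₃ ≤ c + q ^ 2 * (n₀ + q) := by
    have : q ^ 2 * m₃ ≤ C := by rw [hC]; omega
    omega
  have h5 : (5 * q ^ 2 + 4 * q) * (n₀ + q) = 5 * (q ^ 2 * (n₀ + q)) + 4 * (q * (n₀ + q)) := by
    ring
  have h6 : 0 < q ^ 2 * (n₀ + q) := by positivity
  rw [h5] at hc
  omega

end Numerics

section Main

variable {A M Λ : Type*} [CommRing A] [AddCommGroup M] [Module A M] [AddCommGroup Λ] [Module A Λ]

/-- **(EX') by elimination.**  See the header of this file. -/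
theorem elq_exists (coI co0 : ℕ → M →ₗ[A] A) (coM : ℕ → M →ₗ[A] Λ)
    (q n₀ : ℕ) (hq : 2 ≤ q) (N : Submodule A M)
    (P : ℕ → ℕ → ℕ → M) (ω : ℕ → Λ)
    (hN : ∀ n₁ n₂ n₃, n₀ ≤ n₁ → n₀ ≤ n₂ → n₀ ≤ n₃ → P n₁ n₂ n₃ ∈ N)
    (hI : ∀ n₁ n₂ n₃, n₀ ≤ n₁ → n₀ ≤ n₂ → n₀ ≤ n₃ →
       ElqPole coI (n₁ + q * n₂ + q ^ 2 * n₃) (P n₁ n₂ n₃) ∧
       IsUnit (coI (n₁ + q * n₂ + q ^ 2 * n₃) (P n₁ n₂ n₃)))
    (h0 : ∀ n₁ n₂ n₃, n₀ ≤ n₁ → n₀ ≤ n₂ → n₀ ≤ n₃ →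
       ElqPole co0 (q ^ 2 * n₁ + q * n₂ + n₃) (P n₁ n₂ n₃) ∧
       IsUnit (co0 (q ^ 2 * n₁ + q * n₂ + n₃) (P n₁ n₂ n₃)))
    (hM : ∀ n₁ n₂ n₃, n₀ ≤ n₁ → n₀ ≤ n₂ → n₀ ≤ n₃ →
       ElqPole coM (n₁ + q * n₂ + n₃) (P n₁ n₂ n₃) ∧
       ∃ u : A, IsUnit u ∧ coM (n₁ + q * n₂ + n₃) (P n₁ n₂ n₃) = u • ω n₃) :
    ∃ c₀ : ℕ, ∀ c, c₀ ≤ c → ∀ (α γ : A) (β : Λ),
      β ∈ Submodule.span A (ω '' Set.Ico n₀ (n₀ + (q - 1))) →
      ∃ x ∈ N, ElqPole coI c x ∧ ElqPole coM c x ∧ ElqPole co0 c x ∧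
        coI c x = α ∧ coM c x = β ∧ co0 c x = γ := by
  classical
  have hq0 : 0 < q := by omega
  refine ⟨(5 * q ^ 2 + 4 * q) * (n₀ + q), fun c hc => ?_⟩
  -- numerics
  have hq2 : q ≤ q ^ 2 := by nlinarith
  have hq1 : 1 ≤ q ^ 2 := by nlinarith
  have hcbig : n₀ * (1 + q + q ^ 2) ≤ c := by
    refine le_trans ?_ hc
    rw [mul_comm (5 * q ^ 2 + 4 * q)]
    exact Nat.mul_le_mul (Nat.le_add_right _ _) (by omega)
  have hcpos : 0 < c := by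
    refine lt_of_lt_of_le ?_ hc
    positivity
  -- the correction spaces
  set WI : Submodule A M := N ⊓ elqLtSub coM c ⊓ elqLtSub co0 c with hWI
  set W0 : Submodule A M := N ⊓ elqLtSub coM c ⊓ elqLtSub coI c with hW0
  -- the `∞`-dominant elements
  have hQI : ∀ C, c ≤ C → C ≤ c + q ^ 2 * (n₀ + q) →
      ∃ Q ∈ WI, ElqPole coI C Q ∧ IsUnit (coI C Q) := by
    intro C hcC hCc
    obtain ⟨m₁, m₂, m₃, h1, h1', h2, h2', h3, hCe⟩ :=
      elq_decomp q n₀ C hq0 (le_trans hcbig hcC)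
    have hb := elq_bound q n₀ c C m₁ m₂ m₃ hq h1' h2' hCe hCc hc
    have hbM : m₁ + q * m₂ + m₃ < c := by
      have : m₁ ≤ q ^ 2 * m₁ := Nat.le_mul_of_pos_left _ (by omega)
      omega
    refine ⟨P m₁ m₂ m₃, ⟨⟨hN _ _ _ h1 h2 h3, ?_⟩, ?_⟩, ?_, ?_⟩
    · exact ((hM m₁ m₂ m₃ h1 h2 h3).1).elqLt hbM
    · exact ((h0 m₁ m₂ m₃ h1 h2 h3).1).elqLt hb
    · rw [hCe]; exact (hI m₁ m₂ m₃ h1 h2 h3).1
    · rw [hCe]; exact (hI m₁ m₂ m₃ h1 h2 h3).2
  -- the `0`-dominant elements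
  have hQ0 : ∀ C, c ≤ C → C ≤ c + q ^ 2 * (n₀ + q) →
      ∃ Q ∈ W0, ElqPole co0 C Q ∧ IsUnit (co0 C Q) := by
    intro C hcC hCc
    obtain ⟨m₁, m₂, m₃, h1, h1', h2, h2', h3, hCe⟩ :=
      elq_decomp q n₀ C hq0 (le_trans hcbig hcC)
    have hb := elq_bound q n₀ c C m₁ m₂ m₃ hq h1' h2' hCe hCc hc
    have hbM : m₃ + q * m₂ + m₁ < c := by
      have : m₁ ≤ q ^ 2 * m₁ := Nat.le_mul_of_pos_left _ (by omega)
      omega
    have hbI : m₃ + q * m₂ + q ^ 2 * m₁ < c := by omega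
    have hCe' : C = q ^ 2 * m₃ + q * m₂ + m₁ := by omega
    refine ⟨P m₃ m₂ m₁, ⟨⟨hN _ _ _ h3 h2 h1, ?_⟩, ?_⟩, ?_, ?_⟩
    · exact ((hM m₃ m₂ m₁ h3 h2 h1).1).elqLt hbM
    · exact ((hI m₃ m₂ m₁ h3 h2 h1).1).elqLt hbI
    · rw [hCe']; exact (h0 m₃ m₂ m₁ h3 h2 h1).1
    · rw [hCe']; exact (h0 m₃ m₂ m₁ h3 h2 h1).2
  -- the target submodule
  set Z : Submodule A M := N ⊓ elqPoleSub coI c ⊓ elqPoleSub coM c ⊓ elqPoleSub co0 c with hZ
  have hZmem : ∀ x, x ∈ Z ↔ x ∈ N ∧ ElqPole coI c x ∧ ElqPole coM c x ∧ ElqPole co0 c x := by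
    intro x
    constructor
    · rintro ⟨⟨⟨h1, h2⟩, h3⟩, h4⟩
      exact ⟨h1, h2, h3, h4⟩
    · rintro ⟨h1, h2, h3, h4⟩
      exact ⟨⟨⟨h1, h2⟩, h3⟩, h4⟩
  -- the adjusting elements at `∞` and `0`
  obtain ⟨QI, hQIW, hQIp, hQIu⟩ := hQI c le_rfl (Nat.le_add_right _ _)
  obtain ⟨Q0, hQ0W, hQ0p, hQ0u⟩ := hQ0 c le_rfl (Nat.le_add_right _ _)
  obtain ⟨⟨hQIN, hQIM⟩, hQI0⟩ := hQIW
  obtain ⟨⟨hQ0N, hQ0M⟩, hQ0I⟩ := hQ0W
  obtain ⟨uI, huI⟩ := hQIu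
  obtain ⟨u0, hu0⟩ := hQ0u
  -- normalisation of the leading coefficients at `∞` and `0`
  have hnorm : ∀ x ∈ Z, ∀ α γ : A, ∃ y ∈ Z, coI c y = α ∧ co0 c y = γ ∧ coM c y = coM c x := by
    intro x hx α γ
    obtain ⟨hxN, hxI, hxM, hx0⟩ := (hZmem x).mp hx
    set a : A := (↑uI⁻¹ : A) * (α - coI c x) with ha
    set b : A := (↑u0⁻¹ : A) * (γ - co0 c x) with hb
    have ea : a * (uI : A) = α - coI c x := by
      rw [ha, mul_assoc, mul_comm (α - coI c x), ← mul_assoc, Units.inv_mul, one_mul]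
    have eb : b * (u0 : A) = γ - co0 c x := by
      rw [hb, mul_assoc, mul_comm (γ - co0 c x), ← mul_assoc, Units.inv_mul, one_mul]
    refine ⟨x + a • QI + b • Q0, (hZmem _).mpr ⟨?_, ?_, ?_, ?_⟩, ?_, ?_, ?_⟩
    · exact N.add_mem (N.add_mem hxN (N.smul_mem _ hQIN)) (N.smul_mem _ hQ0N)
    · exact (hxI.add (hQIp.smul a)).add ((ElqLt.elqPole hQ0I).smul b)
    · exact (hxM.add ((ElqLt.elqPole hQIM).smul a)).add ((ElqLt.elqPole hQ0M).smul b)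
    · exact (hx0.add ((ElqLt.elqPole hQI0).smul a)).add (hQ0p.smul b)
    · rw [map_add, map_add, map_smul, map_smul, hQ0I.coeff_eq_zero, smul_zero, add_zero,
        smul_eq_mul, ← huI, ea]
      ring
    · rw [map_add, map_add, map_smul, map_smul, hQI0.coeff_eq_zero, smul_zero, add_zero,
        smul_eq_mul, ← hu0, eb]
      ring
    · rw [map_add, map_add, map_smul, map_smul, hQIM.coeff_eq_zero, hQ0M.coeff_eq_zero,
        smul_zero, smul_zero, add_zero, add_zero]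
  -- the middle elements
  have hmid : ∀ j, n₀ ≤ j → j < n₀ + (q - 1) → ∃ x ∈ Z, coM c x = ω j := by
    intro j hj hj'
    have hjb : j < n₀ + q := by omega
    have hcj : j + n₀ * (1 + q) ≤ c := by
      refine le_trans ?_ hc
      have e : (5 * q ^ 2 + 4 * q) * (n₀ + q) =
          n₀ * (5 * q ^ 2 + 4 * q) + q * (5 * q ^ 2 + 4 * q) := by ring
      have h1 : n₀ * (2 + q) ≤ n₀ * (5 * q ^ 2 + 4 * q) := Nat.mul_le_mul_left _ (by omega)
      have h2 : q * 1 ≤ q * (5 * q ^ 2 + 4 * q) := Nat.mul_le_mul_left _ (by omega)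
      have h3 : n₀ * (2 + q) = n₀ * (1 + q) + n₀ := by ring
      omega
    obtain ⟨n₁, n₂, h1, h1', h2, hce⟩ := elq_decomp_mid q n₀ c j hq0 hcj
    obtain ⟨hPM, u, hu, hPu⟩ := hM n₁ n₂ j h1 h2 hj
    obtain ⟨hPI, -⟩ := hI n₁ n₂ j h1 h2 hj
    obtain ⟨hP0, -⟩ := h0 n₁ n₂ j h1 h2 hj
    rw [← hce] at hPM hPu
    -- pole bounds at `∞` and `0`
    have hbI : n₁ + q * n₂ + q ^ 2 * j ≤ c + q ^ 2 * (n₀ + q) := by
      have : q ^ 2 * j ≤ q ^ 2 * (n₀ + q) := Nat.mul_le_mul_left _ hjb.le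
      have : j ≤ q ^ 2 * j := Nat.le_mul_of_pos_left _ (by omega)
      omega
    have hb0 : q ^ 2 * n₁ + q * n₂ + j ≤ c + q ^ 2 * (n₀ + q) := by
      have : q ^ 2 * n₁ ≤ q ^ 2 * (n₀ + q) := Nat.mul_le_mul_left _ h1'.le
      have : n₁ ≤ q ^ 2 * n₁ := Nat.le_mul_of_pos_left _ (by omega)
      omega
    -- elimination at `∞`
    obtain ⟨y, hyW, hy⟩ := elq_one coI WI c (c + q ^ 2 * (n₀ + q))
      (fun n hn hn' => hQI n hn.le hn') (P n₁ n₂ j) (hPI.mono hbI)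
    obtain ⟨⟨hyN, hyM⟩, hy0⟩ := hyW
    -- elimination at `0`
    obtain ⟨y', hyW', hy'⟩ := elq_one co0 W0 c (c + q ^ 2 * (n₀ + q))
      (fun n hn hn' => hQ0 n hn.le hn') (P n₁ n₂ j - y)
      ((hP0.mono hb0).sub ((ElqLt.elqPole hy0).mono (Nat.le_add_right _ _)))
    obtain ⟨⟨hyN', hyM'⟩, hyI'⟩ := hyW'
    obtain ⟨v, hv⟩ := hu
    refine ⟨(↑v⁻¹ : A) • (P n₁ n₂ j - y - y'), (hZmem _).mpr ⟨?_, ?_, ?_, ?_⟩, ?_⟩
    · exact N.smul_mem _ (N.sub_mem (N.sub_mem (hN _ _ _ h1 h2 hj) hyN) hyN')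
    · exact (hy.sub (ElqLt.elqPole hyI')).smul _
    · exact ((hPM.sub (ElqLt.elqPole hyM)).sub (ElqLt.elqPole hyM')).smul _
    · exact hy'.smul _
    · rw [map_smul, map_sub, map_sub, hyM.coeff_eq_zero, hyM'.coeff_eq_zero, sub_zero, sub_zero,
        hPu, ← hv, smul_smul, Units.inv_mul, one_smul]
  -- the span
  have hspan : Submodule.span A (ω '' Set.Ico n₀ (n₀ + (q - 1))) ≤ Submodule.map (coM c) Z := by
    rw [Submodule.span_le]
    rintro _ ⟨j, ⟨hj, hj'⟩, rfl⟩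
    obtain ⟨x, hx, hxj⟩ := hmid j hj hj'
    exact ⟨x, hx, hxj⟩
  intro α γ β hβ
  obtain ⟨x, hx, hxβ⟩ := hspan hβ
  obtain ⟨y, hy, hyI, hy0, hyM⟩ := hnorm x hx α γ
  obtain ⟨hyN, hyI', hyM', hy0'⟩ := (hZmem y).mp hy
  exact ⟨y, hyN, hyI', hyM', hy0', hyI, by rw [hyM, hxβ], hy0⟩

end Main

end Fermat.Agent.S36lib
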