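/-
Item 83 (S36), piece C-4, part C4-4 (helper17): the ring `A ∩ K0(ζ) = A0[ζ] = ⊕_{a < q-1} A0 ζ^a`.
No sorry.

`A | q` a valuation subring of `ℚ̄`, `I` its inertia group, `K0 = ℚ̄^I`, `A0 = A ∩ K0`,
`ζ` a primitive `q`-th root of unity.

* `zs_indep_mod_q` : `c_a ∈ A0`, `∑_{a<q-1} c_a ζ^a ∈ q A` ⟹ `c_a ∈ q A0`  (`zi_indep`);
* `zs_coeff_mem`   : `c_a ∈ K0`, `∑_{a<q-1} c_a ζ^a ∈ A` ⟹ `c_a ∈ A`;
* `zs_coeff_unique`: the coordinates are unique;
* `zs_exists_coeff`: every element of `K0(ζ)` is `∑_{a<q-1} c_a ζ^a`, `c_a ∈ K0`;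
* `zs_mem_adjoin_of_fixed` : `x` fixed by `{σ ∈ I | σ ζ = ζ}` ⟹ `x ∈ K0(ζ)`;
* `zs_exists_integral_coeff` : `x ∈ A` fixed by `{σ ∈ I | σ ζ = ζ}` ⟹ `x = ∑ c_a ζ^a`, `c_a ∈ A0`;
* `zs_consecutive` : such an `x` is also `∑_{a<q-1} c'_a (ζ⁻¹)^(n₀+a)` for every `n₀`.
-/
import Mathlib
import Fermat.Agent.S36lib.ZetaIndep
import Fermat.Agent.S36lib.K0Field

set_option autoImplicit false

noncomputable section

namespace Fermat.Agent.S36lib

open Finset Polynomial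

variable (A : ValuationSubring (AlgebraicClosure ℚ))

/-- the subring `A ∩ K0` of `ℚ̄` -/
def zsR0 : Subring (AlgebraicClosure ℚ) := A.toSubring ⊓ (k0Field A).toSubfield.toSubring

theorem mem_zsR0 (x : AlgebraicClosure ℚ) : x ∈ zsR0 A ↔ x ∈ A ∧ x ∈ k0Field A := Iff.rfl

theorem zs_val_le_one {x : AlgebraicClosure ℚ} (hx : x ∈ zsR0 A) : A.valuation x ≤ 1 :=
  (A.valuation_le_one_iff x).mpr hx.1

variable (q : ℕ) (hq : q.Prime) (hA : A.LiesOverPrime q)

include hq hA in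
theorem zs_val_disc {x : AlgebraicClosure ℚ} (hx : x ∈ zsR0 A) (hx0 : x ≠ 0) :
    ∃ n : ℕ, A.valuation x = A.valuation (q : AlgebraicClosure ℚ) ^ n := by
  obtain ⟨N, hN⟩ := k0_exists_pow_lt A q hq hA x hx0
  exact k0_val_eq_pow_of_mem A q hq hA N x ((mem_k0Field_iff A x).mp hx.2) hx.1 hN

variable {ζ : AlgebraicClosure ℚ} (hζ : IsPrimitiveRoot ζ q)

include hq hA hζ in
/-- **independence modulo `q`** -/
theorem zs_indep_mod_q (c : ℕ → AlgebraicClosure ℚ) (hc : ∀ a, c a ∈ zsR0 A)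
    (h : A.valuation (∑ a ∈ range (q - 1), c a * ζ ^ a) ≤ A.valuation (q : AlgebraicClosure ℚ)) :
    ∀ a, a < q - 1 → A.valuation (c a) ≤ A.valuation (q : AlgebraicClosure ℚ) :=
  zi_indep A.valuation hq (k0_val_q_lt_one A q hA) hζ (zsR0 A) (fun _ hx => zs_val_le_one A hx)
    (fun _ hx hx0 => zs_val_disc A q hq hA hx hx0) c hc h

include hq hA in
theorem zs_exists_pow_mul_mem (x : AlgebraicClosure ℚ) :
    ∃ N : ℕ, (q : AlgebraicClosure ℚ) ^ N * x ∈ A := by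
  by_cases hx : x = 0
  · exact ⟨0, by rw [hx, mul_zero]; exact A.zero_mem⟩
  · obtain ⟨N, hN⟩ := k0_exists_pow_lt A q hq hA x⁻¹ (inv_ne_zero hx)
    refine ⟨N, ?_⟩
    rw [← A.valuation_le_one_iff, map_mul, map_pow]
    rw [map_inv₀] at hN
    have hvx : A.valuation x ≠ 0 := (Valuation.ne_zero_iff _).mpr hx
    have h1 : A.valuation (q : AlgebraicClosure ℚ) ^ N * A.valuation x
        ≤ (A.valuation x)⁻¹ * A.valuation x := mul_le_mul' hN.le le_rfl
    rwa [inv_mul_cancel₀ hvx] at h1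

include hq hA hζ in
theorem zs_coeff_mem_aux (N : ℕ) : ∀ (c : ℕ → AlgebraicClosure ℚ), (∀ a, c a ∈ k0Field A) →
    (∀ a, a < q - 1 → (q : AlgebraicClosure ℚ) ^ N * c a ∈ A) →
    (∑ a ∈ range (q - 1), c a * ζ ^ a) ∈ A → ∀ a, a < q - 1 → c a ∈ A := by
  induction N with
  | zero =>
    intro c _ h _ a ha
    have := h a ha
    rwa [pow_zero, one_mul] at this
  | succ N ih =>
    intro c hc h hx
    refine ih c hc ?_ hx
    have hq0 : (q : AlgebraicClosure ℚ) ≠ 0 := by exact_mod_cast hq.ne_zero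
    have hvq0 : A.valuation (q : AlgebraicClosure ℚ) ≠ 0 := (Valuation.ne_zero_iff _).mpr hq0
    have hvq1 : A.valuation (q : AlgebraicClosure ℚ) ≤ 1 := (k0_val_q_lt_one A q hA).le
    have hqK : (q : AlgebraicClosure ℚ) ∈ k0Field A := natCast_mem _ q
    set c' : ℕ → AlgebraicClosure ℚ :=
      fun a => if a < q - 1 then (q : AlgebraicClosure ℚ) ^ (N + 1) * c a else 0 with hc'
    have hc'R : ∀ a, c' a ∈ zsR0 A := by
      intro a
      simp only [hc']
      split_ifs with ha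
      · exact ⟨h a ha, mul_mem (pow_mem hqK _) (hc a)⟩
      · exact (zsR0 A).zero_mem
    have hsum : ∑ a ∈ range (q - 1), c' a * ζ ^ a
        = (q : AlgebraicClosure ℚ) ^ (N + 1) * ∑ a ∈ range (q - 1), c a * ζ ^ a := by
      rw [Finset.mul_sum]
      refine Finset.sum_congr rfl fun a ha => ?_
      simp only [hc', if_pos (Finset.mem_range.mp ha)]
      ring
    have hval : A.valuation (∑ a ∈ range (q - 1), c' a * ζ ^ a)
        ≤ A.valuation (q : AlgebraicClosure ℚ) := by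
      rw [hsum, map_mul, map_pow, pow_succ']
      calc A.valuation (q : AlgebraicClosure ℚ) * A.valuation (q : AlgebraicClosure ℚ) ^ N
            * A.valuation (∑ a ∈ range (q - 1), c a * ζ ^ a)
          ≤ A.valuation (q : AlgebraicClosure ℚ) * 1 * 1 :=
            mul_le_mul' (mul_le_mul' le_rfl (pow_le_one₀ zero_le hvq1))
              ((A.valuation_le_one_iff _).mpr hx)
        _ = A.valuation (q : AlgebraicClosure ℚ) := by rw [mul_one, mul_one]
    intro a ha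
    have h1 := zs_indep_mod_q A q hq hA hζ c' hc'R hval a ha
    simp only [hc', if_pos ha] at h1
    rw [pow_succ', mul_assoc, map_mul] at h1
    rw [← A.valuation_le_one_iff]
    by_contra hcon
    have hlt : 1 < A.valuation ((q : AlgebraicClosure ℚ) ^ N * c a) := not_le.mp hcon
    have h2 : A.valuation (q : AlgebraicClosure ℚ) * 1
        < A.valuation (q : AlgebraicClosure ℚ) * A.valuation ((q : AlgebraicClosure ℚ) ^ N * c a) :=
      mul_lt_mul_of_pos_left hlt (zero_lt_iff.mpr hvq0)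
    rw [mul_one] at h2
    exact absurd h1 (not_le.mpr h2)

include hq hA hζ in
/-- **integrality of the coordinates**: `∑_{a<q-1} c_a ζ^a ∈ A`, `c_a ∈ K0` ⟹ `c_a ∈ A` -/
theorem zs_coeff_mem (c : ℕ → AlgebraicClosure ℚ) (hc : ∀ a, c a ∈ k0Field A)
    (hx : (∑ a ∈ range (q - 1), c a * ζ ^ a) ∈ A) : ∀ a, a < q - 1 → c a ∈ A := by
  choose N hN using fun a => zs_exists_pow_mul_mem A q hq hA (c a)
  refine zs_coeff_mem_aux A q hq hA hζ ((range (q - 1)).sup N) c hc ?_ hx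
  intro a ha
  have hle : N a ≤ (range (q - 1)).sup N := Finset.le_sup (Finset.mem_range.mpr ha)
  obtain ⟨k, hk⟩ := Nat.exists_eq_add_of_le hle
  rw [hk, pow_add, mul_comm ((q : AlgebraicClosure ℚ) ^ N a), mul_assoc]
  have hqA : (q : AlgebraicClosure ℚ) ∈ A := natCast_mem _ q
  exact A.mul_mem _ _ (pow_mem hqA k) (hN a)

include hq hA hζ in
/-- **uniqueness of the coordinates** -/
theorem zs_coeff_eq_zero (c : ℕ → AlgebraicClosure ℚ) (hc : ∀ a, c a ∈ k0Field A)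
    (hx : (∑ a ∈ range (q - 1), c a * ζ ^ a) = 0) : ∀ a, a < q - 1 → c a = 0 := by
  intro a ha
  by_contra hne
  have hq0 : (q : AlgebraicClosure ℚ) ≠ 0 := by exact_mod_cast hq.ne_zero
  have hqK : (q : AlgebraicClosure ℚ) ∈ k0Field A := natCast_mem _ q
  obtain ⟨N, hN⟩ := k0_exists_pow_lt A q hq hA (c a) hne
  -- the coordinates `q^{-N} c` are integral
  have h1 := zs_coeff_mem A q hq hA hζ (fun b => ((q : AlgebraicClosure ℚ) ^ N)⁻¹ * c b)
    (fun b => mul_mem (inv_mem (pow_mem hqK N)) (hc b)) (by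
      have : (∑ b ∈ range (q - 1), ((q : AlgebraicClosure ℚ) ^ N)⁻¹ * c b * ζ ^ b)
          = ((q : AlgebraicClosure ℚ) ^ N)⁻¹ * ∑ b ∈ range (q - 1), c b * ζ ^ b := by
        rw [Finset.mul_sum]
        exact Finset.sum_congr rfl fun b _ => by ring
      rw [this, hx, mul_zero]
      exact A.zero_mem) a ha
  rw [← A.valuation_le_one_iff, map_mul, map_inv₀, map_pow] at h1
  have hvq0 : A.valuation (q : AlgebraicClosure ℚ) ^ N ≠ 0 :=
    pow_ne_zero _ ((Valuation.ne_zero_iff _).mpr hq0)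
  have h2 : A.valuation (c a) ≤ A.valuation (q : AlgebraicClosure ℚ) ^ N := by
    have := mul_le_mul' (le_refl (A.valuation (q : AlgebraicClosure ℚ) ^ N)) h1
    rwa [mul_one, ← mul_assoc, mul_inv_cancel₀ hvq0, one_mul] at this
  exact absurd h2 (not_le.mpr hN)

include hq hA hζ in
theorem zs_coeff_unique (c c' : ℕ → AlgebraicClosure ℚ) (hc : ∀ a, c a ∈ k0Field A)
    (hc' : ∀ a, c' a ∈ k0Field A)
    (h : (∑ a ∈ range (q - 1), c a * ζ ^ a) = ∑ a ∈ range (q - 1), c' a * ζ ^ a) :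
    ∀ a, a < q - 1 → c a = c' a := by
  intro a ha
  have h0 := zs_coeff_eq_zero A q hq hA hζ (fun b => c b - c' b)
    (fun b => sub_mem (hc b) (hc' b)) (by
      have : (∑ b ∈ range (q - 1), (c b - c' b) * ζ ^ b)
          = (∑ b ∈ range (q - 1), c b * ζ ^ b) - ∑ b ∈ range (q - 1), c' b * ζ ^ b := by
        rw [← Finset.sum_sub_distrib]
        exact Finset.sum_congr rfl fun b _ => by ring
      rw [this, h, sub_self]) a ha
  exact sub_eq_zero.mp h0

/-! ### `K0(ζ)` is spanned by `1, ζ, …, ζ^(q-2)` -/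

include hq hζ in
/-- every element of `K0(ζ)` is `∑_{a<q-1} c_a ζ^a` with `c_a ∈ K0` -/
theorem zs_exists_coeff (x : AlgebraicClosure ℚ)
    (hx : x ∈ IntermediateField.adjoin (k0Field A) {ζ}) :
    ∃ c : ℕ → AlgebraicClosure ℚ, (∀ a, c a ∈ k0Field A) ∧
      x = ∑ a ∈ range (q - 1), c a * ζ ^ a := by
  have hint : IsIntegral (k0Field A) ζ :=
    (hζ.isIntegral hq.pos).tower_top
  have hx' : x ∈ (IntermediateField.adjoin (k0Field A) {ζ}).toSubalgebra := hx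
  rw [IntermediateField.adjoin_simple_toSubalgebra_of_isAlgebraic hint.isAlgebraic,
    Algebra.adjoin_singleton_eq_range_aeval] at hx'
  obtain ⟨p, rfl⟩ := hx'
  set g : (k0Field A)[X] := cyclotomic q (k0Field A) with hg
  have hgm : g.Monic := cyclotomic.monic q _
  have hgdeg : g.natDegree = q - 1 := by
    rw [hg, natDegree_cyclotomic, Nat.totient_prime hq]
  have hg1 : g ≠ 1 := by
    intro h1
    have := hgdeg
    rw [h1, natDegree_one] at this
    have := hq.two_le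
    omega
  have hgζ : aeval ζ g = 0 := by
    rw [hg, aeval_def, eval₂_eq_eval_map, map_cyclotomic]
    exact hζ.isRoot_cyclotomic hq.pos
  have hr : aeval ζ p = aeval ζ (p %ₘ g) := by
    conv_lhs => rw [← modByMonic_add_div p g]
    rw [map_add, map_mul, hgζ, zero_mul, add_zero]
  have hdeg : (p %ₘ g).natDegree < q - 1 := by
    rw [← hgdeg]
    exact natDegree_modByMonic_lt p hgm hg1
  refine ⟨fun a => (((p %ₘ g).coeff a : k0Field A) : AlgebraicClosure ℚ), fun a => SetLike.coe_mem _, ?_⟩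
  show (aeval ζ) p = _
  rw [hr, aeval_eq_sum_range' hdeg]
  refine Finset.sum_congr rfl fun a _ => ?_
  rw [Algebra.smul_def]
  rfl

/-- `x` fixed by `{σ ∈ I | σ ζ = ζ}` lies in `K0(ζ)` -/
theorem zs_mem_adjoin_of_fixed (ζ : AlgebraicClosure ℚ) (x : AlgebraicClosure ℚ)
    (h : ∀ σ ∈ A.inertiaSubgroupIn ℚ, σ ζ = ζ → σ x = x) :
    x ∈ IntermediateField.adjoin (k0Field A) {ζ} := by
  have hgal : IsGalois ℚ (AlgebraicClosure ℚ) := Fermat.Agent.FrobLib.isGalois_QBar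
  set E : IntermediateField ℚ (AlgebraicClosure ℚ) :=
    (IntermediateField.adjoin (k0Field A) {ζ}).restrictScalars ℚ with hE
  have hxE : x ∈ E := by
    rw [← InfiniteGalois.fixedField_fixingSubgroup E, IntermediateField.mem_fixedField_iff]
    intro σ hσ
    rw [IntermediateField.mem_fixingSubgroup_iff] at hσ
    refine h σ ?_ ?_
    · rw [← k0Field_fixingSubgroup A, IntermediateField.mem_fixingSubgroup_iff]
      intro y hy
      refine hσ y ?_
      show y ∈ IntermediateField.adjoin (k0Field A) {ζ}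
      exact (IntermediateField.adjoin (k0Field A) {ζ}).algebraMap_mem ⟨y, hy⟩
    · refine hσ ζ ?_
      show ζ ∈ IntermediateField.adjoin (k0Field A) {ζ}
      exact IntermediateField.mem_adjoin_simple_self _ ζ
  exact hxE

include hq hζ in
theorem zs_zeta_mem : ζ ∈ A := by
  rw [← A.valuation_le_one_iff, zi_val_eq_one_of_pow_eq_one A.valuation hq.ne_zero hζ.pow_eq_one]

include hq hζ in
theorem zs_zeta_inv_mem : ζ⁻¹ ∈ A := by
  rw [← A.valuation_le_one_iff, map_inv₀,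
    zi_val_eq_one_of_pow_eq_one A.valuation hq.ne_zero hζ.pow_eq_one, inv_one]

/-- the module `Λ₁ = ⊕_{a<q-1} A0 ζ^a`, as a predicate -/
def ZsLam (ζ : AlgebraicClosure ℚ) (x : AlgebraicClosure ℚ) : Prop :=
  ∃ c : ℕ → AlgebraicClosure ℚ, (∀ a, c a ∈ zsR0 A) ∧ x = ∑ a ∈ range (q - 1), c a * ζ ^ a

include hq hA hζ in
/-- `Λ₁ = A ∩ K0(ζ)` -/
theorem zsLam_iff (x : AlgebraicClosure ℚ) :
    ZsLam A q ζ x ↔ x ∈ A ∧ x ∈ IntermediateField.adjoin (k0Field A) {ζ} := by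
  constructor
  · rintro ⟨c, hc, rfl⟩
    constructor
    · exact sum_mem fun a _ => A.mul_mem _ _ (hc a).1 (pow_mem (zs_zeta_mem A q hq hζ) a)
    · refine sum_mem fun a _ => mul_mem ?_ (pow_mem (IntermediateField.mem_adjoin_simple_self _ ζ) a)
      exact (IntermediateField.adjoin (k0Field A) {ζ}).algebraMap_mem ⟨c a, (hc a).2⟩
  · rintro ⟨hxA, hxK⟩
    obtain ⟨c, hc, rfl⟩ := zs_exists_coeff A q hq hζ x hxK
    have hmem := zs_coeff_mem A q hq hA hζ c hc hxA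
    refine ⟨fun a => if a < q - 1 then c a else 0, fun a => ?_, ?_⟩
    · show (if a < q - 1 then c a else 0) ∈ zsR0 A
      split_ifs with ha
      · exact ⟨hmem a ha, hc a⟩
      · exact (zsR0 A).zero_mem
    · refine Finset.sum_congr rfl fun a ha => ?_
      show c a * ζ ^ a = (if a < q - 1 then c a else 0) * ζ ^ a
      rw [if_pos (Finset.mem_range.mp ha)]

include hq hA hζ in
/-- **integral coordinates**: `x ∈ A` fixed by `{σ ∈ I | σ ζ = ζ}` is `∑_{a<q-1} c_a ζ^a` with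
`c_a ∈ A0` -/
theorem zs_exists_integral_coeff (x : AlgebraicClosure ℚ) (hxA : x ∈ A)
    (h : ∀ σ ∈ A.inertiaSubgroupIn ℚ, σ ζ = ζ → σ x = x) : ZsLam A q ζ x :=
  (zsLam_iff A q hq hA hζ x).mpr ⟨hxA, zs_mem_adjoin_of_fixed A ζ x h⟩

include hq hA hζ in
theorem zsLam_mul {x y : AlgebraicClosure ℚ} (hx : ZsLam A q ζ x) (hy : ZsLam A q ζ y) :
    ZsLam A q ζ (x * y) := by
  rw [zsLam_iff A q hq hA hζ] at hx hy ⊢
  exact ⟨A.mul_mem _ _ hx.1 hy.1, mul_mem hx.2 hy.2⟩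

include hq hA hζ in
theorem zsLam_add {x y : AlgebraicClosure ℚ} (hx : ZsLam A q ζ x) (hy : ZsLam A q ζ y) :
    ZsLam A q ζ (x + y) := by
  rw [zsLam_iff A q hq hA hζ] at hx hy ⊢
  exact ⟨A.add_mem _ _ hx.1 hy.1, add_mem hx.2 hy.2⟩

include hq hA hζ in
theorem zsLam_zeta_zpow (e : ℤ) : ZsLam A q ζ (ζ ^ e) := by
  rw [zsLam_iff A q hq hA hζ]
  constructor
  · rw [← A.valuation_le_one_iff, map_zpow₀,
      zi_val_eq_one_of_pow_eq_one A.valuation hq.ne_zero hζ.pow_eq_one, one_zpow]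
  · exact zpow_mem (IntermediateField.mem_adjoin_simple_self _ ζ) e

include hq hA hζ in
theorem zsLam_of_mem_zsR0 {x : AlgebraicClosure ℚ} (hx : x ∈ zsR0 A) : ZsLam A q ζ x := by
  rw [zsLam_iff A q hq hA hζ]
  exact ⟨hx.1, (IntermediateField.adjoin (k0Field A) {ζ}).algebraMap_mem ⟨x, hx.2⟩⟩

include hq hA hζ in
/-- **consecutive powers of `ζ⁻¹` span `Λ₁`**: for every `n₀`, every element of `Λ₁` is
`∑_{a<q-1} c_a (ζ⁻¹)^(n₀+a)` with `c_a ∈ A0`. -/
theorem zs_consecutive (n₀ : ℕ) {x : AlgebraicClosure ℚ} (hx : ZsLam A q ζ x) :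
    ∃ c : ℕ → AlgebraicClosure ℚ, (∀ a, c a ∈ zsR0 A) ∧
      x = ∑ a ∈ range (q - 1), c a * (ζ⁻¹) ^ (n₀ + a) := by
  have hζ0 : ζ ≠ 0 := hζ.ne_zero hq.ne_zero
  obtain ⟨d, hd, hy⟩ := zsLam_mul A q hq hA hζ hx
    (zsLam_zeta_zpow A q hq hA hζ ((n₀ + (q - 2) : ℕ) : ℤ))
  refine ⟨fun a => d (q - 1 - 1 - a), fun a => hd _, ?_⟩
  have hx' : x = (∑ b ∈ range (q - 1), d b * ζ ^ b) * (ζ⁻¹) ^ (n₀ + (q - 2)) := by
    rw [← hy, zpow_natCast, mul_assoc, ← mul_pow, mul_inv_cancel₀ hζ0, one_pow, mul_one]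
  rw [hx', Finset.sum_mul, ← Finset.sum_range_reflect]
  refine Finset.sum_congr rfl fun a ha => ?_
  have ha' : a < q - 1 := Finset.mem_range.mp ha
  have e1 : n₀ + (q - 2) = (n₀ + a) + (q - 1 - 1 - a) := by omega
  rw [mul_assoc, e1, pow_add, ← mul_assoc (ζ ^ (q - 1 - 1 - a)), mul_comm (ζ ^ (q - 1 - 1 - a)),
    mul_assoc ((ζ⁻¹) ^ (n₀ + a)), ← mul_pow, mul_inv_cancel₀ hζ0, one_pow, mul_one]

end Fermat.Agent.S36lib
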