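/-
Item 83 (S36), piece C-4, part C4-5a (helper17): the CONCRETE INSTANCE of `elq_exists`
(`ElimAbs.lean`, helper19) = **(EX') at level `M' q²` over `A0`**.  No sorry.

Input: a family `g n ∈ F_{M'}` (`n ≥ n₀`), inertia-fixed, with `A`-integral expansion of pole
order exactly `n` and unit top coefficient, such that the products
`P = π₁ (g n₁) · π₂ (g n₂) · π₃ (g n₃)` lie in a subring `T` (in the application: the functions
regular off `D1 = {∞, mid_i, 0}`, `fbm_reg_prod`).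

Output `elqInst_exists`: for `c ≥ c₀` and all `α, γ ∈ A0`, `β ∈ A ∩ K0(ζ)` there is `x ∈ T`,
inertia-fixed, whose three expansions `E_∞ x`, `E_mid x`, `E_0 x` have coefficients in
`A0`, `A ∩ K0(ζ)`, `A0`, pole order `≤ c` and top coefficients `α, β, γ`.
-/
import Mathlib
import Fermat.Agent.S36lib.ExpOrd
import Fermat.Agent.S36lib.ZetaSpan
import Fermat.Agent.S36lib.ElimAbs

set_option autoImplicit false
set_option linter.style.haveILetI false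
set_option linter.unusedSectionVars false
set_option synthInstance.maxHeartbeats 400000

noncomputable section

namespace Fermat.Agent.S36lib

open AlgebraicCurve ModularCurve HahnSeries
open Fermat.Agent.S24lib Fermat.Agent.S34lib Fermat.Agent.S37lib

section Sub

variable {Λ : Type*} [CommRing Λ]

/-- the subring of the Laurent series with coefficients in `S` -/
def eoIntSubring (S : Subring Λ) : Subring (LaurentSeries Λ) where
  carrier := {x | EoInt S x}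
  mul_mem' := fun hx hy => eoInt_mul hx hy
  one_mem' := eoInt_one S
  add_mem' := fun hx hy => eoInt_add hx hy
  zero_mem' := eoInt_zero S
  neg_mem' := fun hx => eoInt_neg hx

theorem mem_eoIntSubring (S : Subring Λ) (x : LaurentSeries Λ) :
    x ∈ eoIntSubring S ↔ EoInt S x := Iff.rfl

theorem eoInt_mono {S S' : Subring Λ} (h : S ≤ S') {x : LaurentSeries Λ} (hx : EoInt S x) :
    EoInt S' x := fun n => h (hx n)

theorem eoInt_algebraMap {K : Type*} [Field K] {S : Subring K} {c : K} (hc : c ∈ S) :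
    EoInt S (algebraMap K (LaurentSeries K) c) := by
  rw [algebraMap_laurentSeries_eq_single, ← HahnSeries.C_apply]
  exact eoInt_C hc

end Sub

variable (A : ValuationSubring Kbar)

/-- the subring `A ∩ K0(ζ)` of `ℚ̄` -/
def zsR1 (ζ : Kbar) : Subring Kbar :=
  A.toSubring ⊓ (IntermediateField.adjoin (k0Field A) {ζ}).toSubfield.toSubring

theorem mem_zsR1 (ζ x : Kbar) :
    x ∈ zsR1 A ζ ↔ x ∈ A ∧ x ∈ IntermediateField.adjoin (k0Field A) {ζ} := Iff.rfl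

theorem zsR0_le_zsR1 (ζ : Kbar) : zsR0 A ≤ zsR1 A ζ := fun x hx =>
  ⟨hx.1, (IntermediateField.adjoin (k0Field A) {ζ}).algebraMap_mem ⟨x, hx.2⟩⟩

theorem zsR0_le_k0 : zsR0 A ≤ (k0Field A).toSubfield.toSubring := fun _ hx => hx.2

theorem zsR0_le_A : zsR0 A ≤ A.toSubring := fun _ hx => hx.1

theorem zsR1_le_A (ζ : Kbar) : zsR1 A ζ ≤ A.toSubring := fun _ hx => hx.1

variable (M' q : ℕ) [NeZero M'] [NeZero q] (hq : q.Prime) (hqM : ¬ q ∣ M') (ζ : Kbarˣ)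
  (hζ : IsPrimitiveRoot (ζ : Kbar) q)

/-- the ring of the functions whose three expansions have coefficients in `A0`, `A ∩ K0(ζ)`,
`A0` -/
def elqRing : Subring (FF (M' * q * q)) :=
  (eoIntSubring (zsR0 A)).comap (ecInf M' q)
    ⊓ (eoIntSubring (zsR1 A (ζ : Kbar))).comap (ecMid M' q hq hqM ζ hζ)
    ⊓ (eoIntSubring (zsR0 A)).comap (ecZero M' q hq hqM)

theorem mem_elqRing (x : FF (M' * q * q)) :
    x ∈ elqRing A M' q hq hqM ζ hζ ↔
      EoInt (zsR0 A) (ecInf M' q x) ∧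
        EoInt (zsR1 A (ζ : Kbar)) (ecMid M' q hq hqM ζ hζ x) ∧
        EoInt (zsR0 A) (ecZero M' q hq hqM x) := by
  simp only [elqRing, Subring.mem_inf, Subring.mem_comap, mem_eoIntSubring]
  constructor
  · rintro ⟨⟨h1, h2⟩, h3⟩
    exact ⟨h1, h2, h3⟩
  · rintro ⟨h1, h2, h3⟩
    exact ⟨⟨h1, h2⟩, h3⟩

theorem ecInf_algebraMap (c : Kbar) :
    ecInf M' q (algebraMap Kbar (FF (M' * q * q)) c) = algebraMap Kbar (LaurentSeries Kbar) c :=
  rfl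

theorem ecZero_algebraMap (c : Kbar) :
    ecZero M' q hq hqM (algebraMap Kbar (FF (M' * q * q)) c)
      = algebraMap Kbar (LaurentSeries Kbar) c := by
  rw [ecZero_apply, AlgEquiv.commutes]
  rfl

theorem const_mem_elqRing {c : Kbar} (hc : c ∈ zsR0 A) :
    algebraMap Kbar (FF (M' * q * q)) c ∈ elqRing A M' q hq hqM ζ hζ := by
  rw [mem_elqRing]
  refine ⟨?_, ?_, ?_⟩
  · rw [ecInf_algebraMap]
    exact eoInt_algebraMap hc
  · rw [ecMid_algebraMap]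
    exact eoInt_algebraMap (zsR0_le_zsR1 A _ hc)
  · rw [ecZero_algebraMap]
    exact eoInt_algebraMap hc

/-- the module `M` of `elq_exists`: a copy of `elqRing` (a type synonym, so that its
`A0`-module structure is not visible elsewhere) -/
def ElqM : Type := ↥(elqRing A M' q hq hqM ζ hζ)

/-- the module `Λ` of `elq_exists`: a copy of `A ∩ K0(ζ)` -/
def ElqLam : Type := ↥(zsR1 A (ζ : Kbar))

instance elqM_commRing : CommRing (ElqM A M' q hq hqM ζ hζ) :=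
  inferInstanceAs (CommRing ↥(elqRing A M' q hq hqM ζ hζ))

instance elqLam_commRing : CommRing (ElqLam A ζ) :=
  inferInstanceAs (CommRing ↥(zsR1 A (ζ : Kbar)))

/-- the structure map `A0 → M` -/
def elqIota : k0Val A →+* ElqM A M' q hq hqM ζ hζ where
  toFun a := ⟨algebraMap Kbar (FF (M' * q * q)) ((a : k0Field A) : Kbar),
    const_mem_elqRing A M' q hq hqM ζ hζ ⟨a.2, (a : k0Field A).2⟩⟩
  map_one' := Subtype.ext (by
    show algebraMap Kbar (FF (M' * q * q)) (1 : Kbar) = 1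
    exact map_one _)
  map_mul' a b := Subtype.ext (by
    show algebraMap Kbar (FF (M' * q * q)) (((a : k0Field A) : Kbar) * ((b : k0Field A) : Kbar))
      = _
    exact map_mul _ _ _)
  map_zero' := Subtype.ext (by
    show algebraMap Kbar (FF (M' * q * q)) (0 : Kbar) = 0
    exact map_zero _)
  map_add' a b := Subtype.ext (by
    show algebraMap Kbar (FF (M' * q * q)) (((a : k0Field A) : Kbar) + ((b : k0Field A) : Kbar))
      = _
    exact map_add _ _ _)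

/-- the structure map `A0 → Λ` -/
def elqIotaLam : k0Val A →+* ElqLam A ζ where
  toFun a := ⟨((a : k0Field A) : Kbar), zsR0_le_zsR1 A _ ⟨a.2, (a : k0Field A).2⟩⟩
  map_one' := rfl
  map_mul' _ _ := rfl
  map_zero' := rfl
  map_add' _ _ := rfl

instance elqM_module : Module (k0Val A) (ElqM A M' q hq hqM ζ hζ) :=
  Module.compHom _ (elqIota A M' q hq hqM ζ hζ)

instance elqLam_module : Module (k0Val A) (ElqLam A ζ) :=
  Module.compHom _ (elqIotaLam A ζ)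

theorem elqM_smul_def (a : k0Val A) (x : ElqM A M' q hq hqM ζ hζ) :
    a • x = elqIota A M' q hq hqM ζ hζ a * x := rfl

theorem elqLam_smul_def (a : k0Val A) (x : ElqLam A ζ) : a • x = elqIotaLam A ζ a * x := rfl

theorem eo_coeff_algebraMap_mul (a : Kbar) (y : LaurentSeries Kbar) (n : ℤ) :
    (algebraMap Kbar (LaurentSeries Kbar) a * y).coeff n = a * y.coeff n := by
  rw [algebraMap_laurentSeries_eq_single, ← HahnSeries.C_apply, HahnSeries.C_mul_eq_smul,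
    HahnSeries.coeff_smul, smul_eq_mul]

/-- the coefficient of `X^(-n)` of the expansion at `∞` -/
def elqCoI (n : ℕ) : ElqM A M' q hq hqM ζ hζ →ₗ[k0Val A] k0Val A where
  toFun x := ⟨⟨(ecInf M' q x.1).coeff (-(n : ℤ)),
    (((mem_elqRing A M' q hq hqM ζ hζ x.1).mp x.2).1 _).2⟩,
    (((mem_elqRing A M' q hq hqM ζ hζ x.1).mp x.2).1 _).1⟩
  map_add' x y := Subtype.ext (Subtype.ext (by
    show (ecInf M' q (x.1 + y.1)).coeff _ = (ecInf M' q x.1).coeff _ + (ecInf M' q y.1).coeff _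
    rw [map_add, HahnSeries.coeff_add]))
  map_smul' a x := Subtype.ext (Subtype.ext (by
    show (ecInf M' q (algebraMap Kbar (FF (M' * q * q)) ((a : k0Field A) : Kbar) * x.1)).coeff _
      = ((a : k0Field A) : Kbar) * (ecInf M' q x.1).coeff _
    rw [map_mul, ecInf_algebraMap, eo_coeff_algebraMap_mul]))

/-- the coefficient of `X^(-n)` of the expansion at `0` -/
def elqCo0 (n : ℕ) : ElqM A M' q hq hqM ζ hζ →ₗ[k0Val A] k0Val A where
  toFun x := ⟨⟨(ecZero M' q hq hqM x.1).coeff (-(n : ℤ)),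
    (((mem_elqRing A M' q hq hqM ζ hζ x.1).mp x.2).2.2 _).2⟩,
    (((mem_elqRing A M' q hq hqM ζ hζ x.1).mp x.2).2.2 _).1⟩
  map_add' x y := Subtype.ext (Subtype.ext (by
    show (ecZero M' q hq hqM (x.1 + y.1)).coeff _
      = (ecZero M' q hq hqM x.1).coeff _ + (ecZero M' q hq hqM y.1).coeff _
    rw [map_add, HahnSeries.coeff_add]))
  map_smul' a x := Subtype.ext (Subtype.ext (by
    show (ecZero M' q hq hqM
        (algebraMap Kbar (FF (M' * q * q)) ((a : k0Field A) : Kbar) * x.1)).coeff _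
      = ((a : k0Field A) : Kbar) * (ecZero M' q hq hqM x.1).coeff _
    rw [map_mul, ecZero_algebraMap, eo_coeff_algebraMap_mul]))

/-- the coefficient of `X^(-n)` of the expansion at the middle cusp -/
def elqCoM (n : ℕ) : ElqM A M' q hq hqM ζ hζ →ₗ[k0Val A] ElqLam A ζ where
  toFun x := ⟨(ecMid M' q hq hqM ζ hζ x.1).coeff (-(n : ℤ)),
    ((mem_elqRing A M' q hq hqM ζ hζ x.1).mp x.2).2.1 _⟩
  map_add' x y := Subtype.ext (by
    show (ecMid M' q hq hqM ζ hζ (x.1 + y.1)).coeff _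
      = (ecMid M' q hq hqM ζ hζ x.1).coeff _ + (ecMid M' q hq hqM ζ hζ y.1).coeff _
    rw [map_add, HahnSeries.coeff_add])
  map_smul' a x := Subtype.ext (by
    show (ecMid M' q hq hqM ζ hζ
        (algebraMap Kbar (FF (M' * q * q)) ((a : k0Field A) : Kbar) * x.1)).coeff _
      = ((a : k0Field A) : Kbar) * (ecMid M' q hq hqM ζ hζ x.1).coeff _
    rw [map_mul, ecMid_algebraMap, eo_coeff_algebraMap_mul])

theorem elqCoI_coe (n : ℕ) (x : ElqM A M' q hq hqM ζ hζ) :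
    (((elqCoI A M' q hq hqM ζ hζ n x : k0Val A) : k0Field A) : Kbar)
      = (ecInf M' q x.1).coeff (-(n : ℤ)) := rfl

theorem elqCo0_coe (n : ℕ) (x : ElqM A M' q hq hqM ζ hζ) :
    (((elqCo0 A M' q hq hqM ζ hζ n x : k0Val A) : k0Field A) : Kbar)
      = (ecZero M' q hq hqM x.1).coeff (-(n : ℤ)) := rfl

theorem elqCoM_coe (n : ℕ) (x : ElqM A M' q hq hqM ζ hζ) :
    (elqCoM A M' q hq hqM ζ hζ n x).1 = (ecMid M' q hq hqM ζ hζ x.1).coeff (-(n : ℤ)) := rfl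

theorem elqPole_coI_iff (c : ℕ) (x : ElqM A M' q hq hqM ζ hζ) :
    ElqPole (elqCoI A M' q hq hqM ζ hζ) c x ↔ ClPole c (ecInf M' q x.1) := by
  constructor
  · intro h n hn
    obtain ⟨m, rfl⟩ : ∃ m : ℕ, n = -(m : ℤ) := ⟨(-n).toNat, by omega⟩
    have hm : c < m := by omega
    have := congrArg (fun y : k0Val A => ((y : k0Field A) : Kbar)) (h m hm)
    exact this
  · intro h n hn
    apply Subtype.ext
    apply Subtype.ext
    exact h (-(n : ℤ)) (by omega)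

theorem elqPole_co0_iff (c : ℕ) (x : ElqM A M' q hq hqM ζ hζ) :
    ElqPole (elqCo0 A M' q hq hqM ζ hζ) c x ↔ ClPole c (ecZero M' q hq hqM x.1) := by
  constructor
  · intro h n hn
    obtain ⟨m, rfl⟩ : ∃ m : ℕ, n = -(m : ℤ) := ⟨(-n).toNat, by omega⟩
    have hm : c < m := by omega
    have := congrArg (fun y : k0Val A => ((y : k0Field A) : Kbar)) (h m hm)
    exact this
  · intro h n hn
    apply Subtype.ext
    apply Subtype.ext
    exact h (-(n : ℤ)) (by omega)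

theorem elqPole_coM_iff (c : ℕ) (x : ElqM A M' q hq hqM ζ hζ) :
    ElqPole (elqCoM A M' q hq hqM ζ hζ) c x ↔ ClPole c (ecMid M' q hq hqM ζ hζ x.1) := by
  constructor
  · intro h n hn
    obtain ⟨m, rfl⟩ : ∃ m : ℕ, n = -(m : ℤ) := ⟨(-n).toNat, by omega⟩
    have hm : c < m := by omega
    have := congrArg (fun y : ElqLam A ζ => y.1) (h m hm)
    exact this
  · intro h n hn
    apply Subtype.ext
    exact h (-(n : ℤ)) (by omega)

/-- constructor of `Λ` -/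
def ElqLam.mk' {A : ValuationSubring Kbar} {ζ : Kbarˣ} (β : Kbar) (hβ : β ∈ zsR1 A (ζ : Kbar)) :
    ElqLam A ζ := ⟨β, hβ⟩

theorem elqLam_sum_val (s : Finset ℕ) (f : ℕ → ElqLam A ζ) :
    (∑ a ∈ s, f a).1 = ∑ a ∈ s, (f a).1 := by
  classical
  induction s using Finset.induction_on with
  | empty => simp only [Finset.sum_empty]; rfl
  | insert a s ha ih =>
    rw [Finset.sum_insert ha, Finset.sum_insert ha, ← ih]
    rfl

include hq hζ in
theorem zeta_mem_zsR1 : (ζ : Kbar) ∈ zsR1 A (ζ : Kbar) :=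
  ⟨zs_zeta_mem A q hq hζ, IntermediateField.mem_adjoin_simple_self _ _⟩

include hq hζ in
theorem zeta_inv_pow_mem_zsR1 (n : ℕ) : ((ζ⁻¹ : Kbarˣ) : Kbar) ^ n ∈ zsR1 A (ζ : Kbar) := by
  refine pow_mem ?_ n
  rw [Units.val_inv_eq_inv_val]
  exact (mem_zsR1 A _ _).mpr ⟨zs_zeta_inv_mem A q hq hζ,
    inv_mem (IntermediateField.mem_adjoin_simple_self (k0Field A) (ζ : Kbar))⟩

theorem eoInt_zsR0_iff {x : LaurentSeries Kbar} :
    EoInt (zsR0 A) x ↔ EoInt A.toSubring x ∧ EoInt (k0Field A).toSubfield.toSubring x :=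
  ⟨fun h => ⟨fun n => (h n).1, fun n => (h n).2⟩, fun h n => ⟨h.1 n, h.2 n⟩⟩

/-- `EoInt (zsR0 A)` = inertia-fixed with `A`-integral expansion -/
theorem eoInt_zsR0_iff_isIFixed (L : ℕ) [NeZero L] (x : FF L) :
    EoInt (zsR0 A) (x : LaurentSeries Kbar) ↔
      IsIFixed L A x ∧ EoInt A.toSubring (x : LaurentSeries Kbar) := by
  rw [eoInt_zsR0_iff, eo_isIFixed_iff, and_comm]

theorem isIFixed_of_mem_elqRing {x : FF (M' * q * q)} (hx : x ∈ elqRing A M' q hq hqM ζ hζ) :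
    IsIFixed (M' * q * q) A x :=
  ((eoInt_zsR0_iff_isIFixed A (M' * q * q) x).mp ((mem_elqRing A M' q hq hqM ζ hζ x).mp hx).1).1

/-- **(EX') at level `M' q²` over `A0`** (concrete instance of `elq_exists`). -/
theorem elqInst_exists (hA : A.LiesOverPrime q) (T : Subring (FF (M' * q * q)))
    (hT : ∀ c : Kbar, algebraMap Kbar (FF (M' * q * q)) c ∈ T)
    (n₀ : ℕ) (g : ℕ → FF M')
    (hgint : ∀ n, n₀ ≤ n → EoInt (zsR0 A) (g n : LaurentSeries Kbar))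
    (hgpole : ∀ n, n₀ ≤ n → ClPole n (g n : LaurentSeries Kbar))
    (hgunit : ∀ n, n₀ ≤ n → A.valuation ((g n : LaurentSeries Kbar).coeff (-(n : ℤ))) = 1)
    (hgT : ∀ n₁ n₂ n₃, n₀ ≤ n₁ → n₀ ≤ n₂ → n₀ ≤ n₃ → ecP M' q (g n₁) (g n₂) (g n₃) ∈ T) :
    ∃ c₀ : ℕ, ∀ c, c₀ ≤ c → ∀ α γ β : Kbar, α ∈ zsR0 A → γ ∈ zsR0 A → β ∈ zsR1 A (ζ : Kbar) →
      ∃ x : FF (M' * q * q), x ∈ T ∧ x ∈ elqRing A M' q hq hqM ζ hζ ∧
        ClPole c (ecInf M' q x) ∧ ClPole c (ecMid M' q hq hqM ζ hζ x) ∧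
        ClPole c (ecZero M' q hq hqM x) ∧
        (ecInf M' q x).coeff (-(c : ℤ)) = α ∧ (ecMid M' q hq hqM ζ hζ x).coeff (-(c : ℤ)) = β ∧
        (ecZero M' q hq hqM x).coeff (-(c : ℤ)) = γ := by
  classical
  have hPmem : ∀ n₁ n₂ n₃, n₀ ≤ n₁ → n₀ ≤ n₂ → n₀ ≤ n₃ →
      ecP M' q (g n₁) (g n₂) (g n₃) ∈ elqRing A M' q hq hqM ζ hζ := by
    intro n₁ n₂ n₃ h₁ h₂ h₃
    rw [mem_elqRing]
    exact ⟨eo_inf_int (hgint _ h₁) (hgint _ h₂) (hgint _ h₃),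
      eo_mid_int hq hqM ζ hζ (zeta_mem_zsR1 A q hq ζ hζ)
        (eoInt_mono (zsR0_le_zsR1 A _) (hgint _ h₁)) (eoInt_mono (zsR0_le_zsR1 A _) (hgint _ h₂))
        (eoInt_mono (zsR0_le_zsR1 A _) (hgint _ h₃)),
      eo_zero_int hq hqM (hgint _ h₁) (hgint _ h₂) (hgint _ h₃)⟩
  -- the submodule `N`
  let N : Submodule (k0Val A) (ElqM A M' q hq hqM ζ hζ) :=
    { carrier := {x | x.1 ∈ T}
      add_mem' := fun {x y} hx hy => T.add_mem hx hy
      zero_mem' := T.zero_mem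
      smul_mem' := fun a x hx => T.mul_mem (hT _) hx }
  -- the family `P`
  let P : ℕ → ℕ → ℕ → ElqM A M' q hq hqM ζ hζ := fun n₁ n₂ n₃ =>
    if h : n₀ ≤ n₁ ∧ n₀ ≤ n₂ ∧ n₀ ≤ n₃ then
      ⟨ecP M' q (g n₁) (g n₂) (g n₃), hPmem n₁ n₂ n₃ h.1 h.2.1 h.2.2⟩
    else 0
  have hP : ∀ n₁ n₂ n₃, n₀ ≤ n₁ → n₀ ≤ n₂ → n₀ ≤ n₃ →
      (P n₁ n₂ n₃).1 = ecP M' q (g n₁) (g n₂) (g n₃) := by
    intro n₁ n₂ n₃ h₁ h₂ h₃
    show (if h : n₀ ≤ n₁ ∧ n₀ ≤ n₂ ∧ n₀ ≤ n₃ then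
      (⟨ecP M' q (g n₁) (g n₂) (g n₃), hPmem n₁ n₂ n₃ h.1 h.2.1 h.2.2⟩ :
        ElqM A M' q hq hqM ζ hζ) else 0).1 = _
    rw [dif_pos (And.intro h₁ (And.intro h₂ h₃))]
  let ω : ℕ → ElqLam A ζ := fun n =>
    ElqLam.mk' (((ζ⁻¹ : Kbarˣ) : Kbar) ^ n) (zeta_inv_pow_mem_zsR1 A q hq ζ hζ n)
  -- the product of the three top coefficients
  have hu : ∀ n₁ n₂ n₃, n₀ ≤ n₁ → n₀ ≤ n₂ → n₀ ≤ n₃ →
      A.valuation ((g n₁ : LaurentSeries Kbar).coeff (-(n₁ : ℤ))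
        * (g n₂ : LaurentSeries Kbar).coeff (-(n₂ : ℤ))
        * (g n₃ : LaurentSeries Kbar).coeff (-(n₃ : ℤ))) = 1 := by
    intro n₁ n₂ n₃ h₁ h₂ h₃
    rw [map_mul, map_mul, hgunit _ h₁, hgunit _ h₂, hgunit _ h₃, one_mul, one_mul]
  have hN : ∀ n₁ n₂ n₃, n₀ ≤ n₁ → n₀ ≤ n₂ → n₀ ≤ n₃ → P n₁ n₂ n₃ ∈ N := by
    intro n₁ n₂ n₃ h₁ h₂ h₃
    show (P n₁ n₂ n₃).1 ∈ T
    rw [hP _ _ _ h₁ h₂ h₃]
    exact hgT _ _ _ h₁ h₂ h₃
  have hI : ∀ n₁ n₂ n₃, n₀ ≤ n₁ → n₀ ≤ n₂ → n₀ ≤ n₃ →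
      ElqPole (elqCoI A M' q hq hqM ζ hζ) (n₁ + q * n₂ + q ^ 2 * n₃) (P n₁ n₂ n₃) ∧
      IsUnit (elqCoI A M' q hq hqM ζ hζ (n₁ + q * n₂ + q ^ 2 * n₃) (P n₁ n₂ n₃)) := by
    intro n₁ n₂ n₃ h₁ h₂ h₃
    constructor
    · rw [elqPole_coI_iff, hP _ _ _ h₁ h₂ h₃]
      exact eo_inf_pole (hgpole _ h₁) (hgpole _ h₂) (hgpole _ h₃)
    · rw [k0Val_isUnit_iff, elqCoI_coe, hP _ _ _ h₁ h₂ h₃,
        eo_inf_top (hgpole _ h₁) (hgpole _ h₂) (hgpole _ h₃)]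
      exact hu _ _ _ h₁ h₂ h₃
  have h0 : ∀ n₁ n₂ n₃, n₀ ≤ n₁ → n₀ ≤ n₂ → n₀ ≤ n₃ →
      ElqPole (elqCo0 A M' q hq hqM ζ hζ) (q ^ 2 * n₁ + q * n₂ + n₃) (P n₁ n₂ n₃) ∧
      IsUnit (elqCo0 A M' q hq hqM ζ hζ (q ^ 2 * n₁ + q * n₂ + n₃) (P n₁ n₂ n₃)) := by
    intro n₁ n₂ n₃ h₁ h₂ h₃
    constructor
    · rw [elqPole_co0_iff, hP _ _ _ h₁ h₂ h₃]
      exact eo_zero_pole hq hqM (hgpole _ h₁) (hgpole _ h₂) (hgpole _ h₃)
    · rw [k0Val_isUnit_iff, elqCo0_coe, hP _ _ _ h₁ h₂ h₃,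
        eo_zero_top hq hqM (hgpole _ h₁) (hgpole _ h₂) (hgpole _ h₃)]
      exact hu _ _ _ h₁ h₂ h₃
  have hM : ∀ n₁ n₂ n₃, n₀ ≤ n₁ → n₀ ≤ n₂ → n₀ ≤ n₃ →
      ElqPole (elqCoM A M' q hq hqM ζ hζ) (n₁ + q * n₂ + n₃) (P n₁ n₂ n₃) ∧
      ∃ u : k0Val A, IsUnit u ∧
        elqCoM A M' q hq hqM ζ hζ (n₁ + q * n₂ + n₃) (P n₁ n₂ n₃) = u • ω n₃ := by
    intro n₁ n₂ n₃ h₁ h₂ h₃
    constructor
    · rw [elqPole_coM_iff, hP _ _ _ h₁ h₂ h₃]
      exact eo_mid_pole hq hqM ζ hζ (hgpole _ h₁) (hgpole _ h₂) (hgpole _ h₃)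
    · have hmem : (g n₁ : LaurentSeries Kbar).coeff (-(n₁ : ℤ))
          * (g n₂ : LaurentSeries Kbar).coeff (-(n₂ : ℤ))
          * (g n₃ : LaurentSeries Kbar).coeff (-(n₃ : ℤ)) ∈ zsR0 A :=
        mul_mem (mul_mem (hgint _ h₁ _) (hgint _ h₂ _)) (hgint _ h₃ _)
      refine ⟨⟨⟨_, hmem.2⟩, hmem.1⟩, ?_, ?_⟩
      · rw [k0Val_isUnit_iff]
        exact hu _ _ _ h₁ h₂ h₃
      · apply Subtype.ext
        rw [elqCoM_coe, hP _ _ _ h₁ h₂ h₃,
          eo_mid_top' hq hqM ζ hζ (hgpole _ h₁) (hgpole _ h₂) (hgpole _ h₃)]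
        rfl
  obtain ⟨c₀, h⟩ := elq_exists (elqCoI A M' q hq hqM ζ hζ) (elqCo0 A M' q hq hqM ζ hζ)
    (elqCoM A M' q hq hqM ζ hζ) q n₀ hq.two_le N P ω hN hI h0 hM
  refine ⟨c₀, fun c hc α γ β hα hγ hβ => ?_⟩
  -- `β` is in the span of the consecutive powers
  have hspan : (ElqLam.mk' β hβ : ElqLam A ζ) ∈
      Submodule.span (k0Val A) (ω '' Set.Ico n₀ (n₀ + (q - 1))) := by
    have hlam : ZsLam A q (ζ : Kbar) β := (zsLam_iff A q hq hA hζ β).mpr hβ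
    obtain ⟨d, hd, hβd⟩ := zs_consecutive A q hq hA hζ n₀ hlam
    have hsum : (ElqLam.mk' β hβ : ElqLam A ζ)
        = ∑ a ∈ Finset.range (q - 1),
            (⟨⟨d a, (hd a).2⟩, (hd a).1⟩ : k0Val A) • ω (n₀ + a) := by
      have h1 : (ElqLam.mk' β hβ : ElqLam A ζ).1
          = (∑ a ∈ Finset.range (q - 1),
            (⟨⟨d a, (hd a).2⟩, (hd a).1⟩ : k0Val A) • ω (n₀ + a)).1 := by
        rw [elqLam_sum_val]
        show β = _
        rw [hβd]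
        refine Finset.sum_congr rfl fun a _ => ?_
        show d a * ((ζ : Kbar)⁻¹) ^ (n₀ + a) = d a * (((ζ⁻¹ : Kbarˣ) : Kbar) ^ (n₀ + a))
        rw [Units.val_inv_eq_inv_val]
      exact Subtype.ext h1
    rw [hsum]
    refine Submodule.sum_mem _ fun a ha => Submodule.smul_mem _ _ (Submodule.subset_span ?_)
    refine ⟨n₀ + a, ⟨Nat.le_add_right _ _, ?_⟩, rfl⟩
    have := Finset.mem_range.mp ha
    omega
  obtain ⟨x, hxN, h1, h2, h3, h4, h5, h6⟩ :=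
    h c hc ⟨⟨α, hα.2⟩, hα.1⟩ ⟨⟨γ, hγ.2⟩, hγ.1⟩ (ElqLam.mk' β hβ) hspan
  refine ⟨x.1, hxN, x.2, (elqPole_coI_iff A M' q hq hqM ζ hζ c x).mp h1,
    (elqPole_coM_iff A M' q hq hqM ζ hζ c x).mp h2,
    (elqPole_co0_iff A M' q hq hqM ζ hζ c x).mp h3, ?_, ?_, ?_⟩
  · exact congrArg (fun y : k0Val A => ((y : k0Field A) : Kbar)) h4
  · exact congrArg (fun y : ElqLam A ζ => y.1) h5
  · exact congrArg (fun y : k0Val A => ((y : k0Field A) : Kbar)) h6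

end Fermat.Agent.S36lib
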