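/-
Item 83 (S36), add-on to C4-3 (helper15): **the inertia group at `q` acts transitively on the
primitive `q`-th roots of unity**.  Complete proofs.

`A ⊂ ℚ̄` a valuation ring over the prime `q`, `I = A.inertiaSubgroupIn ℚ`, `K₀ = ℚ̄^I`.
* `izt_linearIndependent`: `1, ζ, …, ζ^(q-2)` are linearly independent over `K₀`
  (from helper17's `zi_indep` and helper8's `k0_val_eq_zpow`);
* `izt_minpoly`: `minpoly K₀ ζ = cyclotomic q K₀`;
* `izt_transitive`: for primitive `q`-th roots of unity `ζ, ζ'` there is `σ ∈ I` with `σ ζ = ζ'`.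
-/
import Mathlib
import Fermat.Agent.S36lib.K0Field
import Fermat.Agent.S36lib.ZetaIndep

set_option autoImplicit false
set_option linter.style.haveILetI false
set_option linter.unusedSectionVars false

noncomputable section

namespace Fermat.Agent.S36lib

open Polynomial Fermat.Agent.FrobLib

section

variable (A : ValuationSubring (AlgebraicClosure ℚ)) (q : ℕ) (hq : q.Prime)
  (hA : A.LiesOverPrime q)

/-- the subring `A ∩ K₀` of `ℚ̄` -/
def iztR0 : Subring (AlgebraicClosure ℚ) := (k0Field A).toSubring ⊓ A.toSubring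

theorem mem_iztR0 (x : AlgebraicClosure ℚ) : x ∈ iztR0 A ↔ x ∈ k0Field A ∧ x ∈ A := Iff.rfl

include hq hA in
theorem izt_hdisc (x : AlgebraicClosure ℚ) (hx : x ∈ iztR0 A) (hx0 : x ≠ 0) :
    ∃ n : ℕ, A.valuation x = A.valuation (q : AlgebraicClosure ℚ) ^ n := by
  obtain ⟨n, hn⟩ := k0_val_eq_zpow A q hq hA x ((mem_k0Field_iff A x).mp hx.1) hx0
  have hq1 : A.valuation (q : AlgebraicClosure ℚ) < 1 := k0_val_q_lt_one A q hA
  have hq0 : A.valuation (q : AlgebraicClosure ℚ) ≠ 0 := k0_val_q_ne_zero A q hq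
  have hx1 : A.valuation x ≤ 1 := (A.valuation_le_one_iff x).mpr hx.2
  rcases le_or_gt 0 n with h0 | h0
  · refine ⟨n.toNat, ?_⟩
    rw [hn, ← zpow_natCast, Int.toNat_of_nonneg h0]
  · exfalso
    rw [hn] at hx1
    have h1 : 1 < A.valuation (q : AlgebraicClosure ℚ) ^ n := by
      have hn' : n = -((-n).toNat : ℤ) := by
        rw [Int.toNat_of_nonneg (by omega)]; ring
      rw [hn', zpow_neg, zpow_natCast]
      have hpos : 0 < (-n).toNat := by omega
      have hlt : A.valuation (q : AlgebraicClosure ℚ) ^ (-n).toNat < 1 :=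
        pow_lt_one₀ zero_le hq1 (by omega)
      exact (one_lt_inv₀ (pow_pos (zero_lt_iff.mpr hq0) _)).mpr hlt
    exact absurd hx1 (not_le.mpr h1)

variable {ζ : AlgebraicClosure ℚ} (hζ : IsPrimitiveRoot ζ q)

include hq hA hζ in
/-- **`1, ζ, …, ζ^(q-2)` are linearly independent over `K₀`.** -/
theorem izt_linearIndependent (c : ℕ → AlgebraicClosure ℚ) (hc : ∀ a, c a ∈ k0Field A)
    (h : ∑ a ∈ Finset.range (q - 1), c a * ζ ^ a = 0) : ∀ a, a < q - 1 → c a = 0 := by
  classical
  by_contra hcon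
  push Not at hcon
  obtain ⟨a₁, ha₁, hca₁⟩ := hcon
  have hne : (Finset.range (q - 1)).Nonempty := ⟨a₁, Finset.mem_range.mpr ha₁⟩
  obtain ⟨a₀, ha₀, hmax⟩ := Finset.exists_max_image (Finset.range (q - 1))
    (fun a => A.valuation (c a)) hne
  have hca₀ : c a₀ ≠ 0 := by
    intro h0
    have h1 := hmax a₁ (Finset.mem_range.mpr ha₁)
    simp only [h0, map_zero] at h1
    exact hca₁ ((Valuation.zero_iff _).mp (le_antisymm h1 zero_le))
  set d : ℕ → AlgebraicClosure ℚ :=
    fun a => if a < q - 1 then c a / c a₀ else 0 with hd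
  have hdR : ∀ a, d a ∈ iztR0 A := by
    intro a
    by_cases ha : a < q - 1
    · simp only [hd, ha, if_true]
      refine ⟨show c a / c a₀ ∈ k0Field A from div_mem (hc a) (hc a₀), ?_⟩
      show c a / c a₀ ∈ A
      rw [← A.valuation_le_one_iff, map_div₀]
      have h1 := hmax a (Finset.mem_range.mpr ha)
      have h2 : 0 < A.valuation (c a₀) := zero_lt_iff.mpr ((Valuation.ne_zero_iff _).mpr hca₀)
      exact (div_le_one₀ h2).mpr h1
    · simp only [hd, ha, if_false]
      exact Subring.zero_mem _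
  have hsum : ∑ a ∈ Finset.range (q - 1), d a * ζ ^ a = 0 := by
    have h1 : ∑ a ∈ Finset.range (q - 1), d a * ζ ^ a
        = (∑ a ∈ Finset.range (q - 1), c a * ζ ^ a) / c a₀ := by
      rw [Finset.sum_div]
      refine Finset.sum_congr rfl fun a ha => ?_
      simp only [hd, Finset.mem_range.mp ha, if_true]
      ring
    rw [h1, h, zero_div]
  have key := zi_indep A.valuation hq (k0_val_q_lt_one A q hA) hζ (iztR0 A)
    (fun x hx => (A.valuation_le_one_iff x).mpr hx.2)
    (fun x hx hx0 => izt_hdisc A q hq hA x hx hx0) d hdR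
    (by rw [hsum, map_zero]; exact zero_le) a₀ (Finset.mem_range.mp ha₀)
  have hd0 : d a₀ = 1 := by
    simp only [hd, Finset.mem_range.mp ha₀, if_true]
    exact div_self hca₀
  rw [hd0, map_one] at key
  exact absurd (k0_val_q_lt_one A q hA) (not_lt.mpr key)


include hq hζ in
theorem izt_isIntegral : IsIntegral (k0Field A) ζ := by
  have h1 : IsIntegral ℤ ζ := hζ.isIntegral hq.pos
  exact h1.tower_top

include hq hζ in
theorem izt_aeval_cyclotomic :
    aeval ζ (cyclotomic q (k0Field A)) = 0 := by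
  rw [aeval_def, eval₂_eq_eval_map, map_cyclotomic]
  exact hζ.isRoot_cyclotomic hq.pos

include hq hA hζ in
theorem izt_natDegree_minpoly : q - 1 ≤ (minpoly (k0Field A) ζ).natDegree := by
  by_contra hlt
  rw [not_le] at hlt
  have hint := izt_isIntegral A q hq hζ
  have hP : aeval ζ (minpoly (k0Field A) ζ) = 0 := minpoly.aeval _ _
  rw [aeval_eq_sum_range' hlt] at hP
  have hsum : ∑ a ∈ Finset.range (q - 1),
      (((minpoly (k0Field A) ζ).coeff a : k0Field A) : AlgebraicClosure ℚ) * ζ ^ a = 0 := by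
    rw [← hP]
    refine Finset.sum_congr rfl fun a _ => ?_
    rw [Algebra.smul_def]
    rfl
  have h0 := izt_linearIndependent A q hq hA hζ
    (fun a => (((minpoly (k0Field A) ζ).coeff a : k0Field A) : AlgebraicClosure ℚ))
    (fun a => ((minpoly (k0Field A) ζ).coeff a).2) hsum _ hlt
  have h1 : (minpoly (k0Field A) ζ).coeff (minpoly (k0Field A) ζ).natDegree = 1 :=
    (minpoly.monic hint).coeff_natDegree
  rw [h1] at h0
  exact one_ne_zero h0

include hq hA hζ in
/-- **`minpoly K₀ ζ = Φ_q`**: the cyclotomic polynomial stays irreducible over the inertia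
field. -/
theorem izt_minpoly : minpoly (k0Field A) ζ = cyclotomic q (k0Field A) := by
  have hint := izt_isIntegral A q hq hζ
  have hdvd : minpoly (k0Field A) ζ ∣ cyclotomic q (k0Field A) :=
    minpoly.dvd _ _ (izt_aeval_cyclotomic A q hq hζ)
  symm
  refine eq_of_monic_of_dvd_of_natDegree_le (minpoly.monic hint) (cyclotomic.monic q _) hdvd ?_
  rw [natDegree_cyclotomic, Nat.totient_prime hq]
  exact izt_natDegree_minpoly A q hq hA hζ

include hq hA hζ in
/-- **the inertia group at `q` acts transitively on the primitive `q`-th roots of unity.** -/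
theorem izt_transitive {ζ' : AlgebraicClosure ℚ} (hζ' : IsPrimitiveRoot ζ' q) :
    ∃ σ ∈ A.inertiaSubgroupIn ℚ, σ ζ = ζ' := by
  haveI : Normal ℚ (AlgebraicClosure ℚ) := isGalois_QBar.to_normal
  haveI : Normal (k0Field A) (AlgebraicClosure ℚ) :=
    Normal.tower_top_of_normal ℚ (k0Field A) (AlgebraicClosure ℚ)
  have hroot : aeval ζ' (minpoly (k0Field A) ζ) = 0 := by
    rw [izt_minpoly A q hq hA hζ]
    exact izt_aeval_cyclotomic A q hq hζ'
  obtain ⟨σ, hσ⟩ := minpoly.exists_algEquiv_of_root'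
    (izt_isIntegral A q hq hζ).isAlgebraic hroot
  refine ⟨σ.restrictScalars ℚ, ?_, hσ⟩
  rw [← k0Field_fixingSubgroup A, IntermediateField.mem_fixingSubgroup_iff]
  intro x hx
  exact σ.commutes ⟨x, hx⟩

end

end Fermat.Agent.S36lib

end
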