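/-
Item 83 (S36), add-on to C4-3 (helper15): **Galois action on the middle places.**
Complete proofs.

* `midPlace_ord_galFF` **(G)**: `ord_{mid_{σζ}} (σ • f) = ord_{mid_ζ} f`;
  `galFF_smul_midPlace`: `σ • mid_ζ = mid_{σζ}`; `galFF_smul_fbmZero`: `σ • 0 = 0`;
* `ecMid_coeff_fixed` **(K)**: `f` inertia-fixed, `σ ∈ I`, `σ ζ = ζ` ⟹ `σ` fixes every
  coefficient of `E_ζ f`;
* `midPlace_ord_eq_of_isIFixed`, `fbmMid_ord_eq_of_isIFixed`: an inertia-fixed function has the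
  same order at all the middle places (`izt_transitive`).
-/
import Mathlib
import Fermat.Agent.S36lib.FibreReg
import Fermat.Agent.S36lib.MidExpGal
import Fermat.Agent.S36lib.InertiaZeta
import Fermat.Agent.S36lib.ZeroSide
import Fermat.Agent.S36lib.Setup

set_option autoImplicit false
set_option linter.style.haveILetI false
set_option linter.unusedSectionVars false
set_option synthInstance.maxHeartbeats 400000

noncomputable section

namespace Fermat.Agent.S36lib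

open AlgebraicCurve ModularCurve HahnSeries
open Fermat.Agent.S24lib Fermat.Agent.S34lib Fermat.Agent.S37lib Fermat.Agent.HeckeBar
open Fermat.Agent.S35lib

section Generic

variable {K F : Type*} [Field K] [Field F] [Algebra K F]

/-- two places with the same order function are equal -/
theorem fgl_place_ext {v w : Place K F} (h : ∀ f : F, v.ord f = w.ord f) : v = w := by
  apply Place.ext
  ext f
  rw [ffMem_iff_ord_nonneg, ffMem_iff_ord_nonneg, h]

/-- `(g • v).ord f = v.ord (g⁻¹ • f)` -/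
theorem fgl_ord_smul (g : SemilinearAut K F) (v : Place K F) (f : F) :
    (g • v).ord f = v.ord (g⁻¹ • f) := by
  have h := SemilinearAut.ord_smul g v (g⁻¹ • f)
  rwa [smul_inv_smul] at h

end Generic

section Gal

variable (M' q : ℕ) [NeZero M'] [NeZero q] (hq : q.Prime) (hqM : ¬ q ∣ M')

/-- **(G)** `ord_{mid_{σζ}} (σ • f) = ord_{mid_ζ} f` -/
theorem midPlace_ord_galFF (σ : Kbar ≃ₐ[ℚ] Kbar) (ζ ζ' : Kbarˣ)
    (hζ : IsPrimitiveRoot (ζ : Kbar) q) (hζ' : IsPrimitiveRoot (ζ' : Kbar) q)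
    (h : (ζ' : Kbar) = σ (ζ : Kbar)) (f : FF (M' * q * q)) :
    (midPlace M' q hq hqM ζ' hζ').ord (galFF (M' * q * q) σ • f)
      = (midPlace M' q hq hqM ζ hζ).ord f := by
  rw [midPlace_ord, midPlace_ord]
  have key := midExp_gal M' q hq σ ζ ζ' h (ecMid M' q hq hqM ζ hζ) (ecMid M' q hq hqM ζ' hζ')
    (ecMid_alpha M' q hq hqM ζ hζ) (fun Y' => ecMid_pi3 M' q hq hqM ζ hζ Y')
    (ecMid_alpha M' q hq hqM ζ' hζ') (fun Y' => ecMid_pi3 M' q hq hqM ζ' hζ' Y') f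
  show (ecMid M' q hq hqM ζ' hζ'
    (arithmeticGalois (modularFunctionFieldFull (M' * q * q)) σ • f)).order = _
  rw [key, inf_order_coeffMap]

/-- `σ • mid_ζ = mid_{σζ}` -/
theorem galFF_smul_midPlace (σ : Kbar ≃ₐ[ℚ] Kbar) (ζ ζ' : Kbarˣ)
    (hζ : IsPrimitiveRoot (ζ : Kbar) q) (hζ' : IsPrimitiveRoot (ζ' : Kbar) q)
    (h : (ζ' : Kbar) = σ (ζ : Kbar)) :
    galFF (M' * q * q) σ • midPlace M' q hq hqM ζ hζ = midPlace M' q hq hqM ζ' hζ' := by
  apply fgl_place_ext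
  intro f
  rw [fgl_ord_smul, ← midPlace_ord_galFF M' q hq hqM σ ζ ζ' hζ hζ' h, smul_inv_smul]

/-- `ord_0 (σ • f) = ord_0 f` -/
theorem fbmZero_ord_galFF (σ : Kbar ≃ₐ[ℚ] Kbar) (f : FF (M' * q * q)) :
    (fbmZero M' q hq hqM).ord (galFF (M' * q * q) σ • f) = (fbmZero M' q hq hqM).ord f := by
  rw [fbmZero_ord_eq, fbmZero_ord_eq]
  have h1 : ecW M' q hq hqM (galFF (M' * q * q) σ • f)
      = galFF (M' * q * q) σ • ecW M' q hq hqM f := alW2_galFF M' hq hqM σ f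
  rw [h1, infPlaceBar_ord, infPlaceBar_ord]
  show (coeffMap (σ : Kbar →+* Kbar)
    ((ecW M' q hq hqM f : FF (M' * q * q)) : LaurentSeries Kbar)).order = _
  rw [inf_order_coeffMap]

/-- `σ • 0 = 0` -/
theorem galFF_smul_fbmZero (σ : Kbar ≃ₐ[ℚ] Kbar) :
    galFF (M' * q * q) σ • fbmZero M' q hq hqM = fbmZero M' q hq hqM := by
  apply fgl_place_ext
  intro f
  rw [fgl_ord_smul, ← fbmZero_ord_galFF M' q hq hqM σ, smul_inv_smul]

/-- **(K)** for `f` inertia-fixed and `σ ∈ I` fixing `ζ`, `σ` fixes the coefficients of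
`E_ζ f`. -/
theorem ecMid_coeff_fixed {A : ValuationSubring Kbar} {f : FF (M' * q * q)}
    (hf : IsIFixed (M' * q * q) A f) (ζ : Kbarˣ) (hζ : IsPrimitiveRoot (ζ : Kbar) q)
    (σ : Kbar ≃ₐ[ℚ] Kbar) (hσ : σ ∈ A.inertiaSubgroupIn ℚ) (hσζ : σ (ζ : Kbar) = ζ) (n : ℤ) :
    σ ((ecMid M' q hq hqM ζ hζ f).coeff n) = (ecMid M' q hq hqM ζ hζ f).coeff n := by
  have key := midExp_gal M' q hq σ ζ ζ hσζ.symm (ecMid M' q hq hqM ζ hζ)
    (ecMid M' q hq hqM ζ hζ)
    (ecMid_alpha M' q hq hqM ζ hζ) (fun Y' => ecMid_pi3 M' q hq hqM ζ hζ Y')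
    (ecMid_alpha M' q hq hqM ζ hζ) (fun Y' => ecMid_pi3 M' q hq hqM ζ hζ Y') f
  have hfix : arithmeticGalois (modularFunctionFieldFull (M' * q * q)) σ • f = f := hf σ hσ
  rw [hfix] at key
  have := congrArg (fun y : LaurentSeries Kbar => y.coeff n) key
  simp only [coeffMap_coeff] at this
  exact this.symm

/-- an inertia-fixed function has the same order at all the middle places -/
theorem midPlace_ord_eq_of_isIFixed {A : ValuationSubring Kbar} (hA : A.LiesOverPrime q)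
    {f : FF (M' * q * q)} (hf : IsIFixed (M' * q * q) A f) (ζ ζ' : Kbarˣ)
    (hζ : IsPrimitiveRoot (ζ : Kbar) q) (hζ' : IsPrimitiveRoot (ζ' : Kbar) q) :
    (midPlace M' q hq hqM ζ hζ).ord f = (midPlace M' q hq hqM ζ' hζ').ord f := by
  obtain ⟨σ, hσ, hσζ⟩ := izt_transitive A q hq hA hζ hζ'
  have h := midPlace_ord_galFF M' q hq hqM σ ζ ζ' hζ hζ' hσζ.symm f
  rw [hf σ hσ] at h
  exact h.symm

/-- the same for the family `fbmMid` -/
theorem fbmMid_ord_eq_of_isIFixed {A : ValuationSubring Kbar} (hA : A.LiesOverPrime q)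
    {f : FF (M' * q * q)} (hf : IsIFixed (M' * q * q) A f) (ζ₀ : Kbarˣ)
    (hζ₀ : IsPrimitiveRoot (ζ₀ : Kbar) q) (i j : Fin (q - 1)) :
    (fbmMid M' q hq hqM ζ₀ hζ₀ i).ord f = (fbmMid M' q hq hqM ζ₀ hζ₀ j).ord f :=
  midPlace_ord_eq_of_isIFixed M' q hq hqM hA hf _ _ _ _

end Gal

end Fermat.Agent.S36lib

end
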