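/-
Item 83 (S36), piece C4-3 add-on (helper15): **the divisor `D₁` of the cusps over `∞'`** at level
`M' q²` (`q ∤ M'`).  No incomplete proof in this file.

* `fbmD1 = ∞ + 0 + ∑ᵢ mid_i` (`i : Fin (q - 1)`), the reduced fibre of `π₁, π₂, π₃` over `∞'`;
  `fbmD1_inf/_zero/_mid/_off`, `fbmD1_nonneg`, `fbmD1_ne_zero_iff`, `fbmD1_eq_one`;
* `fbmD1_degree : deg D₁ = q + 1`;
* `galFF_smul_fbmD1 : σ • D₁ = D₁` for every `σ ∈ Gal(ℚ̄/ℚ)`;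
* `mem_L_fbmD1_iff` : `x ∈ L(c D₁)` iff `x` is regular off `∞, 0, mid_i` and the expansions of `x`
  at `∞`, `0`, `mid_i` have pole order `≤ c` (`ClPole c`);
  `mem_L_fbmD1_of_isIFixed` : for an inertia-fixed `x` ONE middle cusp suffices;
* `ecP_mem_L_fbmD1` : `P g₁ g₂ g₃ = π₁ g₁ · π₂ g₂ · π₃ g₃ ∈ L(c D₁)` for `g_i` regular off `∞'`
  with pole orders `≤ n_i` at `∞'`, as soon as `c ≥ n₁ + q n₂ + q² n₃` and `c ≥ q² n₁ + q n₂ + n₃`;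
* `fbmD1_ord_exact` : the shape of the hypothesis `hexact` of `cbc_kummer`.
-/
import Mathlib
import Fermat.Agent.S36lib.FibreGal
import Fermat.Agent.S36lib.ExpOrd
import Fermat.Agent.S34lib.GalRR

set_option autoImplicit false
set_option linter.unusedSectionVars false
set_option linter.unusedVariables false
set_option linter.unusedDecidableInType false

noncomputable section

namespace Fermat.Agent.S36lib

open AlgebraicCurve ModularCurve HahnSeries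
open Fermat.Agent.S24lib Fermat.Agent.S34lib Fermat.Agent.S37lib Fermat.Agent.HeckeBar
open Fermat.Agent.S35lib

section D1

variable (M' q : ℕ) [NeZero M'] [NeZero q] (hq : q.Prime) (hqM : ¬ q ∣ M')
variable (ζ₀ : Kbarˣ) (hζ₀ : IsPrimitiveRoot (ζ₀ : Kbar) q)

/-- the sum of the middle cusps -/
def fbmD1Mid : Divisor Kbar (FF (M' * q * q)) :=
  ∑ i : Fin (q - 1), Finsupp.single (fbmMid M' q hq hqM ζ₀ hζ₀ i) 1

/-- **the divisor `D₁ = ∞ + 0 + ∑ mid_i`** of the cusps of level `M' q²` over `∞'` -/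
def fbmD1 : Divisor Kbar (FF (M' * q * q)) :=
  Finsupp.single (infPlaceBar (M' * q * q)) 1 + Finsupp.single (fbmZero M' q hq hqM) 1
    + fbmD1Mid M' q hq hqM ζ₀ hζ₀

theorem fbmD1Mid_apply_mid (i : Fin (q - 1)) :
    fbmD1Mid M' q hq hqM ζ₀ hζ₀ (fbmMid M' q hq hqM ζ₀ hζ₀ i) = 1 := by
  classical
  rw [fbmD1Mid, Finsupp.finsetSum_apply, Finset.sum_eq_single i]
  · exact Finsupp.single_eq_same
  · intro j _ hji
    exact Finsupp.single_eq_of_ne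
      (fun h => hji (fbmMid_injective M' q hq hqM ζ₀ hζ₀ h).symm)
  · intro h
    exact absurd (Finset.mem_univ i) h

theorem fbmD1Mid_apply_off (P : Place Kbar (FF (M' * q * q)))
    (hmid : ∀ i, P ≠ fbmMid M' q hq hqM ζ₀ hζ₀ i) :
    fbmD1Mid M' q hq hqM ζ₀ hζ₀ P = 0 := by
  classical
  rw [fbmD1Mid, Finsupp.finsetSum_apply]
  apply Finset.sum_eq_zero
  intro j _
  exact Finsupp.single_eq_of_ne (hmid j)

theorem fbmMid_ne_inf (i : Fin (q - 1)) :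
    fbmMid M' q hq hqM ζ₀ hζ₀ i ≠ infPlaceBar (M' * q * q) :=
  (fbm_inf_ne_mid M' q hq hqM _ _).symm

theorem fbmMid_ne_zero (i : Fin (q - 1)) :
    fbmMid M' q hq hqM ζ₀ hζ₀ i ≠ fbmZero M' q hq hqM :=
  fbm_mid_ne_zero M' q hq hqM _ _

/-! ### Values of `D₁` -/

theorem fbmD1_inf : fbmD1 M' q hq hqM ζ₀ hζ₀ (infPlaceBar (M' * q * q)) = 1 := by
  classical
  rw [fbmD1, Finsupp.add_apply, Finsupp.add_apply, Finsupp.single_eq_same,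
    Finsupp.single_eq_of_ne (fbm_inf_ne_zero M' q hq hqM),
    fbmD1Mid_apply_off M' q hq hqM ζ₀ hζ₀ _
      (fun i => (fbmMid_ne_inf M' q hq hqM ζ₀ hζ₀ i).symm)]
  norm_num

theorem fbmD1_zero : fbmD1 M' q hq hqM ζ₀ hζ₀ (fbmZero M' q hq hqM) = 1 := by
  classical
  rw [fbmD1, Finsupp.add_apply, Finsupp.add_apply, Finsupp.single_eq_same,
    Finsupp.single_eq_of_ne (fbm_inf_ne_zero M' q hq hqM).symm,
    fbmD1Mid_apply_off M' q hq hqM ζ₀ hζ₀ _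
      (fun i => (fbmMid_ne_zero M' q hq hqM ζ₀ hζ₀ i).symm)]
  norm_num

theorem fbmD1_mid (i : Fin (q - 1)) :
    fbmD1 M' q hq hqM ζ₀ hζ₀ (fbmMid M' q hq hqM ζ₀ hζ₀ i) = 1 := by
  classical
  rw [fbmD1, Finsupp.add_apply, Finsupp.add_apply,
    Finsupp.single_eq_of_ne (fbmMid_ne_inf M' q hq hqM ζ₀ hζ₀ i),
    Finsupp.single_eq_of_ne (fbmMid_ne_zero M' q hq hqM ζ₀ hζ₀ i),
    fbmD1Mid_apply_mid]
  norm_num

theorem fbmD1_midPlace (ζ : Kbarˣ) (hζ : IsPrimitiveRoot (ζ : Kbar) q) :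
    fbmD1 M' q hq hqM ζ₀ hζ₀ (midPlace M' q hq hqM ζ hζ) = 1 := by
  obtain ⟨i, hi⟩ := fbm_exists_fbmMid M' q hq hqM ζ₀ hζ₀ ζ hζ
  rw [hi, fbmD1_mid]

theorem fbmD1_off (P : Place Kbar (FF (M' * q * q)))
    (hPinf : P ≠ infPlaceBar (M' * q * q)) (h0 : P ≠ fbmZero M' q hq hqM)
    (hmid : ∀ i, P ≠ fbmMid M' q hq hqM ζ₀ hζ₀ i) :
    fbmD1 M' q hq hqM ζ₀ hζ₀ P = 0 := by
  classical
  rw [fbmD1, Finsupp.add_apply, Finsupp.add_apply, Finsupp.single_eq_of_ne hPinf,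
    Finsupp.single_eq_of_ne h0, fbmD1Mid_apply_off M' q hq hqM ζ₀ hζ₀ _ hmid]
  norm_num

/-- trichotomy: a place is `∞`, `0`, a `mid_i`, or off `D₁` -/
theorem fbmD1_cases (P : Place Kbar (FF (M' * q * q))) :
    P = infPlaceBar (M' * q * q) ∨ P = fbmZero M' q hq hqM ∨
      (∃ i, P = fbmMid M' q hq hqM ζ₀ hζ₀ i) ∨
      (P ≠ infPlaceBar (M' * q * q) ∧ P ≠ fbmZero M' q hq hqM ∧
        ∀ i, P ≠ fbmMid M' q hq hqM ζ₀ hζ₀ i) := by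
  by_cases h1 : P = infPlaceBar (M' * q * q)
  · exact Or.inl h1
  by_cases h2 : P = fbmZero M' q hq hqM
  · exact Or.inr (Or.inl h2)
  by_cases h3 : ∃ i, P = fbmMid M' q hq hqM ζ₀ hζ₀ i
  · exact Or.inr (Or.inr (Or.inl h3))
  · exact Or.inr (Or.inr (Or.inr ⟨h1, h2, fun i hi => h3 ⟨i, hi⟩⟩))

theorem fbmD1_nonneg (P : Place Kbar (FF (M' * q * q))) :
    0 ≤ fbmD1 M' q hq hqM ζ₀ hζ₀ P := by
  rcases fbmD1_cases M' q hq hqM ζ₀ hζ₀ P with h | h | ⟨i, h⟩ | ⟨h1, h2, h3⟩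
  · rw [h, fbmD1_inf]; norm_num
  · rw [h, fbmD1_zero]; norm_num
  · rw [h, fbmD1_mid]; norm_num
  · rw [fbmD1_off M' q hq hqM ζ₀ hζ₀ P h1 h2 h3]

theorem fbmD1_le_one (P : Place Kbar (FF (M' * q * q))) :
    fbmD1 M' q hq hqM ζ₀ hζ₀ P ≤ 1 := by
  rcases fbmD1_cases M' q hq hqM ζ₀ hζ₀ P with h | h | ⟨i, h⟩ | ⟨h1, h2, h3⟩
  · rw [h, fbmD1_inf]
  · rw [h, fbmD1_zero]
  · rw [h, fbmD1_mid]
  · rw [fbmD1_off M' q hq hqM ζ₀ hζ₀ P h1 h2 h3]; norm_num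

theorem fbmD1_ne_zero_iff (P : Place Kbar (FF (M' * q * q))) :
    fbmD1 M' q hq hqM ζ₀ hζ₀ P ≠ 0 ↔
      (P = infPlaceBar (M' * q * q) ∨ P = fbmZero M' q hq hqM ∨
        ∃ i, P = fbmMid M' q hq hqM ζ₀ hζ₀ i) := by
  constructor
  · intro hne
    rcases fbmD1_cases M' q hq hqM ζ₀ hζ₀ P with h | h | h | ⟨h1, h2, h3⟩
    · exact Or.inl h
    · exact Or.inr (Or.inl h)
    · exact Or.inr (Or.inr h)
    · exact absurd (fbmD1_off M' q hq hqM ζ₀ hζ₀ P h1 h2 h3) hne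
  · rintro (h | h | ⟨i, h⟩)
    · rw [h, fbmD1_inf]; norm_num
    · rw [h, fbmD1_zero]; norm_num
    · rw [h, fbmD1_mid]; norm_num

theorem fbmD1_eq_one_of_ne_zero (P : Place Kbar (FF (M' * q * q)))
    (h : fbmD1 M' q hq hqM ζ₀ hζ₀ P ≠ 0) : fbmD1 M' q hq hqM ζ₀ hζ₀ P = 1 := by
  rcases (fbmD1_ne_zero_iff M' q hq hqM ζ₀ hζ₀ P).mp h with h | h | ⟨i, h⟩
  · rw [h, fbmD1_inf]
  · rw [h, fbmD1_zero]
  · rw [h, fbmD1_mid]

/-! ### Degree -/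

theorem fbmD1_degree :
    Divisor.degree (fbmD1 M' q hq hqM ζ₀ hζ₀) = (q : ℤ) + 1 := by
  rw [fbmD1, fbmD1Mid, map_add, map_add, map_sum, Divisor.degree_single, Divisor.degree_single]
  simp only [Divisor.degree_single, wir_deg_eq_one, Nat.cast_one, mul_one, Finset.sum_const,
    Finset.card_univ, Fintype.card_fin, nsmul_eq_mul]
  have h1 := hq.one_lt
  push_cast [Nat.cast_sub h1.le]
  ring

/-! ### Galois invariance -/

/-- the image of a middle cusp under `σ` is a middle cusp -/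
theorem galFF_smul_fbmMid_exists (σ : Kbar ≃ₐ[ℚ] Kbar) (i : Fin (q - 1)) :
    ∃ j : Fin (q - 1), galFF (M' * q * q) σ • fbmMid M' q hq hqM ζ₀ hζ₀ i
      = fbmMid M' q hq hqM ζ₀ hζ₀ j := by
  have hζ := fbr_prim q hq ζ₀ hζ₀ i
  set ζ' : Kbarˣ := Units.map (σ : Kbar →* Kbar) (ζ₀ ^ ((i : ℕ) + 1)) with hζ'def
  have hval : (ζ' : Kbar) = σ ((ζ₀ ^ ((i : ℕ) + 1) : Kbarˣ) : Kbar) := rfl
  have hζ' : IsPrimitiveRoot (ζ' : Kbar) q := by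
    rw [hval]
    exact hζ.map_of_injective σ.injective
  obtain ⟨j, hj⟩ := fbm_exists_fbmMid M' q hq hqM ζ₀ hζ₀ ζ' hζ'
  refine ⟨j, ?_⟩
  rw [← hj]
  exact galFF_smul_midPlace M' q hq hqM σ _ ζ' hζ hζ' hval

theorem galFF_smul_fbmD1Mid (σ : Kbar ≃ₐ[ℚ] Kbar) :
    galFF (M' * q * q) σ • fbmD1Mid M' q hq hqM ζ₀ hζ₀ = fbmD1Mid M' q hq hqM ζ₀ hζ₀ := by
  classical
  choose π hπ using galFF_smul_fbmMid_exists M' q hq hqM ζ₀ hζ₀ σ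
  have hinj : Function.Injective π := by
    intro i j hij
    have h1 := hπ i
    have h2 := hπ j
    rw [hij, ← h2] at h1
    exact fbmMid_injective M' q hq hqM ζ₀ hζ₀ (MulAction.injective _ h1)
  have hbij : Function.Bijective π := Finite.injective_iff_bijective.mp hinj
  rw [fbmD1Mid, Finset.smul_sum]
  simp only [SemilinearAut.smul_single, hπ]
  exact Function.Bijective.sum_comp hbij
    (fun j => (Finsupp.single (fbmMid M' q hq hqM ζ₀ hζ₀ j) (1 : ℤ) :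
      Divisor Kbar (FF (M' * q * q))))

/-- **`D₁` is fixed by the arithmetic Galois action** -/
theorem galFF_smul_fbmD1 (σ : Kbar ≃ₐ[ℚ] Kbar) :
    galFF (M' * q * q) σ • fbmD1 M' q hq hqM ζ₀ hζ₀ = fbmD1 M' q hq hqM ζ₀ hζ₀ := by
  rw [fbmD1, smul_add, smul_add, SemilinearAut.smul_single, SemilinearAut.smul_single,
    galFF_smul_infPlaceBar, galFF_smul_fbmZero, galFF_smul_fbmD1Mid]

theorem galFF_smul_nsmul_fbmD1 (σ : Kbar ≃ₐ[ℚ] Kbar) (c : ℕ) :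
    galFF (M' * q * q) σ • (c • fbmD1 M' q hq hqM ζ₀ hζ₀) = c • fbmD1 M' q hq hqM ζ₀ hζ₀ := by
  rw [smul_comm, galFF_smul_fbmD1]

/-! ### Membership in `L(c D₁)` -/

theorem fbmD1_nsmul_apply (c : ℕ) (P : Place Kbar (FF (M' * q * q))) :
    (c • fbmD1 M' q hq hqM ζ₀ hζ₀) P = (c : ℤ) * fbmD1 M' q hq hqM ζ₀ hζ₀ P := by
  rw [Finsupp.smul_apply, nsmul_eq_mul]

/-- membership in `L(c D₁)` in terms of the orders -/
theorem mem_L_fbmD1_iff_ord (c : ℕ) (x : FF (M' * q * q)) :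
    x ∈ riemannRochSpace (K := Kbar) (c • fbmD1 M' q hq hqM ζ₀ hζ₀) ↔
      (∀ P : Place Kbar (FF (M' * q * q)), P ≠ infPlaceBar (M' * q * q) →
          P ≠ fbmZero M' q hq hqM → (∀ i, P ≠ fbmMid M' q hq hqM ζ₀ hζ₀ i) → 0 ≤ P.ord x) ∧
        (x = 0 ∨ -(c : ℤ) ≤ (infPlaceBar (M' * q * q)).ord x) ∧
        (x = 0 ∨ -(c : ℤ) ≤ (fbmZero M' q hq hqM).ord x) ∧
        ∀ i, x = 0 ∨ -(c : ℤ) ≤ (fbmMid M' q hq hqM ζ₀ hζ₀ i).ord x := by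
  rw [mem_riemannRochSpace_iff]
  constructor
  · intro h
    refine ⟨fun P h1 h2 h3 => ?_, ?_, ?_, fun i => ?_⟩
    · have := h P
      rw [fbmD1_nsmul_apply, fbmD1_off M' q hq hqM ζ₀ hζ₀ P h1 h2 h3, mul_zero, neg_zero] at this
      rcases this with rfl | h'
      · rw [Place.ord_zero]
      · exact h'
    · have := h (infPlaceBar (M' * q * q))
      rwa [fbmD1_nsmul_apply, fbmD1_inf, mul_one] at this
    · have := h (fbmZero M' q hq hqM)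
      rwa [fbmD1_nsmul_apply, fbmD1_zero, mul_one] at this
    · have := h (fbmMid M' q hq hqM ζ₀ hζ₀ i)
      rwa [fbmD1_nsmul_apply, fbmD1_mid, mul_one] at this
  · rintro ⟨hreg, hinf, hzero, hmid⟩ P
    rcases fbmD1_cases M' q hq hqM ζ₀ hζ₀ P with h | h | ⟨i, h⟩ | ⟨h1, h2, h3⟩
    · rw [h, fbmD1_nsmul_apply, fbmD1_inf, mul_one]; exact hinf
    · rw [h, fbmD1_nsmul_apply, fbmD1_zero, mul_one]; exact hzero
    · rw [h, fbmD1_nsmul_apply, fbmD1_mid, mul_one]; exact hmid i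
    · rw [fbmD1_nsmul_apply, fbmD1_off M' q hq hqM ζ₀ hζ₀ P h1 h2 h3, mul_zero, neg_zero]
      exact Or.inr (hreg P h1 h2 h3)

theorem fbd_clPole_iff_ord {R : Type*} [Field R] {F : Type*} [Field F]
    (E : F →+* LaurentSeries R) (c : ℕ) (x : F) :
    ClPole c (E x) ↔ (x = 0 ∨ -(c : ℤ) ≤ (E x).order) := by
  rw [clPole_iff, map_eq_zero]

/-- **membership in `L(c D₁)`**: regular off the cusps over `∞'`, pole orders `≤ c` at them -/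
theorem mem_L_fbmD1_iff (c : ℕ) (x : FF (M' * q * q)) :
    x ∈ riemannRochSpace (K := Kbar) (c • fbmD1 M' q hq hqM ζ₀ hζ₀) ↔
      (∀ P : Place Kbar (FF (M' * q * q)), P ≠ infPlaceBar (M' * q * q) →
          P ≠ fbmZero M' q hq hqM → (∀ i, P ≠ fbmMid M' q hq hqM ζ₀ hζ₀ i) → 0 ≤ P.ord x) ∧
        ClPole c (ecInf M' q x) ∧ ClPole c (ecZero M' q hq hqM x) ∧
        ∀ i : Fin (q - 1),
          ClPole c (ecMid M' q hq hqM (ζ₀ ^ ((i : ℕ) + 1)) (fbr_prim q hq ζ₀ hζ₀ i) x) := by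
  rw [mem_L_fbmD1_iff_ord, fbd_clPole_iff_ord, fbd_clPole_iff_ord, infPlaceBar_ord, fbmZero_ord,
    ecInf_apply]
  simp only [fbd_clPole_iff_ord, fbmMid_ord]

/-- for an inertia-fixed function ONE middle cusp suffices -/
theorem mem_L_fbmD1_of_isIFixed {A : ValuationSubring Kbar} (hA : A.LiesOverPrime q)
    {x : FF (M' * q * q)} (hx : IsIFixed (M' * q * q) A x) (c : ℕ)
    (hreg : ∀ P : Place Kbar (FF (M' * q * q)), P ≠ infPlaceBar (M' * q * q) →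
      P ≠ fbmZero M' q hq hqM → (∀ i, P ≠ fbmMid M' q hq hqM ζ₀ hζ₀ i) → 0 ≤ P.ord x)
    (hinf : ClPole c (ecInf M' q x)) (hzero : ClPole c (ecZero M' q hq hqM x))
    (ζ : Kbarˣ) (hζ : IsPrimitiveRoot (ζ : Kbar) q)
    (hmid : ClPole c (ecMid M' q hq hqM ζ hζ x)) :
    x ∈ riemannRochSpace (K := Kbar) (c • fbmD1 M' q hq hqM ζ₀ hζ₀) := by
  rw [mem_L_fbmD1_iff_ord]
  refine ⟨hreg, ?_, ?_, fun i => ?_⟩
  · rw [infPlaceBar_ord]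
    exact (fbd_clPole_iff_ord (ecInf M' q) c x).mp hinf
  · rw [fbmZero_ord]
    exact (fbd_clPole_iff_ord _ c x).mp hzero
  · have h1 := (fbd_clPole_iff_ord _ c x).mp hmid
    rw [← midPlace_ord, midPlace_ord_eq_of_isIFixed M' q hq hqM hA hx ζ _ hζ
      (fbr_prim q hq ζ₀ hζ₀ i)] at h1
    exact h1

/-- converse: the pole orders of an element of `L(c D₁)` at ANY middle cusp -/
theorem clPole_mid_of_mem_L_fbmD1 {c : ℕ} {x : FF (M' * q * q)}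
    (hx : x ∈ riemannRochSpace (K := Kbar) (c • fbmD1 M' q hq hqM ζ₀ hζ₀))
    (ζ : Kbarˣ) (hζ : IsPrimitiveRoot (ζ : Kbar) q) :
    ClPole c (ecMid M' q hq hqM ζ hζ x) := by
  rw [fbd_clPole_iff_ord, ← midPlace_ord]
  have := mem_riemannRochSpace_iff.mp hx (midPlace M' q hq hqM ζ hζ)
  rwa [fbmD1_nsmul_apply, fbmD1_midPlace, mul_one] at this

theorem clPole_inf_of_mem_L_fbmD1 {c : ℕ} {x : FF (M' * q * q)}
    (hx : x ∈ riemannRochSpace (K := Kbar) (c • fbmD1 M' q hq hqM ζ₀ hζ₀)) :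
    ClPole c (ecInf M' q x) :=
  ((mem_L_fbmD1_iff M' q hq hqM ζ₀ hζ₀ c x).mp hx).2.1

theorem clPole_zero_of_mem_L_fbmD1 {c : ℕ} {x : FF (M' * q * q)}
    (hx : x ∈ riemannRochSpace (K := Kbar) (c • fbmD1 M' q hq hqM ζ₀ hζ₀)) :
    ClPole c (ecZero M' q hq hqM x) :=
  ((mem_L_fbmD1_iff M' q hq hqM ζ₀ hζ₀ c x).mp hx).2.2.1

/-! ### The products `P g₁ g₂ g₃` -/

/-- `P g₁ g₂ g₃ ∈ L(c D₁)` -/
theorem ecP_mem_L_fbmD1 {g₁ g₂ g₃ : FF M'} {n₁ n₂ n₃ c : ℕ}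
    (hg₁ : ∀ v' : Place Kbar (FF M'), v' ≠ infPlaceBar M' → 0 ≤ v'.ord g₁)
    (hg₂ : ∀ v' : Place Kbar (FF M'), v' ≠ infPlaceBar M' → 0 ≤ v'.ord g₂)
    (hg₃ : ∀ v' : Place Kbar (FF M'), v' ≠ infPlaceBar M' → 0 ≤ v'.ord g₃)
    (h₁ : ClPole n₁ (g₁ : LaurentSeries Kbar)) (h₂ : ClPole n₂ (g₂ : LaurentSeries Kbar))
    (h₃ : ClPole n₃ (g₃ : LaurentSeries Kbar))
    (hc : n₁ + q * n₂ + q ^ 2 * n₃ ≤ c) (hc' : q ^ 2 * n₁ + q * n₂ + n₃ ≤ c) :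
    ecP M' q g₁ g₂ g₃ ∈ riemannRochSpace (K := Kbar) (c • fbmD1 M' q hq hqM ζ₀ hζ₀) := by
  rw [mem_L_fbmD1_iff]
  refine ⟨fun P h1 h2 h3 => fbm_reg_prod M' q hq hqM ζ₀ hζ₀ g₁ g₂ g₃ hg₁ hg₂ hg₃ P h1 h2 h3,
    clPole_mono hc (eo_inf_pole h₁ h₂ h₃), clPole_mono hc' (eo_zero_pole hq hqM h₁ h₂ h₃),
    fun i => clPole_mono ?_ (eo_mid_pole hq hqM _ _ h₁ h₂ h₃)⟩
  have : n₃ ≤ q ^ 2 * n₃ := Nat.le_mul_of_pos_left _ (pow_pos hq.pos 2)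
  omega

/-- the bound `c = q² (n₁ + n₂ + n₃)` always works -/
theorem ecP_mem_L_fbmD1' {g₁ g₂ g₃ : FF M'} {n₁ n₂ n₃ : ℕ}
    (hg₁ : ∀ v' : Place Kbar (FF M'), v' ≠ infPlaceBar M' → 0 ≤ v'.ord g₁)
    (hg₂ : ∀ v' : Place Kbar (FF M'), v' ≠ infPlaceBar M' → 0 ≤ v'.ord g₂)
    (hg₃ : ∀ v' : Place Kbar (FF M'), v' ≠ infPlaceBar M' → 0 ≤ v'.ord g₃)
    (h₁ : ClPole n₁ (g₁ : LaurentSeries Kbar)) (h₂ : ClPole n₂ (g₂ : LaurentSeries Kbar))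
    (h₃ : ClPole n₃ (g₃ : LaurentSeries Kbar)) :
    ecP M' q g₁ g₂ g₃ ∈
      riemannRochSpace (K := Kbar) ((q ^ 2 * (n₁ + n₂ + n₃)) • fbmD1 M' q hq hqM ζ₀ hζ₀) := by
  have hq1 : 1 ≤ q := hq.pos
  have hq2 : q ≤ q ^ 2 := by nlinarith
  have hq3 : 1 ≤ q ^ 2 := le_trans hq1 hq2
  have e : q ^ 2 * (n₁ + n₂ + n₃) = q ^ 2 * n₁ + q ^ 2 * n₂ + q ^ 2 * n₃ := by ring
  have a1 : n₁ ≤ q ^ 2 * n₁ := Nat.le_mul_of_pos_left _ (pow_pos hq.pos 2)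
  have a3 : n₃ ≤ q ^ 2 * n₃ := Nat.le_mul_of_pos_left _ (pow_pos hq.pos 2)
  have a2 : q * n₂ ≤ q ^ 2 * n₂ := Nat.mul_le_mul_right _ hq2
  exact ecP_mem_L_fbmD1 M' q hq hqM ζ₀ hζ₀ hg₁ hg₂ hg₃ h₁ h₂ h₃ (by omega) (by omega)

/-! ### Exact pole orders: the hypothesis `hexact` of `cbc_kummer` -/

/-- a function with the same order `-n` at all the cusps over `∞'` -/
theorem fbmD1_hexact (x : FF (M' * q * q)) (n : ℕ)
    (hinf : (infPlaceBar (M' * q * q)).ord x = -(n : ℤ))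
    (hzero : (fbmZero M' q hq hqM).ord x = -(n : ℤ))
    (hmid : ∀ i, (fbmMid M' q hq hqM ζ₀ hζ₀ i).ord x = -(n : ℤ)) :
    ∀ v : Place Kbar (FF (M' * q * q)), fbmD1 M' q hq hqM ζ₀ hζ₀ v ≠ 0 →
      v.ord x = -((n : ℤ) * fbmD1 M' q hq hqM ζ₀ hζ₀ v) := by
  intro v hv
  rcases (fbmD1_ne_zero_iff M' q hq hqM ζ₀ hζ₀ v).mp hv with h | h | ⟨i, h⟩
  · rw [h, fbmD1_inf, mul_one, hinf]
  · rw [h, fbmD1_zero, mul_one, hzero]
  · rw [h, fbmD1_mid, mul_one, hmid i]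

/-- `π₂ g` has order `q · ord_∞' g` at ALL the cusps over `∞'` -/
theorem fbd_pi2_ord_inf (g : FF M') :
    (infPlaceBar (M' * q * q)).ord (ecPi2 M' q g)
      = (q : ℤ) * ((g : FF M') : LaurentSeries Kbar).order := by
  rw [infPlaceBar_ord, ← ecInf_apply, ecInf_pi2, inf_order_qExpand]

theorem fbd_pi2_ord_zero (g : FF M') :
    (fbmZero M' q hq hqM).ord (ecPi2 M' q g)
      = (q : ℤ) * ((g : FF M') : LaurentSeries Kbar).order := by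
  rw [fbmZero_ord, ecZero_pi2, inf_order_qExpand]

theorem fbd_pi2_ord_mid (ζ : Kbarˣ) (hζ : IsPrimitiveRoot (ζ : Kbar) q) (g : FF M') :
    (midPlace M' q hq hqM ζ hζ).ord (ecPi2 M' q g)
      = (q : ℤ) * ((g : FF M') : LaurentSeries Kbar).order := by
  rw [midPlace_ord, ecMid_pi2, inf_order_qExpand]

/-- `hexact` for `x = π₂ g`, `ord_∞' g = -n`: `n₂ = q n` -/
theorem fbmD1_hexact_pi2 (g : FF M') (n : ℕ)
    (hg : ((g : FF M') : LaurentSeries Kbar).order = -(n : ℤ)) :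
    ∀ v : Place Kbar (FF (M' * q * q)), fbmD1 M' q hq hqM ζ₀ hζ₀ v ≠ 0 →
      v.ord (ecPi2 M' q g) = -(((q * n : ℕ) : ℤ) * fbmD1 M' q hq hqM ζ₀ hζ₀ v) := by
  apply fbmD1_hexact
  · rw [fbd_pi2_ord_inf, hg]; push_cast; ring
  · rw [fbd_pi2_ord_zero, hg]; push_cast; ring
  · intro i
    rw [fbmMid, fbd_pi2_ord_mid, hg]; push_cast; ring

/-- `π₂ g ∈ L(q n D₁)` for `g` regular off `∞'` with a pole of order `≤ n` at `∞'` -/
theorem ecPi2_mem_L_fbmD1 {g : FF M'} {n : ℕ}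
    (hg : ∀ v' : Place Kbar (FF M'), v' ≠ infPlaceBar M' → 0 ≤ v'.ord g)
    (h : ClPole n (g : LaurentSeries Kbar)) :
    ecPi2 M' q g ∈ riemannRochSpace (K := Kbar) ((q * n) • fbmD1 M' q hq hqM ζ₀ hζ₀) := by
  rw [mem_L_fbmD1_iff]
  refine ⟨fun P h1 h2 h3 => fbm_reg_pi2 M' q hq hqM ζ₀ hζ₀ g hg P h1 h2 h3, ?_, ?_, fun i => ?_⟩
  · rw [ecInf_pi2]; exact eo_clPole_qExpand q h
  · rw [ecZero_pi2]; exact eo_clPole_qExpand q h
  · rw [ecMid_pi2]; exact eo_clPole_qExpand q h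

end D1

end Fermat.Agent.S36lib

end
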