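/-
Item 83 (S36), TUBE, bridge file (helper4): the abstract `hOV`/P6 statements
(`TubeOV.lean`, helper4; `TubeIntPS.lean`, helper6, both for `ι = tovIota φ`) in the concrete
shape of helper8/helper15 (`A₁ = ↥(vdiscRing A K1)`, `ι = tviIota A K1 = ofPowerSeries ∘ map subtype`,
uniformiser `vdiscPi hd`).

* `tovIota_eq_ofPowerSeries` : `tovIota φ = ofPowerSeries ∘ map (A.subtype ∘ φ)` (any `φ`);
* `tovPhi A K1 : K1 ∩ A → A`, `tovPhi_injective`, `tovIota_vdisc : tovIota (tovPhi A K1) = tviIota A K1`;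
* `tov_hφ_vdisc` : an element of `K1 ∩ A` has residue class `0` iff `vdiscPi hd` divides it;
* `tov_hOV_vdisc`, `tov_mem_tsV_vdisc` : (hOV) from `hfrac` + `hball`, for `ι = tviIota A K1`;
* `tovb_tube_int`, `tovb_tube_int_coeff` : P6 at one cusp (helper6's `s36_tube_int_ps`) for
  `ι = tviIota A K1`, with no hypothesis on `A₁` left (DVR, irreducibility: helper8).
-/
import Mathlib
import Fermat.Agent.S36lib.TubeOV
import Fermat.Agent.S36lib.TubeOVInf
import Fermat.Agent.S36lib.TubeIntPS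

set_option autoImplicit false
set_option linter.style.haveILetI false
set_option linter.unusedSectionVars false

noncomputable section

namespace Fermat.Agent.S36lib

open ModularCurve AlgebraicCurve
open Fermat.Agent.S24lib Fermat.Agent.S34lib Fermat.Agent.GoodRed

section Bridge

variable {A1 : Type*} [CommRing A1] [IsDomain A1]
variable {K : Type*} [Field K] {A : ValuationSubring K}

/-- `tovIota φ` is the coefficientwise map `A₁[[X]] → K((X))` -/
theorem tovIota_eq_ofPowerSeries (φ : A1 →+* A) (a : PowerSeries A1) :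
    tovIota (K := K) φ a
      = HahnSeries.ofPowerSeries ℤ K (PowerSeries.map (A.subtype.comp φ) a) := by
  ext n
  rw [tovIota_apply, coeffMap_coeff]
  rcases lt_or_ge n 0 with hn | hn
  · have h1 : (tovIncl φ a).coeff n = 0 := by
      show (HahnSeries.ofPowerSeries ℤ A (PowerSeries.map φ a)).coeff n = 0
      rw [HahnSeries.ofPowerSeries_apply]
      apply HahnSeries.embDomain_of_notMem_range
      rintro ⟨m, hm⟩
      have : (m : ℤ) = n := hm
      omega
    have h2 : (HahnSeries.ofPowerSeries ℤ K (PowerSeries.map (A.subtype.comp φ) a)).coeff n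
        = 0 := by
      rw [HahnSeries.ofPowerSeries_apply]
      apply HahnSeries.embDomain_of_notMem_range
      rintro ⟨m, hm⟩
      have : (m : ℤ) = n := hm
      omega
    rw [h1, h2, map_zero]
  · obtain ⟨m, rfl⟩ := Int.eq_ofNat_of_zero_le hn
    rw [tovIncl_coeff, HahnSeries.ofPowerSeries_apply_coeff, PowerSeries.coeff_map]
    rfl

end Bridge

section VDiscRing

variable {K : Type*} [Field K] (A : ValuationSubring K) (K1 : Subfield K)

/-- the inclusion `K1 ∩ A → A` -/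
def tovPhi : ↥(vdiscRing A K1) →+* ↥A where
  toFun x := ⟨(x : K), x.2.2⟩
  map_one' := rfl
  map_mul' _ _ := rfl
  map_zero' := rfl
  map_add' _ _ := rfl

theorem coe_tovPhi (x : vdiscRing A K1) : ((tovPhi A K1 x : A) : K) = (x : K) := rfl

theorem tovPhi_injective : Function.Injective (tovPhi A K1) := by
  intro x y h
  apply Subtype.ext
  exact congrArg (fun t : A => (t : K)) h

theorem tovPhi_comp : A.subtype.comp (tovPhi A K1) = (vdiscRing A K1).subtype := rfl

/-- `tovIota (tovPhi A K1)` is `tviIota A K1 = ofPowerSeries ∘ map subtype` -/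
theorem tovIota_vdisc (a : PowerSeries (vdiscRing A K1)) :
    tovIota (K := K) (tovPhi A K1) a = tviIota A K1 a := by
  rw [tovIota_eq_ofPowerSeries, tovPhi_comp, tviIota_apply]

theorem tovIota_vdisc_eq :
    (tovIota (K := K) (tovPhi A K1) : PowerSeries (vdiscRing A K1) →+* LaurentSeries K)
      = tviIota A K1 :=
  RingHom.ext (tovIota_vdisc A K1)

variable {A K1} {ϖ : K}

/-- an element of `K1 ∩ A` has residue class `0` iff it is divisible by `ϖ` in `K1 ∩ A` -/
theorem tov_hφ_vdisc (hd : VdDisc A K1 ϖ) (c : vdiscRing A K1) :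
    IsLocalRing.residue A (tovPhi A K1 c) = 0 ↔ vdiscPi hd ∣ c := by
  have hϖ0 : ϖ ≠ 0 := hd.2.1
  have hlt : A.valuation ϖ < 1 := hd.2.2.1
  have hv0 : A.valuation ϖ ≠ 0 := by rwa [Ne, map_eq_zero]
  rw [IsLocalRing.residue_eq_zero_iff, ValuationSubring.valuation_lt_one_iff]
  rw [coe_tovPhi]
  constructor
  · intro h
    rcases eq_or_ne (c : K) 0 with h0 | h0
    · have : c = 0 := Subtype.ext h0
      rw [this]
      exact dvd_zero _
    obtain ⟨n, hn⟩ := hd.exists_pow c.2.1 c.2.2 h0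
    have hn0 : n ≠ 0 := by
      rintro rfl
      rw [hn, pow_zero] at h
      exact lt_irrefl _ h
    obtain ⟨k, rfl⟩ : ∃ k, n = k + 1 := ⟨n - 1, by omega⟩
    have hdA : (c : K) * ϖ⁻¹ ∈ A := by
      rw [← A.valuation_le_one_iff, map_mul, map_inv₀, hn, pow_succ, mul_assoc,
        mul_inv_cancel₀ hv0, mul_one]
      exact pow_le_one₀ zero_le' (le_of_lt hlt)
    have hdK : (c : K) * ϖ⁻¹ ∈ K1 := K1.mul_mem c.2.1 (K1.inv_mem hd.1)
    refine ⟨⟨(c : K) * ϖ⁻¹, hdK, hdA⟩, ?_⟩
    apply Subtype.ext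
    show (c : K) = ϖ * ((c : K) * ϖ⁻¹)
    field_simp
  · rintro ⟨d, rfl⟩
    have e : (((vdiscPi hd * d : vdiscRing A K1)) : K) = ϖ * (d : K) := rfl
    rw [e, map_mul]
    have hdle : A.valuation (d : K) ≤ 1 := (A.valuation_le_one_iff _).mpr d.2.2
    calc A.valuation ϖ * A.valuation (d : K) ≤ A.valuation ϖ * 1 :=
          mul_le_mul' le_rfl hdle
      _ = A.valuation ϖ := mul_one _
      _ < 1 := hlt

/-- **(hOV)** for `A₁ = K1 ∩ A`, `ι = tviIota A K1`, from a fraction representation over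
`A₁[[X]]` and membership in the Gauss ball -/
theorem tov_hOV_vdisc (hd : VdDisc A K1 ϖ) (z : LaurentSeries K)
    (hfrac : ∃ a b : PowerSeries (vdiscRing A K1), b ≠ 0 ∧
      z * tviIota A K1 b = tviIota A K1 a)
    (hball : ∃ a₂ b₂ : LaurentSeries A, coeffMap (IsLocalRing.residue A) b₂ ≠ 0 ∧
      z * coeffMap A.subtype b₂ = coeffMap A.subtype a₂) :
    ∃ a b : PowerSeries (vdiscRing A K1), ¬ PowerSeries.C (vdiscPi hd) ∣ b ∧
      z * tviIota A K1 b = tviIota A K1 a := by
  haveI := vdiscRing_isDVR hd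
  have hfrac' : ∃ a b : PowerSeries (vdiscRing A K1), b ≠ 0 ∧
      z * tovIota (tovPhi A K1) b = tovIota (tovPhi A K1) a := by
    obtain ⟨a, b, hb, h⟩ := hfrac
    exact ⟨a, b, hb, by rw [tovIota_vdisc, tovIota_vdisc]; exact h⟩
  obtain ⟨a, b, hb, h⟩ := tov_hOV (tovPhi A K1) (tovPhi_injective A K1)
    (vdiscRing_irreducible hd) (tov_hφ_vdisc hd) z hfrac' hball
  exact ⟨a, b, hb, by rw [← tovIota_vdisc, ← tovIota_vdisc]; exact h⟩

/-- **(hOV)** in the form of `TubeSeries`, for `A₁ = K1 ∩ A`, `ι = tviIota A K1` -/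
theorem tov_mem_tsV_vdisc (hd : VdDisc A K1 ϖ)
    {Λ : Type*} [CommRing Λ] (π : vdiscRing A K1 →+* Λ) (hπ : IsNilpotent (π (vdiscPi hd)))
    (z : LaurentSeries K)
    (hfrac : ∃ a b : PowerSeries (vdiscRing A K1), b ≠ 0 ∧
      z * tviIota A K1 b = tviIota A K1 a)
    (hball : ∃ a₂ b₂ : LaurentSeries A, coeffMap (IsLocalRing.residue A) b₂ ≠ 0 ∧
      z * coeffMap A.subtype b₂ = coeffMap A.subtype a₂) :
    z ∈ tsV (tviIota A K1) (PowerSeries.map π) := by
  haveI := vdiscRing_isDVR hd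
  obtain ⟨a, b, hb, h⟩ := tov_hOV_vdisc hd z hfrac hball
  exact ⟨a, b, ts_isUnit_of_not_dvd π (vdiscPi hd) (vdiscRing_irreducible hd) hπ b hb, h⟩

/-- **P6 at one cusp** (helper6's `s36_tube_int_ps`) for `A₁ = K1 ∩ A`, `ι = tviIota A K1` -/
theorem tovb_tube_int (hd : VdDisc A K1 ϖ)
    {F K0 : Type*} [Field F] [Field K0] [Algebra K0 F] (E : F →+* LaurentSeries K)
    (hfrac : ∀ g : F, ∃ a b : PowerSeries (vdiscRing A K1), b ≠ 0 ∧
      E g * tviIota A K1 b = tviIota A K1 a)
    (hK : ∀ c : K0, ∃ (a : PowerSeries (vdiscRing A K1)) (n : ℕ),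
      E (algebraMap K0 F c) * tviIota A K1 (PowerSeries.C (vdiscPi hd) ^ n) = tviIota A K1 a)
    (h : F) (w : PowerSeries (vdiscRing A K1)) (hw : IsUnit w) (k : ℕ)
    (hEh : E h = tviIota A K1 (w * PowerSeries.X ^ k))
    (z : F) (n : ℕ) (hreg : ∀ P : Place K0 F, P.ord h = 0 → 0 ≤ P.ord z)
    (hball : ∃ a₂ b₂ : LaurentSeries A, coeffMap (IsLocalRing.residue A) b₂ ≠ 0 ∧
      E z * coeffMap A.subtype b₂ = coeffMap A.subtype a₂)
    (hpole : ClPole n (E z)) :
    ∃ Z : PowerSeries (vdiscRing A K1), E z * tviIota A K1 (PowerSeries.X ^ n)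
      = tviIota A K1 Z := by
  haveI := vdiscRing_isDVR hd
  have key := s36_tube_int_ps (tovPhi A K1) (tovPhi_injective A K1)
    (vdiscRing_irreducible hd) (tov_hφ_vdisc hd) (K0 := K0) E
    (by simpa only [tovIota_vdisc] using hfrac)
    (by simpa only [tovIota_vdisc] using hK)
    h w hw k (by simpa only [tovIota_vdisc] using hEh) z n hreg hball hpole
  simpa only [tovIota_vdisc] using key

/-- **P6 at one cusp, coefficients**: all coefficients of `E z` lie in `K1 ∩ A` -/
theorem tovb_tube_int_coeff (hd : VdDisc A K1 ϖ)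
    {F K0 : Type*} [Field F] [Field K0] [Algebra K0 F] (E : F →+* LaurentSeries K)
    (hfrac : ∀ g : F, ∃ a b : PowerSeries (vdiscRing A K1), b ≠ 0 ∧
      E g * tviIota A K1 b = tviIota A K1 a)
    (hK : ∀ c : K0, ∃ (a : PowerSeries (vdiscRing A K1)) (n : ℕ),
      E (algebraMap K0 F c) * tviIota A K1 (PowerSeries.C (vdiscPi hd) ^ n) = tviIota A K1 a)
    (h : F) (w : PowerSeries (vdiscRing A K1)) (hw : IsUnit w) (k : ℕ)
    (hEh : E h = tviIota A K1 (w * PowerSeries.X ^ k))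
    (z : F) (n : ℕ) (hreg : ∀ P : Place K0 F, P.ord h = 0 → 0 ≤ P.ord z)
    (hball : ∃ a₂ b₂ : LaurentSeries A, coeffMap (IsLocalRing.residue A) b₂ ≠ 0 ∧
      E z * coeffMap A.subtype b₂ = coeffMap A.subtype a₂)
    (hpole : ClPole n (E z)) (i : ℤ) :
    (E z).coeff i ∈ vdiscRing A K1 := by
  haveI := vdiscRing_isDVR hd
  obtain ⟨c, hc⟩ := s36_tube_int_coeff (tovPhi A K1) (tovPhi_injective A K1)
    (vdiscRing_irreducible hd) (tov_hφ_vdisc hd) (K0 := K0) E
    (by simpa only [tovIota_vdisc] using hfrac)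
    (by simpa only [tovIota_vdisc] using hK)
    h w hw k (by simpa only [tovIota_vdisc] using hEh) z n hreg hball hpole i
  rw [hc, coe_tovPhi]
  exact c.2

end VDiscRing

end Fermat.Agent.S36lib

end
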