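/-
Item 83 (S36), piece P6, CONCRETE form (helper6): integrality of the expansions at the three
cusps `∞`, `mid`, `0` of level `M' q²` of the functions of `F0(M' q²) ∩ L(c D₁)` lying in the
Gauss balls.

* `tbicW A K1` : the unit power series `w₀` over `A₁ = K1 ∩ A` with `1 / j = w₀ · X`;
* `tbic_coe_jFinv` : the expansion at `∞` of `1 / j` is `tviIota (w₀ · X)`;
* `tbic_hreg_pi1`, `tbic_hreg_pi3` : a function of `L(c D₁)` is regular where
  `π₁ (1/j)` (resp. `π₃ (1/j)`) has order `0`;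
* `tbic_hreg_K0` : the same at the places of `F0 / K0` (helper27's `pd_exists_place_FF`);
* `tbic_int_inf`, `tbic_int_mid`, `tbic_int_zero` : `∃ Z, E z · ι (X ^ c) = ι Z` at each cusp;
* `tbic_coeff_inf`, `tbic_coeff_mid`, `tbic_coeff_zero` : all coefficients lie in `A₁`;
* `tbic_mem_elqRing` : membership in `elqRing` (= `hint` of `f3c_hf3`).
-/
import Mathlib
import Fermat.Agent.S36lib.TubeOVBridge
import Fermat.Agent.S36lib.TubeA1Bridge
import Fermat.Agent.S36lib.PlaceDictFF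
import Fermat.Agent.S36lib.FibreD1
import Fermat.Agent.S36lib.ElqInst

set_option autoImplicit false
set_option linter.style.haveILetI false
set_option linter.unusedSectionVars false
set_option synthInstance.maxHeartbeats 400000

noncomputable section

namespace Fermat.Agent.S36lib

open ModularCurve AlgebraicCurve
open Fermat.Agent.S24lib Fermat.Agent.S34lib Fermat.Agent.GoodRed

/-! ### The unit series of `1 / j` -/

section UnitSeries

variable {K : Type*} [Field K] (A : ValuationSubring K) (K1 : Subfield K)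

/-- the unit power series `w₀` over `K1 ∩ A` with `1 / j = w₀ · X` -/
def tbicW : PowerSeries (vdiscRing A K1) :=
  PowerSeries.invOfUnit (jNum.map (Int.castRingHom (vdiscRing A K1))) 1

theorem tbic_constantCoeff_jNum :
    PowerSeries.constantCoeff (jNum.map (Int.castRingHom (vdiscRing A K1)))
      = ((1 : (vdiscRing A K1)ˣ) : vdiscRing A K1) := by
  rw [← PowerSeries.coeff_zero_eq_constantCoeff, PowerSeries.coeff_map,
    PowerSeries.coeff_zero_eq_constantCoeff, constantCoeff_jNum]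
  simp

theorem tbicW_mul :
    jNum.map (Int.castRingHom (vdiscRing A K1)) * tbicW A K1 = 1 :=
  PowerSeries.mul_invOfUnit _ 1 (tbic_constantCoeff_jNum A K1)

theorem tbicW_isUnit : IsUnit (tbicW A K1) :=
  IsUnit.of_mul_eq_one _ (by rw [mul_comm]; exact tbicW_mul A K1)

theorem tbic_iota_jNum :
    tviIota A K1 (jNum.map (Int.castRingHom (vdiscRing A K1)))
      = HahnSeries.ofPowerSeries ℤ K (jNum.map (Int.castRingHom K)) := by
  rw [tviIota_apply]
  congr 1

/-- `j · (w₀ · X) = 1` -/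
theorem tbic_jq_mul :
    jqModC K * tviIota A K1 (tbicW A K1 * PowerSeries.X) = 1 := by
  have h1 : tviIota A K1 (jNum.map (Int.castRingHom (vdiscRing A K1)))
      * tviIota A K1 (tbicW A K1) = 1 := by
    rw [← map_mul, tbicW_mul, map_one]
  have h3 : (HahnSeries.single (-1 : ℤ) (1 : K)) * HahnSeries.single (1 : ℤ) 1 = 1 := by
    rw [HahnSeries.single_mul_single]
    simp
  rw [tbic_iota_jNum] at h1
  rw [map_mul, tviIota_X, jqModC]
  calc HahnSeries.single (-1 : ℤ) (1 : K)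
        * HahnSeries.ofPowerSeries ℤ K (jNum.map (Int.castRingHom K))
        * (tviIota A K1 (tbicW A K1) * HahnSeries.single (1 : ℤ) (1 : K))
      = (HahnSeries.single (-1 : ℤ) (1 : K) * HahnSeries.single (1 : ℤ) 1)
        * (HahnSeries.ofPowerSeries ℤ K (jNum.map (Int.castRingHom K))
          * tviIota A K1 (tbicW A K1)) := by ring
    _ = 1 := by rw [h1, h3, one_mul]

/-- `1 / j = w₀ · X` -/
theorem tbic_jq_inv :
    (jqModC K)⁻¹ = tviIota A K1 (tbicW A K1 * PowerSeries.X) :=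
  (eq_inv_of_mul_eq_one_right (tbic_jq_mul A K1)).symm

end UnitSeries

/-! ### `1 / j` in the function fields -/

section JInv

variable (A : ValuationSubring Kbar) (K1 : Subfield Kbar)

omit A in
theorem tbic_coe_jF (N : ℕ) [NeZero N] :
    ((jF N : FF N) : LaurentSeries Kbar) = jqModC Kbar := by
  rw [coe_jF, ← jqModC_rat]
  exact coeffMap_jqModC (algebraMap ℚ Kbar)

/-- the expansion at `∞` of `1 / j` is `w₀ · X` -/
theorem tbic_coe_jFinv (N : ℕ) [NeZero N] :
    (((jF N)⁻¹ : FF N) : LaurentSeries Kbar)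
      = tviIota A K1 (tbicW A K1 * PowerSeries.X) := by
  rw [← tbic_jq_inv, ← tbic_coe_jF N]
  rfl

theorem tbic_jF_mem (N : ℕ) [NeZero N] : jF N ∈ f0Field A N := by
  have h := jdF_mem_f0Field A N 1 (one_dvd N)
  have e : jdF N 1 (one_dvd N) = jF N := by
    apply Subtype.ext
    rw [coe_jdF, coe_jF, qExpand_one_apply]
  rwa [e] at h

theorem tbic_jFinv_mem (N : ℕ) [NeZero N] : (jF N)⁻¹ ∈ f0Field A N :=
  (f0Field A N).inv_mem (tbic_jF_mem A N)

theorem tbic_order_jFinv (N : ℕ) [NeZero N] :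
    (((jF N)⁻¹ : FF N) : LaurentSeries Kbar).order = 1 := by
  rw [← infPlaceBar_ord, Place.ord_inv, infPlaceBar_ord_jF]
  norm_num

end JInv

/-! ### Regularity off the zeros of `π₁ (1/j)`, `π₃ (1/j)` -/

section Reg

variable (M' q : ℕ) [NeZero M'] [NeZero q] (hq : q.Prime) (hqM : ¬ q ∣ M')
  (ζ₀ : Kbarˣ) (hζ₀ : IsPrimitiveRoot (ζ₀ : Kbar) q)

theorem tbic_q_ne : (q : ℤ) * ((q : ℤ) * 1) ≠ 0 := by
  have h : (q : ℤ) ≠ 0 := by exact_mod_cast NeZero.ne q
  rw [mul_one]
  exact mul_ne_zero h h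

/-- the orders of `π₁ (1/j)` at the places of `D₁` are nonzero -/
theorem tbic_ord_pi1_ne (P : Place Kbar (FF (M' * q * q)))
    (hP : fbmD1 M' q hq hqM ζ₀ hζ₀ P ≠ 0) :
    P.ord (ecPi1 M' q (jF M')⁻¹) ≠ 0 := by
  rcases fbmD1_cases M' q hq hqM ζ₀ hζ₀ P with h | h | ⟨i, h⟩ | ⟨h1, h2, h3⟩
  · rw [h, infPlaceBar_ord, ← ecInf_apply, ecInf_pi1, tbic_order_jFinv]
    norm_num
  · rw [h, fbmZero_ord, ecZero_pi1, inf_order_qExpand, inf_order_qExpand, tbic_order_jFinv]
    exact tbic_q_ne q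
  · rw [h, fbmMid_ord, ecMid_pi1, tbic_order_jFinv]
    norm_num
  · exact absurd (fbmD1_off M' q hq hqM ζ₀ hζ₀ P h1 h2 h3) hP

/-- the orders of `π₃ (1/j)` at the places of `D₁` are nonzero -/
theorem tbic_ord_pi3_ne (P : Place Kbar (FF (M' * q * q)))
    (hP : fbmD1 M' q hq hqM ζ₀ hζ₀ P ≠ 0) :
    P.ord (ecPi3 M' q (jF M')⁻¹) ≠ 0 := by
  rcases fbmD1_cases M' q hq hqM ζ₀ hζ₀ P with h | h | ⟨i, h⟩ | ⟨h1, h2, h3⟩
  · rw [h, infPlaceBar_ord, ← ecInf_apply, ecInf_pi3, inf_order_qExpand, inf_order_qExpand,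
      tbic_order_jFinv]
    exact tbic_q_ne q
  · rw [h, fbmZero_ord, ecZero_pi3, tbic_order_jFinv]
    norm_num
  · rw [h, fbmMid_ord, ecMid_pi3, fbm_order_twq, tbic_order_jFinv]
    norm_num
  · exact absurd (fbmD1_off M' q hq hqM ζ₀ hζ₀ P h1 h2 h3) hP

/-- a function of `L(c D₁)` is regular at every place where `h` has order `0`, as soon as `h`
has nonzero order along `D₁` -/
theorem tbic_hreg_of_ne (h : FF (M' * q * q))
    (hh : ∀ P : Place Kbar (FF (M' * q * q)), fbmD1 M' q hq hqM ζ₀ hζ₀ P ≠ 0 → P.ord h ≠ 0)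
    {c : ℕ} {z : FF (M' * q * q)}
    (hz : z ∈ riemannRochSpace (K := Kbar) (c • fbmD1 M' q hq hqM ζ₀ hζ₀))
    (P : Place Kbar (FF (M' * q * q))) (hP : P.ord h = 0) : 0 ≤ P.ord z := by
  have h0 : fbmD1 M' q hq hqM ζ₀ hζ₀ P = 0 := by
    by_contra hne
    exact hh P hne hP
  have := mem_riemannRochSpace_iff.mp hz P
  rw [fbmD1_nsmul_apply, h0, mul_zero, neg_zero] at this
  rcases this with rfl | h'
  · rw [Place.ord_zero]
  · exact h'

theorem tbic_hreg_pi1 {c : ℕ} {z : FF (M' * q * q)}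
    (hz : z ∈ riemannRochSpace (K := Kbar) (c • fbmD1 M' q hq hqM ζ₀ hζ₀))
    (P : Place Kbar (FF (M' * q * q))) (hP : P.ord (ecPi1 M' q (jF M')⁻¹) = 0) :
    0 ≤ P.ord z :=
  tbic_hreg_of_ne M' q hq hqM ζ₀ hζ₀ _ (tbic_ord_pi1_ne M' q hq hqM ζ₀ hζ₀) hz P hP

theorem tbic_hreg_pi3 {c : ℕ} {z : FF (M' * q * q)}
    (hz : z ∈ riemannRochSpace (K := Kbar) (c • fbmD1 M' q hq hqM ζ₀ hζ₀))
    (P : Place Kbar (FF (M' * q * q))) (hP : P.ord (ecPi3 M' q (jF M')⁻¹) = 0) :
    0 ≤ P.ord z :=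
  tbic_hreg_of_ne M' q hq hqM ζ₀ hζ₀ _ (tbic_ord_pi3_ne M' q hq hqM ζ₀ hζ₀) hz P hP

end Reg

/-! ### Descent of the regularity to the places of `F0 / K0` -/

section RegK0

variable (A : ValuationSubring Kbar) (L : ℕ) [NeZero L]

/-- regularity at the places of `F0(L) / K0` from regularity at the places of `FF L / ℚ̄` -/
theorem tbic_hreg_K0 (h z : f0Field A L)
    (hreg : ∀ P : Place Kbar (FF L), P.ord (h : FF L) = 0 → 0 ≤ P.ord (z : FF L))
    (P0 : Place (k0Field A) (f0Field A L)) (hP0 : P0.ord h = 0) : 0 ≤ P0.ord z := by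
  obtain ⟨P, hP⟩ := pd_exists_place_FF A L P0
  rw [← hP z]
  exact hreg P (by rw [hP h]; exact hP0)

/-- divisibility of the orders at the places of `F0(L) / K0` from the places of `FF L / ℚ̄` -/
theorem tbic_hdvd_K0 (m : ℤ) (u : f0Field A L)
    (hdvd : ∀ P : Place Kbar (FF L), m ∣ P.ord (u : FF L))
    (P0 : Place (k0Field A) (f0Field A L)) : m ∣ P0.ord u := by
  obtain ⟨P, hP⟩ := pd_exists_place_FF A L P0
  rw [← hP u]
  exact hdvd P

end RegK0

/-! ### P6 at one cusp, from a primitive fraction representation -/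

section OneCusp

variable {K : Type*} [Field K] {A : ValuationSubring K} {K1 : Subfield K} {ϖ : K}

/-- a denominator of `tsV` is not divisible by `ϖ` -/
theorem tbic_not_dvd_of_tsDen {A1 Λ : Type*} [CommRing A1] [CommRing Λ] [Nontrivial Λ]
    (π : A1 →+* Λ) (ϖ₁ : A1) (hπ : IsNilpotent (π ϖ₁)) (b : PowerSeries A1)
    (hb : b ∈ tsDen (PowerSeries.map π)) : ¬ PowerSeries.C ϖ₁ ∣ b := by
  rintro ⟨b', rfl⟩
  rw [mem_tsDen, map_mul, map_mul, PowerSeries.map_C] at hb
  have h1 : IsUnit (HahnSeries.ofPowerSeries ℤ Λ (PowerSeries.C (π ϖ₁))) :=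
    isUnit_of_mul_isUnit_left hb
  have h2 : IsNilpotent (HahnSeries.ofPowerSeries ℤ Λ (PowerSeries.C (π ϖ₁))) :=
    (hπ.map (PowerSeries.C (R := Λ))).map (HahnSeries.ofPowerSeries ℤ Λ)
  obtain ⟨n, hn⟩ := h2
  have h3 : IsUnit ((HahnSeries.ofPowerSeries ℤ Λ (PowerSeries.C (π ϖ₁))) ^ n) := h1.pow n
  rw [hn] at h3
  exact not_isUnit_zero h3

/-- **P6 at one cusp** for `ι = tviIota A K1`, from a fraction representation with denominator
prime to `ϖ` (the output of `hOV`) -/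
theorem tbic_tube_int (hd : VdDisc A K1 ϖ)
    {F K0 : Type*} [Field F] [Field K0] [Algebra K0 F] (E : F →+* LaurentSeries K)
    (hfrac : ∀ g : F, ∃ a b : PowerSeries (vdiscRing A K1), b ≠ 0 ∧
      E g * tviIota A K1 b = tviIota A K1 a)
    (hK : ∀ c : K0, ∃ (a : PowerSeries (vdiscRing A K1)) (n : ℕ),
      E (algebraMap K0 F c) * tviIota A K1 (PowerSeries.C (vdiscPi hd) ^ n) = tviIota A K1 a)
    (h : F) (w : PowerSeries (vdiscRing A K1)) (hw : IsUnit w) (k : ℕ)
    (hEh : E h = tviIota A K1 (w * PowerSeries.X ^ k))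
    (z : F) (n : ℕ) (hreg : ∀ P : Place K0 F, P.ord h = 0 → 0 ≤ P.ord z)
    (hzϖ : ∃ a b : PowerSeries (vdiscRing A K1), ¬ PowerSeries.C (vdiscPi hd) ∣ b ∧
      E z * tviIota A K1 b = tviIota A K1 a)
    (hpole : ClPole n (E z)) :
    ∃ Z : PowerSeries (vdiscRing A K1), E z * tviIota A K1 (PowerSeries.X ^ n)
      = tviIota A K1 Z := by
  haveI := vdiscRing_isDVR hd
  have hpϖ : Prime (PowerSeries.C (vdiscPi hd) : PowerSeries (vdiscRing A K1)) :=
    UniqueFactorizationMonoid.irreducible_iff_prime.mp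
      (tb_irreducible_C (vdiscRing_irreducible hd))
  have key := s36_tube_int (K := K0) (tovIota (K := K) (tovPhi A K1))
    (tovIota_injective _ (tovPhi_injective A K1)) E
    (by simpa only [tovIota_vdisc] using hfrac)
    (PowerSeries.C (vdiscPi hd)) PowerSeries.X hpϖ PowerSeries.X_prime
    (by simpa only [tovIota_vdisc] using hK)
    h w hw k (by simpa only [tovIota_vdisc] using hEh) z n hreg
    (by simpa only [tovIota_vdisc] using hzϖ)
    (tbi_hzT (tovPhi A K1) (tovPhi_injective A K1) (E z) n hpole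
      (by simpa only [tovIota_vdisc] using hfrac z))
  simpa only [tovIota_vdisc] using key

/-- the coefficients of an integral expansion -/
theorem tbic_coeff_of_int {s : LaurentSeries K} {n : ℕ}
    (hZ : ∃ Z : PowerSeries (vdiscRing A K1), s * tviIota A K1 (PowerSeries.X ^ n)
      = tviIota A K1 Z) (i : ℤ) : s.coeff i ∈ vdiscRing A K1 := by
  obtain ⟨Z, hZ⟩ := hZ
  rw [map_pow, tviIota_X, HahnSeries.single_pow, one_pow, nsmul_eq_mul, mul_one] at hZ
  have h1 : s.coeff i = (tviIota A K1 Z).coeff (i + n) := by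
    rw [← hZ, HahnSeries.coeff_mul_single_add, mul_one]
  rw [h1]
  exact tvi_vdInt_iota A K1 Z (i + n)

end OneCusp

end Fermat.Agent.S36lib

end
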