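/-
Item 83 (S36), piece F2 = P6 in the FINAL family form (helper6): **`hint`** of helper12's
`TubeWire.lean` and of helper17's `F3Conc.lean` for THE concrete family `cfm*` of helper16
(`CruxFam.lean`) at the three cusps `∞`, `mid_ζ`, `0` of level `M' q²`.

* `cfiH i` : the function `h_i ∈ F0(M' q²)` (`π₁ (1/j)` at `∞`, `mid`; `π₃ (1/j)` at `0`) whose
  expansion at the cusp `i` is `1 / j(X) = w₀ · X`;
* `cfi_hEh`, `cfi_hreg`, `cfi_hpole` : the inputs of `s36_tube_int`;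
* `cfi_int_of_rep`, `cfi_int_of_tsV`, `cfi_int_of_ball` : P6 at the cusp `i`;
* `cfi_hint` : `hint` of `tbw_hle` / `tbw_hPE` / `tbw_hPE_a2` from `hOV`;
* `cfi_coeff_mem`, `cfi_mem_elqRing`, `cfi_hint_elq` : `hint` of `f3c_hf3`.
-/
import Mathlib
import Fermat.Agent.S36lib.CruxFam
import Fermat.Agent.S36lib.CruxFamPi
import Fermat.Agent.S36lib.TubeIntConc

set_option autoImplicit false
set_option linter.style.haveILetI false
set_option linter.unusedSectionVars false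
set_option synthInstance.maxHeartbeats 400000

noncomputable section

namespace Fermat.Agent.S36lib

open ModularCurve AlgebraicCurve
open Fermat.Agent.S24lib Fermat.Agent.S34lib Fermat.Agent.GoodRed

variable (A : ValuationSubring Kbar) (M' q : ℕ) [NeZero M'] [NeZero q] (hq : q.Prime)
  (hqM : ¬ q ∣ M') (ζ : Kbarˣ) (hζ : IsPrimitiveRoot (ζ : Kbar) q)

/-- the function `h_i` with `E_i h_i = 1 / j (X)` -/
def cfiH : CfmCusp → f0Field A (M' * q * q)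
  | .inf => ⟨ecPi1 M' q (jF M')⁻¹, ecPi1_mem_f0Field A (tbic_jFinv_mem A M')⟩
  | .mid => ⟨ecPi1 M' q (jF M')⁻¹, ecPi1_mem_f0Field A (tbic_jFinv_mem A M')⟩
  | .zero => ⟨ecPi3 M' q (jF M')⁻¹, ecPi3_mem_f0Field A (tbic_jFinv_mem A M')⟩

theorem cfiH_inf : ((cfiH A M' q .inf : f0Field A (M' * q * q)) : FF (M' * q * q))
    = ecPi1 M' q (jF M')⁻¹ := rfl

theorem cfiH_mid : ((cfiH A M' q .mid : f0Field A (M' * q * q)) : FF (M' * q * q))
    = ecPi1 M' q (jF M')⁻¹ := rfl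

theorem cfiH_zero : ((cfiH A M' q .zero : f0Field A (M' * q * q)) : FF (M' * q * q))
    = ecPi3 M' q (jF M')⁻¹ := rfl

theorem cfmEc_inf : cfmEc M' q hq hqM ζ hζ .inf = ecInf M' q := rfl

theorem cfmEc_mid : cfmEc M' q hq hqM ζ hζ .mid = ecMid M' q hq hqM ζ hζ := rfl

theorem cfmEc_zero : cfmEc M' q hq hqM ζ hζ .zero = ecZero M' q hq hqM := rfl

theorem cfmInc_eq (i : CfmCusp) : cfmInc A ζ i = tviIota A (cfmK1 A ζ i) := rfl

/-- **`hEh`**: the expansion of `h_i` at the cusp `i` is `w₀ · X` -/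
theorem cfi_hEh (i : CfmCusp) :
    cfmEx A M' q hq hqM ζ hζ i (cfiH A M' q i)
      = cfmInc A ζ i (tbicW A (cfmK1 A ζ i) * PowerSeries.X ^ 1) := by
  rw [pow_one, cfmEx_apply, cfmInc_eq, ← tbic_coe_jFinv A (cfmK1 A ζ i) M']
  cases i
  · rw [cfmEc_inf, cfiH_inf, ecInf_pi1]
  · rw [cfmEc_mid, cfiH_mid, ecMid_pi1]
  · rw [cfmEc_zero, cfiH_zero, ecZero_pi3]

variable (ζ₀ : Kbarˣ) (hζ₀ : IsPrimitiveRoot (ζ₀ : Kbar) q)

/-- **`hreg`**: the functions of `L(c D₁)` are regular where `h_i` has order `0` -/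
theorem cfi_hreg (i : CfmCusp) {c : ℕ} {z : f0Field A (M' * q * q)}
    (hz : (z : FF (M' * q * q)) ∈
      riemannRochSpace (K := Kbar) (c • fbmD1 M' q hq hqM ζ₀ hζ₀))
    (P0 : Place (k0Field A) (f0Field A (M' * q * q))) (hP0 : P0.ord (cfiH A M' q i) = 0) :
    0 ≤ P0.ord z := by
  refine tbic_hreg_K0 A (M' * q * q) (cfiH A M' q i) z ?_ P0 hP0
  cases i
  · exact tbic_hreg_pi1 M' q hq hqM ζ₀ hζ₀ hz
  · exact tbic_hreg_pi1 M' q hq hqM ζ₀ hζ₀ hz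
  · exact tbic_hreg_pi3 M' q hq hqM ζ₀ hζ₀ hz

/-- **`hpole`**: the pole orders at the three cusps -/
theorem cfi_hpole (i : CfmCusp) {c : ℕ} {z : f0Field A (M' * q * q)}
    (hz : (z : FF (M' * q * q)) ∈
      riemannRochSpace (K := Kbar) (c • fbmD1 M' q hq hqM ζ₀ hζ₀)) :
    ClPole c (cfmEx A M' q hq hqM ζ hζ i z) := by
  cases i
  · exact clPole_inf_of_mem_L_fbmD1 M' q hq hqM ζ₀ hζ₀ hz
  · exact clPole_mid_of_mem_L_fbmD1 M' q hq hqM ζ₀ hζ₀ hz ζ hζ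
  · exact clPole_zero_of_mem_L_fbmD1 M' q hq hqM ζ₀ hζ₀ hz

/-! ### P6 at the cusp `i` -/

section Int

variable (hA : A.LiesOverPrime q)

theorem cfmVarpi_inf : cfmVarpi A q hq ζ hζ hA .inf = vdiscPi (vdisc_k0 A q hq hA) := rfl

theorem cfmVarpi_mid : cfmVarpi A q hq ζ hζ hA .mid = vdiscPi (vdisc_k0_zeta A hq hA hζ) := rfl

theorem cfmVarpi_zero : cfmVarpi A q hq ζ hζ hA .zero = vdiscPi (vdisc_k0 A q hq hA) := rfl

/-- **P6 at the cusp `i`**, from a fraction representation with denominator prime to `ϖ_i` -/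
theorem cfi_int_of_rep (i : CfmCusp) {c : ℕ} (z : f0Field A (M' * q * q))
    (hz : (z : FF (M' * q * q)) ∈
      riemannRochSpace (K := Kbar) (c • fbmD1 M' q hq hqM ζ₀ hζ₀))
    (hzϖ : ∃ a b : PowerSeries (cfmA1 A ζ i),
      ¬ PowerSeries.C (cfmVarpi A q hq ζ hζ hA i) ∣ b ∧
        cfmEx A M' q hq hqM ζ hζ i z * cfmInc A ζ i b = cfmInc A ζ i a) :
    ∃ Z : PowerSeries (cfmA1 A ζ i),
      cfmEx A M' q hq hqM ζ hζ i z * cfmInc A ζ i (PowerSeries.X ^ c) = cfmInc A ζ i Z := by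
  have hfrac := cfm_hfrac A M' q hq hqM ζ hζ i
  have hK := cfm_hK A M' q hq hqM ζ hζ hA i
  have hEh := cfi_hEh A M' q hq hqM ζ hζ i
  have hreg := cfi_hreg A M' q hq hqM ζ₀ hζ₀ i hz
  have hpole := cfi_hpole A M' q hq hqM ζ hζ ζ₀ hζ₀ i hz
  have hw := tbicW_isUnit A (cfmK1 A ζ i)
  simp only [cfmInc_eq] at hfrac hK hEh hzϖ ⊢
  cases i
  · rw [cfmVarpi_inf] at hK hzϖ
    exact tbic_tube_int (vdisc_k0 A q hq hA) (K0 := k0Field A) _ hfrac hK _ _ hw 1 hEh z c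
      hreg hzϖ hpole
  · rw [cfmVarpi_mid] at hK hzϖ
    exact tbic_tube_int (vdisc_k0_zeta A hq hA hζ) (K0 := k0Field A) _ hfrac hK _ _ hw 1 hEh
      z c hreg hzϖ hpole
  · rw [cfmVarpi_zero] at hK hzϖ
    exact tbic_tube_int (vdisc_k0 A q hq hA) (K0 := k0Field A) _ hfrac hK _ _ hw 1 hEh z c
      hreg hzϖ hpole

include hA in
/-- **P6 at the cusp `i`**, from `hOV` (membership in `tsV`) -/
theorem cfi_int_of_tsV (i : CfmCusp) {c : ℕ} (z : f0Field A (M' * q * q))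
    (hz : (z : FF (M' * q * q)) ∈
      riemannRochSpace (K := Kbar) (c • fbmD1 M' q hq hqM ζ₀ hζ₀))
    (hOV : cfmEx A M' q hq hqM ζ hζ i z
      ∈ tsV (cfmInc A ζ i) (PowerSeries.map (cfmPi A q ζ i))) :
    ∃ Z : PowerSeries (cfmA1 A ζ i),
      cfmEx A M' q hq hqM ζ hζ i z * cfmInc A ζ i (PowerSeries.X ^ c) = cfmInc A ζ i Z := by
  haveI := cfp_nontrivial A q ζ hA i
  obtain ⟨a, b, hb, hab⟩ := hOV
  exact cfi_int_of_rep A M' q hq hqM ζ hζ ζ₀ hζ₀ hA i z hz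
    ⟨a, b, tbic_not_dvd_of_tsDen (cfmPi A q ζ i) _ (cfp_hπ A q hq ζ hζ hA i) b hb, hab⟩

include hA in
/-- **P6 at the cusp `i`**, from membership in the Gauss ball (`hball` of helper4) -/
theorem cfi_int_of_ball (i : CfmCusp) {c : ℕ} (z : f0Field A (M' * q * q))
    (hz : (z : FF (M' * q * q)) ∈
      riemannRochSpace (K := Kbar) (c • fbmD1 M' q hq hqM ζ₀ hζ₀))
    (hball : ∃ a₂ b₂ : LaurentSeries A, coeffMap (IsLocalRing.residue A) b₂ ≠ 0 ∧
      cfmEx A M' q hq hqM ζ hζ i z * coeffMap A.subtype b₂ = coeffMap A.subtype a₂) :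
    ∃ Z : PowerSeries (cfmA1 A ζ i),
      cfmEx A M' q hq hqM ζ hζ i z * cfmInc A ζ i (PowerSeries.X ^ c) = cfmInc A ζ i Z := by
  refine cfi_int_of_rep A M' q hq hqM ζ hζ ζ₀ hζ₀ hA i z hz ?_
  have hfrac := cfm_hfrac A M' q hq hqM ζ hζ i z
  simp only [cfmInc_eq] at hfrac ⊢
  cases i
  · rw [cfmVarpi_inf]
    exact tov_hOV_vdisc (vdisc_k0 A q hq hA) _ hfrac hball
  · rw [cfmVarpi_mid]
    exact tov_hOV_vdisc (vdisc_k0_zeta A hq hA hζ) _ hfrac hball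
  · rw [cfmVarpi_zero]
    exact tov_hOV_vdisc (vdisc_k0 A q hq hA) _ hfrac hball

include hA in
/-- **`hint`** of `tbw_hle` / `tbw_hPE` / `tbw_hPE_a2` (helper12, `TubeWire.lean`) for THE family
`cfm*`, from `hOV` -/
theorem cfi_hint (O : Subring (f0Field A (M' * q * q)))
    (hOV : ∀ i, ∀ x : f0Field A (M' * q * q), x ∈ O →
      cfmEx A M' q hq hqM ζ hζ i x ∈ tsV (cfmInc A ζ i) (PowerSeries.map (cfmPi A q ζ i)))
    (w : CfmCusp → ℕ) (hw : ∀ i, w i = 1) :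
    ∀ (c : ℕ) (z : O), (((z : f0Field A (M' * q * q)) : FF (M' * q * q))) ∈
        riemannRochSpace (K := Kbar) (c • fbmD1 M' q hq hqM ζ₀ hζ₀) →
      ∀ i, ∃ Z : PowerSeries (cfmA1 A ζ i),
        cfmEx A M' q hq hqM ζ hζ i z * cfmInc A ζ i (PowerSeries.X ^ (c * w i))
          = cfmInc A ζ i Z := by
  intro c z hz i
  rw [hw i, mul_one]
  exact cfi_int_of_tsV A M' q hq hqM ζ hζ ζ₀ hζ₀ hA i z hz (hOV i z z.2)

include hA in
/-- the same from `hball` -/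
theorem cfi_hint_of_ball (O : Subring (f0Field A (M' * q * q)))
    (hball : ∀ i, ∀ x : f0Field A (M' * q * q), x ∈ O →
      ∃ a₂ b₂ : LaurentSeries A, coeffMap (IsLocalRing.residue A) b₂ ≠ 0 ∧
        cfmEx A M' q hq hqM ζ hζ i x * coeffMap A.subtype b₂ = coeffMap A.subtype a₂)
    (w : CfmCusp → ℕ) (hw : ∀ i, w i = 1) :
    ∀ (c : ℕ) (z : O), (((z : f0Field A (M' * q * q)) : FF (M' * q * q))) ∈
        riemannRochSpace (K := Kbar) (c • fbmD1 M' q hq hqM ζ₀ hζ₀) →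
      ∀ i, ∃ Z : PowerSeries (cfmA1 A ζ i),
        cfmEx A M' q hq hqM ζ hζ i z * cfmInc A ζ i (PowerSeries.X ^ (c * w i))
          = cfmInc A ζ i Z := by
  intro c z hz i
  rw [hw i, mul_one]
  exact cfi_int_of_ball A M' q hq hqM ζ hζ ζ₀ hζ₀ hA i z hz (hball i z z.2)

/-! ### Membership in `elqRing` -/

/-- the coefficients of an integral expansion lie in `A ∩ cfmK1 i` -/
theorem cfi_coeff_mem (i : CfmCusp) {c : ℕ} (z : f0Field A (M' * q * q))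
    (hZ : ∃ Z : PowerSeries (cfmA1 A ζ i),
      cfmEx A M' q hq hqM ζ hζ i z * cfmInc A ζ i (PowerSeries.X ^ c) = cfmInc A ζ i Z)
    (n : ℤ) : (cfmEx A M' q hq hqM ζ hζ i z).coeff n ∈ vdiscRing A (cfmK1 A ζ i) :=
  tbic_coeff_of_int hZ n

/-- an element of `F0` with integral expansions at the three cusps lies in `elqRing` -/
theorem cfi_mem_elqRing_of_int (z : f0Field A (M' * q * q)) (c : CfmCusp → ℕ)
    (hZ : ∀ i, ∃ Z : PowerSeries (cfmA1 A ζ i),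
      cfmEx A M' q hq hqM ζ hζ i z * cfmInc A ζ i (PowerSeries.X ^ c i) = cfmInc A ζ i Z) :
    (z : FF (M' * q * q)) ∈ elqRing A M' q hq hqM ζ hζ := by
  rw [mem_elqRing]
  refine ⟨fun n => ?_, fun n => ?_, fun n => ?_⟩
  · have h := cfi_coeff_mem A M' q hq hqM ζ hζ .inf z (hZ .inf) n
    exact ⟨h.2, h.1⟩
  · have h := cfi_coeff_mem A M' q hq hqM ζ hζ .mid z (hZ .mid) n
    exact ⟨h.2, h.1⟩
  · have h := cfi_coeff_mem A M' q hq hqM ζ hζ .zero z (hZ .zero) n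
    exact ⟨h.2, h.1⟩

include hA in
/-- **`hint`** of `f3c_hf3` (helper17, `F3Conc.lean`), from `hOV` -/
theorem cfi_hint_elq (O : Subring (f0Field A (M' * q * q)))
    (hOV : ∀ i, ∀ x : f0Field A (M' * q * q), x ∈ O →
      cfmEx A M' q hq hqM ζ hζ i x ∈ tsV (cfmInc A ζ i) (PowerSeries.map (cfmPi A q ζ i))) :
    ∀ (c : ℕ) (y : O), (((y : f0Field A (M' * q * q)) : FF (M' * q * q))) ∈
        riemannRochSpace (K := Kbar) (c • fbmD1 M' q hq hqM ζ₀ hζ₀) →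
      (((y : f0Field A (M' * q * q)) : FF (M' * q * q))) ∈ elqRing A M' q hq hqM ζ hζ := by
  intro c y hy
  exact cfi_mem_elqRing_of_int A M' q hq hqM ζ hζ y (fun _ => c)
    (fun i => cfi_int_of_tsV A M' q hq hqM ζ hζ ζ₀ hζ₀ hA i y hy (hOV i y y.2))

include hA in
/-- the same from `hball` -/
theorem cfi_hint_elq_of_ball (O : Subring (f0Field A (M' * q * q)))
    (hball : ∀ i, ∀ x : f0Field A (M' * q * q), x ∈ O →
      ∃ a₂ b₂ : LaurentSeries A, coeffMap (IsLocalRing.residue A) b₂ ≠ 0 ∧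
        cfmEx A M' q hq hqM ζ hζ i x * coeffMap A.subtype b₂ = coeffMap A.subtype a₂) :
    ∀ (c : ℕ) (y : O), (((y : f0Field A (M' * q * q)) : FF (M' * q * q))) ∈
        riemannRochSpace (K := Kbar) (c • fbmD1 M' q hq hqM ζ₀ hζ₀) →
      (((y : f0Field A (M' * q * q)) : FF (M' * q * q))) ∈ elqRing A M' q hq hqM ζ hζ := by
  intro c y hy
  exact cfi_mem_elqRing_of_int A M' q hq hqM ζ hζ y (fun _ => c)
    (fun i => cfi_int_of_ball A M' q hq hqM ζ hζ ζ₀ hζ₀ hA i y hy (hball i y y.2))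

end Int

end Fermat.Agent.S36lib

end
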