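/-
Item 83 (S36), piece C-6b CRUX-K0FORM (helper16).  No sorry in this file.

`K0`-forms of Riemann–Roch spaces of the modular function field `FF L` over `Kbar`:
for a `Kbar`-subspace `V ⊂ FF L`, `ckfForm A L V := V ∩ F0(L)` as a `K0`-subspace of
`F0(L) = f0Field A L` (the inertia-fixed functions).

* `ckf_finite`: `V ∩ F0(L)` is finite-dimensional over `K0` if `V` is over `Kbar`
  (linear disjointness, helper28's `f0_linearIndependent`);
* `ckf_span_L`: for a divisor `D` fixed by the inertia group, `L(D) = Kbar · (L(D) ∩ F0(L))`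
  (Galois descent, helper27's `dk_exists_basis_L`).

These are the hypotheses `hV₀fin`, `hV₀`, `hW₀fin`, `hW₀` of `cbc_kummer` (`CruxBC.lean`).
-/
import Mathlib
import Fermat.Agent.S36lib.FixedF0
import Fermat.Agent.S36lib.DescK0
import Fermat.Agent.RRlib.Modular

set_option autoImplicit false
set_option linter.unusedSectionVars false
set_option linter.style.haveILetI false

noncomputable section

namespace Fermat.Agent.S36lib

open ModularCurve AlgebraicCurve
open Fermat.Agent.S24lib Fermat.Agent.S34lib Fermat.Agent.RRlib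

variable (A : ValuationSubring Kbar) (L : ℕ) [NeZero L]

/-- the `K0`-form `V ∩ F0(L)` of a `Kbar`-subspace `V` of `FF L` -/
def ckfForm (V : Submodule Kbar (FF L)) : Submodule (k0Field A) (f0Field A L) where
  carrier := {x | (x : FF L) ∈ V}
  zero_mem' := V.zero_mem
  add_mem' := fun hx hy => V.add_mem hx hy
  smul_mem' := fun c x hx => by
    have h1 : ((c • x : f0Field A L) : FF L) = (c : Kbar) • (x : FF L) := rfl
    show ((c • x : f0Field A L) : FF L) ∈ V
    rw [h1]
    exact V.smul_mem _ hx

theorem mem_ckfForm {V : Submodule Kbar (FF L)} {x : f0Field A L} :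
    x ∈ ckfForm A L V ↔ (x : FF L) ∈ V := Iff.rfl

theorem ckfForm_mono {V W : Submodule Kbar (FF L)} (h : V ≤ W) :
    ckfForm A L V ≤ ckfForm A L W := fun _ hx => h hx

set_option synthInstance.maxHeartbeats 400000 in
set_option maxHeartbeats 1000000 in
/-- `V ∩ F0(L)` is finite-dimensional over `K0` -/
theorem ckf_finite (V : Submodule Kbar (FF L)) [Module.Finite Kbar V] :
    Module.Finite (k0Field A) (ckfForm A L V) := by
  classical
  have hrank : Module.rank (k0Field A) (ckfForm A L V) ≤ (Module.finrank Kbar V : ℕ) := by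
    apply rank_le
    intro s hs
    -- the family in `F0(L)`
    have h1 : LinearIndependent (k0Field A)
        (fun i : s => (((i : ckfForm A L V) : f0Field A L))) :=
      hs.map' (ckfForm A L V).subtype (Submodule.ker_subtype _)
    have h2 := f0_linearIndependent A L _ h1
    -- as a family in `V`
    have h3 : LinearIndependent Kbar
        (fun i : s => (⟨(((i : ckfForm A L V) : f0Field A L) : FF L), (i : ckfForm A L V).2⟩ : V)) := by
      apply LinearIndependent.of_comp V.subtype
      exact h2
    have h4 := h3.fintype_card_le_finrank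
    simpa using h4
  have hlt : Module.rank (k0Field A) (ckfForm A L V) < Cardinal.aleph0 :=
    lt_of_le_of_lt hrank Cardinal.natCast_lt_aleph0
  exact Module.rank_lt_aleph0_iff.mp hlt

/-- **Galois descent**: for an inertia-stable divisor `D`, `L(D)` is spanned over `Kbar` by its
inertia-fixed elements. -/
theorem ckf_span_L (D : Divisor Kbar (FF L))
    (hD : ∀ σ ∈ A.inertiaSubgroupIn ℚ, galFF L σ • D = D) :
    riemannRochSpace (K := Kbar) D = Submodule.span Kbar
      ((algebraMap (f0Field A L) (FF L)) '' (ckfForm A L (riemannRochSpace D) : Set _)) := by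
  haveI : RRHyp Kbar (FF L) := mod_rrHyp L
  obtain ⟨κ, hF, hDec, b, hb, -⟩ := dk_exists_basis_L L
    ((A.inertiaSubgroupIn ℚ : Subgroup _) : Set (Kbar ≃ₐ[ℚ] Kbar)) D hD
  apply le_antisymm
  · intro x hx
    have hx' : (⟨x, hx⟩ : riemannRochSpace (K := Kbar) D) ∈
        Submodule.span Kbar (Set.range b) := by
      rw [b.span_eq]; trivial
    have hmap : x ∈ (Submodule.span Kbar (Set.range b)).map
        (riemannRochSpace (K := Kbar) D).subtype := ⟨⟨x, hx⟩, hx', rfl⟩
    rw [Submodule.map_span] at hmap
    refine Submodule.span_mono ?_ hmap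
    rintro _ ⟨_, ⟨j, rfl⟩, rfl⟩
    have hfix : IsIFixed L A (b j : FF L) := fun σ hσ => hb σ hσ j
    have hmem : (b j : FF L) ∈ f0Field A L := (mem_f0Field_iff_isIFixed A L _).mpr hfix
    exact ⟨⟨(b j : FF L), hmem⟩, (b j).2, rfl⟩
  · rw [Submodule.span_le]
    rintro _ ⟨x, hx, rfl⟩
    exact hx

end Fermat.Agent.S36lib

end
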