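import Mathlib
import Fermat.Agent.S34lib.CruxSSBuild
import Fermat.Agent.S34lib.Twist
import Fermat.Agent.S36lib.Speed

/-!
# Item 83 (S36), block CRUX (helper3): BASE CHANGE of a semistable reduction datum

The Riemann–Roch library (`RRBase K F`) needs rational places, i.e. an algebraically closed
constant field `K = Q̄`; the NON-REDUCED reduction `R = O₀/qO₀` of the crux at level `q²` lives on
the function field `F₀` over the field `K₀ = Q̄^I` with its DISCRETE valuation ring `A₀`
(`S₀ : SSRed A₀ π₀ R F₀`, from `SSRedDvr`).  This file transports `S₀` to `(K, A, F)`: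

* `BCData S₀ A π F`: ring homs `ιK : K₀ → K`, `ιF : F₀ → F` compatible with the algebra structures,
  `ιK A₀ ⊆ A`, `π ∘ ιK = π₀` (same residue field `k`), linear disjointness `ld` (a `K₀`-independent
  family of `F₀` stays `K`-independent in `F`) and `gen` (`F = K · ιF F₀`).
* `D.ball : Subring F`: the `A`-span of `ιF S₀.O`;  `D.red : D.ball →+* R` with
  `red (∑ aᵢ ιF xᵢ) = ∑ π aᵢ • S₀.red xᵢ`.
* `D.toSSRed : SSRed A π R F` (orthonormal bases: a finite-dimensional `V ⊂ F` lies in the
  `K`-span of an `A₀`-orthonormal family of `F₀`, whose `A`-lattice is free; `V ∩ O` is a direct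
  summand of it).
* `D.redSp_span`: for `V = K · ιF V₀` (`V₀ ⊂ F₀` finite-dimensional over `K₀`):
  `D.toSSRed.redSp V = S₀.redSp V₀`.
-/

set_option autoImplicit false
set_option linter.unusedSectionVars false
set_option linter.style.haveILetI false

noncomputable section

namespace Fermat.Agent.S36lib

open Fermat.Agent.S34lib

variable {K₀ K F₀ F k : Type*} [Field K₀] [Field K] [Field F₀] [Field F] [Field k]
  [Algebra K₀ F₀] [Algebra K F]
variable {R : Type*} [CommRing R] [Algebra k R]
variable {A₀ : ValuationSubring K₀} {π₀ : A₀ →+* k}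

/-- Base change data for a semistable reduction datum `S₀` over `(K₀, A₀, F₀)` to `(K, A, F)`. -/
structure BCData (S₀ : SSRed A₀ π₀ R F₀) (A : ValuationSubring K) (π : A →+* k)
    (F : Type*) [Field F] [Algebra K F] where
  /-- the inclusion of the constant fields -/
  ιK : K₀ →+* K
  /-- the inclusion of the function fields -/
  ιF : F₀ →+* F
  comm : ∀ c : K₀, ιF (algebraMap K₀ F₀ c) = algebraMap K F (ιK c)
  mem : ∀ a : A₀, ιK (a : K₀) ∈ A
  π_comp : ∀ a : A₀, π ⟨ιK (a : K₀), mem a⟩ = π₀ a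
  ld : ∀ (n : ℕ) (x : Fin n → F₀), LinearIndependent K₀ x →
    LinearIndependent K (fun i => ιF (x i))
  gen : ∀ f : F, ∃ (n : ℕ) (c : Fin n → K) (x : Fin n → F₀), f = ∑ i, c i • ιF (x i)

namespace BCData

variable {A : ValuationSubring K} {π : A →+* k} {S₀ : SSRed A₀ π₀ R F₀}
variable (D : BCData S₀ A π F)

/-- the function `∑ aᵢ ιF xᵢ` of a representation -/
def lin {ι : Type} [Fintype ι] (a : ι → A) (x : ι → S₀.O) : F :=
  ∑ i, algebraMap K F (a i : K) * D.ιF ((x i : S₀.O) : F₀)

/-- the value `∑ π aᵢ • red xᵢ` of a representation -/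
def val (_D : BCData S₀ A π F) {ι : Type} [Fintype ι] (a : ι → A) (x : ι → S₀.O) : R :=
  ∑ i, π (a i) • S₀.red (x i)

theorem ιF_smul (c : K₀) (x : F₀) : D.ιF (c • x) = D.ιK c • D.ιF x := by
  rw [Algebra.smul_def, map_mul, D.comm, Algebra.smul_def]

/-- `ιF` of a `K₀`-combination -/
theorem ιF_sum_smul {n : ℕ} (c : Fin n → K₀) (e : Fin n → F₀) :
    D.ιF (∑ j, c j • e j) = ∑ j, D.ιK (c j) • D.ιF (e j) := by
  rw [map_sum]
  exact Finset.sum_congr rfl fun j _ => D.ιF_smul _ _

/-- the image under `ιF` of an orthonormal family of `S₀` is `K`-independent -/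
theorem linearIndependent_ιF {n : ℕ} (e : Fin n → S₀.O)
    (he : LinearIndependent k (fun j => S₀.red (e j))) :
    LinearIndependent K (fun j => D.ιF ((e j : S₀.O) : F₀)) :=
  D.ld n _ (S₀.linearIndependent_of_red e he)

/-- **orthonormal representations**: every representation can be rewritten in terms of an
orthonormal family of `S₀`, with the same function and the same value. -/
theorem exists_orth_rep {ι : Type} [Fintype ι] (a : ι → A) (x : ι → S₀.O) :
    ∃ (n : ℕ) (e : Fin n → S₀.O) (d : Fin n → A),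
      LinearIndependent k (fun j => S₀.red (e j)) ∧ D.lin a x = D.lin d e ∧
        D.val a x = D.val d e := by
  classical
  set V₀ : Submodule K₀ F₀ := Submodule.span K₀ (Set.range fun i => ((x i : S₀.O) : F₀)) with hV₀
  have hfin : Module.Finite K₀ V₀ := Module.Finite.span_of_finite K₀ (Set.finite_range _)
  obtain ⟨n, e, he_span, he_li⟩ := S₀.exists_orthonormal V₀ hfin
  have hx : ∀ i, ((x i : S₀.O) : F₀) ∈ V₀ := fun i => Submodule.subset_span ⟨i, rfl⟩
  choose c hc1 hc2 using fun i => S₀.coords e he_li V₀ he_span (x i) (hx i)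
  refine ⟨n, e, fun j => ∑ i, a i * (⟨D.ιK ((c i j : A₀) : K₀), D.mem (c i j)⟩ : A), he_li, ?_, ?_⟩
  · rw [lin, lin]
    have hιx : ∀ i, D.ιF ((x i : S₀.O) : F₀) =
        ∑ j, D.ιK ((c i j : A₀) : K₀) • D.ιF ((e j : S₀.O) : F₀) := by
      intro i
      rw [hc1 i]
      exact D.ιF_sum_smul _ _
    simp_rw [hιx, Finset.mul_sum]
    rw [Finset.sum_comm]
    refine Finset.sum_congr rfl fun j _ => ?_
    rw [AddSubmonoidClass.coe_finsetSum, map_sum, Finset.sum_mul]
    refine Finset.sum_congr rfl fun i _ => ?_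
    show _ = algebraMap K F ((a i : K) * D.ιK ((c i j : A₀) : K₀)) * _
    rw [Algebra.smul_def, map_mul, mul_assoc]
  · rw [val, val]
    simp_rw [hc2, Finset.smul_sum, smul_smul]
    rw [Finset.sum_comm]
    refine Finset.sum_congr rfl fun j _ => ?_
    rw [map_sum, Finset.sum_smul]
    refine Finset.sum_congr rfl fun i _ => ?_
    rw [map_mul, D.π_comp]

/-- `lin` of an orthonormal family vanishes only for zero coefficients -/
theorem coeff_eq_zero_of_lin_eq_zero {n : ℕ} (e : Fin n → S₀.O)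
    (he : LinearIndependent k (fun j => S₀.red (e j))) (d : Fin n → A)
    (h : D.lin d e = 0) : ∀ j, d j = 0 := by
  intro j
  have hli := D.linearIndependent_ιF e he
  have h1 : ∑ j, ((d j : A) : K) • D.ιF ((e j : S₀.O) : F₀) = 0 := by
    rw [← h, lin]
    exact Finset.sum_congr rfl fun j _ => Algebra.smul_def _ _
  exact Subtype.ext (Fintype.linearIndependent_iff.mp hli _ h1 j)

/-- **well-definedness**: a representation of `0` has value `0` -/
theorem val_eq_zero_of_lin_eq_zero {ι : Type} [Fintype ι] (a : ι → A) (x : ι → S₀.O)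
    (h : D.lin a x = 0) : D.val a x = 0 := by
  obtain ⟨n, e, d, he, h1, h2⟩ := D.exists_orth_rep a x
  rw [h2, val]
  have hd := D.coeff_eq_zero_of_lin_eq_zero e he d (h1 ▸ h)
  simp [hd]

/-! ### algebra of representations -/

theorem lin_sum {ι ι' : Type} [Fintype ι] [Fintype ι'] (a : ι → A) (x : ι → S₀.O)
    (a' : ι' → A) (x' : ι' → S₀.O) :
    D.lin (Sum.elim a a') (Sum.elim x x') = D.lin a x + D.lin a' x' := by
  simp [lin, Fintype.sum_sum_type]

theorem val_sum {ι ι' : Type} [Fintype ι] [Fintype ι'] (a : ι → A) (x : ι → S₀.O)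
    (a' : ι' → A) (x' : ι' → S₀.O) :
    D.val (Sum.elim a a') (Sum.elim x x') = D.val a x + D.val a' x' := by
  simp [val, Fintype.sum_sum_type]

theorem lin_neg {ι : Type} [Fintype ι] (a : ι → A) (x : ι → S₀.O) :
    D.lin (fun i => -a i) x = -D.lin a x := by
  simp [lin]

theorem val_neg {ι : Type} [Fintype ι] (a : ι → A) (x : ι → S₀.O) :
    D.val (fun i => -a i) x = -D.val a x := by
  simp [val]

theorem lin_mul {ι ι' : Type} [Fintype ι] [Fintype ι'] (a : ι → A) (x : ι → S₀.O)
    (a' : ι' → A) (x' : ι' → S₀.O) :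
    D.lin (fun p : ι × ι' => a p.1 * a' p.2) (fun p => x p.1 * x' p.2) =
      D.lin a x * D.lin a' x' := by
  rw [lin, lin, lin, Finset.sum_mul_sum, Fintype.sum_prod_type]
  refine Finset.sum_congr rfl fun i _ => Finset.sum_congr rfl fun j _ => ?_
  show algebraMap K F ((a i : K) * (a' j : K)) * D.ιF (((x i : S₀.O) : F₀) * ((x' j : S₀.O) : F₀))
    = _
  rw [map_mul, map_mul]
  ring

theorem val_mul {ι ι' : Type} [Fintype ι] [Fintype ι'] (a : ι → A) (x : ι → S₀.O)
    (a' : ι' → A) (x' : ι' → S₀.O) :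
    D.val (fun p : ι × ι' => a p.1 * a' p.2) (fun p => x p.1 * x' p.2) =
      D.val a x * D.val a' x' := by
  rw [val, val, val, Finset.sum_mul_sum, Fintype.sum_prod_type]
  refine Finset.sum_congr rfl fun i _ => Finset.sum_congr rfl fun j _ => ?_
  rw [map_mul, map_mul, smul_mul_smul_comm]

/-- **well-definedness**: two representations of the same function have the same value -/
theorem val_eq_of_lin_eq {ι ι' : Type} [Fintype ι] [Fintype ι'] (a : ι → A) (x : ι → S₀.O)
    (a' : ι' → A) (x' : ι' → S₀.O) (h : D.lin a x = D.lin a' x') : D.val a x = D.val a' x' := by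
  have h0 : D.lin (Sum.elim a (fun i => -a' i)) (Sum.elim x x') = 0 := by
    rw [lin_sum, lin_neg, h, add_neg_cancel]
  have h1 := D.val_eq_zero_of_lin_eq_zero _ _ h0
  rw [val_sum, val_neg] at h1
  exact add_neg_eq_zero.mp h1

/-- the unit ball: the `A`-span of `ιF S₀.O` -/
def ball : Subring F where
  carrier := {f | ∃ (ι : Type) (_ : Fintype ι) (a : ι → A) (x : ι → S₀.O), f = D.lin a x}
  mul_mem' := by
    rintro _ _ ⟨ι, _, a, x, rfl⟩ ⟨ι', _, a', x', rfl⟩
    exact ⟨ι × ι', inferInstance, _, _, (D.lin_mul a x a' x').symm⟩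
  one_mem' := ⟨Unit, inferInstance, fun _ => 1, fun _ => 1, by simp [lin]⟩
  add_mem' := by
    rintro _ _ ⟨ι, _, a, x, rfl⟩ ⟨ι', _, a', x', rfl⟩
    exact ⟨ι ⊕ ι', inferInstance, _, _, (D.lin_sum a x a' x').symm⟩
  zero_mem' := ⟨PEmpty, inferInstance, PEmpty.elim, PEmpty.elim, by simp [lin]⟩
  neg_mem' := by
    rintro _ ⟨ι, _, a, x, rfl⟩
    exact ⟨ι, inferInstance, _, _, (D.lin_neg a x).symm⟩

theorem mem_ball {f : F} :
    f ∈ D.ball ↔ ∃ (ι : Type) (_ : Fintype ι) (a : ι → A) (x : ι → S₀.O), f = D.lin a x :=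
  Iff.rfl

theorem lin_mem_ball {ι : Type} [Fintype ι] (a : ι → A) (x : ι → S₀.O) : D.lin a x ∈ D.ball :=
  ⟨ι, inferInstance, a, x, rfl⟩

theorem exists_val (f : D.ball) :
    ∃ r : R, ∀ (ι : Type) [Fintype ι] (a : ι → A) (x : ι → S₀.O), (f : F) = D.lin a x →
      D.val a x = r := by
  obtain ⟨ι₀, _, a₀, x₀, h₀⟩ := f.2
  refine ⟨D.val a₀ x₀, fun ι _ a x h => ?_⟩
  exact D.val_eq_of_lin_eq a x a₀ x₀ (h.symm.trans h₀)

/-- the reduction map on the ball, as a function -/
def redFun (f : D.ball) : R := (D.exists_val f).choose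

theorem redFun_eq (f : D.ball) {ι : Type} [Fintype ι] (a : ι → A) (x : ι → S₀.O)
    (h : (f : F) = D.lin a x) : D.redFun f = D.val a x :=
  ((D.exists_val f).choose_spec ι a x h).symm

/-- the reduction map `red (∑ aᵢ ιF xᵢ) = ∑ π aᵢ • S₀.red xᵢ` -/
def red : D.ball →+* R where
  toFun := D.redFun
  map_one' := by
    rw [D.redFun_eq 1 (fun _ : Unit => 1) (fun _ => 1) (by simp [lin])]
    simp [val]
  map_mul' := by
    rintro ⟨_, ι, _, a, x, rfl⟩ ⟨_, ι', _, a', x', rfl⟩
    have h1 := D.redFun_eq ⟨D.lin a x, D.lin_mem_ball a x⟩ a x rfl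
    have h2 := D.redFun_eq ⟨D.lin a' x', D.lin_mem_ball a' x'⟩ a' x' rfl
    have h3 := D.redFun_eq
      (⟨D.lin a x, D.lin_mem_ball a x⟩ * ⟨D.lin a' x', D.lin_mem_ball a' x'⟩)
      (fun p : ι × ι' => a p.1 * a' p.2) (fun p => x p.1 * x' p.2) (D.lin_mul a x a' x').symm
    rw [val_mul, ← h1, ← h2] at h3
    exact h3
  map_zero' := by
    rw [D.redFun_eq 0 (PEmpty.elim : PEmpty → A) PEmpty.elim (by simp [lin])]
    simp [val]
  map_add' := by
    rintro ⟨_, ι, _, a, x, rfl⟩ ⟨_, ι', _, a', x', rfl⟩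
    have h1 := D.redFun_eq ⟨D.lin a x, D.lin_mem_ball a x⟩ a x rfl
    have h2 := D.redFun_eq ⟨D.lin a' x', D.lin_mem_ball a' x'⟩ a' x' rfl
    have h3 := D.redFun_eq
      (⟨D.lin a x, D.lin_mem_ball a x⟩ + ⟨D.lin a' x', D.lin_mem_ball a' x'⟩)
      (Sum.elim a a') (Sum.elim x x') (D.lin_sum a x a' x').symm
    rw [val_sum, ← h1, ← h2] at h3
    exact h3

theorem red_lin {ι : Type} [Fintype ι] (a : ι → A) (x : ι → S₀.O) :
    D.red ⟨D.lin a x, D.lin_mem_ball a x⟩ = D.val a x :=
  D.redFun_eq _ a x rfl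

theorem red_eq (f : D.ball) {ι : Type} [Fintype ι] (a : ι → A) (x : ι → S₀.O)
    (h : (f : F) = D.lin a x) : D.red f = D.val a x :=
  D.redFun_eq f a x h

/-- constants of `A` lie in the ball -/
theorem algebraMap_mem_ball (a : A) : algebraMap K F (a : K) ∈ D.ball :=
  ⟨Unit, inferInstance, fun _ => a, fun _ => 1, by simp [lin]⟩

theorem red_algebraMap (a : A) :
    D.red ⟨algebraMap K F (a : K), D.algebraMap_mem_ball a⟩ = algebraMap k R (π a) := by
  rw [D.red_eq _ (fun _ : Unit => a) (fun _ => 1) (by simp [lin])]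
  simp [val, Algebra.algebraMap_eq_smul_one]

/-- `ιF` maps `S₀.O` into the ball -/
theorem ιF_mem_ball (x : S₀.O) : D.ιF ((x : S₀.O) : F₀) ∈ D.ball :=
  ⟨Unit, inferInstance, fun _ => 1, fun _ => x, by simp [lin]⟩

theorem red_ιF (x : S₀.O) : D.red ⟨D.ιF ((x : S₀.O) : F₀), D.ιF_mem_ball x⟩ = S₀.red x := by
  rw [D.red_eq _ (fun _ : Unit => 1) (fun _ => x) (by simp [lin])]
  simp [val]

include D in
theorem π_surjective : Function.Surjective π := by
  intro c
  obtain ⟨a, rfl⟩ := S₀.π_surjective c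
  exact ⟨⟨D.ιK (a : K₀), D.mem a⟩, D.π_comp a⟩

include D in
theorem π_eq_zero_iff (a : A) : π a = 0 ↔ (a : K) ∈ A.nonunits :=
  ss_valSubring_map_eq_zero_iff A π D.π_surjective a

/-! ### orthonormal families in the ball -/

theorem red_const_mul (a : A) (f : D.ball) :
    D.red (⟨algebraMap K F (a : K), D.algebraMap_mem_ball a⟩ * f) = π a • D.red f := by
  rw [map_mul, D.red_algebraMap, Algebra.smul_def]

/-- `lin` as a `K`-combination -/
theorem lin_eq_sum_smul {n : ℕ} (d : Fin n → A) (e : Fin n → S₀.O) :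
    D.lin d e = ∑ j, ((d j : A) : K) • D.ιF ((e j : S₀.O) : F₀) :=
  Finset.sum_congr rfl fun _ _ => (Algebra.smul_def _ _).symm

/-- **strong orthonormality**: if a `K`-combination of the image of an orthonormal family of `S₀`
lies in the ball, its coefficients lie in `A`. -/
theorem coeff_mem_of_sum_mem {n : ℕ} (e : Fin n → S₀.O)
    (he : LinearIndependent k (fun j => S₀.red (e j))) (g : Fin n → K)
    (hy : ∑ j, g j • D.ιF ((e j : S₀.O) : F₀) ∈ D.ball) : ∀ j, g j ∈ A := by
  classical
  intro i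
  by_contra hgi
  obtain ⟨j, -, hmax⟩ := Finset.exists_max_image Finset.univ (fun i => A.valuation (g i))
    ⟨i, Finset.mem_univ i⟩
  have hgjA : g j ∉ A := by
    intro hA
    apply hgi
    rw [← A.valuation_le_one_iff] at hA ⊢
    exact (hmax i (Finset.mem_univ i)).trans hA
  have hgj : g j ≠ 0 := fun h0 => hgjA (h0 ▸ A.zero_mem)
  have hinv : (g j)⁻¹ ∈ A := (A.mem_or_inv_mem (g j)).resolve_left hgjA
  have hnu : (g j)⁻¹ ∈ A.nonunits := by
    rw [ValuationSubring.mem_nonunits_iff_or]
    right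
    rwa [inv_inv]
  have hπ : π ⟨(g j)⁻¹, hinv⟩ = 0 := (D.π_eq_zero_iff ⟨(g j)⁻¹, hinv⟩).mpr hnu
  have hmem : ∀ i, g i / g j ∈ A := by
    intro i
    rw [← A.valuation_le_one_iff, map_div₀]
    exact div_le_one_of_le₀ (hmax i (Finset.mem_univ i)) zero_le
  set a : Fin n → A := fun i => ⟨g i / g j, hmem i⟩ with ha
  -- the normalised combination
  have hz : D.lin a e = algebraMap K F (g j)⁻¹ * ∑ l, g l • D.ιF ((e l : S₀.O) : F₀) := by
    rw [lin, Finset.mul_sum]
    refine Finset.sum_congr rfl fun i _ => ?_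
    show algebraMap K F (g i / g j) * _ = _
    rw [Algebra.smul_def, ← mul_assoc, ← map_mul]
    congr 2
    field_simp
  have hred1 : D.red ⟨D.lin a e, D.lin_mem_ball a e⟩ = 0 := by
    have : (⟨D.lin a e, D.lin_mem_ball a e⟩ : D.ball) =
        ⟨algebraMap K F ((⟨(g j)⁻¹, hinv⟩ : A) : K), D.algebraMap_mem_ball _⟩ * ⟨_, hy⟩ :=
      Subtype.ext hz
    rw [this, D.red_const_mul, hπ, zero_smul]
  rw [D.red_lin, val] at hred1
  have h2 := Fintype.linearIndependent_iff.mp he (fun i => π (a i)) hred1 j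
  have h3 : a j = 1 := by
    apply Subtype.ext
    show g j / g j = 1
    exact div_self hgj
  rw [h3, map_one] at h2
  exact one_ne_zero h2

/-- the reduction of a combination of an orthonormal family -/
theorem red_sum_smul {n : ℕ} (e : Fin n → S₀.O) (d : Fin n → A) (f : D.ball)
    (hf : (f : F) = ∑ j, ((d j : A) : K) • D.ιF ((e j : S₀.O) : F₀)) :
    D.red f = ∑ j, π (d j) • S₀.red (e j) :=
  D.red_eq f d e (hf.trans (D.lin_eq_sum_smul d e).symm)

/-- **kernel of the reduction**: an element of the ball with zero reduction is `t · f'` with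
`t ∈ 𝔪_A` and `f'` in the ball. -/
theorem exists_factor (f : D.ball) (hf : D.red f = 0) :
    ∃ (t : A) (f' : D.ball), π t = 0 ∧ (f : F) = algebraMap K F (t : K) * (f' : F) := by
  classical
  obtain ⟨ι, _, a, x, hfa⟩ := f.2
  obtain ⟨n, e, d, he, h1, h2⟩ := D.exists_orth_rep a x
  have hval : D.val d e = 0 := by
    rw [← h2, ← D.red_eq f a x hfa, hf]
  have hπd : ∀ j, π (d j) = 0 := fun j => Fintype.linearIndependent_iff.mp he _ hval j
  by_cases hn : ∀ j, d j = 0
  · refine ⟨0, 0, map_zero π, ?_⟩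
    rw [hfa, h1, lin]
    simp [hn]
  · push Not at hn
    obtain ⟨i, hi⟩ := hn
    obtain ⟨j, -, hmax⟩ := Finset.exists_max_image Finset.univ
      (fun i => A.valuation ((d i : A) : K)) ⟨i, Finset.mem_univ i⟩
    have hdj : ((d j : A) : K) ≠ 0 := by
      intro h0
      have h3 := hmax i (Finset.mem_univ i)
      rw [h0, map_zero] at h3
      have : ((d i : A) : K) = 0 := (A.valuation).zero_iff.mp (le_antisymm h3 zero_le)
      exact hi (Subtype.ext this)
    have hmem : ∀ i, ((d i : A) : K) / ((d j : A) : K) ∈ A := by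
      intro i
      rw [← A.valuation_le_one_iff, map_div₀]
      exact div_le_one_of_le₀ (hmax i (Finset.mem_univ i)) zero_le
    refine ⟨d j, ⟨D.lin (fun i => ⟨_, hmem i⟩) e, D.lin_mem_ball _ e⟩, hπd j, ?_⟩
    rw [hfa, h1]
    show D.lin d e = algebraMap K F ((d j : A) : K) * D.lin (fun i => ⟨_, hmem i⟩) e
    rw [lin, lin, Finset.mul_sum]
    refine Finset.sum_congr rfl fun i _ => ?_
    show _ = algebraMap K F ((d j : A) : K) *
      (algebraMap K F (((d i : A) : K) / ((d j : A) : K)) * _)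
    rw [← mul_assoc, ← map_mul, mul_div_cancel₀ _ hdj]

/-- `ιF` maps the `K₀`-span of a family into the `K`-span of its image -/
theorem ιF_mem_span {n : ℕ} (e : Fin n → F₀) {x : F₀}
    (hx : x ∈ Submodule.span K₀ (Set.range e)) :
    D.ιF x ∈ Submodule.span K (Set.range fun j => D.ιF (e j)) := by
  obtain ⟨c, rfl⟩ := (Submodule.mem_span_range_iff_exists_fun K₀).mp hx
  rw [D.ιF_sum_smul]
  exact Submodule.sum_mem _ fun j _ =>
    Submodule.smul_mem _ _ (Submodule.subset_span ⟨j, rfl⟩)

/-- every finite-dimensional subspace of `F` lies in the `K`-span of the image of an orthonormal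
family of `S₀` -/
theorem exists_orth_span (V : Submodule K F) (hV : Module.Finite K V) :
    ∃ (n : ℕ) (e : Fin n → S₀.O), LinearIndependent k (fun j => S₀.red (e j)) ∧
      V ≤ Submodule.span K (Set.range fun j => D.ιF ((e j : S₀.O) : F₀)) := by
  classical
  obtain ⟨s, hs⟩ := (Submodule.fg_top V).mp (Module.Finite.fg_top (R := K) (M := V))
  choose nv cv xv hv using D.gen
  set X : Set F₀ := ⋃ v ∈ s, Set.range (xv v) with hX
  have hXfin : X.Finite := by
    refine Set.Finite.biUnion s.finite_toSet fun v _ => Set.finite_range _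
  set W₀ : Submodule K₀ F₀ := Submodule.span K₀ X with hW₀
  have hfin : Module.Finite K₀ W₀ := Module.Finite.span_of_finite K₀ hXfin
  obtain ⟨n, e, he_span, he_li⟩ := S₀.exists_orthonormal W₀ hfin
  refine ⟨n, e, he_li, ?_⟩
  rw [← hs, Submodule.span_le]
  intro v hvs
  rw [SetLike.mem_coe, hv v]
  refine Submodule.sum_mem _ fun i _ => Submodule.smul_mem _ _ ?_
  have hxW : xv v i ∈ W₀ := Submodule.subset_span (Set.mem_biUnion hvs ⟨i, rfl⟩)
  rw [← he_span] at hxW
  exact D.ιF_mem_span (fun j => ((e j : S₀.O) : F₀)) hxW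

/-! ### the lattice `V ∩ O` -/

/-- the `A`-lattice `V ∩ O` -/
def lat (V : Submodule K F) : Submodule A F where
  carrier := {f | f ∈ V ∧ f ∈ D.ball}
  add_mem' := fun ha hb => ⟨V.add_mem ha.1 hb.1, add_mem ha.2 hb.2⟩
  zero_mem' := ⟨V.zero_mem, zero_mem _⟩
  smul_mem' := fun a f hf => by
    refine ⟨V.smul_mem (a : K) hf.1, ?_⟩
    show (a : K) • f ∈ D.ball
    rw [Algebra.smul_def]
    exact mul_mem (D.algebraMap_mem_ball a) hf.2

theorem mem_lat (V : Submodule K F) (f : F) : f ∈ D.lat V ↔ f ∈ V ∧ f ∈ D.ball := Iff.rfl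

/-- the lattice of `V` lies in the `A`-span of an orthonormal family whose `K`-span contains `V` -/
theorem lat_le_span {n : ℕ} (e : Fin n → S₀.O)
    (he : LinearIndependent k (fun j => S₀.red (e j))) (V : Submodule K F)
    (hV : V ≤ Submodule.span K (Set.range fun j => D.ιF ((e j : S₀.O) : F₀))) :
    D.lat V ≤ Submodule.span A (Set.range fun j => D.ιF ((e j : S₀.O) : F₀)) := by
  rintro f ⟨hfV, hfO⟩
  obtain ⟨g, hg⟩ := (Submodule.mem_span_range_iff_exists_fun K).mp (hV hfV)
  have hmem : ∀ j, g j ∈ A := D.coeff_mem_of_sum_mem e he g (by rw [hg]; exact hfO)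
  rw [← hg]
  refine Submodule.sum_mem _ fun j _ => ?_
  have : g j • D.ιF ((e j : S₀.O) : F₀) = (⟨g j, hmem j⟩ : A) • D.ιF ((e j : S₀.O) : F₀) := rfl
  rw [this]
  exact Submodule.smul_mem _ _ (Submodule.subset_span ⟨j, rfl⟩)

/-- the `A`-span of the image of a family of `S₀.O` lies in the ball -/
theorem span_le_ball {n : ℕ} (e : Fin n → S₀.O) {f : F}
    (hf : f ∈ Submodule.span A (Set.range fun j => D.ιF ((e j : S₀.O) : F₀))) : f ∈ D.ball := by
  obtain ⟨c, rfl⟩ := (Submodule.mem_span_range_iff_exists_fun A).mp hf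
  refine sum_mem fun j _ => ?_
  show ((c j : A) : K) • D.ιF ((e j : S₀.O) : F₀) ∈ D.ball
  rw [Algebra.smul_def]
  exact mul_mem (D.algebraMap_mem_ball (c j)) (D.ιF_mem_ball (e j))

/-- **the lattice `V ∩ O` is finitely generated**: it is a direct summand of the free lattice
spanned by an orthonormal family (the quotient is finitely generated and torsion-free, hence
free). -/
theorem lat_fg (V : Submodule K F) (hV : Module.Finite K V) : (D.lat V).FG := by
  classical
  obtain ⟨n, e, he, hVW⟩ := D.exists_orth_span V hV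
  set M : Submodule A F := Submodule.span A (Set.range fun j => D.ιF ((e j : S₀.O) : F₀)) with hM
  have hLM : D.lat V ≤ M := D.lat_le_span e he V hVW
  have hMfg : M.FG := Submodule.fg_span (Set.finite_range _)
  have hMfin : Module.Finite A M := Module.Finite.iff_fg.mpr hMfg
  set L' : Submodule A M := (D.lat V).comap M.subtype with hL'
  -- the quotient is torsion-free
  have htf : Module.IsTorsionFree A (M ⧸ L') := by
    rw [Module.isTorsionFree_iff_smul_eq_zero]
    intro r q hrq
    by_cases hr : r = 0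
    · exact Or.inl hr
    right
    obtain ⟨m, rfl⟩ := Submodule.Quotient.mk_surjective L' q
    rw [← Submodule.Quotient.mk_smul, Submodule.Quotient.mk_eq_zero] at hrq
    rw [Submodule.Quotient.mk_eq_zero]
    have h1 : (r : K) • (m : F) ∈ V := hrq.1
    have hr' : (r : K) ≠ 0 := fun h0 => hr (Subtype.ext h0)
    have h2 : (m : F) ∈ V := by
      have := V.smul_mem (r : K)⁻¹ h1
      rwa [smul_smul, inv_mul_cancel₀ hr', one_smul] at this
    exact ⟨h2, D.span_le_ball e m.2⟩
  have hfree : Module.Free A (M ⧸ L') := ss_free_of_finite_torsionFree A _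
  obtain ⟨s, hs⟩ := Module.projective_lifting_property L'.mkQ LinearMap.id
    (Submodule.mkQ_surjective L')
  set ψ : M →ₗ[A] M := LinearMap.id - s ∘ₗ L'.mkQ with hψ
  have hrange : LinearMap.range ψ = L' := by
    apply le_antisymm
    · rintro _ ⟨m, rfl⟩
      rw [← Submodule.ker_mkQ L', LinearMap.mem_ker, hψ, LinearMap.sub_apply, map_sub]
      have h1 : L'.mkQ (s (L'.mkQ m)) = L'.mkQ m := by
        have := congrArg (fun φ => φ (L'.mkQ m)) hs
        simpa using this
      simp only [LinearMap.id_coe, id_eq, LinearMap.coe_comp, Function.comp_apply]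
      rw [h1, sub_self]
    · intro m hm
      refine ⟨m, ?_⟩
      have h0 : L'.mkQ m = 0 := by
        rw [Submodule.mkQ_apply, Submodule.Quotient.mk_eq_zero]
        exact hm
      simp [hψ, h0]
  have hL'fg : L'.FG := by
    rw [← hrange]
    have : (⊤ : Submodule A M).FG := Module.Finite.fg_top
    rw [LinearMap.range_eq_map]
    exact this.map ψ
  have hmap : L'.map M.subtype = D.lat V := by
    rw [hL', Submodule.map_comap_subtype, inf_eq_right]
    exact hLM
  rw [← hmap]
  exact hL'fg.map _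

/-- every element of a finite-dimensional `V` has a nonzero `K`-multiple in the ball -/
theorem exists_scale (V : Submodule K F) (hV : Module.Finite K V) (f : F) (hf : f ∈ V) :
    ∃ φ : K, φ ≠ 0 ∧ algebraMap K F φ * f ∈ D.ball := by
  classical
  obtain ⟨n, e, he, hVW⟩ := D.exists_orth_span V hV
  obtain ⟨g, hg⟩ := (Submodule.mem_span_range_iff_exists_fun K).mp (hVW hf)
  by_cases hn : ∀ j, g j = 0
  · refine ⟨1, one_ne_zero, ?_⟩
    rw [← hg]
    simp [hn, zero_mem]
  · push Not at hn
    obtain ⟨i, hi⟩ := hn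
    obtain ⟨j, -, hmax⟩ := Finset.exists_max_image Finset.univ (fun i => A.valuation (g i))
      ⟨i, Finset.mem_univ i⟩
    have hgj : g j ≠ 0 := by
      intro h0
      have h3 := hmax i (Finset.mem_univ i)
      rw [h0, map_zero] at h3
      exact hi ((A.valuation).zero_iff.mp (le_antisymm h3 zero_le))
    have hmem : ∀ i, g i / g j ∈ A := by
      intro i
      rw [← A.valuation_le_one_iff, map_div₀]
      exact div_le_one_of_le₀ (hmax i (Finset.mem_univ i)) zero_le
    refine ⟨(g j)⁻¹, inv_ne_zero hgj, ?_⟩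
    have : algebraMap K F (g j)⁻¹ * f = D.lin (fun i => (⟨g i / g j, hmem i⟩ : A)) e := by
      rw [← hg, lin, Finset.mul_sum]
      refine Finset.sum_congr rfl fun i _ => ?_
      show _ = algebraMap K F (g i / g j) * _
      rw [Algebra.smul_def, ← mul_assoc, ← map_mul]
      congr 2
      field_simp
    rw [this]
    exact D.lin_mem_ball _ e

/-- **orthonormal bases** for the base-changed reduction -/
theorem exists_orthonormal (V : Submodule K F) (hV : Module.Finite K V) :
    ∃ (n : ℕ) (b : Fin n → D.ball),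
      Submodule.span K (Set.range fun i => ((b i : D.ball) : F)) = V ∧
      LinearIndependent k (fun i => D.red (b i)) := by
  classical
  set Λ : Submodule A F := D.lat V with hΛ
  have hfin : Module.Finite A Λ := Module.Finite.iff_fg.mpr (D.lat_fg V hV)
  have hfree : Module.Free A Λ := ss_free_of_finite_torsionFree A Λ
  let e := Module.finBasis A Λ
  have hmemΛ : ∀ x : Λ, (x : F) ∈ V ∧ (x : F) ∈ D.ball := fun x => x.2
  let b : Fin (Module.finrank A Λ) → D.ball := fun i => ⟨(e i : F), (hmemΛ (e i)).2⟩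
  have hrepr : ∀ x : Λ, (x : F) = ∑ i, ((e.repr x i : A) : K) • ((e i : Λ) : F) := by
    intro x
    have h := congrArg (Subtype.val : Λ → F) (e.sum_repr x)
    rw [← h]
    rw [AddSubmonoidClass.coe_finsetSum]
    rfl
  refine ⟨Module.finrank A Λ, b, ?_, ?_⟩
  · apply le_antisymm
    · rw [Submodule.span_le]
      rintro _ ⟨i, rfl⟩
      exact (hmemΛ (e i)).1
    · intro f hf
      obtain ⟨φ, hφ0, hm⟩ := D.exists_scale V hV f hf
      have hφV : algebraMap K F φ * f ∈ V := by
        rw [← Algebra.smul_def]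
        exact V.smul_mem φ hf
      have hx : algebraMap K F φ * f ∈ Λ := ⟨hφV, hm⟩
      have h1 : algebraMap K F φ * f ∈
          Submodule.span K (Set.range fun i => ((b i : D.ball) : F)) := by
        have h0 := hrepr ⟨_, hx⟩
        rw [show ((⟨algebraMap K F φ * f, hx⟩ : Λ) : F) = algebraMap K F φ * f from rfl] at h0
        rw [h0]
        exact Submodule.sum_mem _ fun i _ =>
          Submodule.smul_mem _ _ (Submodule.subset_span ⟨i, rfl⟩)
      have h2 : f = φ⁻¹ • (algebraMap K F φ * f) := by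
        rw [Algebra.smul_def, ← mul_assoc, ← map_mul, inv_mul_cancel₀ hφ0, map_one, one_mul]
      rw [h2]
      exact Submodule.smul_mem _ _ h1
  · rw [Fintype.linearIndependent_iff]
    intro g hg i
    obtain ⟨x, hx⟩ : ∃ x : Fin (Module.finrank A Λ) → A, ∀ j, π (x j) = g j :=
      ⟨fun j => (D.π_surjective (g j)).choose, fun j => (D.π_surjective (g j)).choose_spec⟩
    set y : Λ := ∑ j, x j • e j with hy
    have hyF : (y : F) = ∑ j, ((x j : A) : K) • ((e j : Λ) : F) := by
      rw [hy, AddSubmonoidClass.coe_finsetSum]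
      rfl
    have hyb : (⟨(y : F), (hmemΛ y).2⟩ : D.ball) =
        ∑ j, ⟨algebraMap K F ((x j : A) : K), D.algebraMap_mem_ball (x j)⟩ * b j := by
      apply Subtype.ext
      show (y : F) = ((∑ j, ⟨algebraMap K F ((x j : A) : K), D.algebraMap_mem_ball (x j)⟩ * b j :
        D.ball) : F)
      rw [hyF, AddSubmonoidClass.coe_finsetSum]
      exact Finset.sum_congr rfl fun j _ => Algebra.smul_def _ _
    have hr : D.red ⟨(y : F), (hmemΛ y).2⟩ = 0 := by
      rw [hyb, map_sum, ← hg]
      refine Finset.sum_congr rfl fun j _ => ?_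
      rw [D.red_const_mul, hx j]
    obtain ⟨t, f', hπt, hyt⟩ := D.exists_factor ⟨(y : F), (hmemΛ y).2⟩ hr
    have hyt' : (y : F) = algebraMap K F (t : K) * (f' : F) := hyt
    by_cases ht0 : t = 0
    · -- then `y = 0`
      have hy0 : y = 0 := by
        apply Subtype.ext
        rw [hyt', ht0]
        simp
      have hrepr_y : e.repr y i = x i := by
        rw [hy, e.repr_sum_self]
      rw [← hx i, ← hrepr_y, hy0, map_zero]
      simp
    · have ht0' : ((t : A) : K) ≠ 0 := fun h0 => ht0 (Subtype.ext h0)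
      have hf'V : (f' : F) ∈ V := by
        have h3 : (f' : F) = ((t : A) : K)⁻¹ • (y : F) := by
          rw [hyt', Algebra.smul_def, ← mul_assoc, ← map_mul, inv_mul_cancel₀ ht0', map_one,
            one_mul]
        rw [h3]
        exact V.smul_mem _ (hmemΛ y).1
      have hhΛ : (f' : F) ∈ Λ := ⟨hf'V, f'.2⟩
      have hyc : y = t • (⟨(f' : F), hhΛ⟩ : Λ) := by
        apply Subtype.ext
        rw [hyt']
        show _ = ((t : A) : K) • (f' : F)
        rw [Algebra.smul_def]
      have hrepr_y : e.repr y i = x i := by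
        rw [hy, e.repr_sum_self]
      have hrepr_c : e.repr y i = t * e.repr ⟨(f' : F), hhΛ⟩ i := by
        rw [hyc, map_smul]
        rfl
      rw [← hx i, ← hrepr_y, hrepr_c, map_mul, hπt, zero_mul]

/-- **BASE CHANGE**: the semistable reduction datum over `(K, A, F)` with the same reduction
ring `R`. -/
def toSSRed : SSRed A π R F where
  O := D.ball
  red := D.red
  π_surjective := D.π_surjective
  algebraMap_mem := D.algebraMap_mem_ball
  red_algebraMap := D.red_algebraMap
  exists_orthonormal := D.exists_orthonormal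

theorem toSSRed_O : D.toSSRed.O = D.ball := rfl

theorem toSSRed_red (f : D.ball) : D.toSSRed.red f = D.red f := rfl

/-- `ιF` maps `S₀.O` into the ball, with the same reduction -/
theorem toSSRed_red_ιF (x : S₀.O) :
    D.toSSRed.red ⟨D.ιF ((x : S₀.O) : F₀), D.ιF_mem_ball x⟩ = S₀.red x :=
  D.red_ιF x

/-- **reduction of spaces defined over `K₀`**: if `V` is the `K`-span of `ιF V₀`, `V₀ ⊂ F₀`
finite-dimensional over `K₀`, then `red (V ∩ O) = red₀ (V₀ ∩ O₀)`. -/
theorem redSp_span (V₀ : Submodule K₀ F₀) (hV₀ : Module.Finite K₀ V₀) (V : Submodule K F)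
    (hV : V = Submodule.span K (D.ιF '' (V₀ : Set F₀))) :
    D.toSSRed.redSp V = S₀.redSp V₀ := by
  classical
  obtain ⟨n, e, he_span, he_li⟩ := S₀.exists_orthonormal V₀ hV₀
  have hVe : V = Submodule.span K (Set.range fun j => D.ιF ((e j : S₀.O) : F₀)) := by
    rw [hV]
    apply le_antisymm
    · rw [Submodule.span_le]
      rintro _ ⟨x, hx, rfl⟩
      rw [SetLike.mem_coe, ← he_span] at hx
      exact D.ιF_mem_span (fun j => ((e j : S₀.O) : F₀)) hx
    · rw [Submodule.span_le]
      rintro _ ⟨j, rfl⟩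
      refine Submodule.subset_span ⟨_, ?_, rfl⟩
      rw [SetLike.mem_coe, ← he_span]
      exact Submodule.subset_span ⟨j, rfl⟩
  apply le_antisymm
  · rintro _ ⟨f, hf, rfl⟩
    rw [hVe] at hf
    obtain ⟨g, hg⟩ := (Submodule.mem_span_range_iff_exists_fun K).mp hf
    have hmem : ∀ j, g j ∈ A := D.coeff_mem_of_sum_mem e he_li g (by rw [hg]; exact f.2)
    have hred : D.red f = ∑ j, π (⟨g j, hmem j⟩ : A) • S₀.red (e j) :=
      D.red_sum_smul e (fun j => ⟨g j, hmem j⟩) f hg.symm
    change D.red f ∈ _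
    rw [hred]
    refine Submodule.sum_mem _ fun j _ => Submodule.smul_mem _ _ ?_
    refine S₀.red_mem_redSp (e j) ?_
    rw [← he_span]
    exact Submodule.subset_span ⟨j, rfl⟩
  · rintro _ ⟨x, hx, rfl⟩
    refine ⟨⟨D.ιF ((x : S₀.O) : F₀), D.ιF_mem_ball x⟩, ?_, D.red_ιF x⟩
    rw [hV]
    exact Submodule.subset_span ⟨_, hx, rfl⟩

end BCData

end Fermat.Agent.S36lib

end
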