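import Mathlib
import Fermat.Agent.S36lib.SSRedBC
import Fermat.Agent.S36lib.SetupK0
import Fermat.Agent.S36lib.FixedArtin

/-!
# Item 83 (S36), block CRUX (helper3): the base change datum for the modular function fields

`bcDataK0 A L F₀ hfix hspan S₀ : BCData S₀ A (residue A) (FF L)` for an intermediate field
`F₀` of `FF L / K0` (in the application `F₀ = f0Field A L`) all of whose elements are fixed by the
inertia group `I_A` (`hfix`) and which spans `FF L` over `Kbar` (`hspan`), and any
`S₀ : SSRed (k0Val A) (k0Res A) R F₀`.  Then `(bcDataK0 …).toSSRed : SSRed A (residue A) R (FF L)`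
is a semistable reduction datum on the `Kbar`-function field with the SAME (possibly non-reduced)
reduction ring `R`, to which Riemann–Roch (`RRBase Kbar (FF L)`), `CruxAbs` and `CruxNR` apply.
-/

set_option autoImplicit false
set_option linter.unusedSectionVars false
set_option linter.style.haveILetI false

noncomputable section

namespace Fermat.Agent.S36lib

open ModularCurve AlgebraicCurve
open Fermat.Agent.S24lib Fermat.Agent.S34lib

variable (A : ValuationSubring Kbar) (L : ℕ) [NeZero L]

/-- the pairs `(galFF σ, σ)`, `σ ∈ I_A`, as ring endomorphisms -/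
def bciPairs : Set ((FF L →+* FF L) × (Kbar →+* Kbar)) :=
  {g | ∃ σ ∈ A.inertiaSubgroupIn ℚ,
    g = (((SemilinearAut.toRingAut (galFF L σ) : FF L ≃+* FF L) : FF L →+* FF L),
      ((σ : Kbar ≃ₐ[ℚ] Kbar) : Kbar →+* Kbar))}

theorem bciPairs_semilinear : ∀ g ∈ bciPairs A L, ∀ c : Kbar,
    g.1 (algebraMap Kbar (FF L) c) = algebraMap Kbar (FF L) (g.2 c) := by
  rintro _ ⟨σ, -, rfl⟩ c
  exact SemilinearAut.commutes (galFF L σ) c

theorem bciPairs_fixed_const : ∀ c : Kbar, (∀ g ∈ bciPairs A L, g.2 c = c) →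
    c ∈ Set.range (algebraMap (k0Field A) Kbar) := by
  intro c hc
  have hmem : c ∈ k0Field A := by
    rw [mem_k0Field_iff]
    intro σ hσ
    exact hc _ ⟨σ, hσ, rfl⟩
  exact ⟨⟨c, hmem⟩, rfl⟩

variable {A L}
variable {k : Type*} [Field k] {R : Type*} [CommRing R]
  [Algebra (IsLocalRing.ResidueField A) R]

/-- **the base change datum** `K0 → Kbar`, `F₀ → FF L`. -/
def bcDataK0 (F₀ : IntermediateField (k0Field A) (FF L))
    (hfix : ∀ x ∈ F₀, IsIFixed L A x)
    (hspan : Submodule.span Kbar (F₀ : Set (FF L)) = ⊤)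
    (S₀ : SSRed (k0Val A) (k0Res A) R F₀) :
    BCData S₀ A (IsLocalRing.residue A) (FF L) where
  ιK := algebraMap (k0Field A) Kbar
  ιF := algebraMap F₀ (FF L)
  comm := fun c => rfl
  mem := fun a => a.2
  π_comp := fun a => rfl
  ld := by
    intro n x hx
    have h1 : LinearIndependent (k0Field A) (fun i => ((x i : F₀) : FF L)) :=
      hx.map' F₀.val.toLinearMap (LinearMap.ker_eq_bot.mpr F₀.val.injective)
    refine s36_linearIndependent_of_fixed (bciPairs A L) (bciPairs_semilinear A L)
      (bciPairs_fixed_const A L) _ ?_ h1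
    rintro _ ⟨σ, hσ, rfl⟩ i
    exact hfix _ (x i).2 σ hσ
  gen := by
    intro f
    have hf : f ∈ Submodule.span Kbar (F₀ : Set (FF L)) := by rw [hspan]; trivial
    obtain ⟨n, c, g, hsum⟩ := Submodule.mem_span_set'.mp hf
    exact ⟨n, c, fun i => ⟨(g i : FF L), (g i).2⟩, hsum.symm⟩

/-! ### the two hypotheses for `F₀ = f0Field A L` -/

variable (A L)

/-- `j = j_1` -/
theorem bci_jF_eq : jF L = jdF L 1 (one_dvd L) := by
  apply Subtype.ext
  rw [coe_jF, coe_jdF, qExpand_one_apply]

/-- the elements of `f0Field A L` are fixed by the inertia group (easy half of V-A) -/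
theorem bci_isIFixed_of_mem {x : FF L} (hx : x ∈ f0Field A L) : IsIFixed L A x := by
  intro σ hσ
  induction hx using IntermediateField.adjoin_induction with
  | mem y hy =>
    obtain ⟨d, hd, hne, rfl⟩ := hy
    exact Subtype.ext (coeffMap_coeffEmb σ _)
  | algebraMap c =>
    have h1 : algebraMap (k0Field A) (FF L) c = algebraMap Kbar (FF L) (c : Kbar) := rfl
    rw [h1, SemilinearAut.smul_algebraMap]
    congr 1
    exact k0Field_fixed A c hσ
  | add y z _ _ hy hz => rw [smul_add, hy, hz]
  | inv y _ hy => rw [smul_inv'', hy]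
  | mul y z _ _ hy hz => rw [smul_mul', hy, hz]

/-- `FF L` is spanned over `Kbar` by `f0Field A L` -/
theorem bci_span_f0Field : Submodule.span Kbar ((f0Field A L : Set (FF L))) = ⊤ := by
  have h := s36_span_eq_top_of_algebraic (K := Kbar) (F := FF L) (f0Field A L).toSubfield ?_ ?_
  · exact h
  · intro c
    have hc : IsAlgebraic ℚ c := (AlgebraicClosure.isAlgebraic ℚ).isAlgebraic c
    obtain ⟨p, hp0, hp⟩ := hc
    refine ⟨p.map (algebraMap ℚ (f0Field A L).toSubfield), ?_, ?_⟩
    · exact (Polynomial.map_ne_zero_iff (algebraMap ℚ (f0Field A L).toSubfield).injective).mpr hp0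
    · rw [Polynomial.aeval_map_algebraMap]
      have h2 : Polynomial.aeval (algebraMap Kbar (FF L) c) p
          = algebraMap Kbar (FF L) (Polynomial.aeval c p) := by
        rw [← Polynomial.aeval_algebraMap_apply]
      rw [h2, hp, map_zero]
  · intro T hK hF
    have hgen := Fermat.Agent.HeckeBar.adjoin_jF_jdF_eq_top L
    rw [eq_top_iff]
    intro y _
    have hy : y ∈ IntermediateField.adjoin Kbar {jF L, jdF L L dvd_rfl} := by
      rw [hgen]; trivial
    let T' : IntermediateField Kbar (FF L) :=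
      { T with algebraMap_mem' := fun c => hK ⟨c, rfl⟩ }
    have hle : IntermediateField.adjoin Kbar {jF L, jdF L L dvd_rfl} ≤ T' := by
      rw [IntermediateField.adjoin_le_iff]
      rintro z (rfl | rfl)
      · apply hF
        rw [bci_jF_eq]
        exact jdF_mem_f0Field A L 1 (one_dvd L)
      · apply hF
        exact jdF_mem_f0Field A L L dvd_rfl
    exact hle hy

variable {A L}

/-- **the base change datum for `F₀ = f0Field A L`** -/
def bcDataF0 (S₀ : SSRed (k0Val A) (k0Res A) R (f0Field A L)) :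
    BCData S₀ A (IsLocalRing.residue A) (FF L) :=
  bcDataK0 (f0Field A L) (fun _ hx => bci_isIFixed_of_mem A L hx) (bci_span_f0Field A L) S₀

/-- **the semistable reduction datum over `(Kbar, A, FF L)`** attached to one over
`(K0, A0, F0(L))`, with the same reduction ring. -/
def bcSSRed (S₀ : SSRed (k0Val A) (k0Res A) R (f0Field A L)) :
    SSRed A (IsLocalRing.residue A) R (FF L) :=
  (bcDataF0 S₀).toSSRed

/-- the unit ball of `bcSSRed S₀` contains `S₀.O` -/
theorem bcSSRed_mem (S₀ : SSRed (k0Val A) (k0Res A) R (f0Field A L)) (x : S₀.O) :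
    (((x : S₀.O) : f0Field A L) : FF L) ∈ (bcSSRed S₀).O :=
  (bcDataF0 S₀).ιF_mem_ball x

/-- the reduction of `bcSSRed S₀` extends that of `S₀` -/
theorem bcSSRed_red (S₀ : SSRed (k0Val A) (k0Res A) R (f0Field A L)) (x : S₀.O) :
    (bcSSRed S₀).red ⟨(((x : S₀.O) : f0Field A L) : FF L), bcSSRed_mem S₀ x⟩ = S₀.red x :=
  (bcDataF0 S₀).red_ιF x

/-- **reduction of a space defined over `K0`**: for `V₀ ⊂ F0(L)` finite-dimensional over `K0`
and `V` its `Kbar`-span in `FF L`: `red (V ∩ O) = red₀ (V₀ ∩ O₀)`. -/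
theorem bcSSRed_redSp (S₀ : SSRed (k0Val A) (k0Res A) R (f0Field A L))
    (V₀ : Submodule (k0Field A) (f0Field A L)) (hV₀ : Module.Finite (k0Field A) V₀)
    (V : Submodule Kbar (FF L))
    (hV : V = Submodule.span Kbar ((fun x : f0Field A L => (x : FF L)) '' (V₀ : Set _))) :
    (bcSSRed S₀).redSp V = S₀.redSp V₀ :=
  (bcDataF0 S₀).redSp_span V₀ hV₀ V hV

end Fermat.Agent.S36lib

end
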