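/-
Item 83 (S36), piece C-6c CRUX-TAIL (helper16).  No sorry in this file.

The crux `cbc_kummer` (`CruxBC.lean`) for the modular function field `FF L` over `Kbar`, based
changed from `F0(L) = f0Field A L` over `K0` (helper3's `bcDataF0`), with

* `hPE` only required for `a ≥ a₀ + a₁` (`ctl_cnr_kummer`, `ctl_cl_kummer`, `ctl_cf_kummer`,
  `ctl_bc_kummer`: the same proofs as `cnr_kummer`, …);
* the `K0`-forms `V₀ a := L(a D₁) ∩ F0(L)`, `W₀ a := L(a D₁ + E') ∩ F0(L)` (`CruxK0Form.lean`),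
  so that `hV₀fin`, `hV₀`, `hW₀fin`, `hW₀` are PROVED (Galois descent; `D₁` and `u` inertia-fixed);
* `hdimE` PROVED from Riemann–Roch (`2g − 2 < a₀ deg D₁`);
* `(h1)` PROVED from `u ∈ L(a₁ D₁)` (`u` regular off `D₁`): then `1 ∈ L(a₁ D₁ + E') ∩ O`.

What is left as hypotheses of `ctl_kummer_FF`: `hle`, `(F3')`, `(H0)`, the exact unit `x`, and
`hPE` (helper12's TUBE lemma), all at the `K0`-level, elementwise.
-/
import Mathlib
import Fermat.Agent.S36lib.CruxBC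
import Fermat.Agent.S36lib.CruxK0Form
import Fermat.Agent.S36lib.SSRedBCInst
import Fermat.Agent.RRlib.Modular
import Fermat.Agent.S34lib.RRFacts

set_option autoImplicit false
set_option linter.unusedSectionVars false
set_option linter.style.haveILetI false

noncomputable section

namespace Fermat.Agent.S36lib

open ModularCurve AlgebraicCurve
open Fermat.Agent.S24lib Fermat.Agent.S34lib Fermat.Agent.RRlib

section Abstract

variable {K F k : Type*} [Field K] [Field F] [Algebra K F] [Field k]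
variable {R : Type*} [CommRing R] [Algebra k R]
variable {A : ValuationSubring K} {π : A →+* k}
variable {S : SSRed A π R F} {D₁ D₂ : Divisor K F}
variable {P : ℕ → Submodule k R} {a₀ n₂ m : ℕ} {f finv : S.O}

/-- `cnr_kummer` with `hPE` only for `a ≥ a₀ + a₁`. -/
theorem ctl_cnr_kummer [RRBase K F] [Nontrivial R] [Infinite k] (hP : CnrPole S D₁ P a₀)
    (hf : CnrDiv S m D₁ D₂ n₂ f finv)
    (hshift : ∀ (b c : ℕ) (r : R), r * S.red f ^ c ∈ P (b + c * n₂) → r ∈ P b)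
    (hdimE : ∀ a, a₀ ≤ a → ∀ E : Divisor K F, Divisor.degree E = 0 →
      Module.finrank K (riemannRochSpace (a • D₁ + E)) =
        Module.finrank K (riemannRochSpace (a • D₁)))
    (u : S.O) (hu0 : (u : F) ≠ 0) (hu : S.red u = 1)
    (hdvd : ∀ v : Place K F, (m : ℤ) ∣ v.ord (u : F)) (a₁ : ℕ)
    (h1 : ∀ E : Divisor K F, (∀ v : Place K F, v.ord (u : F) = m * E v) →
      (1 : R) ∈ S.redSp (riemannRochSpace (a₁ • D₁ + E)))
    (hPE : ∀ E : Divisor K F, (∀ v : Place K F, v.ord (u : F) = m * E v) →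
      ∀ a, a₀ + a₁ ≤ a → S.redSp (riemannRochSpace (a • D₁ + E)) ≤ P a) :
    ∃ (c : K) (s : F), s ≠ 0 ∧ (u : F) = algebraMap K F c * s ^ m := by
  have hm0 : (m : ℤ) ≠ 0 := by exact_mod_cast hf.m_pos.ne'
  refine cxa_kummer_of_glued (hP.cxaData hf hshift) u hu0 hu hdvd (a₀ + a₁) ?_
  intro E hEv a ha
  have hmE : m • E = divOf (K := K) (u : F) := by
    ext v
    rw [Finsupp.smul_apply, divOf_apply hu0, hEv v, nsmul_eq_mul]
  have hE : Divisor.degree E = 0 := by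
    have h1 : Divisor.degree (m • E) = 0 := by rw [hmE, degree_divOf]
    rw [map_nsmul, nsmul_eq_mul] at h1
    rcases mul_eq_zero.mp h1 with h | h
    · exact absurd h hm0
    · exact h
  have haa₀ : a₀ ≤ a := le_trans (Nat.le_add_right _ _) ha
  have haa₁ : a₁ ≤ a := le_trans (Nat.le_add_left _ _) ha
  exact cnr_hglue hP hf.m_pos hf.mk_ne E u hu0 hu hEv haa₀ (hdimE a haa₀ E hE)
    (cnr_one_mem_mono hP.D₁_nonneg E haa₁ (h1 E hEv)) (hPE E hEv a ha)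

variable {ι : Type*} {Λ : ι → Type*} [∀ i, CommRing (Λ i)]

/-- `cl_kummer` with `hPE` only for `a ≥ a₀ + a₁`. -/
theorem ctl_cl_kummer [RRBase K F] [Nontrivial R] [Infinite k] (E : ClExp k R Λ)
    (hP : CnrPole S D₁ E.P a₀) (hf : CnrDiv S m D₁ D₂ n₂ f finv)
    (hfu : ∀ i, IsUnit ((E.ε i (S.red f)).coeff (-((n₂ * E.w i : ℕ) : ℤ))))
    (hdimE : ∀ a, a₀ ≤ a → ∀ E' : Divisor K F, Divisor.degree E' = 0 →
      Module.finrank K (riemannRochSpace (a • D₁ + E')) =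
        Module.finrank K (riemannRochSpace (a • D₁)))
    (u : S.O) (hu0 : (u : F) ≠ 0) (hu : S.red u = 1)
    (hdvd : ∀ v : Place K F, (m : ℤ) ∣ v.ord (u : F)) (a₁ : ℕ)
    (h1 : ∀ E' : Divisor K F, (∀ v : Place K F, v.ord (u : F) = m * E' v) →
      (1 : R) ∈ S.redSp (riemannRochSpace (a₁ • D₁ + E')))
    (hPE : ∀ E' : Divisor K F, (∀ v : Place K F, v.ord (u : F) = m * E' v) →
      ∀ a, a₀ + a₁ ≤ a → S.redSp (riemannRochSpace (a • D₁ + E')) ≤ E.P a) :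
    ∃ (c : K) (s : F), s ≠ 0 ∧ (u : F) = algebraMap K F c * s ^ m := by
  have hfP : S.red f ∈ E.P n₂ := hP.le_P n₂ (S.red_mem_redSp f (cl_mem_L hf))
  exact ctl_cnr_kummer hP hf (E.shift hfP hfu) hdimE u hu0 hu hdvd a₁ h1 hPE

/-- `cf_kummer` with `hPE` only for `a ≥ a₀ + a₁`. -/
theorem ctl_cf_kummer [RRBase K F] [Nontrivial R] [Infinite k] (E : ClExp k R Λ)
    (hP : CnrPole S D₁ E.P a₀) (hm : 0 < m) (hmk : (m : k) ≠ 0) (hn₂ : 0 < n₂)
    (x xinv : S.O) (hunit : x * xinv = 1)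
    (hL : (x : F) ∈ riemannRochSpace (n₂ • D₁))
    (hexact : ∀ v : Place K F, D₁ v ≠ 0 → v.ord (x : F) = -(n₂ * D₁ v))
    (hxu : ∀ i, IsUnit ((E.ε i (S.red x)).coeff (-((n₂ * E.w i : ℕ) : ℤ))))
    (hdimE : ∀ a, a₀ ≤ a → ∀ E' : Divisor K F, Divisor.degree E' = 0 →
      Module.finrank K (riemannRochSpace (a • D₁ + E')) =
        Module.finrank K (riemannRochSpace (a • D₁)))
    (u : S.O) (hu0 : (u : F) ≠ 0) (hu : S.red u = 1)
    (hdvd : ∀ v : Place K F, (m : ℤ) ∣ v.ord (u : F)) (a₁ : ℕ)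
    (h1 : ∀ E' : Divisor K F, (∀ v : Place K F, v.ord (u : F) = m * E' v) →
      (1 : R) ∈ S.redSp (riemannRochSpace (a₁ • D₁ + E')))
    (hPE : ∀ E' : Divisor K F, (∀ v : Place K F, v.ord (u : F) = m * E' v) →
      ∀ a, a₀ + a₁ ≤ a → S.redSp (riemannRochSpace (a • D₁ + E')) ≤ E.P a) :
    ∃ (c : K) (s : F), s ≠ 0 ∧ (u : F) = algebraMap K F c * s ^ m :=
  ctl_cl_kummer E hP (cf_cnrDiv hm hmk hn₂ hP.D₁_nonneg x xinv hunit hL hexact) hxu hdimE u hu0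
    hu hdvd a₁ h1 hPE

end Abstract

section BC

variable {K₀ K F₀ F k : Type*} [Field K₀] [Field K] [Field F₀] [Field F] [Field k]
  [Algebra K₀ F₀] [Algebra K F]
variable {R : Type*} [CommRing R] [Algebra k R]
variable {A₀ : ValuationSubring K₀} {π₀ : A₀ →+* k}
variable {A : ValuationSubring K} {π : A →+* k} {S₀ : SSRed A₀ π₀ R F₀}
variable {ι : Type*} {Λ : ι → Type*} [∀ i, CommRing (Λ i)]

/-- `cbc_kummer` with `hPE` only for `a ≥ a₀ + a₁`. -/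
theorem ctl_bc_kummer [RRBase K F] [Nontrivial R] [Infinite k] (BC : BCData S₀ A π F)
    (E : ClExp k R Λ) (D₁ : Divisor K F) (hD : ∀ v, 0 ≤ D₁ v) (a₀ : ℕ)
    (V₀ : ℕ → Submodule K₀ F₀) (hV₀fin : ∀ a, Module.Finite K₀ (V₀ a))
    (hV₀ : ∀ a, riemannRochSpace (a • D₁) = Submodule.span K (BC.ιF '' (V₀ a : Set F₀)))
    (hle : ∀ a, S₀.redSp (V₀ a) ≤ E.P a)
    (hf3 : ∀ a c, a₀ ≤ a → a ≤ c → S₀.redSp (V₀ c) ⊓ E.P a ≤ S₀.redSp (V₀ a))
    (hh0 : ∀ (c : ℕ) (r : R), r ∈ S₀.redSp (V₀ c) → r ∈ E.P 0 →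
      r ∈ Set.range (algebraMap k R))
    {m n₂ : ℕ} (hm : 0 < m) (hmk : (m : k) ≠ 0) (hn₂ : 0 < n₂)
    (x xinv : S₀.O) (hunit : x * xinv = 1)
    (hxL : BC.ιF ((x : S₀.O) : F₀) ∈ riemannRochSpace (n₂ • D₁))
    (hexact : ∀ v : Place K F, D₁ v ≠ 0 → v.ord (BC.ιF ((x : S₀.O) : F₀)) = -(n₂ * D₁ v))
    (hxu : ∀ i, IsUnit ((E.ε i (S₀.red x)).coeff (-((n₂ * E.w i : ℕ) : ℤ))))
    (hdimE : ∀ a, a₀ ≤ a → ∀ E' : Divisor K F, Divisor.degree E' = 0 →
      Module.finrank K (riemannRochSpace (a • D₁ + E')) =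
        Module.finrank K (riemannRochSpace (a • D₁)))
    (u : S₀.O) (hu0 : ((u : S₀.O) : F₀) ≠ 0) (hu : S₀.red u = 1)
    (hdvd : ∀ v : Place K F, (m : ℤ) ∣ v.ord (BC.ιF ((u : S₀.O) : F₀))) (a₁ : ℕ)
    (W₀ : ℕ → Submodule K₀ F₀) (hW₀fin : ∀ a, Module.Finite K₀ (W₀ a))
    (hW₀ : ∀ E' : Divisor K F, (∀ v : Place K F, v.ord (BC.ιF ((u : S₀.O) : F₀)) = m * E' v) →
      ∀ a, riemannRochSpace (a • D₁ + E') = Submodule.span K (BC.ιF '' (W₀ a : Set F₀)))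
    (h1 : (1 : R) ∈ S₀.redSp (W₀ a₁))
    (hPE : ∀ a, a₀ + a₁ ≤ a → S₀.redSp (W₀ a) ≤ E.P a) :
    ∃ (c : K) (s : F), s ≠ 0 ∧ BC.ιF ((u : S₀.O) : F₀) = algebraMap K F c * s ^ m := by
  have hP := cbc_cnrPole BC E D₁ hD a₀ V₀ hV₀fin hV₀ hle hf3 hh0
  have hunit' : BC.up x * BC.up xinv = 1 := by rw [← BC.up_mul, hunit, BC.up_one]
  have hxu' : ∀ i, IsUnit ((E.ε i (BC.toSSRed.red (BC.up x))).coeff
      (-((n₂ * E.w i : ℕ) : ℤ))) := fun i => by rw [BC.red_up]; exact hxu i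
  have hu0' : ((BC.up u : BC.toSSRed.O) : F) ≠ 0 := by
    rw [BC.coe_up]
    exact (map_ne_zero BC.ιF).mpr hu0
  have hu' : BC.toSSRed.red (BC.up u) = 1 := by rw [BC.red_up, hu]
  have key : ∀ E' : Divisor K F,
      (∀ v : Place K F, v.ord ((BC.up u : BC.toSSRed.O) : F) = m * E' v) → ∀ a,
      BC.toSSRed.redSp (riemannRochSpace (a • D₁ + E')) = S₀.redSp (W₀ a) :=
    fun E' hE' a => BC.redSp_span (W₀ a) (hW₀fin a) _ (hW₀ E' hE' a)
  exact ctl_cf_kummer E hP hm hmk hn₂ (BC.up x) (BC.up xinv) hunit' hxL hexact hxu' hdimE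
    (BC.up u) hu0' hu' hdvd a₁
    (fun E' hE' => by rw [key E' hE']; exact h1)
    (fun E' hE' a ha => by rw [key E' hE']; exact hPE a ha)

end BC

/-! ### The modular function field -/

section Modular

variable {A : ValuationSubring Kbar} {L : ℕ} [NeZero L]
variable {R : Type*} [CommRing R] [Algebra (IsLocalRing.ResidueField A) R]
variable {ι : Type*} {Λ : ι → Type*} [∀ i, CommRing (Λ i)]

/-- the divisor `div u / m` -/
def ctlDiv (u : FF L) (m : ℕ) : Divisor Kbar (FF L) :=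
  haveI : RRHyp Kbar (FF L) := mod_rrHyp L
  Finsupp.mapRange (fun z : ℤ => z / (m : ℤ)) (by simp) (divOf (K := Kbar) u)

theorem ctlDiv_apply {u : FF L} (hu0 : u ≠ 0) {m : ℕ}
    (hdvd : ∀ v : Place Kbar (FF L), (m : ℤ) ∣ v.ord u) (v : Place Kbar (FF L)) :
    v.ord u = m * ctlDiv u m v := by
  haveI : RRHyp Kbar (FF L) := mod_rrHyp L
  show _ = (m : ℤ) * (Finsupp.mapRange _ _ _) v
  rw [Finsupp.mapRange_apply, divOf_apply hu0, Int.mul_ediv_cancel' (hdvd v)]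

theorem ctlDiv_unique {u : FF L} (hu0 : u ≠ 0) {m : ℕ} (hm : 0 < m)
    (hdvd : ∀ v : Place Kbar (FF L), (m : ℤ) ∣ v.ord u) (E' : Divisor Kbar (FF L))
    (hE' : ∀ v : Place Kbar (FF L), v.ord u = m * E' v) : E' = ctlDiv u m := by
  ext v
  have h1 := hE' v
  rw [ctlDiv_apply hu0 hdvd v] at h1
  have hm0 : (m : ℤ) ≠ 0 := by exact_mod_cast hm.ne'
  exact (mul_left_cancel₀ hm0 h1).symm

/-- `div u / m` is inertia-stable if `u` is inertia-fixed -/
theorem ctlDiv_smul {u : FF L} (hu0 : u ≠ 0) {m : ℕ} (hm : 0 < m)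
    (hdvd : ∀ v : Place Kbar (FF L), (m : ℤ) ∣ v.ord u) (hfix : IsIFixed L A u)
    (σ : Kbar ≃ₐ[ℚ] Kbar) (hσ : σ ∈ A.inertiaSubgroupIn ℚ) :
    galFF L σ • ctlDiv u m = ctlDiv u m := by
  apply ctlDiv_unique hu0 hm hdvd
  intro v
  rw [SemilinearAut.divisor_smul_apply]
  have h1 := ctlDiv_apply hu0 hdvd ((galFF L σ)⁻¹ • v)
  rw [← h1]
  have h2 := SemilinearAut.ord_smul (galFF L σ) ((galFF L σ)⁻¹ • v) u
  rw [smul_inv_smul, hfix σ hσ] at h2
  exact h2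


/-- **CRUX TAIL for the modular function field.**  `S₀` a semistable reduction datum of
`F0(L) = f0Field A L` over `A0 = k0Val A` with (possibly non-reduced) reduction ring `R`,
`E` a family of expansions of `R`, `D₁ ≥ 0` an inertia-stable divisor of `FF L` with
`2g − 2 < a₀ deg D₁`.  Hypotheses, all ELEMENTWISE on inertia-fixed integral functions `y ∈ O₀`:
`hle` (pole orders of reductions), `hf3` = `(F3')`, `hh0` = `(H0)`, the exact unit `x`,
`hPE` (TUBE lemma).  If `u ∈ O₀ ∩ L(a₁ D₁)`, `red u = 1`, `m ∣ div u`, then `u = c · s ^ m`. -/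
theorem ctl_kummer_FF [Nontrivial R] [Infinite (IsLocalRing.ResidueField A)]
    (S₀ : SSRed (k0Val A) (k0Res A) R (f0Field A L))
    (E : ClExp (IsLocalRing.ResidueField A) R Λ)
    (D₁ : Divisor Kbar (FF L)) (hD : ∀ v, 0 ≤ D₁ v) (hdeg : 0 ≤ Divisor.degree D₁)
    (hD₁I : ∀ σ ∈ A.inertiaSubgroupIn ℚ, galFF L σ • D₁ = D₁)
    (a₀ : ℕ) (ha₀ : 2 * (genusFF Kbar (FF L) : ℤ) - 2 < a₀ * Divisor.degree D₁)
    (hle : ∀ (a : ℕ) (y : S₀.O), ((y : f0Field A L) : FF L) ∈ riemannRochSpace (a • D₁) →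
      S₀.red y ∈ E.P a)
    (hf3 : ∀ a c, a₀ ≤ a → a ≤ c → ∀ y : S₀.O,
      ((y : f0Field A L) : FF L) ∈ riemannRochSpace (c • D₁) → S₀.red y ∈ E.P a →
      ∃ y' : S₀.O, ((y' : f0Field A L) : FF L) ∈ riemannRochSpace (a • D₁) ∧
        S₀.red y' = S₀.red y)
    (hh0 : ∀ (c : ℕ) (y : S₀.O), ((y : f0Field A L) : FF L) ∈ riemannRochSpace (c • D₁) →
      S₀.red y ∈ E.P 0 → S₀.red y ∈ Set.range (algebraMap (IsLocalRing.ResidueField A) R))
    {m n₂ : ℕ} (hm : 0 < m) (hmk : (m : IsLocalRing.ResidueField A) ≠ 0) (hn₂ : 0 < n₂)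
    (x xinv : S₀.O) (hunit : x * xinv = 1)
    (hxL : ((x : f0Field A L) : FF L) ∈ riemannRochSpace (n₂ • D₁))
    (hexact : ∀ v : Place Kbar (FF L), D₁ v ≠ 0 →
      v.ord ((x : f0Field A L) : FF L) = -(n₂ * D₁ v))
    (hxu : ∀ i, IsUnit ((E.ε i (S₀.red x)).coeff (-((n₂ * E.w i : ℕ) : ℤ))))
    (u : S₀.O) (hu0 : ((u : S₀.O) : f0Field A L) ≠ 0) (hu : S₀.red u = 1)
    (hdvd : ∀ v : Place Kbar (FF L), (m : ℤ) ∣ v.ord ((u : f0Field A L) : FF L)) (a₁ : ℕ)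
    (huL : ((u : f0Field A L) : FF L) ∈ riemannRochSpace (a₁ • D₁))
    (hPE : ∀ a, a₀ + a₁ ≤ a → ∀ y : S₀.O,
      ((y : f0Field A L) : FF L) ∈
        riemannRochSpace (a • D₁ + ctlDiv ((u : f0Field A L) : FF L) m) →
      S₀.red y ∈ E.P a) :
    ∃ (c : Kbar) (s : FF L), s ≠ 0 ∧
      ((u : f0Field A L) : FF L) = algebraMap Kbar (FF L) c * s ^ m := by
  haveI : RRHyp Kbar (FF L) := mod_rrHyp L
  have hu0' : ((u : f0Field A L) : FF L) ≠ 0 := fun h => hu0 (Subtype.ext h)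
  have hufix : IsIFixed L A ((u : f0Field A L) : FF L) :=
    (mem_f0Field_iff_isIFixed A L _).mp (u : f0Field A L).2
  -- stability of the divisors
  have hstab : ∀ a : ℕ, ∀ σ ∈ A.inertiaSubgroupIn ℚ, galFF L σ • (a • D₁) = a • D₁ := by
    intro a σ hσ
    rw [smul_comm, hD₁I σ hσ]
  have hstabE : ∀ a : ℕ, ∀ σ ∈ A.inertiaSubgroupIn ℚ,
      galFF L σ • (a • D₁ + ctlDiv ((u : f0Field A L) : FF L) m) =
        a • D₁ + ctlDiv ((u : f0Field A L) : FF L) m := by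
    intro a σ hσ
    rw [smul_add, hstab a σ hσ, ctlDiv_smul hu0' hm hdvd hufix σ hσ]
  have hfinL : ∀ D : Divisor Kbar (FF L), Module.Finite Kbar (riemannRochSpace D) :=
    fun D => finite_riemannRochSpace D
  refine ctl_bc_kummer (bcDataF0 S₀) E D₁ hD a₀
    (fun a => ckfForm A L (riemannRochSpace (a • D₁)))
    (fun a => by haveI := hfinL (a • D₁); exact ckf_finite A L _)
    (fun a => ckf_span_L A L (a • D₁) (hstab a)) ?_ ?_ ?_ hm hmk hn₂ x xinv hunit hxL hexact hxu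
    ?_ u hu0 hu hdvd a₁
    (fun a => ckfForm A L (riemannRochSpace (a • D₁ + ctlDiv ((u : f0Field A L) : FF L) m)))
    (fun a => by
      haveI := hfinL (a • D₁ + ctlDiv ((u : f0Field A L) : FF L) m)
      exact ckf_finite A L _) ?_ ?_ ?_
  · -- hle
    rintro a _ ⟨y, hy, rfl⟩
    exact hle a y hy
  · -- hf3
    rintro a c ha hac _ ⟨⟨y, hy, rfl⟩, hr⟩
    obtain ⟨y', hy', he⟩ := hf3 a c ha hac y hy hr
    exact ⟨y', hy', he⟩
  · -- hh0
    rintro c _ ⟨y, hy, rfl⟩ hr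
    exact hh0 c y hy hr
  · -- hdimE
    intro a ha E' hE'
    refine rrf_dimE D₁ a ?_ E' hE'
    have h1 : (a₀ : ℤ) * Divisor.degree D₁ ≤ (a : ℤ) * Divisor.degree D₁ :=
      mul_le_mul_of_nonneg_right (by exact_mod_cast ha) hdeg
    linarith
  · -- hW₀
    intro E' hE' a
    have hEq : E' = ctlDiv ((u : f0Field A L) : FF L) m := ctlDiv_unique hu0' hm hdvd E' hE'
    rw [hEq]
    exact ckf_span_L A L _ (hstabE a)
  · -- h1
    refine ⟨1, ?_, map_one _⟩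
    show ((1 : f0Field A L) : FF L) ∈ riemannRochSpace _
    have h11 : ((1 : f0Field A L) : FF L) = 1 := rfl
    rw [h11, tw_mem_L_iff one_ne_zero]
    intro v
    have h2 := (tw_mem_L_iff hu0').mp huL v
    have h3 := ctlDiv_apply hu0' hdvd v
    have h4 : (0 : ℤ) ≤ a₁ * D₁ v := mul_nonneg (by positivity) (hD v)
    have hm1 : (1 : ℤ) ≤ m := by exact_mod_cast hm
    simp only [Finsupp.add_apply, Finsupp.smul_apply, nsmul_eq_mul] at h2 ⊢
    have hord1 : (1 : FF L) ≠ 0 := one_ne_zero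
    have h5 : v.ord (1 : FF L) = 0 := by
      have := v.ord_mul hord1 hord1
      rw [mul_one] at this
      linarith
    rw [h5]
    by_cases hneg : ctlDiv ((u : f0Field A L) : FF L) m v < 0
    · have h6 : (m : ℤ) * ctlDiv ((u : f0Field A L) : FF L) m v ≤
          ctlDiv ((u : f0Field A L) : FF L) m v := by nlinarith
      linarith
    · rw [not_lt] at hneg
      linarith
  · -- hPE
    rintro a ha _ ⟨y, hy, rfl⟩
    exact hPE a ha y hy

end Modular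

end Fermat.Agent.S36lib

end
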