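/-
Item 83 (S36), piece C-7 CRUX-WIRE (helper16).  No sorry in this file.

`ctl_a2crux`: the part `A2Crux S m c2` of helper20's FINAL CONTRACT (`Apply2Skel.lean`) from

* `hhead` (HEAD of the crux = ABEL + TOR + GLUE-s + (h1), helper25/helper3/helper26): for `b ∈ B`
  a unit at the nodes, Kummer-new, `m ∣ div b`, there is `h₀ ∈ F0(M)^×` with
  `u₁ := b ^ c2 · h₀ ^ m ∈ B ∩ (1 + q · ball)`;
* the TAIL `ctl_kummer_FF` (`CruxTail.lean`) applied to `u₁`: `S₀` a semistable reduction datum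
  on the ball of `S`, `E` a family of expansions of its reduction ring, and the elementwise
  hypotheses `hle`, `(F3')`, `(H0)`, the exact unit `x`, `hPE` (TUBE).
-/
import Mathlib
import Fermat.Agent.S36lib.CruxTail
import Fermat.Agent.S36lib.Apply2Skel

set_option autoImplicit false
set_option linter.unusedSectionVars false
set_option linter.style.haveILetI false

noncomputable section

namespace Fermat.Agent.S36lib

open ModularCurve AlgebraicCurve
open Fermat.Agent.S24lib Fermat.Agent.S34lib Fermat.Agent.RRlib Fermat.Agent.S35lib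

variable {M' q : ℕ} [NeZero M'] [NeZero q] {A : ValuationSubring Kbar}
variable {κ : Type*} [Field κ] [Algebra (IsLocalRing.ResidueField A) κ]
variable {R : Type*} [CommRing R] [Algebra (IsLocalRing.ResidueField A) R]
variable {ι : Type*} {Λ : ι → Type*} [∀ i, CommRing (Λ i)]

set_option maxHeartbeats 2000000 in
/-- **the CRUX part of the final contract** from the HEAD (`hhead`) and the TAIL hypotheses. -/
theorem ctl_a2crux [Nontrivial R] [Infinite (IsLocalRing.ResidueField A)]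
    (S : NodeSetup (k0Val A) (k0Res A) κ (f0Field A (M' * q * q)))
    (S₀ : SSRed (k0Val A) (k0Res A) R (f0Field A (M' * q * q)))
    (hO : ∀ x : f0Field A (M' * q * q), x ∈ S.ball → x ∈ S₀.O)
    (hq0 : k0Res A (q : k0Val A) = 0)
    (E : ClExp (IsLocalRing.ResidueField A) R Λ)
    (D₁ : Divisor Kbar (FF (M' * q * q))) (hD : ∀ v, 0 ≤ D₁ v) (hdeg : 0 ≤ Divisor.degree D₁)
    (hD₁I : ∀ σ ∈ A.inertiaSubgroupIn ℚ, galFF (M' * q * q) σ • D₁ = D₁)
    (hBL : ∀ z : S.B, ∃ a : ℕ,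
      (((z : f0Field A (M' * q * q)) : FF (M' * q * q))) ∈ riemannRochSpace (a • D₁))
    (a₀ : ℕ) (ha₀ : 2 * (genusFF Kbar (FF (M' * q * q)) : ℤ) - 2 < a₀ * Divisor.degree D₁)
    (hle : ∀ (a : ℕ) (y : S₀.O),
      ((y : f0Field A (M' * q * q)) : FF (M' * q * q)) ∈ riemannRochSpace (a • D₁) →
      S₀.red y ∈ E.P a)
    (hf3 : ∀ a c, a₀ ≤ a → a ≤ c → ∀ y : S₀.O,
      ((y : f0Field A (M' * q * q)) : FF (M' * q * q)) ∈ riemannRochSpace (c • D₁) →
      S₀.red y ∈ E.P a →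
      ∃ y' : S₀.O, ((y' : f0Field A (M' * q * q)) : FF (M' * q * q)) ∈
        riemannRochSpace (a • D₁) ∧ S₀.red y' = S₀.red y)
    (hh0 : ∀ (c : ℕ) (y : S₀.O),
      ((y : f0Field A (M' * q * q)) : FF (M' * q * q)) ∈ riemannRochSpace (c • D₁) →
      S₀.red y ∈ E.P 0 → S₀.red y ∈ Set.range (algebraMap (IsLocalRing.ResidueField A) R))
    {m n₂ : ℕ} (c2 : ℕ) (hm : 0 < m) (hmk : (m : IsLocalRing.ResidueField A) ≠ 0) (hn₂ : 0 < n₂)
    (x xinv : S₀.O) (hunit : x * xinv = 1)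
    (hxL : ((x : f0Field A (M' * q * q)) : FF (M' * q * q)) ∈ riemannRochSpace (n₂ • D₁))
    (hexact : ∀ v : Place Kbar (FF (M' * q * q)), D₁ v ≠ 0 →
      v.ord ((x : f0Field A (M' * q * q)) : FF (M' * q * q)) = -(n₂ * D₁ v))
    (hxu : ∀ i, IsUnit ((E.ε i (S₀.red x)).coeff (-((n₂ * E.w i : ℕ) : ℤ))))
    (hhead : ∀ b : S.B, (b : f0Field A (M' * q * q)) ≠ 0 → S.IsUnitAtNodes b →
      (∀ P : Place Kbar (FF (M' * q * q)),
        (m : ℤ) ∣ P.ord (((b : f0Field A (M' * q * q)) : FF (M' * q * q)))) →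
      IsKummerNew2 M' q m (((b : f0Field A (M' * q * q)) : FF (M' * q * q))) →
      ∃ h₀ : f0Field A (M' * q * q), h₀ ≠ 0 ∧
        (b : f0Field A (M' * q * q)) ^ c2 * h₀ ^ m ∈ S.B ∧
        ∃ z : f0Field A (M' * q * q), z ∈ S.ball ∧
          (b : f0Field A (M' * q * q)) ^ c2 * h₀ ^ m = 1 + a2iQ A q (L := M' * q * q) * z)
    (hPE : ∀ u : S₀.O, (u : f0Field A (M' * q * q)) ∈ S.B → S₀.red u = 1 →
      (∀ v : Place Kbar (FF (M' * q * q)),
        (m : ℤ) ∣ v.ord ((u : f0Field A (M' * q * q)) : FF (M' * q * q))) →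
      ∀ a₁ : ℕ, ((u : f0Field A (M' * q * q)) : FF (M' * q * q)) ∈ riemannRochSpace (a₁ • D₁) →
      ∀ a, a₀ + a₁ ≤ a → ∀ y : S₀.O,
        ((y : f0Field A (M' * q * q)) : FF (M' * q * q)) ∈
          riemannRochSpace (a • D₁ +
            ctlDiv ((u : f0Field A (M' * q * q)) : FF (M' * q * q)) m) →
        S₀.red y ∈ E.P a) :
    A2Crux M' q A S m c2 := by
  intro b hb0 hnode hord hnew
  obtain ⟨h₀, hh₀, huB, z, hz, huz⟩ := hhead b hb0 hnode hord hnew
  -- the Kummer function `u₁`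
  have huO : (b : f0Field A (M' * q * q)) ^ c2 * h₀ ^ m ∈ S₀.O := hO _ (S.B_le_ball huB)
  obtain ⟨u, hucoe⟩ : ∃ u : S₀.O, (u : f0Field A (M' * q * q)) =
      (b : f0Field A (M' * q * q)) ^ c2 * h₀ ^ m := ⟨⟨_, huO⟩, rfl⟩
  have huB' : (u : f0Field A (M' * q * q)) ∈ S.B := by rw [hucoe]; exact huB
  have hu0 : ((u : S₀.O) : f0Field A (M' * q * q)) ≠ 0 := by
    rw [hucoe]
    exact mul_ne_zero (pow_ne_zero _ hb0) (pow_ne_zero _ hh₀)
  have hb0' : ((b : f0Field A (M' * q * q)) : FF (M' * q * q)) ≠ 0 := fun h =>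
    hb0 (Subtype.ext h)
  have hh₀' : ((h₀ : f0Field A (M' * q * q)) : FF (M' * q * q)) ≠ 0 := fun h =>
    hh₀ (Subtype.ext h)
  -- `red u₁ = 1`
  have hu1 : S₀.red u = 1 := by
    have e0 : ((S₀.C (q : k0Val A) : S₀.O) : f0Field A (M' * q * q)) =
        a2iQ A q (L := M' * q * q) := rfl
    have e1 : u = 1 + S₀.C (q : k0Val A) * ⟨z, hO z hz⟩ := by
      apply Subtype.ext
      rw [Subring.coe_add, Subring.coe_one, Subring.coe_mul, e0, hucoe]
      exact huz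
    rw [e1, map_add, map_one, map_mul, S₀.red_C, hq0, map_zero, zero_mul, add_zero]
  -- `m ∣ div u₁`
  have hcoe : ((u : f0Field A (M' * q * q)) : FF (M' * q * q)) =
      ((b : f0Field A (M' * q * q)) : FF (M' * q * q)) ^ c2 *
        ((h₀ : f0Field A (M' * q * q)) : FF (M' * q * q)) ^ m := by
    rw [hucoe]
    rfl
  have hdvd : ∀ v : Place Kbar (FF (M' * q * q)),
      (m : ℤ) ∣ v.ord ((u : f0Field A (M' * q * q)) : FF (M' * q * q)) := by
    intro v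
    rw [hcoe, v.ord_mul (pow_ne_zero _ hb0') (pow_ne_zero _ hh₀'), tw_ord_pow, tw_ord_pow]
    exact dvd_add (Dvd.dvd.mul_left (hord v) _) (dvd_mul_right _ _)
  obtain ⟨a₁, huL⟩ := hBL ⟨_, huB'⟩
  obtain ⟨c, s, hs0, hcs⟩ := ctl_kummer_FF S₀ E D₁ hD hdeg hD₁I a₀ ha₀ hle hf3 hh0 hm hmk hn₂
    x xinv hunit hxL hexact hxu u hu0 hu1 hdvd a₁ huL (hPE u huB' hu1 hdvd a₁ huL)
  refine ⟨c, s * (((h₀ : f0Field A (M' * q * q)) : FF (M' * q * q)))⁻¹, ?_⟩
  rw [hcoe] at hcs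
  have hpow : ((h₀ : f0Field A (M' * q * q)) : FF (M' * q * q)) ^ m ≠ 0 := pow_ne_zero _ hh₀'
  have h2 : ((b : f0Field A (M' * q * q)) : FF (M' * q * q)) ^ c2 =
      algebraMap Kbar (FF (M' * q * q)) c * s ^ m *
        (((h₀ : f0Field A (M' * q * q)) : FF (M' * q * q)) ^ m)⁻¹ := by
    rw [← hcs]
    exact (mul_inv_cancel_right₀ hpow _).symm
  rw [h2, mul_pow, inv_pow]
  exact mul_assoc _ _ _

end Fermat.Agent.S36lib

end
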