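/-
Item 83 (S36), piece C-8 CRUX-FINAL, part 1 (helper16).  No sorry in this file.

`ctl_a2crux_D1`: `ctl_a2crux` (`CruxWire.lean`) for the divisor `D₁ = fbmD1 = ∞ + 0 + ∑ mid_i`
(helper15's `FibreD1.lean`) and a setup `S` whose affine ring consists of functions regular off
`D1 = s36D1` (helper20's `D1Set.lean`; e.g. `nodeSetupSeriesD A (s36D1 …) …`).
Discharged here: `hD`, `hdeg`, `hD₁I` (`fbmD1`), `hBL` (`B ⊂ ⋃ L(a D₁)`), `ha₀` (Riemann–Roch
bound: `a₀` is replaced by `max a₀ (2 g)`).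
-/
import Mathlib
import Fermat.Agent.S36lib.CruxWire
import Fermat.Agent.S36lib.FibreD1
import Fermat.Agent.S36lib.D1Set

set_option autoImplicit false
set_option linter.unusedSectionVars false
set_option linter.style.haveILetI false

noncomputable section

namespace Fermat.Agent.S36lib

open ModularCurve AlgebraicCurve
open Fermat.Agent.S24lib Fermat.Agent.S34lib Fermat.Agent.RRlib Fermat.Agent.S35lib

variable (M' q : ℕ) [NeZero M'] [NeZero q] (hq : q.Prime) (hqM : ¬ q ∣ M')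
variable (ζ₀ : Kbarˣ) (hζ₀ : IsPrimitiveRoot (ζ₀ : Kbar) q)

/-- a function regular off `D1` lies in some `L(a D₁)` -/
theorem ctl_exists_mem_L (z : FF (M' * q * q))
    (hz : z ∈ offRegular (M' * q * q) (s36D1 M' q hq hqM)) :
    ∃ a : ℕ, z ∈ riemannRochSpace (K := Kbar) (a • fbmD1 M' q hq hqM ζ₀ hζ₀) := by
  classical
  rcases eq_or_ne z 0 with rfl | hz0
  · exact ⟨0, Submodule.zero_mem _⟩
  have hreg : ∀ P : Place Kbar (FF (M' * q * q)), P ≠ infPlaceBar (M' * q * q) →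
      P ≠ fbmZero M' q hq hqM → (∀ i, P ≠ fbmMid M' q hq hqM ζ₀ hζ₀ i) → 0 ≤ P.ord z := by
    intro P h1 h2 h3
    have hP : P ∉ s36D1 M' q hq hqM :=
      (not_mem_s36D1_iff M' q hq hqM ζ₀ hζ₀ P).2 ⟨h1, h2, h3⟩
    have := (mem_offRegular_iff (M' * q * q) _ z).1 hz P hP
    rwa [ffMem_iff_ord_nonneg] at this
  -- a common bound for the pole orders at the cusps of `D1`
  let b : ℕ := (-(infPlaceBar (M' * q * q)).ord z).toNat + (-(fbmZero M' q hq hqM).ord z).toNat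
    + ∑ i : Fin (q - 1), (-(fbmMid M' q hq hqM ζ₀ hζ₀ i).ord z).toNat
  have hb1 : (-(infPlaceBar (M' * q * q)).ord z).toNat ≤ b :=
    le_trans (Nat.le_add_right _ _) (Nat.le_add_right _ _)
  have hb2 : (-(fbmZero M' q hq hqM).ord z).toNat ≤ b :=
    le_trans (Nat.le_add_left _ _) (Nat.le_add_right _ _)
  have hb3 : ∀ i : Fin (q - 1), (-(fbmMid M' q hq hqM ζ₀ hζ₀ i).ord z).toNat ≤ b := by
    intro i
    refine le_trans ?_ (Nat.le_add_left _ _)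
    exact Finset.single_le_sum (f := fun i : Fin (q - 1) =>
      (-(fbmMid M' q hq hqM ζ₀ hζ₀ i).ord z).toNat) (fun _ _ => Nat.zero_le _)
      (Finset.mem_univ i)
  have key : ∀ (n : ℤ), (-n).toNat ≤ b → -(b : ℤ) ≤ n := by
    intro n hn
    have h1 : -n ≤ ((-n).toNat : ℤ) := Int.self_le_toNat _
    have h2 : (((-n).toNat : ℕ) : ℤ) ≤ (b : ℤ) := by exact_mod_cast hn
    linarith
  refine ⟨b, (mem_L_fbmD1_iff_ord M' q hq hqM ζ₀ hζ₀ b z).2
    ⟨hreg, Or.inr (key _ hb1), Or.inr (key _ hb2), fun i => Or.inr (key _ (hb3 i))⟩⟩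

variable {M' q} {A : ValuationSubring Kbar}
variable {κ : Type*} [Field κ] [Algebra (IsLocalRing.ResidueField A) κ]
variable {R : Type*} [CommRing R] [Algebra (IsLocalRing.ResidueField A) R]
variable {ι : Type*} {Λ : ι → Type*} [∀ i, CommRing (Λ i)]

set_option maxHeartbeats 2000000 in
/-- **the CRUX part of the final contract for `D₁ = fbmD1`.** -/
theorem ctl_a2crux_D1 [Nontrivial R] [Infinite (IsLocalRing.ResidueField A)]
    (S : NodeSetup (k0Val A) (k0Res A) κ (f0Field A (M' * q * q)))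
    (hSB : ∀ z : f0Field A (M' * q * q), z ∈ S.B →
      (z : FF (M' * q * q)) ∈ offRegular (M' * q * q) (s36D1 M' q hq hqM))
    (S₀ : SSRed (k0Val A) (k0Res A) R (f0Field A (M' * q * q)))
    (hO : ∀ x : f0Field A (M' * q * q), x ∈ S.ball → x ∈ S₀.O)
    (hq0 : k0Res A (q : k0Val A) = 0)
    (E : ClExp (IsLocalRing.ResidueField A) R Λ) (a₀ : ℕ)
    (hle : ∀ (a : ℕ) (y : S₀.O),
      ((y : f0Field A (M' * q * q)) : FF (M' * q * q)) ∈
        riemannRochSpace (a • fbmD1 M' q hq hqM ζ₀ hζ₀) → S₀.red y ∈ E.P a)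
    (hf3 : ∀ a c, a₀ ≤ a → a ≤ c → ∀ y : S₀.O,
      ((y : f0Field A (M' * q * q)) : FF (M' * q * q)) ∈
        riemannRochSpace (c • fbmD1 M' q hq hqM ζ₀ hζ₀) →
      S₀.red y ∈ E.P a →
      ∃ y' : S₀.O, ((y' : f0Field A (M' * q * q)) : FF (M' * q * q)) ∈
        riemannRochSpace (a • fbmD1 M' q hq hqM ζ₀ hζ₀) ∧ S₀.red y' = S₀.red y)
    (hh0 : ∀ (c : ℕ) (y : S₀.O),
      ((y : f0Field A (M' * q * q)) : FF (M' * q * q)) ∈
        riemannRochSpace (c • fbmD1 M' q hq hqM ζ₀ hζ₀) →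
      S₀.red y ∈ E.P 0 → S₀.red y ∈ Set.range (algebraMap (IsLocalRing.ResidueField A) R))
    {m n₂ : ℕ} (c2 : ℕ) (hm : 0 < m) (hmk : (m : IsLocalRing.ResidueField A) ≠ 0) (hn₂ : 0 < n₂)
    (x xinv : S₀.O) (hunit : x * xinv = 1)
    (hxL : ((x : f0Field A (M' * q * q)) : FF (M' * q * q)) ∈
      riemannRochSpace (n₂ • fbmD1 M' q hq hqM ζ₀ hζ₀))
    (hexact : ∀ v : Place Kbar (FF (M' * q * q)), fbmD1 M' q hq hqM ζ₀ hζ₀ v ≠ 0 →
      v.ord ((x : f0Field A (M' * q * q)) : FF (M' * q * q)) =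
        -(n₂ * fbmD1 M' q hq hqM ζ₀ hζ₀ v))
    (hxu : ∀ i, IsUnit ((E.ε i (S₀.red x)).coeff (-((n₂ * E.w i : ℕ) : ℤ))))
    (hhead : ∀ b : S.B, (b : f0Field A (M' * q * q)) ≠ 0 → S.IsUnitAtNodes b →
      (∀ P : Place Kbar (FF (M' * q * q)),
        (m : ℤ) ∣ P.ord (((b : f0Field A (M' * q * q)) : FF (M' * q * q)))) →
      IsKummerNew2 M' q m (((b : f0Field A (M' * q * q)) : FF (M' * q * q))) →
      ∃ h₀ : f0Field A (M' * q * q), h₀ ≠ 0 ∧
        (b : f0Field A (M' * q * q)) ^ c2 * h₀ ^ m ∈ S.B ∧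
        ∃ z : f0Field A (M' * q * q), z ∈ S.ball ∧
          (b : f0Field A (M' * q * q)) ^ c2 * h₀ ^ m = 1 + a2iQ A q (L := M' * q * q) * z)
    (hPE : ∀ u : S₀.O, (u : f0Field A (M' * q * q)) ∈ S.B → S₀.red u = 1 →
      (∀ v : Place Kbar (FF (M' * q * q)),
        (m : ℤ) ∣ v.ord ((u : f0Field A (M' * q * q)) : FF (M' * q * q))) →
      ∀ a₁ : ℕ, ((u : f0Field A (M' * q * q)) : FF (M' * q * q)) ∈
        riemannRochSpace (a₁ • fbmD1 M' q hq hqM ζ₀ hζ₀) →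
      ∀ a, a₀ + a₁ ≤ a → ∀ y : S₀.O,
        ((y : f0Field A (M' * q * q)) : FF (M' * q * q)) ∈
          riemannRochSpace (a • fbmD1 M' q hq hqM ζ₀ hζ₀ +
            ctlDiv ((u : f0Field A (M' * q * q)) : FF (M' * q * q)) m) →
        S₀.red y ∈ E.P a) :
    A2Crux M' q A S m c2 := by
  haveI : RRHyp Kbar (FF (M' * q * q)) := mod_rrHyp (M' * q * q)
  have hdegD : Divisor.degree (fbmD1 M' q hq hqM ζ₀ hζ₀) = (q : ℤ) + 1 :=
    fbmD1_degree M' q hq hqM ζ₀ hζ₀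
  have hdeg0 : (0 : ℤ) ≤ Divisor.degree (fbmD1 M' q hq hqM ζ₀ hζ₀) := by
    rw [hdegD]; positivity
  -- the bumped threshold
  set a₀' : ℕ := max a₀ (2 * genusFF Kbar (FF (M' * q * q))) with ha₀'
  have h1 : a₀ ≤ a₀' := le_max_left _ _
  have h2 : 2 * genusFF Kbar (FF (M' * q * q)) ≤ a₀' := le_max_right _ _
  have hbound : 2 * (genusFF Kbar (FF (M' * q * q)) : ℤ) - 2 <
      (a₀' : ℤ) * Divisor.degree (fbmD1 M' q hq hqM ζ₀ hζ₀) := by
    rw [hdegD]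
    have h3 : (2 * genusFF Kbar (FF (M' * q * q)) : ℤ) ≤ (a₀' : ℤ) := by exact_mod_cast h2
    have h4 : (0 : ℤ) ≤ (a₀' : ℤ) * (q : ℤ) := by positivity
    nlinarith
  refine ctl_a2crux S S₀ hO hq0 E (fbmD1 M' q hq hqM ζ₀ hζ₀)
    (fbmD1_nonneg M' q hq hqM ζ₀ hζ₀) hdeg0
    (fun σ _ => galFF_smul_fbmD1 M' q hq hqM ζ₀ hζ₀ σ)
    (fun z => ctl_exists_mem_L M' q hq hqM ζ₀ hζ₀ _ (hSB _ z.2))
    a₀' hbound hle
    (fun a c ha hac => hf3 a c (le_trans h1 ha) hac) hh0 c2 hm hmk hn₂ x xinv hunit hxL hexact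
    hxu hhead
    (fun u huB hu1 hdvd a₁ huL a ha =>
      hPE u huB hu1 hdvd a₁ huL a (le_trans (Nat.add_le_add_right h1 a₁) ha))

end Fermat.Agent.S36lib

end
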