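/-
Item 83 (S36), CRUX, TUBE lemma, step (2) (helper8; signatures of helper12).

`𝒜 = A1[[X]]` is a UFD (`A1` a DVR), `E : F → L` an expansion of the function field `F / K` with
`E(F) ⊂ Frac 𝒜 ⊂ L`.  For a prime element `p` of `𝒜` which is not associated to the uniformiser
`ϖ` of `A1`, the `p`-adic valuation of `Frac 𝒜` induces on `F` a discrete valuation which is
trivial on `K`: it is trivial or a multiple of the order function of a place of `F / K`.
Hence: if `m ∣ P.ord u` at all places `P` of `F / K` and `G = E(u) · X ^ N` with `m ∣ N`, then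
`m ∣ multiplicity p G`.

* `s36_ufm_powerSeries` : `A1[[X]]` is a UFD;
* `tbOrd`, `tbVal` : the `p`-adic order / valuation induced on `F` (any UFD `𝒜`);
* `s36_tube_dvd_gen` (any UFD `𝒜`, hypothesis `p`-integrality of the constants), `s36_tube_dvd`.
-/
import Mathlib
import Fermat.Agent.S24lib.FFPlaceVal
import Fermat.Agent.S36lib.Speed

set_option autoImplicit false

noncomputable section

namespace Fermat.Agent.S36lib

open AlgebraicCurve WithZero Fermat.Agent.S24lib

/-- `A1[[X]]` is a UFD for a discrete valuation ring `A1`. -/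
theorem s36_ufm_powerSeries (A1 : Type*) [CommRing A1] [IsDomain A1]
    [IsDiscreteValuationRing A1] : UniqueFactorizationMonoid (PowerSeries A1) :=
  inferInstance

section TubeOrd

variable {𝒜 F L : Type*} [CommRing 𝒜] [IsDomain 𝒜] [UniqueFactorizationMonoid 𝒜]
  [Field F] [Field L] (ι : 𝒜 →+* L) (E : F →+* L) (p : 𝒜)

/-- a chosen numerator of `E g` -/
def tbNum (hfrac : ∀ g : F, ∃ a b : 𝒜, b ≠ 0 ∧ E g * ι b = ι a) (g : F) : 𝒜 :=
  Classical.choose (hfrac g)

/-- a chosen denominator of `E g` -/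
def tbDen (hfrac : ∀ g : F, ∃ a b : 𝒜, b ≠ 0 ∧ E g * ι b = ι a) (g : F) : 𝒜 :=
  Classical.choose (Classical.choose_spec (hfrac g))

omit [IsDomain 𝒜] [UniqueFactorizationMonoid 𝒜] in
theorem tbDen_ne_zero (hfrac : ∀ g : F, ∃ a b : 𝒜, b ≠ 0 ∧ E g * ι b = ι a) (g : F) :
    tbDen ι E hfrac g ≠ 0 :=
  (Classical.choose_spec (Classical.choose_spec (hfrac g))).1

omit [IsDomain 𝒜] [UniqueFactorizationMonoid 𝒜] in
theorem tb_spec (hfrac : ∀ g : F, ∃ a b : 𝒜, b ≠ 0 ∧ E g * ι b = ι a) (g : F) :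
    E g * ι (tbDen ι E hfrac g) = ι (tbNum ι E hfrac g) :=
  (Classical.choose_spec (Classical.choose_spec (hfrac g))).2

/-- the `p`-adic order of `g ∈ F`, computed on a chosen representation `E g · ι b = ι a` -/
def tbOrd (hfrac : ∀ g : F, ∃ a b : 𝒜, b ≠ 0 ∧ E g * ι b = ι a) (g : F) : ℤ :=
  (multiplicity p (tbNum ι E hfrac g) : ℤ) - (multiplicity p (tbDen ι E hfrac g) : ℤ)

variable {ι E p}

omit [IsDomain 𝒜] [UniqueFactorizationMonoid 𝒜] in
theorem tb_ne_zero_of_rep (hι : Function.Injective ι) {g : F} (hg : g ≠ 0) {a b : 𝒜}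
    (hb : b ≠ 0) (h : E g * ι b = ι a) : a ≠ 0 := by
  rintro rfl
  rw [map_zero] at h
  rcases mul_eq_zero.mp h with h1 | h1
  · exact hg ((map_eq_zero E).mp h1)
  · exact hb (hι (by rw [h1, map_zero]))

/-- `tbOrd` computed on ANY representation -/
theorem tbOrd_eq (hι : Function.Injective ι) (hp : Prime p)
    (hfrac : ∀ g : F, ∃ a b : 𝒜, b ≠ 0 ∧ E g * ι b = ι a) {g : F} (hg : g ≠ 0) {a b : 𝒜}
    (hb : b ≠ 0) (h : E g * ι b = ι a) :
    tbOrd ι E p hfrac g = (multiplicity p a : ℤ) - (multiplicity p b : ℤ) := by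
  have hb0 := tbDen_ne_zero ι E hfrac g
  have h0 := tb_spec ι E hfrac g
  have ha : a ≠ 0 := tb_ne_zero_of_rep hι hg hb h
  have ha0 : tbNum ι E hfrac g ≠ 0 := tb_ne_zero_of_rep hι hg hb0 h0
  have hcross : a * tbDen ι E hfrac g = tbNum ι E hfrac g * b := by
    apply hι
    rw [map_mul, map_mul, ← h, ← h0]
    ring
  have hm := congrArg (multiplicity p) hcross
  rw [multiplicity_mul hp (FiniteMultiplicity.of_prime_left hp (mul_ne_zero ha hb0)),
    multiplicity_mul hp (FiniteMultiplicity.of_prime_left hp (mul_ne_zero ha0 hb))] at hm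
  have hm' : (multiplicity p a : ℤ) + multiplicity p (tbDen ι E hfrac g)
      = multiplicity p (tbNum ι E hfrac g) + multiplicity p b := by
    exact_mod_cast hm
  unfold tbOrd
  linarith

theorem tbOrd_one (hι : Function.Injective ι) (hp : Prime p)
    (hfrac : ∀ g : F, ∃ a b : 𝒜, b ≠ 0 ∧ E g * ι b = ι a) : tbOrd ι E p hfrac 1 = 0 := by
  rw [tbOrd_eq hι hp hfrac one_ne_zero (a := 1) (b := 1) one_ne_zero (by simp)]
  simp

theorem tbOrd_mul (hι : Function.Injective ι) (hp : Prime p)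
    (hfrac : ∀ g : F, ∃ a b : 𝒜, b ≠ 0 ∧ E g * ι b = ι a) {x y : F} (hx : x ≠ 0) (hy : y ≠ 0) :
    tbOrd ι E p hfrac (x * y) = tbOrd ι E p hfrac x + tbOrd ι E p hfrac y := by
  obtain ⟨a, b, hb, hab⟩ := hfrac x
  obtain ⟨c, d, hd, hcd⟩ := hfrac y
  have ha : a ≠ 0 := tb_ne_zero_of_rep hι hx hb hab
  have hc : c ≠ 0 := tb_ne_zero_of_rep hι hy hd hcd
  have hxy : E (x * y) * ι (b * d) = ι (a * c) := by
    rw [map_mul, map_mul, map_mul, ← hab, ← hcd]
    ring
  rw [tbOrd_eq hι hp hfrac (mul_ne_zero hx hy) (mul_ne_zero hb hd) hxy,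
    tbOrd_eq hι hp hfrac hx hb hab, tbOrd_eq hι hp hfrac hy hd hcd,
    multiplicity_mul hp (FiniteMultiplicity.of_prime_left hp (mul_ne_zero ha hc)),
    multiplicity_mul hp (FiniteMultiplicity.of_prime_left hp (mul_ne_zero hb hd))]
  push_cast
  ring

theorem tbOrd_add (hι : Function.Injective ι) (hp : Prime p)
    (hfrac : ∀ g : F, ∃ a b : 𝒜, b ≠ 0 ∧ E g * ι b = ι a) {x y : F} (hx : x ≠ 0) (hy : y ≠ 0)
    (hxy : x + y ≠ 0) :
    min (tbOrd ι E p hfrac x) (tbOrd ι E p hfrac y) ≤ tbOrd ι E p hfrac (x + y) := by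
  obtain ⟨a, b, hb, hab⟩ := hfrac x
  obtain ⟨c, d, hd, hcd⟩ := hfrac y
  have ha : a ≠ 0 := tb_ne_zero_of_rep hι hx hb hab
  have hc : c ≠ 0 := tb_ne_zero_of_rep hι hy hd hcd
  have hrep : E (x + y) * ι (b * d) = ι (a * d + c * b) := by
    rw [map_add, map_mul, map_add, map_mul, map_mul, ← hab, ← hcd]
    ring
  have hs : a * d + c * b ≠ 0 := tb_ne_zero_of_rep hι hxy (mul_ne_zero hb hd) hrep
  rw [tbOrd_eq hι hp hfrac hxy (mul_ne_zero hb hd) hrep,
    tbOrd_eq hι hp hfrac hx hb hab, tbOrd_eq hι hp hfrac hy hd hcd,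
    multiplicity_mul hp (FiniteMultiplicity.of_prime_left hp (mul_ne_zero hb hd))]
  -- `min (mult (a d)) (mult (c b)) ≤ mult (a d + c b)`
  have hfin : FiniteMultiplicity p (a * d + c * b) := FiniteMultiplicity.of_prime_left hp hs
  have h1 : multiplicity p (a * d) = multiplicity p a + multiplicity p d :=
    multiplicity_mul hp (FiniteMultiplicity.of_prime_left hp (mul_ne_zero ha hd))
  have h2 : multiplicity p (c * b) = multiplicity p c + multiplicity p b :=
    multiplicity_mul hp (FiniteMultiplicity.of_prime_left hp (mul_ne_zero hc hb))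
  have hmin : min (multiplicity p (a * d)) (multiplicity p (c * b))
      ≤ multiplicity p (a * d + c * b) := by
    apply hfin.le_multiplicity_of_pow_dvd
    exact dvd_add
      (pow_dvd_of_le_multiplicity (min_le_left _ _))
      (pow_dvd_of_le_multiplicity (min_le_right _ _))
  rw [h1, h2] at hmin
  have hmin' : min ((multiplicity p a : ℤ) + multiplicity p d)
      ((multiplicity p c : ℤ) + multiplicity p b) ≤ (multiplicity p (a * d + c * b) : ℤ) := by
    exact_mod_cast hmin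
  push_cast
  rcases le_total ((multiplicity p a : ℤ) + multiplicity p d)
      ((multiplicity p c : ℤ) + multiplicity p b) with h | h
  · rw [min_eq_left h] at hmin'
    exact le_trans (min_le_left _ _) (by linarith)
  · rw [min_eq_right h] at hmin'
    exact le_trans (min_le_right _ _) (by linarith)

open scoped Classical in
/-- **the valuation induced on `F`** by the prime element `p` of `𝒜` -/
def tbVal (hι : Function.Injective ι) (hp : Prime p)
    (hfrac : ∀ g : F, ∃ a b : 𝒜, b ≠ 0 ∧ E g * ι b = ι a) : Valuation F ℤᵐ⁰ where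
  toFun g := if g = 0 then 0 else exp (-(tbOrd ι E p hfrac g))
  map_zero' := if_pos rfl
  map_one' := by
    rw [if_neg one_ne_zero, tbOrd_one hι hp hfrac, neg_zero, exp_zero]
  map_mul' x y := by
    by_cases hx : x = 0
    · simp [hx]
    by_cases hy : y = 0
    · simp [hy]
    rw [if_neg (mul_ne_zero hx hy), if_neg hx, if_neg hy, tbOrd_mul hι hp hfrac hx hy,
      neg_add, exp_add]
  map_add_le_max' x y := by
    by_cases hx : x = 0
    · simp [hx]
    by_cases hy : y = 0
    · simp [hy]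
    by_cases hxy : x + y = 0
    · rw [if_pos hxy]
      exact zero_le
    rw [if_neg hxy, if_neg hx, if_neg hy]
    have h := tbOrd_add hι hp hfrac hx hy hxy
    rcases le_total (tbOrd ι E p hfrac x) (tbOrd ι E p hfrac y) with h1 | h1
    · rw [min_eq_left h1] at h
      exact le_trans (exp_le_exp.mpr (neg_le_neg h)) (le_max_left _ _)
    · rw [min_eq_right h1] at h
      exact le_trans (exp_le_exp.mpr (neg_le_neg h)) (le_max_right _ _)

open scoped Classical in
theorem tbVal_apply (hι : Function.Injective ι) (hp : Prime p)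
    (hfrac : ∀ g : F, ∃ a b : 𝒜, b ≠ 0 ∧ E g * ι b = ι a) {g : F} (hg : g ≠ 0) :
    tbVal hι hp hfrac g = exp (-(tbOrd ι E p hfrac g)) := if_neg hg

theorem log_tbVal (hι : Function.Injective ι) (hp : Prime p)
    (hfrac : ∀ g : F, ∃ a b : 𝒜, b ≠ 0 ∧ E g * ι b = ι a) {g : F} (hg : g ≠ 0) :
    -log (tbVal hι hp hfrac g) = tbOrd ι E p hfrac g := by
  rw [tbVal_apply hι hp hfrac hg, log_exp, neg_neg]

variable {K : Type*} [Field K] [Algebra K F]

/-- **the dictionary**: the order induced on `F` by a prime element `p` of `𝒜`, at which the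
constants are integral, is divisible by `m` on every `u` with `m ∣ P.ord u` at all places of
`F / K`. -/
theorem tbOrd_dvd (hι : Function.Injective ι) (hp : Prime p)
    (hfrac : ∀ g : F, ∃ a b : 𝒜, b ≠ 0 ∧ E g * ι b = ι a)
    (hK : ∀ c : K, ∃ a b : 𝒜, ¬ p ∣ b ∧ E (algebraMap K F c) * ι b = ι a)
    (m : ℕ) (u : F) (hu : u ≠ 0) (hdvd : ∀ P : Place K F, (m : ℤ) ∣ P.ord u) :
    (m : ℤ) ∣ tbOrd ι E p hfrac u := by
  -- the valuation is `≤ 1` on the constants
  have hKw : ∀ c : K, tbVal hι hp hfrac (algebraMap K F c) ≤ 1 := by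
    intro c
    by_cases hc : algebraMap K F c = 0
    · rw [hc, map_zero]
      exact zero_le
    obtain ⟨a, b, hpb, hab⟩ := hK c
    have hb : b ≠ 0 := fun h => hpb (h ▸ dvd_zero p)
    rw [tbVal_apply hι hp hfrac hc, ← exp_zero, exp_le_exp, tbOrd_eq hι hp hfrac hc hb hab,
      multiplicity_eq_zero.mpr hpb]
    simp
  by_cases hnt : ∃ f : F, 1 < tbVal hι hp hfrac f
  · obtain ⟨e, -, he⟩ := ffExists_index (ffPlaceOfVal (tbVal hι hp hfrac) hKw hnt)
      (tbVal hι hp hfrac) rfl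
    have h1 := he u hu
    rw [log_tbVal hι hp hfrac hu] at h1
    rw [h1]
    exact Dvd.dvd.mul_left (hdvd _) _
  · -- trivial valuation
    push Not at hnt
    have h0 : ∀ g : F, g ≠ 0 → tbOrd ι E p hfrac g = 0 := by
      intro g hg
      have h1 := hnt g
      have h2 := hnt g⁻¹
      rw [tbVal_apply hι hp hfrac hg, ← exp_zero, exp_le_exp] at h1
      rw [map_inv₀, tbVal_apply hι hp hfrac hg, ← exp_neg, ← exp_zero, exp_le_exp] at h2
      omega
    rw [h0 u hu]
    exact dvd_zero _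

/-- **TUBE, step (2)**, for a general UFD `𝒜` and `T ∈ 𝒜`: if `m ∣ P.ord u` at all places of
`F / K` and `G = E(u) · T ^ N` with `m ∣ N`, then `m ∣ multiplicity p G`. -/
theorem s36_tube_dvd_gen (hι : Function.Injective ι) (hp : Prime p)
    (hfrac : ∀ g : F, ∃ a b : 𝒜, b ≠ 0 ∧ E g * ι b = ι a)
    (hK : ∀ c : K, ∃ a b : 𝒜, ¬ p ∣ b ∧ E (algebraMap K F c) * ι b = ι a)
    (m : ℕ) (u : F) (hu : u ≠ 0) (hdvd : ∀ P : Place K F, (m : ℤ) ∣ P.ord u)
    (T : 𝒜) (hT : T ≠ 0) (G : 𝒜) (N : ℕ) (hN : m ∣ N) (hG : E u * ι (T ^ N) = ι G) :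
    m ∣ multiplicity p G := by
  have hTN : T ^ N ≠ 0 := pow_ne_zero _ hT
  have h1 := tbOrd_dvd hι hp hfrac hK m u hu hdvd
  rw [tbOrd_eq hι hp hfrac hu hTN hG,
    FiniteMultiplicity.multiplicity_pow hp (FiniteMultiplicity.of_prime_left hp hT)] at h1
  have h2 : (m : ℤ) ∣ ((N * multiplicity p T : ℕ) : ℤ) :=
    Int.natCast_dvd_natCast.mpr (Dvd.dvd.mul_right hN _)
  have h3 : (m : ℤ) ∣ (multiplicity p G : ℤ) := by
    have := dvd_add h1 h2
    rwa [sub_add_cancel] at this
  exact Int.natCast_dvd_natCast.mp h3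

end TubeOrd

section PowerSeries

variable {A1 K F L : Type*} [CommRing A1] [IsDomain A1] [IsDiscreteValuationRing A1]
  [Field K] [Field F] [Algebra K F] [Field L]

omit [IsDomain A1] [IsDiscreteValuationRing A1] in
/-- `C ϖ` is irreducible in `A1[[X]]` -/
theorem tb_irreducible_C {ϖ : A1} (hϖ : Irreducible ϖ) :
    Irreducible (PowerSeries.C ϖ : PowerSeries A1) := by
  constructor
  · intro h
    apply hϖ.not_isUnit
    have := h.map (PowerSeries.constantCoeff (R := A1))
    rwa [PowerSeries.constantCoeff_C] at this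
  · intro f g hfg
    have h0 := congrArg (PowerSeries.constantCoeff (R := A1)) hfg
    rw [PowerSeries.constantCoeff_C, map_mul] at h0
    rcases hϖ.isUnit_or_isUnit h0 with h | h
    · left
      exact PowerSeries.isUnit_iff_constantCoeff.mpr h
    · right
      exact PowerSeries.isUnit_iff_constantCoeff.mpr h

/-- **TUBE, step (2)** (signature of helper12). -/
theorem s36_tube_dvd
    (ι : PowerSeries A1 →+* L) (hι : Function.Injective ι) (E : F →+* L)
    (hfrac : ∀ g : F, ∃ a b : PowerSeries A1, b ≠ 0 ∧ E g * ι b = ι a)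
    (ϖ : A1) (hϖ : Irreducible ϖ)
    (hK : ∀ c : K, ∃ (a : PowerSeries A1) (n : ℕ),
      E (algebraMap K F c) * ι (PowerSeries.C ϖ ^ n) = ι a)
    (m : ℕ) (u : F) (hu : u ≠ 0) (hdvd : ∀ P : Place K F, (m : ℤ) ∣ P.ord u)
    (G : PowerSeries A1) (N : ℕ) (hN : m ∣ N) (hG : E u * ι (PowerSeries.X ^ N) = ι G)
    (p : PowerSeries A1) (hp : Prime p) (hpϖ : ¬ Associated p (PowerSeries.C ϖ)) :
    m ∣ multiplicity p G := by
  have hpC : ¬ p ∣ (PowerSeries.C ϖ : PowerSeries A1) := by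
    intro h
    exact hpϖ (hp.irreducible.associated_of_dvd (tb_irreducible_C hϖ) h)
  have hK' : ∀ c : K, ∃ a b : PowerSeries A1, ¬ p ∣ b ∧ E (algebraMap K F c) * ι b = ι a := by
    intro c
    obtain ⟨a, n, h⟩ := hK c
    exact ⟨a, PowerSeries.C ϖ ^ n, fun hd => hpC (hp.dvd_of_dvd_pow hd), h⟩
  exact s36_tube_dvd_gen hι hp hfrac hK' m u hu hdvd PowerSeries.X PowerSeries.X_ne_zero G N hN hG

end PowerSeries

end Fermat.Agent.S36lib

end
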