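/-
Item 83 (S36), piece TUBE, final assembly (helper12).

`s36_tube_final` : the tube lemma at ONE cusp for `𝒜 = A₁[[X]]`, `A₁` a discrete valuation ring,
with the exact root closure (`ExactRoot.lean`, helper1) and the dictionary (`TubeDict.lean`,
helper8) plugged in.  The reduction of the ball is the reduction by fractions `tsBallRed`
(`TubeSeries.lean`).

`s36_tube_family` : for a family of expansions `Ecl : ClExp k R Λ` of the reduction ring `R` of the
ball which is given at every cusp `i` by `tsBallRed`: if `u ∈ O`, `red u = 1`, `m ∣ div u`, `u`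
has an integral expansion with pole order `≤ a₁ wᵢ`, and `y ∈ O` is such that `y^m u` has an
integral expansion with pole order `≤ m a wᵢ` at every cusp, then `red y ∈ P a`.
This is the hypothesis `hPE` of the crux (`ctl_kummer_FF`), since `y ∈ L(a D₁ + div u / m)`
implies `y^m u ∈ L(m a D₁)`.
`s36_tube_le_P` : the hypothesis `hle`;  `s36_tube_coeff` : the leading coefficients (`hxu`).
Complete proofs.
-/
import Mathlib
import Fermat.Agent.S36lib.TubeSeries
import Fermat.Agent.S36lib.ExactRoot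
import Fermat.Agent.S36lib.TubeDict

set_option autoImplicit false
set_option linter.unusedSectionVars false
set_option linter.unusedVariables false

noncomputable section

namespace Fermat.Agent.S36lib

open AlgebraicCurve

section One

variable {A₁ K F L Λ : Type*} [CommRing A₁] [IsDomain A₁] [IsDiscreteValuationRing A₁]
  [Field K] [Field F] [Algebra K F] [Field L] [CommRing Λ] [Nontrivial Λ]

/-- **TUBE LEMMA at one cusp**, for `A₁[[X]]`. -/
theorem s36_tube_final
    (ι : PowerSeries A₁ →+* L) (hι : Function.Injective ι) (E : F →+* L)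
    (hfrac : ∀ g : F, ∃ a b : PowerSeries A₁, b ≠ 0 ∧ E g * ι b = ι a)
    (ϖ : A₁) (hϖ : Irreducible ϖ)
    (hK : ∀ c : K, ∃ (a : PowerSeries A₁) (n : ℕ),
      E (algebraMap K F c) * ι (PowerSeries.C ϖ ^ n) = ι a)
    (π : A₁ →+* Λ) (hπ : IsNilpotent (π ϖ))
    (O : Subring F) (hOV : ∀ x : F, x ∈ O → E x ∈ tsV ι (PowerSeries.map π))
    (m : ℕ) (hm : IsUnit (m : Λ))
    (u : O) (hu0 : (u : F) ≠ 0) (hu : tsBallRed ι (PowerSeries.map π) hι E O hOV u = 1)
    (hdvd : ∀ P : Place K F, (m : ℤ) ∣ P.ord (u : F))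
    (d : ℕ) (G : PowerSeries A₁) (hG : E (u : F) * ι (PowerSeries.X ^ (m * d)) = ι G)
    (x : O) (n : ℕ) (Z : PowerSeries A₁)
    (hZ : E ((x : F) ^ m * (u : F)) * ι (PowerSeries.X ^ (m * n)) = ι Z) :
    ClPole n (tsBallRed ι (PowerSeries.map π) hι E O hOV x) := by
  refine s36_tube_red ι hι E (PowerSeries.map π) PowerSeries.X (PowerSeries.map_X π) O hOV m hm
    (fun r v hv h => s36_exact_root m hm r v hv h) u hu d G hG ?_ x n Z hZ
  intro p hp hnil
  refine s36_tube_dvd ι hι E hfrac ϖ hϖ hK m (u : F) hu0 hdvd G (m * d) (Dvd.intro d rfl) hG p hp ?_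
  intro hass
  apply hnil
  obtain ⟨c, hc⟩ := hass.symm
  rw [← hc, map_mul, PowerSeries.map_C]
  exact (Commute.all _ _).isNilpotent_mul_right (hπ.map (PowerSeries.C (R := Λ)))

end One

/-! ### The family of cusps -/

section Family

variable {ιc : Type*} {Λ : ιc → Type*} [∀ i, CommRing (Λ i)] [∀ i, Nontrivial (Λ i)]
variable {k R : Type*} [Field k] [CommRing R] [Algebra k R] (Ecl : ClExp k R Λ)
variable {K F : Type*} [Field K] [Field F] [Algebra K F] (O : Subring F) (red : O →+* R)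
variable (A₁ : ιc → Type*) [∀ i, CommRing (A₁ i)] [∀ i, IsDomain (A₁ i)]
  [∀ i, IsDiscreteValuationRing (A₁ i)] (L : ιc → Type*) [∀ i, Field (L i)]
variable (ι : ∀ i, PowerSeries (A₁ i) →+* L i) (hι : ∀ i, Function.Injective (ι i))
  (E : ∀ i, F →+* L i) (π : ∀ i, A₁ i →+* Λ i)
  (hOV : ∀ i, ∀ x : F, x ∈ O → E i x ∈ tsV (ι i) (PowerSeries.map (π i)))
  (hε : ∀ i (y : O), Ecl.ε i (red y) =
    tsBallRed (ι i) (PowerSeries.map (π i)) (hι i) (E i) O (hOV i) y)

include hε in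
/-- **`hle`**: an element with integral expansions of pole order `≤ c wᵢ` has reduction in
`P c`. -/
theorem s36_tube_le_P (z : O) (c : ℕ)
    (hZ : ∀ i, ∃ Z : PowerSeries (A₁ i),
      E i (z : F) * ι i (PowerSeries.X ^ (c * Ecl.w i)) = ι i Z) :
    red z ∈ Ecl.P c := by
  intro i
  obtain ⟨Z, hZ'⟩ := hZ i
  rw [hε i z]
  exact tsBallRed_clPole (ι i) (PowerSeries.map (π i)) (hι i) (E i) O (hOV i) PowerSeries.X
    (PowerSeries.map_X (π i)) z _ Z hZ'

include hε in
/-- **`hxu`**: the coefficient of the reduction in degree `j - n` is the reduction of the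
coefficient of the integral expansion. -/
theorem s36_tube_coeff (i : ιc) (z : O) (n : ℕ) (Z : PowerSeries (A₁ i))
    (hZ : E i (z : F) * ι i (PowerSeries.X ^ n) = ι i Z) (j : ℕ) :
    (Ecl.ε i (red z)).coeff ((j : ℤ) - n) = π i (PowerSeries.coeff j Z) := by
  rw [hε i z, tsBallRed_coeff (ι i) (PowerSeries.map (π i)) (hι i) (E i) O (hOV i) PowerSeries.X
    (PowerSeries.map_X (π i)) z n Z hZ j, PowerSeries.coeff_map]

include hε in
/-- **`hPE`**: the tube lemma for the family. -/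
theorem s36_tube_family
    (hfrac : ∀ i, ∀ g : F, ∃ a b : PowerSeries (A₁ i), b ≠ 0 ∧ E i g * ι i b = ι i a)
    (ϖ : ∀ i, A₁ i) (hϖ : ∀ i, Irreducible (ϖ i))
    (hK : ∀ i, ∀ c : K, ∃ (a : PowerSeries (A₁ i)) (n : ℕ),
      E i (algebraMap K F c) * ι i (PowerSeries.C (ϖ i) ^ n) = ι i a)
    (hπ : ∀ i, IsNilpotent (π i (ϖ i)))
    (m : ℕ) (hm : ∀ i, IsUnit (m : Λ i))
    (u : O) (hu0 : (u : F) ≠ 0) (hu : red u = 1)
    (hdvd : ∀ P : Place K F, (m : ℤ) ∣ P.ord (u : F))
    (a₁ : ℕ) (hG : ∀ i, ∃ G : PowerSeries (A₁ i),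
      E i (u : F) * ι i (PowerSeries.X ^ (a₁ * Ecl.w i)) = ι i G)
    (y : O) (a : ℕ)
    (hZ : ∀ i, ∃ Z : PowerSeries (A₁ i),
      E i ((y : F) ^ m * (u : F)) * ι i (PowerSeries.X ^ (m * a * Ecl.w i)) = ι i Z) :
    red y ∈ Ecl.P a := by
  intro i
  obtain ⟨G, hG'⟩ := hG i
  obtain ⟨Z, hZ'⟩ := hZ i
  rw [hε i y]
  have hm0 : m ≠ 0 := by
    rintro rfl
    have := hm i
    rw [Nat.cast_zero] at this
    exact not_isUnit_zero this
  obtain ⟨m', rfl⟩ : ∃ m', m = m' + 1 := ⟨m - 1, by omega⟩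
  have hu' : tsBallRed (ι i) (PowerSeries.map (π i)) (hι i) (E i) O (hOV i) u = 1 := by
    rw [← hε i u, hu, map_one]
  refine s36_tube_final (K := K) (ι i) (hι i) (E i) (hfrac i) (ϖ i) (hϖ i) (hK i) (π i) (hπ i) O
    (hOV i) (m' + 1) (hm i) u hu0 hu' hdvd (a₁ * Ecl.w i)
    (G * PowerSeries.X ^ (m' * (a₁ * Ecl.w i))) ?_ y (a * Ecl.w i) Z ?_
  · have e : (m' + 1) * (a₁ * Ecl.w i) = a₁ * Ecl.w i + m' * (a₁ * Ecl.w i) := by ring
    rw [e, pow_add, map_mul, ← mul_assoc, hG', map_mul]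
  · rw [← mul_assoc]
    exact hZ'

end Family

end Fermat.Agent.S36lib

end
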