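/-
Item 83 (S36), piece TUBE, wiring (helper12).

The hypotheses `hle`, `hPE`, `hxu` of the crux (`ctl_a2crux`, `CruxWire.lean`, and
`ctl_kummer_FF`, `CruxTail.lean`) in their EXACT shape, from the family data of `TubeFinal.lean`:
at every cusp `i` a discrete valuation ring `A₁ i`, an injective `inc i : (A₁ i)[[X]] →+* Ls i`
into a field, an expansion `Ex i : F0(L) →+* Ls i`, a reduction of coefficients
`π i : A₁ i →+* Λ i`, with

* `hOV`  : the expansions of the ball are fractions with unit denominators (P5),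
* `hε`   : the expansions of the reduction ring are the reductions by fractions `tsBallRed`,
* `hint` : the elements of `L(c D₁) ∩ O` have integral expansions of pole order `≤ c wᵢ` (P6),
* `hfrac`, `hK` : all expansions are fractions; constants have denominators `ϖ ^ n` (P1).

Also the constructor `clExpOfHom` of a family of expansions of `O ⧸ ϖ O` from ring homomorphisms
of the ball `O`, with `hε` by construction (`clExpOfHom_ε_red`).
Complete proofs.
-/
import Mathlib
import Fermat.Agent.S36lib.CruxTail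
import Fermat.Agent.S36lib.TubeFinal
import Fermat.Agent.S36lib.PlaceDictFF
import Fermat.Agent.S36lib.SSRedDvr

set_option autoImplicit false
set_option linter.unusedSectionVars false
set_option linter.unusedVariables false
set_option linter.style.haveILetI false

noncomputable section

namespace Fermat.Agent.S36lib

open ModularCurve AlgebraicCurve
open Fermat.Agent.S24lib Fermat.Agent.S34lib Fermat.Agent.RRlib

/-! ### The hypotheses of the crux -/

section Wire

variable {A : ValuationSubring Kbar} {L : ℕ} [NeZero L]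
variable {R : Type*} [CommRing R] [Algebra (IsLocalRing.ResidueField A) R]
variable {ιc : Type*} {Λ : ιc → Type*} [∀ i, CommRing (Λ i)] [∀ i, Nontrivial (Λ i)]
variable (S₀ : SSRed (k0Val A) (k0Res A) R (f0Field A L))
  (Ecl : ClExp (IsLocalRing.ResidueField A) R Λ) (D₁ : Divisor Kbar (FF L))
variable (A₁ : ιc → Type*) [∀ i, CommRing (A₁ i)] [∀ i, IsDomain (A₁ i)]
  [∀ i, IsDiscreteValuationRing (A₁ i)] (Ls : ιc → Type*) [∀ i, Field (Ls i)]
variable (inc : ∀ i, PowerSeries (A₁ i) →+* Ls i) (hinc : ∀ i, Function.Injective (inc i))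
  (Ex : ∀ i, f0Field A L →+* Ls i) (π : ∀ i, A₁ i →+* Λ i)
  (hOV : ∀ i, ∀ x : f0Field A L, x ∈ S₀.O → Ex i x ∈ tsV (inc i) (PowerSeries.map (π i)))
  (hε : ∀ i (y : S₀.O), Ecl.ε i (S₀.red y) =
    tsBallRed (inc i) (PowerSeries.map (π i)) (hinc i) (Ex i) S₀.O (hOV i) y)
  (hint : ∀ (c : ℕ) (z : S₀.O), ((z : f0Field A L) : FF L) ∈ riemannRochSpace (c • D₁) →
    ∀ i, ∃ Z : PowerSeries (A₁ i),
      Ex i (z : f0Field A L) * inc i (PowerSeries.X ^ (c * Ecl.w i)) = inc i Z)

include hε hint in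
/-- **`hle`** of `ctl_kummer_FF` / `ctl_a2crux`. -/
theorem tbw_hle (a : ℕ) (y : S₀.O)
    (hy : ((y : f0Field A L) : FF L) ∈ riemannRochSpace (a • D₁)) :
    S₀.red y ∈ Ecl.P a :=
  s36_tube_le_P Ecl S₀.O S₀.red A₁ Ls inc hinc Ex π hOV hε y a (hint a y hy)

include hε in
/-- **`hxu`** of `ctl_kummer_FF` / `ctl_a2crux`: the leading coefficients of the reduction of the
exact unit `x` are units, as soon as the leading coefficients of its integral expansions are
units modulo `π`. -/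
theorem tbw_hxu (n₂ : ℕ) (x : S₀.O)
    (hx : ∀ i, ∃ Z : PowerSeries (A₁ i),
      Ex i (x : f0Field A L) * inc i (PowerSeries.X ^ (n₂ * Ecl.w i)) = inc i Z ∧
        IsUnit (π i (PowerSeries.constantCoeff Z))) (i : ιc) :
    IsUnit ((Ecl.ε i (S₀.red x)).coeff (-((n₂ * Ecl.w i : ℕ) : ℤ))) := by
  obtain ⟨Z, hZ, hu⟩ := hx i
  have h := s36_tube_coeff Ecl S₀.O S₀.red A₁ Ls inc hinc Ex π hOV hε i x (n₂ * Ecl.w i) Z hZ 0
  rw [Nat.cast_zero, zero_sub] at h
  rw [h, PowerSeries.coeff_zero_eq_constantCoeff_apply]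
  exact hu

include hε hint in
/-- **`hPE`** of `ctl_kummer_FF` (for all `a`, not only `a₀ + a₁ ≤ a`): the TUBE lemma. -/
theorem tbw_hPE [Nontrivial R]
    (hfrac : ∀ i, ∀ g : f0Field A L, ∃ a b : PowerSeries (A₁ i), b ≠ 0 ∧
      Ex i g * inc i b = inc i a)
    (ϖ : ∀ i, A₁ i) (hϖ : ∀ i, Irreducible (ϖ i))
    (hK : ∀ i, ∀ c : k0Field A, ∃ (a : PowerSeries (A₁ i)) (n : ℕ),
      Ex i (algebraMap (k0Field A) (f0Field A L) c) * inc i (PowerSeries.C (ϖ i) ^ n) = inc i a)
    (hπ : ∀ i, IsNilpotent (π i (ϖ i)))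
    (m : ℕ) (hm : ∀ i, IsUnit (m : Λ i))
    (u : S₀.O) (hu : S₀.red u = 1)
    (hdvd : ∀ v : Place Kbar (FF L), (m : ℤ) ∣ v.ord ((u : f0Field A L) : FF L))
    (a₁ : ℕ) (huL : ((u : f0Field A L) : FF L) ∈ riemannRochSpace (a₁ • D₁))
    (a : ℕ) (y : S₀.O)
    (hy : ((y : f0Field A L) : FF L) ∈
      riemannRochSpace (a • D₁ + ctlDiv ((u : f0Field A L) : FF L) m)) :
    S₀.red y ∈ Ecl.P a := by
  have hu0 : ((u : S₀.O) : f0Field A L) ≠ 0 := by
    intro h
    have h0 : u = 0 := Subtype.ext h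
    rw [h0, map_zero] at hu
    exact zero_ne_one hu
  have hu0' : ((u : f0Field A L) : FF L) ≠ 0 := fun h => hu0 (Subtype.ext h)
  have hdvd0 : ∀ P : Place (k0Field A) (f0Field A L), (m : ℤ) ∣ P.ord (u : f0Field A L) := by
    intro P0
    obtain ⟨P, hP⟩ := pd_exists_place_FF A L P0
    rw [← hP]
    exact hdvd P
  have hmem : ((u : f0Field A L) : FF L) * ((y : f0Field A L) : FF L) ^ m ∈
      riemannRochSpace ((m * a) • D₁) :=
    tw_kummer_mul_pow_mem (D₁ := D₁) hu0' (ctlDiv_apply hu0' hdvd) hy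
  have hmem' : (((y ^ m * u : S₀.O) : f0Field A L) : FF L) ∈
      riemannRochSpace ((m * a) • D₁) := by
    have e : (((y ^ m * u : S₀.O) : f0Field A L) : FF L) =
        ((u : f0Field A L) : FF L) * ((y : f0Field A L) : FF L) ^ m := by
      rw [mul_comm]
      rfl
    rw [e]
    exact hmem
  have hZ := hint (m * a) (y ^ m * u) hmem'
  exact s36_tube_family Ecl S₀.O S₀.red A₁ Ls inc hinc Ex π hOV hε hfrac ϖ hϖ hK hπ m hm u hu0 hu
    hdvd0 a₁ (hint a₁ u huL) y a hZ

include hε hint in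
/-- **`hPE`** in the exact shape of `ctl_a2crux` (`CruxWire.lean`), for any set `B`. -/
theorem tbw_hPE_a2 [Nontrivial R] (B : Set (f0Field A L)) (a₀ : ℕ)
    (hfrac : ∀ i, ∀ g : f0Field A L, ∃ a b : PowerSeries (A₁ i), b ≠ 0 ∧
      Ex i g * inc i b = inc i a)
    (ϖ : ∀ i, A₁ i) (hϖ : ∀ i, Irreducible (ϖ i))
    (hK : ∀ i, ∀ c : k0Field A, ∃ (a : PowerSeries (A₁ i)) (n : ℕ),
      Ex i (algebraMap (k0Field A) (f0Field A L) c) * inc i (PowerSeries.C (ϖ i) ^ n) = inc i a)
    (hπ : ∀ i, IsNilpotent (π i (ϖ i)))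
    (m : ℕ) (hm : ∀ i, IsUnit (m : Λ i)) :
    ∀ u : S₀.O, (u : f0Field A L) ∈ B → S₀.red u = 1 →
      (∀ v : Place Kbar (FF L), (m : ℤ) ∣ v.ord ((u : f0Field A L) : FF L)) →
      ∀ a₁ : ℕ, ((u : f0Field A L) : FF L) ∈ riemannRochSpace (a₁ • D₁) →
      ∀ a, a₀ + a₁ ≤ a → ∀ y : S₀.O,
        ((y : f0Field A L) : FF L) ∈
          riemannRochSpace (a • D₁ + ctlDiv ((u : f0Field A L) : FF L) m) →
        S₀.red y ∈ Ecl.P a :=
  fun u _ hu hdvd a₁ huL a _ y hy =>
    tbw_hPE S₀ Ecl D₁ A₁ Ls inc hinc Ex π hOV hε hint hfrac ϖ hϖ hK hπ m hm u hu hdvd a₁ huL a y hy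

end Wire

/-! ### Families of expansions of `O ⧸ ϖ O` from ring homomorphisms of the ball -/

section Hom

variable {K F : Type*} [Field K] [Field F] [Algebra K F] {A : ValuationSubring K}
variable (D : DvrBall A F) {k : Type*} [Field k] (π : A →+* k) (hπ : Function.Surjective π)
variable {ιc : Type*} {Λ : ιc → Type*} [∀ i, CommRing (Λ i)]
  (ρ : ∀ i, D.O →+* LaurentSeries (Λ i)) (w : ιc → ℕ)
  (hϖ : ∀ i, ρ i D.ϖO = 0)
  (hconst : ∀ (i : ιc) (a : A) (n : ℤ), n ≠ 0 → (ρ i (D.incl a)).coeff n = 0)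

/-- the expansion of `O ⧸ ϖ O` induced by a ring homomorphism of `O` killing `ϖ` -/
def chRed (i : ιc) : D.RedRing →+* LaurentSeries (Λ i) :=
  Ideal.Quotient.lift _ (ρ i) (by
    intro x hx
    rw [Ideal.mem_span_singleton'] at hx
    obtain ⟨z, rfl⟩ := hx
    rw [map_mul, hϖ i, mul_zero])

theorem chRed_red (i : ιc) (x : D.O) : chRed D ρ hϖ i (D.red x) = ρ i x :=
  Ideal.Quotient.lift_mk _ _ _

/-- **the family of expansions** of `O ⧸ ϖ O` given by ring homomorphisms of the ball -/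
def clExpOfHom : (letI := D.algebraRed π hπ; ClExp k D.RedRing Λ) :=
  letI := D.algebraRed π hπ
  { ε := fun i => chRed D ρ hϖ i
    w := w
    const := fun i c n hn => by
      obtain ⟨a, rfl⟩ := hπ c
      have h1 : algebraMap k D.RedRing (π a) = D.red (D.incl a) := D.resHom_π π hπ a
      rw [h1, chRed_red]
      exact hconst i a n hn }

theorem clExpOfHom_w :
    letI := D.algebraRed π hπ
    (clExpOfHom D π hπ ρ w hϖ hconst).w = w := rfl

/-- **`hε`** by construction -/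
theorem clExpOfHom_ε_red (i : ιc) (x : D.O) :
    letI := D.algebraRed π hπ
    (clExpOfHom D π hπ ρ w hϖ hconst).ε i (D.red x) = ρ i x :=
  chRed_red D ρ hϖ i x

end Hom

/-! ### The family of expansions given by the reductions by fractions -/

section TubeExp

variable {K F : Type*} [Field K] [Field F] [Algebra K F] {A : ValuationSubring K}
variable (D : DvrBall A F) {k : Type*} [Field k] (π : A →+* k) (hπ : Function.Surjective π)
variable {ιc : Type*} {Λ : ιc → Type*} [∀ i, CommRing (Λ i)] [∀ i, Nontrivial (Λ i)]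
variable (A₁ : ιc → Type*) [∀ i, CommRing (A₁ i)] (Ls : ιc → Type*) [∀ i, Field (Ls i)]
variable (inc : ∀ i, PowerSeries (A₁ i) →+* Ls i) (hinc : ∀ i, Function.Injective (inc i))
  (Ex : ∀ i, F →+* Ls i) (πc : ∀ i, A₁ i →+* Λ i)
  (hOV : ∀ i, ∀ x : F, x ∈ D.O → Ex i x ∈ tsV (inc i) (PowerSeries.map (πc i)))
  (w : ιc → ℕ) (φ : ∀ i, A →+* A₁ i)
  (hEc : ∀ i (a : A), Ex i (algebraMap K F (a : K)) = inc i (PowerSeries.C (φ i a)))
  (hφϖ : ∀ i, πc i (φ i D.ϖ) = 0)

include hEc in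
/-- the reduction by fractions of a constant is the constant series -/
theorem tbw_ballRed_incl (i : ιc) (a : A) :
    tsBallRed (inc i) (PowerSeries.map (πc i)) (hinc i) (Ex i) D.O (hOV i) (D.incl a) =
      HahnSeries.C (πc i (φ i a)) := by
  rw [tsBallRed_integral (inc i) (PowerSeries.map (πc i)) (hinc i) (Ex i) D.O (hOV i) (D.incl a)
    (PowerSeries.C (φ i a)) (hEc i a), PowerSeries.map_C, HahnSeries.ofPowerSeries_C]

/-- **the family of expansions of `O ⧸ ϖ O` given by the reductions by fractions**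
(`tsBallRed`, `TubeSeries.lean`) -/
def clExpOfTube : (letI := D.algebraRed π hπ; ClExp k D.RedRing Λ) :=
  clExpOfHom D π hπ
    (fun i => tsBallRed (inc i) (PowerSeries.map (πc i)) (hinc i) (Ex i) D.O (hOV i)) w
    (fun i => by
      show tsBallRed (inc i) (PowerSeries.map (πc i)) (hinc i) (Ex i) D.O (hOV i)
        (D.incl D.ϖ) = 0
      rw [tbw_ballRed_incl D A₁ Ls inc hinc Ex πc hOV φ hEc i D.ϖ, hφϖ i, map_zero])
    (fun i a n hn => by
      rw [tbw_ballRed_incl D A₁ Ls inc hinc Ex πc hOV φ hEc i a, HahnSeries.C_apply,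
        HahnSeries.coeff_single_of_ne hn])

theorem clExpOfTube_w :
    letI := D.algebraRed π hπ
    (clExpOfTube D π hπ A₁ Ls inc hinc Ex πc hOV w φ hEc hφϖ).w = w := rfl

/-- **`hε`** of `TubeFinal.lean` / of the section `Wire`, by construction -/
theorem clExpOfTube_ε_red (i : ιc) (y : D.O) :
    letI := D.algebraRed π hπ
    (clExpOfTube D π hπ A₁ Ls inc hinc Ex πc hOV w φ hEc hφϖ).ε i (D.red y) =
      tsBallRed (inc i) (PowerSeries.map (πc i)) (hinc i) (Ex i) D.O (hOV i) y :=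
  chRed_red D _ _ i y

/-- **`hε`** for the semistable reduction datum `D.toSSRed` -/
theorem clExpOfTube_hε [IsPrincipalIdealRing A] :
    letI := D.algebraRed π hπ
    ∀ i (y : (D.toSSRed π hπ).O),
      (clExpOfTube D π hπ A₁ Ls inc hinc Ex πc hOV w φ hEc hφϖ).ε i ((D.toSSRed π hπ).red y) =
        tsBallRed (inc i) (PowerSeries.map (πc i)) (hinc i) (Ex i) (D.toSSRed π hπ).O
          (hOV i) y :=
  fun i y => chRed_red D _ _ i y

end TubeExp

end Fermat.Agent.S36lib

end
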