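/-
Item 83 (S36), piece C-10 CRUX-FINAL, part 2 (helper16).  Complete proofs.

* `cfmE` : **THE family of reduced expansions** `ClExp k (O ⧸ q O) cfmLam` of the reduction ring
  of a unit ball `D` (`DvrBall`, `D.ϖ = q`), given by the reductions by fractions (`clExpOfTube`,
  helper12) of the expansions `cfmEx` of THE family (`CruxFam.lean`), with weights `1`;
* `cfmE_hε`, `cfmE_w`;
* `ctl_a2crux_tube` : `ctl_a2crux_D1` for `S₀ = D.toSSRed`, `E = cfmE`, with `hle`, `hxu`, `hPE`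
  discharged by the TUBE wiring (`tbw_hle`, `tbw_hxu`, `tbw_hPE_a2`) from `hOV` (F1), `hint` (F2).
-/
import Mathlib
import Fermat.Agent.S36lib.CruxFinal
import Fermat.Agent.S36lib.TubeWire
import Fermat.Agent.S36lib.CruxFam
import Fermat.Agent.S36lib.CruxFamPi
import Fermat.Agent.S36lib.VMid

set_option autoImplicit false
set_option linter.unusedSectionVars false
set_option linter.unusedVariables false
set_option linter.style.haveILetI false

noncomputable section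

namespace Fermat.Agent.S36lib

open ModularCurve AlgebraicCurve
open Fermat.Agent.S24lib Fermat.Agent.S34lib Fermat.Agent.RRlib Fermat.Agent.S35lib

variable (A : ValuationSubring Kbar) (M' q : ℕ) [NeZero M'] [NeZero q] (hq : q.Prime)
  (hqM : ¬ q ∣ M') (ζ : Kbarˣ) (hζ : IsPrimitiveRoot (ζ : Kbar) q) (hA : A.LiesOverPrime q)

/-- **THE family of reduced expansions** of the reduction ring `O ⧸ q O` of a unit ball. -/
def cfmE (D : DvrBall (k0Val A) (f0Field A (M' * q * q))) (hDϖ : D.ϖ = (q : k0Val A))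
    (hπ : Function.Surjective (k0Res A))
    (hOV : ∀ i, ∀ x : f0Field A (M' * q * q), x ∈ D.O →
      cfmEx A M' q hq hqM ζ hζ i x ∈ tsV (cfmInc A ζ i) (PowerSeries.map (cfmPi A q ζ i))) :
    (letI := D.algebraRed (k0Res A) hπ
     ClExp (IsLocalRing.ResidueField A) D.RedRing (cfmLam A q ζ)) :=
  haveI : ∀ i, Nontrivial (cfmLam A q ζ i) := fun i => cfp_nontrivial A q ζ hA i
  clExpOfTube D (k0Res A) hπ (cfmA1 A ζ) (fun _ => LaurentSeries Kbar) (cfmInc A ζ)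
    (cfmInc_injective A ζ) (cfmEx A M' q hq hqM ζ hζ) (cfmPi A q ζ) hOV (fun _ => 1)
    (cfmPhi A ζ) (cfm_hEc A M' q hq hqM ζ hζ)
    (fun i => by rw [hDϖ]; exact cfm_hφϖ A q ζ i)

section E

variable (D : DvrBall (k0Val A) (f0Field A (M' * q * q))) (hDϖ : D.ϖ = (q : k0Val A))
    (hπ : Function.Surjective (k0Res A))
    (hOV : ∀ i, ∀ x : f0Field A (M' * q * q), x ∈ D.O →
      cfmEx A M' q hq hqM ζ hζ i x ∈ tsV (cfmInc A ζ i) (PowerSeries.map (cfmPi A q ζ i)))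

theorem cfmE_w (i : CfmCusp) :
    letI := D.algebraRed (k0Res A) hπ
    (cfmE A M' q hq hqM ζ hζ hA D hDϖ hπ hOV).w i = 1 := rfl

/-- **`hε`** -/
theorem cfmE_ε_red (i : CfmCusp) (y : D.O) :
    letI := D.algebraRed (k0Res A) hπ
    haveI : ∀ i, Nontrivial (cfmLam A q ζ i) := fun i => cfp_nontrivial A q ζ hA i
    (cfmE A M' q hq hqM ζ hζ hA D hDϖ hπ hOV).ε i (D.red y) =
      tsBallRed (cfmInc A ζ i) (PowerSeries.map (cfmPi A q ζ i)) (cfmInc_injective A ζ i)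
        (cfmEx A M' q hq hqM ζ hζ i) D.O (hOV i) y :=
  chRed_red D _ _ i y

include hA hDϖ hπ hOV in
/-- the reduction ring is nontrivial -/
theorem cfmE_nontrivial : Nontrivial D.RedRing := by
  letI := D.algebraRed (k0Res A) hπ
  haveI : Nontrivial (cfmLam A q ζ CfmCusp.inf) := cfp_nontrivial A q ζ hA CfmCusp.inf
  exact RingHom.domain_nontrivial
    ((cfmE A M' q hq hqM ζ hζ hA D hDϖ hπ hOV).ε CfmCusp.inf)

end E

variable {M' q} {A}
variable {κ : Type*} [Field κ] [Algebra (IsLocalRing.ResidueField A) κ]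

set_option maxHeartbeats 2000000 in
/-- **the CRUX for THE family**: `ctl_a2crux_D1` with `S₀ = D.toSSRed`, `E = cfmE`; `hle`, `hxu`,
`hPE` come from the TUBE wiring. -/
theorem ctl_a2crux_tube [IsPrincipalIdealRing (k0Val A)]
    (S : NodeSetup (k0Val A) (k0Res A) κ (f0Field A (M' * q * q)))
    (hSB : ∀ z : f0Field A (M' * q * q), z ∈ S.B →
      (z : FF (M' * q * q)) ∈ offRegular (M' * q * q) (s36D1 M' q hq hqM))
    (D : DvrBall (k0Val A) (f0Field A (M' * q * q)))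
    (hDO : ∀ x : f0Field A (M' * q * q), x ∈ S.ball → x ∈ D.O)
    (hDϖ : D.ϖ = (q : k0Val A)) (hπ : Function.Surjective (k0Res A))
    (hOV : ∀ i, ∀ x : f0Field A (M' * q * q), x ∈ D.O →
      cfmEx A M' q hq hqM ζ hζ i x ∈ tsV (cfmInc A ζ i) (PowerSeries.map (cfmPi A q ζ i)))
    (hint : ∀ (c : ℕ) (z : D.O), ((z : f0Field A (M' * q * q)) : FF (M' * q * q)) ∈
        riemannRochSpace (c • fbmD1 M' q hq hqM ζ hζ) →
      ∀ i, ∃ Z : PowerSeries (cfmA1 A ζ i),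
        cfmEx A M' q hq hqM ζ hζ i (z : f0Field A (M' * q * q)) *
          cfmInc A ζ i (PowerSeries.X ^ (c * 1)) = cfmInc A ζ i Z)
    (a₀ : ℕ)
    (hf3 : letI := D.algebraRed (k0Res A) hπ
      ∀ a c, a₀ ≤ a → a ≤ c → ∀ y : D.O,
      ((y : f0Field A (M' * q * q)) : FF (M' * q * q)) ∈
        riemannRochSpace (c • fbmD1 M' q hq hqM ζ hζ) →
      D.red y ∈ (cfmE A M' q hq hqM ζ hζ hA D hDϖ hπ hOV).P a →
      ∃ y' : D.O, ((y' : f0Field A (M' * q * q)) : FF (M' * q * q)) ∈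
        riemannRochSpace (a • fbmD1 M' q hq hqM ζ hζ) ∧ D.red y' = D.red y)
    (hh0 : letI := D.algebraRed (k0Res A) hπ
      ∀ (c : ℕ) (y : D.O),
      ((y : f0Field A (M' * q * q)) : FF (M' * q * q)) ∈
        riemannRochSpace (c • fbmD1 M' q hq hqM ζ hζ) →
      D.red y ∈ (cfmE A M' q hq hqM ζ hζ hA D hDϖ hπ hOV).P 0 →
      D.red y ∈ Set.range (algebraMap (IsLocalRing.ResidueField A) D.RedRing))
    {m n₂ : ℕ} (c2 : ℕ) (hm : 0 < m) (hqm : ¬ q ∣ m) (hn₂ : 0 < n₂)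
    (x xinv : D.O) (hunit : x * xinv = 1)
    (hxL : ((x : f0Field A (M' * q * q)) : FF (M' * q * q)) ∈
      riemannRochSpace (n₂ • fbmD1 M' q hq hqM ζ hζ))
    (hexact : ∀ v : Place Kbar (FF (M' * q * q)), fbmD1 M' q hq hqM ζ hζ v ≠ 0 →
      v.ord ((x : f0Field A (M' * q * q)) : FF (M' * q * q)) =
        -(n₂ * fbmD1 M' q hq hqM ζ hζ v))
    (hx : ∀ i, ∃ Z : PowerSeries (cfmA1 A ζ i),
      cfmEx A M' q hq hqM ζ hζ i (x : f0Field A (M' * q * q)) *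
          cfmInc A ζ i (PowerSeries.X ^ (n₂ * 1)) = cfmInc A ζ i Z ∧
        IsUnit (cfmPi A q ζ i (PowerSeries.constantCoeff Z)))
    (hhead : ∀ b : S.B, (b : f0Field A (M' * q * q)) ≠ 0 → S.IsUnitAtNodes b →
      (∀ P : Place Kbar (FF (M' * q * q)),
        (m : ℤ) ∣ P.ord (((b : f0Field A (M' * q * q)) : FF (M' * q * q)))) →
      IsKummerNew2 M' q m (((b : f0Field A (M' * q * q)) : FF (M' * q * q))) →
      ∃ h₀ : f0Field A (M' * q * q), h₀ ≠ 0 ∧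
        (b : f0Field A (M' * q * q)) ^ c2 * h₀ ^ m ∈ S.B ∧
        ∃ z : f0Field A (M' * q * q), z ∈ S.ball ∧
          (b : f0Field A (M' * q * q)) ^ c2 * h₀ ^ m = 1 + a2iQ A q (L := M' * q * q) * z) :
    A2Crux M' q A S m c2 := by
  letI := D.algebraRed (k0Res A) hπ
  haveI : Nontrivial D.RedRing := cfmE_nontrivial A M' q hq hqM ζ hζ hA D hDϖ hπ hOV
  haveI : IsAlgClosed (IsLocalRing.ResidueField A) :=
    Fermat.Agent.GoodRed.isAlgClosed_residueField A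
  haveI : Infinite (IsLocalRing.ResidueField A) := IsAlgClosed.instInfinite
  haveI : ∀ i, Nontrivial (cfmLam A q ζ i) := fun i => cfp_nontrivial A q ζ hA i
  haveI : ∀ i, IsDiscreteValuationRing (cfmA1 A ζ i) := fun i => cfm_isDVR A q hq ζ hζ hA i
  have hcharP : CharP (IsLocalRing.ResidueField A) q :=
    vmid_charP A hq ((A.mem_nonunits_iff).mp hA)
  have hmk : (m : IsLocalRing.ResidueField A) ≠ 0 := by
    intro h0
    exact hqm ((CharP.cast_eq_zero_iff (IsLocalRing.ResidueField A) q m).1 h0)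
  have hε : ∀ i (y : (D.toSSRed (k0Res A) hπ).O),
      (cfmE A M' q hq hqM ζ hζ hA D hDϖ hπ hOV).ε i ((D.toSSRed (k0Res A) hπ).red y) =
        tsBallRed (cfmInc A ζ i) (PowerSeries.map (cfmPi A q ζ i)) (cfmInc_injective A ζ i)
          (cfmEx A M' q hq hqM ζ hζ i) (D.toSSRed (k0Res A) hπ).O (hOV i) y :=
    fun i y => cfmE_ε_red A M' q hq hqM ζ hζ hA D hDϖ hπ hOV i y
  refine ctl_a2crux_D1 hq hqM ζ hζ S hSB (D.toSSRed (k0Res A) hπ) hDO (a2i_res_q A q hA)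
    (cfmE A M' q hq hqM ζ hζ hA D hDϖ hπ hOV) a₀ ?_ hf3 hh0 c2 hm hmk hn₂ x xinv hunit hxL
    hexact ?_ hhead ?_
  · exact tbw_hle (D.toSSRed (k0Res A) hπ) (cfmE A M' q hq hqM ζ hζ hA D hDϖ hπ hOV)
      (fbmD1 M' q hq hqM ζ hζ) (cfmA1 A ζ) (fun _ => LaurentSeries Kbar) (cfmInc A ζ)
      (cfmInc_injective A ζ) (cfmEx A M' q hq hqM ζ hζ) (cfmPi A q ζ) hOV hε hint
  · exact tbw_hxu (D.toSSRed (k0Res A) hπ) (cfmE A M' q hq hqM ζ hζ hA D hDϖ hπ hOV)
      (cfmA1 A ζ) (fun _ => LaurentSeries Kbar) (cfmInc A ζ)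
      (cfmInc_injective A ζ) (cfmEx A M' q hq hqM ζ hζ) (cfmPi A q ζ) hOV hε n₂ x hx
  · exact tbw_hPE_a2 (D.toSSRed (k0Res A) hπ) (cfmE A M' q hq hqM ζ hζ hA D hDϖ hπ hOV)
      (fbmD1 M' q hq hqM ζ hζ) (cfmA1 A ζ) (fun _ => LaurentSeries Kbar) (cfmInc A ζ)
      (cfmInc_injective A ζ) (cfmEx A M' q hq hqM ζ hζ) (cfmPi A q ζ) hOV hε hint
      (S.B : Set (f0Field A (M' * q * q))) _
      (cfm_hfrac A M' q hq hqM ζ hζ) (cfmVarpi A q hq ζ hζ hA) (cfm_irreducible A q hq ζ hζ hA)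
      (cfm_hK A M' q hq hqM ζ hζ hA) (cfp_hπ A q hq ζ hζ hA) m
      (fun i => cfp_isUnit_natCast A q hq ζ hA i m hqm)

end Fermat.Agent.S36lib

end
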