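/-
Item 83 (S36), piece C-4 (F3') WIRE (helper17).  Complete proofs.

`f3w_hf3` = the hypothesis `hf3` of `ctl_a2crux` / `ctl_a2crux_D1` / `ctl_kummer_FF` for the WIRE
data of `TubeWire.lean` (helper12): the family `(A₁ i, inc i, Ex i, π i, hOV, hε, hint)` with
`Ls i = Kbar((X))`, where at the three cusps `iInf, iMid, iZero`

* `Ex i` is the concrete expansion `ecInf`, `ecMid ζ`, `ecZero` (restricted to `F0`),
* `inc i` is coefficientwise a ring homomorphism `co i : A₁ i →+* Kbar` (`hco`), with image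
  `A0 = zsR0 A` at `∞`, `0` and `A ∩ K0(ζ) = zsR1 A ζ` at the middle cusp,
* the kernel of `π i : A₁ i →+* Λ i` is contained in `q A₁ i`,
* the ball `S₀.O` contains the functions with integral expansions (`hO`).

The proof is `f3c_hf3` (`F3Conc.lean`): its hypotheses `hint` (P6 in the `elqRing` form) and
`hdInf/hdMid/hdZero` are derived here from the wire `hint` and `tsBallRed_coeff`.
Helper lemmas are prefixed `f3w_`.
-/
import Mathlib
import Fermat.Agent.S36lib.F3Conc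
import Fermat.Agent.S36lib.TubeWire

set_option autoImplicit false
set_option linter.style.haveILetI false
set_option linter.unusedSectionVars false
set_option linter.unusedVariables false
set_option synthInstance.maxHeartbeats 400000

noncomputable section

namespace Fermat.Agent.S36lib

open AlgebraicCurve ModularCurve HahnSeries
open Fermat.Agent.S24lib Fermat.Agent.S34lib Fermat.Agent.S37lib Fermat.Agent.GoodRed
  Fermat.Agent.GM

/-! ### One cusp: coefficientwise inclusions -/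

section One

variable {K : Type*} [Field K] {A₁ : Type*} [CommRing A₁]
  (inc : PowerSeries A₁ →+* LaurentSeries K) (co : A₁ →+* K)
  (hco : ∀ (Z : PowerSeries A₁) (n : ℤ),
    (inc Z).coeff n = if n < 0 then 0 else co (PowerSeries.coeff n.natAbs Z))

include hco in
theorem f3w_inc_X_pow (N : ℕ) :
    inc (PowerSeries.X ^ N) = HahnSeries.single (N : ℤ) (1 : K) := by
  ext n
  rw [hco, PowerSeries.coeff_X_pow, HahnSeries.coeff_single]
  by_cases hn : n < 0
  · rw [if_pos hn, if_neg (by omega)]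
  · rw [if_neg hn]
    by_cases h : n = (N : ℤ)
    · rw [if_pos h, if_pos (by omega), map_one]
    · rw [if_neg h, if_neg (by omega), map_zero]

include hco in
/-- the coefficients of a series `g` with `g X^N = inc Z` -/
theorem f3w_coeff_of_eq (g : LaurentSeries K) (N : ℕ) (Z : PowerSeries A₁)
    (h : g * inc (PowerSeries.X ^ N) = inc Z) (n : ℤ) :
    g.coeff n = if n + N < 0 then 0 else co (PowerSeries.coeff (n + N).natAbs Z) := by
  rw [← hco, ← h, f3w_inc_X_pow inc co hco, HahnSeries.coeff_mul_single_add, mul_one]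

include hco in
/-- integrality of the coefficients -/
theorem f3w_eoInt (S : Subring K) (hS : ∀ a, co a ∈ S) (g : LaurentSeries K) (N : ℕ)
    (Z : PowerSeries A₁) (h : g * inc (PowerSeries.X ^ N) = inc Z) : EoInt S g := by
  intro n
  rw [f3w_coeff_of_eq inc co hco g N Z h n]
  split_ifs
  · exact S.zero_mem
  · exact hS _

include hco in
/-- a series with coefficients in the image of `co` is `inc Z / X^N` for all large `N` -/
theorem f3w_exists_Z (S : Subring K) (hS' : ∀ x ∈ S, ∃ a, co a = x) (g : LaurentSeries K)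
    (hg : EoInt S g) :
    ∃ N₀ : ℕ, ∀ N : ℕ, N₀ ≤ N → ∃ Z : PowerSeries A₁, g * inc (PowerSeries.X ^ N) = inc Z := by
  classical
  choose f hf using fun n : ℤ => hS' (g.coeff n) (hg n)
  refine ⟨(-g.order).toNat, fun N hN => ⟨PowerSeries.mk fun j => f ((j : ℤ) - N), ?_⟩⟩
  ext n
  rw [hco, f3w_inc_X_pow inc co hco]
  have e : n = (n - N) + N := by ring
  conv_lhs => rw [e, HahnSeries.coeff_mul_single_add, mul_one]
  by_cases hn : n < 0
  · rw [if_pos hn]
    apply HahnSeries.coeff_eq_zero_of_lt_order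
    have h1 : -g.order ≤ ((-g.order).toNat : ℤ) := Int.self_le_toNat _
    have h2 : (((-g.order).toNat : ℕ) : ℤ) ≤ (N : ℤ) := by exact_mod_cast hN
    omega
  · rw [if_neg hn, PowerSeries.coeff_mk, hf, Int.natAbs_of_nonneg (by omega)]

end One

/-! ### The wire data -/

section Wire

variable {M' q : ℕ} [NeZero M'] [NeZero q] (hq : q.Prime) (hqM : ¬ q ∣ M') (ζ₀ : Kbarˣ)
  (hζ₀ : IsPrimitiveRoot (ζ₀ : Kbar) q)
variable {A : ValuationSubring Kbar} (hA : A.LiesOverPrime q) (ζ : Kbarˣ)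
  (hζ : IsPrimitiveRoot (ζ : Kbar) q)
variable {R : Type*} [CommRing R] [Algebra (IsLocalRing.ResidueField A) R]
variable {ιc : Type*} {Λ : ιc → Type*} [∀ i, CommRing (Λ i)] [∀ i, Nontrivial (Λ i)]
variable (S₀ : SSRed (k0Val A) (k0Res A) R (f0Field A (M' * q * q)))
  (Ecl : ClExp (IsLocalRing.ResidueField A) R Λ)
variable (A₁ : ιc → Type*) [∀ i, CommRing (A₁ i)] [∀ i, IsDomain (A₁ i)]
  [∀ i, IsDiscreteValuationRing (A₁ i)]
variable (inc : ∀ i, PowerSeries (A₁ i) →+* LaurentSeries Kbar)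
  (hinc : ∀ i, Function.Injective (inc i))
  (Ex : ∀ i, f0Field A (M' * q * q) →+* LaurentSeries Kbar) (π : ∀ i, A₁ i →+* Λ i)
  (hOV : ∀ i, ∀ x : f0Field A (M' * q * q), x ∈ S₀.O →
    Ex i x ∈ tsV (inc i) (PowerSeries.map (π i)))
  (hε : ∀ i (y : S₀.O), Ecl.ε i (S₀.red y) =
    tsBallRed (inc i) (PowerSeries.map (π i)) (hinc i) (Ex i) S₀.O (hOV i) y)
  (co : ∀ i, A₁ i →+* Kbar)
  (hco : ∀ i (Z : PowerSeries (A₁ i)) (n : ℤ),
    (inc i Z).coeff n = if n < 0 then 0 else co i (PowerSeries.coeff n.natAbs Z))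

include hε hco in
/-- **divisibility of the coefficients**: on an element of the ball with coefficients in the
image `S` of `co i`, a vanishing reduced coefficient means that the coefficient is in `q S`. -/
theorem f3w_div (i : ιc) (S : Subring Kbar) (hS : ∀ a, co i a ∈ S)
    (hS' : ∀ x ∈ S, ∃ a, co i a = x)
    (hker : ∀ a : A₁ i, π i a = 0 → ∃ b : A₁ i, a = (q : A₁ i) * b)
    (y : S₀.O) (hy : EoInt S (Ex i (y : f0Field A (M' * q * q)))) (n : ℤ)
    (h0 : (Ecl.ε i (S₀.red y)).coeff n = 0) :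
    ∃ b ∈ S, (Ex i (y : f0Field A (M' * q * q))).coeff n = (q : Kbar) * b := by
  obtain ⟨N₀, hN₀⟩ := f3w_exists_Z (inc i) (co i) (hco i) S hS' _ hy
  -- a large exponent
  set N : ℕ := max N₀ (-n).toNat with hN
  have h1 : N₀ ≤ N := le_max_left _ _
  have h2 : -n ≤ (N : ℤ) := by
    have h3 : -n ≤ ((-n).toNat : ℤ) := Int.self_le_toNat _
    have h4 : (((-n).toNat : ℕ) : ℤ) ≤ (N : ℤ) := by exact_mod_cast le_max_right _ _
    omega
  obtain ⟨Z, hZ⟩ := hN₀ N h1
  have hcoef := s36_tube_coeff Ecl S₀.O S₀.red A₁ (fun _ => LaurentSeries Kbar) inc hinc Ex π hOV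
    hε i y N Z hZ (n + N).natAbs
  have e : (((n + N).natAbs : ℕ) : ℤ) - N = n := by
    rw [Int.natAbs_of_nonneg (by omega)]
    ring
  rw [e, h0] at hcoef
  obtain ⟨b, hb⟩ := hker _ hcoef.symm
  refine ⟨co i b, hS b, ?_⟩
  rw [f3w_coeff_of_eq (inc i) (co i) (hco i) _ N Z hZ n, if_neg (by omega), hb, map_mul,
    map_natCast]

variable (iInf iMid iZero : ιc)
  (hExInf : ∀ f : f0Field A (M' * q * q), Ex iInf f = ecInf M' q (f : FF (M' * q * q)))
  (hExMid : ∀ f : f0Field A (M' * q * q),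
    Ex iMid f = ecMid M' q hq hqM ζ hζ (f : FF (M' * q * q)))
  (hExZero : ∀ f : f0Field A (M' * q * q),
    Ex iZero f = ecZero M' q hq hqM (f : FF (M' * q * q)))

include hq hA hε hco hExInf hExMid hExZero in
/-- **(F3') for the wire data** = `hf3` of `ctl_a2crux_D1`, for all `a₀` beyond a bound. -/
theorem f3w_hf3 (haux : IsAuxLevel q M')
    {R' : ConstRed A (IsLocalRing.residue A) (Fk (IsLocalRing.ResidueField A) M') (FF M')}
    (hR' : IsSeriesRed R')
    (hwInf : Ecl.w iInf = 1) (hwMid : Ecl.w iMid = 1) (hwZero : Ecl.w iZero = 1)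
    (hint : ∀ (c : ℕ) (z : S₀.O), ((z : f0Field A (M' * q * q)) : FF (M' * q * q)) ∈
        riemannRochSpace (K := Kbar) (c • fbmD1 M' q hq hqM ζ₀ hζ₀) →
      ∀ i, ∃ Z : PowerSeries (A₁ i),
        Ex i (z : f0Field A (M' * q * q)) * inc i (PowerSeries.X ^ (c * Ecl.w i)) = inc i Z)
    (hcoInf : ∀ a, co iInf a ∈ zsR0 A) (hcoInf' : ∀ x ∈ zsR0 A, ∃ a, co iInf a = x)
    (hcoMid : ∀ a, co iMid a ∈ zsR1 A (ζ : Kbar))
    (hcoMid' : ∀ x ∈ zsR1 A (ζ : Kbar), ∃ a, co iMid a = x)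
    (hcoZero : ∀ a, co iZero a ∈ zsR0 A) (hcoZero' : ∀ x ∈ zsR0 A, ∃ a, co iZero a = x)
    (hkerInf : ∀ a : A₁ iInf, π iInf a = 0 → ∃ b : A₁ iInf, a = (q : A₁ iInf) * b)
    (hkerMid : ∀ a : A₁ iMid, π iMid a = 0 → ∃ b : A₁ iMid, a = (q : A₁ iMid) * b)
    (hkerZero : ∀ a : A₁ iZero, π iZero a = 0 → ∃ b : A₁ iZero, a = (q : A₁ iZero) * b)
    (hO : ∀ x : FF (M' * q * q), x ∈ elqRing A M' q hq hqM ζ hζ →
      ∃ y : S₀.O, ((y : f0Field A (M' * q * q)) : FF (M' * q * q)) = x) :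
    ∃ c₀ : ℕ, ∀ a₀, c₀ ≤ a₀ → ∀ a c, a₀ ≤ a → a ≤ c → ∀ y : S₀.O,
      ((y : f0Field A (M' * q * q)) : FF (M' * q * q)) ∈
        riemannRochSpace (K := Kbar) (c • fbmD1 M' q hq hqM ζ₀ hζ₀) → S₀.red y ∈ Ecl.P a →
      ∃ y' : S₀.O, ((y' : f0Field A (M' * q * q)) : FF (M' * q * q)) ∈
          riemannRochSpace (K := Kbar) (a • fbmD1 M' q hq hqM ζ₀ hζ₀) ∧
        S₀.red y' = S₀.red y := by
  refine f3c_hf3 hq hqM ζ₀ hζ₀ hA ζ hζ S₀ Ecl iInf iMid iZero haux hR' hwInf hwMid hwZero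
    ?_ hO ?_ ?_ ?_
  · -- P6 in the `elqRing` form
    intro c y hy
    rw [mem_elqRing]
    obtain ⟨Z1, h1⟩ := hint c y hy iInf
    obtain ⟨Z2, h2⟩ := hint c y hy iMid
    obtain ⟨Z3, h3⟩ := hint c y hy iZero
    refine ⟨?_, ?_, ?_⟩
    · rw [← hExInf]
      exact f3w_eoInt (inc iInf) (co iInf) (hco iInf) _ hcoInf _ _ Z1 h1
    · rw [← hExMid]
      exact f3w_eoInt (inc iMid) (co iMid) (hco iMid) _ hcoMid _ _ Z2 h2
    · rw [← hExZero]
      exact f3w_eoInt (inc iZero) (co iZero) (hco iZero) _ hcoZero _ _ Z3 h3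
  · intro y hy n h0
    rw [← hExInf]
    refine f3w_div S₀ Ecl A₁ inc hinc Ex π hOV hε co hco iInf _ hcoInf hcoInf' hkerInf y ?_ n h0
    rw [hExInf]
    exact ((mem_elqRing A M' q hq hqM ζ hζ _).mp hy).1
  · intro y hy n h0
    rw [← hExMid]
    refine f3w_div S₀ Ecl A₁ inc hinc Ex π hOV hε co hco iMid _ hcoMid hcoMid' hkerMid y ?_ n h0
    rw [hExMid]
    exact ((mem_elqRing A M' q hq hqM ζ hζ _).mp hy).2.1
  · intro y hy n h0
    rw [← hExZero]
    refine f3w_div S₀ Ecl A₁ inc hinc Ex π hOV hε co hco iZero _ hcoZero hcoZero' hkerZero y ?_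
      n h0
    rw [hExZero]
    exact ((mem_elqRing A M' q hq hqM ζ hζ _).mp hy).2.2

end Wire

end Fermat.Agent.S36lib

end
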