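/-
Item 83 (S36), piece C-4 (F3') for THE FAMILY (helper17).  Complete proofs.

* `f3f_hf3` = the hypothesis `hf3` of `ctl_a2crux_D1` / `ctl_a2crux` / `ctl_kummer_FF` for the
  concrete family `CruxFam.lean` (helper16: `CfmCusp`, `cfmA1`, `cfmInc`, `cfmEx`, `cfmLam`,
  `cfmPi`), from `hOV` (F1), `hε` (by construction, `clExpOfTube_hε`), `hint` (F2 = P6) and
  `hO` (the ball contains the functions with integral expansions).
  NO `k`-algebra structure on `cfmLam`, no dimension count (descent with `exg_exists`).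
* `f3f_mem_inf`, `f3f_mem_mid`, `f3f_mem_zero`: a function with `A`-integral expansion at a cusp
  lies in the valuation ring of the cusp (`R.O`, `vmidO`, `R.O ∘ w_{q²}`);
  `f3f_mem_ball`: the ball of `nodeSetupM` contains the `I`-fixed functions with integral
  expansions; `f3f_hO` = the hypothesis `hO` of `f3f_hf3` for any `S₀` containing that ball.
* `f3f_isMidExp_ecMid`, `f3f_isMidExp_unique`: `ecMid ζ` is THE middle expansion.
Helper lemmas are prefixed `f3f_`.
-/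
import Mathlib
import Fermat.Agent.S36lib.F3Wire
import Fermat.Agent.S36lib.CruxFamPi
import Fermat.Agent.S36lib.TheSetup
import Fermat.Agent.S36lib.VMidSV
import Fermat.Agent.S36lib.FixedF0
import Fermat.Agent.S36lib.MidExpGal

set_option autoImplicit false
set_option linter.style.haveILetI false
set_option linter.unusedSectionVars false
set_option linter.unusedVariables false
set_option synthInstance.maxHeartbeats 400000

noncomputable section

namespace Fermat.Agent.S36lib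

open AlgebraicCurve ModularCurve HahnSeries
open Fermat.Agent.S24lib Fermat.Agent.S34lib Fermat.Agent.S37lib Fermat.Agent.GoodRed
  Fermat.Agent.GM

variable {M' q : ℕ} [NeZero M'] [NeZero q] (hq : q.Prime) (hqM : ¬ q ∣ M') (ζ₀ : Kbarˣ)
  (hζ₀ : IsPrimitiveRoot (ζ₀ : Kbar) q)
variable {A : ValuationSubring Kbar} (hA : A.LiesOverPrime q) (ζ : Kbarˣ)
  (hζ : IsPrimitiveRoot (ζ : Kbar) q)

/-! ### The coefficient embeddings of the family -/

/-- the coefficients of `cfmInc` -/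
theorem f3f_hco (i : CfmCusp) (Z : PowerSeries (cfmA1 A ζ i)) (n : ℤ) :
    (cfmInc A ζ i Z).coeff n =
      if n < 0 then 0
      else (vdiscRing A (cfmK1 A ζ i)).subtype (PowerSeries.coeff n.natAbs Z) := by
  by_cases hn : n < 0
  · rw [if_pos hn]
    exact ta1Iota_coeff_neg A (cfmK1 A ζ i) Z hn
  · rw [if_neg hn]
    have e : n = ((n.natAbs : ℕ) : ℤ) := (Int.natAbs_of_nonneg (by omega)).symm
    conv_lhs => rw [e]
    exact ta1Iota_coeff_nat A (cfmK1 A ζ i) Z n.natAbs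

/-! ### (F3') for the family -/

section F3

variable {R : Type*} [CommRing R] [Algebra (IsLocalRing.ResidueField A) R]
variable [∀ i, IsDiscreteValuationRing (cfmA1 A ζ i)] [∀ i, Nontrivial (cfmLam A q ζ i)]
variable (S₀ : SSRed (k0Val A) (k0Res A) R (f0Field A (M' * q * q)))
  (Ecl : ClExp (IsLocalRing.ResidueField A) R (cfmLam A q ζ))
  (hOV : ∀ i, ∀ x : f0Field A (M' * q * q), x ∈ S₀.O →
    cfmEx A M' q hq hqM ζ hζ i x ∈ tsV (cfmInc A ζ i) (PowerSeries.map (cfmPi A q ζ i)))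
  (hε : ∀ i (y : S₀.O), Ecl.ε i (S₀.red y) =
    tsBallRed (cfmInc A ζ i) (PowerSeries.map (cfmPi A q ζ i)) (cfmInc_injective A ζ i)
      (cfmEx A M' q hq hqM ζ hζ i) S₀.O (hOV i) y)

include hA hε in
/-- **(F3') for THE family** = `hf3` of `ctl_a2crux_D1`, for all `a₀` beyond a bound. -/
theorem f3f_hf3 (haux : IsAuxLevel q M')
    {R' : ConstRed A (IsLocalRing.residue A) (Fk (IsLocalRing.ResidueField A) M') (FF M')}
    (hR' : IsSeriesRed R')
    (hw : ∀ i, Ecl.w i = 1)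
    (hint : ∀ (c : ℕ) (z : S₀.O), ((z : f0Field A (M' * q * q)) : FF (M' * q * q)) ∈
        riemannRochSpace (K := Kbar) (c • fbmD1 M' q hq hqM ζ₀ hζ₀) →
      ∀ i, ∃ Z : PowerSeries (cfmA1 A ζ i),
        cfmEx A M' q hq hqM ζ hζ i (z : f0Field A (M' * q * q)) *
          cfmInc A ζ i (PowerSeries.X ^ (c * Ecl.w i)) = cfmInc A ζ i Z)
    (hO : ∀ x : FF (M' * q * q), x ∈ elqRing A M' q hq hqM ζ hζ →
      ∃ y : S₀.O, ((y : f0Field A (M' * q * q)) : FF (M' * q * q)) = x) :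
    ∃ c₀ : ℕ, ∀ a₀, c₀ ≤ a₀ → ∀ a c, a₀ ≤ a → a ≤ c → ∀ y : S₀.O,
      ((y : f0Field A (M' * q * q)) : FF (M' * q * q)) ∈
        riemannRochSpace (K := Kbar) (c • fbmD1 M' q hq hqM ζ₀ hζ₀) → S₀.red y ∈ Ecl.P a →
      ∃ y' : S₀.O, ((y' : f0Field A (M' * q * q)) : FF (M' * q * q)) ∈
          riemannRochSpace (K := Kbar) (a • fbmD1 M' q hq hqM ζ₀ hζ₀) ∧
        S₀.red y' = S₀.red y := by
  have hker : ∀ (i : CfmCusp) (a : cfmA1 A ζ i), cfmPi A q ζ i a = 0 →
      ∃ b : cfmA1 A ζ i, a = ((q : ℕ) : cfmA1 A ζ i) * b := by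
    intro i a ha
    exact (cfp_pi_eq_zero_iff A q ζ i a).mp ha
  refine f3w_hf3 hq hqM ζ₀ hζ₀ hA ζ hζ S₀ Ecl (cfmA1 A ζ) (cfmInc A ζ) (cfmInc_injective A ζ)
    (cfmEx A M' q hq hqM ζ hζ) (cfmPi A q ζ) hOV hε
    (fun i => (vdiscRing A (cfmK1 A ζ i)).subtype) (f3f_hco ζ)
    CfmCusp.inf CfmCusp.mid CfmCusp.zero (fun _ => rfl) (fun _ => rfl) (fun _ => rfl)
    haux hR' (hw _) (hw _) (hw _) hint ?_ ?_ ?_ ?_ ?_ ?_
    (hker CfmCusp.inf) (hker CfmCusp.mid) (hker CfmCusp.zero) hO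
  · exact fun a => ⟨a.2.2, a.2.1⟩
  · exact fun x hx => ⟨⟨x, hx.2, hx.1⟩, rfl⟩
  · exact fun a => ⟨a.2.2, a.2.1⟩
  · exact fun x hx => ⟨⟨x, hx.2, hx.1⟩, rfl⟩
  · exact fun a => ⟨a.2.2, a.2.1⟩
  · exact fun x hx => ⟨⟨x, hx.2, hx.1⟩, rfl⟩

end F3

/-! ### The middle expansion -/

/-- `ecMid ζ` is a middle expansion -/
theorem f3f_isMidExp_ecMid : IsMidExp M' q ζ (ecMid M' q hq hqM ζ hζ) where
  const := ecMid_algebraMap M' q hq hqM ζ hζ
  alpha := ecMid_alpha M' q hq hqM ζ hζ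
  beta := fun Y' => by
    have h := ecMid_pi3 M' q hq hqM ζ hζ Y'
    rwa [ecPi3_apply] at h

/-! ### Integral expansions lie in the ball -/

section Ball

variable (R : ConstRed A (IsLocalRing.residue A)
  (↥(modularFunctionFieldFullC (IsLocalRing.ResidueField A) M')) (FF (M' * q * q)))
  (hR : IsSeriesRed R)

include hR in
/-- a function with `A`-integral `q`-expansion lies in the valuation ring at `∞` -/
theorem f3f_mem_inf (x : FF (M' * q * q))
    (hx : EoInt A.toSubring (ecInf M' q x)) : x ∈ R.O := by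
  obtain ⟨y, hy⟩ := (eoInt_iff_coeffMap A.toSubring _).mp hx
  have hy' : coeffMap A.subtype y = (x : LaurentSeries Kbar) := hy
  have hmem : coeffMap A.subtype y ∈ modularFunctionFieldBar (M' * q * q) := by
    rw [hy']
    exact x.2
  have h := hR.mem y hmem
  have e : (⟨coeffMap A.subtype y, hmem⟩ : FF (M' * q * q)) = x := Subtype.ext hy'
  rwa [e] at h

include hR in
/-- a function with `A`-integral expansion at `0` lies in the valuation ring at `0` -/
theorem f3f_mem_zero (x : FF (M' * q * q))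
    (hx : EoInt A.toSubring (ecZero M' q hq hqM x)) : alW2 M' hq hqM x ∈ R.O :=
  f3f_mem_inf R hR (alW2 M' hq hqM x) hx

/-- a function with `A`-integral middle expansion lies in the middle valuation ring -/
theorem f3f_mem_mid (hlt : A.valuation (q : Kbar) < 1) (hζq : ζ ^ q = 1)
    {E : FF (M' * q * q) →+* LaurentSeries Kbar} (hE : IsMidExp M' q ζ E)
    (x : FF (M' * q * q)) (hx : EoInt A.toSubring (E x)) : x ∈ vmidO A hq hlt hζq hE := by
  obtain ⟨y, hy⟩ := (eoInt_iff_coeffMap A.toSubring _).mp hx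
  have hy' : coeffMap A.subtype y = E x := hy
  have hone : coeffMap (IsLocalRing.residue A) (1 : LaurentSeries A) ≠ 0 := by
    rw [map_one]
    exact one_ne_zero
  obtain ⟨h, -⟩ := vmid_bridge A hq hlt hζq hE x y 1 hone (by rw [map_one, mul_one, hy'])
  exact h

end Ball

/-! ### Uniqueness of the middle expansion, the ball of `nodeSetupM` -/

section Setup

include hq in
/-- the middle expansion attached to `ζ` is unique -/
theorem f3f_isMidExp_unique {E E' : FF (M' * q * q) →+* LaurentSeries Kbar}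
    (hE : IsMidExp M' q ζ E) (hE' : IsMidExp M' q ζ E') : E' = E := by
  refine RingHom.ext fun f => ?_
  have h := midExp_gal M' q hq 1 ζ ζ rfl E E' hE.alpha hE.beta hE'.alpha hE'.beta f
  rw [map_one, one_smul] at h
  rw [h]
  ext n
  rw [coeffMap_coeff]
  rfl

variable (R : ConstRed A (IsLocalRing.residue A)
  (↥(modularFunctionFieldFullC (IsLocalRing.ResidueField A) M')) (FF (M' * q * q)))
  (hR : IsSeriesRed R)
  (hlt : A.valuation (q : Kbar) < 1) (hζq : ζ ^ q = 1)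
  {E : FF (M' * q * q) →+* LaurentSeries Kbar} (hE : IsMidExp M' q ζ E)
  (hiMid : ∀ (x : FF (M' * q * q)) (hx : x ∈ (vmidSV A hq hlt hζq hE).O),
    x ∈ f0Field A (M' * q * q) →
    (vmidSV A hq hlt hζq hE).red ⟨x, hx⟩ ∈
      modularFunctionFieldFullC (IsLocalRing.ResidueField A) M')
  (hoMid : ∀ y ∈ modularFunctionFieldFullC (IsLocalRing.ResidueField A) M',
    ∃ (x : FF (M' * q * q)) (hx : x ∈ (vmidSV A hq hlt hζq hE).O),
      x ∈ f0Field A (M' * q * q) ∧ (vmidSV A hq hlt hζq hE).red ⟨x, hx⟩ = y)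

/-- **the ball of `nodeSetupM` contains the functions of `F0` with `A`-integral expansions** at
the three cusps -/
theorem f3f_mem_ball (x : f0Field A (M' * q * q))
    (h1 : EoInt A.toSubring (ecInf M' q (x : FF (M' * q * q))))
    (h2 : EoInt A.toSubring (ecMid M' q hq hqM ζ hζ (x : FF (M' * q * q))))
    (h3 : EoInt A.toSubring (ecZero M' q hq hqM (x : FF (M' * q * q)))) :
    x ∈ (nodeSetupM A M' q hq hqM hA R hR (vmidSV A hq hlt hζq hE) hiMid hoMid).ball := by
  have e : E = ecMid M' q hq hqM ζ hζ :=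
    f3f_isMidExp_unique hq ζ (f3f_isMidExp_ecMid hq hqM ζ hζ) hE
  refine ⟨⟨?_, ?_⟩, ?_⟩
  · exact f3f_mem_inf R hR _ h1
  · exact f3f_mem_mid hq ζ hlt hζq hE _ (by rw [e]; exact h2)
  · exact f3f_mem_zero hq hqM R hR _ h3

/-- the same for the elements of `elqRing` -/
theorem f3f_elq_mem_ball (x : FF (M' * q * q)) (hx : x ∈ elqRing A M' q hq hqM ζ hζ) :
    ∃ hxF : x ∈ f0Field A (M' * q * q),
      (⟨x, hxF⟩ : f0Field A (M' * q * q)) ∈
        (nodeSetupM A M' q hq hqM hA R hR (vmidSV A hq hlt hζq hE) hiMid hoMid).ball := by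
  have hxF : x ∈ f0Field A (M' * q * q) :=
    (mem_f0Field_iff_isIFixed A (M' * q * q) x).mpr
      (isIFixed_of_mem_elqRing A M' q hq hqM ζ hζ hx)
  obtain ⟨h1, h2, h3⟩ := (mem_elqRing A M' q hq hqM ζ hζ x).mp hx
  exact ⟨hxF, f3f_mem_ball hq hqM hA ζ hζ R hR hlt hζq hE hiMid hoMid ⟨x, hxF⟩
    (eoInt_mono (zsR0_le_A A) h1) (eoInt_mono (show zsR1 A (ζ : Kbar) ≤ A.toSubring from fun _ h => h.1) h2)
    (eoInt_mono (zsR0_le_A A) h3)⟩

/-- **`hO` of `f3f_hf3`** for every `S₀` containing the ball of `nodeSetupM` -/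
theorem f3f_hO {R₀ : Type*} [CommRing R₀] [Algebra (IsLocalRing.ResidueField A) R₀]
    (S₀ : SSRed (k0Val A) (k0Res A) R₀ (f0Field A (M' * q * q)))
    (hS₀ : ∀ x : f0Field A (M' * q * q),
      x ∈ (nodeSetupM A M' q hq hqM hA R hR (vmidSV A hq hlt hζq hE) hiMid hoMid).ball →
      x ∈ S₀.O)
    (x : FF (M' * q * q)) (hx : x ∈ elqRing A M' q hq hqM ζ hζ) :
    ∃ y : S₀.O, ((y : f0Field A (M' * q * q)) : FF (M' * q * q)) = x := by
  obtain ⟨hxF, hb⟩ := f3f_elq_mem_ball hq hqM hA ζ hζ R hR hlt hζq hE hiMid hoMid x hx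
  exact ⟨⟨⟨x, hxF⟩, hS₀ _ hb⟩, rfl⟩

end Setup

end Fermat.Agent.S36lib

end
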