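/-
Item 83 (S36), CRUX, the PROVIDER of the auxiliary function `x` of `cf_kummer` / `cbc_kummer`
(helper7).

At an auxiliary level `M'` (`q ∤ M'`), `A ∣ q`, `n ≥ 2 g(M')`:  `x := π₂ g_n ∈ F_{M' q²}`
(`g_n` of `GnA0.lean`, `π₂ : z ↦ q z`) satisfies

* `x` is fixed by the whole Galois group, `x ∈ F0(M' q²)`;
* the three expansions of `x` (at `∞`, at the middle cusps, at `0`) are ALL equal to the same
  `A`-integral series `y = y_g(X^q)`, with a UNIT coefficient at `-(q n)` and no term below;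
  `y` is a unit of `A((X))` (so `x⁻¹` has the integral expansions `y⁻¹`);
* `x ∈ L(q n • D₁)`, `D₁ = fbmD1` the cusps over `∞'`, with EXACT pole order `q n` at every point
  of `D₁` (`hxL`, `hexact` of `cbc_kummer` with `n₂ = q n`).
All primes `q` (including `q = 2`).  Helper lemmas are prefixed `xpv_`.
-/
import Mathlib
import Fermat.Agent.S36lib.GnA0
import Fermat.Agent.S36lib.FibreD1
import Fermat.Agent.S36lib.FixedF0
import Fermat.Agent.S34lib.LiftInf
import Fermat.Agent.S34lib.VKron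
import Fermat.Agent.S36lib.NormVal

set_option autoImplicit false
set_option linter.style.haveILetI false
set_option linter.unusedSectionVars false
set_option synthInstance.maxHeartbeats 400000

noncomputable section

namespace Fermat.Agent.S36lib

open AlgebraicCurve ModularCurve IntermediateField HahnSeries
open Fermat.Agent.S24lib Fermat.Agent.S34lib Fermat.Agent.GoodRed Fermat.Agent.GM
  Fermat.Agent.RRlib

/-! ### Laurent series with unit leading coefficient -/

section Series

variable {R : Type*} [CommRing R]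

/-- the order of a series with a nonzero coefficient at `n` and no term below `n` -/
theorem xpv_order_eq [Nontrivial R] {y : LaurentSeries R} {n : ℤ} (hn : y.coeff n ≠ 0)
    (hv : ∀ k : ℤ, k < n → y.coeff k = 0) : y.order = n := by
  have hy0 : y ≠ 0 := HahnSeries.ne_zero_of_coeff_ne_zero hn
  apply le_antisymm
  · exact HahnSeries.order_le_of_coeff_ne_zero hn
  · by_contra hlt
    exact HahnSeries.coeff_order_eq_zero.not.mpr hy0 (hv _ (not_le.mp hlt))

/-- a Laurent series over a domain with a unit coefficient at `n` and no term below `n` is a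
unit -/
theorem xpv_isUnit [IsDomain R] {y : LaurentSeries R} {n : ℤ} (hu : IsUnit (y.coeff n))
    (hv : ∀ k : ℤ, k < n → y.coeff k = 0) : IsUnit y := by
  rw [HahnSeries.isUnit_iff, HahnSeries.leadingCoeff_eq, xpv_order_eq hu.ne_zero hv]
  exact hu

/-- `y(X^q)` has the coefficient of `y` at `-n` in degree `-(q n)` -/
theorem xpv_coeff_qExpand (q : ℕ) [NeZero q] (y : LaurentSeries R) (n : ℕ) :
    (qExpand R q y).coeff (-((q * n : ℕ) : ℤ)) = y.coeff (-(n : ℤ)) := by
  have e : (-((q * n : ℕ) : ℤ)) = (q : ℤ) * (-(n : ℤ)) := by push_cast; ring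
  rw [e, qExpand_coeff_mul]

/-- `y(X^q)` has no term below `-(q n)` if `y` has none below `-n` -/
theorem xpv_van_qExpand (q : ℕ) [NeZero q] {y : LaurentSeries R} {n : ℕ}
    (hv : ∀ k : ℤ, k < -(n : ℤ) → y.coeff k = 0) :
    ∀ k : ℤ, k < -((q * n : ℕ) : ℤ) → (qExpand R q y).coeff k = 0 := by
  intro k hk
  by_cases hd : (q : ℤ) ∣ k
  · obtain ⟨k', rfl⟩ := hd
    rw [qExpand_coeff_mul]
    apply hv
    have hq : (0 : ℤ) < q := by exact_mod_cast Nat.pos_of_ne_zero (NeZero.ne q)
    have : (q : ℤ) * k' < (q : ℤ) * (-(n : ℤ)) := by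
      have e : (-((q * n : ℕ) : ℤ)) = (q : ℤ) * (-(n : ℤ)) := by push_cast; ring
      rwa [e] at hk
    exact lt_of_mul_lt_mul_left this hq.le
  · exact qExpand_coeff_of_not_dvd q y hd

end Series

/-! ### consequences for an expansion with integral unit series -/

section Expansion

variable {A : ValuationSubring Kbar} {F : Type*} [Field F]

/-- the expansion of `x⁻¹` is the inverse series -/
theorem xpv_expansion_inv (E : F →+* LaurentSeries Kbar) {x : F} {y yinv : LaurentSeries A}
    (hy : y * yinv = 1) (hE : E x = coeffMap A.subtype y) :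
    E x⁻¹ = coeffMap A.subtype yinv := by
  have h1 : coeffMap A.subtype y * coeffMap A.subtype yinv = 1 := by
    rw [← map_mul, hy, map_one]
  rw [map_inv₀, hE]
  exact inv_eq_of_mul_eq_one_right h1

/-- the coefficients of the expansion are integral -/
theorem xpv_expansion_int (E : F →+* LaurentSeries Kbar) {x : F} {y : LaurentSeries A}
    (hE : E x = coeffMap A.subtype y) (k : ℤ) : (E x).coeff k ∈ A := by
  rw [hE, coeffMap_coeff]
  exact (y.coeff k).2

/-- the coefficient of the expansion, as an element of `A` -/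
theorem xpv_expansion_coeff (E : F →+* LaurentSeries Kbar) {x : F} {y : LaurentSeries A}
    (hE : E x = coeffMap A.subtype y) (k : ℤ) :
    (⟨(E x).coeff k, xpv_expansion_int E hE k⟩ : A) = y.coeff k := by
  apply Subtype.ext
  show (E x).coeff k = _
  rw [hE, coeffMap_coeff]
  rfl

/-- the image of the top coefficient under any coefficient reduction is a unit -/
theorem xpv_expansion_isUnit {Λ : Type*} [CommRing Λ] (ρ : A →+* Λ)
    (E : F →+* LaurentSeries Kbar) {x : F} {y : LaurentSeries A}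
    (hE : E x = coeffMap A.subtype y) {k : ℤ} (hu : IsUnit (y.coeff k))
    (h : (E x).coeff k ∈ A) : IsUnit (ρ ⟨(E x).coeff k, h⟩) := by
  have e : (⟨(E x).coeff k, h⟩ : A) = y.coeff k := xpv_expansion_coeff E hE k
  rw [e]
  exact hu.map ρ

/-- the reduction of a series with a unit coefficient is nonzero -/
theorem xpv_residue_ne_zero {y : LaurentSeries A} {k : ℤ} (hu : IsUnit (y.coeff k)) :
    coeffMap (IsLocalRing.residue A) y ≠ 0 := by
  intro h0
  have h1 : (coeffMap (IsLocalRing.residue A) y).coeff k = 0 := by rw [h0]; rfl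
  rw [coeffMap_coeff] at h1
  have h2 : y.coeff k ∈ IsLocalRing.maximalIdeal A := (IsLocalRing.residue_eq_zero_iff _).mp h1
  exact (IsLocalRing.mem_maximalIdeal _).mp h2 hu

/-- `x` is a unit for the Gauss valuation of the expansion `E`, with reduction `ȳ` -/
theorem xpv_isGaussRed (E : F →+* LaurentSeries Kbar) {x : F} {y : LaurentSeries A}
    (hE : E x = coeffMap A.subtype y) {k : ℤ} (hu : IsUnit (y.coeff k)) :
    IsGaussRed A E 1 x (coeffMap (IsLocalRing.residue A) y) := by
  refine ⟨y, 1, xpv_residue_ne_zero hu, ?_, ?_, ?_⟩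
  · rw [map_one]
    exact one_ne_zero
  · rw [map_one, one_mul, map_one, mul_one, hE]
  · rw [map_one, div_one]

end Expansion

/-! ### the provider -/

section Provider

variable (M' q : ℕ) [NeZero M'] [NeZero q] (hq : q.Prime) (hqM : ¬ q ∣ M')
variable (ζ₀ : Kbarˣ) (hζ₀ : IsPrimitiveRoot (ζ₀ : Kbar) q)
variable {A : ValuationSubring Kbar}

/-- the three expansions of `π₂ g` for `g` with an `A`-integral `q`-expansion `y` -/
theorem xpv_expansions {g : FF M'} {y : LaurentSeries A}
    (hgy : ((g : FF M') : LaurentSeries Kbar) = coeffMap A.subtype y) :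
    ecInf M' q (ecPi2 M' q g) = coeffMap A.subtype (qExpand A q y) ∧
    ecZero M' q hq hqM (ecPi2 M' q g) = coeffMap A.subtype (qExpand A q y) ∧
    ∀ (ζ : Kbarˣ) (hζ : IsPrimitiveRoot (ζ : Kbar) q),
      ecMid M' q hq hqM ζ hζ (ecPi2 M' q g) = coeffMap A.subtype (qExpand A q y) := by
  refine ⟨?_, ?_, fun ζ hζ => ?_⟩
  · rw [ecInf_pi2, hgy, vk_coeffMap_qExpand]
  · rw [ecZero_pi2, hgy, vk_coeffMap_qExpand]
  · rw [ecMid_pi2, hgy, vk_coeffMap_qExpand]

include hq hqM in
/-- **the provider of `x`** (raw form): `x = π₂ g`. -/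
theorem xpv_exists (haux : IsAuxLevel q M') (hA : A.LiesOverPrime q) (n : ℕ)
    (hn : 2 * genusFF Kbar (FF M') ≤ n) :
    ∃ (g : FF M') (y yinv : LaurentSeries A),
      (∀ σ : Kbar ≃ₐ[ℚ] Kbar, galFF M' σ • g = g) ∧
      y * yinv = 1 ∧
      IsUnit (y.coeff (-((q * n : ℕ) : ℤ))) ∧
      (∀ k : ℤ, k < -((q * n : ℕ) : ℤ) → y.coeff k = 0) ∧
      ecInf M' q (ecPi2 M' q g) = coeffMap A.subtype y ∧
      ecZero M' q hq hqM (ecPi2 M' q g) = coeffMap A.subtype y ∧
      (∀ (ζ : Kbarˣ) (hζ : IsPrimitiveRoot (ζ : Kbar) q),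
        ecMid M' q hq hqM ζ hζ (ecPi2 M' q g) = coeffMap A.subtype y) ∧
      ecPi2 M' q g ≠ 0 ∧
      ecPi2 M' q g ∈ f0Field A (M' * q * q) ∧
      ecPi2 M' q g ∈ riemannRochSpace (K := Kbar) ((q * n) • fbmD1 M' q hq hqM ζ₀ hζ₀) ∧
      ∀ v : Place Kbar (FF (M' * q * q)), fbmD1 M' q hq hqM ζ₀ hζ₀ v ≠ 0 →
        v.ord (ecPi2 M' q g) = -(((q * n : ℕ) : ℤ) * fbmD1 M' q hq hqM ζ₀ hζ₀ v) := by
  classical
  haveI : Fact q.Prime := ⟨hq⟩
  obtain ⟨R, r, hR, -, -, -⟩ := liftInf_exists_red M' A q haux hA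
  obtain ⟨g, yg, hfix, hgy, hgL, hu, hv⟩ := gnA0_exists_gal q haux hA hR n hn
  -- the series
  have hu' : IsUnit ((qExpand A q yg).coeff (-((q * n : ℕ) : ℤ))) := by
    rw [xpv_coeff_qExpand]
    exact hu
  have hv' := xpv_van_qExpand q hv
  obtain ⟨yinv, hyinv⟩ := isUnit_iff_exists_inv.mp (xpv_isUnit hu' hv')
  obtain ⟨e1, e2, e3⟩ := xpv_expansions M' q hq hqM (A := A) hgy
  -- the order of `g`
  have hcoe : ∀ k : ℤ, ((g : FF M') : LaurentSeries Kbar).coeff k = ((yg.coeff k : A) : Kbar) := by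
    intro k
    rw [hgy, coeffMap_coeff]
    rfl
  have hord : ((g : FF M') : LaurentSeries Kbar).order = -(n : ℤ) := by
    apply xpv_order_eq
    · rw [hcoe]
      intro h0
      have : yg.coeff (-(n : ℤ)) = 0 := Subtype.ext h0
      exact hu.ne_zero this
    · intro k hk
      rw [hcoe, hv k hk]
      rfl
  have hpole : ClPole n ((g : FF M') : LaurentSeries Kbar) := by
    intro k hk
    rw [hcoe, hv k hk]
    rfl
  have hg0 : g ≠ 0 := by
    intro h0
    rw [h0] at hord
    have h1 : (((0 : FF M') : FF M') : LaurentSeries Kbar) = 0 := rfl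
    rw [h1, HahnSeries.order_zero] at hord
    have hn0 : (n : ℤ) = 0 := by omega
    have hu0 := hu
    rw [show (-(n : ℤ)) = 0 by omega] at hu0
    have h2 : ((g : FF M') : LaurentSeries Kbar).coeff 0 = 0 := by rw [h0]; rfl
    rw [hcoe] at h2
    exact hu0.ne_zero (Subtype.ext h2)
  have hreg : ∀ v' : Place Kbar (FF M'), v' ≠ infPlaceBar M' → 0 ≤ v'.ord g := by
    intro v' hv'
    have h := (mem_riemannRochSpace_iff).mp hgL v'
    rcases h with h | h
    · exact absurd h hg0
    · rw [Finsupp.single_eq_of_ne hv', neg_zero] at h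
      exact h
  refine ⟨g, qExpand A q yg, yinv, hfix, hyinv, hu', hv', e1, e2, e3, ?_, ?_, ?_, ?_⟩
  · exact (map_ne_zero (ecPi2 M' q)).mpr hg0
  · apply ecPi2_mem_f0Field
    rw [mem_f0Field_iff_isIFixed]
    exact fun σ _ => hfix σ
  · exact ecPi2_mem_L_fbmD1 M' q hq hqM ζ₀ hζ₀ hreg hpole
  · exact fbmD1_hexact_pi2 M' q hq hqM ζ₀ hζ₀ g n hord

end Provider

end Fermat.Agent.S36lib

end
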