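/-
Item 83 (S36), piece CRUX x-PROVIDER, final form (helper7).  Complete proofs.

For helper16's concrete family `CruxFam.lean` (`CfmCusp`, `cfmA1`, `cfmInc`, `cfmEx`, `cfmLam`,
`cfmPi`, `cfmVarpi`) and helper12's `TubeWire.lean`:

* (F3) `xpf_nontrivial` (`Nontrivial (cfmLam i)`), `xpf_hpi` (`cfmPi i (cfmVarpi i)` nilpotent),
  `xpf_isUnit_m` (`(m : cfmLam i)` is a unit for `q ∤ m`), `xpf_pi_eq_zero_iff`
  (`cfmPi i c = 0 ↔ q ∣ c`), `xpf_isUnit_iff`;
* `xpf_exists_shift`: an element whose expansion at the cusp `i` is an `A`-integral series with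
  coefficients in `K0` and pole order `≤ k` has an integral expansion `Z` (`hint` for it), with
  the constant coefficient of `Z` the coefficient of degree `-k`;
* **`xpf_exists`**: the exact unit `x = π₂ g_n` (`xpv_exists`) with ALL the inputs of the crux:
  `x * xinv = 1`, Gauss units at the three cusps, `hxL`, `hexact`, and the hypothesis `hx` of
  `tbw_hxu` (the leading coefficients of the integral expansions are units modulo `q`);
* `xpf_mem_ball`: `x, xinv ∈ S.ball` for `S = nodeSetupM …` (any `R`, `vMid` containing the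
  Gauss unit ball of `ecMid`).
-/
import Mathlib
import Fermat.Agent.S36lib.CruxFam
import Fermat.Agent.S36lib.TubeA1Bridge
import Fermat.Agent.S36lib.XProv
import Fermat.Agent.S36lib.TheSetup
import Fermat.Agent.S36lib.VMidSV

set_option autoImplicit false
set_option linter.unusedSectionVars false
set_option linter.unusedVariables false
set_option linter.style.haveILetI false
set_option synthInstance.maxHeartbeats 400000

noncomputable section

namespace Fermat.Agent.S36lib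

open ModularCurve HahnSeries AlgebraicCurve
open Fermat.Agent.GoodRed Fermat.Agent.S24lib Fermat.Agent.S34lib Fermat.Agent.S37lib
  Fermat.Agent.GM

/-! ### (F3): the reduced coefficient rings -/

section F3

variable (A : ValuationSubring Kbar) (q : ℕ) [NeZero q] (hq : q.Prime)
  (ζ : Kbarˣ) (hζ : IsPrimitiveRoot (ζ : Kbar) q) (hA : A.LiesOverPrime q)

/-- the units of `cfmA1 i` are the elements of value `1` -/
theorem xpf_isUnit_iff (i : CfmCusp) (x : cfmA1 A ζ i) :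
    IsUnit x ↔ A.valuation (x : Kbar) = 1 :=
  ta1_isUnit_iff x

theorem xpf_coe_natCast (i : CfmCusp) (m : ℕ) :
    (((m : ℕ) : cfmA1 A ζ i) : Kbar) = (m : Kbar) := by
  simp

include hA in
theorem xpf_val_q_lt_one : A.valuation (q : Kbar) < 1 := k0_val_q_lt_one A q hA

include hA in
/-- `q` is not a unit of `cfmA1 i` -/
theorem xpf_not_isUnit_q (i : CfmCusp) : ¬ IsUnit ((q : ℕ) : cfmA1 A ζ i) := by
  rw [xpf_isUnit_iff, xpf_coe_natCast]
  exact ne_of_lt (xpf_val_q_lt_one A q hA)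

include hA in
/-- **`Nontrivial (cfmLam i)`** -/
theorem xpf_nontrivial (i : CfmCusp) : Nontrivial (cfmLam A q ζ i) := by
  apply Ideal.Quotient.nontrivial_iff.mpr
  intro h
  rw [Ideal.span_singleton_eq_top] at h
  exact xpf_not_isUnit_q A q ζ hA i h

/-- `cfmPi i c = 0 ↔ q ∣ c` -/
theorem xpf_pi_eq_zero_iff (i : CfmCusp) (c : cfmA1 A ζ i) :
    cfmPi A q ζ i c = 0 ↔ ((q : ℕ) : cfmA1 A ζ i) ∣ c := by
  rw [cfmPi, Ideal.Quotient.eq_zero_iff_mem, Ideal.mem_span_singleton]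

/-- `cfmPi i c = 0` iff `c = q b` with `b ∈ A ∩ K1 i` -/
theorem xpf_pi_eq_zero_iff_coe (i : CfmCusp) (c : cfmA1 A ζ i) :
    cfmPi A q ζ i c = 0 ↔
      ∃ b : Kbar, b ∈ cfmK1 A ζ i ∧ b ∈ A ∧ (c : Kbar) = (q : Kbar) * b := by
  rw [xpf_pi_eq_zero_iff]
  constructor
  · rintro ⟨b, rfl⟩
    refine ⟨(b : Kbar), b.2.1, b.2.2, ?_⟩
    simp
  · rintro ⟨b, hb1, hbA, hc⟩
    refine ⟨⟨b, hb1, hbA⟩, Subtype.ext ?_⟩
    rw [hc]
    simp

include hq hA in
/-- the value of a natural number prime to `q` is `1` -/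
theorem xpf_val_natCast (m : ℕ) (hm : ¬ q ∣ m) : A.valuation (m : Kbar) = 1 := by
  haveI : Fact q.Prime := ⟨hq⟩
  haveI := charP_residueField hA
  have hmA : (m : Kbar) ∈ A := natCast_mem A m
  have h1 : IsLocalRing.residue A ⟨(m : Kbar), hmA⟩ ≠ 0 := by
    have e : IsLocalRing.residue A ⟨(m : Kbar), hmA⟩ = ((m : ℕ) : IsLocalRing.ResidueField A) := by
      rw [← map_natCast (IsLocalRing.residue A)]
      rfl
    rw [e, Ne, CharP.cast_eq_zero_iff (IsLocalRing.ResidueField A) q]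
    exact hm
  have h2 : IsUnit (⟨(m : Kbar), hmA⟩ : A) := by
    by_contra h
    exact h1 ((IsLocalRing.residue_eq_zero_iff _).mpr ((IsLocalRing.mem_maximalIdeal _).mpr h))
  exact (A.valuation_eq_one_iff ⟨(m : Kbar), hmA⟩).mp h2

include hq hA in
/-- **`IsUnit (m : cfmLam i)`** for `q ∤ m` -/
theorem xpf_isUnit_m (m : ℕ) (hm : ¬ q ∣ m) (i : CfmCusp) :
    IsUnit ((m : ℕ) : cfmLam A q ζ i) := by
  have h : IsUnit ((m : ℕ) : cfmA1 A ζ i) := by
    rw [xpf_isUnit_iff, xpf_coe_natCast]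
    exact xpf_val_natCast A q hq hA m hm
  have := h.map (cfmPi A q ζ i)
  rwa [map_natCast] at this

include hq hζ hA in
/-- **`hπ`**: the image of the uniformiser in `cfmLam i` is nilpotent -/
theorem xpf_hpi (i : CfmCusp) :
    IsNilpotent (cfmPi A q ζ i (cfmVarpi A q hq ζ hζ hA i)) := by
  have hinf : cfmPi A q ζ CfmCusp.inf (cfmVarpi A q hq ζ hζ hA CfmCusp.inf) = 0 := by
    rw [xpf_pi_eq_zero_iff]
    refine ⟨1, Subtype.ext ?_⟩
    show (q : Kbar) = _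
    simp
  have hzero : cfmPi A q ζ CfmCusp.zero (cfmVarpi A q hq ζ hζ hA CfmCusp.zero) = 0 := by
    rw [xpf_pi_eq_zero_iff]
    refine ⟨1, Subtype.ext ?_⟩
    show (q : Kbar) = _
    simp
  cases i
  · rw [hinf]
    exact IsNilpotent.zero
  · refine ⟨q - 1, ?_⟩
    rw [← map_pow, xpf_pi_eq_zero_iff_coe]
    have hq0 : (q : Kbar) ≠ 0 := Nat.cast_ne_zero.mpr hq.ne_zero
    have hu := vdisc_val_unit A hq hζ
    refine ⟨((ζ : Kbar) - 1) ^ (q - 1) / (q : Kbar), ?_, ?_, ?_⟩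
    · show _ ∈ vdiscK1 A (ζ : Kbar)
      exact div_mem (pow_mem (sub_mem (zeta_mem_vdiscK1 A (ζ : Kbar)) (one_mem _)) _)
        (natCast_mem _ q)
    · exact (A.valuation_le_one_iff _).mp (le_of_eq hu)
    · show ((ζ : Kbar) - 1) ^ (q - 1) = _
      field_simp
  · rw [hzero]
    exact IsNilpotent.zero


/-! ### the residue maps `θ i : cfmLam i → k` -/

include hA in
theorem xpf_residue_q (i : CfmCusp) :
    IsLocalRing.residue A (ta1Incl A (cfmK1 A ζ i) ((q : ℕ) : cfmA1 A ζ i)) = 0 := by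
  rw [IsLocalRing.residue_eq_zero_iff]
  apply (A.valuation_lt_one_iff _).mpr
  show A.valuation (((q : ℕ) : cfmA1 A ζ i) : Kbar) < 1
  rw [xpf_coe_natCast]
  exact xpf_val_q_lt_one A q hA

/-- **`θ i : cfmLam i →+* k`**, the residue map (`θ (π c) = residue c`) -/
def xpfTheta (i : CfmCusp) : cfmLam A q ζ i →+* IsLocalRing.ResidueField A :=
  Ideal.Quotient.lift _ ((IsLocalRing.residue A).comp (ta1Incl A (cfmK1 A ζ i))) (by
    intro a ha
    rw [Ideal.mem_span_singleton] at ha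
    obtain ⟨b, rfl⟩ := ha
    rw [map_mul, RingHom.comp_apply, xpf_residue_q A q ζ hA i, zero_mul])

theorem xpfTheta_pi (i : CfmCusp) (c : cfmA1 A ζ i) :
    xpfTheta A q ζ hA i (cfmPi A q ζ i c) = IsLocalRing.residue A (ta1Incl A (cfmK1 A ζ i) c) :=
  Ideal.Quotient.lift_mk _ _ _

theorem xpfTheta_comp_pi (i : CfmCusp) :
    (xpfTheta A q ζ hA i).comp (cfmPi A q ζ i) =
      (IsLocalRing.residue A).comp (ta1Incl A (cfmK1 A ζ i)) :=
  RingHom.ext fun c => xpfTheta_pi A q ζ hA i c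

theorem xpfTheta_surjective_of (i : CfmCusp)
    (h : Function.Surjective ((IsLocalRing.residue A).comp (ta1Incl A (cfmK1 A ζ i)))) :
    Function.Surjective (xpfTheta A q ζ hA i) := by
  intro c
  obtain ⟨a, ha⟩ := h c
  exact ⟨cfmPi A q ζ i a, by rw [xpfTheta_pi]; exact ha⟩

/-- `θ (π c) = 0 ↔ ϖ ∣ c` -/
theorem xpf_theta_eq_zero_iff (i : CfmCusp) (c : cfmA1 A ζ i) :
    xpfTheta A q ζ hA i (cfmPi A q ζ i c) = 0 ↔ cfmVarpi A q hq ζ hζ hA i ∣ c := by
  rw [xpfTheta_pi]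
  cases i
  · exact ta1_hφ (vdisc_k0 A q hq hA) c
  · exact ta1_hφ (vdisc_k0_zeta A hq hA hζ) c
  · exact ta1_hφ (vdisc_k0 A q hq hA) c

include hq hζ in
/-- the kernel of `θ` is nilpotent, in the form used by the crux:
`θ (π c) = 0 → π c ^ (q - 1) = 0`. -/
theorem xpf_theta_ker_pow (i : CfmCusp) (c : cfmA1 A ζ i)
    (h : xpfTheta A q ζ hA i (cfmPi A q ζ i c) = 0) : cfmPi A q ζ i c ^ (q - 1) = 0 := by
  rw [xpf_theta_eq_zero_iff A q hq ζ hζ hA] at h
  obtain ⟨d, rfl⟩ := h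
  have hq1 : q - 1 ≠ 0 := by have := hq.two_le; omega
  have hnil : cfmPi A q ζ i (cfmVarpi A q hq ζ hζ hA i) ^ (q - 1) = 0 := by
    cases i
    · have h0 : cfmPi A q ζ CfmCusp.inf (cfmVarpi A q hq ζ hζ hA CfmCusp.inf) = 0 := by
        rw [xpf_pi_eq_zero_iff]
        refine ⟨1, Subtype.ext ?_⟩
        show (q : Kbar) = _
        simp
      rw [h0, zero_pow hq1]
    · rw [← map_pow, xpf_pi_eq_zero_iff_coe]
      have hq0 : (q : Kbar) ≠ 0 := Nat.cast_ne_zero.mpr hq.ne_zero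
      have hu := vdisc_val_unit A hq hζ
      refine ⟨((ζ : Kbar) - 1) ^ (q - 1) / (q : Kbar), ?_, ?_, ?_⟩
      · show _ ∈ vdiscK1 A (ζ : Kbar)
        exact div_mem (pow_mem (sub_mem (zeta_mem_vdiscK1 A (ζ : Kbar)) (one_mem _)) _)
          (natCast_mem _ q)
      · exact (A.valuation_le_one_iff _).mp (le_of_eq hu)
      · show ((ζ : Kbar) - 1) ^ (q - 1) = _
        field_simp
    · have h0 : cfmPi A q ζ CfmCusp.zero (cfmVarpi A q hq ζ hζ hA CfmCusp.zero) = 0 := by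
        rw [xpf_pi_eq_zero_iff]
        refine ⟨1, Subtype.ext ?_⟩
        show (q : Kbar) = _
        simp
      rw [h0, zero_pow hq1]
  rw [map_mul, mul_pow, hnil, zero_mul]

/-- **`unif`** of helper13's `H0Conc` at the middle cusp: `ϖ ^ (q - 1) = u q`, `u` a unit. -/
theorem xpf_unif (M' : ℕ) [NeZero M'] (hqM : ¬ q ∣ M') :
    ∃ ϖ u qA : cfmA1 A ζ CfmCusp.mid, ϖ ^ (q - 1) = u * qA ∧ IsUnit u ∧ qA ≠ 0 ∧
      (∀ c : cfmA1 A ζ CfmCusp.mid,
        xpfTheta A q ζ hA CfmCusp.mid (cfmPi A q ζ CfmCusp.mid c) = 0 ↔ ϖ ∣ c) ∧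
      (∀ c : cfmA1 A ζ CfmCusp.mid, cfmPi A q ζ CfmCusp.mid c = 0 → qA ∣ c) ∧
      cfmEx A M' q hq hqM ζ hζ CfmCusp.mid
          (algebraMap (k0Field A) (f0Field A (M' * q * q))
            (((q : ℕ) : k0Val A) : k0Field A)) =
        cfmInc A ζ CfmCusp.mid (PowerSeries.C qA) := by
  have hq0 : (q : Kbar) ≠ 0 := Nat.cast_ne_zero.mpr hq.ne_zero
  have hu := vdisc_val_unit A hq hζ
  have humem : ((ζ : Kbar) - 1) ^ (q - 1) / (q : Kbar) ∈ vdiscRing A (cfmK1 A ζ CfmCusp.mid) := by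
    refine ⟨?_, (A.valuation_le_one_iff _).mp (le_of_eq hu)⟩
    show _ ∈ vdiscK1 A (ζ : Kbar)
    exact div_mem (pow_mem (sub_mem (zeta_mem_vdiscK1 A (ζ : Kbar)) (one_mem _)) _)
      (natCast_mem _ q)
  refine ⟨cfmVarpi A q hq ζ hζ hA CfmCusp.mid, ⟨_, humem⟩, ((q : ℕ) : cfmA1 A ζ CfmCusp.mid),
    ?_, ?_, ?_, ?_, ?_, ?_⟩
  · apply Subtype.ext
    show ((ζ : Kbar) - 1) ^ (q - 1) = ((ζ : Kbar) - 1) ^ (q - 1) / (q : Kbar) *
      (((q : ℕ) : cfmA1 A ζ CfmCusp.mid) : Kbar)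
    rw [xpf_coe_natCast]
    field_simp
  · rw [xpf_isUnit_iff]
    exact hu
  · intro h
    have := congrArg (fun t : cfmA1 A ζ CfmCusp.mid => (t : Kbar)) h
    simp only [xpf_coe_natCast] at this
    exact hq0 (by simpa using this)
  · intro c
    exact xpf_theta_eq_zero_iff A q hq ζ hζ hA CfmCusp.mid c
  · intro c hc
    exact (xpf_pi_eq_zero_iff A q ζ CfmCusp.mid c).mp hc
  · rw [cfm_hEc, cfmPhi_q]

end F3

/-! ### integral expansions at the three cusps -/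

section Shift

variable (A : ValuationSubring Kbar) (M' q : ℕ) [NeZero M'] [NeZero q] (hq : q.Prime)
  (hqM : ¬ q ∣ M') (ζ : Kbarˣ) (hζ : IsPrimitiveRoot (ζ : Kbar) q)

/-- an element whose expansion at the cusp `i` is an `A`-integral series `s` with coefficients
in `K1 i` and pole order `≤ k` has an integral expansion `Z` (over `cfmA1 i`) after
multiplication by `X ^ k`; the constant coefficient of `Z` is the coefficient of `s` in degree
`-k`. -/
theorem xpf_exists_shift (i : CfmCusp) (x : f0Field A (M' * q * q)) (s : LaurentSeries A)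
    (hs : cfmEc M' q hq hqM ζ hζ i (x : FF (M' * q * q)) = coeffMap A.subtype s)
    (hK : ∀ n : ℤ, ((s.coeff n : A) : Kbar) ∈ cfmK1 A ζ i) (k : ℕ)
    (hk : ∀ n : ℤ, n < -(k : ℤ) → s.coeff n = 0) :
    ∃ Z : PowerSeries (cfmA1 A ζ i),
      cfmEx A M' q hq hqM ζ hζ i x * cfmInc A ζ i (PowerSeries.X ^ k) = cfmInc A ζ i Z ∧
        ((PowerSeries.constantCoeff Z : cfmA1 A ζ i) : Kbar) = ((s.coeff (-(k : ℤ)) : A) : Kbar) := by
  have hint : VdInt A (cfmK1 A ζ i) (cfmEx A M' q hq hqM ζ hζ i x) := by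
    intro n
    rw [cfmEx_apply, hs, coeffMap_coeff]
    exact ⟨hK n, (s.coeff n).2⟩
  have hpole : ∀ n : ℤ, n < -(k : ℤ) → (cfmEx A M' q hq hqM ζ hζ i x).coeff n = 0 := by
    intro n hn
    rw [cfmEx_apply, hs, coeffMap_coeff, hk n hn, map_zero]
  obtain ⟨Z, hZ⟩ := ta1_exists_shift hint k hpole
  refine ⟨Z, hZ, ?_⟩
  have h0 := ta1Iota_coeff_nat A (cfmK1 A ζ i) Z 0
  rw [PowerSeries.coeff_zero_eq_constantCoeff_apply] at h0
  rw [← h0, ← hZ, ta1Iota_X_pow, ta1_coeff_mul_single, cfmEx_apply, hs, coeffMap_coeff]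
  simp

/-- the same, with the unit property of the constant coefficient modulo `q` -/
theorem xpf_exists_shift_unit (i : CfmCusp) (x : f0Field A (M' * q * q)) (s : LaurentSeries A)
    (hs : cfmEc M' q hq hqM ζ hζ i (x : FF (M' * q * q)) = coeffMap A.subtype s)
    (hK : ∀ n : ℤ, ((s.coeff n : A) : Kbar) ∈ cfmK1 A ζ i) (k : ℕ)
    (hk : ∀ n : ℤ, n < -(k : ℤ) → s.coeff n = 0) (hu : IsUnit (s.coeff (-(k : ℤ)))) :
    ∃ Z : PowerSeries (cfmA1 A ζ i),
      cfmEx A M' q hq hqM ζ hζ i x * cfmInc A ζ i (PowerSeries.X ^ k) = cfmInc A ζ i Z ∧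
        IsUnit (cfmPi A q ζ i (PowerSeries.constantCoeff Z)) := by
  obtain ⟨Z, hZ, hc⟩ := xpf_exists_shift A M' q hq hqM ζ hζ i x s hs hK k hk
  refine ⟨Z, hZ, IsUnit.map (cfmPi A q ζ i) ?_⟩
  rw [xpf_isUnit_iff, hc]
  exact (A.valuation_eq_one_iff _).mp hu

end Shift

/-! ### the provider of `x` -/

section Provider

variable (M' q : ℕ) [NeZero M'] [NeZero q] (hq : q.Prime) (hqM : ¬ q ∣ M')
variable (ζ₀ : Kbarˣ) (hζ₀ : IsPrimitiveRoot (ζ₀ : Kbar) q)
variable {A : ValuationSubring Kbar}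

include hq hqM in
/-- **the provider of `x`, final form**: the exact unit `x = π₂ g_n` of `F0(M' q²)`, its inverse,
their common `A`-integral expansions `y`, `yinv` at the three cusps, `hxL`, `hexact`, and the
hypothesis `hx` of `tbw_hxu` for the family `cfm`. -/
theorem xpf_exists (haux : IsAuxLevel q M') (hA : A.LiesOverPrime q) (n : ℕ)
    (hn : 2 * genusFF Kbar (FF M') ≤ n) :
    ∃ (x xinv : f0Field A (M' * q * q)) (y yinv : LaurentSeries A),
      x * xinv = 1 ∧ y * yinv = 1 ∧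
      IsUnit (y.coeff (-((q * n : ℕ) : ℤ))) ∧
      (∀ k : ℤ, k < -((q * n : ℕ) : ℤ) → y.coeff k = 0) ∧
      coeffMap (IsLocalRing.residue A) y ≠ 0 ∧ coeffMap (IsLocalRing.residue A) yinv ≠ 0 ∧
      (∀ (ζ : Kbarˣ) (hζ : IsPrimitiveRoot (ζ : Kbar) q) (i : CfmCusp),
        cfmEc M' q hq hqM ζ hζ i (x : FF (M' * q * q)) = coeffMap A.subtype y) ∧
      (∀ (ζ : Kbarˣ) (hζ : IsPrimitiveRoot (ζ : Kbar) q) (i : CfmCusp),
        cfmEc M' q hq hqM ζ hζ i (xinv : FF (M' * q * q)) = coeffMap A.subtype yinv) ∧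
      (x : FF (M' * q * q)) ∈
        riemannRochSpace (K := Kbar) ((q * n) • fbmD1 M' q hq hqM ζ₀ hζ₀) ∧
      (∀ v : Place Kbar (FF (M' * q * q)), fbmD1 M' q hq hqM ζ₀ hζ₀ v ≠ 0 →
        v.ord (x : FF (M' * q * q)) = -(((q * n : ℕ) : ℤ) * fbmD1 M' q hq hqM ζ₀ hζ₀ v)) ∧
      (∀ (ζ : Kbarˣ) (hζ : IsPrimitiveRoot (ζ : Kbar) q) (i : CfmCusp),
        ∃ Z : PowerSeries (cfmA1 A ζ i),
          cfmEx A M' q hq hqM ζ hζ i x * cfmInc A ζ i (PowerSeries.X ^ (q * n * 1)) =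
            cfmInc A ζ i Z ∧ IsUnit (cfmPi A q ζ i (PowerSeries.constantCoeff Z))) := by
  obtain ⟨g, y, yinv, -, hyy, hu, hv, hInf, hZero, hMid, hne, hmem, hL, hex⟩ :=
    xpv_exists M' q hq hqM ζ₀ hζ₀ haux hA n hn
  set x : f0Field A (M' * q * q) := ⟨ecPi2 M' q g, hmem⟩ with hx
  have hxcoe : (x : FF (M' * q * q)) = ecPi2 M' q g := rfl
  have hx0 : x ≠ 0 := fun h => hne (congrArg Subtype.val h)
  have hE : ∀ (ζ : Kbarˣ) (hζ : IsPrimitiveRoot (ζ : Kbar) q) (i : CfmCusp),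
      cfmEc M' q hq hqM ζ hζ i (x : FF (M' * q * q)) = coeffMap A.subtype y := by
    intro ζ hζ i
    cases i
    · exact hInf
    · exact hMid ζ hζ
    · exact hZero
  have hEinv : ∀ (ζ : Kbarˣ) (hζ : IsPrimitiveRoot (ζ : Kbar) q) (i : CfmCusp),
      cfmEc M' q hq hqM ζ hζ i ((x⁻¹ : f0Field A (M' * q * q)) : FF (M' * q * q))
        = coeffMap A.subtype yinv := by
    intro ζ hζ i
    have e : ((x⁻¹ : f0Field A (M' * q * q)) : FF (M' * q * q)) = (x : FF (M' * q * q))⁻¹ := rfl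
    rw [e]
    exact xpv_expansion_inv _ hyy (hE ζ hζ i)
  have hry : coeffMap (IsLocalRing.residue A) y ≠ 0 := xpv_residue_ne_zero hu
  have hryinv : coeffMap (IsLocalRing.residue A) yinv ≠ 0 := by
    intro h0
    have h1 : coeffMap (IsLocalRing.residue A) y * coeffMap (IsLocalRing.residue A) yinv = 1 := by
      rw [← map_mul, hyy, map_one]
    rw [h0, mul_zero] at h1
    exact zero_ne_one h1
  -- the coefficients of `y` lie in `K0`
  have hK0 : ∀ k : ℤ, ((y.coeff k : A) : Kbar) ∈ k0Field A := by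
    intro k
    have h1 := (mem_f0Field_iff_coeff A (M' * q * q) (ecPi2 M' q g)).mp hmem k
    have h2 : ((ecPi2 M' q g : FF (M' * q * q)) : LaurentSeries Kbar) = coeffMap A.subtype y :=
      hInf
    rw [h2, coeffMap_coeff] at h1
    exact h1
  refine ⟨x, x⁻¹, y, yinv, mul_inv_cancel₀ hx0, hyy, hu, hv, hry, hryinv, hE, hEinv, hL, hex, ?_⟩
  intro ζ hζ i
  rw [mul_one]
  exact xpf_exists_shift_unit A M' q hq hqM ζ hζ i x y (hE ζ hζ i)
    (fun k => cfm_k0_le A ζ i _ (hK0 k)) (q * n) hv hu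

end Provider

/-! ### membership in the ball of `nodeSetupM` -/

section Ball

variable (A : ValuationSubring Kbar) (M' q : ℕ) [NeZero M'] [NeZero q] (hq : q.Prime)
  (hqM : ¬ q ∣ M') (hA : A.LiesOverPrime q) (ζ : Kbarˣ) (hζ : IsPrimitiveRoot (ζ : Kbar) q)

/-- an element of `F0(M' q²)` whose three expansions are primitive `A`-integral series is a unit
of the ball of `nodeSetupM` (for any `vMid` containing the Gauss unit ball of `ecMid ζ`). -/
theorem xpf_mem_ball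
    (R : ConstRed A (IsLocalRing.residue A)
      (↥(modularFunctionFieldFullC (IsLocalRing.ResidueField A) M')) (FF (M' * q * q)))
    (hR : IsSeriesRed R) (vMid : SeriesVal A (M' * q * q))
    (hiMid : ∀ (x : FF (M' * q * q)) (hx : x ∈ vMid.O), x ∈ f0Field A (M' * q * q) →
      vMid.red ⟨x, hx⟩ ∈ modularFunctionFieldFullC (IsLocalRing.ResidueField A) M')
    (hoMid : ∀ y ∈ modularFunctionFieldFullC (IsLocalRing.ResidueField A) M',
      ∃ (x : FF (M' * q * q)) (hx : x ∈ vMid.O), x ∈ f0Field A (M' * q * q) ∧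
        vMid.red ⟨x, hx⟩ = y)
    (hG : VdGauss A (M' * q * q) (ecMid M' q hq hqM ζ hζ) vMid.O)
    (x : f0Field A (M' * q * q)) (s : CfmCusp → LaurentSeries A)
    (hs : ∀ i, cfmEc M' q hq hqM ζ hζ i (x : FF (M' * q * q)) = coeffMap A.subtype (s i))
    (hp : ∀ i, coeffMap (IsLocalRing.residue A) (s i) ≠ 0) :
    x ∈ (nodeSetupM A M' q hq hqM hA R hR vMid hiMid hoMid).ball ∧
      x⁻¹ ∈ (nodeSetupM A M' q hq hqM hA R hR vMid hiMid hoMid).ball := by
  have h1 := vdGauss_of_isSeriesRed hR (x : FF (M' * q * q)) (s CfmCusp.inf) (hs CfmCusp.inf)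
    (hp CfmCusp.inf)
  have h2 := hG (x : FF (M' * q * q)) (s CfmCusp.mid) (hs CfmCusp.mid) (hp CfmCusp.mid)
  have h3 := vdGauss_of_isSeriesRed hR (ecW M' q hq hqM (x : FF (M' * q * q)))
    (s CfmCusp.zero) (hs CfmCusp.zero) (hp CfmCusp.zero)
  have e : ((x⁻¹ : f0Field A (M' * q * q)) : FF (M' * q * q)) = (x : FF (M' * q * q))⁻¹ := rfl
  refine ⟨⟨⟨?_, ?_⟩, ?_⟩, ⟨⟨?_, ?_⟩, ?_⟩⟩
  · exact h1.1
  · exact h2.1
  · exact h3.1
  · show ((x⁻¹ : f0Field A (M' * q * q)) : FF (M' * q * q)) ∈ R.O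
    rw [e]
    exact h1.2
  · show ((x⁻¹ : f0Field A (M' * q * q)) : FF (M' * q * q)) ∈ vMid.O
    rw [e]
    exact h2.2
  · show alW2 M' hq hqM ((x⁻¹ : f0Field A (M' * q * q)) : FF (M' * q * q)) ∈ R.O
    rw [e, map_inv₀]
    exact h3.2

end Ball

end Fermat.Agent.S36lib

end
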