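/-
Item 83 (S36), piece CRUX x-PROVIDER, wiring (helper7).  Complete proofs.

The inputs `n₂`, `x`, `xinv`, `hn₂`, `hunit`, `hxL`, `hexact`, `hxu` of `ctl_a2crux_D1`
(`CruxFinal.lean`, helper16) in their EXACT shape, for helper16's family `cfm` (`CruxFam.lean`),
any semistable reduction datum `S₀` whose ball contains the Gauss units of the three expansions,
and any family of reduced expansions `Ecl` with weights `1` given by the reductions by fractions
(`hε`, e.g. `clExpOfTube`, helper12's `TubeWire.lean`):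

* `xpw_exists`   : the bundle, for `S₀`, `Ecl` as above;
* `xpw_gauss_mem_final` : the Gauss units of the three expansions lie in the ball of
  `s36Final` (helper20's `Apply2Final.lean`) with `E = ecMid`.
-/
import Mathlib
import Fermat.Agent.S36lib.XProvFam
import Fermat.Agent.S36lib.TubeWire
import Fermat.Agent.S36lib.CruxFam2
import Fermat.Agent.S36lib.Apply2Final

set_option autoImplicit false
set_option linter.unusedSectionVars false
set_option linter.unusedVariables false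
set_option linter.style.haveILetI false
set_option synthInstance.maxHeartbeats 400000

noncomputable section

namespace Fermat.Agent.S36lib

open ModularCurve HahnSeries AlgebraicCurve
open Fermat.Agent.GoodRed Fermat.Agent.S24lib Fermat.Agent.S34lib Fermat.Agent.S37lib
  Fermat.Agent.GM Fermat.Agent.RRlib

section Bundle

variable (M' q : ℕ) [NeZero M'] [NeZero q] (hq : q.Prime) (hqM : ¬ q ∣ M')
variable (ζ₀ : Kbarˣ) (hζ₀ : IsPrimitiveRoot (ζ₀ : Kbar) q)
variable {A : ValuationSubring Kbar} (ζ : Kbarˣ) (hζ : IsPrimitiveRoot (ζ : Kbar) q)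
variable {R : Type*} [CommRing R] [Algebra (IsLocalRing.ResidueField A) R]
variable [∀ i, IsDiscreteValuationRing (cfmA1 A ζ i)] [∀ i, Nontrivial (cfmLam A q ζ i)]
variable (S₀ : SSRed (k0Val A) (k0Res A) R (f0Field A (M' * q * q)))
  (Ecl : ClExp (IsLocalRing.ResidueField A) R (cfmLam A q ζ))
  (hOV : ∀ i, ∀ x : f0Field A (M' * q * q), x ∈ S₀.O →
    cfmEx A M' q hq hqM ζ hζ i x ∈ tsV (cfmInc A ζ i) (PowerSeries.map (cfmPi A q ζ i)))
  (hε : ∀ i (y : S₀.O), Ecl.ε i (S₀.red y) =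
    tsBallRed (cfmInc A ζ i) (PowerSeries.map (cfmPi A q ζ i)) (cfmInc_injective A ζ i)
      (cfmEx A M' q hq hqM ζ hζ i) S₀.O (hOV i) y)

include hε in
/-- **the inputs `n₂`, `x`, `xinv`, `hn₂`, `hunit`, `hxL`, `hexact`, `hxu` of
`ctl_a2crux_D1`**, with `n₂ ≥ n₀` arbitrarily large. -/
theorem xpw_exists (hw : ∀ i, Ecl.w i = 1)
    (hball : ∀ x : f0Field A (M' * q * q),
      (∃ s : LaurentSeries A, coeffMap (IsLocalRing.residue A) s ≠ 0 ∧
        ∀ i, cfmEc M' q hq hqM ζ hζ i (x : FF (M' * q * q)) = coeffMap A.subtype s) →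
      x ∈ S₀.O)
    (haux : IsAuxLevel q M') (hA : A.LiesOverPrime q) (n₀ : ℕ) :
    ∃ (n₂ : ℕ) (x xinv : S₀.O), n₀ ≤ n₂ ∧ 0 < n₂ ∧ x * xinv = 1 ∧
      ((x : f0Field A (M' * q * q)) : FF (M' * q * q)) ∈
        riemannRochSpace (K := Kbar) (n₂ • fbmD1 M' q hq hqM ζ₀ hζ₀) ∧
      (∀ v : Place Kbar (FF (M' * q * q)), fbmD1 M' q hq hqM ζ₀ hζ₀ v ≠ 0 →
        v.ord ((x : f0Field A (M' * q * q)) : FF (M' * q * q)) =
          -(n₂ * fbmD1 M' q hq hqM ζ₀ hζ₀ v)) ∧
      ∀ i, IsUnit ((Ecl.ε i (S₀.red x)).coeff (-((n₂ * Ecl.w i : ℕ) : ℤ))) := by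
  have hq0 : 0 < q := hq.pos
  set n : ℕ := max (max n₀ 1) (2 * genusFF Kbar (FF M')) with hn
  have hn1 : 1 ≤ n := le_trans (le_max_right n₀ 1) (le_max_left _ _)
  have hn0 : n₀ ≤ n := le_trans (le_max_left n₀ 1) (le_max_left _ _)
  obtain ⟨x, xinv, y, yinv, hxx, hyy, hu, hv, hry, hryinv, hE, hEinv, hL, hex, hx⟩ :=
    xpf_exists M' q hq hqM ζ₀ hζ₀ (A := A) haux hA n (le_max_right _ _)
  have hxO : x ∈ S₀.O := hball x ⟨y, hry, fun i => hE ζ hζ i⟩
  have hxinvO : xinv ∈ S₀.O := hball xinv ⟨yinv, hryinv, fun i => hEinv ζ hζ i⟩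
  refine ⟨q * n, ⟨x, hxO⟩, ⟨xinv, hxinvO⟩, ?_, Nat.mul_pos hq0 hn1, Subtype.ext hxx, hL, ?_, ?_⟩
  · calc n₀ ≤ n := hn0
      _ = 1 * n := (one_mul n).symm
      _ ≤ q * n := Nat.mul_le_mul_right n hq0
  · intro v hv0
    rw [hex v hv0]
  · intro i
    have h := s36_tube_coeff Ecl S₀.O S₀.red (cfmA1 A ζ) (fun _ => LaurentSeries Kbar)
      (cfmInc A ζ) (cfmInc_injective A ζ) (cfmEx A M' q hq hqM ζ hζ) (cfmPi A q ζ) hOV hε
    obtain ⟨Z, hZ, hZu⟩ := hx ζ hζ i
    have h1 := h i ⟨x, hxO⟩ (q * n * 1) Z hZ 0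
    rw [Nat.cast_zero, zero_sub] at h1
    rw [hw i, h1, PowerSeries.coeff_zero_eq_constantCoeff_apply]
    exact hZu

end Bundle

section Final

variable (A : ValuationSubring Kbar) (M' q : ℕ) [NeZero M'] [NeZero q]
variable (hq : q.Prime) (hqM : ¬ q ∣ M') (hA : A.LiesOverPrime q)
variable {ζ : Kbarˣ} (hζq : ζ ^ q = 1) (hζ : IsPrimitiveRoot (ζ : Kbar) q)
variable (R : ConstRed A (IsLocalRing.residue A)
      (↥(modularFunctionFieldFullC (IsLocalRing.ResidueField A) M')) (FF (M' * q * q)))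
    (hR : IsSeriesRed R)

/-- **the Gauss units of the three expansions lie in the ball of the final setup**
(`s36Final` with the middle expansion `E = ecMid ζ`). -/
theorem xpw_gauss_mem_final (x : f0Field A (M' * q * q))
    (hx : ∃ s : LaurentSeries A, coeffMap (IsLocalRing.residue A) s ≠ 0 ∧
      ∀ i, cfmEc M' q hq hqM ζ hζ i (x : FF (M' * q * q)) = coeffMap A.subtype s) :
    x ∈ (s36Final A M' q hq hqM hA hζq hζ (cfm_isMidExp M' q hq hqM ζ hζ) R hR).ball := by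
  obtain ⟨s, hs, hE⟩ := hx
  exact (xpf_mem_ball A M' q hq hqM hA ζ hζ R hR _ _ _
    (vmid_vdGauss A hq ((A.mem_nonunits_iff).mp hA) hζq (cfm_isMidExp M' q hq hqM ζ hζ))
    x (fun _ => s) hE (fun _ => hs)).1

end Final

end Fermat.Agent.S36lib

end
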