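/-
Item 83 (S36), piece C-11 CRUX-FINAL, part 3 (helper16).  Complete proofs.

`s36Final_crux_of`: **the CRUX `A2Crux` for the final setup `s36Final`** (helper20,
`Apply2Final.lean`; middle expansion `ecMid ζ`), for all `m = p ^ n`, `q ∤ p`, from

* a unit ball `D` over `A0` containing the ball of the setup, `D.ϖ = q` (helper14, `bfgBall`);
* `hOV` (F1, helper12): the expansions of the ball are fractions with unit denominators;
* `hh0` (H0, helper13): a reduction without poles is constant;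
* `hhead` (HEAD, helper26).

Discharged here: `hint` (helper6, `cfi_hint`), `hle`/`hPE` (TUBE, helper12), `hf3` (helper17,
`f3f_hf3`), the exact unit `x` (helper7, `xpw_exists`).
-/
import Mathlib
import Fermat.Agent.S36lib.CruxFinal2
import Fermat.Agent.S36lib.CruxFam2
import Fermat.Agent.S36lib.CruxFamInt
import Fermat.Agent.S36lib.F3Fam
import Fermat.Agent.S36lib.XProvWire
import Fermat.Agent.S36lib.Apply2Final
import Fermat.Agent.S34lib.LiftInf

set_option autoImplicit false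
set_option linter.unusedSectionVars false
set_option linter.unusedVariables false
set_option linter.style.haveILetI false
set_option synthInstance.maxHeartbeats 400000

noncomputable section

namespace Fermat.Agent.S36lib

open ModularCurve HahnSeries AlgebraicCurve
open Fermat.Agent.GoodRed Fermat.Agent.S24lib Fermat.Agent.S34lib Fermat.Agent.S37lib
  Fermat.Agent.HeckeBar Fermat.Agent.S35lib Fermat.Agent.GM Fermat.Agent.RRlib

variable (A : ValuationSubring Kbar) (M' q : ℕ) [NeZero M'] [NeZero q]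
variable (hq : q.Prime) (hqM : ¬ q ∣ M') (hA : A.LiesOverPrime q)
variable {ζ : Kbarˣ} (hζq : ζ ^ q = 1) (hζ : IsPrimitiveRoot (ζ : Kbar) q)
variable (R : ConstRed A (IsLocalRing.residue A)
      (↥(modularFunctionFieldFullC (IsLocalRing.ResidueField A) M')) (FF (M' * q * q)))
    (hR : IsSeriesRed R)

/-- the affine ring of the final setup consists of functions regular off `D1` -/
theorem s36Final_hSB {E : FF (M' * q * q) →+* LaurentSeries Kbar} (hE : IsMidExp M' q ζ E)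
    (z : f0Field A (M' * q * q))
    (hz : z ∈ (s36Final A M' q hq hqM hA hζq hζ hE R hR).B) :
    (z : FF (M' * q * q)) ∈ offRegular (M' * q * q) (s36D1 M' q hq hqM) :=
  ((mem_s36Final_B A M' q hq hqM hA hζq hζ hE R hR z).1 hz).1

set_option maxHeartbeats 4000000 in
/-- **the CRUX for the final setup**, from `D`, `hOV` (F1), `hh0` (H0), `hhead` (HEAD). -/
theorem s36Final_crux_of (haux : IsAuxLevel q M')
    (D : DvrBall (k0Val A) (f0Field A (M' * q * q)))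
    (hDO : ∀ x : f0Field A (M' * q * q),
      x ∈ (s36Final A M' q hq hqM hA hζq hζ (cfm_isMidExp M' q hq hqM ζ hζ) R hR).ball → x ∈ D.O)
    (hDϖ : D.ϖ = (q : k0Val A)) (hπ : Function.Surjective (k0Res A))
    (hOV : ∀ i, ∀ x : f0Field A (M' * q * q), x ∈ D.O →
      cfmEx A M' q hq hqM ζ hζ i x ∈ tsV (cfmInc A ζ i) (PowerSeries.map (cfmPi A q ζ i)))
    (hh0 : letI := D.algebraRed (k0Res A) hπ
      ∀ (c : ℕ) (y : D.O),
      ((y : f0Field A (M' * q * q)) : FF (M' * q * q)) ∈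
        riemannRochSpace (K := Kbar) (c • fbmD1 M' q hq hqM ζ hζ) →
      D.red y ∈ (cfmE A M' q hq hqM ζ hζ hA D hDϖ hπ hOV).P 0 →
      D.red y ∈ Set.range (algebraMap (IsLocalRing.ResidueField A) D.RedRing))
    (p : ℕ) (hqp : ¬ q ∣ p) (hp0 : 0 < p) (c2 : ℕ)
    (hhead : ∀ n : ℕ,
      ∀ b : (s36Final A M' q hq hqM hA hζq hζ (cfm_isMidExp M' q hq hqM ζ hζ) R hR).B,
      (b : f0Field A (M' * q * q)) ≠ 0 →
      (s36Final A M' q hq hqM hA hζq hζ (cfm_isMidExp M' q hq hqM ζ hζ) R hR).IsUnitAtNodes b →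
      (∀ P : Place Kbar (FF (M' * q * q)),
        ((p ^ n : ℕ) : ℤ) ∣ P.ord (((b : f0Field A (M' * q * q)) : FF (M' * q * q)))) →
      IsKummerNew2 M' q (p ^ n) (((b : f0Field A (M' * q * q)) : FF (M' * q * q))) →
      ∃ h₀ : f0Field A (M' * q * q), h₀ ≠ 0 ∧
        (b : f0Field A (M' * q * q)) ^ c2 * h₀ ^ (p ^ n) ∈
          (s36Final A M' q hq hqM hA hζq hζ (cfm_isMidExp M' q hq hqM ζ hζ) R hR).B ∧
        ∃ z : f0Field A (M' * q * q),
          z ∈ (s36Final A M' q hq hqM hA hζq hζ (cfm_isMidExp M' q hq hqM ζ hζ) R hR).ball ∧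
          (b : f0Field A (M' * q * q)) ^ c2 * h₀ ^ (p ^ n) =
            1 + a2iQ A q (L := M' * q * q) * z) (n : ℕ) :
    A2Crux M' q A (s36Final A M' q hq hqM hA hζq hζ (cfm_isMidExp M' q hq hqM ζ hζ) R hR)
      (p ^ n) c2 := by
  haveI : Fact q.Prime := ⟨hq⟩
  haveI : IsDiscreteValuationRing (k0Val A) := k0Val_isDiscreteValuationRing A q hq hA
  letI := D.algebraRed (k0Res A) hπ
  haveI : Nontrivial D.RedRing := cfmE_nontrivial A M' q hq hqM ζ hζ hA D hDϖ hπ hOV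
  haveI : IsAlgClosed (IsLocalRing.ResidueField A) := isAlgClosed_residueField A
  haveI : Infinite (IsLocalRing.ResidueField A) := IsAlgClosed.instInfinite
  haveI : ∀ i, Nontrivial (cfmLam A q ζ i) := fun i => cfp_nontrivial A q ζ hA i
  haveI : ∀ i, IsDiscreteValuationRing (cfmA1 A ζ i) := fun i => cfm_isDVR A q hq ζ hζ hA i
  have hcharP : CharP (IsLocalRing.ResidueField A) q :=
    vmid_charP A hq ((A.mem_nonunits_iff).mp hA)
  have hqm : ¬ q ∣ p ^ n := fun h => hqp (hq.dvd_of_dvd_pow h)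
  have hm : 0 < p ^ n := pow_pos hp0 n
  have hmk : ((p ^ n : ℕ) : IsLocalRing.ResidueField A) ≠ 0 := by
    intro h0
    exact hqm ((CharP.cast_eq_zero_iff (IsLocalRing.ResidueField A) q (p ^ n)).1 h0)
  -- the level-`M'` reduction
  obtain ⟨R', r', hR', -⟩ := liftInf_exists_red (M := M') (A := A) q haux hA
  have hε : ∀ i (y : (D.toSSRed (k0Res A) hπ).O),
      (cfmE A M' q hq hqM ζ hζ hA D hDϖ hπ hOV).ε i ((D.toSSRed (k0Res A) hπ).red y) =
        tsBallRed (cfmInc A ζ i) (PowerSeries.map (cfmPi A q ζ i)) (cfmInc_injective A ζ i)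
          (cfmEx A M' q hq hqM ζ hζ i) (D.toSSRed (k0Res A) hπ).O (hOV i) y :=
    fun i y => cfmE_ε_red A M' q hq hqM ζ hζ hA D hDϖ hπ hOV i y
  have hw : ∀ i, (cfmE A M' q hq hqM ζ hζ hA D hDϖ hπ hOV).w i = 1 := fun _ => rfl
  have hint := cfi_hint A M' q hq hqM ζ hζ ζ hζ hA (D.toSSRed (k0Res A) hπ).O hOV
    (cfmE A M' q hq hqM ζ hζ hA D hDϖ hπ hOV).w hw
  -- (F3')
  obtain ⟨c₀, hc₀⟩ := f3f_hf3 hq hqM ζ hζ hA ζ hζ (D.toSSRed (k0Res A) hπ)
    (cfmE A M' q hq hqM ζ hζ hA D hDϖ hπ hOV) hOV hε haux hR' hw hint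
    (f3f_hO hq hqM hA ζ hζ R hR ((A.mem_nonunits_iff).mp hA) hζq (cfm_isMidExp M' q hq hqM ζ hζ)
      (vmid_hinto A hq hqM hA hζq hζ (cfm_isMidExp M' q hq hqM ζ hζ))
      (vmid_honto A hq hA hζq (cfm_isMidExp M' q hq hqM ζ hζ))
      (D.toSSRed (k0Res A) hπ) hDO)
  -- the exact unit
  obtain ⟨n₂, x, xinv, -, hn₂, hunit, hxL, hexact, hxu⟩ :=
    xpw_exists M' q hq hqM ζ hζ ζ hζ (D.toSSRed (k0Res A) hπ)
      (cfmE A M' q hq hqM ζ hζ hA D hDϖ hπ hOV) hOV hε hw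
      (fun x hx => hDO x (xpw_gauss_mem_final A M' q hq hqM hA hζq hζ R hR x hx)) haux hA 1
  refine ctl_a2crux_D1 hq hqM ζ hζ
    (s36Final A M' q hq hqM hA hζq hζ (cfm_isMidExp M' q hq hqM ζ hζ) R hR)
    (s36Final_hSB A M' q hq hqM hA hζq hζ R hR (cfm_isMidExp M' q hq hqM ζ hζ))
    (D.toSSRed (k0Res A) hπ) hDO (a2i_res_q A q hA)
    (cfmE A M' q hq hqM ζ hζ hA D hDϖ hπ hOV) c₀ ?_ (hc₀ c₀ le_rfl) hh0 c2 hm hmk hn₂ x xinv
    hunit hxL hexact hxu (hhead n) ?_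
  · exact tbw_hle (D.toSSRed (k0Res A) hπ) (cfmE A M' q hq hqM ζ hζ hA D hDϖ hπ hOV)
      (fbmD1 M' q hq hqM ζ hζ) (cfmA1 A ζ) (fun _ => LaurentSeries Kbar) (cfmInc A ζ)
      (cfmInc_injective A ζ) (cfmEx A M' q hq hqM ζ hζ) (cfmPi A q ζ) hOV hε hint
  · exact tbw_hPE_a2 (D.toSSRed (k0Res A) hπ) (cfmE A M' q hq hqM ζ hζ hA D hDϖ hπ hOV)
      (fbmD1 M' q hq hqM ζ hζ) (cfmA1 A ζ) (fun _ => LaurentSeries Kbar) (cfmInc A ζ)
      (cfmInc_injective A ζ) (cfmEx A M' q hq hqM ζ hζ) (cfmPi A q ζ) hOV hε hint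
      ((s36Final A M' q hq hqM hA hζq hζ (cfm_isMidExp M' q hq hqM ζ hζ) R hR).B :
        Set (f0Field A (M' * q * q))) _
      (cfm_hfrac A M' q hq hqM ζ hζ) (cfmVarpi A q hq ζ hζ hA) (cfm_irreducible A q hq ζ hζ hA)
      (cfm_hK A M' q hq hqM ζ hζ hA) (cfp_hπ A q hq ζ hζ hA) (p ^ n)
      (fun i => cfp_isUnit_natCast A q hq ζ hA i (p ^ n) hqm)

end Fermat.Agent.S36lib

end
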