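/-
Item 83 (S36), piece C-12 CRUX-FINAL, part 4 (helper16).  Complete proofs.

`s36Final_crux_of_ball`: `s36Final_crux_of` (`CruxFinal3.lean`) with the unit ball
`D := s36FinalBall` (helper14, `BallFinal.lean`).  Remaining inputs: `hOV` (F1), `hh0` (H0),
`hhead` (HEAD).
-/
import Mathlib
import Fermat.Agent.S36lib.CruxFinal3
import Fermat.Agent.S36lib.BallFinal

set_option autoImplicit false
set_option linter.style.longLine false
set_option linter.unusedSectionVars false
set_option linter.unusedVariables false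
set_option linter.style.haveILetI false
set_option synthInstance.maxHeartbeats 400000

noncomputable section

namespace Fermat.Agent.S36lib

open ModularCurve HahnSeries AlgebraicCurve
open Fermat.Agent.GoodRed Fermat.Agent.S24lib Fermat.Agent.S34lib Fermat.Agent.S37lib
  Fermat.Agent.HeckeBar Fermat.Agent.S35lib Fermat.Agent.GM Fermat.Agent.RRlib

variable (A : ValuationSubring Kbar) (M' q : ℕ) [NeZero M'] [NeZero q]
variable (hq : q.Prime) (hqM : ¬ q ∣ M') (hA : A.LiesOverPrime q)
variable {ζ : Kbarˣ} (hζq : ζ ^ q = 1) (hζ : IsPrimitiveRoot (ζ : Kbar) q)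
variable (R : ConstRed A (IsLocalRing.residue A)
      (↥(modularFunctionFieldFullC (IsLocalRing.ResidueField A) M')) (FF (M' * q * q)))
    (hR : IsSeriesRed R)

include hq hA in
/-- the residue map of `A0` is surjective -/
theorem s36_k0Res_surjective : Function.Surjective (k0Res A) :=
  k0_residue_comp_surjective A q hq hA

/-- **THE unit ball** of the final setup with middle expansion `ecMid ζ` -/
abbrev s36Dball : DvrBall (k0Val A) (f0Field A (M' * q * q)) :=
  s36FinalBall A M' q hq hqM hA hζq hζ (cfm_isMidExp M' q hq hqM ζ hζ) R hR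

/-- **the CRUX for the final setup**, from `hOV` (F1), `hh0` (H0), `hhead` (HEAD). -/
theorem s36Final_crux_of_ball (haux : IsAuxLevel q M')
    (hOV : ∀ i, ∀ x : f0Field A (M' * q * q), x ∈ (s36Dball A M' q hq hqM hA hζq hζ R hR).O →
      cfmEx A M' q hq hqM ζ hζ i x ∈ tsV (cfmInc A ζ i) (PowerSeries.map (cfmPi A q ζ i)))
    (hh0 : letI := DvrBall.algebraRed (s36Dball A M' q hq hqM hA hζq hζ R hR) (k0Res A) (s36_k0Res_surjective A q hq hA)
      ∀ (c : ℕ) (y : (s36Dball A M' q hq hqM hA hζq hζ R hR).O),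
      ((y : f0Field A (M' * q * q)) : FF (M' * q * q)) ∈
        riemannRochSpace (K := Kbar) (c • fbmD1 M' q hq hqM ζ hζ) →
      (s36Dball A M' q hq hqM hA hζq hζ R hR).red y ∈
        (cfmE A M' q hq hqM ζ hζ hA (s36Dball A M' q hq hqM hA hζq hζ R hR) rfl
          (s36_k0Res_surjective A q hq hA) hOV).P 0 →
      (s36Dball A M' q hq hqM hA hζq hζ R hR).red y ∈
        Set.range (algebraMap (IsLocalRing.ResidueField A)
          (s36Dball A M' q hq hqM hA hζq hζ R hR).RedRing))
    (p : ℕ) (hqp : ¬ q ∣ p) (hp0 : 0 < p) (c2 : ℕ)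
    (hhead : ∀ n : ℕ,
      ∀ b : (s36Final A M' q hq hqM hA hζq hζ (cfm_isMidExp M' q hq hqM ζ hζ) R hR).B,
      (b : f0Field A (M' * q * q)) ≠ 0 →
      (s36Final A M' q hq hqM hA hζq hζ (cfm_isMidExp M' q hq hqM ζ hζ) R hR).IsUnitAtNodes b →
      (∀ P : Place Kbar (FF (M' * q * q)),
        ((p ^ n : ℕ) : ℤ) ∣ P.ord (((b : f0Field A (M' * q * q)) : FF (M' * q * q)))) →
      IsKummerNew2 M' q (p ^ n) (((b : f0Field A (M' * q * q)) : FF (M' * q * q))) →
      ∃ h₀ : f0Field A (M' * q * q), h₀ ≠ 0 ∧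
        (b : f0Field A (M' * q * q)) ^ c2 * h₀ ^ (p ^ n) ∈
          (s36Final A M' q hq hqM hA hζq hζ (cfm_isMidExp M' q hq hqM ζ hζ) R hR).B ∧
        ∃ z : f0Field A (M' * q * q),
          z ∈ (s36Final A M' q hq hqM hA hζq hζ (cfm_isMidExp M' q hq hqM ζ hζ) R hR).ball ∧
          (b : f0Field A (M' * q * q)) ^ c2 * h₀ ^ (p ^ n) =
            1 + a2iQ A q (L := M' * q * q) * z) (n : ℕ) :
    A2Crux M' q A (s36Final A M' q hq hqM hA hζq hζ (cfm_isMidExp M' q hq hqM ζ hζ) R hR)
      (p ^ n) c2 :=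
  s36Final_crux_of A M' q hq hqM hA hζq hζ R hR haux (s36Dball A M' q hq hqM hA hζq hζ R hR)
    (fun x hx => hx) rfl (s36_k0Res_surjective A q hq hA) hOV hh0 p hqp hp0 c2 hhead n

end Fermat.Agent.S36lib

end
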