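import Mathlib
import Fermat.Agent.S36lib.Apply2Final
import Fermat.Agent.S36lib.Reg3HypM
import Fermat.Agent.S36lib.FibreD1
import Fermat.Agent.S36lib.VArch

/-!
# Item 83 (S36), block (H0) (helper20 for helper13's `H0Wire`): the small fields of `H0Conc`
for the final setup `S = s36Final`

The fields `sat`, `node`, `hD`, `mem_B`, `eInf`, `eZero`, `eMid` of `H0Conc` (`H0Conc.lean`)
for `S := s36Final A M' q hq hqM hA hζq hζ hE R hR`, `q := (q : k0Val A)`, `e := q - 1`,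
`D₁ := fbmD1 M' q hq hqM ζ₀ hζ₀`, `BC.ιF x = (x : FF (M' q²))`.

* `h0s_sat`, `h0s_eInf`, `h0s_eZero`, `h0s_eMid`, `h0s_hD`, `h0s_mem_B` : no hypothesis;
* `h0s_node` : from ONE node `t` containing `p_mid` ((R4) + INC).
-/

set_option autoImplicit false
set_option linter.style.haveILetI false
set_option linter.unusedSectionVars false
set_option linter.unusedVariables false
set_option synthInstance.maxHeartbeats 400000

noncomputable section

namespace Fermat.Agent.S36lib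

open ModularCurve HahnSeries AlgebraicCurve
open Fermat.Agent.GoodRed Fermat.Agent.S24lib Fermat.Agent.S34lib Fermat.Agent.S37lib
  Fermat.Agent.HeckeBar Fermat.Agent.S35lib Fermat.Agent.GM

/-! ### The abstract ramification lemma -/

section Abs

variable {F : Type*} [Field F]

theorem h0s_aux (Q z : F) (hQ : Q ≠ 0) (j : ℕ) : Q * (Q⁻¹ ^ (j + 1) * z) = Q⁻¹ ^ j * z := by
  rw [pow_succ, mul_assoc (Q⁻¹ ^ j) Q⁻¹ z, mul_left_comm Q (Q⁻¹ ^ j) (Q⁻¹ * z),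
    ← mul_assoc Q Q⁻¹ z, mul_inv_cancel₀ hQ, one_mul]

theorem h0s_aux2 (Q y : F) (hQ : Q ≠ 0) : Q⁻¹ * (Q * y) = y := by
  rw [← mul_assoc Q⁻¹ Q y, inv_mul_cancel₀ hQ, one_mul]

/-- from the unit form `v(Q)^n · v(z)^e = 1`: either `z / Q ∈ O`, or `z ^ e / Q ^ j` is a unit of
`O` for some `0 < j < e`. -/
theorem h0s_ram_abs (O : ValuationSubring F) (Q : F) (hQ : Q ∈ O.nonunits) (hQ0 : Q ≠ 0)
    (e : ℕ) (he : 0 < e) (z : F) (hz : z ∈ O.nonunits) (hz0 : z ≠ 0)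
    (n : ℤ) (hu : Q ^ n * z ^ e ∈ O) (hu' : (Q ^ n * z ^ e)⁻¹ ∈ O) :
    Q⁻¹ * z ∈ O ∨ ∃ j : ℕ, 0 < j ∧ j < e ∧ (Q⁻¹) ^ j * z ^ e ∈ O ∧
      (Q⁻¹) ^ j * z ^ e ∉ O.nonunits := by
  have hvQ : O.valuation Q < 1 := (O.mem_nonunits_iff).mp hQ
  have hvz : O.valuation z < 1 := (O.mem_nonunits_iff).mp hz
  have hvQ0 : O.valuation Q ≠ 0 := (Valuation.ne_zero_iff _).mpr hQ0
  have hvz0 : O.valuation z ≠ 0 := (Valuation.ne_zero_iff _).mpr hz0
  have hvQpos : 0 < O.valuation Q := zero_lt_iff.mpr hvQ0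
  have hvzpos : 0 < O.valuation z := zero_lt_iff.mpr hvz0
  -- the unit has valuation one
  have h1 : O.valuation (Q ^ n * z ^ e) = 1 := by
    have ha : O.valuation (Q ^ n * z ^ e) ≤ 1 := (O.valuation_le_one_iff _).mpr hu
    have hb : O.valuation (Q ^ n * z ^ e)⁻¹ ≤ 1 := (O.valuation_le_one_iff _).mpr hu'
    rw [map_inv₀] at hb
    have hne : O.valuation (Q ^ n * z ^ e) ≠ 0 :=
      (Valuation.ne_zero_iff _).mpr (mul_ne_zero (zpow_ne_zero _ hQ0) (pow_ne_zero _ hz0))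
    have hc := (inv_le_one₀ (zero_lt_iff.mpr hne)).mp hb
    exact le_antisymm ha hc
  rw [map_mul, map_zpow₀, map_pow] at h1
  -- `n < 0`
  have hzlt : O.valuation z ^ e < 1 := pow_lt_one₀ (le_of_lt hvzpos) hvz (Nat.pos_iff_ne_zero.mp he)
  have hn : n < 0 := by
    by_contra hcon
    have hn0 : 0 ≤ n := not_lt.mp hcon
    obtain ⟨k, rfl⟩ := Int.eq_ofNat_of_zero_le hn0
    rw [zpow_natCast] at h1
    have h2 : O.valuation Q ^ k ≤ 1 := pow_le_one₀ (le_of_lt hvQpos) (le_of_lt hvQ)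
    have h3 : O.valuation Q ^ k * O.valuation z ^ e < 1 := by
      calc O.valuation Q ^ k * O.valuation z ^ e ≤ 1 * O.valuation z ^ e :=
            mul_le_mul' h2 le_rfl
        _ = O.valuation z ^ e := one_mul _
        _ < 1 := hzlt
    exact absurd h1 (ne_of_lt h3)
  obtain ⟨j, hj⟩ : ∃ j : ℕ, n = -(j : ℤ) := ⟨(-n).toNat, by omega⟩
  have hjpos : 0 < j := by omega
  -- `v(z)^e = v(Q)^j`
  have h2 : O.valuation z ^ e = O.valuation Q ^ j := by
    rw [hj, zpow_neg, zpow_natCast] at h1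
    have hne : O.valuation Q ^ j ≠ 0 := pow_ne_zero _ hvQ0
    calc O.valuation z ^ e = O.valuation Q ^ j * ((O.valuation Q ^ j)⁻¹ * O.valuation z ^ e) := by
          rw [← mul_assoc, mul_inv_cancel₀ hne, one_mul]
      _ = O.valuation Q ^ j := by rw [h1, mul_one]
  by_cases hje : j < e
  · right
    have h3 : O.valuation ((Q⁻¹) ^ j * z ^ e) = 1 := by
      rw [map_mul, map_pow, map_inv₀, map_pow, h2, inv_pow,
        inv_mul_cancel₀ (pow_ne_zero _ hvQ0)]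
    refine ⟨j, hjpos, hje, (O.valuation_le_one_iff _).mp (le_of_eq h3), ?_⟩
    intro hcon
    exact absurd ((O.mem_nonunits_iff).mp hcon) (by rw [h3]; exact lt_irrefl _)
  · left
    have hej : e ≤ j := not_lt.mp hje
    have h3 : O.valuation z ^ e ≤ O.valuation Q ^ e := by
      rw [h2]
      exact pow_le_pow_right_of_le_one' (le_of_lt hvQ) hej
    have h4 : O.valuation z ≤ O.valuation Q :=
      (pow_le_pow_iff_left₀ (le_of_lt hvzpos) (le_of_lt hvQpos) (Nat.pos_iff_ne_zero.mp he)).mp h3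
    rw [← O.valuation_le_one_iff, map_mul, map_inv₀]
    exact (inv_mul_le_iff₀ hvQpos).mpr (by rwa [mul_one])

end Abs

variable (A : ValuationSubring Kbar) (M' q : ℕ) [NeZero M'] [NeZero q]
variable (hq : q.Prime) (hqM : ¬ q ∣ M') (hA : A.LiesOverPrime q)
variable {ζ : Kbarˣ} {E : FF (M' * q * q) →+* LaurentSeries Kbar}
variable (hζq : ζ ^ q = 1) (hζ : IsPrimitiveRoot (ζ : Kbar) q) (hE : IsMidExp M' q ζ E)
variable (R : ConstRed A (IsLocalRing.residue A)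
      (↥(modularFunctionFieldFullC (IsLocalRing.ResidueField A) M')) (FF (M' * q * q)))
    (hR : IsSeriesRed R)

local notation "SF" => s36Final A M' q hq hqM hA hζq hζ hE R hR

local notation "QF" => algebraMap (k0Field A) (f0Field A (M' * q * q))
  ((((q : k0Val A) : k0Val A) : k0Field A))

omit [NeZero M'] [NeZero q] in
/-- the coercion to `FF` of `q ^ n · z ^ (q - 1)` -/
theorem h0s_coe (z : f0Field A (M' * q * q)) (n : ℤ) :
    ((QF ^ n * z ^ (q - 1) : f0Field A (M' * q * q)) : FF (M' * q * q)) =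
      algebraMap Kbar (FF (M' * q * q)) ((q : Kbar) ^ n) * (z : FF (M' * q * q)) ^ (q - 1) := by
  have h1 : ((QF ^ n * z ^ (q - 1) : f0Field A (M' * q * q)) : FF (M' * q * q)) =
      ((QF ^ n : f0Field A (M' * q * q)) : FF (M' * q * q)) *
        ((z ^ (q - 1) : f0Field A (M' * q * q)) : FF (M' * q * q)) := rfl
  have h2 : ((z ^ (q - 1) : f0Field A (M' * q * q)) : FF (M' * q * q)) =
      (z : FF (M' * q * q)) ^ (q - 1) := rfl
  have h3 : ((QF : f0Field A (M' * q * q)) : FF (M' * q * q)) =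
      algebraMap Kbar (FF (M' * q * q)) (q : Kbar) := a2i_coe_Q A q
  rw [h1, h2, a2i_coe_zpow, h3, map_zpow₀]

/-- `Reg3Hyp` for the final setup (helper18's `r3h_nodeSetupM`) -/
theorem h0s_reg3Hyp : Reg3Hyp (SF) ((SF).constB (q : k0Val A)) (q - 1) :=
  r3h_nodeSetupM A M' q hq hqM hA R hR hζq hζ hE

/-- `q ∈ B ⊂ ball` -/
theorem h0s_Q_mem_ball : QF ∈ (SF).ball :=
  (SF).B_le_ball ((SF).constB (q : k0Val A)).2

/-- **`sat`** of `H0Conc`: `B` is saturated in the ball with respect to all powers of `q` -/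
theorem h0s_sat (z : f0Field A (M' * q * q)) (hz : z ∈ (SF).B) (j : ℕ)
    (hj : (QF)⁻¹ ^ j * z ∈ (SF).ball) : (QF)⁻¹ ^ j * z ∈ (SF).B := by
  have hQ0 : QF ≠ 0 := a2i_Q_ne_zero A q hq
  induction j with
  | zero => simpa using hz
  | succ j ih =>
    have e : QF * ((QF)⁻¹ ^ (j + 1) * z) = (QF)⁻¹ ^ j * z := h0s_aux _ _ hQ0 j
    have h1 : (QF)⁻¹ ^ j * z ∈ (SF).ball := by
      rw [← e]
      exact Subring.mul_mem _ (h0s_Q_mem_ball A M' q hq hqM hA hζq hζ hE R hR) hj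
    have h2 := ih h1
    refine s36Final_sat A M' q hq hqM hA hζq hζ hE R hR _ hj ?_
    rw [e]
    exact h2

/-- **`eInf`** of `H0Conc`: `e(v_∞) = 1` -/
theorem h0s_eInf (z : f0Field A (M' * q * q)) (hz : z ∈ (SF).vInf.O.nonunits) :
    (QF)⁻¹ * z ∈ (SF).vInf.O := by
  have hQ0 : QF ≠ 0 := a2i_Q_ne_zero A q hq
  obtain ⟨y, hy, hzy⟩ := (h0s_reg3Hyp A M' q hq hqM hA hζq hζ hE R hR).ramInf z hz
  have e : (QF)⁻¹ * z = y := by
    rw [hzy, NodeSetup.coe_constB]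
    exact h0s_aux2 _ _ hQ0
  rw [e]
  exact hy

/-- **`eZero`** of `H0Conc`: `e(v_0) = 1` -/
theorem h0s_eZero (z : f0Field A (M' * q * q)) (hz : z ∈ (SF).vZero.O.nonunits) :
    (QF)⁻¹ * z ∈ (SF).vZero.O := by
  have hQ0 : QF ≠ 0 := a2i_Q_ne_zero A q hq
  obtain ⟨y, hy, hzy⟩ := (h0s_reg3Hyp A M' q hq hqM hA hζq hζ hE R hR).ramZero z hz
  have e : (QF)⁻¹ * z = y := by
    rw [hzy, NodeSetup.coe_constB]
    exact h0s_aux2 _ _ hQ0
  rw [e]
  exact hy

/-- `q` is a non-unit of `O_mid` -/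
theorem h0s_Q_nonunit_mid : QF ∈ (SF).vMid.O.nonunits := by
  rw [← (SF).vMid.red_eq_zero_iff ⟨_, (SF).vMid.algebraMap_mem (q : k0Val A)⟩,
    (SF).vMid.red_algebraMap, a2i_res_q A q hA, map_zero]

/-- **`eMid`** of `H0Conc`: the value group of `v_mid` on `F0` lies in `(1/(q-1)) ℤ v(q)` -/
theorem h0s_eMid (z : f0Field A (M' * q * q)) (hz : z ∈ (SF).vMid.O.nonunits) :
    (QF)⁻¹ * z ∈ (SF).vMid.O ∨
      ∃ j : ℕ, 0 < j ∧ j < q - 1 ∧ (QF)⁻¹ ^ j * z ^ (q - 1) ∈ (SF).vMid.O ∧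
        (QF)⁻¹ ^ j * z ^ (q - 1) ∉ (SF).vMid.O.nonunits := by
  have hQ0 : QF ≠ 0 := a2i_Q_ne_zero A q hq
  by_cases hz0 : z = 0
  · left
    rw [hz0, mul_zero]
    exact (SF).vMid.O.zero_mem
  have hz0' : (z : FF (M' * q * q)) ≠ 0 := fun h => hz0 (Subtype.ext h)
  obtain ⟨n, hu, hu'⟩ := vdisc_vmid_pow A hq hA hζ hE z.2 hz0'
  have he : 0 < q - 1 := by have := hq.two_le; omega
  refine h0s_ram_abs (SF).vMid.O (QF) (h0s_Q_nonunit_mid A M' q hq hqM hA hζq hζ hE R hR) hQ0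
    (q - 1) he z hz hz0 n ?_ ?_
  · rw [mem_s36Final_vMid]
    have e : ((QF ^ n * z ^ (q - 1) : f0Field A (M' * q * q)) : FF (M' * q * q)) =
        algebraMap Kbar (FF (M' * q * q)) ((q : Kbar) ^ n) * (z : FF (M' * q * q)) ^ (q - 1) :=
      h0s_coe A M' q z n
    rw [e]
    exact hu
  · rw [mem_s36Final_vMid]
    have e : (((QF ^ n * z ^ (q - 1))⁻¹ : f0Field A (M' * q * q)) : FF (M' * q * q)) =
        (algebraMap Kbar (FF (M' * q * q)) ((q : Kbar) ^ n) *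
          (z : FF (M' * q * q)) ^ (q - 1))⁻¹ := by
      rw [← h0s_coe A M' q z n]
      rfl
    rw [e]
    exact hu'

/-- **`node`** of `H0Conc`: the three components have a common point, from ONE node containing
`p_mid` ((R4) + INC) -/
theorem h0s_node (t : Ideal (SF).B) (ht : (SF).IsNode t) (hmid : (SF).pMid ≤ t) :
    (SF).pInf ⊔ (SF).pMid ⊔ (SF).pZero ≠ ⊤ := by
  intro h
  have hle : (SF).pInf ⊔ (SF).pMid ⊔ (SF).pZero ≤ t :=
    sup_le (sup_le (le_sup_left.trans ht.2) hmid) (le_sup_right.trans ht.2)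
  rw [h] at hle
  exact ht.1.ne_top (top_le_iff.mp hle)

variable (ζ₀ : Kbarˣ) (hζ₀ : IsPrimitiveRoot (ζ₀ : Kbar) q)

/-- **`hD`** of `H0Conc` -/
theorem h0s_hD (v : Place Kbar (FF (M' * q * q))) : 0 ≤ fbmD1 M' q hq hqM ζ₀ hζ₀ v :=
  fbmD1_nonneg M' q hq hqM ζ₀ hζ₀ v

/-- **`mem_B`** of `H0Conc`: an element of `L(c D₁)` in the ball lies in `B = B_{D1}` -/
theorem h0s_mem_B (c : ℕ) (x : f0Field A (M' * q * q))
    (hx : (x : FF (M' * q * q)) ∈
      riemannRochSpace (K := Kbar) (c • fbmD1 M' q hq hqM ζ₀ hζ₀))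
    (hball : x ∈ (SF).ball) : x ∈ (SF).B := by
  rw [mem_s36Final_B]
  obtain ⟨⟨h1, h2⟩, h3⟩ := hball
  refine ⟨?_, h1, h2, h3⟩
  exact mem_offRegular_s36D1 M' q hq hqM ζ₀ hζ₀ _
    ((mem_L_fbmD1_iff_ord M' q hq hqM ζ₀ hζ₀ c _).1 hx).1

end Fermat.Agent.S36lib

end
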