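/-
Item 83 (S36), piece CRUX, the field `unif` of helper13's `H0Conc` for helper16's residue maps
`cfmTheta` (`CruxFam2.lean`) (helper7).  Complete proofs.

* `xpf_theta_eq`  : `xpfTheta = cfmTheta` (the two residue maps `cfmLam i → k` coincide);
* `xpf_theta_cfm_eq_zero_iff` : `cfmTheta i (cfmPi i c) = 0 ↔ cfmVarpi i ∣ c`;
* **`xpf_unif_cfm`** : `unif` of `H0Conc` at the middle cusp, with `θM = cfmTheta … mid`,
  `e = q - 1`.
-/
import Mathlib
import Fermat.Agent.S36lib.XProvFam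
import Fermat.Agent.S36lib.CruxFam2

set_option autoImplicit false
set_option linter.unusedSectionVars false
set_option linter.unusedVariables false
set_option linter.style.haveILetI false
set_option synthInstance.maxHeartbeats 400000

noncomputable section

namespace Fermat.Agent.S36lib

open ModularCurve HahnSeries AlgebraicCurve
open Fermat.Agent.GoodRed Fermat.Agent.S24lib Fermat.Agent.S34lib Fermat.Agent.S37lib
  Fermat.Agent.GM

variable (A : ValuationSubring Kbar) (q : ℕ) [NeZero q] (hq : q.Prime)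
  (ζ : Kbarˣ) (hζ : IsPrimitiveRoot (ζ : Kbar) q) (hA : A.LiesOverPrime q)

/-- the two residue maps coincide -/
theorem xpf_theta_eq (i : CfmCusp) : xpfTheta A q ζ hA i = cfmTheta A q ζ hA i := by
  apply Ideal.Quotient.ringHom_ext
  ext c
  show xpfTheta A q ζ hA i (cfmPi A q ζ i c) = cfmTheta A q ζ hA i (cfmPi A q ζ i c)
  rw [xpfTheta_pi, cfmTheta_pi]
  rfl

/-- `θ (π c) = 0 ↔ ϖ ∣ c`, for `cfmTheta` -/
theorem xpf_theta_cfm_eq_zero_iff (i : CfmCusp) (c : cfmA1 A ζ i) :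
    cfmTheta A q ζ hA i (cfmPi A q ζ i c) = 0 ↔ cfmVarpi A q hq ζ hζ hA i ∣ c := by
  rw [← xpf_theta_eq]
  exact xpf_theta_eq_zero_iff A q hq ζ hζ hA i c

/-- **`unif`** of helper13's `H0Conc` at the middle cusp, for `θM = cfmTheta`:
`ϖ ^ (q - 1) = u q`, `u` a unit. -/
theorem xpf_unif_cfm (M' : ℕ) [NeZero M'] (hqM : ¬ q ∣ M') :
    ∃ ϖ u qA : cfmA1 A ζ CfmCusp.mid, ϖ ^ (q - 1) = u * qA ∧ IsUnit u ∧ qA ≠ 0 ∧
      (∀ c : cfmA1 A ζ CfmCusp.mid,
        cfmTheta A q ζ hA CfmCusp.mid (cfmPi A q ζ CfmCusp.mid c) = 0 ↔ ϖ ∣ c) ∧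
      (∀ c : cfmA1 A ζ CfmCusp.mid, cfmPi A q ζ CfmCusp.mid c = 0 → qA ∣ c) ∧
      cfmEx A M' q hq hqM ζ hζ CfmCusp.mid
          (algebraMap (k0Field A) (f0Field A (M' * q * q))
            (((q : ℕ) : k0Val A) : k0Field A)) =
        cfmInc A ζ CfmCusp.mid (PowerSeries.C qA) := by
  obtain ⟨ϖ, u, qA, h1, h2, h3, h4, h5, h6⟩ := xpf_unif A q hq ζ hζ hA M' hqM
  refine ⟨ϖ, u, qA, h1, h2, h3, fun c => ?_, h5, h6⟩
  rw [← xpf_theta_eq]
  exact h4 c

end Fermat.Agent.S36lib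

end
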