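/-
Item 83 (S36), piece C-14 CRUX-H0 wiring (helper16).  Complete proofs.

`s36S0`: the semistable reduction datum `s36Dball.toSSRed` of the final setup.
`s36Final_hh0_of`: the hypothesis `hh0` of `s36Final_crux_of_h0_head` (`CruxFinal5.lean`) from
helper13's `H0Conc.hh0` (`H0Conc.lean`), with the fields `hQ`, `eInf`, `eZero`, `eMid`, `sat`,
`node`, `hD`, `mem_B`, weights, `deg`, `ιM_injective`, `unif`, `int`, `exact` DISCHARGED
(helper20 `H0Small.lean`, helper7 `XProvUnif.lean` / `XProvWire.lean`, helper6 `CruxFamInt.lean`);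
remaining inputs: `hyp : G3Hyp` (helper8), the three `H0Cusp` (helper12) and one node
containing `p_mid`.
-/
import Mathlib
import Fermat.Agent.S36lib.CruxFinal5
import Fermat.Agent.S36lib.H0Conc
import Fermat.Agent.S36lib.H0Small
import Fermat.Agent.S36lib.XProvUnif
import Fermat.Agent.S36lib.SSRedBCInst

set_option autoImplicit false
set_option linter.style.longLine false
set_option linter.unusedSectionVars false
set_option linter.unusedVariables false
set_option linter.style.haveILetI false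
set_option synthInstance.maxHeartbeats 400000

noncomputable section

namespace Fermat.Agent.S36lib

open ModularCurve HahnSeries AlgebraicCurve
open Fermat.Agent.GoodRed Fermat.Agent.S24lib Fermat.Agent.S34lib Fermat.Agent.S37lib
  Fermat.Agent.HeckeBar Fermat.Agent.S35lib Fermat.Agent.GM Fermat.Agent.RRlib

variable (A : ValuationSubring Kbar) (M' q : ℕ) [NeZero M'] [NeZero q]
variable (hq : q.Prime) (hqM : ¬ q ∣ M') (hA : A.LiesOverPrime q)
variable {ζ : Kbarˣ} (hζq : ζ ^ q = 1) (hζ : IsPrimitiveRoot (ζ : Kbar) q)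
variable (R : ConstRed A (IsLocalRing.residue A)
      (↥(modularFunctionFieldFullC (IsLocalRing.ResidueField A) M')) (FF (M' * q * q)))
    (hR : IsSeriesRed R)

/-- **the semistable reduction datum of the final setup**: `O = ball`, `red : O → O ⧸ q O`. -/
def s36S0 : (letI := DvrBall.algebraRed (s36Dball A M' q hq hqM hA hζq hζ R hR) (k0Res A) (s36_k0Res_surjective A q hq hA)
    SSRed (k0Val A) (k0Res A) (s36Dball A M' q hq hqM hA hζq hζ R hR).RedRing
      (f0Field A (M' * q * q))) :=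
  haveI : IsDiscreteValuationRing (k0Val A) := k0Val_isDiscreteValuationRing A q hq hA
  (s36Dball A M' q hq hqM hA hζq hζ R hR).toSSRed (k0Res A) (s36_k0Res_surjective A q hq hA)

theorem s36S0_O :
    letI := DvrBall.algebraRed (s36Dball A M' q hq hqM hA hζq hζ R hR) (k0Res A) (s36_k0Res_surjective A q hq hA)
    (s36S0 A M' q hq hqM hA hζq hζ R hR).O =
      (s36Final A M' q hq hqM hA hζq hζ (cfm_isMidExp M' q hq hqM ζ hζ) R hR).ball := rfl

theorem s36S0_red (y : (s36Dball A M' q hq hqM hA hζq hζ R hR).O) :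
    letI := DvrBall.algebraRed (s36Dball A M' q hq hqM hA hζq hζ R hR) (k0Res A) (s36_k0Res_surjective A q hq hA)
    (s36S0 A M' q hq hqM hA hζq hζ R hR).red y =
      (s36Dball A M' q hq hqM hA hζq hζ R hR).red y := rfl

set_option maxHeartbeats 2000000 in
/-- **`hh0`** for the final setup from `G3Hyp`, the three `H0Cusp` and one node containing
`p_mid`. -/
theorem s36Final_hh0_of (haux : IsAuxLevel q M')
    (hyp : letI := DvrBall.algebraRed (s36Dball A M' q hq hqM hA hζq hζ R hR) (k0Res A) (s36_k0Res_surjective A q hq hA)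
      G3Hyp (s36Final A M' q hq hqM hA hζq hζ (cfm_isMidExp M' q hq hqM ζ hζ) R hR)
        (s36S0 A M' q hq hqM hA hζq hζ R hR) (q : k0Val A) (q - 1))
    (hnode : ∃ t : Ideal (s36Final A M' q hq hqM hA hζq hζ (cfm_isMidExp M' q hq hqM ζ hζ) R hR).B,
      (s36Final A M' q hq hqM hA hζq hζ (cfm_isMidExp M' q hq hqM ζ hζ) R hR).IsNode t ∧
      (s36Final A M' q hq hqM hA hζq hζ (cfm_isMidExp M' q hq hqM ζ hζ) R hR).pMid ≤ t)
    (hcusp : letI := DvrBall.algebraRed (s36Dball A M' q hq hqM hA hζq hζ R hR) (k0Res A) (s36_k0Res_surjective A q hq hA)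
      H0Cusp (s36S0 A M' q hq hqM hA hζq hζ R hR).O (s36S0 A M' q hq hqM hA hζq hζ R hR).red
          ((s36E A M' q hq hqM hA hζq hζ R hR).ε CfmCusp.inf)
          (h0cRv (s36Final A M' q hq hqM hA hζq hζ (cfm_isMidExp M' q hq hqM ζ hζ) R hR).vInf
            hyp.le_inf)
          (cfmInc A ζ CfmCusp.inf) (cfmEx A M' q hq hqM ζ hζ CfmCusp.inf)
          (cfmPi A q ζ CfmCusp.inf) (cfmTheta A q ζ hA CfmCusp.inf) ∧
      H0Cusp (s36S0 A M' q hq hqM hA hζq hζ R hR).O (s36S0 A M' q hq hqM hA hζq hζ R hR).red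
          ((s36E A M' q hq hqM hA hζq hζ R hR).ε CfmCusp.mid)
          (h0cRv (s36Final A M' q hq hqM hA hζq hζ (cfm_isMidExp M' q hq hqM ζ hζ) R hR).vMid
            hyp.le_mid)
          (cfmInc A ζ CfmCusp.mid) (cfmEx A M' q hq hqM ζ hζ CfmCusp.mid)
          (cfmPi A q ζ CfmCusp.mid) (cfmTheta A q ζ hA CfmCusp.mid) ∧
      H0Cusp (s36S0 A M' q hq hqM hA hζq hζ R hR).O (s36S0 A M' q hq hqM hA hζq hζ R hR).red
          ((s36E A M' q hq hqM hA hζq hζ R hR).ε CfmCusp.zero)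
          (h0cRv (s36Final A M' q hq hqM hA hζq hζ (cfm_isMidExp M' q hq hqM ζ hζ) R hR).vZero
            hyp.le_zero)
          (cfmInc A ζ CfmCusp.zero) (cfmEx A M' q hq hqM ζ hζ CfmCusp.zero)
          (cfmPi A q ζ CfmCusp.zero) (cfmTheta A q ζ hA CfmCusp.zero)) :
    letI := DvrBall.algebraRed (s36Dball A M' q hq hqM hA hζq hζ R hR) (k0Res A) (s36_k0Res_surjective A q hq hA)
    ∀ (c : ℕ) (y : (s36Dball A M' q hq hqM hA hζq hζ R hR).O),
      ((y : f0Field A (M' * q * q)) : FF (M' * q * q)) ∈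
        riemannRochSpace (K := Kbar) (c • fbmD1 M' q hq hqM ζ hζ) →
      (s36Dball A M' q hq hqM hA hζq hζ R hR).red y ∈
        (s36E A M' q hq hqM hA hζq hζ R hR).P 0 →
      (s36Dball A M' q hq hqM hA hζq hζ R hR).red y ∈
        Set.range (algebraMap (IsLocalRing.ResidueField A)
          (s36Dball A M' q hq hqM hA hζq hζ R hR).RedRing) := by
  letI := DvrBall.algebraRed (s36Dball A M' q hq hqM hA hζq hζ R hR) (k0Res A)
    (s36_k0Res_surjective A q hq hA)
  haveI : Fact q.Prime := ⟨hq⟩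
  haveI : IsDiscreteValuationRing (k0Val A) := k0Val_isDiscreteValuationRing A q hq hA
  haveI : IsAlgClosed (IsLocalRing.ResidueField A) := isAlgClosed_residueField A
  haveI : RRHyp Kbar (FF (M' * q * q)) := mod_rrHyp (M' * q * q)
  haveI : RRHyp (IsLocalRing.ResidueField A)
      (↥(modularFunctionFieldFullC (IsLocalRing.ResidueField A) M')) :=
    mr_rrHyp (IsLocalRing.ResidueField A) M'
  haveI : ∀ i, Nontrivial (cfmLam A q ζ i) := fun i => cfp_nontrivial A q ζ hA i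
  haveI : ∀ i, IsDiscreteValuationRing (cfmA1 A ζ i) := fun i => cfm_isDVR A q hq ζ hζ hA i
  obtain ⟨t, ht, htmid⟩ := hnode
  obtain ⟨hcI, hcM, hcZ⟩ := hcusp
  have hw : ∀ i, (s36E A M' q hq hqM hA hζq hζ R hR).w i = 1 := fun _ => rfl
  have hε : ∀ i (y : (s36S0 A M' q hq hqM hA hζq hζ R hR).O),
      (s36E A M' q hq hqM hA hζq hζ R hR).ε i ((s36S0 A M' q hq hqM hA hζq hζ R hR).red y) =
        tsBallRed (cfmInc A ζ i) (PowerSeries.map (cfmPi A q ζ i)) (cfmInc_injective A ζ i)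
          (cfmEx A M' q hq hqM ζ hζ i) (s36S0 A M' q hq hqM hA hζq hζ R hR).O
          (s36_hOV A M' q hq hqM hA hζq hζ R hR i) y :=
    fun i y => cfmE_ε_red A M' q hq hqM ζ hζ hA _ rfl _ _ i y
  have hint := cfi_hint A M' q hq hqM ζ hζ ζ hζ hA (s36S0 A M' q hq hqM hA hζq hζ R hR).O
    (s36_hOV A M' q hq hqM hA hζq hζ R hR) (s36E A M' q hq hqM hA hζq hζ R hR).w hw
  obtain ⟨n₂, x, xinv, -, hn₂, hunit, hxL, hexact, hxu⟩ :=
    xpw_exists M' q hq hqM ζ hζ ζ hζ (s36S0 A M' q hq hqM hA hζq hζ R hR)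
      (s36E A M' q hq hqM hA hζq hζ R hR) (s36_hOV A M' q hq hqM hA hζq hζ R hR) hε hw
      (fun x hx => xpw_gauss_mem_final A M' q hq hqM hA hζq hζ R hR x hx) haux hA 1
  have hC : H0Conc (s36Final A M' q hq hqM hA hζq hζ (cfm_isMidExp M' q hq hqM ζ hζ) R hR)
      (s36S0 A M' q hq hqM hA hζq hζ R hR) (q : k0Val A) (q - 1)
      (bcDataF0 (s36S0 A M' q hq hqM hA hζq hζ R hR))
      (infPlaceC (IsLocalRing.ResidueField A) M')
      (s36E A M' q hq hqM hA hζq hζ R hR) (fbmD1 M' q hq hqM ζ hζ) hyp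
      CfmCusp.inf CfmCusp.mid CfmCusp.zero
      (cfmInc A ζ CfmCusp.inf) (cfmEx A M' q hq hqM ζ hζ CfmCusp.inf)
      (cfmPi A q ζ CfmCusp.inf) (cfmTheta A q ζ hA CfmCusp.inf)
      (cfmInc A ζ CfmCusp.mid) (cfmEx A M' q hq hqM ζ hζ CfmCusp.mid)
      (cfmPi A q ζ CfmCusp.mid) (cfmTheta A q ζ hA CfmCusp.mid)
      (cfmInc A ζ CfmCusp.zero) (cfmEx A M' q hq hqM ζ hζ CfmCusp.zero)
      (cfmPi A q ζ CfmCusp.zero) (cfmTheta A q ζ hA CfmCusp.zero) :=
    { hQ := fun f => infPlaceC_ord (IsLocalRing.ResidueField A) M' f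
      eInf := h0s_eInf A M' q hq hqM hA hζq hζ (cfm_isMidExp M' q hq hqM ζ hζ) R hR
      eZero := h0s_eZero A M' q hq hqM hA hζq hζ (cfm_isMidExp M' q hq hqM ζ hζ) R hR
      eMid := h0s_eMid A M' q hq hqM hA hζq hζ (cfm_isMidExp M' q hq hqM ζ hζ) R hR
      sat := h0s_sat A M' q hq hqM hA hζq hζ (cfm_isMidExp M' q hq hqM ζ hζ) R hR
      node := h0s_node A M' q hq hqM hA hζq hζ (cfm_isMidExp M' q hq hqM ζ hζ) R hR t ht htmid
      hD := h0s_hD M' q hq hqM ζ hζ
      mem_B := h0s_mem_B A M' q hq hqM hA hζq hζ (cfm_isMidExp M' q hq hqM ζ hζ) R hR ζ hζ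
      wI := le_rfl
      wM := le_rfl
      wZ := le_rfl
      deg := by
        rw [fbmD1_degree M' q hq hqM ζ hζ]
        have h2 : 2 ≤ q := hq.two_le
        show (q : ℤ) + 1 ≤ ((1 : ℕ) : ℤ) + ((q - 1 : ℕ) : ℤ) * ((1 : ℕ) : ℤ) + ((1 : ℕ) : ℤ)
        push_cast [Nat.cast_sub (by omega : 1 ≤ q)]
        linarith
      cuspI := hcI
      cuspM := hcM
      cuspZ := hcZ
      ιM_injective := cfmInc_injective A ζ CfmCusp.mid
      unif := xpf_unif_cfm A q hq ζ hζ hA M' hqM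
      int := fun c z hz => ⟨c * 1, hint c z hz CfmCusp.mid⟩
      exact := ⟨x, n₂, hn₂, hxL, hxu⟩ }
  intro c y hy hP
  exact hC.hh0 c y hy hP

end Fermat.Agent.S36lib

end
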