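/-
Item 83 (S36), piece C-15 CRUX-H0 wiring, part 2 (helper16).  Complete proofs.

`s36Final_hh0_of_g3`: the hypothesis `hh0` of `s36Final_crux_of_h0_head` from `G3Hyp` (helper8)
and one node containing `p_mid`; the three `H0Cusp` are helper12's `cfh_cuspI/M/Z`
(`CruxFamH0.lean`).

`s36Final_crux_of_g3_head`: the CRUX from `G3Hyp`, one node containing `p_mid`, and `hhead`.
-/
import Mathlib
import Fermat.Agent.S36lib.CruxH0
import Fermat.Agent.S36lib.CruxFamH0

set_option autoImplicit false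
set_option linter.style.longLine false
set_option linter.unusedSectionVars false
set_option linter.unusedVariables false
set_option linter.style.haveILetI false
set_option synthInstance.maxHeartbeats 400000

noncomputable section

namespace Fermat.Agent.S36lib

open ModularCurve HahnSeries AlgebraicCurve
open Fermat.Agent.GoodRed Fermat.Agent.S24lib Fermat.Agent.S34lib Fermat.Agent.S37lib
  Fermat.Agent.HeckeBar Fermat.Agent.S35lib Fermat.Agent.GM Fermat.Agent.RRlib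

variable (A : ValuationSubring Kbar) (M' q : ℕ) [NeZero M'] [NeZero q]
variable (hq : q.Prime) (hqM : ¬ q ∣ M') (hA : A.LiesOverPrime q)
variable {ζ : Kbarˣ} (hζq : ζ ^ q = 1) (hζ : IsPrimitiveRoot (ζ : Kbar) q)
variable (R : ConstRed A (IsLocalRing.residue A)
      (↥(modularFunctionFieldFullC (IsLocalRing.ResidueField A) M')) (FF (M' * q * q)))
    (hR : IsSeriesRed R)

set_option maxHeartbeats 2000000 in
/-- **`hh0`** for the final setup from `G3Hyp` and one node containing `p_mid`. -/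
theorem s36Final_hh0_of_g3 (haux : IsAuxLevel q M')
    (hyp : letI := DvrBall.algebraRed (s36Dball A M' q hq hqM hA hζq hζ R hR) (k0Res A) (s36_k0Res_surjective A q hq hA)
      G3Hyp (s36Final A M' q hq hqM hA hζq hζ (cfm_isMidExp M' q hq hqM ζ hζ) R hR)
        (s36S0 A M' q hq hqM hA hζq hζ R hR) (q : k0Val A) (q - 1))
    (hnode : ∃ t : Ideal (s36Final A M' q hq hqM hA hζq hζ (cfm_isMidExp M' q hq hqM ζ hζ) R hR).B,
      (s36Final A M' q hq hqM hA hζq hζ (cfm_isMidExp M' q hq hqM ζ hζ) R hR).IsNode t ∧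
      (s36Final A M' q hq hqM hA hζq hζ (cfm_isMidExp M' q hq hqM ζ hζ) R hR).pMid ≤ t) :
    letI := DvrBall.algebraRed (s36Dball A M' q hq hqM hA hζq hζ R hR) (k0Res A) (s36_k0Res_surjective A q hq hA)
    ∀ (c : ℕ) (y : (s36Dball A M' q hq hqM hA hζq hζ R hR).O),
      ((y : f0Field A (M' * q * q)) : FF (M' * q * q)) ∈
        riemannRochSpace (K := Kbar) (c • fbmD1 M' q hq hqM ζ hζ) →
      (s36Dball A M' q hq hqM hA hζq hζ R hR).red y ∈
        (s36E A M' q hq hqM hA hζq hζ R hR).P 0 →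
      (s36Dball A M' q hq hqM hA hζq hζ R hR).red y ∈
        Set.range (algebraMap (IsLocalRing.ResidueField A)
          (s36Dball A M' q hq hqM hA hζq hζ R hR).RedRing) := by
  letI := DvrBall.algebraRed (s36Dball A M' q hq hqM hA hζq hζ R hR) (k0Res A)
    (s36_k0Res_surjective A q hq hA)
  haveI : ∀ i, Nontrivial (cfmLam A q ζ i) := fun i => cfp_nontrivial A q ζ hA i
  have hε : ∀ i (y : (s36S0 A M' q hq hqM hA hζq hζ R hR).O),
      (s36E A M' q hq hqM hA hζq hζ R hR).ε i ((s36S0 A M' q hq hqM hA hζq hζ R hR).red y) =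
        tsBallRed (cfmInc A ζ i) (PowerSeries.map (cfmPi A q ζ i)) (cfmInc_injective A ζ i)
          (cfmEx A M' q hq hqM ζ hζ i) (s36S0 A M' q hq hqM hA hζq hζ R hR).O
          (s36_hOV A M' q hq hqM hA hζq hζ R hR i) y :=
    fun i y => cfmE_ε_red A M' q hq hqM ζ hζ hA _ rfl _ _ i y
  refine s36Final_hh0_of A M' q hq hqM hA hζq hζ R hR haux hyp hnode ⟨?_, ?_, ?_⟩
  · exact cfh_cuspI A M' q hq hqM ζ hζ hA hζq (cfm_isMidExp M' q hq hqM ζ hζ) R hR
      (s36S0 A M' q hq hqM hA hζq hζ R hR) (s36E A M' q hq hqM hA hζq hζ R hR)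
      (s36_hOV A M' q hq hqM hA hζq hζ R hR) hε (cfmTheta A q ζ hA)
      (fun i c => cfmTheta_pi A q ζ hA i c) hyp.le_inf
  · exact cfh_cuspM A M' q hq hqM ζ hζ hA hζq (cfm_isMidExp M' q hq hqM ζ hζ) R hR
      (s36S0 A M' q hq hqM hA hζq hζ R hR) (s36E A M' q hq hqM hA hζq hζ R hR)
      (s36_hOV A M' q hq hqM hA hζq hζ R hR) hε (cfmTheta A q ζ hA)
      (fun i c => cfmTheta_pi A q ζ hA i c) hyp.le_mid
  · exact cfh_cuspZ A M' q hq hqM ζ hζ hA hζq (cfm_isMidExp M' q hq hqM ζ hζ) R hR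
      (s36S0 A M' q hq hqM hA hζq hζ R hR) (s36E A M' q hq hqM hA hζq hζ R hR)
      (s36_hOV A M' q hq hqM hA hζq hζ R hR) hε (cfmTheta A q ζ hA)
      (fun i c => cfmTheta_pi A q ζ hA i c) hyp.le_zero

/-- **the CRUX for the final setup**, from `G3Hyp`, one node containing `p_mid`, `hhead`. -/
theorem s36Final_crux_of_g3_head (haux : IsAuxLevel q M')
    (hyp : letI := DvrBall.algebraRed (s36Dball A M' q hq hqM hA hζq hζ R hR) (k0Res A) (s36_k0Res_surjective A q hq hA)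
      G3Hyp (s36Final A M' q hq hqM hA hζq hζ (cfm_isMidExp M' q hq hqM ζ hζ) R hR)
        (s36S0 A M' q hq hqM hA hζq hζ R hR) (q : k0Val A) (q - 1))
    (hnode : ∃ t : Ideal (s36Final A M' q hq hqM hA hζq hζ (cfm_isMidExp M' q hq hqM ζ hζ) R hR).B,
      (s36Final A M' q hq hqM hA hζq hζ (cfm_isMidExp M' q hq hqM ζ hζ) R hR).IsNode t ∧
      (s36Final A M' q hq hqM hA hζq hζ (cfm_isMidExp M' q hq hqM ζ hζ) R hR).pMid ≤ t)
    (p : ℕ) (hqp : ¬ q ∣ p) (hp0 : 0 < p) (c2 : ℕ)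
    (hhead : ∀ n : ℕ,
      ∀ b : (s36Final A M' q hq hqM hA hζq hζ (cfm_isMidExp M' q hq hqM ζ hζ) R hR).B,
      (b : f0Field A (M' * q * q)) ≠ 0 →
      (s36Final A M' q hq hqM hA hζq hζ (cfm_isMidExp M' q hq hqM ζ hζ) R hR).IsUnitAtNodes b →
      (∀ P : Place Kbar (FF (M' * q * q)),
        ((p ^ n : ℕ) : ℤ) ∣ P.ord (((b : f0Field A (M' * q * q)) : FF (M' * q * q)))) →
      IsKummerNew2 M' q (p ^ n) (((b : f0Field A (M' * q * q)) : FF (M' * q * q))) →
      ∃ h₀ : f0Field A (M' * q * q), h₀ ≠ 0 ∧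
        (b : f0Field A (M' * q * q)) ^ c2 * h₀ ^ (p ^ n) ∈
          (s36Final A M' q hq hqM hA hζq hζ (cfm_isMidExp M' q hq hqM ζ hζ) R hR).B ∧
        ∃ z : f0Field A (M' * q * q),
          z ∈ (s36Final A M' q hq hqM hA hζq hζ (cfm_isMidExp M' q hq hqM ζ hζ) R hR).ball ∧
          (b : f0Field A (M' * q * q)) ^ c2 * h₀ ^ (p ^ n) =
            1 + a2iQ A q (L := M' * q * q) * z) (n : ℕ) :
    A2Crux M' q A (s36Final A M' q hq hqM hA hζq hζ (cfm_isMidExp M' q hq hqM ζ hζ) R hR)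
      (p ^ n) c2 :=
  s36Final_crux_of_h0_head A M' q hq hqM hA hζq hζ R hR haux
    (s36Final_hh0_of_g3 A M' q hq hqM hA hζq hζ R hR haux hyp hnode) p hqp hp0 c2 hhead n

end Fermat.Agent.S36lib

end
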