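import Mathlib
import Fermat.Agent.S36lib.Defs
import Fermat.Agent.S34lib.UnipDesc
import Fermat.Agent.S18lib.Transfer
import Fermat.Agent.S18lib.Normalise
import Fermat.Agent.S20_Comb

/-!
# Item 83 (S36), piece DESC (helper9): DESCENT of the Kummer form of (INV)

`InvKAuxStatement → InvKStatement`: (INV) at every level `M' q²`, `q ∤ M'`, follows from (INV) at
the auxiliary levels `Mt' q²`, `Mt' = lcm (M', baseLevel q)`.

* `di_isKummerFixed_incl` : `IsKummerFixed` goes up along `F_N ⊂ F_M`.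
* `NormBCStatement` : (NBC) Kummer-newness at `q²` goes up along `F_{M q²} ⊂ F_{Mt q²}`
  (= norm base change along `α`, `β` at the levels `(M q) q`, `M ∣ Mt`; piece NBC, helper7).
* `invK_descent_step` : `InvK Mt q m c A → InvK M q m c A` when `Mt q² = M q² e`,
  `ψ(Mt q²) < 2 e ψ(M q²)` (by `S18lib.exists_root_of_inclBar`).
* `invK_of_aux` : the numerics of the auxiliary level.
* `invK_descent` : `NormBCStatement → InvKAuxStatement → InvKStatement`.
-/

set_option autoImplicit false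
set_option linter.style.haveILetI false
set_option linter.unusedSectionVars false

noncomputable section

namespace Fermat.Agent.S36lib

open ModularCurve AlgebraicCurve
open Fermat.Agent.S24lib Fermat.Agent.HeckeBar Fermat.Agent.S34lib Fermat.Agent.GalRep
open Fermat.Agent.S35lib Fermat.Agent.GM

/-- the divisibility `M q² ∣ Mt q²` for `M ∣ Mt` -/
theorem di_dvd {M Mt : ℕ} (q : ℕ) (h : M ∣ Mt) : M * q * q ∣ Mt * q * q :=
  Nat.mul_dvd_mul_right (Nat.mul_dvd_mul_right h q) q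

/-- `IsKummerFixed` goes up along `F_N ⊂ F_M` -/
theorem di_isKummerFixed_incl (N M : ℕ) [NeZero N] [NeZero M] (h : N ∣ M) (m : ℕ)
    (A : ValuationSubring Kbar) (f : FF N) (hf : IsKummerFixed N m A f) :
    IsKummerFixed M m A (inclBar N M h f) := by
  intro σ hσ
  obtain ⟨c, s, hcs⟩ := hf σ hσ
  refine ⟨c, inclBar N M h s, ?_⟩
  rw [← ud_incl_smul, ← map_div₀, hcs, map_mul, map_pow, AlgHom.commutes]

/-- **(NBC)**, in the form used by the descent: Kummer-newness at `q²` goes up along the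
inclusion of levels `F_{M q²} ⊂ F_{Mt q²}`, `M ∣ Mt`, `q ∤ Mt`. -/
def NormBCStatement : Prop :=
  ∀ (M Mt q m : ℕ) [NeZero M] [NeZero Mt] [NeZero q], q.Prime → ¬ q ∣ Mt → ∀ h : M ∣ Mt,
    ∀ f : FF (M * q * q), IsKummerNew2 M q m f →
      IsKummerNew2 Mt q m (inclBar (M * q * q) (Mt * q * q) (di_dvd q h) f)

/-- divisibility of all orders passes to powers -/
theorem di_dvd_ord_pow (N m c : ℕ) (f : FF N)
    (hdiv : ∀ P : Place Kbar (FF N), (m : ℤ) ∣ P.ord f) (P : Place Kbar (FF N)) :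
    (m : ℤ) ∣ P.ord (f ^ c) := by
  rw [Fermat.Agent.S18lib.ord_pow_nat]
  exact Dvd.dvd.mul_left (hdiv P) _

/-- **Piece DESC, one step.**  Descent of the Kummer form of (INV) from level `Mt q²` to level
`M q²` (`M ∣ Mt`), when `Mt q² = M q² e` and `ψ(Mt q²) < 2 e ψ(M q²)`. -/
theorem invK_descent_step (M Mt q e : ℕ) [NeZero M] [NeZero Mt] [NeZero q]
    (hdvd : M ∣ Mt) (hM : Mt * q * q = M * q * q * e)
    (hdeg : dedekindPsi (Mt * q * q) < 2 * e * dedekindPsi (M * q * q)) (m c : ℕ) (hm : 0 < m)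
    (A : ValuationSubring Kbar)
    (hnew : ∀ f : FF (M * q * q), IsKummerNew2 M q m f →
      IsKummerNew2 Mt q m (inclBar (M * q * q) (Mt * q * q) (di_dvd q hdvd) f))
    (h : InvK Mt q m c A) : InvK M q m c A := by
  intro f hf hdiv hn hfix
  have hNM : M * q * q ∣ Mt * q * q := di_dvd q hdvd
  have hιf : inclBar (M * q * q) (Mt * q * q) hNM f ≠ 0 := (map_ne_zero _).2 hf
  obtain ⟨c₀, s, hcs⟩ := h (inclBar (M * q * q) (Mt * q * q) hNM f) hιf
    (ud_dvd_ord_incl (M * q * q) (Mt * q * q) hNM m f hdiv) (hnew f hn)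
    (di_isKummerFixed_incl (M * q * q) (Mt * q * q) hNM m A f hfix)
  rw [← map_pow] at hcs
  obtain ⟨g₀, c₁, h0⟩ := Fermat.Agent.S18lib.exists_root_of_inclBar (M * q * q) (Mt * q * q) e hM
    hdeg m hm (f ^ c) (pow_ne_zero _ hf) (di_dvd_ord_pow (M * q * q) m c f hdiv) s c₀ hcs
  exact ⟨c₁, g₀, h0⟩

/-- `ψ(M q²) = q (q + 1) ψ(M)` for `q` prime, `q ∤ M` -/
theorem di_dedekindPsi_sq (M q : ℕ) (hM : M ≠ 0) (hq : q.Prime) (hqM : ¬ q ∣ M) :
    dedekindPsi (M * q * q) = q * ((q + 1) * dedekindPsi M) := by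
  have h1 : M * q * q = q * (q * M) := by ring
  rw [h1, Fermat.Agent.S20lib.dedekindPsi_prime_mul_of_dvd hq
      (Nat.mul_ne_zero hq.ne_zero hM) (dvd_mul_right q M),
    Fermat.Agent.S20lib.dedekindPsi_prime_mul_of_not_dvd hq hM hqM]

/-- **Piece DESC, numerics.**  For `q` prime, `q ∤ N'`: the level `N' q²` is reached by descent
from `M' q²` with `M' = lcm (N', baseLevel q)` an auxiliary level. -/
theorem invK_of_aux (hNBC : NormBCStatement) (N' q : ℕ) [NeZero N'] [NeZero q] (hq : q.Prime)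
    (hqN : ¬ q ∣ N') :
    ∃ (M' : ℕ) (_ : NeZero M'), N' ∣ M' ∧ IsAuxLevel q M' ∧
      ∀ (m c : ℕ) (A : ValuationSubring Kbar), 0 < m → InvK M' q m c A → InvK N' q m c A := by
  obtain ⟨e, hlcm, hdeg, haux⟩ := Fermat.Agent.S18lib.dedekindPsi_lcm_lt N' q hq hqN
  have hN0 : N' ≠ 0 := NeZero.ne N'
  have hM0 : Nat.lcm N' (baseLevel q) ≠ 0 := by
    intro h0
    rw [h0] at haux
    exact haux.1 (dvd_zero q)
  haveI : NeZero (Nat.lcm N' (baseLevel q)) := ⟨hM0⟩
  refine ⟨Nat.lcm N' (baseLevel q), ⟨hM0⟩, Nat.dvd_lcm_left _ _, haux, ?_⟩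
  intro m c A hm h
  have hM : Nat.lcm N' (baseLevel q) * q * q = N' * q * q * e := by
    rw [hlcm]
    ring
  refine invK_descent_step N' (Nat.lcm N' (baseLevel q)) q e (Nat.dvd_lcm_left _ _) hM ?_
    m c hm A (hNBC N' (Nat.lcm N' (baseLevel q)) q m hq haux.1 (Nat.dvd_lcm_left _ _)) h
  rw [di_dedekindPsi_sq _ q hM0 hq haux.1, di_dedekindPsi_sq _ q hN0 hq hqN]
  have hq1 : 0 < q * (q + 1) := Nat.mul_pos hq.pos (Nat.succ_pos q)
  calc q * ((q + 1) * dedekindPsi (Nat.lcm N' (baseLevel q)))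
      = q * (q + 1) * dedekindPsi (Nat.lcm N' (baseLevel q)) := by ring
    _ < q * (q + 1) * (2 * e * dedekindPsi N') := Nat.mul_lt_mul_of_pos_left hdeg hq1
    _ = 2 * e * (q * ((q + 1) * dedekindPsi N')) := by ring

/-- **Piece DESC.**  (INV) at all levels `M' q²`, `q ∤ M'`, from (INV) at the auxiliary levels
and norm base change. -/
theorem invK_descent (hNBC : NormBCStatement) (h : InvKAuxStatement) : InvKStatement := by
  intro q M' p _ _ hq hp hqp hqM A hA
  obtain ⟨Mt, hMt, -, haux, hdesc⟩ := invK_of_aux hNBC M' q hq hqM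
  obtain ⟨c, hc, hinv⟩ := h q Mt p hq hp hqp haux A hA
  exact ⟨c, hc, fun n => hdesc (p ^ n) c A (pow_pos hp.pos n) (hinv n)⟩

end Fermat.Agent.S36lib

end
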