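/-
Item 83 (S36), piece C-4, part C4-5b (helper17): the UNCONDITIONAL concrete **(EX')** at level
`M' q²`.  No sorry.

`exg_exists`: `M'` an auxiliary level, `A | q`, `R'` the constant reduction of `F_{M'}` with
`IsSeriesRed`.  There is `c₀` such that for all `c ≥ c₀`, `α, γ ∈ A0 = A ∩ K0`, `β ∈ A ∩ K0(ζ)`
there is `x ∈ L(c • D₁)` (`D₁ = fbmD1 = (∞) + (0) + Σ (mid_i)`), inertia-fixed, whose three
expansions `E_∞ x`, `E_ζ x`, `E_0 x` have coefficients in `A0`, `A ∩ K0(ζ)`, `A0` and top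
coefficients (at `X^(-c)`) `α`, `β`, `γ`.

= `gnA0_exists` (helper6) + `fbm_reg_prod`, `mem_L_fbmD1_of_isIFixed` (helper15)
+ `elqInst_exists` (`elq_exists` of helper19).
-/
import Mathlib
import Fermat.Agent.S36lib.ElqInst
import Fermat.Agent.S36lib.GnA0
import Fermat.Agent.S36lib.FibreD1

set_option autoImplicit false
set_option linter.style.haveILetI false
set_option linter.unusedSectionVars false
set_option synthInstance.maxHeartbeats 400000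

noncomputable section

namespace Fermat.Agent.S36lib

open AlgebraicCurve ModularCurve HahnSeries
open Fermat.Agent.S24lib Fermat.Agent.S34lib Fermat.Agent.S37lib Fermat.Agent.GoodRed
  Fermat.Agent.GM

variable (M' q : ℕ) [NeZero M'] [NeZero q] (hq : q.Prime) (hqM : ¬ q ∣ M') (ζ₀ : Kbarˣ)
  (hζ₀ : IsPrimitiveRoot (ζ₀ : Kbar) q)

/-- the functions of level `M' q²` regular off `D₁ = {∞, 0, mid_i}` -/
def exgT : Subring (FF (M' * q * q)) where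
  carrier := {x | ∀ P : Place Kbar (FF (M' * q * q)), P ≠ infPlaceBar (M' * q * q) →
    P ≠ fbmZero M' q hq hqM → (∀ i, P ≠ fbmMid M' q hq hqM ζ₀ hζ₀ i) → 0 ≤ P.ord x}
  mul_mem' := fun {x y} hx hy P h1 h2 h3 => by
    have hx' := hx P h1 h2 h3
    have hy' := hy P h1 h2 h3
    rw [← ffMem_iff_ord_nonneg] at hx' hy' ⊢
    exact mul_mem hx' hy'
  one_mem' := fun P _ _ _ => by
    rw [← ffMem_iff_ord_nonneg]
    exact one_mem _
  add_mem' := fun {x y} hx hy P h1 h2 h3 => by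
    have hx' := hx P h1 h2 h3
    have hy' := hy P h1 h2 h3
    rw [← ffMem_iff_ord_nonneg] at hx' hy' ⊢
    exact add_mem hx' hy'
  zero_mem' := fun P _ _ _ => by
    rw [← ffMem_iff_ord_nonneg]
    exact zero_mem _
  neg_mem' := fun {x} hx P h1 h2 h3 => by
    have hx' := hx P h1 h2 h3
    rw [← ffMem_iff_ord_nonneg] at hx' ⊢
    exact neg_mem hx'

theorem mem_exgT_iff (x : FF (M' * q * q)) :
    x ∈ exgT M' q hq hqM ζ₀ hζ₀ ↔
      ∀ P : Place Kbar (FF (M' * q * q)), P ≠ infPlaceBar (M' * q * q) →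
        P ≠ fbmZero M' q hq hqM → (∀ i, P ≠ fbmMid M' q hq hqM ζ₀ hζ₀ i) → 0 ≤ P.ord x :=
  Iff.rfl

theorem const_mem_exgT (c : Kbar) :
    algebraMap Kbar (FF (M' * q * q)) c ∈ exgT M' q hq hqM ζ₀ hζ₀ := fun P _ _ _ => by
  rw [← ffMem_iff_ord_nonneg]
  exact P.algebraMap_mem' c

/-- regular off `∞'` from membership in `L(n • P∞')` -/
theorem exg_reg_of_mem_L {n : ℕ} {g : FF M'}
    (hg : g ∈ riemannRochSpace (K := Kbar) (Finsupp.single (infPlaceBar M') (n : ℤ)))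
    (v : Place Kbar (FF M')) (hv : v ≠ infPlaceBar M') : 0 ≤ v.ord g := by
  rw [mem_riemannRochSpace_iff] at hg
  rcases hg v with rfl | h
  · rw [Place.ord_zero]
  · rwa [Finsupp.single_eq_of_ne hv, neg_zero] at h

variable {M' q}

/-- **the concrete (EX')**, unconditional. -/
theorem exg_exists {A : ValuationSubring Kbar} (hA : A.LiesOverPrime q)
    (haux : IsAuxLevel q M')
    {R : ConstRed A (IsLocalRing.residue A) (Fk (IsLocalRing.ResidueField A) M') (FF M')}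
    (hR : IsSeriesRed R) (ζ : Kbarˣ) (hζ : IsPrimitiveRoot (ζ : Kbar) q) :
    ∃ c₀ : ℕ, ∀ c, c₀ ≤ c → ∀ α γ β : Kbar, α ∈ zsR0 A → γ ∈ zsR0 A → β ∈ zsR1 A (ζ : Kbar) →
      ∃ x : FF (M' * q * q),
        x ∈ riemannRochSpace (K := Kbar) (c • fbmD1 M' q hq hqM ζ₀ hζ₀) ∧
        x ∈ elqRing A M' q hq hqM ζ hζ ∧
        (ecInf M' q x).coeff (-(c : ℤ)) = α ∧ (ecMid M' q hq hqM ζ hζ x).coeff (-(c : ℤ)) = β ∧
        (ecZero M' q hq hqM x).coeff (-(c : ℤ)) = γ := by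
  classical
  haveI : Fact q.Prime := ⟨hq⟩
  obtain ⟨n₀, hn₀⟩ : ∃ n₀ : ℕ, n₀ = 2 * genusFF Kbar (FF M') := ⟨_, rfl⟩
  choose g y hfix hser hL hunit hvan using
    fun n : {n : ℕ // n₀ ≤ n} => gnA0_exists q haux hA hR n.1 (hn₀ ▸ n.2)
  let G : ℕ → FF M' := fun n => if h : n₀ ≤ n then g ⟨n, h⟩ else 0
  have hG : ∀ n (h : n₀ ≤ n), G n = g ⟨n, h⟩ := fun n h => dif_pos h
  have hcoeff : ∀ n (h : n₀ ≤ n) (k : ℤ),
      (G n : LaurentSeries Kbar).coeff k = ((y ⟨n, h⟩).coeff k : Kbar) := by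
    intro n h k
    rw [hG n h, hser ⟨n, h⟩, coeffMap_coeff]
    rfl
  have hgint : ∀ n, n₀ ≤ n → EoInt (zsR0 A) (G n : LaurentSeries Kbar) := by
    intro n h
    rw [eoInt_zsR0_iff_isIFixed]
    refine ⟨by rw [hG n h]; exact hfix ⟨n, h⟩, fun k => ?_⟩
    rw [hcoeff n h k]
    exact ((y ⟨n, h⟩).coeff k).2
  have hgpole : ∀ n, n₀ ≤ n → ClPole n (G n : LaurentSeries Kbar) := by
    intro n h k hk
    rw [hcoeff n h k, hvan ⟨n, h⟩ k hk]
    rfl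
  have hgunit : ∀ n, n₀ ≤ n →
      A.valuation ((G n : LaurentSeries Kbar).coeff (-(n : ℤ))) = 1 := by
    intro n h
    rw [hcoeff n h]
    obtain ⟨u, hu⟩ := hunit ⟨n, h⟩
    rw [← hu]
    exact A.valuation_unit u
  have hgreg : ∀ n, n₀ ≤ n → ∀ v : Place Kbar (FF M'), v ≠ infPlaceBar M' → 0 ≤ v.ord (G n) := by
    intro n h v hv
    rw [hG n h]
    exact exg_reg_of_mem_L M' (hL ⟨n, h⟩) v hv
  obtain ⟨c₀, hc₀⟩ := elqInst_exists A M' q hq hqM ζ hζ hA (exgT M' q hq hqM ζ₀ hζ₀)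
    (const_mem_exgT M' q hq hqM ζ₀ hζ₀) n₀ G hgint hgpole hgunit
    (fun n₁ n₂ n₃ h₁ h₂ h₃ P hP1 hP2 hP3 =>
      fbm_reg_prod M' q hq hqM ζ₀ hζ₀ (G n₁) (G n₂) (G n₃) (hgreg _ h₁) (hgreg _ h₂)
        (hgreg _ h₃) P hP1 hP2 hP3)
  refine ⟨c₀, fun c hc α γ β hα hγ hβ => ?_⟩
  obtain ⟨x, hxT, hxR, h1, h2, h3, h4, h5, h6⟩ := hc₀ c hc α γ β hα hγ hβ
  exact ⟨x, mem_L_fbmD1_of_isIFixed M' q hq hqM ζ₀ hζ₀ hA
    (isIFixed_of_mem_elqRing A M' q hq hqM ζ hζ hxR) c hxT h1 h3 ζ hζ h2, hxR, h4, h5, h6⟩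

end Fermat.Agent.S36lib
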