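import Mathlib
import Fermat.Agent.S36lib.Speed

set_option linter.style.haveILetI false

namespace Fermat.Agent.S36lib

open PowerSeries

/-- Binomial formula for a square-zero perturbation. -/
theorem s36_er_add_pow_of_mul_self_eq_zero {R : Type*} [CommRing R] (x a : R)
    (ha : a * a = 0) (n : ℕ) :
    (x + a) ^ (n + 1) = x ^ (n + 1) + ((n + 1 : ℕ) : R) * x ^ n * a := by
  induction n with
  | zero => simp
  | succ n ih =>
    rw [pow_succ, ih]
    push_cast
    linear_combination ((n : R) + 1) * x ^ n * ha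

/-- Step (1): modulo every prime the order of `s` is exactly `N`. -/
theorem s36_er_prime {Λ : Type*} [CommRing Λ] (m N : ℕ) (hm : m ≠ 0)
    (s v : PowerSeries Λ) (hv : IsUnit (constantCoeff v)) (h : s ^ m = X ^ (N * m) * v)
    (P : Ideal Λ) [hP : P.IsPrime] :
    coeff N s ∉ P ∧ ∀ i < N, coeff i s ∈ P := by
  set f := Ideal.Quotient.mk P with hf
  have h' : (map f s) ^ m = X ^ (N * m) * map f v := by
    have := congrArg (map f) h
    simpa [map_pow, map_mul] using this
  have hv' : order (map f v) = 0 := by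
    apply order_zero_of_unit
    rw [isUnit_iff_constantCoeff]
    have hc : constantCoeff (map f v) = f (constantCoeff v) := by
      rw [← coeff_zero_eq_constantCoeff_apply, coeff_map, coeff_zero_eq_constantCoeff_apply]
    rw [hc]
    exact hv.map f
  have hord : order (map f s) = N := by
    have h2 := congrArg order h'
    rw [order_pow, order_mul, order_X_pow, hv', add_zero] at h2
    cases hx : order (map f s) using ENat.recTopCoe with
    | top =>
      rw [hx] at h2
      exfalso
      rw [nsmul_eq_mul, ENat.mul_top (by exact_mod_cast hm)] at h2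
      exact ENat.top_ne_natCast _ h2
    | coe k =>
      rw [hx] at h2
      rw [nsmul_eq_mul] at h2
      have h3 : m * k = N * m := by exact_mod_cast h2
      have : k = N := by
        have hmpos : 0 < m := Nat.pos_of_ne_zero hm
        nlinarith [Nat.eq_of_mul_eq_mul_left hmpos (by rw [h3, mul_comm] : m * k = m * N)]
      rw [this]
  rw [order_eq_nat] at hord
  refine ⟨?_, ?_⟩
  · intro hmem
    apply hord.1
    rw [coeff_map]
    exact Ideal.Quotient.eq_zero_iff_mem.mpr hmem
  · intro i hi
    have := hord.2 i hi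
    rw [coeff_map] at this
    exact Ideal.Quotient.eq_zero_iff_mem.mp this

/-- Step (1): low coefficients are nilpotent and the coefficient at `N` is a unit. -/
theorem s36_er_nilpotent_unit {Λ : Type*} [CommRing Λ] (m N : ℕ) (hm : m ≠ 0)
    (s v : PowerSeries Λ) (hv : IsUnit (constantCoeff v)) (h : s ^ m = X ^ (N * m) * v) :
    (∀ i < N, IsNilpotent (coeff i s)) ∧ IsUnit (coeff N s) := by
  refine ⟨?_, ?_⟩
  · intro i hi
    rw [nilpotent_iff_mem_prime]
    intro P hP
    haveI := hP
    exact (s36_er_prime m N hm s v hv h P).2 i hi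
  · by_contra hnu
    obtain ⟨I, hI, hmem⟩ := exists_max_ideal_of_mem_nonunits hnu
    haveI := hI.isPrime
    exact (s36_er_prime m N hm s v hv h I).1 hmem

/-- Step (2): the low coefficients lie in the square of any ideal containing them. -/
theorem s36_er_mem_sq {Λ : Type*} [CommRing Λ] (m N : ℕ) (hmu : IsUnit (m : Λ)) (hm : m ≠ 0)
    (s v : PowerSeries Λ) (hN : IsUnit (coeff N s)) (h : s ^ m = X ^ (N * m) * v)
    (J : Ideal Λ) (hJ : ∀ i < N, coeff i s ∈ J) :
    ∀ i < N, coeff i s ∈ J ^ 2 := by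
  obtain ⟨m', rfl⟩ := Nat.exists_eq_succ_of_ne_zero hm
  set f := Ideal.Quotient.mk (J ^ 2) with hf
  set sb := map f s with hsb
  set a : PowerSeries (Λ ⧸ J ^ 2) :=
    ((trunc N sb : Polynomial (Λ ⧸ J ^ 2)) : PowerSeries (Λ ⧸ J ^ 2)) with ha
  set t : PowerSeries (Λ ⧸ J ^ 2) := PowerSeries.mk fun i ↦ coeff (i + N) sb with ht
  have hsplit : sb = X ^ N * t + a := eq_X_pow_mul_shift_add_trunc N sb
  have hcoeff : ∀ i, coeff i a = if i < N then f (coeff i s) else 0 := by
    intro i
    rw [ha, Polynomial.coeff_coe, coeff_trunc]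
    split_ifs
    · rw [hsb, coeff_map]
    · rfl
  have haa : a * a = 0 := by
    ext n
    rw [coeff_mul, map_zero]
    apply Finset.sum_eq_zero
    intro p _
    rw [hcoeff, hcoeff]
    split_ifs with h1 h2
    · rw [← map_mul]
      apply Ideal.Quotient.eq_zero_iff_mem.mpr
      rw [pow_two]
      exact Ideal.mul_mem_mul (hJ _ h1) (hJ _ h2)
    · simp
    · simp
    · simp
  have h' : sb ^ (m' + 1) = X ^ (N * (m' + 1)) * map f v := by
    have := congrArg (map f) h
    simpa [map_pow, map_mul] using this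
  rw [hsplit, s36_er_add_pow_of_mul_self_eq_zero _ _ haa] at h'
  have h2 : X ^ (N * m') * (X ^ N * t ^ (m' + 1) + ((m' + 1 : ℕ) : PowerSeries _) * t ^ m' * a)
      = X ^ (N * m') * (X ^ N * map f v) := by
    calc X ^ (N * m') * (X ^ N * t ^ (m' + 1) + ((m' + 1 : ℕ) : PowerSeries _) * t ^ m' * a)
        = (X ^ N * t) ^ (m' + 1) + ((m' + 1 : ℕ) : PowerSeries _) * (X ^ N * t) ^ m' * a := by
          ring
      _ = X ^ (N * (m' + 1)) * map f v := h'
      _ = X ^ (N * m') * (X ^ N * map f v) := by ring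
  have h3 := X_pow_mul_cancel h2
  have htu : IsUnit t := by
    rw [isUnit_iff_constantCoeff, ← coeff_zero_eq_constantCoeff_apply, ht, coeff_mk, zero_add,
      hsb, coeff_map]
    exact hN.map f
  have hmu' : IsUnit (((m' + 1 : ℕ) : PowerSeries (Λ ⧸ J ^ 2))) := by
    have h1 : IsUnit (f ((m' + 1 : ℕ) : Λ)) := hmu.map f
    have h2 := h1.map (C (R := Λ ⧸ J ^ 2))
    simpa using h2
  have hu : IsUnit (((m' + 1 : ℕ) : PowerSeries (Λ ⧸ J ^ 2)) * t ^ m') := hmu'.mul (htu.pow m')
  have hdvd : X ^ N ∣ ((m' + 1 : ℕ) : PowerSeries (Λ ⧸ J ^ 2)) * t ^ m' * a :=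
    ⟨map f v - t ^ (m' + 1), by linear_combination h3⟩
  have hdvd' : X ^ N ∣ a := (hu.dvd_mul_left).mp hdvd
  rw [X_pow_dvd_iff] at hdvd'
  intro i hi
  have := hdvd' i hi
  rw [hcoeff, if_pos hi] at this
  exact Ideal.Quotient.eq_zero_iff_mem.mp this

/-- Step (3), power series form: if `s ^ m = X ^ (N m) · v` with `v` a unit power series and
`m` invertible in `Λ`, then `s = X ^ N · w` with `w` a unit power series. -/
theorem s36_er_powerSeries {Λ : Type*} [CommRing Λ] (m N : ℕ) (hmu : IsUnit (m : Λ))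
    (hm : m ≠ 0) (s v : PowerSeries Λ) (hv : IsUnit (constantCoeff v))
    (h : s ^ m = X ^ (N * m) * v) :
    ∃ w : PowerSeries Λ, IsUnit (constantCoeff w) ∧ s = X ^ N * w := by
  obtain ⟨hnil, hN⟩ := s36_er_nilpotent_unit m N hm s v hv h
  set J : Ideal Λ := Ideal.span ((fun i => coeff i s) '' (Finset.range N : Set ℕ)) with hJ
  have hJmem : ∀ i < N, coeff i s ∈ J := fun i hi =>
    Ideal.subset_span ⟨i, by simpa using hi, rfl⟩
  have hJfg : J.FG := by
    rw [hJ]
    exact Submodule.fg_span ((Finset.range N).finite_toSet.image _)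
  have hJnil : J ≤ nilradical Λ := by
    rw [hJ, Ideal.span_le]
    rintro _ ⟨i, hi, rfl⟩
    exact hnil i (by simpa using hi)
  have hJsq : J ≤ J • J := by
    rw [hJ, Ideal.span_le]
    rintro _ ⟨i, hi, rfl⟩
    have := s36_er_mem_sq m N hmu hm s v hN h J hJmem i (by simpa using hi)
    rwa [pow_two] at this
  have hJbot : J = ⊥ :=
    Submodule.eq_bot_of_le_smul_of_le_jacobson_bot J J hJfg hJsq
      (hJnil.trans (by
        rw [nilradical, Ideal.zero_eq_bot]
        exact Ideal.radical_le_jacobson))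
  have hdvd : X ^ N ∣ s := by
    rw [X_pow_dvd_iff]
    intro i hi
    have := hJmem i hi
    rw [hJbot] at this
    simpa using this
  obtain ⟨w, hw⟩ := hdvd
  refine ⟨w, ?_, hw⟩
  have h1 : X ^ (N * m) * w ^ m = X ^ (N * m) * v := by
    rw [← h, hw]
    ring
  have hwv := X_pow_mul_cancel h1
  have h2 : constantCoeff w ^ m = constantCoeff v := by rw [← map_pow, hwv]
  rw [← h2] at hv
  exact (isUnit_pow_iff hm).mp hv

/-- **EXACT ROOT CLOSURE** (TUBE step (3)).  Over any commutative ring `Λ` in which `m` is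
invertible: a Laurent series `r` whose `m`-th power is a power series with unit constant
coefficient is itself a power series with unit constant coefficient. -/
theorem s36_exact_root {Λ : Type*} [CommRing Λ] (m : ℕ) (hm : IsUnit (m : Λ))
    (r : LaurentSeries Λ) (v : PowerSeries Λ) (hv : IsUnit (PowerSeries.constantCoeff v))
    (h : r ^ m = HahnSeries.ofPowerSeries ℤ Λ v) :
    ∃ w : PowerSeries Λ, IsUnit (PowerSeries.constantCoeff w) ∧
      r = HahnSeries.ofPowerSeries ℤ Λ w := by
  rcases subsingleton_or_nontrivial Λ with hS | hNT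
  · exact ⟨1, isUnit_of_subsingleton _, Subsingleton.elim _ _⟩
  have hm0 : m ≠ 0 := by
    rintro rfl
    simp at hm
  set N : ℕ := (-r.order).toNat with hNdef
  set k : ℕ := ((N : ℤ) + r.order).toNat with hkdef
  have hk : (k : ℤ) = (N : ℤ) + r.order := by
    rw [hkdef, Int.toNat_of_nonneg]
    rw [hNdef]
    omega
  set s : PowerSeries Λ := X ^ k * r.powerSeriesPart with hs
  have hsr : HahnSeries.ofPowerSeries ℤ Λ s = HahnSeries.single (N : ℤ) 1 * r := by
    rw [hs, map_mul, HahnSeries.ofPowerSeries_X_pow, hk]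
    conv_rhs => rw [← LaurentSeries.single_order_mul_powerSeriesPart r]
    rw [← mul_assoc, HahnSeries.single_mul_single, mul_one]
  have hsm : s ^ m = X ^ (N * m) * v := by
    apply HahnSeries.ofPowerSeries_injective (Γ := ℤ)
    rw [map_pow, hsr, mul_pow, h, map_mul, HahnSeries.ofPowerSeries_X_pow, HahnSeries.single_pow,
      one_pow]
    congr 2
    push_cast
    simp [mul_comm]
  obtain ⟨w, hw, hsw⟩ := s36_er_powerSeries m N hm hm0 s v hv hsm
  refine ⟨w, hw, ?_⟩
  have h1 : HahnSeries.single (N : ℤ) (1 : Λ) * r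
      = HahnSeries.single (N : ℤ) (1 : Λ) * HahnSeries.ofPowerSeries ℤ Λ w := by
    rw [← hsr, hsw, map_mul, HahnSeries.ofPowerSeries_X_pow]
  have h2 := congrArg (fun z => HahnSeries.single (-(N : ℤ)) (1 : Λ) * z) h1
  simp only [← mul_assoc, HahnSeries.single_mul_single, neg_add_cancel, mul_one] at h2
  have h3 : (HahnSeries.single (0 : ℤ) (1 : Λ)) = 1 := rfl
  rwa [h3, one_mul, one_mul] at h2

end Fermat.Agent.S36lib
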