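/-
Item 83 (S36), block C-4 (helper19): **(F3') from (EX') by DIMENSION** — abstract, for any `SSRed`
(in the application `R = O/qO`, the non-reduced special fibre over the DVR `A₀`).
No sorry in this file.

`V c` an increasing chain of finite-dimensional `K`-subspaces of `F` (`V c = L(c D₁)`),
`co n : R →ₗ[k] Λ` the reduced coefficient of `X ^ (-n)` of the expansions at the points of `D̄₁`
(`Λ = k × A₁/qA₁ × k`, `dim_k Λ = deg D₁`), such that
* `hdim`: `dim V (c + 1) = dim V c + dim_k Λ` for `c ≥ a₀` (Riemann–Roch);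
* `hvan`: the reductions of `V c ∩ O` have pole order `≤ c`;
* `hex` : (EX') the leading coefficient map `red (V c ∩ O) → Λ` is onto for `c > a₀`.
Then (F3'): for `a ≥ a₀`, an element of `⋃_c red (V c ∩ O)` of pole order `≤ a` lies in
`red (V a ∩ O)`.
-/
import Mathlib
import Fermat.Agent.S34lib.Twist
import Fermat.Agent.S36lib.Speed

set_option autoImplicit false

noncomputable section

namespace Fermat.Agent.S36lib

open Fermat.Agent.S34lib

variable {K F k : Type*} [Field K] [Field F] [Algebra K F] [Field k]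
variable {R : Type*} [CommRing R] [Algebra k R]
variable {A : ValuationSubring K} {π : A →+* k}

/-- the reduction of a finite-dimensional subspace is finite-dimensional -/
theorem f3p_finite_redSp (S : SSRed A π R F) (V : Submodule K F) [Module.Finite K V] :
    Module.Finite k (S.redSp V) := by
  classical
  obtain ⟨n, b, hb, hli⟩ := S.exists_orthonormal V inferInstance
  have hspan : S.redSp V = Submodule.span k (Set.range fun i => S.red (b i)) := by
    apply le_antisymm
    · rintro _ ⟨x, hx, rfl⟩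
      exact S.red_mem_span b hli V hb x hx
    · rw [Submodule.span_le]
      rintro _ ⟨i, rfl⟩
      refine ⟨b i, ?_, rfl⟩
      rw [← hb]
      exact Submodule.subset_span ⟨i, rfl⟩
  rw [hspan]
  exact FiniteDimensional.span_of_finite k (Set.finite_range _)

/-- the pole filtration attached to a family of coefficient maps: pole order `≤ a` -/
def f3pP {Λ : Type*} [AddCommGroup Λ] [Module k Λ] (co : ℕ → R →ₗ[k] Λ) (a : ℕ) :
    Submodule k R where
  carrier := {t | ∀ n, a < n → co n t = 0}
  zero_mem' := fun _ _ => map_zero _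
  add_mem' := fun {x y} hx hy n hn => by rw [map_add, hx n hn, hy n hn, add_zero]
  smul_mem' := fun c _ hx n hn => by rw [map_smul, hx n hn, smul_zero]

theorem mem_f3pP {Λ : Type*} [AddCommGroup Λ] [Module k Λ] {co : ℕ → R →ₗ[k] Λ} {a : ℕ}
    {t : R} : t ∈ f3pP co a ↔ ∀ n, a < n → co n t = 0 := Iff.rfl

theorem f3pP_mono {Λ : Type*} [AddCommGroup Λ] [Module k Λ] (co : ℕ → R →ₗ[k] Λ) {a b : ℕ}
    (h : a ≤ b) : f3pP co a ≤ f3pP co b := fun _ ht n hn => ht n (lt_of_le_of_lt h hn)

section Main

variable (S : SSRed A π R F) (V : ℕ → Submodule K F) (hfin : ∀ c, Module.Finite K (V c))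
variable (hmono : ∀ c, V c ≤ V (c + 1))
variable {Λ : Type*} [AddCommGroup Λ] [Module k Λ]
variable (co : ℕ → R →ₗ[k] Λ) (a₀ : ℕ)

include hmono in
theorem f3p_V_mono {a b : ℕ} (h : a ≤ b) : V a ≤ V b := by
  induction b with
  | zero =>
    have : a = 0 := by omega
    subst this
    exact le_rfl
  | succ b ih =>
    rcases Nat.lt_or_ge a (b + 1) with h' | h'
    · exact le_trans (ih (by omega)) (hmono b)
    · have : a = b + 1 := by omega
      subst this
      exact le_rfl

include hfin hmono in
/-- one step of (F3'): the kernel of the leading coefficient map on `red (V (c+1) ∩ O)` is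
`red (V c ∩ O)` -/
theorem f3p_step
    (hdim : ∀ c, a₀ ≤ c → Module.finrank K (V (c + 1)) = Module.finrank K (V c) +
      Module.finrank k Λ)
    (hvan : ∀ c, ∀ t ∈ S.redSp (V c), ∀ n, c < n → co n t = 0)
    (hex : ∀ c, a₀ < c → ∀ l : Λ, ∃ t ∈ S.redSp (V c), co c t = l)
    (c : ℕ) (hc : a₀ ≤ c) (t : R) (ht : t ∈ S.redSp (V (c + 1))) (h0 : co (c + 1) t = 0) :
    t ∈ S.redSp (V c) := by
  classical
  have := hfin c
  have := hfin (c + 1)
  have : Module.Finite k (S.redSp (V c)) := f3p_finite_redSp S (V c)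
  have : Module.Finite k (S.redSp (V (c + 1))) := f3p_finite_redSp S (V (c + 1))
  -- the leading coefficient map on `T (c+1)`
  set f : S.redSp (V (c + 1)) →ₗ[k] Λ := (co (c + 1)).domRestrict (S.redSp (V (c + 1))) with hf
  have hsurj : Function.Surjective f := by
    intro l
    obtain ⟨t, ht, htl⟩ := hex (c + 1) (by omega) l
    exact ⟨⟨t, ht⟩, htl⟩
  have hrank := LinearMap.finrank_range_add_finrank_ker f
  rw [LinearMap.range_eq_top.mpr hsurj, finrank_top] at hrank
  have h1 : Module.finrank k (S.redSp (V (c + 1))) = Module.finrank K (V (c + 1)) :=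
    S.finrank_redSp (V (c + 1))
  have h2 : Module.finrank k (S.redSp (V c)) = Module.finrank K (V c) := S.finrank_redSp (V c)
  have h3 := hdim c hc
  -- the kernel as a submodule of `R`
  set Kf : Submodule k R := (LinearMap.ker f).map (S.redSp (V (c + 1))).subtype with hKf
  have hKrank : Module.finrank k Kf = Module.finrank k (LinearMap.ker f) :=
    (Submodule.equivMapOfInjective _ (Submodule.injective_subtype _) _).symm.finrank_eq
  have hle : S.redSp (V c) ≤ Kf := by
    intro s hs
    have hs' : s ∈ S.redSp (V (c + 1)) := S.redSp_mono (hmono c) hs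
    refine ⟨⟨s, hs'⟩, ?_, rfl⟩
    show f ⟨s, hs'⟩ = 0
    exact hvan c s hs (c + 1) (Nat.lt_succ_self c)
  have : Module.Finite k Kf := by
    rw [hKf]
    infer_instance
  have heq : S.redSp (V c) = Kf :=
    Submodule.eq_of_le_of_finrank_eq hle (by rw [hKrank, h2]; omega)
  rw [heq]
  exact ⟨⟨t, ht⟩, (show f ⟨t, ht⟩ = 0 from h0), rfl⟩

include hfin hmono in
/-- **(F3') from (EX') by dimension.** -/
theorem f3p_of_ex
    (hdim : ∀ c, a₀ ≤ c → Module.finrank K (V (c + 1)) = Module.finrank K (V c) +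
      Module.finrank k Λ)
    (hvan : ∀ c, ∀ t ∈ S.redSp (V c), ∀ n, c < n → co n t = 0)
    (hex : ∀ c, a₀ < c → ∀ l : Λ, ∃ t ∈ S.redSp (V c), co c t = l) :
    ∀ a, a₀ ≤ a → ∀ c, ∀ t ∈ S.redSp (V c), (∀ n, a < n → co n t = 0) →
      t ∈ S.redSp (V a) := by
  intro a ha c
  induction c with
  | zero =>
    intro t ht _
    exact S.redSp_mono (f3p_V_mono V hmono (Nat.zero_le a)) ht
  | succ c ih =>
    intro t ht hpole
    rcases Nat.lt_or_ge a (c + 1) with h | h
    · exact ih t (f3p_step S V hfin hmono co a₀ hdim hvan hex c (by omega) t ht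
        (hpole (c + 1) h)) hpole
    · exact S.redSp_mono (f3p_V_mono V hmono h) ht

include hfin hmono in
/-- (F3') in the form of the field `f3` of `CnrPole` (helper16, `S36lib/CruxNR.lean`) -/
theorem f3p_inf_le
    (hdim : ∀ c, a₀ ≤ c → Module.finrank K (V (c + 1)) = Module.finrank K (V c) +
      Module.finrank k Λ)
    (hvan : ∀ c, ∀ t ∈ S.redSp (V c), ∀ n, c < n → co n t = 0)
    (hex : ∀ c, a₀ < c → ∀ l : Λ, ∃ t ∈ S.redSp (V c), co c t = l)
    (a c : ℕ) (ha : a₀ ≤ a) : S.redSp (V c) ⊓ f3pP co a ≤ S.redSp (V a) := by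
  rintro t ⟨ht, hp⟩
  exact f3p_of_ex S V hfin hmono co a₀ hdim hvan hex a ha c t ht hp

/-- the reductions of `V a ∩ O` have pole order `≤ a` (field `le_P` of `CnrPole`) -/
theorem f3p_le_P (hvan : ∀ c, ∀ t ∈ S.redSp (V c), ∀ n, c < n → co n t = 0) (a : ℕ) :
    S.redSp (V a) ≤ f3pP co a := fun t ht n hn => hvan a t ht n hn

end Main

end Fermat.Agent.S36lib

end
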