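/-
Item 83 (S36), block C-4, piece C4-5 (helper19): **the bridge (EX') ⟹ (F3')** in the shape of the
hypothesis `hf3` of `cbc_cnrPole` / `cbc_kummer` (helper16, `S36lib/CruxBC.lean`), for a family of
reduced expansions `E : ClExp k R Λ` (e.g. the reduction by fractions `tsBallRed` of helper12,
`S36lib/TubeSeries.lean`).  No sorry in this file.

* `f3b_hf3_of_co`: `(F3')` for the pole filtration `E.P` from an abstract family of `k`-linear
  "coefficient of `X^(-n)`" maps `co n : R →ₗ[k] Λt` vanishing on `E.P a` for `n > a`.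
* `clCoeff`: the coefficient maps of `E` (all weights `1`), `k`-linear as soon as the expansions
  are `k`-linear;  `clCoProj`: composed with projections onto submodules `L₀ i ⊂ Λ i` (the span of
  the leading coefficients of the reductions; `Λ mid` may be bigger than `A₁/qA₁`).
* `f3b_hf3`: **(F3')** from Riemann–Roch (`hdim`), `le_P` (`hle`) and `(EX')` (`hex`).
-/
import Mathlib
import Fermat.Agent.S36lib.F3Prime
import Fermat.Agent.S36lib.CruxLaurent

set_option autoImplicit false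

noncomputable section

namespace Fermat.Agent.S36lib

open Fermat.Agent.S34lib

variable {K F k : Type*} [Field K] [Field F] [Algebra K F] [Field k]
variable {R : Type*} [CommRing R] [Algebra k R]
variable {A : ValuationSubring K} {π : A →+* k}
variable {ι : Type*} {Λ : ι → Type*} [∀ i, CommRing (Λ i)]

/-- **(F3') for the pole filtration of a family of expansions**, from an abstract family of
coefficient maps `co n` which vanish on `E.P a` for `n > a`. -/
theorem f3b_hf3_of_co (S : SSRed A π R F) (V : ℕ → Submodule K F)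
    (hfin : ∀ c, Module.Finite K (V c)) (hmono : ∀ c, V c ≤ V (c + 1))
    (E : ClExp k R Λ) {Λt : Type*} [AddCommGroup Λt] [Module k Λt]
    (co : ℕ → R →ₗ[k] Λt) (a₀ : ℕ)
    (hco : ∀ (a : ℕ) (t : R), t ∈ E.P a → ∀ n, a < n → co n t = 0)
    (hdim : ∀ c, a₀ ≤ c → Module.finrank K (V (c + 1)) = Module.finrank K (V c) +
      Module.finrank k Λt)
    (hle : ∀ c, S.redSp (V c) ≤ E.P c)
    (hex : ∀ c, a₀ < c → ∀ l : Λt, ∃ t ∈ S.redSp (V c), co c t = l) :
    ∀ a c, a₀ ≤ a → a ≤ c → S.redSp (V c) ⊓ E.P a ≤ S.redSp (V a) := by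
  intro a c ha _
  rintro t ⟨ht, hp⟩
  refine f3p_of_ex S V hfin hmono co a₀ hdim ?_ hex a ha c t ht (hco a t hp)
  intro c' t' ht' n hn
  exact hco c' t' (hle c' ht') n hn

section Coeff

variable [∀ i, Module k (Λ i)]

/-- the coefficient of `X^(-n)` of the expansions, as a `k`-linear map -/
def clCoeff (E : ClExp k R Λ)
    (hsmul : ∀ (i : ι) (c : k) (t : R), E.ε i (c • t) = c • E.ε i t) (n : ℕ) :
    R →ₗ[k] (∀ i, Λ i) where
  toFun t i := (E.ε i t).coeff (-(n : ℤ))
  map_add' x y := by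
    funext i
    show (E.ε i (x + y)).coeff _ = (E.ε i x).coeff _ + (E.ε i y).coeff _
    rw [map_add, HahnSeries.coeff_add]
  map_smul' c x := by
    funext i
    show (E.ε i (c • x)).coeff _ = c • (E.ε i x).coeff _
    rw [hsmul, HahnSeries.coeff_smul]

theorem clCoeff_apply (E : ClExp k R Λ)
    (hsmul : ∀ (i : ι) (c : k) (t : R), E.ε i (c • t) = c • E.ε i t) (n : ℕ) (t : R) (i : ι) :
    clCoeff E hsmul n t i = (E.ε i t).coeff (-(n : ℤ)) := rfl

/-- for weights `1`, the coefficients of `X^(-n)`, `n > a`, vanish on `E.P a` -/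
theorem clCoeff_eq_zero (E : ClExp k R Λ)
    (hsmul : ∀ (i : ι) (c : k) (t : R), E.ε i (c • t) = c • E.ε i t)
    (hw : ∀ i, E.w i = 1) {a : ℕ} {t : R} (ht : t ∈ E.P a) {n : ℕ} (hn : a < n) :
    clCoeff E hsmul n t = 0 := by
  funext i
  rw [clCoeff_apply]
  have h := ht i
  rw [hw i, Nat.mul_one] at h
  refine h _ ?_
  have : (a : ℤ) < n := by exact_mod_cast hn
  linarith

/-- the coefficient maps followed by `k`-linear projections `p i : Λ i → L₀ i` -/
def clCoProj (E : ClExp k R Λ)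
    (hsmul : ∀ (i : ι) (c : k) (t : R), E.ε i (c • t) = c • E.ε i t)
    (L₀ : ∀ i, Submodule k (Λ i)) (p : ∀ i, Λ i →ₗ[k] L₀ i) (n : ℕ) :
    R →ₗ[k] (∀ i, L₀ i) :=
  (LinearMap.pi fun i => (p i).comp (LinearMap.proj i)).comp (clCoeff E hsmul n)

theorem clCoProj_apply (E : ClExp k R Λ)
    (hsmul : ∀ (i : ι) (c : k) (t : R), E.ε i (c • t) = c • E.ε i t)
    (L₀ : ∀ i, Submodule k (Λ i)) (p : ∀ i, Λ i →ₗ[k] L₀ i) (n : ℕ) (t : R) (i : ι) :
    clCoProj E hsmul L₀ p n t i = p i ((E.ε i t).coeff (-(n : ℤ))) := rfl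

/-- **(F3') from (EX')** for a family of expansions with weights `1`: `hdim` is Riemann–Roch
(`∑ i, dim L₀ i = deg D₁`), `hle` is `le_P` (integrality of the expansions of `L(c D₁) ∩ O`),
`hex` is `(EX')`: every family of leading coefficients in `L₀` is realised in
`red (L(c D₁) ∩ O)`.  The conclusion is the hypothesis `hf3` of `cbc_cnrPole`. -/
theorem f3b_hf3 [Fintype ι] (S : SSRed A π R F) (V : ℕ → Submodule K F)
    (hfin : ∀ c, Module.Finite K (V c)) (hmono : ∀ c, V c ≤ V (c + 1))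
    (E : ClExp k R Λ) (hw : ∀ i, E.w i = 1)
    (hsmul : ∀ (i : ι) (c : k) (t : R), E.ε i (c • t) = c • E.ε i t)
    (L₀ : ∀ i, Submodule k (Λ i)) [∀ i, Module.Finite k (L₀ i)] (a₀ : ℕ)
    (hdim : ∀ c, a₀ ≤ c → Module.finrank K (V (c + 1)) = Module.finrank K (V c) +
      ∑ i, Module.finrank k (L₀ i))
    (hle : ∀ c, S.redSp (V c) ≤ E.P c)
    (hex : ∀ c, a₀ < c → ∀ l : ∀ i, Λ i, (∀ i, l i ∈ L₀ i) →
      ∃ t ∈ S.redSp (V c), ∀ i, (E.ε i t).coeff (-(c : ℤ)) = l i) :
    ∀ a c, a₀ ≤ a → a ≤ c → S.redSp (V c) ⊓ E.P a ≤ S.redSp (V a) := by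
  classical
  -- projections onto the `L₀ i`
  have hp : ∀ i, ∃ p : Λ i →ₗ[k] L₀ i, p.comp (L₀ i).subtype = LinearMap.id := fun i =>
    LinearMap.exists_leftInverse_of_injective (L₀ i).subtype (Submodule.ker_subtype _)
  choose p hp using hp
  have hpx : ∀ i (x : Λ i) (hx : x ∈ L₀ i), p i x = ⟨x, hx⟩ := by
    intro i x hx
    have := LinearMap.congr_fun (hp i) ⟨x, hx⟩
    simpa using this
  refine f3b_hf3_of_co S V hfin hmono E (clCoProj E hsmul L₀ p) a₀ ?_ ?_ hle ?_
  · intro a t ht n hn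
    funext i
    rw [clCoProj_apply]
    have h : (E.ε i t).coeff (-(n : ℤ)) = 0 := by
      have h' := congrFun (clCoeff_eq_zero E hsmul hw ht hn) i
      rw [clCoeff_apply] at h'
      exact h'
    rw [h, map_zero]
    rfl
  · intro c hc
    rw [hdim c hc, Module.finrank_pi_fintype]
  · intro c hc l
    obtain ⟨t, ht, hl⟩ := hex c hc (fun i => (l i : Λ i)) (fun i => (l i).2)
    refine ⟨t, ht, ?_⟩
    funext i
    rw [clCoProj_apply, hl i, hpx i _ (l i).2]

end Coeff

end Fermat.Agent.S36lib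

end
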