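/-
Item 83 (S36), piece C-4 (F3') CONCRETE (helper17).  No sorry.

`f3c_hf3` = the hypothesis `hf3` of `ctl_kummer_FF` (`CruxTail.lean`, helper16), in its
elementwise shape, at level `L = M' q²` with `D₁ = fbmD1`:

  `y ∈ O₀ ∩ L(c D₁)`, `red y ∈ E.P a`, `a₀ ≤ a ≤ c`  ⟹  `∃ y' ∈ O₀ ∩ L(a D₁)`, `red y' = red y`.

Proof by DESCENT on `c` with the concrete (EX') (`exg_exists`, `ExGlue.lean`): the top
coefficients of the three (integral) expansions of `y` at order `c > a` reduce to `0`, so they are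
`q (α, β, γ)` with `α, γ ∈ A0`, `β ∈ A ∩ K0(ζ)`; subtract `q x`, `x` from (EX').

Hypotheses on the ball `S₀` and the reduced expansions `E` (to be discharged by the owners of
`S₀`, `E`):
* `hint` (P6, integrality): `y ∈ O₀ ∩ L(c D₁)` has integral expansions (`∈ elqRing`);
* `hO`: the ball contains `elqRing`;
* `hdInf`, `hdMid`, `hdZero`: on functions with integral expansions, a vanishing reduced
  coefficient means that the coefficient is divisible by `q` (in `A0`, `A ∩ K0(ζ)`, `A0`).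
-/
import Mathlib
import Fermat.Agent.S36lib.ExGlue
import Fermat.Agent.S36lib.CruxLaurent
import Fermat.Agent.S36lib.SetupK0

set_option autoImplicit false
set_option linter.style.haveILetI false
set_option linter.unusedSectionVars false
set_option synthInstance.maxHeartbeats 400000

noncomputable section

namespace Fermat.Agent.S36lib

open AlgebraicCurve ModularCurve HahnSeries
open Fermat.Agent.S24lib Fermat.Agent.S34lib Fermat.Agent.S37lib Fermat.Agent.GoodRed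
  Fermat.Agent.GM

variable {M' q : ℕ} [NeZero M'] [NeZero q] (hq : q.Prime) (hqM : ¬ q ∣ M') (ζ₀ : Kbarˣ)
  (hζ₀ : IsPrimitiveRoot (ζ₀ : Kbar) q)

/-- one coefficient of a difference `y - q x` -/
theorem f3c_coeff_sub (E : FF (M' * q * q) →+* LaurentSeries Kbar)
    (hE : ∀ c : Kbar, E (algebraMap Kbar (FF (M' * q * q)) c)
      = algebraMap Kbar (LaurentSeries Kbar) c)
    (y x : FF (M' * q * q)) (n : ℤ) :
    (E (y - algebraMap Kbar (FF (M' * q * q)) (q : Kbar) * x)).coeff n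
      = (E y).coeff n - (q : Kbar) * (E x).coeff n := by
  rw [map_sub, map_mul, hE, HahnSeries.coeff_sub, eo_coeff_algebraMap_mul]

/-- lowering the pole order by one when the top coefficient vanishes -/
theorem f3c_clPole_pred {Λ : Type*} [CommRing Λ] {c : ℕ} (hc : 0 < c) {s : LaurentSeries Λ}
    (h : ClPole c s) (h0 : s.coeff (-(c : ℤ)) = 0) : ClPole (c - 1) s := by
  intro n hn
  have hc' : ((c - 1 : ℕ) : ℤ) = (c : ℤ) - 1 := by
    rw [Nat.cast_sub hc]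
    simp
  rw [hc'] at hn
  rcases lt_or_eq_of_le (show n ≤ -(c : ℤ) by omega) with h1 | h1
  · exact h n h1
  · rw [h1]
    exact h0

section Main

variable {A : ValuationSubring Kbar} (hA : A.LiesOverPrime q) (ζ : Kbarˣ)
  (hζ : IsPrimitiveRoot (ζ : Kbar) q)
  {R : Type*} [CommRing R] [Algebra (IsLocalRing.ResidueField A) R]
  (S₀ : SSRed (k0Val A) (k0Res A) R (f0Field A (M' * q * q)))

include hq hA in
theorem f3c_k0Res_q : k0Res A (q : k0Val A) = 0 := by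
  rw [k0Res_apply]
  have h := (k0_residue_comp_eq_zero_iff A (q : k0Val A)).mpr (by
    rw [k0Val_maximalIdeal_eq A q hq hA]
    exact Ideal.mem_span_singleton_self _)
  exact h

/-- `q • y`, as an element of the ball -/
def f3cQ (y : S₀.O) : S₀.O := S₀.C (q : k0Val A) * y

include hq hA in
theorem f3c_red_Q (y : S₀.O) : S₀.red (f3cQ S₀ y) = 0 := by
  rw [f3cQ, S₀.red_C_mul, f3c_k0Res_q hq hA, zero_smul]

theorem f3c_coe_Q (y : S₀.O) :
    (((f3cQ S₀ y : S₀.O) : f0Field A (M' * q * q)) : FF (M' * q * q))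
      = algebraMap Kbar (FF (M' * q * q)) (q : Kbar)
        * ((y : f0Field A (M' * q * q)) : FF (M' * q * q)) := by
  show ((algebraMap (k0Field A) (f0Field A (M' * q * q))
      (((q : k0Val A) : k0Field A)) : f0Field A (M' * q * q)) : FF (M' * q * q)) * _ = _
  congr 1

variable {ι : Type*} {Λ : ι → Type*} [∀ i, CommRing (Λ i)]
  (E : ClExp (IsLocalRing.ResidueField A) R Λ) (iInf iMid iZero : ι)

include hq hA in
/-- one step of the descent -/
theorem f3c_step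
    (hwInf : E.w iInf = 1) (hwMid : E.w iMid = 1) (hwZero : E.w iZero = 1)
    (hint : ∀ (c : ℕ) (y : S₀.O), ((y : f0Field A (M' * q * q)) : FF (M' * q * q)) ∈
        riemannRochSpace (K := Kbar) (c • fbmD1 M' q hq hqM ζ₀ hζ₀) →
      ((y : f0Field A (M' * q * q)) : FF (M' * q * q)) ∈ elqRing A M' q hq hqM ζ hζ)
    (hO : ∀ x : FF (M' * q * q), x ∈ elqRing A M' q hq hqM ζ hζ →
      ∃ y : S₀.O, ((y : f0Field A (M' * q * q)) : FF (M' * q * q)) = x)
    (hdInf : ∀ y : S₀.O,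
      ((y : f0Field A (M' * q * q)) : FF (M' * q * q)) ∈ elqRing A M' q hq hqM ζ hζ →
      ∀ n : ℤ, (E.ε iInf (S₀.red y)).coeff n = 0 → ∃ b ∈ zsR0 A,
        (ecInf M' q ((y : f0Field A (M' * q * q)) : FF (M' * q * q))).coeff n = (q : Kbar) * b)
    (hdMid : ∀ y : S₀.O,
      ((y : f0Field A (M' * q * q)) : FF (M' * q * q)) ∈ elqRing A M' q hq hqM ζ hζ →
      ∀ n : ℤ, (E.ε iMid (S₀.red y)).coeff n = 0 → ∃ b ∈ zsR1 A (ζ : Kbar),
        (ecMid M' q hq hqM ζ hζ ((y : f0Field A (M' * q * q)) : FF (M' * q * q))).coeff n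
          = (q : Kbar) * b)
    (hdZero : ∀ y : S₀.O,
      ((y : f0Field A (M' * q * q)) : FF (M' * q * q)) ∈ elqRing A M' q hq hqM ζ hζ →
      ∀ n : ℤ, (E.ε iZero (S₀.red y)).coeff n = 0 → ∃ b ∈ zsR0 A,
        (ecZero M' q hq hqM ((y : f0Field A (M' * q * q)) : FF (M' * q * q))).coeff n
          = (q : Kbar) * b)
    (c₀ : ℕ)
    (hex : ∀ c, c₀ ≤ c → ∀ α γ β : Kbar, α ∈ zsR0 A → γ ∈ zsR0 A → β ∈ zsR1 A (ζ : Kbar) →
      ∃ x : FF (M' * q * q),
        x ∈ riemannRochSpace (K := Kbar) (c • fbmD1 M' q hq hqM ζ₀ hζ₀) ∧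
        x ∈ elqRing A M' q hq hqM ζ hζ ∧
        (ecInf M' q x).coeff (-(c : ℤ)) = α ∧ (ecMid M' q hq hqM ζ hζ x).coeff (-(c : ℤ)) = β ∧
        (ecZero M' q hq hqM x).coeff (-(c : ℤ)) = γ)
    (a c : ℕ) (ha : c₀ ≤ a) (hac : a < c) (y : S₀.O)
    (hy : ((y : f0Field A (M' * q * q)) : FF (M' * q * q)) ∈
      riemannRochSpace (K := Kbar) (c • fbmD1 M' q hq hqM ζ₀ hζ₀))
    (hyP : S₀.red y ∈ E.P a) :
    ∃ y₁ : S₀.O, ((y₁ : f0Field A (M' * q * q)) : FF (M' * q * q)) ∈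
        riemannRochSpace (K := Kbar) ((c - 1) • fbmD1 M' q hq hqM ζ₀ hζ₀) ∧
      S₀.red y₁ = S₀.red y := by
  have hcpos : 0 < c := by omega
  have hyint := hint c y hy
  -- the top coefficients are divisible by `q`
  have hlt : ∀ i, E.w i = 1 → (-(c : ℤ)) < -((a * E.w i : ℕ) : ℤ) := by
    intro i hi
    rw [hi, mul_one]
    omega
  obtain ⟨α, hα, hyα⟩ := hdInf y hyint (-(c : ℤ))
    ((E.mem_P_iff).mp hyP iInf _ (hlt iInf hwInf))
  obtain ⟨β, hβ, hyβ⟩ := hdMid y hyint (-(c : ℤ))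
    ((E.mem_P_iff).mp hyP iMid _ (hlt iMid hwMid))
  obtain ⟨γ, hγ, hyγ⟩ := hdZero y hyint (-(c : ℤ))
    ((E.mem_P_iff).mp hyP iZero _ (hlt iZero hwZero))
  obtain ⟨x, hxL, hxint, hxα, hxβ, hxγ⟩ := hex c (by omega) α γ β hα hγ hβ
  obtain ⟨yx, hyx⟩ := hO x hxint
  refine ⟨y - f3cQ S₀ yx, ?_, ?_⟩
  · -- membership in `L((c-1) D₁)`
    have hcoe : (((y - f3cQ S₀ yx : S₀.O) : f0Field A (M' * q * q)) : FF (M' * q * q))
        = ((y : f0Field A (M' * q * q)) : FF (M' * q * q))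
          - algebraMap Kbar (FF (M' * q * q)) (q : Kbar) * x := by
      rw [← hyx, ← f3c_coe_Q]
      rfl
    rw [hcoe]
    have hqx : algebraMap Kbar (FF (M' * q * q)) (q : Kbar) * x
        ∈ elqRing A M' q hq hqM ζ hζ :=
      mul_mem (const_mem_elqRing A M' q hq hqM ζ hζ
        ⟨natCast_mem _ q, natCast_mem _ q⟩) hxint
    have hdiff : ((y : f0Field A (M' * q * q)) : FF (M' * q * q))
        - algebraMap Kbar (FF (M' * q * q)) (q : Kbar) * x ∈ elqRing A M' q hq hqM ζ hζ :=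
      sub_mem hyint hqx
    have hy' := (mem_L_fbmD1_iff M' q hq hqM ζ₀ hζ₀ c _).mp hy
    have hx' := (mem_L_fbmD1_iff M' q hq hqM ζ₀ hζ₀ c _).mp hxL
    have hymid := clPole_mid_of_mem_L_fbmD1 M' q hq hqM ζ₀ hζ₀ hy ζ hζ
    have hxmid := clPole_mid_of_mem_L_fbmD1 M' q hq hqM ζ₀ hζ₀ hxL ζ hζ
    have hsubpole : ∀ (Ex : FF (M' * q * q) →+* LaurentSeries Kbar)
        (_ : ∀ c : Kbar, Ex (algebraMap Kbar (FF (M' * q * q)) c)
          = algebraMap Kbar (LaurentSeries Kbar) c),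
        ClPole c (Ex ((y : f0Field A (M' * q * q)) : FF (M' * q * q))) → ClPole c (Ex x) →
        ClPole c (Ex (((y : f0Field A (M' * q * q)) : FF (M' * q * q))
          - algebraMap Kbar (FF (M' * q * q)) (q : Kbar) * x)) := by
      intro Ex hEx h1 h2 n hn
      rw [f3c_coeff_sub Ex hEx, h1 n hn, h2 n hn, mul_zero, sub_zero]
    refine mem_L_fbmD1_of_isIFixed M' q hq hqM ζ₀ hζ₀ hA
      (isIFixed_of_mem_elqRing A M' q hq hqM ζ hζ hdiff) (c - 1) ?_ ?_ ?_ ζ hζ ?_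
    · intro P h1 h2 h3
      have e1 := hy'.1 P h1 h2 h3
      have e2 := hx'.1 P h1 h2 h3
      rw [← ffMem_iff_ord_nonneg] at e1 e2 ⊢
      exact sub_mem e1 (mul_mem (P.algebraMap_mem' _) e2)
    · refine f3c_clPole_pred hcpos
        (hsubpole (ecInf M' q) (ecInf_algebraMap M' q) hy'.2.1 hx'.2.1) ?_
      rw [f3c_coeff_sub (ecInf M' q) (ecInf_algebraMap M' q), hyα, hxα, sub_self]
    · refine f3c_clPole_pred hcpos
        (hsubpole (ecZero M' q hq hqM) (ecZero_algebraMap M' q hq hqM) hy'.2.2.1 hx'.2.2.1) ?_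
      rw [f3c_coeff_sub (ecZero M' q hq hqM) (ecZero_algebraMap M' q hq hqM), hyγ, hxγ, sub_self]
    · refine f3c_clPole_pred hcpos
        (hsubpole (ecMid M' q hq hqM ζ hζ) (ecMid_algebraMap M' q hq hqM ζ hζ) hymid hxmid) ?_
      rw [f3c_coeff_sub (ecMid M' q hq hqM ζ hζ) (ecMid_algebraMap M' q hq hqM ζ hζ), hyβ, hxβ,
        sub_self]
  · rw [map_sub, f3c_red_Q hq hA, sub_zero]

include hq hA in
/-- the descent: `hf3` from (EX') at all orders `≥ c₀` -/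
theorem f3c_hf3_of_ex
    (hwInf : E.w iInf = 1) (hwMid : E.w iMid = 1) (hwZero : E.w iZero = 1)
    (hint : ∀ (c : ℕ) (y : S₀.O), ((y : f0Field A (M' * q * q)) : FF (M' * q * q)) ∈
        riemannRochSpace (K := Kbar) (c • fbmD1 M' q hq hqM ζ₀ hζ₀) →
      ((y : f0Field A (M' * q * q)) : FF (M' * q * q)) ∈ elqRing A M' q hq hqM ζ hζ)
    (hO : ∀ x : FF (M' * q * q), x ∈ elqRing A M' q hq hqM ζ hζ →
      ∃ y : S₀.O, ((y : f0Field A (M' * q * q)) : FF (M' * q * q)) = x)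
    (hdInf : ∀ y : S₀.O,
      ((y : f0Field A (M' * q * q)) : FF (M' * q * q)) ∈ elqRing A M' q hq hqM ζ hζ →
      ∀ n : ℤ, (E.ε iInf (S₀.red y)).coeff n = 0 → ∃ b ∈ zsR0 A,
        (ecInf M' q ((y : f0Field A (M' * q * q)) : FF (M' * q * q))).coeff n = (q : Kbar) * b)
    (hdMid : ∀ y : S₀.O,
      ((y : f0Field A (M' * q * q)) : FF (M' * q * q)) ∈ elqRing A M' q hq hqM ζ hζ →
      ∀ n : ℤ, (E.ε iMid (S₀.red y)).coeff n = 0 → ∃ b ∈ zsR1 A (ζ : Kbar),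
        (ecMid M' q hq hqM ζ hζ ((y : f0Field A (M' * q * q)) : FF (M' * q * q))).coeff n
          = (q : Kbar) * b)
    (hdZero : ∀ y : S₀.O,
      ((y : f0Field A (M' * q * q)) : FF (M' * q * q)) ∈ elqRing A M' q hq hqM ζ hζ →
      ∀ n : ℤ, (E.ε iZero (S₀.red y)).coeff n = 0 → ∃ b ∈ zsR0 A,
        (ecZero M' q hq hqM ((y : f0Field A (M' * q * q)) : FF (M' * q * q))).coeff n
          = (q : Kbar) * b)
    (c₀ : ℕ)
    (hex : ∀ c, c₀ ≤ c → ∀ α γ β : Kbar, α ∈ zsR0 A → γ ∈ zsR0 A → β ∈ zsR1 A (ζ : Kbar) →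
      ∃ x : FF (M' * q * q),
        x ∈ riemannRochSpace (K := Kbar) (c • fbmD1 M' q hq hqM ζ₀ hζ₀) ∧
        x ∈ elqRing A M' q hq hqM ζ hζ ∧
        (ecInf M' q x).coeff (-(c : ℤ)) = α ∧ (ecMid M' q hq hqM ζ hζ x).coeff (-(c : ℤ)) = β ∧
        (ecZero M' q hq hqM x).coeff (-(c : ℤ)) = γ) :
    ∀ a c, c₀ ≤ a → a ≤ c → ∀ y : S₀.O,
      ((y : f0Field A (M' * q * q)) : FF (M' * q * q)) ∈
        riemannRochSpace (K := Kbar) (c • fbmD1 M' q hq hqM ζ₀ hζ₀) → S₀.red y ∈ E.P a →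
      ∃ y' : S₀.O, ((y' : f0Field A (M' * q * q)) : FF (M' * q * q)) ∈
          riemannRochSpace (K := Kbar) (a • fbmD1 M' q hq hqM ζ₀ hζ₀) ∧
        S₀.red y' = S₀.red y := by
  intro a c ha hac
  obtain ⟨d, rfl⟩ := Nat.exists_eq_add_of_le hac
  induction d with
  | zero =>
    intro y hy _
    exact ⟨y, hy, rfl⟩
  | succ d ih =>
    intro y hy hyP
    obtain ⟨y₁, hy₁, hred₁⟩ := f3c_step hq hqM ζ₀ hζ₀ hA ζ hζ S₀ E iInf iMid iZero hwInf hwMid
      hwZero hint hO hdInf hdMid hdZero c₀ hex a (a + (d + 1)) ha (by omega) y hy hyP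
    have e : a + (d + 1) - 1 = a + d := by omega
    rw [e] at hy₁
    obtain ⟨y', hy', hred'⟩ := ih (Nat.le_add_right _ _) y₁ hy₁ (by rw [hred₁]; exact hyP)
    exact ⟨y', hy', by rw [hred', hred₁]⟩

include hq hA in
/-- **(F3') concrete** = `hf3` of `ctl_kummer_FF`, for all `a₀` beyond a bound. -/
theorem f3c_hf3 (haux : IsAuxLevel q M')
    {R' : ConstRed A (IsLocalRing.residue A) (Fk (IsLocalRing.ResidueField A) M') (FF M')}
    (hR' : IsSeriesRed R')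
    (hwInf : E.w iInf = 1) (hwMid : E.w iMid = 1) (hwZero : E.w iZero = 1)
    (hint : ∀ (c : ℕ) (y : S₀.O), ((y : f0Field A (M' * q * q)) : FF (M' * q * q)) ∈
        riemannRochSpace (K := Kbar) (c • fbmD1 M' q hq hqM ζ₀ hζ₀) →
      ((y : f0Field A (M' * q * q)) : FF (M' * q * q)) ∈ elqRing A M' q hq hqM ζ hζ)
    (hO : ∀ x : FF (M' * q * q), x ∈ elqRing A M' q hq hqM ζ hζ →
      ∃ y : S₀.O, ((y : f0Field A (M' * q * q)) : FF (M' * q * q)) = x)
    (hdInf : ∀ y : S₀.O,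
      ((y : f0Field A (M' * q * q)) : FF (M' * q * q)) ∈ elqRing A M' q hq hqM ζ hζ →
      ∀ n : ℤ, (E.ε iInf (S₀.red y)).coeff n = 0 → ∃ b ∈ zsR0 A,
        (ecInf M' q ((y : f0Field A (M' * q * q)) : FF (M' * q * q))).coeff n = (q : Kbar) * b)
    (hdMid : ∀ y : S₀.O,
      ((y : f0Field A (M' * q * q)) : FF (M' * q * q)) ∈ elqRing A M' q hq hqM ζ hζ →
      ∀ n : ℤ, (E.ε iMid (S₀.red y)).coeff n = 0 → ∃ b ∈ zsR1 A (ζ : Kbar),
        (ecMid M' q hq hqM ζ hζ ((y : f0Field A (M' * q * q)) : FF (M' * q * q))).coeff n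
          = (q : Kbar) * b)
    (hdZero : ∀ y : S₀.O,
      ((y : f0Field A (M' * q * q)) : FF (M' * q * q)) ∈ elqRing A M' q hq hqM ζ hζ →
      ∀ n : ℤ, (E.ε iZero (S₀.red y)).coeff n = 0 → ∃ b ∈ zsR0 A,
        (ecZero M' q hq hqM ((y : f0Field A (M' * q * q)) : FF (M' * q * q))).coeff n
          = (q : Kbar) * b) :
    ∃ c₀ : ℕ, ∀ a₀, c₀ ≤ a₀ → ∀ a c, a₀ ≤ a → a ≤ c → ∀ y : S₀.O,
      ((y : f0Field A (M' * q * q)) : FF (M' * q * q)) ∈
        riemannRochSpace (K := Kbar) (c • fbmD1 M' q hq hqM ζ₀ hζ₀) → S₀.red y ∈ E.P a →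
      ∃ y' : S₀.O, ((y' : f0Field A (M' * q * q)) : FF (M' * q * q)) ∈
          riemannRochSpace (K := Kbar) (a • fbmD1 M' q hq hqM ζ₀ hζ₀) ∧
        S₀.red y' = S₀.red y := by
  obtain ⟨c₀, hex⟩ := exg_exists hq hqM ζ₀ hζ₀ hA haux hR' ζ hζ
  refine ⟨c₀, fun a₀ ha₀ a c ha hac => ?_⟩
  exact f3c_hf3_of_ex hq hqM ζ₀ hζ₀ hA ζ hζ S₀ E iInf iMid iZero hwInf hwMid hwZero hint hO
    hdInf hdMid hdZero c₀ hex a c (le_trans ha₀ ha) hac

end Main

end Fermat.Agent.S36lib
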