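/-
Item 83 (S36), block C-4, piece C4-5 (helper19): **(F3') in the shape of `ctl_kummer_FF`**
(helper16, `S36lib/CruxTail.lean`), elementwise on `y ∈ O₀`, from `(EX')` in the form of the
reduced expansions `E : ClExp k R Λ`.  No sorry in this file.

* `f3t_finrank_form`: `dim_{K0} (L(D) ∩ F0(L)) = dim_{Kbar} L(D)` for an inertia-stable `D`
  (through the common reduction of `S₀` and of its base change `bcSSRed S₀`).
* `f3t_hdim`: Riemann–Roch for the `K0`-forms: `ℓ₀((c+1) D₁) = ℓ₀(c D₁) + deg D₁`.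
* `f3t_hf3`: the hypothesis `hf3` of `ctl_kummer_FF` from `hle` (= the hypothesis `hle` of
  `ctl_kummer_FF`) and `hex` = `(EX')`: every family of leading coefficients `l i ∈ L₀ i` is
  realised by some `y ∈ O₀ ∩ L(c D₁)`, `c > a₀`; `∑ i, dim L₀ i = deg D₁`.
-/
import Mathlib
import Fermat.Agent.S36lib.F3Bridge
import Fermat.Agent.S36lib.CruxTail

set_option autoImplicit false
set_option linter.unusedSectionVars false
set_option linter.style.haveILetI false

noncomputable section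

namespace Fermat.Agent.S36lib

open ModularCurve AlgebraicCurve
open Fermat.Agent.S24lib Fermat.Agent.S34lib Fermat.Agent.RRlib

variable {A : ValuationSubring Kbar} {L : ℕ} [NeZero L]
variable {R : Type*} [CommRing R] [Algebra (IsLocalRing.ResidueField A) R]
variable {ι : Type*} {Λ : ι → Type*} [∀ i, CommRing (Λ i)]

/-- `dim_{K0} (L(D) ∩ F0(L)) = dim_{Kbar} L(D)` for an inertia-stable divisor `D` -/
theorem f3t_finrank_form (S₀ : SSRed (k0Val A) (k0Res A) R (f0Field A L))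
    (D : Divisor Kbar (FF L))
    (hD : ∀ σ ∈ A.inertiaSubgroupIn ℚ, galFF L σ • D = D) :
    Module.finrank (k0Field A) (ckfForm A L (riemannRochSpace (K := Kbar) D)) =
      Module.finrank Kbar (riemannRochSpace (K := Kbar) D) := by
  haveI : RRHyp Kbar (FF L) := mod_rrHyp L
  haveI hfinL : Module.Finite Kbar (riemannRochSpace (K := Kbar) D) := finite_riemannRochSpace D
  haveI hfin0 : Module.Finite (k0Field A) (ckfForm A L (riemannRochSpace (K := Kbar) D)) :=
    ckf_finite A L _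
  have h1 := bcSSRed_redSp S₀ (ckfForm A L (riemannRochSpace (K := Kbar) D)) hfin0
    (riemannRochSpace (K := Kbar) D) (ckf_span_L A L D hD)
  have h2 : Module.finrank (IsLocalRing.ResidueField A)
      ((bcSSRed S₀).redSp (riemannRochSpace (K := Kbar) D)) =
      Module.finrank Kbar (riemannRochSpace (K := Kbar) D) :=
    (bcSSRed S₀).finrank_redSp _
  have h3 : Module.finrank (IsLocalRing.ResidueField A)
      (S₀.redSp (ckfForm A L (riemannRochSpace (K := Kbar) D))) =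
      Module.finrank (k0Field A) (ckfForm A L (riemannRochSpace (K := Kbar) D)) :=
    S₀.finrank_redSp _
  rw [← h3, ← h1, h2]

/-- **Riemann–Roch for the `K0`-forms**: `ℓ₀((c+1) D₁) = ℓ₀(c D₁) + deg D₁` for
`2g − 2 < c deg D₁`. -/
theorem f3t_hdim (S₀ : SSRed (k0Val A) (k0Res A) R (f0Field A L))
    (D₁ : Divisor Kbar (FF L))
    (hD₁I : ∀ σ ∈ A.inertiaSubgroupIn ℚ, galFF L σ • D₁ = D₁)
    (d : ℕ) (hd : Divisor.degree D₁ = (d : ℤ)) (c : ℕ)
    (hc : 2 * (genusFF Kbar (FF L) : ℤ) - 2 < c * Divisor.degree D₁) :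
    Module.finrank (k0Field A) (ckfForm A L (riemannRochSpace (K := Kbar) ((c + 1) • D₁))) =
      Module.finrank (k0Field A) (ckfForm A L (riemannRochSpace (K := Kbar) (c • D₁))) + d := by
  haveI : RRHyp Kbar (FF L) := mod_rrHyp L
  have hstab : ∀ a : ℕ, ∀ σ ∈ A.inertiaSubgroupIn ℚ, galFF L σ • (a • D₁) = a • D₁ := by
    intro a σ hσ
    rw [smul_comm, hD₁I σ hσ]
  rw [f3t_finrank_form S₀ _ (hstab (c + 1)), f3t_finrank_form S₀ _ (hstab c)]
  have hdeg0 : (0 : ℤ) ≤ Divisor.degree D₁ := by rw [hd]; positivity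
  have h1 : (ell (c • D₁) : ℤ) = Divisor.degree (c • D₁) + 1 - genusFF Kbar (FF L) :=
    ell_eq_of_degree_gt (by rw [map_nsmul, nsmul_eq_mul]; exact hc)
  have h2 : (ell ((c + 1) • D₁) : ℤ) =
      Divisor.degree ((c + 1) • D₁) + 1 - genusFF Kbar (FF L) :=
    ell_eq_of_degree_gt (by
      rw [map_nsmul, nsmul_eq_mul]
      push_cast
      nlinarith)
  rw [map_nsmul, nsmul_eq_mul] at h1 h2
  have h3 : (ell ((c + 1) • D₁) : ℤ) = (ell (c • D₁) : ℤ) + d := by
    rw [h1, h2, hd]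
    push_cast
    ring
  have h4 : ell ((c + 1) • D₁) = ell (c • D₁) + d := by exact_mod_cast h3
  exact h4

section Main

variable [∀ i, Module (IsLocalRing.ResidueField A) (Λ i)]

/-- **(F3') for `ctl_kummer_FF`.**  `hw`: the weights of `E` are `1`; `hsmul`: the expansions are
`k`-linear; `L₀ i ⊂ Λ i` finite-dimensional with `∑ i, dim L₀ i = deg D₁` (`L₀ = k`, `A₁/qA₁`,
`k` at `∞`, mid, `0`); `hle` as in `ctl_kummer_FF`; `hex` = `(EX')`. -/
theorem f3t_hf3 [Fintype ι] (S₀ : SSRed (k0Val A) (k0Res A) R (f0Field A L))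
    (E : ClExp (IsLocalRing.ResidueField A) R Λ)
    (D₁ : Divisor Kbar (FF L)) (hD : ∀ v, 0 ≤ D₁ v)
    (hD₁I : ∀ σ ∈ A.inertiaSubgroupIn ℚ, galFF L σ • D₁ = D₁)
    (a₀ : ℕ) (ha₀ : 2 * (genusFF Kbar (FF L) : ℤ) - 2 < a₀ * Divisor.degree D₁)
    (hw : ∀ i, E.w i = 1)
    (hsmul : ∀ (i : ι) (c : IsLocalRing.ResidueField A) (t : R), E.ε i (c • t) = c • E.ε i t)
    (L₀ : ∀ i, Submodule (IsLocalRing.ResidueField A) (Λ i))
    [∀ i, Module.Finite (IsLocalRing.ResidueField A) (L₀ i)]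
    (hdeg : Divisor.degree D₁ =
      ((∑ i, Module.finrank (IsLocalRing.ResidueField A) (L₀ i) : ℕ) : ℤ))
    (hle : ∀ (a : ℕ) (y : S₀.O), ((y : f0Field A L) : FF L) ∈ riemannRochSpace (a • D₁) →
      S₀.red y ∈ E.P a)
    (hex : ∀ c, a₀ < c → ∀ l : ∀ i, Λ i, (∀ i, l i ∈ L₀ i) →
      ∃ y : S₀.O, ((y : f0Field A L) : FF L) ∈ riemannRochSpace (c • D₁) ∧
        ∀ i, (E.ε i (S₀.red y)).coeff (-(c : ℤ)) = l i) :
    ∀ a c, a₀ ≤ a → a ≤ c → ∀ y : S₀.O,
      ((y : f0Field A L) : FF L) ∈ riemannRochSpace (c • D₁) → S₀.red y ∈ E.P a →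
      ∃ y' : S₀.O, ((y' : f0Field A L) : FF L) ∈ riemannRochSpace (a • D₁) ∧
        S₀.red y' = S₀.red y := by
  haveI : RRHyp Kbar (FF L) := mod_rrHyp L
  have hdeg0 : (0 : ℤ) ≤ Divisor.degree D₁ := by rw [hdeg]; positivity
  have key := f3b_hf3 S₀ (fun c => ckfForm A L (riemannRochSpace (K := Kbar) (c • D₁)))
    (fun c => by
      haveI : Module.Finite Kbar (riemannRochSpace (K := Kbar) (c • D₁)) :=
        finite_riemannRochSpace _
      exact ckf_finite A L _)
    (fun c => ckfForm_mono A L (riemannRochSpace_mono (by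
      intro v
      have h0 := hD v
      simp only [Finsupp.smul_apply, nsmul_eq_mul]
      push_cast
      linarith)))
    E hw hsmul L₀ a₀
    (fun c hc => f3t_hdim S₀ D₁ hD₁I _ hdeg c (by
      have h1 : (a₀ : ℤ) * Divisor.degree D₁ ≤ (c : ℤ) * Divisor.degree D₁ :=
        mul_le_mul_of_nonneg_right (by exact_mod_cast hc) hdeg0
      linarith))
    (by
      rintro c _ ⟨y, hy, rfl⟩
      exact hle c y hy)
    (by
      intro c hc l hl
      obtain ⟨y, hy, hyl⟩ := hex c hc l hl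
      exact ⟨S₀.red y, ⟨y, hy, rfl⟩, hyl⟩)
  intro a c ha hac y hy hr
  obtain ⟨y', hy', he⟩ := key a c ha hac ⟨⟨y, hy, rfl⟩, hr⟩
  exact ⟨y', hy', he⟩

end Main

end Fermat.Agent.S36lib

end
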