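/-
Item 83 (S36), piece C4-3 (FIBRE), generic part (helper15).  Complete proofs.

* `expPlace E hc hF : Place K F`: the place of a function field `F/K` attached to an expansion
  `E : F →+* K((X))` (order `0` on the constants, some element of order `-1`), with
  `expPlace_ord : (expPlace E hc hF).ord f = (E f).order`;
* `fbg_fiber_family`: a finite family of pairwise different places over `v` whose ramification
  indices add up to the degree is the whole fibre over `v` (finite-family version of helper17's
  `exf_fiber`);
* `fbg_restrict_ne_along`: hence a place outside the family does not lie over `v`;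
* `fbg_ord_nonneg_along`: `0 ≤ w.ord (φ g)` as soon as `g` is regular at the restriction of `w`.
-/
import Mathlib
import Fermat.Prelude.Def_AlgebraicCurve_Correspondence
import Fermat.Agent.S24lib.FFBasic
import Fermat.Agent.S24lib.AlgIndex
import Fermat.Agent.S34lib.ExFibre
import Fermat.Agent.S36lib.Speed

set_option autoImplicit false
set_option linter.style.haveILetI false
set_option linter.unusedSectionVars false

noncomputable section

namespace Fermat.Agent.S36lib

open AlgebraicCurve Fermat.Agent.S24lib Fermat.Agent.S34lib WithZero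

/-! ### The place of an expansion -/

section Exp

variable {K F : Type} [Field K] [Field F] [Algebra K F]

theorem fbg_ne_zero_of_order (E : F →+* LaurentSeries K) {f : F} (hf : (E f).order = -1) :
    f ≠ 0 := by
  rintro rfl
  rw [map_zero, HahnSeries.order_zero] at hf
  omega

theorem fbg_order_inv (E : F →+* LaurentSeries K) {f : F} (hf : f ≠ 0) :
    (E f⁻¹).order = -(E f).order := by
  have hf' : E f ≠ 0 := (map_ne_zero E).2 hf
  have hmul := HahnSeries.order_mul hf' (inv_ne_zero hf')
  rw [mul_inv_cancel₀ hf', HahnSeries.order_one] at hmul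
  rw [map_inv₀]
  omega

/-- **the place of an expansion** `E : F →+* K((X))`. -/
def expPlace (E : F →+* LaurentSeries K) (hc : ∀ a : K, a ≠ 0 → (E (algebraMap K F a)).order = 0)
    (hF : ∃ f : F, (E f).order = -1) : Place K F :=
  ffPlaceOfVal (algVal E)
    (fun a => by
      by_cases ha : a = 0
      · rw [ha, map_zero, map_zero]
        exact zero_le_one
      · have hne : algebraMap K F a ≠ 0 := (map_ne_zero _).mpr ha
        rw [algVal_apply_of_ne _ hne, hc a ha]
        simp)
    (by
      obtain ⟨f, hf⟩ := hF
      refine ⟨f, ?_⟩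
      rw [algVal_apply_of_ne _ (fbg_ne_zero_of_order E hf), hf]
      simp [← WithZero.exp_zero])

/-- the order at the place of an expansion is the order of the expansion. -/
theorem expPlace_ord (E : F →+* LaurentSeries K)
    (hc : ∀ a : K, a ≠ 0 → (E (algebraMap K F a)).order = 0)
    (hF : ∃ f : F, (E f).order = -1) (f : F) :
    (expPlace E hc hF).ord f = (E f).order := by
  rcases eq_or_ne f 0 with rfl | hf
  · simp
  obtain ⟨j, hj⟩ := hF
  have hj0 : j ≠ 0 := fbg_ne_zero_of_order E hj
  have h := ffOrd_eq_neg_log (expPlace E hc ⟨j, hj⟩) (algVal E) rfl ⟨j⁻¹, by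
    rw [algVal_apply_of_ne _ (inv_ne_zero hj0), fbg_order_inv E hj0, hj]
    rfl⟩ f
  rw [h, algVal_log _ hf]

/-- two places with different orders at some function are different -/
theorem fbg_ne_of_ord {v w : Place K F} (f : F) (h : v.ord f ≠ w.ord f) : v ≠ w := by
  rintro rfl
  exact h rfl

end Exp

/-! ### Finite families in a fibre -/

section Family

variable {K F F' : Type*} [Field K] [Field F] [Field F']
  [Algebra K F] [Algebra K F'] [Algebra F F'] [IsScalarTower K F F'] [Algebra.IsIntegral F F']
  [HasPrincipalDivisors K F'] [FundamentalIdentity K F F']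

/-- a finite family of pairwise different places over `v` whose ramification indices add up to
the degree is the whole fibre. -/
theorem fbg_fiber_family (hdeg : ∀ w : Place K F', w.deg = 1) (v : Place K F) (hv : v.deg = 1)
    {ι : Type*} [Fintype ι] (w : ι → Place K F') (hinj : Function.Injective w)
    (hw : ∀ i, (w i).restrict F = v)
    (hsum : ∑ i, (w i).ramificationIndex F = Module.finrank F F')
    (P : Place K F') (hP : P.restrict F = v) : ∃ i, P = w i := by
  classical
  by_contra hcon
  push Not at hcon
  have hFI := FundamentalIdentity.sum_ramificationIndex_mul_deg (K := K) (F := F) (F' := F') v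
  have hsimp : ∑ x ∈ v.fiber F', (x.ramificationIndex F : ℤ) * (x.deg : ℤ)
      = ∑ x ∈ v.fiber F', (x.ramificationIndex F : ℤ) :=
    Finset.sum_congr rfl fun x _ => by rw [hdeg x]; simp
  rw [hsimp, hv] at hFI
  have hPnot : P ∉ Finset.univ.image w := by
    intro h
    obtain ⟨i, -, hi⟩ := Finset.mem_image.1 h
    exact hcon i hi.symm
  have hsub : insert P (Finset.univ.image w) ⊆ v.fiber F' := by
    intro x hx
    rcases Finset.mem_insert.1 hx with rfl | hx
    · exact Place.mem_fiber.mpr hP
    · obtain ⟨i, -, rfl⟩ := Finset.mem_image.1 hx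
      exact Place.mem_fiber.mpr (hw i)
  have hle : ∑ x ∈ insert P (Finset.univ.image w), (x.ramificationIndex F : ℤ)
      ≤ ∑ x ∈ v.fiber F', (x.ramificationIndex F : ℤ) :=
    Finset.sum_le_sum_of_subset_of_nonneg hsub fun x _ _ => Int.natCast_nonneg _
  rw [Finset.sum_insert hPnot, Finset.sum_image (fun i _ j _ h => hinj h), hFI] at hle
  have hsumZ : ∑ i, ((w i).ramificationIndex F : ℤ) = (Module.finrank F F' : ℤ) := by
    exact_mod_cast hsum
  have hpos : (0 : ℤ) < P.ramificationIndex F := by exact_mod_cast P.ramificationIndex_pos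
  rw [hsumZ] at hle
  omega

/-- the same, with the ramification indices given by order relations. -/
theorem fbg_fiber_family_ord (hdeg : ∀ w : Place K F', w.deg = 1) (v : Place K F)
    (hv : v.deg = 1) {ι : Type*} [Fintype ι] (w : ι → Place K F') (hinj : Function.Injective w)
    (e : ι → ℕ) (he : ∀ i, 0 < e i)
    (h : ∀ i (f : F), (w i).ord (algebraMap F F' f) = e i * v.ord f)
    (hsum : ∑ i, e i = Module.finrank F F')
    (P : Place K F') (hP : P.restrict F = v) : ∃ i, P = w i := by
  have hr : ∀ i, (w i).restrict F = v ∧ (w i).ramificationIndex F = e i :=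
    fun i => exf_restrict_eq v (w i) (e i) (he i) (h i)
  refine fbg_fiber_family hdeg v hv w hinj (fun i => (hr i).1) ?_ P hP
  rw [← hsum]
  exact Finset.sum_congr rfl fun i _ => (hr i).2

end Family

section Along

variable {K F F' : Type*} [Field K] [Field F] [Field F'] [Algebra K F] [Algebra K F']
  [HasPrincipalDivisors K F']

/-- **a place outside a full family does not lie over `v`** (version along `φ : F → F'`):
its restriction along `φ` is different from `v`. -/
theorem fbg_restrict_ne_along (φ : F →ₐ[K] F') (hφ : φ.toRingHom.IsIntegral)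
    (hFI : FundamentalIdentityAlong K φ hφ)
    (hdeg : ∀ w : Place K F', w.deg = 1) (v : Place K F) (hv : v.deg = 1)
    {ι : Type*} [Fintype ι] (w : ι → Place K F') (hinj : Function.Injective w)
    (e : ι → ℕ) (he : ∀ i, 0 < e i)
    (h : ∀ i (f : F), (w i).ord (φ f) = e i * v.ord f)
    (hsum : ∑ i, e i = finrankAlong K φ)
    (P : Place K F') (hP : ∀ i, P ≠ w i) : P.restrictAlong φ hφ ≠ v := by
  letI := algebraAlong φ
  haveI := isScalarTower_along φ
  haveI := isIntegral_along φ hφ
  haveI : FundamentalIdentity K F F' := hFI
  intro hPv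
  obtain ⟨i, hi⟩ := fbg_fiber_family_ord hdeg v hv w hinj e he h hsum P hPv
  exact hP i hi

/-- `0 ≤ w.ord (φ g)` as soon as `g` is regular at the restriction of `w` along `φ`. -/
theorem fbg_ord_nonneg_along (φ : F →ₐ[K] F') (hφ : φ.toRingHom.IsIntegral)
    (g : F) (P : Place K F') (hg : 0 ≤ (P.restrictAlong φ hφ).ord g) : 0 ≤ P.ord (φ g) := by
  rw [Place.ord_restrictAlong φ hφ P g]
  exact mul_nonneg (Int.natCast_nonneg _) hg

end Along

end Fermat.Agent.S36lib

end
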