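/-
Item 83 (S36), block CRUX (helper8): `G3Hyp` in the FINAL form of helper16's `CruxH0.lean`.

* `s36_g3hyp` : `G3Hyp (s36Final … (cfm_isMidExp …) R hR) (s36S0 …) q (q − 1)`, no side condition
  (from `g3c_s36Final`, `G3HypConc.lean`);
* `s36Final_hh0_of_node` : `hh0` from one node containing `p_mid` alone;
* `s36Final_crux_of_node_head` : the CRUX from one node containing `p_mid` and `hhead`.
-/
import Mathlib
import Fermat.Agent.S36lib.CruxH0b
import Fermat.Agent.S36lib.G3HypConc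

set_option autoImplicit false
set_option linter.style.longLine false
set_option linter.unusedSectionVars false
set_option linter.unusedVariables false
set_option linter.style.haveILetI false
set_option synthInstance.maxHeartbeats 400000

noncomputable section

namespace Fermat.Agent.S36lib

open ModularCurve HahnSeries AlgebraicCurve
open Fermat.Agent.GoodRed Fermat.Agent.S24lib Fermat.Agent.S34lib Fermat.Agent.S37lib
  Fermat.Agent.HeckeBar Fermat.Agent.S35lib Fermat.Agent.GM Fermat.Agent.RRlib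

variable (A : ValuationSubring Kbar) (M' q : ℕ) [NeZero M'] [NeZero q]
variable (hq : q.Prime) (hqM : ¬ q ∣ M') (hA : A.LiesOverPrime q)
variable {ζ : Kbarˣ} (hζq : ζ ^ q = 1) (hζ : IsPrimitiveRoot (ζ : Kbar) q)
variable (R : ConstRed A (IsLocalRing.residue A)
      (↥(modularFunctionFieldFullC (IsLocalRing.ResidueField A) M')) (FF (M' * q * q)))
    (hR : IsSeriesRed R)

/-- **`G3Hyp` for the final setup and `s36S0`**, `e = q − 1`: no side condition. -/
theorem s36_g3hyp :
    letI := DvrBall.algebraRed (s36Dball A M' q hq hqM hA hζq hζ R hR) (k0Res A) (s36_k0Res_surjective A q hq hA)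
    G3Hyp (s36Final A M' q hq hqM hA hζq hζ (cfm_isMidExp M' q hq hqM ζ hζ) R hR)
      (s36S0 A M' q hq hqM hA hζq hζ R hR) (q : k0Val A) (q - 1) := by
  haveI : IsDiscreteValuationRing (k0Val A) := k0Val_isDiscreteValuationRing A q hq hA
  exact g3c_s36Final A M' q hq hqM hA hζq hζ (cfm_isMidExp M' q hq hqM ζ hζ) R hR
    (s36_k0Res_surjective A q hq hA)

/-- **`hh0`** for the final setup from one node containing `p_mid`. -/
theorem s36Final_hh0_of_node (haux : IsAuxLevel q M')
    (hnode : ∃ t : Ideal (s36Final A M' q hq hqM hA hζq hζ (cfm_isMidExp M' q hq hqM ζ hζ) R hR).B,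
      (s36Final A M' q hq hqM hA hζq hζ (cfm_isMidExp M' q hq hqM ζ hζ) R hR).IsNode t ∧
      (s36Final A M' q hq hqM hA hζq hζ (cfm_isMidExp M' q hq hqM ζ hζ) R hR).pMid ≤ t) :
    letI := DvrBall.algebraRed (s36Dball A M' q hq hqM hA hζq hζ R hR) (k0Res A) (s36_k0Res_surjective A q hq hA)
    ∀ (c : ℕ) (y : (s36Dball A M' q hq hqM hA hζq hζ R hR).O),
      ((y : f0Field A (M' * q * q)) : FF (M' * q * q)) ∈
        riemannRochSpace (K := Kbar) (c • fbmD1 M' q hq hqM ζ hζ) →
      (s36Dball A M' q hq hqM hA hζq hζ R hR).red y ∈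
        (s36E A M' q hq hqM hA hζq hζ R hR).P 0 →
      (s36Dball A M' q hq hqM hA hζq hζ R hR).red y ∈
        Set.range (algebraMap (IsLocalRing.ResidueField A)
          (s36Dball A M' q hq hqM hA hζq hζ R hR).RedRing) :=
  s36Final_hh0_of_g3 A M' q hq hqM hA hζq hζ R hR haux
    (s36_g3hyp A M' q hq hqM hA hζq hζ R hR) hnode

/-- **the CRUX for the final setup**, from one node containing `p_mid` and `hhead`. -/
theorem s36Final_crux_of_node_head (haux : IsAuxLevel q M')
    (hnode : ∃ t : Ideal (s36Final A M' q hq hqM hA hζq hζ (cfm_isMidExp M' q hq hqM ζ hζ) R hR).B,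
      (s36Final A M' q hq hqM hA hζq hζ (cfm_isMidExp M' q hq hqM ζ hζ) R hR).IsNode t ∧
      (s36Final A M' q hq hqM hA hζq hζ (cfm_isMidExp M' q hq hqM ζ hζ) R hR).pMid ≤ t)
    (p : ℕ) (hqp : ¬ q ∣ p) (hp0 : 0 < p) (c2 : ℕ)
    (hhead : ∀ n : ℕ,
      ∀ b : (s36Final A M' q hq hqM hA hζq hζ (cfm_isMidExp M' q hq hqM ζ hζ) R hR).B,
      (b : f0Field A (M' * q * q)) ≠ 0 →
      (s36Final A M' q hq hqM hA hζq hζ (cfm_isMidExp M' q hq hqM ζ hζ) R hR).IsUnitAtNodes b →
      (∀ P : Place Kbar (FF (M' * q * q)),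
        ((p ^ n : ℕ) : ℤ) ∣ P.ord (((b : f0Field A (M' * q * q)) : FF (M' * q * q)))) →
      IsKummerNew2 M' q (p ^ n) (((b : f0Field A (M' * q * q)) : FF (M' * q * q))) →
      ∃ h₀ : f0Field A (M' * q * q), h₀ ≠ 0 ∧
        (b : f0Field A (M' * q * q)) ^ c2 * h₀ ^ (p ^ n) ∈
          (s36Final A M' q hq hqM hA hζq hζ (cfm_isMidExp M' q hq hqM ζ hζ) R hR).B ∧
        ∃ z : f0Field A (M' * q * q),
          z ∈ (s36Final A M' q hq hqM hA hζq hζ (cfm_isMidExp M' q hq hqM ζ hζ) R hR).ball ∧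
          (b : f0Field A (M' * q * q)) ^ c2 * h₀ ^ (p ^ n) =
            1 + a2iQ A q (L := M' * q * q) * z) (n : ℕ) :
    A2Crux M' q A (s36Final A M' q hq hqM hA hζq hζ (cfm_isMidExp M' q hq hqM ζ hζ) R hR)
      (p ^ n) c2 :=
  s36Final_crux_of_g3_head A M' q hq hqM hA hζq hζ R hR haux
    (s36_g3hyp A M' q hq hqM hA hζq hζ R hR) hnode p hqp hp0 c2 hhead n

end Fermat.Agent.S36lib

end
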