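/-
Item 83 (S36), block TOR, piece T-N (helper25): the nodes of the lower level `N = M' q` as input
of `abel_tor` (`Tor.lean`).

* `glueN_nodes` (abstract, in the setting of `S34lib/Graphs.lean`): from `(F3)` (`F3dEX`), the
  affine ring with its Frobenius, the two graphs (`hα`, `hβ`) and the SWAP symmetry of `red(B)`:
  the nodes `e₁ i` (points of `C'`), `e₂ i = e₁ i ∘ Fr`, `e₁ i = e₂ i ∘ Fr`, and for every
  `w ∈ red(B)`:  `w.1, w.2 ∈ R'`,  `e₁ i w.1 = e₂ i w.2`  and  `e₂ i w.1 = e₁ i w.2`.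
* `glueN_frob`: for elements `r, s` of the affine ring with `Fr s = r ^ q` (`s` = coefficient
  Frobenius of `r`): `e₂ i s = (e₁ i r) ^ q` and `e₁ i s = (e₂ i r) ^ q`.
* `glueN_swap` (concrete, `q ‖ N`): `red(B)` is stable under the swap, by `w_q`.
No sorry.
-/
import Mathlib
import Fermat.Agent.S34lib.GraphsFrob
import Fermat.Agent.S34lib.GalRR
import Fermat.Agent.S34lib.InertiaRedAL
import Fermat.Agent.S36lib.Speed

set_option autoImplicit false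
set_option synthInstance.maxHeartbeats 400000

noncomputable section

namespace Fermat.Agent.S36lib

open AlgebraicCurve Fermat.Agent.RRlib Fermat.Agent.GoodRed Fermat.Agent.S34lib

section Abstract

variable {K F k : Type*} [Field K] [Field F] [Algebra K F] [Field k]
variable {Fk : Type*} [Field Fk] [Algebra k Fk]
variable {A : ValuationSubring K} {π : A →+* k}
variable [RRHyp K F] [RRHyp k Fk] [Infinite k]
variable {R₁ R₂ : ConstRed A π Fk F} {P₁ P₂ : Place K F} {Q : Place k Fk} {a₀ : ℕ}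

/-- **the nodes of the lower level** (T-N, abstract). -/
theorem glueN_nodes (H : F3dEX R₁ R₂ P₁ P₂ Q Q a₀) (R' : Subalgebra k Fk)
    (hR' : ∀ x : Fk, x ∈ R' ↔ ∃ a : ℕ, x ∈ riemannRochSpace (K := k) (Finsupp.single Q (a : ℤ)))
    [IsDedekindDomain R']
    (hres : ∀ P : Ideal R', P.IsMaximal → Function.Surjective (algebraMap k (R' ⧸ P)))
    (Fr : R' →ₐ[k] R') (hpow : ∀ a : R', ∃ (g : R') (n : ℕ), 2 ≤ n ∧ Fr a = g ^ n)
    (hne : ∃ f : R', Fr (Fr f) ≠ f)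
    (hα : ∀ a : R', ∃ y : ssBall R₁ R₂,
      (∃ c : ℕ, (y : F) ∈ riemannRochSpace (K := K) (f3dDiv P₁ P₂ c c)) ∧
        ssRed R₁ R₂ y = ((a : Fk), (Fr a : Fk)))
    (hβ : ∀ a : R', ∃ y : ssBall R₁ R₂,
      (∃ c : ℕ, (y : F) ∈ riemannRochSpace (K := K) (f3dDiv P₁ P₂ c c)) ∧
        ssRed R₁ R₂ y = ((Fr a : Fk), (a : Fk)))
    (hswap : ∀ w : Fk × Fk, (∃ c : ℕ, w ∈ f3dM R₁ R₂ (f3dDiv P₁ P₂ c c)) →
      ∃ c : ℕ, (w.2, w.1) ∈ f3dM R₁ R₂ (f3dDiv P₁ P₂ c c)) :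
    ∃ (n : ℕ) (e₁ e₂ : Fin n → R' →ₐ[k] k), Function.Injective e₁ ∧ Function.Injective e₂ ∧
      (∀ w : Fk × Fk, (∃ c : ℕ, w ∈ f3dM R₁ R₂ (f3dDiv P₁ P₂ c c)) ↔
        ∃ (h₁ : w.1 ∈ R') (h₂ : w.2 ∈ R'), ∀ i, e₁ i ⟨w.1, h₁⟩ = e₂ i ⟨w.2, h₂⟩) ∧
      (∀ i, e₂ i = (e₁ i).comp Fr) ∧ (∀ i, e₁ i = (e₂ i).comp Fr) ∧
      (∀ w : Fk × Fk, (∃ c : ℕ, w ∈ f3dM R₁ R₂ (f3dDiv P₁ P₂ c c)) →
        ∃ (h₁ : w.1 ∈ R') (h₂ : w.2 ∈ R'), ∀ i,
          e₁ i ⟨w.1, h₁⟩ = e₂ i ⟨w.2, h₂⟩ ∧ e₂ i ⟨w.1, h₁⟩ = e₁ i ⟨w.2, h₂⟩) := by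
  obtain ⟨n, e₁, e₂, h1, h2, h3, -, h5, -, h7⟩ :=
    graphs_exists_fix H R' hR' hres Fr hpow hne hα hβ
  refine ⟨n, e₁, e₂, h1, h2, h3, h5, h7, fun w hw => ?_⟩
  obtain ⟨hw1, hw2, hi⟩ := (h3 w).mp hw
  obtain ⟨hw2', hw1', hi'⟩ := (h3 (w.2, w.1)).mp (hswap w hw)
  exact ⟨hw1, hw2, fun i => ⟨hi i, (hi' i).symm⟩⟩

/-- the Frobenius at the nodes: if `Fr s = r ^ q` (`s` is the coefficient Frobenius of `r`) then
`e₂ s = (e₁ r) ^ q` and `e₁ s = (e₂ r) ^ q`, for `e₂ = e₁ ∘ Fr`, `e₁ = e₂ ∘ Fr`. -/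
theorem glueN_frob {R' : Type*} [CommRing R'] [Algebra k R'] (Fr : R' →ₐ[k] R') (q : ℕ)
    (e₁ e₂ : R' →ₐ[k] k) (h₂ : e₂ = e₁.comp Fr) (h₁ : e₁ = e₂.comp Fr) {r s : R'}
    (hs : Fr s = r ^ q) : e₂ s = e₁ r ^ q ∧ e₁ s = e₂ r ^ q := by
  constructor
  · rw [h₂, AlgHom.comp_apply, hs, map_pow]
  · rw [h₁, AlgHom.comp_apply, hs, map_pow]

end Abstract

section Concrete

open ModularCurve Fermat.Agent.S24lib

variable (N : ℕ) [NeZero N] (q : ℕ) (hq : q.Prime) (hqN : q ∣ N) (hq2 : ¬ q ^ 2 ∣ N)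
variable {A : ValuationSubring Kbar}
variable {Fk : IntermediateField (IsLocalRing.ResidueField A)
  (LaurentSeries (IsLocalRing.ResidueField A))}

/-- `cuspDiv c c = f3dDiv P∞ P₀ c c` -/
theorem glueN_cuspDiv [RRHyp Kbar (FF N)] (a b : ℕ) :
    cuspDiv N q hq hqN hq2 (a : ℤ) (b : ℤ)
      = f3dDiv (infPlaceBar N) (cuspZero N q hq hqN hq2) a b := rfl

/-- **the swap symmetry of `red(B)`** at a level `N` with `q ‖ N`: `w_q` exchanges the two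
reductions `R` and `R₀ = R ∘ w_q` and preserves `L(c (P∞ + P₀))`. -/
theorem glueN_swap [RRHyp Kbar (FF N)]
    (R : ConstRed A (IsLocalRing.residue A) (↥Fk) (FF N)) (c : ℕ) (w : ↥Fk × ↥Fk)
    (hw : w ∈ f3dM R (inredZero N q hq hqN hq2 R)
      (f3dDiv (infPlaceBar N) (cuspZero N q hq hqN hq2) c c)) :
    (w.2, w.1) ∈ f3dM R (inredZero N q hq hqN hq2 R)
      (f3dDiv (infPlaceBar N) (cuspZero N q hq hqN hq2) c c) := by
  rw [mem_f3dM] at hw ⊢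
  obtain ⟨y, hy, rfl⟩ := hw
  have hy1 : (y : FF N) ∈ R.O := y.2.1
  have hy2 : atkinLehnerFF N q hq hqN hq2 (y : FF N) ∈ R.O := y.2.2
  have hww : atkinLehnerFF N q hq hqN hq2 (atkinLehnerFF N q hq hqN hq2 (y : FF N)) = (y : FF N) :=
    atkinLehnerFF_involutive N q hq hqN hq2 _
  have hmem : atkinLehnerFF N q hq hqN hq2 (y : FF N) ∈ ssBall R (inredZero N q hq hqN hq2 R) := by
    rw [mem_ssBall, mem_inredZero_O, hww]
    exact ⟨hy2, hy1⟩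
  refine ⟨⟨atkinLehnerFF N q hq hqN hq2 (y : FF N), hmem⟩, ?_, ?_⟩
  · have h := (galrr_al_mem_iff N q hq hqN hq2 (c : ℤ) (c : ℤ) 0 (y : FF N)).mpr (by
      rw [add_zero, glueN_cuspDiv]
      exact hy)
    rw [smul_zero, add_zero, glueN_cuspDiv] at h
    exact h
  · have key : ∀ (x : FF N) (hx : x ∈ (inredZero N q hq hqN hq2 R).O) (x' : FF N) (hx' : x' ∈ R.O),
        atkinLehnerFF N q hq hqN hq2 x = x' →
        (inredZero N q hq hqN hq2 R).red ⟨x, hx⟩ = R.red ⟨x', hx'⟩ := by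
      intro x hx x' hx' h
      subst h
      exact inredZero_red hq hqN hq2 R x hx
    rw [ssRed_apply, ssRed_apply]
    exact Prod.ext (key _ y.2.2 _ hmem.1 rfl).symm (key _ hmem.2 _ hy1 hww)

end Concrete

end Fermat.Agent.S36lib

end
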