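/-
Item 83 (S36), block TOR, piece T-N concrete (helper25): the nodes of level `N = M' q` for the
CONCRETE setup `nodeSetupN` (`TheSetup.lean`).

* `glueN_package`: at an auxiliary level, for ANY constant reduction `R` of level `M' q` with
  `IsSeriesRed R`: a `GlueData X` on `affRing ∞'` with `(F3)`, `0 < X.n`, and
  `X.e₂ = X.e₁ ∘ φ`, `X.e₁ = X.e₂ ∘ φ` (`φ = affFrobFk`, the `k`-linear Frobenius).
* for ANY `X : GlueData R (glmZero R) ∞ 0 ∞'` and `SN = nodeSetupN … R hR`:
  `glueN_pair_mem` (the pair of reductions of `y ∈ B_N` lies in `red(B)`),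
  `glueN_hNInf`, `glueN_hNZero` (reductions land in `X.B`),
  `glueN_hgl` (`X.e₁ i (red_∞ y) = X.e₂ i (red_0 y)`),
  `glueN_hgl'` (swap: `X.e₂ i (red_∞ y) = X.e₁ i (red_0 y)`),
  i.e. the hypotheses `hNInf hNZero hgl hgl'` of `tor_nodeSetup` / `s36_crux_head` with
  `R := X.B`, `e := X.e₁`, `e' := X.e₂`.
No sorry.
-/
import Mathlib
import Fermat.Agent.S34lib.ApplyMain
import Fermat.Agent.S34lib.GraphsFrob
import Fermat.Agent.S36lib.GlueN
import Fermat.Agent.S36lib.TheSetup
import Fermat.Agent.S36lib.TorInst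

set_option autoImplicit false
set_option linter.style.haveILetI false
set_option linter.unusedSectionVars false
set_option linter.unusedVariables false
set_option synthInstance.maxHeartbeats 400000

noncomputable section

namespace Fermat.Agent.S36lib

open AlgebraicCurve ModularCurve HahnSeries
open Fermat.Agent.S24lib Fermat.Agent.S34lib Fermat.Agent.GoodRed Fermat.Agent.GM
  Fermat.Agent.RRlib

section TwoPoints

variable {K F : Type*} [Field K] [Field F] [Algebra K F]

/-- a function regular off `P₁, P₂` lies in some `L(c (P₁ + P₂))` -/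
theorem glueN_rr_two (P₁ P₂ : Place K F) (x : F)
    (h : ∀ v : Place K F, v ≠ P₁ → v ≠ P₂ → 0 ≤ v.ord x) :
    ∃ c : ℕ, x ∈ riemannRochSpace (K := K) (f3dDiv P₁ P₂ c c) := by
  classical
  refine ⟨max (-(P₁.ord x)).toNat (-(P₂.ord x)).toNat, ?_⟩
  rw [mem_riemannRochSpace_iff]
  intro v
  right
  rw [f3dDiv, Finsupp.add_apply, Finsupp.single_apply, Finsupp.single_apply]
  have h1 := Int.self_le_toNat (-(P₁.ord x))
  have h2 := Int.self_le_toNat (-(P₂.ord x))
  have h3 : ((-(P₁.ord x)).toNat : ℤ) ≤ ((max (-(P₁.ord x)).toNat (-(P₂.ord x)).toNat : ℕ) : ℤ) :=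
    by exact_mod_cast le_max_left _ _
  have h4 : ((-(P₂.ord x)).toNat : ℤ) ≤ ((max (-(P₁.ord x)).toNat (-(P₂.ord x)).toNat : ℕ) : ℤ) :=
    by exact_mod_cast le_max_right _ _
  by_cases hv1 : P₁ = v
  · subst hv1
    rw [if_pos rfl]
    by_cases hv2 : P₂ = P₁
    · rw [if_pos hv2]; omega
    · rw [if_neg hv2]; omega
  · rw [if_neg hv1]
    by_cases hv2 : P₂ = v
    · subst hv2
      rw [if_pos rfl]; omega
    · rw [if_neg hv2]
      have := h v (Ne.symm hv1) (Ne.symm hv2)
      omega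

end TwoPoints

section Package

variable (M' q : ℕ) [NeZero M'] [NeZero q] [NeZero (M' * q)] (hq : q.Prime) (hqM : ¬ q ∣ M')
variable {A : ValuationSubring Kbar}

set_option maxHeartbeats 2000000 in
/-- **the gluing package of level `M' q` with Frobenius**, for any `IsSeriesRed` reduction. -/
theorem glueN_package [Fact q.Prime] [CharP (IsLocalRing.ResidueField A) q]
    [IsAlgClosed (IsLocalRing.ResidueField A)]
    [RRHyp Kbar (FF (M' * q))]
    [RRHyp (IsLocalRing.ResidueField A)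
      (↥(modularFunctionFieldFullC (IsLocalRing.ResidueField A) M'))]
    (haux : IsAuxLevel q M') (hA : A.LiesOverPrime q)
    (R : ConstRed A (IsLocalRing.residue A)
      (↥(modularFunctionFieldFullC (IsLocalRing.ResidueField A) M')) (FF (M' * q)))
    (hR : IsSeriesRed R) :
    ∃ (X : GlueData R (glmZero M' q hq hqM R) (infPlaceBar (M' * q))
        (cuspZero (M' * q) q hq (dvd_mul_left q M') (inf_not_sq_dvd M' q hq hqM))
        (infPlaceC (IsLocalRing.ResidueField A) M')) (a₀ : ℕ),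
      X.B = affRing (infPlaceC (IsLocalRing.ResidueField A) M') ∧
      F3dEX R (glmZero M' q hq hqM R) (infPlaceBar (M' * q))
        (cuspZero (M' * q) q hq (dvd_mul_left q M') (inf_not_sq_dvd M' q hq hqM))
        (infPlaceC (IsLocalRing.ResidueField A) M')
        (infPlaceC (IsLocalRing.ResidueField A) M') a₀ ∧
      0 < X.n ∧
      (∀ i (r : X.B) (h : affFrobFk (IsLocalRing.ResidueField A) q M'
          (r : ↥(modularFunctionFieldFullC (IsLocalRing.ResidueField A) M')) ∈ X.B),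
        X.e₂ i r = X.e₁ i ⟨affFrobFk (IsLocalRing.ResidueField A) q M' r, h⟩) ∧
      (∀ i (r : X.B) (h : affFrobFk (IsLocalRing.ResidueField A) q M'
          (r : ↥(modularFunctionFieldFullC (IsLocalRing.ResidueField A) M')) ∈ X.B),
        X.e₁ i r = X.e₂ i ⟨affFrobFk (IsLocalRing.ResidueField A) q M' r, h⟩) := by
  classical
  haveI : Infinite (IsLocalRing.ResidueField A) := IsAlgClosed.instInfinite
  haveI : RRHyp Kbar (FF M') := mod_rrHyp M'
  have hfrac' : HasPrimFrac A (modularFunctionFieldBar M') := vri_hfrac M' q hq A hA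
  obtain ⟨R', r, hR', -, -, hgen⟩ := liftInf_exists_red M' A q haux hA
  have Hex := am_exInput M' q hq hqM haux hA hR' hR hfrac'
  have hO := vk_O_ne M' q hq hqM hR hA
  have hlift : ∀ a : affRing (infPlaceC (IsLocalRing.ResidueField A) M'),
      ∃ (g : FF M') (hg : g ∈ R'.O),
        (∀ v' : Place Kbar (FF M'), v' ≠ infPlaceBar M' → 0 ≤ v'.ord g) ∧
          R'.red ⟨g, hg⟩ =
            (a : ↥(modularFunctionFieldFullC (IsLocalRing.ResidueField A) M')) := by
    intro a
    obtain ⟨c, hc⟩ := (glm_hB M' _).mp a.2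
    obtain ⟨x, hx, hred⟩ := liftInf_lift q haux hA hR' (c : ℤ) _ hc
    exact ⟨x, x.2, mem_affRing_iff.mp (affRing_of_mem_rr hx), hred⟩
  obtain ⟨a₀, H⟩ := Hex.f3dEX (glm_surj M' q hq hqM hA hO)
  have hFr := glm_hFr (A := A) M' q
    (φ := (affFrobFk (IsLocalRing.ResidueField A) q M').toRingHom) (fun x => rfl)
  obtain ⟨X, hXB, -, -, h3, h4, -, -⟩ :=
    graphs_glueData_frobK H (affRing (infPlaceC (IsLocalRing.ResidueField A) M')) (glm_hB M')
      (affRing_residue_surjective _)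
      (affFrob (IsLocalRing.ResidueField A) q M'
        (affRing (infPlaceC (IsLocalRing.ResidueField A) M')) (glm_hB M'))
      (affFrob_hpow (IsLocalRing.ResidueField A) q M' _ (glm_hB M'))
      (affFrob_hne (IsLocalRing.ResidueField A) q M' _ (glm_hB M'))
      (fun x => affFrobFk (IsLocalRing.ResidueField A) q M' x)
      (fun x => torFr (IsLocalRing.ResidueField A) q M' x) q
      (fun r => hFr r)
      (fun x hx => (torFr_hFrR (IsLocalRing.ResidueField A) q M' x).mpr hx)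
      (fun r => torFr_affFrobFk (IsLocalRing.ResidueField A) q M' _)
      (Hex.hα _ _ hFr hlift) (Hex.hβ _ _ hFr hlift)
  exact ⟨X, a₀, hXB, H, X.n_pos H (glm_genus M' q hq hqM hgen.le), h3, h4⟩

end Package

section Concrete

variable (A : ValuationSubring Kbar) (M' q : ℕ) [NeZero M'] [NeZero q] (hq : q.Prime)
  (hqM : ¬ q ∣ M') (hA : A.LiesOverPrime q)
  (R : ConstRed A (IsLocalRing.residue A)
    (↥(modularFunctionFieldFullC (IsLocalRing.ResidueField A) M')) (FF (M' * q)))
  (hR : IsSeriesRed R)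

/-- unfolding of `nodeSetupN`: membership in `B_N` -/
theorem mem_nodeSetupN_B (x : f0Field A (M' * q)) :
    x ∈ (nodeSetupN A M' q hq hqM hA R hR).B ↔
      (x : FF (M' * q)) ∈ offRegular (M' * q) (s36D1N M' q hq hqM) ∧
        (x : FF (M' * q)) ∈ R.O ∧ alW1 M' hq hqM (x : FF (M' * q)) ∈ R.O := by
  have h := mem_nodeSetupConc_B A M' (s36D1N M' q hq hqM) q hq hA (dvd_mul_right M' q) R hR
    (alW1 M' hq hqM) (sconc_alW1_symm_mem A M' q hq hqM) (SeriesVal.ofConstRed R)
    (sconc_hinto A M' R) (sconc_honto A M' q hq hA (dvd_mul_right M' q) R hR) x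
  constructor
  · intro hx
    have h' := h.1 hx
    exact ⟨h'.1, h'.2.1, h'.2.2.2⟩
  · intro hx
    exact h.2 ⟨hx.1, hx.2.1, hx.2.1, hx.2.2⟩

/-- the reduction at `∞` of `y ∈ B_N` -/
theorem nodeSetupN_redInf (y : (nodeSetupN A M' q hq hqM hA R hR).B) :
    (nodeSetupN A M' q hq hqM hA R hR).redInf y
      = R.red ⟨((y : f0Field A (M' * q)) : FF (M' * q)),
          ((mem_nodeSetupN_B A M' q hq hqM hA R hR y.1).1 y.2).2.1⟩ :=
  Subtype.ext (coe_nodeSetupConc_redInf A M' (s36D1N M' q hq hqM) q hq hA (dvd_mul_right M' q)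
    R hR (alW1 M' hq hqM) (sconc_alW1_symm_mem A M' q hq hqM) (SeriesVal.ofConstRed R)
    (sconc_hinto A M' R) (sconc_honto A M' q hq hA (dvd_mul_right M' q) R hR) y)

/-- the reduction at `0` of `y ∈ B_N` -/
theorem nodeSetupN_redZero (y : (nodeSetupN A M' q hq hqM hA R hR).B) :
    (nodeSetupN A M' q hq hqM hA R hR).redZero y
      = R.red ⟨alW1 M' hq hqM ((y : f0Field A (M' * q)) : FF (M' * q)),
          ((mem_nodeSetupN_B A M' q hq hqM hA R hR y.1).1 y.2).2.2⟩ :=
  Subtype.ext (coe_nodeSetupConc_redZero A M' (s36D1N M' q hq hqM) q hq hA (dvd_mul_right M' q)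
    R hR (alW1 M' hq hqM) (sconc_alW1_symm_mem A M' q hq hqM) (SeriesVal.ofConstRed R)
    (sconc_hinto A M' R) (sconc_honto A M' q hq hA (dvd_mul_right M' q) R hR) y)

/-- a valuation ring is root-closed -/
theorem glueN_vs_root {F : Type*} [Field F] (O : ValuationSubring F) (x : F) (m : ℕ) (hm : 0 < m)
    (h : x ^ m ∈ O) : x ∈ O := by
  rw [← O.valuation_le_one_iff] at h ⊢
  rw [map_pow] at h
  exact (pow_le_one_iff hm.ne').mp h

/-- **`hroot`** of `tor_root_normalise`: `B_N` is root-closed in `F0(N)`. -/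
theorem nodeSetupN_hroot (y : f0Field A (M' * q)) (m : ℕ) (hm : 0 < m)
    (h : y ^ m ∈ (nodeSetupN A M' q hq hqM hA R hR).B) :
    y ∈ (nodeSetupN A M' q hq hqM hA R hR).B := by
  rw [mem_nodeSetupN_B] at h ⊢
  obtain ⟨h1, h2, h3⟩ := h
  have e : ((y ^ m : f0Field A (M' * q)) : FF (M' * q)) = ((y : f0Field A (M' * q)) : FF (M' * q)) ^ m :=
    rfl
  rw [e] at h1 h2 h3
  refine ⟨?_, glueN_vs_root R.O _ m hm h2, ?_⟩
  · rw [mem_offRegular_iff] at h1 ⊢
    intro P hP
    exact glueN_vs_root P.toValuationSubring _ m hm (h1 P hP)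
  · rw [map_pow] at h3
    exact glueN_vs_root R.O _ m hm h3

variable [NeZero (M' * q)]

/-- `0 = w_q ∞` is the cusp `cuspZero` of `S34` -/
theorem glueN_alW1_smul_inf :
    alW1 M' hq hqM • infPlaceBar (M' * q)
      = cuspZero (M' * q) q hq (dvd_mul_left q M') (inf_not_sq_dvd M' q hq hqM) := by
  rw [ac_cuspZero_eq]
  rfl

variable [RRHyp Kbar (FF (M' * q))]

/-- the pair of reductions of `y ∈ B_N` lies in `red (L(c (P∞ + P₀)) ∩ O)` for some `c`. -/
theorem glueN_pair_mem (y : (nodeSetupN A M' q hq hqM hA R hR).B) :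
    ∃ c : ℕ,
      ((nodeSetupN A M' q hq hqM hA R hR).redInf y,
        (nodeSetupN A M' q hq hqM hA R hR).redZero y) ∈
        f3dM R (glmZero M' q hq hqM R)
          (f3dDiv (infPlaceBar (M' * q))
            (cuspZero (M' * q) q hq (dvd_mul_left q M') (inf_not_sq_dvd M' q hq hqM)) c c) := by
  obtain ⟨hoff, h1, h2⟩ := (mem_nodeSetupN_B A M' q hq hqM hA R hR y.1).1 y.2
  have h2' : atkinLehnerFF (M' * q) q hq (dvd_mul_left q M') (inf_not_sq_dvd M' q hq hqM)
      ((y : f0Field A (M' * q)) : FF (M' * q)) ∈ R.O := h2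
  have hball : ((y : f0Field A (M' * q)) : FF (M' * q)) ∈ ssBall R (glmZero M' q hq hqM R) := by
    rw [mem_ssBall, mem_inredZero_O]
    exact ⟨h1, h2'⟩
  obtain ⟨c, hc⟩ := glueN_rr_two (infPlaceBar (M' * q))
    (cuspZero (M' * q) q hq (dvd_mul_left q M') (inf_not_sq_dvd M' q hq hqM))
    ((y : f0Field A (M' * q)) : FF (M' * q)) (by
      intro v hv1 hv2
      have hv : v ∉ s36D1N M' q hq hqM := by
        rintro (h | h)
        · exact hv1 h
        · exact hv2 (h.trans (glueN_alW1_smul_inf M' q hq hqM))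
      exact (ffMem_iff_ord_nonneg v).mp ((mem_offRegular_iff (M' * q) _ _).mp hoff v hv))
  refine ⟨c, (mem_f3dM R (glmZero M' q hq hqM R) _ _).mpr ⟨⟨_, hball⟩, hc, ?_⟩⟩
  rw [ssRed_apply, nodeSetupN_redInf, nodeSetupN_redZero]
  have key : ∀ (x : FF (M' * q)) (hx : x ∈ (glmZero M' q hq hqM R).O) (x' : FF (M' * q))
      (hx' : x' ∈ R.O),
      atkinLehnerFF (M' * q) q hq (dvd_mul_left q M') (inf_not_sq_dvd M' q hq hqM) x = x' →
      (glmZero M' q hq hqM R).red ⟨x, hx⟩ = R.red ⟨x', hx'⟩ := by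
    intro x hx x' hx' h
    subst h
    exact inredZero_red hq (dvd_mul_left q M') (inf_not_sq_dvd M' q hq hqM) R x hx
  exact Prod.ext rfl (key _ _ _ _ rfl)

variable [RRHyp (IsLocalRing.ResidueField A)
      (↥(modularFunctionFieldFullC (IsLocalRing.ResidueField A) M'))]
  [Infinite (IsLocalRing.ResidueField A)]
variable {a₀ : ℕ}
  (X : GlueData R (glmZero M' q hq hqM R) (infPlaceBar (M' * q))
    (cuspZero (M' * q) q hq (dvd_mul_left q M') (inf_not_sq_dvd M' q hq hqM))
    (infPlaceC (IsLocalRing.ResidueField A) M'))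
  (H : F3dEX R (glmZero M' q hq hqM R) (infPlaceBar (M' * q))
    (cuspZero (M' * q) q hq (dvd_mul_left q M') (inf_not_sq_dvd M' q hq hqM))
    (infPlaceC (IsLocalRing.ResidueField A) M')
    (infPlaceC (IsLocalRing.ResidueField A) M') a₀)

include H in
/-- `hNInf`, `hNZero`: the reductions of `B_N` land in the affine ring `X.B`. -/
theorem glueN_hN (y : (nodeSetupN A M' q hq hqM hA R hR).B) :
    (nodeSetupN A M' q hq hqM hA R hR).redInf y ∈ X.B ∧
      (nodeSetupN A M' q hq hqM hA R hR).redZero y ∈ X.B := by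
  obtain ⟨c, hc⟩ := glueN_pair_mem A M' q hq hqM hA R hR y
  exact grRedB_le H X.B X.mem_B ((mem_grRedB R (glmZero M' q hq hqM R) _ _ _).mpr ⟨c, hc⟩)

/-- **`hgl`**: the gluing of level `N` on `B_N`. -/
theorem glueN_hgl (y : (nodeSetupN A M' q hq hqM hA R hR).B) (i : Fin X.n) :
    X.e₁ i ⟨(nodeSetupN A M' q hq hqM hA R hR).redInf y,
        (glueN_hN A M' q hq hqM hA R hR X H y).1⟩
      = X.e₂ i ⟨(nodeSetupN A M' q hq hqM hA R hR).redZero y,
        (glueN_hN A M' q hq hqM hA R hR X H y).2⟩ :=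
  (X.glue _ _).mp (glueN_pair_mem A M' q hq hqM hA R hR y) i

/-- **`hgl'`**: the swapped gluing of level `N` on `B_N` (by `w_q`). -/
theorem glueN_hgl' (y : (nodeSetupN A M' q hq hqM hA R hR).B) (i : Fin X.n) :
    X.e₂ i ⟨(nodeSetupN A M' q hq hqM hA R hR).redInf y,
        (glueN_hN A M' q hq hqM hA R hR X H y).1⟩
      = X.e₁ i ⟨(nodeSetupN A M' q hq hqM hA R hR).redZero y,
        (glueN_hN A M' q hq hqM hA R hR X H y).2⟩ := by
  obtain ⟨c, hc⟩ := glueN_pair_mem A M' q hq hqM hA R hR y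
  have hsw := glueN_swap (M' * q) q hq (dvd_mul_left q M') (inf_not_sq_dvd M' q hq hqM) R c _ hc
  exact ((X.glue ⟨_, (glueN_hN A M' q hq hqM hA R hR X H y).2⟩
    ⟨_, (glueN_hN A M' q hq hqM hA R hR X H y).1⟩).mp ⟨c, hsw⟩ i).symm

end Concrete

end Fermat.Agent.S36lib

end
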