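/-
Item 83 (S36), piece C4-2, part 4 (helper6): the family `g_n` in the exact form consumed by
`elqInst_exists` (helper17, `S36lib/ElqInst.lean`), WITHOUT any reference to a constant reduction.

`gnA0_family`: at an auxiliary level `M'` (`IsAuxLevel q M'`), for `A ∣ q`, there is a family
`g : ℕ → FF M'` such that for all `n ≥ 2 g(X₀(M'))`:
`EoInt (zsR0 A) ĝₙ` (expansion with coefficients in `A0 = A ∩ K0`), `ClPole n ĝₙ`,
`A.valuation (ĝₙ.coeff (-n)) = 1`, `gₙ ∈ L(n • P∞)`, `gₙ` fixed by inertia (and by all of `G_ℚ`).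
No sorry.
-/
import Mathlib
import Fermat.Agent.S36lib.GnA0
import Fermat.Agent.S36lib.ElqInst

set_option autoImplicit false
set_option linter.style.haveILetI false
set_option linter.unusedSectionVars false
set_option synthInstance.maxHeartbeats 400000

noncomputable section

namespace Fermat.Agent.S36lib

open AlgebraicCurve ModularCurve IntermediateField CongruenceSubgroup HahnSeries
open Fermat.Agent.S24lib Fermat.Agent.S28lib Fermat.Agent.FFlib Fermat.Agent.RRlib
  Fermat.Agent.GoodRed Fermat.Agent.GM Fermat.Agent.S16lib Fermat.Agent.S34lib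
open scoped MatrixGroups

/-- **C4-2, the family**: for every `n ≥ 2g` a function `g n ∈ L(n • P∞)` of level `M'`, fixed by
the Galois group, with `A`-integral expansion, unit coefficient at `-n`. -/
theorem gnA0_family_gal (q : ℕ) [Fact q.Prime] (M' : ℕ) [NeZero M'] (haux : IsAuxLevel q M')
    (A : ValuationSubring Kbar) (hA : A.LiesOverPrime q) :
    ∃ g : ℕ → FF M', ∀ n, 2 * genusFF Kbar (FF M') ≤ n →
      (∀ σ : Kbar ≃ₐ[ℚ] Kbar, galFF M' σ • g n = g n) ∧
      EoInt A.toSubring ((g n : FF M') : LaurentSeries Kbar) ∧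
      ClPole n ((g n : FF M') : LaurentSeries Kbar) ∧
      A.valuation (((g n : FF M') : LaurentSeries Kbar).coeff (-(n : ℤ))) = 1 ∧
      g n ∈ riemannRochSpace (K := Kbar) (Finsupp.single (infPlaceBar M') (n : ℤ)) := by
  classical
  obtain ⟨R, r, hR, -, -, -⟩ := liftInf_exists_red M' A q haux hA
  have key : ∀ n, ∃ g : FF M', 2 * genusFF Kbar (FF M') ≤ n →
      (∀ σ : Kbar ≃ₐ[ℚ] Kbar, galFF M' σ • g = g) ∧
      EoInt A.toSubring ((g : FF M') : LaurentSeries Kbar) ∧
      ClPole n ((g : FF M') : LaurentSeries Kbar) ∧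
      A.valuation (((g : FF M') : LaurentSeries Kbar).coeff (-(n : ℤ))) = 1 ∧
      g ∈ riemannRochSpace (K := Kbar) (Finsupp.single (infPlaceBar M') (n : ℤ)) := by
    intro n
    by_cases hn : 2 * genusFF Kbar (FF M') ≤ n
    · obtain ⟨g, y, hfix, hgy, hgV, hu, hvan⟩ := gnA0_exists_gal q haux hA hR n hn
      refine ⟨g, fun _ => ⟨hfix, ?_, ?_, ?_, hgV⟩⟩
      · intro i
        rw [hgy, coeffMap_coeff]
        exact (y.coeff i).2
      · intro i hi
        rw [hgy, coeffMap_coeff, hvan i hi]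
        rfl
      · rw [hgy, coeffMap_coeff]
        exact (ValuationSubring.valuation_eq_one_iff A _).mp hu
    · exact ⟨0, fun h => absurd h hn⟩
  choose g hg using key
  exact ⟨g, hg⟩

/-- **C4-2, the family, in the form of `elqInst_exists`** (`n₀ := 2 g`). -/
theorem gnA0_family (q : ℕ) [Fact q.Prime] (M' : ℕ) [NeZero M'] (haux : IsAuxLevel q M')
    (A : ValuationSubring Kbar) (hA : A.LiesOverPrime q) :
    ∃ g : ℕ → FF M', ∀ n, 2 * genusFF Kbar (FF M') ≤ n →
      EoInt (zsR0 A) ((g n : FF M') : LaurentSeries Kbar) ∧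
      ClPole n ((g n : FF M') : LaurentSeries Kbar) ∧
      A.valuation (((g n : FF M') : LaurentSeries Kbar).coeff (-(n : ℤ))) = 1 ∧
      g n ∈ riemannRochSpace (K := Kbar) (Finsupp.single (infPlaceBar M') (n : ℤ)) ∧
      IsIFixed M' A (g n) := by
  obtain ⟨g, hg⟩ := gnA0_family_gal q M' haux A hA
  refine ⟨g, fun n hn => ?_⟩
  obtain ⟨h1, h2, h3, h4, h5⟩ := hg n hn
  have hI : IsIFixed M' A (g n) := fun σ _ => h1 σ
  exact ⟨(eoInt_zsR0_iff_isIFixed A M' (g n)).mpr ⟨hI, h2⟩, h3, h4, h5, hI⟩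

end Fermat.Agent.S36lib

end
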