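/-
Item 83 (S36), block CRUX, piece C-3g (helper13): the per-cusp input `H0Cusp` of `H0Conc.lean` for
the CONCRETE valuations of the setup (`TheSetup.lean`, helper24).  No gaps in this file.

* `h0w_bridge` : series level ⇒ field level for a series reduction `R` (`IsSeriesRed`): if
  `x · b = a` with `a, b` integral Laurent series (NOT necessarily in the function field), `b`
  primitive, then `x ∈ R.O` and `R.red x = ā / b̄`  (the analogue of helper18's `vmid_bridge`);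
* `h0w_hbr_inf`, `h0w_hbr_comap`, `h0w_hbr_mid` : the three valuations of the setup;
* `h0w_cusp` : `H0Cusp` for the restriction to `F0(L)` of a `SeriesVal` with the bridge property,
  from the family data `hOV`, `hε` of `TubeWire.lean` (helper12) with `inc = tovIota φ` and a residue
  map `θ : Λ → k`, `θ ∘ π₁ = residue ∘ φ`.
-/
import Mathlib
import Fermat.Agent.S36lib.H0Conc
import Fermat.Agent.S36lib.TheSetup
import Fermat.Agent.S36lib.VMidSV
import Fermat.Agent.S36lib.TubeOV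
import Fermat.Agent.S36lib.XProvFam
import Fermat.Agent.S36lib.Apply2Final
import Fermat.Agent.S36lib.SSRedBCInst
import Fermat.Agent.S36lib.FibreD1
import Fermat.Agent.RRlib.Modular
import Fermat.Agent.GoodRed.ModRR
import Fermat.Agent.S34lib.InfPlace

set_option autoImplicit false
set_option linter.unusedSectionVars false
set_option linter.unusedVariables false
set_option linter.style.haveILetI false
set_option synthInstance.maxHeartbeats 400000

noncomputable section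

namespace Fermat.Agent.S36lib

open ModularCurve AlgebraicCurve
open Fermat.Agent.S24lib Fermat.Agent.S34lib Fermat.Agent.GoodRed Fermat.Agent.RRlib

/-! ### The bridge for a series reduction -/

section Bridge

variable {K : Type*} [Field K] {A : ValuationSubring K}
variable {F : IntermediateField K (LaurentSeries K)}
variable {Fk : IntermediateField (IsLocalRing.ResidueField A)
  (LaurentSeries (IsLocalRing.ResidueField A))}
variable {R : ConstRed A (IsLocalRing.residue A) (↥Fk) (↥F)}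

/-- **series level ⇒ field level** for a series reduction -/
theorem h0w_bridge (hR : IsSeriesRed R) (hfrac : HasPrimFrac A F) (x : F)
    (a b : LaurentSeries A) (hb : coeffMap (IsLocalRing.residue A) b ≠ 0)
    (hab : (x : LaurentSeries K) * coeffMap A.subtype b = coeffMap A.subtype a) :
    ∃ hx : x ∈ R.O, ((R.red ⟨x, hx⟩ : Fk) : LaurentSeries (IsLocalRing.ResidueField A)) =
      coeffMap (IsLocalRing.residue A) a / coeffMap (IsLocalRing.residue A) b := by
  have hb0 : coeffMap A.subtype b ≠ 0 := by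
    intro h0
    have : b = 0 := coeffMap_valSubtype_injective A (by rw [h0, map_zero])
    exact hb (by rw [this, map_zero])
  by_cases hx0 : x = 0
  · have ha0 : a = 0 := by
      apply coeffMap_valSubtype_injective A
      rw [← hab, hx0, map_zero]
      simp
    subst hx0
    refine ⟨R.O.zero_mem, ?_⟩
    have e : (⟨0, R.O.zero_mem⟩ : R.O) = 0 := rfl
    rw [e, map_zero, ha0, map_zero, zero_div]
    rfl
  · have hx0' : (x : LaurentSeries K) ≠ 0 := fun h => hx0 (Subtype.ext h)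
    obtain ⟨a', b', ha', hb', hpa', hpb', c, hc0, hab'⟩ := hfrac (x : LaurentSeries K) x.2 hx0'
    have hrel : coeffMap A.subtype a * coeffMap A.subtype b'
        = HahnSeries.C c * (coeffMap A.subtype a' * coeffMap A.subtype b) := by
      rw [← hab]
      calc (x : LaurentSeries K) * coeffMap A.subtype b * coeffMap A.subtype b'
          = (x : LaurentSeries K) * coeffMap A.subtype b' * coeffMap A.subtype b := by ring
        _ = HahnSeries.C c * coeffMap A.subtype a' * coeffMap A.subtype b := by rw [hab']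
        _ = HahnSeries.C c * (coeffMap A.subtype a' * coeffMap A.subtype b) := by ring
    have hcA : c ∈ A := by
      by_contra hcA
      have hlt' : A.valuation c⁻¹ < 1 := by
        have h1 : ¬ A.valuation c ≤ 1 := fun h => hcA ((A.valuation_le_one_iff c).mp h)
        rw [map_inv₀]
        exact inv_lt_one_of_one_lt₀ (not_le.mp h1)
      have hdA : c⁻¹ ∈ A := (A.valuation_le_one_iff _).mp hlt'.le
      have hres : IsLocalRing.residue A ⟨c⁻¹, hdA⟩ = 0 := by
        rw [IsLocalRing.residue_eq_zero_iff]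
        exact (A.valuation_lt_one_iff ⟨c⁻¹, hdA⟩).mpr hlt'
      have key : HahnSeries.C (⟨c⁻¹, hdA⟩ : A) * (a * b') = a' * b := by
        apply coeffMap_valSubtype_injective A
        rw [map_mul, map_mul, map_mul, coeffMap_C, hrel]
        show HahnSeries.C c⁻¹ * (HahnSeries.C c * _) = _
        rw [← mul_assoc, ← map_mul, inv_mul_cancel₀ hc0, map_one, one_mul]
      have key' := congrArg (coeffMap (IsLocalRing.residue A)) key
      rw [map_mul, coeffMap_C, hres, map_zero, zero_mul, map_mul] at key'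
      exact mul_ne_zero hpa' hb key'.symm
    have hCmem : HahnSeries.C c ∈ F := by
      have h1 := F.algebraMap_mem c
      rwa [algebraMap_laurentSeries_eq_single] at h1
    have hrep : IsRep A F (x : LaurentSeries K) (HahnSeries.C (⟨c, hcA⟩ : A) * a') b' := by
      refine ⟨?_, hb', hpb', ?_⟩
      · rw [map_mul, coeffMap_C]
        exact F.mul_mem hCmem ha'
      · rw [map_mul, coeffMap_C]
        exact hab'
    have hx : x ∈ R.O := hR.mem_of_isRep hrep
    refine ⟨hx, ?_⟩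
    rw [hR.red_of_isRep hrep hx]
    have key : a * b' = HahnSeries.C (⟨c, hcA⟩ : A) * a' * b := by
      apply coeffMap_valSubtype_injective A
      rw [map_mul, map_mul, map_mul, coeffMap_C, hrel]
      show HahnSeries.C c * _ = HahnSeries.C c * _ * _
      ring
    have key' := congrArg (coeffMap (IsLocalRing.residue A)) key
    rw [map_mul, map_mul] at key'
    rw [div_eq_div_iff hpb' hb, key']

end Bridge

/-! ### The three valuations of the setup -/

section Hbr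

variable {A : ValuationSubring Kbar} {L : ℕ} [NeZero L]
variable {Fk : IntermediateField (IsLocalRing.ResidueField A)
  (LaurentSeries (IsLocalRing.ResidueField A))}

/-- the bridge at `∞` -/
theorem h0w_hbr_inf {R : ConstRed A (IsLocalRing.residue A) (↥Fk) (FF L)} (hR : IsSeriesRed R)
    (hfrac : HasPrimFrac A (modularFunctionFieldBar L)) (x : FF L) (a b : LaurentSeries A)
    (hb : coeffMap (IsLocalRing.residue A) b ≠ 0)
    (hab : (x : LaurentSeries Kbar) * coeffMap A.subtype b = coeffMap A.subtype a) :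
    ∃ hx : x ∈ (SeriesVal.ofConstRed R).O, (SeriesVal.ofConstRed R).red ⟨x, hx⟩ =
      coeffMap (IsLocalRing.residue A) a / coeffMap (IsLocalRing.residue A) b :=
  h0w_bridge hR hfrac x a b hb hab

/-- the bridge at `0` -/
theorem h0w_hbr_comap {R : ConstRed A (IsLocalRing.residue A) (↥Fk) (FF L)} (hR : IsSeriesRed R)
    (hfrac : HasPrimFrac A (modularFunctionFieldBar L)) (w : FF L ≃ₐ[Kbar] FF L)
    (x : FF L) (a b : LaurentSeries A)
    (hb : coeffMap (IsLocalRing.residue A) b ≠ 0)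
    (hab : ((w x : FF L) : LaurentSeries Kbar) * coeffMap A.subtype b = coeffMap A.subtype a) :
    ∃ hx : x ∈ ((SeriesVal.ofConstRed R).comap w).O,
      ((SeriesVal.ofConstRed R).comap w).red ⟨x, hx⟩ =
        coeffMap (IsLocalRing.residue A) a / coeffMap (IsLocalRing.residue A) b := by
  obtain ⟨hx, h⟩ := h0w_bridge hR hfrac (w x) a b hb hab
  exact ⟨hx, h⟩

end Hbr

/-! ### The constructor of `H0Cusp` -/

section Cusp

variable {A : ValuationSubring Kbar} {L : ℕ} [NeZero L]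
variable {A₁ Λ : Type*} [CommRing A₁] [IsDomain A₁] [CommRing Λ] [Nontrivial Λ]

/-- the residue of `tovIncl φ a` -/
theorem h0w_res_tovIncl (φ : A₁ →+* A) (π₁ : A₁ →+* Λ) (θ : Λ →+* IsLocalRing.ResidueField A)
    (hθ : ∀ c : A₁, θ (π₁ c) = IsLocalRing.residue A (φ c)) (a : PowerSeries A₁) :
    HahnSeries.ofPowerSeries ℤ (IsLocalRing.ResidueField A) (PowerSeries.map (θ.comp π₁) a) =
      coeffMap (IsLocalRing.residue A) (tovIncl φ a) := by
  ext n
  rw [coeffMap_coeff]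
  rcases lt_or_ge n 0 with hn | hn
  · have h1 : (tovIncl φ a).coeff n = 0 := tube_ofPS_coeff_neg _ hn
    rw [tube_ofPS_coeff_neg _ hn, h1, map_zero]
  · obtain ⟨m, rfl⟩ := Int.eq_ofNat_of_zero_le hn
    rw [HahnSeries.ofPowerSeries_apply_coeff, PowerSeries.coeff_map, tovIncl_coeff,
      RingHom.comp_apply, hθ]

variable {Rr : Type*} [CommRing Rr] [Algebra (IsLocalRing.ResidueField A) Rr]

/-- **`H0Cusp` for the restriction to `F0(L)` of a valuation with the bridge property**, from the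
family data of `TubeWire.lean`. -/
theorem h0w_cusp (v : SeriesVal A L)
    (κ : IntermediateField (IsLocalRing.ResidueField A)
      (LaurentSeries (IsLocalRing.ResidueField A)))
    (hinto : ∀ (x : FF L) (hx : x ∈ v.O), x ∈ f0Field A L → v.red ⟨x, hx⟩ ∈ κ)
    (honto : ∀ w ∈ κ, ∃ (x : FF L) (hx : x ∈ v.O), x ∈ f0Field A L ∧ v.red ⟨x, hx⟩ = w)
    (Eb : FF L →+* LaurentSeries Kbar)
    (hbr : ∀ (x : FF L) (a b : LaurentSeries A), coeffMap (IsLocalRing.residue A) b ≠ 0 →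
      Eb x * coeffMap A.subtype b = coeffMap A.subtype a →
      ∃ hx : x ∈ v.O, v.red ⟨x, hx⟩ =
        coeffMap (IsLocalRing.residue A) a / coeffMap (IsLocalRing.residue A) b)
    (S₀ : SSRed (k0Val A) (k0Res A) Rr (f0Field A L))
    (hle : S₀.O ≤ (v.restrictK0 κ hinto honto).O.toSubring)
    (ε : Rr →+* LaurentSeries Λ) (φ : A₁ →+* A)
    (inc : PowerSeries A₁ →+* LaurentSeries Kbar) (hinc : Function.Injective inc)
    (hincφ : inc = tovIota φ)
    (Ex : f0Field A L →+* LaurentSeries Kbar) (hEx : ∀ x : f0Field A L, Ex x = Eb (x : FF L))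
    (π₁ : A₁ →+* Λ) (θ : Λ →+* IsLocalRing.ResidueField A)
    (hθ : ∀ c : A₁, θ (π₁ c) = IsLocalRing.residue A (φ c))
    (hOV : ∀ x : f0Field A L, x ∈ S₀.O → Ex x ∈ tsV inc (PowerSeries.map π₁))
    (hε : ∀ y : S₀.O, ε (S₀.red y) = tsBallRed inc (PowerSeries.map π₁) hinc Ex S₀.O hOV y) :
    H0Cusp S₀.O S₀.red ε (h0cRv (v.restrictK0 κ hinto honto) hle) inc Ex π₁ θ where
  frac := fun x => by
    obtain ⟨a, b, hb, hab⟩ := hOV x x.2
    exact ⟨a, b, hb, hab⟩
  compat := fun x a b hab hb => by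
    rw [hε]
    exact tsBallRed_compat inc (PowerSeries.map π₁) hinc Ex S₀.O hOV x a b hab hb
  rep := fun x a b hab hb => by
    subst hincφ
    have hb' : coeffMap (IsLocalRing.residue A) (tovIncl φ b) ≠ 0 := by
      rw [← h0w_res_tovIncl φ π₁ θ hθ, h0c_ofPS_map_comp]
      exact h0c_map_unit_ne_zero θ hb
    obtain ⟨hx, hr⟩ := hbr ((x : f0Field A L) : FF L) (tovIncl φ a) (tovIncl φ b) hb'
      (by rw [← hEx]; exact hab)
    rw [h0w_res_tovIncl φ π₁ θ hθ, h0w_res_tovIncl φ π₁ θ hθ]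
    have e : h0cRv (v.restrictK0 κ hinto honto) hle x =
        v.red ⟨((x : f0Field A L) : FF L), hx⟩ :=
      SeriesVal.coe_restrictK0_red v κ hinto honto (x : f0Field A L) (hle x.2)
    rw [e, hr, div_mul_cancel₀ _ hb']

end Cusp

/-! ### The final setup and the family `cfm` -/

section Final

variable (A : ValuationSubring Kbar) (M' q : ℕ) [NeZero M'] [NeZero q]
variable (hq : q.Prime) (hqM : ¬ q ∣ M') (hA : A.LiesOverPrime q)
variable (ζ : Kbarˣ) (hζq : ζ ^ q = 1) (hζ : IsPrimitiveRoot (ζ : Kbar) q)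
variable (R : ConstRed A (IsLocalRing.residue A)
      (↥(modularFunctionFieldFullC (IsLocalRing.ResidueField A) M')) (FF (M' * q * q)))
    (hR : IsSeriesRed R)

/-- `ecMid` is a middle expansion -/
theorem h0w_isMidExp : IsMidExp M' q ζ (ecMid M' q hq hqM ζ hζ) :=
  ⟨ecMid_algebraMap M' q hq hqM ζ hζ, ecMid_alpha M' q hq hqM ζ hζ,
    fun Y' => ecMid_pi3 M' q hq hqM ζ hζ Y'⟩

/-- the final setup, with the middle expansion `ecMid ζ` of the family -/
abbrev h0wS : NodeSetup (k0Val A) (k0Res A)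
    (↥(modularFunctionFieldFullC (IsLocalRing.ResidueField A) M')) (f0Field A (M' * q * q)) :=
  s36Final A M' q hq hqM hA hζq hζ (h0w_isMidExp M' q hq hqM ζ hζ) R hR

variable {Rr : Type*} [CommRing Rr] [Algebra (IsLocalRing.ResidueField A) Rr]
variable [∀ i, Nontrivial (cfmLam A q ζ i)]
variable (S₀ : SSRed (k0Val A) (k0Res A) Rr (f0Field A (M' * q * q)))
  (Ecl : ClExp (IsLocalRing.ResidueField A) Rr (cfmLam A q ζ))
  (hOV : ∀ i, ∀ x : f0Field A (M' * q * q), x ∈ S₀.O →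
    cfmEx A M' q hq hqM ζ hζ i x ∈ tsV (cfmInc A ζ i) (PowerSeries.map (cfmPi A q ζ i)))
  (hε : ∀ i (y : S₀.O), Ecl.ε i (S₀.red y) =
    tsBallRed (cfmInc A ζ i) (PowerSeries.map (cfmPi A q ζ i)) (cfmInc_injective A ζ i)
      (cfmEx A M' q hq hqM ζ hζ i) S₀.O (hOV i) y)

include hOV hε in
/-- the cusp `∞` -/
theorem h0w_cuspInf (hle : S₀.O ≤ (h0wS A M' q hq hqM hA ζ hζq hζ R hR).vInf.O.toSubring) :
    H0Cusp S₀.O S₀.red (Ecl.ε CfmCusp.inf)
      (h0cRv (h0wS A M' q hq hqM hA ζ hζq hζ R hR).vInf hle)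
      (cfmInc A ζ CfmCusp.inf) (cfmEx A M' q hq hqM ζ hζ CfmCusp.inf)
      (cfmPi A q ζ CfmCusp.inf) (xpfTheta A q ζ hA CfmCusp.inf) :=
  h0w_cusp (SeriesVal.ofConstRed R)
    (modularFunctionFieldFullC (IsLocalRing.ResidueField A) M') (sconc_hinto A M' R)
    (sconc_honto A M' q hq hA ⟨q * q, by ring⟩ R hR) (cfmEc M' q hq hqM ζ hζ CfmCusp.inf)
    (h0w_hbr_inf hR (vmid_hasPrimFrac_bar A (M' * q * q) hq ((A.mem_nonunits_iff).mp hA)))
    S₀ hle (Ecl.ε CfmCusp.inf) (ta1Incl A (cfmK1 A ζ CfmCusp.inf)) (cfmInc A ζ CfmCusp.inf)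
    (cfmInc_injective A ζ CfmCusp.inf) (ta1Iota_eq_tovIota' A (cfmK1 A ζ CfmCusp.inf))
    (cfmEx A M' q hq hqM ζ hζ CfmCusp.inf) (fun _ => rfl) (cfmPi A q ζ CfmCusp.inf)
    (xpfTheta A q ζ hA CfmCusp.inf) (xpfTheta_pi A q ζ hA CfmCusp.inf)
    (hOV CfmCusp.inf) (hε CfmCusp.inf)

include hOV hε in
/-- the cusp `0` -/
theorem h0w_cuspZero (hle : S₀.O ≤ (h0wS A M' q hq hqM hA ζ hζq hζ R hR).vZero.O.toSubring) :
    H0Cusp S₀.O S₀.red (Ecl.ε CfmCusp.zero)
      (h0cRv (h0wS A M' q hq hqM hA ζ hζq hζ R hR).vZero hle)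
      (cfmInc A ζ CfmCusp.zero) (cfmEx A M' q hq hqM ζ hζ CfmCusp.zero)
      (cfmPi A q ζ CfmCusp.zero) (xpfTheta A q ζ hA CfmCusp.zero) :=
  h0w_cusp ((SeriesVal.ofConstRed R).comap (alW2 M' hq hqM))
    (modularFunctionFieldFullC (IsLocalRing.ResidueField A) M')
    (sconc_hinto_comap A M' R (alW2 M' hq hqM))
    (sconc_honto_comap A M' q hq hA ⟨q * q, by ring⟩ R hR (alW2 M' hq hqM)
      (sconc_alW2_symm_mem A M' q hq hqM))
    (cfmEc M' q hq hqM ζ hζ CfmCusp.zero)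
    (fun x a b hb hab => h0w_hbr_comap hR
      (vmid_hasPrimFrac_bar A (M' * q * q) hq ((A.mem_nonunits_iff).mp hA))
      (alW2 M' hq hqM) x a b hb hab)
    S₀ hle (Ecl.ε CfmCusp.zero) (ta1Incl A (cfmK1 A ζ CfmCusp.zero)) (cfmInc A ζ CfmCusp.zero)
    (cfmInc_injective A ζ CfmCusp.zero) (ta1Iota_eq_tovIota' A (cfmK1 A ζ CfmCusp.zero))
    (cfmEx A M' q hq hqM ζ hζ CfmCusp.zero) (fun _ => rfl) (cfmPi A q ζ CfmCusp.zero)
    (xpfTheta A q ζ hA CfmCusp.zero) (xpfTheta_pi A q ζ hA CfmCusp.zero)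
    (hOV CfmCusp.zero) (hε CfmCusp.zero)

include hOV hε in
/-- the middle cusp -/
theorem h0w_cuspMid (hle : S₀.O ≤ (h0wS A M' q hq hqM hA ζ hζq hζ R hR).vMid.O.toSubring) :
    H0Cusp S₀.O S₀.red (Ecl.ε CfmCusp.mid)
      (h0cRv (h0wS A M' q hq hqM hA ζ hζq hζ R hR).vMid hle)
      (cfmInc A ζ CfmCusp.mid) (cfmEx A M' q hq hqM ζ hζ CfmCusp.mid)
      (cfmPi A q ζ CfmCusp.mid) (xpfTheta A q ζ hA CfmCusp.mid) :=
  h0w_cusp (vmidSV A hq ((A.mem_nonunits_iff).mp hA) hζq (h0w_isMidExp M' q hq hqM ζ hζ))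
    (modularFunctionFieldFullC (IsLocalRing.ResidueField A) M')
    (vmid_hinto A hq hqM hA hζq hζ (h0w_isMidExp M' q hq hqM ζ hζ))
    (vmid_honto A hq hA hζq (h0w_isMidExp M' q hq hqM ζ hζ))
    (cfmEc M' q hq hqM ζ hζ CfmCusp.mid)
    (fun x a b hb hab => vmid_bridge A hq ((A.mem_nonunits_iff).mp hA) hζq
      (h0w_isMidExp M' q hq hqM ζ hζ) x a b hb hab)
    S₀ hle (Ecl.ε CfmCusp.mid) (ta1Incl A (cfmK1 A ζ CfmCusp.mid)) (cfmInc A ζ CfmCusp.mid)
    (cfmInc_injective A ζ CfmCusp.mid) (ta1Iota_eq_tovIota' A (cfmK1 A ζ CfmCusp.mid))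
    (cfmEx A M' q hq hqM ζ hζ CfmCusp.mid) (fun _ => rfl) (cfmPi A q ζ CfmCusp.mid)
    (xpfTheta A q ζ hA CfmCusp.mid) (xpfTheta_pi A q ζ hA CfmCusp.mid)
    (hOV CfmCusp.mid) (hε CfmCusp.mid)

variable (ζ₀ : Kbarˣ) (hζ₀ : IsPrimitiveRoot (ζ₀ : Kbar) q)

include hOV hε in
/-- **the hypotheses `H0Conc` for the final setup and the family `cfm`**, from `G3Hyp`
(helper8), the small fields (helper20), integrality at the middle cusp (P6) and the exact
unit `x` (helper7). -/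
theorem h0w_h0Conc
    (hyp : G3Hyp (h0wS A M' q hq hqM hA ζ hζq hζ R hR) S₀ ((q : ℕ) : k0Val A) (q - 1))
    (hw : ∀ i, Ecl.w i = 1)
    (eInf : ∀ z : f0Field A (M' * q * q),
      z ∈ (h0wS A M' q hq hqM hA ζ hζq hζ R hR).vInf.O.nonunits →
      (algebraMap (k0Field A) (f0Field A (M' * q * q)) (((q : ℕ) : k0Val A) : k0Field A))⁻¹ * z
        ∈ (h0wS A M' q hq hqM hA ζ hζq hζ R hR).vInf.O)
    (eZero : ∀ z : f0Field A (M' * q * q),
      z ∈ (h0wS A M' q hq hqM hA ζ hζq hζ R hR).vZero.O.nonunits →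
      (algebraMap (k0Field A) (f0Field A (M' * q * q)) (((q : ℕ) : k0Val A) : k0Field A))⁻¹ * z
        ∈ (h0wS A M' q hq hqM hA ζ hζq hζ R hR).vZero.O)
    (eMid : ∀ z : f0Field A (M' * q * q),
      z ∈ (h0wS A M' q hq hqM hA ζ hζq hζ R hR).vMid.O.nonunits →
      (algebraMap (k0Field A) (f0Field A (M' * q * q)) (((q : ℕ) : k0Val A) : k0Field A))⁻¹ * z
        ∈ (h0wS A M' q hq hqM hA ζ hζq hζ R hR).vMid.O ∨
      ∃ j : ℕ, 0 < j ∧ j < q - 1 ∧
        ((algebraMap (k0Field A) (f0Field A (M' * q * q))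
          (((q : ℕ) : k0Val A) : k0Field A))⁻¹) ^ j * z ^ (q - 1)
            ∈ (h0wS A M' q hq hqM hA ζ hζq hζ R hR).vMid.O ∧
        ((algebraMap (k0Field A) (f0Field A (M' * q * q))
          (((q : ℕ) : k0Val A) : k0Field A))⁻¹) ^ j * z ^ (q - 1)
            ∉ (h0wS A M' q hq hqM hA ζ hζq hζ R hR).vMid.O.nonunits)
    (sat : ∀ z : f0Field A (M' * q * q), z ∈ (h0wS A M' q hq hqM hA ζ hζq hζ R hR).B →
      ∀ j : ℕ, ((algebraMap (k0Field A) (f0Field A (M' * q * q))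
          (((q : ℕ) : k0Val A) : k0Field A))⁻¹) ^ j * z
            ∈ (h0wS A M' q hq hqM hA ζ hζq hζ R hR).ball →
        ((algebraMap (k0Field A) (f0Field A (M' * q * q))
          (((q : ℕ) : k0Val A) : k0Field A))⁻¹) ^ j * z
            ∈ (h0wS A M' q hq hqM hA ζ hζq hζ R hR).B)
    (node : (h0wS A M' q hq hqM hA ζ hζq hζ R hR).pInf ⊔
      (h0wS A M' q hq hqM hA ζ hζq hζ R hR).pMid ⊔
        (h0wS A M' q hq hqM hA ζ hζq hζ R hR).pZero ≠ ⊤)
    (mem_B : ∀ (c : ℕ) (x : f0Field A (M' * q * q)),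
      (x : FF (M' * q * q)) ∈ riemannRochSpace (c • fbmD1 M' q hq hqM ζ₀ hζ₀) →
      x ∈ (h0wS A M' q hq hqM hA ζ hζq hζ R hR).ball →
      x ∈ (h0wS A M' q hq hqM hA ζ hζq hζ R hR).B)
    (hint : ∀ (c : ℕ) (z : S₀.O),
      ((z : f0Field A (M' * q * q)) : FF (M' * q * q)) ∈
        riemannRochSpace (c • fbmD1 M' q hq hqM ζ₀ hζ₀) →
      ∀ i, ∃ Z : PowerSeries (cfmA1 A ζ i),
        cfmEx A M' q hq hqM ζ hζ i (z : f0Field A (M' * q * q)) *
          cfmInc A ζ i (PowerSeries.X ^ (c * Ecl.w i)) = cfmInc A ζ i Z)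
    (x : S₀.O) (n₂ : ℕ) (hn₂ : 0 < n₂)
    (hxL : ((x : f0Field A (M' * q * q)) : FF (M' * q * q)) ∈
      riemannRochSpace (n₂ • fbmD1 M' q hq hqM ζ₀ hζ₀))
    (hxu : ∀ i, IsUnit ((Ecl.ε i (S₀.red x)).coeff (-((n₂ * Ecl.w i : ℕ) : ℤ)))) :
    H0Conc (h0wS A M' q hq hqM hA ζ hζq hζ R hR) S₀ ((q : ℕ) : k0Val A) (q - 1)
      (bcDataF0 S₀) (infPlaceC (IsLocalRing.ResidueField A) M') Ecl
      (fbmD1 M' q hq hqM ζ₀ hζ₀) hyp CfmCusp.inf CfmCusp.mid CfmCusp.zero
      (cfmInc A ζ CfmCusp.inf) (cfmEx A M' q hq hqM ζ hζ CfmCusp.inf)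
      (cfmPi A q ζ CfmCusp.inf) (xpfTheta A q ζ hA CfmCusp.inf)
      (cfmInc A ζ CfmCusp.mid) (cfmEx A M' q hq hqM ζ hζ CfmCusp.mid)
      (cfmPi A q ζ CfmCusp.mid) (xpfTheta A q ζ hA CfmCusp.mid)
      (cfmInc A ζ CfmCusp.zero) (cfmEx A M' q hq hqM ζ hζ CfmCusp.zero)
      (cfmPi A q ζ CfmCusp.zero) (xpfTheta A q ζ hA CfmCusp.zero) where
  hQ := fun f => infPlaceC_ord (IsLocalRing.ResidueField A) M' f
  eInf := eInf
  eZero := eZero
  eMid := eMid
  sat := sat
  node := node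
  hD := fun v => fbmD1_nonneg M' q hq hqM ζ₀ hζ₀ v
  mem_B := mem_B
  wI := by rw [hw]
  wM := by rw [hw]
  wZ := by rw [hw]
  deg := by
    rw [fbmD1_degree, hw, hw, hw]
    have h1 := hq.one_lt
    push_cast [Nat.cast_sub h1.le]
    linarith
  cuspI := h0w_cuspInf A M' q hq hqM hA ζ hζq hζ R hR S₀ Ecl hOV hε hyp.le_inf
  cuspM := h0w_cuspMid A M' q hq hqM hA ζ hζq hζ R hR S₀ Ecl hOV hε hyp.le_mid
  cuspZ := h0w_cuspZero A M' q hq hqM hA ζ hζq hζ R hR S₀ Ecl hOV hε hyp.le_zero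
  ιM_injective := cfmInc_injective A ζ CfmCusp.mid
  unif := xpf_unif A q hq ζ hζ hA M' hqM
  int := fun c z hz => by
    obtain ⟨Z, hZ⟩ := hint c z hz CfmCusp.mid
    exact ⟨_, Z, hZ⟩
  exact := ⟨x, n₂, hn₂, hxL, hxu⟩

/-- **(H0)** = the hypothesis `hh0` of `ctl_kummer_FF` / `ctl_a2crux` for the final setup, the
family `cfm` and `D₁ = fbmD1`, in its exact shape. -/
theorem h0w_hh0
    (hyp : G3Hyp (h0wS A M' q hq hqM hA ζ hζq hζ R hR) S₀ ((q : ℕ) : k0Val A) (q - 1))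
    (H : H0Conc (h0wS A M' q hq hqM hA ζ hζq hζ R hR) S₀ ((q : ℕ) : k0Val A) (q - 1)
      (bcDataF0 S₀) (infPlaceC (IsLocalRing.ResidueField A) M') Ecl
      (fbmD1 M' q hq hqM ζ₀ hζ₀) hyp CfmCusp.inf CfmCusp.mid CfmCusp.zero
      (cfmInc A ζ CfmCusp.inf) (cfmEx A M' q hq hqM ζ hζ CfmCusp.inf)
      (cfmPi A q ζ CfmCusp.inf) (xpfTheta A q ζ hA CfmCusp.inf)
      (cfmInc A ζ CfmCusp.mid) (cfmEx A M' q hq hqM ζ hζ CfmCusp.mid)
      (cfmPi A q ζ CfmCusp.mid) (xpfTheta A q ζ hA CfmCusp.mid)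
      (cfmInc A ζ CfmCusp.zero) (cfmEx A M' q hq hqM ζ hζ CfmCusp.zero)
      (cfmPi A q ζ CfmCusp.zero) (xpfTheta A q ζ hA CfmCusp.zero)) :
    ∀ (c : ℕ) (y : S₀.O),
      ((y : f0Field A (M' * q * q)) : FF (M' * q * q)) ∈
        riemannRochSpace (c • fbmD1 M' q hq hqM ζ₀ hζ₀) →
      S₀.red y ∈ Ecl.P 0 →
      S₀.red y ∈ Set.range (algebraMap (IsLocalRing.ResidueField A) Rr) := by
  haveI : IsAlgClosed (IsLocalRing.ResidueField A) := isAlgClosed_residueField A
  haveI : RRHyp Kbar (FF (M' * q * q)) := mod_rrHyp (M' * q * q)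
  haveI : RRHyp (IsLocalRing.ResidueField A)
      ↥(modularFunctionFieldFullC (IsLocalRing.ResidueField A) M') :=
    mr_rrHyp (IsLocalRing.ResidueField A) M'
  intro c y hy hP
  exact H.hh0 c y hy hP

end Final

end Fermat.Agent.S36lib

end
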