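/-
Item 83 (S36), piece K0-3 = INV-REP / descent (D) (helper4).

Abstract part (`K`, `F` with `RRBase`/`RRHyp`, `P₀` a place):
* `IsMinRep P₀ E` : `E ≥ 0` and `L(E − P₀) = 0`;
* `IsMinRep.const` : `L(E)` consists of constants;
* `IsMinRep.eq_of_sub_mem_principal` : `E' ≥ 0`, `E' ∼ E` ⟹ `E' = E`;
* `IsMinRep.smul`, `IsMinRep.smul_eq` : a semilinear automorphism fixing `P₀` and the class of
  `E − r P₀` fixes `E`;
* `invrep_exists` : every class of degree `0` is `[E − r P₀]` with `E` minimal.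

Concrete part (`F = FF M`, `P₀ = ∞`):
* `invRep_descent_full`, `invRep_descent_set`, `invRep_descent` **(D)**: a nonzero `f` all of whose orders are divisible
  by `m` and which is Kummer-fixed by a set `G` of Galois automorphisms (`σ f / f = c s ^ m`) is
  `c · f0 · s ^ m` with `σ f0 = f0` for all `σ ∈ G`.  (Normalisation: leading coefficient `1` at
  `∞`; no Hilbert 90.)
-/
import Mathlib
import Fermat.Agent.RRlib.Cor
import Fermat.Agent.RRlib.Modular
import Fermat.Agent.S36lib.Defs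
import Fermat.Agent.S34lib.GalRR

set_option autoImplicit false

noncomputable section

namespace Fermat.Agent.S36lib

open ModularCurve AlgebraicCurve HahnSeries Fermat.Agent.S24lib Fermat.Agent.S34lib
  Fermat.Agent.RRlib

section Abstract

variable {K F : Type*} [Field K] [Field F] [Algebra K F]

/-- `E ≥ 0` is a *minimal representative* relative to `P₀`: `L(E − P₀) = 0`. -/
def IsMinRep (P₀ : Place K F) (E : Divisor K F) : Prop :=
  0 ≤ E ∧ riemannRochSpace (K := K) (E - Finsupp.single P₀ 1) = ⊥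

namespace IsMinRep

variable {P₀ : Place K F} {E E' : Divisor K F}

theorem nonneg (h : IsMinRep P₀ E) : 0 ≤ E := h.1

/-- `1 ∈ L(E)` -/
theorem one_mem (h : IsMinRep P₀ E) : (1 : F) ∈ riemannRochSpace (K := K) E := by
  rw [mem_riemannRochSpace_iff]
  intro v
  right
  have h0 : (0 : ℤ) ≤ E v := Finsupp.le_def.mp h.1 v
  rw [Place.ord_one]
  omega

/-- `L(E)` consists of constants -/
theorem const [RRBase K F] (h : IsMinRep P₀ E) {u : F}
    (hu : u ∈ riemannRochSpace (K := K) E) : ∃ c : K, u = algebraMap K F c := by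
  classical
  haveI := finite_riemannRochSpace (K := K) E
  have hle : E - Finsupp.single P₀ 1 ≤ E := by
    rw [Finsupp.le_def]
    intro v
    rw [Finsupp.sub_apply]
    have : (0 : ℤ) ≤ (Finsupp.single P₀ (1 : ℤ)) v := by
      rw [Finsupp.single_apply]
      split_ifs <;> norm_num
    omega
  have h1 := ell_le_ell_add (K := K) hle
  have h2 : ell (E - Finsupp.single P₀ 1) = 0 := by
    rw [ell, h.2]
    exact finrank_bot K F
  have h3 : Divisor.degree E - Divisor.degree (E - Finsupp.single P₀ 1) = 1 := by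
    rw [map_sub, degree_single_one]
    ring
  rw [h2, h3] at h1
  have h4 : Module.finrank K (riemannRochSpace (K := K) E) ≤ 1 := by
    have : (ell E : ℤ) ≤ 1 := by simpa using h1
    exact_mod_cast this
  obtain ⟨v₀, hv₀⟩ := finrank_le_one_iff.mp h4
  obtain ⟨c₁, hc₁⟩ := hv₀ ⟨1, h.one_mem⟩
  obtain ⟨c₂, hc₂⟩ := hv₀ ⟨u, hu⟩
  have hc₁' : c₁ • (v₀ : F) = 1 := congrArg Subtype.val hc₁
  have hc₂' : c₂ • (v₀ : F) = u := congrArg Subtype.val hc₂
  have hc₁0 : c₁ ≠ 0 := by
    rintro rfl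
    rw [zero_smul] at hc₁'
    exact zero_ne_one hc₁'
  have hv : (v₀ : F) = c₁⁻¹ • (1 : F) := by
    rw [← hc₁', smul_smul, inv_mul_cancel₀ hc₁0, one_smul]
  refine ⟨c₂ * c₁⁻¹, ?_⟩
  rw [← hc₂', hv, smul_smul, Algebra.algebraMap_eq_smul_one]

/-- an effective divisor linearly equivalent to a minimal representative is equal to it -/
theorem eq_of_sub_mem_principal [RRBase K F] (h : IsMinRep P₀ E) (hE' : 0 ≤ E')
    (hp : E' - E ∈ Divisor.principal (K := K) (F := F)) : E' = E := by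
  obtain ⟨u, hu0, hu⟩ := hp
  have humem : u ∈ riemannRochSpace (K := K) E := by
    rw [mem_riemannRochSpace_iff]
    intro v
    right
    have h1 := hu v
    rw [Finsupp.sub_apply] at h1
    have h0 : (0 : ℤ) ≤ E' v := Finsupp.le_def.mp hE' v
    omega
  obtain ⟨c, rfl⟩ := h.const humem
  ext v
  have h1 := hu v
  rw [Finsupp.sub_apply, uk_ord_const] at h1
  omega

/-- a semilinear automorphism fixing `P₀` preserves minimal representatives -/
theorem smul (h : IsMinRep P₀ E) (g : SemilinearAut K F) (hg : g • P₀ = P₀) :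
    IsMinRep P₀ (g • E) := by
  refine ⟨?_, ?_⟩
  · rw [Finsupp.le_def]
    intro v
    rw [SemilinearAut.divisor_smul_apply]
    exact Finsupp.le_def.mp h.1 _
  · rw [eq_bot_iff]
    intro u hu
    rw [Submodule.mem_bot]
    have e : g • E - Finsupp.single P₀ 1 = g • (E - Finsupp.single P₀ 1) := by
      rw [smul_sub, SemilinearAut.smul_single, hg]
    rw [e] at hu
    have h1 := inred_smul_mem_riemannRochSpace g⁻¹ hu
    rw [inv_smul_smul, h.2, Submodule.mem_bot] at h1
    have := congrArg (g • ·) h1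
    simpa using this

/-- **invariance**: `g` fixes `P₀` and the class of `E − r P₀` ⟹ `g • E = E` -/
theorem smul_eq [RRBase K F] (h : IsMinRep P₀ E) (g : SemilinearAut K F) (hg : g • P₀ = P₀)
    (hp : g • E - E ∈ Divisor.principal (K := K) (F := F)) : g • E = E :=
  h.eq_of_sub_mem_principal (h.smul g hg).1 hp

end IsMinRep

/-- **existence of the minimal representative**: every divisor `D₀` of degree `0` is
`E − r P₀ − div h` with `E` minimal. -/
theorem invrep_exists [RRHyp K F] (P₀ : Place K F) (D₀ : Divisor K F)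
    (hD₀ : Divisor.degree D₀ = 0) :
    ∃ (r : ℕ) (E : Divisor K F) (h : F), h ≠ 0 ∧ IsMinRep P₀ E ∧
      ∀ v : Place K F, E v = D₀ v + (r : ℤ) * (Finsupp.single P₀ (1 : ℤ)) v + v.ord h := by
  classical
  -- the set of `r` with `L(D₀ + r P₀) ≠ 0` is nonempty
  have hex : ∃ r : ℕ, riemannRochSpace (K := K) (D₀ + (r : ℤ) • Finsupp.single P₀ (1 : ℤ)) ≠ ⊥ := by
    refine ⟨genusFF K F, fun hbot => ?_⟩
    have h1 := riemann_inequality (K := K) (D₀ + (genusFF K F : ℤ) • Finsupp.single P₀ (1 : ℤ))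
    rw [map_add, hD₀, map_zsmul, degree_single_one, ell, hbot, finrank_bot] at h1
    simp at h1
  set r := Nat.find hex with hr
  have hrne := Nat.find_spec hex
  obtain ⟨h, hhmem, hh0⟩ := Submodule.exists_mem_ne_zero_of_ne_bot hrne
  have hord : ∀ v : Place K F,
      -(D₀ v + (r : ℤ) * (Finsupp.single P₀ (1 : ℤ)) v) ≤ v.ord h := by
    intro v
    have := (mem_riemannRochSpace_iff.mp hhmem v).resolve_left hh0
    rwa [Finsupp.add_apply, Finsupp.smul_apply, smul_eq_mul] at this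
  set E : Divisor K F := D₀ + (r : ℤ) • Finsupp.single P₀ (1 : ℤ) + divOf (K := K) h with hE
  have hEv : ∀ v : Place K F,
      E v = D₀ v + (r : ℤ) * (Finsupp.single P₀ (1 : ℤ)) v + v.ord h := by
    intro v
    rw [hE, Finsupp.add_apply, Finsupp.add_apply, Finsupp.smul_apply, smul_eq_mul,
      divOf_apply hh0]
  refine ⟨r, E, h, hh0, ⟨?_, ?_⟩, hEv⟩
  · rw [Finsupp.le_def]
    intro v
    rw [hEv v, Finsupp.zero_apply]
    have := hord v
    omega
  · rw [eq_bot_iff]
    intro u hu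
    rw [Submodule.mem_bot]
    by_contra hu0
    have huv : ∀ v : Place K F, -(E v - (Finsupp.single P₀ (1 : ℤ)) v) ≤ v.ord u := by
      intro v
      have := (mem_riemannRochSpace_iff.mp hu v).resolve_left hu0
      rwa [Finsupp.sub_apply] at this
    have huh0 : u * h ≠ 0 := mul_ne_zero hu0 hh0
    -- `u h ∈ L(D₀ + (r − 1) P₀)`
    have key : ∀ v : Place K F,
        -(D₀ v + ((r : ℤ) - 1) * (Finsupp.single P₀ (1 : ℤ)) v) ≤ v.ord (u * h) := by
      intro v
      rw [v.ord_mul hu0 hh0]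
      have h1 := huv v
      rw [hEv v] at h1
      linarith
    rcases Nat.eq_zero_or_pos r with hr0 | hrpos
    · -- `r = 0`: negative degree
      have hmem : u * h ∈ riemannRochSpace (K := K) (D₀ - Finsupp.single P₀ (1 : ℤ)) := by
        rw [mem_riemannRochSpace_iff]
        intro v
        right
        have := key v
        rw [hr0] at this
        rw [Finsupp.sub_apply]
        simp only [Nat.cast_zero, zero_sub, neg_mul, one_mul] at this
        linarith
      have hdeg : Divisor.degree (D₀ - Finsupp.single P₀ (1 : ℤ)) < 0 := by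
        rw [map_sub, hD₀, degree_single_one]
        norm_num
      rw [riemannRochSpace_eq_bot_of_degree_neg hdeg, Submodule.mem_bot] at hmem
      exact huh0 hmem
    · -- `r ≥ 1`: contradiction with minimality
      have hlt : r - 1 < r := by omega
      apply Nat.find_min hex hlt
      intro hbot
      have hmem : u * h ∈ riemannRochSpace (K := K)
          (D₀ + ((r - 1 : ℕ) : ℤ) • Finsupp.single P₀ (1 : ℤ)) := by
        rw [mem_riemannRochSpace_iff]
        intro v
        right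
        have := key v
        rw [Finsupp.add_apply, Finsupp.smul_apply, smul_eq_mul]
        have hcast : ((r - 1 : ℕ) : ℤ) = (r : ℤ) - 1 := by
          rw [Nat.cast_sub hrpos]
          simp
        rw [hcast]
        exact this
      rw [hbot, Submodule.mem_bot] at hmem
      exact huh0 hmem

/-- a divisor `D` of degree `0` with `div f = m D` -/
theorem invrep_exists_div [RRBase K F] {f : F} (hf : f ≠ 0) {m : ℕ} (hm : m ≠ 0)
    (hdiv : ∀ P : Place K F, (m : ℤ) ∣ P.ord f) :
    ∃ D : Divisor K F, (∀ v : Place K F, v.ord f = m * D v) ∧ Divisor.degree D = 0 := by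
  set D : Divisor K F := (divOf (K := K) f).mapRange (fun n => n / (m : ℤ)) (by simp) with hD
  have hDv : ∀ v : Place K F, v.ord f = m * D v := by
    intro v
    rw [hD, Finsupp.mapRange_apply, divOf_apply hf]
    exact (Int.mul_ediv_cancel' (hdiv v)).symm
  refine ⟨D, hDv, ?_⟩
  have h1 : m • D = divOf (K := K) f := by
    ext v
    rw [Finsupp.smul_apply, divOf_apply hf, hDv, nsmul_eq_mul]
  have h2 : (m : ℤ) * Divisor.degree D = 0 := by
    rw [← nsmul_eq_mul, ← map_nsmul, h1, degree_divOf]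
  rcases mul_eq_zero.mp h2 with h | h
  · exact absurd (by exact_mod_cast h) hm
  · exact h

end Abstract

section Concrete

variable (M : ℕ) [NeZero M]

omit [NeZero M] in
theorem invrep_coeff_algebraMap_mul (c : Kbar) (x : FF M) (n : ℤ) :
    ((algebraMap Kbar (FF M) c * x : FF M) : LaurentSeries Kbar).coeff n
      = c * (x : LaurentSeries Kbar).coeff n := by
  have h1 : ((algebraMap Kbar (FF M) c * x : FF M) : LaurentSeries Kbar)
      = HahnSeries.C c * (x : LaurentSeries Kbar) := by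
    show algebraMap Kbar (LaurentSeries Kbar) c * (x : LaurentSeries Kbar) = _
    rw [algebraMap_laurentSeries_eq_single, HahnSeries.C_apply]
  rw [h1, HahnSeries.C_mul_eq_smul, HahnSeries.coeff_smul, smul_eq_mul]

omit [NeZero M] in
theorem invrep_coeff_smul (σ : Kbar ≃ₐ[ℚ] Kbar) (x : FF M) (n : ℤ) :
    ((galFF M σ • x : FF M) : LaurentSeries Kbar).coeff n
      = σ ((x : LaurentSeries Kbar).coeff n) := by
  rw [coe_arithmeticGalois_smul]
  rfl

set_option maxHeartbeats 800000 in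
/-- **K0-3 (D)**, full form: the invariant function `f0` has divisor `m (E − r ∞)` with `E ≥ 0`
the minimal representative, which is `G`-invariant. -/
theorem invRep_descent_full (m : ℕ) (hm : 0 < m) (G : Set (Kbar ≃ₐ[ℚ] Kbar))
    {f : FF M} (hf : f ≠ 0) (hdiv : ∀ P : Place Kbar (FF M), (m : ℤ) ∣ P.ord f)
    (hfix : ∀ σ ∈ G, ∃ (c : Kbar) (s : FF M),
      galFF M σ • f / f = algebraMap Kbar (FF M) c * s ^ m) :
    ∃ (c : Kbar) (f0 s : FF M) (E : Divisor Kbar (FF M)) (r : ℕ), c ≠ 0 ∧ f0 ≠ 0 ∧ s ≠ 0 ∧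
      f = algebraMap Kbar (FF M) c * f0 * s ^ m ∧
      (∀ σ ∈ G, galFF M σ • f0 = f0) ∧
      IsMinRep (infPlaceBar M) E ∧ (∀ σ ∈ G, galFF M σ • E = E) ∧
      (∀ v : Place Kbar (FF M),
        v.ord f0 = m * (E v - (r : ℤ) * (Finsupp.single (infPlaceBar M) (1 : ℤ)) v)) := by
  classical
  haveI : RRHyp Kbar (FF M) := mod_rrHyp M
  have hm0 : m ≠ 0 := hm.ne'
  have hmZ : (m : ℤ) ≠ 0 := by exact_mod_cast hm0
  obtain ⟨D₀, hD₀, hdeg⟩ := invrep_exists_div (K := Kbar) hf hm0 hdiv
  obtain ⟨r, E, h, hh0, hE, hEv⟩ := invrep_exists (infPlaceBar M) D₀ hdeg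
  -- the single at `∞` is Galois-invariant
  have hsingle : ∀ (σ : Kbar ≃ₐ[ℚ] Kbar) (v : Place Kbar (FF M)),
      (Finsupp.single (infPlaceBar M) (1 : ℤ)) ((galFF M σ)⁻¹ • v)
        = (Finsupp.single (infPlaceBar M) (1 : ℤ)) v := by
    intro σ v
    rw [← SemilinearAut.divisor_smul_apply, SemilinearAut.smul_single, galFF_smul_infPlaceBar]
  -- `f1 = f h^m`
  set f1 : FF M := f * h ^ m with hf1
  have hhm0 : h ^ m ≠ 0 := pow_ne_zero _ hh0
  have hf10 : f1 ≠ 0 := mul_ne_zero hf hhm0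
  have hf1v : ∀ v : Place Kbar (FF M),
      v.ord f1 = m * (E v - (r : ℤ) * (Finsupp.single (infPlaceBar M) (1 : ℤ)) v) := by
    intro v
    rw [hf1, v.ord_mul hf hhm0, Fermat.Agent.S18lib.ord_pow_nat, hD₀ v, hEv v]
    ring
  -- invariance of `E`
  have hinv : ∀ σ ∈ G, galFF M σ • E = E := by
    intro σ hσ
    obtain ⟨c, s, hcs⟩ := hfix σ hσ
    set g := galFF M σ with hg
    have hgf0 : g • f ≠ 0 := by simpa using hf
    have hgh0 : g • h ≠ 0 := by simpa using hh0
    have hw0 : g • f / f ≠ 0 := div_ne_zero hgf0 hf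
    have hc0 : algebraMap Kbar (FF M) c ≠ 0 := by
      intro h0
      rw [hcs, h0, zero_mul] at hw0
      exact hw0 rfl
    have hs0 : s ≠ 0 := by
      intro h0
      rw [hcs, h0, zero_pow hm0, mul_zero] at hw0
      exact hw0 rfl
    apply hE.smul_eq g (galFF_smul_infPlaceBar M σ)
    refine ⟨s * (g • h / h), mul_ne_zero hs0 (div_ne_zero hgh0 hh0), fun v => ?_⟩
    rw [Finsupp.sub_apply, SemilinearAut.divisor_smul_apply, hEv, hEv, hsingle σ v,
      v.ord_mul hs0 (div_ne_zero hgh0 hh0), uk_ord_div v hgh0 hh0, uk_ord_smul' g v h]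
    -- `D₀ (g⁻¹ v) = D₀ v + ord_v s`
    have h1 : v.ord (g • f / f) = (m : ℤ) * v.ord s := by
      rw [hcs, v.ord_mul hc0 (pow_ne_zero _ hs0), Fermat.Agent.S18lib.ord_pow_nat,
        uk_ord_const, zero_add]
    rw [uk_ord_div v hgf0 hf, uk_ord_smul' g v f, hD₀, hD₀] at h1
    have h2 : (m : ℤ) * (D₀ (g⁻¹ • v) - D₀ v) = (m : ℤ) * v.ord s := by
      rw [← h1]
      ring
    have h3 := mul_left_cancel₀ hmZ h2
    linarith
  -- normalisation at `∞`
  set n : ℤ := ((f1 : FF M) : LaurentSeries Kbar).order with hn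
  set a : Kbar := ((f1 : FF M) : LaurentSeries Kbar).coeff n with ha
  have hf1L : ((f1 : FF M) : LaurentSeries Kbar) ≠ 0 := fun h0 => hf10 (Subtype.ext h0)
  have ha0 : a ≠ 0 := HahnSeries.coeff_order_eq_zero.not.mpr hf1L
  have haF : algebraMap Kbar (FF M) a ≠ 0 := (map_ne_zero _).mpr ha0
  have haiF : algebraMap Kbar (FF M) a⁻¹ ≠ 0 := (map_ne_zero _).mpr (inv_ne_zero ha0)
  set f0 : FF M := algebraMap Kbar (FF M) a⁻¹ * f1 with hf0
  have hf00 : f0 ≠ 0 := mul_ne_zero haiF hf10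
  have hf0n : ((f0 : FF M) : LaurentSeries Kbar).coeff n = 1 := by
    rw [hf0, invrep_coeff_algebraMap_mul, ← ha, inv_mul_cancel₀ ha0]
  have hf0v : ∀ v : Place Kbar (FF M),
      v.ord f0 = m * (E v - (r : ℤ) * (Finsupp.single (infPlaceBar M) (1 : ℤ)) v) := by
    intro v
    rw [hf0, v.ord_mul haiF hf10, uk_ord_const, zero_add, hf1v]
  refine ⟨a, f0, h⁻¹, E, r, ha0, hf00, inv_ne_zero hh0, ?_, ?_, hE, hinv, hf0v⟩
  · rw [hf0, hf1, inv_pow]
    have e : algebraMap Kbar (FF M) a * (algebraMap Kbar (FF M) a⁻¹ * (f * h ^ m)) * (h ^ m)⁻¹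
        = (algebraMap Kbar (FF M) a * algebraMap Kbar (FF M) a⁻¹) * f
            * (h ^ m * (h ^ m)⁻¹) := by ring
    rw [e, ← map_mul, mul_inv_cancel₀ ha0, map_one, mul_inv_cancel₀ hhm0, one_mul, mul_one]
  · intro σ hσ
    set g := galFF M σ with hg
    have hgE := hinv σ hσ
    have hgf00 : g • f0 ≠ 0 := by simpa using hf00
    -- `g f0 / f0` is regular everywhere, hence constant
    have hreg : ∀ v : Place Kbar (FF M), 0 ≤ v.ord (g • f0 / f0) := by
      intro v
      rw [uk_ord_div v hgf00 hf00, uk_ord_smul' g v f0, hf0v, hf0v, hsingle σ v,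
        ← SemilinearAut.divisor_smul_apply, hgE]
      simp
    obtain ⟨c, hc⟩ := RRBase.const_of_forall_ord_nonneg (K := Kbar) (g • f0 / f0) hreg
    have hgf : g • f0 = algebraMap Kbar (FF M) c * f0 := by
      rw [hc, div_mul_cancel₀ _ hf00]
    have h1 := invrep_coeff_smul M σ f0 n
    rw [← hg, hgf, invrep_coeff_algebraMap_mul, hf0n, map_one, mul_one] at h1
    rw [hgf, h1, map_one, one_mul]

/-- **K0-3 (D)**, generic in the set `G` of Galois automorphisms. -/
theorem invRep_descent_set (m : ℕ) (hm : 0 < m) (G : Set (Kbar ≃ₐ[ℚ] Kbar))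
    {f : FF M} (hf : f ≠ 0) (hdiv : ∀ P : Place Kbar (FF M), (m : ℤ) ∣ P.ord f)
    (hfix : ∀ σ ∈ G, ∃ (c : Kbar) (s : FF M),
      galFF M σ • f / f = algebraMap Kbar (FF M) c * s ^ m) :
    ∃ (c : Kbar) (f0 s : FF M), c ≠ 0 ∧ f0 ≠ 0 ∧ s ≠ 0 ∧
      f = algebraMap Kbar (FF M) c * f0 * s ^ m ∧
      (∀ σ ∈ G, galFF M σ • f0 = f0) ∧
      (∀ P : Place Kbar (FF M), (m : ℤ) ∣ P.ord f0) := by
  obtain ⟨c, f0, s, E, r, hc, hf0, hs, hfe, hfix0, -, -, hv⟩ :=
    invRep_descent_full M m hm G hf hdiv hfix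
  exact ⟨c, f0, s, hc, hf0, hs, hfe, hfix0, fun P => ⟨_, hv P⟩⟩

/-- **K0-3 (D)**: a Kummer-fixed `f` is `c · f0 · s ^ m` with `f0` fixed by the inertia group. -/
theorem invRep_descent (m : ℕ) (hm : 0 < m) (A : ValuationSubring Kbar)
    {f : FF M} (hf : f ≠ 0) (hdiv : ∀ P : Place Kbar (FF M), (m : ℤ) ∣ P.ord f)
    (hfix : IsKummerFixed M m A f) :
    ∃ (c : Kbar) (f0 s : FF M), c ≠ 0 ∧ f0 ≠ 0 ∧ s ≠ 0 ∧
      f = algebraMap Kbar (FF M) c * f0 * s ^ m ∧
      (∀ σ ∈ A.inertiaSubgroupIn ℚ, galFF M σ • f0 = f0) ∧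
      (∀ P : Place Kbar (FF M), (m : ℤ) ∣ P.ord f0) :=
  invRep_descent_set M m hm _ hf hdiv hfix

end Concrete

end Fermat.Agent.S36lib

end
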