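import Mathlib
import Fermat.Agent.S36lib.Setup

/-!
# Item 83 (S36), piece W-6 / (R3), abstract part (helper18): dimension one without Dedekind

`κ / k` a field extension of transcendence degree `≤ 1`, in the form
`H : ∀ x, Transcendental k x → ∀ y, IsAlgebraic (Algebra.adjoin k {x}) y`.

* `ndm_exists_poly`     : `ξ` transcendental, `η` algebraic over `k[ξ]` ⟹ there is
  `G ∈ k[X][Y]` with `G(ξ, η) = 0` and `G(0, Y) ≠ 0`;
* `ndm_isMaximal`       : every prime ideal `P ≠ 0` of a `k`-subalgebra `C ⊆ κ` is maximal;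
* `ndm_isMaximal_of_ker`: for a ring homomorphism `ρ : B → κ` whose range contains `k`, every
  prime `Q ⊋ ker ρ` of `B` is maximal;
* `ndm_finite_maximal`  : if moreover `B` is Noetherian and `J ⊄ ker ρ`, the maximal ideals of
  `B` containing `ker ρ + J` are finitely many;
* `NodeSetup.ndm_finite_nodes` : **the nodes of a `NodeSetup` with Noetherian `B` are finitely
  many**, if `π` is onto and `p_0 ⊄ p_∞`.
-/

set_option autoImplicit false
set_option linter.style.haveILetI false
set_option linter.unusedSectionVars false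

noncomputable section

namespace Fermat.Agent.S36lib

open Polynomial

section Poly

variable {k κ : Type*} [Field k] [Field κ] [Algebra k κ]

/-- `ξ` transcendental over `k`, `η` algebraic over `k[ξ]` ⟹ there is `G ∈ k[X][Y]` with
`G(ξ, η) = 0` and `G(0, Y) ≠ 0`. -/
theorem ndm_exists_poly (ξ η : κ) (hξ : Transcendental k ξ)
    (hη : IsAlgebraic (Algebra.adjoin k {ξ}) η) :
    ∃ G : Polynomial (Polynomial k), G.map (evalRingHom (0 : k)) ≠ 0 ∧
      eval₂ ((aeval ξ : Polynomial k →ₐ[k] κ) : Polynomial k →+* κ) η G = 0 := by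
  classical
  letI : NormalizedGCDMonoid (Polynomial k) := Nonempty.some inferInstance
  obtain ⟨p, hp0, hp⟩ := hη
  -- the surjection `k[X] → k[ξ]`
  let ξ' : Algebra.adjoin k {ξ} := ⟨ξ, Algebra.subset_adjoin (Set.mem_singleton ξ)⟩
  let f : Polynomial k →+* Algebra.adjoin k {ξ} :=
    ((aeval ξ' : Polynomial k →ₐ[k] Algebra.adjoin k {ξ}) : Polynomial k →+* Algebra.adjoin k {ξ})
  have hfcoe : ∀ P : Polynomial k, ((f P : Algebra.adjoin k {ξ}) : κ) = aeval ξ P := by
    intro P
    exact (Subalgebra.aeval_coe (Algebra.adjoin k {ξ}) ξ' P).symm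
  have hf : Function.Surjective f := by
    rintro ⟨y, hy⟩
    rw [Algebra.adjoin_singleton_eq_range_aeval] at hy
    obtain ⟨P, hP⟩ := hy
    refine ⟨P, Subtype.ext ?_⟩
    rw [hfcoe]
    exact hP
  obtain ⟨G, hG⟩ := Polynomial.map_surjective f hf p
  have hG0 : G ≠ 0 := by
    rintro rfl
    rw [Polynomial.map_zero] at hG
    exact hp0 hG.symm
  have hcomp : (algebraMap (Algebra.adjoin k {ξ}) κ).comp f
      = ((aeval ξ : Polynomial k →ₐ[k] κ) : Polynomial k →+* κ) := by
    apply RingHom.ext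
    intro P
    exact hfcoe P
  have hGev : eval₂ ((aeval ξ : Polynomial k →ₐ[k] κ) : Polynomial k →+* κ) η G = 0 := by
    rw [← hcomp, ← Polynomial.eval₂_map, hG]
    exact hp
  -- the primitive part
  refine ⟨G.primPart, ?_, ?_⟩
  · intro h0
    have hdvd : (C (X : Polynomial k)) ∣ G.primPart := by
      rw [Polynomial.C_dvd_iff_dvd_coeff]
      intro i
      rw [Polynomial.X_dvd_iff]
      have := congrArg (fun r => r.coeff i) h0
      simp only [Polynomial.coeff_map, Polynomial.coeff_zero] at this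
      rw [Polynomial.coeff_zero_eq_eval_zero]
      exact this
    have hu : IsUnit (X : Polynomial k) := (Polynomial.isPrimitive_primPart G) X hdvd
    exact Polynomial.not_isUnit_X hu
  · have hc0 : G.content ≠ 0 := fun h => hG0 (Polynomial.content_eq_zero_iff.mp h)
    have hcξ : aeval ξ G.content ≠ 0 := fun h => hc0 ((transcendental_iff.mp hξ) _ h)
    have h1 := hGev
    rw [Polynomial.eq_C_content_mul_primPart G, Polynomial.eval₂_mul, Polynomial.eval₂_C] at h1
    rcases mul_eq_zero.mp h1 with h | h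
    · exact absurd h hcξ
    · exact h

end Poly

section Subalgebra

variable {k κ : Type*} [Field k] [Field κ] [Algebra k κ]

/-- **dimension one**: in a `k`-subalgebra of a field `κ` of transcendence degree `≤ 1` over
`k`, every nonzero prime ideal is maximal. -/
theorem ndm_isMaximal
    (H : ∀ x : κ, Transcendental k x → ∀ y : κ, IsAlgebraic (Algebra.adjoin k {x}) y)
    (C : Subalgebra k κ) (P : Ideal C) [hP : P.IsPrime] (ξ : C) (hξP : ξ ∈ P) (hξ0 : ξ ≠ 0) :
    P.IsMaximal := by
  classical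
  -- `ξ` is transcendental
  have hξt : Transcendental k (ξ : κ) := by
    intro halg
    have hinv : ((ξ : κ))⁻¹ ∈ C := C.inv_mem_of_algebraic halg
    have h1 : (1 : C) ∈ P := by
      have : (1 : C) = ξ * ⟨((ξ : κ))⁻¹, hinv⟩ := by
        apply Subtype.ext
        have hne : (ξ : κ) ≠ 0 := fun h => hξ0 (Subtype.ext h)
        simp [hne]
      rw [this]
      exact P.mul_mem_right _ hξP
    exact hP.ne_top ((Ideal.eq_top_iff_one P).mpr h1)
  -- the quotient is algebraic over `k`
  have halg : Algebra.IsAlgebraic k (C ⧸ P) := by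
    refine ⟨fun z => ?_⟩
    obtain ⟨η, rfl⟩ := Ideal.Quotient.mk_surjective z
    obtain ⟨G, hG0, hG⟩ := ndm_exists_poly (ξ : κ) (η : κ) hξt (H _ hξt _)
    refine ⟨G.map (evalRingHom (0 : k)), hG0, ?_⟩
    -- evaluate in `C`
    have hC : eval₂ ((aeval ξ : Polynomial k →ₐ[k] C) : Polynomial k →+* C) η G = 0 := by
      apply Subtype.ext
      have h1 : ((eval₂ ((aeval ξ : Polynomial k →ₐ[k] C) : Polynomial k →+* C) η G : C) : κ)
          = eval₂ ((aeval (ξ : κ) : Polynomial k →ₐ[k] κ) : Polynomial k →+* κ) (η : κ) G := by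
        have h2 := Polynomial.hom_eval₂ G
          ((aeval ξ : Polynomial k →ₐ[k] C) : Polynomial k →+* C) (C.val : C →+* κ) η
        have h3 : (C.val : C →+* κ).comp ((aeval ξ : Polynomial k →ₐ[k] C) : Polynomial k →+* C)
            = ((aeval (ξ : κ) : Polynomial k →ₐ[k] κ) : Polynomial k →+* κ) := by
          apply RingHom.ext
          intro Q
          exact (Subalgebra.aeval_coe C ξ Q).symm
        rw [h3] at h2
        exact h2
      rw [h1, hG]
      rfl
    have hq := congrArg (Ideal.Quotient.mk P) hC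
    rw [map_zero, Polynomial.hom_eval₂] at hq
    have h4 : (Ideal.Quotient.mk P).comp ((aeval ξ : Polynomial k →ₐ[k] C) : Polynomial k →+* C)
        = (algebraMap k (C ⧸ P)).comp (evalRingHom (0 : k)) := by
      apply Polynomial.ringHom_ext
      · intro a
        simp only [RingHom.comp_apply, AlgHom.coe_toRingHom, aeval_C, coe_evalRingHom, eval_C]
        rfl
      · simp only [RingHom.comp_apply, AlgHom.coe_toRingHom, aeval_X, coe_evalRingHom, eval_X,
          map_zero]
        exact Ideal.Quotient.eq_zero_iff_mem.mpr hξP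
    rw [h4, ← Polynomial.eval₂_map] at hq
    exact hq
  haveI : IsDomain (C ⧸ P) := Ideal.Quotient.isDomain P
  haveI : Algebra.IsIntegral k (C ⧸ P) := Algebra.IsAlgebraic.isIntegral
  have hfield : IsField (C ⧸ P) :=
    isField_of_isIntegral_of_isField' (Field.toIsField k)
  exact Ideal.Quotient.maximal_of_isField P hfield

end Subalgebra

section Ker

variable {k κ : Type*} [Field k] [Field κ] [Algebra k κ] {B : Type*} [CommRing B]

/-- **dimension one for `B ⧸ ker ρ`**: `ρ : B → κ` a ring homomorphism whose range contains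
`k`; every prime ideal of `B` containing `ker ρ` and an element outside `ker ρ` is maximal. -/
theorem ndm_isMaximal_of_ker
    (H : ∀ x : κ, Transcendental k x → ∀ y : κ, IsAlgebraic (Algebra.adjoin k {x}) y)
    (ρ : B →+* κ) (hk : ∀ c : k, ∃ b : B, ρ b = algebraMap k κ c)
    (Q : Ideal B) [hQ : Q.IsPrime] (hle : RingHom.ker ρ ≤ Q) (x : B) (hxQ : x ∈ Q)
    (hx : ρ x ≠ 0) : Q.IsMaximal := by
  classical
  let C : Subalgebra k κ :=
    { ρ.range.toSubsemiring with
      algebraMap_mem' := fun c => by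
        obtain ⟨b, hb⟩ := hk c
        exact ⟨b, hb⟩ }
  have hmemC : ∀ b : B, ρ b ∈ C := fun b => ⟨b, rfl⟩
  let f : B →+* C := RingHom.codRestrict ρ C hmemC
  have hfcoe : ∀ b : B, ((f b : C) : κ) = ρ b := fun b => rfl
  have hf : Function.Surjective f := by
    rintro ⟨y, b, hb⟩
    exact ⟨b, Subtype.ext hb⟩
  have hker : RingHom.ker f ≤ Q := by
    intro b hb
    apply hle
    rw [RingHom.mem_ker] at hb ⊢
    rw [← hfcoe, hb]
    rfl
  haveI hP : (Q.map f).IsPrime := Ideal.map_isPrime_of_surjective hf hker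
  have hξ0 : f x ≠ 0 := by
    intro h
    apply hx
    rw [← hfcoe, h]
    rfl
  haveI hmax : (Q.map f).IsMaximal :=
    ndm_isMaximal H C (Q.map f) (f x) (Ideal.mem_map_of_mem f hxQ) hξ0
  have hcomap : (Q.map f).comap f = Q := by
    rw [Ideal.comap_map_of_surjective f hf, ← RingHom.ker_eq_comap_bot]
    exact sup_eq_left.mpr hker
  rw [← hcomap]
  exact Ideal.comap_isMaximal_of_surjective f hf

/-- **finitely many maximal ideals over `ker ρ + J`**, for `B` Noetherian and `J ⊄ ker ρ`. -/
theorem ndm_finite_maximal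
    (H : ∀ x : κ, Transcendental k x → ∀ y : κ, IsAlgebraic (Algebra.adjoin k {x}) y)
    (ρ : B →+* κ) (hk : ∀ c : k, ∃ b : B, ρ b = algebraMap k κ c)
    [IsNoetherianRing B] (J : Ideal B) (hJ : ¬ J ≤ RingHom.ker ρ) :
    {t : Ideal B | t.IsMaximal ∧ RingHom.ker ρ ⊔ J ≤ t}.Finite := by
  classical
  have hfin : ((RingHom.ker ρ ⊔ J).minimalPrimes).Finite :=
    Ideal.finite_minimalPrimes_of_isNoetherianRing B _
  refine hfin.subset ?_
  rintro t ⟨ht, hle⟩
  refine ⟨⟨ht.isPrime, hle⟩, ?_⟩
  rintro Q ⟨hQ, hIQ⟩ hQt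
  obtain ⟨x, hxJ, hxk⟩ := Set.not_subset.mp hJ
  have hxQ : x ∈ Q := hIQ (Ideal.mem_sup_right hxJ)
  have hx : ρ x ≠ 0 := fun h => hxk ((RingHom.mem_ker).mpr h)
  have hQmax : Q.IsMaximal :=
    ndm_isMaximal_of_ker H ρ hk Q (le_sup_left.trans hIQ) x hxQ hx
  exact (hQmax.eq_of_le ht.ne_top hQt).ge

end Ker

section Node

variable {K : Type*} [Field K] {k : Type*} [Field k]
  {A : ValuationSubring K} {π : A →+* k} {κ : Type*} [Field κ] [Algebra k κ]
  {F : Type*} [Field F] [Algebra K F]

/-- **the nodes are finitely many**, for `B` Noetherian, `π` onto, `κ / k` of transcendence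
degree `≤ 1` and `p_0 ⊄ p_∞` (no Dedekind hypothesis). -/
theorem NodeSetup.ndm_finite_nodes (S : NodeSetup A π κ F) [IsNoetherianRing S.B]
    (hπ : Function.Surjective π)
    (H : ∀ x : κ, Transcendental k x → ∀ y : κ, IsAlgebraic (Algebra.adjoin k {x}) y)
    (hne : ¬ S.pZero ≤ S.pInf) : {t : Ideal S.B | S.IsNode t}.Finite :=
  ndm_finite_maximal H S.redInf
    (fun c => by
      obtain ⟨a, rfl⟩ := hπ c
      exact ⟨S.constB a, S.redInf_constB a⟩) S.pZero hne

/-- every prime of `B` strictly containing `p_∞` is maximal -/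
theorem NodeSetup.ndm_isMaximal_of_pInf_lt (S : NodeSetup A π κ F)
    (hπ : Function.Surjective π)
    (H : ∀ x : κ, Transcendental k x → ∀ y : κ, IsAlgebraic (Algebra.adjoin k {x}) y)
    (Q : Ideal S.B) [Q.IsPrime] (hlt : S.pInf < Q) : Q.IsMaximal := by
  obtain ⟨x, hxQ, hx⟩ := Set.exists_of_ssubset hlt
  exact ndm_isMaximal_of_ker H S.redInf
    (fun c => by
      obtain ⟨a, rfl⟩ := hπ c
      exact ⟨S.constB a, S.redInf_constB a⟩) Q hlt.le x hxQ
    (fun h => hx ((RingHom.mem_ker).mpr h))

end Node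

end Fermat.Agent.S36lib

end
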