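import Mathlib
import Fermat.Agent.S36lib.NodesConc
import Fermat.Agent.S36lib.Reg2Conc
import Fermat.Agent.S36lib.FibreReg
import Fermat.Agent.S36lib.D1Set
import Fermat.Agent.S36lib.VZeroQ2
import Fermat.Agent.S36lib.NodesFinite
import Fermat.Agent.S36lib.FixedF0

/-!
# Item 83 (S36), piece W-6 / (R3) (helper18): the nodes of the final setup are FINITELY many

For `S = s36Final …` (`Apply2Final.lean`), every auxiliary level `M'`:

* `s36Final_hnle'  : ¬ S.pZero ≤ S.pInf`, `s36Final_hnle : ¬ S.pInf ≤ S.pZero`  (UNCONDITIONAL);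
* `s36Final_nodes_fin : {t | S.IsNode t}.Finite` from `IsDedekindDomain (S.B ⧸ S.pInf)` (D1-Q);
* `s36Final_hnodes`   : the node list of `A2Reg` from D1-Q and (R5) (UFD at the nodes).

Route for `hnle'`: at the level `N = M' q` the sandwich `vsand_hglue` (helper21) lifts the glued
pair `(a, 0)`, `a ≠ 0` vanishing at the gluing points, to `z ∈ B_N` with `red_∞ z = a`,
`red_0 z = 0`; `α : B_N → B_M` is a map of setups (`r2cSetupMap`, helper9; regularity off `D1` by
`fbm_reg_alpha`, helper15), so `α z ∈ p_0 ∖ p_∞` at the level `M = M' q²`.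
-/

set_option autoImplicit false
set_option linter.style.haveILetI false
set_option linter.unusedSectionVars false
set_option linter.unusedVariables false
set_option synthInstance.maxHeartbeats 400000

noncomputable section

namespace Fermat.Agent.S36lib

open ModularCurve HahnSeries AlgebraicCurve
open Fermat.Agent.GoodRed Fermat.Agent.S24lib Fermat.Agent.S34lib Fermat.Agent.S37lib
  Fermat.Agent.HeckeBar Fermat.Agent.S35lib Fermat.Agent.GM Fermat.Agent.RRlib

/-! ### Abstract: a nonzero element vanishing at finitely many points -/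

section Vanish

variable {k Fk : Type*} [Field k] [Field Fk] [Algebra k Fk]

/-- a subalgebra of a field containing a nonconstant element has a nonzero element killed by
finitely many given `k`-points -/
theorem ndf_exists_vanishing_abs (B : Subalgebra k Fk) {n : ℕ} (e₁ e₂ : Fin n → B →ₐ[k] k)
    (f : Fk) (hf : f ∈ B) (hfc : f ∉ Set.range (algebraMap k Fk)) :
    ∃ a : B, a ≠ 0 ∧ (∀ i, e₁ i a = 0) ∧ ∀ i, e₂ i a = 0 := by
  classical
  have hne : ∀ c : k, (⟨f, hf⟩ : B) - algebraMap k B c ≠ 0 := by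
    intro c h
    apply hfc
    refine ⟨c, ?_⟩
    have h1 := congrArg (Subtype.val) (sub_eq_zero.mp h)
    exact h1.symm
  refine ⟨(∏ i : Fin n, ((⟨f, hf⟩ : B) - algebraMap k B (e₁ i ⟨f, hf⟩))) *
    (∏ i : Fin n, ((⟨f, hf⟩ : B) - algebraMap k B (e₂ i ⟨f, hf⟩))), ?_, ?_, ?_⟩
  · refine mul_ne_zero ?_ ?_
    · exact Finset.prod_ne_zero_iff.mpr fun i _ => hne _
    · exact Finset.prod_ne_zero_iff.mpr fun i _ => hne _
  · intro j
    rw [map_mul, map_prod]
    refine mul_eq_zero_of_left (Finset.prod_eq_zero (Finset.mem_univ j) ?_) _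
    rw [map_sub, AlgHom.commutes]
    exact sub_self _
  · intro j
    rw [map_mul, map_prod, map_prod]
    refine mul_eq_zero_of_right _ (Finset.prod_eq_zero (Finset.mem_univ j) ?_)
    rw [map_sub, AlgHom.commutes]
    exact sub_self _

end Vanish

/-! ### Level `N = M' q` -/

section LevelN

variable (M' q : ℕ) [NeZero M'] [NeZero q] [NeZero (M' * q)] (hq : q.Prime) (hqM : ¬ q ∣ M')
variable {A : ValuationSubring Kbar}

/-- a nonzero element of the affine ring vanishing at all the gluing points -/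
theorem ndf_exists_vanishing [RRHyp Kbar (FF (M' * q))]
    [RRHyp (IsLocalRing.ResidueField A)
      (↥(modularFunctionFieldFullC (IsLocalRing.ResidueField A) M'))]
    {R : ConstRed A (IsLocalRing.residue A)
      (↥(modularFunctionFieldFullC (IsLocalRing.ResidueField A) M')) (FF (M' * q))}
    (X : GlueData R (glmZero M' q hq hqM R) (infPlaceBar (M' * q))
      (cuspZero (M' * q) q hq (dvd_mul_left q M') (inf_not_sq_dvd M' q hq hqM))
      (infPlaceC (IsLocalRing.ResidueField A) M'))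
    (hXB : X.B = affRing (infPlaceC (IsLocalRing.ResidueField A) M')) :
    ∃ a : X.B, a ≠ 0 ∧ (∀ i, X.e₁ i a = 0) ∧ ∀ i, X.e₂ i a = 0 := by
  obtain ⟨f, hfc, hreg, -⟩ := exists_pole_only_at (K := IsLocalRing.ResidueField A)
    (infPlaceC (IsLocalRing.ResidueField A) M')
  have hfB : f ∈ X.B := by
    rw [hXB]
    exact hreg
  exact ndf_exists_vanishing_abs X.B X.e₁ X.e₂ f hfB hfc

set_option maxHeartbeats 1600000 in
/-- **level `N`: `p_0 ⊄ p_∞`**, for every affine ring `B_D` with `D ∋ ∞_N, 0_N`. -/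
theorem ndf_levelN_hnle' [RRHyp Kbar (FF (M' * q))]
    [RRHyp (IsLocalRing.ResidueField A)
      (↥(modularFunctionFieldFullC (IsLocalRing.ResidueField A) M'))]
    (hA : A.LiesOverPrime q)
    {R : ConstRed A (IsLocalRing.residue A)
      (↥(modularFunctionFieldFullC (IsLocalRing.ResidueField A) M')) (FF (M' * q))}
    (hR : IsSeriesRed R)
    (X : GlueData R (glmZero M' q hq hqM R) (infPlaceBar (M' * q))
      (cuspZero (M' * q) q hq (dvd_mul_left q M') (inf_not_sq_dvd M' q hq hqM))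
      (infPlaceC (IsLocalRing.ResidueField A) M'))
    (hXB : X.B = affRing (infPlaceC (IsLocalRing.ResidueField A) M'))
    (D : Set (Place Kbar (FF (M' * q)))) (hDinf : infPlaceBar (M' * q) ∈ D)
    (hD0 : cuspZero (M' * q) q hq (dvd_mul_left q M') (inf_not_sq_dvd M' q hq hqM) ∈ D) :
    ¬ (nodeSetupND A M' q hq hqM hA D R hR).pZero ≤
      (nodeSetupND A M' q hq hqM hA D R hR).pInf := by
  obtain ⟨a, ha0, ha1, ha2⟩ := ndf_exists_vanishing M' q hq hqM X hXB
  have ha0' : ((a : X.B) : ↥(modularFunctionFieldFullC (IsLocalRing.ResidueField A) M')) ≠ 0 :=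
    fun h => ha0 (Subtype.ext h)
  obtain ⟨z, hz1, hz0⟩ := vsand_hglue M' q hq hqM hA hR X D hDinf hD0 a 0
    (fun i => by rw [ha1, map_zero])
  intro hle
  have hzZ : z ∈ (nodeSetupND A M' q hq hqM hA D R hR).pZero := hz0
  have hzI : (nodeSetupND A M' q hq hqM hA D R hR).redInf z = 0 := hle hzZ
  exact ha0' (hz1.symm.trans hzI)

set_option maxHeartbeats 1600000 in
/-- **level `N`: `p_∞ ⊄ p_0`**, for every affine ring `B_D` with `D ∋ ∞_N, 0_N`. -/
theorem ndf_levelN_hnle [RRHyp Kbar (FF (M' * q))]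
    [RRHyp (IsLocalRing.ResidueField A)
      (↥(modularFunctionFieldFullC (IsLocalRing.ResidueField A) M'))]
    (hA : A.LiesOverPrime q)
    {R : ConstRed A (IsLocalRing.residue A)
      (↥(modularFunctionFieldFullC (IsLocalRing.ResidueField A) M')) (FF (M' * q))}
    (hR : IsSeriesRed R)
    (X : GlueData R (glmZero M' q hq hqM R) (infPlaceBar (M' * q))
      (cuspZero (M' * q) q hq (dvd_mul_left q M') (inf_not_sq_dvd M' q hq hqM))
      (infPlaceC (IsLocalRing.ResidueField A) M'))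
    (hXB : X.B = affRing (infPlaceC (IsLocalRing.ResidueField A) M'))
    (D : Set (Place Kbar (FF (M' * q)))) (hDinf : infPlaceBar (M' * q) ∈ D)
    (hD0 : cuspZero (M' * q) q hq (dvd_mul_left q M') (inf_not_sq_dvd M' q hq hqM) ∈ D) :
    ¬ (nodeSetupND A M' q hq hqM hA D R hR).pInf ≤
      (nodeSetupND A M' q hq hqM hA D R hR).pZero := by
  obtain ⟨a, ha0, ha1, ha2⟩ := ndf_exists_vanishing M' q hq hqM X hXB
  have ha0' : ((a : X.B) : ↥(modularFunctionFieldFullC (IsLocalRing.ResidueField A) M')) ≠ 0 :=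
    fun h => ha0 (Subtype.ext h)
  obtain ⟨z, hz1, hz0⟩ := vsand_hglue M' q hq hqM hA hR X D hDinf hD0 0 a
    (fun i => by rw [ha2, map_zero])
  intro hle
  have hzI : z ∈ (nodeSetupND A M' q hq hqM hA D R hR).pInf := hz1
  have hzZ : (nodeSetupND A M' q hq hqM hA D R hR).redZero z = 0 := hle hzI
  exact ha0' (hz0.symm.trans hzZ)

end LevelN

/-! ### The final setup -/

section Final

variable (A : ValuationSubring Kbar) (M' q : ℕ) [NeZero M'] [NeZero q]
variable (hq : q.Prime) (hqM : ¬ q ∣ M') (hA : A.LiesOverPrime q)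
variable {ζ : Kbarˣ} {E : FF (M' * q * q) →+* LaurentSeries Kbar}
variable (hζq : ζ ^ q = 1) (hζ : IsPrimitiveRoot (ζ : Kbar) q) (hE : IsMidExp M' q ζ E)
variable (R : ConstRed A (IsLocalRing.residue A)
      (↥(modularFunctionFieldFullC (IsLocalRing.ResidueField A) M')) (FF (M' * q * q)))
    (hR : IsSeriesRed R)

/-- `α` pulls the functions regular off `∞_N, 0_N` back to functions regular off `D1` -/
theorem ndf_alpha_offRegular (x : FF (M' * q))
    (hx : x ∈ offRegular (M' * q) (abelDN M' q hq hqM)) :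
    heckeAlphaBar Kbar (M' * q) q x ∈ offRegular (M' * q * q) (s36D1 M' q hq hqM) := by
  obtain ⟨ζ₀, hζ₀⟩ := s36_exists_zeta q
  refine mem_offRegular_s36D1 M' q hq hqM ζ₀ hζ₀ _ (fun P h1 h2 h3 => ?_)
  refine fbm_reg_alpha M' q hq hqM ζ₀ hζ₀ x (fun v hv1 hv2 => ?_) P h1 h2 h3
  refine (ffMem_iff_ord_nonneg v).mp ((mem_offRegular_iff (M' * q) _ x).mp hx v ?_)
  rintro (h | h)
  · exact hv1 h
  · exact hv2 h

set_option maxHeartbeats 1600000 in
/-- **`α` as a map of setups** from the level `N` (affine ring off `∞_N, 0_N`) to the final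
setup -/
def ndfSetupMap
    (RN : ConstRed A (IsLocalRing.residue A)
      (↥(modularFunctionFieldFullC (IsLocalRing.ResidueField A) M')) (FF (M' * q)))
    (hRN : IsSeriesRed RN) :
    SetupMap (nodeSetupND A M' q hq hqM hA (abelDN M' q hq hqM) RN hRN)
      (s36Final A M' q hq hqM hA hζq hζ hE R hR) :=
  r2cSetupMap A (heckeAlphaBar Kbar (M' * q) q)
    (fun x hx => f0_heckeAlphaBar_mem A q hx)
    (abelDN M' q hq hqM) (s36D1 M' q hq hqM)
    (fun x hx => ndf_alpha_offRegular M' q hq hqM x hx)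
    (SeriesVal.ofConstRed RN) (SeriesVal.ofConstRed RN)
    ((SeriesVal.ofConstRed RN).comap (alW1 M' hq hqM))
    (SeriesVal.ofConstRed R) (vmidSV A hq ((A.mem_nonunits_iff).mp hA) hζq hE)
    ((SeriesVal.ofConstRed R).comap (alW2 M' hq hqM))
    (sconc_hinto A M' RN) (sconc_honto A M' q hq hA (dvd_mul_right M' q) RN hRN)
    (sconc_hinto A M' RN) (sconc_honto A M' q hq hA (dvd_mul_right M' q) RN hRN)
    (sconc_hinto_comap A M' RN (alW1 M' hq hqM))
    (sconc_honto_comap A M' q hq hA (dvd_mul_right M' q) RN hRN (alW1 M' hq hqM)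
      (sconc_alW1_symm_mem A M' q hq hqM))
    (sconc_hinto A M' R) (sconc_honto A M' q hq hA ⟨q * q, by ring⟩ R hR)
    (vmid_hinto A hq hqM hA hζq hζ hE) (vmid_honto A hq hA hζq hE)
    (sconc_hinto_comap A M' R (alW2 M' hq hqM))
    (sconc_honto_comap A M' q hq hA ⟨q * q, by ring⟩ R hR (alW2 M' hq hqM)
      (sconc_alW2_symm_mem A M' q hq hqM))
    (fun x => vz2_alpha_mem_iff (M' * q) q hRN hR (vri_hfrac (M' * q) q hq A hA) x)
    (fun x => by
      show alW2 M' hq hqM (heckeAlphaBar Kbar (M' * q) q x) ∈ R.O ↔ alW1 M' hq hqM x ∈ RN.O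
      rw [al2_alpha_apply]
      exact vz2_beta_mem_iff (M' * q) q hRN hR (vri_hfrac (M' * q) q hq A hA) _)
    (fun x hx _ _ => by
      obtain ⟨a, b, hrep⟩ := hRN.exists_isRep (vri_hfrac (M' * q) q hq A hA) hx
      exact (vmid_bridge A hq ((A.mem_nonunits_iff).mp hA) hζq hE
        (heckeAlphaBar Kbar (M' * q) q x) a b hrep.2.2.1
        (by rw [hE.alpha]; exact hrep.2.2.2)).1)

set_option maxHeartbeats 1600000 in
/-- **`p_0 ⊄ p_∞` in the final setup** -/
theorem s36Final_hnle' (haux : IsAuxLevel q M') :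
    ¬ (s36Final A M' q hq hqM hA hζq hζ hE R hR).pZero ≤
      (s36Final A M' q hq hqM hA hζq hζ hE R hR).pInf := by
  haveI : NeZero (M' * q) := ⟨Nat.mul_ne_zero (NeZero.ne M') (NeZero.ne q)⟩
  haveI : IsAlgClosed (IsLocalRing.ResidueField A) := isAlgClosed_residueField A
  haveI : RRHyp Kbar (FF (M' * q)) := mod_rrHyp (M' * q)
  haveI : RRHyp (IsLocalRing.ResidueField A)
      (↥(modularFunctionFieldFullC (IsLocalRing.ResidueField A) M')) :=
    mr_rrHyp (IsLocalRing.ResidueField A) M'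
  obtain ⟨RN, hRN⟩ := sconc_exists_constRedInfN A M' q hq hqM hA
  obtain ⟨X, hXB, -⟩ := ndc_exists_glueData M' q hq hqM haux hA hRN
  have hN := ndf_levelN_hnle' M' q hq hqM hA hRN X hXB (abelDN M' q hq hqM) (Or.inl rfl)
    (Or.inr (by rw [ac_cuspZero_eq]))
  exact (ndfSetupMap A M' q hq hqM hA hζq hζ hE R hR RN hRN).not_pZero_le_pInf hN

set_option maxHeartbeats 1600000 in
/-- **`p_∞ ⊄ p_0` in the final setup** -/
theorem s36Final_hnle (haux : IsAuxLevel q M') :
    ¬ (s36Final A M' q hq hqM hA hζq hζ hE R hR).pInf ≤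
      (s36Final A M' q hq hqM hA hζq hζ hE R hR).pZero := by
  haveI : NeZero (M' * q) := ⟨Nat.mul_ne_zero (NeZero.ne M') (NeZero.ne q)⟩
  haveI : IsAlgClosed (IsLocalRing.ResidueField A) := isAlgClosed_residueField A
  haveI : RRHyp Kbar (FF (M' * q)) := mod_rrHyp (M' * q)
  haveI : RRHyp (IsLocalRing.ResidueField A)
      (↥(modularFunctionFieldFullC (IsLocalRing.ResidueField A) M')) :=
    mr_rrHyp (IsLocalRing.ResidueField A) M'
  obtain ⟨RN, hRN⟩ := sconc_exists_constRedInfN A M' q hq hqM hA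
  obtain ⟨X, hXB, -⟩ := ndc_exists_glueData M' q hq hqM haux hA hRN
  have hN := ndf_levelN_hnle M' q hq hqM hA hRN X hXB (abelDN M' q hq hqM) (Or.inl rfl)
    (Or.inr (by rw [ac_cuspZero_eq]))
  exact (ndfSetupMap A M' q hq hqM hA hζq hζ hE R hR RN hRN).not_pInf_le_pZero hN

/-- **(R3): the nodes of the final setup are finitely many**, from D1-Q at `∞` (quotient
form). -/
theorem s36Final_nodes_fin
    [IsDedekindDomain ((s36Final A M' q hq hqM hA hζq hζ hE R hR).B ⧸
      (s36Final A M' q hq hqM hA hζq hζ hE R hR).pInf)]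
    (haux : IsAuxLevel q M') :
    {t : Ideal (s36Final A M' q hq hqM hA hζq hζ hE R hR).B |
      (s36Final A M' q hq hqM hA hζq hζ hE R hR).IsNode t}.Finite :=
  NodeSetup.v4_finite_maximal_of_dedekind _ _
    (s36Final_hnle' A M' q hq hqM hA hζq hζ hE R hR haux)

/-- (R3), from D1-Q at `∞` in the range form -/
theorem s36Final_nodes_fin_of_range
    [IsDedekindDomain (s36Final A M' q hq hqM hA hζq hζ hE R hR).redInf.range]
    (haux : IsAuxLevel q M') :
    {t : Ideal (s36Final A M' q hq hqM hA hζq hζ hE R hR).B |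
      (s36Final A M' q hq hqM hA hζq hζ hE R hR).IsNode t}.Finite :=
  (s36Final A M' q hq hqM hA hζq hζ hE R hR).finite_nodes
    (s36Final_hnle' A M' q hq hqM hA hζq hζ hE R hR haux)

/-- **the node list of `A2Reg`** for the final setup, from D1-Q at `∞` and (R5). -/
theorem s36Final_hnodes
    [IsDedekindDomain ((s36Final A M' q hq hqM hA hζq hζ hE R hR).B ⧸
      (s36Final A M' q hq hqM hA hζq hζ hE R hR).pInf)]
    (haux : IsAuxLevel q M')
    (hufd : ∀ t : Ideal (s36Final A M' q hq hqM hA hζq hζ hE R hR).B,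
      (s36Final A M' q hq hqM hA hζq hζ hE R hR).IsNode t → ∀ _ : t.IsMaximal,
        UniqueFactorizationMonoid (Localization.AtPrime t)) :
    ∃ (n : ℕ) (t : Fin (n + 1) → Ideal (s36Final A M' q hq hqM hA hζq hζ hE R hR).B),
      (∀ i, (t i).IsMaximal) ∧ Function.Injective t ∧
      (∀ i, ∀ _ : (t i).IsMaximal, UniqueFactorizationMonoid (Localization.AtPrime (t i))) ∧
      ∀ t' : Ideal (s36Final A M' q hq hqM hA hζq hζ hE R hR).B,
        (s36Final A M' q hq hqM hA hζq hζ hE R hR).IsNode t' → ∃ i, t' = t i :=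
  a2_nodes_of_finite _ (s36Final_nodes_fin A M' q hq hqM hA hζq hζ hE R hR haux)
    (s36Final_node_ex A M' q hq hqM hA hζq hζ hE R hR haux) hufd

end Final

end Fermat.Agent.S36lib

end
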