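import Mathlib
import Fermat.Agent.S36lib.NodesFin
import Fermat.Agent.S36lib.NodesDim
import Fermat.Agent.S36lib.R12Final
import Fermat.Agent.S36lib.Reg1Finrank
import Fermat.Agent.S24lib.FFTrans

/-!
# Item 83 (S36), piece W-6 / (R3), UNCONDITIONAL (helper18)

For `S = s36Final …` (`Apply2Final.lean`), every auxiliary level `M'`:

* `s36Final_nodes_fin'` : `{t | S.IsNode t}.Finite`, with NO hypothesis besides `haux`
  (from `s36Final_noeth` (helper12, (R1)), `s36Final_hnle'` and the dimension-one lemma
  `NodeSetup.ndm_finite_nodes`; no Dedekind input);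
* `s36Final_hnodes'`    : the node list of `A2Reg` from (R5) (UFD at the nodes) alone;
* `s36Final_reg_of_ufd` : `A2Reg M' q A S` from (R5) alone;
* `s36Final_isMaximal_of_pInf_lt` : every prime of `S.B` strictly containing `p_∞` is maximal;
* `ndf_trdeg` : the residue function field `F_{M',k}` has transcendence degree `≤ 1` over `k`, in
  the form used by `NodesDim.lean`.
-/

set_option autoImplicit false
set_option linter.style.haveILetI false
set_option linter.unusedSectionVars false
set_option linter.unusedVariables false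
set_option synthInstance.maxHeartbeats 400000

noncomputable section

namespace Fermat.Agent.S36lib

open ModularCurve HahnSeries AlgebraicCurve IntermediateField
open Fermat.Agent.GoodRed Fermat.Agent.S24lib Fermat.Agent.S34lib Fermat.Agent.S37lib
  Fermat.Agent.HeckeBar Fermat.Agent.S35lib Fermat.Agent.GM Fermat.Agent.RRlib
  Fermat.Agent.FFlib

section Trdeg

variable (A : ValuationSubring Kbar) (M' q : ℕ) [NeZero M'] [NeZero q]

/-- the residue function field has transcendence degree `≤ 1` over the residue field -/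
theorem ndf_trdeg (hq : q.Prime) (hqM : ¬ q ∣ M') (hA : A.LiesOverPrime q)
    (x : Fk (IsLocalRing.ResidueField A) M')
    (hx : Transcendental (IsLocalRing.ResidueField A) x)
    (y : Fk (IsLocalRing.ResidueField A) M') :
    IsAlgebraic (Algebra.adjoin (IsLocalRing.ResidueField A) {x}) y := by
  haveI : Fact q.Prime := ⟨hq⟩
  haveI hsep : FFSep (IsLocalRing.ResidueField A) (jk (IsLocalRing.ResidueField A) M') :=
    reg1c_ffSep_jk M' hqM A hA
  haveI h1 : Algebra.IsAlgebraic
      (IsLocalRing.ResidueField A)⟮jk (IsLocalRing.ResidueField A) M'⟯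
      (Fk (IsLocalRing.ResidueField A) M') := FFSep.instAlg
  haveI h2 : Algebra.IsAlgebraic (IsLocalRing.ResidueField A)⟮x⟯
      (Fk (IsLocalRing.ResidueField A) M') :=
    ffIsAlgebraic_of_transcendental (x := jk (IsLocalRing.ResidueField A) M') hx
  exact (ffIsAlgebraic_algebraAdjoin (K := IsLocalRing.ResidueField A) (x := x)).isAlgebraic y

end Trdeg

section Final

variable (A : ValuationSubring Kbar) (M' q : ℕ) [NeZero M'] [NeZero q]
variable (hq : q.Prime) (hqM : ¬ q ∣ M') (hA : A.LiesOverPrime q)
variable {ζ : Kbarˣ} {E : FF (M' * q * q) →+* LaurentSeries Kbar}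
variable (hζq : ζ ^ q = 1) (hζ : IsPrimitiveRoot (ζ : Kbar) q) (hE : IsMidExp M' q ζ E)
variable (R : ConstRed A (IsLocalRing.residue A)
      (↥(modularFunctionFieldFullC (IsLocalRing.ResidueField A) M')) (FF (M' * q * q)))
    (hR : IsSeriesRed R)

/-- **(R3), unconditional: the nodes of the final setup are finitely many.** -/
theorem s36Final_nodes_fin' (haux : IsAuxLevel q M') :
    {t : Ideal (s36Final A M' q hq hqM hA hζq hζ hE R hR).B |
      (s36Final A M' q hq hqM hA hζq hζ hE R hR).IsNode t}.Finite := by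
  haveI : IsNoetherianRing (s36Final A M' q hq hqM hA hζq hζ hE R hR).B :=
    s36Final_noeth A M' q hq hqM hA hζq hζ hE R hR haux
  exact NodeSetup.ndm_finite_nodes (s36Final A M' q hq hqM hA hζq hζ hE R hR)
    (vsurj_k0Res_surjective q hq hA) (ndf_trdeg A M' q hq hqM hA)
    (s36Final_hnle' A M' q hq hqM hA hζq hζ hE R hR haux)

/-- every prime of `B` strictly containing `p_∞` is maximal -/
theorem s36Final_isMaximal_of_pInf_lt
    (Q : Ideal (s36Final A M' q hq hqM hA hζq hζ hE R hR).B) [Q.IsPrime]
    (hlt : (s36Final A M' q hq hqM hA hζq hζ hE R hR).pInf < Q) : Q.IsMaximal :=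
  NodeSetup.ndm_isMaximal_of_pInf_lt (s36Final A M' q hq hqM hA hζq hζ hE R hR)
    (vsurj_k0Res_surjective q hq hA) (ndf_trdeg A M' q hq hqM hA) Q hlt

/-- **the node list of `A2Reg`** for the final setup, from (R5) alone. -/
theorem s36Final_hnodes' (haux : IsAuxLevel q M')
    (hufd : ∀ t : Ideal (s36Final A M' q hq hqM hA hζq hζ hE R hR).B,
      (s36Final A M' q hq hqM hA hζq hζ hE R hR).IsNode t → ∀ _ : t.IsMaximal,
        UniqueFactorizationMonoid (Localization.AtPrime t)) :
    ∃ (n : ℕ) (t : Fin (n + 1) → Ideal (s36Final A M' q hq hqM hA hζq hζ hE R hR).B),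
      (∀ i, (t i).IsMaximal) ∧ Function.Injective t ∧
      (∀ i, ∀ _ : (t i).IsMaximal, UniqueFactorizationMonoid (Localization.AtPrime (t i))) ∧
      ∀ t' : Ideal (s36Final A M' q hq hqM hA hζq hζ hE R hR).B,
        (s36Final A M' q hq hqM hA hζq hζ hE R hR).IsNode t' → ∃ i, t' = t i :=
  a2_nodes_of_finite _ (s36Final_nodes_fin' A M' q hq hqM hA hζq hζ hE R hR haux)
    (s36Final_node_ex A M' q hq hqM hA hζq hζ hE R hR haux) hufd

/-- **`A2Reg` for the final setup from (R5) alone** ((R1), (R2): helper12; (R3), (R4): here). -/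
theorem s36Final_reg_of_ufd (haux : IsAuxLevel q M')
    (hufd : ∀ t : Ideal (s36Final A M' q hq hqM hA hζq hζ hE R hR).B,
      (s36Final A M' q hq hqM hA hζq hζ hE R hR).IsNode t → ∀ _ : t.IsMaximal,
        UniqueFactorizationMonoid (Localization.AtPrime t)) :
    A2Reg M' q A (s36Final A M' q hq hqM hA hζq hζ hE R hR) :=
  s36Final_reg A M' q hq hqM hA hζq hζ hE R hR
    (s36Final_noeth A M' q hq hqM hA hζq hζ hE R hR haux)
    (s36Final_frac A M' q hq hqM hA hζq hζ hE R hR haux)
    (s36Final_hnodes' A M' q hq hqM hA hζq hζ hE R hR haux hufd)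

end Final

end Fermat.Agent.S36lib

end
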