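import Mathlib
import Fermat.Agent.S36lib.PointDict

/-!
# Item 83 (S36), piece D1-B: the dictionary, RANGE form

Bridges between `IsDedekindDomain ρ.range` (the form of D1-Q) and
`IsDedekindDomain (B ⧸ ker ρ)` (the form of REG3, H1Loc, PointDict), and the dictionary
`pdict_range` with hypotheses on the range `ρ.range ⊆ κ`.
-/

set_option autoImplicit false
set_option linter.style.haveILetI false

noncomputable section

namespace Fermat.Agent.S36lib

open AlgebraicCurve IsDedekindDomain Fermat.Agent.S24lib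

section Generic

variable {k κ : Type*} [Field k] [Field κ] [Algebra k κ] {B : Type*} [CommRing B]

/-- Dedekind domains are stable under ring isomorphisms -/
theorem pdict_isDedekindDomain_of_equiv {R S : Type*} [CommRing R] [CommRing S] (e : R ≃+* S)
    [h : IsDedekindDomain S] : IsDedekindDomain R := by
  haveI : IsDomain R := e.injective.isDomain e.toRingHom
  haveI : IsNoetherianRing R := isNoetherianRing_of_ringEquiv S e.symm
  haveI : Ring.DimensionLEOne R := Ring.DimensionLEOne.of_ringEquiv e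
  haveI : IsIntegrallyClosed R := IsIntegrallyClosed.of_equiv e.symm
  exact { }

/-- `B ⧸ p` is Dedekind if the range of `ρ` is (`p = ker ρ`) -/
theorem pdict_isDedekindDomain_quot (ρ : B →+* κ) (p : Ideal B) (hp : RingHom.ker ρ = p)
    [h : IsDedekindDomain ρ.range] : IsDedekindDomain (B ⧸ p) := by
  subst hp
  exact pdict_isDedekindDomain_of_equiv (RingHom.quotientKerEquivRange ρ)

/-- the range of `ρ` is Dedekind if `B ⧸ p` is (`p = ker ρ`) -/
theorem pdict_isDedekindDomain_range (ρ : B →+* κ) (p : Ideal B) (hp : RingHom.ker ρ = p)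
    [h : IsDedekindDomain (B ⧸ p)] : IsDedekindDomain ρ.range := by
  subst hp
  exact pdict_isDedekindDomain_of_equiv (RingHom.quotientKerEquivRange ρ).symm

/-- `B ⧸ p` is integrally closed if the range of `ρ` is Dedekind -/
theorem pdict_isIntegrallyClosed_quot (ρ : B →+* κ) (p : Ideal B) (hp : RingHom.ker ρ = p)
    [h : IsDedekindDomain ρ.range] : IsIntegrallyClosed (B ⧸ p) := by
  haveI := pdict_isDedekindDomain_quot ρ p hp
  infer_instance

/-- the fraction hypothesis from `κ = Frac ρ.range` -/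
theorem pdict_hfrac_of_range (ρ : B →+* κ)
    (h : ∀ w : κ, ∃ a b : ρ.range, b ≠ 0 ∧ w * (b : κ) = (a : κ)) :
    ∀ w : κ, ∃ a b : B, ρ b ≠ 0 ∧ w * ρ b = ρ a := by
  intro w
  obtain ⟨⟨a, a', rfl⟩, ⟨b, b', rfl⟩, hb, hw⟩ := h w
  exact ⟨a', b', fun h0 => hb (Subtype.ext h0), hw⟩

/-- **the dictionary**, range form -/
theorem pdict_range (ρ : B →+* κ) (p : Ideal B) (hp : RingHom.ker ρ = p)
    [IsDedekindDomain ρ.range]
    (hk : ∀ a : k, ∃ b : B, ρ b = algebraMap k κ a)
    (hfrac : ∀ w : κ, ∃ a b : ρ.range, b ≠ 0 ∧ w * (b : κ) = (a : κ))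
    (𝔪 : Ideal B) (h𝔪 : 𝔪.IsMaximal) (hle : p ≤ 𝔪) (hne : p ≠ 𝔪) :
    ∃ c : Place k κ, (∀ z : B, 0 ≤ c.ord (ρ z)) ∧
      (∀ z : B, ρ z ≠ 0 → c.ord (ρ z) = 0 → z ∉ 𝔪) ∧
      (∀ z : B, z ∉ 𝔪 → ρ z ≠ 0 ∧ c.ord (ρ z) = 0) ∧
      (∀ z : B, z ∈ 𝔪 ↔ ρ z = 0 ∨ 0 < c.ord (ρ z)) := by
  haveI := pdict_isDedekindDomain_quot ρ p hp
  exact pdict_exists_P (k := k) ρ p hp hk (pdict_hfrac_of_range ρ hfrac) 𝔪 h𝔪 hle hne

/-- the place of the dictionary is not a place where some reduction has a pole -/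
theorem pdict_ne_of_pole (ρ : B →+* κ) (c Q : Place k κ) (h : ∀ z : B, 0 ≤ c.ord (ρ z))
    (z₀ : B) (hz₀ : Q.ord (ρ z₀) < 0) : c ≠ Q := by
  rintro rfl
  have := h z₀
  omega

end Generic

end Fermat.Agent.S36lib

end
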