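/-
Item 83 (S36), block REG, piece W-3a RANGE-N, part 1 (helper4): the LIFTING at level `M'`.

* `rgnPol M'` : the polar divisor `(j)_∞` of `j` at level `M'`; `rgn_smul_pol`: it is invariant
  under the inertia group; `rgn_mem_cuspRegular`: `L(n (j)_∞) ⊆ cuspRegular M'`;
* `rgn_lift`  : **lifting at level `M'`** (an auxiliary level, any prime `q`): every element `c`
  of `C = fsS k j̄` (the integral closure of `k[j̄]` in `F_{M',k}`) is the reduction of an
  element of `F0(M')`, regular off the cusps, lying in the Gauss valuation ring `O'`.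
  (Place reduction + (F3) at level `M'` (`liftInf_exists_r`), poles reduce to poles
  (`IsPlaceRed.mapDomain_poles`), descent to `F0` (`vdesc_main`).)
-/
import Mathlib
import Fermat.Agent.S34lib.LiftInfMain
import Fermat.Agent.GoodRed.DescZeros
import Fermat.Agent.GoodRed.DescDeg
import Fermat.Agent.S36lib.VDesc
import Fermat.Agent.S36lib.VDisc
import Fermat.Agent.S36lib.FixedF0
import Fermat.Agent.S36lib.VNoethK0

set_option autoImplicit false
set_option linter.style.haveILetI false
set_option linter.unusedSectionVars false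
set_option synthInstance.maxHeartbeats 400000

noncomputable section

namespace Fermat.Agent.S36lib

open AlgebraicCurve ModularCurve IntermediateField
open Fermat.Agent.S24lib Fermat.Agent.FFlib Fermat.Agent.RRlib Fermat.Agent.GoodRed
  Fermat.Agent.GM Fermat.Agent.S34lib Fermat.Agent.S16lib

section Pol

variable (M' : ℕ) [NeZero M'] [RRBase Kbar (FF M')]

/-- the polar divisor of `j` at level `M'` -/
def rgnPol : Divisor Kbar (FF M') := (-divOf (K := Kbar) (jF M')) ⊔ 0

theorem rgnPol_apply (v : Place Kbar (FF M')) :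
    rgnPol M' v = max 0 (-(v.ord (jF M'))) := by
  rw [rgnPol, Finsupp.sup_apply, Finsupp.neg_apply, divOf_apply', Finsupp.coe_zero,
    Pi.zero_apply, max_comm]

variable {M'}

/-- the polar divisor of `j` is invariant under the inertia group -/
theorem rgn_smul_pol (A : ValuationSubring Kbar) (σ : Kbar ≃ₐ[ℚ] Kbar)
    (hσ : σ ∈ A.inertiaSubgroupIn ℚ) (n : ℕ) :
    galFF M' σ • (n • rgnPol M') = n • rgnPol M' := by
  have hj : galFF M' σ • jF M' = jF M' :=
    (mem_f0Field_iff_isIFixed A M' (jF M')).mp (vnk_jF_mem A M') σ hσ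
  have h1 : galFF M' σ • rgnPol M' = rgnPol M' := by
    ext w
    rw [SemilinearAut.divisor_smul_apply, rgnPol_apply, rgnPol_apply]
    have h := SemilinearAut.ord_smul (galFF M' σ) ((galFF M' σ)⁻¹ • w) (jF M')
    rw [smul_inv_smul, hj] at h
    rw [h]
  rw [smul_comm, h1]

end Pol

section Lift

variable {M' : ℕ} [NeZero M'] {A : ValuationSubring Kbar}
variable {R' : ConstRed A (IsLocalRing.residue A) (Fk (IsLocalRing.ResidueField A) M') (FF M')}

/-- an element of `L(n (j)_∞)` is regular off the cusps -/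
theorem rgn_mem_cuspRegular [RRBase Kbar (FF M')] {n : ℕ} {z : FF M'}
    (hz : z ∈ riemannRochSpace (K := Kbar) (n • rgnPol M')) : z ∈ cuspRegular M' := by
  rw [mem_cuspRegular_iff]
  intro P hP
  apply ffMem_of_ord_nonneg
  rcases (mem_riemannRochSpace_iff.mp hz) P with h0 | h
  · rw [h0, Place.ord_zero]
  · have hPj : 0 ≤ P.ord (jF M') := (ffMem_iff_ord_nonneg P).mp hP
    rw [Finsupp.smul_apply, rgnPol_apply, max_eq_left (by omega), smul_zero, neg_zero] at h
    exact h

/-- **lifting at level `M'`**: every element of `F_{M',k}` integral over `k[j̄]` is the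
reduction of an element of `F0(M') ∩ O'` regular off the cusps -/
theorem rgn_lift (q : ℕ) [Fact q.Prime] (haux : IsAuxLevel q M') (hA : A.LiesOverPrime q)
    (hR' : IsSeriesRed R') (c : Fk (IsLocalRing.ResidueField A) M')
    (hc : IsIntegral (Algebra.adjoin (IsLocalRing.ResidueField A)
      ({jk (IsLocalRing.ResidueField A) M'} : Set (Fk (IsLocalRing.ResidueField A) M'))) c) :
    ∃ (y : FF M') (hy : y ∈ R'.O), y ∈ f0Field A M' ∧ y ∈ cuspRegular M' ∧
      R'.red ⟨y, hy⟩ = c := by
  classical
  haveI : IsAlgClosed (IsLocalRing.ResidueField A) := isAlgClosed_residueField A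
  haveI : RRHyp Kbar (FF M') := mod_rrHyp M'
  haveI : RRHyp (IsLocalRing.ResidueField A) (Fk (IsLocalRing.ResidueField A) M') :=
    mr_rrHyp (IsLocalRing.ResidueField A) M'
  obtain ⟨r, hr, hW, -, -⟩ := liftInf_exists_r q haux hA hR'
  have hfd := exists_fiberData_modL' M' haux.1 A hA
  obtain ⟨D, X, hD, hX, hdeg⟩ := liftInf_exists_poles hR' hfd
  have hDeq : D = rgnPol M' := Finsupp.ext fun v => by rw [hD, rgnPol_apply]
  have hjnc : R'.red ⟨jF M', dw_jF_mem hR'⟩ ∉
      Set.range (algebraMap (IsLocalRing.ResidueField A) (Fk (IsLocalRing.ResidueField A) M')) := by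
    rw [dw_red_jF hR']
    exact dd_jk_nonconst M'
  have hmap : Finsupp.mapDomain r D = X :=
    hr.mapDomain_poles ⟨jF M', dw_jF_mem hR'⟩ hjnc hD hX hdeg
  have hX' : ∀ w : Place (IsLocalRing.ResidueField A) (Fk (IsLocalRing.ResidueField A) M'),
      X w = max 0 (-(w.ord (jk (IsLocalRing.ResidueField A) M'))) := by
    intro w
    rw [hX, dw_red_jF hR']
  by_cases hc0 : c = 0
  · refine ⟨0, R'.O.zero_mem, zero_mem _, zero_mem _, ?_⟩
    rw [hc0]
    exact map_zero R'.red
  set n₀ : ℕ := ∑ w ∈ (divOf (K := IsLocalRing.ResidueField A) c).support,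
    (divOf (K := IsLocalRing.ResidueField A) c w).natAbs with hn₀
  set n : ℕ := n₀ + (2 * genusFF Kbar (FF M') + 1) with hn
  -- `c ∈ L(n X)`
  have hcL : c ∈ riemannRochSpace (K := IsLocalRing.ResidueField A) (n • X) := by
    rw [mem_riemannRochSpace_iff]
    intro w
    right
    rw [Finsupp.smul_apply, hX']
    by_cases hw : 0 ≤ w.ord (jk (IsLocalRing.ResidueField A) M')
    · rw [max_eq_left (by omega), smul_zero, neg_zero]
      exact uert_ord_nonneg_of_isIntegral w hw hc
    · have h1 : (1 : ℤ) ≤ max 0 (-(w.ord (jk (IsLocalRing.ResidueField A) M'))) := by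
        rw [le_max_iff]
        right
        omega
      have h2 : -(w.ord c) ≤ (n₀ : ℤ) := by
        by_cases hws : w ∈ (divOf (K := IsLocalRing.ResidueField A) c).support
        · have h3 := Finset.single_le_sum
            (f := fun w => (divOf (K := IsLocalRing.ResidueField A) c w).natAbs)
            (fun _ _ => Nat.zero_le _) hws
          have h4 : ((divOf (K := IsLocalRing.ResidueField A) c w).natAbs : ℤ) ≤ (n₀ : ℤ) := by
            exact_mod_cast h3
          rw [divOf_apply hc0, Int.natCast_natAbs] at h4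
          have h5 : -(w.ord c) ≤ |w.ord c| := neg_le_abs _
          omega
        · rw [Finsupp.notMem_support_iff, divOf_apply hc0] at hws
          rw [hws]
          simp
      have h3 : (n₀ : ℤ) ≤ (n : ℤ) := by
        rw [hn]
        push_cast
        omega
      have h4 : (n : ℤ) ≤ n • max 0 (-(w.ord (jk (IsLocalRing.ResidueField A) M'))) := by
        rw [nsmul_eq_mul]
        nlinarith [Int.natCast_nonneg n]
      omega
  -- degree
  have hdegD : 2 * (genusFF Kbar (FF M') : ℤ) - 2 < Divisor.degree (n • D) := by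
    rw [map_nsmul, dd_degree_poles_jF M' D hD, nsmul_eq_mul]
    have hψ : (1 : ℤ) ≤ (dedekindPsi M' : ℤ) := by
      have := Fermat.Agent.HeckeBar.dedekindPsi_pos M'
      exact_mod_cast this
    have hn' : (2 * (genusFF Kbar (FF M') : ℤ) + 1) ≤ (n : ℤ) := by
      rw [hn]
      push_cast
      omega
    nlinarith
  have hWD := hW (n • D) hdegD
  rw [Finsupp.mapDomain_smul, hmap] at hWD
  have hcW : c ∈ R'.W (n • D) := by
    rw [hWD]
    exact hcL
  obtain ⟨x, hxL, hxc⟩ := (R'.mem_W_iff (n • D) c).mp hcW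
  -- descent to `F0`
  rw [hDeq] at hxL
  obtain ⟨z₀, hz₀L, hz₀F, hz₀O, hz₀red⟩ := vdesc_main (Fact.out : q.Prime) hA
    (fun _ : Unit => ResVal.ofConstRed R') R' () rfl
    (fun _ f hf hf0 => vdisc_inf (Fact.out : q.Prime) hA hR' hf hf0)
    (n • rgnPol M') (fun σ hσ => rgn_smul_pol A σ hσ n) (x : FF M') hxL (fun _ => x.2)
  refine ⟨z₀, hz₀O (), hz₀F, rgn_mem_cuspRegular hz₀L, ?_⟩
  have h := hz₀red ()
  rw [← hxc]
  exact h

end Lift

end Fermat.Agent.S36lib

end
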