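/-
Item 83 (S36), piece FINAL RED-MEM (helper3): the three reductions of the final affine ring
`B_{D1} = (s36Final …).B` have values in the affine ring `affRing ∞'` of the residue curve
(= `X.B` of the gluing data of level `M' q`).

This is `hmem` of helper27's `d1q_nodeSetup_inf/mid/zero` (Dedekind quotients `B/p_v`) and
`hMInf hMMid hMZero` of TOR, for `S = s36Final`.

* `s36Final_redMem_of` : from `hαint : (tblmAlphaF …).toB.IsIntegral` (helper20) for ONE `RN`;
* `s36Final_redMem`    : from `hαint` for all `RN` (no `RN` in the statement).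
(complete proofs, standard axioms only)
-/
import Mathlib
import Fermat.Agent.S36lib.TableMaps
import Fermat.Agent.S36lib.RedMem
import Fermat.Agent.S36lib.GlueNConc

set_option autoImplicit false
set_option linter.style.haveILetI false
set_option linter.unusedSectionVars false
set_option linter.unusedVariables false
set_option synthInstance.maxHeartbeats 400000

noncomputable section

open ModularCurve AlgebraicCurve HahnSeries
open Fermat.Agent.S24lib Fermat.Agent.HeckeBar Fermat.Agent.S37lib Fermat.Agent.S35lib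
  Fermat.Agent.GoodRed Fermat.Agent.S34lib Fermat.Agent.GM Fermat.Agent.RRlib

namespace Fermat.Agent.S36lib

section Final

variable (A : ValuationSubring Kbar) (M' q : ℕ) [NeZero M'] [NeZero q]
variable (hq : q.Prime) (hqM : ¬ q ∣ M') (hA : A.LiesOverPrime q)
variable {ζ : Kbarˣ} {E : FF (M' * q * q) →+* LaurentSeries Kbar}
variable (hζq : ζ ^ q = 1) (hζ : IsPrimitiveRoot (ζ : Kbar) q) (hE : IsMidExp M' q ζ E)
variable (R : ConstRed A (IsLocalRing.residue A)
      (↥(modularFunctionFieldFullC (IsLocalRing.ResidueField A) M')) (FF (M' * q * q)))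
    (hR : IsSeriesRed R)

set_option maxHeartbeats 1600000 in
/-- **FINAL RED-MEM**, from the integrality of `B_{D1}` over `α(B_N)` for one `RN`. -/
theorem s36Final_redMem_of (haux : IsAuxLevel q M')
    (RN : ConstRed A (IsLocalRing.residue A)
      (↥(modularFunctionFieldFullC (IsLocalRing.ResidueField A) M')) (FF (M' * q)))
    (hRN : IsSeriesRed RN)
    (hαint : (tblmAlphaF A M' q hq hqM hA RN hRN R hR hζq hζ hE).toB.IsIntegral) :
    (∀ z : (s36Final A M' q hq hqM hA hζq hζ hE R hR).B,
      (s36Final A M' q hq hqM hA hζq hζ hE R hR).redInf z ∈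
        affRing (infPlaceC (IsLocalRing.ResidueField A) M')) ∧
    (∀ z : (s36Final A M' q hq hqM hA hζq hζ hE R hR).B,
      (s36Final A M' q hq hqM hA hζq hζ hE R hR).redMid z ∈
        affRing (infPlaceC (IsLocalRing.ResidueField A) M')) ∧
    (∀ z : (s36Final A M' q hq hqM hA hζq hζ hE R hR).B,
      (s36Final A M' q hq hqM hA hζq hζ hE R hR).redZero z ∈
        affRing (infPlaceC (IsLocalRing.ResidueField A) M')) := by
  haveI : NeZero (M' * q) := ⟨Nat.mul_ne_zero (NeZero.ne M') (NeZero.ne q)⟩
  haveI : Fact q.Prime := ⟨hq⟩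
  haveI : CharP (IsLocalRing.ResidueField A) q := charP_residueField hA
  haveI : IsAlgClosed (IsLocalRing.ResidueField A) := isAlgClosed_residueField A
  haveI : Infinite (IsLocalRing.ResidueField A) := IsAlgClosed.instInfinite
  haveI : PerfectRing (IsLocalRing.ResidueField A) q := inferInstance
  haveI : RRHyp Kbar (FF (M' * q)) := mod_rrHyp (M' * q)
  haveI : RRHyp (IsLocalRing.ResidueField A)
      (↥(modularFunctionFieldFullC (IsLocalRing.ResidueField A) M')) :=
    mr_rrHyp (IsLocalRing.ResidueField A) M'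
  obtain ⟨X, a₀, hXB, H, -, -, -⟩ := glueN_package M' q hq hqM haux hA RN hRN
  have hN := glueN_hN A M' q hq hqM hA RN hRN X H
  have hNInf : ∀ y : (nodeSetupN A M' q hq hqM hA RN hRN).B,
      (nodeSetupN A M' q hq hqM hA RN hRN).redInf y ∈
        affRing (infPlaceC (IsLocalRing.ResidueField A) M') := fun y => hXB ▸ (hN y).1
  have hNZero : ∀ y : (nodeSetupN A M' q hq hqM hA RN hRN).B,
      (nodeSetupN A M' q hq hqM hA RN hRN).redZero y ∈
        affRing (infPlaceC (IsLocalRing.ResidueField A) M') := fun y => hXB ▸ (hN y).2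
  obtain ⟨a1, a2, a3⟩ := tblm_final_alpha A M' q hq hqM hA RN hRN R hR hζq hζ hE
    ((affFrobFk (IsLocalRing.ResidueField A) q M').toRingHom) (fun x => rfl)
  exact s36_redMem_nodeSetup (tblmAlphaF A M' q hq hqM hA RN hRN R hR hζq hζ hE) hαint
    (affRing (infPlaceC (IsLocalRing.ResidueField A) M'))
    (fun x hx => affRing_mem_of_isIntegral _ hx)
    ((affFrobFk (IsLocalRing.ResidueField A) q M').toRingHom)
    (fun x hx => affFrobFk_mem (IsLocalRing.ResidueField A) q M'
      (affRing (infPlaceC (IsLocalRing.ResidueField A) M')) (glm_hB M') hx)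
    hNInf hNZero a1 a2 a3

/-- **FINAL RED-MEM**, from the integrality of `B_{D1}` over `α(B_N)` (all `RN`). -/
theorem s36Final_redMem (haux : IsAuxLevel q M')
    (hαint : ∀ (RN : ConstRed A (IsLocalRing.residue A)
        (↥(modularFunctionFieldFullC (IsLocalRing.ResidueField A) M')) (FF (M' * q)))
      (hRN : IsSeriesRed RN),
      (tblmAlphaF A M' q hq hqM hA RN hRN R hR hζq hζ hE).toB.IsIntegral) :
    (∀ z : (s36Final A M' q hq hqM hA hζq hζ hE R hR).B,
      (s36Final A M' q hq hqM hA hζq hζ hE R hR).redInf z ∈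
        affRing (infPlaceC (IsLocalRing.ResidueField A) M')) ∧
    (∀ z : (s36Final A M' q hq hqM hA hζq hζ hE R hR).B,
      (s36Final A M' q hq hqM hA hζq hζ hE R hR).redMid z ∈
        affRing (infPlaceC (IsLocalRing.ResidueField A) M')) ∧
    (∀ z : (s36Final A M' q hq hqM hA hζq hζ hE R hR).B,
      (s36Final A M' q hq hqM hA hζq hζ hE R hR).redZero z ∈
        affRing (infPlaceC (IsLocalRing.ResidueField A) M')) := by
  obtain ⟨RN, hRN⟩ := sconc_exists_constRedInfN A M' q hq hqM hA
  exact s36Final_redMem_of A M' q hq hqM hA hζq hζ hE R hR haux RN hRN (hαint RN hRN)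

end Final

end Fermat.Agent.S36lib
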