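import Mathlib
import Fermat.Agent.S36lib.Reg2

/-!
# Item 83 (S36), piece R-3 (REG2, helper9): LOCAL form

The same as `Reg2.lean`, with the divisibility hypothesis `p ^ e ≤ (f h)` only LOCALLY at the node
`t`: `∀ z ∈ p, ∃ s ∉ t, s · z ^ e ∈ (f h)`.  This is what is available when `B = B_{D1}` (functions
regular off the cusps over `∞'`): the `Δ`-quotient has zeros at the other cusps, which are killed by
a function `s` that is a unit at the nodes.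

* `reg2_dvd_of_pow_eq_loc` : the normality step, local form;
* `reg2_map_eq_span_loc` : `∀ z ∈ p, ∃ s ∉ t, y ∣ s z` ⟹ `p B_t = y B_t`;
* `reg2_generator_core_loc`, `reg2_generator_inf_loc`, `reg2_generator_zero_loc`;
* `reg2_hufd_inf_loc`, `reg2_hufd_zero_loc` : the hypothesis `hufd` of `s36_invert_nodeSetup`;
* `reg2_hdiv_loc` : the local divisibility hypothesis from valuations and a "cusp killer" `s`.
-/

set_option autoImplicit false
set_option linter.style.haveILetI false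

noncomputable section

namespace Fermat.Agent.S36lib

section Core

variable {B : Type*} [CommRing B]

/-- **Normality step, local form.**  `B` an integrally closed domain, `y ≠ 0`, `y ^ e = ε h`, and
for every `z ∈ p` some `s ∉ t` with `s z ^ e ∈ (h)`.  Then for every `z ∈ p` there is `s ∉ t` with
`y ∣ s (ε z)`. -/
theorem reg2_dvd_of_pow_eq_loc [IsDomain B] [IsIntegrallyClosed B]
    (t : Ideal B) (p : Ideal B) (e : ℕ) (he : 0 < e) (h y ε : B) (hy0 : y ≠ 0)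
    (hdiv : ∀ z ∈ p, ∃ s : B, s ∉ t ∧ s * z ^ e ∈ Ideal.span {h}) (hε : y ^ e = ε * h) :
    ∀ z ∈ p, ∃ s : B, s ∉ t ∧ y ∣ s * (ε * z) := by
  intro z hz
  obtain ⟨s, hst, hs⟩ := hdiv z hz
  obtain ⟨z₁, hz₁⟩ := Ideal.mem_span_singleton'.1 hs
  refine ⟨s, hst, ?_⟩
  obtain ⟨e', rfl⟩ : ∃ e', e = e' + 1 := ⟨e - 1, by omega⟩
  have hkey : (s * (ε * z)) ^ (e' + 1) = s ^ e' * ε ^ e' * z₁ * y ^ (e' + 1) := by
    have h1 : (s * (ε * z)) ^ (e' + 1) = s ^ e' * ε ^ e' * ε * (s * z ^ (e' + 1)) := by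
      rw [mul_pow, mul_pow, pow_succ s e', pow_succ ε e']
      ring
    rw [h1, ← hz₁, hε]
    ring
  set K := FractionRing B
  have hyK : algebraMap B K y ≠ 0 := by
    intro h0
    exact hy0 ((injective_iff_map_eq_zero (algebraMap B K)).1
      (IsFractionRing.injective B K) y h0)
  set x : K := algebraMap B K (s * (ε * z)) / algebraMap B K y with hx
  have hxpow : x ^ (e' + 1) = algebraMap B K (s ^ e' * ε ^ e' * z₁) := by
    rw [hx, div_pow, ← map_pow, ← map_pow, hkey, map_mul, mul_div_assoc,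
      div_self (by rw [map_pow]; exact pow_ne_zero _ hyK), mul_one]
  have hint : IsIntegral B (x ^ (e' + 1)) := by
    rw [hxpow]
    exact isIntegral_algebraMap
  obtain ⟨w, hw⟩ := IsIntegrallyClosed.exists_algebraMap_eq_of_isIntegral_pow
    (R := B) (K := K) (Nat.succ_pos e') hint
  refine ⟨w, ?_⟩
  apply IsFractionRing.injective B K
  rw [map_mul (algebraMap B K) y w, hw, hx, mul_div_cancel₀ _ hyK]

/-- elementwise principality up to units at `t` gives principality in the localisation -/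
theorem reg2_map_eq_span_loc (L : Type*) [CommRing L] [Algebra B L]
    (t : Ideal B) [t.IsPrime] [IsLocalization.AtPrime L t]
    (p : Ideal B) (y : B) (hy : y ∈ p) (hdvd : ∀ z ∈ p, ∃ s : B, s ∉ t ∧ y ∣ s * z) :
    p.map (algebraMap B L) = Ideal.span {algebraMap B L y} := by
  apply le_antisymm
  · rw [Ideal.map, Ideal.span_le]
    rintro _ ⟨z, hz, rfl⟩
    obtain ⟨s, hst, w, hw⟩ := hdvd z hz
    have hunit : IsUnit (algebraMap B L s) :=
      IsLocalization.map_units L (⟨s, hst⟩ : t.primeCompl)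
    obtain ⟨u, hu⟩ := hunit
    have h1 : algebraMap B L z = algebraMap B L y * (algebraMap B L w * ↑u⁻¹) := by
      have h2 : algebraMap B L s * algebraMap B L z = algebraMap B L y * algebraMap B L w := by
        rw [← map_mul, ← map_mul, hw]
      calc algebraMap B L z = ↑u⁻¹ * (algebraMap B L s * algebraMap B L z) := by
            rw [← hu, ← mul_assoc, Units.inv_mul, one_mul]
        _ = algebraMap B L y * (algebraMap B L w * ↑u⁻¹) := by rw [h2]; ring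
    show algebraMap B L z ∈ Ideal.span {algebraMap B L y}
    rw [h1]
    exact Ideal.mul_mem_right _ _ (Ideal.mem_span_singleton_self _)
  · rw [Ideal.span_le]
    intro x hx
    rw [Set.mem_singleton_iff] at hx
    rw [hx]
    exact Ideal.mem_map_of_mem _ hy

/-- **REG2, generic core, local form.** -/
theorem reg2_generator_core_loc {BN BM : Type*} [CommRing BN] [CommRing BM] [IsDomain BM]
    [IsIntegrallyClosed BM] (φ : BN →+* BM) (pM : Ideal BM) (t : Ideal BM) [t.IsPrime]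
    (e : ℕ) (he : 0 < e) (h y ε : BN) (hε : y ^ e = ε * h) (hyp : φ y ∈ pM) (hεt : φ ε ∉ t)
    (hh : φ h ≠ 0)
    (hdiv : ∀ z ∈ pM, ∃ s : BM, s ∉ t ∧ s * z ^ e ∈ Ideal.span {φ h}) :
    ∃ x : BM, x ∈ pM ∧ (∀ z ∈ pM, ∃ s : BM, s ∉ t ∧ x ∣ s * z) ∧
      pM.map (algebraMap BM (Localization.AtPrime t)) =
        Ideal.span {algebraMap BM (Localization.AtPrime t) x} := by
  have hε0 : φ ε ≠ 0 := fun h0 => hεt (h0 ▸ t.zero_mem)
  have hε' : φ y ^ e = φ ε * φ h := by rw [← map_pow, hε, map_mul]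
  have hy0 : φ y ≠ 0 := by
    intro h0
    rw [h0, zero_pow he.ne'] at hε'
    exact mul_ne_zero hε0 hh hε'.symm
  have hdvd : ∀ z ∈ pM, ∃ s : BM, s ∉ t ∧ φ y ∣ s * z := by
    intro z hz
    obtain ⟨s, hst, hs⟩ :=
      reg2_dvd_of_pow_eq_loc t pM e he (φ h) (φ y) (φ ε) hy0 hdiv hε' z hz
    refine ⟨s * φ ε, ?_, ?_⟩
    · intro hmem
      rcases (inferInstance : t.IsPrime).mem_or_mem hmem with h1 | h1
      · exact hst h1
      · exact hεt h1
    · rw [mul_assoc]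
      exact hs
  exact ⟨φ y, hyp, hdvd, reg2_map_eq_span_loc (Localization.AtPrime t) t pM (φ y) hyp hdvd⟩

end Core

section Abstract

variable {K : Type*} [Field K] {k : Type*} [Field k]
  {A : ValuationSubring K} {π : A →+* k} {κ : Type*} [Field κ] [Algebra k κ]
  {FN FM : Type*} [Field FN] [Field FM] [Algebra K FN] [Algebra K FM]
  {SN : NodeSetup A π κ FN} {SM : NodeSetup A π κ FM}

/-- **REG2 for `p_∞`, local form** (`f = β`, `h = q ^ 12 Δ(qz)/Δ(z)`, `e = 12`). -/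
theorem reg2_generator_inf_loc [IsIntegrallyClosed SM.B] (f : SetupMap SN SM)
    (hmax : ∀ t : Ideal SM.B, t.IsMaximal → (t.comap f.toB).IsMaximal)
    (e : ℕ) (he : 0 < e) (h : SN.B) (hh : h ≠ 0)
    (hreg1 : ∀ s : Ideal SN.B, SN.IsNode s → ∃ y ε : SN.B, y ∈ SN.pInf ∧ y ^ e = ε * h ∧ ε ∉ s)
    (t : Ideal SM.B) (ht : SM.IsNode t)
    (hdiv : ∀ z ∈ SM.pInf, ∃ s : SM.B, s ∉ t ∧ s * z ^ e ∈ Ideal.span {f.toB h}) :
    haveI : t.IsPrime := ht.1.isPrime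
    ∃ x : SM.B, x ∈ SM.pInf ∧ (∀ z ∈ SM.pInf, ∃ s : SM.B, s ∉ t ∧ x ∣ s * z) ∧
      SM.pInf.map (algebraMap SM.B (Localization.AtPrime t)) =
        Ideal.span {algebraMap SM.B (Localization.AtPrime t) x} := by
  haveI : t.IsPrime := ht.1.isPrime
  obtain ⟨y, ε, hy, hε, hεs⟩ := hreg1 _ (f.isNode_comap hmax ht)
  exact reg2_generator_core_loc f.toB SM.pInf t e he h y ε hε ((f.mem_pInf_iff y).2 hy)
    (fun hmem => hεs (Ideal.mem_comap.2 hmem))
    (fun h0 => hh (f.toB_injective (h0.trans (map_zero f.toB).symm))) hdiv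

/-- **REG2 for `p_0`, local form** (`f = α`, `h = Δ(z)/Δ(qz)`, `e = 12`). -/
theorem reg2_generator_zero_loc [IsIntegrallyClosed SM.B] (f : SetupMap SN SM)
    (hmax : ∀ t : Ideal SM.B, t.IsMaximal → (t.comap f.toB).IsMaximal)
    (e : ℕ) (he : 0 < e) (h : SN.B) (hh : h ≠ 0)
    (hreg1 : ∀ s : Ideal SN.B, SN.IsNode s → ∃ y ε : SN.B, y ∈ SN.pZero ∧ y ^ e = ε * h ∧ ε ∉ s)
    (t : Ideal SM.B) (ht : SM.IsNode t)
    (hdiv : ∀ z ∈ SM.pZero, ∃ s : SM.B, s ∉ t ∧ s * z ^ e ∈ Ideal.span {f.toB h}) :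
    haveI : t.IsPrime := ht.1.isPrime
    ∃ x : SM.B, x ∈ SM.pZero ∧ (∀ z ∈ SM.pZero, ∃ s : SM.B, s ∉ t ∧ x ∣ s * z) ∧
      SM.pZero.map (algebraMap SM.B (Localization.AtPrime t)) =
        Ideal.span {algebraMap SM.B (Localization.AtPrime t) x} := by
  haveI : t.IsPrime := ht.1.isPrime
  obtain ⟨y, ε, hy, hε, hεs⟩ := hreg1 _ (f.isNode_comap hmax ht)
  exact reg2_generator_core_loc f.toB SM.pZero t e he h y ε hε ((f.mem_pZero_iff y).2 hy)
    (fun hmem => hεs (Ideal.mem_comap.2 hmem))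
    (fun h0 => hh (f.toB_injective (h0.trans (map_zero f.toB).symm))) hdiv

/-- **REG2 ⇒ (hufd), via `p_∞`, local form.** -/
theorem reg2_hufd_inf_loc [IsNoetherianRing SM.B] [IsIntegrallyClosed SM.B]
    [IsDedekindDomain (SM.B ⧸ SM.pInf)] (f : SetupMap SN SM)
    (hmax : ∀ t : Ideal SM.B, t.IsMaximal → (t.comap f.toB).IsMaximal)
    (e : ℕ) (he : 0 < e) (h : SN.B) (hh : h ≠ 0)
    (hreg1 : ∀ s : Ideal SN.B, SN.IsNode s → ∃ y ε : SN.B, y ∈ SN.pInf ∧ y ^ e = ε * h ∧ ε ∉ s)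
    (hne : ¬ SM.pZero ≤ SM.pInf)
    (t : Ideal SM.B) [t.IsMaximal] (ht : SM.IsNode t)
    (hdiv : ∀ z ∈ SM.pInf, ∃ s : SM.B, s ∉ t ∧ s * z ^ e ∈ Ideal.span {f.toB h}) :
    UniqueFactorizationMonoid (Localization.AtPrime t) := by
  obtain ⟨x, -, -, hmap⟩ := reg2_generator_inf_loc f hmax e he h hh hreg1 t ht hdiv
  have hlt : SM.pInf < t :=
    lt_of_le_of_ne (le_trans le_sup_left ht.2)
      (fun heq => hne (heq ▸ le_trans le_sup_right ht.2))
  exact s36_ufm_localization_of_dedekind SM.pInf t hlt ⟨⟨_, hmap⟩⟩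

/-- **REG2 ⇒ (hufd), via `p_0`, local form.** -/
theorem reg2_hufd_zero_loc [IsNoetherianRing SM.B] [IsIntegrallyClosed SM.B]
    [IsDedekindDomain (SM.B ⧸ SM.pZero)] (f : SetupMap SN SM)
    (hmax : ∀ t : Ideal SM.B, t.IsMaximal → (t.comap f.toB).IsMaximal)
    (e : ℕ) (he : 0 < e) (h : SN.B) (hh : h ≠ 0)
    (hreg1 : ∀ s : Ideal SN.B, SN.IsNode s → ∃ y ε : SN.B, y ∈ SN.pZero ∧ y ^ e = ε * h ∧ ε ∉ s)
    (hne : ¬ SM.pInf ≤ SM.pZero)
    (t : Ideal SM.B) [t.IsMaximal] (ht : SM.IsNode t)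
    (hdiv : ∀ z ∈ SM.pZero, ∃ s : SM.B, s ∉ t ∧ s * z ^ e ∈ Ideal.span {f.toB h}) :
    UniqueFactorizationMonoid (Localization.AtPrime t) := by
  obtain ⟨x, -, -, hmap⟩ := reg2_generator_zero_loc f hmax e he h hh hreg1 t ht hdiv
  have hlt : SM.pZero < t :=
    lt_of_le_of_ne (le_trans le_sup_right ht.2)
      (fun heq => hne (heq ▸ le_trans le_sup_left ht.2))
  exact s36_ufm_localization_of_dedekind SM.pZero t hlt ⟨⟨_, hmap⟩⟩

end Abstract

section Hdiv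

variable {F : Type*} [Field F]

/-- **the local divisibility hypothesis from valuations**: `B = R₀ ∩ O₁ ∩ O₂ ∩ O`, `p ⊆ ϖ O`,
`g ≠ 0`, `g⁻¹ ∈ O₁, O₂`, `ϖ ^ e g⁻¹ ∈ O`, and a "cusp killer" `s ∈ B`, `s ∉ t`, `s g⁻¹ ∈ R₀`.
Then for every `z ∈ p`: `s · z ^ e ∈ (g)`. -/
theorem reg2_hdiv_loc (B R₀ : Subring F) (O₁ O₂ O : ValuationSubring F)
    (hB : ∀ x : F, x ∈ B ↔ x ∈ R₀ ∧ x ∈ O₁ ∧ x ∈ O₂ ∧ x ∈ O)
    (ϖ : F) (hϖ : ϖ ≠ 0) (p : Ideal B) (hp : ∀ z ∈ p, (z : F) * ϖ⁻¹ ∈ O)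
    (e : ℕ) (g : B) (hg0 : g ≠ 0) (hg₁ : (g : F)⁻¹ ∈ O₁) (hg₂ : (g : F)⁻¹ ∈ O₂)
    (hg : ϖ ^ e * (g : F)⁻¹ ∈ O)
    (t : Ideal B) (s : B) (hst : s ∉ t) (hsR : (s : F) * (g : F)⁻¹ ∈ R₀) :
    ∀ z ∈ p, ∃ s' : B, s' ∉ t ∧ s' * z ^ e ∈ Ideal.span {g} := by
  have hBO : B ≤ O.toSubring := fun x hx => ((hB x).1 hx).2.2.2
  intro z hz
  refine ⟨s, hst, ?_⟩
  have hz1 : ((z ^ e : B) : F) * (ϖ⁻¹) ^ e ∈ O :=
    (mem_reg2OrdIdeal B O hBO ϖ e (z ^ e)).1
      (reg2_pow_le_ordIdeal B O hBO ϖ p hp e (Ideal.pow_mem_pow hz e))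
  have hzB := (hB ((z ^ e : B) : F)).1 (z ^ e).2
  have hsB := (hB (s : F)).1 s.2
  have hg0' : (g : F) ≠ 0 := fun h0 => hg0 (Subtype.ext h0)
  have hw : (s : F) * ((z ^ e : B) : F) * (g : F)⁻¹ ∈ B := by
    rw [hB]
    refine ⟨?_, ?_, ?_, ?_⟩
    · have e1 : (s : F) * ((z ^ e : B) : F) * (g : F)⁻¹
          = ((z ^ e : B) : F) * ((s : F) * (g : F)⁻¹) := by ring
      rw [e1]
      exact R₀.mul_mem hzB.1 hsR
    · rw [mul_assoc]
      exact O₁.mul_mem _ _ hsB.2.1 (O₁.mul_mem _ _ hzB.2.1 hg₁)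
    · rw [mul_assoc]
      exact O₂.mul_mem _ _ hsB.2.2.1 (O₂.mul_mem _ _ hzB.2.2.1 hg₂)
    · have e1 : (s : F) * ((z ^ e : B) : F) * (g : F)⁻¹
          = (s : F) * ((((z ^ e : B) : F) * (ϖ⁻¹) ^ e) * (ϖ ^ e * (g : F)⁻¹)) := by
        rw [inv_pow]
        field_simp
      rw [e1]
      exact O.mul_mem _ _ hsB.2.2.2 (O.mul_mem _ _ hz1 hg)
  rw [Ideal.mem_span_singleton']
  refine ⟨⟨_, hw⟩, Subtype.ext ?_⟩
  show (s : F) * ((z ^ e : B) : F) * (g : F)⁻¹ * (g : F) = ((s * z ^ e : B) : F)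
  rw [Subring.coe_mul]
  field_simp

end Hdiv

end Fermat.Agent.S36lib

end
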