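import Mathlib
import Fermat.Agent.S36lib.Reg3Local

/-!
# Item 83 (S36), piece D1-C / R-5, ABSTRACT CORE (helper10): REG3 at the CUSPIDAL points of `C_mid`

(lead's note "the cuspidal points P_c", §1.)  `B = B_{D₁}` (functions regular off the cusps over
`∞'`), `P = P_c^mid` the maximal ideal of the cusp `c ≠ ∞'` on the middle component.  No element
`π₁ x - π₃ x`, `x ∈ B(M')`, generates `p_mid B_P`; the generator is `ϖ = 1 - π₃ j / π₁ j`, and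
`ϖ ∈ B_P` follows from the `q`-th power trick

  `(π₃ j / π₁ j)^q = ρ / ρ'`, `ρ = π₂ j / (π₁ j)^q = b / w`, `ρ' = π₂ j / (π₃ j)^q = b' / w'`,

with `b, w, b', w' ∈ B`, `w, b' ∉ P`, and the root-closedness of `B`.

* `reg3ca_quot`: `J₃ / J₁ = a / s` with `a ∈ B`, `s = b' w ∉ P`  (root-closedness only).
* `reg3ca_exists`: the input of the local criterion: `π₀ := s - a`, `w₁ π₀ ^ e = q b₁`,
  `w₁, b₁ ∉ P`, from `(1 - J₃/J₁)^e = q ε`, `ε ∈ O_mid`, `ε` a unit at `P`.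
* `reg3ca_dvd`: `p_mid B_P = π₀ B_P` (elementwise form).
* `reg3ca_unit`: the hypothesis "`ε` is a unit at `P`" from an order function on the residue
  field (`P` = the elements of `B` whose reduction vanishes at `c`).
* over a `NodeSetup`: `reg3ca_mid_dvd`, `reg3ca_mid_ufm`.

Mathlib + `Reg3Local` only.
-/

set_option autoImplicit false
set_option linter.style.haveILetI false

namespace Fermat.Agent.S36lib

/-- **the `q`-th power trick**: if `w J₂ = b J₁ ^ n`, `w' J₂ = b' J₃ ^ n` with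
`b, w, b', w' ∈ B` and `B` is root-closed in `F`, then `(b' w) · J₃ / J₁ ∈ B`. -/
theorem reg3ca_quot {F : Type*} [Field F] (B : Subring F)
    (hroot : ∀ (x : F) (n : ℕ), 0 < n → x ^ n ∈ B → x ∈ B)
    (n : ℕ) (hn : 0 < n) (J1 J2 J3 : F) (hJ1 : J1 ≠ 0) (hJ2 : J2 ≠ 0)
    (b w b' w' : B) (hw0 : w ≠ 0) (hb'0 : b' ≠ 0)
    (h1 : (w : F) * J2 = b * J1 ^ n) (h3 : (w' : F) * J2 = b' * J3 ^ n) :
    ((b' * w : B) : F) * (J3 / J1) ∈ B := by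
  have hwF : (w : F) ≠ 0 := fun h => hw0 (Subtype.ext h)
  have hb'F : (b' : F) ≠ 0 := fun h => hb'0 (Subtype.ext h)
  have hbF : (b : F) ≠ 0 := by
    intro h
    rw [h, zero_mul] at h1
    exact mul_ne_zero hwF hJ2 h1
  apply hroot _ n hn
  obtain ⟨n', rfl⟩ : ∃ n', n = n' + 1 := ⟨n - 1, by omega⟩
  have hJ1n : J1 ^ (n' + 1) ≠ 0 := pow_ne_zero _ hJ1
  have key : (((b' * w : B) : F) * (J3 / J1)) ^ (n' + 1) =
      (((b' * w) ^ n' * (w' * b) : B) : F) := by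
    push_cast
    rw [mul_pow, div_pow]
    field_simp
    -- goal: polynomial identity modulo h1, h3
    have e1 : J1 ^ (n' + 1) = (w : F) * J2 / b := by
      rw [h1]; field_simp
    have e3 : J3 ^ (n' + 1) = (w' : F) * J2 / b' := by
      rw [h3]; field_simp
    rw [e1, e3]
    field_simp
    ring
  rw [key]
  exact ((b' * w) ^ n' * (w' * b)).2

/-- **REG3 at a cuspidal point, the input of the local criterion.** -/
theorem reg3ca_exists {F : Type*} [Field F] (B : Subring F) (O : ValuationSubring F)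
    (hBO : B ≤ O.toSubring) (P : Ideal B) [P.IsPrime]
    (hroot : ∀ (x : F) (n : ℕ), 0 < n → x ^ n ∈ B → x ∈ B)
    (q : B) (e : ℕ)
    (hsatP : ∀ z : F, z ∈ O → (q : F) * z ∈ B → ∃ w : B, w ∉ P ∧ (w : F) * z ∈ B)
    (n : ℕ) (hn : 0 < n) (J1 J2 J3 : F) (hJ1 : J1 ≠ 0) (hJ2 : J2 ≠ 0)
    (b w b' w' : B) (hw : w ∉ P) (hb' : b' ∉ P)
    (h1 : (w : F) * J2 = b * J1 ^ n) (h3 : (w' : F) * J2 = b' * J3 ^ n)
    (ε : F) (hεO : ε ∈ O) (hε : (1 - J3 / J1) ^ e = (q : F) * ε)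
    (hεP : ∀ w₂ b₂ : B, w₂ ∉ P → (w₂ : F) * ε = b₂ → b₂ ∉ P) :
    ∃ π₀ w₁ b₁ : B, w₁ ∉ P ∧ b₁ ∉ P ∧ w₁ * π₀ ^ e = q * b₁ ∧
      (π₀ : F) = ((b' * w : B) : F) * (1 - J3 / J1) := by
  have hw0 : w ≠ 0 := fun h => hw (by rw [h]; exact P.zero_mem)
  have hb'0 : b' ≠ 0 := fun h => hb' (by rw [h]; exact P.zero_mem)
  have hs : b' * w ∉ P := fun h =>
    (Ideal.IsPrime.mem_or_mem ‹P.IsPrime› h).elim hb' hw
  have ha := reg3ca_quot B hroot n hn J1 J2 J3 hJ1 hJ2 b w b' w' hw0 hb'0 h1 h3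
  set s : B := b' * w with hsdef
  set a : B := ⟨(s : F) * (J3 / J1), ha⟩ with hadef
  have hπ : ((s - a : B) : F) = (s : F) * (1 - J3 / J1) := by
    push_cast
    rw [hadef]
    ring
  -- `z := s ^ e * ε`
  have hzO : ((s ^ e : B) : F) * ε ∈ O := O.mul_mem _ _ (hBO (s ^ e).2) hεO
  have hqz : (q : F) * (((s ^ e : B) : F) * ε) ∈ B := by
    have : (q : F) * (((s ^ e : B) : F) * ε) = (((s - a) ^ e : B) : F) := by
      push_cast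
      rw [show ((s : F) - (a : F)) = (s : F) * (1 - J3 / J1) from by
        have := hπ; push_cast at this; exact this]
      rw [mul_pow, hε]
      ring
    rw [this]
    exact ((s - a) ^ e).2
  obtain ⟨w₁, hw₁, hw₁z⟩ := hsatP _ hzO hqz
  refine ⟨s - a, w₁, ⟨(w₁ : F) * (((s ^ e : B) : F) * ε), hw₁z⟩, hw₁, ?_, ?_, hπ⟩
  · have hws : w₁ * s ^ e ∉ P := fun h =>
      (Ideal.IsPrime.mem_or_mem ‹P.IsPrime› h).elim hw₁
        (fun h' => hs (Ideal.IsPrime.mem_of_pow_mem ‹P.IsPrime› e h'))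
    refine hεP (w₁ * s ^ e) _ hws ?_
    push_cast
    ring
  · apply Subtype.ext
    push_cast
    rw [show ((s : F) - (a : F)) = (s : F) * (1 - J3 / J1) from by
      have := hπ; push_cast at this; exact this]
    rw [mul_pow, hε]
    ring

/-- **REG3 at a cuspidal point, elementwise form**: `p_mid B_P = π₀ B_P`. -/
theorem reg3ca_dvd {F : Type*} [Field F] (B : Subring F) (O : ValuationSubring F)
    (hBO : B ≤ O.toSubring) (P : Ideal B) [P.IsPrime]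
    (hP : ∀ x : B, (x : F) ∈ O.nonunits → x ∈ P)
    (hroot : ∀ (x : F) (n : ℕ), 0 < n → x ^ n ∈ B → x ∈ B)
    (q : B) (hq0 : q ≠ 0) (e : ℕ) (he : 0 < e)
    (hram : ∀ x : F, x ∈ O.nonunits → ∃ y ∈ O, x ^ e = (q : F) * y)
    (hsatP : ∀ z : F, z ∈ O → (q : F) * z ∈ B → ∃ w : B, w ∉ P ∧ (w : F) * z ∈ B)
    (n : ℕ) (hn : 0 < n) (J1 J2 J3 : F) (hJ1 : J1 ≠ 0) (hJ2 : J2 ≠ 0)
    (b w b' w' : B) (hw : w ∉ P) (hb' : b' ∉ P)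
    (h1 : (w : F) * J2 = b * J1 ^ n) (h3 : (w' : F) * J2 = b' * J3 ^ n)
    (ε : F) (hεO : ε ∈ O) (hε : (1 - J3 / J1) ^ e = (q : F) * ε)
    (hεP : ∀ w₂ b₂ : B, w₂ ∉ P → (w₂ : F) * ε = b₂ → b₂ ∉ P) :
    ∃ π₀ : B, (π₀ : F) = ((b' * w : B) : F) * (1 - J3 / J1) ∧
      ∀ z : B, (z : F) ∈ O.nonunits → ∃ w' c : B, w' ∉ P ∧ w' * z = π₀ * c := by
  obtain ⟨π₀, w₁, b₁, -, hb₁, hπ, hπF⟩ := reg3ca_exists B O hBO P hroot q e hsatP n hn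
    J1 J2 J3 hJ1 hJ2 b w b' w' hw hb' h1 h3 ε hεO hε hεP
  exact ⟨π₀, hπF, reg3_dvd_of_pow_eq B O hBO P hP q hq0 e he hram hsatP π₀ w₁ b₁ hb₁ hπ⟩

/-- The hypothesis "`ε` is a unit at `P`" from an order function `ordc` on the residue field:
`P` is the set of elements of `B` whose reduction vanishes at `c`, and the reduction of `ε` has
order `0` at `c`. -/
theorem reg3ca_unit {F κ : Type*} [Field F] [Field κ] (B : Subring F)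
    (O : ValuationSubring F) (hBO : B ≤ O.toSubring) (red : O →+* κ) (P : Ideal B)
    (ordc : κ → ℤ) (hmul : ∀ x y : κ, x ≠ 0 → y ≠ 0 → ordc (x * y) = ordc x + ordc y)
    (hP₁ : ∀ z : B, red ⟨(z : F), hBO z.2⟩ ≠ 0 → ordc (red ⟨(z : F), hBO z.2⟩) = 0 → z ∉ P)
    (hP₂ : ∀ z : B, z ∉ P → red ⟨(z : F), hBO z.2⟩ ≠ 0 ∧ ordc (red ⟨(z : F), hBO z.2⟩) = 0)
    (ε : F) (hεO : ε ∈ O) (hε0 : red ⟨ε, hεO⟩ ≠ 0) (hεc : ordc (red ⟨ε, hεO⟩) = 0) :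
    ∀ w₂ b₂ : B, w₂ ∉ P → (w₂ : F) * ε = b₂ → b₂ ∉ P := by
  intro w₂ b₂ hw₂ h
  obtain ⟨hw0, hwc⟩ := hP₂ w₂ hw₂
  have hred : red ⟨(b₂ : F), hBO b₂.2⟩ = red ⟨(w₂ : F), hBO w₂.2⟩ * red ⟨ε, hεO⟩ := by
    rw [← map_mul]
    congr 1
    apply Subtype.ext
    exact h.symm
  apply hP₁ b₂
  · rw [hred]
    exact mul_ne_zero hw0 hε0
  · rw [hred, hmul _ _ hw0 hε0, hwc, hεc, add_zero]

/-! ### Over a `NodeSetup` -/

section Node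

variable {K : Type*} [Field K] {k : Type*} [Field k] {A : ValuationSubring K} {π : A →+* k}
  {κ : Type*} [Field κ] [Algebra k κ] {F : Type*} [Field F] [Algebra K F]
variable {S : NodeSetup A π κ F} {q : S.B} {e : ℕ}

/-- **REG3 at the cuspidal points of `C_mid`**: `p_mid B_P = π₀ B_P` with
`π₀ = b' w (1 - J₃ / J₁)`. -/
theorem reg3ca_mid_dvd (H : Reg3Hyp S q e) (P : Ideal S.B) [P.IsPrime] (hmid : S.pMid ≤ P)
    (hinf : ¬ S.pInf ≤ P) (hzero : ¬ S.pZero ≤ P)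
    (hroot : ∀ (x : F) (n : ℕ), 0 < n → x ^ n ∈ S.B → x ∈ S.B)
    (n : ℕ) (hn : 0 < n) (J1 J2 J3 : F) (hJ1 : J1 ≠ 0) (hJ2 : J2 ≠ 0)
    (b w b' w' : S.B) (hw : w ∉ P) (hb' : b' ∉ P)
    (h1 : (w : F) * J2 = b * J1 ^ n) (h3 : (w' : F) * J2 = b' * J3 ^ n)
    (ε : F) (hεO : ε ∈ S.vMid.O) (hε : (1 - J3 / J1) ^ e = (q : F) * ε)
    (hεP : ∀ w₂ b₂ : S.B, w₂ ∉ P → (w₂ : F) * ε = b₂ → b₂ ∉ P) :
    ∃ π₀ : S.B, π₀ ∈ S.pMid ∧ (π₀ : F) = ((b' * w : S.B) : F) * (1 - J3 / J1) ∧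
      (∃ w₁ b₁ : S.B, w₁ ∉ P ∧ b₁ ∉ P ∧ w₁ * π₀ ^ e = q * b₁) ∧
      ∀ z ∈ S.pMid, ∃ w' c : S.B, w' ∉ P ∧ w' * z = π₀ * c := by
  obtain ⟨π₀, w₁, b₁, hw₁, hb₁, hπ, hπF⟩ := reg3ca_exists S.B S.vMid.O S.B_le_mid P hroot q e
    (H.sat_mid P hinf hzero) n hn J1 J2 J3 hJ1 hJ2 b w b' w' hw hb' h1 h3 ε hεO hε hεP
  exact ⟨π₀, reg3_mid_mem H P hmid π₀ w₁ b₁ hw₁ hπ, hπF, ⟨w₁, b₁, hw₁, hb₁, hπ⟩,
    reg3_mid_dvd H P hmid hinf hzero π₀ w₁ b₁ hb₁ hπ⟩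

/-- **REG3 at the cuspidal points of `C_mid`**: `B_P` is factorial. -/
theorem reg3ca_mid_ufm [IsNoetherianRing S.B] [IsDedekindDomain (S.B ⧸ S.pMid)]
    (H : Reg3Hyp S q e) (P : Ideal S.B) [P.IsPrime] (hmid : S.pMid ≤ P) (hne : S.pMid ≠ P)
    (hinf : ¬ S.pInf ≤ P) (hzero : ¬ S.pZero ≤ P)
    (hroot : ∀ (x : F) (n : ℕ), 0 < n → x ^ n ∈ S.B → x ∈ S.B)
    (n : ℕ) (hn : 0 < n) (J1 J2 J3 : F) (hJ1 : J1 ≠ 0) (hJ2 : J2 ≠ 0)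
    (b w b' w' : S.B) (hw : w ∉ P) (hb' : b' ∉ P)
    (h1 : (w : F) * J2 = b * J1 ^ n) (h3 : (w' : F) * J2 = b' * J3 ^ n)
    (ε : F) (hεO : ε ∈ S.vMid.O) (hε : (1 - J3 / J1) ^ e = (q : F) * ε)
    (hεP : ∀ w₂ b₂ : S.B, w₂ ∉ P → (w₂ : F) * ε = b₂ → b₂ ∉ P) :
    UniqueFactorizationMonoid (Localization.AtPrime P) := by
  obtain ⟨π₀, w₁, b₁, hw₁, hb₁, hπ, -⟩ := reg3ca_exists S.B S.vMid.O S.B_le_mid P hroot q e
    (H.sat_mid P hinf hzero) n hn J1 J2 J3 hJ1 hJ2 b w b' w' hw hb' h1 h3 ε hεO hε hεP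
  exact reg3_mid_ufm H P hmid hne hinf hzero π₀ w₁ b₁ hw₁ hb₁ hπ

/-- the unit hypothesis over a `NodeSetup`, from an order function at `c` -/
theorem reg3ca_mid_unit (P : Ideal S.B) (ordc : κ → ℤ)
    (hmul : ∀ x y : κ, x ≠ 0 → y ≠ 0 → ordc (x * y) = ordc x + ordc y)
    (hP₁ : ∀ z : S.B, S.redMid z ≠ 0 → ordc (S.redMid z) = 0 → z ∉ P)
    (hP₂ : ∀ z : S.B, z ∉ P → S.redMid z ≠ 0 ∧ ordc (S.redMid z) = 0)
    (ε : F) (hεO : ε ∈ S.vMid.O) (hε0 : S.vMid.red ⟨ε, hεO⟩ ≠ 0)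
    (hεc : ordc (S.vMid.red ⟨ε, hεO⟩) = 0) :
    ∀ w₂ b₂ : S.B, w₂ ∉ P → (w₂ : F) * ε = b₂ → b₂ ∉ P :=
  reg3ca_unit S.B S.vMid.O S.B_le_mid S.vMid.red P ordc hmul hP₁ hP₂ ε hεO hε0 hεc

end Node

end Fermat.Agent.S36lib
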