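/-
Item 83 (S36), REG3 contract, piece R6-d (helper10): the cusp data in the shape of the consumers
`reg3_hmid` / `reg3_hgen` / `reg3_hufd_mid` / `reg3_final_input` (helper5).

* `reg3cc_ne_inf`: a place `c` of `F_{M',k}` at which all `red_mid z`, `z ∈ B`, are regular is
  `≠ ∞̄` (`π₁` of a lift (`r3l_surj`, helper8) of a function with a pole at `∞̄` only lies in `B`);
* `reg3cc_cuspData_aff`: `Reg3CuspDataAt` at every pole `c` of `j̄` with this property.
No sorry.
-/
import Mathlib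
import Fermat.Agent.S36lib.Reg3CuspConc
import Fermat.Agent.S36lib.Reg3Lift

set_option autoImplicit false
set_option linter.style.haveILetI false
set_option linter.unusedSectionVars false
set_option linter.unusedVariables false
set_option synthInstance.maxHeartbeats 400000
set_option maxHeartbeats 1600000

noncomputable section

open ModularCurve AlgebraicCurve HahnSeries KaehlerDifferential
open Fermat.Agent.S24lib Fermat.Agent.HeckeBar Fermat.Agent.S37lib Fermat.Agent.S35lib
  Fermat.Agent.GoodRed Fermat.Agent.S34lib Fermat.Agent.RRlib Fermat.Agent.FFlib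
  Fermat.Agent.GM

namespace Fermat.Agent.S36lib

section Conc2

variable (A : ValuationSubring Kbar) (M' q : ℕ) [NeZero M'] [NeZero q] (hq : q.Prime)
  (hqM : ¬ q ∣ M') (hA : A.LiesOverPrime q)
variable {ζ : Kbarˣ} {E : FF (M' * q * q) →+* LaurentSeries Kbar}
variable (hζq : ζ ^ q = 1) (hζ : IsPrimitiveRoot (ζ : Kbar) q) (hE : IsMidExp M' q ζ E)
variable (R : ConstRed A (IsLocalRing.residue A)
      (↥(modularFunctionFieldFullC (IsLocalRing.ResidueField A) M')) (FF (M' * q * q)))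
  (hR : IsSeriesRed R)
variable (R₀ : ConstRed A (IsLocalRing.residue A)
      (↥(modularFunctionFieldFullC (IsLocalRing.ResidueField A) M')) (FF M'))
  (hR₀ : IsSeriesRed R₀)

include hR hR₀ in
/-- some `red_mid z`, `z ∈ B`, has a pole at `∞̄`: a place at which all `red_mid z` are regular
is `≠ ∞̄`. -/
theorem reg3cc_ne_inf (haux : IsAuxLevel q M')
    (c : Place (IsLocalRing.ResidueField A) (Fk (IsLocalRing.ResidueField A) M'))
    (hreg : ∀ z : (reg3S A M' q hq hqM hA hζq hζ hE R hR).B,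
      0 ≤ c.ord ((reg3S A M' q hq hqM hA hζq hζ hE R hR).redMid z)) :
    c ≠ infPlaceC (IsLocalRing.ResidueField A) M' := by
  haveI : Fact q.Prime := ⟨hq⟩
  haveI : IsAlgClosed (IsLocalRing.ResidueField A) := isAlgClosed_residueField A
  haveI : RRHyp (IsLocalRing.ResidueField A) (Fk (IsLocalRing.ResidueField A) M') :=
    mr_rrHyp (IsLocalRing.ResidueField A) M'
  have hlt : A.valuation (q : Kbar) < 1 := (A.mem_nonunits_iff).mp hA
  intro hcc
  set n : ℕ := 2 * genusFF (IsLocalRing.ResidueField A) (Fk (IsLocalRing.ResidueField A) M') + 1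
    with hn
  set X : Divisor (IsLocalRing.ResidueField A) (Fk (IsLocalRing.ResidueField A) M') :=
    Finsupp.single (infPlaceC (IsLocalRing.ResidueField A) M') (n : ℤ) with hX
  have hdeg : 2 * (genusFF (IsLocalRing.ResidueField A)
      (Fk (IsLocalRing.ResidueField A) M') : ℤ) ≤ Divisor.degree X := by
    rw [hX, Divisor.degree_single, deg_eq_one, hn]
    push_cast
    omega
  obtain ⟨g, hgX, hg0, hgw⟩ := exists_ord_eq_neg (IsLocalRing.ResidueField A)
    (Fk (IsLocalRing.ResidueField A) M') hdeg (infPlaceC (IsLocalRing.ResidueField A) M')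
  have hgaff : g ∈ affRing (infPlaceC (IsLocalRing.ResidueField A) M') :=
    affRing_of_mem_rr hgX
  obtain ⟨x, hx, hxB, hxg⟩ := r3l_surj q haux hA hR₀ g hgaff
  have hxreg : ∀ P : Place Kbar (FF M'), P ≠ infPlaceBar M' → 0 ≤ P.ord (x : FF M') := by
    intro P hP
    have h1 := ((mem_d1lRing_iff (A := A) (R := R₀) x).mp hxB).1
    rw [mem_offRegular_iff] at h1
    have h2 := h1 P (by simpa using hP)
    rwa [ffMem_iff_ord_nonneg] at h2
  obtain ⟨i1, -⟩ := pit_pi1_inf (R := R) hq hlt hR₀ hR (x : FF M') hx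
  obtain ⟨z1, -, -⟩ := pit_pi_zero (R := R) hq hlt hR₀ hR hqM (x : FF M') hx
  obtain ⟨m1, r1⟩ := pit_pi1_mid hq hlt hζq hE hR₀ (x : FF M') hx
  have f1 : ecPi1 M' q (x : FF M') ∈ f0Field A (M' * q * q) := ecPi1_mem_f0Field A x.2
  have B1 : (⟨_, f1⟩ : f0Field A (M' * q * q)) ∈ (reg3S A M' q hq hqM hA hζq hζ hE R hR).B := by
    rw [reg3cc_mem_B]
    exact ⟨s36D1_pi1 M' q hq hqM _ hxreg, i1, m1, z1⟩
  have hred : (reg3S A M' q hq hqM hA hζq hζ hE R hR).redMid ⟨⟨_, f1⟩, B1⟩ = g := by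
    refine reg3cc_redMid_eq A M' q hq hqM hA hζq hζ hE R hR _ g m1 ?_
    rw [r1, hxg]
  have h3 := hreg ⟨⟨_, f1⟩, B1⟩
  rw [hred, hcc, hgw, hX, Finsupp.single_eq_same] at h3
  omega

include hR hR₀ in
/-- **R6-d, final, in the shape of `reg3_hmid`/`reg3_final_input`**: the cusp data at every pole
`c` of `j̄` at which all `red_mid z`, `z ∈ B`, are regular. -/
theorem reg3cc_cuspData_aff (haux : IsAuxLevel q M')
    (c : Place (IsLocalRing.ResidueField A) (Fk (IsLocalRing.ResidueField A) M'))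
    (hcusp : c.ord (jk (IsLocalRing.ResidueField A) M') < 0)
    (hreg : ∀ z : (reg3S A M' q hq hqM hA hζq hζ hE R hR).B,
      0 ≤ c.ord ((reg3S A M' q hq hqM hA hζq hζ hE R hR).redMid z)) :
    Reg3CuspDataAt (reg3S A M' q hq hqM hA hζq hζ hE R hR)
      (reg3V' A M' q hq hA R₀ hR₀).red
      (reg3Phi1 A M' q hq hqM hA hζq hζ hE R hR R₀ hR₀)
      (reg3Phi3 A M' q hq hqM hA hζq hζ hE R hR R₀ hR₀)
      (reg3X0 A M' q hq hA R₀ hR₀) c :=
  reg3cc_cuspData_final A M' q hq hqM hA hζq hζ hE R hR R₀ hR₀ haux c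
    (reg3cc_ne_inf A M' q hq hqM hA hζq hζ hE R hR R₀ hR₀ haux c hreg) hcusp

end Conc2

end Fermat.Agent.S36lib

end
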