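import Mathlib
import Fermat.Agent.S36lib.Reg3NodesUncond
import Fermat.Agent.S36lib.W2jConc

/-!
# Item 83 (S36), piece R6-e, final (helper22): the node package of `s36Final` from `haux` and the
trichotomy only

`r6e_final_pkg` (`Reg3NodesUncond.lean`) with the series reduction `RN` of level `N = M' q`
(`sconc_exists_constRedInfN`, helper24) and (SUM) at level `N` (`w2j_rgnSum`, helper1) plugged in.

* `r6e_done_pkg`        : the node package from `haux` + `htri` for `s36Final`;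
* `r6e_done_pkg_of_htri2` : the node package from `haux` + `htri` for the `B_j`-twin.

All proofs complete.
-/

set_option autoImplicit false
set_option linter.style.haveILetI false
set_option linter.unusedSectionVars false
set_option linter.unusedVariables false
set_option synthInstance.maxHeartbeats 400000
set_option maxHeartbeats 4000000

noncomputable section

namespace Fermat.Agent.S36lib

open ModularCurve HahnSeries AlgebraicCurve
open Fermat.Agent.GoodRed Fermat.Agent.S24lib Fermat.Agent.S34lib Fermat.Agent.S37lib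
  Fermat.Agent.HeckeBar Fermat.Agent.S35lib Fermat.Agent.GM Fermat.Agent.FFlib
  Fermat.Agent.RRlib Fermat.Agent.S16lib

variable (A : ValuationSubring Kbar) (M' q : ℕ) [NeZero M'] [NeZero q]
variable (hq : q.Prime) (hqM : ¬ q ∣ M') (hA : A.LiesOverPrime q)
variable {ζ : Kbarˣ} {E : FF (M' * q * q) →+* LaurentSeries Kbar}
variable (hζq : ζ ^ q = 1) (hζ : IsPrimitiveRoot (ζ : Kbar) q) (hE : IsMidExp M' q ζ E)
variable (R : ConstRed A (IsLocalRing.residue A)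
      (↥(modularFunctionFieldFullC (IsLocalRing.ResidueField A) M')) (FF (M' * q * q)))
    (hR : IsSeriesRed R)

local notation "SF" => s36Final A M' q hq hqM hA hζq hζ hE R hR

local notation "SMj" => trfcMj A M' q hq hqM hA hζq hζ hE R hR

local notation "κA" => Fk (IsLocalRing.ResidueField A) M'

local notation "kA" => IsLocalRing.ResidueField A

/-- **THE NODE PACKAGE for `s36Final`**, from `haux` and the trichotomy only. -/
theorem r6e_done_pkg (haux : IsAuxLevel q M')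
    (htri : ∀ 𝔪 : Ideal (SF).B, 𝔪.IsMaximal → (SF).constB (q : k0Val A) ∈ 𝔪 → (SF).IsNode 𝔪 ∨
      ((SF).pInf ≤ 𝔪 ∧ ¬ (SF).pMid ≤ 𝔪 ∧ ¬ (SF).pZero ≤ 𝔪) ∨
      (¬ (SF).pInf ≤ 𝔪 ∧ (SF).pMid ≤ 𝔪 ∧ ¬ (SF).pZero ≤ 𝔪) ∨
      (¬ (SF).pInf ≤ 𝔪 ∧ ¬ (SF).pMid ≤ 𝔪 ∧ (SF).pZero ≤ 𝔪)) :
    ∃ n : ℕ, 12 * n ≤ (q - 1) * dedekindPsi M' ∧
      ∀ cusps : Finset (Place kA κA), (∀ v, v ∈ cusps ↔ v.ord (jk kA M') < 0) →
        ∃ nodes : Finset (Place kA κA), Disjoint nodes cusps ∧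
          (∀ c ∈ nodes, ∀ s ∈ (SF).pInf, (SF).redMid s ≠ 0 → 0 < c.ord ((SF).redMid s)) ∧
          (∀ w : Place kA κA, w ∉ cusps → w ∉ nodes →
            ∃ s : (SF).B, s ∈ (SF).pInf ∧ s ∈ (SF).pZero ∧ (SF).redMid s ≠ 0 ∧
              w.ord ((SF).redMid s) = 0) ∧
          (∀ t ∈ nodes,
            ∃ s : (SF).B, s ∈ (SF).pInf ∧ s ∈ (SF).pZero ∧ (SF).redMid s ≠ 0 ∧
              t.ord ((SF).redMid s) ≤ 2) ∧
          nodes.card ≤ n := by
  obtain ⟨RN, hRN⟩ := sconc_exists_constRedInfN A M' q hq hqM hA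
  exact r6e_final_pkg A M' q hq hqM hA hζq hζ hE R hR RN hRN haux
    (fun z h1 h3 => w2j_rgnSum A M' q hq hqM hA RN hRN z h1 h3) htri

/-- the node package with the trichotomy of `B_j` (INC-j) as input -/
theorem r6e_done_pkg_of_htri2 (haux : IsAuxLevel q M')
    (htri2 : ∀ 𝔪' : Ideal (SMj).B, 𝔪'.IsMaximal → (SMj).constB (q : k0Val A) ∈ 𝔪' →
      (SMj).IsNode 𝔪' ∨
      ((SMj).pInf ≤ 𝔪' ∧ ¬ (SMj).pMid ≤ 𝔪' ∧ ¬ (SMj).pZero ≤ 𝔪') ∨
      (¬ (SMj).pInf ≤ 𝔪' ∧ (SMj).pMid ≤ 𝔪' ∧ ¬ (SMj).pZero ≤ 𝔪') ∨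
      (¬ (SMj).pInf ≤ 𝔪' ∧ ¬ (SMj).pMid ≤ 𝔪' ∧ (SMj).pZero ≤ 𝔪')) :
    ∃ n : ℕ, 12 * n ≤ (q - 1) * dedekindPsi M' ∧
      ∀ cusps : Finset (Place kA κA), (∀ v, v ∈ cusps ↔ v.ord (jk kA M') < 0) →
        ∃ nodes : Finset (Place kA κA), Disjoint nodes cusps ∧
          (∀ c ∈ nodes, ∀ s ∈ (SF).pInf, (SF).redMid s ≠ 0 → 0 < c.ord ((SF).redMid s)) ∧
          (∀ w : Place kA κA, w ∉ cusps → w ∉ nodes →
            ∃ s : (SF).B, s ∈ (SF).pInf ∧ s ∈ (SF).pZero ∧ (SF).redMid s ≠ 0 ∧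
              w.ord ((SF).redMid s) = 0) ∧
          (∀ t ∈ nodes,
            ∃ s : (SF).B, s ∈ (SF).pInf ∧ s ∈ (SF).pZero ∧ (SF).redMid s ≠ 0 ∧
              t.ord ((SF).redMid s) ≤ 2) ∧
          nodes.card ≤ n :=
  r6e_done_pkg A M' q hq hqM hA hζq hζ hE R hR haux
    (r6e_final_htri A M' q hq hqM hA hζq hζ hE R hR haux htri2)

end Fermat.Agent.S36lib

end
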