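/-
Item 83 (S36), piece HTOR-AUX (helper3): the small hypotheses `mi`, `hmi`, `hroot` of
`s36_crux_head` / `s36_hhead_pkg`.

* `s36_isUnit_of_res_ne_zero` : `π` onto a field, `π a ≠ 0` ⟹ `a` is a unit of the local ring `A`;
* `s36_exists_natCast_inv`    : `(m : k) ≠ 0` ⟹ `∃ mi : S.B, (m : S.B) * mi = 1`  (abstract setup);
* `s36_k0_exists_natCast_inv` : the same for a setup over `A0 = k0Val A` with `π = k0Res A`;
* `s36_exists_root_of_isAlgClosed` : `k` algebraically closed, `0 < m` ⟹ `∀ c, ∃ d, d ^ m = c`.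
(complete proofs, standard axioms only)
-/
import Mathlib
import Fermat.Agent.S36lib.Setup
import Fermat.Agent.S36lib.VSurj

set_option autoImplicit false
set_option linter.style.haveILetI false
set_option linter.unusedSectionVars false

noncomputable section

namespace Fermat.Agent.S36lib

open Fermat.Agent.S24lib Fermat.Agent.S34lib

section Abstract

variable {K : Type*} [Field K] {k : Type*} [Field k]
variable {A : ValuationSubring K} {π : A →+* k} {κ : Type*} [Field κ] [Algebra k κ]
  {F : Type*} [Field F] [Algebra K F]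

/-- for `π : A → k` onto a field: `π a ≠ 0` implies that `a` is a unit -/
theorem s36_isUnit_of_res_ne_zero (hπ : Function.Surjective π) (a : A) (ha : π a ≠ 0) :
    IsUnit a := by
  by_contra hnu
  have hmem : a ∈ IsLocalRing.maximalIdeal A := (IsLocalRing.mem_maximalIdeal a).2 hnu
  have hmax : (RingHom.ker π).IsMaximal := RingHom.ker_isMaximal_of_surjective π hπ
  have hker : RingHom.ker π = IsLocalRing.maximalIdeal A := IsLocalRing.eq_maximalIdeal hmax
  rw [← hker, RingHom.mem_ker] at hmem
  exact ha hmem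

/-- `m` is invertible in `B` as soon as its residue is nonzero -/
theorem s36_exists_natCast_inv (S : NodeSetup A π κ F) (hπ : Function.Surjective π) (m : ℕ)
    (hmk : (m : k) ≠ 0) : ∃ mi : S.B, (m : S.B) * mi = 1 := by
  have hu : IsUnit ((m : ℕ) : A) := by
    refine s36_isUnit_of_res_ne_zero hπ _ ?_
    rwa [map_natCast]
  obtain ⟨u, hu⟩ := hu
  refine ⟨S.constB ((u⁻¹ : Aˣ) : A), ?_⟩
  have h1 : (m : S.B) = S.constB ((m : ℕ) : A) := (map_natCast S.constB m).symm
  rw [h1, ← map_mul, ← hu, Units.mul_inv, map_one]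

/-- `k` algebraically closed: every element is an `m`-th power (`0 < m`) -/
theorem s36_exists_root_of_isAlgClosed [IsAlgClosed k] (m : ℕ) (hm : 0 < m) (c : k) :
    ∃ d : k, d ^ m = c :=
  IsAlgClosed.exists_pow_nat_eq c hm

end Abstract

section K0

variable (A : ValuationSubring Kbar) {κ : Type*} [Field κ]
  [Algebra (IsLocalRing.ResidueField A) κ] {F : Type*} [Field F] [Algebra (k0Field A) F]

/-- the same over `A0 = k0Val A` -/
theorem s36_k0_exists_natCast_inv (q : ℕ) (hq : q.Prime) (hA : A.LiesOverPrime q)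
    (S : NodeSetup (k0Val A) (k0Res A) κ F) (m : ℕ)
    (hmk : (m : IsLocalRing.ResidueField A) ≠ 0) : ∃ mi : S.B, (m : S.B) * mi = 1 :=
  s36_exists_natCast_inv S (vsurj_k0Res_surjective q hq hA) m hmk

end K0

end Fermat.Agent.S36lib
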