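/-
Item 83 (S36), CRUX, piece P6 (helper6): INTEGRALITY of the expansion at a cusp, abstract form.

Setting of `S36lib/TubeDict.lean`: `𝒜` a UFD (`A₁[[X]]`), `ι : 𝒜 → L` injective into a field,
`E : F → L` the expansion of the function field `F / K` with `E(F) ⊂ Frac 𝒜`; `ϖ`, `T` prime
elements of `𝒜` (the uniformiser of `A₁` and the variable `X`); `h ∈ F` a function with
`E h = unit · T ^ k` (`h = 1/j`: it vanishes exactly at the cusps).

`s36_tube_int`: let `z ∈ F` be regular at all places where `h` has order `0` (the non-cuspidal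
places), `ϖ`-integral (`z` lies in the ball), with pole order `≤ n` at `T`.  Then
`E z · T ^ n ∈ ι(𝒜)`.

Proof: `E z · T ^ n = a T ^ n / b`; for every prime element `p` of `𝒜` the `p`-adic order of
`a T ^ n / b` is `≥ 0`: for `p ~ ϖ` and `p ~ T` by hypothesis, for the other `p` because the
valuation induced on `F` is trivial or `e · ord_P` for a place `P` with `ord_P h = 0`
(dictionary of `TubeDict`).  Hence `b ∣ a T ^ n` (UFD).
Complete proofs.  Mathlib + `S36lib/TubeDict`.
-/
import Mathlib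
import Fermat.Agent.S36lib.TubeDict

set_option autoImplicit false

noncomputable section

namespace Fermat.Agent.S36lib

open AlgebraicCurve WithZero Fermat.Agent.S24lib

section UFD

variable {𝒜 : Type*} [CommRing 𝒜] [IsDomain 𝒜] [UniqueFactorizationMonoid 𝒜]

/-- in a UFD, `b ∣ c` if all prime multiplicities of `b` are `≤` those of `c` -/
theorem tbi_dvd_of_multiplicity_le (b c : 𝒜) (hb : b ≠ 0)
    (h : ∀ p : 𝒜, Prime p → p ∣ b → multiplicity p b ≤ multiplicity p c) : b ∣ c := by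
  revert hb h
  refine UniqueFactorizationMonoid.induction_on_coprime
    (P := fun b : 𝒜 => b ≠ 0 →
      (∀ p : 𝒜, Prime p → p ∣ b → multiplicity p b ≤ multiplicity p c) → b ∣ c) b ?_ ?_ ?_ ?_
  · intro h0
    exact absurd rfl h0
  · intro x hx _ _
    exact hx.dvd
  · intro p i hp _ h
    by_cases hi : i = 0
    · rw [hi, pow_zero]
      exact one_dvd c
    have h1 := h p hp (dvd_pow_self p hi)
    rw [multiplicity_pow_self_of_prime hp] at h1
    exact pow_dvd_of_le_multiplicity h1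
  · intro x y hxy hx hy hxy0 h
    have hx0 : x ≠ 0 := left_ne_zero_of_mul hxy0
    have hy0 : y ≠ 0 := right_ne_zero_of_mul hxy0
    have hx' : x ∣ c := by
      refine hx hx0 fun p hp hpx => ?_
      have h1 := h p hp (Dvd.dvd.mul_right hpx y)
      rw [multiplicity_mul hp (FiniteMultiplicity.of_prime_left hp hxy0)] at h1
      omega
    have hy' : y ∣ c := by
      refine hy hy0 fun p hp hpy => ?_
      have h1 := h p hp (Dvd.dvd.mul_left hpy x)
      rw [multiplicity_mul hp (FiniteMultiplicity.of_prime_left hp hxy0)] at h1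
      omega
    exact hxy.mul_dvd hx' hy'

end UFD

section TubeInt

variable {𝒜 F L K : Type*} [CommRing 𝒜] [IsDomain 𝒜] [UniqueFactorizationMonoid 𝒜]
  [Field F] [Field L] [Field K] [Algebra K F]

/-- the order induced by a prime `p` is `≥ 0` on the functions which are regular at the places
where `h` has order `0`, if `E h` is prime to `p` -/
theorem tbi_tbOrd_nonneg (ι : 𝒜 →+* L) (hι : Function.Injective ι) (E : F →+* L)
    (hfrac : ∀ g : F, ∃ a b : 𝒜, b ≠ 0 ∧ E g * ι b = ι a)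
    (p : 𝒜) (hp : Prime p)
    (hK : ∀ c : K, ∃ a b : 𝒜, ¬ p ∣ b ∧ E (algebraMap K F c) * ι b = ι a)
    (h : F) (hh : h ≠ 0) (g : 𝒜) (hg : ¬ p ∣ g) (hEh : E h = ι g)
    (z : F) (hz : z ≠ 0) (hreg : ∀ P : Place K F, P.ord h = 0 → 0 ≤ P.ord z) :
    0 ≤ tbOrd ι E p hfrac z := by
  have hKw : ∀ c : K, tbVal hι hp hfrac (algebraMap K F c) ≤ 1 := by
    intro c
    by_cases hc : algebraMap K F c = 0
    · rw [hc, map_zero]
      exact zero_le
    obtain ⟨a, b, hpb, hab⟩ := hK c
    have hb : b ≠ 0 := fun h => hpb (h ▸ dvd_zero p)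
    rw [tbVal_apply hι hp hfrac hc, ← exp_zero, exp_le_exp, tbOrd_eq hι hp hfrac hc hb hab,
      multiplicity_eq_zero.mpr hpb]
    simp
  have h2 : tbOrd ι E p hfrac h = 0 := by
    rw [tbOrd_eq hι hp hfrac hh (a := g) (b := 1) one_ne_zero (by rw [map_one, mul_one, hEh]),
      multiplicity_eq_zero.mpr hg, multiplicity_eq_zero.mpr hp.not_dvd_one]
    simp
  by_cases hnt : ∃ f : F, 1 < tbVal hι hp hfrac f
  · obtain ⟨e, he0, he⟩ := ffExists_index (ffPlaceOfVal (tbVal hι hp hfrac) hKw hnt)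
      (tbVal hι hp hfrac) rfl
    have h1 := he h hh
    rw [log_tbVal hι hp hfrac hh, h2] at h1
    have he0' : (e : ℤ) ≠ 0 := by exact_mod_cast he0.ne'
    have hP0 : (ffPlaceOfVal (tbVal hι hp hfrac) hKw hnt).ord h = 0 := by
      rcases mul_eq_zero.mp h1.symm with h3 | h3
      · exact absurd h3 he0'
      · exact h3
    have h3 := he z hz
    rw [log_tbVal hι hp hfrac hz] at h3
    rw [h3]
    exact mul_nonneg (Int.natCast_nonneg e) (hreg _ hP0)
  · have h1 : ¬ 1 < tbVal hι hp hfrac z := fun h => hnt ⟨_, h⟩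
    rw [not_lt, tbVal_apply hι hp hfrac hz, ← exp_zero, exp_le_exp] at h1
    omega

/-- **P6, abstract form: integrality of the expansion at a cusp.** -/
theorem s36_tube_int (ι : 𝒜 →+* L) (hι : Function.Injective ι) (E : F →+* L)
    (hfrac : ∀ g : F, ∃ a b : 𝒜, b ≠ 0 ∧ E g * ι b = ι a)
    (ϖ T : 𝒜) (hϖ : Prime ϖ) (hT : Prime T)
    (hK : ∀ c : K, ∃ (a : 𝒜) (n : ℕ), E (algebraMap K F c) * ι (ϖ ^ n) = ι a)
    (h : F) (w : 𝒜) (hw : IsUnit w) (k : ℕ) (hEh : E h = ι (w * T ^ k))
    (z : F) (n : ℕ)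
    (hreg : ∀ P : Place K F, P.ord h = 0 → 0 ≤ P.ord z)
    (hzϖ : ∃ a b : 𝒜, ¬ ϖ ∣ b ∧ E z * ι b = ι a)
    (hzT : ∃ a b : 𝒜, ¬ T ∣ b ∧ E z * ι (T ^ n) * ι b = ι a) :
    ∃ Z : 𝒜, E z * ι (T ^ n) = ι Z := by
  classical
  by_cases hz : z = 0
  · exact ⟨0, by rw [hz, map_zero, zero_mul, map_zero]⟩
  obtain ⟨a, b, hb, hab⟩ := hfrac z
  have ha : a ≠ 0 := tb_ne_zero_of_rep hι hz hb hab
  have hT0 : T ≠ 0 := hT.ne_zero
  have hc0 : a * T ^ n ≠ 0 := mul_ne_zero ha (pow_ne_zero _ hT0)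
  have hh0 : h ≠ 0 := by
    intro h0
    rw [h0, map_zero] at hEh
    have h1 : w * T ^ k = 0 := hι (by rw [← hEh, map_zero])
    exact (mul_ne_zero hw.ne_zero (pow_ne_zero _ hT0)) h1
  have hmult : ∀ p : 𝒜, Prime p → p ∣ b → multiplicity p b ≤ multiplicity p (a * T ^ n) := by
    intro p hp _
    have hord : tbOrd ι E p hfrac z = (multiplicity p a : ℤ) - multiplicity p b :=
      tbOrd_eq hι hp hfrac hz hb hab
    have hgoal : 0 ≤ tbOrd ι E p hfrac z + ((n * multiplicity p T : ℕ) : ℤ) := by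
      by_cases hpϖ : Associated p ϖ
      · obtain ⟨a', b', hb', hab'⟩ := hzϖ
        have hpb' : ¬ p ∣ b' := fun hd => hb' (hpϖ.symm.dvd.trans hd)
        have hb'0 : b' ≠ 0 := fun h0 => hpb' (h0 ▸ dvd_zero p)
        rw [tbOrd_eq hι hp hfrac hz hb'0 hab', multiplicity_eq_zero.mpr hpb']
        have h1 : (0 : ℤ) ≤ (multiplicity p a' : ℤ) := Int.natCast_nonneg _
        have h2 : (0 : ℤ) ≤ ((n * multiplicity p T : ℕ) : ℤ) := Int.natCast_nonneg _
        simp only [Nat.cast_zero, sub_zero]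
        exact add_nonneg h1 h2
      by_cases hpT : Associated p T
      · obtain ⟨a', b', hb', hab'⟩ := hzT
        have hpb' : ¬ p ∣ b' := fun hd => hb' (hpT.symm.dvd.trans hd)
        have hb'0 : b' ≠ 0 := fun h0 => hpb' (h0 ▸ dvd_zero p)
        have hrep : E z * ι (T ^ n * b') = ι a' := by
          rw [map_mul, ← mul_assoc]
          exact hab'
        have hTb : T ^ n * b' ≠ 0 := mul_ne_zero (pow_ne_zero _ hT0) hb'0
        rw [tbOrd_eq hι hp hfrac hz hTb hrep,
          multiplicity_mul hp (FiniteMultiplicity.of_prime_left hp hTb),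
          FiniteMultiplicity.multiplicity_pow hp (FiniteMultiplicity.of_prime_left hp hT0),
          multiplicity_eq_zero.mpr hpb']
        have h1 : (0 : ℤ) ≤ (multiplicity p a' : ℤ) := Int.natCast_nonneg _
        push_cast
        linarith
      · have hpϖ' : ¬ p ∣ ϖ := fun hd =>
          hpϖ (hp.irreducible.associated_of_dvd hϖ.irreducible hd)
        have hpT' : ¬ p ∣ T := fun hd =>
          hpT (hp.irreducible.associated_of_dvd hT.irreducible hd)
        have hK' : ∀ c : K, ∃ a b : 𝒜, ¬ p ∣ b ∧ E (algebraMap K F c) * ι b = ι a := by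
          intro c
          obtain ⟨a, n, h⟩ := hK c
          exact ⟨a, ϖ ^ n, fun hd => hpϖ' (hp.dvd_of_dvd_pow hd), h⟩
        have hpg : ¬ p ∣ w * T ^ k := by
          intro hd
          rcases hp.dvd_or_dvd hd with h3 | h3
          · exact hp.not_isUnit (isUnit_of_dvd_unit h3 hw)
          · exact hpT' (hp.dvd_of_dvd_pow h3)
        have h1 := tbi_tbOrd_nonneg ι hι E hfrac p hp hK' h hh0 (w * T ^ k) hpg hEh z hz hreg
        have h2 : (0 : ℤ) ≤ ((n * multiplicity p T : ℕ) : ℤ) := Int.natCast_nonneg _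
        exact add_nonneg h1 h2
    rw [multiplicity_mul hp (FiniteMultiplicity.of_prime_left hp hc0),
      FiniteMultiplicity.multiplicity_pow hp (FiniteMultiplicity.of_prime_left hp hT0)]
    rw [hord] at hgoal
    have h3 : (multiplicity p b : ℤ) ≤ ((multiplicity p a + n * multiplicity p T : ℕ) : ℤ) := by
      push_cast at hgoal ⊢
      linarith
    exact_mod_cast h3
  obtain ⟨Z, hZ⟩ := tbi_dvd_of_multiplicity_le b (a * T ^ n) hb hmult
  refine ⟨Z, ?_⟩
  have hb' : ι b ≠ 0 := fun h0 => hb (hι (by rw [h0, map_zero]))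
  apply mul_right_cancel₀ hb'
  calc E z * ι (T ^ n) * ι b = (E z * ι b) * ι (T ^ n) := by ring
    _ = ι a * ι (T ^ n) := by rw [hab]
    _ = ι (a * T ^ n) := by rw [map_mul]
    _ = ι (b * Z) := by rw [hZ]
    _ = ι Z * ι b := by rw [map_mul, mul_comm]

end TubeInt

end Fermat.Agent.S36lib

end
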