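/-
Item 83 (S36), CRUX, piece P6 (helper6): INTEGRALITY of the expansion at a cusp, for
`𝒜 = A₁[[X]]` and `ι = tovIota φ : A₁[[X]] → K((X))` (`S36lib/TubeOV.lean`, helper4).

* `tbi_hzT`         : the pole order at `X` (from `ClPole n (E z)` and a fraction representation);
* `s36_tube_int_ps` : **P6 at one cusp**: `z` a fraction of power series over `A₁` (`hfrac`),
  in the Gauss ball (`hball`, = `tov_ball_inf/comap/mid`), with `ClPole n (E z)`, regular at the
  places where `h` (`= 1/j`, `E h = unit · X ^ k`) has order `0`.  Then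
  `E z · X ^ n = tovIota φ Z` with `Z ∈ A₁[[X]]`;
* `s36_tube_int_coeff` : hence all coefficients of `E z` lie in the image of `A₁`.
The conclusion has the shape of the hypotheses `hG`, `hZ` of `s36_tube_family` and `hZ` of
`s36_tube_le_P` (`S36lib/TubeFinal.lean`).
Complete proofs.
-/
import Mathlib
import Fermat.Agent.S36lib.TubeInt
import Fermat.Agent.S36lib.TubeOV

set_option autoImplicit false
set_option linter.unusedSectionVars false

noncomputable section

namespace Fermat.Agent.S36lib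

open ModularCurve AlgebraicCurve
open Fermat.Agent.S24lib Fermat.Agent.S34lib Fermat.Agent.GoodRed

section PS

variable {A1 : Type*} [CommRing A1] [IsDomain A1]
variable {K : Type*} [Field K] {A : ValuationSubring K}

theorem tbi_tovIota_coeff (φ : A1 →+* A) (f : PowerSeries A1) (j : ℕ) :
    (tovIota (K := K) φ f).coeff (j : ℤ) = ((φ (PowerSeries.coeff j f) : A) : K) := by
  rw [tovIota_apply, coeffMap_coeff, tovIncl_coeff]
  rfl

theorem tbi_tovIota_coeff_neg (φ : A1 →+* A) (f : PowerSeries A1) {i : ℤ} (hi : i < 0) :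
    (tovIota (K := K) φ f).coeff i = 0 := by
  rw [tovIota_apply, coeffMap_coeff]
  have h : (tovIncl φ f).coeff i = 0 := by
    show (HahnSeries.ofPowerSeries ℤ A (PowerSeries.map φ f)).coeff i = 0
    exact tube_ofPS_coeff_neg _ hi
  rw [h, map_zero]

theorem tbi_tovIota_X_pow (φ : A1 →+* A) (n : ℕ) :
    tovIota (K := K) φ (PowerSeries.X ^ n) = HahnSeries.single (n : ℤ) 1 := by
  rw [tovIota_apply]
  have h : tovIncl φ (PowerSeries.X ^ n) = HahnSeries.single (n : ℤ) 1 := by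
    show HahnSeries.ofPowerSeries ℤ A (PowerSeries.map φ (PowerSeries.X ^ n)) = _
    rw [map_pow, PowerSeries.map_X]
    exact HahnSeries.ofPowerSeries_X_pow n
  rw [h]
  ext i
  rw [coeffMap_coeff, HahnSeries.coeff_single, HahnSeries.coeff_single]
  split_ifs
  · exact map_one _
  · exact map_zero _

/-- **the pole order at `X`**: if `E z` has pole order `≤ n`, then `E z · X ^ n = a / b` with
`X ∤ b`. -/
theorem tbi_hzT (φ : A1 →+* A) (hφi : Function.Injective φ) (s : LaurentSeries K) (n : ℕ)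
    (hs : ClPole n s)
    (hfrac : ∃ a b : PowerSeries A1, b ≠ 0 ∧ s * tovIota φ b = tovIota φ a) :
    ∃ a b : PowerSeries A1, ¬ PowerSeries.X ∣ b ∧
      s * tovIota φ (PowerSeries.X ^ n) * tovIota φ b = tovIota φ a := by
  obtain ⟨a₀, b₀, hb₀, hab⟩ := hfrac
  set β : ℕ := b₀.order.toNat with hβ
  set b₁ : PowerSeries A1 := PowerSeries.divXPowOrder b₀ with hb₁
  have hb₀eq : PowerSeries.X ^ β * b₁ = b₀ := PowerSeries.X_pow_order_mul_divXPowOrder
  have hXb₁ : ¬ PowerSeries.X ∣ b₁ := by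
    rw [PowerSeries.X_dvd_iff, PowerSeries.constantCoeff_divXPowOrder_eq_zero_iff]
    exact hb₀
  -- `t := s X^n b₁` has no polar part
  set t : LaurentSeries K := s * tovIota φ (PowerSeries.X ^ n) * tovIota φ b₁ with ht
  have ht0 : ∀ i : ℤ, i < 0 → t.coeff i = 0 := by
    have h1 : ∀ i : ℤ, i < 0 → (s * tovIota φ (PowerSeries.X ^ n)).coeff i = 0 := by
      intro i hi
      rw [tbi_tovIota_X_pow]
      have e : i = (i - n) + (n : ℤ) := by ring
      rw [e, HahnSeries.coeff_mul_single_add, mul_one]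
      exact hs _ (by omega)
    have h2 : ClPole 0 (s * tovIota φ (PowerSeries.X ^ n)) := fun i hi => h1 i (by simpa using hi)
    have h3 : ClPole 0 (tovIota (K := K) φ b₁) :=
      fun i hi => tbi_tovIota_coeff_neg φ b₁ (by simpa using hi)
    have h4 := clPole_mul h2 h3
    intro i hi
    exact h4 i (by simpa using hi)
  -- `t X^β = ι (a₀ X^n)`
  have hkey : t * tovIota φ (PowerSeries.X ^ β) = tovIota φ (a₀ * PowerSeries.X ^ n) := by
    rw [ht, map_mul, ← hab, ← hb₀eq, map_mul]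
    ring
  -- `X^β ∣ a₀ X^n`
  have hdvd : PowerSeries.X ^ β ∣ a₀ * PowerSeries.X ^ n := by
    rw [PowerSeries.X_pow_dvd_iff]
    intro j hj
    have h1 : (tovIota (K := K) φ (a₀ * PowerSeries.X ^ n)).coeff (j : ℤ) = 0 := by
      rw [← hkey, tbi_tovIota_X_pow]
      have e : (j : ℤ) = ((j : ℤ) - β) + (β : ℤ) := by ring
      rw [e, HahnSeries.coeff_mul_single_add, mul_one]
      exact ht0 _ (by omega)
    rw [tbi_tovIota_coeff] at h1
    have h2 : φ (PowerSeries.coeff j (a₀ * PowerSeries.X ^ n)) = 0 := Subtype.ext h1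
    exact hφi (by rw [h2, map_zero])
  obtain ⟨a₁, ha₁⟩ := hdvd
  refine ⟨a₁, b₁, hXb₁, ?_⟩
  have hXβ : tovIota (K := K) φ (PowerSeries.X ^ β) ≠ 0 := by
    rw [tbi_tovIota_X_pow]
    exact HahnSeries.single_ne_zero one_ne_zero
  apply mul_right_cancel₀ hXβ
  show t * tovIota φ (PowerSeries.X ^ β) = _
  rw [hkey, ha₁, map_mul, mul_comm]

variable [IsDiscreteValuationRing A1]

/-- **P6 at one cusp.** -/
theorem s36_tube_int_ps (φ : A1 →+* A) (hφi : Function.Injective φ)
    {ϖ : A1} (hϖ : Irreducible ϖ)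
    (hφ : ∀ c : A1, IsLocalRing.residue A (φ c) = 0 ↔ ϖ ∣ c)
    {F K0 : Type*} [Field F] [Field K0] [Algebra K0 F] (E : F →+* LaurentSeries K)
    (hfrac : ∀ g : F, ∃ a b : PowerSeries A1, b ≠ 0 ∧ E g * tovIota φ b = tovIota φ a)
    (hK : ∀ c : K0, ∃ (a : PowerSeries A1) (n : ℕ),
      E (algebraMap K0 F c) * tovIota φ (PowerSeries.C ϖ ^ n) = tovIota φ a)
    (h : F) (w : PowerSeries A1) (hw : IsUnit w) (k : ℕ)
    (hEh : E h = tovIota φ (w * PowerSeries.X ^ k))
    (z : F) (n : ℕ) (hreg : ∀ P : Place K0 F, P.ord h = 0 → 0 ≤ P.ord z)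
    (hball : ∃ a₂ b₂ : LaurentSeries A, coeffMap (IsLocalRing.residue A) b₂ ≠ 0 ∧
      E z * coeffMap A.subtype b₂ = coeffMap A.subtype a₂)
    (hpole : ClPole n (E z)) :
    ∃ Z : PowerSeries A1, E z * tovIota φ (PowerSeries.X ^ n) = tovIota φ Z := by
  have hpϖ : Prime (PowerSeries.C ϖ : PowerSeries A1) :=
    UniqueFactorizationMonoid.irreducible_iff_prime.mp (tb_irreducible_C hϖ)
  exact s36_tube_int (K := K0) (tovIota φ) (tovIota_injective φ hφi) E hfrac (PowerSeries.C ϖ)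
    PowerSeries.X hpϖ PowerSeries.X_prime hK h w hw k hEh z n hreg
    (tov_hOV φ hφi hϖ hφ (E z) (hfrac z) hball) (tbi_hzT φ hφi (E z) n hpole (hfrac z))

/-- **P6 at one cusp, coefficients**: all coefficients of `E z` lie in the image of `A₁`. -/
theorem s36_tube_int_coeff (φ : A1 →+* A) (hφi : Function.Injective φ)
    {ϖ : A1} (hϖ : Irreducible ϖ)
    (hφ : ∀ c : A1, IsLocalRing.residue A (φ c) = 0 ↔ ϖ ∣ c)
    {F K0 : Type*} [Field F] [Field K0] [Algebra K0 F] (E : F →+* LaurentSeries K)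
    (hfrac : ∀ g : F, ∃ a b : PowerSeries A1, b ≠ 0 ∧ E g * tovIota φ b = tovIota φ a)
    (hK : ∀ c : K0, ∃ (a : PowerSeries A1) (n : ℕ),
      E (algebraMap K0 F c) * tovIota φ (PowerSeries.C ϖ ^ n) = tovIota φ a)
    (h : F) (w : PowerSeries A1) (hw : IsUnit w) (k : ℕ)
    (hEh : E h = tovIota φ (w * PowerSeries.X ^ k))
    (z : F) (n : ℕ) (hreg : ∀ P : Place K0 F, P.ord h = 0 → 0 ≤ P.ord z)
    (hball : ∃ a₂ b₂ : LaurentSeries A, coeffMap (IsLocalRing.residue A) b₂ ≠ 0 ∧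
      E z * coeffMap A.subtype b₂ = coeffMap A.subtype a₂)
    (hpole : ClPole n (E z)) (i : ℤ) :
    ∃ c : A1, (E z).coeff i = ((φ c : A) : K) := by
  obtain ⟨Z, hZ⟩ := s36_tube_int_ps φ hφi hϖ hφ E hfrac hK h w hw k hEh z n hreg hball hpole
  rw [tbi_tovIota_X_pow] at hZ
  have e : i = (i + n - n) := by ring
  have h1 : (E z).coeff i = (tovIota (K := K) φ Z).coeff (i + n) := by
    rw [← hZ, HahnSeries.coeff_mul_single_add, mul_one]
  rw [h1]
  rcases lt_or_ge (i + n) 0 with hneg | hpos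
  · exact ⟨0, by rw [tbi_tovIota_coeff_neg φ Z hneg, map_zero]; rfl⟩
  · obtain ⟨j, hj⟩ := Int.eq_ofNat_of_zero_le hpos
    exact ⟨PowerSeries.coeff j Z, by rw [hj, tbi_tovIota_coeff]⟩

end PS

end Fermat.Agent.S36lib

end
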