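/-
Item 83 (S36), TUBE chain, inputs `hreg` and `hdvd` at the `K0`-level (helper15).
No incomplete proof in this file.

* `tbr_ord_jF_inf/_mid/_zero` : the pole orders `-1, -1, -q²` of `j` at the cusps `∞, mid_ζ, 0`
  of level `M' q²`; `tbr_ord_jF_ne_zero` : `j` has a pole at every point of `D₁`;
* `tbr_hreg_bar` : `z ∈ L(c D₁)`, `P` a place of `FF (M' q²)` with `ord_P (1/j) = 0`
  ⟹ `0 ≤ ord_P z`;
* **`tbr_hreg`** : the same for the places `P0` of `F0 / K0` (= hypothesis `hreg` of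
  `s36_tube_int(_ps)`), via `pd_exists_place_FF` (helper27: constant extensions are unramified);
* **`tbr_hdvd`** : `m ∣ ord_P u` for all places of `FF` ⟹ `m ∣ ord_P0 u` for all places of
  `F0 / K0` (= hypothesis `hdvd` of `s36_tube_final` / `s36_tube_family`);
* `tbr_hreg_of_regular` : `hreg` for any `z ∈ F0` regular off `D₁`.
-/
import Mathlib
import Fermat.Agent.S36lib.FibreD1
import Fermat.Agent.S36lib.PlaceDictFF

set_option autoImplicit false
set_option linter.unusedSectionVars false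
set_option linter.unusedVariables false
set_option linter.unusedDecidableInType false

noncomputable section

namespace Fermat.Agent.S36lib

open AlgebraicCurve ModularCurve HahnSeries
open Fermat.Agent.S24lib Fermat.Agent.S34lib Fermat.Agent.S37lib Fermat.Agent.HeckeBar
open Fermat.Agent.S35lib

section Reg

variable (M' q : ℕ) [NeZero M'] [NeZero q] (hq : q.Prime) (hqM : ¬ q ∣ M')

/-- `j` of level `M' q²` is `π₁ j'` -/
theorem tbr_jF_eq : jF (M' * q * q) = ecPi1 M' q (jF M') := by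
  apply Subtype.ext
  rw [ecPi1_apply, coe_heckeAlphaBar, coe_heckeAlphaBar]
  rfl

theorem tbr_ord_jF_inf : (infPlaceBar (M' * q * q)).ord (jF (M' * q * q)) = -1 := by
  rw [infPlaceBar_ord]
  exact fbm_order_jF (M' * q * q)

theorem tbr_ord_jF_mid (ζ : Kbarˣ) (hζ : IsPrimitiveRoot (ζ : Kbar) q) :
    (midPlace M' q hq hqM ζ hζ).ord (jF (M' * q * q)) = -1 := by
  rw [midPlace_ord, tbr_jF_eq, ecMid_pi1]
  exact fbm_order_jF M'

theorem tbr_ord_jF_zero :
    (fbmZero M' q hq hqM).ord (jF (M' * q * q)) = -((q : ℤ) * (q : ℤ)) := by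
  rw [fbmZero_ord, tbr_jF_eq, ecZero_pi1, inf_order_qExpand, inf_order_qExpand, fbm_order_jF]
  ring

variable (ζ₀ : Kbarˣ) (hζ₀ : IsPrimitiveRoot (ζ₀ : Kbar) q)

/-- `j` has a pole at every point of `D₁` -/
theorem tbr_ord_jF_neg (P : Place Kbar (FF (M' * q * q)))
    (hP : fbmD1 M' q hq hqM ζ₀ hζ₀ P ≠ 0) : P.ord (jF (M' * q * q)) < 0 := by
  rcases (fbmD1_ne_zero_iff M' q hq hqM ζ₀ hζ₀ P).mp hP with h | h | ⟨i, h⟩
  · rw [h, tbr_ord_jF_inf]; norm_num
  · rw [h, tbr_ord_jF_zero]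
    have : (0 : ℤ) < (q : ℤ) := by exact_mod_cast hq.pos
    nlinarith
  · rw [h, fbmMid, tbr_ord_jF_mid]; norm_num

theorem tbr_ord_jF_ne_zero (P : Place Kbar (FF (M' * q * q)))
    (hP : fbmD1 M' q hq hqM ζ₀ hζ₀ P ≠ 0) : P.ord (jF (M' * q * q))⁻¹ ≠ 0 := by
  rw [Place.ord_inv]
  have := tbr_ord_jF_neg M' q hq hqM ζ₀ hζ₀ P hP
  omega

/-- a place where `1/j` has order `0` is off `D₁` -/
theorem tbr_off_of_ord (P : Place Kbar (FF (M' * q * q)))
    (hP : P.ord (jF (M' * q * q))⁻¹ = 0) : fbmD1 M' q hq hqM ζ₀ hζ₀ P = 0 := by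
  by_contra h
  exact tbr_ord_jF_ne_zero M' q hq hqM ζ₀ hζ₀ P h hP

/-- `hreg` over `ℚ̄` -/
theorem tbr_hreg_bar {c : ℕ} {z : FF (M' * q * q)}
    (hz : z ∈ riemannRochSpace (K := Kbar) (c • fbmD1 M' q hq hqM ζ₀ hζ₀))
    (P : Place Kbar (FF (M' * q * q))) (hP : P.ord (jF (M' * q * q))⁻¹ = 0) :
    0 ≤ P.ord z := by
  have h0 := tbr_off_of_ord M' q hq hqM ζ₀ hζ₀ P hP
  rcases mem_riemannRochSpace_iff.mp hz P with rfl | h
  · rw [Place.ord_zero]
  · rwa [fbmD1_nsmul_apply, h0, mul_zero, neg_zero] at h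

/-- `hreg` over `ℚ̄` for a function regular off `D₁` -/
theorem tbr_hreg_bar_of_regular {z : FF (M' * q * q)}
    (hz : ∀ P : Place Kbar (FF (M' * q * q)), fbmD1 M' q hq hqM ζ₀ hζ₀ P = 0 → 0 ≤ P.ord z)
    (P : Place Kbar (FF (M' * q * q))) (hP : P.ord (jF (M' * q * q))⁻¹ = 0) :
    0 ≤ P.ord z :=
  hz P (tbr_off_of_ord M' q hq hqM ζ₀ hζ₀ P hP)

variable (A : ValuationSubring Kbar)

/-- **`hreg`** at the `K0`-level, for `z ∈ F0` regular off `D₁` -/
theorem tbr_hreg_of_regular (z h : f0Field A (M' * q * q))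
    (hh : (h : FF (M' * q * q)) = (jF (M' * q * q))⁻¹)
    (hz : ∀ P : Place Kbar (FF (M' * q * q)), fbmD1 M' q hq hqM ζ₀ hζ₀ P = 0 →
      0 ≤ P.ord (z : FF (M' * q * q)))
    (P0 : Place (k0Field A) (f0Field A (M' * q * q))) (hP0 : P0.ord h = 0) :
    0 ≤ P0.ord z := by
  obtain ⟨P, hP⟩ := pd_exists_place_FF A (M' * q * q) P0
  rw [← hP z]
  apply tbr_hreg_bar_of_regular M' q hq hqM ζ₀ hζ₀ hz P
  rw [← hh, hP h, hP0]

/-- **`hreg`** at the `K0`-level, for `z ∈ F0 ∩ L(c D₁)` -/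
theorem tbr_hreg {c : ℕ} (z h : f0Field A (M' * q * q))
    (hh : (h : FF (M' * q * q)) = (jF (M' * q * q))⁻¹)
    (hz : (z : FF (M' * q * q)) ∈ riemannRochSpace (K := Kbar) (c • fbmD1 M' q hq hqM ζ₀ hζ₀))
    (P0 : Place (k0Field A) (f0Field A (M' * q * q))) (hP0 : P0.ord h = 0) :
    0 ≤ P0.ord z := by
  obtain ⟨P, hP⟩ := pd_exists_place_FF A (M' * q * q) P0
  rw [← hP z]
  apply tbr_hreg_bar M' q hq hqM ζ₀ hζ₀ hz P
  rw [← hh, hP h, hP0]

end Reg

section Dvd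

variable (A : ValuationSubring Kbar) (L : ℕ) [NeZero L]

/-- **`hdvd`** at the `K0`-level -/
theorem tbr_hdvd (m : ℕ) (u : f0Field A L)
    (hu : ∀ P : Place Kbar (FF L), (m : ℤ) ∣ P.ord (u : FF L))
    (P0 : Place (k0Field A) (f0Field A L)) : (m : ℤ) ∣ P0.ord u := by
  obtain ⟨P, hP⟩ := pd_exists_place_FF A L P0
  rw [← hP u]
  exact hu P

/-- transfer of an order equality to the `K0`-level -/
theorem tbr_ord_eq (x y : f0Field A L)
    (h : ∀ P : Place Kbar (FF L), P.ord (x : FF L) = P.ord (y : FF L))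
    (P0 : Place (k0Field A) (f0Field A L)) : P0.ord x = P0.ord y := by
  obtain ⟨P, hP⟩ := pd_exists_place_FF A L P0
  rw [← hP x, ← hP y]
  exact h P

/-- transfer of regularity to the `K0`-level -/
theorem tbr_ord_nonneg (x : f0Field A L)
    (h : ∀ P : Place Kbar (FF L), 0 ≤ P.ord (x : FF L))
    (P0 : Place (k0Field A) (f0Field A L)) : 0 ≤ P0.ord x := by
  obtain ⟨P, hP⟩ := pd_exists_place_FF A L P0
  rw [← hP x]
  exact h P

end Dvd

end Fermat.Agent.S36lib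

end
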