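/-
Item 83 (S36), piece C-4, part C4-4b (helper17): the COORDINATE MAPS of
`Λ₁ = A ∩ K0(ζ) = ⊕_{a<q-1} A0 ζ^a`, typed in `A0 = k0Val A`.  No sorry.

* `zsCo A q ζ x a : k0Val A` — the `a`-th coordinate of `x` (`0` if `x ∉ Λ₁`);
* `zsCo_spec`, `zsCo_eq_of_eq` (uniqueness), `zsCo_add`, `zsCo_mul_left` (`A0`-linearity),
  `zsCo_zeta_pow` (`= δ`), `zsCo_coe` (constants);
* `zsCo_mem_maximalIdeal_iff` : all coordinates of `x` are in `q A0` iff `v x ≤ v q`
  (`Λ₁ / q Λ₁ = k^(q-1)` injects into `A / q A`).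
-/
import Mathlib
import Fermat.Agent.S36lib.ZetaSpan

set_option autoImplicit false

noncomputable section

namespace Fermat.Agent.S36lib

open Finset Polynomial

variable (A : ValuationSubring (AlgebraicClosure ℚ)) (q : ℕ)

/-- the `a`-th coordinate of `x ∈ Λ₁` in the basis `1, ζ, …, ζ^(q-2)` over `A0` -/
def zsCo (ζ : AlgebraicClosure ℚ) (x : AlgebraicClosure ℚ) (a : ℕ) : k0Val A :=
  open Classical in
  if h : ZsLam A q ζ x then
    ⟨⟨Classical.choose h a, ((Classical.choose_spec h).1 a).2⟩, ((Classical.choose_spec h).1 a).1⟩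
  else 0

variable {A q}

theorem zsCo_spec {ζ x : AlgebraicClosure ℚ} (hx : ZsLam A q ζ x) :
    x = ∑ a ∈ range (q - 1), (((zsCo A q ζ x a : k0Val A) : k0Field A) : AlgebraicClosure ℚ) * ζ ^ a := by
  have h := (Classical.choose_spec hx).2
  conv_lhs => rw [h]
  refine Finset.sum_congr rfl fun a _ => ?_
  rw [zsCo, dif_pos hx]

variable (hq : q.Prime) (hA : A.LiesOverPrime q) {ζ : AlgebraicClosure ℚ}
  (hζ : IsPrimitiveRoot ζ q)

include hq hA hζ in
/-- uniqueness of the coordinates -/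
theorem zsCo_eq_of_eq {x : AlgebraicClosure ℚ} (c : ℕ → k0Val A)
    (h : x = ∑ a ∈ range (q - 1), (((c a : k0Val A) : k0Field A) : AlgebraicClosure ℚ) * ζ ^ a) :
    ∀ a, a < q - 1 → zsCo A q ζ x a = c a := by
  have hx : ZsLam A q ζ x :=
    ⟨fun a => (((c a : k0Val A) : k0Field A) : AlgebraicClosure ℚ),
      fun a => ⟨(c a).2, (c a : k0Field A).2⟩, h⟩
  intro a ha
  have h1 := zs_coeff_unique A q hq hA hζ
    (fun a => (((zsCo A q ζ x a : k0Val A) : k0Field A) : AlgebraicClosure ℚ))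
    (fun a => (((c a : k0Val A) : k0Field A) : AlgebraicClosure ℚ))
    (fun a => (zsCo A q ζ x a : k0Field A).2) (fun a => (c a : k0Field A).2)
    ((zsCo_spec hx).symm.trans h) a ha
  exact Subtype.ext (Subtype.ext h1)

include hq hA hζ in
theorem zsCo_add {x y : AlgebraicClosure ℚ} (hx : ZsLam A q ζ x) (hy : ZsLam A q ζ y) :
    ∀ a, a < q - 1 → zsCo A q ζ (x + y) a = zsCo A q ζ x a + zsCo A q ζ y a := by
  refine zsCo_eq_of_eq hq hA hζ (fun a => zsCo A q ζ x a + zsCo A q ζ y a) ?_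
  conv_lhs => rw [zsCo_spec hx, zsCo_spec hy]
  rw [← Finset.sum_add_distrib]
  refine Finset.sum_congr rfl fun a _ => ?_
  push_cast
  ring

include hq hA hζ in
theorem zsCo_mul_left (r : k0Val A) {x : AlgebraicClosure ℚ} (hx : ZsLam A q ζ x) :
    ∀ a, a < q - 1 →
      zsCo A q ζ (((r : k0Field A) : AlgebraicClosure ℚ) * x) a = r * zsCo A q ζ x a := by
  refine zsCo_eq_of_eq hq hA hζ (fun a => r * zsCo A q ζ x a) ?_
  conv_lhs => rw [zsCo_spec hx]
  rw [Finset.mul_sum]
  refine Finset.sum_congr rfl fun a _ => ?_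
  push_cast
  ring

include hq hA hζ in
theorem zsCo_neg {x : AlgebraicClosure ℚ} (hx : ZsLam A q ζ x) :
    ∀ a, a < q - 1 → zsCo A q ζ (-x) a = -zsCo A q ζ x a := by
  refine zsCo_eq_of_eq hq hA hζ (fun a => -zsCo A q ζ x a) ?_
  conv_lhs => rw [zsCo_spec hx]
  rw [← Finset.sum_neg_distrib]
  refine Finset.sum_congr rfl fun a _ => ?_
  push_cast
  ring

include hq hA hζ in
theorem zsCo_zeta_pow {b : ℕ} (hb : b < q - 1) :
    ∀ a, a < q - 1 → zsCo A q ζ (ζ ^ b) a = if a = b then 1 else 0 := by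
  refine zsCo_eq_of_eq hq hA hζ (fun a => if a = b then 1 else 0) ?_
  rw [Finset.sum_eq_single b]
  · simp
  · intro a _ hab
    simp [hab]
  · intro hb'
    exact absurd (Finset.mem_range.mpr hb) hb'

include hq hA hζ in
/-- the coordinates of a constant `r ∈ A0` -/
theorem zsCo_coe (r : k0Val A) :
    ∀ a, a < q - 1 →
      zsCo A q ζ (((r : k0Field A) : AlgebraicClosure ℚ)) a = if a = 0 then r else 0 := by
  have hq1 : 0 < q - 1 := by have := hq.two_le; omega
  refine zsCo_eq_of_eq hq hA hζ (fun a => if a = 0 then r else 0) ?_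
  rw [Finset.sum_eq_single 0]
  · simp
  · intro a _ ha0
    simp [ha0]
  · intro h0
    exact absurd (Finset.mem_range.mpr hq1) h0

include hq hA hζ in
/-- **reduction mod `q`**: all coordinates of `x ∈ Λ₁` lie in `m_{A0} = q A0` iff `q ∣ x` in `A` -/
theorem zsCo_mem_maximalIdeal_iff {x : AlgebraicClosure ℚ} (hx : ZsLam A q ζ x) :
    (∀ a, a < q - 1 → zsCo A q ζ x a ∈ IsLocalRing.maximalIdeal (k0Val A)) ↔
      A.valuation x ≤ A.valuation (q : AlgebraicClosure ℚ) := by
  have hmem : ∀ y : k0Val A, y ∈ IsLocalRing.maximalIdeal (k0Val A) ↔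
      A.valuation (((y : k0Field A) : AlgebraicClosure ℚ)) ≤ A.valuation (q : AlgebraicClosure ℚ) := by
    intro y
    rw [k0Val_maximalIdeal_eq A q hq hA, Ideal.mem_span_singleton]
    constructor
    · rintro ⟨d, rfl⟩
      push_cast
      rw [map_mul]
      calc A.valuation (q : AlgebraicClosure ℚ) * A.valuation (((d : k0Field A) : AlgebraicClosure ℚ))
          ≤ A.valuation (q : AlgebraicClosure ℚ) * 1 :=
            mul_le_mul' le_rfl ((A.valuation_le_one_iff _).mpr d.2)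
        _ = _ := mul_one _
    · intro h
      have hq0 : (q : AlgebraicClosure ℚ) ≠ 0 := by exact_mod_cast hq.ne_zero
      have hqK : (q : AlgebraicClosure ℚ) ∈ k0Field A := natCast_mem _ q
      have hdA : ((y : k0Field A) : AlgebraicClosure ℚ) * (q : AlgebraicClosure ℚ)⁻¹ ∈ A := by
        rw [← A.valuation_le_one_iff, map_mul, map_inv₀]
        have hvq0 : A.valuation (q : AlgebraicClosure ℚ) ≠ 0 := (Valuation.ne_zero_iff _).mpr hq0
        calc A.valuation (((y : k0Field A) : AlgebraicClosure ℚ)) * (A.valuation (q : AlgebraicClosure ℚ))⁻¹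
            ≤ A.valuation (q : AlgebraicClosure ℚ) * (A.valuation (q : AlgebraicClosure ℚ))⁻¹ :=
              mul_le_mul' h le_rfl
          _ = 1 := mul_inv_cancel₀ hvq0
      refine ⟨⟨⟨((y : k0Field A) : AlgebraicClosure ℚ) * (q : AlgebraicClosure ℚ)⁻¹,
        mul_mem (y : k0Field A).2 (inv_mem hqK)⟩, hdA⟩, ?_⟩
      apply Subtype.ext
      apply Subtype.ext
      push_cast
      field_simp
  constructor
  · intro h
    conv_lhs => rw [zsCo_spec hx]
    refine A.valuation.map_sum_le fun a ha => ?_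
    rw [map_mul, map_pow, zi_val_eq_one_of_pow_eq_one A.valuation hq.ne_zero hζ.pow_eq_one, one_pow,
      mul_one]
    exact (hmem _).mp (h a (Finset.mem_range.mp ha))
  · intro h a ha
    rw [hmem]
    refine zs_indep_mod_q A q hq hA hζ
      (fun a => (((zsCo A q ζ x a : k0Val A) : k0Field A) : AlgebraicClosure ℚ))
      (fun a => ⟨(zsCo A q ζ x a).2, (zsCo A q ζ x a : k0Field A).2⟩) ?_ a ha
    rw [← zsCo_spec hx]
    exact h

end Fermat.Agent.S36lib
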